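import Mathlib
import Fermat.Prelude.Def_ModularCurve_GenusNumerics

set_option autoImplicit false

open CongruenceSubgroup MatrixGroups Matrix

namespace Fermat.Agent.Lib.helper804

/-! ## Basic matrix entry computations in `SL(2, ℤ)` -/

theorem coe_mul_apply (g h : SL(2, ℤ)) (i j : Fin 2) :
    (g * h).1 i j = g.1 i 0 * h.1 0 j + g.1 i 1 * h.1 1 j := by
  have h1 : (g * h).1 = g.1 * h.1 := rfl
  rw [h1, Matrix.mul_apply, Fin.sum_univ_two]

theorem coe_inv_apply_one_zero (g : SL(2, ℤ)) : (g⁻¹).1 1 0 = - g.1 1 0 := by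
  rw [Matrix.SpecialLinearGroup.SL2_inv_expl g]; rfl

theorem coe_inv_apply_one_one (g : SL(2, ℤ)) : (g⁻¹).1 1 1 = g.1 0 0 := by
  rw [Matrix.SpecialLinearGroup.SL2_inv_expl g]; rfl

theorem inv_mul_apply_one_zero (g g' : SL(2, ℤ)) :
    (g⁻¹ * g').1 1 0 = g.1 0 0 * g'.1 1 0 - g'.1 0 0 * g.1 1 0 := by
  rw [coe_mul_apply, coe_inv_apply_one_zero, coe_inv_apply_one_one]
  ring

theorem inv_mul_mem_Gamma0_iff (N : ℕ) (g g' : SL(2, ℤ)) :
    g⁻¹ * g' ∈ Gamma0 N ↔ (N : ℤ) ∣ g.1 0 0 * g'.1 1 0 - g'.1 0 0 * g.1 1 0 := by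
  rw [Gamma0_mem]
  show (((g⁻¹ * g').1 1 0 : ℤ) : ZMod N) = 0 ↔ _
  rw [inv_mul_apply_one_zero, ZMod.intCast_zmod_eq_zero_iff_dvd]

theorem mk_eq_mk_iff (N : ℕ) (g g' : SL(2, ℤ)) :
    (QuotientGroup.mk g : SL(2, ℤ) ⧸ Gamma0 N) = QuotientGroup.mk g' ↔
      (N : ℤ) ∣ g.1 0 0 * g'.1 1 0 - g'.1 0 0 * g.1 1 0 := by
  rw [QuotientGroup.eq, inv_mul_mem_Gamma0_iff]

theorem isCoprime_col (g : SL(2, ℤ)) : IsCoprime (g.1 0 0) (g.1 1 0) := by
  have h : g.1.det = 1 := g.2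
  rw [det_fin_two] at h
  exact ⟨g.1 1 1, -g.1 0 1, by linarith⟩

/-- A matrix in `SL(2, ℤ)` with prescribed coprime first column. -/
theorem exists_col {a c : ℤ} (h : IsCoprime a c) :
    ∃ g : SL(2, ℤ), g.1 0 0 = a ∧ g.1 1 0 = c := by
  obtain ⟨u, v, huv⟩ := h
  refine ⟨⟨!![a, -v; c, u], ?_⟩, rfl, rfl⟩
  rw [det_fin_two_of]
  linarith

theorem T_zpow_mul_col (j : ℤ) (g : SL(2, ℤ)) :
    (ModularGroup.T ^ j * g).1 0 0 = g.1 0 0 + j * g.1 1 0 ∧
      (ModularGroup.T ^ j * g).1 1 0 = g.1 1 0 := by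
  have h : (ModularGroup.T ^ j).1 = !![1, j; 0, 1] := ModularGroup.coe_T_zpow j
  constructor
  · rw [coe_mul_apply, h]; simp
  · rw [coe_mul_apply, h]; simp

theorem S_mul_col (g : SL(2, ℤ)) :
    (ModularGroup.S * g).1 0 0 = - g.1 1 0 ∧ (ModularGroup.S * g).1 1 0 = g.1 0 0 := by
  have h : (ModularGroup.S).1 = !![0, -1; 1, 0] := ModularGroup.coe_S
  constructor
  · rw [coe_mul_apply, h]; simp
  · rw [coe_mul_apply, h]; simp

theorem ST_mul_col (g : SL(2, ℤ)) :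
    (ModularGroup.S * ModularGroup.T * g).1 0 0 = - g.1 1 0 ∧
      (ModularGroup.S * ModularGroup.T * g).1 1 0 = g.1 0 0 + g.1 1 0 := by
  have h := T_zpow_mul_col 1 g
  rw [zpow_one] at h
  have h2 := S_mul_col (ModularGroup.T * g)
  rw [mul_assoc]
  constructor
  · rw [h2.1, h.2]
  · rw [h2.2, h.1]; ring


/-! ## Fixed points of `S` and `S * T` on `SL(2, ℤ) ⧸ Γ₀(N)` -/

theorem smul_mk (N : ℕ) (g h : SL(2, ℤ)) :
    g • (QuotientGroup.mk h : SL(2, ℤ) ⧸ Gamma0 N) = QuotientGroup.mk (g * h) := rfl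

/-- The matrix `[[a, -1], [1, 0]]`. -/
def colMat (a : ℤ) : SL(2, ℤ) := ⟨!![a, -1; 1, 0], by rw [det_fin_two_of]; ring⟩

theorem colMat_zero_zero (a : ℤ) : (colMat a).1 0 0 = a := rfl

theorem colMat_one_zero (a : ℤ) : (colMat a).1 1 0 = 1 := rfl

theorem S_smul_mk_eq_iff (N : ℕ) (g : SL(2, ℤ)) :
    ModularGroup.S • (QuotientGroup.mk g : SL(2, ℤ) ⧸ Gamma0 N) = QuotientGroup.mk g ↔
      (N : ℤ) ∣ g.1 0 0 ^ 2 + g.1 1 0 ^ 2 := by
  rw [smul_mk, mk_eq_mk_iff, (S_mul_col g).1, (S_mul_col g).2]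
  have h : -g.1 1 0 * g.1 1 0 - g.1 0 0 * g.1 0 0 = -(g.1 0 0 ^ 2 + g.1 1 0 ^ 2) := by ring
  rw [h, dvd_neg]

theorem ST_smul_mk_eq_iff (N : ℕ) (g : SL(2, ℤ)) :
    (ModularGroup.S * ModularGroup.T) • (QuotientGroup.mk g : SL(2, ℤ) ⧸ Gamma0 N)
        = QuotientGroup.mk g ↔
      (N : ℤ) ∣ g.1 0 0 ^ 2 + g.1 0 0 * g.1 1 0 + g.1 1 0 ^ 2 := by
  rw [smul_mk, mk_eq_mk_iff, (ST_mul_col g).1, (ST_mul_col g).2]
  have h : -g.1 1 0 * g.1 1 0 - g.1 0 0 * (g.1 0 0 + g.1 1 0)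
      = -(g.1 0 0 ^ 2 + g.1 0 0 * g.1 1 0 + g.1 1 0 ^ 2) := by ring
  rw [h, dvd_neg]

theorem isCoprime_of_dvd_sq_add_sq {N : ℕ} {a c : ℤ} (h : IsCoprime a c)
    (hN : (N : ℤ) ∣ a ^ 2 + c ^ 2) : IsCoprime c (N : ℤ) := by
  obtain ⟨u, v, huv⟩ := h
  obtain ⟨k, hk⟩ := hN
  refine ⟨-u ^ 2 * c + 2 * u * v * a + v ^ 2 * c, u ^ 2 * k, ?_⟩
  have h2 : (u * a + v * c) ^ 2 = 1 := by rw [huv]; ring
  have h3 : a ^ 2 = N * k - c ^ 2 := by linarith
  calc (-u ^ 2 * c + 2 * u * v * a + v ^ 2 * c) * c + u ^ 2 * k * N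
      = u ^ 2 * (N * k - c ^ 2) + 2 * u * v * a * c + v ^ 2 * c ^ 2 := by ring
    _ = u ^ 2 * a ^ 2 + 2 * u * v * a * c + v ^ 2 * c ^ 2 := by rw [h3]
    _ = (u * a + v * c) ^ 2 := by ring
    _ = 1 := h2

theorem isCoprime_of_dvd_sq_add_mul_add_sq {N : ℕ} {a c : ℤ} (h : IsCoprime a c)
    (hN : (N : ℤ) ∣ a ^ 2 + a * c + c ^ 2) : IsCoprime c (N : ℤ) := by
  obtain ⟨u, v, huv⟩ := h
  obtain ⟨k, hk⟩ := hN
  refine ⟨-u ^ 2 * (a + c) + 2 * u * v * a + v ^ 2 * c, u ^ 2 * k, ?_⟩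
  have h2 : (u * a + v * c) ^ 2 = 1 := by rw [huv]; ring
  have h3 : a ^ 2 = N * k - c * (a + c) := by linarith
  calc (-u ^ 2 * (a + c) + 2 * u * v * a + v ^ 2 * c) * c + u ^ 2 * k * N
      = u ^ 2 * (N * k - c * (a + c)) + 2 * u * v * a * c + v ^ 2 * c ^ 2 := by ring
    _ = u ^ 2 * a ^ 2 + 2 * u * v * a * c + v ^ 2 * c ^ 2 := by rw [h3]
    _ = (u * a + v * c) ^ 2 := by ring
    _ = 1 := h2

theorem card_fixedBy_S (N : ℕ) [NeZero N] :
    Nat.card (MulAction.fixedBy (SL(2, ℤ) ⧸ Gamma0 N) ModularGroup.S) = ModularCurve.nuTwo N := by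
  unfold ModularCurve.nuTwo
  symm
  let f : {x : ZMod N // x ^ 2 + 1 = 0} → MulAction.fixedBy (SL(2, ℤ) ⧸ Gamma0 N) ModularGroup.S :=
    fun x => ⟨QuotientGroup.mk (colMat (x.1.val : ℤ)), by
      rw [MulAction.mem_fixedBy, S_smul_mk_eq_iff, colMat_zero_zero, colMat_one_zero,
        ← ZMod.intCast_zmod_eq_zero_iff_dvd]
      push_cast
      rw [ZMod.natCast_zmod_val]
      simpa using x.2⟩
  refine Nat.card_congr (Equiv.ofBijective f ⟨?_, ?_⟩)
  · intro x y hxy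
    have h := congrArg Subtype.val hxy
    simp only [f] at h
    rw [mk_eq_mk_iff, colMat_zero_zero, colMat_one_zero, colMat_zero_zero, colMat_one_zero,
      ← ZMod.intCast_zmod_eq_zero_iff_dvd] at h
    push_cast at h
    rw [ZMod.natCast_zmod_val, ZMod.natCast_zmod_val] at h
    apply Subtype.ext
    linear_combination h
  · rintro ⟨q, hq⟩
    obtain ⟨g, rfl⟩ := QuotientGroup.mk_surjective q
    rw [MulAction.mem_fixedBy, S_smul_mk_eq_iff] at hq
    have hc : IsCoprime (g.1 1 0) (N : ℤ) := isCoprime_of_dvd_sq_add_sq (isCoprime_col g) hq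
    have hinv := ZMod.coe_int_mul_inv_eq_one hc
    have hq' : ((g.1 0 0 : ℤ) : ZMod N) ^ 2 + ((g.1 1 0 : ℤ) : ZMod N) ^ 2 = 0 := by
      rw [← ZMod.intCast_zmod_eq_zero_iff_dvd] at hq
      push_cast at hq
      exact hq
    set a : ZMod N := ((g.1 0 0 : ℤ) : ZMod N) with ha
    set c : ZMod N := ((g.1 1 0 : ℤ) : ZMod N) with hc'
    refine ⟨⟨a * c⁻¹, ?_⟩, ?_⟩
    · linear_combination (c⁻¹) ^ 2 * hq' - (c * c⁻¹ + 1) * hinv
    · apply Subtype.ext
      simp only [f]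
      rw [mk_eq_mk_iff, colMat_zero_zero, colMat_one_zero, ← ZMod.intCast_zmod_eq_zero_iff_dvd]
      push_cast
      rw [ZMod.natCast_zmod_val, ← ha, ← hc']
      linear_combination a * hinv - hinv * 0


theorem card_fixedBy_ST (N : ℕ) [NeZero N] :
    Nat.card (MulAction.fixedBy (SL(2, ℤ) ⧸ Gamma0 N) (ModularGroup.S * ModularGroup.T))
      = ModularCurve.nuThree N := by
  unfold ModularCurve.nuThree
  symm
  let f : {x : ZMod N // x ^ 2 + x + 1 = 0} →
      MulAction.fixedBy (SL(2, ℤ) ⧸ Gamma0 N) (ModularGroup.S * ModularGroup.T) :=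
    fun x => ⟨QuotientGroup.mk (colMat (x.1.val : ℤ)), by
      rw [MulAction.mem_fixedBy, ST_smul_mk_eq_iff, colMat_zero_zero, colMat_one_zero,
        ← ZMod.intCast_zmod_eq_zero_iff_dvd]
      push_cast
      rw [ZMod.natCast_zmod_val]
      simpa using x.2⟩
  refine Nat.card_congr (Equiv.ofBijective f ⟨?_, ?_⟩)
  · intro x y hxy
    have h := congrArg Subtype.val hxy
    simp only [f] at h
    rw [mk_eq_mk_iff, colMat_zero_zero, colMat_one_zero, colMat_zero_zero, colMat_one_zero,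
      ← ZMod.intCast_zmod_eq_zero_iff_dvd] at h
    push_cast at h
    rw [ZMod.natCast_zmod_val, ZMod.natCast_zmod_val] at h
    apply Subtype.ext
    linear_combination h
  · rintro ⟨q, hq⟩
    obtain ⟨g, rfl⟩ := QuotientGroup.mk_surjective q
    rw [MulAction.mem_fixedBy, ST_smul_mk_eq_iff] at hq
    have hc : IsCoprime (g.1 1 0) (N : ℤ) :=
      isCoprime_of_dvd_sq_add_mul_add_sq (isCoprime_col g) hq
    have hinv := ZMod.coe_int_mul_inv_eq_one hc
    have hq' : ((g.1 0 0 : ℤ) : ZMod N) ^ 2 + ((g.1 0 0 : ℤ) : ZMod N) * ((g.1 1 0 : ℤ) : ZMod N)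
        + ((g.1 1 0 : ℤ) : ZMod N) ^ 2 = 0 := by
      rw [← ZMod.intCast_zmod_eq_zero_iff_dvd] at hq
      push_cast at hq
      exact hq
    set a : ZMod N := ((g.1 0 0 : ℤ) : ZMod N) with ha
    set c : ZMod N := ((g.1 1 0 : ℤ) : ZMod N) with hc'
    refine ⟨⟨a * c⁻¹, ?_⟩, ?_⟩
    · linear_combination (c⁻¹) ^ 2 * hq' - (c * c⁻¹ + 1 + a * c⁻¹) * hinv
    · apply Subtype.ext
      simp only [f]
      rw [mk_eq_mk_iff, colMat_zero_zero, colMat_one_zero, ← ZMod.intCast_zmod_eq_zero_iff_dvd]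
      push_cast
      rw [ZMod.natCast_zmod_val, ← ha, ← hc']
      linear_combination a * hinv

/-! ## Orbit counting for elements acting with prime order -/

/-- If `g ^ p` acts trivially on a finite set (`p` prime), then
`p * #(orbits of ⟨g⟩) = #X + (p - 1) * #Fix(g)`. -/
theorem prime_mul_card_orbits {G X : Type*} [Group G] [MulAction G X] [Finite X] (g : G) {p : ℕ}
    (hp : p.Prime) (h : ∀ x : X, g ^ p • x = x) :
    p * Nat.card (MulAction.orbitRel.Quotient (Subgroup.zpowers g) X)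
      = Nat.card X + (p - 1) * Nat.card (MulAction.fixedBy X g) := by
  classical
  have : NeZero p := ⟨hp.ne_zero⟩
  have : Fintype X := Fintype.ofFinite X
  let φ := MulAction.toPermHom G X
  have hφp : φ g ^ p = 1 := by
    rw [← map_pow]
    ext x
    exact h x
  have hnat : ∀ (n : ℕ) (x : X), g ^ n • x = (φ g ^ n) x := by
    intro n x
    rw [← map_pow]; rfl
  have hint : ∀ (n : ℤ) (x : X), g ^ n • x = (φ g ^ n) x := by
    intro n x
    rw [← map_zpow]; rfl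
  let act : AddAction (ZMod p) X :=
    { vadd := fun k x => g ^ k.val • x
      zero_vadd := fun x => by
        show g ^ (0 : ZMod p).val • x = x
        rw [ZMod.val_zero, pow_zero, one_smul]
      add_vadd := fun k₁ k₂ x => by
        show g ^ (k₁ + k₂).val • x = g ^ k₁.val • (g ^ k₂.val • x)
        rw [hnat, hnat, hnat, ZMod.val_add, ← pow_eq_pow_mod _ hφp, pow_add]
        rfl }
  have hvadd : ∀ (k : ZMod p) (x : X), k +ᵥ x = g ^ k.val • x := fun _ _ => rfl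
  -- fixed points of nonzero `k`
  have hfix : ∀ k : ZMod p, k ≠ 0 → (AddAction.fixedBy X k : Set X) = MulAction.fixedBy X g := by
    intro k hk
    ext x
    rw [AddAction.mem_fixedBy, MulAction.mem_fixedBy, hvadd]
    constructor
    · intro hx
      have hcop : Nat.Coprime k.val p := by
        rw [Nat.coprime_comm, Nat.Prime.coprime_iff_not_dvd hp]
        intro hdvd
        have := Nat.le_of_dvd (Nat.pos_of_ne_zero (by rwa [ne_eq, ZMod.val_eq_zero])) hdvd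
        exact absurd (ZMod.val_lt k) (not_lt.mpr this)
      obtain ⟨m, -, hm⟩ := Nat.exists_mul_mod_eq_one_of_coprime hcop hp.one_lt
      have h1 : ∀ n : ℕ, (g ^ k.val) ^ n • x = x := by
        intro n
        induction n with
        | zero => simp
        | succ n ih => rw [pow_succ, mul_smul, hx, ih]
      have h2 := h1 m
      rw [← pow_mul, hnat, pow_eq_pow_mod _ hφp, hm, pow_one] at h2
      exact h2
    · intro hx
      have h1 : ∀ n : ℕ, g ^ n • x = x := by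
        intro n
        induction n with
        | zero => simp
        | succ n ih => rw [pow_succ, mul_smul, hx, ih]
      exact h1 _
  have hfix0 : (AddAction.fixedBy X (0 : ZMod p) : Set X) = Set.univ := by
    ext x
    simp
  -- orbits agree
  have horb : ∀ a b : X, AddAction.orbitRel (ZMod p) X a b ↔
      MulAction.orbitRel (Subgroup.zpowers g) X a b := by
    intro a b
    rw [AddAction.orbitRel_apply, MulAction.orbitRel_apply, AddAction.mem_orbit_iff,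
      MulAction.mem_orbit_iff]
    constructor
    · rintro ⟨k, hk⟩
      exact ⟨⟨g ^ k.val, Subgroup.npow_mem_zpowers g _⟩, hk⟩
    · rintro ⟨⟨t, ht⟩, hk⟩
      obtain ⟨n, rfl⟩ := Subgroup.mem_zpowers_iff.mp ht
      refine ⟨(n : ZMod p), ?_⟩
      rw [hvadd, hnat]
      have hk' : g ^ n • b = a := hk
      rw [hint, zpow_eq_zpow_emod n (by exact_mod_cast hφp : φ g ^ (p : ℤ) = 1)] at hk'
      rw [← hk']
      have hval : ((n : ZMod p).val : ℤ) = n % p := ZMod.val_intCast n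
      rw [← hval, zpow_natCast]
  have hcardΩ : Nat.card (Quotient (AddAction.orbitRel (ZMod p) X))
      = Nat.card (MulAction.orbitRel.Quotient (Subgroup.zpowers g) X) :=
    Nat.card_congr (Quotient.congrRight horb)
  have hB := AddAction.sum_card_fixedBy_eq_card_orbits_mul_card_addGroup (ZMod p) X
  have hcard : Fintype.card (ZMod p) = p := ZMod.card p
  rw [hcard, ← Nat.card_eq_fintype_card, hcardΩ] at hB
  rw [mul_comm, ← hB, ← Finset.add_sum_erase Finset.univ _ (Finset.mem_univ (0 : ZMod p))]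
  congr 1
  · rw [← Nat.card_eq_fintype_card, hfix0]
    exact Nat.card_congr (Equiv.Set.univ X)
  · rw [Finset.sum_congr rfl (g := fun _ => Nat.card (MulAction.fixedBy X g))]
    · rw [Finset.sum_const, Finset.card_erase_of_mem (Finset.mem_univ _), Finset.card_univ,
        hcard, smul_eq_mul]
    · intro k hk
      rw [← Nat.card_eq_fintype_card, hfix k (Finset.ne_of_mem_erase hk)]


theorem S_sq_smul (N : ℕ) (x : SL(2, ℤ) ⧸ Gamma0 N) : ModularGroup.S ^ 2 • x = x := by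
  obtain ⟨g, rfl⟩ := QuotientGroup.mk_surjective x
  have h1 := S_mul_col (ModularGroup.S * g)
  have h2 := S_mul_col g
  rw [pow_two, mul_smul, smul_mk, smul_mk, mk_eq_mk_iff, h1.1, h1.2, h2.1, h2.2]
  exact ⟨0, by ring⟩

theorem ST_cube_smul (N : ℕ) (x : SL(2, ℤ) ⧸ Gamma0 N) :
    (ModularGroup.S * ModularGroup.T) ^ 3 • x = x := by
  obtain ⟨g, rfl⟩ := QuotientGroup.mk_surjective x
  have h3 := ST_mul_col g
  have h2 := ST_mul_col (ModularGroup.S * ModularGroup.T * g)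
  have h1 := ST_mul_col (ModularGroup.S * ModularGroup.T * (ModularGroup.S * ModularGroup.T * g))
  rw [pow_succ, pow_two, mul_smul, mul_smul, smul_mk, smul_mk, smul_mk, mk_eq_mk_iff,
    h1.1, h1.2, h2.1, h2.2, h3.1, h3.2]
  exact ⟨0, by ring⟩

theorem card_orbits_S_index (N : ℕ) [NeZero N] :
    2 * Nat.card (MulAction.orbitRel.Quotient (Subgroup.zpowers ModularGroup.S)
        (SL(2, ℤ) ⧸ Gamma0 N))
      = (Gamma0 N).index + ModularCurve.nuTwo N := by
  have h := prime_mul_card_orbits (X := SL(2, ℤ) ⧸ Gamma0 N) ModularGroup.S Nat.prime_two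
    (S_sq_smul N)
  refine h.trans ?_
  rw [card_fixedBy_S, Subgroup.index_eq_card]
  simp

theorem card_orbits_ST_index (N : ℕ) [NeZero N] :
    3 * Nat.card (MulAction.orbitRel.Quotient
        (Subgroup.zpowers (ModularGroup.S * ModularGroup.T)) (SL(2, ℤ) ⧸ Gamma0 N))
      = (Gamma0 N).index + 2 * ModularCurve.nuThree N := by
  have h := prime_mul_card_orbits (X := SL(2, ℤ) ⧸ Gamma0 N) (ModularGroup.S * ModularGroup.T)
    Nat.prime_three (ST_cube_smul N)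
  refine h.trans ?_
  rw [card_fixedBy_ST, Subgroup.index_eq_card]

/-! ## The index of `Γ₀(N)` -/

/-- Counting a coset space through a surjection that separates exactly the cosets. -/
theorem card_quotient_eq_of_surjective {G : Type*} [Group G] (H : Subgroup G) {Y : Type*}
    (f : G → Y) (hf : Function.Surjective f) (h : ∀ g g', f g = f g' ↔ g⁻¹ * g' ∈ H) :
    Nat.card (G ⧸ H) = Nat.card Y := by
  let F : G ⧸ H → Y := Quotient.lift f (fun a b hab => (h a b).mpr (QuotientGroup.leftRel_apply.mp hab))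
  refine Nat.card_congr (Equiv.ofBijective F ⟨?_, ?_⟩)
  · intro x y hxy
    obtain ⟨a, rfl⟩ := QuotientGroup.mk_surjective x
    obtain ⟨b, rfl⟩ := QuotientGroup.mk_surjective y
    exact QuotientGroup.eq.mpr ((h a b).mp hxy)
  · intro y
    obtain ⟨g, rfl⟩ := hf y
    exact ⟨QuotientGroup.mk g, rfl⟩

/-- Lifting lemma: if `(a, K, m)` is unimodular and `m ≠ 0`, some `a + K * t` is coprime to `m`. -/
theorem exists_isCoprime_add_mul {a K m : ℤ} (hm : m ≠ 0)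
    (h : ∃ x y z : ℤ, x * a + y * K + z * m = 1) : ∃ t : ℤ, IsCoprime (a + K * t) m := by
  obtain ⟨x, y, z, hxyz⟩ := h
  set n : ℕ := Int.gcd K m with hn
  set m' : ℕ := m.natAbs with hm'
  have hm'0 : NeZero m' := ⟨Int.natAbs_ne_zero.mpr hm⟩
  have hnK : (n : ℤ) ∣ K := Int.gcd_dvd_left K m
  have hnm : (n : ℤ) ∣ m := Int.gcd_dvd_right K m
  have hnm' : n ∣ m' := by
    rw [hm']
    exact Int.natCast_dvd.mp hnm
  -- `a` is a unit mod `n`
  have hcop : IsCoprime (n : ℤ) a := by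
    obtain ⟨k1, hk1⟩ := hnK
    obtain ⟨k2, hk2⟩ := hnm
    exact ⟨y * k1 + z * k2, x, by rw [← hxyz, hk1, hk2]; ring⟩
  have hu : IsUnit ((a : ℤ) : ZMod n) := (ZMod.coe_int_isUnit_iff_isCoprime a n).mpr hcop
  obtain ⟨u, hu'⟩ := ZMod.unitsMap_surjective hnm' hu.unit
  have hu'' : ((u : ZMod m').cast : ZMod n) = (a : ZMod n) := by
    have := congrArg Units.val hu'
    rw [ZMod.unitsMap_val] at this
    rw [this, IsUnit.unit_spec]
  set w : ℤ := ((u : ZMod m').val : ℤ) with hw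
  have hwcop : IsCoprime w m := by
    have h1 : Nat.Coprime (u : ZMod m').val m' := ZMod.val_coe_unit_coprime u
    have h2 : IsCoprime (((u : ZMod m').val : ℕ) : ℤ) (m' : ℤ) := Nat.isCoprime_iff_coprime.mpr h1
    have hmabs : ((m' : ℕ) : ℤ) = |m| := Int.natCast_natAbs m
    rw [hmabs] at h2
    rcases abs_choice m with h3 | h3
    · rwa [h3] at h2
    · rw [h3] at h2
      exact (IsCoprime.neg_right_iff _ _).mp h2
  have hwa : (n : ℤ) ∣ w - a := by
    rw [← ZMod.intCast_eq_intCast_iff_dvd_sub, ← hu'', hw]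
    rw [ZMod.cast_eq_val]
    push_cast
    rfl
  obtain ⟨s, hs⟩ := hwa
  obtain ⟨bx, by', hb⟩ : ∃ bx by' : ℤ, (n : ℤ) = K * bx + m * by' :=
    ⟨_, _, Int.gcd_eq_gcd_ab K m⟩
  refine ⟨bx * s, ?_⟩
  have hrew : a + K * (bx * s) = w + m * (-(by' * s)) := by
    have : w = a + n * s := by linarith
    rw [this, hb]; ring
  rw [hrew]
  exact hwcop.add_mul_left_left _

theorem index_Gamma0_mul {M K : ℕ} (hM : M ≠ 0) (hK : K ≠ 0) (h : Nat.Coprime M K) :
    (Gamma0 (M * K)).index = (Gamma0 M).index * (Gamma0 K).index := by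
  rw [Subgroup.index_eq_card, Subgroup.index_eq_card, Subgroup.index_eq_card, ← Nat.card_prod]
  refine card_quotient_eq_of_surjective (Gamma0 (M * K))
    (fun g => ((QuotientGroup.mk g : SL(2, ℤ) ⧸ Gamma0 M),
      (QuotientGroup.mk g : SL(2, ℤ) ⧸ Gamma0 K))) ?_ ?_
  · rintro ⟨q₁, q₂⟩
    obtain ⟨g₁, rfl⟩ := QuotientGroup.mk_surjective q₁
    obtain ⟨g₂, rfl⟩ := QuotientGroup.mk_surjective q₂
    obtain ⟨u, v, huv⟩ : ∃ u v : ℤ, u * M + v * K = 1 := Nat.isCoprime_iff_coprime.mpr h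
    obtain ⟨x₁, y₁, h₁⟩ := isCoprime_col g₁
    obtain ⟨x₂, y₂, h₂⟩ := isCoprime_col g₂
    obtain ⟨a₁, ha₁⟩ : ∃ a₁ : ℤ, a₁ = g₁.1 0 0 := ⟨_, rfl⟩
    obtain ⟨c₁, hc₁⟩ : ∃ c₁ : ℤ, c₁ = g₁.1 1 0 := ⟨_, rfl⟩
    obtain ⟨a₂, ha₂⟩ : ∃ a₂ : ℤ, a₂ = g₂.1 0 0 := ⟨_, rfl⟩
    obtain ⟨c₂, hc₂⟩ : ∃ c₂ : ℤ, c₂ = g₂.1 1 0 := ⟨_, rfl⟩
    rw [← ha₁, ← hc₁] at h₁
    rw [← ha₂, ← hc₂] at h₂
    obtain ⟨a₀, ha₀⟩ : ∃ a₀ : ℤ, a₀ = a₁ * (v * K) + a₂ * (u * M) := ⟨_, rfl⟩
    obtain ⟨c₀, hc₀⟩ : ∃ c₀ : ℤ, c₀ = c₁ * (v * K) + c₂ * (u * M) := ⟨_, rfl⟩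
    have e1 : a₀ = a₁ + M * (u * (a₂ - a₁)) := by rw [ha₀]; linear_combination a₁ * huv
    have e2 : c₀ = c₁ + M * (u * (c₂ - c₁)) := by rw [hc₀]; linear_combination c₁ * huv
    have e3 : a₀ = a₂ + K * (v * (a₁ - a₂)) := by rw [ha₀]; linear_combination a₂ * huv
    have e4 : c₀ = c₂ + K * (v * (c₁ - c₂)) := by rw [hc₀]; linear_combination c₂ * huv
    obtain ⟨c, s, hc0, hs⟩ : ∃ c s : ℤ, c ≠ 0 ∧ c = c₀ + M * K * s := by
      by_cases h0 : c₀ = 0
      · refine ⟨(M : ℤ) * K, 1, ?_, by rw [h0]; ring⟩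
        exact mul_ne_zero (by exact_mod_cast hM) (by exact_mod_cast hK)
      · exact ⟨c₀, 0, h0, by ring⟩
    obtain ⟨E₁, hE₁⟩ : ∃ E₁ : ℤ, E₁ = u * (x₁ * (a₂ - a₁) + y₁ * (c₂ - c₁)) := ⟨_, rfl⟩
    obtain ⟨E₂, hE₂⟩ : ∃ E₂ : ℤ, E₂ = v * (x₂ * (a₁ - a₂) + y₂ * (c₁ - c₂)) := ⟨_, rfl⟩
    have p1 : x₁ * a₀ + y₁ * c₀ = 1 + M * E₁ := by
      rw [e1, e2, hE₁]; linear_combination h₁
    have p2 : x₂ * a₀ + y₂ * c₀ = 1 + K * E₂ := by
      rw [e3, e4, hE₂]; linear_combination h₂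
    obtain ⟨t, ht⟩ := exists_isCoprime_add_mul (a := a₀) (K := (M : ℤ) * K) (m := c) hc0
      ⟨(x₁ + x₂) - x₁ * (x₂ * a₀ + y₂ * c₀),
        E₁ * E₂ - s * ((y₁ + y₂) - y₁ * (x₂ * a₀ + y₂ * c₀)),
        (y₁ + y₂) - y₁ * (x₂ * a₀ + y₂ * c₀), by
          linear_combination (-(x₂ * a₀ + y₂ * c₀ - 1)) * p1 + (-(M * E₁)) * p2
            + ((y₁ + y₂) - y₁ * (x₂ * a₀ + y₂ * c₀)) * hs⟩
    obtain ⟨g, hg0, hg1⟩ := exists_col ht
    refine ⟨g, ?_⟩
    simp only [Prod.mk.injEq]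
    rw [mk_eq_mk_iff, mk_eq_mk_iff, hg0, hg1, ← ha₁, ← hc₁, ← ha₂, ← hc₂]
    constructor
    · refine ⟨u * (a₂ - a₁) * c₁ + K * t * c₁ - a₁ * (u * (c₂ - c₁) + K * s), ?_⟩
      linear_combination c₁ * e1 - a₁ * e2 - a₁ * hs
    · refine ⟨v * (a₁ - a₂) * c₂ + M * t * c₂ - a₂ * (v * (c₁ - c₂) + M * s), ?_⟩
      linear_combination c₂ * e3 - a₂ * e4 - a₂ * hs
  · intro g g'
    simp only [Prod.mk.injEq]
    rw [mk_eq_mk_iff, mk_eq_mk_iff, inv_mul_mem_Gamma0_iff]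
    have hcop : IsCoprime (M : ℤ) (K : ℤ) := Nat.isCoprime_iff_coprime.mpr h
    push_cast
    constructor
    · rintro ⟨h1, h2⟩
      exact hcop.mul_dvd h1 h2
    · intro h12
      exact ⟨dvd_trans (dvd_mul_right _ _) h12, dvd_trans (dvd_mul_left _ _) h12⟩

theorem intCast_mul_inv_of_not_dvd {p : ℕ} (hp : p.Prime) (n : ℕ) {c : ℤ} (hc : ¬ (p : ℤ) ∣ c) :
    ((c : ℤ) : ZMod (p ^ n)) * ((c : ℤ) : ZMod (p ^ n))⁻¹ = 1 := by
  apply ZMod.coe_int_mul_inv_eq_one
  have h1 : IsCoprime (p : ℤ) c := (Nat.prime_iff_prime_int.mp hp).coprime_iff_not_dvd.mpr hc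
  push_cast
  exact (h1.pow_left).symm

theorem not_dvd_of_isCoprime {p : ℕ} (hp : p.Prime) {a c : ℤ} (h : IsCoprime a c)
    (hc : (p : ℤ) ∣ c) : ¬ (p : ℤ) ∣ a := fun ha =>
  (Nat.prime_iff_prime_int.mp hp).not_isUnit (h.isUnit_of_dvd' ha hc)

theorem index_Gamma0_prime_pow {p : ℕ} (hp : p.Prime) (k : ℕ) :
    (Gamma0 (p ^ (k + 1))).index = p ^ (k + 1) + p ^ k := by
  classical
  have : NeZero (p ^ (k + 1)) := ⟨pow_ne_zero _ hp.ne_zero⟩
  have : NeZero (p ^ k) := ⟨pow_ne_zero _ hp.ne_zero⟩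
  have hY : Nat.card (ZMod (p ^ (k + 1)) ⊕ ZMod (p ^ k)) = p ^ (k + 1) + p ^ k := by
    rw [Nat.card_sum, Nat.card_zmod, Nat.card_zmod]
  have hp0 : (p : ℤ) ≠ 0 := by exact_mod_cast hp.ne_zero
  have hpprime : Prime (p : ℤ) := Nat.prime_iff_prime_int.mp hp
  rw [Subgroup.index_eq_card, ← hY]
  let f : SL(2, ℤ) → ZMod (p ^ (k + 1)) ⊕ ZMod (p ^ k) := fun g =>
    if (p : ℤ) ∣ g.1 1 0 then
        Sum.inr ((((g.1 1 0) / (p : ℤ) : ℤ) : ZMod (p ^ k)) * ((g.1 0 0 : ℤ) : ZMod (p ^ k))⁻¹)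
      else Sum.inl (((g.1 0 0 : ℤ) : ZMod (p ^ (k + 1)))
        * ((g.1 1 0 : ℤ) : ZMod (p ^ (k + 1)))⁻¹)
  have hf : ∀ g : SL(2, ℤ), f g = if (p : ℤ) ∣ g.1 1 0 then
        Sum.inr ((((g.1 1 0) / (p : ℤ) : ℤ) : ZMod (p ^ k)) * ((g.1 0 0 : ℤ) : ZMod (p ^ k))⁻¹)
      else Sum.inl (((g.1 0 0 : ℤ) : ZMod (p ^ (k + 1)))
        * ((g.1 1 0 : ℤ) : ZMod (p ^ (k + 1)))⁻¹) := fun g => rfl
  refine card_quotient_eq_of_surjective (Gamma0 (p ^ (k + 1))) f ?_ ?_
  · rintro (x | y)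
    · refine ⟨colMat (x.val : ℤ), ?_⟩
      have h1 : ¬ (p : ℤ) ∣ (colMat (x.val : ℤ)).1 1 0 := by
        rw [colMat_one_zero]
        exact hpprime.not_dvd_one
      rw [hf, if_neg h1, colMat_zero_zero, colMat_one_zero]
      congr 1
      simp
    · obtain ⟨g, hg0, hg1⟩ := exists_col (a := 1) (c := (p : ℤ) * (y.val : ℤ)) isCoprime_one_left
      refine ⟨g, ?_⟩
      have h1 : (p : ℤ) ∣ g.1 1 0 := by rw [hg1]; exact dvd_mul_right _ _
      rw [hf, if_pos h1, hg0, hg1, Int.mul_ediv_cancel_left _ hp0]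
      congr 1
      simp
  · intro g g'
    rw [inv_mul_mem_Gamma0_iff, hf, hf]
    obtain ⟨a, ha⟩ : ∃ a : ℤ, a = g.1 0 0 := ⟨_, rfl⟩
    obtain ⟨c, hc⟩ : ∃ c : ℤ, c = g.1 1 0 := ⟨_, rfl⟩
    obtain ⟨a', ha'⟩ : ∃ a' : ℤ, a' = g'.1 0 0 := ⟨_, rfl⟩
    obtain ⟨c', hc'⟩ : ∃ c' : ℤ, c' = g'.1 1 0 := ⟨_, rfl⟩
    have hcop : IsCoprime a c := by rw [ha, hc]; exact isCoprime_col g
    have hcop' : IsCoprime a' c' := by rw [ha', hc']; exact isCoprime_col g'
    rw [← ha, ← hc, ← ha', ← hc']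
    by_cases h1 : (p : ℤ) ∣ c <;> by_cases h2 : (p : ℤ) ∣ c'
    · -- both divisible
      rw [if_pos h1, if_pos h2]
      obtain ⟨γ, rfl⟩ := h1
      obtain ⟨γ', rfl⟩ := h2
      rw [Int.mul_ediv_cancel_left _ hp0, Int.mul_ediv_cancel_left _ hp0]
      have hna : ¬ (p : ℤ) ∣ a := not_dvd_of_isCoprime hp hcop (dvd_mul_right _ _)
      have hna' : ¬ (p : ℤ) ∣ a' := not_dvd_of_isCoprime hp hcop' (dvd_mul_right _ _)
      have hu := intCast_mul_inv_of_not_dvd hp k hna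
      have hu' := intCast_mul_inv_of_not_dvd hp k hna'
      have hD : ((p ^ (k + 1) : ℕ) : ℤ) ∣ a * ((p : ℤ) * γ') - a' * ((p : ℤ) * γ) ↔
          ((p ^ k : ℕ) : ℤ) ∣ a * γ' - a' * γ := by
        have e : a * ((p : ℤ) * γ') - a' * ((p : ℤ) * γ) = (p : ℤ) * (a * γ' - a' * γ) := by ring
        rw [e]
        push_cast
        rw [pow_succ, mul_comm ((p : ℤ) ^ k) (p : ℤ)]
        exact mul_dvd_mul_iff_left hp0
      rw [hD, ← ZMod.intCast_zmod_eq_zero_iff_dvd]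
      push_cast
      constructor
      · intro h
        have h' := Sum.inr_injective h
        linear_combination (-(a : ZMod (p ^ k)) * (a' : ZMod (p ^ k))) * h'
          - (a : ZMod (p ^ k)) * γ' * hu' + (a' : ZMod (p ^ k)) * γ * hu
      · intro h
        congr 1
        linear_combination (-((a : ZMod (p ^ k)))⁻¹ * ((a' : ZMod (p ^ k)))⁻¹) * h
          - (γ : ZMod (p ^ k)) * ((a : ZMod (p ^ k)))⁻¹ * hu'
          + (γ' : ZMod (p ^ k)) * ((a' : ZMod (p ^ k)))⁻¹ * hu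
    · -- p ∣ c, p ∤ c'
      rw [if_pos h1, if_neg h2]
      constructor
      · intro h; exact absurd h (by simp)
      · intro h
        exfalso
        have h3 : (p : ℤ) ∣ a * c' - a' * c :=
          dvd_trans (by push_cast; exact dvd_pow_self _ (Nat.succ_ne_zero k)) h
        have h4 : (p : ℤ) ∣ a * c' := by
          have := dvd_add h3 (dvd_mul_of_dvd_right h1 a')
          rwa [sub_add_cancel] at this
        rcases hpprime.dvd_or_dvd h4 with h5 | h5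
        · exact not_dvd_of_isCoprime hp hcop h1 h5
        · exact h2 h5
    · -- p ∤ c, p ∣ c'
      rw [if_neg h1, if_pos h2]
      constructor
      · intro h; exact absurd h (by simp)
      · intro h
        exfalso
        have h3 : (p : ℤ) ∣ a * c' - a' * c :=
          dvd_trans (by push_cast; exact dvd_pow_self _ (Nat.succ_ne_zero k)) h
        have h4 : (p : ℤ) ∣ a' * c := by
          have := dvd_sub (dvd_mul_of_dvd_right h2 a) h3
          rwa [sub_sub_cancel] at this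
        rcases hpprime.dvd_or_dvd h4 with h5 | h5
        · exact not_dvd_of_isCoprime hp hcop' h2 h5
        · exact h1 h5
    · -- neither divisible
      rw [if_neg h1, if_neg h2]
      have hu := intCast_mul_inv_of_not_dvd hp (k + 1) h1
      have hu' := intCast_mul_inv_of_not_dvd hp (k + 1) h2
      rw [← ZMod.intCast_zmod_eq_zero_iff_dvd]
      push_cast
      constructor
      · intro h
        have h' := Sum.inl_injective h
        linear_combination ((c : ZMod (p ^ (k + 1))) * c') * h'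
          - (a : ZMod (p ^ (k + 1))) * c' * hu + (a' : ZMod (p ^ (k + 1))) * c * hu'
      · intro h
        congr 1
        linear_combination (((c : ZMod (p ^ (k + 1))))⁻¹ * ((c' : ZMod (p ^ (k + 1))))⁻¹) * h
          - (a : ZMod (p ^ (k + 1))) * ((c : ZMod (p ^ (k + 1))))⁻¹ * hu'
          + (a' : ZMod (p ^ (k + 1))) * ((c' : ZMod (p ^ (k + 1))))⁻¹ * hu

/-- The indicator of squarefree numbers as an arithmetic function. -/
def sqfInd : ArithmeticFunction ℕ := ⟨fun n => if Squarefree n then 1 else 0, by simp⟩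

theorem sqfInd_apply (n : ℕ) : sqfInd n = if Squarefree n then 1 else 0 := rfl

theorem isMultiplicative_sqfInd : ArithmeticFunction.IsMultiplicative sqfInd := by
  refine ⟨by simp [sqfInd_apply], fun {m n} hmn => ?_⟩
  rw [sqfInd_apply, sqfInd_apply, sqfInd_apply]
  have h := Nat.squarefree_mul hmn
  by_cases h1 : Squarefree m <;> by_cases h2 : Squarefree n <;> simp [h, h1, h2]

theorem dedekindPsi_eq (N : ℕ) :
    ModularCurve.dedekindPsi N = (sqfInd * ArithmeticFunction.id) N := by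
  rw [ArithmeticFunction.mul_apply,
    Nat.sum_divisorsAntidiagonal (f := fun a b => sqfInd a * ArithmeticFunction.id b)]
  unfold ModularCurve.dedekindPsi
  rw [Finset.sum_filter]
  refine Finset.sum_congr rfl fun d _ => ?_
  rw [sqfInd_apply]
  by_cases h : Squarefree d <;> simp [h]

theorem dedekindPsi_mul {M K : ℕ} (h : Nat.Coprime M K) :
    ModularCurve.dedekindPsi (M * K) = ModularCurve.dedekindPsi M * ModularCurve.dedekindPsi K := by
  rw [dedekindPsi_eq, dedekindPsi_eq, dedekindPsi_eq]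
  exact (isMultiplicative_sqfInd.mul ArithmeticFunction.isMultiplicative_id).map_mul_of_coprime h

theorem dedekindPsi_prime_pow {p : ℕ} (hp : p.Prime) (k : ℕ) :
    ModularCurve.dedekindPsi (p ^ (k + 1)) = p ^ (k + 1) + p ^ k := by
  unfold ModularCurve.dedekindPsi
  rw [Finset.sum_filter, Nat.sum_divisors_prime_pow hp, Finset.sum_range_succ',
    Finset.sum_range_succ']
  have h0 : ∀ i ∈ Finset.range k,
      (if Squarefree (p ^ (i + 1 + 1)) then p ^ (k + 1) / p ^ (i + 1 + 1) else 0) = 0 := by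
    intro i _
    rw [if_neg]
    rw [Nat.squarefree_pow_iff hp.ne_one (by omega)]
    rintro ⟨-, h⟩
    omega
  rw [Finset.sum_eq_zero h0]
  have h1 : Squarefree (p ^ (0 + 1)) := by
    rw [zero_add, pow_one]; exact hp.prime.squarefree
  have h2 : Squarefree (p ^ 0) := by rw [pow_zero]; exact squarefree_one
  rw [if_pos h1, if_pos h2, zero_add, zero_add, pow_one, pow_zero, Nat.div_one,
    pow_succ, Nat.mul_div_cancel _ hp.pos]
  ring

theorem Gamma0_one_index : (Gamma0 1).index = 1 := by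
  rw [Subgroup.index_eq_one]
  ext g
  simp only [Gamma0_mem, Subgroup.mem_top, iff_true]
  exact Subsingleton.elim _ _

/-- **Index of `Γ₀(N)`** in `SL(2, ℤ)` is the Dedekind psi function. -/
theorem index_Gamma0 (N : ℕ) [NeZero N] : (Gamma0 N).index = ModularCurve.dedekindPsi N := by
  have key : ∀ n : ℕ, n ≠ 0 → (Gamma0 n).index = ModularCurve.dedekindPsi n := by
    intro n
    induction n using Nat.recOnPosPrimePosCoprime with
    | prime_pow p n hp hn =>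
      intro _
      obtain ⟨k, rfl⟩ : ∃ k, n = k + 1 := ⟨n - 1, by omega⟩
      rw [index_Gamma0_prime_pow hp, dedekindPsi_prime_pow hp]
    | zero => intro h; exact absurd rfl h
    | one => intro _; rw [Gamma0_one_index, ModularCurve.dedekindPsi_one]
    | coprime a b ha hb hab iha ihb =>
      intro _
      have ha0 : a ≠ 0 := by omega
      have hb0 : b ≠ 0 := by omega
      rw [index_Gamma0_mul ha0 hb0 hab, dedekindPsi_mul hab, iha ha0, ihb hb0]
  exact key N (NeZero.ne N)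


theorem card_orbits_S (N : ℕ) [NeZero N] :
    2 * Nat.card (MulAction.orbitRel.Quotient (Subgroup.zpowers ModularGroup.S)
        (SL(2, ℤ) ⧸ Gamma0 N))
      = ModularCurve.dedekindPsi N + ModularCurve.nuTwo N := by
  rw [card_orbits_S_index, index_Gamma0]

theorem card_orbits_ST (N : ℕ) [NeZero N] :
    3 * Nat.card (MulAction.orbitRel.Quotient
        (Subgroup.zpowers (ModularGroup.S * ModularGroup.T)) (SL(2, ℤ) ⧸ Gamma0 N))
      = ModularCurve.dedekindPsi N + 2 * ModularCurve.nuThree N := by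
  rw [card_orbits_ST_index, index_Gamma0]

theorem card_quotient_Gamma0 (N : ℕ) [NeZero N] :
    Nat.card (SL(2, ℤ) ⧸ Gamma0 N) = ModularCurve.dedekindPsi N := by
  rw [← Subgroup.index_eq_card, index_Gamma0]

end Fermat.Agent.Lib.helper804
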