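/-
S20 exports (helper1040): dimensions of the spaces `M_k(Γ)` in ALL weights from a free basis over
the ring of level one forms, and closed forms at level `Γ₀(N)`.

* `finrank_modularForm_eq_sum` : for a free basis `(κ, G)` of `⨁ M_k(Γ)` over `⨁ M_k(SL₂ℤ)`,
  `dim M_k(Γ) = ∑ j, dim M_{k - κ j}(SL₂ℤ)` for every integer weight `k`.
* `finrank_modularForm_le_cuspForm_add_cuspNum` : `dim M_k(Γ) ≤ dim S_k(Γ) + #cusps`.
* `finrank_modularForm_gamma0_twelve_mul` : for `a ≥ 1`,
  `dim M_{12a}(Γ₀(N)) + dim S_2(Γ₀(N)) = a * ψ(N) + 1`.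
(The cusp form analogue `dim S_{12m}(Γ₀(N)) + dim S_2 + #cusps = m ψ(N) + 1` is
`Fermat.Agent.S18.helper20.finrank_cuspForm_twelve`.)
-/
import Fermat.Agent.S20.helper1040_Assembly
import Fermat.Agent.S20.helper1040_Lower
import Fermat.Agent.S20.helper1235_StmtFree1040
import Fermat.Agent.S20.helper116_Sep
import Fermat.Agent.S20.helper1559_Liouville
import Fermat.Agent.S20.helper2507_Basic
import Fermat.Agent.S20.helper5021_Ell
import Fermat.Agent.S20.helper1177_CuspFact
import Fermat.Agent.S20.helper4608_Dual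
import Fermat.Agent.S20.helper2600_Goals

set_option autoImplicit false

open UpperHalfPlane ModularForm Matrix.SpecialLinearGroup Filter Complex
open scoped MatrixGroups ModularForm Manifold Topology Real

namespace Fermat.Agent.Lib.helper1040

open Fermat.Agent.S20.helper1040

/-! ## Hilbert function of a free basis -/

/-- **Hilbert function.** If `(κ, G)` is a free basis of `⨁_k M_k(Γ)` over the ring of level one
forms, then `dim M_k(Γ) = ∑ j, dim M_{k - κ j}(SL₂ℤ)` for every integer weight `k`. -/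
theorem finrank_modularForm_eq_sum (Γ : Subgroup SL(2, ℤ)) [Γ.FiniteIndex] {ι : Type} [Fintype ι]
    (κ : ι → ℤ) (G : ι → ℍ → ℂ) (hB : IsFreeBasis Γ κ G) (k : ℤ) :
    Module.finrank ℂ (ModularForm (Γ.map (mapGL ℝ)) k) =
      ∑ j, Module.finrank ℂ (ModularForm 𝒮ℒ (k - κ j)) := by
  classical
  obtain ⟨hG, hSpan, hIndep⟩ := hB
  have hterm : ∀ (A : ∀ j, ModularForm 𝒮ℒ (k - κ j)) (j : ι), IsMF Γ k (⇑(A j) * G j) :=
    fun A j => ((IsMF.of_levelOne Γ (isMF1_of_modularForm (A j))).mul (hG j)).congr_weight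
      (by ring)
  have hsum : ∀ A : ∀ j, ModularForm 𝒮ℒ (k - κ j), IsMF Γ k (∑ j, ⇑(A j) * G j) :=
    fun A => IsMF.sum _ _ fun j _ => hterm A j
  have hval : ∀ (A : ∀ j, ModularForm 𝒮ℒ (k - κ j)) (z : ℍ),
      (∑ j, ⇑(A j) * G j) z = ∑ j, A j z * G j z := by
    intro A z
    rw [Finset.sum_apply]
    rfl
  let Ψ : (∀ j, ModularForm 𝒮ℒ (k - κ j)) →ₗ[ℂ] ModularForm (Γ.map (mapGL ℝ)) k :=
    { toFun := fun A => (hsum A).toModularForm
      map_add' := by
        intro A B
        ext z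
        show (∑ j, ⇑((A + B) j) * G j) z = (∑ j, ⇑(A j) * G j) z + (∑ j, ⇑(B j) * G j) z
        rw [hval, hval, hval, ← Finset.sum_add_distrib]
        refine Finset.sum_congr rfl fun j _ => ?_
        rw [Pi.add_apply, add_apply, add_mul]
      map_smul' := by
        intro c A
        ext z
        show (∑ j, ⇑((c • A) j) * G j) z = c • (∑ j, ⇑(A j) * G j) z
        rw [hval, hval, smul_eq_mul, Finset.mul_sum]
        refine Finset.sum_congr rfl fun j _ => ?_
        rw [Pi.smul_apply, smul_apply, smul_eq_mul, mul_assoc] }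
  have hΨ : ∀ A, (⇑(Ψ A) : ℍ → ℂ) = ∑ j, ⇑(A j) * G j := fun A => rfl
  have hinj : Function.Injective Ψ := by
    rw [← LinearMap.ker_eq_bot, LinearMap.ker_eq_bot']
    intro A hA
    have h0 : ∑ j, ⇑(A j) * G j = 0 := by
      rw [← hΨ, hA]
      rfl
    have h1 := hIndep k (fun j => ⇑(A j)) (fun j => isMF1_of_modularForm (A j)) h0
    funext j
    exact DFunLike.coe_injective (h1 j)
  have hsurj : Function.Surjective Ψ := by
    intro F
    obtain ⟨A, hA, hFA⟩ := hSpan k F (isMF_of_modularForm F)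
    refine ⟨fun j => (hA j).toModularForm1, ?_⟩
    apply DFunLike.coe_injective
    rw [hΨ, hFA]
    rfl
  rw [← (LinearEquiv.ofBijective Ψ ⟨hinj, hsurj⟩).finrank_eq, Module.finrank_pi_fintype]

/-! ## Level one dimensions -/

/-- Mathlib's level one dimension formula as a `finrank`. -/
theorem finrank_levelOne (k : ℕ) (hk : Even k) :
    Module.finrank ℂ (ModularForm 𝒮ℒ (k : ℤ)) = if k % 12 = 2 then k / 12 else k / 12 + 1 := by
  have h := ModularForm.dimension_level_one k hk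
  unfold Module.finrank
  rw [h, Cardinal.toNat_natCast]
  simp only [Nat.ModEq]
  norm_num

/-- Level one dimensions in the weights `12 a - i`, `i ∈ {0, 2, …, 10}`, `a ≥ 1`. -/
theorem finrank_levelOne_twelve_mul_sub (a : ℕ) (ha : 1 ≤ a) (i : ℤ) (hi : i ∈ wts) :
    (Module.finrank ℂ (ModularForm 𝒮ℒ (12 * (a : ℤ) - i)) : ℤ) =
      a + (if i = 0 then 1 else 0) - (if i = 10 then 1 else 0) := by
  simp only [wts, Finset.mem_insert, Finset.mem_singleton] at hi
  obtain ⟨m, hm, hm10, hmev⟩ : ∃ m : ℕ, i = (m : ℤ) ∧ m ≤ 10 ∧ Even m := by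
    rcases hi with rfl | rfl | rfl | rfl | rfl | rfl
    · exact ⟨0, rfl, by norm_num, by decide⟩
    · exact ⟨2, rfl, by norm_num, by decide⟩
    · exact ⟨4, rfl, by norm_num, by decide⟩
    · exact ⟨6, rfl, by norm_num, by decide⟩
    · exact ⟨8, rfl, by norm_num, by decide⟩
    · exact ⟨10, rfl, by norm_num, by decide⟩
  have hcast : 12 * (a : ℤ) - i = ((12 * a - m : ℕ) : ℤ) := by
    rw [hm]
    omega
  have hev : Even (12 * a - m) := by
    obtain ⟨r, hr⟩ := hmev
    exact ⟨6 * a - r, by omega⟩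
  rw [hcast, finrank_levelOne _ hev]
  subst hm
  rcases hi with h | h | h | h | h | h <;>
    · have hm' : m = 0 ∨ m = 2 ∨ m = 4 ∨ m = 6 ∨ m = 8 ∨ m = 10 := by omega
      split_ifs <;> push_cast <;> omega

/-! ## The constant term bound in every weight -/

section Cterm

variable (Γ : Subgroup SL(2, ℤ)) [Γ.FiniteIndex]

/-- The constant term map `M_k(Γ) → ℂ^{T-orbits}` in weight `k`. -/
noncomputable def ctermMapK (k : ℤ) : ModularForm (Γ.map (mapGL ℝ)) k →ₗ[ℂ]
    (MulAction.orbitRel.Quotient (Subgroup.zpowers ModularGroup.T) (SL(2, ℤ) ⧸ Γ) → ℂ) where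
  toFun F o := cterm Γ k F (Quotient.out o)
  map_add' F G := by
    funext o
    simp only [Pi.add_apply]
    rw [FunLike.coe_add]
    exact (isMF_of_modularForm F).cterm_add (isMF_of_modularForm G) _
  map_smul' c F := by
    funext o
    simp only [Pi.smul_apply, RingHom.id_apply, smul_eq_mul]
    rw [FunLike.coe_smul]
    exact (isMF_of_modularForm F).cterm_smul c _

/-- **Constant term bound**: `dim M_k(Γ) ≤ dim S_k(Γ) + #cusps`, every weight `k`. -/
theorem finrank_modularForm_le_cuspForm_add_cuspNum (k : ℤ) :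
    Module.finrank ℂ (ModularForm (Γ.map (mapGL ℝ)) k) ≤
      Module.finrank ℂ (CuspForm (Γ.map (mapGL ℝ)) k) + cuspNum Γ := by
  classical
  have : Finite (SL(2, ℤ) ⧸ Γ) := Subgroup.finite_quotient_of_finiteIndex
  let _ : Fintype (MulAction.orbitRel.Quotient (Subgroup.zpowers ModularGroup.T) (SL(2, ℤ) ⧸ Γ)) :=
    Fintype.ofFinite _
  have hc : cuspNum Γ = Module.finrank ℂ
      (MulAction.orbitRel.Quotient (Subgroup.zpowers ModularGroup.T) (SL(2, ℤ) ⧸ Γ) → ℂ) := by
    rw [cuspNum, Nat.card_eq_fintype_card, Module.finrank_fintype_fun_eq_card]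
  have hkerL : LinearMap.ker (ctermMapK Γ k) ≤ LinearMap.range
      (CuspForm.toModularFormₗ :
        CuspForm (Γ.map (mapGL ℝ)) k →ₗ[ℂ] ModularForm (Γ.map (mapGL ℝ)) k) := by
    intro F hF
    rw [LinearMap.mem_ker] at hF
    have hF' : ∀ x, cterm Γ k F x = 0 := by
      intro x
      rw [← (isMF_of_modularForm F).cterm_out]
      exact congrFun hF _
    have hcf := (isMF_of_modularForm F).isCF_of_cterm_eq_zero hF'
    exact ⟨hcf.toCuspForm, by ext z; rfl⟩
  by_cases hfin : Module.Finite ℂ (ModularForm (Γ.map (mapGL ℝ)) k)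
  · have h1 := LinearMap.finrank_range_add_finrank_ker (ctermMapK Γ k)
    have h2 : Module.finrank ℂ (LinearMap.range (ctermMapK Γ k)) ≤
        Module.finrank ℂ
          (MulAction.orbitRel.Quotient (Subgroup.zpowers ModularGroup.T) (SL(2, ℤ) ⧸ Γ) → ℂ) :=
      Submodule.finrank_le _
    have h3 : Module.finrank ℂ (LinearMap.ker (ctermMapK Γ k)) ≤
        Module.finrank ℂ (LinearMap.range (CuspForm.toModularFormₗ :
          CuspForm (Γ.map (mapGL ℝ)) k →ₗ[ℂ] ModularForm (Γ.map (mapGL ℝ)) k)) :=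
      Submodule.finrank_mono hkerL
    have h4 : Module.finrank ℂ (LinearMap.range (CuspForm.toModularFormₗ :
          CuspForm (Γ.map (mapGL ℝ)) k →ₗ[ℂ] ModularForm (Γ.map (mapGL ℝ)) k)) =
        Module.finrank ℂ (CuspForm (Γ.map (mapGL ℝ)) k) :=
      (LinearEquiv.ofInjective _ CuspForm.toModularFormₗ_injective).finrank_eq.symm
    omega
  · rw [Module.finrank_of_not_finite hfin]
    omega

end Cterm

/-! ## Closed forms at level `Γ₀(N)` -/

/-- The structure of a free basis at level `Γ₀(N)`, extracted from the landed S20 leaves: a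
coset-indexed free basis with all weights in `{0, 2, 4, 6, 8, 10}`, exactly one weight `0`, and
`dim S_2(Γ₀(N))` weights equal to `10`. -/
theorem exists_freeBasis_gamma0 (N : ℕ) [NeZero N]
    [Fintype (SL(2, ℤ) ⧸ CongruenceSubgroup.Gamma0 N)]
    [DecidableEq (SL(2, ℤ) ⧸ CongruenceSubgroup.Gamma0 N)] :
    ∃ (κ : SL(2, ℤ) ⧸ CongruenceSubgroup.Gamma0 N → ℤ)
      (G : SL(2, ℤ) ⧸ CongruenceSubgroup.Gamma0 N → ℍ → ℂ),
      IsFreeBasis (CongruenceSubgroup.Gamma0 N) κ G ∧ (∀ x, κ x ∈ wts) ∧ cnt κ 0 = 1 ∧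
        Module.finrank ℂ (CuspForm (CongruenceSubgroup.Gamma0 N) 2) = cnt κ 10 := by
  classical
  have hFreeX := stmt_freeX_of _ (Fermat.Agent.S20.helper1235.stmt_Free N)
    (Fermat.Agent.S20.helper116.stmt_Sep N)
  have hLiou : Stmt_Liouville (CongruenceSubgroup.Gamma0 N) :=
    Fermat.Agent.S20.helper1559.stmt_liouville _
  have hBasic : Stmt_Basic (CongruenceSubgroup.Gamma0 N) :=
    Fermat.Agent.S20.helper2507.stmt_basic _ (by
      rw [CongruenceSubgroup.Gamma0_mem]
      simp)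
  have hCusp : Stmt_CuspFact (CongruenceSubgroup.Gamma0 N) :=
    Fermat.Agent.S20.helper1177.stmt_CuspFact _
  have hDual : Stmt_Dual (CongruenceSubgroup.Gamma0 N) :=
    Fermat.Agent.S20.helper4608.stmt_dual _
  obtain ⟨κ, G, hB, z₀, hz₀⟩ := hFreeX
  obtain ⟨c, hc⟩ := hLiou κ G hB
  have hc0 : c ≠ 0 := by
    rintro rfl
    have h := hc z₀
    rw [zero_mul] at h
    exact hz₀ (pow_eq_zero_iff (by norm_num) |>.mp h)
  have hdet : ∀ z : ℍ, (Phi (CongruenceSubgroup.Gamma0 N) κ G z).det ≠ 0 := by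
    intro z h
    have h1 := hc z
    rw [h, zero_pow (by norm_num)] at h1
    have h2 : (ModularForm.discriminant z) ^ (∑ x, κ x) ≠ 0 :=
      zpow_ne_zero _ (discriminant_ne_zero z)
    exact (mul_ne_zero hc0 h2) h1.symm
  obtain ⟨hnonneg, heven, hzero⟩ := hBasic κ G hB
  obtain ⟨U, Λ, s, hCD⟩ := hCusp κ G hB heven
  obtain ⟨hlt, hfin⟩ := hDual κ G U Λ s hB heven hdet hCD
  have hκ : ∀ x, κ x ∈ wts := by
    intro x
    have h1 := hnonneg x
    have h2 := hlt x
    obtain ⟨m, hm⟩ := heven x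
    simp only [wts, Finset.mem_insert, Finset.mem_singleton]
    omega
  rw [natCard_subtype_eq] at hzero hfin
  exact ⟨κ, G, hB, hκ, hzero, hfin⟩

/-- **`dim M_{12a}(Γ₀(N)) + dim S_2(Γ₀(N)) = a ψ(N) + 1`** for `a ≥ 1`. -/
theorem finrank_modularForm_gamma0_twelve_mul (N : ℕ) [NeZero N] (a : ℕ) (ha : 1 ≤ a) :
    Module.finrank ℂ (ModularForm (CongruenceSubgroup.Gamma0 N) (12 * (a : ℤ))) +
        Module.finrank ℂ (CuspForm (CongruenceSubgroup.Gamma0 N) 2) =
      a * ModularCurve.dedekindPsi N + 1 := by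
  classical
  let _ : Fintype (SL(2, ℤ) ⧸ CongruenceSubgroup.Gamma0 N) := Fintype.ofFinite _
  obtain ⟨κ, G, hB, hκ, hzero, hfin⟩ := exists_freeBasis_gamma0 N
  have hIdx : (CongruenceSubgroup.Gamma0 N).index = ModularCurve.dedekindPsi N :=
    Fermat.Agent.S20.helper2600.stmt_Index N
  have hcard : Fintype.card (SL(2, ℤ) ⧸ CongruenceSubgroup.Gamma0 N) =
      ModularCurve.dedekindPsi N := by
    rw [← hIdx, Subgroup.index, Nat.card_eq_fintype_card]
  have h1 := finrank_modularForm_eq_sum (CongruenceSubgroup.Gamma0 N) κ G hB (12 * (a : ℤ))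
  have h2 : (∑ x, Module.finrank ℂ (ModularForm 𝒮ℒ (12 * (a : ℤ) - κ x)) : ℤ) =
      a * Fintype.card (SL(2, ℤ) ⧸ CongruenceSubgroup.Gamma0 N) + cnt κ 0 - cnt κ 10 := by
    have h3 : ∀ x, (Module.finrank ℂ (ModularForm 𝒮ℒ (12 * (a : ℤ) - κ x)) : ℤ) =
        a + (if κ x = 0 then 1 else 0) - (if κ x = 10 then 1 else 0) :=
      fun x => finrank_levelOne_twelve_mul_sub a ha (κ x) (hκ x)
    rw [Finset.sum_congr rfl fun x _ => h3 x, Finset.sum_sub_distrib, Finset.sum_add_distrib,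
      Finset.sum_const, Finset.card_univ, nsmul_eq_mul]
    unfold cnt
    rw [Finset.card_filter, Finset.card_filter]
    push_cast
    ring
  have h4 : (Module.finrank ℂ (ModularForm (CongruenceSubgroup.Gamma0 N) (12 * (a : ℤ))) : ℤ) =
      a * ModularCurve.dedekindPsi N + 1 - cnt κ 10 := by
    have h5 : (Module.finrank ℂ (ModularForm (CongruenceSubgroup.Gamma0 N) (12 * (a : ℤ))) : ℤ) =
        ∑ x, (Module.finrank ℂ (ModularForm 𝒮ℒ (12 * (a : ℤ) - κ x)) : ℤ) := by
      exact_mod_cast h1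
    rw [h5, h2, hcard, hzero]
    push_cast
    ring
  rw [hfin]
  omega

end Fermat.Agent.Lib.helper1040
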