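import Mathlib

/-!
# Tropical Kummer law and torsion depth near a node (helper1061)

`x`-only valuation calculus for a curve `η² + … = ξ (ξ² + (B/4) ξ + β)` near the node `ξ = 0`,
in a form that makes **no assumption on `v 2`** (only `v B = 1`, `v β < 1`, `β ≠ 0`).

* `vord v x` : the additive order of `x` (values in `Additive Γ₀ˣ`, junk `0` at `x = 0`).
* `trop_law` : for `ξ₁ ≠ ξ₂` and the two "Kummer" identities (product and sum),
  the clamps of the orders of `r₊, r₋` are `{fold (c₁ + c₂), |c₁ - c₂|}`.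
* `trop_dup` : the duplication analogue.
* `torsion_depth` : abstract group version: a point of odd exact order `n` near the node
  has `v β < v (X T)` and `v (X T) ^ n = v β ^ (2 j)`.
-/

set_option autoImplicit false

namespace Fermat.Agent.Lib.helper1061

section Ord

variable {K : Type*} [Field K] {Γ₀ : Type*} [LinearOrderedCommGroupWithZero Γ₀]

/-- The additive order attached to a valuation: `vord v x = - log (v x)`, junk value `0` at `0`. -/
noncomputable def vord (v : Valuation K Γ₀) (x : K) : Additive Γ₀ˣ := by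
  classical
  exact if h : x = 0 then 0 else Additive.ofMul (Units.mk0 (v x) (v.ne_zero_iff.mpr h))⁻¹

variable (v : Valuation K Γ₀)

theorem vord_of_ne {x : K} (h : x ≠ 0) :
    vord v x = Additive.ofMul (Units.mk0 (v x) (v.ne_zero_iff.mpr h))⁻¹ := by
  unfold vord
  simp [h]

theorem vord_mul {x y : K} (hx : x ≠ 0) (hy : y ≠ 0) :
    vord v (x * y) = vord v x + vord v y := by
  rw [vord_of_ne v hx, vord_of_ne v hy, vord_of_ne v (mul_ne_zero hx hy), ← ofMul_mul,
    ← mul_inv]
  congr 2
  ext
  simp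

theorem vord_le_iff {x y : K} (hx : x ≠ 0) (hy : y ≠ 0) :
    vord v x ≤ vord v y ↔ v y ≤ v x := by
  rw [vord_of_ne v hx, vord_of_ne v hy, Additive.ofMul_le, inv_le_inv_iff, ← Units.val_le_val]
  simp

theorem vord_lt_iff {x y : K} (hx : x ≠ 0) (hy : y ≠ 0) :
    vord v x < vord v y ↔ v y < v x := by
  rw [lt_iff_not_ge, lt_iff_not_ge, vord_le_iff v hy hx]

theorem vord_one : vord v (1 : K) = 0 := by
  have h := vord_mul v (one_ne_zero : (1 : K) ≠ 0) one_ne_zero
  rw [one_mul] at h
  exact (add_eq_left.mp h.symm)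

theorem vord_nonneg_iff {x : K} (hx : x ≠ 0) : 0 ≤ vord v x ↔ v x ≤ 1 := by
  rw [← vord_one v, vord_le_iff v one_ne_zero hx, map_one]

theorem vord_pos_iff {x : K} (hx : x ≠ 0) : 0 < vord v x ↔ v x < 1 := by
  rw [← vord_one v, vord_lt_iff v one_ne_zero hx, map_one]

theorem vord_eq_zero_of {x : K} (hx : v x = 1) : vord v x = 0 := by
  have hx0 : x ≠ 0 := by
    intro h
    rw [h, map_zero] at hx
    exact zero_ne_one hx
  apply le_antisymm
  · rw [← vord_one v, vord_le_iff v hx0 one_ne_zero, map_one, hx]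
  · rw [vord_nonneg_iff v hx0, hx]

theorem vord_neg (x : K) : vord v (-x) = vord v x := by
  by_cases hx : x = 0
  · simp [hx]
  · rw [vord_of_ne v hx, vord_of_ne v (neg_ne_zero.mpr hx)]
    congr 2
    ext
    simp

theorem vord_pow {x : K} (hx : x ≠ 0) (n : ℕ) : vord v (x ^ n) = n • vord v x := by
  induction n with
  | zero => simp [vord_one]
  | succ n ih => rw [pow_succ, vord_mul v (pow_ne_zero n hx) hx, ih, succ_nsmul]

theorem vord_add {x y : K} (hx : x ≠ 0) (hy : y ≠ 0) (hxy : x + y ≠ 0) :
    min (vord v x) (vord v y) ≤ vord v (x + y) := by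
  rw [min_le_iff, vord_le_iff v hx hxy, vord_le_iff v hy hxy]
  exact le_max_iff.mp (v.map_add x y)

theorem vord_sub {x y : K} (hx : x ≠ 0) (hy : y ≠ 0) (hxy : x - y ≠ 0) :
    min (vord v x) (vord v y) ≤ vord v (x - y) := by
  have := vord_add v hx (neg_ne_zero.mpr hy) (by rwa [← sub_eq_add_neg])
  rwa [vord_neg, ← sub_eq_add_neg] at this

theorem vord_add_of_lt {x y : K} (hx : x ≠ 0) (hy : y ≠ 0) (h : vord v x < vord v y) :
    x + y ≠ 0 ∧ vord v (x + y) = vord v x := by
  have hlt : v y < v x := (vord_lt_iff v hx hy).mp h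
  have hv : v (x + y) = v x := Valuation.map_add_eq_of_lt_left v hlt
  have hne : x + y ≠ 0 := by
    intro h0
    rw [h0, map_zero] at hv
    exact hx (v.zero_iff.mp hv.symm)
  refine ⟨hne, le_antisymm ?_ ?_⟩
  · rw [vord_le_iff v hne hx, hv]
  · rw [vord_le_iff v hx hne, hv]

theorem vord_sub_of_lt {x y : K} (hx : x ≠ 0) (hy : y ≠ 0) (h : vord v x < vord v y) :
    x - y ≠ 0 ∧ vord v (x - y) = vord v x := by
  have := vord_add_of_lt v hx (neg_ne_zero.mpr hy) (by rwa [vord_neg])
  rwa [← sub_eq_add_neg] at this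

theorem vord_sub_of_gt {x y : K} (hx : x ≠ 0) (hy : y ≠ 0) (h : vord v y < vord v x) :
    x - y ≠ 0 ∧ vord v (x - y) = vord v y := by
  have := vord_sub_of_lt v hy hx h
  rw [← neg_sub, vord_neg] at this
  exact ⟨fun h0 => this.1 (by rw [h0, neg_zero]), this.2⟩

theorem vord_two_nonneg (h2 : (2 : K) ≠ 0) : 0 ≤ vord v (2 : K) := by
  rw [vord_nonneg_iff v h2]
  have : v ((1 : K) + 1) ≤ max (v 1) (v 1) := v.map_add 1 1
  rwa [one_add_one_eq_two, map_one, max_self] at this

theorem vord_four_nonneg (h2 : (2 : K) ≠ 0) : 0 ≤ vord v (4 : K) := by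
  have h4 : (4 : K) = 2 * 2 := by norm_num
  rw [h4, vord_mul v h2 h2]
  have := vord_two_nonneg v h2
  exact add_nonneg this this

end Ord

section Core

variable {A : Type*} [AddCommGroup A] [LinearOrder A] [IsOrderedAddMonoid A]

/-- clamp to `[0, n]` -/
def clampA (n o : A) : A := max 0 (min o n)

omit [IsOrderedAddMonoid A] in
theorem clampA_of_nonpos {n o : A} (hn : 0 < n) (h : o ≤ 0) : clampA n o = 0 := by
  unfold clampA; grind

omit [IsOrderedAddMonoid A] in
theorem clampA_of_mid {n o : A} (h0 : 0 ≤ o) (h1 : o ≤ n) : clampA n o = o := by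
  unfold clampA; grind

omit [IsOrderedAddMonoid A] in
theorem clampA_of_ge {n o : A} (hn : 0 < n) (h : n ≤ o) : clampA n o = n := by
  unfold clampA; grind

/-- The tropical law, case `a ≤ b`. -/
theorem trop_core_le (n a b x y δ π : A) (hn : 0 < n) (hab : a ≤ b)
    (hδ1 : a ≤ δ) (hδ2 : a ≠ b → δ = a)
    (hπ1 : min (a + b) n ≤ π) (hπ2 : a + b ≠ n → π = min (a + b) n)
    (hP : x + y + 2 • δ = 2 • π)
    (hS : (x = y ∧ a + min (a + b) n ≤ a + b) ∨
      (∃ σ, min x y ≤ σ ∧ (x ≠ y → σ = min x y) ∧
        min (a + b) (a + min (a + b) n) ≤ σ + 2 • δ ∧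
        (a + b < a + min (a + b) n → σ + 2 • δ = a + b))) :
    (clampA n x = min (clampA n a + clampA n b) (2 • n - (clampA n a + clampA n b)) ∧
      clampA n y = max (clampA n a - clampA n b) (clampA n b - clampA n a)) ∨
    (clampA n x = max (clampA n a - clampA n b) (clampA n b - clampA n a) ∧
      clampA n y = min (clampA n a + clampA n b) (2 • n - (clampA n a + clampA n b))) := by
  rcases le_or_gt b 0 with hb | hb
  · -- (1) E0, E0
    have ha : a ≤ 0 := hab.trans hb
    have hπ : π = a + b := by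
      have : a + b ≠ n := by grind
      rw [hπ2 this]; exact min_eq_left (by grind)
    subst hπ
    have hm : min (a + b) n = a + b := min_eq_left (by grind)
    rw [hm] at hS
    have hxy : x ≤ 0 ∧ y ≤ 0 := by
      rcases hS with ⟨h1, _⟩ | ⟨σ, h1, h2, h3, _⟩
      · subst h1; constructor <;> grind
      · have h3' : a + (a + b) ≤ σ + 2 • δ := by
          rw [min_eq_right (by grind)] at h3; exact h3
        by_cases hxy : x = y
        · subst hxy; constructor <;> grind
        · have := h2 hxy
          subst this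
          rcases le_total x y with h | h
          · rw [min_eq_left h] at h3'; constructor <;> grind
          · rw [min_eq_right h] at h3'; constructor <;> grind
    rw [clampA_of_nonpos hn ha, clampA_of_nonpos hn hb, clampA_of_nonpos hn hxy.1,
      clampA_of_nonpos hn hxy.2]
    left; constructor
    · rw [min_eq_left (by grind)]; simp
    · simp
  · rcases le_or_gt a 0 with ha | ha
    · have hne : a ≠ b := by grind
      have hδ : a = δ := (hδ2 hne).symm
      subst hδ
      rcases lt_or_ge b n with hb' | hb'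
      · -- (2) E0, mid : both roots have order `b`
        have hπ : π = a + b := by
          have : a + b ≠ n := by grind
          rw [hπ2 this]; exact min_eq_left (by grind)
        subst hπ
        have hm : min (a + b) n = a + b := min_eq_left (by grind)
        rw [hm] at hS
        have hxy : x = b ∧ y = b := by
          rcases hS with ⟨h1, _⟩ | ⟨σ, h1, h2, h3, _⟩
          · subst h1; constructor <;> grind
          · have h3' : a + (a + b) ≤ σ + 2 • a := by
              rw [min_eq_right (by grind)] at h3; exact h3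
            by_cases hxy : x = y
            · subst hxy; constructor <;> grind
            · have := h2 hxy
              subst this
              rcases le_total x y with h | h
              · rw [min_eq_left h] at h3'; constructor <;> grind
              · rw [min_eq_right h] at h3'; constructor <;> grind
        rw [clampA_of_nonpos hn ha, clampA_of_mid hb.le hb'.le, hxy.1, hxy.2,
          clampA_of_mid hb.le hb'.le]
        left; constructor
        · rw [min_eq_left (by grind)]; simp
        · rw [max_eq_right (by grind)]; simp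
      · -- (3) E0, M : both roots have order `≥ n`
        have hxy : n ≤ x ∧ n ≤ y := by
          have hπ1' : min (a + b) n - a ≥ n := by
            rcases le_total (a + b) n with h | h
            · rw [min_eq_left h]; grind
            · rw [min_eq_right h]; grind
          rcases hS with ⟨h1, _⟩ | ⟨σ, h1, h2, h3, _⟩
          · subst h1; constructor <;> grind
          · have h3' : a + min (a + b) n ≤ σ + 2 • a := by
              rw [min_eq_right (by grind)] at h3; exact h3
            by_cases hxy : x = y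
            · subst hxy; constructor <;> grind
            · have := h2 hxy
              subst this
              rcases le_total x y with h | h
              · rw [min_eq_left h] at h3'; constructor <;> grind
              · rw [min_eq_right h] at h3'; constructor <;> grind
        rw [clampA_of_nonpos hn ha, clampA_of_ge hn hb', clampA_of_ge hn hxy.1,
          clampA_of_ge hn hxy.2]
        left; constructor
        · rw [min_eq_left (by grind)]; simp
        · rw [max_eq_right (by grind)]; simp
    · rcases lt_or_ge b n with hb' | hb'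
      · -- (4) mid, mid
        have ha' : a < n := lt_of_le_of_lt hab hb'
        have h0 : a + b < a + min (a + b) n := by
          rcases le_total (a + b) n with h | h
          · rw [min_eq_left h]; grind
          · rw [min_eq_right h]; grind
        obtain ⟨σ, h1, h2, h3⟩ : ∃ σ, min x y ≤ σ ∧ (x ≠ y → σ = min x y) ∧
            σ + 2 • δ = a + b := by
          rcases hS with ⟨_, h2⟩ | ⟨σ, h1, h2, _, h4⟩
          · exact absurd h2 (not_le.mpr h0)
          · exact ⟨σ, h1, h2, h4 h0⟩
        have hπb : b < π := by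
          refine lt_of_lt_of_le ?_ hπ1
          rcases le_total (a + b) n with h | h
          · rw [min_eq_left h]; grind
          · rw [min_eq_right h]; grind
        have hxy : x ≠ y := by
          intro hxy
          subst hxy
          rw [min_self] at h1
          grind
        have hσ := h2 hxy
        subst hσ
        -- the larger root has order `2π - a - b`, clamp `fold (a + b)`
        have key : ∀ z : A, z + (a + b) = 2 • π →
            clampA n z = min (a + b) (2 • n - (a + b)) := by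
          intro z hz
          rcases lt_trichotomy (a + b) n with h | h | h
          · have hπ : π = a + b := by rw [hπ2 h.ne]; exact min_eq_left h.le
            have hz' : z = a + b := by grind
            rw [hz', clampA_of_mid (by grind) h.le, min_eq_left (by grind)]
          · have hπ : n ≤ π := by rw [h] at hπ1; simpa using hπ1
            rw [clampA_of_ge hn (by grind), h, min_eq_left (by grind)]
          · have hπ : π = n := by rw [hπ2 h.ne']; exact min_eq_right h.le
            have hz' : z = 2 • n - (a + b) := by grind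
            rw [hz', clampA_of_mid (by grind) (by grind), min_eq_right (by grind)]
        have hsmall : clampA n (min x y) = max (a - b) (b - a) := by
          rw [max_eq_right (by grind)]
          by_cases hne : a = b
          · subst hne
            rw [clampA_of_nonpos hn (by grind)]; simp
          · have hδ : a = δ := (hδ2 hne).symm
            subst hδ
            have : min x y = b - a := by grind
            rw [this, clampA_of_mid (by grind) (by grind)]
        rw [clampA_of_mid ha.le ha'.le, clampA_of_mid hb.le hb'.le]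
        rcases le_total x y with h | h
        · rw [min_eq_left h] at h3 hsmall
          right
          exact ⟨hsmall, key y (by grind)⟩
        · rw [min_eq_right h] at h3 hsmall
          left
          exact ⟨key x (by grind), hsmall⟩
      · rcases lt_or_ge a n with ha' | ha'
        · -- (5) mid, M : both roots have order `n - a`
          have hne : a ≠ b := by grind
          have hδ : a = δ := (hδ2 hne).symm
          subst hδ
          have hπ : π = n := by
            have : a + b ≠ n := by grind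
            rw [hπ2 this]; exact min_eq_right (by grind)
          subst hπ
          have hm : min (a + b) π = π := min_eq_right (by grind)
          rw [hm] at hS
          have hxy : x = π - a ∧ y = π - a := by
            rcases hS with ⟨h1, _⟩ | ⟨σ, h1, h2, h3, _⟩
            · subst h1; constructor <;> grind
            · have h3' : a + π ≤ σ + 2 • a := by
                rw [min_eq_right (by grind)] at h3; exact h3
              by_cases hxy : x = y
              · subst hxy; constructor <;> grind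
              · have := h2 hxy
                subst this
                rcases le_total x y with h | h
                · rw [min_eq_left h] at h3'; constructor <;> grind
                · rw [min_eq_right h] at h3'; constructor <;> grind
          rw [clampA_of_mid ha.le ha'.le, clampA_of_ge hn hb', hxy.1, hxy.2,
            clampA_of_mid (by grind) (by grind)]
          left; constructor
          · rw [min_eq_right (by grind)]; grind
          · rw [max_eq_right (by grind)]
        · -- (6) M, M : both roots have order `≤ 0`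
          have hb'' : n ≤ b := ha'.trans hab
          have hπ : π = n := by
            have : a + b ≠ n := by grind
            rw [hπ2 this]; exact min_eq_right (by grind)
          subst hπ
          have hm : min (a + b) π = π := min_eq_right (by grind)
          rw [hm] at hS
          have hxy : x ≤ 0 ∧ y ≤ 0 := by
            rcases hS with ⟨h1, _⟩ | ⟨σ, h1, h2, h3, _⟩
            · subst h1; constructor <;> grind
            · have h3' : a + π ≤ σ + 2 • δ := by
                rw [min_eq_right (by grind)] at h3; exact h3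
              by_cases hxy : x = y
              · subst hxy; constructor <;> grind
              · have := h2 hxy
                subst this
                rcases le_total x y with h | h
                · rw [min_eq_left h] at h3'; constructor <;> grind
                · rw [min_eq_right h] at h3'; constructor <;> grind
          rw [clampA_of_ge hn ha', clampA_of_ge hn hb'', clampA_of_nonpos hn hxy.1,
            clampA_of_nonpos hn hxy.2]
          left; constructor
          · rw [min_eq_right (by grind)]; grind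
          · simp

end Core

section Core2

variable {A : Type*} [AddCommGroup A] [LinearOrder A] [IsOrderedAddMonoid A]

/-- The tropical law (order-theoretic core): from the orders of `ξ₁ - ξ₂`, `ξ₁ξ₂ - β`, the
product identity and the sum identity, the clamps of the orders of the two roots are
`fold (c₁ + c₂)` and `|c₁ - c₂|`. -/
theorem trop_core (n a b x y δ π : A) (hn : 0 < n)
    (hδ1 : min a b ≤ δ) (hδ2 : a ≠ b → δ = min a b)
    (hπ1 : min (a + b) n ≤ π) (hπ2 : a + b ≠ n → π = min (a + b) n)
    (hP : x + y + 2 • δ = 2 • π)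
    (hS : (x = y ∧ min a b + min (a + b) n ≤ a + b) ∨
      (∃ σ, min x y ≤ σ ∧ (x ≠ y → σ = min x y) ∧
        min (a + b) (min a b + min (a + b) n) ≤ σ + 2 • δ ∧
        (a + b < min a b + min (a + b) n → σ + 2 • δ = a + b))) :
    (clampA n x = min (clampA n a + clampA n b) (2 • n - (clampA n a + clampA n b)) ∧
      clampA n y = max (clampA n a - clampA n b) (clampA n b - clampA n a)) ∨
    (clampA n x = max (clampA n a - clampA n b) (clampA n b - clampA n a) ∧
      clampA n y = min (clampA n a + clampA n b) (2 • n - (clampA n a + clampA n b))) := by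
  rcases le_total a b with hab | hab
  · rw [min_eq_left hab] at hδ1 hδ2 hS
    exact trop_core_le n a b x y δ π hn hab hδ1 hδ2 hπ1 hπ2 hP hS
  · rw [min_eq_right hab] at hδ1 hδ2 hS
    rw [add_comm a b] at hπ1 hπ2 hS
    have := trop_core_le n b a x y δ π hn hab hδ1 (fun h => hδ2 (Ne.symm h)) hπ1 hπ2 hP hS
    rw [add_comm (clampA n b) (clampA n a), max_comm (clampA n b - clampA n a)] at this
    exact this

/-- Order-theoretic core of the duplication law. -/
theorem dup_core (n a x κ π : A) (hn : 0 < n)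
    (hκ1 : min (min (2 • a) a) n ≤ κ) (hκ2 : 0 < a → a < n → κ = a)
    (hπ1 : min (2 • a) n ≤ π) (hπ2 : 2 • a ≠ n → π = min (2 • a) n)
    (hD : x + a + κ = 2 • π) :
    clampA n x = min (2 • clampA n a) (2 • n - 2 • clampA n a) := by
  rcases le_or_gt a 0 with ha | ha
  · have hπ : π = 2 • a := by
      have : 2 • a ≠ n := by grind
      rw [hπ2 this]; exact min_eq_left (by grind)
    have hκ : 2 • a ≤ κ := by
      rw [min_eq_left (by grind : 2 • a ≤ a), min_eq_left (by grind : 2 • a ≤ n)] at hκ1
      exact hκ1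
    rw [clampA_of_nonpos hn ha, clampA_of_nonpos hn (by grind), min_eq_left (by grind)]
    simp
  · rcases lt_or_ge a n with ha' | ha'
    · have hκ := hκ2 ha ha'
      subst hκ
      rw [clampA_of_mid ha.le ha'.le]
      rcases lt_trichotomy (2 • κ) n with h | h | h
      · have hπ : π = 2 • κ := by rw [hπ2 h.ne]; exact min_eq_left h.le
        have hx : x = 2 • κ := by grind
        rw [hx, clampA_of_mid (by grind) h.le, min_eq_left (by grind)]
      · have hπ : n ≤ π := by rw [h] at hπ1; simpa using hπ1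
        rw [clampA_of_ge hn (by grind), h, min_eq_left (by grind)]
      · have hπ : π = n := by rw [hπ2 h.ne']; exact min_eq_right h.le
        have hx : x = 2 • n - 2 • κ := by grind
        rw [hx, clampA_of_mid (by grind) (by grind), min_eq_right (by grind)]
    · have hπ : π = n := by
        have : 2 • a ≠ n := by grind
        rw [hπ2 this]; exact min_eq_right (by grind)
      have hκ : n ≤ κ := by
        rw [min_eq_right (by grind : a ≤ 2 • a), min_eq_right ha'] at hκ1
        exact hκ1
      rw [clampA_of_ge hn ha', clampA_of_nonpos hn (by grind), min_eq_right (by grind)]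
      grind

end Core2

section Law

variable {K : Type*} [Field K] {Γ₀ : Type*} [LinearOrderedCommGroupWithZero Γ₀]
variable (v : Valuation K Γ₀)

/-- The clamp of the order of `x` to `[0, ord β]`. -/
noncomputable def cl (β x : K) : Additive Γ₀ˣ := clampA (vord v β) (vord v x)

/-- **Tropical Kummer law** (field level, no hypothesis on `v 2`). -/
theorem trop_law {B β ξ₁ ξ₂ rp rm : K} (hB : v B = 1) (hβ : v β < 1) (hβ0 : β ≠ 0)
    (h1 : ξ₁ ≠ 0) (h2 : ξ₂ ≠ 0) (hrp : rp ≠ 0) (hrm : rm ≠ 0) (hne : ξ₁ ≠ ξ₂)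
    (hP : rp * rm * (ξ₁ - ξ₂) ^ 2 = (ξ₁ * ξ₂ - β) ^ 2)
    (hS : (rp + rm) * (ξ₁ - ξ₂) ^ 2 = 2 * (ξ₁ + ξ₂) * (ξ₁ * ξ₂ + β) + B * ξ₁ * ξ₂) :
    (cl v β rp = min (cl v β ξ₁ + cl v β ξ₂) (2 • vord v β - (cl v β ξ₁ + cl v β ξ₂)) ∧
      cl v β rm = max (cl v β ξ₁ - cl v β ξ₂) (cl v β ξ₂ - cl v β ξ₁)) ∨
    (cl v β rp = max (cl v β ξ₁ - cl v β ξ₂) (cl v β ξ₂ - cl v β ξ₁) ∧
      cl v β rm = min (cl v β ξ₁ + cl v β ξ₂) (2 • vord v β - (cl v β ξ₁ + cl v β ξ₂))) := by
  have hn : 0 < vord v β := (vord_pos_iff v hβ0).mpr hβ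
  have hd : ξ₁ - ξ₂ ≠ 0 := sub_ne_zero.mpr hne
  have h12 : ξ₁ * ξ₂ ≠ 0 := mul_ne_zero h1 h2
  have hB0 : B ≠ 0 := by
    intro h
    rw [h, map_zero] at hB
    exact zero_ne_one hB
  have hq : ξ₁ * ξ₂ - β ≠ 0 := by
    intro h
    rw [h] at hP
    have : rp * rm * (ξ₁ - ξ₂) ^ 2 ≠ 0 := mul_ne_zero (mul_ne_zero hrp hrm) (pow_ne_zero 2 hd)
    exact this (by rw [hP]; ring)
  have h12o : vord v (ξ₁ * ξ₂) = vord v ξ₁ + vord v ξ₂ := vord_mul v h1 h2
  -- order of `ξ₁ - ξ₂`
  have hδ1 : min (vord v ξ₁) (vord v ξ₂) ≤ vord v (ξ₁ - ξ₂) := vord_sub v h1 h2 hd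
  have hδ2 : vord v ξ₁ ≠ vord v ξ₂ → vord v (ξ₁ - ξ₂) = min (vord v ξ₁) (vord v ξ₂) := by
    intro h
    rcases lt_or_gt_of_ne h with h | h
    · rw [(vord_sub_of_lt v h1 h2 h).2, min_eq_left h.le]
    · rw [(vord_sub_of_gt v h1 h2 h).2, min_eq_right h.le]
  -- order of `ξ₁ ξ₂ - β`
  have hπ1 : min (vord v ξ₁ + vord v ξ₂) (vord v β) ≤ vord v (ξ₁ * ξ₂ - β) := by
    rw [← h12o]; exact vord_sub v h12 hβ0 hq
  have hπ2 : vord v ξ₁ + vord v ξ₂ ≠ vord v β →
      vord v (ξ₁ * ξ₂ - β) = min (vord v ξ₁ + vord v ξ₂) (vord v β) := by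
    intro h
    rw [← h12o] at h ⊢
    rcases lt_or_gt_of_ne h with h | h
    · rw [(vord_sub_of_lt v h12 hβ0 h).2, min_eq_left h.le]
    · rw [(vord_sub_of_gt v h12 hβ0 h).2, min_eq_right h.le]
  -- the product identity
  have hP' : vord v rp + vord v rm + 2 • vord v (ξ₁ - ξ₂) = 2 • vord v (ξ₁ * ξ₂ - β) := by
    have := congrArg (vord v) hP
    rwa [vord_mul v (mul_ne_zero hrp hrm) (pow_ne_zero 2 hd), vord_mul v hrp hrm,
      vord_pow v hd, vord_pow v hq] at this
  -- the sum identity
  have hV0 : B * ξ₁ * ξ₂ ≠ 0 := mul_ne_zero (mul_ne_zero hB0 h1) h2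
  have hVo : vord v (B * ξ₁ * ξ₂) = vord v ξ₁ + vord v ξ₂ := by
    rw [vord_mul v (mul_ne_zero hB0 h1) h2, vord_mul v hB0 h1, vord_eq_zero_of v hB, zero_add]
  have hUo : 2 * (ξ₁ + ξ₂) * (ξ₁ * ξ₂ + β) ≠ 0 →
      min (vord v ξ₁) (vord v ξ₂) + min (vord v ξ₁ + vord v ξ₂) (vord v β) ≤
        vord v (2 * (ξ₁ + ξ₂) * (ξ₁ * ξ₂ + β)) := by
    intro hU
    have hU1 : (2 : K) * (ξ₁ + ξ₂) ≠ 0 := left_ne_zero_of_mul hU
    have hU2 : ξ₁ * ξ₂ + β ≠ 0 := right_ne_zero_of_mul hU
    have h20 : (2 : K) ≠ 0 := left_ne_zero_of_mul hU1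
    have hs0 : ξ₁ + ξ₂ ≠ 0 := right_ne_zero_of_mul hU1
    rw [vord_mul v hU1 hU2, vord_mul v h20 hs0]
    have e1 := vord_two_nonneg v h20
    have e2 := vord_add v h1 h2 hs0
    have e3 := vord_add v h12 hβ0 hU2
    rw [h12o] at e3
    calc min (vord v ξ₁) (vord v ξ₂) + min (vord v ξ₁ + vord v ξ₂) (vord v β)
        ≤ vord v (ξ₁ + ξ₂) + vord v (ξ₁ * ξ₂ + β) := add_le_add e2 e3
      _ = 0 + vord v (ξ₁ + ξ₂) + vord v (ξ₁ * ξ₂ + β) := by rw [zero_add]
      _ ≤ vord v 2 + vord v (ξ₁ + ξ₂) + vord v (ξ₁ * ξ₂ + β) := by gcongr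
  have hS' : (vord v rp = vord v rm ∧
        min (vord v ξ₁) (vord v ξ₂) + min (vord v ξ₁ + vord v ξ₂) (vord v β) ≤
          vord v ξ₁ + vord v ξ₂) ∨
      (∃ σ, min (vord v rp) (vord v rm) ≤ σ ∧
        (vord v rp ≠ vord v rm → σ = min (vord v rp) (vord v rm)) ∧
        min (vord v ξ₁ + vord v ξ₂)
          (min (vord v ξ₁) (vord v ξ₂) + min (vord v ξ₁ + vord v ξ₂) (vord v β)) ≤
            σ + 2 • vord v (ξ₁ - ξ₂) ∧
        (vord v ξ₁ + vord v ξ₂ <
            min (vord v ξ₁) (vord v ξ₂) + min (vord v ξ₁ + vord v ξ₂) (vord v β) →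
          σ + 2 • vord v (ξ₁ - ξ₂) = vord v ξ₁ + vord v ξ₂)) := by
    by_cases hR : rp + rm = 0
    · left
      constructor
      · have : rp = -rm := eq_neg_of_add_eq_zero_left hR
        rw [this, vord_neg]
      · rw [hR, zero_mul] at hS
        have hU : 2 * (ξ₁ + ξ₂) * (ξ₁ * ξ₂ + β) = -(B * ξ₁ * ξ₂) :=
          eq_neg_of_add_eq_zero_left hS.symm
        have hU0 : 2 * (ξ₁ + ξ₂) * (ξ₁ * ξ₂ + β) ≠ 0 := by
          rw [hU]; exact neg_ne_zero.mpr hV0
        have := hUo hU0
        rwa [hU, vord_neg, hVo] at this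
    · right
      refine ⟨vord v (rp + rm), vord_add v hrp hrm hR, ?_, ?_, ?_⟩
      · intro h
        rcases lt_or_gt_of_ne h with h | h
        · rw [(vord_add_of_lt v hrp hrm h).2, min_eq_left h.le]
        · rw [add_comm rp rm, (vord_add_of_lt v hrm hrp h).2, min_eq_right h.le]
      · have hτ : vord v (rp + rm) + 2 • vord v (ξ₁ - ξ₂) =
            vord v (2 * (ξ₁ + ξ₂) * (ξ₁ * ξ₂ + β) + B * ξ₁ * ξ₂) := by
          rw [← hS, vord_mul v hR (pow_ne_zero 2 hd), vord_pow v hd]
        rw [hτ]
        have hτ0 : 2 * (ξ₁ + ξ₂) * (ξ₁ * ξ₂ + β) + B * ξ₁ * ξ₂ ≠ 0 := by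
          rw [← hS]; exact mul_ne_zero hR (pow_ne_zero 2 hd)
        by_cases hU : 2 * (ξ₁ + ξ₂) * (ξ₁ * ξ₂ + β) = 0
        · rw [hU, zero_add, hVo]
          exact min_le_left _ _
        · have e := vord_add v hU hV0 hτ0
          rw [hVo] at e
          have e' := hUo hU
          rw [min_comm]
          exact le_trans (min_le_min e' le_rfl) e
      · intro hlt
        have hτ : vord v (rp + rm) + 2 • vord v (ξ₁ - ξ₂) =
            vord v (2 * (ξ₁ + ξ₂) * (ξ₁ * ξ₂ + β) + B * ξ₁ * ξ₂) := by
          rw [← hS, vord_mul v hR (pow_ne_zero 2 hd), vord_pow v hd]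
        rw [hτ]
        by_cases hU : 2 * (ξ₁ + ξ₂) * (ξ₁ * ξ₂ + β) = 0
        · rw [hU, zero_add, hVo]
        · have e' := hUo hU
          have hlt' : vord v (B * ξ₁ * ξ₂) < vord v (2 * (ξ₁ + ξ₂) * (ξ₁ * ξ₂ + β)) := by
            rw [hVo]; exact lt_of_lt_of_le hlt e'
          rw [add_comm, (vord_add_of_lt v hV0 hU hlt').2, hVo]
  exact trop_core (vord v β) (vord v ξ₁) (vord v ξ₂) (vord v rp) (vord v rm)
    (vord v (ξ₁ - ξ₂)) (vord v (ξ₁ * ξ₂ - β)) hn hδ1 hδ2 hπ1 hπ2 hP' hS'

end Law

section Dup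

variable {K : Type*} [Field K] {Γ₀ : Type*} [LinearOrderedCommGroupWithZero Γ₀]
variable (v : Valuation K Γ₀)

/-- **Tropical duplication law** (field level, no hypothesis on `v 2`). -/
theorem trop_dup {B β ξ r : K} (hB : v B = 1) (hβ : v β < 1) (hβ0 : β ≠ 0)
    (hξ : ξ ≠ 0) (hr : r ≠ 0) (hden : 4 * ξ ^ 2 + B * ξ + 4 * β ≠ 0)
    (hD : r * (ξ * (4 * ξ ^ 2 + B * ξ + 4 * β)) = (ξ ^ 2 - β) ^ 2) :
    cl v β r = min (2 • cl v β ξ) (2 • vord v β - 2 • cl v β ξ) := by
  have hn : 0 < vord v β := (vord_pos_iff v hβ0).mpr hβ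
  have hB0 : B ≠ 0 := by
    intro h
    rw [h, map_zero] at hB
    exact zero_ne_one hB
  have hξ2 : ξ ^ 2 ≠ 0 := pow_ne_zero 2 hξ
  have hq : ξ ^ 2 - β ≠ 0 := by
    intro h
    rw [h] at hD
    have : r * (ξ * (4 * ξ ^ 2 + B * ξ + 4 * β)) ≠ 0 := mul_ne_zero hr (mul_ne_zero hξ hden)
    exact this (by rw [hD]; ring)
  have hξ2o : vord v (ξ ^ 2) = 2 • vord v ξ := vord_pow v hξ 2
  have hπ1 : min (2 • vord v ξ) (vord v β) ≤ vord v (ξ ^ 2 - β) := by
    rw [← hξ2o]; exact vord_sub v hξ2 hβ0 hq
  have hπ2 : 2 • vord v ξ ≠ vord v β →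
      vord v (ξ ^ 2 - β) = min (2 • vord v ξ) (vord v β) := by
    intro h
    rw [← hξ2o] at h ⊢
    rcases lt_or_gt_of_ne h with h | h
    · rw [(vord_sub_of_lt v hξ2 hβ0 h).2, min_eq_left h.le]
    · rw [(vord_sub_of_gt v hξ2 hβ0 h).2, min_eq_right h.le]
  have hD' : vord v r + vord v ξ + vord v (4 * ξ ^ 2 + B * ξ + 4 * β) =
      2 • vord v (ξ ^ 2 - β) := by
    have := congrArg (vord v) hD
    rwa [vord_mul v hr (mul_ne_zero hξ hden), vord_mul v hξ hden, vord_pow v hq, ← add_assoc]
      at this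
  have hBξ0 : B * ξ ≠ 0 := mul_ne_zero hB0 hξ
  have hBξo : vord v (B * ξ) = vord v ξ := by
    rw [vord_mul v hB0 hξ, vord_eq_zero_of v hB, zero_add]
  -- the order of the quadratic factor
  have hκ : min (min (2 • vord v ξ) (vord v ξ)) (vord v β) ≤
        vord v (4 * ξ ^ 2 + B * ξ + 4 * β) ∧
      (0 < vord v ξ → vord v ξ < vord v β →
        vord v (4 * ξ ^ 2 + B * ξ + 4 * β) = vord v ξ) := by
    by_cases h2 : (2 : K) = 0
    · have h4 : (4 : K) = 0 := by
        have : (4 : K) = 2 * 2 := by norm_num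
        rw [this, h2, mul_zero]
      have hC : 4 * ξ ^ 2 + B * ξ + 4 * β = B * ξ := by rw [h4]; ring
      rw [hC, hBξo]
      exact ⟨le_trans (min_le_left _ _) (min_le_right _ _), fun _ _ => rfl⟩
    · have h4 : (4 : K) ≠ 0 := by
        have : (4 : K) = 2 * 2 := by norm_num
        rw [this]; exact mul_ne_zero h2 h2
      have h4o := vord_four_nonneg v h2
      have ht1 : (4 : K) * ξ ^ 2 ≠ 0 := mul_ne_zero h4 hξ2
      have ht3 : (4 : K) * β ≠ 0 := mul_ne_zero h4 hβ0
      have ht1o : 2 • vord v ξ ≤ vord v (4 * ξ ^ 2) := by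
        rw [vord_mul v h4 hξ2, hξ2o]; exact le_add_of_nonneg_left h4o
      have ht3o : vord v β ≤ vord v (4 * β) := by
        rw [vord_mul v h4 hβ0]; exact le_add_of_nonneg_left h4o
      constructor
      · by_cases h12 : 4 * ξ ^ 2 + B * ξ = 0
        · rw [h12, zero_add]
          exact le_trans (min_le_right _ _) ht3o
        · have e1 := vord_add v ht1 hBξ0 h12
          rw [hBξo] at e1
          have e2 := vord_add v h12 ht3 hden
          refine le_trans ?_ e2
          exact min_le_min (le_trans (min_le_min ht1o le_rfl) e1) ht3o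
      · intro ha ha'
        have hC : 4 * ξ ^ 2 + B * ξ + 4 * β = B * ξ + (4 * ξ ^ 2 + 4 * β) := by ring
        rw [hC]
        by_cases h13 : 4 * ξ ^ 2 + 4 * β = 0
        · rw [h13, add_zero, hBξo]
        · have e1 := vord_add v ht1 ht3 h13
          have hlt : vord v (B * ξ) < vord v (4 * ξ ^ 2 + 4 * β) := by
            rw [hBξo]
            refine lt_of_lt_of_le ?_ e1
            refine lt_min (lt_of_lt_of_le ?_ ht1o) (lt_of_lt_of_le ha' ht3o)
            rw [two_nsmul]
            exact lt_add_of_pos_left _ ha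
          rw [(vord_add_of_lt v hBξ0 h13 hlt).2, hBξo]
  exact dup_core (vord v β) (vord v ξ) (vord v r) (vord v (4 * ξ ^ 2 + B * ξ + 4 * β))
    (vord v (ξ ^ 2 - β)) hn hκ.1 hκ.2 hπ1 hπ2 hD'

end Dup

section Cheb

variable {Q : Type*} [AddCommGroup Q]

/-- Equality up to sign. -/
def PM (x y : Q) : Prop := x = y ∨ x = -y

theorem PM.refl (x : Q) : PM x x := Or.inl rfl

theorem PM.symm {x y : Q} (h : PM x y) : PM y x := by
  rcases h with h | h
  · exact Or.inl h.symm
  · exact Or.inr (by rw [h, neg_neg])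

theorem PM.trans {x y z : Q} (h : PM x y) (h' : PM y z) : PM x z := by
  rcases h with h | h <;> rcases h' with h' | h'
  · exact Or.inl (h.trans h')
  · exact Or.inr (h.trans h')
  · exact Or.inr (by rw [h, h'])
  · exact Or.inl (by rw [h, h', neg_neg])

theorem PM.neg_right {x y : Q} (h : PM x y) : PM x (-y) := by
  rcases h with h | h
  · exact Or.inr (by rw [h, neg_neg])
  · exact Or.inl h

/-- One step of the Chebyshev-type induction. -/
theorem cheb_step (g ak akm akp u w : Q) (k : ℕ)
    (h1 : PM ak ((k + 1) • g)) (h0 : PM akm (k • g)) (hu : PM u (ak + g)) (hw : PM w (ak - g))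
    (hp : (akp = u ∧ akm = w) ∨ (akp = w ∧ akm = u)) : PM akp ((k + 2) • g) := by
  have e1 : (k + 1) • g + g = (k + 2) • g := by rw [← succ_nsmul]
  have e2 : (k + 1) • g - g = k • g := by rw [succ_nsmul]; abel
  rcases h1 with h1 | h1
  · -- `ak = (k+1) g`
    have hu' : PM u ((k + 2) • g) := by rw [h1, e1] at hu; exact hu
    have hw' : PM w (k • g) := by rw [h1, e2] at hw; exact hw
    rcases hp with ⟨hp1, _⟩ | ⟨hp1, hp2⟩
    · rw [hp1]; exact hu'
    · rw [hp1]
      rw [hp2] at h0
      exact hw'.trans (h0.symm.trans hu')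
  · -- `ak = -(k+1) g`
    have e3 : -((k + 1) • g) + g = -(k • g) := by rw [succ_nsmul]; abel
    have e4 : -((k + 1) • g) - g = -((k + 2) • g) := by rw [← e1]; abel
    have hu' : PM u (k • g) := by
      rw [h1, e3] at hu; simpa using hu.neg_right
    have hw' : PM w ((k + 2) • g) := by
      rw [h1, e4] at hw; simpa using hw.neg_right
    rcases hp with ⟨hp1, hp2⟩ | ⟨hp1, _⟩
    · rw [hp1]
      rw [hp2] at h0
      exact hu'.trans (h0.symm.trans hw')
    · rw [hp1]; exact hw'

/-- End of the induction: if the values at `m` and `m + 1` agree, then `(2m+1) g = 0`. -/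
theorem cheb_end (g am am1 : Q) (m : ℕ) (h0 : PM am (m • g)) (h1 : PM am1 ((m + 1) • g))
    (he : am1 = am) : (2 * m + 1) • g = 0 := by
  have e : (2 * m + 1) • g = (m + 1) • g + m • g := by
    rw [← add_nsmul]; congr 1; ring
  have e' : (m + 1) • g = m • g + g := succ_nsmul g m
  rw [he] at h1
  rcases h0 with h0 | h0 <;> rcases h1 with h1 | h1
  · -- m g = (m+1) g
    have hg : g = 0 := by
      have : m • g = m • g + g := by rw [← e', ← h1, h0]
      simpa using this
    rw [hg, smul_zero]
  · have h2 : m • g = -((m + 1) • g) := h0.symm.trans h1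
    rw [e, h2]; simp
  · rw [e, ← h1, h0]; simp
  · have hg : g = 0 := by
      have : -(m • g) = -(m • g + g) := by rw [← e', ← h1, h0]
      have := neg_injective this
      simpa using this
    rw [hg, smul_zero]

end Cheb

section Depth

variable {K : Type*} [Field K] {Γ₀ : Type*} [LinearOrderedCommGroupWithZero Γ₀]

theorem odd_smul_absurd {A : Type*} [AddCommGroup A] [LinearOrder A] [IsOrderedAddMonoid A]
    (n : A) (j : ℤ) (m : ℕ) (hn : 0 < n) (h : j • (2 • n) = (2 * m + 1) • n) : False := by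
  have e1 : j • (2 • n) = (2 * j) • n := by
    rw [mul_comm, mul_zsmul]; norm_cast
  have e2 : (2 * m + 1) • n = ((2 * m + 1 : ℕ) : ℤ) • n := (natCast_zsmul n _).symm
  have h1 : (2 * j - ((2 * m + 1 : ℕ) : ℤ)) • n = 0 := by
    rw [sub_smul, ← e1, ← e2, h, sub_self]
  rcases smul_eq_zero.mp h1 with h | h
  · push_cast at h; omega
  · exact hn.ne' h

/-- **Torsion depth near the node** (abstract `x`-only form, no hypothesis on `v 2`).

`G` is an abelian group with an "`x`-coordinate" `X : G → K` (shifted so that the node is at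
`0`) satisfying the Kummer identities of the curve `η² + … = ξ³ + (B/4) ξ² + β ξ`.
If `T` has odd exact order `2m+1 ≥ 3` and `v (X T) < 1`, then `v β < v (X T)` and
`v (X T) ^ (2m+1) = v β ^ (2j)` for some integer `j`. -/
theorem torsion_depth {G : Type*} [AddCommGroup G] (X : G → K) (v : Valuation K Γ₀)
    (B β : K) (hB : v B = 1) (hβ : v β < 1) (hβ0 : β ≠ 0)
    (hX0 : ∀ P : G, 2 • P ≠ 0 → X P ≠ 0)
    (hneg : ∀ P : G, X (-P) = X P)
    (hinj : ∀ P Q : G, P ≠ 0 → Q ≠ 0 → X P = X Q → P = Q ∨ P = -Q)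
    (haddsub : ∀ P Q : G, P ≠ 0 → Q ≠ 0 → X P ≠ X Q →
      X (P + Q) * X (P - Q) * (X P - X Q) ^ 2 = (X P * X Q - β) ^ 2 ∧
      (X (P + Q) + X (P - Q)) * (X P - X Q) ^ 2 =
        2 * (X P + X Q) * (X P * X Q + β) + B * X P * X Q)
    (hdup : ∀ P : G, 2 • P ≠ 0 →
      4 * X P ^ 2 + B * X P + 4 * β ≠ 0 ∧
      X (2 • P) * (X P * (4 * X P ^ 2 + B * X P + 4 * β)) = (X P ^ 2 - β) ^ 2)
    (T : G) (m : ℕ) (hm : 0 < m) (hT : ∀ k : ℕ, 0 < k → k < 2 * m + 1 → k • T ≠ 0)
    (hnT : (2 * m + 1) • T = 0) (hX : v (X T) < 1) :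
    v β < v (X T) ∧ ∃ j : ℤ, v (X T) ^ (2 * m + 1) = v β ^ (2 * j) := by
  have hn : 0 < vord v β := (vord_pos_iff v hβ0).mpr hβ
  -- doubles of the nonzero multiples are nonzero
  have nz : ∀ k : ℕ, 0 < k → k < 2 * m + 1 → 2 • (k • T) ≠ 0 := by
    intro k hk hk'
    rw [← mul_nsmul]
    rcases Nat.lt_or_ge (k * 2) (2 * m + 1) with h | h
    · exact hT (k * 2) (by omega) h
    · have h' : k * 2 = (k * 2 - (2 * m + 1)) + (2 * m + 1) := by omega
      rw [h', add_nsmul, hnT, add_zero]
      exact hT _ (by omega) (by omega)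
  have Xnz : ∀ k : ℕ, 0 < k → k < 2 * m + 1 → X (k • T) ≠ 0 :=
    fun k hk hk' => hX0 _ (nz k hk hk')
  have hT0 : T ≠ 0 := by simpa using hT 1 (by omega) (by omega)
  have hXT0 : X T ≠ 0 := by simpa using Xnz 1 (by omega) (by omega)
  -- the quotient by `2 ord β`
  let φ := QuotientAddGroup.mk' (AddSubgroup.zmultiples (2 • vord v β))
  have hφ2n : φ (2 • vord v β) = 0 :=
    (QuotientAddGroup.eq_zero_iff _).mpr (AddSubgroup.mem_zmultiples _)
  have hfold : ∀ s : Additive Γ₀ˣ, PM (φ (min s (2 • vord v β - s))) (φ s) := by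
    intro s
    rcases min_choice s (2 • vord v β - s) with h | h
    · rw [h]; exact PM.refl _
    · rw [h, map_sub, hφ2n, zero_sub]; exact Or.inr rfl
  have habs : ∀ s t : Additive Γ₀ˣ, PM (φ (max (s - t) (t - s))) (φ s - φ t) := by
    intro s t
    rcases max_choice (s - t) (t - s) with h | h
    · rw [h, map_sub]; exact PM.refl _
    · rw [h, map_sub]; exact Or.inr (neg_sub _ _).symm
  let c : ℕ → Additive Γ₀ˣ := fun k => cl v β (X (k • T))
  have hc1 : c 1 = cl v β (X T) := by simp only [c, one_nsmul]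
  -- the step
  have step : ∀ k : ℕ, 0 < k → k + 2 < 2 * m + 1 →
      ∃ u w, PM u (φ (c (k + 1)) + φ (c 1)) ∧ PM w (φ (c (k + 1)) - φ (c 1)) ∧
        ((φ (c (k + 2)) = u ∧ φ (c k) = w) ∨ (φ (c (k + 2)) = w ∧ φ (c k) = u)) := by
    intro k hk hk'
    have hP0 : (k + 1) • T ≠ 0 := hT (k + 1) (by omega) (by omega)
    have e1 : (k + 1) • T + T = (k + 2) • T := (succ_nsmul T (k + 1)).symm
    have e2 : (k + 1) • T - T = k • T := by rw [succ_nsmul]; abel
    have hne : X ((k + 1) • T) ≠ X T := by
      intro h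
      rcases hinj _ _ hP0 hT0 h with h | h
      · apply hT k hk (by omega)
        rw [← e2, h, sub_self]
      · apply hT (k + 2) (by omega) hk'
        rw [← e1, h, neg_add_cancel]
    obtain ⟨hPi, hSi⟩ := haddsub _ _ hP0 hT0 hne
    rw [e1, e2] at hPi hSi
    have hlaw := trop_law v hB hβ hβ0 (Xnz (k + 1) (by omega) (by omega)) hXT0
      (Xnz (k + 2) (by omega) hk') (Xnz k hk (by omega)) hne hPi hSi
    refine ⟨φ (min (c (k + 1) + c 1) (2 • vord v β - (c (k + 1) + c 1))),
      φ (max (c (k + 1) - c 1) (c 1 - c (k + 1))), ?_, ?_, ?_⟩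
    · have := hfold (c (k + 1) + c 1)
      rwa [map_add] at this
    · exact habs _ _
    · rw [hc1]
      rcases hlaw with ⟨h1, h2⟩ | ⟨h1, h2⟩
      · exact Or.inl ⟨congrArg φ h1, congrArg φ h2⟩
      · exact Or.inr ⟨congrArg φ h1, congrArg φ h2⟩
  -- the base case: duplication
  have ha2 : PM (φ (c 2)) ((0 + 2) • φ (c 1)) := by
    obtain ⟨hden, hDi⟩ := hdup T (by simpa using nz 1 (by omega) (by omega))
    have hd := trop_dup v hB hβ hβ0 hXT0 (Xnz 2 (by omega) (by omega)) hden hDi
    have := hfold (2 • c 1)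
    rw [map_nsmul] at this
    rw [hc1] at this ⊢
    have hc2 : c 2 = cl v β (X (2 • T)) := rfl
    rw [hc2, hd, zero_add]
    exact this
  -- the induction
  have ind : ∀ k : ℕ, k + 2 ≤ 2 * m →
      PM (φ (c (k + 1))) ((k + 1) • φ (c 1)) ∧ PM (φ (c (k + 2))) ((k + 2) • φ (c 1)) := by
    intro k
    induction k with
    | zero =>
      intro _
      refine ⟨?_, ha2⟩
      rw [zero_add, one_nsmul]
      exact PM.refl _
    | succ k ih =>
      intro hk
      obtain ⟨ih1, ih2⟩ := ih (by omega)
      refine ⟨ih2, ?_⟩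
      obtain ⟨u, w, hu, hw, hp⟩ := step (k + 1) (by omega) (by omega)
      exact cheb_step (φ (c 1)) (φ (c (k + 1 + 1))) (φ (c (k + 1))) (φ (c (k + 1 + 2))) u w
        (k + 1) ih2 ih1 hu hw hp
  -- the end
  obtain ⟨hm1, hm2⟩ := ind (m - 1) (by omega)
  have em1 : m - 1 + 1 = m := by omega
  have em2 : m - 1 + 2 = m + 1 := by omega
  rw [em1] at hm1
  rw [em2] at hm2
  have hXeq : X ((m + 1) • T) = X (m • T) := by
    have : (m + 1) • T = -(m • T) := by
      apply eq_neg_of_add_eq_zero_left
      rw [← add_nsmul]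
      have : m + 1 + m = 2 * m + 1 := by ring
      rw [this]; exact hnT
    rw [this, hneg]
  have hceq : φ (c (m + 1)) = φ (c m) := by simp only [c, hXeq]
  have hg := cheb_end (φ (c 1)) (φ (c m)) (φ (c (m + 1))) m hm1 hm2 hceq
  rw [← map_nsmul] at hg
  have hmem : (2 * m + 1) • c 1 ∈ AddSubgroup.zmultiples (2 • vord v β) :=
    (QuotientAddGroup.eq_zero_iff _).mp hg
  obtain ⟨j, hj⟩ := AddSubgroup.mem_zmultiples_iff.mp hmem
  -- conclusion
  have ha : 0 < vord v (X T) := (vord_pos_iff v hXT0).mpr hX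
  have hlt : vord v (X T) < vord v β := by
    by_contra hge
    have hge := not_lt.mp hge
    rw [hc1, cl, clampA_of_ge hn hge] at hj
    exact odd_smul_absurd _ j m hn hj
  refine ⟨(vord_lt_iff v hXT0 hβ0).mp hlt, j, ?_⟩
  rw [hc1, cl, clampA_of_mid ha.le hlt.le, vord_of_ne v hXT0, vord_of_ne v hβ0] at hj
  have h1 := congrArg Additive.toMul hj
  simp only [toMul_zsmul, toMul_nsmul, toMul_ofMul] at h1
  have h2 := congrArg (fun u : Γ₀ˣ => ((u⁻¹ : Γ₀ˣ) : Γ₀)) h1
  simp only [inv_pow, inv_zpow', inv_inv, zpow_neg, Units.val_pow_eq_pow_val,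
    Units.val_zpow_eq_zpow_val, Units.val_mk0] at h2
  rw [zpow_mul]
  exact_mod_cast h2.symm

end Depth

end Fermat.Agent.Lib.helper1061
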