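import Mathlib

/-!
# S17-HT-CRAMER: small kernel vectors (Cramer / Siegel-type lemma without pigeonhole)

For a matrix `M` over a field with a nontrivial kernel we exhibit a nonzero kernel vector whose
coordinates are (signed) maximal minors of `M` ("Cramer vector"), and we bound its height by the
product of the affine heights of the rows of `M`, with a constant of the shape
`(number of rows)! ^ totalWeight K` (hence uniform after normalising by the degree of a number
field).

Main declarations (namespace `Fermat.Agent.Lib.helper1080`):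

* `cramerVec M r c` : the Cramer vector of the rows `r : Fin ρ → m` and the columns
  `c : Fin (ρ + 1) → n`.
* `sum_mul_cramerVec`, `mulVec_cramerVec` : Laplace expansion; `M *ᵥ cramerVec M r c` consists of
  `(ρ + 1)`-minors of `M`.
* `exists_cramerVec_of_ker` : a nontrivial kernel contains a nonzero Cramer vector (with injective
  `r` and `c`).
* `abv_det_le`, `abv_det_le_of_isNonarchimedean` : Hadamard-type local bounds for determinants by
  the product of the row suprema.
* `mulHeight_cramerVec_le` : the global height bound.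
* `exists_ker_mulHeight_le`, `exists_ker_logHeight_le`, `exists_ker_logHeight_le_of_forall_le` :
  existence of a small kernel vector.
-/

namespace Fermat.Agent.Lib.helper1080

open Matrix Function

section CramerAlgebra

variable {K : Type*} [Field K] {m n : Type*} [Fintype n] [DecidableEq n]

/-- The Cramer vector attached to the rows `r` and the columns `c` of `M`: its coordinate at
`c j` is the signed minor of `M` on the rows `r` and the columns `c` with `c j` removed. -/
noncomputable def cramerVec {ρ : ℕ} (M : Matrix m n K) (r : Fin ρ → m) (c : Fin (ρ + 1) → n) :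
    n → K :=
  fun x => ∑ j, if c j = x then (-1) ^ (j : ℕ) * det (M.submatrix r (c ∘ j.succAbove)) else 0

/-- Laplace expansion: pairing a vector `u` with the Cramer vector gives the determinant of the
minor bordered by `u`. -/
theorem sum_mul_cramerVec {ρ : ℕ} (M : Matrix m n K) (r : Fin ρ → m) (c : Fin (ρ + 1) → n)
    (u : n → K) :
    ∑ x, u x * cramerVec M r c x =
      det (Matrix.of fun (i j : Fin (ρ + 1)) =>
        (Fin.cons (u (c j)) (fun i' => M (r i') (c j)) : Fin (ρ + 1) → K) i) := by
  rw [det_succ_row_zero]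
  simp only [cramerVec, Finset.mul_sum]
  rw [Finset.sum_comm]
  refine Finset.sum_congr rfl fun j _ => ?_
  simp only [mul_ite, mul_zero, Finset.sum_ite_eq, Finset.mem_univ, if_true]
  have : (Matrix.of fun (i j : Fin (ρ + 1)) =>
        (Fin.cons (u (c j)) (fun i' => M (r i') (c j)) : Fin (ρ + 1) → K) i).submatrix
          Fin.succ j.succAbove = M.submatrix r (c ∘ j.succAbove) := by
    ext i k
    simp
  rw [this]
  simp only [Matrix.of_apply, Fin.cons_zero]
  ring

/-- The entries of `M *ᵥ cramerVec M r c` are `(ρ + 1)`-minors of `M`. -/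
theorem mulVec_cramerVec {ρ : ℕ} (M : Matrix m n K) (r : Fin ρ → m) (c : Fin (ρ + 1) → n)
    (i : m) :
    (M *ᵥ cramerVec M r c) i = det (M.submatrix (Fin.cons i r) c) := by
  have h := sum_mul_cramerVec M r c (M i)
  have : (Matrix.of fun (i' j : Fin (ρ + 1)) =>
        (Fin.cons (M i (c j)) (fun i'' => M (r i'') (c j)) : Fin (ρ + 1) → K) i') =
      M.submatrix (Fin.cons i r) c := by
    ext i' j
    refine Fin.cases ?_ (fun i'' => ?_) i' <;> simp
  rw [this] at h
  rw [← h]
  rfl

omit [Fintype n] in
theorem cramerVec_apply_of_injective {ρ : ℕ} (M : Matrix m n K) (r : Fin ρ → m)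
    {c : Fin (ρ + 1) → n} (hc : Injective c) (j : Fin (ρ + 1)) :
    cramerVec M r c (c j) = (-1) ^ (j : ℕ) * det (M.submatrix r (c ∘ j.succAbove)) := by
  unfold cramerVec
  rw [Finset.sum_eq_single j]
  · simp
  · intro j' _ hj'
    rw [if_neg fun h => hj' (hc h)]
  · intro h
    exact absurd (Finset.mem_univ j) h

omit [Fintype n] in
theorem cramerVec_apply_of_notMem {ρ : ℕ} (M : Matrix m n K) (r : Fin ρ → m)
    {c : Fin (ρ + 1) → n} {x : n} (hx : x ∉ Set.range c) :
    cramerVec M r c x = 0 := by
  unfold cramerVec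
  refine Finset.sum_eq_zero fun j _ => ?_
  rw [if_neg fun h => hx ⟨j, h⟩]

omit [DecidableEq n] in
/-- There is a maximal size of a nonvanishing minor. -/
theorem exists_maximal_minor (M : Matrix m n K) :
    ∃ (ρ : ℕ) (r : Fin ρ → m) (c : Fin ρ → n), det (M.submatrix r c) ≠ 0 ∧
      ∀ (r' : Fin (ρ + 1) → m) (c' : Fin (ρ + 1) → n), det (M.submatrix r' c') = 0 := by
  by_contra hcon
  push Not at hcon
  have key : ∀ ρ : ℕ, ∃ (r : Fin ρ → m) (c : Fin ρ → n), det (M.submatrix r c) ≠ 0 := by
    intro ρ
    induction ρ with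
    | zero => exact ⟨Fin.elim0, Fin.elim0, by simp⟩
    | succ k ih =>
      obtain ⟨r, c, h⟩ := ih
      exact hcon k r c h
  obtain ⟨r, c, h⟩ := key (Fintype.card n + 1)
  have hc : ¬ Injective c := by
    intro hinj
    have := Fintype.card_le_of_injective c hinj
    simp at this
  rw [Function.not_injective_iff] at hc
  obtain ⟨j, j', hjj, hne⟩ := hc
  exact h (det_zero_of_column_eq hne fun k => by simp [hjj])

/-- A matrix with a nontrivial kernel has a nonzero Cramer vector in its kernel; the rows and
the columns involved are pairwise distinct. -/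
theorem exists_cramerVec_of_ker (M : Matrix m n K) (h : ∃ v : n → K, v ≠ 0 ∧ M *ᵥ v = 0) :
    ∃ (ρ : ℕ) (r : Fin ρ → m) (c : Fin (ρ + 1) → n), Injective r ∧ Injective c ∧
      cramerVec M r c ≠ 0 ∧ M *ᵥ cramerVec M r c = 0 := by
  obtain ⟨v, hv0, hv⟩ := h
  obtain ⟨ρ, r, c₀, hdet, hmax⟩ := exists_maximal_minor M
  have hr : Injective r := by
    intro i i' hii
    by_contra hne
    exact hdet (det_zero_of_row_eq hne (by ext k; simp [hii]))
  have hc₀ : Injective c₀ := by
    intro j j' hjj
    by_contra hne
    exact hdet (det_zero_of_column_eq hne fun k => by simp [hjj])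
  have hns : ¬ Surjective c₀ := by
    intro hsurj
    have hbij : Bijective c₀ := ⟨hc₀, hsurj⟩
    have h0 : (M.submatrix r c₀) *ᵥ (v ∘ c₀) = 0 := by
      ext i
      have := congrFun hv (r i)
      simp only [mulVec, dotProduct, Pi.zero_apply] at this ⊢
      rw [← this]
      exact hbij.sum_comp fun x => M (r i) x * v x
    have h1 := eq_zero_of_mulVec_eq_zero hdet h0
    apply hv0
    ext x
    obtain ⟨j, rfl⟩ := hsurj x
    exact congrFun h1 j
  obtain ⟨j₁, hj₁⟩ : ∃ j₁, j₁ ∉ Set.range c₀ := by
    by_contra hall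
    push Not at hall
    exact hns fun x => hall x
  refine ⟨ρ, r, Fin.cons j₁ c₀, hr, Fin.cons_injective_iff.mpr ⟨hj₁, hc₀⟩, ?_, ?_⟩
  · intro hzero
    have h1 := cramerVec_apply_of_injective M r
      (Fin.cons_injective_iff.mpr ⟨hj₁, hc₀⟩) (0 : Fin (ρ + 1))
    rw [hzero] at h1
    simp only [Pi.zero_apply, Fin.val_zero, pow_zero, one_mul, Fin.succAbove_zero] at h1
    apply hdet
    rw [h1]
    congr 1
  · ext i
    rw [mulVec_cramerVec]
    exact hmax _ _

end CramerAlgebra

section Local

variable {K : Type*} [Field K]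

/-- Hadamard-type bound: the absolute value of a determinant is at most `k!` times the product
of the row suprema. -/
theorem abv_det_le (v : AbsoluteValue K ℝ) {k : Type*} [Fintype k] [DecidableEq k]
    (B : Matrix k k K) :
    v (det B) ≤ (Fintype.card k).factorial * ∏ i, ⨆ j, v (B i j) := by
  rw [← det_transpose, det_apply']
  refine (v.sum_le _ _).trans ?_
  have hterm : ∀ σ : Equiv.Perm k,
      v (((Equiv.Perm.sign σ : ℤˣ) : ℤ) * ∏ i, Bᵀ (σ i) i) ≤ ∏ i, ⨆ j, v (B i j) := by
    intro σ
    have hs : v (((Equiv.Perm.sign σ : ℤˣ) : ℤ) : K) = 1 := by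
      rcases Int.units_eq_one_or (Equiv.Perm.sign σ) with h | h <;> simp [h]
    rw [map_mul, hs, one_mul, map_prod]
    refine Finset.prod_le_prod (fun i _ => v.nonneg _) fun i _ => ?_
    simp only [transpose_apply]
    exact Finite.le_ciSup (fun j => v (B i j)) (σ i)
  refine (Finset.sum_le_sum fun σ _ => hterm σ).trans ?_
  rw [Finset.sum_const, Finset.card_univ, Fintype.card_perm, nsmul_eq_mul]

/-- Nonarchimedean Hadamard-type bound: the absolute value of a determinant is at most the
product of the row suprema. -/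
theorem abv_det_le_of_isNonarchimedean {v : AbsoluteValue K ℝ} (hv : IsNonarchimedean v)
    {k : Type*} [Fintype k] [DecidableEq k] (B : Matrix k k K) :
    v (det B) ≤ ∏ i, ⨆ j, v (B i j) := by
  rw [← det_transpose, det_apply']
  refine (hv.apply_sum_univ_le).trans ?_
  refine ciSup_le fun σ => ?_
  have hs : v (((Equiv.Perm.sign σ : ℤˣ) : ℤ) : K) = 1 := by
    rcases Int.units_eq_one_or (Equiv.Perm.sign σ) with h | h <;> simp [h]
  rw [map_mul, hs, one_mul, map_prod]
  refine Finset.prod_le_prod (fun i _ => v.nonneg _) fun i _ => ?_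
  simp only [transpose_apply]
  exact Finite.le_ciSup (fun j => v (B i j)) (σ i)

end Local

section Global

variable {K : Type*} [Field K] {m n : Type*} [Fintype n] [DecidableEq n]

/-- The affine tuple `(1, a)` attached to a tuple `a`; its height is the affine height of `a`. -/
def affVec {n : Type*} (a : n → K) : Option n → K := fun o => o.elim 1 a

@[simp] theorem affVec_none {n : Type*} (a : n → K) : affVec a none = 1 := rfl

@[simp] theorem affVec_some {n : Type*} (a : n → K) (x : n) : affVec a (some x) = a x := rfl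

theorem affVec_ne_zero {n : Type*} (a : n → K) : affVec a ≠ 0 := fun h => by
  simpa using congrFun h none

/-- Local bound for the coordinates of a Cramer vector. -/
theorem abv_cramerVec_le (v : AbsoluteValue K ℝ) {ρ : ℕ} (M : Matrix m n K) (r : Fin ρ → m)
    {c : Fin (ρ + 1) → n} (hc : Injective c) (x : n) :
    v (cramerVec M r c x) ≤ ρ.factorial * ∏ i, ⨆ o, v (affVec (M (r i)) o) := by
  have hnn : (0 : ℝ) ≤ ρ.factorial * ∏ i, ⨆ o, v (affVec (M (r i)) o) :=
    mul_nonneg (Nat.cast_nonneg _)
      (Finset.prod_nonneg fun i _ => Real.iSup_nonneg fun o => v.nonneg _)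
  by_cases hx : x ∈ Set.range c
  · obtain ⟨j, rfl⟩ := hx
    have h1 : v ((-1 : K) ^ (j : ℕ)) = 1 := by rw [map_pow, v.map_neg, v.map_one, one_pow]
    rw [cramerVec_apply_of_injective M r hc j, map_mul, h1, one_mul]
    refine (abv_det_le v _).trans ?_
    rw [Fintype.card_fin]
    refine mul_le_mul_of_nonneg_left (Finset.prod_le_prod
      (fun i _ => Real.iSup_nonneg fun o => v.nonneg _) fun i _ => ?_) (Nat.cast_nonneg _)
    refine Real.iSup_le (fun j' => ?_) (Real.iSup_nonneg fun o => v.nonneg _)
    exact Finite.le_ciSup_of_le (some (c (j.succAbove j'))) le_rfl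
  · rw [cramerVec_apply_of_notMem M r hx, map_zero]
    exact hnn

/-- Nonarchimedean local bound for the coordinates of a Cramer vector. -/
theorem abv_cramerVec_le_of_isNonarchimedean {v : AbsoluteValue K ℝ} (hv : IsNonarchimedean v)
    {ρ : ℕ} (M : Matrix m n K) (r : Fin ρ → m)
    {c : Fin (ρ + 1) → n} (hc : Injective c) (x : n) :
    v (cramerVec M r c x) ≤ ∏ i, ⨆ o, v (affVec (M (r i)) o) := by
  have hnn : (0 : ℝ) ≤ ∏ i, ⨆ o, v (affVec (M (r i)) o) :=
    Finset.prod_nonneg fun i _ => Real.iSup_nonneg fun o => v.nonneg _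
  by_cases hx : x ∈ Set.range c
  · obtain ⟨j, rfl⟩ := hx
    have h1 : v ((-1 : K) ^ (j : ℕ)) = 1 := by rw [map_pow, v.map_neg, v.map_one, one_pow]
    rw [cramerVec_apply_of_injective M r hc j, map_mul, h1, one_mul]
    refine (abv_det_le_of_isNonarchimedean hv _).trans ?_
    refine Finset.prod_le_prod
      (fun i _ => Real.iSup_nonneg fun o => v.nonneg _) fun i _ => ?_
    refine Real.iSup_le (fun j' => ?_) (Real.iSup_nonneg fun o => v.nonneg _)
    exact Finite.le_ciSup_of_le (some (c (j.succAbove j'))) le_rfl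
  · rw [cramerVec_apply_of_notMem M r hx, map_zero]
    exact hnn

open Height AdmissibleAbsValues

variable [AdmissibleAbsValues K]

open Finset Multiset in
/-- **Height of a Cramer vector**: it is at most `ρ! ^ totalWeight K` times the product of the
affine heights of the rows involved. -/
theorem mulHeight_cramerVec_le {ρ : ℕ} (M : Matrix m n K) (r : Fin ρ → m)
    {c : Fin (ρ + 1) → n} (hc : Injective c) :
    mulHeight (cramerVec M r c) ≤
      (ρ.factorial : ℝ) ^ totalWeight K * ∏ i, mulHeight (affVec (M (r i))) := by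
  rcases eq_or_ne (cramerVec M r c) 0 with h | h
  · rw [h, mulHeight_zero]
    refine one_le_mul_of_one_le_of_one_le (one_le_pow₀ ?_) ?_
    · exact_mod_cast Nat.succ_le_of_lt (Nat.factorial_pos ρ)
    · calc (1 : ℝ) = ∏ _i : Fin ρ, (1 : ℝ) := by simp
        _ ≤ _ := Finset.prod_le_prod (fun _ _ => zero_le_one) fun i _ => one_le_mulHeight _
  have hA : ∀ i, affVec (M (r i)) ≠ 0 := fun i => affVec_ne_zero _
  have hx : Nonempty n := (Function.ne_iff.mp h).nonempty
  rw [mulHeight_eq h]
  simp_rw [mulHeight_eq (hA _)]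
  have hfin : ∀ a ∈ (Finset.univ : Finset (Fin ρ)),
      (fun v : nonarchAbsVal (K := K) => ⨆ o, v.val (affVec (M (r a)) o)).HasFiniteMulSupport :=
    fun a _ => by fun_prop (disch := exact hA a)
  rw [Finset.prod_mul_distrib, totalWeight, ← prod_replicate, ← map_const,
    ← finprod_prod_comm _ _ hfin,
    ← prod_map_prod, ← mul_assoc, ← prod_map_mul]
  simp only [Function.const_apply]
  gcongr
  · exact finprod_nonneg fun v => Real.iSup_nonneg fun o => v.val.nonneg _
  · exact prod_map_nonneg fun v _ => mul_nonneg (Nat.cast_nonneg _)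
      (Finset.prod_nonneg fun i _ => Real.iSup_nonneg fun o => v.nonneg _)
  · exact prod_map_le_prod_map₀ _ _ (fun v _ => Real.iSup_nonneg fun o => v.nonneg _)
      fun v _ => ciSup_le fun x => abv_cramerVec_le v M r hc x
  · exact finprod_le_finprod (by fun_prop (disch := exact h))
      (fun v => Real.iSup_nonneg fun o => v.val.nonneg _)
      (by fun_prop (disch := exact hA _)) fun v => ciSup_le fun x =>
        abv_cramerVec_le_of_isNonarchimedean (isNonarchimedean _ v.prop) M r hc x

open Finset in
/-- **Small kernel vector** (multiplicative form): a matrix with a nontrivial kernel has a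
nonzero kernel vector of height at most `(#rows)! ^ totalWeight K` times the product of the
affine heights of the rows. -/
theorem exists_ker_mulHeight_le [Fintype m] (M : Matrix m n K)
    (h : ∃ v : n → K, v ≠ 0 ∧ M *ᵥ v = 0) :
    ∃ w : n → K, w ≠ 0 ∧ M *ᵥ w = 0 ∧
      mulHeight w ≤ ((Fintype.card m).factorial : ℝ) ^ totalWeight K *
        ∏ i, mulHeight (affVec (M i)) := by
  classical
  obtain ⟨ρ, r, c, hr, hc, hne, hker⟩ := exists_cramerVec_of_ker M h
  refine ⟨_, hne, hker, (mulHeight_cramerVec_le M r hc).trans ?_⟩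
  have hρ : ρ ≤ Fintype.card m := by simpa using Fintype.card_le_of_injective r hr
  have h1 : (ρ.factorial : ℝ) ≤ ((Fintype.card m).factorial : ℝ) := by
    exact_mod_cast Nat.factorial_le hρ
  have h2 : ∏ i, mulHeight (affVec (M (r i))) ≤ ∏ i, mulHeight (affVec (M i)) := by
    calc ∏ i, mulHeight (affVec (M (r i)))
        = ∏ x ∈ Finset.univ.image r, mulHeight (affVec (M x)) :=
          (Finset.prod_image (f := fun x => mulHeight (affVec (M x)))
            (fun _ _ _ _ hxy => hr hxy)).symm
      _ ≤ ∏ x, mulHeight (affVec (M x)) :=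
          Finset.prod_le_prod_of_subset_of_one_le (Finset.subset_univ _)
            (fun i _ => (mulHeight_pos _).le) fun i _ _ => one_le_mulHeight _
  have h3 : (0 : ℝ) ≤ ∏ i, mulHeight (affVec (M (r i))) :=
    Finset.prod_nonneg fun i _ => (mulHeight_pos _).le
  gcongr

/-- **Small kernel vector** (logarithmic form). -/
theorem exists_ker_logHeight_le [Fintype m] (M : Matrix m n K)
    (h : ∃ v : n → K, v ≠ 0 ∧ M *ᵥ v = 0) :
    ∃ w : n → K, w ≠ 0 ∧ M *ᵥ w = 0 ∧
      logHeight w ≤ totalWeight K * Real.log (Fintype.card m).factorial +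
        ∑ i, logHeight (affVec (M i)) := by
  obtain ⟨w, hw0, hw, hle⟩ := exists_ker_mulHeight_le M h
  refine ⟨w, hw0, hw, ?_⟩
  have hfac : ((Fintype.card m).factorial : ℝ) ≠ 0 :=
    Nat.cast_ne_zero.mpr (Nat.factorial_ne_zero _)
  have hprod : ∏ i, mulHeight (affVec (M i)) ≠ 0 :=
    Finset.prod_ne_zero_iff.mpr fun i _ => mulHeight_ne_zero _
  have := Real.log_le_log (mulHeight_pos w) hle
  rw [Real.log_mul (pow_ne_zero _ hfac) hprod, Real.log_pow,
    Real.log_prod fun i _ => mulHeight_ne_zero _] at this
  simpa [logHeight_eq_log_mulHeight] using this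

/-- **Small kernel vector**, uniform row bound: if all rows have affine logarithmic height at
most `B`, there is a nonzero kernel vector of logarithmic height at most
`totalWeight K * log (#rows)! + #rows * B`. -/
theorem exists_ker_logHeight_le_of_forall_le [Fintype m] (M : Matrix m n K)
    (h : ∃ v : n → K, v ≠ 0 ∧ M *ᵥ v = 0) {B : ℝ} (hB : ∀ i, logHeight (affVec (M i)) ≤ B) :
    ∃ w : n → K, w ≠ 0 ∧ M *ᵥ w = 0 ∧
      logHeight w ≤ totalWeight K * Real.log (Fintype.card m).factorial +
        Fintype.card m * B := by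
  obtain ⟨w, hw0, hw, hle⟩ := exists_ker_logHeight_le M h
  refine ⟨w, hw0, hw, hle.trans ?_⟩
  have : ∑ i, logHeight (affVec (M i)) ≤ ∑ _i : m, B := Finset.sum_le_sum fun i _ => hB i
  simp only [Finset.sum_const, Finset.card_univ, nsmul_eq_mul] at this
  linarith

/-- If the kernel of `M` is a line, then *every* nonzero kernel vector satisfies the bound of
`exists_ker_logHeight_le` (heights are projectively invariant). -/
theorem logHeight_le_of_ker_line [Fintype m] (M : Matrix m n K) {w : n → K} (hw0 : w ≠ 0)
    (hw : M *ᵥ w = 0) (hline : ∀ w' : n → K, M *ᵥ w' = 0 → ∃ a : K, w' = a • w) :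
    logHeight w ≤ totalWeight K * Real.log (Fintype.card m).factorial +
      ∑ i, logHeight (affVec (M i)) := by
  obtain ⟨w', hw'0, hw', hle⟩ := exists_ker_logHeight_le M ⟨w, hw0, hw⟩
  obtain ⟨a, rfl⟩ := hline w' hw'
  have ha : a ≠ 0 := by
    rintro rfl
    exact hw'0 (zero_smul _ _)
  rwa [logHeight_smul_eq_logHeight w ha] at hle

end Global

end Fermat.Agent.Lib.helper1080
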