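import Mathlib

/-!
# A sharp `x`-only Montgomery ladder on Weierstrass curves (helper1080)

For a Weierstrass curve `W` over a commutative ring `R` we define polynomials
`ladX W n`, `ladZ W n : R[X]` by the binary (Montgomery) ladder

* `(X₀, Z₀) = (1, 0)`, `(X₁, Z₁) = (X, 1)`,
* `(X₂ₘ, Z₂ₘ) = dbl (Xₘ, Zₘ)`,
* `(X₂ₘ₊₁, Z₂ₘ₊₁) = dad (Xₘ₊₁, Zₘ₊₁) (Xₘ, Zₘ)` (differential addition, difference `x`).

Main results:

* `lad_isLC` : `natDegree (ladX W n) ≤ n ^ 2` with `coeff (n ^ 2) = 1`, and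
  `natDegree (ladZ W n) ≤ n ^ 2 - 1` with `coeff (n ^ 2 - 1) = n ^ 2`.
* `psiOdd_isLC` : `psiOdd W m = ladX (m+1) * ladZ m - ladX m * ladZ (m+1)` has
  `natDegree ≤ 2 * m ^ 2 + 2 * m` and the coefficient there is `-(2 * m + 1)`.
* `lad_map` : compatibility with ring homomorphisms.
* `lad_spec` : over a field, for a nonsingular affine point `P = (x, y)` the pair
  `(ladX n (x), ladZ n (x))` is a nonzero multiple of the projective `x`-coordinate of `n • P`.
-/

set_option autoImplicit false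

namespace Fermat.Agent.Lib.helper1080

open Polynomial WeierstrassCurve WeierstrassCurve.Affine

noncomputable section

section Defs

variable {R : Type*} [CommRing R] (W : WeierstrassCurve R)

/-- Doubling on projective `x`-coordinates: numerator. -/
def dblX (A B : R[X]) : R[X] :=
  A ^ 4 - C W.b₄ * A ^ 2 * B ^ 2 - C (2 * W.b₆) * A * B ^ 3 - C W.b₈ * B ^ 4

/-- Doubling on projective `x`-coordinates: denominator. -/
def dblZ (A B : R[X]) : R[X] :=
  C 4 * A ^ 3 * B + C W.b₂ * A ^ 2 * B ^ 2 + C (2 * W.b₄) * A * B ^ 3 + C W.b₆ * B ^ 4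

/-- Differential addition on projective `x`-coordinates (the difference of the two points has
`x`-coordinate `X`): numerator. -/
def dadX (A B A' B' : R[X]) : R[X] :=
  (A * B' + A' * B) * (C 2 * A * A' + C W.b₄ * B * B') + C W.b₂ * A * A' * B * B'
    + C W.b₆ * B ^ 2 * B' ^ 2 - X * (A * B' - A' * B) ^ 2

/-- Differential addition on projective `x`-coordinates: denominator. -/
def dadZ (A B A' B' : R[X]) : R[X] := (A * B' - A' * B) ^ 2

/-- The Montgomery ladder: `lad W n = (Xₙ, Zₙ)`. -/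
def lad : ℕ → R[X] × R[X]
  | 0 => (1, 0)
  | 1 => (X, 1)
  | (n + 2) =>
    if _h : (n + 2) % 2 = 0 then
      (dblX W (lad ((n + 2) / 2)).1 (lad ((n + 2) / 2)).2,
        dblZ W (lad ((n + 2) / 2)).1 (lad ((n + 2) / 2)).2)
    else
      (dadX W (lad ((n + 2) / 2 + 1)).1 (lad ((n + 2) / 2 + 1)).2
          (lad ((n + 2) / 2)).1 (lad ((n + 2) / 2)).2,
        dadZ (lad ((n + 2) / 2 + 1)).1 (lad ((n + 2) / 2 + 1)).2
          (lad ((n + 2) / 2)).1 (lad ((n + 2) / 2)).2)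
termination_by n => n
decreasing_by all_goals omega

/-- Numerator polynomial of the `x`-coordinate of `n • P`. -/
def ladX (n : ℕ) : R[X] := (lad W n).1

/-- Denominator polynomial of the `x`-coordinate of `n • P`. -/
def ladZ (n : ℕ) : R[X] := (lad W n).2

/-- The odd "division polynomial" `ψ_{2m+1}` (up to sign). -/
def psiOdd (m : ℕ) : R[X] := ladX W (m + 1) * ladZ W m - ladX W m * ladZ W (m + 1)

lemma ladX_zero : ladX W 0 = 1 := by rw [ladX, lad]

lemma ladZ_zero : ladZ W 0 = 0 := by rw [ladZ, lad]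

lemma ladX_one : ladX W 1 = X := by rw [ladX, lad]

lemma ladZ_one : ladZ W 1 = 1 := by rw [ladZ, lad]

lemma lad_two_mul {m : ℕ} (hm : 1 ≤ m) :
    lad W (2 * m) = (dblX W (ladX W m) (ladZ W m), dblZ W (ladX W m) (ladZ W m)) := by
  obtain ⟨k, rfl⟩ : ∃ k, m = k + 1 := ⟨m - 1, by omega⟩
  have e : 2 * (k + 1) = 2 * k + 2 := by ring
  have h1 : (2 * k + 2) % 2 = 0 := by omega
  have h2 : (2 * k + 2) / 2 = k + 1 := by omega
  rw [e, lad, dif_pos h1, h2]
  rfl

lemma lad_two_mul_add_one {m : ℕ} (hm : 1 ≤ m) :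
    lad W (2 * m + 1) = (dadX W (ladX W (m + 1)) (ladZ W (m + 1)) (ladX W m) (ladZ W m),
      dadZ (ladX W (m + 1)) (ladZ W (m + 1)) (ladX W m) (ladZ W m)) := by
  obtain ⟨k, rfl⟩ : ∃ k, m = k + 1 := ⟨m - 1, by omega⟩
  have e : 2 * (k + 1) + 1 = (2 * k + 1) + 2 := by ring
  have h1 : ¬ ((2 * k + 1) + 2) % 2 = 0 := by omega
  have h2 : ((2 * k + 1) + 2) / 2 = k + 1 := by omega
  rw [e, lad, dif_neg h1, h2]
  rfl

lemma ladX_two_mul {m : ℕ} (hm : 1 ≤ m) :
    ladX W (2 * m) = dblX W (ladX W m) (ladZ W m) := by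
  rw [ladX, lad_two_mul W hm]

lemma ladZ_two_mul {m : ℕ} (hm : 1 ≤ m) :
    ladZ W (2 * m) = dblZ W (ladX W m) (ladZ W m) := by
  rw [ladZ, lad_two_mul W hm]

lemma ladX_two_mul_add_one {m : ℕ} (hm : 1 ≤ m) :
    ladX W (2 * m + 1) = dadX W (ladX W (m + 1)) (ladZ W (m + 1)) (ladX W m) (ladZ W m) := by
  rw [ladX, lad_two_mul_add_one W hm]

lemma ladZ_two_mul_add_one {m : ℕ} (hm : 1 ≤ m) :
    ladZ W (2 * m + 1) = dadZ (ladX W (m + 1)) (ladZ W (m + 1)) (ladX W m) (ladZ W m) := by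
  rw [ladZ, lad_two_mul_add_one W hm]

/-- `ladZ (2m+1) = psiOdd m ^ 2` for every `m`. -/
lemma ladZ_odd (m : ℕ) : ladZ W (2 * m + 1) = psiOdd W m ^ 2 := by
  rcases Nat.eq_zero_or_pos m with rfl | hm
  · simp [psiOdd, ladX_zero, ladZ_zero, ladX_one, ladZ_one]
  · rw [ladZ_two_mul_add_one W hm, dadZ, psiOdd]

end Defs

/-! ### Degree bookkeeping -/

section Degree

variable {R : Type*} [CommRing R]

/-- `p` has degree at most `d` and its `d`-th coefficient is `a`. -/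
def IsLC (p : R[X]) (d : ℕ) (a : R) : Prop := p.natDegree ≤ d ∧ p.coeff d = a

theorem IsLC.mul {p q : R[X]} {d e : ℕ} {a b : R} (hp : IsLC p d a) (hq : IsLC q e b) :
    IsLC (p * q) (d + e) (a * b) :=
  ⟨natDegree_mul_le_of_le hp.1 hq.1, by rw [coeff_mul_add_eq_of_natDegree_le hp.1 hq.1, hp.2, hq.2]⟩

theorem IsLC.pow {p : R[X]} {d : ℕ} {a : R} (hp : IsLC p d a) (k : ℕ) :
    IsLC (p ^ k) (k * d) (a ^ k) :=
  ⟨natDegree_pow_le_of_le k hp.1, by rw [coeff_pow_of_natDegree_le hp.1, hp.2]⟩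

theorem IsLC.add {p q : R[X]} {d : ℕ} {a b : R} (hp : IsLC p d a) (hq : IsLC q d b) :
    IsLC (p + q) d (a + b) :=
  ⟨natDegree_add_le_of_degree_le hp.1 hq.1, by rw [coeff_add, hp.2, hq.2]⟩

theorem IsLC.sub {p q : R[X]} {d : ℕ} {a b : R} (hp : IsLC p d a) (hq : IsLC q d b) :
    IsLC (p - q) d (a - b) :=
  ⟨(natDegree_sub_le_of_le hp.1 hq.1).trans (max_self d).le, by rw [coeff_sub, hp.2, hq.2]⟩

theorem IsLC.lift {p : R[X]} {d e : ℕ} {a : R} (hp : IsLC p d a) (hde : d < e) : IsLC p e 0 :=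
  ⟨hp.1.trans hde.le, coeff_eq_zero_of_natDegree_lt (lt_of_le_of_lt hp.1 hde)⟩

theorem IsLC.congr {p : R[X]} {d e : ℕ} {a b : R} (hp : IsLC p d a) (hde : d = e)
    (hab : a = b) : IsLC p e b := by
  subst hde hab; exact hp

theorem isLC_C (a : R) : IsLC (C a) 0 a := ⟨(natDegree_C a).le, coeff_C_zero⟩

theorem isLC_X : IsLC (X : R[X]) 1 1 := ⟨natDegree_X_le, coeff_X_one⟩

theorem isLC_one : IsLC (1 : R[X]) 0 1 := ⟨natDegree_one.le, coeff_one_zero⟩

theorem isLC_zero (d : ℕ) : IsLC (0 : R[X]) d 0 := ⟨by simp, coeff_zero d⟩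

theorem IsLC.ne_zero {p : R[X]} {d : ℕ} {a : R} (hp : IsLC p d a) (ha : a ≠ 0) : p ≠ 0 := by
  rintro rfl
  exact ha (by rw [← hp.2, coeff_zero])

theorem IsLC.derivative {p : R[X]} {d : ℕ} {a : R} (hp : IsLC p (d + 1) a) :
    IsLC (derivative p) d (a * ((d : R) + 1)) := by
  refine ⟨?_, ?_⟩
  · have h1 := natDegree_derivative_le p
    have h2 := hp.1
    omega
  · rw [coeff_derivative, hp.2]

variable (W : WeierstrassCurve R)

lemma isLC_dblX {A B : R[X]} {d : ℕ} {b : R} (hd : 1 ≤ d) (hA : IsLC A d 1)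
    (hB : IsLC B (d - 1) b) : IsLC (dblX W A B) (4 * d) 1 := by
  have t1 : IsLC (A ^ 4) (4 * d) 1 := (hA.pow 4).congr rfl (one_pow 4)
  have t2 : IsLC (C W.b₄ * A ^ 2 * B ^ 2) (4 * d) 0 :=
    (((isLC_C W.b₄).mul (hA.pow 2)).mul (hB.pow 2)).lift (by omega)
  have t3 : IsLC (C (2 * W.b₆) * A * B ^ 3) (4 * d) 0 :=
    (((isLC_C (2 * W.b₆)).mul hA).mul (hB.pow 3)).lift (by omega)
  have t4 : IsLC (C W.b₈ * B ^ 4) (4 * d) 0 :=
    ((isLC_C W.b₈).mul (hB.pow 4)).lift (by omega)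
  exact (((t1.sub t2).sub t3).sub t4).congr rfl (by ring)

lemma isLC_dblZ {A B : R[X]} {d : ℕ} {b : R} (hd : 1 ≤ d) (hA : IsLC A d 1)
    (hB : IsLC B (d - 1) b) : IsLC (dblZ W A B) (4 * d - 1) (4 * b) := by
  have t1 : IsLC (C 4 * A ^ 3 * B) (4 * d - 1) (4 * b) :=
    (((isLC_C (4 : R)).mul (hA.pow 3)).mul hB).congr (by omega) (by ring)
  have t2 : IsLC (C W.b₂ * A ^ 2 * B ^ 2) (4 * d - 1) 0 :=
    (((isLC_C W.b₂).mul (hA.pow 2)).mul (hB.pow 2)).lift (by omega)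
  have t3 : IsLC (C (2 * W.b₄) * A * B ^ 3) (4 * d - 1) 0 :=
    (((isLC_C (2 * W.b₄)).mul hA).mul (hB.pow 3)).lift (by omega)
  have t4 : IsLC (C W.b₆ * B ^ 4) (4 * d - 1) 0 :=
    ((isLC_C W.b₆).mul (hB.pow 4)).lift (by omega)
  exact (((t1.add t2).add t3).add t4).congr rfl (by ring)

lemma isLC_cross_sub {A B A' B' : R[X]} {e d : ℕ} {β β' : R} (he : 1 ≤ e) (hd : 1 ≤ d)
    (hA : IsLC A e 1) (hB : IsLC B (e - 1) β) (hA' : IsLC A' d 1) (hB' : IsLC B' (d - 1) β') :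
    IsLC (A * B' - A' * B) (e + d - 1) (β' - β) := by
  have t1 : IsLC (A * B') (e + d - 1) β' := (hA.mul hB').congr (by omega) (one_mul _)
  have t2 : IsLC (A' * B) (e + d - 1) β := (hA'.mul hB).congr (by omega) (one_mul _)
  exact t1.sub t2

lemma isLC_cross_add {A B A' B' : R[X]} {e d : ℕ} {β β' : R} (he : 1 ≤ e) (hd : 1 ≤ d)
    (hA : IsLC A e 1) (hB : IsLC B (e - 1) β) (hA' : IsLC A' d 1) (hB' : IsLC B' (d - 1) β') :
    IsLC (A * B' + A' * B) (e + d - 1) (β' + β) := by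
  have t1 : IsLC (A * B') (e + d - 1) β' := (hA.mul hB').congr (by omega) (one_mul _)
  have t2 : IsLC (A' * B) (e + d - 1) β := (hA'.mul hB).congr (by omega) (one_mul _)
  exact t1.add t2

lemma isLC_dadZ {A B A' B' : R[X]} {e d : ℕ} {β β' : R} (he : 1 ≤ e) (hd : 1 ≤ d)
    (hA : IsLC A e 1) (hB : IsLC B (e - 1) β) (hA' : IsLC A' d 1) (hB' : IsLC B' (d - 1) β') :
    IsLC (dadZ A B A' B') (2 * (e + d) - 2) ((β' - β) ^ 2) :=
  ((isLC_cross_sub he hd hA hB hA' hB').pow 2).congr (by omega) rfl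

lemma isLC_dadX {A B A' B' : R[X]} {e d : ℕ} {β β' : R} (he : 1 ≤ e) (hd : 1 ≤ d)
    (hA : IsLC A e 1) (hB : IsLC B (e - 1) β) (hA' : IsLC A' d 1) (hB' : IsLC B' (d - 1) β') :
    IsLC (dadX W A B A' B') (2 * (e + d) - 1) (2 * (β' + β) - (β' - β) ^ 2) := by
  have hS := isLC_cross_add he hd hA hB hA' hB'
  have hD := isLC_cross_sub he hd hA hB hA' hB'
  have u1 : IsLC (C 2 * A * A') (e + d) 2 :=
    (((isLC_C (2 : R)).mul hA).mul hA').congr (by omega) (by ring)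
  have u2 : IsLC (C W.b₄ * B * B') (e + d) 0 :=
    (((isLC_C W.b₄).mul hB).mul hB').lift (by omega)
  have t1 : IsLC ((A * B' + A' * B) * (C 2 * A * A' + C W.b₄ * B * B')) (2 * (e + d) - 1)
      ((β' + β) * (2 + 0)) := (hS.mul (u1.add u2)).congr (by omega) rfl
  have t2 : IsLC (C W.b₂ * A * A' * B * B') (2 * (e + d) - 1) 0 :=
    (((((isLC_C W.b₂).mul hA).mul hA').mul hB).mul hB').lift (by omega)
  have t3 : IsLC (C W.b₆ * B ^ 2 * B' ^ 2) (2 * (e + d) - 1) 0 :=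
    (((isLC_C W.b₆).mul (hB.pow 2)).mul (hB'.pow 2)).lift (by omega)
  have t4 : IsLC (X * (A * B' - A' * B) ^ 2) (2 * (e + d) - 1) (1 * (β' - β) ^ 2) :=
    (isLC_X.mul (hD.pow 2)).congr (by omega) rfl
  exact (((t1.add t2).add t3).sub t4).congr rfl (by ring)

/-- Degrees and top coefficients of the ladder polynomials. -/
theorem lad_isLC (n : ℕ) :
    IsLC (ladX W n) (n ^ 2) 1 ∧ IsLC (ladZ W n) (n ^ 2 - 1) ((n : R) ^ 2) := by
  induction n using Nat.strong_induction_on with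
  | _ n ih =>
    rcases Nat.lt_or_ge n 2 with hn | hn
    · interval_cases n
      · rw [ladX_zero, ladZ_zero]
        exact ⟨isLC_one, (isLC_zero _).congr rfl (by simp)⟩
      · rw [ladX_one, ladZ_one]
        exact ⟨isLC_X.congr (by norm_num) rfl, isLC_one.congr (by norm_num) (by simp)⟩
    · rcases Nat.even_or_odd' n with ⟨m, rfl | rfl⟩
      · have hm : 1 ≤ m := by omega
        obtain ⟨hX, hZ⟩ := ih m (by omega)
        have hd : 1 ≤ m ^ 2 := Nat.one_le_pow _ _ hm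
        rw [ladX_two_mul W hm, ladZ_two_mul W hm]
        refine ⟨(isLC_dblX W hd hX hZ).congr (by ring) rfl,
          (isLC_dblZ W hd hX hZ).congr ?_ (by push_cast; ring)⟩
        have : (2 * m) ^ 2 = 4 * m ^ 2 := by ring
        omega
      · have hm : 1 ≤ m := by omega
        obtain ⟨hX, hZ⟩ := ih m (by omega)
        obtain ⟨hX', hZ'⟩ := ih (m + 1) (by omega)
        have hd : 1 ≤ m ^ 2 := Nat.one_le_pow _ _ hm
        have he : 1 ≤ (m + 1) ^ 2 := Nat.one_le_pow _ _ (by omega)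
        rw [ladX_two_mul_add_one W hm, ladZ_two_mul_add_one W hm]
        have e1 : (2 * m + 1) ^ 2 = 2 * ((m + 1) ^ 2 + m ^ 2) - 1 := by
          have : 2 * ((m + 1) ^ 2 + m ^ 2) = (2 * m + 1) ^ 2 + 1 := by ring
          omega
        refine ⟨(isLC_dadX W he hd hX' hZ' hX hZ).congr e1.symm (by push_cast; ring),
          (isLC_dadZ he hd hX' hZ' hX hZ).congr ?_ (by push_cast; ring)⟩
        omega

theorem natDegree_ladX_le (n : ℕ) : (ladX W n).natDegree ≤ n ^ 2 := (lad_isLC W n).1.1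

theorem coeff_ladX (n : ℕ) : (ladX W n).coeff (n ^ 2) = 1 := (lad_isLC W n).1.2

theorem natDegree_ladZ_le (n : ℕ) : (ladZ W n).natDegree ≤ n ^ 2 - 1 := (lad_isLC W n).2.1

theorem coeff_ladZ (n : ℕ) : (ladZ W n).coeff (n ^ 2 - 1) = (n : R) ^ 2 := (lad_isLC W n).2.2

/-- Degree and top coefficient of the odd division polynomial. -/
theorem psiOdd_isLC (m : ℕ) : IsLC (psiOdd W m) (2 * m ^ 2 + 2 * m) (-(2 * (m : R) + 1)) := by
  rcases Nat.eq_zero_or_pos m with rfl | hm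
  · have h0 : psiOdd W 0 = -1 := by
      simp [psiOdd, ladX_zero, ladZ_zero, ladX_one, ladZ_one]
    rw [h0]
    exact ⟨by simp, by simp⟩
  · obtain ⟨hX, hZ⟩ := lad_isLC W m
    obtain ⟨hX', hZ'⟩ := lad_isLC W (m + 1)
    have hd : 1 ≤ m ^ 2 := Nat.one_le_pow _ _ hm
    have he : 1 ≤ (m + 1) ^ 2 := Nat.one_le_pow _ _ (by omega)
    refine (isLC_cross_sub he hd hX' hZ' hX hZ).congr ?_ (by push_cast; ring)
    have : (m + 1) ^ 2 + m ^ 2 = 2 * m ^ 2 + 2 * m + 1 := by ring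
    omega

theorem natDegree_psiOdd_le (m : ℕ) : (psiOdd W m).natDegree ≤ 2 * m ^ 2 + 2 * m :=
  (psiOdd_isLC W m).1

theorem coeff_psiOdd (m : ℕ) :
    (psiOdd W m).coeff (2 * m ^ 2 + 2 * m) = -(2 * (m : R) + 1) := (psiOdd_isLC W m).2

end Degree

/-! ### Base change -/

section Map

variable {R S : Type*} [CommRing R] [CommRing S] (W : WeierstrassCurve R) (f : R →+* S)

lemma dblX_map (A B : R[X]) :
    (dblX W A B).map f = dblX (W.map f) (A.map f) (B.map f) := by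
  simp [dblX, WeierstrassCurve.map_b₄, WeierstrassCurve.map_b₆, WeierstrassCurve.map_b₈,
    map_ofNat]

lemma dblZ_map (A B : R[X]) :
    (dblZ W A B).map f = dblZ (W.map f) (A.map f) (B.map f) := by
  simp [dblZ, WeierstrassCurve.map_b₂, WeierstrassCurve.map_b₄, WeierstrassCurve.map_b₆,
    map_ofNat]

lemma dadX_map (A B A' B' : R[X]) :
    (dadX W A B A' B').map f = dadX (W.map f) (A.map f) (B.map f) (A'.map f) (B'.map f) := by
  simp [dadX, WeierstrassCurve.map_b₂, WeierstrassCurve.map_b₄, WeierstrassCurve.map_b₆,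
    map_ofNat]

lemma dadZ_map (A B A' B' : R[X]) :
    (dadZ A B A' B').map f = dadZ (A.map f) (B.map f) (A'.map f) (B'.map f) := by
  simp [dadZ]

/-- The ladder commutes with base change. -/
theorem lad_map (n : ℕ) :
    (ladX W n).map f = ladX (W.map f) n ∧ (ladZ W n).map f = ladZ (W.map f) n := by
  induction n using Nat.strong_induction_on with
  | _ n ih =>
    rcases Nat.lt_or_ge n 2 with hn | hn
    · interval_cases n
      · simp [ladX_zero, ladZ_zero]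
      · simp [ladX_one, ladZ_one]
    · rcases Nat.even_or_odd' n with ⟨m, rfl | rfl⟩
      · have hm : 1 ≤ m := by omega
        obtain ⟨hX, hZ⟩ := ih m (by omega)
        rw [ladX_two_mul W hm, ladZ_two_mul W hm, ladX_two_mul _ hm, ladZ_two_mul _ hm,
          dblX_map, dblZ_map, hX, hZ]
        exact ⟨rfl, rfl⟩
      · have hm : 1 ≤ m := by omega
        obtain ⟨hX, hZ⟩ := ih m (by omega)
        obtain ⟨hX', hZ'⟩ := ih (m + 1) (by omega)
        rw [ladX_two_mul_add_one W hm, ladZ_two_mul_add_one W hm, ladX_two_mul_add_one _ hm,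
          ladZ_two_mul_add_one _ hm, dadX_map, dadZ_map, hX, hZ, hX', hZ']
        exact ⟨rfl, rfl⟩

theorem ladX_map (n : ℕ) : (ladX W n).map f = ladX (W.map f) n := (lad_map W f n).1

theorem ladZ_map (n : ℕ) : (ladZ W n).map f = ladZ (W.map f) n := (lad_map W f n).2

theorem psiOdd_map (m : ℕ) : (psiOdd W m).map f = psiOdd (W.map f) m := by
  simp [psiOdd, ladX_map, ladZ_map]

end Map

/-! ### Correctness over a field -/

section Field

variable {F : Type*} [Field F] (W : WeierstrassCurve.Affine F)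

/-- Sum formula for the `x`-coordinates of `P + Q` and `P - Q`. -/
theorem addX_add_addX {x₁ x₂ y₁ y₂ : F} (h₁ : W.Equation x₁ y₁) (h₂ : W.Equation x₂ y₂)
    (hx : x₁ ≠ x₂) :
    (x₁ - x₂) ^ 2 * (W.addX x₁ x₂ ((y₁ - y₂) / (x₁ - x₂)) +
        W.addX x₁ x₂ ((y₁ - W.negY x₂ y₂) / (x₁ - x₂))) =
      2 * (x₁ * x₂) * (x₁ + x₂) + W.b₂ * (x₁ * x₂) + W.b₄ * (x₁ + x₂) + W.b₆ := by
  have hx' : x₁ - x₂ ≠ 0 := sub_ne_zero.mpr hx
  rw [Affine.equation_iff] at h₁ h₂
  simp only [Affine.addX, Affine.negY, WeierstrassCurve.b₂, WeierstrassCurve.b₄,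
    WeierstrassCurve.b₆]
  field_simp
  linear_combination 2 * h₁ + 2 * h₂

theorem psiTwoSq_eq {x y : F} (h : W.Equation x y) :
    4 * x ^ 3 + W.b₂ * x ^ 2 + 2 * W.b₄ * x + W.b₆ = (y - W.negY x y) ^ 2 := by
  rw [Affine.equation_iff] at h
  simp only [Affine.negY, WeierstrassCurve.b₂, WeierstrassCurve.b₄, WeierstrassCurve.b₆]
  linear_combination (-4) * h

/-- Duplication formula for the `x`-coordinate. -/
theorem addX_dup {x y : F} (h : W.Equation x y) (hy : y ≠ W.negY x y) :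
    W.addX x x ((3 * x ^ 2 + 2 * W.a₂ * x + W.a₄ - W.a₁ * y) / (y - W.negY x y)) *
        (4 * x ^ 3 + W.b₂ * x ^ 2 + 2 * W.b₄ * x + W.b₆) =
      x ^ 4 - W.b₄ * x ^ 2 - 2 * W.b₆ * x - W.b₈ := by
  have hy' : y - W.negY x y ≠ 0 := sub_ne_zero.mpr hy
  rw [psiTwoSq_eq W h]
  rw [Affine.equation_iff] at h
  simp only [Affine.addX]
  field_simp
  simp only [Affine.negY, WeierstrassCurve.b₄, WeierstrassCurve.b₆, WeierstrassCurve.b₈]
  linear_combination (-(8 * x + W.a₁ ^ 2 + 4 * W.a₂)) * h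

/-- The value of `φ₂` at a `2`-torsion point is the square of the `x`-partial derivative. -/
theorem phiTwo_eq_of_negY {x y : F} (h : W.Equation x y) (hy : y = W.negY x y) :
    x ^ 4 - W.b₄ * x ^ 2 - 2 * W.b₆ * x - W.b₈ =
      (3 * x ^ 2 + 2 * W.a₂ * x + W.a₄ - W.a₁ * y) ^ 2 := by
  rw [Affine.equation_iff] at h
  have hD : 2 * y + W.a₁ * x + W.a₃ = 0 := by
    simp only [Affine.negY] at hy
    linear_combination hy
  simp only [WeierstrassCurve.b₄, WeierstrassCurve.b₆, WeierstrassCurve.b₈]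
  linear_combination (8 * x + W.a₁ ^ 2 + 4 * W.a₂) * h +
    (W.a₁ * (3 * x ^ 2 + 2 * W.a₂ * x + W.a₄ - W.a₁ * y)
      - (W.a₂ + 2 * x) * (2 * y + W.a₁ * x + W.a₃)) * hD

lemma point_cases (Q : W.Point) : Q = 0 ∨ ∃ x y h, Q = Point.some x y h := by
  rcases Q with _ | ⟨x, y, h⟩
  · exact Or.inl rfl
  · exact Or.inr ⟨x, y, h, rfl⟩

/-- `(a, b)` is a nonzero multiple of the projective `x`-coordinate of `Q`. -/
def Rep (Q : W.Point) (a b : F) : Prop := ∃ c : F, c ≠ 0 ∧ a = c * Q.xRep 0 ∧ b = c * Q.xRep 1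

lemma Rep.not_both_zero {Q : W.Point} {a b : F} (h : Rep W Q a b) : ¬ (a = 0 ∧ b = 0) := by
  obtain ⟨c, hc, rfl, rfl⟩ := h
  rcases point_cases W Q with rfl | ⟨x, y, k, rfl⟩
  · simp [hc]
  · simp [hc]

lemma Rep.snd_eq_zero_iff {Q : W.Point} {a b : F} (h : Rep W Q a b) : b = 0 ↔ Q = 0 := by
  obtain ⟨c, hc, rfl, rfl⟩ := h
  rcases point_cases W Q with rfl | ⟨x, y, k, rfl⟩
  · simp
  · simp [hc, Point.some_ne_zero]

lemma Rep.x_mul {x' y' : F} {k : W.Nonsingular x' y'} {a b : F}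
    (h : Rep W (Point.some x' y' k) a b) : x' * b = a := by
  obtain ⟨c, hc, rfl, rfl⟩ := h
  simp only [Point.xRep_some, Matrix.cons_val_zero, Matrix.cons_val_one, Matrix.cons_val_fin_one]
  ring

variable [DecidableEq F]

theorem rep_dbl (Q : W.Point) {a b : F} (h : Rep W Q a b) :
    Rep W (Q + Q) (a ^ 4 - W.b₄ * a ^ 2 * b ^ 2 - 2 * W.b₆ * a * b ^ 3 - W.b₈ * b ^ 4)
      (4 * a ^ 3 * b + W.b₂ * a ^ 2 * b ^ 2 + 2 * W.b₄ * a * b ^ 3 + W.b₆ * b ^ 4) := by
  obtain ⟨c, hc, rfl, rfl⟩ := h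
  rcases point_cases W Q with rfl | ⟨x₁, y₁, h₁, rfl⟩
  · rw [add_zero]
    refine ⟨c ^ 4, pow_ne_zero 4 hc, ?_, ?_⟩ <;>
      simp only [Point.xRep_zero, Matrix.cons_val_zero, Matrix.cons_val_one, Matrix.cons_val_fin_one] <;> ring
  · simp only [Point.xRep_some, Matrix.cons_val_zero, Matrix.cons_val_one, Matrix.cons_val_fin_one, mul_one]
    by_cases hy : y₁ = W.negY x₁ y₁
    · rw [Point.add_self_of_Y_eq hy]
      obtain ⟨heq, hns⟩ := (Affine.nonsingular_iff x₁ y₁).mp h₁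
      have hN : W.a₁ * y₁ ≠ 3 * x₁ ^ 2 + 2 * W.a₂ * x₁ + W.a₄ := by
        rcases hns with h | h
        · exact h
        · exact absurd hy h
      have key := phiTwo_eq_of_negY W heq hy
      have hpsi := psiTwoSq_eq W heq
      rw [← hy, sub_self] at hpsi
      refine ⟨c ^ 4 * (3 * x₁ ^ 2 + 2 * W.a₂ * x₁ + W.a₄ - W.a₁ * y₁) ^ 2, ?_, ?_, ?_⟩
      · exact mul_ne_zero (pow_ne_zero 4 hc) (pow_ne_zero 2 (sub_ne_zero.mpr (Ne.symm hN)))
      · simp only [Point.xRep_zero, Matrix.cons_val_zero]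
        linear_combination c ^ 4 * key
      · simp only [Point.xRep_zero, Matrix.cons_val_one, Matrix.cons_val_fin_one]
        linear_combination c ^ 4 * hpsi
    · rw [Point.add_self_of_Y_ne hy]
      have key := addX_dup W h₁.1 hy
      have hpsi := psiTwoSq_eq W h₁.1
      refine ⟨c ^ 4 * (y₁ - W.negY x₁ y₁) ^ 2, ?_, ?_, ?_⟩
      · exact mul_ne_zero (pow_ne_zero 4 hc) (pow_ne_zero 2 (sub_ne_zero.mpr hy))
      · simp only [Point.xRep_some, Matrix.cons_val_zero, Affine.slope_of_Y_ne rfl hy]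
        rw [hpsi] at key
        linear_combination (-(c ^ 4)) * key
      · simp only [Point.xRep_some, Matrix.cons_val_one, Matrix.cons_val_fin_one]
        linear_combination c ^ 4 * hpsi

theorem rep_dad {x y : F} (hP : W.Nonsingular x y) (Q₁ Q₂ : W.Point)
    (hQ : Q₁ - Q₂ = Point.some x y hP) {a₁ b₁ a₂ b₂ : F} (h₁ : Rep W Q₁ a₁ b₁)
    (h₂ : Rep W Q₂ a₂ b₂) :
    Rep W (Q₁ + Q₂)
      ((a₁ * b₂ + a₂ * b₁) * (2 * a₁ * a₂ + W.b₄ * b₁ * b₂) + W.b₂ * a₁ * a₂ * b₁ * b₂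
        + W.b₆ * b₁ ^ 2 * b₂ ^ 2 - x * (a₁ * b₂ - a₂ * b₁) ^ 2)
      ((a₁ * b₂ - a₂ * b₁) ^ 2) := by
  obtain ⟨c₁, hc₁, rfl, rfl⟩ := h₁
  obtain ⟨c₂, hc₂, rfl, rfl⟩ := h₂
  have hcc : c₁ ^ 2 * c₂ ^ 2 ≠ 0 := mul_ne_zero (pow_ne_zero 2 hc₁) (pow_ne_zero 2 hc₂)
  rcases point_cases W Q₁ with rfl | ⟨x₁, y₁, k₁, rfl⟩ <;>
    rcases point_cases W Q₂ with rfl | ⟨x₂, y₂, k₂, rfl⟩
  · rw [sub_zero] at hQ
    exact absurd hQ.symm (Point.some_ne_zero hP)
  · rw [zero_sub, Point.neg_some, Point.some.injEq] at hQ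
    obtain ⟨rfl, -⟩ := hQ
    rw [zero_add]
    refine ⟨c₁ ^ 2 * c₂ ^ 2, hcc, ?_, ?_⟩ <;>
      simp only [Point.xRep_zero, Point.xRep_some, Matrix.cons_val_zero, Matrix.cons_val_one, Matrix.cons_val_fin_one] <;>
      ring
  · rw [sub_zero, Point.some.injEq] at hQ
    obtain ⟨rfl, rfl⟩ := hQ
    rw [add_zero]
    refine ⟨c₁ ^ 2 * c₂ ^ 2, hcc, ?_, ?_⟩ <;>
      simp only [Point.xRep_zero, Point.xRep_some, Matrix.cons_val_zero, Matrix.cons_val_one, Matrix.cons_val_fin_one] <;>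
      ring
  · by_cases hx : x₁ = x₂
    · subst hx
      by_cases hy : y₁ = W.negY x₁ y₂
      · have hne : y₁ ≠ y₂ := by
          rintro rfl
          rw [sub_self] at hQ
          exact Point.some_ne_zero hP hQ.symm
        have hpsi := psiTwoSq_eq W k₁.1
        have hneg : W.negY x₁ y₁ = y₂ := by rw [hy, Affine.negY_negY]
        rw [hneg] at hpsi
        rw [Point.add_of_Y_eq rfl hy]
        refine ⟨c₁ ^ 2 * c₂ ^ 2 * (y₁ - y₂) ^ 2, ?_, ?_, ?_⟩
        · exact mul_ne_zero hcc (pow_ne_zero 2 (sub_ne_zero.mpr hne))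
        · simp only [Point.xRep_zero, Point.xRep_some, Matrix.cons_val_zero,
            Matrix.cons_val_one, Matrix.cons_val_fin_one]
          linear_combination c₁ ^ 2 * c₂ ^ 2 * hpsi
        · simp only [Point.xRep_zero, Point.xRep_some, Matrix.cons_val_zero,
            Matrix.cons_val_one, Matrix.cons_val_fin_one]
          ring
      · have hyy : y₁ = y₂ := Affine.Y_eq_of_Y_ne k₁.1 k₂.1 rfl hy
        subst hyy
        rw [sub_self] at hQ
        exact absurd hQ.symm (Point.some_ne_zero hP)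
    · have e1 : Point.some x₁ y₁ k₁ + Point.some x₂ y₂ k₂ = _ := Point.add_of_X_ne hx
      rw [sub_eq_add_neg, Point.neg_some, Point.add_of_X_ne hx, Point.some.injEq] at hQ
      obtain ⟨hxx, -⟩ := hQ
      rw [e1]
      have key := addX_add_addX W k₁.1 k₂.1 hx
      rw [Affine.slope_of_X_ne hx] at hxx
      rw [hxx] at key
      refine ⟨c₁ ^ 2 * c₂ ^ 2 * (x₁ - x₂) ^ 2, ?_, ?_, ?_⟩
      · exact mul_ne_zero hcc (pow_ne_zero 2 (sub_ne_zero.mpr hx))
      · simp only [Point.xRep_some, Matrix.cons_val_zero, Matrix.cons_val_one,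
          Matrix.cons_val_fin_one, Affine.slope_of_X_ne hx]
        linear_combination (-(c₁ ^ 2 * c₂ ^ 2)) * key
      · simp only [Point.xRep_some, Matrix.cons_val_zero, Matrix.cons_val_one, Matrix.cons_val_fin_one]
        ring

/-- **Correctness of the ladder**: `(ladX n (x), ladZ n (x))` is a nonzero multiple of the
projective `x`-coordinate of `n • (x, y)`. -/
theorem lad_spec {x y : F} (h : W.Nonsingular x y) (n : ℕ) :
    Rep W (n • Point.some x y h) ((ladX W n).eval x) ((ladZ W n).eval x) := by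
  induction n using Nat.strong_induction_on with
  | _ n ih =>
    rcases Nat.lt_or_ge n 2 with hn | hn
    · interval_cases n
      · rw [ladX_zero, ladZ_zero, zero_smul]
        exact ⟨1, one_ne_zero, by simp, by simp⟩
      · rw [ladX_one, ladZ_one, one_smul]
        exact ⟨1, one_ne_zero, by simp, by simp⟩
    · rcases Nat.even_or_odd' n with ⟨m, rfl | rfl⟩
      · have hm : 1 ≤ m := by omega
        have key := rep_dbl W _ (ih m (by omega))
        rw [ladX_two_mul W hm, ladZ_two_mul W hm, two_mul, add_smul]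
        simpa [dblX, dblZ] using key
      · have hm : 1 ≤ m := by omega
        have hQ : (m + 1) • Point.some x y h - m • Point.some x y h = Point.some x y h := by
          rw [add_smul, one_smul]
          abel
        have key := rep_dad W h _ _ hQ (ih (m + 1) (by omega)) (ih m (by omega))
        have e : (2 * m + 1) • Point.some x y h
            = (m + 1) • Point.some x y h + m • Point.some x y h := by
          rw [← add_smul]
          congr 1
          omega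
        rw [ladX_two_mul_add_one W hm, ladZ_two_mul_add_one W hm, e]
        simpa [dadX, dadZ] using key

theorem not_eval_lad_both_zero {x y : F} (h : W.Nonsingular x y) (n : ℕ) :
    ¬ ((ladX W n).eval x = 0 ∧ (ladZ W n).eval x = 0) :=
  (lad_spec W h n).not_both_zero

/-- `n • P = 0` iff the denominator polynomial vanishes at `x(P)`. -/
theorem nsmul_eq_zero_iff {x y : F} (h : W.Nonsingular x y) (n : ℕ) :
    n • Point.some x y h = 0 ↔ (ladZ W n).eval x = 0 :=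
  (lad_spec W h n).snd_eq_zero_iff.symm

/-- The `x`-coordinate of `n • P`. -/
theorem x_nsmul {x y x' y' : F} (h : W.Nonsingular x y) (n : ℕ) {k : W.Nonsingular x' y'}
    (hn : n • Point.some x y h = Point.some x' y' k) :
    x' * (ladZ W n).eval x = (ladX W n).eval x := by
  have := lad_spec W h n
  rw [hn] at this
  exact this.x_mul

/-- `(2m+1) • P = 0` iff the odd division polynomial vanishes at `x(P)`. -/
theorem odd_nsmul_eq_zero_iff {x y : F} (h : W.Nonsingular x y) (m : ℕ) :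
    (2 * m + 1) • Point.some x y h = 0 ↔ (psiOdd W m).eval x = 0 := by
  rw [nsmul_eq_zero_iff, ladZ_odd, eval_pow, sq_eq_zero_iff]

end Field

end

end Fermat.Agent.Lib.helper1080
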