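import Mathlib

/-!
# Height bounds for base-point-free homogeneous and bihomogeneous polynomial maps

Mathlib proves `Height.mulHeight_eval_ge`: a lower bound `C * H(x)^N ≤ H(p(x))` for a family `p`
of homogeneous polynomials of degree `N`, *given* explicit polynomial witnesses `q` with
`∑ j, q (k, j) * p j = X k ^ (M + N)`.  Here we produce the witnesses from the Nullstellensatz
(the family `p` has no common zero other than the origin over an algebraically closed extension),
and prove the bihomogeneous analogues (upper and lower bounds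
`H(p(x,y)) ≍ H(x)^a * H(y)^b`).

Everything is stated for a field `K` with `Height.AdmissibleAbsValues K`.
-/

set_option autoImplicit false

namespace Fermat.Agent.Lib.helper1102

open MvPolynomial

section Weighted

variable {R : Type*} [CommSemiring R] {σ : Type*} {M : Type*} [AddCommMonoid M] [IsCancelAdd M]

/-- The weighted homogeneous component of weight `m + n` of a product `c * p` with `p` weighted
homogeneous of weight `n` is the component of weight `m` of `c`, times `p`. -/
theorem weightedHomogeneousComponent_mul_of_isWeightedHomogeneous (w : σ → M) (m : M) {n : M}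
    (c : MvPolynomial σ R) {p : MvPolynomial σ R} (hp : p.IsWeightedHomogeneous w n) :
    weightedHomogeneousComponent w (m + n) (c * p) = weightedHomogeneousComponent w m c * p := by
  classical
  ext d
  rw [coeff_weightedHomogeneousComponent, coeff_mul, coeff_mul]
  have key : ∀ x ∈ Finset.HasAntidiagonal.antidiagonal d,
      (if Finsupp.weight w d = m + n then coeff x.1 c * coeff x.2 p else 0) =
        coeff x.1 (weightedHomogeneousComponent w m c) * coeff x.2 p := by
    intro x hx
    rw [Finset.HasAntidiagonal.mem_antidiagonal] at hx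
    rw [coeff_weightedHomogeneousComponent]
    by_cases h0 : coeff x.2 p = 0
    · simp [h0]
    · have h2 : Finsupp.weight w x.2 = n := hp h0
      have h3 : Finsupp.weight w d = Finsupp.weight w x.1 + n := by
        rw [← hx, map_add, h2]
      rw [h3]
      by_cases h4 : Finsupp.weight w x.1 = m
      · simp [h4]
      · have : ¬ (Finsupp.weight w x.1 + n = m + n) := fun h => h4 (add_right_cancel h)
        simp [h4, this]
  rw [← Finset.sum_congr rfl key]
  split_ifs with h
  · rfl
  · simp

omit [IsCancelAdd M] in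
/-- The ideal generated by a family of weighted homogeneous polynomials (of arbitrary weights) is
stable under taking weighted homogeneous components. -/
theorem weightedHomogeneousComponent_mem_span_range {ρ : Type*} (w : σ → M)
    {g : ρ → MvPolynomial σ R} (hg : ∀ l, ∃ n, (g l).IsWeightedHomogeneous w n) (t : M)
    {f : MvPolynomial σ R} (hf : f ∈ Ideal.span (Set.range g)) :
    weightedHomogeneousComponent w t f ∈ Ideal.span (Set.range g) := by
  classical
  let _ := MvPolynomial.weightedGradedAlgebra R w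
  have h : (Ideal.span (Set.range g)).IsHomogeneous (weightedHomogeneousSubmodule R w) := by
    apply Ideal.homogeneous_span
    rintro _ ⟨l, rfl⟩
    obtain ⟨n, hn⟩ := hg l
    exact ⟨n, hn⟩
  exact weightedHomogeneousComponent_mem_of_mem R w h hf t

end Weighted

section WeightedRing

variable {R : Type*} [CommRing R] {σ : Type*} {M : Type*} [AddCommMonoid M] [IsCancelAdd M]
  {ι'' : Type*} [Fintype ι'']

/-- If `f` is weighted homogeneous of weight `m + n` and lies in the ideal generated by a finite
family `p` of weighted homogeneous polynomials of weight `n`, then `f = ∑ j, q j * p j` with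
`q j` weighted homogeneous of weight `m`. -/
theorem exists_isWeightedHomogeneous_sum_mul_eq (w : σ → M) (m : M) {n : M}
    {p : ι'' → MvPolynomial σ R} (hp : ∀ j, (p j).IsWeightedHomogeneous w n)
    {f : MvPolynomial σ R} (hf : f.IsWeightedHomogeneous w (m + n))
    (hmem : f ∈ Ideal.span (Set.range p)) :
    ∃ q : ι'' → MvPolynomial σ R, (∀ j, (q j).IsWeightedHomogeneous w m) ∧
      ∑ j, q j * p j = f := by
  obtain ⟨c, hc⟩ := Ideal.mem_span_range_iff_exists_fun.mp hmem
  refine ⟨fun j => weightedHomogeneousComponent w m (c j),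
    fun j => weightedHomogeneousComponent_isWeightedHomogeneous m (c j), ?_⟩
  have h1 : weightedHomogeneousComponent w (m + n) f = f :=
    hf.weightedHomogeneousComponent_same
  rw [← h1, ← hc, map_sum]
  exact Finset.sum_congr rfl fun j _ =>
    (weightedHomogeneousComponent_mul_of_isWeightedHomogeneous w m (c j) (hp j)).symm

/-- Relative version of `exists_isWeightedHomogeneous_sum_mul_eq`: if `f` is weighted homogeneous
of weight `m + n` and lies in `Ideal.span (Set.range p) ⊔ I`, where the `p j` are weighted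
homogeneous of weight `n` and the ideal `I` is stable under taking weighted homogeneous
components, then `f - ∑ j, q j * p j ∈ I` with `q j` weighted homogeneous of weight `m`. -/
theorem exists_isWeightedHomogeneous_sum_mul_sub_mem (w : σ → M) (m : M) {n : M}
    {p : ι'' → MvPolynomial σ R} (hp : ∀ j, (p j).IsWeightedHomogeneous w n)
    {I : Ideal (MvPolynomial σ R)}
    (hI : ∀ (t : M) (f : MvPolynomial σ R), f ∈ I → weightedHomogeneousComponent w t f ∈ I)
    {f : MvPolynomial σ R} (hf : f.IsWeightedHomogeneous w (m + n))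
    (hmem : f ∈ Ideal.span (Set.range p) ⊔ I) :
    ∃ q : ι'' → MvPolynomial σ R, (∀ j, (q j).IsWeightedHomogeneous w m) ∧
      f - ∑ j, q j * p j ∈ I := by
  obtain ⟨u, hu, v, hv, huv⟩ := Submodule.mem_sup.mp hmem
  obtain ⟨c, hc⟩ := Ideal.mem_span_range_iff_exists_fun.mp hu
  refine ⟨fun j => weightedHomogeneousComponent w m (c j),
    fun j => weightedHomogeneousComponent_isWeightedHomogeneous m (c j), ?_⟩
  have h1 : weightedHomogeneousComponent w (m + n) f = f :=
    hf.weightedHomogeneousComponent_same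
  have h2 : weightedHomogeneousComponent w (m + n) u =
      ∑ j, weightedHomogeneousComponent w m (c j) * p j := by
    rw [← hc, map_sum]
    exact Finset.sum_congr rfl fun j _ =>
      weightedHomogeneousComponent_mul_of_isWeightedHomogeneous w m (c j) (hp j)
  have h3 : f - ∑ j, weightedHomogeneousComponent w m (c j) * p j =
      weightedHomogeneousComponent w (m + n) v := by
    rw [← h2]
    nth_rewrite 1 [← h1]
    rw [← huv, map_add, add_sub_cancel_left]
  rw [h3]
  exact hI _ v hv

end WeightedRing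

section Nullstellensatz

variable {K : Type*} [Field K] (L : Type*) [Field L] [IsAlgClosed L] [Algebra K L]
  {σ : Type*} [Finite σ] {ι'' : Type*}

/-- Nullstellensatz in the form we use: a polynomial vanishing on the common zeros (over an
algebraically closed extension `L`) of a family `p` has a power in the ideal generated by `p`. -/
theorem exists_pow_mem_span_of_forall_aeval_eq_zero {p : ι'' → MvPolynomial σ K}
    {f : MvPolynomial σ K}
    (h : ∀ x : σ → L, (∀ j, aeval x (p j) = 0) → aeval x f = 0) :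
    ∃ m : ℕ, f ^ m ∈ Ideal.span (Set.range p) := by
  have hf : f ∈ vanishingIdeal K (zeroLocus L (Ideal.span (Set.range p))) := by
    rw [mem_vanishingIdeal_iff]
    intro x hx
    rw [zeroLocus_span] at hx
    exact h x fun j => hx (p j) (Set.mem_range_self j)
  rw [vanishingIdeal_zeroLocus_eq_radical] at hf
  exact hf

/-- Relative form: a polynomial vanishing on the common zeros of the two families `p` and `g`
has a power in `Ideal.span (Set.range p) ⊔ Ideal.span (Set.range g)`. -/
theorem exists_pow_mem_sup_span_of_forall_aeval_eq_zero {ρ : Type*} {p : ι'' → MvPolynomial σ K}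
    {g : ρ → MvPolynomial σ K} {f : MvPolynomial σ K}
    (h : ∀ x : σ → L, (∀ l, aeval x (g l) = 0) → (∀ j, aeval x (p j) = 0) → aeval x f = 0) :
    ∃ m : ℕ, f ^ m ∈ Ideal.span (Set.range p) ⊔ Ideal.span (Set.range g) := by
  have hf : f ∈ vanishingIdeal K
      (zeroLocus L (Ideal.span (Set.range p) ⊔ Ideal.span (Set.range g))) := by
    rw [mem_vanishingIdeal_iff]
    intro x hx
    rw [← Ideal.span_union, zeroLocus_span] at hx
    exact h x (fun l => hx (g l) (Or.inr (Set.mem_range_self l)))
      (fun j => hx (p j) (Or.inl (Set.mem_range_self j)))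
  rw [vanishingIdeal_zeroLocus_eq_radical] at hf
  exact hf

end Nullstellensatz

section EvalSpan

variable {K : Type*} [CommRing K] {σ ρ : Type*}

/-- A point killing the generators kills the ideal they generate. -/
theorem eval_eq_zero_of_mem_span_range {g : ρ → MvPolynomial σ K} {x : σ → K}
    (hx : ∀ l, eval x (g l) = 0) {r : MvPolynomial σ K} (hr : r ∈ Ideal.span (Set.range g)) :
    eval x r = 0 := by
  have h : Ideal.span (Set.range g) ≤ RingHom.ker (eval x) := by
    rw [Ideal.span_le]
    rintro _ ⟨l, rfl⟩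
    exact RingHom.mem_ker.mpr (hx l)
  exact RingHom.mem_ker.mp (h hr)

end EvalSpan

section Homogeneous

variable {K : Type*} [Field K] (L : Type*) [Field L] [IsAlgClosed L] [Algebra K L]
  {ι : Type*} [Finite ι] {ι'' : Type*} [Fintype ι'']

/-- **Nullstellensatz witnesses.**  If a finite family `p` of homogeneous polynomials of degree
`N` over `K` has no common zero other than the origin over an algebraically closed extension
`L` of `K`, then there are homogeneous polynomials `q (k, j)` of a common degree `M` with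
`∑ j, q (k, j) * p j = X k ^ (M + N)` for every variable `k`.  These are exactly the witnesses
required by Mathlib's `Height.mulHeight_eval_ge`. -/
theorem exists_witness_of_noCommonZero {N : ℕ} {p : ι'' → MvPolynomial ι K}
    (hp : ∀ j, (p j).IsHomogeneous N)
    (h0 : ∀ x : ι → L, (∀ j, aeval x (p j) = 0) → x = 0) :
    ∃ (M : ℕ) (q : ι × ι'' → MvPolynomial ι K), (∀ a, (q a).IsHomogeneous M) ∧
      ∀ k, ∑ j, q (k, j) * p j = X k ^ (M + N) := by
  classical
  cases nonempty_fintype ι
  have h1 : ∀ k : ι, ∃ m : ℕ, (X k : MvPolynomial ι K) ^ m ∈ Ideal.span (Set.range p) := by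
    intro k
    apply exists_pow_mem_span_of_forall_aeval_eq_zero L
    intro x hx
    simp [h0 x hx]
  choose m hm using h1
  have h2 : ∀ k : ι, ∃ q : ι'' → MvPolynomial ι K, (∀ j, (q j).IsHomogeneous (∑ k, m k)) ∧
      ∑ j, q j * p j = X k ^ ((∑ k, m k) + N) := by
    intro k
    apply exists_isWeightedHomogeneous_sum_mul_eq (1 : ι → ℕ) (∑ k, m k) hp
    · have h : (X k ^ ((∑ k, m k) + N) : MvPolynomial ι K).IsHomogeneous ((∑ k, m k) + N) := by
        simpa using (isHomogeneous_X K k).pow ((∑ k, m k) + N)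
      exact h
    · exact Ideal.pow_mem_of_pow_mem _ (hm k)
        (le_trans (Finset.single_le_sum (fun _ _ => Nat.zero_le _) (Finset.mem_univ k))
          (Nat.le_add_right _ _))
  choose q hq1 hq2 using h2
  exact ⟨∑ k, m k, fun a => q a.1 a.2, fun a => hq1 a.1 a.2, hq2⟩

/-- **Nullstellensatz witnesses, relative version.**  Let `p` be a finite family of homogeneous
polynomials of degree `N` and let `g` be a family of homogeneous polynomials (of arbitrary
degrees), cutting out a projective variety `V`.  If `p` has no common zero on `V` other than the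
origin (over an algebraically closed extension `L`), then there are homogeneous `q (k, j)` of a
common degree `M` with `X k ^ (M + N) - ∑ j, q (k, j) * p j ∈ Ideal.span (Set.range g)`. -/
theorem exists_witness_of_noCommonZero_on {ρ : Type*} {N : ℕ} {p : ι'' → MvPolynomial ι K}
    (hp : ∀ j, (p j).IsHomogeneous N) {g : ρ → MvPolynomial ι K}
    (hg : ∀ l, ∃ n, (g l).IsHomogeneous n)
    (h0 : ∀ x : ι → L, (∀ l, aeval x (g l) = 0) → (∀ j, aeval x (p j) = 0) → x = 0) :
    ∃ (M : ℕ) (q : ι × ι'' → MvPolynomial ι K), (∀ a, (q a).IsHomogeneous M) ∧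
      ∀ k, X k ^ (M + N) - ∑ j, q (k, j) * p j ∈ Ideal.span (Set.range g) := by
  classical
  cases nonempty_fintype ι
  have h1 : ∀ k : ι, ∃ m : ℕ, (X k : MvPolynomial ι K) ^ m ∈
      Ideal.span (Set.range p) ⊔ Ideal.span (Set.range g) := by
    intro k
    apply exists_pow_mem_sup_span_of_forall_aeval_eq_zero L
    intro x hxg hxp
    simp [h0 x hxg hxp]
  choose m hm using h1
  have h2 : ∀ k : ι, ∃ q : ι'' → MvPolynomial ι K, (∀ j, (q j).IsHomogeneous (∑ k, m k)) ∧
      X k ^ ((∑ k, m k) + N) - ∑ j, q j * p j ∈ Ideal.span (Set.range g) := by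
    intro k
    apply exists_isWeightedHomogeneous_sum_mul_sub_mem (1 : ι → ℕ) (∑ k, m k) hp
    · exact fun t f hf => weightedHomogeneousComponent_mem_span_range (1 : ι → ℕ) hg t hf
    · have h : (X k ^ ((∑ k, m k) + N) : MvPolynomial ι K).IsHomogeneous ((∑ k, m k) + N) := by
        simpa using (isHomogeneous_X K k).pow ((∑ k, m k) + N)
      exact h
    · exact Ideal.pow_mem_of_pow_mem _ (hm k)
        (le_trans (Finset.single_le_sum (fun _ _ => Nat.zero_le _) (Finset.mem_univ k))
          (Nat.le_add_right _ _))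
  choose q hq1 hq2 using h2
  exact ⟨∑ k, m k, fun a => q a.1 a.2, fun a => hq1 a.1 a.2, hq2⟩

variable [Height.AdmissibleAbsValues K]

/-- **Height lower bound for maps that are base-point-free on a subvariety.**  Let `p` be a
finite family of homogeneous polynomials of degree `N` and `g` a family of homogeneous polynomials
cutting out a projective variety `V`.  If `p` has no common zero on `V` other than the origin
(over an algebraically closed extension `L`), then `C * H(x)^N ≤ H(p(x))` for all `x` on `V`. -/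
theorem mulHeight_eval_ge_of_noCommonZero_on {ρ : Type*} {N : ℕ} {p : ι'' → MvPolynomial ι K}
    (hp : ∀ j, (p j).IsHomogeneous N) {g : ρ → MvPolynomial ι K}
    (hg : ∀ l, ∃ n, (g l).IsHomogeneous n)
    (h0 : ∀ x : ι → L, (∀ l, aeval x (g l) = 0) → (∀ j, aeval x (p j) = 0) → x = 0) :
    ∃ C > 0, ∀ x : ι → K, (∀ l, (g l).eval x = 0) →
      C * Height.mulHeight x ^ N ≤ Height.mulHeight (fun j => (p j).eval x) := by
  obtain ⟨M, q, hq, hqp⟩ := exists_witness_of_noCommonZero_on L hp hg h0
  obtain ⟨C, hC, h⟩ := Height.mulHeight_eval_ge' (N := N) hq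
  refine ⟨C, hC, fun x hx => h p fun k => ?_⟩
  have := eval_eq_zero_of_mem_span_range hx (hqp k)
  simp only [map_sub, map_pow, eval_X, map_sum, map_mul] at this
  exact (sub_eq_zero.mp this).symm

/-- Logarithmic form of `mulHeight_eval_ge_of_noCommonZero_on`. -/
theorem logHeight_eval_ge_of_noCommonZero_on {ρ : Type*} {N : ℕ} {p : ι'' → MvPolynomial ι K}
    (hp : ∀ j, (p j).IsHomogeneous N) {g : ρ → MvPolynomial ι K}
    (hg : ∀ l, ∃ n, (g l).IsHomogeneous n)
    (h0 : ∀ x : ι → L, (∀ l, aeval x (g l) = 0) → (∀ j, aeval x (p j) = 0) → x = 0) :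
    ∃ C : ℝ, ∀ x : ι → K, (∀ l, (g l).eval x = 0) →
      C + N * Height.logHeight x ≤ Height.logHeight (fun j => (p j).eval x) := by
  obtain ⟨M, q, hq, hqp⟩ := exists_witness_of_noCommonZero_on L hp hg h0
  obtain ⟨C, h⟩ := Height.logHeight_eval_ge' (N := N) hq
  refine ⟨C, fun x hx => h p fun k => ?_⟩
  have := eval_eq_zero_of_mem_span_range hx (hqp k)
  simp only [map_sub, map_pow, eval_X, map_sum, map_mul] at this
  exact (sub_eq_zero.mp this).symm

/-- Two-sided logarithmic form on a subvariety: `h(p(x)) = N * h(x) + O(1)` for `x` on `V`. -/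
theorem abs_logHeight_eval_sub_le_of_noCommonZero_on {ρ : Type*} {N : ℕ}
    {p : ι'' → MvPolynomial ι K}
    (hp : ∀ j, (p j).IsHomogeneous N) {g : ρ → MvPolynomial ι K}
    (hg : ∀ l, ∃ n, (g l).IsHomogeneous n)
    (h0 : ∀ x : ι → L, (∀ l, aeval x (g l) = 0) → (∀ j, aeval x (p j) = 0) → x = 0) :
    ∃ C : ℝ, ∀ x : ι → K, (∀ l, (g l).eval x = 0) →
      |Height.logHeight (fun j => (p j).eval x) - N * Height.logHeight x| ≤ C := by
  obtain ⟨C₁, h₁⟩ := logHeight_eval_ge_of_noCommonZero_on L hp hg h0
  obtain ⟨C₂, h₂⟩ := Height.logHeight_eval_le' hp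
  refine ⟨max C₂ (-C₁), fun x hx => ?_⟩
  have := h₁ x hx
  have := h₂ x
  rw [abs_le]
  constructor
  · have := le_max_right C₂ (-C₁)
    linarith
  · have := le_max_left C₂ (-C₁)
    linarith

/-- **Height lower bound for base-point-free homogeneous maps.**  If a finite family `p` of
homogeneous polynomials of degree `N` has no common zero other than the origin over an
algebraically closed extension `L`, then `C * H(x)^N ≤ H(p(x))` for a positive constant `C`. -/
theorem mulHeight_eval_ge_of_noCommonZero {N : ℕ} {p : ι'' → MvPolynomial ι K}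
    (hp : ∀ j, (p j).IsHomogeneous N)
    (h0 : ∀ x : ι → L, (∀ j, aeval x (p j) = 0) → x = 0) :
    ∃ C > 0, ∀ x : ι → K,
      C * Height.mulHeight x ^ N ≤ Height.mulHeight (fun j => (p j).eval x) := by
  obtain ⟨M, q, hq, hqp⟩ := exists_witness_of_noCommonZero L hp h0
  obtain ⟨C, hC, h⟩ := Height.mulHeight_eval_ge' (N := N) hq
  refine ⟨C, hC, fun x => h p fun k => ?_⟩
  have := congrArg (eval x) (hqp k)
  simpa using this

/-- Logarithmic form of `mulHeight_eval_ge_of_noCommonZero`. -/
theorem logHeight_eval_ge_of_noCommonZero {N : ℕ} {p : ι'' → MvPolynomial ι K}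
    (hp : ∀ j, (p j).IsHomogeneous N)
    (h0 : ∀ x : ι → L, (∀ j, aeval x (p j) = 0) → x = 0) :
    ∃ C : ℝ, ∀ x : ι → K,
      C + N * Height.logHeight x ≤ Height.logHeight (fun j => (p j).eval x) := by
  obtain ⟨M, q, hq, hqp⟩ := exists_witness_of_noCommonZero L hp h0
  obtain ⟨C, h⟩ := Height.logHeight_eval_ge' (N := N) hq
  refine ⟨C, fun x => h p fun k => ?_⟩
  have := congrArg (eval x) (hqp k)
  simpa using this

/-- Two-sided logarithmic form: for a base-point-free family `p` of homogeneous polynomials of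
degree `N`, `h(p(x)) = N * h(x) + O(1)`. -/
theorem abs_logHeight_eval_sub_le_of_noCommonZero {N : ℕ} {p : ι'' → MvPolynomial ι K}
    (hp : ∀ j, (p j).IsHomogeneous N)
    (h0 : ∀ x : ι → L, (∀ j, aeval x (p j) = 0) → x = 0) :
    ∃ C : ℝ, ∀ x : ι → K,
      |Height.logHeight (fun j => (p j).eval x) - N * Height.logHeight x| ≤ C := by
  obtain ⟨C₁, h₁⟩ := logHeight_eval_ge_of_noCommonZero L hp h0
  obtain ⟨C₂, h₂⟩ := Height.logHeight_eval_le' hp
  refine ⟨max C₂ (-C₁), fun x => ?_⟩
  have := h₁ x
  have := h₂ x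
  rw [abs_le]
  constructor
  · have := le_max_right C₂ (-C₁)
    linarith
  · have := le_max_left C₂ (-C₁)
    linarith

end Homogeneous

section Bihomogeneous

/-- The bidegree weight on variables indexed by `ι ⊕ κ`: the variables from `ι` have weight
`(1, 0)` and the variables from `κ` have weight `(0, 1)`.  A polynomial `p` in
`MvPolynomial (ι ⊕ κ) K` is bihomogeneous of bidegree `(a, b)` iff
`p.IsWeightedHomogeneous (biWeight ι κ) (a, b)`. -/
def biWeight (ι κ : Type*) : ι ⊕ κ → ℕ × ℕ := Sum.elim (fun _ => (1, 0)) (fun _ => (0, 1))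

variable {ι κ : Type*}

@[simp] theorem biWeight_inl (i : ι) : biWeight ι κ (Sum.inl i) = (1, 0) := rfl

@[simp] theorem biWeight_inr (k : κ) : biWeight ι κ (Sum.inr k) = (0, 1) := rfl

theorem weight_biWeight [Fintype ι] [Fintype κ] (d : ι ⊕ κ →₀ ℕ) :
    Finsupp.weight (biWeight ι κ) d = (∑ i, d (Sum.inl i), ∑ k, d (Sum.inr k)) := by
  rw [Finsupp.weight_eq_sum, Fintype.sum_sum_type]
  simp [Prod.ext_iff, Prod.fst_sum, Prod.snd_sum]

variable {K : Type*} [Field K]

theorem isWeightedHomogeneous_biWeight_X_inl (i : ι) :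
    (X (Sum.inl i) : MvPolynomial (ι ⊕ κ) K).IsWeightedHomogeneous (biWeight ι κ) (1, 0) :=
  isWeightedHomogeneous_X K (biWeight ι κ) (Sum.inl i)

theorem isWeightedHomogeneous_biWeight_X_inr (k : κ) :
    (X (Sum.inr k) : MvPolynomial (ι ⊕ κ) K).IsWeightedHomogeneous (biWeight ι κ) (0, 1) :=
  isWeightedHomogeneous_X K (biWeight ι κ) (Sum.inr k)

variable [Finite ι] [Finite κ] {ι'' : Type*}

/-- **Bihomogeneous Nullstellensatz witnesses (relative version).**  Let `p` be a finite family
of bihomogeneous polynomials of bidegree `(a, b)` in the variables `ι ⊕ κ`, and `g` a family of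
bihomogeneous polynomials (of arbitrary bidegrees).  If every common zero `(x, y)` of `p` and `g`
over an algebraically closed extension `L` has `x = 0` or `y = 0`, then there are bihomogeneous
`q ((i, k), j)` of bidegree `(M + b, M + a)` with
`(X i * Y k) ^ (M + a + b) - ∑ j, q ((i, k), j) * p j ∈ Ideal.span (Set.range g)`. -/
theorem exists_biwitness_of_noCommonZero_on (L : Type*) [Field L] [IsAlgClosed L] [Algebra K L]
    [Fintype ι''] {ρ : Type*} {a b : ℕ} {p : ι'' → MvPolynomial (ι ⊕ κ) K}
    (hp : ∀ j, (p j).IsWeightedHomogeneous (biWeight ι κ) (a, b))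
    {g : ρ → MvPolynomial (ι ⊕ κ) K}
    (hg : ∀ l, ∃ n, (g l).IsWeightedHomogeneous (biWeight ι κ) n)
    (h0 : ∀ (x : ι → L) (y : κ → L), (∀ l, aeval (Sum.elim x y) (g l) = 0) →
      (∀ j, aeval (Sum.elim x y) (p j) = 0) → x = 0 ∨ y = 0) :
    ∃ (M : ℕ) (q : (ι × κ) × ι'' → MvPolynomial (ι ⊕ κ) K),
      (∀ t, (q t).IsWeightedHomogeneous (biWeight ι κ) (M + b, M + a)) ∧
      ∀ i k, (X (Sum.inl i) * X (Sum.inr k)) ^ (M + a + b) - ∑ j, q ((i, k), j) * p j ∈
        Ideal.span (Set.range g) := by
  classical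
  cases nonempty_fintype ι
  cases nonempty_fintype κ
  have h1 : ∀ t : ι × κ, ∃ m : ℕ,
      (X (Sum.inl t.1) * X (Sum.inr t.2) : MvPolynomial (ι ⊕ κ) K) ^ m ∈
        Ideal.span (Set.range p) ⊔ Ideal.span (Set.range g) := by
    intro t
    apply exists_pow_mem_sup_span_of_forall_aeval_eq_zero L
    intro z hzg hzp
    have hz' : z = Sum.elim (z ∘ Sum.inl) (z ∘ Sum.inr) := (Sum.elim_comp_inl_inr z).symm
    rw [hz'] at hzg hzp
    rcases h0 _ _ hzg hzp with h | h
    · have : z (Sum.inl t.1) = 0 := congrFun h t.1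
      simp [this]
    · have : z (Sum.inr t.2) = 0 := congrFun h t.2
      simp [this]
  choose m hm using h1
  have h2 : ∀ t : ι × κ, ∃ q : ι'' → MvPolynomial (ι ⊕ κ) K,
      (∀ j, (q j).IsWeightedHomogeneous (biWeight ι κ) ((∑ t, m t) + b, (∑ t, m t) + a)) ∧
      (X (Sum.inl t.1) * X (Sum.inr t.2)) ^ ((∑ t, m t) + a + b) - ∑ j, q j * p j ∈
        Ideal.span (Set.range g) := by
    intro t
    apply exists_isWeightedHomogeneous_sum_mul_sub_mem (biWeight ι κ)
      ((∑ t, m t) + b, (∑ t, m t) + a) hp
    · exact fun s f hf => weightedHomogeneousComponent_mem_span_range (biWeight ι κ) hg s hf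
    · have h := ((isWeightedHomogeneous_biWeight_X_inl (K := K) (κ := κ) t.1).mul
        (isWeightedHomogeneous_biWeight_X_inr (K := K) (ι := ι) t.2)).pow ((∑ t, m t) + a + b)
      have e : ((∑ t, m t) + a + b) • (((1 : ℕ), (0 : ℕ)) + ((0 : ℕ), (1 : ℕ))) =
          ((∑ t, m t) + b, (∑ t, m t) + a) + (a, b) := by
        refine Prod.ext ?_ ?_
        · simp only [Prod.smul_fst, Prod.fst_add, smul_eq_mul]
          omega
        · simp only [Prod.smul_snd, Prod.snd_add, smul_eq_mul]
          omega
      rwa [e] at h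
    · exact Ideal.pow_mem_of_pow_mem _ (hm t)
        (le_trans (Finset.single_le_sum (fun _ _ => Nat.zero_le _) (Finset.mem_univ t))
          (by omega))
  choose q hq1 hq2 using h2
  exact ⟨∑ t, m t, fun s => q s.1 s.2, fun s => hq1 s.1 s.2, fun i k => hq2 (i, k)⟩

variable [Height.AdmissibleAbsValues K]

/-- **Upper bound for bihomogeneous maps.**  For a finite family `p` of polynomials in the
variables `ι ⊕ κ`, bihomogeneous of bidegree `(a, b)`, we have
`H(p(x, y)) ≤ C * H(x)^a * H(y)^b`. -/
theorem mulHeight_bieval_le [Finite ι''] {a b : ℕ} {p : ι'' → MvPolynomial (ι ⊕ κ) K}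
    (hp : ∀ j, (p j).IsWeightedHomogeneous (biWeight ι κ) (a, b)) :
    ∃ C > 0, ∀ (x : ι → K) (y : κ → K),
      Height.mulHeight (fun j => (p j).eval (Sum.elim x y)) ≤
        C * Height.mulHeight x ^ a * Height.mulHeight y ^ b := by
  classical
  cases nonempty_fintype ι
  cases nonempty_fintype κ
  -- the finite type of exponent vectors of bidegree `(a, b)`
  let D := {d : ι ⊕ κ →₀ ℕ // Finsupp.weight (biWeight ι κ) d = (a, b)}
  have hDfin : Finite D := by
    have hsub : {d : ι ⊕ κ →₀ ℕ | Finsupp.weight (biWeight ι κ) d = (a, b)} ⊆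
        {d : ι ⊕ κ →₀ ℕ | d.degree ≤ a + b} := by
      intro d hd
      have hd' : Finsupp.weight (biWeight ι κ) d = (a, b) := hd
      rw [weight_biWeight, Prod.mk.injEq] at hd'
      show d.degree ≤ a + b
      rw [Finsupp.degree_eq_sum, Fintype.sum_sum_type, hd'.1, hd'.2]
    exact ((Finsupp.finite_of_degree_le (a + b)).subset hsub).to_subtype
  cases nonempty_fintype D
  have hDa : ∀ d : D, ∑ i, d.1 (Sum.inl i) = a := fun d => by
    have := d.2
    rw [weight_biWeight, Prod.mk.injEq] at this
    exact this.1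
  have hDb : ∀ d : D, ∑ k, d.1 (Sum.inr k) = b := fun d => by
    have := d.2
    rw [weight_biWeight, Prod.mk.injEq] at this
    exact this.2
  -- the two monomial families
  let pu : D → MvPolynomial ι K := fun d => ∏ i, X i ^ (d.1 (Sum.inl i))
  let pv : D → MvPolynomial κ K := fun d => ∏ k, X k ^ (d.1 (Sum.inr k))
  have hpu : ∀ d, (pu d).IsHomogeneous a := fun d => by
    have := IsHomogeneous.prod (R := K) Finset.univ (fun i : ι => (X i : MvPolynomial ι K) ^ (d.1 (Sum.inl i)))
      (fun i => d.1 (Sum.inl i)) (fun i _ => isHomogeneous_X_pow i _)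
    rwa [hDa d] at this
  have hpv : ∀ d, (pv d).IsHomogeneous b := fun d => by
    have := IsHomogeneous.prod (R := K) Finset.univ (fun k : κ => (X k : MvPolynomial κ K) ^ (d.1 (Sum.inr k)))
      (fun k => d.1 (Sum.inr k)) (fun k _ => isHomogeneous_X_pow k _)
    rwa [hDb d] at this
  obtain ⟨Cu, hCu, hu⟩ := Height.mulHeight_eval_le' hpu
  obtain ⟨Cv, hCv, hv⟩ := Height.mulHeight_eval_le' hpv
  let A : ι'' × D → K := fun t => coeff t.2.1 (p t.1)
  have hA : 0 < Height.mulHeight A := Height.mulHeight_pos A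
  refine ⟨max 1 ((Nat.card D : ℝ) ^ Height.totalWeight K * Height.mulHeight A * (Cu * Cv)),
    by positivity, fun x y => ?_⟩
  have hx1 : 1 ≤ Height.mulHeight x ^ a := one_le_pow₀ (Height.one_le_mulHeight x)
  have hy1 : 1 ≤ Height.mulHeight y ^ b := one_le_pow₀ (Height.one_le_mulHeight y)
  have hrep : (fun j => (p j).eval (Sum.elim x y)) = fun j => ∑ d : D, A (j, d) *
      ((fun d => (pu d).eval x) * (fun d => (pv d).eval y)) d := by
    funext j
    rw [eval_eq']
    have hsub : (p j).support ⊆
        (Finset.univ : Finset D).map (Function.Embedding.subtype _) := by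
      intro d hd
      simp only [Finset.mem_map, Finset.mem_univ, true_and, Function.Embedding.coe_subtype,
        Subtype.exists, exists_prop, exists_eq_right]
      exact hp j (mem_support_iff.mp hd)
    rw [Finset.sum_subset hsub, Finset.sum_map]
    · refine Finset.sum_congr rfl fun d _ => ?_
      simp only [Function.Embedding.coe_subtype, Pi.mul_apply, A, pu, pv, map_prod, map_pow,
        eval_X, Fintype.prod_sum_type, Sum.elim_inl, Sum.elim_inr]
    · intro d _ hd
      simp [notMem_support_iff.mp hd]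
  rcases isEmpty_or_nonempty D with hD | hD
  · have h0 : (fun j => (p j).eval (Sum.elim x y)) = 0 := by
      rw [hrep]
      funext j
      simp
    rw [h0, Height.mulHeight_zero]
    calc (1 : ℝ) = 1 * 1 * 1 := by ring
      _ ≤ max 1 ((Nat.card D : ℝ) ^ Height.totalWeight K * Height.mulHeight A * (Cu * Cv)) *
          Height.mulHeight x ^ a * Height.mulHeight y ^ b := by
        gcongr
        exact le_max_left _ _
  · rw [hrep]
    calc Height.mulHeight (fun j => ∑ d : D, A (j, d) *
          ((fun d => (pu d).eval x) * (fun d => (pv d).eval y)) d)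
        ≤ (Nat.card D : ℝ) ^ Height.totalWeight K * Height.mulHeight A *
          Height.mulHeight ((fun d => (pu d).eval x) * (fun d => (pv d).eval y)) :=
          Height.mulHeight_linearMap_apply_le A _
      _ ≤ (Nat.card D : ℝ) ^ Height.totalWeight K * Height.mulHeight A *
          (Height.mulHeight (fun d => (pu d).eval x) * Height.mulHeight (fun d => (pv d).eval y)) := by
          gcongr
          exact Height.mulHeight_mul_le _ _
      _ ≤ (Nat.card D : ℝ) ^ Height.totalWeight K * Height.mulHeight A *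
          ((Cu * Height.mulHeight x ^ a) * (Cv * Height.mulHeight y ^ b)) := by
          gcongr
          · exact hu x
          · exact hv y
      _ = ((Nat.card D : ℝ) ^ Height.totalWeight K * Height.mulHeight A * (Cu * Cv)) *
          Height.mulHeight x ^ a * Height.mulHeight y ^ b := by ring
      _ ≤ max 1 ((Nat.card D : ℝ) ^ Height.totalWeight K * Height.mulHeight A * (Cu * Cv)) *
          Height.mulHeight x ^ a * Height.mulHeight y ^ b := by
          gcongr
          exact le_max_right _ _

/-- **Lower bound for bihomogeneous maps (relative version).**  Let `p` be a finite family of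
bihomogeneous polynomials of bidegree `(a, b)` and `g` a family of bihomogeneous polynomials.
If every common zero `(x, y)` of `p` and `g` over an algebraically closed extension `L` has
`x = 0` or `y = 0`, then `C * H(x)^a * H(y)^b ≤ H(p(x, y))` for all nonzero `x`, `y` over `K`
with `g(x, y) = 0`. -/
theorem mulHeight_bieval_ge_on (L : Type*) [Field L] [IsAlgClosed L] [Algebra K L]
    [Fintype ι''] {ρ : Type*} {a b : ℕ} {p : ι'' → MvPolynomial (ι ⊕ κ) K}
    (hp : ∀ j, (p j).IsWeightedHomogeneous (biWeight ι κ) (a, b))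
    {g : ρ → MvPolynomial (ι ⊕ κ) K}
    (hg : ∀ l, ∃ n, (g l).IsWeightedHomogeneous (biWeight ι κ) n)
    (h0 : ∀ (x : ι → L) (y : κ → L), (∀ l, aeval (Sum.elim x y) (g l) = 0) →
      (∀ j, aeval (Sum.elim x y) (p j) = 0) → x = 0 ∨ y = 0) :
    ∃ C > 0, ∀ (x : ι → K) (y : κ → K), x ≠ 0 → y ≠ 0 →
      (∀ l, (g l).eval (Sum.elim x y) = 0) →
      C * Height.mulHeight x ^ a * Height.mulHeight y ^ b ≤
        Height.mulHeight (fun j => (p j).eval (Sum.elim x y)) := by
  classical
  cases nonempty_fintype ι
  cases nonempty_fintype κ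
  obtain ⟨M, q, hq, hqp⟩ := exists_biwitness_of_noCommonZero_on L hp hg h0
  obtain ⟨CQ, hCQ, hQ⟩ := mulHeight_bieval_le hq
  refine ⟨((Nat.card ι'' : ℝ) ^ Height.totalWeight K * CQ + 1)⁻¹, by positivity,
    fun x y hx hy hgxy => ?_⟩
  obtain ⟨i₀, hi₀⟩ := Function.ne_iff.mp hx
  obtain ⟨k₀, hk₀⟩ := Function.ne_iff.mp hy
  -- the evaluated witness relations
  have hrel : ∀ t : ι × κ, ∑ j, (q (t, j)).eval (Sum.elim x y) * (p j).eval (Sum.elim x y) =
      (x ^ (M + a + b)) t.1 * (y ^ (M + a + b)) t.2 := by
    intro t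
    have := eval_eq_zero_of_mem_span_range hgxy (hqp t.1 t.2)
    simp only [map_sub, map_pow, map_mul, eval_X, map_sum, Sum.elim_inl, Sum.elim_inr] at this
    rw [← sub_eq_zero.mp this, Pi.pow_apply, Pi.pow_apply, mul_pow]
  rcases isEmpty_or_nonempty ι'' with hE | hE
  · exfalso
    have := hrel (i₀, k₀)
    simp only [Finset.univ_eq_empty, Finset.sum_empty, Pi.pow_apply] at this
    exact mul_ne_zero (pow_ne_zero _ hi₀) (pow_ne_zero _ hk₀) this.symm
  have hxe : x ^ (M + a + b) ≠ 0 :=
    Function.ne_iff.mpr ⟨i₀, by simpa using pow_ne_zero (M + a + b) hi₀⟩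
  have hye : y ^ (M + a + b) ≠ 0 :=
    Function.ne_iff.mpr ⟨k₀, by simpa using pow_ne_zero (M + a + b) hk₀⟩
  set Qv : (ι × κ) × ι'' → K := fun t => (q t).eval (Sum.elim x y) with hQv
  set Pv : ι'' → K := fun j => (p j).eval (Sum.elim x y) with hPv
  have hX := Height.mulHeight_pos x
  have hY := Height.mulHeight_pos y
  have hP := Height.mulHeight_pos Pv
  have h1 : Height.mulHeight x ^ (M + a + b) * Height.mulHeight y ^ (M + a + b) ≤
      (Nat.card ι'' : ℝ) ^ Height.totalWeight K * Height.mulHeight Qv * Height.mulHeight Pv := by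
    rw [← Height.mulHeight_pow x, ← Height.mulHeight_pow y,
      ← Height.mulHeight_fun_mul_eq hxe hye]
    have hfun : (fun t : ι × κ => (x ^ (M + a + b)) t.1 * (y ^ (M + a + b)) t.2) =
        fun t : ι × κ => ∑ j, Qv (t, j) * Pv j := funext fun t => (hrel t).symm
    rw [hfun]
    exact Height.mulHeight_linearMap_apply_le Qv Pv
  have h2 : Height.mulHeight Qv ≤
      CQ * Height.mulHeight x ^ (M + b) * Height.mulHeight y ^ (M + a) := hQ x y
  have h3 : Height.mulHeight x ^ a * Height.mulHeight y ^ b ≤
      (Nat.card ι'' : ℝ) ^ Height.totalWeight K * CQ * Height.mulHeight Pv := by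
    have hT : 0 < Height.mulHeight x ^ (M + b) * Height.mulHeight y ^ (M + a) := by positivity
    refine le_of_mul_le_mul_right ?_ hT
    calc Height.mulHeight x ^ a * Height.mulHeight y ^ b *
          (Height.mulHeight x ^ (M + b) * Height.mulHeight y ^ (M + a))
        = Height.mulHeight x ^ (M + a + b) * Height.mulHeight y ^ (M + a + b) := by ring
      _ ≤ (Nat.card ι'' : ℝ) ^ Height.totalWeight K * Height.mulHeight Qv *
          Height.mulHeight Pv := h1
      _ ≤ (Nat.card ι'' : ℝ) ^ Height.totalWeight K *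
          (CQ * Height.mulHeight x ^ (M + b) * Height.mulHeight y ^ (M + a)) *
          Height.mulHeight Pv := by gcongr
      _ = (Nat.card ι'' : ℝ) ^ Height.totalWeight K * CQ * Height.mulHeight Pv *
          (Height.mulHeight x ^ (M + b) * Height.mulHeight y ^ (M + a)) := by ring
  rw [mul_assoc, inv_mul_le_iff₀ (by positivity)]
  calc Height.mulHeight x ^ a * Height.mulHeight y ^ b
      ≤ (Nat.card ι'' : ℝ) ^ Height.totalWeight K * CQ * Height.mulHeight Pv := h3
    _ ≤ ((Nat.card ι'' : ℝ) ^ Height.totalWeight K * CQ + 1) * Height.mulHeight Pv := by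
        gcongr
        linarith

/-- **Lower bound for bihomogeneous maps.**  Let `p` be a finite family of bihomogeneous
polynomials of bidegree `(a, b)`.  If every common zero `(x, y)` of `p` over an algebraically
closed extension `L` has `x = 0` or `y = 0`, then `C * H(x)^a * H(y)^b ≤ H(p(x, y))` for all
nonzero `x`, `y` over `K`. -/
theorem mulHeight_bieval_ge (L : Type*) [Field L] [IsAlgClosed L] [Algebra K L]
    [Fintype ι''] {a b : ℕ} {p : ι'' → MvPolynomial (ι ⊕ κ) K}
    (hp : ∀ j, (p j).IsWeightedHomogeneous (biWeight ι κ) (a, b))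
    (h0 : ∀ (x : ι → L) (y : κ → L),
      (∀ j, aeval (Sum.elim x y) (p j) = 0) → x = 0 ∨ y = 0) :
    ∃ C > 0, ∀ (x : ι → K) (y : κ → K), x ≠ 0 → y ≠ 0 →
      C * Height.mulHeight x ^ a * Height.mulHeight y ^ b ≤
        Height.mulHeight (fun j => (p j).eval (Sum.elim x y)) := by
  obtain ⟨C, hC, h⟩ := mulHeight_bieval_ge_on L hp
    (g := fun e : Empty => (e.elim : MvPolynomial (ι ⊕ κ) K)) (fun l => l.elim)
    (fun x y _ hxy => h0 x y hxy)
  exact ⟨C, hC, fun x y hx hy => h x y hx hy fun l => l.elim⟩

/-- Logarithmic form of `mulHeight_bieval_le`. -/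
theorem logHeight_bieval_le [Finite ι''] {a b : ℕ} {p : ι'' → MvPolynomial (ι ⊕ κ) K}
    (hp : ∀ j, (p j).IsWeightedHomogeneous (biWeight ι κ) (a, b)) :
    ∃ C : ℝ, ∀ (x : ι → K) (y : κ → K),
      Height.logHeight (fun j => (p j).eval (Sum.elim x y)) ≤
        C + a * Height.logHeight x + b * Height.logHeight y := by
  obtain ⟨C', hC₀, hC⟩ := mulHeight_bieval_le hp
  refine ⟨Real.log C', fun x y => ?_⟩
  have hX := Height.mulHeight_pos x
  have hY := Height.mulHeight_pos y
  have h := Real.log_le_log (Height.mulHeight_pos _) (hC x y)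
  rw [Real.log_mul (by positivity) (by positivity), Real.log_mul (by positivity) (by positivity),
    Real.log_pow, Real.log_pow] at h
  exact h

/-- Logarithmic form of `mulHeight_bieval_ge_on`. -/
theorem logHeight_bieval_ge_on (L : Type*) [Field L] [IsAlgClosed L] [Algebra K L]
    [Fintype ι''] {ρ : Type*} {a b : ℕ} {p : ι'' → MvPolynomial (ι ⊕ κ) K}
    (hp : ∀ j, (p j).IsWeightedHomogeneous (biWeight ι κ) (a, b))
    {g : ρ → MvPolynomial (ι ⊕ κ) K}
    (hg : ∀ l, ∃ n, (g l).IsWeightedHomogeneous (biWeight ι κ) n)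
    (h0 : ∀ (x : ι → L) (y : κ → L), (∀ l, aeval (Sum.elim x y) (g l) = 0) →
      (∀ j, aeval (Sum.elim x y) (p j) = 0) → x = 0 ∨ y = 0) :
    ∃ C : ℝ, ∀ (x : ι → K) (y : κ → K), x ≠ 0 → y ≠ 0 →
      (∀ l, (g l).eval (Sum.elim x y) = 0) →
      C + a * Height.logHeight x + b * Height.logHeight y ≤
        Height.logHeight (fun j => (p j).eval (Sum.elim x y)) := by
  obtain ⟨C', hC₀, hC⟩ := mulHeight_bieval_ge_on L hp hg h0
  refine ⟨Real.log C', fun x y hx hy hgxy => ?_⟩
  have hX := Height.mulHeight_pos x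
  have hY := Height.mulHeight_pos y
  have h := Real.log_le_log (by positivity) (hC x y hx hy hgxy)
  rw [Real.log_mul (by positivity) (by positivity), Real.log_mul (by positivity) (by positivity),
    Real.log_pow, Real.log_pow] at h
  exact h

/-- Logarithmic form of `mulHeight_bieval_ge`. -/
theorem logHeight_bieval_ge (L : Type*) [Field L] [IsAlgClosed L] [Algebra K L]
    [Fintype ι''] {a b : ℕ} {p : ι'' → MvPolynomial (ι ⊕ κ) K}
    (hp : ∀ j, (p j).IsWeightedHomogeneous (biWeight ι κ) (a, b))
    (h0 : ∀ (x : ι → L) (y : κ → L),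
      (∀ j, aeval (Sum.elim x y) (p j) = 0) → x = 0 ∨ y = 0) :
    ∃ C : ℝ, ∀ (x : ι → K) (y : κ → K), x ≠ 0 → y ≠ 0 →
      C + a * Height.logHeight x + b * Height.logHeight y ≤
        Height.logHeight (fun j => (p j).eval (Sum.elim x y)) := by
  obtain ⟨C, h⟩ := logHeight_bieval_ge_on L hp
    (g := fun e : Empty => (e.elim : MvPolynomial (ι ⊕ κ) K)) (fun l => l.elim)
    (fun x y _ hxy => h0 x y hxy)
  exact ⟨C, fun x y hx hy => h x y hx hy fun l => l.elim⟩

/-- Two-sided logarithmic form on a subvariety: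
`h(p(x, y)) = a * h(x) + b * h(y) + O(1)` for nonzero `x`, `y` with `g(x, y) = 0`. -/
theorem abs_logHeight_bieval_sub_le_on (L : Type*) [Field L] [IsAlgClosed L] [Algebra K L]
    [Fintype ι''] {ρ : Type*} {a b : ℕ} {p : ι'' → MvPolynomial (ι ⊕ κ) K}
    (hp : ∀ j, (p j).IsWeightedHomogeneous (biWeight ι κ) (a, b))
    {g : ρ → MvPolynomial (ι ⊕ κ) K}
    (hg : ∀ l, ∃ n, (g l).IsWeightedHomogeneous (biWeight ι κ) n)
    (h0 : ∀ (x : ι → L) (y : κ → L), (∀ l, aeval (Sum.elim x y) (g l) = 0) →
      (∀ j, aeval (Sum.elim x y) (p j) = 0) → x = 0 ∨ y = 0) :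
    ∃ C : ℝ, ∀ (x : ι → K) (y : κ → K), x ≠ 0 → y ≠ 0 →
      (∀ l, (g l).eval (Sum.elim x y) = 0) →
      |Height.logHeight (fun j => (p j).eval (Sum.elim x y)) -
        (a * Height.logHeight x + b * Height.logHeight y)| ≤ C := by
  obtain ⟨C₁, h₁⟩ := logHeight_bieval_ge_on L hp hg h0
  obtain ⟨C₂, h₂⟩ := logHeight_bieval_le hp
  refine ⟨max C₂ (-C₁), fun x y hx hy hgxy => ?_⟩
  have := h₁ x y hx hy hgxy
  have := h₂ x y
  rw [abs_le]
  constructor
  · have := le_max_right C₂ (-C₁)
    linarith
  · have := le_max_left C₂ (-C₁)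
    linarith

/-- Two-sided logarithmic form: `h(p(x, y)) = a * h(x) + b * h(y) + O(1)` for nonzero `x`, `y`. -/
theorem abs_logHeight_bieval_sub_le (L : Type*) [Field L] [IsAlgClosed L] [Algebra K L]
    [Fintype ι''] {a b : ℕ} {p : ι'' → MvPolynomial (ι ⊕ κ) K}
    (hp : ∀ j, (p j).IsWeightedHomogeneous (biWeight ι κ) (a, b))
    (h0 : ∀ (x : ι → L) (y : κ → L),
      (∀ j, aeval (Sum.elim x y) (p j) = 0) → x = 0 ∨ y = 0) :
    ∃ C : ℝ, ∀ (x : ι → K) (y : κ → K), x ≠ 0 → y ≠ 0 →
      |Height.logHeight (fun j => (p j).eval (Sum.elim x y)) -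
        (a * Height.logHeight x + b * Height.logHeight y)| ≤ C := by
  obtain ⟨C, h⟩ := abs_logHeight_bieval_sub_le_on L hp
    (g := fun e : Empty => (e.elim : MvPolynomial (ι ⊕ κ) K)) (fun l => l.elim)
    (fun x y _ hxy => h0 x y hxy)
  exact ⟨C, fun x y hx hy => h x y hx hy fun l => l.elim⟩

end Bihomogeneous

section CoeffVec

variable {R : Type*} [CommSemiring R]

/-- The coefficient vector of a polynomial, truncated at degree `m`. -/
def coeffVec (m : ℕ) (f : Polynomial R) : Fin (m + 1) → R := fun i => f.coeff i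

/-- The polynomial with a given coefficient vector. -/
noncomputable def ofCoeffVec {m : ℕ} (x : Fin (m + 1) → R) : Polynomial R :=
  ∑ i : Fin (m + 1), Polynomial.C (x i) * Polynomial.X ^ (i : ℕ)

theorem coeffVec_apply (m : ℕ) (f : Polynomial R) (i : Fin (m + 1)) :
    coeffVec m f i = f.coeff i := rfl

theorem coeff_ofCoeffVec {m : ℕ} (x : Fin (m + 1) → R) (j : ℕ) :
    (ofCoeffVec x).coeff j = if h : j < m + 1 then x ⟨j, h⟩ else 0 := by
  classical
  simp only [ofCoeffVec, Polynomial.finsetSum_coeff, Polynomial.coeff_C_mul_X_pow]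
  split_ifs with h
  · rw [Finset.sum_eq_single (⟨j, h⟩ : Fin (m + 1))]
    · simp
    · intro i _ hi
      rw [if_neg]
      intro hj
      exact hi (Fin.ext hj.symm)
    · intro h'
      exact absurd (Finset.mem_univ _) h'
  · refine Finset.sum_eq_zero fun i _ => ?_
    rw [if_neg]
    intro hj
    exact h (hj ▸ i.2)

theorem coeffVec_ofCoeffVec {m : ℕ} (x : Fin (m + 1) → R) : coeffVec m (ofCoeffVec x) = x := by
  funext i
  rw [coeffVec_apply, coeff_ofCoeffVec, dif_pos i.2]

theorem ofCoeffVec_coeffVec {m : ℕ} {f : Polynomial R} (hf : f.natDegree ≤ m) :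
    ofCoeffVec (coeffVec m f) = f := by
  ext j
  rw [coeff_ofCoeffVec]
  split_ifs with h
  · rfl
  · exact (Polynomial.coeff_eq_zero_of_natDegree_lt (by omega)).symm

theorem coeffVec_ne_zero {m : ℕ} {f : Polynomial R} (hf : f.natDegree ≤ m) (h0 : f ≠ 0) :
    coeffVec m f ≠ 0 := by
  intro h
  apply h0
  rw [← ofCoeffVec_coeffVec hf, h]
  simp [ofCoeffVec]

/-- Coefficients of a product in terms of the coefficient vectors (convolution). -/
theorem coeff_ofCoeffVec_mul {m n : ℕ} (x : Fin (m + 1) → R) (y : Fin (n + 1) → R) (j : ℕ) :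
    (ofCoeffVec x * ofCoeffVec y).coeff j =
      ∑ i : Fin (m + 1), ∑ k : Fin (n + 1), if (i : ℕ) + k = j then x i * y k else 0 := by
  simp only [ofCoeffVec, Finset.sum_mul_sum, Polynomial.finsetSum_coeff]
  refine Finset.sum_congr rfl fun i _ => Finset.sum_congr rfl fun k _ => ?_
  rw [mul_mul_mul_comm, ← Polynomial.C_mul, ← pow_add, Polynomial.coeff_C_mul_X_pow]
  by_cases h : (i : ℕ) + k = j
  · rw [if_pos h, if_pos h.symm]
  · rw [if_neg h, if_neg (fun h' => h h'.symm)]

theorem coeff_mul_eq_sum {m n : ℕ} {f g : Polynomial R} (hf : f.natDegree ≤ m)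
    (hg : g.natDegree ≤ n) (j : ℕ) :
    (f * g).coeff j = ∑ i : Fin (m + 1), ∑ k : Fin (n + 1),
      if (i : ℕ) + k = j then coeffVec m f i * coeffVec n g k else 0 := by
  rw [← coeff_ofCoeffVec_mul, ofCoeffVec_coeffVec hf, ofCoeffVec_coeffVec hg]

end CoeffVec

section Gelfond

variable {K : Type*} [Field K]

/-- The convolution family: `convPoly m n j` is the bilinear form giving the `j`-th coefficient
of the product of two polynomials of degrees at most `m` and `n` in terms of their
coefficient vectors. -/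
noncomputable def convPoly (K : Type*) [Field K] (m n : ℕ) (j : Fin (m + n + 1)) :
    MvPolynomial (Fin (m + 1) ⊕ Fin (n + 1)) K :=
  ∑ i : Fin (m + 1), ∑ k : Fin (n + 1),
    if (i : ℕ) + k = j then X (Sum.inl i) * X (Sum.inr k) else 0

theorem convPoly_isWeightedHomogeneous (m n : ℕ) (j : Fin (m + n + 1)) :
    (convPoly K m n j).IsWeightedHomogeneous (biWeight (Fin (m + 1)) (Fin (n + 1))) (1, 1) := by
  refine IsWeightedHomogeneous.sum _ _ _ fun i _ => IsWeightedHomogeneous.sum _ _ _ fun k _ => ?_
  split_ifs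
  · exact (isWeightedHomogeneous_biWeight_X_inl (K := K) (κ := Fin (n + 1)) i).mul
      (isWeightedHomogeneous_biWeight_X_inr (K := K) (ι := Fin (m + 1)) k)
  · exact isWeightedHomogeneous_zero K _ _

theorem eval_convPoly (m n : ℕ) (j : Fin (m + n + 1)) (x : Fin (m + 1) → K)
    (y : Fin (n + 1) → K) :
    (convPoly K m n j).eval (Sum.elim x y) =
      ∑ i : Fin (m + 1), ∑ k : Fin (n + 1), if (i : ℕ) + k = j then x i * y k else 0 := by
  simp only [convPoly, map_sum]
  refine Finset.sum_congr rfl fun i _ => Finset.sum_congr rfl fun k _ => ?_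
  split_ifs <;> simp

theorem aeval_convPoly {L : Type*} [Field L] [Algebra K L] (m n : ℕ) (j : Fin (m + n + 1))
    (x : Fin (m + 1) → L) (y : Fin (n + 1) → L) :
    aeval (Sum.elim x y) (convPoly K m n j) =
      ∑ i : Fin (m + 1), ∑ k : Fin (n + 1), if (i : ℕ) + k = j then x i * y k else 0 := by
  simp only [convPoly, map_sum]
  refine Finset.sum_congr rfl fun i _ => Finset.sum_congr rfl fun k _ => ?_
  split_ifs <;> simp

/-- The convolution family has no zeros `(x, y)` with `x ≠ 0` and `y ≠ 0` over any field: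
a polynomial ring over a field has no zero divisors. -/
theorem convPoly_noCommonZero {L : Type*} [Field L] [Algebra K L] (m n : ℕ)
    (x : Fin (m + 1) → L) (y : Fin (n + 1) → L)
    (h : ∀ j, aeval (Sum.elim x y) (convPoly K m n j) = 0) : x = 0 ∨ y = 0 := by
  have hprod : ofCoeffVec x * ofCoeffVec y = 0 := by
    ext j
    rw [coeff_ofCoeffVec_mul, Polynomial.coeff_zero]
    by_cases hj : j < m + n + 1
    · have := h ⟨j, hj⟩
      rwa [aeval_convPoly] at this
    · refine Finset.sum_eq_zero fun i _ => Finset.sum_eq_zero fun k _ => ?_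
      rw [if_neg]
      have := i.2
      have := k.2
      omega
  rcases mul_eq_zero.mp hprod with h0 | h0
  · left
    rw [← coeffVec_ofCoeffVec x, h0]
    funext i
    simp [coeffVec_apply]
  · right
    rw [← coeffVec_ofCoeffVec y, h0]
    funext i
    simp [coeffVec_apply]

theorem coeffVec_mul_eq_eval_convPoly {m n : ℕ} {f g : Polynomial K} (hf : f.natDegree ≤ m)
    (hg : g.natDegree ≤ n) :
    coeffVec (m + n) (f * g) =
      fun j => (convPoly K m n j).eval (Sum.elim (coeffVec m f) (coeffVec n g)) := by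
  funext j
  rw [eval_convPoly, coeffVec_apply, coeff_mul_eq_sum hf hg]

variable [Height.AdmissibleAbsValues K]

/-- **Gelfond-type upper bound**: `H(f * g) ≤ C * H(f) * H(g)` for polynomials of degrees at
most `m` and `n` (heights of coefficient vectors). -/
theorem mulHeight_coeffVec_mul_le (m n : ℕ) :
    ∃ C > 0, ∀ f g : Polynomial K, f.natDegree ≤ m → g.natDegree ≤ n →
      Height.mulHeight (coeffVec (m + n) (f * g)) ≤
        C * Height.mulHeight (coeffVec m f) * Height.mulHeight (coeffVec n g) := by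
  obtain ⟨C, hC, h⟩ := mulHeight_bieval_le (K := K) (convPoly_isWeightedHomogeneous m n)
  refine ⟨C, hC, fun f g hf hg => ?_⟩
  have := h (coeffVec m f) (coeffVec n g)
  rwa [pow_one, pow_one, ← coeffVec_mul_eq_eval_convPoly hf hg] at this

/-- **Gelfond-type lower bound**: `C * H(f) * H(g) ≤ H(f * g)` for nonzero polynomials of
degrees at most `m` and `n` (heights of coefficient vectors), with a positive constant
depending only on `m`, `n` (and `K`). -/
theorem mulHeight_coeffVec_mul_ge (m n : ℕ) :
    ∃ C > 0, ∀ f g : Polynomial K, f.natDegree ≤ m → g.natDegree ≤ n → f ≠ 0 → g ≠ 0 →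
      C * Height.mulHeight (coeffVec m f) * Height.mulHeight (coeffVec n g) ≤
        Height.mulHeight (coeffVec (m + n) (f * g)) := by
  obtain ⟨C, hC, h⟩ := mulHeight_bieval_ge (K := K) (AlgebraicClosure K)
    (convPoly_isWeightedHomogeneous m n) (convPoly_noCommonZero m n)
  refine ⟨C, hC, fun f g hf hg hf0 hg0 => ?_⟩
  have := h (coeffVec m f) (coeffVec n g) (coeffVec_ne_zero hf hf0) (coeffVec_ne_zero hg hg0)
  rwa [pow_one, pow_one, ← coeffVec_mul_eq_eval_convPoly hf hg] at this

/-- **Gelfond, logarithmic two-sided form**: `h(f * g) = h(f) + h(g) + O(1)` for nonzero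
polynomials of degrees at most `m` and `n`. -/
theorem abs_logHeight_coeffVec_mul_sub_le (m n : ℕ) :
    ∃ C : ℝ, ∀ f g : Polynomial K, f.natDegree ≤ m → g.natDegree ≤ n → f ≠ 0 → g ≠ 0 →
      |Height.logHeight (coeffVec (m + n) (f * g)) -
        (Height.logHeight (coeffVec m f) + Height.logHeight (coeffVec n g))| ≤ C := by
  obtain ⟨C, h⟩ := abs_logHeight_bieval_sub_le (K := K) (AlgebraicClosure K)
    (convPoly_isWeightedHomogeneous m n) (convPoly_noCommonZero m n)
  refine ⟨C, fun f g hf hg hf0 hg0 => ?_⟩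
  have := h (coeffVec m f) (coeffVec n g) (coeffVec_ne_zero hf hf0) (coeffVec_ne_zero hg hg0)
  rwa [Nat.cast_one, one_mul, one_mul, ← coeffVec_mul_eq_eval_convPoly hf hg] at this

end Gelfond

section PolyHeight

variable {K : Type*} [Field K] [Height.AdmissibleAbsValues K]

/-- Padding the coefficient vector with zeros does not change its height. -/
theorem mulHeight_coeffVec_of_le {m m' : ℕ} {f : Polynomial K} (hf : f.natDegree ≤ m)
    (hm : m ≤ m') :
    Height.mulHeight (coeffVec m' f) = Height.mulHeight (coeffVec m f) := by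
  apply le_antisymm
  · let e : Fin (m' + 1) → Fin (m + 1) ⊕ Unit :=
      fun i => if h : (i : ℕ) < m + 1 then Sum.inl ⟨i, h⟩ else Sum.inr ()
    have h1 : coeffVec m' f = (Sum.elim (coeffVec m f) (0 : Unit → K)) ∘ e := by
      funext i
      simp only [Function.comp_apply, e]
      split_ifs with h
      · rfl
      · simp only [Sum.elim_inr, Pi.zero_apply, coeffVec_apply]
        exact Polynomial.coeff_eq_zero_of_natDegree_lt (by omega)
    rw [h1]
    exact (Height.mulHeight_comp_le _ _).trans (Height.mulHeight_sumElim_zero_eq _).le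
  · have h2 : coeffVec m f = coeffVec m' f ∘ Fin.castLE (by omega) := by
      funext i
      rfl
    rw [h2]
    exact Height.mulHeight_comp_le _ _

/-- The multiplicative (projective) height of a polynomial: the height of its coefficient
vector. -/
noncomputable def polyMulHeight (f : Polynomial K) : ℝ :=
  Height.mulHeight (coeffVec f.natDegree f)

/-- The logarithmic (projective) height of a polynomial: the height of its coefficient
vector. -/
noncomputable def polyLogHeight (f : Polynomial K) : ℝ :=
  Height.logHeight (coeffVec f.natDegree f)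

theorem polyLogHeight_eq_log (f : Polynomial K) :
    polyLogHeight f = Real.log (polyMulHeight f) := rfl

theorem mulHeight_coeffVec_eq_polyMulHeight {m : ℕ} {f : Polynomial K} (hf : f.natDegree ≤ m) :
    Height.mulHeight (coeffVec m f) = polyMulHeight f :=
  mulHeight_coeffVec_of_le le_rfl hf

theorem logHeight_coeffVec_eq_polyLogHeight {m : ℕ} {f : Polynomial K} (hf : f.natDegree ≤ m) :
    Height.logHeight (coeffVec m f) = polyLogHeight f :=
  congrArg Real.log (mulHeight_coeffVec_eq_polyMulHeight hf)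

theorem one_le_polyMulHeight (f : Polynomial K) : 1 ≤ polyMulHeight f :=
  Height.one_le_mulHeight _

theorem polyMulHeight_pos (f : Polynomial K) : 0 < polyMulHeight f :=
  Height.mulHeight_pos _

theorem polyLogHeight_nonneg (f : Polynomial K) : 0 ≤ polyLogHeight f :=
  Height.logHeight_nonneg _

/-- The height of a polynomial is invariant under multiplication by a nonzero constant. -/
theorem polyMulHeight_C_mul {c : K} (hc : c ≠ 0) (f : Polynomial K) :
    polyMulHeight (Polynomial.C c * f) = polyMulHeight f := by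
  have hdeg : (Polynomial.C c * f).natDegree ≤ f.natDegree :=
    (Polynomial.natDegree_C_mul hc).le
  rw [← mulHeight_coeffVec_eq_polyMulHeight hdeg]
  have : coeffVec f.natDegree (Polynomial.C c * f) = c • coeffVec f.natDegree f := by
    funext i
    simp [coeffVec_apply]
  rw [this, Height.mulHeight_smul_eq_mulHeight _ hc]
  rfl

theorem polyLogHeight_C_mul {c : K} (hc : c ≠ 0) (f : Polynomial K) :
    polyLogHeight (Polynomial.C c * f) = polyLogHeight f := by
  rw [polyLogHeight_eq_log, polyLogHeight_eq_log, polyMulHeight_C_mul hc]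

/-- The height of a nonzero constant polynomial is `1`. -/
theorem polyMulHeight_C (c : K) : polyMulHeight (Polynomial.C c) = 1 := by
  unfold polyMulHeight
  rw [Polynomial.natDegree_C]
  have : Subsingleton (Fin (0 + 1)) := inferInstanceAs (Subsingleton (Fin 1))
  exact Height.mulHeight_eq_one_of_subsingleton _

theorem polyLogHeight_C (c : K) : polyLogHeight (Polynomial.C c) = 0 := by
  rw [polyLogHeight_eq_log, polyMulHeight_C, Real.log_one]

theorem polyLogHeight_one : polyLogHeight (1 : Polynomial K) = 0 := by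
  rw [← Polynomial.C_1, polyLogHeight_C]

/-- **Gelfond, uniform in the total degree**: for nonzero polynomials `f`, `g` whose product has
degree at most `d`, `h(f * g) = h(f) + h(g) + O_d(1)`. -/
theorem abs_polyLogHeight_mul_sub_le (d : ℕ) :
    ∃ C : ℝ, 0 ≤ C ∧ ∀ f g : Polynomial K, f ≠ 0 → g ≠ 0 → (f * g).natDegree ≤ d →
      |polyLogHeight (f * g) - (polyLogHeight f + polyLogHeight g)| ≤ C := by
  choose C hC using fun mn : ℕ × ℕ => abs_logHeight_coeffVec_mul_sub_le (K := K) mn.1 mn.2
  refine ⟨∑ mn ∈ Finset.range (d + 1) ×ˢ Finset.range (d + 1), |C mn|,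
    Finset.sum_nonneg fun _ _ => abs_nonneg _, fun f g hf hg hd => ?_⟩
  have hdeg : (f * g).natDegree = f.natDegree + g.natDegree := Polynomial.natDegree_mul hf hg
  have h1 := hC (f.natDegree, g.natDegree) f g le_rfl le_rfl hf hg
  simp only at h1
  rw [logHeight_coeffVec_eq_polyLogHeight hdeg.le, logHeight_coeffVec_eq_polyLogHeight le_rfl,
    logHeight_coeffVec_eq_polyLogHeight le_rfl] at h1
  refine h1.trans ((le_abs_self _).trans ?_)
  exact Finset.single_le_sum (f := fun mn : ℕ × ℕ => |C mn|) (fun _ _ => abs_nonneg _)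
    (Finset.mem_product.mpr ⟨Finset.mem_range.mpr (by omega), Finset.mem_range.mpr (by omega)⟩)

/-- **Gelfond for finite products**: for nonzero polynomials `f i` whose product has degree at
most `d`, `|h(∏ f i) - ∑ h(f i)| ≤ #s * C_d`. -/
theorem abs_polyLogHeight_prod_sub_le (d : ℕ) :
    ∃ C : ℝ, 0 ≤ C ∧ ∀ {α : Type} (s : Finset α) (f : α → Polynomial K), (∀ i ∈ s, f i ≠ 0) →
      (∏ i ∈ s, f i).natDegree ≤ d →
      |polyLogHeight (∏ i ∈ s, f i) - ∑ i ∈ s, polyLogHeight (f i)| ≤ s.card * C := by
  obtain ⟨C, hC0, hC⟩ := abs_polyLogHeight_mul_sub_le (K := K) d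
  refine ⟨C, hC0, fun {α} s f => ?_⟩
  classical
  induction s using Finset.induction_on with
  | empty =>
    intro _ _
    simp [polyLogHeight_one]
  | insert a s ha ih =>
    intro hf hd
    rw [Finset.prod_insert ha] at hd ⊢
    rw [Finset.sum_insert ha, Finset.card_insert_of_notMem ha]
    have hfa : f a ≠ 0 := hf a (Finset.mem_insert_self a s)
    have hs : ∀ i ∈ s, f i ≠ 0 := fun i hi => hf i (Finset.mem_insert_of_mem hi)
    have hprod : ∏ i ∈ s, f i ≠ 0 := Finset.prod_ne_zero_iff.mpr hs
    have hdeg : (∏ i ∈ s, f i).natDegree ≤ d := by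
      rw [Polynomial.natDegree_mul hfa hprod] at hd
      omega
    have h1 := ih hs hdeg
    have h2 := hC (f a) (∏ i ∈ s, f i) hfa hprod hd
    rw [abs_le] at h1 h2 ⊢
    push_cast
    constructor <;> linarith [h1.1, h1.2, h2.1, h2.2]

end PolyHeight

end Fermat.Agent.Lib.helper1102
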