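import Mathlib

/-!
# helper1121: the Dedekind zeta function as a sum over nonzero ideals, with bounds near `s = 1`

For a number field `K`, real `s > 1`:
* `summable_ideal_rpow` : `∑ I ≠ 0, N(I)^(-s)` converges;
* `dedekindZeta_eq_tsum_ideal` : Mathlib's `dedekindZeta K s` is that sum;
* `exists_zeta_upper`, `exists_zeta_lower` : `(s - 1) * ∑ I, N(I)^(-s)` is bounded above and
  bounded below by a positive constant on `(1, 2]`.
-/

set_option autoImplicit false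

open NumberField Ideal nonZeroDivisors Filter Topology Asymptotics

namespace Fermat.Agent.Lib.helper1121

variable (K : Type*) [Field K] [NumberField K]

/-- The norm of a nonzero ideal is positive. -/
theorem absNorm_pos (I : (Ideal (𝓞 K))⁰) : 0 < absNorm (I : Ideal (𝓞 K)) := by
  have h : absNorm (I : Ideal (𝓞 K)) ≠ 0 := by
    rw [Ne, Ideal.absNorm_eq_zero_iff]
    exact nonZeroDivisors.coe_ne_zero I
  exact Nat.pos_of_ne_zero h

theorem one_le_absNorm (I : (Ideal (𝓞 K))⁰) : (1 : ℝ) ≤ absNorm (I : Ideal (𝓞 K)) := by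
  exact_mod_cast absNorm_pos K I

theorem rpow_nonneg (s : ℝ) (I : (Ideal (𝓞 K))⁰) :
    0 ≤ (absNorm (I : Ideal (𝓞 K)) : ℝ) ^ (-s) :=
  Real.rpow_nonneg (Nat.cast_nonneg _) _

theorem rpow_anti {s t : ℝ} (h : s ≤ t) (I : (Ideal (𝓞 K))⁰) :
    (absNorm (I : Ideal (𝓞 K)) : ℝ) ^ (-t) ≤ (absNorm (I : Ideal (𝓞 K)) : ℝ) ^ (-s) :=
  Real.rpow_le_rpow_of_exponent_le (one_le_absNorm K I) (by linarith)

theorem rpow_le_one {s : ℝ} (h : 0 ≤ s) (I : (Ideal (𝓞 K))⁰) :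
    (absNorm (I : Ideal (𝓞 K)) : ℝ) ^ (-s) ≤ 1 :=
  Real.rpow_le_one_of_one_le_of_nonpos (one_le_absNorm K I) (by linarith)

/-- The coefficients of the Dedekind zeta function. -/
noncomputable def zetaCoeff (n : ℕ) : ℕ := Nat.card {I : Ideal (𝓞 K) // absNorm I = n}

theorem tendsto_sum_zetaCoeff_div :
    Tendsto (fun n : ℕ ↦ (∑ k ∈ Finset.Icc 1 n, (zetaCoeff K k : ℝ)) / (n : ℝ)) atTop
      (𝓝 (dedekindZeta_residue K)) := by
  refine ((Ideal.tendsto_norm_le_div_atTop₀ K).comp tendsto_natCast_atTop_atTop).congr fun n ↦ ?_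
  simp only [Function.comp_apply, Nat.cast_le, ← Nat.cast_sum, zetaCoeff]
  congr
  rw [← add_left_inj 1, ← card_norm_le_eq_card_norm_le_add_one,
    show Finset.Icc 1 n = Finset.Ioc 0 n from Finset.Icc_succ_left_eq_Ioc _ _,
    show 1 = Nat.card {I : Ideal (𝓞 K) // absNorm I = 0} by simp [Ideal.absNorm_eq_zero_iff],
    Finset.sum_Ioc_add_eq_sum_Icc (n.zero_le),
    ← Finset.card_preimage_eq_sum_card_image_eq (fun k _ ↦ finite_setOfPred_absNorm_eq k)]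
  simp [Set.coe_eq_subtype]

theorem lseriesSummable_zetaCoeff {s : ℝ} (hs : 1 < s) :
    LSeriesSummable (fun n ↦ ((zetaCoeff K n : ℝ) : ℂ)) s := by
  refine LSeriesSummable_of_sum_norm_bigO_and_nonneg ?_ (fun n ↦ Nat.cast_nonneg _)
    zero_le_one (by simpa using hs)
  exact isBigO_atTop_natCast_rpow_of_tendsto_div_rpow (by simpa using tendsto_sum_zetaCoeff_div K)

/-- The fibre of the norm map on nonzero ideals. -/
abbrev NormFiber (n : ℕ) : Type _ := {I : (Ideal (𝓞 K))⁰ // absNorm (I : Ideal (𝓞 K)) = n}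

instance finite_normFiber (n : ℕ) : Finite (NormFiber K n) := by
  have h : Finite {I : Ideal (𝓞 K) // absNorm I = n} :=
    (Ideal.finite_setOfPred_absNorm_eq (S := 𝓞 K) n).to_subtype
  exact Finite.of_injective (fun I : NormFiber K n ↦ (⟨(I.1 : Ideal (𝓞 K)), I.2⟩ :
    {I : Ideal (𝓞 K) // absNorm I = n})) (fun I J h ↦ by
      apply Subtype.ext
      apply Subtype.ext
      exact congrArg (fun x : {I : Ideal (𝓞 K) // absNorm I = n} ↦ x.1) h)

theorem card_normFiber {n : ℕ} (hn : n ≠ 0) : Nat.card (NormFiber K n) = zetaCoeff K n := by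
  refine Nat.card_congr ⟨fun I ↦ ⟨(I.1 : Ideal (𝓞 K)), I.2⟩, fun I ↦ ⟨⟨I.1, ?_⟩, I.2⟩,
    fun I ↦ rfl, fun I ↦ rfl⟩
  rw [mem_nonZeroDivisors_iff_ne_zero]
  rintro h
  apply hn
  rw [← I.2, h]
  simp

theorem card_normFiber_zero : Nat.card (NormFiber K 0) = 0 := by
  rw [Nat.card_eq_zero]
  left
  refine ⟨fun I ↦ ?_⟩
  have := absNorm_pos K I.1
  rw [I.2] at this
  exact lt_irrefl _ this

/-- The sum over a fibre of the norm. -/
theorem tsum_normFiber (s : ℝ) (n : ℕ) :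
    ∑' I : NormFiber K n, (absNorm (I.1 : Ideal (𝓞 K)) : ℝ) ^ (-s)
      = (Nat.card (NormFiber K n) : ℝ) * (n : ℝ) ^ (-s) := by
  have : ∀ I : NormFiber K n, (absNorm (I.1 : Ideal (𝓞 K)) : ℝ) ^ (-s) = (n : ℝ) ^ (-s) :=
    fun I ↦ by rw [I.2]
  simp_rw [this]
  rw [tsum_const, nsmul_eq_mul]

/-- The real Dirichlet series of the Dedekind zeta function is summable. -/
theorem summable_zetaCoeff_rpow {s : ℝ} (hs : 1 < s) :
    Summable (fun n : ℕ ↦ (Nat.card (NormFiber K n) : ℝ) * (n : ℝ) ^ (-s)) := by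
  have h := (lseriesSummable_zetaCoeff K hs).norm
  refine Summable.of_nonneg_of_le (fun n ↦ by positivity) (fun n ↦ ?_) h
  rcases eq_or_ne n 0 with rfl | hn
  · rw [card_normFiber_zero]
    simp
  · rw [card_normFiber K hn, LSeries.term_of_ne_zero hn, norm_div,
      Complex.norm_natCast_cpow_of_pos (Nat.pos_of_ne_zero hn)]
    simp only [Complex.ofReal_natCast, Complex.norm_natCast, Complex.ofReal_re]
    rw [Real.rpow_neg (Nat.cast_nonneg _), div_eq_mul_inv]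

theorem summable_sigma_rpow {s : ℝ} (hs : 1 < s) :
    Summable (fun p : (Σ n : ℕ, NormFiber K n) ↦ (absNorm (p.2.1 : Ideal (𝓞 K)) : ℝ) ^ (-s)) := by
  rw [summable_sigma_of_nonneg (fun _ ↦ rpow_nonneg K s _)]
  exact ⟨fun n ↦ Summable.of_finite,
    (summable_zetaCoeff_rpow K hs).congr fun n ↦ (tsum_normFiber K s n).symm⟩

/-- **Summability of the Dedekind zeta function as a sum over nonzero ideals.** -/
theorem summable_ideal_rpow {s : ℝ} (hs : 1 < s) :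
    Summable (fun I : (Ideal (𝓞 K))⁰ ↦ (absNorm (I : Ideal (𝓞 K)) : ℝ) ^ (-s)) :=
  (Equiv.sigmaFiberEquiv (fun I : (Ideal (𝓞 K))⁰ ↦ absNorm (I : Ideal (𝓞 K)))).summable_iff.mp
    (summable_sigma_rpow K hs)

/-- The sum over nonzero ideals, fibred over the norm. -/
theorem tsum_ideal_rpow_eq {s : ℝ} (hs : 1 < s) :
    ∑' I : (Ideal (𝓞 K))⁰, (absNorm (I : Ideal (𝓞 K)) : ℝ) ^ (-s)
      = ∑' n : ℕ, (Nat.card (NormFiber K n) : ℝ) * (n : ℝ) ^ (-s) := by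
  calc ∑' I : (Ideal (𝓞 K))⁰, (absNorm (I : Ideal (𝓞 K)) : ℝ) ^ (-s)
      = ∑' p : (Σ n : ℕ, NormFiber K n), (absNorm (p.2.1 : Ideal (𝓞 K)) : ℝ) ^ (-s) :=
        ((Equiv.sigmaFiberEquiv (fun I : (Ideal (𝓞 K))⁰ ↦ absNorm (I : Ideal (𝓞 K)))).tsum_eq
          (fun I : (Ideal (𝓞 K))⁰ ↦ (absNorm (I : Ideal (𝓞 K)) : ℝ) ^ (-s))).symm
    _ = ∑' n : ℕ, ∑' I : NormFiber K n, (absNorm (I.1 : Ideal (𝓞 K)) : ℝ) ^ (-s) :=
        (summable_sigma_rpow K hs).tsum_sigma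
    _ = ∑' n : ℕ, (Nat.card (NormFiber K n) : ℝ) * (n : ℝ) ^ (-s) :=
        tsum_congr fun n ↦ tsum_normFiber K s n

/-- **The Dedekind zeta function is the sum over nonzero ideals of `N(I)^(-s)`** (real `s > 1`). -/
theorem dedekindZeta_eq_tsum_ideal {s : ℝ} (hs : 1 < s) :
    dedekindZeta K (s : ℂ)
      = ((∑' I : (Ideal (𝓞 K))⁰, (absNorm (I : Ideal (𝓞 K)) : ℝ) ^ (-s) : ℝ) : ℂ) := by
  rw [tsum_ideal_rpow_eq K hs, Complex.ofReal_tsum, dedekindZeta, LSeries]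
  refine tsum_congr fun n ↦ ?_
  rcases eq_or_ne n 0 with rfl | hn
  · rw [card_normFiber_zero]
    simp
  · rw [card_normFiber K hn, LSeries.term_of_ne_zero hn, zetaCoeff]
    push_cast
    rw [Complex.ofReal_cpow (Nat.cast_nonneg n), Complex.ofReal_neg, Complex.cpow_neg,
      div_eq_mul_inv]
    simp

/-- `(s - 1) ζ_K(s) → residue` in the ideal-sum form (real valued). -/
theorem tendsto_sub_one_mul_tsum_ideal :
    Tendsto (fun s : ℝ ↦ (s - 1) * ∑' I : (Ideal (𝓞 K))⁰, (absNorm (I : Ideal (𝓞 K)) : ℝ) ^ (-s))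
      (𝓝[>] 1) (𝓝 (dedekindZeta_residue K)) := by
  have h := tendsto_sub_one_mul_dedekindZeta_nhdsGT K
  have h2 := (Complex.continuous_re.tendsto _).comp h
  rw [Complex.ofReal_re] at h2
  refine h2.congr' ?_
  filter_upwards [self_mem_nhdsWithin] with s hs
  have hs' : 1 < s := hs
  simp only [Function.comp_apply]
  rw [dedekindZeta_eq_tsum_ideal K hs', ← Complex.ofReal_one, ← Complex.ofReal_sub,
    ← Complex.ofReal_mul, Complex.ofReal_re]

theorem tsum_ideal_rpow_nonneg (s : ℝ) :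
    0 ≤ ∑' I : (Ideal (𝓞 K))⁰, (absNorm (I : Ideal (𝓞 K)) : ℝ) ^ (-s) :=
  tsum_nonneg fun I ↦ rpow_nonneg K s I

theorem tsum_ideal_rpow_anti {s t : ℝ} (hs : 1 < s) (hst : s ≤ t) :
    ∑' I : (Ideal (𝓞 K))⁰, (absNorm (I : Ideal (𝓞 K)) : ℝ) ^ (-t)
      ≤ ∑' I : (Ideal (𝓞 K))⁰, (absNorm (I : Ideal (𝓞 K)) : ℝ) ^ (-s) :=
  (summable_ideal_rpow K (hs.trans_le hst)).tsum_le_tsum (fun I ↦ rpow_anti K hst I)
    (summable_ideal_rpow K hs)

theorem one_le_tsum_ideal_rpow {s : ℝ} (hs : 1 < s) :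
    1 ≤ ∑' I : (Ideal (𝓞 K))⁰, (absNorm (I : Ideal (𝓞 K)) : ℝ) ^ (-s) := by
  have h := (summable_ideal_rpow K hs).le_tsum (1 : (Ideal (𝓞 K))⁰)
    (fun J _ ↦ rpow_nonneg K s J)
  simpa using h

/-- **Upper bound**: `(s - 1) ζ_K(s) ≤ B` on `(1, 2]`. -/
theorem exists_zeta_upper : ∃ B : ℝ, ∀ s : ℝ, 1 < s → s ≤ 2 →
    (s - 1) * ∑' I : (Ideal (𝓞 K))⁰, (absNorm (I : Ideal (𝓞 K)) : ℝ) ^ (-s) ≤ B := by
  have h := tendsto_sub_one_mul_tsum_ideal K
  rw [Metric.tendsto_nhdsWithin_nhds] at h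
  obtain ⟨δ, hδ, h⟩ := h 1 one_pos
  refine ⟨max (dedekindZeta_residue K + 1)
    (∑' I : (Ideal (𝓞 K))⁰, (absNorm (I : Ideal (𝓞 K)) : ℝ) ^ (-(1 + δ / 2))), fun s hs hs2 ↦ ?_⟩
  by_cases hsd : s < 1 + δ
  · have h1 := h (show s ∈ Set.Ioi (1 : ℝ) from hs)
      (by rw [Real.dist_eq, abs_lt]; constructor <;> linarith)
    rw [Real.dist_eq] at h1
    have h2 := (abs_lt.mp h1).2
    exact le_max_of_le_left (by linarith)
  · rw [not_lt] at hsd
    have h1 := tsum_ideal_rpow_anti K (s := 1 + δ / 2) (t := s) (by linarith) (by linarith)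
    have h3 := tsum_ideal_rpow_nonneg K s
    refine le_max_of_le_right (le_trans ?_ h1)
    have h2 : s - 1 ≤ 1 := by linarith
    nlinarith

/-- **Lower bound**: `c ≤ (s - 1) ζ_K(s)` on `(1, 2]` for some `c > 0`. -/
theorem exists_zeta_lower : ∃ c : ℝ, 0 < c ∧ ∀ s : ℝ, 1 < s → s ≤ 2 →
    c ≤ (s - 1) * ∑' I : (Ideal (𝓞 K))⁰, (absNorm (I : Ideal (𝓞 K)) : ℝ) ^ (-s) := by
  have h := tendsto_sub_one_mul_tsum_ideal K
  rw [Metric.tendsto_nhdsWithin_nhds] at h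
  have hres := dedekindZeta_residue_pos K
  obtain ⟨δ, hδ, h⟩ := h (dedekindZeta_residue K / 2) (by positivity)
  refine ⟨min (dedekindZeta_residue K / 2) δ, lt_min (by positivity) hδ, fun s hs hs2 ↦ ?_⟩
  by_cases hsd : s < 1 + δ
  · have h1 := h (show s ∈ Set.Ioi (1 : ℝ) from hs)
      (by rw [Real.dist_eq, abs_lt]; constructor <;> linarith)
    rw [Real.dist_eq] at h1
    have h2 := (abs_lt.mp h1).1
    exact le_trans (min_le_left _ _) (by linarith)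
  · rw [not_lt] at hsd
    have h1 := one_le_tsum_ideal_rpow K hs
    refine le_trans (min_le_right _ _) ?_
    have h2 : δ ≤ s - 1 := by linarith
    nlinarith

/-- **Logarithmic form**: `log ζ_K(s) = log (1 / (s - 1)) + O(1)` on `(1, 2]`. -/
theorem exists_log_zeta_bound : ∃ B : ℝ, ∀ s : ℝ, 1 < s → s ≤ 2 →
    |Real.log (∑' I : (Ideal (𝓞 K))⁰, (absNorm (I : Ideal (𝓞 K)) : ℝ) ^ (-s))
      - Real.log (1 / (s - 1))| ≤ B := by
  obtain ⟨B, hB⟩ := exists_zeta_upper K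
  obtain ⟨c, hc, hc'⟩ := exists_zeta_lower K
  refine ⟨max |Real.log B| |Real.log c|, fun s hs hs2 ↦ ?_⟩
  have hs1 : 0 < s - 1 := by linarith
  set Z := ∑' I : (Ideal (𝓞 K))⁰, (absNorm (I : Ideal (𝓞 K)) : ℝ) ^ (-s) with hZ
  have hZpos : 0 < Z := lt_of_lt_of_le one_pos (one_le_tsum_ideal_rpow K hs)
  have h1 : (s - 1) * Z ≤ B := hB s hs hs2
  have h2 : c ≤ (s - 1) * Z := hc' s hs hs2
  have hpos : 0 < (s - 1) * Z := mul_pos hs1 hZpos
  have e : Real.log Z - Real.log (1 / (s - 1)) = Real.log ((s - 1) * Z) := by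
    rw [Real.log_mul hs1.ne' hZpos.ne', one_div, Real.log_inv]
    ring
  rw [e, abs_le]
  constructor
  · have : Real.log c ≤ Real.log ((s - 1) * Z) := Real.log_le_log hc h2
    have h3 : -|Real.log c| ≤ Real.log c := neg_abs_le _
    have h4 : |Real.log c| ≤ max |Real.log B| |Real.log c| := le_max_right _ _
    linarith
  · have : Real.log ((s - 1) * Z) ≤ Real.log B := Real.log_le_log hpos h1
    have h3 : Real.log B ≤ |Real.log B| := le_abs_self _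
    have h4 : |Real.log B| ≤ max |Real.log B| |Real.log c| := le_max_left _ _
    linarith

/-! ### Ideal classes -/

/-- The fibre of the class map on nonzero ideals. -/
abbrev ClassFiber (C : ClassGroup (𝓞 K)) : Type _ :=
  {I : (Ideal (𝓞 K))⁰ // ClassGroup.mk0 I = C}

theorem summable_class_rpow (C : ClassGroup (𝓞 K)) {s : ℝ} (hs : 1 < s) :
    Summable (fun I : ClassFiber K C ↦ (absNorm (I.1 : Ideal (𝓞 K)) : ℝ) ^ (-s)) :=
  (summable_ideal_rpow K hs).subtype _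

theorem tsum_class_rpow_nonneg (C : ClassGroup (𝓞 K)) (s : ℝ) :
    0 ≤ ∑' I : ClassFiber K C, (absNorm (I.1 : Ideal (𝓞 K)) : ℝ) ^ (-s) :=
  tsum_nonneg fun I ↦ rpow_nonneg K s I.1

/-- The full zeta sum is the sum of the partial zeta sums over the ideal classes. -/
theorem sum_tsum_class_rpow {s : ℝ} (hs : 1 < s) :
    ∑ C : ClassGroup (𝓞 K), ∑' I : ClassFiber K C, (absNorm (I.1 : Ideal (𝓞 K)) : ℝ) ^ (-s)
      = ∑' I : (Ideal (𝓞 K))⁰, (absNorm (I : Ideal (𝓞 K)) : ℝ) ^ (-s) := by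
  have hsum : Summable (fun p : (Σ C : ClassGroup (𝓞 K), ClassFiber K C) ↦
      (absNorm (p.2.1 : Ideal (𝓞 K)) : ℝ) ^ (-s)) :=
    (Equiv.sigmaFiberEquiv (fun I : (Ideal (𝓞 K))⁰ ↦ ClassGroup.mk0 I)).summable_iff.mpr
      (summable_ideal_rpow K hs)
  calc ∑ C : ClassGroup (𝓞 K), ∑' I : ClassFiber K C, (absNorm (I.1 : Ideal (𝓞 K)) : ℝ) ^ (-s)
      = ∑' C : ClassGroup (𝓞 K), ∑' I : ClassFiber K C,
          (absNorm (I.1 : Ideal (𝓞 K)) : ℝ) ^ (-s) := (tsum_fintype _).symm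
    _ = ∑' p : (Σ C : ClassGroup (𝓞 K), ClassFiber K C),
          (absNorm (p.2.1 : Ideal (𝓞 K)) : ℝ) ^ (-s) := hsum.tsum_sigma.symm
    _ = ∑' I : (Ideal (𝓞 K))⁰, (absNorm (I : Ideal (𝓞 K)) : ℝ) ^ (-s) :=
        (Equiv.sigmaFiberEquiv (fun I : (Ideal (𝓞 K))⁰ ↦ ClassGroup.mk0 I)).tsum_eq
          (fun I : (Ideal (𝓞 K))⁰ ↦ (absNorm (I : Ideal (𝓞 K)) : ℝ) ^ (-s))

/-- A partial zeta sum is at most the full zeta sum. -/
theorem tsum_class_rpow_le (C : ClassGroup (𝓞 K)) {s : ℝ} (hs : 1 < s) :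
    ∑' I : ClassFiber K C, (absNorm (I.1 : Ideal (𝓞 K)) : ℝ) ^ (-s)
      ≤ ∑' I : (Ideal (𝓞 K))⁰, (absNorm (I : Ideal (𝓞 K)) : ℝ) ^ (-s) := by
  rw [← sum_tsum_class_rpow K hs]
  exact Finset.single_le_sum (f := fun C : ClassGroup (𝓞 K) ↦
    ∑' I : ClassFiber K C, (absNorm (I.1 : Ideal (𝓞 K)) : ℝ) ^ (-s))
    (fun C _ ↦ tsum_class_rpow_nonneg K C s) (Finset.mem_univ C)

/-- `(s - 1) * Z_C(s) ≤ B` on `(1, 2]`, uniformly in the class. -/
theorem exists_class_upper : ∃ B : ℝ, ∀ s : ℝ, 1 < s → s ≤ 2 → ∀ C : ClassGroup (𝓞 K),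
    (s - 1) * ∑' I : ClassFiber K C, (absNorm (I.1 : Ideal (𝓞 K)) : ℝ) ^ (-s) ≤ B := by
  obtain ⟨B, hB⟩ := exists_zeta_upper K
  refine ⟨B, fun s hs hs2 C ↦ le_trans ?_ (hB s hs hs2)⟩
  exact mul_le_mul_of_nonneg_left (tsum_class_rpow_le K C hs) (by linarith)

end Fermat.Agent.Lib.helper1121
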