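/-
helper1133 — finite extensions of complete discrete valuation rings (Mathlib-only).

Namespace `Fermat.Agent.Lib.helper1133`.  Intended consumers: S30 (coefficient ring `𝒪''`), S29/S31.

Generic lemmas
* `isPrecomplete_of_finite`, `isAdicComplete_of_finite` : finite modules over (pre)complete rings.
* `isAdicComplete_of_pow_le` : if `I ≤ J` and `J ^ e ≤ I`, `I`-adic completeness gives `J`-adic
  completeness.
* `isLocalRing_of_finite_of_isDomain` : a domain that is module-finite over a complete Noetherian
  local ring is local (idempotent lifting through `IsAdicComplete.henselianRing`).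

Integral closure `integralClosure O L` of a complete DVR `O` in a finite separable extension `L`
of `K = Frac O`
* `integralClosure_finite`, `integralClosure_free`, `integralClosure_algebraMap_injective`,
  `integralClosure_isLocalRing`, `integralClosure_isDiscreteValuationRing`,
  `integralClosure_isAdicComplete` (for its own maximal ideal), `integralClosure_isLocalHom`,
  `map_maximalIdeal_le`, `integralClosure_finite_residueField`.

Packaged form
* `exists_completeDVR_extension` : the existential in the shape of the frozen S30 conclusion
  prefix (`∃ 𝒪'' CommRing IsDomain IsDiscreteValuationRing IsAdicComplete Finite-residue CharZero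
  Algebra Module.Finite IsLocalHom, Injective ∧ Free ∧ fraction field = L`).
-/
import Mathlib

set_option autoImplicit false

namespace Fermat.Agent.Lib.helper1133

open IsLocalRing

/-! ### Finite modules over complete rings -/

/-- A finite module over an `I`-adically precomplete ring is `I`-adically precomplete. -/
theorem isPrecomplete_of_finite {R : Type*} [CommRing R] (I : Ideal R) [IsPrecomplete I R]
    (M : Type*) [AddCommGroup M] [Module R M] [Module.Finite R M] : IsPrecomplete I M := by
  rw [← AdicCompletion.of_surjective_iff]
  intro y
  obtain ⟨t, rfl⟩ := AdicCompletion.ofTensorProduct_surjective_of_finite I M y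
  induction t using TensorProduct.induction_on with
  | zero => exact ⟨0, by simp⟩
  | tmul r x =>
    obtain ⟨s, rfl⟩ := AdicCompletion.of_surjective I R r
    refine ⟨s • x, ?_⟩
    rw [AdicCompletion.ofTensorProduct_tmul, map_smul]
    rfl
  | add a b ha hb =>
    obtain ⟨a', ha'⟩ := ha
    obtain ⟨b', hb'⟩ := hb
    exact ⟨a' + b', by rw [map_add, ha', hb', map_add]⟩

/-- A finite module over a Noetherian `I`-adically complete ring is `I`-adically complete. -/
theorem isAdicComplete_of_finite {R : Type*} [CommRing R] [IsNoetherianRing R] (I : Ideal R)
    [IsAdicComplete I R] (M : Type*) [AddCommGroup M] [Module R M] [Module.Finite R M] :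
    IsAdicComplete I M :=
  { toIsHausdorff := IsHausdorff.of_le_jacobson I M (IsAdicComplete.le_jacobson_bot I)
    toIsPrecomplete := isPrecomplete_of_finite I M }

/-- Comparison of adic completeness: if `I ≤ J` and `J ^ e ≤ I`, then `I`-adic completeness
implies `J`-adic completeness. -/
theorem isAdicComplete_of_pow_le {R : Type*} [CommRing R] {I J : Ideal R}
    (M : Type*) [AddCommGroup M] [Module R M] (hIJ : I ≤ J) {e : ℕ} (he : J ^ e ≤ I)
    [IsAdicComplete I M] : IsAdicComplete J M := by
  have he' : J ^ (e + 1) ≤ I := (Ideal.pow_le_pow_right (Nat.le_succ e)).trans he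
  have hsub : ∀ n : ℕ, (J ^ ((e + 1) * n) • ⊤ : Submodule R M) ≤ I ^ n • ⊤ := by
    intro n
    rw [pow_mul]
    exact Submodule.smul_mono_left (Ideal.pow_right_mono he' n)
  have hsub' : ∀ n : ℕ, (I ^ n • ⊤ : Submodule R M) ≤ J ^ n • ⊤ := fun n =>
    Submodule.smul_mono_left (Ideal.pow_right_mono hIJ n)
  refine { haus' := fun x hx => ?_, prec' := fun f hf => ?_ }
  · apply IsHausdorff.haus' (I := I) x
    intro n
    exact (hx ((e + 1) * n)).mono (hsub n)
  · obtain ⟨L, hL⟩ := IsPrecomplete.prec' (I := I) (fun k => f ((e + 1) * k)) (fun {m n} hmn =>
      (hf (Nat.mul_le_mul_left (e + 1) hmn)).mono (hsub m))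
    refine ⟨L, fun n => ?_⟩
    have h1 : f n ≡ f ((e + 1) * n) [SMOD (J ^ n • ⊤ : Submodule R M)] :=
      hf (Nat.le_mul_of_pos_left n (Nat.succ_pos e))
    exact h1.trans ((hL n).mono (hsub' n))

/-! ### Locality of finite domains over complete local rings -/

/-- A domain which is module-finite over a Noetherian local ring that is complete for its maximal
ideal is itself a local ring (no nontrivial idempotents can be lifted). -/
theorem isLocalRing_of_finite_of_isDomain (O : Type*) [CommRing O] [IsLocalRing O]
    [IsNoetherianRing O] [IsAdicComplete (maximalIdeal O) O] (B : Type*) [CommRing B] [IsDomain B]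
    [Algebra O B] [Module.Finite O B] : IsLocalRing B := by
  classical
  have hart : IsArtinianRing (B ⧸ (maximalIdeal O).map (algebraMap O B)) := by
    have h1 : IsArtinianRing (O ⧸ maximalIdeal O) :=
      (inferInstance : IsArtinianRing (ResidueField O))
    have h2 : Module.Finite O (B ⧸ (maximalIdeal O).map (algebraMap O B)) := inferInstance
    have h3 : Module.Finite (O ⧸ maximalIdeal O) (B ⧸ (maximalIdeal O).map (algebraMap O B)) :=
      Module.Finite.of_restrictScalars_finite O _ _
    exact IsArtinianRing.of_finite (O ⧸ maximalIdeal O) _
  have hc : IsAdicComplete ((maximalIdeal O).map (algebraMap O B)) B :=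
    (IsAdicComplete.map_algebraMap_iff (maximalIdeal O) B).mpr
      (isAdicComplete_of_finite (maximalIdeal O) B)
  have hh : HenselianRing B ((maximalIdeal O).map (algebraMap O B)) :=
    IsAdicComplete.henselianRing B _
  have hint : Algebra.IsIntegral O B := Algebra.IsIntegral.of_finite O B
  have hle : ∀ M : Ideal B, M.IsMaximal → (maximalIdeal O).map (algebraMap O B) ≤ M := by
    intro M hM
    rw [Ideal.map_le_iff_le_comap]
    have := Ideal.isMaximal_comap_of_isIntegral_of_isMaximal (R := O) M
    exact (IsLocalRing.eq_maximalIdeal this).ge
  obtain ⟨M, hM⟩ := Ideal.exists_maximal B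
  refine IsLocalRing.of_unique_max_ideal ⟨M, hM, fun M' hM' => ?_⟩
  by_contra hne
  have htop : M ⊔ M' = ⊤ := Ideal.IsMaximal.coprime_of_ne hM hM' (Ne.symm hne)
  obtain ⟨x, hx, y, hy, hxy⟩ :=
    Submodule.mem_sup.mp (htop ▸ Submodule.mem_top : (1 : B) ∈ M ⊔ M')
  obtain ⟨n, cbar, hn⟩ := IsArtinian.exists_pow_succ_smul_dvd
    (Ideal.Quotient.mk ((maximalIdeal O).map (algebraMap O B)) y)
    (1 : B ⧸ (maximalIdeal O).map (algebraMap O B))
  obtain ⟨c, rfl⟩ := Ideal.Quotient.mk_surjective cbar
  generalize (maximalIdeal O).map (algebraMap O B) = 𝔪 at hart hc hh hle hn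
  have h0 : y ^ n - y ^ (n + 1) * c ∈ 𝔪 := by
    rw [← Ideal.Quotient.eq]
    simpa [smul_eq_mul, eq_comm] using hn
  have h1 : y ^ (n + 1) - y ^ (n + 2) * c ∈ 𝔪 := by
    have : y ^ (n + 1) - y ^ (n + 2) * c = y * (y ^ n - y ^ (n + 1) * c) := by ring
    rw [this]
    exact 𝔪.mul_mem_left _ h0
  have h2 : ∀ k : ℕ, y ^ (n + 1) - y ^ (n + 1 + k) * c ^ k ∈ 𝔪 := by
    intro k
    induction k with
    | zero => simp
    | succ k ih =>
      have : y ^ (n + 1) - y ^ (n + 1 + (k + 1)) * c ^ (k + 1) =
          (y ^ (n + 1) - y ^ (n + 1 + k) * c ^ k) +
            y ^ k * c ^ k * (y ^ (n + 1) - y ^ (n + 2) * c) := by ring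
      rw [this]
      exact 𝔪.add_mem ih (𝔪.mul_mem_left _ h1)
  have h3 : (y ^ (n + 1) * c ^ (n + 1)) ^ 2 - y ^ (n + 1) * c ^ (n + 1) ∈ 𝔪 := by
    have : (y ^ (n + 1) * c ^ (n + 1)) ^ 2 - y ^ (n + 1) * c ^ (n + 1) =
        -(c ^ (n + 1)) * (y ^ (n + 1) - y ^ (n + 1 + (n + 1)) * c ^ (n + 1)) := by ring
    rw [this]
    exact 𝔪.mul_mem_left _ (h2 (n + 1))
  have hmonic : (Polynomial.X ^ 2 - Polynomial.X : Polynomial B).Monic :=
    Polynomial.monic_X_pow_sub (lt_of_le_of_lt Polynomial.degree_X_le (by norm_num))
  obtain ⟨a, ha, haa⟩ := hh.is_henselian (Polynomial.X ^ 2 - Polynomial.X) hmonic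
    (y ^ (n + 1) * c ^ (n + 1)) (by simpa using h3) (by
      refine IsUnit.of_mul_eq_one
        (Ideal.Quotient.mk 𝔪 (2 * (y ^ (n + 1) * c ^ (n + 1)) - 1)) ?_
      rw [← map_mul, ← map_one (Ideal.Quotient.mk 𝔪), Ideal.Quotient.eq]
      have : Polynomial.eval (y ^ (n + 1) * c ^ (n + 1))
            (Polynomial.derivative (Polynomial.X ^ 2 - Polynomial.X : Polynomial B)) *
          (2 * (y ^ (n + 1) * c ^ (n + 1)) - 1) - 1 =
          4 * ((y ^ (n + 1) * c ^ (n + 1)) ^ 2 - y ^ (n + 1) * c ^ (n + 1)) := by
        simp only [Polynomial.derivative_sub, Polynomial.derivative_X_pow, Polynomial.derivative_X,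
          Polynomial.eval_sub, Polynomial.eval_mul, Polynomial.eval_pow, Polynomial.eval_X,
          Polynomial.eval_one, Polynomial.eval_C]
        push_cast
        ring
      rw [this]
      exact 𝔪.mul_mem_left _ h3)
  have hroot : a * (a - 1) = 0 := by
    have := ha
    simp only [Polynomial.IsRoot, Polynomial.eval_sub, Polynomial.eval_pow,
      Polynomial.eval_X] at this
    linear_combination this
  rcases mul_eq_zero.mp hroot with h | h
  · -- `a = 0`: then `y ^ (n + 1) ∈ 𝔪 ≤ M`, so `1 ∈ M`
    rw [h, zero_sub, neg_mem_iff] at haa
    have hy1 : y ^ (n + 1) ∈ 𝔪 := by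
      have : y ^ (n + 1) = (y ^ (n + 1) - y ^ (n + 1 + (n + 1)) * c ^ (n + 1)) +
          y ^ (n + 1) * (y ^ (n + 1) * c ^ (n + 1)) := by ring
      rw [this]
      exact 𝔪.add_mem (h2 (n + 1)) (𝔪.mul_mem_left _ haa)
    have hyM : y ∈ M := hM.isPrime.mem_of_pow_mem _ (hle M hM hy1)
    exact hM.ne_top ((Ideal.eq_top_iff_one M).mpr (hxy ▸ M.add_mem hx hyM))
  · -- `a = 1`: then `1 - e₀ ∈ 𝔪 ≤ M'` and `e₀ ∈ M'`
    rw [sub_eq_zero] at h
    rw [h] at haa
    have he : y ^ (n + 1) * c ^ (n + 1) ∈ M' :=
      M'.mul_mem_right _ (M'.pow_mem_of_mem hy _ (Nat.succ_pos n))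
    have : (1 : B) ∈ M' := by
      have h1' := M'.add_mem (hle M' hM' haa) he
      simpa using h1'
    exact hM'.ne_top ((Ideal.eq_top_iff_one M').mpr this)

/-! ### The integral closure of a complete DVR in a finite separable extension -/

section IntegralClosure

variable (O : Type*) [CommRing O] [IsDomain O]
variable (K : Type*) [Field K] [Algebra O K] [IsFractionRing O K]
variable (L : Type*) [Field L] [Algebra K L] [Algebra O L] [IsScalarTower O K L]

include K in
omit [IsDomain O] in
/-- The structure map `O → L` is injective. -/
theorem algebraMap_injective_of_tower : Function.Injective (algebraMap O L) := by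
  rw [IsScalarTower.algebraMap_eq O K L]
  exact (algebraMap K L).injective.comp (IsFractionRing.injective O K)

include K in
omit [IsDomain O] in
/-- The structure map `O → integralClosure O L` is injective. -/
theorem integralClosure_algebraMap_injective :
    Function.Injective (algebraMap O (integralClosure O L)) := by
  have h := algebraMap_injective_of_tower O K L
  rw [IsScalarTower.algebraMap_eq O (integralClosure O L) L, RingHom.coe_comp] at h
  exact Function.Injective.of_comp h

variable [IsDiscreteValuationRing O] [FiniteDimensional K L] [Algebra.IsSeparable K L]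

include K in
/-- The integral closure is module-finite. -/
theorem integralClosure_finite : Module.Finite O (integralClosure O L) :=
  IsIntegralClosure.finite O K L (integralClosure O L)

include K in
omit [FiniteDimensional K L] [Algebra.IsSeparable K L] in
/-- The integral closure is not a field. -/
theorem integralClosure_not_isField : ¬ IsField (integralClosure O L) := fun h =>
  IsDiscreteValuationRing.not_isField O
    (isField_of_isIntegral_of_isField (integralClosure_algebraMap_injective O K L) h)

variable [IsAdicComplete (maximalIdeal O) O]

include K in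
/-- The integral closure is a local ring. -/
theorem integralClosure_isLocalRing : IsLocalRing (integralClosure O L) :=
  haveI := integralClosure_finite O K L
  isLocalRing_of_finite_of_isDomain O (integralClosure O L)

include K in
/-- The integral closure of a complete DVR in a finite separable extension of its fraction field
is a DVR. -/
theorem integralClosure_isDiscreteValuationRing :
    IsDiscreteValuationRing (integralClosure O L) := by
  have hloc := integralClosure_isLocalRing O K L
  have hded : IsDedekindDomain (integralClosure O L) := integralClosure.isDedekindDomain O K L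
  exact ((IsDiscreteValuationRing.TFAE (integralClosure O L)
    (integralClosure_not_isField O K L)).out 0 2).mpr hded

omit [IsFractionRing O K] [IsScalarTower O K L] [FiniteDimensional K L] [Algebra.IsSeparable K L]
  [IsAdicComplete (maximalIdeal O) O] in
/-- The maximal ideal of `O` generates an ideal contained in the maximal ideal upstairs. -/
theorem map_maximalIdeal_le [IsLocalRing (integralClosure O L)] :
    (maximalIdeal O).map (algebraMap O (integralClosure O L)) ≤
      maximalIdeal (integralClosure O L) := by
  rw [Ideal.map_le_iff_le_comap]
  have := Ideal.isMaximal_comap_of_isIntegral_of_isMaximal (R := O)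
    (maximalIdeal (integralClosure O L))
  exact (IsLocalRing.eq_maximalIdeal this).ge

omit [IsFractionRing O K] [IsScalarTower O K L] [FiniteDimensional K L] [Algebra.IsSeparable K L]
  [IsAdicComplete (maximalIdeal O) O] in
/-- `O → integralClosure O L` is a local homomorphism. -/
theorem integralClosure_isLocalHom [IsLocalRing (integralClosure O L)] :
    IsLocalHom (algebraMap O (integralClosure O L)) := by
  constructor
  intro a ha
  by_contra hna
  have h1 : a ∈ maximalIdeal O := (IsLocalRing.mem_maximalIdeal a).mpr hna
  have h2 := map_maximalIdeal_le O L (Ideal.mem_map_of_mem _ h1)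
  exact (IsLocalRing.mem_maximalIdeal _).mp h2 ha

include K in
/-- The integral closure of a complete DVR in a finite separable extension is complete for its
own maximal ideal. -/
theorem integralClosure_isAdicComplete [IsLocalRing (integralClosure O L)] :
    IsAdicComplete (maximalIdeal (integralClosure O L)) (integralClosure O L) := by
  have hfin := integralClosure_finite O K L
  have hdvr := integralClosure_isDiscreteValuationRing O K L
  have hded : IsDedekindDomain (integralClosure O L) := integralClosure.isDedekindDomain O K L
  have hc : IsAdicComplete ((maximalIdeal O).map (algebraMap O (integralClosure O L)))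
      (integralClosure O L) :=
    (IsAdicComplete.map_algebraMap_iff (maximalIdeal O) _).mpr
      (isAdicComplete_of_finite (maximalIdeal O) _)
  have hne : (maximalIdeal O).map (algebraMap O (integralClosure O L)) ≠ ⊥ := by
    rw [Ne, Ideal.map_eq_bot_iff_of_injective (integralClosure_algebraMap_injective O K L)]
    exact IsDiscreteValuationRing.not_a_field O
  have h6 : ∀ I : Ideal (integralClosure O L), I ≠ ⊥ →
      ∃ n : ℕ, I = maximalIdeal (integralClosure O L) ^ n :=
    ((IsDiscreteValuationRing.TFAE (integralClosure O L)
      (integralClosure_not_isField O K L)).out 0 6).mp hdvr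
  obtain ⟨e, he⟩ := h6 _ hne
  exact isAdicComplete_of_pow_le _ (map_maximalIdeal_le O L) he.ge

include K in
omit [IsAdicComplete (maximalIdeal O) O] in
/-- The residue field of the integral closure is finite if the residue field of `O` is. -/
theorem integralClosure_finite_residueField [Finite (ResidueField O)]
    [IsLocalRing (integralClosure O L)] : Finite (ResidueField (integralClosure O L)) := by
  have hfin := integralClosure_finite O K L
  have h0 : Finite (O ⧸ maximalIdeal O) := ‹Finite (ResidueField O)›
  have h2 : Module.Finite O
      (integralClosure O L ⧸ (maximalIdeal O).map (algebraMap O (integralClosure O L))) :=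
    inferInstance
  have h3 : Module.Finite (O ⧸ maximalIdeal O)
      (integralClosure O L ⧸ (maximalIdeal O).map (algebraMap O (integralClosure O L))) :=
    Module.Finite.of_restrictScalars_finite O _ _
  have h4 : Finite
      (integralClosure O L ⧸ (maximalIdeal O).map (algebraMap O (integralClosure O L))) :=
    Module.finite_of_finite (O ⧸ maximalIdeal O)
  show Finite (integralClosure O L ⧸ maximalIdeal (integralClosure O L))
  exact Finite.of_surjective (Ideal.Quotient.factor (map_maximalIdeal_le O L))
    (Ideal.Quotient.factor_surjective _)

include K in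
omit [IsAdicComplete (maximalIdeal O) O] in
/-- The integral closure is a free `O`-module. -/
theorem integralClosure_free : Module.Free O (integralClosure O L) := by
  have hfin := integralClosure_finite O K L
  have hinj := integralClosure_algebraMap_injective O K L
  have : Module.IsTorsionFree O (integralClosure O L) := by
    rw [← faithfulSMul_iff_algebraMap_injective] at hinj
    infer_instance
  infer_instance

end IntegralClosure

/-! ### Packaged form (shape of the frozen S30 conclusion prefix) -/

/-- **Finite extensions of complete DVRs.**  Let `O` be a complete DVR of characteristic zero with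
finite residue field, `K` its fraction field and `L / K` a finite extension.  Then there is a
complete DVR `O''` of characteristic zero with finite residue field, module-finite over `O` via a
local injective structure map, having `L` as its fraction field (compatibly with `O → L`).
(`O''` is the integral closure of `O` in `L`.) -/
theorem exists_completeDVR_extension.{u} (O : Type*) [CommRing O] [IsDomain O]
    [IsDiscreteValuationRing O] [IsAdicComplete (maximalIdeal O) O] [Finite (ResidueField O)]
    [CharZero O] (K : Type*) [Field K] [Algebra O K] [IsFractionRing O K]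
    (L : Type u) [Field L] [Algebra K L] [Algebra O L] [IsScalarTower O K L]
    [FiniteDimensional K L] :
    ∃ (O'' : Type u) (_ : CommRing O'') (_ : IsDomain O'') (_ : IsDiscreteValuationRing O'')
      (_ : IsAdicComplete (IsLocalRing.maximalIdeal O'') O'')
      (_ : Finite (IsLocalRing.ResidueField O'')) (_ : CharZero O'')
      (_ : Algebra O O'') (_ : Module.Finite O O'') (_ : IsLocalHom (algebraMap O O'')),
      Function.Injective (algebraMap O O'') ∧ Module.Free O O'' ∧
      ∃ (_ : Algebra O'' L) (_ : IsScalarTower O O'' L), IsFractionRing O'' L := by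
  have hK : CharZero K := charZero_of_injective_algebraMap (IsFractionRing.injective O K)
  have hsep : Algebra.IsSeparable K L := inferInstance
  have hdvr := integralClosure_isDiscreteValuationRing O K L
  exact ⟨integralClosure O L, inferInstance, inferInstance, hdvr,
    integralClosure_isAdicComplete O K L, integralClosure_finite_residueField O K L,
    charZero_of_injective_algebraMap (integralClosure_algebraMap_injective O K L),
    inferInstance, integralClosure_finite O K L, integralClosure_isLocalHom O L,
    integralClosure_algebraMap_injective O K L, integralClosure_free O K L,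
    inferInstance, inferInstance, integralClosure.isFractionRing_of_finite_extension K L⟩

end Fermat.Agent.Lib.helper1133
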