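/-
Generic "Case II" of Fermat's Last Theorem for an odd prime `p` (Kummer descent),
under the hypotheses that the ring of integers of the `p`-th cyclotomic field is a PID
and that Kummer's lemma holds (a unit congruent to a rational integer mod `p` is a `p`-th power).
Author: helper11.
-/
import Mathlib

set_option autoImplicit false

namespace Fermat.Agent.Lib.helper11

open NumberField Polynomial Finset

section

variable {p : ℕ} [hp : Fact p.Prime] {K : Type*} [Field K] [NumberField K]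
  [IsCyclotomicExtension {p} ℚ K] {ζ : K} (hζ : IsPrimitiveRoot ζ p)

include hζ in
/-- Every algebraic integer of the `p`-th cyclotomic field is congruent to a rational integer
modulo `ζ - 1`. -/
theorem exists_int_sub_dvd (hodd : p ≠ 2) (α : 𝓞 K) :
    ∃ n : ℤ, hζ.toInteger - 1 ∣ α - n := by
  classical
  have hpp := hp.out
  set I : Ideal (𝓞 K) := Ideal.span {hζ.toInteger - 1} with hI
  have : Finite (𝓞 K ⧸ I) := hζ.finite_quotient_span_sub_one'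
  have hcard : Nat.card (𝓞 K ⧸ I) = p := by
    rw [hI, hζ.card_quotient_toInteger_sub_one, hζ.norm_toInteger_sub_one_of_prime_ne_two' hodd]
    simp
  have hinj : Function.Injective (fun i : Fin p => (Ideal.Quotient.mk I ((i : ℕ) : 𝓞 K))) := by
    intro i j hij
    simp only at hij
    rw [Ideal.Quotient.eq, Ideal.mem_span_singleton] at hij
    have h1 : (p : ℤ) ∣ ((i : ℕ) : ℤ) - ((j : ℕ) : ℤ) := by
      rw [← IsCyclotomicExtension.Rat.zeta_sub_one_dvd_intCast_iff' p hζ]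
      push_cast
      exact hij
    have h2 : ((i : ℕ) : ℤ) - ((j : ℕ) : ℤ) = 0 := by
      apply Int.eq_zero_of_abs_lt_dvd h1
      have := i.2
      have := j.2
      rw [abs_lt]
      constructor <;> omega
    ext
    omega
  have hbij := hinj.bijective_of_nat_card_le (by rw [hcard]; simp)
  obtain ⟨i, hi⟩ := hbij.2 (Ideal.Quotient.mk I α)
  refine ⟨((i : ℕ) : ℤ), ?_⟩
  simp only at hi
  rw [← Ideal.mem_span_singleton, ← Ideal.Quotient.eq, ← hi]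
  simp

omit [NumberField K] [IsCyclotomicExtension {p} ℚ K] in
include hζ in
/-- If `ζ - 1 ∣ a - b` then `p ∣ a ^ p - b ^ p`. -/
theorem prime_dvd_pow_sub_pow_of_dvd_sub {a b : 𝓞 K} (h : hζ.toInteger - 1 ∣ a - b) :
    (p : 𝓞 K) ∣ a ^ p - b ^ p := by
  classical
  have hpp := hp.out
  have hζ' : IsPrimitiveRoot hζ.toInteger p := hζ.toInteger_isPrimitiveRoot
  have h1mem : (1 : 𝓞 K) ∈ nthRootsFinset p (1 : 𝓞 K) := by
    rw [mem_nthRootsFinset hpp.pos]; exact one_pow p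
  have hfac : ∀ η ∈ nthRootsFinset p (1 : 𝓞 K), hζ.toInteger - 1 ∣ a - η * b := by
    intro η hη
    have e : a - η * b = (a - b) + (1 - η) * b := by ring
    rw [e]
    refine dvd_add h (Dvd.dvd.mul_right ?_ b)
    by_cases h1 : (1 : 𝓞 K) = η
    · rw [h1, sub_self]; exact dvd_zero _
    · exact (hζ'.nthRootsFinset_pairwise_associated_sub_one_sub_of_prime hpp h1mem hη h1).dvd
  have hprod : (hζ.toInteger - 1) ^ p ∣ a ^ p - b ^ p := by
    rw [hζ'.pow_sub_pow_eq_prod_sub_mul a b hpp.pos]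
    have := Finset.prod_dvd_prod_of_dvd (s := nthRootsFinset p (1 : 𝓞 K))
      (fun _ : 𝓞 K => hζ.toInteger - 1) (fun η => a - η * b) hfac
    rwa [Finset.prod_const, hζ'.card_nthRootsFinset] at this
  have h2 : (p : 𝓞 K) ∣ (hζ.toInteger - 1) ^ p :=
    (IsCyclotomicExtension.Rat.associated_zeta_sub_one_pow_prime p hζ).symm.dvd.trans
      (pow_dvd_pow _ (Nat.sub_le p 1))
  exact h2.trans hprod

include hζ in
/-- Every `p`-th power in `𝓞 K` is congruent to a rational integer modulo `p`. -/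
theorem exists_int_pow_sub_dvd (hodd : p ≠ 2) (α : 𝓞 K) :
    ∃ n : ℤ, (p : 𝓞 K) ∣ α ^ p - n := by
  obtain ⟨n, hn⟩ := exists_int_sub_dvd hζ hodd α
  refine ⟨n ^ p, ?_⟩
  have := prime_dvd_pow_sub_pow_of_dvd_sub hζ hn
  push_cast
  exact this

/-- The generalized "Case II" equation `x ^ p + y ^ p = ε * (π ^ m * z) ^ p` (with `π = ζ - 1`)
has a solution with `x, y` coprime and `y, z` prime to `π`. -/
def HasSol (hζ : IsPrimitiveRoot ζ p) (m : ℕ) : Prop :=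
  ∃ (x y z : 𝓞 K) (ε : (𝓞 K)ˣ), IsCoprime x y ∧ ¬ (hζ.toInteger - 1) ∣ y ∧
    ¬ (hζ.toInteger - 1) ∣ z ∧ x ^ p + y ^ p = ε * ((hζ.toInteger - 1) ^ m * z) ^ p

include hζ in
/-- The descent step: a solution at level `m ≥ 1` forces `m ≥ 2` and yields a solution at
level `m - 1`. -/
theorem descent [IsPrincipalIdealRing (𝓞 K)] (hodd : p ≠ 2)
    (hK : ∀ u : (𝓞 K)ˣ, ∀ n : ℤ, (p : 𝓞 K) ∣ (u : 𝓞 K) - n → ∃ v : (𝓞 K)ˣ, u = v ^ p)
    {m : ℕ} (hm : 1 ≤ m) (h : HasSol hζ m) : 2 ≤ m ∧ HasSol hζ (m - 1) := by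
  classical
  unfold HasSol at h ⊢
  obtain ⟨x, y, z, ε, hxy, hy, hz, heq⟩ := h
  have hpp := hp.out
  have hζ' : IsPrimitiveRoot hζ.toInteger p := hζ.toInteger_isPrimitiveRoot
  have hπ : Prime (hζ.toInteger - 1) := hζ.zeta_sub_one_prime'
  have hdvdp : hζ.toInteger - 1 ∣ (p : 𝓞 K) := hζ.toInteger_sub_one_dvd_prime'
  have hassocp := IsCyclotomicExtension.Rat.associated_zeta_sub_one_pow_prime p hζ
  have hintiff : ∀ n : ℤ, hζ.toInteger - 1 ∣ (n : 𝓞 K) ↔ (p : ℤ) ∣ n := fun n =>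
    IsCyclotomicExtension.Rat.zeta_sub_one_dvd_intCast_iff' p hζ
  have hfin : Finite (𝓞 K ⧸ Ideal.span {hζ.toInteger - 1}) := hζ.finite_quotient_span_sub_one'
  have hcard : Nat.card (𝓞 K ⧸ Ideal.span {hζ.toInteger - 1}) = p := by
    rw [hζ.card_quotient_toInteger_sub_one, hζ.norm_toInteger_sub_one_of_prime_ne_two' hodd]
    simp
  have hpow_int : ∀ α : 𝓞 K, ∃ n : ℤ, (p : 𝓞 K) ∣ α ^ p - n := exists_int_pow_sub_dvd hζ hodd
  -- from now on, we only use the abstract properties above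
  generalize hζ.toInteger = ζ' at *
  set π := ζ' - 1 with hπdef
  have hπ0 : π ≠ 0 := hπ.ne_zero
  have hp3 : 3 ≤ p := by
    have := hpp.two_le
    omega
  have hoddp : Odd p := hpp.odd_of_ne_two hodd
  have hunit : ∀ (u : (𝓞 K)ˣ) (t : 𝓞 K), π ∣ u * t → π ∣ t := fun u t h =>
    (hπ.dvd_or_dvd h).resolve_left (fun h' => hπ.not_isUnit (isUnit_of_dvd_unit h' u.isUnit))
  set Φ := nthRootsFinset p (1 : 𝓞 K) with hΦ
  have hΦcard : Φ.card = p := hζ'.card_nthRootsFinset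
  have hmemΦ : ∀ η, η ∈ Φ ↔ η ^ p = 1 := fun η => mem_nthRootsFinset hpp.pos 1
  have hassoc : ∀ η₁ ∈ Φ, ∀ η₂ ∈ Φ, η₁ ≠ η₂ → Associated π (η₁ - η₂) :=
    fun η₁ h₁ η₂ h₂ hne =>
      hζ'.nthRootsFinset_pairwise_associated_sub_one_sub_of_prime hpp h₁ h₂ hne
  have hprod : ∏ η ∈ Φ, (x + η * y) = ε * (π ^ m * z) ^ p := by
    rw [← heq]; exact (hζ'.pow_add_pow_eq_prod_add_mul x y hoddp).symm
  -- Step 1: `π` divides every factor
  have hdvd : ∀ η ∈ Φ, π ∣ x + η * y := by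
    have h1 : π ∣ ∏ η ∈ Φ, (x + η * y) := by
      rw [hprod]
      refine Dvd.dvd.mul_left ?_ _
      exact dvd_pow (Dvd.dvd.mul_right (dvd_pow_self π (by omega)) z) hpp.ne_zero
    obtain ⟨η₀, hη₀, hη₀d⟩ := hπ.exists_mem_finset_dvd h1
    intro η hη
    by_cases hne : η = η₀
    · rwa [hne]
    · have e : x + η * y = (x + η₀ * y) + (η - η₀) * y := by ring
      rw [e]
      exact dvd_add hη₀d (Dvd.dvd.mul_right (hassoc η hη η₀ hη₀ hne).dvd y)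
  -- Step 2: the quotients `A η = (x + η y) / π`
  choose! A hA using hdvd
  have hdiff : ∀ η₁ ∈ Φ, ∀ η₂ ∈ Φ, η₁ ≠ η₂ → ∃ u : (𝓞 K)ˣ,
      A η₁ - A η₂ = u * y ∧ η₂ * A η₁ - η₁ * A η₂ = -(u * x) := by
    intro η₁ h₁ η₂ h₂ hne
    obtain ⟨u, hu⟩ := hassoc η₁ h₁ η₂ h₂ hne
    have e1 := hA η₁ h₁
    have e2 := hA η₂ h₂
    refine ⟨u, ?_, ?_⟩
    · apply mul_left_cancel₀ hπ0
      calc π * (A η₁ - A η₂) = π * A η₁ - π * A η₂ := by ring
        _ = (x + η₁ * y) - (x + η₂ * y) := by rw [← e1, ← e2]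
        _ = (η₁ - η₂) * y := by ring
        _ = π * (u * y) := by rw [← hu]; ring
    · apply mul_left_cancel₀ hπ0
      calc π * (η₂ * A η₁ - η₁ * A η₂) = η₂ * (π * A η₁) - η₁ * (π * A η₂) := by ring
        _ = η₂ * (x + η₁ * y) - η₁ * (x + η₂ * y) := by rw [← e1, ← e2]
        _ = -((η₁ - η₂) * x) := by ring
        _ = π * -(u * x) := by rw [← hu]; ring
  -- Step 3: pigeonhole: some `A η₀` is divisible by `π`
  have hex : ∃ η₀ ∈ Φ, π ∣ A η₀ := by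
    let f : Φ → 𝓞 K ⧸ Ideal.span {π} := fun η => Ideal.Quotient.mk _ (A η)
    have hf : Function.Injective f := by
      intro η₁ η₂ h12
      by_contra hne
      have hne' : (η₁ : 𝓞 K) ≠ η₂ := fun h => hne (Subtype.ext h)
      obtain ⟨u, hu, -⟩ := hdiff η₁ η₁.2 η₂ η₂.2 hne'
      have h3 : π ∣ A η₁ - A η₂ := by
        rw [← Ideal.mem_span_singleton, ← Ideal.Quotient.eq]; exact h12
      rw [hu] at h3
      exact hy (hunit u y h3)
    have hbij := hf.bijective_of_nat_card_le (by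
      rw [hcard, Nat.card_eq_fintype_card, Fintype.card_coe, hΦcard])
    obtain ⟨η₀, hη₀⟩ := hbij.2 0
    refine ⟨η₀, η₀.2, ?_⟩
    rw [← Ideal.mem_span_singleton, ← Ideal.Quotient.eq_zero_iff_mem]
    exact hη₀
  obtain ⟨η₀, hη₀, hη₀d⟩ := hex
  have hndvd : ∀ η ∈ Φ, η ≠ η₀ → ¬ π ∣ A η := by
    intro η hη hne hd
    obtain ⟨u, hu, -⟩ := hdiff η hη η₀ hη₀ hne
    have h3 : π ∣ u * y := by rw [← hu]; exact dvd_sub hd hη₀d
    exact hy (hunit u y h3)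
  -- Step 4: valuation count
  have hprodA : ∏ η ∈ Φ, A η = ε * (π ^ ((m - 1) * p) * z ^ p) := by
    apply mul_left_cancel₀ (pow_ne_zero p hπ0)
    calc π ^ p * ∏ η ∈ Φ, A η = ∏ η ∈ Φ, (π * A η) := by
          rw [Finset.prod_mul_distrib, Finset.prod_const, hΦcard]
      _ = ∏ η ∈ Φ, (x + η * y) := Finset.prod_congr rfl (fun η hη => (hA η hη).symm)
      _ = ε * (π ^ m * z) ^ p := hprod
      _ = π ^ p * (ε * (π ^ ((m - 1) * p) * z ^ p)) := by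
          obtain ⟨k, rfl⟩ : ∃ k, m = k + 1 := ⟨m - 1, by omega⟩
          have hk : k + 1 - 1 = k := by omega
          rw [hk, pow_succ, mul_pow, mul_pow, ← pow_mul]
          ring
  set B := ∏ η ∈ Φ.erase η₀, A η with hB
  have hAB : A η₀ * B = ε * (π ^ ((m - 1) * p) * z ^ p) := by
    rw [hB, Finset.mul_prod_erase Φ A hη₀, hprodA]
  have hBndvd : ¬ π ∣ B := by
    intro h
    obtain ⟨η, hη, hd⟩ := hπ.exists_mem_finset_dvd h
    exact hndvd η (Finset.mem_of_mem_erase hη) (Finset.ne_of_mem_erase hη) hd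
  have hεz : ¬ π ∣ ε * z ^ p := fun h => hz (hπ.dvd_of_dvd_pow (hunit ε _ h))
  have hm2 : 2 ≤ m := by
    by_contra hlt
    have hm1 : m = 1 := by omega
    subst hm1
    simp only [Nat.sub_self, zero_mul, pow_zero, one_mul] at hAB
    exact hεz (hAB ▸ Dvd.dvd.mul_right hη₀d B)
  have hpowdvd : π ^ ((m - 1) * p) ∣ A η₀ := by
    apply hπ.pow_dvd_of_dvd_mul_right _ hBndvd
    rw [hAB]
    exact ⟨ε * z ^ p, by ring⟩
  obtain ⟨C, hC⟩ := hpowdvd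
  have hCB : C * B = ε * z ^ p := by
    apply mul_left_cancel₀ (pow_ne_zero ((m - 1) * p) hπ0)
    rw [← mul_assoc, ← hC, hAB]
    ring
  have hCndvd : ¬ π ∣ C := fun h => hεz (hCB ▸ Dvd.dvd.mul_right h B)
  -- Step 5: pairwise coprimality
  have hcop : ∀ η₁ ∈ Φ, ∀ η₂ ∈ Φ, η₁ ≠ η₂ → IsCoprime (A η₁) (A η₂) := by
    intro η₁ h₁ η₂ h₂ hne
    obtain ⟨u, hu1, hu2⟩ := hdiff η₁ h₁ η₂ h₂ hne
    obtain ⟨a, b, hab⟩ := hxy
    refine ⟨-(a * ↑u⁻¹ * η₂) + b * ↑u⁻¹, a * ↑u⁻¹ * η₁ - b * ↑u⁻¹, ?_⟩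
    have hu : (↑u⁻¹ : 𝓞 K) * u = 1 := by simp
    calc (-(a * ↑u⁻¹ * η₂) + b * ↑u⁻¹) * A η₁ + (a * ↑u⁻¹ * η₁ - b * ↑u⁻¹) * A η₂
        = -(a * ↑u⁻¹) * (η₂ * A η₁ - η₁ * A η₂) + b * ↑u⁻¹ * (A η₁ - A η₂) := by ring
      _ = a * x * (↑u⁻¹ * u) + b * y * (↑u⁻¹ * u) := by rw [hu1, hu2]; ring
      _ = 1 := by rw [hu, mul_one, mul_one, hab]
  -- the three special roots
  have hζ'p : ζ' ^ p = 1 := hζ'.pow_eq_one
  have hη₀p : η₀ ^ p = 1 := (hmemΦ η₀).1 hη₀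
  have hη₀0 : η₀ ≠ 0 := by
    intro h
    rw [h, zero_pow hpp.ne_zero] at hη₀p
    exact zero_ne_one hη₀p
  have hη₁Φ : η₀ * ζ' ∈ Φ := by rw [hmemΦ, mul_pow, hη₀p, hζ'p, one_mul]
  have hη₂Φ : η₀ * ζ' ^ (p - 1) ∈ Φ := by
    rw [hmemΦ, mul_pow, hη₀p, ← pow_mul, mul_comm (p - 1) p, pow_mul, hζ'p, one_pow, one_mul]
  have hη₁0 : η₀ * ζ' ≠ η₀ := by
    intro h
    have h1 : ζ' = 1 := mul_left_cancel₀ hη₀0 (by rw [h, mul_one])
    exact hζ'.ne_one hpp.one_lt h1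
  have hη₂0 : η₀ * ζ' ^ (p - 1) ≠ η₀ := by
    intro h
    have h1 : ζ' ^ (p - 1) = 1 := mul_left_cancel₀ hη₀0 (by rw [h, mul_one])
    have h2 := (hζ'.pow_eq_one_iff_dvd _).1 h1
    have h3 := Nat.le_of_dvd (by omega) h2
    omega
  have hη₁₂ : η₀ * ζ' ≠ η₀ * ζ' ^ (p - 1) := by
    intro h
    have h' : ζ' ^ 1 = ζ' ^ (p - 1) := by rw [pow_one]; exact mul_left_cancel₀ hη₀0 h
    have := hζ'.pow_inj (by omega) (by omega) h'
    omega
  -- Step 6: each factor is a unit times a `p`-th power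
  set A' : 𝓞 K → 𝓞 K := fun η => if η = η₀ then C else A η with hA'
  have hA'η₀ : A' η₀ = C := by simp [hA']
  have hA'ne : ∀ η, η ≠ η₀ → A' η = A η := fun η h => by simp [hA', h]
  have hprodA' : ∏ η ∈ Φ, A' η = ε * z ^ p := by
    rw [← Finset.mul_prod_erase Φ A' hη₀, hA'η₀, ← hCB, hB]
    congr 1
    exact Finset.prod_congr rfl (fun η hη => hA'ne η (Finset.ne_of_mem_erase hη))
  have hA'dvd : ∀ η, A' η ∣ A η := by
    intro η
    by_cases h : η = η₀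
    · rw [h, hA'η₀, hC]; exact dvd_mul_left _ _
    · rw [hA'ne η h]
  have hcop' : ∀ η₁ ∈ Φ, ∀ η₂ ∈ Φ, η₁ ≠ η₂ → IsCoprime (A' η₁) (A' η₂) :=
    fun η₁ h₁ η₂ h₂ hne =>
      IsCoprime.of_isCoprime_of_dvd_left
        (IsCoprime.of_isCoprime_of_dvd_right (hcop η₁ h₁ η₂ h₂ hne) (hA'dvd η₂)) (hA'dvd η₁)
  have hpow : ∀ η ∈ Φ, ∃ d : 𝓞 K, Associated (d ^ p) (A' η) := by
    intro η hη
    have hc : IsCoprime (A' η) (∏ η' ∈ Φ.erase η, A' η') :=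
      IsCoprime.prod_right (fun η' hη' =>
        hcop' η hη η' (Finset.mem_of_mem_erase hη') (Finset.ne_of_mem_erase hη').symm)
    refine exists_associated_pow_of_associated_pow_mul hc (c := z) ?_
    rw [Finset.mul_prod_erase Φ A' hη, hprodA']
    exact ⟨ε, by ring⟩
  obtain ⟨ρ₀, u₀, hρ₀⟩ := hpow η₀ hη₀
  obtain ⟨ρ₁, u₁, hρ₁⟩ := hpow _ hη₁Φ
  obtain ⟨ρ₂, u₂, hρ₂⟩ := hpow _ hη₂Φ
  rw [hA'η₀] at hρ₀
  rw [hA'ne _ hη₁0] at hρ₁
  rw [hA'ne _ hη₂0] at hρ₂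
  -- Step 7: the linear relation between the three special factors
  have hrel : A (η₀ * ζ') + ζ' * A (η₀ * ζ' ^ (p - 1)) = (1 + ζ') * (π ^ ((m - 1) * p) * C) := by
    apply mul_left_cancel₀ hπ0
    have e0 := hA η₀ hη₀
    have e1 := hA _ hη₁Φ
    have e2 := hA _ hη₂Φ
    have hζinv : ζ' * ζ' ^ (p - 1) = 1 := by
      rw [← pow_succ', Nat.sub_add_cancel hpp.one_le, hζ'p]
    calc π * (A (η₀ * ζ') + ζ' * A (η₀ * ζ' ^ (p - 1)))
        = π * A (η₀ * ζ') + ζ' * (π * A (η₀ * ζ' ^ (p - 1))) := by ring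
      _ = (x + η₀ * ζ' * y) + ζ' * (x + η₀ * ζ' ^ (p - 1) * y) := by rw [← e1, ← e2]
      _ = (1 + ζ') * (x + η₀ * y) + η₀ * y * (ζ' * ζ' ^ (p - 1) - 1) := by ring
      _ = (1 + ζ') * (π * A η₀) := by rw [hζinv, sub_self, mul_zero, add_zero, e0]
      _ = π * ((1 + ζ') * (π ^ ((m - 1) * p) * C)) := by rw [hC]; ring
  have h1ζ : IsUnit (1 + ζ') := by
    have h2 := hζ'.geom_sum_isUnit hpp.two_le (j := 2)
      ((Nat.coprime_primes Nat.prime_two hpp).2 (Ne.symm hodd))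
    simpa [Finset.sum_range_succ] using h2
  obtain ⟨w, hw⟩ := h1ζ
  obtain ⟨ζu, hζu⟩ := hζ'.isUnit hpp.ne_zero
  -- Step 8: the new equation
  have hη'u : ((ζu * u₂ * u₁⁻¹ : (𝓞 K)ˣ) : 𝓞 K) * u₁ = ζ' * u₂ := by
    rw [← hζu, ← Units.val_mul, ← Units.val_mul]
    congr 1
    group
  have hε'u : ((w * u₀ * u₁⁻¹ : (𝓞 K)ˣ) : 𝓞 K) * u₁ = (1 + ζ') * u₀ := by
    rw [← hw, ← Units.val_mul, ← Units.val_mul]
    congr 1
    group
  set η' : (𝓞 K)ˣ := ζu * u₂ * u₁⁻¹ with hη'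
  set ε' : (𝓞 K)ˣ := w * u₀ * u₁⁻¹ with hε'
  have hnew : ρ₁ ^ p + η' * ρ₂ ^ p = ε' * (π ^ (m - 1) * ρ₀) ^ p := by
    apply mul_right_cancel₀ u₁.ne_zero
    have hrel' := hrel
    rw [← hρ₁, ← hρ₂, ← hρ₀] at hrel'
    calc (ρ₁ ^ p + η' * ρ₂ ^ p) * u₁ = ρ₁ ^ p * u₁ + (η' * u₁) * ρ₂ ^ p := by ring
      _ = ρ₁ ^ p * u₁ + ζ' * (ρ₂ ^ p * u₂) := by rw [hη'u]; ring
      _ = (1 + ζ') * (π ^ ((m - 1) * p) * (ρ₀ ^ p * u₀)) := hrel'
      _ = ((1 + ζ') * u₀) * (π ^ (m - 1) * ρ₀) ^ p := by ring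
      _ = ε' * (π ^ (m - 1) * ρ₀) ^ p * u₁ := by rw [← hε'u]; ring
  -- Step 9: Kummer's lemma applies to `η'`
  have hpdvd : (p : 𝓞 K) ∣ π ^ ((m - 1) * p) := by
    have h1 : π ^ (p - 1) ∣ π ^ ((m - 1) * p) := by
      apply pow_dvd_pow
      have : p ≤ (m - 1) * p := Nat.le_mul_of_pos_left p (by omega)
      omega
    exact hassocp.symm.dvd.trans h1
  have hp1 : (p : 𝓞 K) ∣ ρ₁ ^ p + η' * ρ₂ ^ p := by
    rw [hnew, mul_pow, ← pow_mul]
    exact Dvd.dvd.mul_left (Dvd.dvd.mul_right hpdvd _) _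
  obtain ⟨n₁, hn₁⟩ := hpow_int ρ₁
  obtain ⟨n₂, hn₂⟩ := hpow_int ρ₂
  have hρ₂ndvd : ¬ π ∣ ρ₂ := by
    intro h
    apply hndvd _ hη₂Φ hη₂0
    rw [← hρ₂]
    exact Dvd.dvd.mul_right (dvd_pow h hpp.ne_zero) _
  have hn₂ndvd : ¬ (p : ℤ) ∣ n₂ := by
    intro h
    have h1 : π ∣ (n₂ : 𝓞 K) := (hintiff n₂).2 h
    have h2 : π ∣ ρ₂ ^ p - n₂ := dvd_trans hdvdp hn₂
    have h3 : π ∣ ρ₂ ^ p := by simpa using dvd_add h2 h1
    exact hρ₂ndvd (hπ.dvd_of_dvd_pow h3)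
  obtain ⟨n₂', hn₂'⟩ : ∃ n₂' : ℤ, (p : ℤ) ∣ n₂ * n₂' - 1 := by
    have hcop2 : IsCoprime (p : ℤ) n₂ :=
      (Nat.prime_iff_prime_int.1 hpp).irreducible.coprime_iff_not_dvd.2 hn₂ndvd
    obtain ⟨a, b, hab⟩ := hcop2
    exact ⟨b, ⟨-a, by linarith⟩⟩
  have hkum : (p : 𝓞 K) ∣ (η' : 𝓞 K) - ((-n₁ * n₂' : ℤ) : 𝓞 K) := by
    have hcast : (p : 𝓞 K) ∣ ((n₂ * n₂' - 1 : ℤ) : 𝓞 K) := by
      obtain ⟨c, hc⟩ := hn₂'
      rw [hc]
      push_cast
      exact dvd_mul_right _ _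
    have e : (η' : 𝓞 K) - ((-n₁ * n₂' : ℤ) : 𝓞 K) =
        -(η' : 𝓞 K) * ((n₂ * n₂' - 1 : ℤ) : 𝓞 K) +
          n₂' * ((ρ₁ ^ p + η' * ρ₂ ^ p) - (ρ₁ ^ p - n₁) - η' * (ρ₂ ^ p - n₂)) := by
      push_cast
      ring
    rw [e]
    exact dvd_add (Dvd.dvd.mul_left hcast _)
      (Dvd.dvd.mul_left (dvd_sub (dvd_sub hp1 hn₁) (Dvd.dvd.mul_left hn₂ _)) _)
  obtain ⟨v, hv⟩ := hK η' _ hkum
  -- Step 10: the new solution
  refine ⟨hm2, ρ₁, v * ρ₂, ρ₀, ε', ?_, ?_, ?_, ?_⟩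
  · have h12 := hcop _ hη₁Φ _ hη₂Φ hη₁₂
    rw [← hρ₁, ← hρ₂] at h12
    have h3 : IsCoprime (ρ₁ ^ p) (ρ₂ ^ p) := (h12.of_mul_left_left).of_mul_right_left
    have h4 := (IsCoprime.pow_iff hpp.pos hpp.pos).1 h3
    exact (isCoprime_mul_unit_left_right v.isUnit _ _).2 h4
  · intro h
    exact hρ₂ndvd (hunit v ρ₂ h)
  · intro h
    apply hCndvd
    rw [← hρ₀]
    exact Dvd.dvd.mul_right (dvd_pow h hpp.ne_zero) _
  · rw [mul_pow, ← Units.val_pow_eq_pow_val, ← hv]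
    exact hnew

include hζ in
/-- There is no solution of the generalized Case II equation at any level `m ≥ 1`. -/
theorem not_hasSol [IsPrincipalIdealRing (𝓞 K)] (hodd : p ≠ 2)
    (hK : ∀ u : (𝓞 K)ˣ, ∀ n : ℤ, (p : 𝓞 K) ∣ (u : 𝓞 K) - n → ∃ v : (𝓞 K)ˣ, u = v ^ p) :
    ∀ m : ℕ, 1 ≤ m → ¬ HasSol hζ m := by
  intro m
  induction m with
  | zero => intro h; omega
  | succ k ih =>
    intro _ hsol
    obtain ⟨h2, hsol'⟩ := descent hζ hodd hK (by omega) hsol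
    exact ih (by omega) (by simpa using hsol')

end

section

variable {p : ℕ} [hp : Fact p.Prime] {K : Type*} [Field K] [NumberField K]
  [IsCyclotomicExtension {p} ℚ K]

/-- Case II with `p ∣ c`. -/
theorem caseII_aux [IsPrincipalIdealRing (𝓞 K)] (hodd : p ≠ 2)
    (hK : ∀ u : (𝓞 K)ˣ, ∀ n : ℤ, (p : 𝓞 K) ∣ (u : 𝓞 K) - n → ∃ v : (𝓞 K)ˣ, u = v ^ p)
    (a b c : ℤ) (hab : IsCoprime a b) (hc : c ≠ 0) (hpc : (p : ℤ) ∣ c)
    (h : a ^ p + b ^ p = c ^ p) : False := by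
  have hpp := hp.out
  have hpi : Prime (p : ℤ) := Nat.prime_iff_prime_int.1 hpp
  have hζ := IsCyclotomicExtension.zeta_spec p ℚ K
  have hfin : FiniteMultiplicity (p : ℤ) c := by
    rw [Int.finiteMultiplicity_iff]
    refine ⟨?_, hc⟩
    rw [Int.natAbs_natCast]
    exact hpp.one_lt.ne'
  obtain ⟨c₀, hc₀, hc₀ndvd⟩ := hfin.exists_eq_pow_mul_and_not_dvd
  set k := multiplicity (p : ℤ) c with hk
  have hk1 : 1 ≤ k := by
    by_contra hlt
    have hk0 : k = 0 := by omega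
    rw [hk0, pow_zero, one_mul] at hc₀
    exact hc₀ndvd (hc₀ ▸ hpc)
  have hpb : ¬ (p : ℤ) ∣ b := by
    intro hb
    have hpa : (p : ℤ) ∣ a ^ p := by
      have e : a ^ p = c ^ p - b ^ p := by linarith
      rw [e]
      exact dvd_sub (dvd_pow hpc hpp.ne_zero) (dvd_pow hb hpp.ne_zero)
    exact hpi.not_isUnit (hab.isUnit_of_dvd' (hpi.dvd_of_dvd_pow hpa) hb)
  obtain ⟨u, hu⟩ := IsCyclotomicExtension.Rat.associated_zeta_sub_one_pow_prime p hζ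
  have hpos : 1 ≤ (p - 1) * k := Nat.mul_pos (by have := hpp.two_le; omega) hk1
  apply not_hasSol hζ hodd hK ((p - 1) * k) hpos
  refine ⟨(a : 𝓞 K), (b : 𝓞 K), (c₀ : 𝓞 K), u ^ (k * p), hab.intCast, ?_, ?_, ?_⟩
  · rwa [IsCyclotomicExtension.Rat.zeta_sub_one_dvd_intCast_iff' p hζ]
  · rwa [IsCyclotomicExtension.Rat.zeta_sub_one_dvd_intCast_iff' p hζ]
  · have e : ((a ^ p + b ^ p : ℤ) : 𝓞 K) = ((c ^ p : ℤ) : 𝓞 K) := by rw [h]
    rw [hc₀] at e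
    push_cast at e
    rw [e, ← hu]
    push_cast
    ring

/-- **Case II of Fermat's Last Theorem** for an odd prime `p`, assuming that the ring of integers
of the `p`-th cyclotomic field `K` is a PID and that Kummer's lemma holds for `K`:
if `a, b, c` are nonzero integers with `a, b` coprime and `p ∣ a * b * c`,
then `a ^ p + b ^ p ≠ c ^ p`. -/
theorem caseII [IsPrincipalIdealRing (𝓞 K)] (hodd : p ≠ 2)
    (hK : ∀ u : (𝓞 K)ˣ, ∀ n : ℤ, (p : 𝓞 K) ∣ (u : 𝓞 K) - n → ∃ v : (𝓞 K)ˣ, u = v ^ p)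
    (a b c : ℤ) (hab : IsCoprime a b) (habc : a * b * c ≠ 0)
    (hdvd : (p : ℤ) ∣ a * b * c) : a ^ p + b ^ p ≠ c ^ p := by
  intro h
  have hpp := hp.out
  have hpi : Prime (p : ℤ) := Nat.prime_iff_prime_int.1 hpp
  have hoddp : Odd p := hpp.odd_of_ne_two hodd
  have ha : a ≠ 0 := fun h0 => habc (by rw [h0]; ring)
  have hb : b ≠ 0 := fun h0 => habc (by rw [h0]; ring)
  have hc : c ≠ 0 := fun h0 => habc (by rw [h0]; ring)
  have hcb : IsCoprime c b := by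
    have h1 : IsCoprime (a ^ p + b ^ p * 1) (b ^ p) := (hab.pow (m := p) (n := p)).add_mul_left_left 1
    rw [mul_one, h] at h1
    exact (IsCoprime.pow_iff hpp.pos hpp.pos).1 h1
  have hca : IsCoprime c a := by
    have h1 : IsCoprime (b ^ p + a ^ p * 1) (a ^ p) :=
      (hab.symm.pow (m := p) (n := p)).add_mul_left_left 1
    rw [mul_one, add_comm, h] at h1
    exact (IsCoprime.pow_iff hpp.pos hpp.pos).1 h1
  rcases hpi.dvd_or_dvd hdvd with hab' | hc'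
  · rcases hpi.dvd_or_dvd hab' with ha' | hb'
    · exact caseII_aux (K := K) hodd hK c (-b) a hcb.neg_right ha ha'
        (by rw [hoddp.neg_pow]; linarith)
    · exact caseII_aux (K := K) hodd hK c (-a) b hca.neg_right hb hb'
        (by rw [hoddp.neg_pow]; linarith)
  · exact caseII_aux (K := K) hodd hK a b c hab hc hc' h

end

end Fermat.Agent.Lib.helper11
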