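import Mathlib
import Fermat.Agent.S24.helper1644_AnalyticJ
import Fermat.Prelude.Def_ModularCurve_JqCoeff

/-!
# Bridge between Mathlib `q`-expansions and the formal series of the Prelude

* `qExpansion_E4_eq : qExpansion 1 E₄ = eisenstein4.map (Int.castRingHom ℂ)`
* `qExpansion_disc_eq : qExpansion 1 Δ = X * (etaProd.map (Int.castRingHom ℂ)) ^ 24`
* `jqModC_mul_disc : jqModC ℂ * qexp Δ = (qexp E₄) ^ 3` in `LaurentSeries ℂ`.
-/

set_option autoImplicit false

open UpperHalfPlane ModularForm EisensteinSeries ModularCurve Fermat.Agent.S24.helper1644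
open scoped Topology

namespace Fermat.Agent.Lib.helper1219

local notation "Δ" => ModularForm.discriminant
local notation "ι" => HahnSeries.ofPowerSeries ℤ ℂ

theorem qExpansion_E4_eq : qExpansion 1 ⇑E₄ = eisenstein4.map (Int.castRingHom ℂ) :=
  taylorPS_e4Fun

theorem qExpansion_disc_eq :
    qExpansion 1 Δ = PowerSeries.X * (etaProd.map (Int.castRingHom ℂ)) ^ 24 := by
  have h1 : cuspFunction 1 Δ =ᶠ[𝓝 0] (fun q : ℂ => q) * eulerFun ^ 24 := by
    filter_upwards [ball_mem_nhds_zero] with q hq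
    rw [discriminant_cuspFunction_eqOn hq]
    simp only [Pi.mul_apply, Pi.pow_apply, eulerFun]
    congr 1
    exact (ModularForm.multipliable_one_sub_pow (by simpa using hq)).tprod_pow 24
  have h2 : qExpansion 1 Δ = taylorPS (cuspFunction 1 Δ) := rfl
  have hid : taylorPS (fun q : ℂ => q) = PowerSeries.X := by
    have := taylorPS_polynomial Polynomial.X
    simpa using this
  have hP := differentiableOn_eulerFun.analyticAt ball_mem_nhds_zero
  rw [h2, taylorPS_congr h1, taylorPS_mul (f := fun q : ℂ => q) analyticAt_id (hP.pow 24), taylorPS_pow hP,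
    taylorPS_eulerFun, hid]

/-- The `q`-expansion of `j`: `jqModC ℂ * qexp Δ = (qexp E₄) ^ 3`. -/
theorem jqModC_mul_disc :
    jqModC ℂ * ι (qExpansion 1 Δ) = ι (qExpansion 1 ⇑E₄) ^ 3 := by
  rw [qExpansion_E4_eq, qExpansion_disc_eq, jqModC, map_mul, HahnSeries.ofPowerSeries_X,
    ← map_pow, ← map_pow]
  have h3 := congrArg (PowerSeries.map (Int.castRingHom ℂ)) formal_jNum_mul
  rw [map_mul, map_pow, map_pow] at h3
  rw [← h3, map_mul]
  have hs : (HahnSeries.single (-1 : ℤ) (1 : ℂ)) * HahnSeries.single (1 : ℤ) (1 : ℂ) = 1 := by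
    rw [HahnSeries.single_mul_single]
    simp
  rw [mul_mul_mul_comm, hs, one_mul, map_pow]

end Fermat.Agent.Lib.helper1219
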