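import Mathlib
import Fermat.Prelude.Thm_CongruenceSubgroup_one_mem_strictPeriods_Gamma0

/-!
# Level raising `f(τ) ↦ f(d τ)` from level one to `Γ₀(N)`, `d ∣ N`

For a level one modular form `f` of weight `k` and `d ∣ N` we construct the modular form
`levelRaise N d hd f` of weight `k` on `Γ₀(N)` with `levelRaise N d hd f τ = f (d τ)`, and compute
its `q`-expansion: the coefficient of `q ^ m` is the coefficient of `q ^ (m / d)` of `f` if
`d ∣ m` and `0` otherwise.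
-/

set_option autoImplicit false

open UpperHalfPlane ModularForm Filter Topology
open scoped MatrixGroups Manifold

namespace Fermat.Agent.Lib.helper1219

/-- The image of `Γ₀(N)` in `GL(2, ℝ)` (the level group of the frozen statements). -/
abbrev G0 (N : ℕ) : Subgroup (GL (Fin 2) ℝ) :=
  Subgroup.map (Matrix.SpecialLinearGroup.mapGL ℝ) (CongruenceSubgroup.Gamma0 N)

/-- `diag(d, 1)` in `GL(2, ℝ)`. -/
noncomputable def diagMat (d : ℕ) [NeZero d] : GL (Fin 2) ℝ :=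
  Matrix.GeneralLinearGroup.mkOfDetNeZero !![(d : ℝ), 0; 0, 1]
    (by simpa [Matrix.det_fin_two] using NeZero.ne d)

@[simp] lemma diagMat_val (d : ℕ) [NeZero d] : (diagMat d).val = !![(d : ℝ), 0; 0, 1] := rfl

lemma diagMat_det (d : ℕ) [NeZero d] : (diagMat d).det.val = d := by
  simp [Matrix.GeneralLinearGroup.val_det_apply, Matrix.det_fin_two]

lemma diagMat_det_pos (d : ℕ) [NeZero d] : 0 < (diagMat d).det.val := by
  rw [diagMat_det]
  exact_mod_cast Nat.pos_of_ne_zero (NeZero.ne d)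

lemma diagMat_denom (d : ℕ) [NeZero d] (z : ℂ) : denom (diagMat d) z = 1 := by
  simp [denom]

lemma coe_diagMat_smul (d : ℕ) [NeZero d] (τ : ℍ) : ((diagMat d • τ : ℍ) : ℂ) = d * τ := by
  rw [coe_smul_of_det_pos (diagMat_det_pos d)]
  simp [num, denom]

lemma slash_diagMat (f : ℍ → ℂ) (k : ℤ) (d : ℕ) [NeZero d] (τ : ℍ) :
    (f ∣[k] diagMat d) τ = f (diagMat d • τ) * (d : ℂ) ^ (k - 1) := by
  rw [ModularForm.slash_apply, diagMat_det, diagMat_denom]
  have : σ (diagMat d) = ContinuousAlgEquiv.refl ℝ ℂ := by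
    simp only [σ, diagMat_det]
    rw [if_pos (by exact_mod_cast Nat.pos_of_ne_zero (NeZero.ne d))]
  rw [this]
  simp

lemma sl_det_expl (γ : SL(2, ℤ)) : γ 0 0 * γ 1 1 - γ 0 1 * γ 1 0 = 1 := by
  have := γ.det_coe
  rw [Matrix.det_fin_two] at this
  exact this

/-- For `γ ∈ Γ₀(N)` and `d ∣ N`, `diag(d,1) * γ = γ' * diag(d,1)` with `γ' ∈ SL(2, ℤ)`. -/
lemma diagMat_mul_Gamma0 (N d : ℕ) [NeZero d] (hd : d ∣ N) (γ : SL(2, ℤ))
    (hγ : γ ∈ CongruenceSubgroup.Gamma0 N) :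
    ∃ γ' : SL(2, ℤ), diagMat d * (Matrix.SpecialLinearGroup.mapGL ℝ γ)
        = (Matrix.SpecialLinearGroup.mapGL ℝ γ') * diagMat d := by
  rw [CongruenceSubgroup.Gamma0_mem, ZMod.intCast_zmod_eq_zero_iff_dvd] at hγ
  have hdc : (d : ℤ) ∣ γ 1 0 := (Int.natCast_dvd_natCast.mpr hd).trans hγ
  obtain ⟨c₀, hc₀⟩ := hdc
  have hdet := sl_det_expl γ
  obtain ⟨γ', h00, h01, h10, h11⟩ : ∃ γ' : SL(2, ℤ), γ' 0 0 = γ 0 0 ∧ γ' 0 1 = d * γ 0 1 ∧
      γ' 1 0 = c₀ ∧ γ' 1 1 = γ 1 1 :=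
    ⟨⟨!![γ 0 0, d * γ 0 1; c₀, γ 1 1], by rw [Matrix.det_fin_two_of]; rw [hc₀] at hdet; linarith⟩,
      rfl, rfl, rfl, rfl⟩
  refine ⟨γ', ?_⟩
  have hcR : ((γ 1 0 : ℤ) : ℝ) = d * c₀ := by exact_mod_cast hc₀
  apply Units.ext
  ext i j
  fin_cases i <;> fin_cases j <;>
    simp [Matrix.mul_apply, Fin.sum_univ_two, Matrix.SpecialLinearGroup.mapGL_coe_matrix,
      h00, h01, h10, h11]
  · ring
  · rw [hcR]; ring

open ConjAct Pointwise in
lemma G0_le_conj (N d : ℕ) [NeZero d] (hd : d ∣ N) :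
    G0 N ≤ toConjAct (diagMat d)⁻¹ • 𝒮ℒ := by
  rintro g ⟨γ, hγ, rfl⟩
  obtain ⟨γ', h⟩ := diagMat_mul_Gamma0 N d hd γ hγ
  rw [map_inv, Subgroup.mem_inv_pointwise_smul_iff, toConjAct_smul]
  have : diagMat d * (Matrix.SpecialLinearGroup.mapGL ℝ γ) * (diagMat d)⁻¹
      = Matrix.SpecialLinearGroup.mapGL ℝ γ' := by
    rw [h, mul_inv_cancel_right]
  rw [this]
  exact ⟨γ', rfl⟩

/-- `τ ↦ d ^ (k - 1) f (d τ)` as a modular form on `Γ₀(N)`, for `d ∣ N`. -/
noncomputable def levelRaise₀ (N d : ℕ) [NeZero d] (hd : d ∣ N) {k : ℤ} (f : ModularForm 𝒮ℒ k) :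
    ModularForm (G0 N) k where
  toFun := ⇑f ∣[k] diagMat d
  slash_action_eq' := fun γ hγ =>
    (ModularForm.translate f (diagMat d)).slash_action_eq' γ (G0_le_conj N d hd hγ)
  holo' := (ModularFormClass.holo f).slash k (diagMat d)
  bdd_at_cusps' := fun hc =>
    (ModularForm.translate f (diagMat d)).bdd_at_cusps' (hc.mono (G0_le_conj N d hd))

/-- `τ ↦ f (d τ)` as a modular form on `Γ₀(N)`, for `d ∣ N`. -/
noncomputable def levelRaise (N d : ℕ) [NeZero d] (hd : d ∣ N) {k : ℤ} (f : ModularForm 𝒮ℒ k) :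
    ModularForm (G0 N) k :=
  ((d : ℂ) ^ (k - 1))⁻¹ • levelRaise₀ N d hd f

lemma levelRaise_apply (N d : ℕ) [NeZero d] (hd : d ∣ N) {k : ℤ} (f : ModularForm 𝒮ℒ k)
    (τ : ℍ) : levelRaise N d hd f τ = f (diagMat d • τ) := by
  have hd0 : (d : ℂ) ^ (k - 1) ≠ 0 := zpow_ne_zero _ (by exact_mod_cast NeZero.ne d)
  show ((d : ℂ) ^ (k - 1))⁻¹ * (⇑f ∣[k] diagMat d) τ = _
  rw [slash_diagMat]
  field_simp

lemma qParam_diagMat_smul (d : ℕ) [NeZero d] (τ : ℍ) :
    Function.Periodic.qParam 1 ((diagMat d • τ : ℍ) : ℂ)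
      = Function.Periodic.qParam 1 (τ : ℂ) ^ d := by
  rw [coe_diagMat_smul, Function.Periodic.qParam, Function.Periodic.qParam, ← Complex.exp_nat_mul]
  congr 1
  push_cast
  ring

/-- The `q`-expansion of `f (d τ)`. -/
theorem qExpansion_levelRaise_coeff (N d : ℕ) [NeZero d] (hd : d ∣ N) {k : ℤ}
    (f : ModularForm 𝒮ℒ k) (m : ℕ) :
    (qExpansion 1 (levelRaise N d hd f)).coeff m
      = if d ∣ m then (qExpansion 1 f).coeff (m / d) else 0 := by
  have hd0 : 0 < d := Nat.pos_of_ne_zero (NeZero.ne d)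
  set c : ℕ → ℂ := fun m => if d ∣ m then (qExpansion 1 f).coeff (m / d) else 0 with hc
  have key : ∀ τ : ℍ, HasSum (fun m : ℕ => c m • Function.Periodic.qParam 1 (τ : ℂ) ^ m)
      (levelRaise N d hd f τ) := by
    intro τ
    have h0 := ModularForm.hasSum_qExpansion (f := f) one_pos one_mem_strictPeriods_SL
      (diagMat d • τ)
    rw [qParam_diagMat_smul] at h0
    rw [levelRaise_apply]
    have hinj : Function.Injective (fun n : ℕ => d * n) := fun a b h =>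
      Nat.eq_of_mul_eq_mul_left hd0 h
    rw [← hinj.hasSum_iff]
    · have hfun : ((fun m : ℕ => c m • Function.Periodic.qParam 1 (τ : ℂ) ^ m) ∘
          fun n : ℕ => d * n) = fun n : ℕ =>
            (qExpansion 1 f).coeff n * (Function.Periodic.qParam 1 (τ : ℂ) ^ d) ^ n := by
        funext n
        simp only [Function.comp_apply, hc, dvd_mul_right, if_true,
          Nat.mul_div_cancel_left n hd0, smul_eq_mul, pow_mul]
      rw [hfun]
      exact h0
    · intro x hx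
      have hnd : ¬ d ∣ x := fun ⟨y, hy⟩ => hx ⟨y, hy.symm⟩
      simp [hc, hnd]
  exact (ModularFormClass.qExpansion_coeff_unique one_pos
    (CongruenceSubgroup.one_mem_strictPeriods_Gamma0 N) key m).symm

end Fermat.Agent.Lib.helper1219
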