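import Mathlib

/-!
# The ring of period-one holomorphic functions on `ℍ` bounded at `i∞`, and its `q`-expansion map

`niceSub` is the `ℂ`-subalgebra of `ℍ → ℂ` of functions `f` that are holomorphic, satisfy
`f (τ + 1) = f τ` and are bounded at `i∞`.  The `q`-expansion `qExpansion 1` is an injective
`ℂ`-algebra homomorphism `niceSub →ₐ[ℂ] PowerSeries ℂ` (`qexpHom`, `qexpHom_injective`).
Every modular form for a group having `1` as a strict period lies in `niceSub`.
-/

set_option autoImplicit false

open UpperHalfPlane ModularForm Filter Topology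
open scoped MatrixGroups Manifold

namespace Fermat.Agent.Lib.helper1219

/-- Holomorphic, `1`-periodic and bounded at `i∞`. -/
structure IsNice (f : ℍ → ℂ) : Prop where
  per : Function.Periodic (f ∘ ofComplex) (1 : ℝ)
  hol : MDiff f
  bdd : IsBoundedAtImInfty f

namespace IsNice

lemma analyticAt {f : ℍ → ℂ} (hf : IsNice f) : AnalyticAt ℂ (cuspFunction 1 f) 0 :=
  UpperHalfPlane.analyticAt_cuspFunction_zero one_pos hf.per hf.hol hf.bdd

lemma const (c : ℂ) : IsNice (fun _ : ℍ => c) where
  per := fun _ => rfl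
  hol := mdifferentiable_const
  bdd := Filter.const_boundedAtFilter _ c

lemma add {f g : ℍ → ℂ} (hf : IsNice f) (hg : IsNice g) : IsNice (f + g) where
  per := fun x => by
    have h1 := hf.per x
    have h2 := hg.per x
    simp only [Function.comp_apply, Pi.add_apply] at h1 h2 ⊢
    rw [h1, h2]
  hol := hf.hol.add hg.hol
  bdd := hf.bdd.add hg.bdd

lemma mul {f g : ℍ → ℂ} (hf : IsNice f) (hg : IsNice g) : IsNice (f * g) where
  per := fun x => by
    have h1 := hf.per x
    have h2 := hg.per x
    simp only [Function.comp_apply, Pi.mul_apply] at h1 h2 ⊢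
    rw [h1, h2]
  hol := hf.hol.mul hg.hol
  bdd := hf.bdd.mul hg.bdd

end IsNice

/-- The subalgebra of holomorphic, `1`-periodic functions on `ℍ` bounded at `i∞`. -/
def niceSub : Subalgebra ℂ (ℍ → ℂ) where
  carrier := {f | IsNice f}
  mul_mem' hf hg := IsNice.mul hf hg
  add_mem' hf hg := IsNice.add hf hg
  algebraMap_mem' c := IsNice.const c

lemma mem_niceSub {f : ℍ → ℂ} : f ∈ niceSub ↔ IsNice f := Iff.rfl

lemma qExpansion_const (c : ℂ) : qExpansion 1 (fun _ : ℍ => c) = PowerSeries.C c := by
  have h : (fun _ : ℍ => c) = c • (1 : ℍ → ℂ) := by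
    funext τ; simp
  have h1 : AnalyticAt ℂ (cuspFunction 1 (1 : ℍ → ℂ)) 0 := (IsNice.const 1).analyticAt
  rw [h, UpperHalfPlane.qExpansion_smul h1, UpperHalfPlane.qExpansion_one]
  ext n
  simp [PowerSeries.coeff_C, PowerSeries.coeff_one]

/-- The `q`-expansion as an algebra homomorphism on `niceSub`. -/
noncomputable def qexpHom : niceSub →ₐ[ℂ] PowerSeries ℂ where
  toFun f := qExpansion 1 (f : ℍ → ℂ)
  map_one' := UpperHalfPlane.qExpansion_one 1
  map_mul' f g := UpperHalfPlane.qExpansion_mul (mem_niceSub.mp f.2).analyticAt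
    (mem_niceSub.mp g.2).analyticAt
  map_zero' := UpperHalfPlane.qExpansion_zero 1
  map_add' f g := UpperHalfPlane.qExpansion_add (mem_niceSub.mp f.2).analyticAt
    (mem_niceSub.mp g.2).analyticAt
  commutes' c := by
    show qExpansion 1 (fun _ : ℍ => c) = algebraMap ℂ (PowerSeries ℂ) c
    rw [qExpansion_const]
    rfl

@[simp] lemma qexpHom_apply (f : niceSub) : qexpHom f = qExpansion 1 (f : ℍ → ℂ) := rfl

lemma qexpHom_injective : Function.Injective qexpHom := by
  rw [injective_iff_map_eq_zero]
  intro f hf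
  have hn := mem_niceSub.mp f.2
  have := (UpperHalfPlane.qExpansion_eq_zero_iff one_pos hn.per hn.hol hn.bdd).mp hf
  exact Subtype.ext this

/-- Modular forms for a group with strict period `1` are nice. -/
lemma isNice_of_modularForm {Γ : Subgroup (GL (Fin 2) ℝ)} {k : ℤ} {F : Type*} [FunLike F ℍ ℂ]
    [ModularFormClass F Γ k] (h1 : (1 : ℝ) ∈ Γ.strictPeriods) (f : F) : IsNice (f : ℍ → ℂ) := by
  have : Fact (IsCusp OnePoint.infty Γ) := ⟨Γ.isCusp_of_mem_strictPeriods one_pos h1⟩
  exact ⟨SlashInvariantFormClass.periodic_comp_ofComplex f h1, ModularFormClass.holo f,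
    ModularFormClass.bdd_at_infty f⟩

end Fermat.Agent.Lib.helper1219
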