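import Mathlib
import Fermat.Agent.Lib.helper1219_NiceRing

/-!
# Algebraic relations over `ℂ[J]` from the norm of modular forms

Let `𝒢` be a finite index subgroup (inside `𝒮ℒ`), `n = [𝒮ℒ : 𝒢]`, and let `G`, `E` be modular
forms of weight `12 M` for `𝒢`, `E ≠ 0`.  For every constant `c`, Mathlib's
`ModularForm.norm 𝒮ℒ (G - c • E)` is a level one form of weight `12 M n`, hence of the form
`Δ ^ (M n) * R_c(J)` with `R_c` a polynomial of degree `≤ M n` in `J = E₄ ^ 3 / Δ`.  Pointwise the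
norm is a polynomial of degree `≤ n` in `c` which vanishes at `c = G / E`.  Lagrange interpolation
at the nodes `0, 1, …, n` therefore produces a NONZERO polynomial `P ∈ ℂ[Y][X]` of `X`-degree `≤ n`
with `∑ j, P_j(J) * G ^ j * E ^ (n - j) = 0` (`exists_relation`), and by the `q`-expansion algebra
homomorphism the same identity for the `q`-expansions (`exists_relation_qExpansion`).

No Hermite normal forms, no expansions at other cusps, no explicit coset representatives.
-/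

set_option autoImplicit false

open UpperHalfPlane ModularForm SlashInvariantForm Polynomial EisensteinSeries
open scoped MatrixGroups Manifold

namespace Fermat.Agent.Lib.helper1219

local notation "Δ" => ModularForm.discriminant

/-! ### Level one forms of weight `12 n` are `Δ ^ n` times a polynomial in `J` -/

/-- The constant `q`-coefficient of `E₄ ^ n` (cast to any weight) is `1`. -/
theorem E4pow_coeff_zero (n : ℕ) {k : ℤ} (h : (n : ℤ) * 4 = k) :
    (PowerSeries.coeff 0)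
      (qExpansion 1 ⇑(ModularForm.mcast h (E₄.pow n) : ModularForm 𝒮ℒ k)) = 1 := by
  rw [coe_mcast, ModularForm.qExpansion_pow one_pos one_mem_strictPeriods_SL,
    PowerSeries.coeff_zero_eq_constantCoeff, map_pow,
    ← PowerSeries.coeff_zero_eq_constantCoeff, E_qExpansion_coeff_zero _ ⟨2, rfl⟩, one_pow]

/-- Every level one modular form of weight `12 n` is `Δ ^ n` times a polynomial of degree `≤ n`
in `J = E₄ ^ 3 / Δ`. -/
theorem levelOne_eq_pow_mul_poly (n : ℕ) : ∀ (k : ℤ), k = 12 * (n : ℤ) → ∀ G : ModularForm 𝒮ℒ k,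
    ∃ P : Polynomial ℂ, P.natDegree ≤ n ∧
      ∀ τ : ℍ, G τ = Δ τ ^ n * P.eval (E₄ τ ^ 3 / Δ τ) := by
  induction n with
  | zero =>
    intro k hk G
    have hk0 : k = 0 := by simpa using hk
    subst hk0
    obtain ⟨c, hc⟩ := ModularFormClass.levelOne_weight_zero_const G
    refine ⟨C c, by simp, fun τ => ?_⟩
    simp [hc]
  | succ n ih =>
    intro k hk G
    have hE : ((3 * (n + 1) : ℕ) : ℤ) * 4 = k := by rw [hk]; push_cast; ring
    set E : ModularForm 𝒮ℒ k := ModularForm.mcast hE (E₄.pow (3 * (n + 1))) with hEdef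
    have hE0 : (PowerSeries.coeff 0) (qExpansion 1 ⇑E) = 1 := E4pow_coeff_zero _ hE
    set c := (PowerSeries.coeff 0) (qExpansion 1 ⇑G) with hc
    have hcusp : (G - c • E).IsCuspForm := sub_smul_isCuspForm G E hE0
    have h0 := (isCuspForm_iff_coeffZero_eq_zero _).mp hcusp
    obtain ⟨Q, hQdeg, hQ⟩ := ih (k - 12) (by rw [hk]; push_cast; ring)
      (CuspForm.discriminantEquiv (toCuspForm (G - c • E) h0))
    refine ⟨C c * X ^ (n + 1) + Q, ?_, fun τ => ?_⟩
    · refine (natDegree_add_le _ _).trans (max_le ?_ (hQdeg.trans (Nat.le_succ n)))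
      exact (natDegree_C_mul_le _ _).trans (natDegree_X_pow_le _)
    · have h1 := hQ τ
      rw [CuspForm.discriminantEquiv_apply, toCuspForm_apply] at h1
      have hEτ : E τ = E₄ τ ^ (3 * (n + 1)) := by
        rw [hEdef, coe_mcast, ModularForm.coe_pow, Pi.pow_apply]
      have hΔ := discriminant_ne_zero τ
      have h2 : (G - c • E) τ = G τ - c * E τ := rfl
      rw [h2, hEτ, div_eq_iff hΔ] at h1
      simp only [eval_add, eval_mul, eval_C, eval_pow, eval_X]
      have h3 : G τ = c * E₄ τ ^ (3 * (n + 1)) + Δ τ ^ n * eval (E₄ τ ^ 3 / Δ τ) Q * Δ τ := by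
        linear_combination h1
      rw [h3, div_pow, pow_mul]
      field_simp
      ring

/-! ### A homogenisation identity for products of linear polynomials -/

/-- `∑ j, coeff_j (∏ (g_q - e_q X)) b ^ j a ^ (n - j) = ∏ (a g_q - b e_q)`, `n` = number of
factors. -/
theorem homog_prod {ι : Type*} (s : Finset ι) (g e : ι → ℂ) (a b : ℂ) :
    ∑ j ∈ Finset.range (s.card + 1),
        (∏ q ∈ s, (C (g q) - C (e q) * X)).coeff j * b ^ j * a ^ (s.card - j)
      = ∏ q ∈ s, (a * g q - b * e q) := by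
  classical
  set p : ℂ[X] := ∏ q ∈ s, (C (g q) - C (e q) * X) with hp
  have hdeg : p.natDegree ≤ s.card := by
    refine (natDegree_prod_le _ _).trans ?_
    calc ∑ q ∈ s, (C (g q) - C (e q) * X).natDegree ≤ ∑ _q ∈ s, 1 := by
          refine Finset.sum_le_sum fun q _ => ?_
          refine (natDegree_sub_le _ _).trans (max_le (by simp) ?_)
          exact (natDegree_C_mul_le _ _).trans natDegree_X_le
      _ = s.card := by simp
  by_cases ha : a = 0
  · subst ha
    rw [Finset.sum_range_succ, Finset.sum_eq_zero, zero_add]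
    · have hc : p.coeff s.card = ∏ q ∈ s, (-(e q)) := by
        have h := coeff_prod_of_natDegree_le s (fun q => C (g q) - C (e q) * X) 1 (fun q _ => by
          refine (natDegree_sub_le _ _).trans (max_le (by simp) ?_)
          exact (natDegree_C_mul_le _ _).trans natDegree_X_le)
        rw [mul_one] at h
        rw [hp, h]
        refine Finset.prod_congr rfl fun q _ => ?_
        simp [coeff_C]
      rw [hc, Nat.sub_self, pow_zero, mul_one, ← Finset.prod_const, ← Finset.prod_mul_distrib]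
      refine Finset.prod_congr rfl fun q _ => ?_
      ring
    · intro j hj
      have hj' : j < s.card := Finset.mem_range.mp hj
      rw [zero_pow (by omega), mul_zero]
  · have h1 : ∀ j ∈ Finset.range (s.card + 1),
        p.coeff j * b ^ j * a ^ (s.card - j) = a ^ s.card * (p.coeff j * (b / a) ^ j) := by
      intro j hj
      have hj' : j ≤ s.card := Nat.lt_succ_iff.mp (Finset.mem_range.mp hj)
      have : a ^ s.card = a ^ (s.card - j) * a ^ j := by
        rw [← pow_add, Nat.sub_add_cancel hj']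
      rw [this, div_pow]
      field_simp
    rw [Finset.sum_congr rfl h1, ← Finset.mul_sum,
      ← eval_eq_sum_range' (Nat.lt_succ_of_le hdeg) (b / a), hp, eval_prod,
      ← Finset.prod_const, ← Finset.prod_mul_distrib]
    refine Finset.prod_congr rfl fun q _ => ?_
    simp only [eval_sub, eval_mul, eval_C, eval_X]
    field_simp

/-! ### The relation -/

section Relation

variable {𝒢 : Subgroup (GL (Fin 2) ℝ)} [𝒢.IsFiniteRelIndex 𝒮ℒ] [𝒢.HasDetOne] {k : ℤ}

omit [𝒢.IsFiniteRelIndex 𝒮ℒ] in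
lemma sigma_SL (r : ↥𝒮ℒ) (c : ℂ) : σ ((r : GL (Fin 2) ℝ)⁻¹) c = c := by
  obtain ⟨r, ⟨γ, rfl⟩⟩ := r
  simp [σ]

omit [𝒢.IsFiniteRelIndex 𝒮ℒ] in
lemma quotientFunc_sub_smul (G E : ModularForm 𝒢 k) (c : ℂ)
    (q : ↥𝒮ℒ ⧸ 𝒢.subgroupOf 𝒮ℒ) (τ : ℍ) :
    quotientFunc (G - c • E) q τ = quotientFunc G q τ - c * quotientFunc E q τ := by
  induction q using Quotient.inductionOn with
  | h r =>
    simp only [quotientFunc_mk]
    have : (⇑(G - c • E) : ℍ → ℂ) = ⇑G + (-c) • ⇑E := by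
      ext τ; simp [sub_eq_add_neg]
    rw [this, SlashAction.add_slash, ModularForm.smul_slash]
    have h2 : σ ((r : GL (Fin 2) ℝ)⁻¹) (-c) = -c := sigma_SL r (-c)
    rw [h2]
    simp [sub_eq_add_neg]

omit [𝒢.IsFiniteRelIndex 𝒮ℒ] [𝒢.HasDetOne] in
lemma quotientFunc_one (G : ModularForm 𝒢 k) (τ : ℍ) :
    quotientFunc G (⟦1⟧ : ↥𝒮ℒ ⧸ 𝒢.subgroupOf 𝒮ℒ) τ = G τ := by
  simp [quotientFunc_mk]

/-- **The relation**, as an identity of functions on `ℍ`. -/
theorem exists_relation (M : ℕ) (hk : k = 12 * (M : ℤ)) (G E : ModularForm 𝒢 k) (hE : E ≠ 0) :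
    ∃ P : Polynomial (Polynomial ℂ), P ≠ 0 ∧
      P.natDegree ≤ Nat.card (↥𝒮ℒ ⧸ 𝒢.subgroupOf 𝒮ℒ) ∧
      (∀ j, (P.coeff j).natDegree ≤ M * Nat.card (↥𝒮ℒ ⧸ 𝒢.subgroupOf 𝒮ℒ)) ∧
      ∀ τ : ℍ, ∑ j ∈ Finset.range (Nat.card (↥𝒮ℒ ⧸ 𝒢.subgroupOf 𝒮ℒ) + 1),
        (P.coeff j).eval (E₄ τ ^ 3 / Δ τ) * G τ ^ j *
          E τ ^ (Nat.card (↥𝒮ℒ ⧸ 𝒢.subgroupOf 𝒮ℒ) - j) = 0 := by
  classical
  let _ : Fintype (↥𝒮ℒ ⧸ 𝒢.subgroupOf 𝒮ℒ) := Fintype.ofFinite _
  set n : ℕ := Nat.card (↥𝒮ℒ ⧸ 𝒢.subgroupOf 𝒮ℒ) with hn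
  have hcard : (Finset.univ : Finset (↥𝒮ℒ ⧸ 𝒢.subgroupOf 𝒮ℒ)).card = n := by
    rw [Finset.card_univ, hn, Nat.card_eq_fintype_card]
  have hnpos : 0 < n := Nat.card_pos
  -- nodes
  set s : Finset ℕ := Finset.range (n + 1) with hs
  set v : ℕ → ℂ := fun i => (i : ℂ) with hv
  have hvinj : Set.InjOn v (s : Set ℕ) := fun a _ b _ h => by
    simpa [hv] using h
  have hscard : s.card = n + 1 := by simp [hs]
  -- the norms
  let Nm : ℕ → ModularForm 𝒮ℒ (k * n) := fun i => ModularForm.norm 𝒮ℒ (G - (i : ℂ) • E)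
  have hkn : k * (n : ℤ) = 12 * ((M * n : ℕ) : ℤ) := by rw [hk]; push_cast; ring
  have hR : ∀ i, ∃ R : Polynomial ℂ, R.natDegree ≤ M * n ∧
      ∀ τ : ℍ, Nm i τ = Δ τ ^ (M * n) * R.eval (E₄ τ ^ 3 / Δ τ) :=
    fun i => levelOne_eq_pow_mul_poly (M * n) (k * n) hkn (Nm i)
  choose R hRdeg hRev using hR
  -- pointwise polynomial in `c`
  let p : ℍ → ℂ[X] := fun τ =>
    ∏ q : (↥𝒮ℒ ⧸ 𝒢.subgroupOf 𝒮ℒ), (C (quotientFunc G q τ) - C (quotientFunc E q τ) * X)
  have hpeval : ∀ (τ : ℍ) (i : ℕ), (p τ).eval (v i) = Nm i τ := by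
    intro τ i
    have h1 : (Nm i : ℍ → ℂ)
        = ∏ q : (↥𝒮ℒ ⧸ 𝒢.subgroupOf 𝒮ℒ), quotientFunc (G - (i : ℂ) • E) q := by
      show ⇑(ModularForm.norm 𝒮ℒ (G - (i : ℂ) • E)) = _
      rw [ModularForm.coe_norm]
    rw [h1, Finset.prod_apply]
    simp only [p, eval_prod, eval_sub, eval_mul, eval_C, eval_X, hv]
    refine Finset.prod_congr rfl fun q _ => ?_
    rw [quotientFunc_sub_smul]
    ring
  have hpdeg : ∀ τ, (p τ).degree < s.card := by
    intro τ
    have h1 : (p τ).natDegree ≤ n := by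
      refine (natDegree_prod_le _ _).trans ?_
      calc ∑ q : (↥𝒮ℒ ⧸ 𝒢.subgroupOf 𝒮ℒ),
              (C (quotientFunc G q τ) - C (quotientFunc E q τ) * X).natDegree
            ≤ ∑ _q : (↥𝒮ℒ ⧸ 𝒢.subgroupOf 𝒮ℒ), 1 := by
            refine Finset.sum_le_sum fun q _ => ?_
            refine (natDegree_sub_le _ _).trans (max_le (by simp) ?_)
            exact (natDegree_C_mul_le _ _).trans natDegree_X_le
        _ = n := by simp [hcard]
    rw [hscard]
    exact lt_of_le_of_lt degree_le_natDegree (by exact_mod_cast Nat.lt_succ_of_le h1)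
  have hpcoeff : ∀ (τ : ℍ) (j : ℕ),
      (p τ).coeff j = ∑ i ∈ s, Nm i τ * (Lagrange.basis s v i).coeff j := by
    intro τ j
    have h1 := Lagrange.eq_interpolate (s := s) (v := v) (f := p τ) hvinj (hpdeg τ)
    have h2 : (p τ).coeff j = ((Lagrange.interpolate s v) fun i => eval (v i) (p τ)).coeff j := by
      rw [← h1]
    rw [h2, Lagrange.interpolate_apply, finsetSum_coeff]
    refine Finset.sum_congr rfl fun i _ => ?_
    rw [coeff_C_mul, hpeval]
  -- the polynomial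
  let P : Polynomial (Polynomial ℂ) := ∑ i ∈ s, C (R i) * (Lagrange.basis s v i).map C
  have hPcoeff : ∀ j, P.coeff j = ∑ i ∈ s, R i * C ((Lagrange.basis s v i).coeff j) := by
    intro j
    simp only [P, finsetSum_coeff, coeff_C_mul, coeff_map]
  refine ⟨P, ?_, ?_, ?_, ?_⟩
  · -- nonzero
    intro hP0
    have hRzero : ∀ i ∈ s, R i = 0 := by
      intro i0 hi0
      have h1 : P.eval (C (v i0)) = R i0 := by
        simp only [P, eval_finsetSum, eval_mul, eval_C, eval_map, eval₂_at_apply]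
        rw [Finset.sum_eq_single i0]
        · rw [Lagrange.eval_basis_self hvinj hi0, map_one, mul_one]
        · intro i hi hne
          rw [Lagrange.eval_basis_of_ne hne hi0, map_zero, mul_zero]
        · intro h; exact absurd hi0 h
      rw [← h1, hP0, eval_zero]
    have hNm : ∀ i ∈ s, (G - (i : ℂ) • E : ModularForm 𝒢 k) = 0 := by
      intro i hi
      have h1 : Nm i = 0 := by
        ext τ
        rw [hRev i τ, hRzero i hi]
        simp
      have h2 := (ModularForm.norm_eq_zero_iff 𝒮ℒ (G - (i : ℂ) • E)).mp h1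
      exact DFunLike.coe_injective h2
    have h0 := hNm 0 (by simp [hs])
    have h1 := hNm 1 (by simp [hs]; omega)
    apply hE
    have hG : G = 0 := by simpa using h0
    rw [hG] at h1
    simpa using h1
  · -- degree in X
    refine natDegree_sum_le_of_forall_le _ _ fun i hi => ?_
    refine (natDegree_C_mul_le _ _).trans ((natDegree_map_le).trans ?_)
    rw [Lagrange.natDegree_basis hvinj hi, hscard]
    simp
  · -- degree in J
    intro j
    rw [hPcoeff]
    refine natDegree_sum_le_of_forall_le _ _ fun i _ => ?_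
    exact (natDegree_mul_C_le _ _).trans (hRdeg i)
  · -- the relation
    intro τ
    have hΔ := discriminant_ne_zero τ
    have hmain : ∑ j ∈ Finset.range (n + 1), (p τ).coeff j * G τ ^ j * E τ ^ (n - j) = 0 := by
      have h := homog_prod (Finset.univ : Finset (↥𝒮ℒ ⧸ 𝒢.subgroupOf 𝒮ℒ))
        (fun q => quotientFunc G q τ) (fun q => quotientFunc E q τ) (E τ) (G τ)
      rw [hcard] at h
      rw [h]
      refine Finset.prod_eq_zero (Finset.mem_univ (⟦1⟧ : ↥𝒮ℒ ⧸ 𝒢.subgroupOf 𝒮ℒ)) ?_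
      rw [quotientFunc_one, quotientFunc_one]
      ring
    have hterm : ∀ j, (p τ).coeff j
        = Δ τ ^ (M * n) * (P.coeff j).eval (E₄ τ ^ 3 / Δ τ) := by
      intro j
      rw [hpcoeff, hPcoeff, eval_finsetSum, Finset.mul_sum]
      refine Finset.sum_congr rfl fun i _ => ?_
      rw [hRev i τ, eval_mul, eval_C]
      ring
    have h2 : Δ τ ^ (M * n) * ∑ j ∈ Finset.range (n + 1),
        (P.coeff j).eval (E₄ τ ^ 3 / Δ τ) * G τ ^ j * E τ ^ (n - j) = 0 := by
      rw [← hmain, Finset.mul_sum]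
      refine Finset.sum_congr rfl fun j _ => ?_
      rw [hterm j]
      ring
    exact (mul_eq_zero.mp h2).resolve_left (pow_ne_zero _ hΔ)

/-- `Δ` as an element of `niceSub`. -/
noncomputable def discN : niceSub :=
  ⟨Δ, isNice_of_modularForm one_mem_strictPeriods_SL CuspForm.discriminant⟩

/-- `E₄` as an element of `niceSub`. -/
noncomputable def e4N : niceSub :=
  ⟨⇑E₄, isNice_of_modularForm one_mem_strictPeriods_SL E₄⟩

omit [𝒢.IsFiniteRelIndex 𝒮ℒ] [𝒢.HasDetOne] in
/-- A modular form for a group with strict period `1`, as an element of `niceSub`. -/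
noncomputable def formN (h1 : (1 : ℝ) ∈ 𝒢.strictPeriods) (G : ModularForm 𝒢 k) : niceSub :=
  ⟨⇑G, isNice_of_modularForm h1 G⟩

/-- **The relation for `q`-expansions** (in `PowerSeries ℂ`, homogeneous form: the polynomial
`P_j(J)` is replaced by `Δ ^ m * P_j(J) = ∑ a, c_{j a} Δ ^ (m - a) E₄ ^ (3 a)`, `m = M n`). -/
theorem exists_relation_qExpansion (h1 : (1 : ℝ) ∈ 𝒢.strictPeriods) (M : ℕ)
    (hk : k = 12 * (M : ℤ)) (G E : ModularForm 𝒢 k) (hE : E ≠ 0) :
    ∃ P : Polynomial (Polynomial ℂ), P ≠ 0 ∧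
      P.natDegree ≤ Nat.card (↥𝒮ℒ ⧸ 𝒢.subgroupOf 𝒮ℒ) ∧
      (∀ j, (P.coeff j).natDegree ≤ M * Nat.card (↥𝒮ℒ ⧸ 𝒢.subgroupOf 𝒮ℒ)) ∧
      ∑ j ∈ Finset.range (Nat.card (↥𝒮ℒ ⧸ 𝒢.subgroupOf 𝒮ℒ) + 1),
        (∑ a ∈ Finset.range (M * Nat.card (↥𝒮ℒ ⧸ 𝒢.subgroupOf 𝒮ℒ) + 1),
            PowerSeries.C ((P.coeff j).coeff a) *
              qExpansion 1 Δ ^ (M * Nat.card (↥𝒮ℒ ⧸ 𝒢.subgroupOf 𝒮ℒ) - a) *
              qExpansion 1 ⇑E₄ ^ (3 * a)) *
          qExpansion 1 ⇑G ^ j *
          qExpansion 1 ⇑E ^ (Nat.card (↥𝒮ℒ ⧸ 𝒢.subgroupOf 𝒮ℒ) - j) = 0 := by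
  obtain ⟨P, hP0, hPdeg, hPc, hrel⟩ := exists_relation M hk G E hE
  refine ⟨P, hP0, hPdeg, hPc, ?_⟩
  set n : ℕ := Nat.card (↥𝒮ℒ ⧸ 𝒢.subgroupOf 𝒮ℒ) with hn
  set m : ℕ := M * n with hm
  -- the identity in `niceSub`
  have key : ∑ j ∈ Finset.range (n + 1),
      (∑ a ∈ Finset.range (m + 1),
          algebraMap ℂ niceSub ((P.coeff j).coeff a) * discN ^ (m - a) * e4N ^ (3 * a)) *
        formN h1 G ^ j * formN h1 E ^ (n - j) = 0 := by
    apply Subtype.ext
    funext τ
    have hΔ := discriminant_ne_zero τ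
    have hinner : ∀ j, ∑ a ∈ Finset.range (m + 1),
        (P.coeff j).coeff a * Δ τ ^ (m - a) * E₄ τ ^ (3 * a)
          = Δ τ ^ m * (P.coeff j).eval (E₄ τ ^ 3 / Δ τ) := by
      intro j
      rw [eval_eq_sum_range' (Nat.lt_succ_of_le (hPc j)), Finset.mul_sum]
      refine Finset.sum_congr rfl fun a ha => ?_
      have ha' : a ≤ m := Nat.lt_succ_iff.mp (Finset.mem_range.mp ha)
      have hpow : Δ τ ^ m = Δ τ ^ (m - a) * Δ τ ^ a := by
        rw [← pow_add, Nat.sub_add_cancel ha']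
      rw [hpow, div_pow, pow_mul]
      field_simp
    have hval : ((∑ j ∈ Finset.range (n + 1),
        (∑ a ∈ Finset.range (m + 1),
            algebraMap ℂ niceSub ((P.coeff j).coeff a) * discN ^ (m - a) * e4N ^ (3 * a)) *
          formN h1 G ^ j * formN h1 E ^ (n - j) : niceSub) : ℍ → ℂ) τ
        = ∑ j ∈ Finset.range (n + 1),
          (∑ a ∈ Finset.range (m + 1), (P.coeff j).coeff a * Δ τ ^ (m - a) * E₄ τ ^ (3 * a)) *
            G τ ^ j * E τ ^ (n - j) := by
      simp only [AddSubmonoidClass.coe_finsetSum, MulMemClass.coe_mul, SubmonoidClass.coe_pow,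
        Finset.sum_apply, Pi.mul_apply, Pi.pow_apply]
      rfl
    rw [hval]
    have h2 : ∑ j ∈ Finset.range (n + 1),
          (∑ a ∈ Finset.range (m + 1), (P.coeff j).coeff a * Δ τ ^ (m - a) * E₄ τ ^ (3 * a)) *
            G τ ^ j * E τ ^ (n - j)
        = Δ τ ^ m * ∑ j ∈ Finset.range (n + 1),
          (P.coeff j).eval (E₄ τ ^ 3 / Δ τ) * G τ ^ j * E τ ^ (n - j) := by
      rw [Finset.mul_sum]
      refine Finset.sum_congr rfl fun j _ => ?_
      rw [hinner j]
      ring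
    rw [h2, hrel τ, mul_zero]
    rfl
  have key2 := congrArg qexpHom key
  simp only [map_sum, map_mul, map_pow, map_zero, AlgHom.commutes] at key2
  exact key2

end Relation

end Fermat.Agent.Lib.helper1219
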