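import Mathlib
import Fermat.Agent.Lib.helper1219_NormRel
import Fermat.Agent.Lib.helper1219_LevelRaise
import Fermat.Prelude.Def_ModularCurve_X0

/-!
# The field of ratios of `q`-expansions of modular forms on `Γ₀(N)`

`ratioField N` is the subfield of `LaurentSeries ℂ` of all `x` with `x * qexp E = qexp G` for two
modular forms `G`, `E ≠ 0` of the same weight `12 M` on `Γ₀(N)`.  Every element of it satisfies a
nonzero polynomial of degree `≤ [SL(2,ℤ) : Γ₀(N)]` over `ℂ[j]` (`ratio_relation`), and it contains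
`j(q^d)` for `d ∣ N` (`qExpand_j_mem_ratioField`) and the quotients `Δ(q^d) / Δ(q)`
(`qExpand_disc_div_mem_ratioField`), hence all eta quotients `∏ Δ(q^δ)^(r_δ)` with `∑ r_δ = 0`.
-/

set_option autoImplicit false

open UpperHalfPlane ModularForm Polynomial EisensteinSeries ModularCurve
open scoped MatrixGroups

namespace Fermat.Agent.Lib.helper1219

local notation "Δ" => ModularForm.discriminant
local notation "ι" => HahnSeries.ofPowerSeries ℤ ℂ

lemma ofPS_injective : Function.Injective ι := HahnSeries.ofPowerSeries_injective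

lemma h1G0 (N : ℕ) : (1 : ℝ) ∈ (G0 N).strictPeriods :=
  CongruenceSubgroup.one_mem_strictPeriods_Gamma0 N

lemma ofPS_qExpansion_ne_zero (N : ℕ) {k : ℤ} {E : ModularForm (G0 N) k} (hE : E ≠ 0) :
    ι (qExpansion 1 E) ≠ 0 := by
  intro h
  have h2 : qExpansion 1 E = 0 := ofPS_injective (by rw [h, map_zero])
  exact hE ((ModularForm.qExpansion_eq_zero_iff one_pos (h1G0 N) E).mp h2)

/-- `x` is the ratio of the `q`-expansions of two modular forms of weight `12 M` on `Γ₀(N)`. -/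
def IsRatio (N : ℕ) (x : LaurentSeries ℂ) : Prop :=
  ∃ (k : ℤ) (M : ℕ) (_ : k = 12 * (M : ℤ)) (G E : ModularForm (G0 N) k),
    E ≠ 0 ∧ x * ι (qExpansion 1 E) = ι (qExpansion 1 G)

namespace IsRatio

variable {N : ℕ}

lemma one : IsRatio N 1 := by
  refine ⟨0, 0, by simp, 1, 1, ?_, by rw [one_mul]⟩
  intro h
  have := congrArg (fun f : ModularForm (G0 N) 0 => f UpperHalfPlane.I) h
  simp at this

lemma zero : IsRatio N 0 := by
  refine ⟨0, 0, by simp, 0, 1, ?_, ?_⟩
  · intro h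
    have := congrArg (fun f : ModularForm (G0 N) 0 => f UpperHalfPlane.I) h
    simp at this
  · rw [zero_mul, FunLike.coe_zero, UpperHalfPlane.qExpansion_zero, map_zero]

lemma mul {x y : LaurentSeries ℂ} (hx : IsRatio N x) (hy : IsRatio N y) : IsRatio N (x * y) := by
  obtain ⟨k₁, M₁, hk₁, G₁, E₁, hE₁, h₁⟩ := hx
  obtain ⟨k₂, M₂, hk₂, G₂, E₂, hE₂, h₂⟩ := hy
  refine ⟨k₁ + k₂, M₁ + M₂, by rw [hk₁, hk₂]; push_cast; ring, G₁.mul G₂, E₁.mul E₂,
    ModularForm.mul_ne_zero ⟨1, h1G0 N, one_pos⟩ hE₁ hE₂, ?_⟩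
  rw [ModularForm.qExpansion_mul one_pos (h1G0 N), ModularForm.qExpansion_mul one_pos (h1G0 N),
    map_mul, map_mul, ← h₁, ← h₂]
  ring

lemma add {x y : LaurentSeries ℂ} (hx : IsRatio N x) (hy : IsRatio N y) : IsRatio N (x + y) := by
  obtain ⟨k₁, M₁, hk₁, G₁, E₁, hE₁, h₁⟩ := hx
  obtain ⟨k₂, M₂, hk₂, G₂, E₂, hE₂, h₂⟩ := hy
  refine ⟨k₁ + k₂, M₁ + M₂, by rw [hk₁, hk₂]; push_cast; ring, G₁.mul E₂ + E₁.mul G₂,
    E₁.mul E₂, ModularForm.mul_ne_zero ⟨1, h1G0 N, one_pos⟩ hE₁ hE₂, ?_⟩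
  rw [FunLike.coe_add, ModularForm.qExpansion_add one_pos (h1G0 N),
    ModularForm.qExpansion_mul one_pos (h1G0 N), ModularForm.qExpansion_mul one_pos (h1G0 N),
    ModularForm.qExpansion_mul one_pos (h1G0 N), map_add, map_mul, map_mul, map_mul, ← h₁, ← h₂]
  ring

lemma neg {x : LaurentSeries ℂ} (hx : IsRatio N x) : IsRatio N (-x) := by
  obtain ⟨k, M, hk, G, E, hE, h⟩ := hx
  refine ⟨k, M, hk, -G, E, hE, ?_⟩
  rw [FunLike.coe_neg, ModularForm.qExpansion_neg one_pos (h1G0 N), map_neg, ← h]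
  ring

lemma inv {x : LaurentSeries ℂ} (hx : IsRatio N x) : IsRatio N x⁻¹ := by
  by_cases hx0 : x = 0
  · rw [hx0, inv_zero]; exact zero
  obtain ⟨k, M, hk, G, E, hE, h⟩ := hx
  have hG : G ≠ 0 := by
    rintro rfl
    rw [FunLike.coe_zero, UpperHalfPlane.qExpansion_zero, map_zero] at h
    exact (mul_ne_zero hx0 (ofPS_qExpansion_ne_zero N hE)) h
  refine ⟨k, M, hk, E, G, hG, ?_⟩
  rw [← h, ← mul_assoc, inv_mul_cancel₀ hx0, one_mul]

lemma const (c : ℂ) : IsRatio N (HahnSeries.C c) := by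
  refine ⟨0, 0, by simp, c • (1 : ModularForm (G0 N) 0), 1, ?_, ?_⟩
  · intro h
    have := congrArg (fun f : ModularForm (G0 N) 0 => f UpperHalfPlane.I) h
    simp at this
  · have h2 : (⇑(c • (1 : ModularForm (G0 N) 0)) : ℍ → ℂ) = fun _ => c := by
      funext τ; simp
    have h3 : (⇑(1 : ModularForm (G0 N) 0) : ℍ → ℂ) = 1 := by
      funext τ; simp
    rw [h2, h3, qExpansion_const, HahnSeries.ofPowerSeries_C,
      UpperHalfPlane.qExpansion_one, map_one, mul_one]

end IsRatio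

/-- The field of ratios of `q`-expansions of modular forms of equal weight `12 M` on `Γ₀(N)`. -/
def ratioField (N : ℕ) : Subfield (LaurentSeries ℂ) where
  carrier := {x | IsRatio N x}
  mul_mem' := IsRatio.mul
  one_mem' := IsRatio.one
  add_mem' := IsRatio.add
  zero_mem' := IsRatio.zero
  neg_mem' := IsRatio.neg
  inv_mem' _ := IsRatio.inv

lemma mem_ratioField {N : ℕ} {x : LaurentSeries ℂ} : x ∈ ratioField N ↔ IsRatio N x := Iff.rfl

/-! ### `q`-expansion of level raised forms, in `LaurentSeries ℂ` -/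

theorem ofPS_levelRaise (N d : ℕ) [NeZero d] (hd : d ∣ N) {k : ℤ} (f : ModularForm 𝒮ℒ k) :
    ι (qExpansion 1 (levelRaise N d hd f)) = qExpand ℂ d (ι (qExpansion 1 f)) := by
  have hd0 : 0 < d := Nat.pos_of_ne_zero (NeZero.ne d)
  ext m
  rcases lt_or_ge m 0 with hm | hm
  · rw [ofPowerSeries_coeff_of_neg _ hm]
    by_cases hdm : (d : ℤ) ∣ m
    · obtain ⟨c, rfl⟩ := hdm
      rw [qExpand_coeff_mul]
      have hc : c < 0 := by
        by_contra hcon
        have : (0 : ℤ) ≤ (d : ℤ) * c := mul_nonneg (by positivity) (not_lt.mp hcon)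
        omega
      rw [ofPowerSeries_coeff_of_neg _ hc]
    · rw [qExpand_coeff_of_not_dvd d _ hdm]
  · lift m to ℕ using hm
    rw [HahnSeries.ofPowerSeries_apply_coeff, qExpansion_levelRaise_coeff]
    by_cases hdm : d ∣ m
    · rw [if_pos hdm]
      obtain ⟨c, rfl⟩ := hdm
      rw [Nat.mul_div_cancel_left c hd0]
      have : ((d * c : ℕ) : ℤ) = (d : ℤ) * (c : ℤ) := by push_cast; ring
      rw [this, qExpand_coeff_mul, HahnSeries.ofPowerSeries_apply_coeff]
    · rw [if_neg hdm, qExpand_coeff_of_not_dvd]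
      exact fun h => hdm (Int.natCast_dvd_natCast.mp h)

/-- `E₄ ^ 3` as a level one form of weight `12`. -/
noncomputable def e4Cube : ModularForm 𝒮ℒ 12 :=
  ModularForm.mcast (by norm_num) (E₄.pow 3)

/-- `Δ` as a level one modular form of weight `12`. -/
noncomputable def discForm : ModularForm 𝒮ℒ 12 where
  toSlashInvariantForm := CuspForm.discriminant.toSlashInvariantForm
  holo' := CuspForm.discriminant.holo'
  bdd_at_cusps' := fun hc => ModularFormClass.bdd_at_cusps CuspForm.discriminant hc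

lemma coe_discForm : (⇑discForm : ℍ → ℂ) = Δ := rfl

lemma discForm_ne_zero : discForm ≠ 0 := by
  intro h
  have := congrArg (fun f : ModularForm 𝒮ℒ 12 => f UpperHalfPlane.I) h
  exact discriminant_ne_zero UpperHalfPlane.I this

lemma qExpansion_e4Cube : qExpansion 1 e4Cube = qExpansion 1 ⇑E₄ ^ 3 := by
  rw [e4Cube, ModularForm.coe_mcast, ModularForm.qExpansion_pow one_pos one_mem_strictPeriods_SL]

lemma levelRaise_ne_zero (N d : ℕ) [NeZero d] (hd : d ∣ N) {k : ℤ} {f : ModularForm 𝒮ℒ k}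
    (hf : f ≠ 0) : levelRaise N d hd f ≠ 0 := by
  intro h
  have h2 : ι (qExpansion 1 (levelRaise N d hd f)) = 0 := by
    rw [h, FunLike.coe_zero, UpperHalfPlane.qExpansion_zero, map_zero]
  rw [ofPS_levelRaise] at h2
  have h3 : ι (qExpansion 1 f) = 0 := qExpand_injective d (by rw [h2, map_zero])
  have h4 : qExpansion 1 f = 0 := ofPS_injective (by rw [h3, map_zero])
  exact hf ((ModularForm.qExpansion_eq_zero_iff one_pos one_mem_strictPeriods_SL f).mp h4)

/-- `j(q^d)` lies in the field of ratios, for `d ∣ N`.  Here `jC` is any Laurent series with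
`jC * qexp Δ = (qexp E₄) ^ 3` (i.e. the `q`-expansion of `j`). -/
theorem qExpand_j_mem_ratioField (N d : ℕ) [NeZero d] (hd : d ∣ N) (jC : LaurentSeries ℂ)
    (hj : jC * ι (qExpansion 1 Δ) = ι (qExpansion 1 ⇑E₄) ^ 3) :
    qExpand ℂ d jC ∈ ratioField N := by
  refine ⟨12, 1, by norm_num, levelRaise N d hd e4Cube, levelRaise N d hd discForm,
    levelRaise_ne_zero N d hd discForm_ne_zero, ?_⟩
  rw [ofPS_levelRaise, ofPS_levelRaise, ← map_mul, coe_discForm, hj, qExpansion_e4Cube]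
  simp only [map_pow]

/-- `Δ(q^d) / Δ(q)` lies in the field of ratios, for `d ∣ N`. -/
theorem qExpand_disc_div_mem_ratioField (N d : ℕ) [NeZero d] (hd : d ∣ N) :
    qExpand ℂ d (ι (qExpansion 1 Δ)) * (ι (qExpansion 1 Δ))⁻¹ ∈ ratioField N := by
  refine ⟨12, 1, by norm_num, levelRaise N d hd discForm, levelRaise N 1 (one_dvd N) discForm,
    levelRaise_ne_zero N 1 (one_dvd N) discForm_ne_zero, ?_⟩
  have hne : ι (qExpansion 1 Δ) ≠ 0 := by
    intro h
    have h4 : qExpansion 1 Δ = 0 := ofPS_injective (by rw [h, map_zero])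
    exact discForm_ne_zero
      ((ModularForm.qExpansion_eq_zero_iff one_pos one_mem_strictPeriods_SL discForm).mp h4)
  rw [ofPS_levelRaise, ofPS_levelRaise, coe_discForm, qExpand_one_apply, mul_assoc,
    inv_mul_cancel₀ hne, mul_one]

/-! ### The relation in `LaurentSeries ℂ` -/

/-- Every element of the field of ratios is a root of a nonzero polynomial of degree
`≤ [SL(2,ℤ) : Γ₀(N)]` over `ℂ[j]`. -/
theorem ratio_relation (N : ℕ) [NeZero N] {x : LaurentSeries ℂ} (hx : x ∈ ratioField N)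
    (jC : LaurentSeries ℂ) (hj : jC * ι (qExpansion 1 Δ) = ι (qExpansion 1 ⇑E₄) ^ 3) :
    ∃ P : Polynomial (Polynomial ℂ), P ≠ 0 ∧
      P.natDegree ≤ Nat.card (↥𝒮ℒ ⧸ (G0 N).subgroupOf 𝒮ℒ) ∧
      P.eval₂ (Polynomial.aeval jC).toRingHom x = 0 := by
  obtain ⟨k, M, hk, G, E, hE, hxE⟩ := hx
  obtain ⟨P, hP0, hPdeg, hPc, hrel⟩ := exists_relation_qExpansion (h1G0 N) M hk G E hE
  refine ⟨P, hP0, hPdeg, ?_⟩
  set n : ℕ := Nat.card (↥𝒮ℒ ⧸ (G0 N).subgroupOf 𝒮ℒ) with hn
  set m : ℕ := M * n with hm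
  set D : LaurentSeries ℂ := ι (qExpansion 1 Δ) with hD
  set e : LaurentSeries ℂ := ι (qExpansion 1 E) with he
  have hDne : D ≠ 0 := by
    intro h
    have h4 : qExpansion 1 Δ = 0 := ofPS_injective (by rw [← hD, h, map_zero])
    exact discForm_ne_zero
      ((ModularForm.qExpansion_eq_zero_iff one_pos one_mem_strictPeriods_SL discForm).mp h4)
  have hene : e ≠ 0 := ofPS_qExpansion_ne_zero N hE
  have h2 := congrArg ι hrel
  simp only [map_sum, map_mul, map_pow, map_zero] at h2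
  -- rewrite each inner sum
  have hinner : ∀ j, ∑ a ∈ Finset.range (m + 1),
      ι (PowerSeries.C ((P.coeff j).coeff a)) * D ^ (m - a) * ι (qExpansion 1 ⇑E₄) ^ (3 * a)
        = D ^ m * Polynomial.aeval jC (P.coeff j) := by
    intro j
    rw [Polynomial.aeval_eq_sum_range' (Nat.lt_succ_of_le (hPc j)), Finset.mul_sum]
    refine Finset.sum_congr rfl fun a ha => ?_
    have ha' : a ≤ m := Nat.lt_succ_iff.mp (Finset.mem_range.mp ha)
    have hpow : D ^ m = D ^ (m - a) * D ^ a := by rw [← pow_add, Nat.sub_add_cancel ha']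
    rw [pow_mul, ← hj, mul_pow, hpow, HahnSeries.ofPowerSeries_C, Algebra.smul_def]
    have hC : (HahnSeries.C ((P.coeff j).coeff a) : LaurentSeries ℂ)
        = algebraMap ℂ (LaurentSeries ℂ) ((P.coeff j).coeff a) := by
      have h1 : algebraMap ℂ (PowerSeries ℂ) ((P.coeff j).coeff a)
          = PowerSeries.C ((P.coeff j).coeff a) := by simp
      rw [HahnSeries.algebraMap_apply', h1, HahnSeries.ofPowerSeries_C]
    rw [hC]
    ring
  have h3 : D ^ m * e ^ n * ∑ j ∈ Finset.range (n + 1),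
      Polynomial.aeval jC (P.coeff j) * x ^ j = 0 := by
    rw [← h2, Finset.mul_sum]
    refine Finset.sum_congr rfl fun j hj' => ?_
    have hjn : j ≤ n := Nat.lt_succ_iff.mp (Finset.mem_range.mp hj')
    have hpow : e ^ n = e ^ j * e ^ (n - j) := by rw [← pow_add, Nat.add_sub_cancel' hjn]
    rw [hinner j, ← hxE, mul_pow, hpow]
    ring
  have h4 : ∑ j ∈ Finset.range (n + 1), Polynomial.aeval jC (P.coeff j) * x ^ j = 0 :=
    (mul_eq_zero.mp h3).resolve_left (mul_ne_zero (pow_ne_zero _ hDne) (pow_ne_zero _ hene))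
  rw [Polynomial.eval₂_eq_sum_range' _ (Nat.lt_succ_of_le hPdeg)]
  exact h4

end Fermat.Agent.Lib.helper1219
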