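/-
Annihilator duality for Pluecker coordinates (Jacobi's complementary minors) and the
resulting equality of Pluecker heights.  Mathlib only.
-/
import Mathlib

namespace Fermat.Agent.Lib.helper1245

open Matrix

section Core

variable {R : Type*} [CommRing R]
variable {α β ι : Type*} [Fintype α] [Fintype β] [Fintype ι]

/-- Splitting a sum over the columns along a bijection `α ⊕ β ≃ ι`. -/
theorem submatrix_mul_add_submatrix_mul {γ δ : Type*} (B : Matrix γ ι R) (Z : Matrix ι δ R)
    (e : α ⊕ β ≃ ι) :
    B.submatrix id (e ∘ Sum.inl) * Z.submatrix (e ∘ Sum.inl) id +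
      B.submatrix id (e ∘ Sum.inr) * Z.submatrix (e ∘ Sum.inr) id = B * Z := by
  ext i k
  simp only [Matrix.add_apply, Matrix.mul_apply, Matrix.submatrix_apply, id_eq,
    Function.comp_apply]
  rw [← Equiv.sum_comp e (fun j => B i j * Z j k), Fintype.sum_sum_type]

variable [DecidableEq α] [DecidableEq β] [DecidableEq ι]

omit [DecidableEq ι] in
/-- **Jacobi's complementary minor identity, block form.**  If `B * Z = 0` and `Y * Z = 1`,
then for every splitting `e` of the columns, the minor of `B` on the first block of columns is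
the determinant of the stacked matrix `[B; Y]` (columns reindexed by `e`) times the minor of `Z`
on the second block of rows. -/
theorem det_submatrix_inl_eq (B : Matrix α ι R) (Y : Matrix β ι R) (Z : Matrix ι β R)
    (hBZ : B * Z = 0) (hYZ : Y * Z = 1) (e : α ⊕ β ≃ ι) :
    (B.submatrix id (e ∘ Sum.inl)).det =
      ((Matrix.fromRows B Y).submatrix id e).det * (Z.submatrix (e ∘ Sum.inr) id).det := by
  have hU : (Matrix.fromRows B Y).submatrix id e =
      Matrix.fromBlocks (B.submatrix id (e ∘ Sum.inl)) (B.submatrix id (e ∘ Sum.inr))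
        (Y.submatrix id (e ∘ Sum.inl)) (Y.submatrix id (e ∘ Sum.inr)) := by
    ext i j
    rcases i with i | i <;> rcases j with j | j <;>
      simp [Matrix.fromRows_apply_inl, Matrix.fromRows_apply_inr]
  have hmul : (Matrix.fromRows B Y).submatrix id e *
      Matrix.fromBlocks (1 : Matrix α α R) (Z.submatrix (e ∘ Sum.inl) id) 0
        (Z.submatrix (e ∘ Sum.inr) id) =
      Matrix.fromBlocks (B.submatrix id (e ∘ Sum.inl)) 0 (Y.submatrix id (e ∘ Sum.inl)) 1 := by
    rw [hU, Matrix.fromBlocks_multiply]
    simp only [Matrix.mul_one, Matrix.mul_zero, add_zero]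
    rw [submatrix_mul_add_submatrix_mul, submatrix_mul_add_submatrix_mul, hBZ, hYZ]
  have hdet := congrArg Matrix.det hmul
  rw [Matrix.det_mul, Matrix.det_fromBlocks_zero₂₁, Matrix.det_fromBlocks_zero₁₂,
    Matrix.det_one, Matrix.det_one, one_mul, mul_one] at hdet
  exact hdet.symm

omit [Fintype ι] [DecidableEq ι] in
/-- The determinant of a rectangular-indexed matrix made square by a column splitting changes
by the sign of the transition permutation when the splitting changes. -/
theorem det_submatrix_equiv_eq_sign {κ : Type*} [Fintype κ] [DecidableEq κ]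
    (U : Matrix κ ι R) (e₀ e : κ ≃ ι) :
    (U.submatrix id e).det =
      (Equiv.Perm.sign (e.trans e₀.symm) : R) * (U.submatrix id e₀).det := by
  have h : U.submatrix id e = (U.submatrix id e₀).submatrix id (e.trans e₀.symm) := by
    ext i j
    simp
  rw [h, Matrix.det_permute']

end Core

section Field

variable {K : Type*} [Field K]
variable {α β ι : Type*} [Fintype α] [Fintype β] [Fintype ι]
  [DecidableEq α] [DecidableEq β] [DecidableEq ι]

/-- A matrix with linearly independent rows over a field has a right inverse. -/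
theorem exists_right_inverse_of_linearIndependent_rows (B : Matrix α ι K)
    (hB : LinearIndependent K B.row) : ∃ X : Matrix ι α K, B * X = 1 := by
  have hinj : Function.Injective B.vecMul := Matrix.vecMul_injective_iff.mpr hB
  have hker : LinearMap.ker B.vecMulLinear = ⊥ := LinearMap.ker_eq_bot.mpr hinj
  obtain ⟨g, hg⟩ := LinearMap.exists_leftInverse_of_injective B.vecMulLinear hker
  refine ⟨(LinearMap.toMatrix' g)ᵀ, ?_⟩
  have key : ∀ x : α → K, x ᵥ* (B * (LinearMap.toMatrix' g)ᵀ) = x := by
    intro x
    rw [← Matrix.vecMul_vecMul, Matrix.vecMul_transpose, LinearMap.toMatrix'_mulVec]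
    exact congrArg (fun f => f x) hg
  ext i j
  have := congrFun (key (Pi.single i 1)) j
  rw [Matrix.single_one_vecMul] at this
  have h2 : (B * (LinearMap.toMatrix' g)ᵀ) i j = (Pi.single i 1 : α → K) j := this
  rw [h2, Matrix.one_apply, Pi.single_apply]
  simp [eq_comm]

/-- **Annihilator duality for maximal minors** (Jacobi's complementary minors).  Let `B` and `C`
have linearly independent rows, with the rows of `C` orthogonal to the rows of `B`
(`B * Cᵀ = 0`) and complementary sizes (witnessed by any splitting `e₀` of the columns).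
Then there is a nonzero constant `lam` such that for EVERY splitting `e` of the columns the
minor of `B` on the first block equals `lam` times a sign times the minor of `C` on the
complementary block. -/
theorem exists_det_submatrix_eq_mul_sign (B : Matrix α ι K) (C : Matrix β ι K)
    (hB : LinearIndependent K B.row) (hC : LinearIndependent K C.row)
    (hBC : B * Cᵀ = 0) (e₀ : α ⊕ β ≃ ι) :
    ∃ lam : K, lam ≠ 0 ∧ ∀ e : α ⊕ β ≃ ι,
      (B.submatrix id (e ∘ Sum.inl)).det =
        lam * (Equiv.Perm.sign (e.trans e₀.symm) : K) * (C.submatrix id (e ∘ Sum.inr)).det := by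
  obtain ⟨X₀, hX₀⟩ := exists_right_inverse_of_linearIndependent_rows B hB
  obtain ⟨Y₀, hY₀⟩ := exists_right_inverse_of_linearIndependent_rows C hC
  have hYZ : Y₀ᵀ * Cᵀ = 1 := by
    rw [← Matrix.transpose_mul, hY₀, Matrix.transpose_one]
  refine ⟨((Matrix.fromRows B Y₀ᵀ).submatrix id e₀).det, ?_, fun e => ?_⟩
  · -- the stacked matrix is invertible
    set X : Matrix ι α K := X₀ - Cᵀ * (Y₀ᵀ * X₀) with hX
    have hBX : B * X = 1 := by
      rw [hX, Matrix.mul_sub, ← Matrix.mul_assoc, hBC, Matrix.zero_mul, sub_zero, hX₀]
    have hYX : Y₀ᵀ * X = 0 := by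
      rw [hX, Matrix.mul_sub, ← Matrix.mul_assoc, hYZ, Matrix.one_mul, sub_self]
    have hUV : Matrix.fromRows B Y₀ᵀ * Matrix.fromCols X Cᵀ = 1 := by
      rw [Matrix.fromRows_mul_fromCols, hBX, hBC, hYX, hYZ, Matrix.fromBlocks_one]
    have hsq : (Matrix.fromRows B Y₀ᵀ).submatrix id e₀ *
        (Matrix.fromCols X Cᵀ).submatrix e₀ id = 1 := by
      rw [Matrix.submatrix_mul_equiv, hUV, Matrix.submatrix_id_id]
    have hdet := congrArg Matrix.det hsq
    rw [Matrix.det_mul, Matrix.det_one] at hdet
    exact left_ne_zero_of_mul_eq_one hdet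
  · rw [det_submatrix_inl_eq B Y₀ᵀ Cᵀ hBC hYZ e,
      det_submatrix_equiv_eq_sign (Matrix.fromRows B Y₀ᵀ) e₀ e]
    have hT : Cᵀ.submatrix (e ∘ Sum.inr) id = (C.submatrix id (e ∘ Sum.inr))ᵀ := by
      ext i j
      simp
    rw [hT, Matrix.det_transpose]
    ring

omit [DecidableEq α] [DecidableEq β] [DecidableEq ι] in
/-- An injective family of columns is the first block of a splitting. -/
theorem exists_equiv_comp_inl_eq (e₀ : α ⊕ β ≃ ι) (s : α → ι) (hs : Function.Injective s) :
    ∃ e : α ⊕ β ≃ ι, e ∘ Sum.inl = s := by
  classical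
  have hcard : Fintype.card (α ⊕ β) = (Finset.univ : Finset ι).card := by
    rw [Finset.card_univ]; exact Fintype.card_congr e₀
  obtain ⟨g, hg⟩ := Set.MapsTo.exists_equiv_extend_of_card_eq (t := (Finset.univ : Finset ι))
    hcard (s := Set.range (Sum.inl : α → α ⊕ β))
    (f := fun x => Sum.elim s (fun b => e₀ (Sum.inr b)) x)
    (fun x _ => by simp)
    (by
      rintro _ ⟨a, rfl⟩ _ ⟨a', rfl⟩ h
      simp only [Sum.elim_inl] at h
      rw [hs h])
  refine ⟨g.trans (Equiv.subtypeUnivEquiv (fun x => Finset.mem_univ x)), ?_⟩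
  funext a
  simpa using hg (Sum.inl a) ⟨a, rfl⟩

omit [DecidableEq α] [DecidableEq β] [DecidableEq ι] in
/-- An injective family of columns is the second block of a splitting. -/
theorem exists_equiv_comp_inr_eq (e₀ : α ⊕ β ≃ ι) (t : β → ι) (ht : Function.Injective t) :
    ∃ e : α ⊕ β ≃ ι, e ∘ Sum.inr = t := by
  obtain ⟨e', he'⟩ := exists_equiv_comp_inl_eq ((Equiv.sumComm β α).trans e₀) t ht
  refine ⟨(Equiv.sumComm α β).trans e', ?_⟩
  funext b
  have := congrFun he' b
  simpa using this

end Field

section Height

open Height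

variable {K : Type*} [Field K] [AdmissibleAbsValues K]

/-- If every coordinate of `x` is `0` or `±` a coordinate of `y`, then
`mulHeight x ≤ mulHeight y`. -/
theorem mulHeight_le_of_forall_eq_zero_or {ι ι' : Type*} [Finite ι] [Finite ι']
    (x : ι → K) (y : ι' → K)
    (h : ∀ i, x i = 0 ∨ ∃ j, x i = y j ∨ x i = -y j) : mulHeight x ≤ mulHeight y := by
  have hsq : ∀ i : (x ^ 2).support, ∃ j, (x ^ 2) i.val = (y ^ 2) j := by
    rintro ⟨i, hi⟩
    have hi' : x i ≠ 0 := by
      intro h0
      apply hi
      simp [h0]
    rcases h i with h0 | ⟨j, hj | hj⟩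
    · exact absurd h0 hi'
    · exact ⟨j, by simp [hj]⟩
    · exact ⟨j, by simp [hj]⟩
  choose f hf using hsq
  have h1 : mulHeight (x ^ 2) = mulHeight ((y ^ 2) ∘ f) := by
    rw [mulHeight_eq_mulHeight_restrict_support (x ^ 2)]
    congr 1
    funext i
    exact hf i
  have h2 : mulHeight x ^ 2 ≤ mulHeight y ^ 2 := by
    rw [← mulHeight_pow, ← mulHeight_pow, h1]
    exact mulHeight_comp_le f (y ^ 2)
  exact (pow_le_pow_iff_left₀ (mulHeight_pos x).le (mulHeight_pos y).le two_ne_zero).mp h2

/-- Variant of `mulHeight_le_of_forall_eq_zero_or` with a nonzero scalar. -/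
theorem mulHeight_le_of_forall_eq_zero_or_smul {ι ι' : Type*} [Finite ι] [Finite ι']
    (x : ι → K) (y : ι' → K) (c : K) (hc : c ≠ 0)
    (h : ∀ i, x i = 0 ∨ ∃ j, x i = c * y j ∨ x i = -(c * y j)) :
    mulHeight x ≤ mulHeight y := by
  rw [← mulHeight_smul_eq_mulHeight y hc]
  exact mulHeight_le_of_forall_eq_zero_or x (c • y) (by simpa using h)

variable {α β ι : Type*} [Fintype α] [Fintype β] [Fintype ι]
  [DecidableEq α] [DecidableEq β] [DecidableEq ι]

/-- **Equality of Pluecker heights under annihilator duality** (all-functions indexing of the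
maximal minors).  `B` and `C` have linearly independent rows, the rows of `C` are orthogonal to
the rows of `B`, and the sizes are complementary (`e₀`).  Then the height of the vector of
maximal minors of `B` equals the height of the vector of maximal minors of `C`. -/
theorem mulHeight_minors_eq_of_mul_transpose_eq_zero (B : Matrix α ι K) (C : Matrix β ι K)
    (hB : LinearIndependent K B.row) (hC : LinearIndependent K C.row)
    (hBC : B * Cᵀ = 0) (e₀ : α ⊕ β ≃ ι) :
    mulHeight (fun s : α → ι => (B.submatrix id s).det) =
      mulHeight (fun t : β → ι => (C.submatrix id t).det) := by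
  obtain ⟨lam, hlam, hdual⟩ := exists_det_submatrix_eq_mul_sign B C hB hC hBC e₀
  apply le_antisymm
  · refine mulHeight_le_of_forall_eq_zero_or_smul _ _ lam hlam fun s => ?_
    by_cases hs : Function.Injective s
    · obtain ⟨e, rfl⟩ := exists_equiv_comp_inl_eq e₀ s hs
      refine Or.inr ⟨e ∘ Sum.inr, ?_⟩
      rw [hdual e]
      rcases Int.units_eq_one_or (Equiv.Perm.sign (e.trans e₀.symm)) with h1 | h1
      · left; rw [h1]; push_cast; ring
      · right; rw [h1]; push_cast; ring
    · left
      obtain ⟨a, a', haa', hne⟩ := Function.not_injective_iff.mp hs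
      exact Matrix.det_zero_of_column_eq hne (fun k => by simp [haa'])
  · refine mulHeight_le_of_forall_eq_zero_or_smul _ _ lam⁻¹ (inv_ne_zero hlam) fun t => ?_
    by_cases ht : Function.Injective t
    · obtain ⟨e, rfl⟩ := exists_equiv_comp_inr_eq e₀ t ht
      refine Or.inr ⟨e ∘ Sum.inl, ?_⟩
      rw [hdual e]
      rcases Int.units_eq_one_or (Equiv.Perm.sign (e.trans e₀.symm)) with h1 | h1
      · left; rw [h1]; push_cast; field_simp
      · right; rw [h1]; push_cast; field_simp
    · left
      obtain ⟨b, b', hbb', hne⟩ := Function.not_injective_iff.mp ht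
      exact Matrix.det_zero_of_column_eq hne (fun k => by simp [hbb'])

end Height

section OrderEmb

open Height

variable {K : Type*} [Field K] [AdmissibleAbsValues K]
variable {n : Type*} [Fintype n] [LinearOrder n]

omit [Fintype n] in
/-- Every injective `s : Fin r → n` is an increasing map precomposed with a permutation. -/
theorem exists_orderEmb_comp_perm {r : ℕ} (s : Fin r → n) (hs : Function.Injective s) :
    ∃ (s' : Fin r ↪o n) (σ : Equiv.Perm (Fin r)), s = s' ∘ σ := by
  classical
  have hcard : (Finset.univ.image s).card = r := by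
    rw [Finset.card_image_of_injective _ hs, Finset.card_univ, Fintype.card_fin]
  set s' : Fin r ↪o n := (Finset.univ.image s).orderEmbOfFin hcard with hs'
  have hmem : ∀ i, ∃ j, s' j = s i := by
    intro i
    have hi : s i ∈ Set.range s' := by
      rw [hs', Finset.range_orderEmbOfFin]
      simp
    exact hi
  choose σf hσf using hmem
  have hinj : Function.Injective σf := by
    intro i i' h
    apply hs
    rw [← hσf i, ← hσf i', h]
  refine ⟨s', Equiv.ofBijective σf (Finite.injective_iff_bijective.mp hinj), ?_⟩
  funext i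
  simp [hσf i]

/-- The height of the vector of maximal minors does not depend on whether the minors are indexed
by all maps `Fin r → n` or only by the increasing ones. -/
theorem mulHeight_minors_fun_eq_orderEmb {r : ℕ} (B : Matrix (Fin r) n K) :
    mulHeight (fun s : Fin r → n => (B.submatrix id s).det) =
      mulHeight (fun s : Fin r ↪o n => (B.submatrix id s).det) := by
  apply le_antisymm
  · refine mulHeight_le_of_forall_eq_zero_or _ _ fun s => ?_
    by_cases hs : Function.Injective s
    · obtain ⟨s', σ, rfl⟩ := exists_orderEmb_comp_perm s hs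
      refine Or.inr ⟨s', ?_⟩
      have h : B.submatrix id (s' ∘ σ) = (B.submatrix id s').submatrix id σ := by
        ext i j
        simp
      rw [h, Matrix.det_permute']
      rcases Int.units_eq_one_or (Equiv.Perm.sign σ) with h1 | h1
      · left; rw [h1]; push_cast; ring
      · right; rw [h1]; push_cast; ring
    · left
      obtain ⟨a, a', haa', hne⟩ := Function.not_injective_iff.mp hs
      exact Matrix.det_zero_of_column_eq hne (fun k => by simp [haa'])
  · exact mulHeight_comp_le (fun s : Fin r ↪o n => (s : Fin r → n))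
      (fun s : Fin r → n => (B.submatrix id s).det)

/-- **Equality of Pluecker heights under annihilator duality**, increasing-maps indexing.
`b` is a frame of a subspace `W` of `n → K` of dimension `r`, `c` a frame of its annihilator
(dimension `k`, `r + k = card n`).  Then the Pluecker vectors of the two frames have the same
height. -/
theorem mulHeight_plk_eq_of_dotProduct_eq_zero {r k : ℕ} (b : Fin r → n → K) (c : Fin k → n → K)
    (hb : LinearIndependent K b) (hc : LinearIndependent K c)
    (horth : ∀ i j, b i ⬝ᵥ c j = 0) (hcard : Fintype.card n = r + k) :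
    mulHeight (fun s : Fin r ↪o n => ((Matrix.of b).submatrix id s).det) =
      mulHeight (fun t : Fin k ↪o n => ((Matrix.of c).submatrix id t).det) := by
  have hBC : Matrix.of b * (Matrix.of c)ᵀ = 0 := by
    ext i j
    simpa [Matrix.mul_apply, dotProduct] using horth i j
  have e₀ : Fin r ⊕ Fin k ≃ n := by
    apply Fintype.equivOfCardEq
    rw [Fintype.card_sum, Fintype.card_fin, Fintype.card_fin, hcard]
  rw [← mulHeight_minors_fun_eq_orderEmb, ← mulHeight_minors_fun_eq_orderEmb]
  exact mulHeight_minors_eq_of_mul_transpose_eq_zero (Matrix.of b) (Matrix.of c) hb hc hBC e₀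

end OrderEmb

end Fermat.Agent.Lib.helper1245
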