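import Mathlib

set_option autoImplicit false

/-!
# Cauchy–Binet, compound matrices and Plücker vectors (helper2817)

Mathlib-only linear-algebra layer for the Plücker-height track of S17.
-/

namespace Fermat.Agent.Lib.helper2817

open Matrix Finset

section CauchyBinet

variable {R : Type*} [CommRing R]

/-- (CB0) Multilinear expansion of `det (A * B)` over all index maps. -/
theorem det_mul_eq_sum_fun {r : ℕ} {n : Type*} [Fintype n] [DecidableEq n]
    (A : Matrix (Fin r) n R) (B : Matrix n (Fin r) R) :
    (A * B).det = ∑ s : Fin r → n, (∏ i, A i (s i)) * (B.submatrix s id).det := by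
  have h1 : (A * B) = Matrix.of (fun i => ∑ k, A i k • (B k)) := by
    ext i j
    simp [Matrix.mul_apply]
  rw [h1]
  have h2 := (Matrix.detRowAlternating (R := R) (n := Fin r)).toMultilinearMap.map_sum
    (fun (i : Fin r) (k : n) => A i k • B k)
  have h3 : ∀ s : Fin r → n,
      (Matrix.detRowAlternating (R := R) (n := Fin r)).toMultilinearMap
        (fun i => A i (s i) • B (s i)) = (∏ i, A i (s i)) * (B.submatrix s id).det := by
    intro s
    have := (Matrix.detRowAlternating (R := R) (n := Fin r)).toMultilinearMap.map_smul_univ
      (fun i => A i (s i)) (fun i => B (s i))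
    rw [this]
    rfl
  have h4 : (Matrix.of (fun i => ∑ k, A i k • (B k))).det =
      (Matrix.detRowAlternating (R := R) (n := Fin r)).toMultilinearMap
        (fun i => ∑ k, A i k • B k) := rfl
  rw [h4, h2]
  exact Finset.sum_congr rfl (fun s _ => h3 s)

/-- Index type of Plücker coordinates: the `r`-element subsets of `n`. -/
abbrev PS (r : ℕ) (n : Type*) := {S : Finset n // S.card = r}

/-- The increasing enumeration of an `r`-subset. -/
def PS.emb {r : ℕ} {n : Type*} [LinearOrder n] (S : PS r n) : Fin r ↪o n :=
  S.1.orderEmbOfFin S.2

theorem PS.emb_mem {r : ℕ} {n : Type*} [LinearOrder n] (S : PS r n) (i : Fin r) :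
    S.emb i ∈ S.1 := Finset.orderEmbOfFin_mem _ _ _

theorem PS.range_emb {r : ℕ} {n : Type*} [LinearOrder n] (S : PS r n) :
    Set.range S.emb = (S.1 : Set n) := Finset.range_orderEmbOfFin _ _

theorem PS.emb_injective {r : ℕ} {n : Type*} [LinearOrder n] (S : PS r n) :
    Function.Injective S.emb := S.emb.injective

/-- Two `r`-subsets with the same increasing enumeration are equal. -/
theorem PS.ext_emb {r : ℕ} {n : Type*} [LinearOrder n] {S T : PS r n}
    (h : ∀ i, S.emb i = T.emb i) : S = T := by
  apply Subtype.ext
  have hS := S.range_emb
  have hT := T.range_emb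
  have : Set.range S.emb = Set.range T.emb := by
    congr 1
    funext i
    exact h i
  rw [hS, hT] at this
  exact_mod_cast this

/-- Every injective `s : Fin r → n` is the increasing enumeration of its range composed with a
permutation. -/
theorem exists_PS_perm_of_injective {r : ℕ} {n : Type*} [LinearOrder n]
    (s : Fin r → n) (hs : Function.Injective s) :
    ∃ (S : PS r n) (σ : Equiv.Perm (Fin r)), ∀ i, S.emb (σ i) = s i := by
  classical
  let S0 : Finset n := Finset.univ.image s
  have hcard : S0.card = r := by
    rw [Finset.card_image_of_injective _ hs]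
    simp
  let S : PS r n := ⟨S0, hcard⟩
  have hmem : ∀ i, s i ∈ S0 := fun i => Finset.mem_image_of_mem s (Finset.mem_univ i)
  let f : Fin r → Fin r := fun i => (S0.orderIsoOfFin hcard).symm ⟨s i, hmem i⟩
  have hf : ∀ i, S.emb (f i) = s i := by
    intro i
    show (S0.orderEmbOfFin hcard) (f i) = s i
    have h1 : ((S0.orderIsoOfFin hcard) (f i) : n) = s i := by
      simp [f]
    rw [← h1]
    rfl
  have hfinj : Function.Injective f := by
    intro i j hij
    apply hs
    rw [← hf i, ← hf j, hij]
  have hfbij : Function.Bijective f := Finite.injective_iff_bijective.mp hfinj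
  exact ⟨S, Equiv.ofBijective f hfbij, fun i => hf i⟩

/-- (CB1) **Cauchy–Binet formula.** -/
theorem det_mul_eq_sum_PS {r : ℕ} {n : Type*} [Fintype n] [LinearOrder n]
    (A : Matrix (Fin r) n R) (B : Matrix n (Fin r) R) :
    (A * B).det = ∑ S : PS r n, (A.submatrix id S.emb).det * (B.submatrix S.emb id).det := by
  classical
  rw [det_mul_eq_sum_fun]
  set F : (Fin r → n) → R := fun s => (∏ i, A i (s i)) * (B.submatrix s id).det with hF
  have hzero : ∀ s : Fin r → n, ¬ Function.Injective s → F s = 0 := by
    intro s hs
    rw [Function.Injective] at hs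
    push Not at hs
    obtain ⟨i, j, hij, hne⟩ := hs
    have : (B.submatrix s id).det = 0 :=
      Matrix.det_zero_of_row_eq hne (by ext k; simp [hij])
    simp [hF, this]
  let Φ : PS r n × Equiv.Perm (Fin r) → (Fin r → n) := fun p => p.1.emb ∘ p.2
  have hΦinj : Function.Injective Φ := by
    rintro ⟨S, σ⟩ ⟨T, τ⟩ h
    have h' : ∀ i, S.emb (σ i) = T.emb (τ i) := fun i => congrFun h i
    have hrange : (S.1 : Set n) = T.1 := by
      rw [← S.range_emb, ← T.range_emb]
      ext x
      constructor
      · rintro ⟨i, rfl⟩
        exact ⟨τ (σ.symm i), by rw [← h']; simp⟩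
      · rintro ⟨i, rfl⟩
        exact ⟨σ (τ.symm i), by rw [h']; simp⟩
    have hST : S = T := Subtype.ext (by exact_mod_cast hrange)
    subst hST
    have : σ = τ := by
      ext i
      have := S.emb_injective (h' i)
      rw [this]
    rw [this]
  have hsum : ∑ s : Fin r → n, F s = ∑ p : PS r n × Equiv.Perm (Fin r), F (Φ p) := by
    rw [← Finset.sum_image (s := Finset.univ) (g := Φ) (f := F) (fun a _ b _ h => hΦinj h)]
    symm
    apply Finset.sum_subset (Finset.subset_univ _)
    intro s _ hs
    apply hzero
    intro hinj
    apply hs
    obtain ⟨S, σ, hSσ⟩ := exists_PS_perm_of_injective s hinj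
    exact Finset.mem_image.mpr ⟨(S, σ), Finset.mem_univ _, funext hSσ⟩
  rw [hsum, Fintype.sum_prod_type]
  apply Finset.sum_congr rfl
  intro S _
  have hB : ∀ σ : Equiv.Perm (Fin r), (B.submatrix (S.emb ∘ σ) id).det =
      (Equiv.Perm.sign σ : R) * (B.submatrix S.emb id).det := by
    intro σ
    have := Matrix.det_permute σ (B.submatrix S.emb id)
    rw [← this]
    rfl
  have hA : (A.submatrix id S.emb).det =
      ∑ σ : Equiv.Perm (Fin r), (Equiv.Perm.sign σ : R) * ∏ i, A i (S.emb (σ i)) := by
    rw [← Matrix.det_transpose, Matrix.det_apply']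
    rfl
  rw [hA, Finset.sum_mul]
  apply Finset.sum_congr rfl
  intro σ _
  show (∏ i, A i ((S.emb ∘ σ) i)) * (B.submatrix (S.emb ∘ σ) id).det = _
  rw [hB σ]
  simp only [Function.comp_apply]
  ring

/-- (CB1') Cauchy–Binet for minors of a product. -/
theorem det_submatrix_mul {r : ℕ} {l n k : Type*} [Fintype n] [LinearOrder n]
    (A : Matrix l n R) (B : Matrix n k R) (u : Fin r → l) (v : Fin r → k) :
    ((A * B).submatrix u v).det =
      ∑ S : PS r n, (A.submatrix u S.emb).det * (B.submatrix S.emb v).det := by
  have h : (A * B).submatrix u v = A.submatrix u id * B.submatrix id v := by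
    ext i j
    simp [Matrix.mul_apply]
  rw [h, det_mul_eq_sum_PS]
  rfl

/-- (CB2) The Gram determinant is the sum of the squares of the maximal minors. -/
theorem det_mul_transpose_eq_sum_sq {r : ℕ} {n : Type*} [Fintype n] [LinearOrder n]
    (A : Matrix (Fin r) n R) :
    (A * A.transpose).det = ∑ S : PS r n, (A.submatrix id S.emb).det ^ 2 := by
  rw [det_mul_eq_sum_PS]
  apply Finset.sum_congr rfl
  intro S _
  have h : A.transpose.submatrix S.emb id = (A.submatrix id S.emb).transpose := rfl
  rw [h, Matrix.det_transpose, sq]

/-- A minor with a repeated column index vanishes. -/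
theorem det_submatrix_id_of_not_injective {r : ℕ} {n : Type*} (M : Matrix (Fin r) n R)
    (s : Fin r → n) (hs : ¬ Function.Injective s) : (M.submatrix id s).det = 0 := by
  rw [Function.Injective] at hs
  push Not at hs
  obtain ⟨i, j, hij, hne⟩ := hs
  exact Matrix.det_zero_of_column_eq hne (by intro k; simp [hij])

/-- A minor along an injective column map is, up to the sign of a permutation, the minor along
the increasing enumeration of its range. -/
theorem exists_PS_sign_det_submatrix {r : ℕ} {n : Type*} [LinearOrder n]
    (M : Matrix (Fin r) n R) (s : Fin r → n) (hs : Function.Injective s) :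
    ∃ (S : PS r n) (σ : Equiv.Perm (Fin r)), (∀ i, S.emb (σ i) = s i) ∧
      (M.submatrix id s).det = (Equiv.Perm.sign σ : R) * (M.submatrix id S.emb).det := by
  obtain ⟨S, σ, hSσ⟩ := exists_PS_perm_of_injective s hs
  refine ⟨S, σ, hSσ, ?_⟩
  have h1 : M.submatrix id s = ((M.submatrix id S.emb).transpose.submatrix σ id).transpose := by
    ext i j
    simp [hSσ]
  rw [h1, Matrix.det_transpose, Matrix.det_permute, Matrix.det_transpose]

/-- (CB0') Multilinear expansion for minors of a product, over all index maps. -/
theorem det_submatrix_mul_fun {r : ℕ} {l n k : Type*} [Fintype n] [DecidableEq n]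
    (A : Matrix l n R) (B : Matrix n k R) (u : Fin r → l) (v : Fin r → k) :
    ((A * B).submatrix u v).det =
      ∑ s : Fin r → n, (∏ i, A (u i) (s i)) * (B.submatrix s v).det := by
  have h : (A * B).submatrix u v = A.submatrix u id * B.submatrix id v := by
    ext i j
    simp [Matrix.mul_apply]
  rw [h, det_mul_eq_sum_fun]
  rfl

end CauchyBinet

section Compound

variable {R : Type*} [CommRing R]

/-- The `r`-th compound matrix: all `r × r` minors. -/
def compound (r : ℕ) {n k : Type*} [LinearOrder n] [LinearOrder k] (M : Matrix n k R) :
    Matrix (PS r n) (PS r k) R :=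
  Matrix.of fun S T => (M.submatrix S.emb T.emb).det

theorem compound_apply (r : ℕ) {n k : Type*} [LinearOrder n] [LinearOrder k] (M : Matrix n k R)
    (S : PS r n) (T : PS r k) : compound r M S T = (M.submatrix S.emb T.emb).det := rfl

/-- Compound matrices are multiplicative (Cauchy–Binet). -/
theorem compound_mul (r : ℕ) {l n k : Type*} [LinearOrder l] [Fintype n] [LinearOrder n]
    [LinearOrder k] (A : Matrix l n R) (B : Matrix n k R) :
    compound r (A * B) = compound r A * compound r B := by
  ext S T
  rw [compound_apply, det_submatrix_mul, Matrix.mul_apply]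
  rfl

theorem compound_transpose (r : ℕ) {n k : Type*} [LinearOrder n] [LinearOrder k]
    (M : Matrix n k R) : compound r M.transpose = (compound r M).transpose := by
  ext S T
  rw [compound_apply, Matrix.transpose_apply, compound_apply, ← Matrix.det_transpose]
  rfl

theorem compound_one (r : ℕ) {n : Type*} [Fintype n] [LinearOrder n] :
    compound r (1 : Matrix n n R) = 1 := by
  classical
  ext S T
  rw [compound_apply, Matrix.one_apply]
  split_ifs with h
  · subst h
    rw [Matrix.submatrix_one _ S.emb_injective, Matrix.det_one]
  · -- some element of `S` is not in `T`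
    have hex : ∃ i, S.emb i ∉ T.1 := by
      by_contra hcon
      push Not at hcon
      apply h
      apply Subtype.ext
      apply Finset.eq_of_subset_of_card_le
      · intro x hx
        have : x ∈ Set.range S.emb := by rw [S.range_emb]; exact hx
        obtain ⟨i, rfl⟩ := this
        exact hcon i
      · rw [S.2, T.2]
    obtain ⟨i, hi⟩ := hex
    apply Matrix.det_eq_zero_of_row_eq_zero i
    intro j
    rw [Matrix.submatrix_apply, Matrix.one_apply_ne]
    intro heq
    exact hi (heq ▸ T.emb_mem j)

end Compound

section Pluecker

variable {R : Type*} [CommRing R] {r : ℕ} {n : Type*} [LinearOrder n]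

/-- Plücker vector (maximal minors) of a frame of `r` vectors in `n → R`. -/
def plk (w : Fin r → n → R) : PS r n → R :=
  fun S => (Matrix.of fun i j => w i (S.emb j)).det

theorem plk_apply (w : Fin r → n → R) (S : PS r n) :
    plk w S = (Matrix.of fun i j => w i (S.emb j)).det := rfl

theorem plk_eq_det_submatrix (w : Fin r → n → R) (S : PS r n) :
    plk w S = ((Matrix.of w).submatrix id S.emb).det := rfl

/-- Frame change: the Plücker vector is multiplied by the determinant. -/
theorem plk_frame_change (g : Matrix (Fin r) (Fin r) R) (w : Fin r → n → R) :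
    plk (fun i => ∑ j, g i j • w j) = g.det • plk w := by
  ext S
  rw [Pi.smul_apply, smul_eq_mul, plk_apply, plk_apply, ← Matrix.det_mul]
  congr 1
  ext i j
  simp [Matrix.mul_apply, Finset.sum_apply]

/-- The Plücker vector of the image frame under a matrix acting on row vectors. -/
theorem plk_vecMul {k : Type*} [Fintype n] [LinearOrder k] (w : Fin r → n → R)
    (M : Matrix n k R) :
    plk (fun i => Matrix.vecMul (w i) M) = Matrix.vecMul (plk w) (compound r M) := by
  ext T
  have h : (Matrix.of fun i j => Matrix.vecMul (w i) M (T.emb j)) =
      ((Matrix.of w) * M).submatrix id T.emb := by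
    ext i j
    simp [Matrix.mul_apply, Matrix.vecMul, dotProduct]
  rw [plk_apply, h, det_submatrix_mul]
  simp only [Matrix.vecMul, dotProduct]
  rfl

/-- The Plücker vector of the image frame under a matrix acting on column vectors. -/
theorem plk_mulVec {k : Type*} [Fintype n] [LinearOrder k] (w : Fin r → n → R)
    (M : Matrix k n R) :
    plk (fun i => Matrix.mulVec M (w i)) = Matrix.mulVec (compound r M) (plk w) := by
  have h1 : (fun i => Matrix.mulVec M (w i)) = fun i => Matrix.vecMul (w i) M.transpose := by
    funext i
    rw [Matrix.vecMul_transpose]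
  rw [h1, plk_vecMul, compound_transpose, Matrix.vecMul_transpose]

end Pluecker

section Field

variable {K : Type*} [Field K] {r : ℕ} {n : Type*} [Fintype n] [LinearOrder n]

omit [LinearOrder n] in
/-- A matrix acting injectively on column vectors has a left inverse. -/
theorem exists_left_inverse_of_mulVec_injective {k : Type*} [Fintype k] [DecidableEq k]
    [DecidableEq n] (M : Matrix k n K) (hM : Function.Injective M.mulVec) :
    ∃ L : Matrix n k K, L * M = 1 := by
  have hker : LinearMap.ker M.mulVecLin = ⊥ := by
    rw [LinearMap.ker_eq_bot]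
    exact hM
  obtain ⟨g, hg⟩ := LinearMap.exists_leftInverse_of_injective M.mulVecLin hker
  refine ⟨LinearMap.toMatrix' g, ?_⟩
  have h1 : LinearMap.toMatrix' (g.comp M.mulVecLin) = LinearMap.toMatrix' g * M := by
    rw [LinearMap.toMatrix'_comp, ← Matrix.toLin'_apply', LinearMap.toMatrix'_toLin']
  rw [← h1, hg, LinearMap.toMatrix'_id]

/-- The compound matrix of an injective matrix is injective. -/
theorem compound_mulVec_injective {k : Type*} [Fintype k] [LinearOrder k] (M : Matrix k n K)
    (hM : Function.Injective M.mulVec) : Function.Injective (compound r M).mulVec := by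
  classical
  obtain ⟨L, hL⟩ := exists_left_inverse_of_mulVec_injective M hM
  have h : compound r L * compound r M = 1 := by
    rw [← compound_mul, hL, compound_one]
  intro x y hxy
  have := congrArg (compound r L).mulVec hxy
  simpa [Matrix.mulVec_mulVec, h] using this

/-- A frame is linearly independent iff its Plücker vector is nonzero. -/
theorem linearIndependent_iff_plk_ne_zero (w : Fin r → n → K) :
    LinearIndependent K w ↔ plk w ≠ 0 := by
  classical
  constructor
  · intro hw hzero
    -- the transpose of the matrix of `w` acts injectively on column vectors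
    have hinj : Function.Injective (Matrix.of w).transpose.mulVec := by
      intro c d hcd
      have h1 : ∑ i, c i • w i = ∑ i, d i • w i := by
        have e : ∀ c : Fin r → K, (Matrix.of w).transpose.mulVec c = ∑ i, c i • w i := by
          intro c
          ext j
          simp [Matrix.mulVec, dotProduct, Finset.sum_apply, mul_comm]
        rw [← e c, ← e d, hcd]
      have h2 : ∑ i, (c i - d i) • w i = 0 := by
        simp [sub_smul, Finset.sum_sub_distrib, h1]
      have h3 := (Fintype.linearIndependent_iff.mp hw) (fun i => c i - d i) h2
      funext i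
      exact sub_eq_zero.mp (h3 i)
    obtain ⟨L, hL⟩ := exists_left_inverse_of_mulVec_injective _ hinj
    have hWL : (Matrix.of w) * L.transpose = 1 := by
      have := congrArg Matrix.transpose hL
      rw [Matrix.transpose_mul, Matrix.transpose_transpose, Matrix.transpose_one] at this
      exact this
    have hdet := det_mul_eq_sum_PS (Matrix.of w) L.transpose
    rw [hWL, Matrix.det_one] at hdet
    have : (∑ S : PS r n, ((Matrix.of w).submatrix id S.emb).det *
        (L.transpose.submatrix S.emb id).det) = 0 := by
      apply Finset.sum_eq_zero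
      intro S _
      have hS : ((Matrix.of w).submatrix id S.emb).det = 0 := by
        have := congrFun hzero S
        rw [plk_eq_det_submatrix] at this
        exact this
      rw [hS, zero_mul]
    rw [this] at hdet
    exact one_ne_zero hdet
  · intro hne
    obtain ⟨S, hS⟩ : ∃ S, plk w S ≠ 0 := by
      by_contra hcon
      push Not at hcon
      exact hne (funext hcon)
    have hrows : LinearIndependent K (fun i => (Matrix.of fun i j => w i (S.emb j)) i) :=
      Matrix.linearIndependent_rows_of_det_ne_zero hS
    let f : (n → K) →ₗ[K] (Fin r → K) :=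
      { toFun := fun x j => x (S.emb j)
        map_add' := fun x y => rfl
        map_smul' := fun c x => rfl }
    exact LinearIndependent.of_comp f hrows

end Field

section Height

variable {K : Type*} [Field K] [Height.AdmissibleAbsValues K] {r : ℕ} {n : Type*}
  [Fintype n] [LinearOrder n]

/-- Two frames of the same subspace have Plücker vectors of the same height. -/
theorem mulHeight_plk_eq_of_span_eq (w w' : Fin r → n → K) (hw' : LinearIndependent K w')
    (h : Submodule.span K (Set.range w') ≤ Submodule.span K (Set.range w)) :
    Height.mulHeight (plk w') = Height.mulHeight (plk w) := by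
  classical
  have hmem : ∀ i, ∃ c : Fin r → K, ∑ j, c j • w j = w' i := by
    intro i
    have : w' i ∈ Submodule.span K (Set.range w) :=
      h (Submodule.subset_span (Set.mem_range_self i))
    exact (Submodule.mem_span_range_iff_exists_fun K).mp this
  choose g hg using hmem
  have hw'eq : w' = fun i => ∑ j, (Matrix.of g) i j • w j := by
    funext i
    exact (hg i).symm
  have hplk : plk w' = (Matrix.of g).det • plk w := by
    rw [hw'eq]
    exact plk_frame_change (Matrix.of g) w
  have hdet : (Matrix.of g).det ≠ 0 := by
    intro h0
    rw [h0, zero_smul] at hplk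
    exact (linearIndependent_iff_plk_ne_zero w').mp hw' hplk
  rw [hplk]
  exact Height.mulHeight_smul_eq_mulHeight _ hdet

end Height

end Fermat.Agent.Lib.helper2817
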