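/-
Annihilator duality of Pluecker heights in the vocabulary of `helper2817_Pluecker`
(`PS r n`, `plk`).  Adapter on top of `helper1245_PlueckerDual`.
-/
import Fermat.Agent.Lib.helper1245_PlueckerDual
import Fermat.Agent.Lib.helper2817_Pluecker

namespace Fermat.Agent.Lib.helper1245

open Height Fermat.Agent.Lib.helper2817

variable {K : Type*} [Field K] [AdmissibleAbsValues K] {n : Type*} [Fintype n] [LinearOrder n]

/-- The height of the maximal minors indexed by all maps `Fin r → n` equals the height of the
Pluecker vector `plk` (indexed by `r`-subsets). -/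
theorem mulHeight_minors_fun_eq_plk {r : ℕ} (w : Fin r → n → K) :
    mulHeight (fun s : Fin r → n => ((Matrix.of w).submatrix id s).det) = mulHeight (plk w) := by
  apply le_antisymm
  · refine mulHeight_le_of_forall_eq_zero_or _ _ fun s => ?_
    by_cases hs : Function.Injective s
    · obtain ⟨S, σ, -, hdet⟩ := exists_PS_sign_det_submatrix (Matrix.of w) s hs
      refine Or.inr ⟨S, ?_⟩
      rw [hdet, plk_eq_det_submatrix]
      rcases Int.units_eq_one_or (Equiv.Perm.sign σ) with h1 | h1
      · left; rw [h1]; push_cast; ring
      · right; rw [h1]; push_cast; ring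
    · exact Or.inl (det_submatrix_id_of_not_injective (Matrix.of w) s hs)
  · exact mulHeight_comp_le (fun S : PS r n => (S.emb : Fin r → n))
      (fun s : Fin r → n => ((Matrix.of w).submatrix id s).det)

/-- **Annihilator duality of Pluecker heights.**  `b` is a frame of a subspace `W` of `n → K`
of dimension `r`, `c` a frame of its annihilator for the dot product (dimension `k`,
`r + k = card n`).  Then `plk b` and `plk c` have the same height. -/
theorem mulHeight_plk_eq_of_orthogonal {r k : ℕ} (b : Fin r → n → K) (c : Fin k → n → K)
    (hb : LinearIndependent K b) (hc : LinearIndependent K c)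
    (horth : ∀ i j, b i ⬝ᵥ c j = 0) (hcard : Fintype.card n = r + k) :
    mulHeight (plk b) = mulHeight (plk c) := by
  classical
  have hBC : Matrix.of b * (Matrix.of c).transpose = 0 := by
    ext i j
    simpa [Matrix.mul_apply, dotProduct] using horth i j
  have e₀ : Fin r ⊕ Fin k ≃ n := by
    apply Fintype.equivOfCardEq
    rw [Fintype.card_sum, Fintype.card_fin, Fintype.card_fin, hcard]
  rw [← mulHeight_minors_fun_eq_plk, ← mulHeight_minors_fun_eq_plk]
  exact mulHeight_minors_eq_of_mul_transpose_eq_zero (Matrix.of b) (Matrix.of c) hb hc hBC e₀

/-- Kernel form: `E` an evaluation matrix with linearly independent rows (`k` conditions),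
`b` a frame of `r = card n - k` independent vectors of its kernel.  Then the Pluecker vector of
the kernel frame and the vector of maximal minors of `E` have the same height. -/
theorem mulHeight_plk_ker_eq_plk_rows {r k : ℕ} (E : Matrix (Fin k) n K) (b : Fin r → n → K)
    (hE : LinearIndependent K E.row) (hb : LinearIndependent K b)
    (hker : ∀ i, E.mulVec (b i) = 0) (hcard : Fintype.card n = r + k) :
    mulHeight (plk b) = mulHeight (plk (fun j => E j)) := by
  refine mulHeight_plk_eq_of_orthogonal b (fun j => E j) hb hE (fun i j => ?_) hcard
  have h := congrFun (hker i) j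
  rw [dotProduct_comm]
  simpa [Matrix.mulVec] using h

end Fermat.Agent.Lib.helper1245
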