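import Mathlib

set_option autoImplicit false

/-!
# Heights of algebraic numbers: Northcott in bounded degree, roots versus coefficients

Mathlib-only bricks for S17 (Mordell–Weil), pieces (A6) and (A7) of the absolute-height layer.

* (A6) **Northcott in bounded degree**: in a field `Ω` of characteristic zero there are only
  finitely many `x` that come from a number field of degree `≤ D` in which their (unnormalised)
  height is `≤ B`.  Corollaries for Mathlib's `NumberField.absMulHeight₁`, `absLogHeight₁`.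
* (A7) **roots versus coefficients** of a monic split polynomial over a number field.
-/

namespace Fermat.Agent.Lib.helper1256

open NumberField Module Polynomial

universe u v

section Northcott

/-- Every complex embedding of `y` is bounded by the (unnormalised) multiplicative height. -/
theorem norm_embedding_le_mulHeight₁ {K : Type*} [Field K] [NumberField K] (ψ : K →+* ℂ)
    (y : K) : ‖ψ y‖ ≤ Height.mulHeight₁ y := by
  classical
  rw [NumberField.mulHeight₁_eq]
  have h1 : (1 : ℝ) ≤ ∏ᶠ v : FinitePlace K, max (v y) 1 :=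
    one_le_finprod fun v => le_max_right _ _
  have h2 : ‖ψ y‖ ≤ ∏ v : InfinitePlace K, max (v y) 1 ^ v.mult := by
    have h3 : ∀ v : InfinitePlace K, (1 : ℝ) ≤ max (v y) 1 ^ v.mult := fun v =>
      one_le_pow₀ (le_max_right _ _)
    have h4 : max ((InfinitePlace.mk ψ) y) 1 ^ (InfinitePlace.mk ψ).mult ≤
        ∏ v : InfinitePlace K, max (v y) 1 ^ v.mult := by
      rw [← Finset.prod_erase_mul _ _ (Finset.mem_univ (InfinitePlace.mk ψ))]
      refine le_mul_of_one_le_left (by positivity) ?_
      exact Finset.one_le_prod fun v _ => h3 v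
    refine le_trans ?_ h4
    have h5 : ‖ψ y‖ ≤ max ((InfinitePlace.mk ψ) y) 1 := by
      rw [InfinitePlace.apply]; exact le_max_left _ _
    refine h5.trans ?_
    exact le_self_pow₀ (le_max_right _ _) (InfinitePlace.mk ψ).mult_ne_zero
  calc ‖ψ y‖ ≤ ∏ v : InfinitePlace K, max (v y) 1 ^ v.mult := h2
    _ = (∏ v : InfinitePlace K, max (v y) 1 ^ v.mult) * 1 := (mul_one _).symm
    _ ≤ _ := by
      refine mul_le_mul_of_nonneg_left h1 ?_
      exact Finset.prod_nonneg fun v _ => by positivity

/-- **Pointwise core of Northcott in bounded degree.**  If `y` lies in a number field `K` of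
degree `≤ D` and has (unnormalised) height `≤ B` there, then for every ring hom `φ : K →+* Ω`
the element `n * φ y` is a root of a monic integer polynomial of degree `≤ D` with coefficients
bounded by `(B * B) ^ D * 2 ^ D`, for some positive integer `n ≤ B`. -/
theorem exists_nat_exists_poly_of_mulHeight₁_le {Ω : Type*} [Field Ω]
    {K : Type*} [Field K] [NumberField K] (φ : K →+* Ω) (y : K) {D : ℕ} {B : ℝ}
    (hD : finrank ℚ K ≤ D) (hB : Height.mulHeight₁ y ≤ B) :
    ∃ n : ℕ, n ≠ 0 ∧ (n : ℝ) ≤ B ∧ ∃ f : ℤ[X], f.Monic ∧ f.natDegree ≤ D ∧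
      (∀ i, ((|f.coeff i| : ℤ) : ℝ) ≤ (B * B) ^ D * 2 ^ D) ∧
      (f.map (Int.castRingHom Ω)).IsRoot ((n : Ω) * φ y) := by
  obtain ⟨n, hn, hnH, hint⟩ := NumberField.exists_nat_le_mulHeight₁ y
  have hB1 : 1 ≤ B := (Height.one_le_mulHeight₁ y).trans hB
  have hBB : 1 ≤ B * B := one_le_mul_of_one_le_of_one_le hB1 hB1
  have hemb : ∀ ψ : K →+* ℂ, ‖ψ ((n : K) * y)‖ ≤ B * B := by
    intro ψ
    rw [map_mul, norm_mul, map_natCast, Complex.norm_natCast]
    exact mul_le_mul (hnH.trans hB) ((norm_embedding_le_mulHeight₁ ψ y).trans hB)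
      (norm_nonneg _) (by linarith)
  have hmap := minpoly.isIntegrallyClosed_eq_field_fractions' ℚ hint
  refine ⟨n, hn, hnH.trans hB, minpoly ℤ ((n : K) * y), minpoly.monic hint, ?_, ?_, ?_⟩
  · have h1 : (minpoly ℤ ((n : K) * y)).natDegree = (minpoly ℚ ((n : K) * y)).natDegree := by
      rw [hmap, (minpoly.monic hint).natDegree_map]
    rw [h1]
    exact (minpoly.natDegree_le _).trans hD
  · intro i
    have h1 : ((|(minpoly ℤ ((n : K) * y)).coeff i| : ℤ) : ℝ) =
        ‖(minpoly ℚ ((n : K) * y)).coeff i‖ := by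
      rw [hmap, coeff_map, eq_intCast, Int.norm_cast_rat, Int.norm_eq_abs, Int.cast_abs]
    rw [h1]
    refine (NumberField.Embeddings.coeff_bdd_of_norm_le hemb i).trans ?_
    rw [max_eq_left hBB]
    have h2 : (B * B) ^ finrank ℚ K ≤ (B * B) ^ D := pow_le_pow_right₀ hBB hD
    have h3 : (((finrank ℚ K).choose (finrank ℚ K / 2) : ℕ) : ℝ) ≤ 2 ^ D := by
      have h4 : (finrank ℚ K).choose (finrank ℚ K / 2) ≤ 2 ^ D :=
        (Nat.choose_le_two_pow _ _).trans (Nat.pow_le_pow_right (by norm_num) hD)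
      exact_mod_cast h4
    exact mul_le_mul h2 h3 (Nat.cast_nonneg _) (by positivity)
  · have h1 : Polynomial.eval₂ (algebraMap ℤ K) ((n : K) * y) (minpoly ℤ ((n : K) * y)) = 0 := by
      have := minpoly.aeval ℤ ((n : K) * y)
      rwa [Polynomial.aeval_def] at this
    have h2 := Polynomial.hom_eval₂ (minpoly ℤ ((n : K) * y)) (algebraMap ℤ K) φ ((n : K) * y)
    rw [h1, map_zero, map_mul, map_natCast] at h2
    rw [Polynomial.IsRoot.def, Polynomial.eval_map,
      show Int.castRingHom Ω = φ.comp (algebraMap ℤ K) from RingHom.ext_int _ _]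
    exact h2.symm

/-- **Northcott in bounded degree, definition-free form.**  In a field `Ω` of characteristic
zero, only finitely many elements are the image of an element of (unnormalised) height `≤ B`
of a number field of degree `≤ D`. -/
theorem finite_setOf_exists_numberField_mulHeight₁_le (Ω : Type v) [Field Ω] [CharZero Ω]
    (D : ℕ) (B : ℝ) :
    {x : Ω | ∃ (K : Type u) (_ : Field K) (_ : NumberField K) (φ : K →+* Ω) (y : K),
        φ y = x ∧ finrank ℚ K ≤ D ∧ Height.mulHeight₁ y ≤ B}.Finite := by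
  classical
  set C : ℕ := ⌈(B * B) ^ D * 2 ^ D⌉₊ with hC
  have hfin := Polynomial.bUnion_roots_finite (Int.castRingHom Ω) D
    (Set.finite_Icc (-(C : ℤ)) C)
  have hS : (⋃ n ∈ Finset.Icc 1 ⌊B⌋₊, (fun z : Ω => (n : Ω) * z) ⁻¹'
      (⋃ (f : ℤ[X]) (_ : f.natDegree ≤ D ∧ ∀ i, f.coeff i ∈ Set.Icc (-(C : ℤ)) C),
        ((f.map (Int.castRingHom Ω)).roots.toFinset : Set Ω))).Finite := by
    refine Set.Finite.biUnion (Finset.finite_toSet _) fun n hn => ?_
    refine Set.Finite.preimage ?_ hfin
    have hn0 : (n : Ω) ≠ 0 := by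
      have : 1 ≤ n := (Finset.mem_Icc.mp hn).1
      exact Nat.cast_ne_zero.mpr (by omega)
    exact (mul_right_injective₀ hn0).injOn
  refine hS.subset ?_
  rintro x ⟨K, _, _, φ, y, rfl, hD, hB⟩
  obtain ⟨n, hn, hnB, f, hmonic, hdeg, hcoef, hroot⟩ :=
    exists_nat_exists_poly_of_mulHeight₁_le φ y hD hB
  simp only [Set.mem_iUnion, Set.mem_preimage, exists_prop]
  refine ⟨n, ?_, f, ⟨hdeg, fun i => ?_⟩, ?_⟩
  · exact Finset.mem_coe.mpr (Finset.mem_Icc.mpr ⟨Nat.one_le_iff_ne_zero.mpr hn, Nat.le_floor hnB⟩)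
  · rw [Set.mem_Icc, ← abs_le]
    have h1 : ((|f.coeff i| : ℤ) : ℝ) ≤ (C : ℝ) := (hcoef i).trans (Nat.le_ceil _)
    exact_mod_cast h1
  · rw [Finset.mem_coe, Multiset.mem_toFinset, Polynomial.mem_roots (hmonic.map _).ne_zero]
    exact hroot

open IntermediateField in
/-- Mathlib's absolute multiplicative height, unfolded for an algebraic element. -/
theorem absMulHeight₁_eq_of_isIntegral {Ω : Type*} [Field Ω] [CharZero Ω] {x : Ω}
    (hx : IsIntegral ℚ x) :
    haveI : FiniteDimensional ℚ ℚ⟮x⟯ := adjoin.finiteDimensional hx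
    haveI : NumberField ℚ⟮x⟯ := {}
    NumberField.absMulHeight₁ x =
      Height.mulHeight₁ (AdjoinSimple.gen ℚ x) ^ ((finrank ℚ ℚ⟮x⟯ : ℝ)⁻¹) := by
  rw [NumberField.absMulHeight₁, dif_pos hx]

/-- Mathlib's absolute multiplicative height is at least `1`. -/
theorem one_le_absMulHeight₁ {Ω : Type*} [Field Ω] [CharZero Ω] (x : Ω) :
    1 ≤ NumberField.absMulHeight₁ x := by
  by_cases hx : IsIntegral ℚ x
  · have : FiniteDimensional ℚ (IntermediateField.adjoin ℚ {x}) :=
      IntermediateField.adjoin.finiteDimensional hx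
    have : NumberField (IntermediateField.adjoin ℚ {x}) := {}
    rw [absMulHeight₁_eq_of_isIntegral hx]
    exact Real.one_le_rpow (Height.one_le_mulHeight₁ _) (by positivity)
  · rw [NumberField.absMulHeight₁, dif_neg hx]

/-- Mathlib's absolute logarithmic height is nonnegative. -/
theorem absLogHeight₁_nonneg {Ω : Type*} [Field Ω] [CharZero Ω] (x : Ω) :
    0 ≤ NumberField.absLogHeight₁ x :=
  Real.log_nonneg (one_le_absMulHeight₁ x)

open IntermediateField in
/-- **Northcott in bounded degree** for Mathlib's absolute multiplicative height. -/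
theorem finite_setOf_natDegree_le_absMulHeight₁_le (Ω : Type v) [Field Ω] [CharZero Ω]
    (D : ℕ) (B : ℝ) :
    {x : Ω | IsIntegral ℚ x ∧ (minpoly ℚ x).natDegree ≤ D ∧
      NumberField.absMulHeight₁ x ≤ B}.Finite := by
  refine (finite_setOf_exists_numberField_mulHeight₁_le.{v, v} Ω D (max B 1 ^ D)).subset ?_
  rintro x ⟨hx, hdeg, hB⟩
  have : FiniteDimensional ℚ ℚ⟮x⟯ := adjoin.finiteDimensional hx
  have : NumberField ℚ⟮x⟯ := {}
  refine ⟨ℚ⟮x⟯, inferInstance, inferInstance, algebraMap ℚ⟮x⟯ Ω, AdjoinSimple.gen ℚ x,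
    AdjoinSimple.algebraMap_gen ℚ x, ?_, ?_⟩
  · rw [adjoin.finrank hx]; exact hdeg
  · rw [absMulHeight₁_eq_of_isIntegral hx] at hB
    have hd : finrank ℚ ℚ⟮x⟯ ≠ 0 := finrank_pos.ne'
    have hdD : finrank ℚ ℚ⟮x⟯ ≤ D := by rw [adjoin.finrank hx]; exact hdeg
    have hH0 : (0 : ℝ) ≤ Height.mulHeight₁ (AdjoinSimple.gen ℚ x) := Height.mulHeight₁_nonneg _
    have h1 := Real.rpow_inv_natCast_pow hH0 hd
    have h2 : Height.mulHeight₁ (AdjoinSimple.gen ℚ x) ^ ((finrank ℚ ℚ⟮x⟯ : ℝ)⁻¹) ≤ max B 1 :=
      hB.trans (le_max_left _ _)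
    have h3 := pow_le_pow_left₀ (Real.rpow_nonneg hH0 _) h2 (finrank ℚ ℚ⟮x⟯)
    rw [h1] at h3
    exact h3.trans (pow_le_pow_right₀ (le_max_right _ _) hdD)

/-- **Northcott in bounded degree** for Mathlib's absolute logarithmic height. -/
theorem finite_setOf_natDegree_le_absLogHeight₁_le (Ω : Type v) [Field Ω] [CharZero Ω]
    (D : ℕ) (B : ℝ) :
    {x : Ω | IsIntegral ℚ x ∧ (minpoly ℚ x).natDegree ≤ D ∧
      NumberField.absLogHeight₁ x ≤ B}.Finite := by
  refine (finite_setOf_natDegree_le_absMulHeight₁_le Ω D (Real.exp B)).subset ?_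
  rintro x ⟨hx, hdeg, hB⟩
  refine ⟨hx, hdeg, ?_⟩
  have hpos : 0 < NumberField.absMulHeight₁ x := lt_of_lt_of_le one_pos (one_le_absMulHeight₁ x)
  exact (Real.log_le_iff_le_exp hpos).mp hB

end Northcott

section RootsCoeffLocal

/-- The Gauss norm (radius `1`) of `X - C a` for an absolute value. -/
theorem gaussNorm_X_sub_C {K : Type*} [Field K] (v : AbsoluteValue K ℝ) (a : K) :
    (X - C a : K[X]).gaussNorm v 1 = max (v a) 1 := by
  apply le_antisymm
  · obtain ⟨i, hi⟩ := (X - C a : K[X]).exists_eq_gaussNorm v 1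
    rw [hi, one_pow, mul_one]
    rcases i with _ | _ | i
    · simp
    · simp
    · simp [coeff_X]
  · apply max_le
    · have := (X - C a : K[X]).le_gaussNorm v zero_le_one 0
      simpa using this
    · have := (X - C a : K[X]).le_gaussNorm v zero_le_one 1
      simpa using this

/-- **Gauss's lemma** for a product of linear factors: the Gauss norm of `∏ (X - α i)` at a
nonarchimedean absolute value is `∏ max (v (α i)) 1`. -/
theorem gaussNorm_prod_X_sub_C {K : Type*} [Field K] {v : AbsoluteValue K ℝ}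
    (hna : IsNonarchimedean v) {ι : Type*} (s : Finset ι) (α : ι → K) :
    (∏ i ∈ s, (X - C (α i)) : K[X]).gaussNorm v 1 = ∏ i ∈ s, max (v (α i)) 1 := by
  classical
  induction s using Finset.induction_on with
  | empty =>
    rw [Finset.prod_empty, Finset.prod_empty, ← C_1, gaussNorm_C, map_one]
  | insert a s ha ih =>
    rw [Finset.prod_insert ha, Finset.prod_insert ha, gaussNorm_mul hna one_pos, ih,
      gaussNorm_X_sub_C]

/-- The supremum of the absolute values of the first `N + 1` coefficients is the Gauss norm,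
as soon as `N` is at least the degree. -/
theorem iSup_coeff_eq_gaussNorm {K : Type*} [Field K] (v : AbsoluteValue K ℝ) (P : K[X])
    {N : ℕ} (hN : P.natDegree ≤ N) :
    ⨆ j : Fin (N + 1), v (P.coeff j) = P.gaussNorm v 1 := by
  apply le_antisymm
  · refine ciSup_le fun j => ?_
    have := P.le_gaussNorm v zero_le_one j
    simpa using this
  · obtain ⟨i, hi⟩ := P.exists_eq_gaussNorm v 1
    rw [hi, one_pow, mul_one]
    by_cases hiN : i ≤ N
    · exact Finite.le_ciSup_of_le (⟨i, Nat.lt_succ_of_le hiN⟩ : Fin (N + 1)) le_rfl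
    · rw [coeff_eq_zero_of_natDegree_lt (by omega), map_zero]
      exact Real.iSup_nonneg fun j => v.nonneg _

/-- Mahler measure of a product of linear factors. -/
theorem mahlerMeasure_prod_X_sub_C {ι : Type*} (s : Finset ι) (z : ι → ℂ) :
    (∏ i ∈ s, (X - C (z i)) : ℂ[X]).mahlerMeasure = ∏ i ∈ s, max ‖z i‖ 1 := by
  classical
  induction s using Finset.induction_on with
  | empty => simp
  | insert a s ha ih =>
    rw [Finset.prod_insert ha, Finset.prod_insert ha, mahlerMeasure_mul, ih,
      mahlerMeasure_X_sub_C, max_comm]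

/-- Archimedean upper bound: the coefficients of `∏ (X - z i)` are bounded by
`2 ^ d * ∏ max ‖z i‖ 1`. -/
theorem norm_coeff_prod_X_sub_C_le {ι : Type*} (s : Finset ι) (z : ι → ℂ) (j : ℕ) :
    ‖(∏ i ∈ s, (X - C (z i)) : ℂ[X]).coeff j‖ ≤ 2 ^ s.card * ∏ i ∈ s, max ‖z i‖ 1 := by
  have h1 := norm_coeff_le_choose_mul_mahlerMeasure j (∏ i ∈ s, (X - C (z i)) : ℂ[X])
  rw [mahlerMeasure_prod_X_sub_C, natDegree_finsetProd_X_sub_C_eq_card] at h1
  refine h1.trans ?_
  have h2 : ((s.card.choose j : ℕ) : ℝ) ≤ 2 ^ s.card := by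
    exact_mod_cast Nat.choose_le_two_pow _ _
  exact mul_le_mul_of_nonneg_right h2 (Finset.prod_nonneg fun i _ => by positivity)

/-- Archimedean lower bound: `∏ max ‖z i‖ 1` is bounded by `2 ^ d` times any bound for the
coefficients of `∏ (X - z i)`. -/
theorem prod_max_norm_le_of_coeff_le {ι : Type*} (s : Finset ι) (z : ι → ℂ) {M : ℝ}
    (hM : ∀ j ≤ s.card, ‖(∏ i ∈ s, (X - C (z i)) : ℂ[X]).coeff j‖ ≤ M) :
    ∏ i ∈ s, max ‖z i‖ 1 ≤ 2 ^ s.card * M := by
  set P : ℂ[X] := ∏ i ∈ s, (X - C (z i)) with hP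
  have hdeg : P.natDegree = s.card := natDegree_finsetProd_X_sub_C_eq_card s z
  have h1 := mahlerMeasure_le_sum_norm_coeff P
  rw [hP, mahlerMeasure_prod_X_sub_C, ← hP,
    Polynomial.sum_over_range' P (fun n => norm_zero) (s.card + 1) (by omega)] at h1
  refine h1.trans ?_
  have h2 : ∑ j ∈ Finset.range (s.card + 1), ‖P.coeff j‖ ≤
      ∑ _j ∈ Finset.range (s.card + 1), M :=
    Finset.sum_le_sum fun j hj => hM j (by have := Finset.mem_range.mp hj; omega)
  refine h2.trans ?_
  rw [Finset.sum_const, Finset.card_range, nsmul_eq_mul]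
  have hM0 : 0 ≤ M := (norm_nonneg _).trans (hM 0 (Nat.zero_le _))
  have h3 : ((s.card + 1 : ℕ) : ℝ) ≤ 2 ^ s.card := by
    exact_mod_cast Nat.succ_le_of_lt (Nat.lt_two_pow_self)
  exact mul_le_mul_of_nonneg_right h3 hM0

end RootsCoeffLocal

section RootsCoeffGlobal

variable {K : Type*} [Field K] [NumberField K]

/-- Bookkeeping for the archimedean parts of heights. -/
theorem prod_pow_mult_le_of_le (f g : InfinitePlace K → ℝ) {C : ℝ}
    (hf : ∀ v, 0 ≤ f v) (h : ∀ v, f v ≤ C * g v) :
    ∏ v, f v ^ v.mult ≤ C ^ finrank ℚ K * ∏ v, g v ^ v.mult := by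
  calc ∏ v, f v ^ v.mult ≤ ∏ v, (C * g v) ^ v.mult :=
        Finset.prod_le_prod (fun v _ => pow_nonneg (hf v) _)
          fun v _ => pow_le_pow_left₀ (hf v) (h v) _
    _ = C ^ finrank ℚ K * ∏ v, g v ^ v.mult := by
        simp_rw [mul_pow]
        rw [Finset.prod_mul_distrib, Finset.prod_pow_eq_pow_sum, InfinitePlace.sum_mult_eq]

variable {ι : Type*} [Fintype ι]

theorem hasFiniteMulSupport_max_finitePlace (x : K) :
    (fun w : FinitePlace K => max (w x) 1).HasFiniteMulSupport := by
  rcases eq_or_ne x 0 with rfl | hx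
  · simp [Function.HasFiniteMulSupport]
  · exact (FinitePlace.hasFiniteMulSupport hx).max Function.hasFiniteMulSupport_fun_one

/-- The product of the heights of finitely many elements, place by place. -/
theorem prod_mulHeight₁_eq (α : ι → K) :
    ∏ i, Height.mulHeight₁ (α i) =
      (∏ v : InfinitePlace K, (∏ i, max (v (α i)) 1) ^ v.mult) *
        ∏ᶠ w : FinitePlace K, ∏ i, max (w (α i)) 1 := by
  simp_rw [NumberField.mulHeight₁_eq]
  rw [Finset.prod_mul_distrib, Finset.prod_comm,
    finprod_prod_comm _ _ fun i _ => hasFiniteMulSupport_max_finitePlace (α i)]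
  simp_rw [Finset.prod_pow]

/-- At a finite place, the maximum of the coefficients of `∏ (X - α i)` is
`∏ max (w (α i)) 1` (Gauss's lemma). -/
theorem iSup_finitePlace_coeff_prod_X_sub_C (α : ι → K) {N : ℕ} (hN : Fintype.card ι ≤ N)
    (w : FinitePlace K) :
    ⨆ j : Fin (N + 1), w ((∏ i, (X - C (α i)) : K[X]).coeff j) = ∏ i, max (w (α i)) 1 := by
  have hna : IsNonarchimedean w.val := FinitePlace.add_le w
  have h1 := iSup_coeff_eq_gaussNorm w.val (∏ i, (X - C (α i)) : K[X]) (N := N)
    (by rw [natDegree_finsetProd_X_sub_C_eq_card]; simpa using hN)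
  rw [gaussNorm_prod_X_sub_C hna] at h1
  exact h1

omit [NumberField K] in
theorem map_embedding_prod_X_sub_C (α : ι → K) (φ : K →+* ℂ) :
    (∏ i, (X - C (α i)) : K[X]).map φ = ∏ i, (X - C (φ (α i))) := by
  simp [Polynomial.map_prod]

omit [NumberField K] in
/-- At an infinite place, the coefficients of `∏ (X - α i)` are bounded by
`2 ^ d * ∏ max (v (α i)) 1`. -/
theorem iSup_infinitePlace_coeff_prod_X_sub_C_le (α : ι → K) (N : ℕ) (v : InfinitePlace K) :
    ⨆ j : Fin (N + 1), v ((∏ i, (X - C (α i)) : K[X]).coeff j) ≤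
      2 ^ Fintype.card ι * ∏ i, max (v (α i)) 1 := by
  refine ciSup_le fun j => ?_
  have h := norm_coeff_prod_X_sub_C_le Finset.univ (fun i => v.embedding (α i)) j
  rw [← map_embedding_prod_X_sub_C, coeff_map, InfinitePlace.norm_embedding_eq] at h
  simp_rw [InfinitePlace.norm_embedding_eq] at h
  exact h

omit [NumberField K] in
/-- At an infinite place, `∏ max (v (α i)) 1` is bounded by `2 ^ d` times the maximum of the
coefficients of `∏ (X - α i)` (Mahler measure). -/
theorem prod_max_infinitePlace_le (α : ι → K) {N : ℕ} (hN : Fintype.card ι ≤ N)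
    (v : InfinitePlace K) :
    ∏ i, max (v (α i)) 1 ≤
      2 ^ Fintype.card ι * ⨆ j : Fin (N + 1), v ((∏ i, (X - C (α i)) : K[X]).coeff j) := by
  have h := prod_max_norm_le_of_coeff_le Finset.univ (fun i => v.embedding (α i))
    (M := ⨆ j : Fin (N + 1), v ((∏ i, (X - C (α i)) : K[X]).coeff j)) ?_
  · simp_rw [InfinitePlace.norm_embedding_eq] at h
    exact h
  · intro j hj
    rw [← map_embedding_prod_X_sub_C, coeff_map, InfinitePlace.norm_embedding_eq]
    have hj' : j < N + 1 := by
      have : j ≤ Fintype.card ι := hj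
      omega
    exact Finite.le_ciSup_of_le (⟨j, hj'⟩ : Fin (N + 1)) le_rfl

theorem coeff_tuple_prod_X_sub_C_ne_zero (α : ι → K) {N : ℕ} (hN : Fintype.card ι ≤ N) :
    (fun j : Fin (N + 1) => (∏ i, (X - C (α i)) : K[X]).coeff j) ≠ 0 := by
  intro h
  have h1 := congrFun h ⟨Fintype.card ι, by omega⟩
  have hmonic : (∏ i, (X - C (α i)) : K[X]).Monic := monic_prod_X_sub_C α Finset.univ
  have hdeg : (∏ i, (X - C (α i)) : K[X]).natDegree = Fintype.card ι := by
    rw [natDegree_finsetProd_X_sub_C_eq_card]; rfl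
  have h2 := hmonic.coeff_natDegree
  rw [hdeg] at h2
  simp only [Pi.zero_apply] at h1
  rw [h2] at h1
  exact one_ne_zero h1

/-- **Roots versus coefficients, upper bound.**  The height of the coefficient vector of
`∏ (X - α i)` is at most `2 ^ (d * [K : ℚ])` times the product of the heights of the roots. -/
theorem mulHeight_coeff_prod_X_sub_C_le (α : ι → K) {N : ℕ} (hN : Fintype.card ι ≤ N) :
    Height.mulHeight (fun j : Fin (N + 1) => (∏ i, (X - C (α i)) : K[X]).coeff j) ≤
      2 ^ (Fintype.card ι * finrank ℚ K) * ∏ i, Height.mulHeight₁ (α i) := by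
  rw [NumberField.mulHeight_eq (coeff_tuple_prod_X_sub_C_ne_zero α hN), prod_mulHeight₁_eq,
    finprod_congr (iSup_finitePlace_coeff_prod_X_sub_C α hN), pow_mul, ← mul_assoc]
  refine mul_le_mul_of_nonneg_right ?_
    (finprod_nonneg fun w => Finset.prod_nonneg fun i _ => by positivity)
  exact prod_pow_mult_le_of_le _ _ (fun v => Real.iSup_nonneg fun j => apply_nonneg v _)
    (iSup_infinitePlace_coeff_prod_X_sub_C_le α N)

/-- **Roots versus coefficients, lower bound.**  The product of the heights of the roots is at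
most `2 ^ (d * [K : ℚ])` times the height of the coefficient vector of `∏ (X - α i)`. -/
theorem prod_mulHeight₁_le_mulHeight_coeff_prod_X_sub_C (α : ι → K) {N : ℕ}
    (hN : Fintype.card ι ≤ N) :
    ∏ i, Height.mulHeight₁ (α i) ≤ 2 ^ (Fintype.card ι * finrank ℚ K) *
      Height.mulHeight (fun j : Fin (N + 1) => (∏ i, (X - C (α i)) : K[X]).coeff j) := by
  rw [NumberField.mulHeight_eq (coeff_tuple_prod_X_sub_C_ne_zero α hN), prod_mulHeight₁_eq,
    finprod_congr (iSup_finitePlace_coeff_prod_X_sub_C α hN), pow_mul, ← mul_assoc]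
  refine mul_le_mul_of_nonneg_right ?_
    (finprod_nonneg fun w => Finset.prod_nonneg fun i _ => by positivity)
  exact prod_pow_mult_le_of_le _ _ (fun v => Finset.prod_nonneg fun i _ => by positivity)
    (prod_max_infinitePlace_le α hN)

/-- **Roots versus coefficients, logarithmic form.** -/
theorem abs_sum_logHeight₁_sub_logHeight_coeff_prod_X_sub_C_le (α : ι → K) {N : ℕ}
    (hN : Fintype.card ι ≤ N) :
    |∑ i, Height.logHeight₁ (α i) -
        Height.logHeight (fun j : Fin (N + 1) => (∏ i, (X - C (α i)) : K[X]).coeff j)| ≤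
      Fintype.card ι * finrank ℚ K * Real.log 2 := by
  have hU := mulHeight_coeff_prod_X_sub_C_le α hN
  have hL := prod_mulHeight₁_le_mulHeight_coeff_prod_X_sub_C α hN
  have hpos : 0 < Height.mulHeight
      (fun j : Fin (N + 1) => (∏ i, (X - C (α i)) : K[X]).coeff j) := Height.mulHeight_pos _
  have hprod : 0 < ∏ i, Height.mulHeight₁ (α i) :=
    Finset.prod_pos fun i _ => Height.mulHeight₁_pos _
  have hsum : ∑ i, Height.logHeight₁ (α i) = Real.log (∏ i, Height.mulHeight₁ (α i)) := by
    rw [Real.log_prod fun i _ => (Height.mulHeight₁_pos (α i)).ne']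
    rfl
  have h2 : (0 : ℝ) < 2 ^ (Fintype.card ι * finrank ℚ K) := by positivity
  have hU' := Real.log_le_log hpos hU
  have hL' := Real.log_le_log hprod hL
  rw [Real.log_mul h2.ne' hprod.ne', Real.log_pow, Nat.cast_mul] at hU'
  rw [Real.log_mul h2.ne' hpos.ne', Real.log_pow, Nat.cast_mul] at hL'
  rw [hsum, Height.logHeight_eq_log_mulHeight, abs_le]
  constructor <;> linarith

/-- Every multiset is the image of a `Fin`-indexed family. -/
theorem exists_fin_map_eq {M : Type*} (s : Multiset M) :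
    ∃ (n : ℕ) (α : Fin n → M), Finset.univ.val.map α = s :=
  ⟨s.toList.length, s.toList.get, by rw [Fin.univ_val_map, List.ofFn_get, Multiset.coe_toList]⟩

/-- Roots versus coefficients, upper bound, multiset form. -/
theorem mulHeight_coeff_multiset_prod_X_sub_C_le (s : Multiset K) {N : ℕ} (hN : s.card ≤ N) :
    Height.mulHeight (fun j : Fin (N + 1) => (s.map (fun a => X - C a)).prod.coeff j) ≤
      2 ^ (s.card * finrank ℚ K) * (s.map Height.mulHeight₁).prod := by
  obtain ⟨n, α, rfl⟩ := exists_fin_map_eq s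
  have hcard : (Finset.univ.val.map α).card = Fintype.card (Fin n) := by simp
  rw [hcard] at hN ⊢
  rw [Multiset.map_map, Multiset.map_map]
  exact mulHeight_coeff_prod_X_sub_C_le α hN

/-- Roots versus coefficients, lower bound, multiset form. -/
theorem multiset_prod_mulHeight₁_le_mulHeight_coeff (s : Multiset K) {N : ℕ} (hN : s.card ≤ N) :
    (s.map Height.mulHeight₁).prod ≤ 2 ^ (s.card * finrank ℚ K) *
      Height.mulHeight (fun j : Fin (N + 1) => (s.map (fun a => X - C a)).prod.coeff j) := by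
  obtain ⟨n, α, rfl⟩ := exists_fin_map_eq s
  have hcard : (Finset.univ.val.map α).card = Fintype.card (Fin n) := by simp
  rw [hcard] at hN ⊢
  rw [Multiset.map_map, Multiset.map_map]
  exact prod_mulHeight₁_le_mulHeight_coeff_prod_X_sub_C α hN

/-- Roots versus coefficients for a monic split polynomial, upper bound. -/
theorem mulHeight_coeff_le_of_splits {P : K[X]} (hP : P.Monic) (hs : P.Splits) {N : ℕ}
    (hN : P.natDegree ≤ N) :
    Height.mulHeight (fun j : Fin (N + 1) => P.coeff j) ≤
      2 ^ (P.natDegree * finrank ℚ K) * (P.roots.map Height.mulHeight₁).prod := by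
  have h1 := hs.eq_prod_roots_of_monic hP
  have h2 : P.roots.card = P.natDegree := hs.natDegree_eq_card_roots.symm
  have h3 := mulHeight_coeff_multiset_prod_X_sub_C_le P.roots (N := N) (by omega)
  rw [← h1, h2] at h3
  exact h3

/-- Roots versus coefficients for a monic split polynomial, lower bound. -/
theorem prod_roots_mulHeight₁_le_of_splits {P : K[X]} (hP : P.Monic) (hs : P.Splits) {N : ℕ}
    (hN : P.natDegree ≤ N) :
    (P.roots.map Height.mulHeight₁).prod ≤ 2 ^ (P.natDegree * finrank ℚ K) *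
      Height.mulHeight (fun j : Fin (N + 1) => P.coeff j) := by
  have h1 := hs.eq_prod_roots_of_monic hP
  have h2 : P.roots.card = P.natDegree := hs.natDegree_eq_card_roots.symm
  have h3 := multiset_prod_mulHeight₁_le_mulHeight_coeff P.roots (N := N) (by omega)
  rw [← h1, h2] at h3
  exact h3

/-- Roots versus coefficients for a monic split polynomial, logarithmic form. -/
theorem abs_sum_roots_logHeight₁_sub_logHeight_coeff_le_of_splits {P : K[X]} (hP : P.Monic)
    (hs : P.Splits) {N : ℕ} (hN : P.natDegree ≤ N) :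
    |(P.roots.map Height.logHeight₁).sum - Height.logHeight (fun j : Fin (N + 1) => P.coeff j)| ≤
      P.natDegree * finrank ℚ K * Real.log 2 := by
  have hU := mulHeight_coeff_le_of_splits hP hs hN
  have hL := prod_roots_mulHeight₁_le_of_splits hP hs hN
  have hpos : 0 < Height.mulHeight (fun j : Fin (N + 1) => P.coeff j) := Height.mulHeight_pos _
  have hprod : 0 < (P.roots.map Height.mulHeight₁).prod :=
    Multiset.prod_pos fun a ha => by
      obtain ⟨x, _, rfl⟩ := Multiset.mem_map.mp ha
      exact Height.mulHeight₁_pos x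
  have hsum : (P.roots.map Height.logHeight₁).sum =
      Real.log (P.roots.map Height.mulHeight₁).prod := by
    rw [Real.log_multiset_prod fun a ha => by
      obtain ⟨x, _, rfl⟩ := Multiset.mem_map.mp ha
      exact (Height.mulHeight₁_pos x).ne', Multiset.map_map]
    rfl
  have h2 : (0 : ℝ) < 2 ^ (P.natDegree * finrank ℚ K) := by positivity
  have hU' := Real.log_le_log hpos hU
  have hL' := Real.log_le_log hprod hL
  rw [Real.log_mul h2.ne' hprod.ne', Real.log_pow, Nat.cast_mul] at hU'
  rw [Real.log_mul h2.ne' hpos.ne', Real.log_pow, Nat.cast_mul] at hL'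
  rw [hsum, Height.logHeight_eq_log_mulHeight, abs_le]
  constructor <;> linarith

end RootsCoeffGlobal

section NorthcottTuples

variable {K : Type*} [Field K] [NumberField K]

/-- A coordinate of a tuple that has a coordinate equal to `1` has height at most the height of
the tuple. -/
theorem mulHeight₁_le_mulHeight_of_eq_one {ι : Type*} [Finite ι] (x : ι → K) {i₀ : ι}
    (h1 : x i₀ = 1) (j : ι) : Height.mulHeight₁ (x j) ≤ Height.mulHeight x := by
  have h := Height.mulHeight_comp_le (![j, i₀] : Fin 2 → ι) x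
  have h2 : x ∘ ![j, i₀] = ![x j, 1] := by
    funext k
    fin_cases k <;> simp [h1]
  rw [h2, ← Height.mulHeight₁_eq_mulHeight] at h
  exact h

/-- **Northcott for tuples** over a number field: finitely many tuples with a coordinate equal
to `1` have height `≤ B`. -/
theorem finite_setOf_exists_eq_one_mulHeight_le (K : Type*) [Field K] [NumberField K]
    (ι : Type*) [Finite ι] (B : ℝ) :
    {x : ι → K | (∃ i, x i = 1) ∧ Height.mulHeight x ≤ B}.Finite := by
  refine (Set.Finite.pi' (fun _ : ι => NumberField.finite_setOfPred_mulHeight₁_le K B)).subset ?_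
  rintro x ⟨⟨i₀, h1⟩, hB⟩ j
  exact (mulHeight₁_le_mulHeight_of_eq_one x h1 j).trans hB

/-- **Northcott for tuples**, logarithmic form. -/
theorem finite_setOf_exists_eq_one_logHeight_le (K : Type*) [Field K] [NumberField K]
    (ι : Type*) [Finite ι] (B : ℝ) :
    {x : ι → K | (∃ i, x i = 1) ∧ Height.logHeight x ≤ B}.Finite := by
  refine (finite_setOf_exists_eq_one_mulHeight_le K ι (Real.exp B)).subset ?_
  rintro x ⟨h1, hB⟩
  exact ⟨h1, (Real.log_le_iff_le_exp (Height.mulHeight_pos x)).mp hB⟩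

/-- **Northcott for monic polynomials** over a number field: finitely many monic polynomials
of degree `≤ D` have a coefficient vector of height `≤ B`. -/
theorem finite_setOf_monic_mulHeight_coeff_le (K : Type*) [Field K] [NumberField K] (D : ℕ)
    (B : ℝ) :
    {P : K[X] | P.Monic ∧ P.natDegree ≤ D ∧
      Height.mulHeight (fun j : Fin (D + 1) => P.coeff j) ≤ B}.Finite := by
  have hfin := finite_setOf_exists_eq_one_mulHeight_le K (Fin (D + 1)) B
  refine (hfin.image fun x : Fin (D + 1) → K => ∑ j : Fin (D + 1), monomial (j : ℕ) (x j)).subset ?_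
  rintro P ⟨hmonic, hdeg, hB⟩
  refine ⟨fun j : Fin (D + 1) => P.coeff j,
    ⟨⟨⟨P.natDegree, Nat.lt_succ_of_le hdeg⟩, hmonic.coeff_natDegree⟩, hB⟩, ?_⟩
  have h1 := Fin.sum_univ_eq_sum_range (fun j => monomial j (P.coeff j)) (D + 1)
  exact h1.trans (P.as_sum_range' (D + 1) (Nat.lt_succ_of_le hdeg)).symm

/-- **Northcott for monic polynomials**, logarithmic form. -/
theorem finite_setOf_monic_logHeight_coeff_le (K : Type*) [Field K] [NumberField K] (D : ℕ)
    (B : ℝ) :
    {P : K[X] | P.Monic ∧ P.natDegree ≤ D ∧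
      Height.logHeight (fun j : Fin (D + 1) => P.coeff j) ≤ B}.Finite := by
  refine (finite_setOf_monic_mulHeight_coeff_le K D (Real.exp B)).subset ?_
  rintro P ⟨hmonic, hdeg, hB⟩
  exact ⟨hmonic, hdeg, (Real.log_le_iff_le_exp (Height.mulHeight_pos _)).mp hB⟩

/-- **Northcott for projective points** over a number field: finitely many points of
`ℙ(ι → K)` have height `≤ B`. -/
theorem finite_setOf_projectivization_mulHeight_le (K : Type*) [Field K] [NumberField K]
    (ι : Type*) [Finite ι] (B : ℝ) :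
    {p : Projectivization K (ι → K) | Projectivization.mulHeight p ≤ B}.Finite := by
  have hfin := finite_setOf_exists_eq_one_mulHeight_le K ι B
  have hS : ((Subtype.val : {v : ι → K // v ≠ 0} → ι → K) ⁻¹'
      {x : ι → K | (∃ i, x i = 1) ∧ Height.mulHeight x ≤ B}).Finite :=
    hfin.preimage Subtype.val_injective.injOn
  refine (hS.image fun x : {v : ι → K // v ≠ 0} => Projectivization.mk K x.1 x.2).subset ?_
  intro p hp
  induction p using Projectivization.ind with
  | h x hx =>
    rw [Set.mem_ofPred_eq, Projectivization.mulHeight_mk hx] at hp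
    obtain ⟨i, hi⟩ := Function.ne_iff.mp hx
    have hi' : x i ≠ 0 := hi
    have hy : (x i)⁻¹ • x ≠ 0 := smul_ne_zero (inv_ne_zero hi') hx
    refine ⟨⟨(x i)⁻¹ • x, hy⟩, ⟨⟨i, ?_⟩, ?_⟩, ?_⟩
    · simp [hi']
    · rw [Height.mulHeight_smul_eq_mulHeight x (inv_ne_zero hi')]
      exact hp
    · rw [Projectivization.mk_eq_mk_iff']
      exact ⟨(x i)⁻¹, rfl⟩

end NorthcottTuples

end Fermat.Agent.Lib.helper1256
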