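import Mathlib

/-!
# Absolute heights of tuples of algebraic numbers (helper927, S17-HT-ABS)

Mathlib-only brick.

* `mulHeight_algebraMap` (E1): for number fields `K ⊆ L` and a tuple `x : ι → K`,
  `mulHeight (algebraMap K L ∘ x) = mulHeight x ^ [L : K]`.
-/

namespace Fermat.Agent.Lib.helper927

open NumberField Height

section Extension

variable {K L : Type*} [Field K] [Field L] [NumberField K] [NumberField L] [Algebra K L]

/-- The archimedean product with multiplicities is a product over the complex embeddings. -/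
theorem prod_infinitePlace_pow_mult (g : InfinitePlace K → ℝ) :
    ∏ v : InfinitePlace K, g v ^ v.mult = ∏ φ : K →+* ℂ, g (InfinitePlace.mk φ) := by
  classical
  rw [← Finset.prod_fiberwise Finset.univ InfinitePlace.mk (fun φ => g (InfinitePlace.mk φ))]
  refine Finset.prod_congr rfl fun w _ => ?_
  rw [Finset.prod_congr rfl (fun φ hφ => by rw [(Finset.mem_filter.mp hφ).2]),
    Finset.prod_const, InfinitePlace.card_filter_mk_eq]

/-- Every complex embedding of `K` has exactly `[L : K]` extensions to `L`. -/
theorem card_filter_comp_algebraMap_eq [DecidableEq (K →+* ℂ)] (ψ : K →+* ℂ) :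
    (Finset.univ.filter (fun φ : L →+* ℂ => φ.comp (algebraMap K L) = ψ)).card =
      Module.finrank K L := by
  classical
  let _ : Algebra K ℂ := ψ.toAlgebra
  rw [← AlgHom.card K L ℂ]
  symm
  refine Finset.card_nbij (fun σ => σ.toRingHom) (fun σ _ => ?_) ?_ ?_
  · simp only [Finset.coe_filter, Finset.mem_univ, true_and, Set.mem_ofPred_eq]
    ext x
    simp [RingHom.algebraMap_toAlgebra]
  · exact AlgHom.coe_ringHom_injective.injOn
  · intro φ hφ
    simp only [Finset.coe_filter, Finset.mem_univ, true_and, Set.mem_ofPred_eq] at hφ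
    refine ⟨⟨φ, fun x => ?_⟩, by simp, rfl⟩
    simp [RingHom.algebraMap_toAlgebra, ← hφ]

/-- The archimedean part of the height is raised to the power `[L : K]` under extension. -/
theorem prod_infinitePlace_iSup_algebraMap {ι : Type*} (x : ι → K) :
    ∏ w : InfinitePlace L, (⨆ i, w (algebraMap K L (x i))) ^ w.mult =
      (∏ v : InfinitePlace K, (⨆ i, v (x i)) ^ v.mult) ^ Module.finrank K L := by
  classical
  rw [prod_infinitePlace_pow_mult (fun w : InfinitePlace L => ⨆ i, w (algebraMap K L (x i))),
    prod_infinitePlace_pow_mult (fun v : InfinitePlace K => ⨆ i, v (x i)),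
    ← Finset.prod_pow,
    ← Finset.prod_fiberwise Finset.univ (fun φ : L →+* ℂ => φ.comp (algebraMap K L))
      (fun φ => ⨆ i, InfinitePlace.mk φ (algebraMap K L (x i)))]
  refine Finset.prod_congr rfl fun ψ _ => ?_
  rw [Finset.prod_congr rfl (g := fun _ => ⨆ i, InfinitePlace.mk ψ (x i)) (fun φ hφ => ?_),
    Finset.prod_const]
  · congr 1
    convert card_filter_comp_algebraMap_eq (L := L) ψ
  · have h := (Finset.mem_filter.mp hφ).2
    simp only [InfinitePlace.apply, ← h, RingHom.comp_apply]

/-- The non-archimedean part of the height of an integral tuple is raised to the power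
`[L : K]` under extension. -/
theorem finprod_finitePlace_iSup_algebraMap {ι : Type*} [Finite ι] (y : ι → 𝓞 K) (hy : y ≠ 0) :
    ∏ᶠ w : FinitePlace L, ⨆ i, w (algebraMap K L (y i : K)) =
      (∏ᶠ v : FinitePlace K, ⨆ i, v (y i : K)) ^ Module.finrank K L := by
  classical
  set y' : ι → 𝓞 L := fun i => algebraMap (𝓞 K) (𝓞 L) (y i) with hy'
  have hy'0 : y' ≠ 0 := by
    obtain ⟨i, hi⟩ := Function.ne_iff.mp hy
    refine Function.ne_iff.mpr ⟨i, ?_⟩
    simpa [hy'] using hi
  have hK := absNorm_mul_finprod_finitePlace_eq_one hy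
  have hL := absNorm_mul_finprod_finitePlace_eq_one hy'0
  have hspan : Ideal.span (Set.range y') =
      (Ideal.span (Set.range y)).map (algebraMap (𝓞 K) (𝓞 L)) := by
    rw [Ideal.map_span, ← Set.range_comp]
    rfl
  have hnorm : (Ideal.span (Set.range y')).absNorm =
      (Ideal.span (Set.range y)).absNorm ^ Module.finrank K L := by
    rw [hspan, Ideal.absNorm_algebraMap, IsFractionRing.finrank_eq (𝓞 K) K (𝓞 L) L]
  have hcoe : ∀ i, ((y' i : 𝓞 L) : L) = algebraMap K L (y i : K) := fun i => rfl
  simp only [hcoe] at hL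
  rw [hnorm] at hL
  have hK0 : ((Ideal.span (Set.range y)).absNorm : ℝ) ≠ 0 := by
    intro h0
    rw [h0, zero_mul] at hK
    exact zero_ne_one hK
  have e1 : ∏ᶠ v : FinitePlace K, ⨆ i, v (y i : K) =
      ((Ideal.span (Set.range y)).absNorm : ℝ)⁻¹ := eq_inv_of_mul_eq_one_right hK
  have e2 : ∏ᶠ w : FinitePlace L, ⨆ i, w (algebraMap K L (y i : K)) =
      (((Ideal.span (Set.range y)).absNorm ^ Module.finrank K L : ℕ) : ℝ)⁻¹ :=
    eq_inv_of_mul_eq_one_right hL
  rw [e1, e2, Nat.cast_pow, inv_pow]

/-- Clearing denominators: a tuple over a number field is a nonzero multiple of an integral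
tuple. -/
theorem exists_smul_eq_integral {ι : Type*} [Finite ι] (x : ι → K) :
    ∃ (d : 𝓞 K) (y : ι → 𝓞 K), d ≠ 0 ∧ ∀ i, (d : K) * x i = (y i : K) := by
  obtain ⟨b, hb⟩ := IsLocalization.exist_integer_multiples_of_finite (nonZeroDivisors (𝓞 K)) x
  choose y hy using hb
  refine ⟨b, y, nonZeroDivisors.coe_ne_zero b, fun i => ?_⟩
  have h := hy i
  rw [Algebra.smul_def] at h
  exact h.symm

/-- **Extension formula for heights** (integral tuples). -/
theorem mulHeight_algebraMap_integral {ι : Type*} [Finite ι] (y : ι → 𝓞 K) (hy : y ≠ 0) :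
    mulHeight (fun i => algebraMap K L (y i : K)) =
      mulHeight (fun i => (y i : K)) ^ Module.finrank K L := by
  have h0 : (fun i => (y i : K)) ≠ 0 := by
    obtain ⟨i, hi⟩ := Function.ne_iff.mp hy
    exact Function.ne_iff.mpr ⟨i, by simpa using hi⟩
  have h1 : (fun i => algebraMap K L (y i : K)) ≠ 0 := by
    obtain ⟨i, hi⟩ := Function.ne_iff.mp h0
    exact Function.ne_iff.mpr ⟨i, by simpa using hi⟩
  rw [NumberField.mulHeight_eq h0, NumberField.mulHeight_eq h1, mul_pow,
    prod_infinitePlace_iSup_algebraMap, finprod_finitePlace_iSup_algebraMap y hy]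

/-- **Extension formula for heights**: for number fields `K ⊆ L` and a tuple `x` over `K`,
the multiplicative height of `x` computed in `L` is the `[L : K]`-th power of its height
computed in `K`. -/
theorem mulHeight_algebraMap {ι : Type*} [Finite ι] (x : ι → K) :
    mulHeight (fun i => algebraMap K L (x i)) = mulHeight x ^ Module.finrank K L := by
  by_cases hx : x = 0
  · subst hx
    have : (fun i : ι => algebraMap K L ((0 : ι → K) i)) = 0 := by
      funext i; simp
    rw [this, mulHeight_zero, mulHeight_zero, one_pow]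
  obtain ⟨d, y, hd, hy⟩ := exists_smul_eq_integral x
  have hdK : (d : K) ≠ 0 := by simpa using hd
  have hy0 : y ≠ 0 := by
    obtain ⟨i, hi⟩ := Function.ne_iff.mp hx
    refine Function.ne_iff.mpr ⟨i, fun h => ?_⟩
    have := hy i
    rw [h] at this
    simp [hdK] at this
    exact hi this
  have e1 : mulHeight x = mulHeight (fun i => (y i : K)) := by
    rw [← mulHeight_smul_eq_mulHeight x hdK]
    congr 1
    funext i
    simpa using hy i
  have e2 : mulHeight (fun i => algebraMap K L (x i)) =
      mulHeight (fun i => algebraMap K L (y i : K)) := by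
    rw [← mulHeight_smul_eq_mulHeight (fun i => algebraMap K L (x i))
      (c := algebraMap K L (d : K)) (by simpa using hdK)]
    congr 1
    funext i
    simp [← hy i]
  rw [e1, e2, mulHeight_algebraMap_integral y hy0]

/-- Logarithmic form of the extension formula. -/
theorem logHeight_algebraMap {ι : Type*} [Finite ι] (x : ι → K) :
    logHeight (fun i => algebraMap K L (x i)) = Module.finrank K L * logHeight x := by
  rw [logHeight_eq_log_mulHeight, logHeight_eq_log_mulHeight, mulHeight_algebraMap,
    Real.log_pow]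

end Extension

section RingHom

variable {K L : Type*} [Field K] [Field L] [NumberField K] [NumberField L]

/-- **Normalised heights are invariant under ring homomorphisms of number fields**
(in particular under isomorphisms and under extension of the field). -/
theorem logHeight_ringHom {ι : Type*} [Finite ι] (f : K →+* L) (x : ι → K) :
    logHeight (fun i => f (x i)) / Module.finrank ℚ L = logHeight x / Module.finrank ℚ K := by
  let _ : Algebra K L := f.toAlgebra
  have h1 : logHeight (fun i => f (x i)) = Module.finrank K L * logHeight x :=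
    logHeight_algebraMap (L := L) x
  have h2 : Module.finrank ℚ K * Module.finrank K L = Module.finrank ℚ L :=
    Module.finrank_mul_finrank ℚ K L
  have hK : (0 : ℝ) < Module.finrank ℚ K := by exact_mod_cast Module.finrank_pos
  have hL : (0 : ℝ) < Module.finrank ℚ L := by exact_mod_cast Module.finrank_pos
  rw [h1, div_eq_div_iff hL.ne' hK.ne', ← h2]
  push_cast
  ring

/-- Heights are invariant under isomorphisms of number fields. -/
theorem logHeight_ringEquiv {ι : Type*} [Finite ι] (e : K ≃+* L) (x : ι → K) :
    logHeight (fun i => e (x i)) = logHeight x := by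
  have h := logHeight_ringHom (e : K →+* L) x
  have h' := logHeight_ringHom (e.symm : L →+* K) (fun i => e (x i))
  simp only [RingHom.coe_coe, RingEquiv.symm_apply_apply] at h h'
  have hK : (0 : ℝ) < Module.finrank ℚ K := by exact_mod_cast Module.finrank_pos
  have hL : (0 : ℝ) < Module.finrank ℚ L := by exact_mod_cast Module.finrank_pos
  have hKL : (Module.finrank ℚ K : ℝ) = Module.finrank ℚ L := by
    have := (e.toRatAlgEquiv.toLinearEquiv).finrank_eq
    exact_mod_cast this
  rw [hKL] at h
  exact (div_left_inj' hL.ne').mp h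

end RingHom

section Abs

open IntermediateField

variable {Ω : Type*} [Field Ω] [CharZero Ω]

theorem finiteDimensional_adjoin_range {ι : Type*} [Finite ι] {x : ι → Ω}
    (hx : ∀ i, IsIntegral ℚ (x i)) : FiniteDimensional ℚ (adjoin ℚ (Set.range x)) :=
  finiteDimensional_adjoin (by rintro _ ⟨i, rfl⟩; exact hx i)

/-- A finite-dimensional intermediate field of a characteristic zero field is a number field. -/
theorem numberField_of_finiteDimensional (F : IntermediateField ℚ Ω) [FiniteDimensional ℚ F] :
    NumberField F := {}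

open Classical in
/-- The **absolute logarithmic height** of a finite tuple of algebraic elements of a field of
characteristic zero: the logarithmic height of the tuple computed in the number field
generated by its entries, divided by the degree of that number field. (Junk value `0` if the
index type is infinite or some entry is transcendental.) It does not change when the tuple
is regarded over a bigger number field (`absLogHeight_ringHom`). -/
noncomputable def absLogHeight {ι : Type*} (x : ι → Ω) : ℝ :=
  if h : Finite ι ∧ ∀ i, IsIntegral ℚ (x i) then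
    haveI := h.1
    haveI : FiniteDimensional ℚ (adjoin ℚ (Set.range x)) := finiteDimensional_adjoin_range h.2
    haveI : NumberField (adjoin ℚ (Set.range x)) := {}
    logHeight (fun i => (⟨x i, subset_adjoin ℚ _ (Set.mem_range_self i)⟩ :
        adjoin ℚ (Set.range x))) / Module.finrank ℚ (adjoin ℚ (Set.range x))
  else 0

theorem absLogHeight_of_not {ι : Type*} {x : ι → Ω}
    (h : ¬ (Finite ι ∧ ∀ i, IsIntegral ℚ (x i))) : absLogHeight x = 0 := by
  rw [absLogHeight, dif_neg h]

/-- A ring hom into `Ω` whose image contains the image of `j` lifts `j`. -/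
theorem exists_ringHom_lift {K F Ω' : Type*} [Field K] [Field F] [Field Ω'] (f : K →+* Ω')
    (j : F →+* Ω') (h : ∀ a, ∃ k, f k = j a) : ∃ g : F →+* K, ∀ a, f (g a) = j a := by
  choose g hg using h
  have hf := f.injective
  refine ⟨{ toFun := g, map_one' := ?_, map_mul' := ?_, map_zero' := ?_, map_add' := ?_ }, hg⟩
  · apply hf; rw [hg]; simp
  · intro a b; apply hf; rw [hg, map_mul, map_mul, hg, hg]
  · apply hf; rw [hg]; simp
  · intro a b; apply hf; rw [hg, map_add, map_add, hg, hg]

/-- **The absolute height is computed by any number field**: if the tuple comes from a number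
field `K` through a ring homomorphism `f : K →+* Ω`, its absolute logarithmic height is the
logarithmic height over `K` divided by `[K : ℚ]`. -/
theorem absLogHeight_ringHom {K : Type*} [Field K] [NumberField K] {ι : Type*} [Finite ι]
    (f : K →+* Ω) (x : ι → K) :
    absLogHeight (fun i => f (x i)) = logHeight x / Module.finrank ℚ K := by
  have hint : ∀ i, IsIntegral ℚ (f (x i)) := fun i =>
    (Algebra.IsIntegral.isIntegral (R := ℚ) (x i)).map f.toRatAlgHom
  have hfin : Finite ι ∧ ∀ i, IsIntegral ℚ (f (x i)) := ⟨inferInstance, hint⟩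
  rw [absLogHeight, dif_pos hfin]
  have : FiniteDimensional ℚ (adjoin ℚ (Set.range fun i => f (x i))) :=
    finiteDimensional_adjoin_range hint
  have : NumberField (adjoin ℚ (Set.range fun i => f (x i))) := {}
  have hle : adjoin ℚ (Set.range fun i => f (x i)) ≤ f.toRatAlgHom.fieldRange := by
    rw [adjoin_le_iff]
    rintro _ ⟨i, rfl⟩
    exact ⟨x i, rfl⟩
  obtain ⟨g, hg⟩ := exists_ringHom_lift f
    (algebraMap (adjoin ℚ (Set.range fun i => f (x i))) Ω) (fun a => by
      obtain ⟨k, hk⟩ := hle a.2
      exact ⟨k, hk⟩)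
  have hgx : (fun i => g (⟨f (x i), subset_adjoin ℚ _ (Set.mem_range_self i)⟩ :
      adjoin ℚ (Set.range fun i => f (x i)))) = x := by
    funext i
    apply f.injective
    rw [hg]
    rfl
  have := logHeight_ringHom g (fun i => (⟨f (x i), subset_adjoin ℚ _ (Set.mem_range_self i)⟩ :
      adjoin ℚ (Set.range fun i => f (x i))))
  rw [hgx] at this
  exact this.symm

/-- Over a number field, the absolute height is the normalised height. -/
theorem absLogHeight_eq_logHeight_div {K : Type*} [Field K] [NumberField K] {ι : Type*} [Finite ι]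
    (x : ι → K) : absLogHeight x = logHeight x / Module.finrank ℚ K :=
  absLogHeight_ringHom (RingHom.id K) x

/-- The absolute height of a tuple with entries in a finite-dimensional intermediate field. -/
theorem absLogHeight_coe (F : IntermediateField ℚ Ω) [NumberField F] {ι : Type*} [Finite ι]
    (x : ι → F) : absLogHeight (fun i => (x i : Ω)) = logHeight x / Module.finrank ℚ F :=
  absLogHeight_ringHom (algebraMap F Ω) x

theorem absLogHeight_nonneg {ι : Type*} (x : ι → Ω) : 0 ≤ absLogHeight x := by
  by_cases h : Finite ι ∧ ∀ i, IsIntegral ℚ (x i)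
  · rw [absLogHeight, dif_pos h]
    have := h.1
    have : FiniteDimensional ℚ (adjoin ℚ (Set.range x)) := finiteDimensional_adjoin_range h.2
    have : NumberField (adjoin ℚ (Set.range x)) := {}
    exact div_nonneg (logHeight_nonneg _) (Nat.cast_nonneg _)
  · rw [absLogHeight_of_not h]

/-- **Invariance under ring homomorphisms** (in particular, Galois invariance): the absolute
height does not change under a ring homomorphism of fields of characteristic zero. -/
theorem absLogHeight_map {Ω' : Type*} [Field Ω'] [CharZero Ω'] (σ : Ω →+* Ω') {ι : Type*}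
    (x : ι → Ω) : absLogHeight (fun i => σ (x i)) = absLogHeight x := by
  by_cases h : Finite ι ∧ ∀ i, IsIntegral ℚ (x i)
  · have := h.1
    have : FiniteDimensional ℚ (adjoin ℚ (Set.range x)) := finiteDimensional_adjoin_range h.2
    have : NumberField (adjoin ℚ (Set.range x)) := {}
    have h1 := absLogHeight_ringHom (algebraMap (adjoin ℚ (Set.range x)) Ω)
      (fun i => (⟨x i, subset_adjoin ℚ _ (Set.mem_range_self i)⟩ : adjoin ℚ (Set.range x)))
    have h2 := absLogHeight_ringHom (σ.comp (algebraMap (adjoin ℚ (Set.range x)) Ω))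
      (fun i => (⟨x i, subset_adjoin ℚ _ (Set.mem_range_self i)⟩ : adjoin ℚ (Set.range x)))
    exact h2.trans h1.symm
  · rw [absLogHeight_of_not h, absLogHeight_of_not]
    rintro ⟨hf, hi⟩
    exact h ⟨hf, fun i => (isIntegral_algHom_iff σ.toRatAlgHom σ.injective).mp (hi i)⟩

/-- Galois invariance of the absolute height. -/
theorem absLogHeight_algEquiv (σ : Ω ≃ₐ[ℚ] Ω) {ι : Type*} (x : ι → Ω) :
    absLogHeight (fun i => σ (x i)) = absLogHeight x :=
  absLogHeight_map (σ : Ω →+* Ω) x

end Abs

section Calculus

open IntermediateField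

variable {Ω : Type*} [Field Ω] [CharZero Ω]

/-- Lift of a tuple with entries in an intermediate field. -/
def liftTuple (F : IntermediateField ℚ Ω) {ι : Type*} (x : ι → Ω) (h : ∀ i, x i ∈ F) : ι → F :=
  fun i => ⟨x i, h i⟩

@[simp] theorem coe_liftTuple (F : IntermediateField ℚ Ω) {ι : Type*} (x : ι → Ω)
    (h : ∀ i, x i ∈ F) (i : ι) : (liftTuple F x h i : Ω) = x i := rfl

theorem absLogHeight_eq_liftTuple (F : IntermediateField ℚ Ω) [NumberField F] {ι : Type*}
    [Finite ι] (x : ι → Ω) (h : ∀ i, x i ∈ F) :
    absLogHeight x = logHeight (liftTuple F x h) / Module.finrank ℚ F :=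
  absLogHeight_coe F (liftTuple F x h)

theorem finrank_rat_pos (F : IntermediateField ℚ Ω) [NumberField F] :
    (0 : ℝ) < Module.finrank ℚ F := by
  exact_mod_cast Module.finrank_pos

variable [Algebra.IsAlgebraic ℚ Ω]

/-- Finitely many elements of an algebraic extension of `ℚ` lie in a common number field. -/
theorem exists_numberField_le (s : Set Ω) (hs : s.Finite) :
    ∃ F : IntermediateField ℚ Ω, NumberField F ∧ s ⊆ F := by
  have : Finite s := hs.to_subtype
  have : FiniteDimensional ℚ (adjoin ℚ s) :=
    finiteDimensional_adjoin (fun x _ => Algebra.IsIntegral.isIntegral x)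
  exact ⟨adjoin ℚ s, {}, subset_adjoin ℚ s⟩

/-- The number field generated by a finite tuple: every entry lies in it. -/
theorem exists_numberField_range {ι : Type*} [Finite ι] (x : ι → Ω) :
    ∃ F : IntermediateField ℚ Ω, NumberField F ∧ ∀ i, x i ∈ F := by
  obtain ⟨F, hF, hs⟩ := exists_numberField_le (Set.range x) (Set.finite_range x)
  exact ⟨F, hF, fun i => hs (Set.mem_range_self i)⟩

theorem absLogHeight_zero {ι : Type*} : absLogHeight (0 : ι → Ω) = 0 := by
  by_cases hι : Finite ι
  · obtain ⟨F, hF, hx⟩ := exists_numberField_range (0 : ι → Ω)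
    rw [absLogHeight_eq_liftTuple F _ hx]
    have : liftTuple F (0 : ι → Ω) hx = 0 := by funext i; exact Subtype.ext rfl
    rw [this, logHeight_zero, zero_div]
  · exact absLogHeight_of_not (fun h => hι h.1)

theorem absLogHeight_one {ι : Type*} : absLogHeight (1 : ι → Ω) = 0 := by
  by_cases hι : Finite ι
  · obtain ⟨F, hF, hx⟩ := exists_numberField_range (1 : ι → Ω)
    rw [absLogHeight_eq_liftTuple F _ hx]
    have : liftTuple F (1 : ι → Ω) hx = 1 := by funext i; exact Subtype.ext rfl
    rw [this, logHeight_one, zero_div]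
  · exact absLogHeight_of_not (fun h => hι h.1)

/-- **Projective invariance**: scaling a tuple by a nonzero constant does not change its
absolute height. -/
theorem absLogHeight_smul {ι : Type*} (x : ι → Ω) {c : Ω} (hc : c ≠ 0) :
    absLogHeight (c • x) = absLogHeight x := by
  by_cases hι : Finite ι
  · obtain ⟨F, hF, hs⟩ := exists_numberField_le (insert c (Set.range x))
      ((Set.finite_range x).insert c)
    have hc' : c ∈ F := hs (Set.mem_insert _ _)
    have hx' : ∀ i, x i ∈ F := fun i => hs (Set.mem_insert_of_mem _ (Set.mem_range_self i))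
    rw [absLogHeight_eq_liftTuple F x hx',
      absLogHeight_eq_liftTuple F (c • x) (fun i => F.mul_mem hc' (hx' i))]
    congr 1
    have : liftTuple F (c • x) (fun i => F.mul_mem hc' (hx' i)) =
        (⟨c, hc'⟩ : F) • liftTuple F x hx' := by funext i; exact Subtype.ext rfl
    rw [this]
    exact logHeight_smul_eq_logHeight _ (fun h => hc (congrArg Subtype.val h))
  · rw [absLogHeight_of_not (fun h => hι h.1), absLogHeight_of_not (fun h => hι h.1)]

theorem absLogHeight_neg {ι : Type*} (x : ι → Ω) : absLogHeight (-x) = absLogHeight x := by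
  have := absLogHeight_smul x (c := (-1 : Ω)) (by simp)
  simpa using this

/-- Reindexing along an equivalence does not change the absolute height. -/
theorem absLogHeight_comp_equiv {ι ι' : Type*} (e : ι ≃ ι') (x : ι' → Ω) :
    absLogHeight (x ∘ e) = absLogHeight x := by
  by_cases hι : Finite ι'
  · have : Finite ι := Finite.of_equiv ι' e.symm
    obtain ⟨F, hF, hx⟩ := exists_numberField_range x
    rw [absLogHeight_eq_liftTuple F x hx, absLogHeight_eq_liftTuple F (x ∘ e) (fun i => hx (e i))]
    congr 1
    exact logHeight_comp_equiv e (liftTuple F x hx)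
  · rw [absLogHeight_of_not (fun h => hι h.1),
      absLogHeight_of_not (fun h => hι (@Finite.of_equiv _ _ h.1 e))]

/-- The absolute height of a subtuple (or any tuple of entries) is at most that of the tuple. -/
theorem absLogHeight_comp_le {ι ι' : Type*} [Finite ι] [Finite ι'] (f : ι → ι') (x : ι' → Ω) :
    absLogHeight (x ∘ f) ≤ absLogHeight x := by
  obtain ⟨F, hF, hx⟩ := exists_numberField_range x
  rw [absLogHeight_eq_liftTuple F x hx, absLogHeight_eq_liftTuple F (x ∘ f) (fun i => hx (f i))]
  exact div_le_div_of_nonneg_right (logHeight_comp_le f (liftTuple F x hx))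
    (finrank_rat_pos F).le

/-- Veronese: the absolute height of the tuple of `n`-th powers. -/
theorem absLogHeight_pow {ι : Type*} [Finite ι] (x : ι → Ω) (n : ℕ) :
    absLogHeight (x ^ n) = n * absLogHeight x := by
  obtain ⟨F, hF, hx⟩ := exists_numberField_range x
  rw [absLogHeight_eq_liftTuple F x hx,
    absLogHeight_eq_liftTuple F (x ^ n) (fun i => pow_mem (hx i) n)]
  have : liftTuple F (x ^ n) (fun i => pow_mem (hx i) n) = liftTuple F x hx ^ n := by
    funext i; exact Subtype.ext rfl
  rw [this, logHeight_pow, mul_div_assoc]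

/-- Segre: the absolute height of the multiplication table of two nonzero tuples. -/
theorem absLogHeight_fun_mul_eq {ι ι' : Type*} [Finite ι] [Finite ι'] {x : ι → Ω} (hx : x ≠ 0)
    {y : ι' → Ω} (hy : y ≠ 0) :
    absLogHeight (fun a : ι × ι' => x a.1 * y a.2) = absLogHeight x + absLogHeight y := by
  obtain ⟨F, hF, hs⟩ := exists_numberField_le (Set.range x ∪ Set.range y)
    ((Set.finite_range x).union (Set.finite_range y))
  have hx' : ∀ i, x i ∈ F := fun i => hs (Or.inl (Set.mem_range_self i))
  have hy' : ∀ i, y i ∈ F := fun i => hs (Or.inr (Set.mem_range_self i))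
  rw [absLogHeight_eq_liftTuple F x hx', absLogHeight_eq_liftTuple F y hy',
    absLogHeight_eq_liftTuple F (fun a : ι × ι' => x a.1 * y a.2)
      (fun a => F.mul_mem (hx' a.1) (hy' a.2)), ← add_div]
  congr 1
  have h1 : liftTuple F x hx' ≠ 0 := by
    obtain ⟨i, hi⟩ := Function.ne_iff.mp hx
    exact Function.ne_iff.mpr ⟨i, fun h => hi (congrArg Subtype.val h)⟩
  have h2 : liftTuple F y hy' ≠ 0 := by
    obtain ⟨i, hi⟩ := Function.ne_iff.mp hy
    exact Function.ne_iff.mpr ⟨i, fun h => hi (congrArg Subtype.val h)⟩
  rw [← logHeight_fun_mul_eq h1 h2]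
  congr 1

/-- The absolute height of a pointwise product is at most the sum of the heights. -/
theorem absLogHeight_mul_le {ι : Type*} [Finite ι] (x y : ι → Ω) :
    absLogHeight (x * y) ≤ absLogHeight x + absLogHeight y := by
  obtain ⟨F, hF, hs⟩ := exists_numberField_le (Set.range x ∪ Set.range y)
    ((Set.finite_range x).union (Set.finite_range y))
  have hx' : ∀ i, x i ∈ F := fun i => hs (Or.inl (Set.mem_range_self i))
  have hy' : ∀ i, y i ∈ F := fun i => hs (Or.inr (Set.mem_range_self i))
  rw [absLogHeight_eq_liftTuple F x hx', absLogHeight_eq_liftTuple F y hy',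
    absLogHeight_eq_liftTuple F (x * y) (fun i => F.mul_mem (hx' i) (hy' i)), ← add_div]
  have : liftTuple F (x * y) (fun i => F.mul_mem (hx' i) (hy' i)) =
      liftTuple F x hx' * liftTuple F y hy' := by funext i; exact Subtype.ext rfl
  rw [this]
  exact div_le_div_of_nonneg_right (logHeight_mul_le _ _) (finrank_rat_pos F).le

/-- The absolute height of the image of a tuple under a matrix: field-independent form of
`Height.logHeight_linearMap_apply_le`. -/
theorem absLogHeight_linearMap_apply_le {ι ι' : Type*} [Fintype ι] [Finite ι']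
    (A : ι' × ι → Ω) (x : ι → Ω) :
    absLogHeight (fun j => ∑ i, A (j, i) * x i) ≤
      Real.log (Nat.card ι) + absLogHeight A + absLogHeight x := by
  obtain ⟨F, hF, hs⟩ := exists_numberField_le (Set.range A ∪ Set.range x)
    ((Set.finite_range A).union (Set.finite_range x))
  have hA' : ∀ i, A i ∈ F := fun i => hs (Or.inl (Set.mem_range_self i))
  have hx' : ∀ i, x i ∈ F := fun i => hs (Or.inr (Set.mem_range_self i))
  have hAx : ∀ j, ∑ i, A (j, i) * x i ∈ F := fun j =>
    F.sum_mem (fun i _ => F.mul_mem (hA' (j, i)) (hx' i))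
  rw [absLogHeight_eq_liftTuple F x hx', absLogHeight_eq_liftTuple F A hA',
    absLogHeight_eq_liftTuple F _ hAx]
  have hd := finrank_rat_pos F
  have key := logHeight_linearMap_apply_le (liftTuple F A hA') (liftTuple F x hx')
  have e : (fun j => ∑ i, liftTuple F A hA' (j, i) * liftTuple F x hx' i) =
      liftTuple F _ hAx := by
    funext j
    apply Subtype.ext
    simp [liftTuple]
  rw [e, totalWeight_eq_finrank] at key
  rw [div_le_iff₀ hd]
  calc logHeight (liftTuple F _ hAx) ≤ _ := key
    _ = _ := by field_simp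

end Calculus

section Affine

open IntermediateField

variable {Ω : Type*} [Field Ω] [CharZero Ω]

/-- The **absolute logarithmic height of an algebraic number** `a`: the absolute height of the
projective point `[a : 1]`. It agrees with Mathlib's `NumberField.absLogHeight₁`
(`affLogHeight_eq_absLogHeight₁`). -/
noncomputable def affLogHeight (a : Ω) : ℝ := absLogHeight ![a, 1]

theorem affLogHeight_def (a : Ω) : affLogHeight a = absLogHeight ![a, 1] := rfl

theorem affLogHeight_nonneg (a : Ω) : 0 ≤ affLogHeight a := absLogHeight_nonneg _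

/-- Dictionary: the absolute height of an element of a number field. -/
theorem affLogHeight_ringHom {K : Type*} [Field K] [NumberField K] (f : K →+* Ω) (a : K) :
    affLogHeight (f a) = logHeight₁ a / Module.finrank ℚ K := by
  rw [affLogHeight, logHeight₁_eq_logHeight, ← absLogHeight_ringHom f ![a, 1]]
  congr 1
  funext i
  fin_cases i <;> simp

theorem affLogHeight_eq_logHeight₁_div {K : Type*} [Field K] [NumberField K] (a : K) :
    affLogHeight a = logHeight₁ a / Module.finrank ℚ K :=
  affLogHeight_ringHom (RingHom.id K) a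

theorem affLogHeight_coe (F : IntermediateField ℚ Ω) [NumberField F] (a : F) :
    affLogHeight (a : Ω) = logHeight₁ a / Module.finrank ℚ F :=
  affLogHeight_ringHom (algebraMap F Ω) a

/-- Invariance under ring homomorphisms, in particular Galois invariance. -/
theorem affLogHeight_map {Ω' : Type*} [Field Ω'] [CharZero Ω'] (σ : Ω →+* Ω') (a : Ω) :
    affLogHeight (σ a) = affLogHeight a := by
  rw [affLogHeight, affLogHeight, ← absLogHeight_map σ ![a, 1]]
  congr 1
  funext i
  fin_cases i <;> simp

theorem affLogHeight_algEquiv (σ : Ω ≃ₐ[ℚ] Ω) (a : Ω) : affLogHeight (σ a) = affLogHeight a :=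
  affLogHeight_map (σ : Ω →+* Ω) a

theorem affLogHeight_of_not_isIntegral {a : Ω} (ha : ¬ IsIntegral ℚ a) : affLogHeight a = 0 :=
  absLogHeight_of_not (fun h => ha (by simpa using h.2 0))

/-- Agreement with Mathlib's `NumberField.absLogHeight₁`. -/
theorem affLogHeight_eq_absLogHeight₁ (a : Ω) : affLogHeight a = NumberField.absLogHeight₁ a := by
  by_cases ha : IsIntegral ℚ a
  · unfold NumberField.absLogHeight₁ NumberField.absMulHeight₁
    rw [dif_pos ha]
    have : FiniteDimensional ℚ ℚ⟮a⟯ := adjoin.finiteDimensional ha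
    have : NumberField ℚ⟮a⟯ := {}
    have h := affLogHeight_coe ℚ⟮a⟯ (AdjoinSimple.gen ℚ a)
    rw [AdjoinSimple.coe_gen] at h
    rw [h, Real.log_rpow (mulHeight₁_pos _), logHeight₁_eq_log_mulHeight₁]
    ring
  · rw [affLogHeight_of_not_isIntegral ha]
    unfold NumberField.absLogHeight₁ NumberField.absMulHeight₁
    rw [dif_neg ha, Real.log_one]

theorem affLogHeight_ratCast (q : ℚ) :
    affLogHeight (q : Ω) = Real.log (max q.num.natAbs q.den : ℕ) := by
  have h := affLogHeight_ringHom (algebraMap ℚ Ω) q
  rw [eq_ratCast] at h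
  rw [h, Module.finrank_self, Nat.cast_one, div_one, Rat.logHeight₁_eq_log_max]

theorem affLogHeight_zero : affLogHeight (0 : Ω) = 0 := by
  have h := affLogHeight_ringHom (algebraMap ℚ Ω) 0
  rwa [map_zero, logHeight₁_zero, zero_div] at h

theorem affLogHeight_one : affLogHeight (1 : Ω) = 0 := by
  have h := affLogHeight_ringHom (algebraMap ℚ Ω) 1
  rwa [map_one, logHeight₁_one, zero_div] at h

theorem affLogHeight_natCast (n : ℕ) : affLogHeight (n : Ω) = Real.log n := by
  rcases Nat.eq_zero_or_pos n with rfl | hn
  · simp [affLogHeight_zero]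
  · have : NeZero n := ⟨hn.ne'⟩
    have h := affLogHeight_ringHom (algebraMap ℚ Ω) (n : ℚ)
    rwa [map_natCast, Rat.logHeight₁_natCast, Module.finrank_self, Nat.cast_one, div_one] at h

variable [Algebra.IsAlgebraic ℚ Ω]

theorem exists_numberField_mem (a : Ω) : ∃ F : IntermediateField ℚ Ω, NumberField F ∧ a ∈ F := by
  obtain ⟨F, hF, hs⟩ := exists_numberField_le {a} (Set.finite_singleton a)
  exact ⟨F, hF, hs rfl⟩

theorem exists_numberField_mem₂ (a b : Ω) :
    ∃ F : IntermediateField ℚ Ω, NumberField F ∧ a ∈ F ∧ b ∈ F := by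
  obtain ⟨F, hF, hs⟩ := exists_numberField_le {a, b} (Set.toFinite _)
  exact ⟨F, hF, hs (by simp), hs (by simp)⟩

theorem affLogHeight_mul_le (a b : Ω) :
    affLogHeight (a * b) ≤ affLogHeight a + affLogHeight b := by
  obtain ⟨F, hF, ha, hb⟩ := exists_numberField_mem₂ a b
  have h1 := affLogHeight_coe F ⟨a, ha⟩
  have h2 := affLogHeight_coe F ⟨b, hb⟩
  have h3 := affLogHeight_coe F (⟨a, ha⟩ * ⟨b, hb⟩)
  simp only [MulMemClass.coe_mul] at h1 h2 h3
  rw [h1, h2, h3, ← add_div]
  exact div_le_div_of_nonneg_right (logHeight₁_mul_le _ _) (finrank_rat_pos F).le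

theorem affLogHeight_add_le (a b : Ω) :
    affLogHeight (a + b) ≤ Real.log 2 + affLogHeight a + affLogHeight b := by
  obtain ⟨F, hF, ha, hb⟩ := exists_numberField_mem₂ a b
  have h1 := affLogHeight_coe F ⟨a, ha⟩
  have h2 := affLogHeight_coe F ⟨b, hb⟩
  have h3 := affLogHeight_coe F (⟨a, ha⟩ + ⟨b, hb⟩)
  simp only [AddMemClass.coe_add] at h1 h2 h3
  have hd := finrank_rat_pos F
  have key := logHeight₁_add_le (⟨a, ha⟩ : F) ⟨b, hb⟩
  rw [totalWeight_eq_finrank] at key
  rw [h1, h2, h3, div_le_iff₀ hd]
  calc logHeight₁ ((⟨a, ha⟩ : F) + ⟨b, hb⟩) ≤ _ := key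
    _ = _ := by field_simp

theorem affLogHeight_neg (a : Ω) : affLogHeight (-a) = affLogHeight a := by
  obtain ⟨F, hF, ha⟩ := exists_numberField_mem a
  have h1 := affLogHeight_coe F ⟨a, ha⟩
  have h2 := affLogHeight_coe F (-⟨a, ha⟩)
  simp only [NegMemClass.coe_neg] at h1 h2
  rw [h1, h2, logHeight₁_neg]

theorem affLogHeight_sub_le (a b : Ω) :
    affLogHeight (a - b) ≤ Real.log 2 + affLogHeight a + affLogHeight b := by
  rw [sub_eq_add_neg, ← affLogHeight_neg b]
  exact affLogHeight_add_le a (-b)

theorem affLogHeight_inv (a : Ω) : affLogHeight a⁻¹ = affLogHeight a := by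
  obtain ⟨F, hF, ha⟩ := exists_numberField_mem a
  have h1 := affLogHeight_coe F ⟨a, ha⟩
  have h2 := affLogHeight_coe F (⟨a, ha⟩)⁻¹
  simp only [IntermediateField.coe_inv] at h1 h2
  rw [h1, h2, logHeight₁_inv]

theorem affLogHeight_pow (a : Ω) (n : ℕ) : affLogHeight (a ^ n) = n * affLogHeight a := by
  obtain ⟨F, hF, ha⟩ := exists_numberField_mem a
  have h1 := affLogHeight_coe F ⟨a, ha⟩
  have h2 := affLogHeight_coe F ((⟨a, ha⟩ : F) ^ n)
  simp only [SubmonoidClass.coe_pow] at h1 h2
  rw [h1, h2, logHeight₁_pow, mul_div_assoc]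

theorem affLogHeight_zpow (a : Ω) (n : ℤ) :
    affLogHeight (a ^ n) = n.natAbs * affLogHeight a := by
  rcases Int.natAbs_eq n with h | h
  · rw [h, zpow_natCast, affLogHeight_pow, Int.natAbs_natCast]
  · rw [h, zpow_neg, zpow_natCast, affLogHeight_inv, affLogHeight_pow, Int.natAbs_neg,
      Int.natAbs_natCast]

theorem affLogHeight_div_le (a b : Ω) :
    affLogHeight (a / b) ≤ affLogHeight a + affLogHeight b := by
  rw [div_eq_mul_inv, ← affLogHeight_inv b]
  exact affLogHeight_mul_le a b⁻¹

/-- The absolute height of a quotient is the absolute height of the projective point. -/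
theorem affLogHeight_div_eq (a b : Ω) : affLogHeight (a / b) = absLogHeight ![a, b] := by
  obtain ⟨F, hF, ha, hb⟩ := exists_numberField_mem₂ a b
  have h3 := affLogHeight_coe F ((⟨a, ha⟩ : F) / ⟨b, hb⟩)
  simp only [IntermediateField.coe_div] at h3
  have h4 := absLogHeight_coe F ![(⟨a, ha⟩ : F), ⟨b, hb⟩]
  have e : (fun i => ((![(⟨a, ha⟩ : F), ⟨b, hb⟩] i : F) : Ω)) = ![a, b] := by
    funext i
    fin_cases i <;> rfl
  rw [e] at h4
  rw [h3, h4, logHeight₁_div_eq_logHeight]

theorem affLogHeight_prod_le {α : Type*} (s : Finset α) (x : α → Ω) :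
    affLogHeight (∏ i ∈ s, x i) ≤ ∑ i ∈ s, affLogHeight (x i) := by
  classical
  induction s using Finset.induction with
  | empty => simp [affLogHeight_one]
  | insert b s hb ih =>
    rw [Finset.prod_insert hb, Finset.sum_insert hb]
    exact (affLogHeight_mul_le _ _).trans (by gcongr)

theorem affLogHeight_sum_le {α : Type*} (s : Finset α) (x : α → Ω) :
    affLogHeight (∑ i ∈ s, x i) ≤ Real.log s.card + ∑ i ∈ s, affLogHeight (x i) := by
  classical
  obtain ⟨F, hF, hs⟩ := exists_numberField_le (x '' (s : Set α)) (s.finite_toSet.image x)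
  have hx : ∀ i ∈ s, x i ∈ F := fun i hi => hs ⟨i, hi, rfl⟩
  let y : α → F := fun i => if h : i ∈ s then ⟨x i, hx i h⟩ else 0
  have hy : ∀ i ∈ s, (y i : Ω) = x i := fun i hi => by simp [y, hi]
  have hsum : ((∑ i ∈ s, y i : F) : Ω) = ∑ i ∈ s, x i := by
    rw [AddSubmonoidClass.coe_finsetSum]
    exact Finset.sum_congr rfl hy
  have h1 := affLogHeight_coe F (∑ i ∈ s, y i)
  rw [hsum] at h1
  have h2 : ∑ i ∈ s, affLogHeight (x i) = (∑ i ∈ s, logHeight₁ (y i)) / Module.finrank ℚ F := by
    rw [Finset.sum_div]
    refine Finset.sum_congr rfl fun i hi => ?_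
    rw [← hy i hi, affLogHeight_coe]
  have hd := finrank_rat_pos F
  have key := logHeight₁_sum_le s y
  rw [totalWeight_eq_finrank] at key
  rw [h1, h2, div_le_iff₀ hd]
  calc logHeight₁ (∑ i ∈ s, y i) ≤ _ := key
    _ = _ := by field_simp

/-- Roots of unity have absolute height zero. -/
theorem affLogHeight_eq_zero_of_pow_eq_one {a : Ω} {n : ℕ} (hn : n ≠ 0) (h : a ^ n = 1) :
    affLogHeight a = 0 := by
  have := affLogHeight_pow a n
  rw [h, affLogHeight_one] at this
  have hn' : (n : ℝ) ≠ 0 := by exact_mod_cast hn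
  exact (mul_eq_zero.mp this.symm).resolve_left hn'

/-- A ratio of two coordinates has absolute height at most that of the projective point. -/
theorem affLogHeight_div_le_absLogHeight {ι : Type*} [Finite ι] (x : ι → Ω) (i j : ι) :
    affLogHeight (x i / x j) ≤ absLogHeight x := by
  rw [affLogHeight_div_eq]
  have : ![x i, x j] = x ∘ ![i, j] := by
    funext k
    fin_cases k <;> rfl
  rw [this]
  exact absLogHeight_comp_le _ x

/-- The absolute height of an affine point `(1, x₁, …, xₙ)` is at most the sum of the
absolute heights of its coordinates. -/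
theorem absLogHeight_option_le_sum {ι : Type*} [Fintype ι] (x : ι → Ω) :
    absLogHeight (fun o : Option ι => o.elim 1 x) ≤ ∑ i, affLogHeight (x i) := by
  classical
  obtain ⟨F, hF, hx⟩ := exists_numberField_range x
  have hx1 : ∀ o : Option ι, (fun o : Option ι => o.elim 1 x) o ∈ F := by
    rintro (_ | i)
    · exact F.one_mem
    · exact hx i
  rw [absLogHeight_eq_liftTuple F _ hx1]
  have h2 : ∑ i, affLogHeight (x i) =
      (∑ i, logHeight ![liftTuple F x hx i, 1]) / Module.finrank ℚ F := by
    rw [Finset.sum_div]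
    refine Finset.sum_congr rfl fun i _ => ?_
    rw [← logHeight₁_eq_logHeight, ← affLogHeight_coe]
    rfl
  rw [h2]
  refine div_le_div_of_nonneg_right ?_ (finrank_rat_pos F).le
  have hne : ∀ i, ![liftTuple F x hx i, 1] ≠ 0 := fun i h => by
    have := congrFun h 1
    simp at this
  rw [← logHeight_fun_prod_eq hne]
  let g : Option ι → (ι → Fin 2) := fun o => o.elim (fun _ => 1) (fun i a => if a = i then 0 else 1)
  have e : liftTuple F _ hx1 =
      (fun I : ι → Fin 2 => ∏ a, ![liftTuple F x hx a, 1] (I a)) ∘ g := by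
    funext o
    rcases o with _ | i
    · apply Subtype.ext
      simp [g, liftTuple]
    · simp only [Function.comp_apply, g, Option.elim_some]
      rw [Finset.prod_eq_single i]
      · simp
        rfl
      · intro b _ hb
        simp [hb]
      · intro h
        exact absurd (Finset.mem_univ i) h
  rw [e]
  exact logHeight_comp_le g _

end Affine

end Fermat.Agent.Lib.helper927
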