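import Mathlib
import Fermat.Agent.Lib.helper927_AbsHeight
import Fermat.Agent.Lib.helper1256_AbsHeight

set_option autoImplicit false

/-!
# Absolute forms of Northcott in bounded degree and of roots versus coefficients

The statements of `helper1256_AbsHeight` (stated inside one number field) transported to the
absolute heights `absLogHeight` / `affLogHeight` of `helper927_AbsHeight` on an arbitrary field
`Ω` of characteristic zero.  All constants are independent of any number field.
-/

namespace Fermat.Agent.Lib.helper1256

open NumberField Module Polynomial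
open Fermat.Agent.Lib.helper927

universe v

section AbsRootsCoeff

variable {Ω : Type*} [Field Ω] [CharZero Ω]

/-- **Roots versus coefficients, absolute form.**  For algebraic `α i : Ω`, the sum of the
absolute heights of the `α i` and the absolute height of the coefficient vector of
`∏ (X - α i)` differ by at most `d * log 2`. -/
theorem abs_sum_affLogHeight_sub_absLogHeight_coeff_le {ι : Type*} [Fintype ι] (α : ι → Ω)
    (hα : ∀ i, IsIntegral ℚ (α i)) {N : ℕ} (hN : Fintype.card ι ≤ N) :
    |∑ i, affLogHeight (α i) -
        absLogHeight (fun j : Fin (N + 1) => (∏ i, (X - C (α i)) : Polynomial Ω).coeff j)| ≤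
      Fintype.card ι * Real.log 2 := by
  have hfd : FiniteDimensional ℚ (IntermediateField.adjoin ℚ (Set.range α)) :=
    finiteDimensional_adjoin_range hα
  have hnf : NumberField (IntermediateField.adjoin ℚ (Set.range α)) := {}
  set F := IntermediateField.adjoin ℚ (Set.range α) with hF
  let α' : ι → F := fun i => ⟨α i, IntermediateField.subset_adjoin ℚ _ (Set.mem_range_self i)⟩
  have hmap : (∏ i, (X - C (α' i)) : F[X]).map (algebraMap F Ω) = ∏ i, (X - C (α i)) := by
    simp only [Polynomial.map_prod, Polynomial.map_sub, Polynomial.map_X, Polynomial.map_C]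
    rfl
  have h1 : absLogHeight (fun j : Fin (N + 1) => (∏ i, (X - C (α i)) : Polynomial Ω).coeff j) =
      Height.logHeight (fun j : Fin (N + 1) => (∏ i, (X - C (α' i)) : F[X]).coeff j) /
        finrank ℚ F := by
    rw [← absLogHeight_ringHom (algebraMap F Ω), ← hmap]
    simp only [coeff_map]
  have h2 : ∀ i, affLogHeight (α i) = Height.logHeight₁ (α' i) / finrank ℚ F := fun i =>
    affLogHeight_ringHom (algebraMap F Ω) (α' i)
  have h3 := abs_sum_logHeight₁_sub_logHeight_coeff_prod_X_sub_C_le α' hN
  have hn : (0 : ℝ) < finrank ℚ F := by exact_mod_cast finrank_pos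
  rw [h1, Finset.sum_congr rfl fun i _ => h2 i, ← Finset.sum_div, ← sub_div, abs_div,
    abs_of_pos hn, div_le_iff₀ hn]
  calc _ ≤ Fintype.card ι * finrank ℚ F * Real.log 2 := h3
    _ = _ := by ring

/-- Roots versus coefficients, absolute form, for a monic split polynomial over `Ω` with
algebraic roots. -/
theorem abs_sum_roots_affLogHeight_sub_absLogHeight_coeff_le_of_splits {P : Polynomial Ω}
    (hP : P.Monic) (hs : P.Splits) (hα : ∀ a ∈ P.roots, IsIntegral ℚ a) {N : ℕ}
    (hN : P.natDegree ≤ N) :
    |(P.roots.map affLogHeight).sum - absLogHeight (fun j : Fin (N + 1) => P.coeff j)| ≤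
      P.natDegree * Real.log 2 := by
  obtain ⟨n, α, hα'⟩ := exists_fin_map_eq P.roots
  have hcard : P.natDegree = Fintype.card (Fin n) := by
    rw [hs.natDegree_eq_card_roots, ← hα']; simp
  have hP' : P = ∏ i, (X - C (α i)) := by
    conv_lhs => rw [hs.eq_prod_roots_of_monic hP, ← hα', Multiset.map_map]
    rfl
  have hint : ∀ i, IsIntegral ℚ (α i) := fun i =>
    hα _ (hα' ▸ Multiset.mem_map_of_mem α (Finset.mem_univ_val i))
  have h := abs_sum_affLogHeight_sub_absLogHeight_coeff_le α hint (N := N) (by omega)
  rw [← hP'] at h
  rw [← hα', Multiset.map_map, hcard]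
  exact h

/-- Roots versus coefficients for a monic polynomial over a number field `K` that splits in
`Ω`: the sum of the absolute heights of its roots in `Ω` versus the normalised height of its
coefficient vector over `K`. -/
theorem abs_sum_roots_affLogHeight_sub_logHeight_coeff_div_le {K : Type*} [Field K]
    [NumberField K] (φ : K →+* Ω) {P : Polynomial K} (hP : P.Monic) (hs : (P.map φ).Splits)
    {N : ℕ} (hN : P.natDegree ≤ N) :
    |((P.map φ).roots.map affLogHeight).sum -
        Height.logHeight (fun j : Fin (N + 1) => P.coeff j) / finrank ℚ K| ≤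
      P.natDegree * Real.log 2 := by
  have hint : ∀ a ∈ (P.map φ).roots, IsIntegral ℚ a := by
    intro a ha
    have hroot : (P.map φ).IsRoot a := (Polynomial.mem_roots (hP.map φ).ne_zero).mp ha
    let _ : Algebra K Ω := φ.toAlgebra
    have : IsScalarTower ℚ K Ω := IsScalarTower.of_algebraMap_eq fun q => by
      rw [RingHom.algebraMap_toAlgebra, eq_ratCast, eq_ratCast, map_ratCast]
    have hK : IsIntegral K a := ⟨P, hP, by
      rw [Polynomial.IsRoot.def, Polynomial.eval_map] at hroot
      exact hroot⟩
    exact isIntegral_trans a hK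
  have h := abs_sum_roots_affLogHeight_sub_absLogHeight_coeff_le_of_splits (hP.map φ) hs hint
    (N := N) (by rw [hP.natDegree_map]; exact hN)
  rw [hP.natDegree_map] at h
  have h1 : absLogHeight (fun j : Fin (N + 1) => (P.map φ).coeff j) =
      Height.logHeight (fun j : Fin (N + 1) => P.coeff j) / finrank ℚ K := by
    rw [← absLogHeight_ringHom φ]
    simp only [coeff_map]
  rw [h1] at h
  exact h

/-- Roots versus coefficients for a monic rational polynomial that splits in `Ω`: the sum of
the absolute heights of its roots versus the height of its coefficient vector over `ℚ`. -/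
theorem abs_sum_roots_affLogHeight_sub_logHeight_coeff_rat_le {P : Polynomial ℚ} (hP : P.Monic)
    (hs : (P.map (algebraMap ℚ Ω)).Splits) {N : ℕ} (hN : P.natDegree ≤ N) :
    |((P.map (algebraMap ℚ Ω)).roots.map affLogHeight).sum -
        Height.logHeight (fun j : Fin (N + 1) => P.coeff j)| ≤ P.natDegree * Real.log 2 := by
  have h := abs_sum_roots_affLogHeight_sub_logHeight_coeff_div_le (algebraMap ℚ Ω) hP hs hN
  rwa [Module.finrank_self, Nat.cast_one, div_one] at h

end AbsRootsCoeff

section AbsNorthcott

/-- **Northcott in bounded degree** for the absolute height `affLogHeight`. -/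
theorem finite_setOf_natDegree_le_affLogHeight_le (Ω : Type v) [Field Ω] [CharZero Ω]
    (D : ℕ) (B : ℝ) :
    {x : Ω | IsIntegral ℚ x ∧ (minpoly ℚ x).natDegree ≤ D ∧ affLogHeight x ≤ B}.Finite := by
  simp_rw [affLogHeight_eq_absLogHeight₁]
  exact finite_setOf_natDegree_le_absLogHeight₁_le Ω D B

/-- **Northcott in bounded degree** for `affLogHeight` on an algebraic extension of `ℚ`
(for instance `AlgebraicClosure ℚ`). -/
theorem finite_setOf_natDegree_le_affLogHeight_le' (Ω : Type v) [Field Ω] [CharZero Ω]
    [Algebra.IsAlgebraic ℚ Ω] (D : ℕ) (B : ℝ) :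
    {x : Ω | (minpoly ℚ x).natDegree ≤ D ∧ affLogHeight x ≤ B}.Finite :=
  (finite_setOf_natDegree_le_affLogHeight_le Ω D B).subset fun x hx =>
    ⟨Algebra.IsIntegral.isIntegral x, hx.1, hx.2⟩

end AbsNorthcott

end Fermat.Agent.Lib.helper1256
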