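import Mathlib

set_option autoImplicit false

namespace Fermat.Agent.Lib.helper131

open Polynomial Finset

section Abstract

variable {R : Type*} [CommRing R] [IsDomain R] {p : ℕ} {π : R}

/-- If the residue ring `R ⧸ (π)` has prime cardinality `p`, every element of `R` is congruent
to a rational integer modulo `π`. -/
theorem exists_int_sub_dvd (hp : p.Prime) (hcard : Nat.card (R ⧸ Ideal.span {π}) = p) (a : R) :
    ∃ n : ℤ, π ∣ a - n := by
  have : Fact p.Prime := ⟨hp⟩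
  have hne : (1 : R ⧸ Ideal.span {π}) ≠ 0 := by
    intro h
    have : Subsingleton (R ⧸ Ideal.span {π}) := subsingleton_of_zero_eq_one h.symm
    have h1 : Nat.card (R ⧸ Ideal.span {π}) = 1 := Nat.card_unique
    rw [hcard] at h1
    exact hp.one_lt.ne' h1
  have hmem : (Ideal.Quotient.mk (Ideal.span {π}) a) ∈
      AddSubgroup.zmultiples (1 : R ⧸ Ideal.span {π}) :=
    mem_zmultiples_of_prime_card hcard hne
  obtain ⟨n, hn⟩ := AddSubgroup.mem_zmultiples_iff.mp hmem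
  refine ⟨n, ?_⟩
  rw [← Ideal.mem_span_singleton, ← Ideal.Quotient.eq]
  simp [← hn]

/-- `π ∣ p` when `π ^ (p - 1)` is associated to `p`. -/
theorem pi_dvd_p (hp : p.Prime) (hassoc : Associated (π ^ (p - 1)) (p : R)) : π ∣ (p : R) :=
  (dvd_pow_self π (Nat.sub_ne_zero_of_lt hp.one_lt)).trans hassoc.dvd

/-- If `π` divides a rational integer then so does `p`. -/
theorem int_dvd_of_pi_dvd (hp : p.Prime) (hπ : Prime π)
    (hassoc : Associated (π ^ (p - 1)) (p : R)) {n : ℤ} (h : π ∣ (n : R)) : (p : ℤ) ∣ n := by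
  by_contra hnd
  have hcop : IsCoprime (p : ℤ) n :=
    (Nat.prime_iff_prime_int.mp hp).irreducible.coprime_iff_not_dvd.mpr hnd
  obtain ⟨s, t, hst⟩ := hcop
  have h1 : (s : R) * (p : R) + (t : R) * (n : R) = 1 := by
    have := congrArg (Int.cast : ℤ → R) hst
    push_cast at this
    exact this
  have : π ∣ (1 : R) := by
    rw [← h1]
    exact dvd_add (Dvd.dvd.mul_left (pi_dvd_p hp hassoc) _) (Dvd.dvd.mul_left h _)
  exact hπ.not_isUnit (isUnit_of_dvd_one this)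

/-- Every `p`-th power is congruent to a rational integer modulo `p`. -/
theorem exists_int_pow_sub_dvd (hp : p.Prime) (hcard : Nat.card (R ⧸ Ideal.span {π}) = p)
    (hassoc : Associated (π ^ (p - 1)) (p : R)) (a : R) :
    ∃ n : ℤ, (p : R) ∣ a ^ p - n := by
  obtain ⟨n, t, ht⟩ := exists_int_sub_dvd hp hcard a
  obtain ⟨r, hr⟩ := exists_add_pow_prime_eq hp (n : R) (π * t)
  refine ⟨n ^ p, ?_⟩
  have ha : a = n + π * t := by rw [← ht]; ring
  have hpp : (p : R) ∣ π ^ p := by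
    have : π ^ p = π ^ (p - 1) * π := by
      rw [← pow_succ, Nat.sub_add_cancel hp.one_le]
    rw [this]
    exact Dvd.dvd.mul_right hassoc.symm.dvd _
  obtain ⟨w, hw⟩ := hpp
  rw [ha, hr]
  refine ⟨w * t ^ p + (n : R) * (π * t) * r, ?_⟩
  push_cast
  rw [mul_pow, hw]
  ring


/-- A "level `m`" solution of the generalized Fermat equation in `R`. -/
def Sol (p : ℕ) (π : R) (m : ℕ) : Prop :=
  ∃ (x y z : R) (ε : Rˣ), x ^ p + y ^ p = ε * π ^ (p * m) * z ^ p ∧ ¬ π ∣ y ∧ ¬ π ∣ z ∧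
    IsCoprime x y

theorem descent_step [IsPrincipalIdealRing R]
    (hp : p.Prime) (hp3 : 3 ≤ p) (hπ : Prime π)
    (hcard : Nat.card (R ⧸ Ideal.span {π}) = p)
    (hassoc : Associated (π ^ (p - 1)) (p : R))
    (hprod : ∀ x y : R, x ^ p + y ^ p = ∏ η ∈ nthRootsFinset p (1 : R), (x + η * y))
    (hcardμ : (nthRootsFinset p (1 : R)).card = p)
    (hroots : ∀ η₁ ∈ nthRootsFinset p (1 : R), ∀ η₂ ∈ nthRootsFinset p (1 : R), η₁ ≠ η₂ →
      Associated π (η₁ - η₂))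
    (hK : ∀ u : Rˣ, (∃ n : ℤ, (p : R) ∣ (u : R) - n) → ∃ v : Rˣ, u = v ^ p)
    {m : ℕ} (h : Sol p π (m + 1)) : 1 ≤ m ∧ Sol p π m := by
  classical
  obtain ⟨x, y, z, ε, heq, hy, hz, hxy⟩ := h
  set μ := nthRootsFinset p (1 : R) with hμ
  have hp0 : p ≠ 0 := hp.ne_zero
  -- Step 2: `π` divides every factor
  have hdiv : ∀ η ∈ μ, π ∣ x + η * y := by
    have h1 : π ∣ ∏ η ∈ μ, (x + η * y) := by
      rw [← hprod, heq]
      exact Dvd.dvd.mul_right (Dvd.dvd.mul_left (dvd_pow_self π (by positivity)) _) _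
    obtain ⟨η₀, hη₀, hd⟩ := (Prime.dvd_finsetProd_iff hπ _).mp h1
    intro η hη
    have e : x + η * y = (x + η₀ * y) + (η - η₀) * y := by ring
    rw [e]
    by_cases hne : η = η₀
    · subst hne; simpa using hd
    · exact dvd_add hd (Dvd.dvd.mul_right (hroots η hη η₀ hη₀ hne).dvd _)
  -- Step 3: choose the quotients
  choose! a ha using hdiv
  -- Step 4: the quotients are pairwise incongruent mod `π`
  have hinj : ∀ η₁ ∈ μ, ∀ η₂ ∈ μ, π ∣ a η₁ - a η₂ → η₁ = η₂ := by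
    intro η₁ h₁ η₂ h₂ hd
    by_contra hne
    obtain ⟨u, hu⟩ := hroots η₁ h₁ η₂ h₂ hne
    have e : π * (a η₁ - a η₂) = π * (u * y) := by
      rw [mul_sub, ← ha η₁ h₁, ← ha η₂ h₂, ← mul_assoc, hu]; ring
    have e' := mul_left_cancel₀ hπ.ne_zero e
    rw [e'] at hd
    exact hy ((hπ.dvd_or_dvd hd).resolve_left
      (fun h => hπ.not_isUnit (isUnit_of_dvd_unit h u.isUnit)))
  -- pigeonhole: some quotient is divisible by `π`
  obtain ⟨η₀, hη₀, hη₀d⟩ : ∃ η₀ ∈ μ, π ∣ a η₀ := by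
    let f : μ → R ⧸ Ideal.span {π} := fun η => Ideal.Quotient.mk _ (a η)
    have hf : Function.Injective f := by
      intro η₁ η₂ h12
      have h3 := Ideal.Quotient.eq.mp h12
      rw [Ideal.mem_span_singleton] at h3
      exact Subtype.ext (hinj _ η₁.2 _ η₂.2 h3)
    have : Finite (R ⧸ Ideal.span {π}) :=
      Nat.finite_of_card_ne_zero (by rw [hcard]; exact hp0)
    have hb := Function.Injective.bijective_of_nat_card_le hf (by rw [hcard]; simp [hcardμ])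
    obtain ⟨η₀, h0⟩ := hb.2 0
    refine ⟨η₀, η₀.2, ?_⟩
    have h3 := Ideal.Quotient.eq_zero_iff_mem.mp h0
    rwa [Ideal.mem_span_singleton] at h3
  have hnd : ∀ η ∈ μ, η ≠ η₀ → ¬ π ∣ a η := by
    intro η hη hne hd
    exact hne (hinj η hη η₀ hη₀ (dvd_sub hd hη₀d))
  -- Step 6: the product of the quotients
  have hprodA : ∏ η ∈ μ, a η = ε * π ^ (p * m) * z ^ p := by
    have h1 : ∏ η ∈ μ, (x + η * y) = π ^ p * ∏ η ∈ μ, a η := by
      rw [Finset.prod_congr rfl ha, Finset.prod_mul_distrib, Finset.prod_const, hcardμ]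
    rw [← hprod, heq] at h1
    have h2 : π ^ p * (ε * π ^ (p * m) * z ^ p) = π ^ p * ∏ η ∈ μ, a η := by
      rw [← h1]; ring
    exact (mul_left_cancel₀ (pow_ne_zero _ hπ.ne_zero) h2).symm
  -- split off `η₀`
  set A := ∏ η ∈ μ.erase η₀, a η with hA
  have hsplit : a η₀ * A = ε * π ^ (p * m) * z ^ p := by
    rw [hA, Finset.mul_prod_erase μ a hη₀, hprodA]
  have hAnd : ¬ π ∣ A := by
    intro hd
    obtain ⟨η, hη, hd'⟩ := (Prime.dvd_finsetProd_iff hπ _).mp hd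
    exact hnd η (Finset.mem_of_mem_erase hη) (Finset.ne_of_mem_erase hη) hd'
  have hpow : π ^ (p * m) ∣ a η₀ := by
    have h1 : π ^ (p * m) ∣ a η₀ * A := by
      rw [hsplit]; exact Dvd.dvd.mul_right (Dvd.dvd.mul_left dvd_rfl _) _
    exact hπ.pow_dvd_of_dvd_mul_right _ hAnd h1
  obtain ⟨b₀, hb₀⟩ := hpow
  have hb₀A : b₀ * A = ε * z ^ p := by
    have h1 : π ^ (p * m) * (b₀ * A) = π ^ (p * m) * (ε * z ^ p) := by
      rw [← mul_assoc, ← hb₀, hsplit]; ring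
    exact mul_left_cancel₀ (pow_ne_zero _ hπ.ne_zero) h1
  have hb₀nd : ¬ π ∣ b₀ := by
    intro hd
    have h1 : π ∣ ε * z ^ p := by rw [← hb₀A]; exact Dvd.dvd.mul_right hd _
    rcases hπ.dvd_or_dvd h1 with h | h
    · exact hπ.not_isUnit (isUnit_of_dvd_unit h ε.isUnit)
    · exact hz (hπ.dvd_of_dvd_pow h)
  have hm : 1 ≤ m := by
    by_contra hm0
    have hm0' : m = 0 := by omega
    subst hm0'
    rw [mul_zero, pow_zero, one_mul] at hb₀
    exact hb₀nd (hb₀ ▸ hη₀d)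
  refine ⟨hm, ?_⟩
  -- pairwise coprimality of the quotients
  have hcop : ∀ η₁ ∈ μ, ∀ η₂ ∈ μ, η₁ ≠ η₂ → IsCoprime (a η₁) (a η₂) := by
    intro η₁ h₁ η₂ h₂ hne
    obtain ⟨u, hu⟩ := hroots η₁ h₁ η₂ h₂ hne
    obtain ⟨s, t, hst⟩ := hxy
    have e1 : a η₁ - a η₂ = u * y := by
      have e : π * (a η₁ - a η₂) = π * (u * y) := by
        rw [mul_sub, ← ha η₁ h₁, ← ha η₂ h₂, ← mul_assoc, hu]; ring
      exact mul_left_cancel₀ hπ.ne_zero e
    have e2 : η₁ * a η₂ - η₂ * a η₁ = u * x := by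
      have e : π * (η₁ * a η₂ - η₂ * a η₁) = π * (u * x) := by
        have e' : π * (η₁ * a η₂ - η₂ * a η₁) = η₁ * (π * a η₂) - η₂ * (π * a η₁) := by ring
        rw [e', ← ha η₁ h₁, ← ha η₂ h₂, ← mul_assoc, hu]; ring
      exact mul_left_cancel₀ hπ.ne_zero e
    refine ⟨(↑u⁻¹ : R) * (t - s * η₂), (↑u⁻¹ : R) * (s * η₁ - t), ?_⟩
    have e3 : (↑u⁻¹ : R) * (t - s * η₂) * a η₁ + (↑u⁻¹ : R) * (s * η₁ - t) * a η₂
        = (↑u⁻¹ : R) * (s * (η₁ * a η₂ - η₂ * a η₁) + t * (a η₁ - a η₂)) := by ring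
    rw [e3, e1, e2]
    have e4 : (↑u⁻¹ : R) * (s * (↑u * x) + t * (↑u * y)) = (↑u⁻¹ * ↑u : R) * (s * x + t * y) := by
      ring
    rw [e4, hst, Units.inv_mul, one_mul]
  -- two more roots
  obtain ⟨η₁, hη₁', η₂, hη₂', h12⟩ : ∃ η₁ ∈ μ.erase η₀, ∃ η₂ ∈ μ.erase η₀, η₁ ≠ η₂ := by
    apply Finset.one_lt_card.mp
    rw [Finset.card_erase_of_mem hη₀, hcardμ]; omega
  have hη₁ := Finset.mem_of_mem_erase hη₁'
  have h10 := Finset.ne_of_mem_erase hη₁'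
  have hη₂ := Finset.mem_of_mem_erase hη₂'
  have h20 := Finset.ne_of_mem_erase hη₂'
  -- `b₀` is associated to a `p`-th power
  have hcopb₀ : ∀ η ∈ μ, η ≠ η₀ → IsCoprime b₀ (a η) := by
    intro η hη hne
    have h1 := hcop η₀ hη₀ η hη (Ne.symm hne)
    rw [hb₀] at h1
    exact h1.of_mul_left_right
  obtain ⟨ρ₀, hρ₀⟩ : ∃ ρ₀, Associated (ρ₀ ^ p) b₀ := by
    have hc : IsCoprime b₀ ((↑ε⁻¹ : R) * A) := by
      rw [isCoprime_mul_unit_left_right ε⁻¹.isUnit]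
      exact IsCoprime.prod_right (fun η hη =>
          hcopb₀ η (Finset.mem_of_mem_erase hη) (Finset.ne_of_mem_erase hη))
    have he : b₀ * ((↑ε⁻¹ : R) * A) = z ^ p := by
      calc b₀ * ((↑ε⁻¹ : R) * A) = ↑ε⁻¹ * (b₀ * A) := by ring
        _ = ↑ε⁻¹ * (ε * z ^ p) := by rw [hb₀A]
        _ = z ^ p := by rw [← mul_assoc, Units.inv_mul, one_mul]
    exact exists_associated_pow_of_mul_eq_pow' hc he
  have hpowη : ∀ η ∈ μ, η ≠ η₀ → ∃ ρ, Associated (ρ ^ p) (a η) := by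
    intro η hη hne
    have hc : IsCoprime (a η) ((↑ε⁻¹ : R) * ∏ η' ∈ μ.erase η, a η') := by
      rw [isCoprime_mul_unit_left_right ε⁻¹.isUnit]
      exact IsCoprime.prod_right (fun η' hη' =>
          hcop η hη η' (Finset.mem_of_mem_erase hη') (Ne.symm (Finset.ne_of_mem_erase hη')))
    have he : a η * ((↑ε⁻¹ : R) * ∏ η' ∈ μ.erase η, a η') = (π ^ m * z) ^ p := by
      calc a η * ((↑ε⁻¹ : R) * ∏ η' ∈ μ.erase η, a η')
          = ↑ε⁻¹ * (a η * ∏ η' ∈ μ.erase η, a η') := by ring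
        _ = ↑ε⁻¹ * (ε * π ^ (p * m) * z ^ p) := by rw [Finset.mul_prod_erase μ a hη, hprodA]
        _ = (↑ε⁻¹ * ε) * (π ^ (p * m) * z ^ p) := by ring
        _ = (π ^ m * z) ^ p := by rw [Units.inv_mul, one_mul, mul_pow, ← pow_mul, mul_comm m p]
    exact exists_associated_pow_of_mul_eq_pow' hc he
  obtain ⟨ρ₁, u₁, hρ₁⟩ := hpowη η₁ hη₁ h10
  obtain ⟨ρ₂, u₂, hρ₂⟩ := hpowη η₂ hη₂ h20
  obtain ⟨u₀, hρ₀⟩ := hρ₀
  have hρ₀nd : ¬ π ∣ ρ₀ := fun hd => hb₀nd (hρ₀ ▸ Dvd.dvd.mul_right (dvd_pow hd hp0) _)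
  have hρ₂nd : ¬ π ∣ ρ₂ := fun hd =>
    hnd η₂ hη₂ h20 (hρ₂ ▸ Dvd.dvd.mul_right (dvd_pow hd hp0) _)
  have hρ12 : IsCoprime ρ₁ ρ₂ := by
    have h1 := hcop η₁ hη₁ η₂ hη₂ h12
    rw [← hρ₁, ← hρ₂] at h1
    exact (IsCoprime.pow_iff hp.pos hp.pos).mp h1.of_mul_left_left.of_mul_right_left
  -- the linear relation between three factors
  obtain ⟨v₀, hv₀⟩ := hroots η₁ hη₁ η₂ hη₂ h12
  obtain ⟨v₁, hv₁⟩ := hroots η₂ hη₂ η₀ hη₀ h20
  obtain ⟨v₂, hv₂⟩ := hroots η₀ hη₀ η₁ hη₁ (Ne.symm h10)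
  have hrel : (η₁ - η₂) * (x + η₀ * y) + (η₂ - η₀) * (x + η₁ * y)
      + (η₀ - η₁) * (x + η₂ * y) = 0 := by ring
  rw [ha η₀ hη₀, ha η₁ hη₁, ha η₂ hη₂, ← hv₀, ← hv₁, ← hv₂, hb₀, ← hρ₀, ← hρ₁, ← hρ₂] at hrel
  have hrel' : (v₁ * u₁ : R) * ρ₁ ^ p + (v₂ * u₂ : R) * ρ₂ ^ p
      = -(v₀ * u₀ : R) * π ^ (p * m) * ρ₀ ^ p := by
    have h1 : π ^ 2 * ((v₁ * u₁ : R) * ρ₁ ^ p + (v₂ * u₂ : R) * ρ₂ ^ p)
        = π ^ 2 * (-(v₀ * u₀ : R) * π ^ (p * m) * ρ₀ ^ p) := by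
      linear_combination hrel
    exact mul_left_cancel₀ (pow_ne_zero _ hπ.ne_zero) h1
  obtain ⟨w, hw⟩ : ∃ w : Rˣ, (w : R) * ((v₁ : R) * u₁) = 1 :=
    ⟨(v₁ * u₁)⁻¹, by rw [← Units.val_mul, Units.inv_mul]⟩
  set ηu : Rˣ := w * (v₂ * u₂) with hηu
  set ε' : Rˣ := -(w * (v₀ * u₀)) with hε'
  have hnew : ρ₁ ^ p + (ηu : R) * ρ₂ ^ p = ε' * π ^ (p * m) * ρ₀ ^ p := by
    simp only [hηu, hε', Units.val_mul, Units.val_neg]
    linear_combination (w : R) * hrel' - (ρ₁ ^ p) * hw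
  -- `ηu` is congruent to an integer mod `p`
  obtain ⟨n₁, hn₁⟩ := exists_int_pow_sub_dvd hp hcard hassoc ρ₁
  obtain ⟨n₂, hn₂⟩ := exists_int_pow_sub_dvd hp hcard hassoc ρ₂
  have hpdvd : (p : R) ∣ π ^ (p * m) := by
    have h1 : (p : R) ∣ π ^ (p - 1) := hassoc.symm.dvd
    exact h1.trans (pow_dvd_pow π ((Nat.sub_le p 1).trans (Nat.le_mul_of_pos_right p hm)))
  have hn₂nd : ¬ (p : ℤ) ∣ n₂ := by
    intro hd
    have h1 : π ∣ (n₂ : R) := by
      obtain ⟨k, rfl⟩ := hd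
      push_cast
      exact Dvd.dvd.mul_right (pi_dvd_p hp hassoc) _
    have h2 : π ∣ ρ₂ ^ p := by
      have h3 := dvd_add ((pi_dvd_p hp hassoc).trans hn₂) h1
      simpa using h3
    exact hρ₂nd (hπ.dvd_of_dvd_pow h2)
  have hcop2 : IsCoprime (p : ℤ) n₂ :=
    (Nat.prime_iff_prime_int.mp hp).irreducible.coprime_iff_not_dvd.mpr hn₂nd
  obtain ⟨s, t, hst⟩ := hcop2
  have hηint : ∃ n : ℤ, (p : R) ∣ (ηu : R) - n := by
    refine ⟨-(t * n₁), ?_⟩
    have h1 : (p : R) ∣ ρ₁ ^ p + (ηu : R) * ρ₂ ^ p := by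
      rw [hnew]; exact Dvd.dvd.mul_right (Dvd.dvd.mul_left hpdvd _) _
    obtain ⟨k₁, hk₁⟩ := h1
    obtain ⟨k₂, hk₂⟩ := hn₁
    obtain ⟨k₃, hk₃⟩ := hn₂
    have hst' : (s : R) * (p : R) + (t : R) * (n₂ : R) = 1 := by
      have h2 := congrArg (Int.cast : ℤ → R) hst
      push_cast at h2
      exact h2
    refine ⟨s * ηu + t * (k₁ - ηu * k₃ - k₂), ?_⟩
    push_cast
    linear_combination (-(ηu : R)) * hst' + (t : R) * hk₁ - (t : R) * hk₂
      - (t : R) * (ηu : R) * hk₃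
  obtain ⟨η', hη'⟩ := hK ηu hηint
  refine ⟨ρ₁, η' * ρ₂, ρ₀, ε', ?_, ?_, hρ₀nd, ?_⟩
  · rw [mul_pow, ← Units.val_pow_eq_pow_val, ← hη']; exact hnew
  · intro hd
    rcases hπ.dvd_or_dvd hd with h | h
    · exact hπ.not_isUnit (isUnit_of_dvd_unit h η'.isUnit)
    · exact hρ₂nd h
  · exact (isCoprime_mul_unit_left_right η'.isUnit ρ₁ ρ₂).mpr hρ12

theorem not_sol [IsPrincipalIdealRing R]
    (hp : p.Prime) (hp3 : 3 ≤ p) (hπ : Prime π)
    (hcard : Nat.card (R ⧸ Ideal.span {π}) = p)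
    (hassoc : Associated (π ^ (p - 1)) (p : R))
    (hprod : ∀ x y : R, x ^ p + y ^ p = ∏ η ∈ nthRootsFinset p (1 : R), (x + η * y))
    (hcardμ : (nthRootsFinset p (1 : R)).card = p)
    (hroots : ∀ η₁ ∈ nthRootsFinset p (1 : R), ∀ η₂ ∈ nthRootsFinset p (1 : R), η₁ ≠ η₂ →
      Associated π (η₁ - η₂))
    (hK : ∀ u : Rˣ, (∃ n : ℤ, (p : R) ∣ (u : R) - n) → ∃ v : Rˣ, u = v ^ p)
    (m : ℕ) : ¬ Sol p π (m + 1) := by
  induction m with
  | zero =>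
    intro h
    have h1 := (descent_step hp hp3 hπ hcard hassoc hprod hcardμ hroots hK h).1
    omega
  | succ k ih =>
    intro h
    exact ih (descent_step hp hp3 hπ hcard hassoc hprod hcardμ hroots hK h).2

theorem caseII_aux [IsPrincipalIdealRing R]
    (hp : p.Prime) (hp3 : 3 ≤ p) (hπ : Prime π)
    (hcard : Nat.card (R ⧸ Ideal.span {π}) = p)
    (hassoc : Associated (π ^ (p - 1)) (p : R))
    (hprod : ∀ x y : R, x ^ p + y ^ p = ∏ η ∈ nthRootsFinset p (1 : R), (x + η * y))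
    (hcardμ : (nthRootsFinset p (1 : R)).card = p)
    (hroots : ∀ η₁ ∈ nthRootsFinset p (1 : R), ∀ η₂ ∈ nthRootsFinset p (1 : R), η₁ ≠ η₂ →
      Associated π (η₁ - η₂))
    (hK : ∀ u : Rˣ, (∃ n : ℤ, (p : R) ∣ (u : R) - n) → ∃ v : Rˣ, u = v ^ p)
    {x y z : ℤ} (hxy : IsCoprime x y) (hz : z ≠ 0) (hpz : (p : ℤ) ∣ z)
    (h : x ^ p + y ^ p = z ^ p) : False := by
  have hpZ : Prime (p : ℤ) := Nat.prime_iff_prime_int.mp hp
  have hpy : ¬ (p : ℤ) ∣ y := by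
    intro hd
    have hpx : (p : ℤ) ∣ x ^ p := by
      have e : x ^ p = z ^ p - y ^ p := by linarith
      rw [e]; exact dvd_sub (dvd_pow hpz hp.ne_zero) (dvd_pow hd hp.ne_zero)
    exact hpZ.not_isUnit (hxy.isUnit_of_dvd' (hpZ.dvd_of_dvd_pow hpx) hd)
  have hfin : FiniteMultiplicity (p : ℤ) z :=
    Int.finiteMultiplicity_iff.mpr ⟨by simpa using hp.ne_one, hz⟩
  obtain ⟨z₀, hzeq, hz₀⟩ := hfin.exists_eq_pow_mul_and_not_dvd
  generalize multiplicity (p : ℤ) z = k at hzeq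
  subst hzeq
  have hk : k ≠ 0 := by
    rintro rfl
    rw [pow_zero, one_mul] at hpz
    exact hz₀ hpz
  obtain ⟨w, hw⟩ := hassoc
  obtain ⟨M, hM⟩ : ∃ M, (p - 1) * k = M + 1 :=
    Nat.exists_eq_succ_of_ne_zero (Nat.mul_ne_zero (Nat.sub_ne_zero_of_lt hp.one_lt) hk)
  apply not_sol hp hp3 hπ hcard ⟨w, hw⟩ hprod hcardμ hroots hK M
  refine ⟨(x : R), (y : R), (z₀ : R), w ^ (k * p), ?_, ?_, ?_, ?_⟩
  · have h1 := congrArg (Int.cast : ℤ → R) h
    push_cast at h1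
    rw [h1, ← hM, ← hw]
    simp only [Units.val_pow_eq_pow_val]
    ring
  · exact fun hd => hpy (int_dvd_of_pi_dvd hp hπ ⟨w, hw⟩ hd)
  · exact fun hd => hz₀ (int_dvd_of_pi_dvd hp hπ ⟨w, hw⟩ hd)
  · exact hxy.map (Int.castRingHom R)

/-- Case II of Fermat's Last Theorem for an odd prime `p`, in abstract form. -/
theorem caseII_abstract [IsPrincipalIdealRing R]
    (hp : p.Prime) (hp3 : 3 ≤ p) (hπ : Prime π)
    (hcard : Nat.card (R ⧸ Ideal.span {π}) = p)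
    (hassoc : Associated (π ^ (p - 1)) (p : R))
    (hprod : ∀ x y : R, x ^ p + y ^ p = ∏ η ∈ nthRootsFinset p (1 : R), (x + η * y))
    (hcardμ : (nthRootsFinset p (1 : R)).card = p)
    (hroots : ∀ η₁ ∈ nthRootsFinset p (1 : R), ∀ η₂ ∈ nthRootsFinset p (1 : R), η₁ ≠ η₂ →
      Associated π (η₁ - η₂))
    (hK : ∀ u : Rˣ, (∃ n : ℤ, (p : R) ∣ (u : R) - n) → ∃ v : Rˣ, u = v ^ p)
    {a b c : ℤ} (hab : IsCoprime a b) (habc : a * b * c ≠ 0) (hdvd : (p : ℤ) ∣ a * b * c) :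
    a ^ p + b ^ p ≠ c ^ p := by
  intro h
  have hpZ : Prime (p : ℤ) := Nat.prime_iff_prime_int.mp hp
  have ha0 : a ≠ 0 := fun h0 => habc (by rw [h0]; ring)
  have hb0 : b ≠ 0 := fun h0 => habc (by rw [h0]; ring)
  have hc0 : c ≠ 0 := fun h0 => habc (by rw [h0]; ring)
  have hodd : Odd p := hp.odd_of_ne_two (by omega)
  have hp1 : p = (p - 1) + 1 := (Nat.sub_add_cancel hp.one_le).symm
  rcases hpZ.dvd_or_dvd hdvd with hd | hd
  · rcases hpZ.dvd_or_dvd hd with hd | hd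
    · -- `p ∣ a`: use `c ^ p + (-b) ^ p = a ^ p`
      have hcb : IsCoprime c (-b) := by
        have h1 : IsCoprime (a ^ p + b * b ^ (p - 1)) b :=
          (hab.pow_left (m := p)).add_mul_left_left _
        have e : a ^ p + b * b ^ (p - 1) = c ^ p := by
          rw [← pow_succ', ← hp1, h]
        rw [e] at h1
        exact ((IsCoprime.pow_left_iff hp.pos).mp h1).neg_right
      exact caseII_aux hp hp3 hπ hcard hassoc hprod hcardμ hroots hK hcb ha0 hd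
        (by rw [hodd.neg_pow]; linarith)
    · -- `p ∣ b`: use `c ^ p + (-a) ^ p = b ^ p`
      have hca : IsCoprime c (-a) := by
        have h1 : IsCoprime (b ^ p + a * a ^ (p - 1)) a :=
          (hab.symm.pow_left (m := p)).add_mul_left_left _
        have e : b ^ p + a * a ^ (p - 1) = c ^ p := by
          rw [← pow_succ', ← hp1, ← h, add_comm]
        rw [e] at h1
        exact ((IsCoprime.pow_left_iff hp.pos).mp h1).neg_right
      exact caseII_aux hp hp3 hπ hcard hassoc hprod hcardμ hroots hK hca hb0 hd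
        (by rw [hodd.neg_pow]; linarith)
  · exact caseII_aux hp hp3 hπ hcard hassoc hprod hcardμ hroots hK hab hc0 hd h

end Abstract

section Cyclotomic

open NumberField

/-- **Case II of Fermat's Last Theorem** for an odd prime `p` such that the ring of integers of
the `p`-th cyclotomic field is a principal ideal domain and satisfies Kummer's lemma. -/
theorem caseII {p : ℕ} [hpF : Fact p.Prime] (hp3 : 3 ≤ p)
    {K : Type*} [Field K] [NumberField K] [IsCyclotomicExtension {p} ℚ K]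
    [IsPrincipalIdealRing (𝓞 K)]
    (hK : ∀ u : (𝓞 K)ˣ, ∀ n : ℤ, (p : 𝓞 K) ∣ (u : 𝓞 K) - n → ∃ v : (𝓞 K)ˣ, u = v ^ p)
    {a b c : ℤ} (hab : IsCoprime a b) (habc : a * b * c ≠ 0) (hdvd : (p : ℤ) ∣ a * b * c) :
    a ^ p + b ^ p ≠ c ^ p := by
  have hp : p.Prime := hpF.out
  have hne : NeZero p := ⟨hp.ne_zero⟩
  have hζ := IsCyclotomicExtension.zeta_spec p ℚ K
  have hζ' := hζ.toInteger_isPrimitiveRoot
  refine caseII_abstract (R := 𝓞 K) (π := hζ.toInteger - 1) hp hp3 hζ.zeta_sub_one_prime' ?_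
    (IsCyclotomicExtension.Rat.associated_zeta_sub_one_pow_prime p hζ) ?_ ?_ ?_ ?_ hab habc hdvd
  · rw [hζ.card_quotient_toInteger_sub_one,
      hζ.norm_toInteger_sub_one_of_prime_ne_two' (by omega)]
    simp
  · exact fun x y => hζ'.pow_add_pow_eq_prod_add_mul x y (hp.odd_of_ne_two (by omega))
  · exact hζ'.card_nthRootsFinset
  · exact fun η₁ h₁ η₂ h₂ hne =>
      hζ'.nthRootsFinset_pairwise_associated_sub_one_sub_of_prime hp h₁ h₂ hne
  · exact fun u ⟨n, hn⟩ => hK u n hn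

end Cyclotomic


end Fermat.Agent.Lib.helper131
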