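/-
CHARACTERISTIC-FREE FROBENIUS CAYLEY–HAMILTON (Manin's method) — interface file (helper1844).

Target (proved in `helper1844_FrobGen.lean` from the leaves below): for a finite field `F` with
`q` elements, ANY Weierstrass curve `W` over `F` with `Δ ≠ 0` (general `a₁..a₆`, every
characteristic, in particular `F = ZMod 2`, `ZMod 3`) and every field `K ⊇ F`:
`φ (φ P) - (q + 1 - #W(F)) • φ P + q • P = 0` for all `P ∈ W(K)`, `φ` the `q`-power Frobenius.

This file only fixes three self-contained leaf statements (each is a Mathlib-level fact):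

* `XParStmt W`  : the add-sub map of `W` doubles the degree of primitive polynomial triples
                  (projective `x`-level parallelogram law; `helper6492`'s `Prim3` engine).
* `CountStmt W` : Manin's count, characteristic-free, inside Mathlib's coordinate ring.
* `IrrStmt W`   : the Weierstrass quadratic is irreducible over `F(t)`.
-/
import Mathlib
import Fermat.Agent.S52.helper6492_Height

set_option autoImplicit false

namespace Fermat.Agent.Lib.helper1844

open Polynomial WeierstrassCurve WeierstrassCurve.Affine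
open scoped Polynomial.Bivariate
open Fermat.Agent.S52.helper6492 (Prim3)

noncomputable section

universe u

/-! ### Leaf XPAR -/

section xpar

variable {k : Type u} [Field k]

/-- First coordinate of the add-sub map (`x(P+Q) x(P-Q)`), on polynomials. -/
def pS (W : WeierstrassCurve k) (s t u : k[X]) : k[X] :=
  s ^ 2 - C W.b₄ * s * u - C W.b₆ * t * u - C W.b₈ * u ^ 2

/-- Second coordinate of the add-sub map (`x(P+Q) + x(P-Q)`), on polynomials. -/
def pT (W : WeierstrassCurve k) (s t u : k[X]) : k[X] :=
  2 * t * s + C W.b₂ * s * u + C W.b₄ * t * u + C W.b₆ * u ^ 2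

/-- Third coordinate of the add-sub map, on polynomials. -/
def pU (s t u : k[X]) : k[X] := t ^ 2 - 4 * s * u

/-- LEAF XPAR (projective `x`-level parallelogram law, general Weierstrass form, all
characteristics).  `(dᵢ, nᵢ)` are primitive pairs of degree `Dᵢ` (projective points `nᵢ/dᵢ` of
`ℙ¹(k(t))`, `∞ = (0, 1)` allowed).  If the add-sub map sends the symmetric coordinates
`(n₁n₂ : n₁d₂ + d₁n₂ : d₁d₂)` of the first two to a triple proportional to the symmetric
coordinates of the last two, then `D₃ + D₄ = 2 (D₁ + D₂)`.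

TRUE for `W.Δ ≠ 0`: `(pU, pT, pS)` of a primitive triple of degree `D` is primitive of degree
`2 D` by Mathlib's `WeierstrassCurve.addSubMap_ne_zero` applied over every residue field of
`k[X]` and to the top coefficients; symmetric coordinates of two primitive pairs are primitive
(`helper6492.core_pair`); proportional primitive triples have the same degree. -/
def XParStmt (W : WeierstrassCurve k) : Prop :=
  ∀ (D₁ D₂ D₃ D₄ : ℕ) (n₁ d₁ n₂ d₂ n₃ d₃ n₄ d₄ : k[X]),
    Prim3 D₁ d₁ n₁ 0 → Prim3 D₂ d₂ n₂ 0 → Prim3 D₃ d₃ n₃ 0 → Prim3 D₄ d₄ n₄ 0 →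
    pS W (n₁ * n₂) (n₁ * d₂ + d₁ * n₂) (d₁ * d₂) * (n₃ * d₄ + d₃ * n₄) =
      pT W (n₁ * n₂) (n₁ * d₂ + d₁ * n₂) (d₁ * d₂) * (n₃ * n₄) →
    pS W (n₁ * n₂) (n₁ * d₂ + d₁ * n₂) (d₁ * d₂) * (d₃ * d₄) =
      pU (n₁ * n₂) (n₁ * d₂ + d₁ * n₂) (d₁ * d₂) * (n₃ * n₄) →
    pT W (n₁ * n₂) (n₁ * d₂ + d₁ * n₂) (d₁ * d₂) * (d₃ * d₄) =
      pU (n₁ * n₂) (n₁ * d₂ + d₁ * n₂) (d₁ * d₂) * (n₃ * d₄ + d₃ * n₄) →
    D₃ + D₄ = 2 * (D₁ + D₂)

end xpar

/-! ### Leaf COUNT -/

section count

variable {F : Type u} [Field F]

/-- The class of `x` in the coordinate ring. -/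
def xc (W : WeierstrassCurve F) : W.toAffine.CoordinateRing :=
  CoordinateRing.mk W.toAffine (C X)

/-- The class of `y` in the coordinate ring. -/
def yc (W : WeierstrassCurve F) : W.toAffine.CoordinateRing :=
  CoordinateRing.mk W.toAffine Y

/-- `δ = x^q - x` in the coordinate ring. -/
def dc (W : WeierstrassCurve F) (q : ℕ) : W.toAffine.CoordinateRing := xc W ^ q - xc W

/-- `u = y^q + y + a₁ x + a₃` in the coordinate ring (`u / δ` is the slope of the chord through
`φ G = (x^q, y^q)` and `-G = (x, -y - a₁ x - a₃)`). -/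
def uc (W : WeierstrassCurve F) (q : ℕ) : W.toAffine.CoordinateRing :=
  yc W ^ q + yc W +
    (algebraMap F W.toAffine.CoordinateRing W.a₁ * xc W +
      algebraMap F W.toAffine.CoordinateRing W.a₃)

/-- `x(φ G - G) · δ²` in the coordinate ring: `u² + a₁ u δ - (a₂ + x^q + x) δ²`. -/
def numc (W : WeierstrassCurve F) (q : ℕ) : W.toAffine.CoordinateRing :=
  uc W q ^ 2 + algebraMap F W.toAffine.CoordinateRing W.a₁ * uc W q * dc W q -
    (algebraMap F W.toAffine.CoordinateRing W.a₂ + xc W ^ q + xc W) * dc W q ^ 2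

/-- LEAF COUNT (Manin's count, characteristic-free).  `F` finite with `q` elements, `Δ ≠ 0`.
The element `numc W q` of the coordinate ring is a polynomial in `x` alone, and the rational
function `numc / (x^q - x)²` (the `x`-coordinate of `φ G - G`) equals a reduced fraction `n / d`
with `deg n = deg d + 1 = #W(F)`.

TRUE in every characteristic (hand proof in the S58 chat): write `y^q = A + B y`
(`CoordinateRing.exists_smul_basis_eq`); for `c ∈ F` with two points `(c, y₁) ≠ (c, y₂)` the
value at `c` is `(y₁ - y₂)² ≠ 0`; with no point, Frobenius swaps the two roots in `F_{q²}`, so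
`u ≡ 0 mod (x - c)` and `(x - c)²` divides; with one point `(c, y₀)`, evaluation in the dual
numbers gives `y^q ≡ y₀`, the value at `c` is `0` and the derivative is `f'(c) - a₁ y₀ ≠ 0`
(nonsingularity).  The degree of the polynomial is `2q + 1`. -/
def CountStmt [Fintype F] (W : WeierstrassCurve F) : Prop :=
  ∃ n d : F[X], IsCoprime n d ∧ n.natDegree = d.natDegree + 1 ∧
    d.natDegree + 1 = Nat.card W.toAffine.Point ∧
    algebraMap F[X] W.toAffine.CoordinateRing n * dc W (Fintype.card F) ^ 2 =
      algebraMap F[X] W.toAffine.CoordinateRing d * numc W (Fintype.card F)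

end count

/-! ### Leaf IRR -/

section irr

variable {F : Type u} [Field F]

/-- The Weierstrass quadratic `Y² + (a₁ t + a₃) Y - (t³ + a₂ t² + a₄ t + a₆)` over `F(t)`. -/
def quadPoly (W : WeierstrassCurve F) : (RatFunc F)[X] :=
  X ^ 2 + C (RatFunc.C W.a₁ * RatFunc.X + RatFunc.C W.a₃) * X -
    C (RatFunc.X ^ 3 + RatFunc.C W.a₂ * RatFunc.X ^ 2 + RatFunc.C W.a₄ * RatFunc.X +
      RatFunc.C W.a₆)

/-- LEAF IRR: the Weierstrass quadratic is irreducible over `F(t)` (any field `F`, any `W`):
a root `r ∈ F(t)` would be a polynomial (integrally closed) with `r² + (a₁ t + a₃) r` of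
degree `3`, impossible by parity. -/
def IrrStmt (W : WeierstrassCurve F) : Prop := Irreducible (quadPoly W)

end irr

end

end Fermat.Agent.Lib.helper1844
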