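/-
LEAF COUNT of the characteristic-free Frobenius Cayley–Hamilton brick (helper1844's Spec):
Manin's count inside Mathlib's coordinate ring, every characteristic (helper1346).
-/
import Mathlib
import Fermat.Agent.Lib.helper1844_FrobGenSpec

set_option autoImplicit false

namespace Fermat.Agent.Lib.helper1346

open Polynomial WeierstrassCurve WeierstrassCurve.Affine
open scoped Polynomial.Bivariate
open Fermat.Agent.Lib.helper1844

noncomputable section

universe u

variable {F : Type u} [Field F]

/-- `b = a₁ X + a₃`. -/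
def bpol (W : WeierstrassCurve F) : F[X] := C W.a₁ * X + C W.a₃

/-- `f = X³ + a₂ X² + a₄ X + a₆`. -/
def fpol (W : WeierstrassCurve F) : F[X] := X ^ 3 + C W.a₂ * X ^ 2 + C W.a₄ * X + C W.a₆

/-- The pair `(Aₙ, Bₙ)` with `yⁿ = Aₙ + Bₙ y` for every root `y` of `y² + b y = f`. -/
def AB (W : WeierstrassCurve F) : ℕ → F[X] × F[X]
  | 0 => (1, 0)
  | n + 1 => ((AB W n).2 * fpol W, (AB W n).1 - bpol W * (AB W n).2)

@[simp] lemma AB_zero (W : WeierstrassCurve F) : AB W 0 = (1, 0) := rfl

lemma AB_succ (W : WeierstrassCurve F) (n : ℕ) :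
    AB W (n + 1) = ((AB W n).2 * fpol W, (AB W n).1 - bpol W * (AB W n).2) := rfl

/-- Powers of a root of the Weierstrass quadratic, in any commutative ring. -/
lemma pow_root (W : WeierstrassCurve F) {S : Type*} [CommRing S] (ψ : F[X] →+* S) (z : S)
    (hz : z ^ 2 + ψ (bpol W) * z = ψ (fpol W)) (n : ℕ) :
    z ^ n = ψ (AB W n).1 + ψ (AB W n).2 * z := by
  induction n with
  | zero => simp
  | succ n ih =>
    rw [pow_succ, ih, AB_succ]
    simp only [map_mul, map_sub]
    linear_combination (ψ (AB W n).2) * hz

/-- Degree bounds for `Aₙ`, `Bₙ`. -/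
lemma natDegree_AB (W : WeierstrassCurve F) (n : ℕ) :
    2 * (AB W n).1.natDegree ≤ 3 * n ∧ 2 * (AB W n).2.natDegree ≤ 3 * n - 3 := by
  have hf : (fpol W).natDegree ≤ 3 := by unfold fpol; compute_degree
  have hb : (bpol W).natDegree ≤ 1 := by unfold bpol; compute_degree
  induction n with
  | zero => simp
  | succ n ih =>
    obtain ⟨h1, h2⟩ := ih
    rcases Nat.eq_zero_or_pos n with rfl | hn
    · simp [AB_succ]
    · rw [AB_succ]
      constructor
      · have := natDegree_mul_le (p := (AB W n).2) (q := fpol W)
        simp only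
        omega
      · have h3 := natDegree_sub_le (AB W n).1 (bpol W * (AB W n).2)
        have h4 := natDegree_mul_le (p := bpol W) (q := (AB W n).2)
        simp only
        have : max (AB W n).1.natDegree (bpol W * (AB W n).2).natDegree ≤ (3 * n) / 2 := by
          apply max_le <;> omega
        omega

/-! ### Relations in the coordinate ring -/

section ring

variable (W : WeierstrassCurve F)

/-- The structure map `F[X] → F[W]`. -/
abbrev aM : F[X] →+* W.toAffine.CoordinateRing := algebraMap F[X] W.toAffine.CoordinateRing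

lemma aM_X : aM W X = xc W := rfl

lemma aM_C (a : F) : aM W (C a) = algebraMap F W.toAffine.CoordinateRing a :=
  (IsScalarTower.algebraMap_apply F F[X] W.toAffine.CoordinateRing a).symm

lemma aM_injective : Function.Injective (aM W) :=
  FaithfulSMul.algebraMap_injective F[X] W.toAffine.CoordinateRing

lemma curve_rel : yc W ^ 2 + aM W (bpol W) * yc W = aM W (fpol W) := by
  have h : CoordinateRing.mk W.toAffine (Y ^ 2 + C (bpol W) * Y - C (fpol W)) = 0 :=
    AdjoinRoot.mk_self
  rw [map_sub, map_add, map_mul, map_pow] at h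
  exact sub_eq_zero.mp h

lemma curve_rel_neg : (-yc W - aM W (bpol W)) ^ 2 + aM W (bpol W) * (-yc W - aM W (bpol W)) =
    aM W (fpol W) := by
  linear_combination curve_rel W

variable [Fintype F]

/-- `b₁ = a₁ X^q + a₃`. -/
def b1pol (W : WeierstrassCurve F) : F[X] := C W.a₁ * X ^ Fintype.card F + C W.a₃

/-- `f(X^q)`. -/
def f1pol (W : WeierstrassCurve F) : F[X] :=
  (X ^ Fintype.card F) ^ 3 + C W.a₂ * (X ^ Fintype.card F) ^ 2 + C W.a₄ * X ^ Fintype.card F +
    C W.a₆

/-- The `q`-power Frobenius of the coordinate ring. -/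
abbrev frob : W.toAffine.CoordinateRing →ₐ[F] W.toAffine.CoordinateRing :=
  FiniteField.frobeniusAlgHom F W.toAffine.CoordinateRing

lemma frob_apply (z : W.toAffine.CoordinateRing) : frob W z = z ^ Fintype.card F := rfl

lemma frob_bpol : aM W (bpol W) ^ Fintype.card F = aM W (b1pol W) := by
  rw [← frob_apply]
  simp only [bpol, b1pol, map_add, map_mul, map_pow, aM_C, AlgHom.commutes, aM_X, frob_apply]

lemma frob_fpol : aM W (fpol W) ^ Fintype.card F = aM W (f1pol W) := by
  rw [← frob_apply]
  simp only [fpol, f1pol, map_add, map_mul, map_pow, aM_C, AlgHom.commutes, aM_X, frob_apply]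

/-- `A = A_q`. -/
def Apol (W : WeierstrassCurve F) : F[X] := (AB W (Fintype.card F)).1

/-- `B = B_q`. -/
def Bpol (W : WeierstrassCurve F) : F[X] := (AB W (Fintype.card F)).2

lemma yc_pow_card : yc W ^ Fintype.card F = aM W (Apol W) + aM W (Bpol W) * yc W :=
  pow_root W (aM W) (yc W) (curve_rel W) _

/-- (R1): `2A - B b + b₁ = 0`. -/
lemma rel_one : 2 * Apol W - Bpol W * bpol W + b1pol W = 0 := by
  apply aM_injective W
  have h1 : (-yc W - aM W (bpol W)) ^ Fintype.card F =
      aM W (Apol W) + aM W (Bpol W) * (-yc W - aM W (bpol W)) :=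
    pow_root W (aM W) (-yc W - aM W (bpol W)) (curve_rel_neg W) (Fintype.card F)
  have h2 : (-yc W - aM W (bpol W)) ^ Fintype.card F =
      -(yc W ^ Fintype.card F) - aM W (bpol W) ^ Fintype.card F := by
    simp only [← frob_apply, map_sub, map_neg]
  rw [h2, frob_bpol, yc_pow_card] at h1
  simp only [map_add, map_sub, map_mul, map_ofNat, map_zero]
  linear_combination -h1

/-- (R2): `A² + B² f + b₁ A = f(X^q)`. -/
lemma rel_two : Apol W ^ 2 + Bpol W ^ 2 * fpol W + b1pol W * Apol W = f1pol W := by
  apply aM_injective W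
  have h1 : (yc W ^ Fintype.card F) ^ 2 + aM W (b1pol W) * yc W ^ Fintype.card F =
      aM W (f1pol W) := by
    have h := congrArg (frob W) (curve_rel W)
    simp only [map_add, map_mul, map_pow, frob_apply] at h
    rw [frob_bpol, frob_fpol] at h
    rw [← h]
  have h2 := congrArg (aM W) (rel_one W)
  simp only [map_add, map_sub, map_mul, map_ofNat, map_zero] at h2
  rw [yc_pow_card] at h1
  simp only [map_add, map_mul, map_pow]
  linear_combination h1 - (aM W (Bpol W)) ^ 2 * curve_rel W - aM W (Bpol W) * yc W * h2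

/-- `δ = X^q - X`. -/
def dpol (W : WeierstrassCurve F) : F[X] := X ^ Fintype.card F - X

/-- `α = A + b`. -/
def alpha (W : WeierstrassCurve F) : F[X] := Apol W + bpol W

/-- `β = B + 1`. -/
def beta (W : WeierstrassCurve F) : F[X] := Bpol W + 1

/-- The numerator polynomial: `numc = Num(x)`. -/
def Num (W : WeierstrassCurve F) : F[X] :=
  alpha W ^ 2 + beta W ^ 2 * fpol W + C W.a₁ * alpha W * dpol W -
    (C W.a₂ + X ^ Fintype.card F + X) * dpol W ^ 2

lemma rel_one' : 2 * alpha W - beta W * bpol W + C W.a₁ * dpol W = 0 := by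
  have h := rel_one W
  simp only [alpha, beta, dpol, b1pol, bpol] at h ⊢
  linear_combination h

lemma dc_eq : dc W (Fintype.card F) = aM W (dpol W) := by
  simp only [dc, dpol, map_sub, map_pow, aM_X]

lemma uc_eq : uc W (Fintype.card F) = aM W (alpha W) + aM W (beta W) * yc W := by
  unfold uc
  rw [yc_pow_card]
  simp only [alpha, beta, bpol, map_add, map_mul, map_one, aM_C, aM_X]
  ring

lemma numc_eq : numc W (Fintype.card F) = aM W (Num W) := by
  have h := congrArg (aM W) (rel_one' W)
  simp only [map_add, map_sub, map_mul, map_ofNat, map_zero, aM_C] at h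
  unfold numc
  rw [uc_eq, dc_eq]
  simp only [Num, map_add, map_sub, map_mul, map_pow, aM_C, aM_X]
  linear_combination (aM W (beta W)) ^ 2 * curve_rel W + aM W (beta W) * yc W * h

/-- The lower-order part of `Num`. -/
def restpol (W : WeierstrassCurve F) : F[X] :=
  X ^ (Fintype.card F + 2) + 2 * C W.a₂ * X ^ (Fintype.card F + 1) +
    C W.a₄ * (X ^ Fintype.card F + X) + 2 * C W.a₆ + Apol W * bpol W + 2 * Bpol W * fpol W +
    bpol W * b1pol W

lemma Num_eq : Num W = X ^ (2 * Fintype.card F + 1) + restpol W := by
  have h := rel_two W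
  simp only [Num, restpol, alpha, beta, dpol, f1pol, fpol, b1pol, bpol] at h ⊢
  linear_combination h

lemma natDegree_restpol_le : (restpol W).natDegree ≤ 2 * Fintype.card F := by
  have hq : 2 ≤ Fintype.card F := Fintype.one_lt_card
  have hA : 2 * (Apol W).natDegree ≤ 3 * Fintype.card F := (natDegree_AB W _).1
  have hB : 2 * (Bpol W).natDegree ≤ 3 * Fintype.card F - 3 := (natDegree_AB W _).2
  have hf : (fpol W).natDegree ≤ 3 := by unfold fpol; compute_degree
  have hb : (bpol W).natDegree ≤ 1 := by unfold bpol; compute_degree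
  have hb1 : (b1pol W).natDegree ≤ Fintype.card F := by unfold b1pol; compute_degree
  have h1 : (X ^ (Fintype.card F + 2) : F[X]).natDegree ≤ 2 * Fintype.card F := by
    rw [natDegree_X_pow]; omega
  have h2 : (2 * C W.a₂ * X ^ (Fintype.card F + 1) : F[X]).natDegree ≤ 2 * Fintype.card F := by
    have : (2 * C W.a₂ * X ^ (Fintype.card F + 1) : F[X]).natDegree ≤ Fintype.card F + 1 := by
      compute_degree
    omega
  have h3 : (C W.a₄ * (X ^ Fintype.card F + X) : F[X]).natDegree ≤ 2 * Fintype.card F := by
    have : (C W.a₄ * (X ^ Fintype.card F + X) : F[X]).natDegree ≤ Fintype.card F := by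
      compute_degree
      omega
    omega
  have h4 : (2 * C W.a₆ : F[X]).natDegree ≤ 2 * Fintype.card F := by
    have : (2 * C W.a₆ : F[X]).natDegree ≤ 0 := by compute_degree
    omega
  have h5 : (Apol W * bpol W).natDegree ≤ 2 * Fintype.card F := by
    have := natDegree_mul_le (p := Apol W) (q := bpol W)
    omega
  have h6 : (2 * Bpol W * fpol W).natDegree ≤ 2 * Fintype.card F := by
    have h := natDegree_mul_le (p := 2 * Bpol W) (q := fpol W)
    have h' := natDegree_mul_le (p := (2 : F[X])) (q := Bpol W)
    have h'' : (2 : F[X]).natDegree = 0 := natDegree_ofNat 2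
    omega
  have h7 : (bpol W * b1pol W).natDegree ≤ 2 * Fintype.card F := by
    have := natDegree_mul_le (p := bpol W) (q := b1pol W)
    omega
  unfold restpol
  exact natDegree_add_le_of_degree_le (natDegree_add_le_of_degree_le (natDegree_add_le_of_degree_le
    (natDegree_add_le_of_degree_le (natDegree_add_le_of_degree_le
    (natDegree_add_le_of_degree_le h1 h2) h3) h4) h5) h6) h7

/-- (D): `Num` has degree `2q + 1`. -/
lemma natDegree_Num : (Num W).natDegree = 2 * Fintype.card F + 1 := by
  rw [Num_eq, natDegree_add_eq_left_of_natDegree_lt, natDegree_X_pow]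
  rw [natDegree_X_pow]
  exact Nat.lt_succ_of_le (natDegree_restpol_le W)

lemma Num_ne_zero : Num W ≠ 0 := by
  intro h
  have := natDegree_Num W
  rw [h, natDegree_zero] at this
  omega

end ring

/-! ### Local analysis at `c ∈ F` -/

section fibre

variable (W : WeierstrassCurve F) (c : F)

/-- The fibre quadratic `Y² + b(c) Y - f(c)`. -/
def fib (W : WeierstrassCurve F) (c : F) : F[X] :=
  X ^ 2 + C ((bpol W).eval c) * X - C ((fpol W).eval c)

lemma equation_iff_fib (y : F) :
    W.toAffine.Equation c y ↔ y ^ 2 + (bpol W).eval c * y = (fpol W).eval c := by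
  rw [WeierstrassCurve.Affine.equation_iff]
  simp only [bpol, fpol, eval_add, eval_mul, eval_C, eval_X, eval_pow]
  constructor <;> intro h <;> linear_combination h

lemma fib_dvd (n : ℕ) :
    fib W c ∣ X ^ n - C ((AB W n).1.eval c) - C ((AB W n).2.eval c) * X := by
  induction n with
  | zero => simp
  | succ n ih =>
    have h : (X ^ (n + 1) - C ((AB W (n + 1)).1.eval c) - C ((AB W (n + 1)).2.eval c) * X : F[X]) =
        X * (X ^ n - C ((AB W n).1.eval c) - C ((AB W n).2.eval c) * X) +
          C ((AB W n).2.eval c) * fib W c := by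
      simp only [AB_succ, eval_mul, eval_sub, fib, C_mul, C_sub]
      ring
    rw [h]
    exact dvd_add (dvd_mul_of_dvd_right ih _) (dvd_mul_left _ _)

lemma isCoprime_of_eval_ne_zero {p : F[X]} {a : F} (h : p.eval a ≠ 0) : IsCoprime p (X - C a) :=
  ((irreducible_X_sub_C a).coprime_iff_not_dvd.mpr (fun hd => h (dvd_iff_isRoot.mp hd))).symm

lemma eval_derivative_of_sq_dvd {p : F[X]} {a : F} (h : (X - C a) ^ 2 ∣ p) :
    (derivative p).eval a = 0 := by
  obtain ⟨H, rfl⟩ := h
  rw [pow_two, mul_assoc, derivative_mul]
  simp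

variable [Fintype F]

lemma prod_X_sub_C : ∏ a : F, (X - C a) = (X ^ Fintype.card F - X : F[X]) := by
  have hm : (X ^ Fintype.card F - X : F[X]).Monic :=
    monic_X_pow_sub (by rw [degree_X]; exact_mod_cast Fintype.one_lt_card)
  have h := prod_multiset_X_sub_C_of_monic_of_roots_card_eq hm (by
    rw [FiniteField.roots_X_pow_card_sub_X,
      FiniteField.X_pow_card_sub_X_natDegree_eq F Fintype.one_lt_card]
    rfl)
  rw [FiniteField.roots_X_pow_card_sub_X] at h
  exact h

/-- Every root `y` of the fibre satisfies `y = A(c) + B(c) y`. -/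
lemma root_eq {y : F} (hy : W.toAffine.Equation c y) :
    y = (Apol W).eval c + (Bpol W).eval c * y := by
  have h := pow_root W (evalRingHom c) y ((equation_iff_fib W c y).mp hy) (Fintype.card F)
  rw [FiniteField.pow_card] at h
  exact h

lemma eval_dpol : (dpol W).eval c = 0 := by
  simp [dpol, FiniteField.pow_card]

lemma eval_Num :
    (Num W).eval c = (alpha W).eval c ^ 2 + (beta W).eval c ^ 2 * (fpol W).eval c := by
  simp only [Num, eval_add, eval_sub, eval_mul, eval_pow, eval_dpol W c]
  ring

/-- Two points over `c`: `Num(c) ≠ 0`. -/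
lemma eval_Num_of_two {y : F} (hy : W.toAffine.Equation c y)
    (h2 : 2 * y + (bpol W).eval c ≠ 0) : (Num W).eval c ≠ 0 := by
  have hy' := (equation_iff_fib W c y).mp hy
  have hy2 : W.toAffine.Equation c (-(bpol W).eval c - y) := by
    rw [equation_iff_fib]; linear_combination hy'
  have e1 := root_eq W c hy
  have e2 := root_eq W c hy2
  have hB : (Bpol W).eval c = 1 := by
    have : (2 * y + (bpol W).eval c) * (1 - (Bpol W).eval c) = 0 := by
      linear_combination e1 - e2
    rcases mul_eq_zero.mp this with h | h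
    · exact absurd h h2
    · linear_combination -h
  have hA : (Apol W).eval c = 0 := by rw [hB] at e1; linear_combination -e1
  rw [eval_Num]
  simp only [alpha, beta, eval_add, eval_one, hA, hB]
  have : (0 + (bpol W).eval c) ^ 2 + (1 + 1) ^ 2 * (fpol W).eval c =
      (2 * y + (bpol W).eval c) ^ 2 := by
    rw [← hy']; ring
  rw [this]
  exact pow_ne_zero 2 h2

omit [Fintype F] in
lemma fib_eq_sq {y : F} (hy : W.toAffine.Equation c y) (h2 : 2 * y + (bpol W).eval c = 0) :
    fib W c = (X - C y) ^ 2 := by
  have hy' := (equation_iff_fib W c y).mp hy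
  have hb : (bpol W).eval c = -(2 * y) := by linear_combination h2
  have hf : (fpol W).eval c = -(y ^ 2) := by rw [← hy', hb]; ring
  unfold fib
  rw [hb, hf]
  simp only [C_neg, C_mul, C_pow, map_ofNat]
  ring

/-- One point over `c`: `A(c) = y`, `B(c) = 0`. -/
lemma eval_AB_of_one {y : F} (hy : W.toAffine.Equation c y)
    (h2 : 2 * y + (bpol W).eval c = 0) :
    (Apol W).eval c = y ∧ (Bpol W).eval c = 0 := by
  have hd := fib_dvd W c (Fintype.card F)
  rw [fib_eq_sq W c hy h2] at hd
  obtain ⟨H, hH⟩ := hd
  have hder := congrArg (fun p => (derivative p).eval y) hH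
  simp [derivative_mul, derivative_X_pow, derivative_pow, FiniteField.cast_card_eq_zero] at hder
  have hB : (Bpol W).eval c = 0 := hder
  refine ⟨?_, hB⟩
  have e1 := root_eq W c hy
  rw [hB] at e1
  linear_combination -e1

lemma eval_derivative_dpol : (derivative (dpol W)).eval c = -1 := by
  simp [dpol, derivative_X_pow, FiniteField.cast_card_eq_zero]

lemma eval_derivative_Num :
    (derivative (Num W)).eval c =
      2 * (alpha W).eval c * (derivative (alpha W)).eval c +
        2 * (beta W).eval c * (derivative (beta W)).eval c * (fpol W).eval c +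
        (beta W).eval c ^ 2 * (derivative (fpol W)).eval c - W.a₁ * (alpha W).eval c := by
  have h : Num W = alpha W * alpha W + beta W * beta W * fpol W + C W.a₁ * alpha W * dpol W -
      (C W.a₂ + X ^ Fintype.card F + X) * (dpol W * dpol W) := by unfold Num; ring
  rw [h]
  simp only [derivative_add, derivative_sub, derivative_mul, derivative_C, eval_add, eval_sub,
    eval_mul, eval_C, eval_dpol W c, eval_derivative_dpol W c, zero_mul, mul_zero, add_zero,
    zero_add, sub_zero]
  ring

lemma eval_derivative_rel :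
    2 * (derivative (alpha W)).eval c - (derivative (beta W)).eval c * (bpol W).eval c -
      (beta W).eval c * W.a₁ - W.a₁ = 0 := by
  have h := congrArg (fun p => (derivative p).eval c) (rel_one' W)
  have hb : derivative (bpol W) = C W.a₁ := by simp [bpol]
  simp only [derivative_add, derivative_sub, derivative_mul, derivative_C, eval_add, eval_sub,
    eval_mul, eval_C, eval_dpol W c, eval_derivative_dpol W c, zero_mul, mul_zero, add_zero,
    zero_add, sub_zero, derivative_ofNat, eval_ofNat, hb, derivative_zero, eval_zero] at h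
  linear_combination h

/-- One point over `c`: `Num` has a simple zero at `c`. -/
lemma eval_Num_of_one [W.IsElliptic] {y : F} (hy : W.toAffine.Equation c y)
    (h2 : 2 * y + (bpol W).eval c = 0) :
    (Num W).eval c = 0 ∧ (derivative (Num W)).eval c ≠ 0 := by
  obtain ⟨hA, hB⟩ := eval_AB_of_one W c hy h2
  have hy' := (equation_iff_fib W c y).mp hy
  have hb : (bpol W).eval c = -(2 * y) := by linear_combination h2
  have hf : (fpol W).eval c = -(y ^ 2) := by rw [← hy', hb]; ring
  have hα : (alpha W).eval c = -y := by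
    simp only [alpha, eval_add, hA, hb]; ring
  have hβ : (beta W).eval c = 1 := by
    simp only [beta, eval_add, eval_one, hB]; ring
  constructor
  · rw [eval_Num, hα, hβ, hf]; ring
  · have hd := eval_derivative_Num W c
    have hr := eval_derivative_rel W c
    rw [hα, hβ, hf] at hd
    rw [hβ, hb] at hr
    have hns := WeierstrassCurve.Affine.equation_iff_nonsingular.mp hy
    rw [WeierstrassCurve.Affine.nonsingular_iff] at hns
    have hf' : (derivative (fpol W)).eval c = 3 * c ^ 2 + 2 * W.a₂ * c + W.a₄ := by
      simp [fpol]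
      ring
    have key : (derivative (Num W)).eval c = (derivative (fpol W)).eval c - W.a₁ * y := by
      linear_combination hd - y * hr
    rw [key, hf']
    rcases hns.2 with h | h
    · intro h3
      apply h
      linear_combination -h3
    · exfalso
      apply h
      have hb' : (bpol W).eval c = W.a₁ * c + W.a₃ := by simp [bpol]
      rw [hb'] at h2
      linear_combination h2

/-- No point over `c`: `α(c) = β(c) = 0`. -/
lemma eval_alpha_beta_of_zero (h0 : ∀ y, ¬ W.toAffine.Equation c y) :
    (alpha W).eval c = 0 ∧ (beta W).eval c = 0 := by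
  have hq : Fintype.card F ≠ 0 := Fintype.card_ne_zero
  have h1 := fib_dvd W c (Fintype.card F)
  have h2 : fib W c ∣
      (X ^ Fintype.card F + X + C ((bpol W).eval c)) * (X ^ Fintype.card F - X) := by
    have : (X ^ Fintype.card F + X + C ((bpol W).eval c)) * (X ^ Fintype.card F - X) =
        fib W c ^ Fintype.card F - fib W c := by
      rw [← FiniteField.expand_card (fib W c)]
      simp only [fib, map_sub, map_add, map_mul, map_pow, expand_X, expand_C]
      ring
    rw [this]
    exact dvd_sub (dvd_pow_self _ hq) dvd_rfl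
  have h3 : IsCoprime (fib W c) (X ^ Fintype.card F - X) := by
    rw [← prod_X_sub_C]
    apply IsCoprime.prod_right
    intro a _
    apply isCoprime_of_eval_ne_zero
    intro ha
    apply h0 a
    rw [equation_iff_fib]
    simp only [fib, eval_add, eval_sub, eval_mul, eval_pow, eval_X, eval_C] at ha
    linear_combination ha
  have h4 : fib W c ∣ X ^ Fintype.card F + X + C ((bpol W).eval c) :=
    h3.dvd_of_dvd_mul_right h2
  have h5 : fib W c ∣ C ((alpha W).eval c) + C ((beta W).eval c) * X := by
    have : (C ((alpha W).eval c) + C ((beta W).eval c) * X : F[X]) =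
        (X ^ Fintype.card F + X + C ((bpol W).eval c)) -
          (X ^ Fintype.card F - C ((Apol W).eval c) - C ((Bpol W).eval c) * X) := by
      simp only [alpha, beta, eval_add, eval_one, C_add, C_1]
      ring
    rw [this]
    exact dvd_sub h4 h1
  have h6 : (C ((alpha W).eval c) + C ((beta W).eval c) * X : F[X]) = 0 := by
    apply eq_zero_of_dvd_of_natDegree_lt h5
    have hfib : (fib W c).natDegree = 2 := by unfold fib; compute_degree!
    rw [hfib]
    have : (C ((alpha W).eval c) + C ((beta W).eval c) * X : F[X]).natDegree ≤ 1 := by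
      compute_degree
    omega
  constructor
  · simpa using congrArg (fun p => p.coeff 0) h6
  · simpa using congrArg (fun p => p.coeff 1) h6

lemma sq_dvd_Num_of_zero (h0 : ∀ y, ¬ W.toAffine.Equation c y) : (X - C c) ^ 2 ∣ Num W := by
  obtain ⟨hα, hβ⟩ := eval_alpha_beta_of_zero W c h0
  obtain ⟨α₁, hα₁⟩ := dvd_iff_isRoot.mpr hα
  obtain ⟨β₁, hβ₁⟩ := dvd_iff_isRoot.mpr hβ
  obtain ⟨δ₁, hδ₁⟩ := dvd_iff_isRoot.mpr (eval_dpol W c)
  refine ⟨α₁ ^ 2 + β₁ ^ 2 * fpol W + C W.a₁ * α₁ * δ₁ -
    (C W.a₂ + X ^ Fintype.card F + X) * δ₁ ^ 2, ?_⟩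
  unfold Num
  rw [hα₁, hβ₁, hδ₁]
  ring

/-- The number of points of `W` over `c`. -/
def mc (W : WeierstrassCurve F) (c : F) : ℕ := Nat.card {y : F // W.toAffine.Equation c y}

/-- The local multiplicities of `Num`. -/
lemma local_main [W.IsElliptic] :
    mc W c ≤ 2 ∧ (X - C c) ^ (2 - mc W c) ∣ Num W ∧
      (mc W c ≠ 0 → ¬ (X - C c) ^ (2 - mc W c + 1) ∣ Num W) := by
  by_cases h0 : ∀ y, ¬ W.toAffine.Equation c y
  · have hm : mc W c = 0 := by
      unfold mc
      have : IsEmpty {y : F // W.toAffine.Equation c y} := ⟨fun y => h0 y.1 y.2⟩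
      exact Nat.card_of_isEmpty
    rw [hm]
    exact ⟨by omega, sq_dvd_Num_of_zero W c h0, fun h => absurd rfl h⟩
  · push Not at h0
    obtain ⟨y, hy⟩ := h0
    have hy' := (equation_iff_fib W c y).mp hy
    have hroots : ∀ z, W.toAffine.Equation c z → z = y ∨ z = -(bpol W).eval c - y := by
      intro z hz
      have hz' := (equation_iff_fib W c z).mp hz
      have : (z - y) * (z - (-(bpol W).eval c - y)) = 0 := by linear_combination hz' - hy'
      rcases mul_eq_zero.mp this with h | h
      · left; linear_combination h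
      · right; linear_combination h
    by_cases h2 : 2 * y + (bpol W).eval c = 0
    · have hm : mc W c = 1 := by
        unfold mc
        rw [Nat.card_eq_one_iff_unique]
        have h' : ∀ z, W.toAffine.Equation c z → z = y := by
          intro z hz
          rcases hroots z hz with h | h
          · exact h
          · rw [h]; linear_combination -h2
        exact ⟨⟨fun a b => Subtype.ext ((h' a.1 a.2).trans (h' b.1 b.2).symm)⟩, ⟨⟨y, hy⟩⟩⟩
      rw [hm]
      obtain ⟨hN, hN'⟩ := eval_Num_of_one W c hy h2
      refine ⟨by omega, ?_, fun _ hd => hN' ?_⟩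
      · simpa using dvd_iff_isRoot.mpr hN
      · exact eval_derivative_of_sq_dvd hd
    · have hm : mc W c = 2 := by
        unfold mc
        rw [Nat.card_eq_two_iff]
        have hy2 : W.toAffine.Equation c (-(bpol W).eval c - y) := by
          rw [equation_iff_fib]; linear_combination hy'
        refine ⟨⟨y, hy⟩, ⟨_, hy2⟩, ?_, ?_⟩
        · intro h
          apply h2
          have := congrArg Subtype.val h
          simp only at this
          linear_combination this
        · ext z
          simp only [Set.mem_insert_iff, Set.mem_singleton_iff, Set.mem_univ, iff_true]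
          rcases hroots z.1 z.2 with h | h
          · left; exact Subtype.ext h
          · right; exact Subtype.ext h
      rw [hm]
      refine ⟨le_refl _, by simp, fun _ hd => eval_Num_of_two W c hy h2 ?_⟩
      have : (X - C c) ∣ Num W := by simpa using hd
      exact dvd_iff_isRoot.mp this

lemma card_point [W.IsElliptic] :
    Nat.card W.toAffine.Point = 1 + ∑ c : F, mc W c := by
  rw [Nat.card_congr (WeierstrassCurve.Affine.pointEquiv W.toAffine)]
  have h : Nat.card (WithZero {xy : F × F // W.toAffine.Equation xy.1 xy.2}) =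
      Nat.card {xy : F × F // W.toAffine.Equation xy.1 xy.2} + 1 := Finite.card_option
  rw [h, Nat.card_congr (Equiv.subtypeProdEquivSigmaSubtype fun c y => W.toAffine.Equation c y),
    Nat.card_sigma, add_comm]
  rfl

end fibre

/-! ### Assembly -/

/-- LEAF COUNT: Manin's count, characteristic-free. -/
theorem countStmt [Fintype F] (W : WeierstrassCurve F) [W.IsElliptic] : CountStmt W := by
  classical
  have hg : (∏ c : F, (X - C c) ^ (2 - mc W c)) ∣ Num W := by
    apply Finset.prod_dvd_of_coprime
    · intro a _ b _ hab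
      exact (isCoprime_X_sub_C_of_isUnit_sub (sub_ne_zero.mpr hab).isUnit).pow
    · intro c _
      exact (local_main W c).2.1
  obtain ⟨n, hn⟩ := hg
  have hdg : (∏ c : F, (X - C c) ^ (mc W c)) * (∏ c : F, (X - C c) ^ (2 - mc W c)) =
      dpol W ^ 2 := by
    rw [dpol, ← prod_X_sub_C, ← Finset.prod_pow, ← Finset.prod_mul_distrib]
    refine Finset.prod_congr rfl (fun c _ => ?_)
    rw [← pow_add]
    congr 1
    have := (local_main W c).1
    omega
  have hcop : IsCoprime n (∏ c : F, (X - C c) ^ (mc W c)) := by
    apply IsCoprime.prod_right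
    intro c _
    by_cases hm : mc W c = 0
    · rw [hm, pow_zero]; exact isCoprime_one_right
    · apply IsCoprime.pow_right
      apply ((irreducible_X_sub_C c).coprime_iff_not_dvd.mpr ?_).symm
      intro hd
      apply (local_main W c).2.2 hm
      rw [hn, pow_succ]
      exact mul_dvd_mul (Finset.dvd_prod_of_mem _ (Finset.mem_univ c)) hd
  have hg_monic : (∏ c : F, (X - C c) ^ (2 - mc W c)).Monic :=
    monic_prod_of_monic _ _ (fun c _ => (monic_X_sub_C c).pow _)
  have hd_monic : (∏ c : F, (X - C c) ^ (mc W c)).Monic :=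
    monic_prod_of_monic _ _ (fun c _ => (monic_X_sub_C c).pow _)
  have hdeg_d : (∏ c : F, (X - C c) ^ (mc W c)).natDegree = ∑ c : F, mc W c := by
    rw [natDegree_prod_of_monic _ _ (fun c _ => (monic_X_sub_C c).pow _)]
    refine Finset.sum_congr rfl (fun c _ => ?_)
    rw [(monic_X_sub_C c).natDegree_pow, natDegree_X_sub_C, mul_one]
  have hn0 : n ≠ 0 := by
    rintro rfl
    exact Num_ne_zero W (by rw [hn, mul_zero])
  have h1 : (∏ c : F, (X - C c) ^ (mc W c)).natDegree +
      (∏ c : F, (X - C c) ^ (2 - mc W c)).natDegree = 2 * Fintype.card F := by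
    rw [← hd_monic.natDegree_mul hg_monic, hdg, natDegree_pow, dpol,
      FiniteField.X_pow_card_sub_X_natDegree_eq F Fintype.one_lt_card]
  have h2 : (∏ c : F, (X - C c) ^ (2 - mc W c)).natDegree + n.natDegree =
      2 * Fintype.card F + 1 := by
    rw [← hg_monic.natDegree_mul' hn0, ← hn, natDegree_Num]
  refine ⟨n, ∏ c : F, (X - C c) ^ (mc W c), hcop, by omega, ?_, ?_⟩
  · rw [hdeg_d, card_point W, add_comm]
  · rw [dc_eq, numc_eq]
    change aM W n * aM W (dpol W) ^ 2 = aM W _ * aM W (Num W)
    rw [← map_pow, ← map_mul, ← map_mul, ← hdg, hn]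
    congr 1
    ring

end

end Fermat.Agent.Lib.helper1346
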