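import Mathlib
import Fermat.Prelude.Def_ModularCurve_X0

/-!
# Bridge between Mathlib's analytic level-one forms and the Prelude's formal `q`-series

* `qExpansion_E₄_eq` : `qExpansion 1 E₄ = map eisenstein4`
* `qExpansion_discriminant_eq` : `qExpansion 1 Δ = X * map (etaProd ^ 24)`
* `qExpansion_q_mul_j` : the `q`-expansion of `q * j`, `j = E₄ ^ 3 / Δ`, is `map jNum`
* `hasSum_q_mul_j`, `hasSum_E₄`, `hasSum_discriminant` : the corresponding convergent expansions.
-/

set_option autoImplicit false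

open UpperHalfPlane ModularForm EisensteinSeries MatrixGroups Filter
open scoped Manifold Topology

namespace Fermat.Agent.Lib.helper1348

/-! ### Taylor power series at `0` -/

/-- Taylor power series at `0` of a function `ℂ → ℂ`. -/
noncomputable def taylorPS (F : ℂ → ℂ) : PowerSeries ℂ :=
  PowerSeries.mk fun m => (m.factorial : ℂ)⁻¹ * iteratedDeriv m F 0

lemma coeff_taylorPS (F : ℂ → ℂ) (m : ℕ) :
    (taylorPS F).coeff m = (m.factorial : ℂ)⁻¹ * iteratedDeriv m F 0 := by
  simp [taylorPS]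

lemma qExpansion_eq_taylorPS (h : ℝ) (f : ℍ → ℂ) :
    qExpansion h f = taylorPS (cuspFunction h f) := rfl

lemma taylorPS_congr {F G : ℂ → ℂ} (h : F =ᶠ[𝓝 0] G) : taylorPS F = taylorPS G := by
  ext m
  rw [coeff_taylorPS, coeff_taylorPS, h.iteratedDeriv_eq m]

lemma taylorPS_mul {F G : ℂ → ℂ} (hF : AnalyticAt ℂ F 0) (hG : AnalyticAt ℂ G 0) :
    taylorPS (F * G) = taylorPS F * taylorPS G := by
  ext n
  simp only [coeff_taylorPS, iteratedDeriv_mul hF.contDiffAt hG.contDiffAt, Finset.mul_sum,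
    PowerSeries.coeff_mul, Finset.Nat.sum_antidiagonal_eq_sum_range_succ_mk, Nat.succ_eq_add_one]
  refine Finset.sum_congr rfl fun i hi ↦ ?_
  rw [Nat.cast_choose _ (by grind)]
  field_simp [Nat.factorial_ne_zero]

lemma taylorPS_sub {F G : ℂ → ℂ} (hF : AnalyticAt ℂ F 0) (hG : AnalyticAt ℂ G 0) :
    taylorPS (F - G) = taylorPS F - taylorPS G := by
  ext n
  simp only [coeff_taylorPS, map_sub]
  rw [iteratedDeriv_sub hF.contDiffAt hG.contDiffAt]
  ring

lemma taylorPS_one : taylorPS (1 : ℂ → ℂ) = 1 := by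
  ext n
  rw [coeff_taylorPS, show (1 : ℂ → ℂ) = fun _ => (1 : ℂ) from rfl, iteratedDeriv_const,
    PowerSeries.coeff_one]
  split_ifs with h
  · subst h; simp
  · simp

lemma taylorPS_id : taylorPS (id : ℂ → ℂ) = PowerSeries.X := by
  ext n
  rw [coeff_taylorPS, iteratedDeriv_id, PowerSeries.coeff_X]
  rcases n with _ | _ | n
  · simp
  · simp
  · simp

lemma taylorPS_pow {F : ℂ → ℂ} (hF : AnalyticAt ℂ F 0) (n : ℕ) :
    taylorPS (F ^ n) = taylorPS F ^ n := by
  induction n with
  | zero => simpa using taylorPS_one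
  | succ n ih =>
    rw [pow_succ, pow_succ, taylorPS_mul (hF.pow n) hF, ih]

lemma taylorPS_prod {ι : Type*} (s : Finset ι) {F : ι → ℂ → ℂ}
    (hF : ∀ i ∈ s, AnalyticAt ℂ (F i) 0) :
    taylorPS (∏ i ∈ s, F i) = ∏ i ∈ s, taylorPS (F i) := by
  classical
  induction s using Finset.induction_on with
  | empty => simpa using taylorPS_one
  | insert a s ha ih =>
    rw [Finset.prod_insert ha, Finset.prod_insert ha,
      taylorPS_mul (hF a (Finset.mem_insert_self a s))
        (Finset.analyticAt_prod s fun i hi => hF i (Finset.mem_insert_of_mem hi)),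
      ih fun i hi => hF i (Finset.mem_insert_of_mem hi)]

/-- Locally uniform convergence of entire functions on an open set gives locally uniform
convergence of all iterated derivatives. -/
lemma tendstoLocallyUniformlyOn_iteratedDeriv {ι : Type*} {φ : Filter ι} {U : Set ℂ}
    (hU : IsOpen U) {F : ι → ℂ → ℂ} {f : ℂ → ℂ}
    (hf : TendstoLocallyUniformlyOn F f φ U) (hF : ∀ i, Differentiable ℂ (F i)) (m : ℕ) :
    TendstoLocallyUniformlyOn (fun i => iteratedDeriv m (F i)) (iteratedDeriv m f) φ U := by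
  induction m with
  | zero => simpa [iteratedDeriv_zero] using hf
  | succ m ih =>
    have h1 := ih.deriv (Eventually.of_forall fun i => ?_) hU
    · simpa only [iteratedDeriv_succ, Function.comp_def] using h1
    · have hcd : ContDiff ℂ ⊤ (F i) := (hF i).contDiff
      exact (hcd.differentiable_iteratedDeriv m (by simp)).differentiableOn

lemma tendsto_coeff_taylorPS {ι : Type*} {φ : Filter ι} {U : Set ℂ}
    (hU : IsOpen U) (h0 : (0 : ℂ) ∈ U) {F : ι → ℂ → ℂ} {f : ℂ → ℂ}
    (hf : TendstoLocallyUniformlyOn F f φ U) (hF : ∀ i, Differentiable ℂ (F i)) (m : ℕ) :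
    Tendsto (fun i => (taylorPS (F i)).coeff m) φ (𝓝 ((taylorPS f).coeff m)) := by
  simp only [coeff_taylorPS]
  exact ((tendstoLocallyUniformlyOn_iteratedDeriv hU hf hF m).tendsto_at h0).const_mul _

lemma taylorPS_one_sub_pow (i : ℕ) :
    taylorPS (fun q : ℂ => 1 - q ^ (i + 1)) = 1 - PowerSeries.X ^ (i + 1) := by
  have h : (fun q : ℂ => 1 - q ^ (i + 1)) = 1 - id ^ (i + 1) := by
    ext q; simp
  have h1 : AnalyticAt ℂ (1 : ℂ → ℂ) 0 := analyticAt_const
  rw [h, taylorPS_sub h1 (analyticAt_id.pow _), taylorPS_one,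
    taylorPS_pow analyticAt_id, taylorPS_id]

/-! ### The Euler product -/

/-- The analytic Euler product `∏ (1 - q^(n+1))` on the unit disc. -/
noncomputable def eulerFun (q : ℂ) : ℂ := ∏' n : ℕ, (1 - q ^ (n + 1))

lemma eulerFun_differentiableOn : DifferentiableOn ℂ eulerFun (Metric.ball (0 : ℂ) 1) :=
  differentiableOn_tprod_one_sub_pow

lemma eulerFun_analyticAt_zero : AnalyticAt ℂ eulerFun 0 :=
  eulerFun_differentiableOn.analyticAt (Metric.ball_mem_nhds 0 one_pos)

lemma eulerFun_zero : eulerFun 0 = 1 := by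
  simp [eulerFun]

lemma eulerFun_ne_zero {q : ℂ} (hq : ‖q‖ < 1) : eulerFun q ≠ 0 := by
  have h := tprod_one_add_ne_zero_of_summable (f := fun n : ℕ => -q ^ (n + 1)) ?_ ?_
  · simpa [eulerFun, sub_eq_add_neg] using h
  · intro i h0
    have h1 : q ^ (i + 1) = 1 := by
      have := sub_eq_zero.mp (by simpa [sub_eq_add_neg] using h0 : (1 : ℂ) - q ^ (i + 1) = 0)
      exact this.symm
    have h2 : ‖q‖ ^ (i + 1) = 1 := by rw [← norm_pow, h1, norm_one]
    have h3 : ‖q‖ ^ (i + 1) < 1 := pow_lt_one₀ (norm_nonneg _) hq (Nat.succ_ne_zero i)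
    linarith
  · simpa using (summable_nat_add_iff 1).mpr (summable_geometric_of_lt_one (norm_nonneg _) hq)

open scoped PowerSeries.WithPiTopology in
/-- The Taylor series at `0` of the analytic Euler product `∏ (1 - q^(n+1))` is the formal
product `ModularCurve.etaProd`. -/
theorem taylorPS_eulerFun :
    taylorPS eulerFun = PowerSeries.map (Int.castRingHom ℂ) ModularCurve.etaProd := by
  ext m
  have hlu := multipliableLocallyUniformlyOn_one_sub_pow.hasProdLocallyUniformlyOn
  rw [hasProdLocallyUniformlyOn_iff_tendstoLocallyUniformlyOn] at hlu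
  have hdiff : ∀ s : Finset ℕ, Differentiable ℂ (fun q : ℂ => ∏ i ∈ s, (1 - q ^ (i + 1))) := by
    intro s; fun_prop
  have h1 := tendsto_coeff_taylorPS Metric.isOpen_ball (Metric.mem_ball_self one_pos) hlu hdiff m
  have hp : HasProd (fun n : ℕ => (1 - PowerSeries.X ^ (n + 1) : PowerSeries ℤ))
      ModularCurve.etaProd :=
    (PowerSeries.WithPiTopology.multipliable_one_sub_X_pow ℤ).hasProd
  have h2 : Tendsto (fun s : Finset ℕ =>
      ((PowerSeries.coeff m (∏ i ∈ s, (1 - PowerSeries.X ^ (i + 1) : PowerSeries ℤ)) : ℤ) : ℂ))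
      atTop (𝓝 ((PowerSeries.coeff m ModularCurve.etaProd : ℤ) : ℂ)) := by
    have hc := (PowerSeries.WithPiTopology.continuous_coeff ℤ m).tendsto ModularCurve.etaProd
    have hc2 : Continuous (fun n : ℤ => (n : ℂ)) := continuous_of_discreteTopology
    exact (hc2.tendsto _).comp (hc.comp hp)
  have h3 : ∀ s : Finset ℕ, (taylorPS (fun q : ℂ => ∏ i ∈ s, (1 - q ^ (i + 1)))).coeff m =
      ((PowerSeries.coeff m (∏ i ∈ s, (1 - PowerSeries.X ^ (i + 1) : PowerSeries ℤ)) : ℤ) : ℂ) := by
    intro s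
    have hfun : (fun q : ℂ => ∏ i ∈ s, (1 - q ^ (i + 1))) =
        ∏ i ∈ s, (fun q : ℂ => 1 - q ^ (i + 1)) := by
      ext q; simp [Finset.prod_apply]
    rw [hfun, taylorPS_prod s (fun i _ => by fun_prop)]
    simp only [taylorPS_one_sub_pow]
    have : (∏ i ∈ s, (1 - PowerSeries.X ^ (i + 1) : PowerSeries ℂ)) =
        PowerSeries.map (Int.castRingHom ℂ)
          (∏ i ∈ s, (1 - PowerSeries.X ^ (i + 1) : PowerSeries ℤ)) := by
      simp [map_prod]
    rw [this, PowerSeries.coeff_map]
    simp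
  rw [PowerSeries.coeff_map]
  exact tendsto_nhds_unique (h1.congr h3) h2

/-! ### `E₄` and `Δ` -/

/-- **Bridge 1.** The `q`-expansion of `E₄` is the Prelude's formal series `eisenstein4`. -/
theorem qExpansion_E₄_eq :
    qExpansion 1 E₄ = PowerSeries.map (Int.castRingHom ℂ) ModularCurve.eisenstein4 := by
  ext m
  rw [E_qExpansion_coeff (by norm_num : 3 ≤ 4) ⟨2, rfl⟩ m, PowerSeries.coeff_map,
    ModularCurve.eisenstein4, PowerSeries.coeff_mk]
  have hb : bernoulli 4 = -1 / 30 := by decide +kernel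
  split_ifs with h
  · simp
  · rw [hb, ArithmeticFunction.sigma_apply]
    simp only [eq_intCast]
    push_cast
    ring

/-- **Bridge 2.** The `q`-expansion of `Δ` is `X * etaProd ^ 24`. -/
theorem qExpansion_discriminant_eq :
    qExpansion 1 ModularForm.discriminant =
      PowerSeries.X * PowerSeries.map (Int.castRingHom ℂ) (ModularCurve.etaProd ^ 24) := by
  rw [qExpansion_eq_taylorPS]
  have hg := eulerFun_analyticAt_zero
  have heq : cuspFunction 1 ModularForm.discriminant =ᶠ[𝓝 0] (id * eulerFun ^ 24) := by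
    filter_upwards [Metric.ball_mem_nhds 0 one_pos] with q hq
    rw [discriminant_cuspFunction_eqOn hq]
    simp only [Pi.mul_apply, id, Pi.pow_apply, eulerFun]
    rw [(multipliable_one_sub_pow (by simpa using hq)).tprod_pow 24]
  rw [taylorPS_congr heq, taylorPS_mul analyticAt_id (hg.pow 24), taylorPS_id, taylorPS_pow hg,
    taylorPS_eulerFun, map_pow]

end Fermat.Agent.Lib.helper1348
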