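import Mathlib
import Fermat.Prelude.Def_ModularCurve_GenusNumerics

/-!
# The index of `Γ₀(N)` in `SL(2, ℤ)` is the Dedekind psi function (helper1356)

Route: tower `Γ₀(M p) ≤ Γ₀(M)` for a prime `p`, with relative index `p` (if `p ∣ M`) or `p + 1`
(if `p ∤ M`), computed by an explicit bijection of the coset space with `ZMod p`, resp.
`Option (ZMod p)`, on first columns; the Dedekind psi function satisfies the same recursion.

Main results:
* `dedekindPsi_mul_prime` : `ψ(M p) = (if p ∣ M then p else p + 1) * ψ(M)`;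
* `relIndex_Gamma0_mul_prime` : `[Γ₀(M) : Γ₀(M p)] = if p ∣ M then p else p + 1`;
* `index_Gamma0` : `(Gamma0 N).index = dedekindPsi N` for `N ≠ 0`;
* `card_quotient_Gamma0` : `Nat.card (SL(2, ℤ) ⧸ Gamma0 N) = dedekindPsi N`;
* `mul_card_orbits_zpowers` : if `g ^ p` acts trivially on a finite set `X` (`p` prime) then
  `p * #(orbits of ⟨g⟩) = #X + (p - 1) * #Fix(g)`.
-/

set_option autoImplicit false

open CongruenceSubgroup MatrixGroups Matrix ModularCurve

namespace Fermat.Agent.Lib.helper1356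

/-! ## The Dedekind psi function: recursion over a prime factor -/

theorem dedekindPsi_mul_prime_of_dvd {M p : ℕ} (hp : p.Prime) (hM : M ≠ 0) (h : p ∣ M) :
    dedekindPsi (M * p) = p * dedekindPsi M := by
  unfold dedekindPsi
  have hset : (M * p).divisors.filter Squarefree = M.divisors.filter Squarefree := by
    ext d
    simp only [Finset.mem_filter, Nat.mem_divisors]
    constructor
    · rintro ⟨⟨hd, _⟩, hsq⟩
      refine ⟨⟨?_, hM⟩, hsq⟩
      by_cases hpd : p ∣ d
      · obtain ⟨d', rfl⟩ := hpd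
        have hcop : Nat.Coprime p d' := (Nat.squarefree_mul_iff.mp hsq).1
        have hd' : d' ∣ M := by
          have h1 : p * d' ∣ p * M := by rwa [mul_comm M p] at hd
          exact (Nat.mul_dvd_mul_iff_left hp.pos).mp h1
        exact Nat.Coprime.mul_dvd_of_dvd_of_dvd hcop h hd'
      · exact Nat.Coprime.dvd_of_dvd_mul_right
          ((Nat.Prime.coprime_iff_not_dvd hp).mpr hpd).symm hd
    · rintro ⟨⟨hd, _⟩, hsq⟩
      exact ⟨⟨hd.mul_right p, mul_ne_zero hM hp.ne_zero⟩, hsq⟩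
  rw [hset, Finset.mul_sum]
  refine Finset.sum_congr rfl fun d hd => ?_
  have hd' : d ∣ M := (Nat.mem_divisors.mp (Finset.mem_filter.mp hd).1).1
  rw [mul_comm M p, Nat.mul_div_assoc _ hd']

theorem dedekindPsi_mul_prime_of_not_dvd {M p : ℕ} (hp : p.Prime) (hM : M ≠ 0) (h : ¬ p ∣ M) :
    dedekindPsi (M * p) = (p + 1) * dedekindPsi M := by
  unfold dedekindPsi
  have hset : (M * p).divisors.filter Squarefree
      = M.divisors.filter Squarefree ∪ (M.divisors.filter Squarefree).image (fun d => p * d) := by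
    ext d
    simp only [Finset.mem_filter, Nat.mem_divisors, Finset.mem_union, Finset.mem_image]
    constructor
    · rintro ⟨⟨hd, _⟩, hsq⟩
      by_cases hpd : p ∣ d
      · right
        obtain ⟨d', rfl⟩ := hpd
        have hd' : d' ∣ M := by
          have h1 : p * d' ∣ p * M := by rwa [mul_comm M p] at hd
          exact (Nat.mul_dvd_mul_iff_left hp.pos).mp h1
        exact ⟨d', ⟨⟨hd', hM⟩, (Nat.squarefree_mul_iff.mp hsq).2.2⟩, rfl⟩
      · left
        exact ⟨⟨Nat.Coprime.dvd_of_dvd_mul_right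
          ((Nat.Prime.coprime_iff_not_dvd hp).mpr hpd).symm hd, hM⟩, hsq⟩
    · rintro (⟨⟨hd, _⟩, hsq⟩ | ⟨d', ⟨⟨hd', _⟩, hsq'⟩, rfl⟩)
      · exact ⟨⟨hd.mul_right p, mul_ne_zero hM hp.ne_zero⟩, hsq⟩
      · refine ⟨⟨?_, mul_ne_zero hM hp.ne_zero⟩, ?_⟩
        · rw [mul_comm M p]; exact Nat.mul_dvd_mul_left p hd'
        · have hcop : Nat.Coprime p d' :=
            (Nat.Prime.coprime_iff_not_dvd hp).mpr fun hpd' => h (hpd'.trans hd')
          exact Nat.squarefree_mul_iff.mpr ⟨hcop, hp.squarefree, hsq'⟩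
  have hdisj : Disjoint (M.divisors.filter Squarefree)
      ((M.divisors.filter Squarefree).image (fun d => p * d)) := by
    rw [Finset.disjoint_left]
    intro d hd hd2
    simp only [Finset.mem_filter, Nat.mem_divisors, Finset.mem_image] at hd hd2
    obtain ⟨d', _, rfl⟩ := hd2
    exact h ((dvd_mul_right p d').trans hd.1.1)
  have hinj : Set.InjOn (fun d => p * d) ((M.divisors.filter Squarefree : Finset ℕ) : Set ℕ) :=
    fun a _ b _ hab => Nat.eq_of_mul_eq_mul_left hp.pos hab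
  rw [hset, Finset.sum_union hdisj, Finset.sum_image hinj, add_mul, one_mul, Finset.mul_sum]
  congr 1
  · refine Finset.sum_congr rfl fun d hd => ?_
    have hd' : d ∣ M := (Nat.mem_divisors.mp (Finset.mem_filter.mp hd).1).1
    rw [mul_comm M p, Nat.mul_div_assoc _ hd']
  · refine Finset.sum_congr rfl fun d _ => ?_
    rw [mul_comm M p, Nat.mul_div_mul_left _ _ hp.pos]

theorem dedekindPsi_mul_prime {M p : ℕ} (hp : p.Prime) (hM : M ≠ 0) :
    dedekindPsi (M * p) = (if p ∣ M then p else p + 1) * dedekindPsi M := by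
  split_ifs with h
  · exact dedekindPsi_mul_prime_of_dvd hp hM h
  · exact dedekindPsi_mul_prime_of_not_dvd hp hM h

theorem coe_mul_apply (g h : SL(2, ℤ)) (i j : Fin 2) :
    (g * h).1 i j = g.1 i 0 * h.1 0 j + g.1 i 1 * h.1 1 j := by
  have h1 : (g * h).1 = g.1 * h.1 := rfl
  rw [h1, Matrix.mul_apply, Fin.sum_univ_two]

theorem inv_mul_apply_one_zero (g g' : SL(2, ℤ)) :
    (g⁻¹ * g').1 1 0 = g.1 0 0 * g'.1 1 0 - g'.1 0 0 * g.1 1 0 := by
  have h10 : (g⁻¹).1 1 0 = - g.1 1 0 := by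
    rw [Matrix.SpecialLinearGroup.SL2_inv_expl g]; rfl
  have h11 : (g⁻¹).1 1 1 = g.1 0 0 := by
    rw [Matrix.SpecialLinearGroup.SL2_inv_expl g]; rfl
  rw [coe_mul_apply, h10, h11]
  ring

theorem mem_Gamma0_iff_dvd (N : ℕ) (g : SL(2, ℤ)) : g ∈ Gamma0 N ↔ (N : ℤ) ∣ g.1 1 0 := by
  rw [Gamma0_mem]
  exact ZMod.intCast_zmod_eq_zero_iff_dvd _ _

theorem inv_mul_mem_Gamma0_iff (N : ℕ) (g g' : SL(2, ℤ)) :
    g⁻¹ * g' ∈ Gamma0 N ↔ (N : ℤ) ∣ g.1 0 0 * g'.1 1 0 - g'.1 0 0 * g.1 1 0 := by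
  rw [mem_Gamma0_iff_dvd, inv_mul_apply_one_zero]

theorem isCoprime_col (g : SL(2, ℤ)) : IsCoprime (g.1 0 0) (g.1 1 0) := by
  have h : g.1.det = 1 := g.2
  rw [det_fin_two] at h
  exact ⟨g.1 1 1, -g.1 0 1, by linarith⟩

theorem Gamma0_le_of_dvd {M N : ℕ} (h : M ∣ N) : Gamma0 N ≤ Gamma0 M := by
  intro g hg
  rw [mem_Gamma0_iff_dvd] at hg ⊢
  exact (Int.natCast_dvd_natCast.mpr h).trans hg

theorem Gamma0_one_eq_top : Gamma0 1 = ⊤ := by
  ext g
  rw [mem_Gamma0_iff_dvd]
  simp

theorem index_eq_card_of_map {G T : Type*} [Group G] (K : Subgroup G) (φ : G → T)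
    (hφ : ∀ g g' : G, φ g = φ g' ↔ g⁻¹ * g' ∈ K) (hsurj : Function.Surjective φ) :
    K.index = Nat.card T := by
  rw [Subgroup.index_eq_card]
  let f : G ⧸ K → T :=
    Quotient.lift φ (fun a b hab => (hφ a b).2 (QuotientGroup.leftRel_apply.mp hab))
  refine Nat.card_eq_of_bijective f ⟨?_, ?_⟩
  · intro x y
    induction x using QuotientGroup.induction_on
    induction y using QuotientGroup.induction_on
    intro hxy
    exact QuotientGroup.eq.mpr ((hφ _ _).1 hxy)
  · intro t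
    obtain ⟨g, rfl⟩ := hsurj t
    exact ⟨QuotientGroup.mk g, rfl⟩

theorem relIndex_eq_card_of_map {G T : Type*} [Group G] (K H : Subgroup G) (φ : H → T)
    (hφ : ∀ g g' : H, φ g = φ g' ↔ (g : G)⁻¹ * (g' : G) ∈ K) (hsurj : Function.Surjective φ) :
    K.relIndex H = Nat.card T := by
  rw [Subgroup.relIndex]
  refine index_eq_card_of_map (K.subgroupOf H) φ (fun g g' => ?_) hsurj
  rw [hφ, Subgroup.mem_subgroupOf]
  rfl

/-! ## The tower `Γ₀(M p) ≤ Γ₀(M)` -/

/-- The upper left entry modulo `p`. -/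
def colU (p : ℕ) (g : SL(2, ℤ)) : ZMod p := ((g.1 0 0 : ℤ) : ZMod p)

/-- The lower left entry divided by `M`, modulo `p`. -/
def colW (M p : ℕ) (g : SL(2, ℤ)) : ZMod p := ((g.1 1 0 / (M : ℤ) : ℤ) : ZMod p)

theorem inv_mul_mem_Gamma0_mul_iff {M p : ℕ} (hM : M ≠ 0) {g g' : SL(2, ℤ)}
    (hg : g ∈ Gamma0 M) (hg' : g' ∈ Gamma0 M) :
    g⁻¹ * g' ∈ Gamma0 (M * p) ↔ colU p g * colW M p g' - colU p g' * colW M p g = 0 := by
  rw [inv_mul_mem_Gamma0_iff]
  rw [mem_Gamma0_iff_dvd] at hg hg'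
  obtain ⟨γ, hγ⟩ := hg
  obtain ⟨γ', hγ'⟩ := hg'
  have hM' : (M : ℤ) ≠ 0 := by exact_mod_cast hM
  have e1 : g.1 1 0 / (M : ℤ) = γ := by rw [hγ, Int.mul_ediv_cancel_left _ hM']
  have e2 : g'.1 1 0 / (M : ℤ) = γ' := by rw [hγ', Int.mul_ediv_cancel_left _ hM']
  unfold colU colW
  rw [e1, e2, hγ, hγ']
  have h3 : g.1 0 0 * (↑M * γ') - g'.1 0 0 * (↑M * γ)
      = (M : ℤ) * (g.1 0 0 * γ' - g'.1 0 0 * γ) := by ring
  rw [h3]
  push_cast
  rw [mul_dvd_mul_iff_left hM', ← ZMod.intCast_zmod_eq_zero_iff_dvd]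
  push_cast
  rfl

theorem not_isUnit_prime_int {p : ℕ} (hp : p.Prime) : ¬ IsUnit (p : ℤ) := by
  intro hu
  have h1 : (p : ℤ) = 1 ∨ (p : ℤ) = -1 := Int.isUnit_iff.mp hu
  have hp1 := hp.one_lt
  omega

theorem colU_colW_ne_zero {M p : ℕ} (hp : p.Prime) {g : SL(2, ℤ)} (hg : g ∈ Gamma0 M) :
    ¬ (colU p g = 0 ∧ colW M p g = 0) := by
  rintro ⟨h1, h2⟩
  unfold colU at h1
  unfold colW at h2
  rw [ZMod.intCast_zmod_eq_zero_iff_dvd] at h1 h2
  rw [mem_Gamma0_iff_dvd] at hg
  have h3 : (p : ℤ) ∣ g.1 1 0 := by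
    have h4 := Int.ediv_mul_cancel hg
    rw [← h4]
    exact Dvd.dvd.mul_right h2 _
  exact not_isUnit_prime_int hp ((isCoprime_col g).isUnit_of_dvd' h1 h3)

theorem colU_ne_zero_of_dvd {M p : ℕ} (hp : p.Prime) (hpM : p ∣ M) {g : SL(2, ℤ)}
    (hg : g ∈ Gamma0 M) : colU p g ≠ 0 := by
  intro h1
  unfold colU at h1
  rw [ZMod.intCast_zmod_eq_zero_iff_dvd] at h1
  rw [mem_Gamma0_iff_dvd] at hg
  have h3 : (p : ℤ) ∣ g.1 1 0 := (Int.natCast_dvd_natCast.mpr hpM).trans hg
  exact not_isUnit_prime_int hp ((isCoprime_col g).isUnit_of_dvd' h1 h3)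

/-- The matrix `[[1, 0], [c, 1]]`. -/
def lowerMat (c : ℤ) : SL(2, ℤ) := ⟨!![1, 0; c, 1], by rw [det_fin_two_of]; ring⟩

theorem lowerMat_mem (M : ℕ) (t : ℤ) : lowerMat ((M : ℤ) * t) ∈ Gamma0 M := by
  rw [mem_Gamma0_iff_dvd]
  exact ⟨t, rfl⟩

theorem colU_lowerMat (p : ℕ) (c : ℤ) : colU p (lowerMat c) = 1 := by
  show (((1 : ℤ)) : ZMod p) = 1
  simp

theorem colW_lowerMat {M : ℕ} (p : ℕ) (hM : M ≠ 0) (t : ℤ) :
    colW M p (lowerMat ((M : ℤ) * t)) = (t : ZMod p) := by
  have hM' : (M : ℤ) ≠ 0 := by exact_mod_cast hM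
  show (((((M : ℤ) * t) / (M : ℤ) : ℤ)) : ZMod p) = _
  rw [Int.mul_ediv_cancel_left _ hM']

theorem relIndex_Gamma0_mul_prime_of_dvd {M p : ℕ} (hp : p.Prime) (hM : M ≠ 0) (hpM : p ∣ M) :
    (Gamma0 (M * p)).relIndex (Gamma0 M) = p := by
  have : Fact p.Prime := ⟨hp⟩
  have key := relIndex_eq_card_of_map (Gamma0 (M * p)) (Gamma0 M)
    (fun g : Gamma0 M => colW M p g.1 / colU p g.1) ?_ ?_
  · rw [key, Nat.card_eq_fintype_card, ZMod.card]
  · intro g g'
    rw [inv_mul_mem_Gamma0_mul_iff hM g.2 g'.2]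
    have hu := colU_ne_zero_of_dvd hp hpM g.2
    have hu' := colU_ne_zero_of_dvd hp hpM g'.2
    show colW M p g.1 / colU p g.1 = colW M p g'.1 / colU p g'.1 ↔ _
    rw [div_eq_div_iff hu hu']
    constructor <;> intro h
    · linear_combination -h
    · linear_combination -h
  · intro t
    refine ⟨⟨lowerMat ((M : ℤ) * (t.val : ℤ)), lowerMat_mem M _⟩, ?_⟩
    show colW M p (lowerMat _) / colU p (lowerMat _) = t
    rw [colU_lowerMat, colW_lowerMat p hM, div_one]
    simp

theorem relIndex_Gamma0_mul_prime_of_not_dvd {M p : ℕ} (hp : p.Prime) (hM : M ≠ 0)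
    (hpM : ¬ p ∣ M) : (Gamma0 (M * p)).relIndex (Gamma0 M) = p + 1 := by
  have : Fact p.Prime := ⟨hp⟩
  have key := relIndex_eq_card_of_map (Gamma0 (M * p)) (Gamma0 M)
    (fun g : Gamma0 M =>
      if colU p g.1 = 0 then (none : Option (ZMod p)) else some (colW M p g.1 / colU p g.1))
    ?_ ?_
  · rw [key, Nat.card_eq_fintype_card, Fintype.card_option, ZMod.card]
  · intro g g'
    rw [inv_mul_mem_Gamma0_mul_iff hM g.2 g'.2]
    have hnd := colU_colW_ne_zero hp g.2
    have hnd' := colU_colW_ne_zero hp g'.2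
    by_cases hu : colU p g.1 = 0 <;> by_cases hu' : colU p g'.1 = 0
    · simp [hu, hu']
    · have hw : colW M p g.1 ≠ 0 := fun h => hnd ⟨hu, h⟩
      simp [hu, hu', hw]
    · have hw' : colW M p g'.1 ≠ 0 := fun h => hnd' ⟨hu', h⟩
      simp [hu, hu', hw']
    · simp only [hu, hu', if_false, Option.some.injEq]
      rw [div_eq_div_iff hu hu']
      constructor <;> intro h
      · linear_combination -h
      · linear_combination -h
  · intro t
    cases t with
    | none =>
      have hcop : IsCoprime (p : ℤ) (M : ℤ) :=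
        Nat.isCoprime_iff_coprime.mpr ((Nat.Prime.coprime_iff_not_dvd hp).mpr hpM)
      obtain ⟨a, b, hab⟩ := hcop
      let g : SL(2, ℤ) := ⟨!![(p : ℤ), -b; (M : ℤ), a], by rw [det_fin_two_of]; linarith⟩
      have hg : g ∈ Gamma0 M := by
        rw [mem_Gamma0_iff_dvd]
        exact dvd_refl _
      refine ⟨⟨g, hg⟩, ?_⟩
      have h0 : colU p g = 0 := by
        show (((p : ℤ)) : ZMod p) = 0
        simp
      simp [h0]
    | some t =>
      refine ⟨⟨lowerMat ((M : ℤ) * (t.val : ℤ)), lowerMat_mem M _⟩, ?_⟩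
      have h1 : colU p (lowerMat ((M : ℤ) * (t.val : ℤ))) = 1 := colU_lowerMat _ _
      have h2 : colW M p (lowerMat ((M : ℤ) * (t.val : ℤ))) = t := by
        rw [colW_lowerMat p hM]; simp
      show (if colU p (lowerMat ((M : ℤ) * (t.val : ℤ))) = 0 then (none : Option (ZMod p))
        else some (colW M p (lowerMat ((M : ℤ) * (t.val : ℤ)))
          / colU p (lowerMat ((M : ℤ) * (t.val : ℤ))))) = some t
      rw [h1, h2, if_neg one_ne_zero, div_one]

theorem relIndex_Gamma0_mul_prime {M p : ℕ} (hp : p.Prime) (hM : M ≠ 0) :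
    (Gamma0 (M * p)).relIndex (Gamma0 M) = if p ∣ M then p else p + 1 := by
  split_ifs with h
  · exact relIndex_Gamma0_mul_prime_of_dvd hp hM h
  · exact relIndex_Gamma0_mul_prime_of_not_dvd hp hM h

/-! ## The index of `Γ₀(N)` -/

theorem index_Gamma0 (N : ℕ) : N ≠ 0 → (Gamma0 N).index = dedekindPsi N := by
  refine induction_on_primes
    (motive := fun N => N ≠ 0 → (Gamma0 N).index = dedekindPsi N) ?_ ?_ ?_ N
  · intro h
    exact absurd rfl h
  · intro _
    rw [Gamma0_one_eq_top, Subgroup.index_top, dedekindPsi_one]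
  · intro p a hp ih hN
    have ha : a ≠ 0 := fun h => hN (by rw [h, mul_zero])
    rw [mul_comm p a, ← Subgroup.relIndex_mul_index (Gamma0_le_of_dvd (Dvd.intro p rfl)),
      relIndex_Gamma0_mul_prime hp ha, ih ha, dedekindPsi_mul_prime hp ha]

theorem card_quotient_Gamma0 (N : ℕ) [NeZero N] :
    Nat.card (SL(2, ℤ) ⧸ Gamma0 N) = dedekindPsi N := by
  rw [← Subgroup.index_eq_card]
  exact index_Gamma0 N (NeZero.ne N)

section Orbits

open MulAction


/-! ## Orbits of a cyclic group whose generator has prime order on the set -/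

theorem orbitRel_zpowers_iff {G X : Type*} [Group G] [MulAction G X] (g : G) (a b : X) :
    (orbitRel (Subgroup.zpowers g) X) a b ↔ ∃ k : ℤ, g ^ k • b = a := by
  rw [orbitRel_apply, mem_orbit_iff]
  constructor
  · rintro ⟨⟨h, hh⟩, hk⟩
    obtain ⟨k, rfl⟩ := Subgroup.mem_zpowers_iff.mp hh
    exact ⟨k, hk⟩
  · rintro ⟨k, hk⟩
    exact ⟨⟨g ^ k, Subgroup.mem_zpowers_iff.mpr ⟨k, rfl⟩⟩, hk⟩

theorem toPerm_zpow_apply {G X : Type*} [Group G] [MulAction G X] (g : G) (k : ℤ) (x : X) :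
    ((MulAction.toPerm g : Equiv.Perm X) ^ k) x = g ^ k • x := by
  have h := map_zpow (MulAction.toPermHom G X) g k
  have h2 : (MulAction.toPermHom G X) (g ^ k) x = g ^ k • x := rfl
  rw [← h2, h]
  rfl

theorem card_orbits_zpowers_toPerm {G X : Type*} [Group G] [MulAction G X] (g : G) :
    Nat.card (orbitRel.Quotient (Subgroup.zpowers g) X)
      = Nat.card (orbitRel.Quotient (Subgroup.zpowers (MulAction.toPerm g : Equiv.Perm X)) X) := by
  refine Nat.card_congr (Quotient.congrRight fun a b => ?_)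
  rw [orbitRel_zpowers_iff, orbitRel_zpowers_iff]
  refine exists_congr fun k => ?_
  rw [Equiv.Perm.smul_def, toPerm_zpow_apply]

/-- Burnside count for a permutation whose order is `1` or a prime `p`. -/
theorem mul_card_orbits_perm {X : Type*} [Finite X] (σ : Equiv.Perm X) {p : ℕ} (hp : p.Prime)
    (hσ : σ ^ p = 1) :
    p * Nat.card (orbitRel.Quotient (Subgroup.zpowers σ) X)
      = Nat.card X + (p - 1) * Nat.card (fixedBy X σ) := by
  classical
  have : Fintype X := Fintype.ofFinite X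
  have hB := MulAction.sum_card_fixedBy_eq_card_orbits_mul_card_group (Subgroup.zpowers σ) X
  simp only [← Nat.card_eq_fintype_card] at hB
  rw [Nat.card_zpowers] at hB
  have hord : orderOf σ = 1 ∨ orderOf σ = p :=
    (Nat.dvd_prime hp).mp (orderOf_dvd_of_pow_eq_one hσ)
  -- fixed points of non-identity elements
  have hfix : ∀ h : Subgroup.zpowers σ, h ≠ 1 →
      Nat.card (fixedBy X h) = Nat.card (fixedBy X σ) := by
    intro h hh
    rcases hord with h1 | hpo
    · exfalso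
      apply hh
      have hσ1 : σ = 1 := orderOf_eq_one_iff.mp h1
      obtain ⟨k, hk⟩ := Subgroup.mem_zpowers_iff.mp h.2
      apply Subtype.ext
      rw [← hk, hσ1, _root_.one_zpow]
      rfl
    · have : Fact p.Prime := ⟨hp⟩
      have hcard : Nat.card (Subgroup.zpowers σ) = p := by rw [Nat.card_zpowers, hpo]
      have hmem : (⟨σ, Subgroup.mem_zpowers σ⟩ : Subgroup.zpowers σ) ∈ Subgroup.zpowers h :=
        mem_zpowers_of_prime_card hcard hh
      obtain ⟨j, hj⟩ := Subgroup.mem_zpowers_iff.mp hmem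
      obtain ⟨k, hk⟩ := Subgroup.mem_zpowers_iff.mp h.2
      have hj' : (h : Equiv.Perm X) ^ j = σ := by
        have := congrArg Subtype.val hj
        simpa using this
      have hset : fixedBy X h = fixedBy X σ := by
        ext x
        simp only [mem_fixedBy]
        constructor
        · intro hx
          have hx' : (h : Equiv.Perm X) x = x := hx
          have := Equiv.Perm.zpow_apply_eq_self_of_apply_eq_self hx' j
          rw [hj'] at this
          exact this
        · intro hx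
          have hx' : σ x = x := hx
          have := Equiv.Perm.zpow_apply_eq_self_of_apply_eq_self hx' k
          rw [hk] at this
          exact this
      rw [hset]
  -- split the Burnside sum at the identity
  have hsum : ∑ h : Subgroup.zpowers σ, Nat.card (fixedBy X h)
      = Nat.card X + (orderOf σ - 1) * Nat.card (fixedBy X σ) := by
    rw [← Finset.add_sum_erase Finset.univ _ (Finset.mem_univ (1 : Subgroup.zpowers σ))]
    congr 1
    · have : fixedBy X (1 : Subgroup.zpowers σ) = Set.univ := by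
        ext x; simp
      rw [this, Nat.card_coe_set_eq, Set.ncard_univ]
    · rw [Finset.sum_congr rfl (fun h hh => hfix h (Finset.ne_of_mem_erase hh)),
        Finset.sum_const, smul_eq_mul, Finset.card_erase_of_mem (Finset.mem_univ _),
        Finset.card_univ, ← Nat.card_eq_fintype_card, Nat.card_zpowers]
  rw [hsum] at hB
  rcases hord with h1 | hpo
  · have hσ1 : σ = 1 := orderOf_eq_one_iff.mp h1
    have hall : fixedBy X σ = Set.univ := by
      ext x; simp [hσ1]
    rw [h1] at hB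
    rw [hall, Nat.card_coe_set_eq, Set.ncard_univ]
    have hq : p = (p - 1) + 1 := by have := hp.pos; omega
    have hB' : Nat.card (orbitRel.Quotient (Subgroup.zpowers σ) X) = Nat.card X := by
      have : Nat.card (Quotient (orbitRel (Subgroup.zpowers σ) X)) = Nat.card X := by
        simpa using hB.symm
      exact this
    rw [hB']
    conv_lhs => rw [hq]
    ring
  · rw [hpo] at hB
    rw [mul_comm]
    exact hB.symm

theorem mul_card_orbits_zpowers {G X : Type*} [Group G] [MulAction G X] [Finite X]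
    (g : G) {p : ℕ} (hp : p.Prime) (hg : ∀ x : X, g ^ p • x = x) :
    p * Nat.card (orbitRel.Quotient (Subgroup.zpowers g) X)
      = Nat.card X + (p - 1) * Nat.card (fixedBy X g) := by
  have hσ : (MulAction.toPerm g : Equiv.Perm X) ^ p = 1 := by
    ext x
    have := toPerm_zpow_apply g (p : ℤ) x
    rw [zpow_natCast, zpow_natCast] at this
    rw [this, hg]
    rfl
  have hfix : fixedBy X g = fixedBy X (MulAction.toPerm g : Equiv.Perm X) := by
    ext x
    simp [mem_fixedBy]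
  rw [card_orbits_zpowers_toPerm, hfix]
  exact mul_card_orbits_perm _ hp hσ

end Orbits

end Fermat.Agent.Lib.helper1356
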