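import Mathlib.AlgebraicGeometry.EllipticCurve.Affine.Point
import Mathlib.Algebra.Module.Torsion.Basic
import Mathlib.Tactic

set_option autoImplicit false

namespace Fermat.Agent.Lib.helper822

open WeierstrassCurve WeierstrassCurve.Affine Polynomial

section Formulas

variable {F : Type*} [Field F] (W : WeierstrassCurve.Affine F)

/-- sum formula for the x-coordinates of `P + Q` and `P - Q` -/
theorem addX_add_addX {x₁ x₂ y₁ y₂ : F} (h₁ : W.Equation x₁ y₁) (h₂ : W.Equation x₂ y₂)
    (hx : x₁ ≠ x₂) :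
    (x₁ - x₂) ^ 2 * (W.addX x₁ x₂ ((y₁ - y₂) / (x₁ - x₂)) +
        W.addX x₁ x₂ ((y₁ - W.negY x₂ y₂) / (x₁ - x₂))) =
      2 * (x₁ * x₂) * (x₁ + x₂) + W.b₂ * (x₁ * x₂) + W.b₄ * (x₁ + x₂) + W.b₆ := by
  have hx' : x₁ - x₂ ≠ 0 := sub_ne_zero.mpr hx
  rw [Affine.equation_iff] at h₁ h₂
  simp only [Affine.addX, Affine.negY, WeierstrassCurve.b₂, WeierstrassCurve.b₄,
    WeierstrassCurve.b₆]
  field_simp
  linear_combination 2 * h₁ + 2 * h₂

theorem psiTwoSq_eq {x y : F} (h : W.Equation x y) :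
    4 * x ^ 3 + W.b₂ * x ^ 2 + 2 * W.b₄ * x + W.b₆ = (y - W.negY x y) ^ 2 := by
  rw [Affine.equation_iff] at h
  simp only [Affine.negY, WeierstrassCurve.b₂, WeierstrassCurve.b₄, WeierstrassCurve.b₆]
  linear_combination (-4) * h

/-- duplication formula for the x-coordinate -/
theorem addX_dup {x y : F} (h : W.Equation x y) (hy : y ≠ W.negY x y) :
    W.addX x x ((3 * x ^ 2 + 2 * W.a₂ * x + W.a₄ - W.a₁ * y) / (y - W.negY x y)) *
        (4 * x ^ 3 + W.b₂ * x ^ 2 + 2 * W.b₄ * x + W.b₆) =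
      x ^ 4 - W.b₄ * x ^ 2 - 2 * W.b₆ * x - W.b₈ := by
  have hy' : y - W.negY x y ≠ 0 := sub_ne_zero.mpr hy
  rw [psiTwoSq_eq W h]
  rw [Affine.equation_iff] at h
  simp only [Affine.addX]
  field_simp
  simp only [Affine.negY, WeierstrassCurve.b₄, WeierstrassCurve.b₆, WeierstrassCurve.b₈]
  linear_combination (-(8 * x + W.a₁ ^ 2 + 4 * W.a₂)) * h

end Formulas

section Step

variable {F : Type*} [Field F] [DecidableEq F] (W : WeierstrassCurve.Affine F)

/-- One step of the x-only ladder: from projective x-coordinates `(a : b)` of `Q` and `(a' : b')`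
of `Q - P` (with `P = (x, y)`), get projective x-coordinates of `Q + P`. -/
theorem xRep_add_step {x y : F} (h : W.Nonsingular x y) (Q : W.Point) (a b a' b' : F)
    (hQ : Q.xRep 0 * b = Q.xRep 1 * a)
    (hQ' : (Q - Point.some x y h).xRep 0 * b' = (Q - Point.some x y h).xRep 1 * a') :
    (Q + Point.some x y h).xRep 0 * ((a - x * b) ^ 2 * b') =
      (Q + Point.some x y h).xRep 1 *
        ((2 * a ^ 2 * x + 2 * a * b * x ^ 2 + W.b₂ * a * b * x + W.b₄ * a * b + W.b₄ * x * b ^ 2
          + W.b₆ * b ^ 2) * b' - a' * (a - x * b) ^ 2) := by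
  rcases Q with _ | ⟨x₁, y₁, h₁⟩
  · -- Q = 0
    change (0 : W.Point).xRep 0 * b = (0 : W.Point).xRep 1 * a at hQ
    change ((0 : W.Point) - Point.some x y h).xRep 0 * b' =
      ((0 : W.Point) - Point.some x y h).xRep 1 * a' at hQ'
    change ((0 : W.Point) + Point.some x y h).xRep 0 * ((a - x * b) ^ 2 * b') =
      ((0 : W.Point) + Point.some x y h).xRep 1 * _
    rw [zero_sub, Point.xRep_neg] at hQ'
    rw [zero_add]
    simp only [Point.xRep_zero, Point.xRep_some, Matrix.cons_val_zero, Matrix.cons_val_one,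
      one_mul, zero_mul] at hQ hQ' ⊢
    subst hQ
    rw [← hQ']
    ring
  · simp only [Point.xRep_some, Matrix.cons_val_zero, Matrix.cons_val_one, one_mul] at hQ
    subst hQ
    by_cases hx : x₁ = x
    · subst hx
      have h0 : x₁ * b - x₁ * b = 0 := sub_self _
      rw [h0]
      by_cases hy : y₁ = W.negY x₁ y
      · rw [Point.add_of_Y_eq rfl hy]
        simp
      · have hy' : y₁ = y := Affine.Y_eq_of_Y_ne h₁.1 h.1 rfl hy
        subst hy'
        rw [sub_self] at hQ'
        simp only [Point.xRep_zero, Matrix.cons_val_zero, Matrix.cons_val_one,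
          one_mul, zero_mul] at hQ'
        subst hQ'
        ring
    · have e1 : Point.some x₁ y₁ h₁ + Point.some x y h = _ := Point.add_of_X_ne hx
      have e2 : (Point.some x₁ y₁ h₁ - Point.some x y h).xRep =
          ![W.addX x₁ x (W.slope x₁ x y₁ (W.negY x y)), 1] := by
        rw [sub_eq_add_neg, Point.neg_some, Point.add_of_X_ne hx]
        rfl
      rw [e2] at hQ'
      rw [e1]
      simp only [Point.xRep_some, Matrix.cons_val_zero, Matrix.cons_val_one, one_mul] at hQ' ⊢
      rw [← hQ']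
      have key := addX_add_addX W h₁.1 h.1 hx
      rw [Affine.slope_of_X_ne hx]
      rw [Affine.slope_of_X_ne hx]
      linear_combination (b ^ 2 * b') * key

end Step

section Ladder

variable {F : Type*} [Field F] (W : WeierstrassCurve.Affine F)

/-- Numerator/denominator polynomials `(N_n, D_n)` with `x(nP) = N_n(x(P)) / D_n(x(P))`
(not reduced to lowest terms). -/
noncomputable def mulND : ℕ → F[X] × F[X]
  | 0 => (1, 0)
  | 1 => (X, 1)
  | 2 => (X ^ 4 - C W.b₄ * X ^ 2 - C (2 * W.b₆) * X - C W.b₈,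
          C 4 * X ^ 3 + C W.b₂ * X ^ 2 + C (2 * W.b₄) * X + C W.b₆)
  | (n + 3) =>
    ((C 2 * (mulND (n + 2)).1 ^ 2 * X + C 2 * (mulND (n + 2)).1 * (mulND (n + 2)).2 * X ^ 2
        + C W.b₂ * (mulND (n + 2)).1 * (mulND (n + 2)).2 * X
        + C W.b₄ * (mulND (n + 2)).1 * (mulND (n + 2)).2
        + C W.b₄ * X * (mulND (n + 2)).2 ^ 2 + C W.b₆ * (mulND (n + 2)).2 ^ 2) * (mulND (n + 1)).2
        - (mulND (n + 1)).1 * ((mulND (n + 2)).1 - X * (mulND (n + 2)).2) ^ 2,
      ((mulND (n + 2)).1 - X * (mulND (n + 2)).2) ^ 2 * (mulND (n + 1)).2)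

variable [DecidableEq F]

/-- `x(nP) * D_n(x) = N_n(x)` in projective form (valid also when `nP = 0`). -/
theorem xRep_nsmul {x y : F} (h : W.Nonsingular x y) : ∀ n : ℕ,
    (n • Point.some x y h : W.Point).xRep 0 * ((mulND W n).2).eval x =
      (n • Point.some x y h : W.Point).xRep 1 * ((mulND W n).1).eval x
  | 0 => by simp [mulND]
  | 1 => by simp [mulND]
  | 2 => by
    rw [two_nsmul]
    by_cases hy : y = W.negY x y
    · rw [Point.add_self_of_Y_eq hy]
      have := psiTwoSq_eq W h.1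
      rw [← hy, sub_self] at this
      simp [mulND]
      linear_combination this
    · rw [Point.add_self_of_Y_ne hy]
      have := addX_dup W h.1 hy
      simp only [Point.xRep_some, Matrix.cons_val_zero, Matrix.cons_val_one]
      rw [Affine.slope_of_Y_ne rfl hy]
      simp only [mulND, eval_add, eval_sub, eval_mul, eval_pow, eval_C, eval_X]
      linear_combination this
  | (n + 3) => by
    have h1 := xRep_nsmul h (n + 2)
    have h2 := xRep_nsmul h (n + 1)
    have e1 : (n + 3) • Point.some x y h = (n + 2) • Point.some x y h + Point.some x y h :=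
      succ_nsmul _ _
    have e2 : (n + 1) • Point.some x y h = (n + 2) • Point.some x y h - Point.some x y h := by
      rw [succ_nsmul _ (n + 1)]
      abel
    rw [e2] at h2
    rw [e1]
    have := xRep_add_step W h _ _ _ _ _ h1 h2
    simp only [mulND, eval_add, eval_sub, eval_mul, eval_pow, eval_C, eval_X]
    linear_combination this

end Ladder

section Degree

variable {F : Type*} [Field F]

/-- `p` has degree at most `d` and its `d`-th coefficient is `a`. -/
def IsLC (p : F[X]) (d : ℕ) (a : F) : Prop := p.natDegree ≤ d ∧ p.coeff d = a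

theorem IsLC.mul {p q : F[X]} {d e : ℕ} {a b : F} (hp : IsLC p d a) (hq : IsLC q e b) :
    IsLC (p * q) (d + e) (a * b) :=
  ⟨natDegree_mul_le_of_le hp.1 hq.1, by rw [coeff_mul_add_eq_of_natDegree_le hp.1 hq.1, hp.2, hq.2]⟩

theorem IsLC.pow {p : F[X]} {d : ℕ} {a : F} (hp : IsLC p d a) (k : ℕ) :
    IsLC (p ^ k) (k * d) (a ^ k) :=
  ⟨natDegree_pow_le_of_le k hp.1, by rw [coeff_pow_of_natDegree_le hp.1, hp.2]⟩

theorem IsLC.add {p q : F[X]} {d : ℕ} {a b : F} (hp : IsLC p d a) (hq : IsLC q d b) :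
    IsLC (p + q) d (a + b) :=
  ⟨natDegree_add_le_of_degree_le hp.1 hq.1, by rw [coeff_add, hp.2, hq.2]⟩

theorem IsLC.sub {p q : F[X]} {d : ℕ} {a b : F} (hp : IsLC p d a) (hq : IsLC q d b) :
    IsLC (p - q) d (a - b) :=
  ⟨(natDegree_sub_le_of_le hp.1 hq.1).trans (max_self d).le, by rw [coeff_sub, hp.2, hq.2]⟩

theorem IsLC.lift {p : F[X]} {d e : ℕ} {a : F} (hp : IsLC p d a) (hde : d < e) : IsLC p e 0 :=
  ⟨hp.1.trans hde.le, coeff_eq_zero_of_natDegree_lt (lt_of_le_of_lt hp.1 hde)⟩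

theorem IsLC.congr {p : F[X]} {d e : ℕ} {a b : F} (hp : IsLC p d a) (hde : d = e)
    (hab : a = b) : IsLC p e b := by
  subst hde hab; exact hp

theorem isLC_C (a : F) : IsLC (C a) 0 a := ⟨(natDegree_C a).le, coeff_C_zero⟩

theorem isLC_X : IsLC (X : F[X]) 1 1 := ⟨natDegree_X_le, coeff_X_one⟩

theorem IsLC.ne_zero {p : F[X]} {d : ℕ} {a : F} (hp : IsLC p d a) (ha : a ≠ 0) : p ≠ 0 := by
  rintro rfl
  exact ha (by rw [← hp.2, coeff_zero])

theorem mulND_isLC [CharZero F] (W : WeierstrassCurve.Affine F) : ∀ n : ℕ, ∃ (e : ℕ) (c : F),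
    c ≠ 0 ∧ IsLC (mulND W (n + 1)).2 e (((n : F) + 1) ^ 2 * c) ∧ IsLC (mulND W (n + 1)).1 (e + 1) c
  | 0 => ⟨0, 1, one_ne_zero, (isLC_C (1 : F)).congr rfl (by simp), isLC_X⟩
  | 1 => by
    refine ⟨3, 1, one_ne_zero, ?_, ?_⟩
    · have h1 : IsLC (C (4 : F) * X ^ 3) 3 4 :=
        ((isLC_C (4 : F)).mul (isLC_X.pow 3)).congr rfl (by simp)
      have h2 : IsLC (C W.b₂ * X ^ 2) 3 0 := ((isLC_C W.b₂).mul (isLC_X.pow 2)).lift (by norm_num)
      have h3 : IsLC (C (2 * W.b₄) * X) 3 0 := ((isLC_C (2 * W.b₄)).mul isLC_X).lift (by norm_num)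
      have h4 : IsLC (C W.b₆) 3 0 := (isLC_C W.b₆).lift (by norm_num)
      exact (((h1.add h2).add h3).add h4).congr rfl (by norm_num)
    · have h1 : IsLC ((X : F[X]) ^ 4) 4 1 := (isLC_X.pow 4).congr rfl (by simp)
      have h2 : IsLC (C W.b₄ * X ^ 2) 4 0 := ((isLC_C W.b₄).mul (isLC_X.pow 2)).lift (by norm_num)
      have h3 : IsLC (C (2 * W.b₆) * X) 4 0 := ((isLC_C (2 * W.b₆)).mul isLC_X).lift (by norm_num)
      have h4 : IsLC (C W.b₈) 4 0 := (isLC_C W.b₈).lift (by norm_num)
      exact (((h1.sub h2).sub h3).sub h4).congr rfl (by norm_num)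
  | (n + 2) => by
    obtain ⟨e, c, hc, hD, hN⟩ := mulND_isLC W (n + 1)
    obtain ⟨e', c', hc', hD', hN'⟩ := mulND_isLC W n
    have hn1 : ((n : F) + 1) ≠ 0 := by exact_mod_cast Nat.succ_ne_zero n
    refine ⟨2 * (e + 1) + e', c ^ 2 * c' * ((n : F) + 1) ^ 4, ?_, ?_, ?_⟩
    · exact mul_ne_zero (mul_ne_zero (pow_ne_zero 2 hc) hc') (pow_ne_zero 4 hn1)
    · have hXD := isLC_X.mul hD
      have hNXD := hN.sub (hXD.congr (add_comm 1 e) (one_mul _))
      have hsq := hNXD.pow 2
      have hD'' := hsq.mul hD'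
      refine hD''.congr rfl ?_
      push_cast
      ring
    · have hXD := isLC_X.mul hD
      have hNXD := hN.sub (hXD.congr (add_comm 1 e) (one_mul _))
      have hsq := hNXD.pow 2
      have t1 := ((isLC_C (2 : F)).mul (hN.pow 2)).mul isLC_X
      have t2 := (((isLC_C (2 : F)).mul hN).mul hD).mul (isLC_X.pow 2)
      have t3 := ((((isLC_C W.b₂).mul hN).mul hD).mul isLC_X).lift
        (e := 2 * e + 3) (by omega)
      have t4 := (((isLC_C W.b₄).mul hN).mul hD).lift (e := 2 * e + 3) (by omega)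
      have t5 := (((isLC_C W.b₄).mul isLC_X).mul (hD.pow 2)).lift (e := 2 * e + 3) (by omega)
      have t6 := ((isLC_C W.b₆).mul (hD.pow 2)).lift (e := 2 * e + 3) (by omega)
      have hF := (((((t1.congr (e := 2 * e + 3) (by omega) rfl).add
        (t2.congr (e := 2 * e + 3) (by omega) rfl)).add t3).add t4).add t5).add t6
      have hFD := hF.mul hD'
      have hNs := hN'.mul hsq
      have hN'' := (hFD.congr (e := 2 * (e + 1) + e' + 1) (by omega) rfl).sub
        (hNs.congr (e := 2 * (e + 1) + e' + 1) (by omega) rfl)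
      refine hN''.congr rfl ?_
      push_cast
      ring

theorem mulND_snd_ne_zero [CharZero F] (W : WeierstrassCurve.Affine F) (n : ℕ) (hn : n ≠ 0) :
    (mulND W n).2 ≠ 0 := by
  obtain ⟨m, rfl⟩ := Nat.exists_eq_succ_of_ne_zero hn
  obtain ⟨e, c, hc, hD, -⟩ := mulND_isLC W m
  have hm1 : ((m : F) + 1) ≠ 0 := by exact_mod_cast Nat.succ_ne_zero m
  exact hD.ne_zero (mul_ne_zero (pow_ne_zero 2 hm1) hc)

end Degree

section Finiteness

variable {F : Type*} [Field F] (W : WeierstrassCurve.Affine F)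

/-- the x-coordinate of a point, `none` for the point at infinity -/
def xOpt : W.Point → Option F
  | .zero => none
  | .some x _ _ => Option.some x

/-- the y-coordinate of a point, `0` for the point at infinity -/
def yCoord : W.Point → F
  | .zero => 0
  | .some _ y _ => y

theorem finite_equation_fiber (x : F) : {y : F | W.Equation x y}.Finite := by
  have hlc : IsLC (X ^ 2 + C (W.a₁ * x + W.a₃) * X -
      C (x ^ 3 + W.a₂ * x ^ 2 + W.a₄ * x + W.a₆) : F[X]) 2 1 := by
    have h1 : IsLC ((X : F[X]) ^ 2) 2 1 := (isLC_X.pow 2).congr rfl (by simp)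
    have h2 : IsLC (C (W.a₁ * x + W.a₃) * X : F[X]) 2 0 :=
      ((isLC_C _).mul isLC_X).lift (by norm_num)
    have h3 : IsLC (C (x ^ 3 + W.a₂ * x ^ 2 + W.a₄ * x + W.a₆) : F[X]) 2 0 :=
      (isLC_C _).lift (by norm_num)
    exact ((h1.add h2).sub h3).congr rfl (by norm_num)
  refine (finite_setOfPred_isRoot (hlc.ne_zero one_ne_zero)).subset ?_
  intro y hy
  rw [Set.mem_ofPred_eq, Affine.equation_iff] at hy
  simp only [Set.mem_ofPred_eq, IsRoot, eval_add, eval_sub, eval_mul, eval_pow, eval_C, eval_X]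
  linear_combination hy

theorem finite_xOpt_fiber (b : Option F) : (xOpt W ⁻¹' {b}).Finite := by
  cases b with
  | none =>
    refine (Set.finite_singleton (0 : W.Point)).subset ?_
    rintro (_ | ⟨x, y, h⟩) hP
    · rfl
    · simp [xOpt] at hP
  | some x =>
    refine Set.Finite.of_finite_image (f := yCoord W) ((finite_equation_fiber W x).subset ?_) ?_
    · rintro _ ⟨(_ | ⟨x', y, h⟩), hP, rfl⟩
      · simp [xOpt] at hP
      · simp only [xOpt, Set.mem_preimage, Set.mem_singleton_iff, Option.some.injEq] at hP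
        subst hP
        exact h.1
    · rintro (_ | ⟨x₁, y₁, h₁⟩) hP (_ | ⟨x₂, y₂, h₂⟩) hQ hPQ
      · rfl
      · simp [xOpt] at hP
      · simp [xOpt] at hQ
      · simp only [xOpt, Set.mem_preimage, Set.mem_singleton_iff, Option.some.injEq] at hP hQ
        simp only [yCoord] at hPQ
        subst hP hQ hPQ
        rfl

variable [DecidableEq F] [CharZero F]

/-- In characteristic zero, the `n`-torsion points of a Weierstrass curve form a finite set
(for `n ≠ 0`). -/
theorem finite_nsmul_eq_zero (n : ℕ) (hn : n ≠ 0) : {P : W.Point | n • P = 0}.Finite := by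
  have hD := mulND_snd_ne_zero W n hn
  have hroots : {x | IsRoot (mulND W n).2 x}.Finite := finite_setOfPred_isRoot hD
  have hT : (insert none (Option.some '' {x | IsRoot (mulND W n).2 x})).Finite :=
    (hroots.image _).insert _
  refine (Set.Finite.preimage' hT (fun b _ => finite_xOpt_fiber W b)).subset ?_
  rintro (_ | ⟨x, y, h⟩) hP
  · exact Or.inl rfl
  · refine Or.inr ⟨x, ?_, rfl⟩
    have := xRep_nsmul W h n
    rw [Set.mem_ofPred_eq] at hP
    rw [hP] at this
    simpa using this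

/-- In characteristic zero, the `n`-torsion subgroup of a Weierstrass curve is finite
(for `n ≠ 0`). -/
theorem finite_torsionBy (n : ℕ) (hn : n ≠ 0) :
    Finite (Submodule.torsionBy ℤ W.Point (n : ℤ)) := by
  refine ((finite_nsmul_eq_zero W n hn).subset ?_).to_subtype
  intro P hP
  have : (n : ℤ) • P = 0 := (Submodule.mem_torsionBy_iff _ _).mp hP
  simpa using this

end Finiteness

end Fermat.Agent.Lib.helper822
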