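import Mathlib.AlgebraicGeometry.EllipticCurve.Affine.Point
import Mathlib.Algebra.Module.Torsion.Basic
import Mathlib.Tactic
import Fermat.Agent.Lib.helper822_TorsionFinite

/-!
# The x-only projective ladder for multiplication by `n` on a Weierstrass curve

For a commutative ring `R` and parameters `b₂ b₄ b₆ b₈ : R` we define polynomials
`ladX n, ladZ n : R[X]` by the binary ladder (doubling + differential addition with difference
`x`).  They are compatible with ring homomorphisms, `ladX n` is monic of degree `n ^ 2`,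
`ladZ n` has degree `≤ n ^ 2 - 1` with coefficient `n ^ 2` in that degree, and for a point
`P = (x, y)` of a Weierstrass curve over a field the pair `(ladX n (x), ladZ n (x))` is a
NONZERO multiple of the projective x-coordinate vector `(n • P).xRep`.
-/

set_option autoImplicit false

namespace Fermat.Agent.Lib.helper1397

open Polynomial

section Generic

variable {R : Type*} [CommRing R]

/-- doubling step on projective x-coordinates (polynomial level) -/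
noncomputable def dblP (b₂ b₄ b₆ b₈ : R) (U : R[X] × R[X]) : R[X] × R[X] :=
  (U.1 ^ 4 - C b₄ * U.1 ^ 2 * U.2 ^ 2 - C (2 * b₆) * U.1 * U.2 ^ 3 - C b₈ * U.2 ^ 4,
   C 4 * U.1 ^ 3 * U.2 + C b₂ * U.1 ^ 2 * U.2 ^ 2 + C (2 * b₄) * U.1 * U.2 ^ 3 + C b₆ * U.2 ^ 4)

/-- differential addition step: from `U ~ Q`, `V ~ Q'` with `Q - Q' = (X : 1)`, get `Q + Q'`. -/
noncomputable def daddP (b₂ b₄ b₆ : R) (U V : R[X] × R[X]) : R[X] × R[X] :=
  ((U.1 * V.2 + V.1 * U.2) * (C 2 * U.1 * V.1 + C b₄ * U.2 * V.2) + C b₂ * U.1 * V.1 * U.2 * V.2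
      + C b₆ * U.2 ^ 2 * V.2 ^ 2 - X * (U.1 * V.2 - V.1 * U.2) ^ 2,
   (U.1 * V.2 - V.1 * U.2) ^ 2)

/-- The ladder: `lad n = (ladX n, ladZ n)`. -/
noncomputable def lad (b₂ b₄ b₆ b₈ : R) : ℕ → R[X] × R[X]
  | 0 => (1, 0)
  | 1 => (X, 1)
  | (n + 2) =>
    if h : n % 2 = 0 then dblP b₂ b₄ b₆ b₈ (lad b₂ b₄ b₆ b₈ (n / 2 + 1))
    else daddP b₂ b₄ b₆ (lad b₂ b₄ b₆ b₈ (n / 2 + 2)) (lad b₂ b₄ b₆ b₈ (n / 2 + 1))
  termination_by n => n
  decreasing_by all_goals omega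

theorem lad_zero (b₂ b₄ b₆ b₈ : R) : lad b₂ b₄ b₆ b₈ 0 = (1, 0) := by
  rw [lad]

theorem lad_one (b₂ b₄ b₆ b₈ : R) : lad b₂ b₄ b₆ b₈ 1 = (X, 1) := by
  rw [lad]

theorem lad_two_mul (b₂ b₄ b₆ b₈ : R) (n : ℕ) (hn : 1 ≤ n) :
    lad b₂ b₄ b₆ b₈ (2 * n) = dblP b₂ b₄ b₆ b₈ (lad b₂ b₄ b₆ b₈ n) := by
  obtain ⟨m, rfl⟩ : ∃ m, n = m + 1 := ⟨n - 1, by omega⟩
  have e : 2 * (m + 1) = 2 * m + 2 := by ring
  rw [e, lad]
  have h1 : (2 * m) % 2 = 0 := by omega
  have h2 : (2 * m) / 2 + 1 = m + 1 := by omega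
  rw [dif_pos h1, h2]

theorem lad_two_mul_add_one (b₂ b₄ b₆ b₈ : R) (n : ℕ) (hn : 1 ≤ n) :
    lad b₂ b₄ b₆ b₈ (2 * n + 1) =
      daddP b₂ b₄ b₆ (lad b₂ b₄ b₆ b₈ (n + 1)) (lad b₂ b₄ b₆ b₈ n) := by
  obtain ⟨m, rfl⟩ : ∃ m, n = m + 1 := ⟨n - 1, by omega⟩
  have e : 2 * (m + 1) + 1 = (2 * m + 1) + 2 := by ring
  rw [e, lad]
  have h1 : ¬ (2 * m + 1) % 2 = 0 := by omega
  have h2 : (2 * m + 1) / 2 + 2 = m + 1 + 1 := by omega
  have h3 : (2 * m + 1) / 2 + 1 = m + 1 := by omega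
  rw [dif_neg h1, h2, h3]

/-- Induction principle along the ladder. -/
theorem ladder_induction {P : ℕ → Prop} (h0 : P 0) (h1 : P 1)
    (hd : ∀ n, 1 ≤ n → P n → P (2 * n))
    (ha : ∀ n, 1 ≤ n → P n → P (n + 1) → P (2 * n + 1)) : ∀ n, P n := by
  intro n
  induction n using Nat.strong_induction_on with
  | _ n ih =>
    rcases Nat.lt_or_ge n 2 with hn | hn
    · interval_cases n
      · exact h0
      · exact h1
    · rcases Nat.even_or_odd' n with ⟨m, rfl | rfl⟩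
      · exact hd m (by omega) (ih m (by omega))
      · exact ha m (by omega) (ih m (by omega)) (ih (m + 1) (by omega))

end Generic

/-! ### Compatibility with ring homomorphisms -/

section MapCompat

variable {R S : Type*} [CommRing R] [CommRing S] (f : R →+* S)

theorem dblP_map (b₂ b₄ b₆ b₈ : R) (U : R[X] × R[X]) :
    dblP (f b₂) (f b₄) (f b₆) (f b₈) (U.1.map f, U.2.map f) =
      ((dblP b₂ b₄ b₆ b₈ U).1.map f, (dblP b₂ b₄ b₆ b₈ U).2.map f) := by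
  simp [dblP, map_ofNat]

theorem daddP_map (b₂ b₄ b₆ : R) (U V : R[X] × R[X]) :
    daddP (f b₂) (f b₄) (f b₆) (U.1.map f, U.2.map f) (V.1.map f, V.2.map f) =
      ((daddP b₂ b₄ b₆ U V).1.map f, (daddP b₂ b₄ b₆ U V).2.map f) := by
  simp [daddP, map_ofNat]

theorem lad_map (b₂ b₄ b₆ b₈ : R) : ∀ n : ℕ,
    lad (f b₂) (f b₄) (f b₆) (f b₈) n =
      ((lad b₂ b₄ b₆ b₈ n).1.map f, (lad b₂ b₄ b₆ b₈ n).2.map f) := by
  apply ladder_induction
  · simp [lad_zero]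
  · simp [lad_one]
  · intro n hn ih
    rw [lad_two_mul _ _ _ _ n hn, lad_two_mul _ _ _ _ n hn, ih, dblP_map]
  · intro n hn ih ih'
    rw [lad_two_mul_add_one _ _ _ _ n hn, lad_two_mul_add_one _ _ _ _ n hn, ih, ih', daddP_map]

end MapCompat

/-! ### Value level -/

section Values

variable {R : Type*} [CommRing R]

/-- doubling step on values -/
def dblV (b₂ b₄ b₆ b₈ : R) (u : R × R) : R × R :=
  (u.1 ^ 4 - b₄ * u.1 ^ 2 * u.2 ^ 2 - 2 * b₆ * u.1 * u.2 ^ 3 - b₈ * u.2 ^ 4,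
   4 * u.1 ^ 3 * u.2 + b₂ * u.1 ^ 2 * u.2 ^ 2 + 2 * b₄ * u.1 * u.2 ^ 3 + b₆ * u.2 ^ 4)

/-- differential addition step on values -/
def daddV (b₂ b₄ b₆ : R) (x : R) (u v : R × R) : R × R :=
  ((u.1 * v.2 + v.1 * u.2) * (2 * u.1 * v.1 + b₄ * u.2 * v.2) + b₂ * u.1 * v.1 * u.2 * v.2
      + b₆ * u.2 ^ 2 * v.2 ^ 2 - x * (u.1 * v.2 - v.1 * u.2) ^ 2,
   (u.1 * v.2 - v.1 * u.2) ^ 2)

theorem eval_dblP (b₂ b₄ b₆ b₈ : R) (U : R[X] × R[X]) (x : R) :
    ((dblP b₂ b₄ b₆ b₈ U).1.eval x, (dblP b₂ b₄ b₆ b₈ U).2.eval x) =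
      dblV b₂ b₄ b₆ b₈ (U.1.eval x, U.2.eval x) := by
  simp [dblP, dblV]

theorem eval_daddP (b₂ b₄ b₆ : R) (U V : R[X] × R[X]) (x : R) :
    ((daddP b₂ b₄ b₆ U V).1.eval x, (daddP b₂ b₄ b₆ U V).2.eval x) =
      daddV b₂ b₄ b₆ x (U.1.eval x, U.2.eval x) (V.1.eval x, V.2.eval x) := by
  simp [daddP, daddV]

theorem dblV_smul (b₂ b₄ b₆ b₈ : R) (c : R) (u₁ u₂ : R) :
    dblV b₂ b₄ b₆ b₈ (c * u₁, c * u₂) =
      (c ^ 4 * (dblV b₂ b₄ b₆ b₈ (u₁, u₂)).1, c ^ 4 * (dblV b₂ b₄ b₆ b₈ (u₁, u₂)).2) := by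
  simp only [dblV, Prod.mk.injEq]
  constructor <;> ring

theorem daddV_smul (b₂ b₄ b₆ : R) (x : R) (c d : R) (u₁ u₂ v₁ v₂ : R) :
    daddV b₂ b₄ b₆ x (c * u₁, c * u₂) (d * v₁, d * v₂) =
      ((c * d) ^ 2 * (daddV b₂ b₄ b₆ x (u₁, u₂) (v₁, v₂)).1,
        (c * d) ^ 2 * (daddV b₂ b₄ b₆ x (u₁, u₂) (v₁, v₂)).2) := by
  simp only [daddV, Prod.mk.injEq]
  constructor <;> ring

end Values

/-! ### Degrees -/

section Degree

variable {R : Type*} [CommRing R]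

/-- `p` has degree at most `d` and its `d`-th coefficient is `a`. -/
def IsLC (p : R[X]) (d : ℕ) (a : R) : Prop := p.natDegree ≤ d ∧ p.coeff d = a

theorem IsLC.mul {p q : R[X]} {d e : ℕ} {a b : R} (hp : IsLC p d a) (hq : IsLC q e b) :
    IsLC (p * q) (d + e) (a * b) :=
  ⟨natDegree_mul_le_of_le hp.1 hq.1, by rw [coeff_mul_add_eq_of_natDegree_le hp.1 hq.1, hp.2, hq.2]⟩

theorem IsLC.pow {p : R[X]} {d : ℕ} {a : R} (hp : IsLC p d a) (k : ℕ) :
    IsLC (p ^ k) (k * d) (a ^ k) :=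
  ⟨natDegree_pow_le_of_le k hp.1, by rw [coeff_pow_of_natDegree_le hp.1, hp.2]⟩

theorem IsLC.add {p q : R[X]} {d : ℕ} {a b : R} (hp : IsLC p d a) (hq : IsLC q d b) :
    IsLC (p + q) d (a + b) :=
  ⟨natDegree_add_le_of_degree_le hp.1 hq.1, by rw [coeff_add, hp.2, hq.2]⟩

theorem IsLC.sub {p q : R[X]} {d : ℕ} {a b : R} (hp : IsLC p d a) (hq : IsLC q d b) :
    IsLC (p - q) d (a - b) :=
  ⟨(natDegree_sub_le_of_le hp.1 hq.1).trans (max_self d).le, by rw [coeff_sub, hp.2, hq.2]⟩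

theorem IsLC.lift {p : R[X]} {d e : ℕ} {a : R} (hp : IsLC p d a) (hde : d < e) : IsLC p e 0 :=
  ⟨hp.1.trans hde.le, coeff_eq_zero_of_natDegree_lt (lt_of_le_of_lt hp.1 hde)⟩

theorem IsLC.congr {p : R[X]} {d e : ℕ} {a b : R} (hp : IsLC p d a) (hde : d = e)
    (hab : a = b) : IsLC p e b := by
  subst hde hab; exact hp

theorem isLC_C (a : R) : IsLC (C a) 0 a := ⟨(natDegree_C a).le, coeff_C_zero⟩

theorem isLC_X : IsLC (X : R[X]) 1 1 := ⟨natDegree_X_le, coeff_X_one⟩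

theorem isLC_one : IsLC (1 : R[X]) 0 1 := ⟨natDegree_one.le, coeff_one_zero⟩

theorem IsLC.ne_zero {p : R[X]} {d : ℕ} {a : R} (hp : IsLC p d a) (ha : a ≠ 0) : p ≠ 0 := by
  rintro rfl
  exact ha (by rw [← hp.2, coeff_zero])

theorem IsLC.natDegree_eq {p : R[X]} {d : ℕ} {a : R} (hp : IsLC p d a) (ha : a ≠ 0) :
    p.natDegree = d :=
  le_antisymm hp.1 (le_natDegree_of_ne_zero (by rw [hp.2]; exact ha))

theorem IsLC.derivative {p : R[X]} {d : ℕ} {a : R} (hp : IsLC p (d + 1) a) :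
    IsLC (derivative p) d (a * ((d : R) + 1)) := by
  refine ⟨?_, ?_⟩
  · have h1 := natDegree_derivative_le p
    have h2 := hp.1
    omega
  · rw [coeff_derivative, hp.2]

variable (b₂ b₄ b₆ b₈ : R)

theorem dblP_isLC {U : R[X] × R[X]} {M : ℕ} {a : R} (hX : IsLC U.1 (M + 1) 1)
    (hZ : IsLC U.2 M a) :
    IsLC (dblP b₂ b₄ b₆ b₈ U).1 (4 * (M + 1)) 1 ∧
      IsLC (dblP b₂ b₄ b₆ b₈ U).2 (4 * M + 3) (4 * a) := by
  constructor
  · have t1 : IsLC (U.1 ^ 4) (4 * (M + 1)) 1 := (hX.pow 4).congr rfl (by simp)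
    have t2 : IsLC (C b₄ * U.1 ^ 2 * U.2 ^ 2) (4 * (M + 1)) 0 :=
      (((isLC_C b₄).mul (hX.pow 2)).mul (hZ.pow 2)).lift (by omega)
    have t3 : IsLC (C (2 * b₆) * U.1 * U.2 ^ 3) (4 * (M + 1)) 0 :=
      (((isLC_C (2 * b₆)).mul hX).mul (hZ.pow 3)).lift (by omega)
    have t4 : IsLC (C b₈ * U.2 ^ 4) (4 * (M + 1)) 0 :=
      ((isLC_C b₈).mul (hZ.pow 4)).lift (by omega)
    exact (((t1.sub t2).sub t3).sub t4).congr rfl (by ring)
  · have t1 : IsLC (C 4 * U.1 ^ 3 * U.2) (4 * M + 3) (4 * a) :=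
      (((isLC_C (4 : R)).mul (hX.pow 3)).mul hZ).congr (by omega) (by ring)
    have t2 : IsLC (C b₂ * U.1 ^ 2 * U.2 ^ 2) (4 * M + 3) 0 :=
      (((isLC_C b₂).mul (hX.pow 2)).mul (hZ.pow 2)).lift (by omega)
    have t3 : IsLC (C (2 * b₄) * U.1 * U.2 ^ 3) (4 * M + 3) 0 :=
      (((isLC_C (2 * b₄)).mul hX).mul (hZ.pow 3)).lift (by omega)
    have t4 : IsLC (C b₆ * U.2 ^ 4) (4 * M + 3) 0 :=
      ((isLC_C b₆).mul (hZ.pow 4)).lift (by omega)
    exact (((t1.add t2).add t3).add t4).congr rfl (by ring)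

theorem daddP_isLC {U V : R[X] × R[X]} {M₁ M₀ : ℕ} {a₁ a₀ : R} (hX₁ : IsLC U.1 (M₁ + 1) 1)
    (hZ₁ : IsLC U.2 M₁ a₁) (hX₀ : IsLC V.1 (M₀ + 1) 1) (hZ₀ : IsLC V.2 M₀ a₀) :
    IsLC (daddP b₂ b₄ b₆ U V).1 (2 * (M₁ + M₀ + 1) + 1) (2 * (a₀ + a₁) - (a₀ - a₁) ^ 2) ∧
      IsLC (daddP b₂ b₄ b₆ U V).2 (2 * (M₁ + M₀ + 1)) ((a₀ - a₁) ^ 2) := by
  have T1 : IsLC (U.1 * V.2) (M₁ + M₀ + 1) a₀ := (hX₁.mul hZ₀).congr (by omega) (by ring)
  have T2 : IsLC (V.1 * U.2) (M₁ + M₀ + 1) a₁ := (hX₀.mul hZ₁).congr (by omega) (by ring)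
  have hD : IsLC ((U.1 * V.2 - V.1 * U.2) ^ 2) (2 * (M₁ + M₀ + 1)) ((a₀ - a₁) ^ 2) :=
    (T1.sub T2).pow 2
  refine ⟨?_, hD⟩
  have hG1 : IsLC (C 2 * U.1 * V.1) (M₁ + M₀ + 2) 2 :=
    (((isLC_C (2 : R)).mul hX₁).mul hX₀).congr (by omega) (by ring)
  have hG2 : IsLC (C b₄ * U.2 * V.2) (M₁ + M₀ + 2) 0 :=
    (((isLC_C b₄).mul hZ₁).mul hZ₀).lift (by omega)
  have hSG : IsLC ((U.1 * V.2 + V.1 * U.2) * (C 2 * U.1 * V.1 + C b₄ * U.2 * V.2))
      (2 * (M₁ + M₀ + 1) + 1) (2 * (a₀ + a₁)) :=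
    ((T1.add T2).mul (hG1.add hG2)).congr (by omega) (by ring)
  have h3 : IsLC (C b₂ * U.1 * V.1 * U.2 * V.2) (2 * (M₁ + M₀ + 1) + 1) 0 :=
    (((((isLC_C b₂).mul hX₁).mul hX₀).mul hZ₁).mul hZ₀).lift (by omega)
  have h4 : IsLC (C b₆ * U.2 ^ 2 * V.2 ^ 2) (2 * (M₁ + M₀ + 1) + 1) 0 :=
    (((isLC_C b₆).mul (hZ₁.pow 2)).mul (hZ₀.pow 2)).lift (by omega)
  have h5 : IsLC (X * (U.1 * V.2 - V.1 * U.2) ^ 2) (2 * (M₁ + M₀ + 1) + 1) ((a₀ - a₁) ^ 2) :=
    (isLC_X.mul hD).congr (by omega) (by ring)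
  exact (((hSG.add h3).add h4).sub h5).congr rfl (by ring)

/-- Degrees and leading coefficients of the ladder polynomials: for `n ≥ 1`,
`ladX n` is monic of degree `n ^ 2` and `ladZ n` has degree `≤ n ^ 2 - 1` with
coefficient `n ^ 2` in degree `n ^ 2 - 1`. -/
theorem lad_isLC : ∀ n : ℕ, ∀ M : ℕ, M + 1 = n ^ 2 →
    IsLC (lad b₂ b₄ b₆ b₈ n).1 (M + 1) 1 ∧ IsLC (lad b₂ b₄ b₆ b₈ n).2 M ((n : R) ^ 2) := by
  apply ladder_induction
  · intro M hM
    simp at hM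
  · intro M hM
    have : M = 0 := by simpa using hM
    subst this
    rw [lad_one]
    exact ⟨isLC_X, isLC_one.congr rfl (by simp)⟩
  · intro n hn ih M hM
    obtain ⟨M', hM'⟩ : ∃ M', M' + 1 = n ^ 2 := ⟨n ^ 2 - 1, by
      have : 1 ≤ n ^ 2 := Nat.one_le_pow _ _ hn
      omega⟩
    obtain ⟨hX, hZ⟩ := ih M' hM'
    rw [lad_two_mul _ _ _ _ n hn]
    obtain ⟨h1, h2⟩ := dblP_isLC b₂ b₄ b₆ b₈ hX hZ
    have e : (2 * n) ^ 2 = 4 * n ^ 2 := by ring
    refine ⟨h1.congr (by omega) rfl, h2.congr (by omega) (by push_cast; ring)⟩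
  · intro n hn ih ih' M hM
    obtain ⟨M₀, hM₀⟩ : ∃ M', M' + 1 = n ^ 2 := ⟨n ^ 2 - 1, by
      have : 1 ≤ n ^ 2 := Nat.one_le_pow _ _ hn
      omega⟩
    obtain ⟨M₁, hM₁⟩ : ∃ M', M' + 1 = (n + 1) ^ 2 := ⟨(n + 1) ^ 2 - 1, by
      have : 1 ≤ (n + 1) ^ 2 := Nat.one_le_pow _ _ (by omega)
      omega⟩
    obtain ⟨hX₀, hZ₀⟩ := ih M₀ hM₀
    obtain ⟨hX₁, hZ₁⟩ := ih' M₁ hM₁
    rw [lad_two_mul_add_one _ _ _ _ n hn]
    obtain ⟨h1, h2⟩ := daddP_isLC b₂ b₄ b₆ hX₁ hZ₁ hX₀ hZ₀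
    have e : (2 * n + 1) ^ 2 + 1 = 2 * n ^ 2 + 2 * (n + 1) ^ 2 := by ring
    refine ⟨h1.congr (by omega) (by push_cast; ring), h2.congr (by omega) (by push_cast; ring)⟩

end Degree


/-! ### Correctness on points of a Weierstrass curve over a field -/

section Correct

open WeierstrassCurve WeierstrassCurve.Affine

variable {F : Type*} [Field F] (W : WeierstrassCurve.Affine F)

/-- the numerator of the duplication formula at a 2-torsion point is a nonzero square -/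
theorem dblNum_eq_of_Y_eq {x y : F} (h : W.Equation x y) (hy : y = W.negY x y) :
    x ^ 4 - W.b₄ * x ^ 2 - 2 * W.b₆ * x - W.b₈ =
      (W.a₁ * y - (3 * x ^ 2 + 2 * W.a₂ * x + W.a₄)) ^ 2 := by
  rw [Affine.equation_iff] at h
  simp only [Affine.negY] at hy
  simp only [WeierstrassCurve.b₄, WeierstrassCurve.b₆, WeierstrassCurve.b₈]
  grind

theorem dblNum_ne_zero_of_Y_eq {x y : F} (h : W.Nonsingular x y) (hy : y = W.negY x y) :
    x ^ 4 - W.b₄ * x ^ 2 - 2 * W.b₆ * x - W.b₈ ≠ 0 := by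
  rw [dblNum_eq_of_Y_eq W h.1 hy]
  have h' := (Affine.nonsingular_iff x y).mp h
  rcases h'.2 with h2 | h2
  · exact pow_ne_zero 2 (sub_ne_zero.mpr h2)
  · exact absurd hy h2

variable [DecidableEq F]

/-- Doubling on projective x-coordinates is correct up to a nonzero scalar. -/
theorem dbl_spec (Q : W.Point) : ∃ c : F, c ≠ 0 ∧
    dblV W.b₂ W.b₄ W.b₆ W.b₈ (Q.xRep 0, Q.xRep 1) =
      (c * (2 • Q).xRep 0, c * (2 • Q).xRep 1) := by
  rcases Q with _ | ⟨x, y, h⟩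
  · refine ⟨1, one_ne_zero, ?_⟩
    change dblV W.b₂ W.b₄ W.b₆ W.b₈ ((0 : W.Point).xRep 0, (0 : W.Point).xRep 1) =
      (1 * (2 • (0 : W.Point)).xRep 0, 1 * (2 • (0 : W.Point)).xRep 1)
    rw [smul_zero]
    simp [dblV, Point.xRep_zero]
  · by_cases hy : y = W.negY x y
    · refine ⟨x ^ 4 - W.b₄ * x ^ 2 - 2 * W.b₆ * x - W.b₈, dblNum_ne_zero_of_Y_eq W h hy, ?_⟩
      rw [two_nsmul, Point.add_self_of_Y_eq hy]
      have h2 := helper822.psiTwoSq_eq W h.1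
      rw [← hy, sub_self] at h2
      simp only [dblV, Point.xRep_zero, Point.xRep_some, Matrix.cons_val_zero,
        Matrix.cons_val_one, Prod.mk.injEq]
      constructor
      · ring
      · linear_combination h2
    · refine ⟨(y - W.negY x y) ^ 2, pow_ne_zero 2 (sub_ne_zero.mpr hy), ?_⟩
      rw [two_nsmul, Point.add_self_of_Y_ne hy]
      have h2 := helper822.psiTwoSq_eq W h.1
      have h3 := helper822.addX_dup W h.1 hy
      rw [h2] at h3
      simp only [dblV, Point.xRep_some, Matrix.cons_val_zero, Matrix.cons_val_one,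
        Prod.mk.injEq]
      rw [Affine.slope_of_Y_ne rfl hy]
      constructor
      · linear_combination -h3
      · linear_combination h2

/-- Differential addition on projective x-coordinates is correct up to a nonzero scalar. -/
theorem dadd_spec {x y : F} (h : W.Nonsingular x y) (A B : W.Point)
    (hAB : A - B = Point.some x y h) : ∃ c : F, c ≠ 0 ∧
    daddV W.b₂ W.b₄ W.b₆ x (A.xRep 0, A.xRep 1) (B.xRep 0, B.xRep 1) =
      (c * (A + B).xRep 0, c * (A + B).xRep 1) := by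
  rcases B with _ | ⟨x₂, y₂, h₂⟩
  · -- B = 0, A = P
    have hA : A = Point.some x y h := by
      have : A - (0 : W.Point) = Point.some x y h := hAB
      rwa [sub_zero] at this
    subst hA
    refine ⟨1, one_ne_zero, ?_⟩
    change daddV W.b₂ W.b₄ W.b₆ x ((Point.some x y h).xRep 0, (Point.some x y h).xRep 1)
      ((0 : W.Point).xRep 0, (0 : W.Point).xRep 1) =
      (1 * (Point.some x y h + (0 : W.Point)).xRep 0, 1 * (Point.some x y h + (0 : W.Point)).xRep 1)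
    rw [add_zero]
    simp only [daddV, Point.xRep_zero, Point.xRep_some, Matrix.cons_val_zero,
      Matrix.cons_val_one, Prod.mk.injEq]
    constructor <;> ring
  · rcases A with _ | ⟨x₁, y₁, h₁⟩
    · -- A = 0, B = -P
      have hB : (Point.some x₂ y₂ h₂).xRep = ![x, 1] := by
        have : (0 : W.Point) - Point.some x₂ y₂ h₂ = Point.some x y h := hAB
        rw [zero_sub] at this
        have h3 := congrArg Point.xRep this
        rwa [Point.xRep_neg, Point.xRep_some h] at h3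
      refine ⟨1, one_ne_zero, ?_⟩
      change daddV W.b₂ W.b₄ W.b₆ x ((0 : W.Point).xRep 0, (0 : W.Point).xRep 1)
        ((Point.some x₂ y₂ h₂).xRep 0, (Point.some x₂ y₂ h₂).xRep 1) =
        (1 * ((0 : W.Point) + Point.some x₂ y₂ h₂).xRep 0,
          1 * ((0 : W.Point) + Point.some x₂ y₂ h₂).xRep 1)
      rw [zero_add, hB]
      simp only [daddV, Point.xRep_zero, Matrix.cons_val_zero, Matrix.cons_val_one,
        Prod.mk.injEq]
      constructor <;> ring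
    · by_cases hx : x₁ = x₂
      · subst hx
        -- then A = -B, and A is not 2-torsion
        have hy : y₁ = W.negY x₁ y₂ := by
          by_contra hne
          have hyy : y₁ = y₂ := Affine.Y_eq_of_Y_ne h₁.1 h₂.1 rfl hne
          subst hyy
          rw [sub_self] at hAB
          exact Point.some_ne_zero h hAB.symm
        have hne : y₁ ≠ W.negY x₁ y₁ := by
          intro h0
          have hyy : y₂ = y₁ := by
            have := congrArg (W.negY x₁) (hy.symm.trans h0)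
            rwa [Affine.negY_negY, Affine.negY_negY] at this
          subst hyy
          rw [sub_self] at hAB
          exact Point.some_ne_zero h hAB.symm
        refine ⟨(y₁ - W.negY x₁ y₁) ^ 2, pow_ne_zero 2 (sub_ne_zero.mpr hne), ?_⟩
        rw [Point.add_of_Y_eq rfl hy]
        have h2 := helper822.psiTwoSq_eq W h₁.1
        simp only [daddV, Point.xRep_zero, Point.xRep_some, Matrix.cons_val_zero,
          Matrix.cons_val_one, Prod.mk.injEq]
        constructor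
        · linear_combination h2
        · ring
      · have hx' : x₁ - x₂ ≠ 0 := sub_ne_zero.mpr hx
        refine ⟨(x₁ - x₂) ^ 2, pow_ne_zero 2 hx', ?_⟩
        have e2 : (Point.some x₁ y₁ h₁ - Point.some x₂ y₂ h₂).xRep =
            ![W.addX x₁ x₂ (W.slope x₁ x₂ y₁ (W.negY x₂ y₂)), 1] := by
          rw [sub_eq_add_neg, Point.neg_some, Point.add_of_X_ne hx]
          rfl
        rw [hAB, Point.xRep_some h] at e2
        have hxe : x = W.addX x₁ x₂ (W.slope x₁ x₂ y₁ (W.negY x₂ y₂)) := by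
          have := congrFun e2 0
          simpa using this
        rw [Point.add_of_X_ne hx]
        have key := helper822.addX_add_addX W h₁.1 h₂.1 hx
        rw [Affine.slope_of_X_ne hx] at hxe
        simp only [daddV, Point.xRep_some, Matrix.cons_val_zero, Matrix.cons_val_one,
          Prod.mk.injEq]
        rw [Affine.slope_of_X_ne hx]
        constructor
        · rw [hxe]
          linear_combination -key
        · ring

/-- the ladder attached to a Weierstrass curve -/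
noncomputable def ladW (n : ℕ) : F[X] × F[X] := lad W.b₂ W.b₄ W.b₆ W.b₈ n

/-- **Correctness of the ladder**: the values of `(ladX n, ladZ n)` at `x(P)` are a NONZERO
multiple of the projective x-coordinate vector of `n • P`. -/
theorem ladW_spec {x y : F} (h : W.Nonsingular x y) : ∀ n : ℕ, ∃ c : F, c ≠ 0 ∧
    ((ladW W n).1.eval x, (ladW W n).2.eval x) =
      (c * (n • Point.some x y h).xRep 0, c * (n • Point.some x y h).xRep 1) := by
  apply ladder_induction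
  · refine ⟨1, one_ne_zero, ?_⟩
    rw [ladW, lad_zero, zero_smul]
    simp [Point.xRep_zero]
  · refine ⟨1, one_ne_zero, ?_⟩
    rw [ladW, lad_one, one_smul]
    simp [Point.xRep_some]
  · rintro n hn ⟨c, hc, ih⟩
    obtain ⟨d, hd, hdbl⟩ := dbl_spec W (n • Point.some x y h)
    refine ⟨c ^ 4 * d, mul_ne_zero (pow_ne_zero 4 hc) hd, ?_⟩
    rw [ladW, lad_two_mul _ _ _ _ n hn, eval_dblP]
    rw [ladW] at ih
    rw [ih, dblV_smul, hdbl, mul_smul]
    simp only [Prod.mk.injEq]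
    constructor <;> ring
  · rintro n hn ⟨c, hc, ih⟩ ⟨c', hc', ih'⟩
    have hAB : (n + 1) • Point.some x y h - n • Point.some x y h = Point.some x y h := by
      rw [succ_nsmul]; abel
    obtain ⟨d, hd, hadd⟩ := dadd_spec W h _ _ hAB
    refine ⟨(c' * c) ^ 2 * d, mul_ne_zero (pow_ne_zero 2 (mul_ne_zero hc' hc)) hd, ?_⟩
    rw [ladW, lad_two_mul_add_one _ _ _ _ n hn, eval_daddP]
    rw [ladW] at ih ih'
    rw [ih, ih', daddV_smul, hadd]
    have e : (n + 1) • Point.some x y h + n • Point.some x y h = (2 * n + 1) • Point.some x y h := by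
      rw [← add_smul]; congr 1; ring
    rw [e]
    simp only [Prod.mk.injEq]
    constructor <;> ring

end Correct

end Fermat.Agent.Lib.helper1397
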