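import Mathlib
import Fermat.Prelude.Def_FLTPrelim_FreyPackage
import Fermat.Agent.Lib.helper822_TorsionFinite
import Fermat.Agent.Lib.helper1397_Ladder

/-!
# Exact count of odd torsion on an elliptic curve over an algebraically closed field of char 0

* `psiP b₂ b₄ b₆ b₈ m` : the odd "division polynomial" `ladX (m+1) * ladZ m - ladX m * ladZ (m+1)`
  attached to the ladder, of degree `≤ 2 m ^ 2 + 2 m = ((2m+1)^2 - 1) / 2` with coefficient
  `-(2 m + 1)` in that degree; compatible with ring homomorphisms.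
* `psiW_eval_eq_zero_iff` : for an affine point `P = (x, y)`: `psi_m (x) = 0 ↔ (2 m + 1) • P = 0`.
* `ncard_nsmul_eq_zero` / `card_torsionBy` : for `K` algebraically closed of characteristic zero,
  `W` elliptic and `n` odd, the `n`-torsion has exactly `n ^ 2` points.
-/

set_option autoImplicit false

namespace Fermat.Agent.Lib.helper1397

open Polynomial

section Generic

variable {R : Type*} [CommRing R]

/-- the odd division polynomial attached to the ladder (for `n = 2 m + 1`) -/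
noncomputable def psiP (b₂ b₄ b₆ b₈ : R) (m : ℕ) : R[X] :=
  (lad b₂ b₄ b₆ b₈ (m + 1)).1 * (lad b₂ b₄ b₆ b₈ m).2 -
    (lad b₂ b₄ b₆ b₈ m).1 * (lad b₂ b₄ b₆ b₈ (m + 1)).2

theorem psiP_map {S : Type*} [CommRing S] (f : R →+* S) (b₂ b₄ b₆ b₈ : R) (m : ℕ) :
    psiP (f b₂) (f b₄) (f b₆) (f b₈) m = (psiP b₂ b₄ b₆ b₈ m).map f := by
  simp [psiP, lad_map f]

theorem psiP_isLC (b₂ b₄ b₆ b₈ : R) (m : ℕ) :
    IsLC (psiP b₂ b₄ b₆ b₈ m) (2 * m ^ 2 + 2 * m) (-(2 * (m : R) + 1)) := by
  rcases Nat.eq_zero_or_pos m with rfl | hm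
  · have h : psiP b₂ b₄ b₆ b₈ 0 = -1 := by
      simp [psiP, lad_zero, lad_one]
    rw [h]
    refine ⟨by simp, by simp⟩
  · obtain ⟨M₀, hM₀⟩ : ∃ M', M' + 1 = m ^ 2 := ⟨m ^ 2 - 1, by
      have : 1 ≤ m ^ 2 := Nat.one_le_pow _ _ hm
      omega⟩
    obtain ⟨M₁, hM₁⟩ : ∃ M', M' + 1 = (m + 1) ^ 2 := ⟨(m + 1) ^ 2 - 1, by
      have : 1 ≤ (m + 1) ^ 2 := Nat.one_le_pow _ _ (by omega)
      omega⟩
    obtain ⟨hX₀, hZ₀⟩ := lad_isLC b₂ b₄ b₆ b₈ m M₀ hM₀
    obtain ⟨hX₁, hZ₁⟩ := lad_isLC b₂ b₄ b₆ b₈ (m + 1) M₁ hM₁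
    have e : (m + 1) ^ 2 = m ^ 2 + 2 * m + 1 := by ring
    have T1 := (hX₁.mul hZ₀).congr (e := 2 * m ^ 2 + 2 * m) (by omega) rfl
    have T2 := (hX₀.mul hZ₁).congr (e := 2 * m ^ 2 + 2 * m) (by omega) rfl
    exact (T1.sub T2).congr rfl (by push_cast; ring)

end Generic

section Field

open WeierstrassCurve WeierstrassCurve.Affine

variable {F : Type*} [Field F] (W : WeierstrassCurve.Affine F)

/-- the odd division polynomial of a Weierstrass curve (for `n = 2 m + 1`) -/
noncomputable def psiW (m : ℕ) : F[X] := psiP W.b₂ W.b₄ W.b₆ W.b₈ m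

theorem psiW_eq (m : ℕ) :
    psiW W m = (ladW W (m + 1)).1 * (ladW W m).2 - (ladW W m).1 * (ladW W (m + 1)).2 := rfl

theorem psiW_isLC (m : ℕ) : IsLC (psiW W m) (2 * m ^ 2 + 2 * m) (-(2 * (m : F) + 1)) :=
  psiP_isLC _ _ _ _ m

theorem psiW_ne_zero [CharZero F] (m : ℕ) : psiW W m ≠ 0 := by
  refine (psiW_isLC W m).ne_zero ?_
  have : (2 * (m : F) + 1) ≠ 0 := by exact_mod_cast Nat.succ_ne_zero (2 * m)
  exact neg_ne_zero.mpr this

theorem xRep_cross_eq_zero_iff (A B : W.Point) :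
    A.xRep 0 * B.xRep 1 - B.xRep 0 * A.xRep 1 = 0 ↔ A.xRep = B.xRep := by
  rcases A with _ | ⟨x₁, y₁, h₁⟩ <;> rcases B with _ | ⟨x₂, y₂, h₂⟩
  · simp
  · change (0 : W.Point).xRep 0 * (Point.some x₂ y₂ h₂).xRep 1 -
      (Point.some x₂ y₂ h₂).xRep 0 * (0 : W.Point).xRep 1 = 0 ↔
      (0 : W.Point).xRep = (Point.some x₂ y₂ h₂).xRep
    simp [Point.xRep_zero, Point.xRep_some]
  · change (Point.some x₁ y₁ h₁).xRep 0 * (0 : W.Point).xRep 1 -
      (0 : W.Point).xRep 0 * (Point.some x₁ y₁ h₁).xRep 1 = 0 ↔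
      (Point.some x₁ y₁ h₁).xRep = (0 : W.Point).xRep
    simp [Point.xRep_zero, Point.xRep_some]
  · simp [Point.xRep_some, sub_eq_zero]

variable [DecidableEq F]

/-- **Root characterisation**: `psi_m (x(P)) = 0` iff `(2 m + 1) • P = 0`. -/
theorem psiW_eval_eq_zero_iff {x y : F} (h : W.Nonsingular x y) (m : ℕ) :
    (psiW W m).eval x = 0 ↔ (2 * m + 1) • Point.some x y h = 0 := by
  obtain ⟨c₀, hc₀, h₀⟩ := ladW_spec W h m
  obtain ⟨c₁, hc₁, h₁⟩ := ladW_spec W h (m + 1)
  rw [Prod.mk.injEq] at h₀ h₁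
  rw [psiW_eq, eval_sub, eval_mul, eval_mul, h₀.1, h₀.2, h₁.1, h₁.2]
  have e : c₁ * ((m + 1) • Point.some x y h).xRep 0 * (c₀ * (m • Point.some x y h).xRep 1) -
      c₀ * (m • Point.some x y h).xRep 0 * (c₁ * ((m + 1) • Point.some x y h).xRep 1) =
      c₁ * c₀ * (((m + 1) • Point.some x y h).xRep 0 * (m • Point.some x y h).xRep 1 -
        (m • Point.some x y h).xRep 0 * ((m + 1) • Point.some x y h).xRep 1) := by ring
  rw [e, mul_eq_zero, or_iff_right (mul_ne_zero hc₁ hc₀), xRep_cross_eq_zero_iff,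
    Point.xRep_eq_xRep_iff]
  constructor
  · rintro (h1 | h1)
    · exfalso
      rw [succ_nsmul] at h1
      exact Point.some_ne_zero h (add_eq_left.mp h1)
    · have : (2 * m + 1) • Point.some x y h =
          (m + 1) • Point.some x y h + m • Point.some x y h := by
        rw [← add_smul]; congr 1; ring
      rw [this, h1, neg_add_cancel]
  · intro h1
    right
    have : (2 * m + 1) • Point.some x y h =
        (m + 1) • Point.some x y h + m • Point.some x y h := by
      rw [← add_smul]; congr 1; ring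
    rw [this] at h1
    exact eq_neg_of_add_eq_zero_left h1

/-! ### Upper bound -/

section Upper

variable [CharZero F]

omit [DecidableEq F] [CharZero F] in
theorem eq_or_eq_neg_of_xRep_zero_eq {P Q : W.Point} (hP : P ≠ 0) (hQ : Q ≠ 0)
    (h : P.xRep 0 = Q.xRep 0) : Q = P ∨ Q = -P := by
  rcases P with _ | ⟨x₁, y₁, h₁⟩
  · exact absurd rfl hP
  rcases Q with _ | ⟨x₂, y₂, h₂⟩
  · exact absurd rfl hQ
  simp only [Point.xRep_some, Matrix.cons_val_zero] at h
  subst h
  exact Point.xRep_eq_xRep_iff.mp (by simp [Point.xRep_some])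

/-- Upper bound: at most `(2 m + 1) ^ 2` points are killed by `2 m + 1`. -/
theorem ncard_nsmul_eq_zero_le (m : ℕ) :
    {P : W.Point | (2 * m + 1) • P = 0}.ncard ≤ (2 * m + 1) ^ 2 := by
  classical
  have hfin : {P : W.Point | (2 * m + 1) • P = 0}.Finite :=
    helper822.finite_nsmul_eq_zero W (2 * m + 1) (by omega)
  rw [Set.ncard_eq_toFinset_card _ hfin]
  set T := hfin.toFinset with hT
  have hmem : ∀ P, P ∈ T ↔ (2 * m + 1) • P = 0 := fun P => by simp [hT]
  have h0 : (0 : W.Point) ∈ T := (hmem 0).mpr (smul_zero _)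
  have hcard : T.card = (T.erase 0).card + 1 := (Finset.card_erase_add_one h0).symm
  have hψ := psiW_ne_zero W m
  -- the x-coordinate map on nonzero torsion points lands in the roots of `psi`
  have himg : (T.erase 0).image (fun P : W.Point => P.xRep 0) ⊆ (psiW W m).roots.toFinset := by
    intro a ha
    obtain ⟨P, hP, rfl⟩ := Finset.mem_image.mp ha
    obtain ⟨hP0, hPT⟩ := Finset.mem_erase.mp hP
    rw [hmem] at hPT
    rcases P with _ | ⟨x, y, h⟩
    · exact absurd rfl hP0
    · rw [Multiset.mem_toFinset, mem_roots hψ, IsRoot.def]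
      simpa [Point.xRep_some] using (psiW_eval_eq_zero_iff W h m).mpr hPT
  have hfib : ∀ b ∈ (T.erase 0).image (fun P : W.Point => P.xRep 0),
      ((T.erase 0).filter (fun P : W.Point => P.xRep 0 = b)).card ≤ 2 := by
    intro b hb
    obtain ⟨P, hP, rfl⟩ := Finset.mem_image.mp hb
    have hP0 := (Finset.mem_erase.mp hP).1
    refine le_trans (Finset.card_le_card (t := {P, -P}) ?_) Finset.card_le_two
    intro Q hQ
    obtain ⟨hQ1, hQ2⟩ := Finset.mem_filter.mp hQ
    have hQ0 := (Finset.mem_erase.mp hQ1).1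
    rcases eq_or_eq_neg_of_xRep_zero_eq W hP0 hQ0 hQ2.symm with h1 | h1 <;> simp [h1]
  have h1 := Finset.card_le_mul_card_image (T.erase 0) 2 hfib
  have h2 : ((T.erase 0).image (fun P : W.Point => P.xRep 0)).card ≤ 2 * m ^ 2 + 2 * m :=
    calc _ ≤ (psiW W m).roots.toFinset.card := Finset.card_le_card himg
      _ ≤ Multiset.card (psiW W m).roots := Multiset.toFinset_card_le _
      _ ≤ (psiW W m).natDegree := card_roots' _
      _ ≤ 2 * m ^ 2 + 2 * m := (psiW_isLC W m).1
  have e : (2 * m + 1) ^ 2 = 2 * (2 * m ^ 2 + 2 * m) + 1 := by ring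
  rw [hcard, e]
  have := Nat.mul_le_mul_left 2 h2
  omega

end Upper

/-! ### Lower bound -/

section Lower

variable [IsAlgClosed F] [W.IsElliptic]

omit [DecidableEq F] in
/-- over an algebraically closed field every `a` is the x-coordinate of a point -/
theorem exists_point_xRep (a : F) : ∃ P : W.Point, P.xRep = ![a, 1] := by
  have hlc : IsLC (X ^ 2 + C (W.a₁ * a + W.a₃) * X -
      C (a ^ 3 + W.a₂ * a ^ 2 + W.a₄ * a + W.a₆) : F[X]) 2 1 := by
    have h1 : IsLC ((X : F[X]) ^ 2) 2 1 := (isLC_X.pow 2).congr rfl (by simp)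
    have h2 : IsLC (C (W.a₁ * a + W.a₃) * X : F[X]) 2 0 :=
      ((isLC_C _).mul isLC_X).lift (by norm_num)
    have h3 : IsLC (C (a ^ 3 + W.a₂ * a ^ 2 + W.a₄ * a + W.a₆) : F[X]) 2 0 :=
      (isLC_C _).lift (by norm_num)
    exact ((h1.add h2).sub h3).congr rfl (by norm_num)
  have hdeg : (X ^ 2 + C (W.a₁ * a + W.a₃) * X -
      C (a ^ 3 + W.a₂ * a ^ 2 + W.a₄ * a + W.a₆) : F[X]).degree ≠ 0 := by
    rw [degree_eq_natDegree (hlc.ne_zero one_ne_zero), hlc.natDegree_eq one_ne_zero]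
    norm_num
  obtain ⟨y, hy⟩ := IsAlgClosed.exists_root _ hdeg
  have heq : W.Equation a y := by
    rw [Affine.equation_iff]
    simp only [IsRoot.def, eval_add, eval_sub, eval_mul, eval_pow, eval_C, eval_X] at hy
    linear_combination hy
  exact ⟨Point.some a y (Affine.equation_iff_nonsingular.mp heq), Point.xRep_some _⟩

omit [IsAlgClosed F] [W.IsElliptic] in
/-- The values of the ladder at `a` determine `n • P` for a point `P` above `a`. -/
theorem ladW_eval_of_xRep {P : W.Point} {a : F} (hP : P.xRep = ![a, 1]) (n : ℕ) :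
    ∃ c : F, c ≠ 0 ∧ (ladW W n).1.eval a = c * (n • P).xRep 0 ∧
      (ladW W n).2.eval a = c * (n • P).xRep 1 := by
  rcases P with _ | ⟨x, y, h⟩
  · have := congrFun hP 1
    change (0 : W.Point).xRep 1 = _ at this
    simp [Point.xRep_zero] at this
  · have hx : x = a := by
      have := congrFun hP 0
      simpa [Point.xRep_some] using this
    subst hx
    obtain ⟨c, hc, h1⟩ := ladW_spec W h n
    rw [Prod.mk.injEq] at h1
    exact ⟨c, hc, h1.1, h1.2⟩

variable [CharZero F]

/-- Lower bound: at least `n ^ 2` points are killed by `n`. -/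
theorem le_ncard_nsmul_eq_zero (n : ℕ) (hn : 1 ≤ n) :
    n ^ 2 ≤ {P : W.Point | n • P = 0}.ncard := by
  classical
  have hfin : {P : W.Point | n • P = 0}.Finite :=
    helper822.finite_nsmul_eq_zero W n (by omega)
  rcases Nat.lt_or_ge n 2 with hn2 | hn2
  · have hn1 : n = 1 := by omega
    subst hn1
    simp
  -- degrees
  obtain ⟨M', hM'⟩ : ∃ M', M' + 2 = n ^ 2 := ⟨n ^ 2 - 2, by
    have : 2 ^ 2 ≤ n ^ 2 := Nat.pow_le_pow_left hn2 2
    omega⟩
  obtain ⟨hX, hZ⟩ := lad_isLC W.b₂ W.b₄ W.b₆ W.b₈ n (M' + 1) (by omega)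
  set Xn := (ladW W n).1 with hXn
  set Zn := (ladW W n).2 with hZn
  change IsLC Xn (M' + 1 + 1) 1 at hX
  change IsLC Zn (M' + 1) ((n : F) ^ 2) at hZ
  have hn0 : (n : F) ≠ 0 := by exact_mod_cast (by omega : n ≠ 0)
  -- the Wronskian
  set G := derivative Xn * Zn - Xn * derivative Zn with hG
  have hGlc : IsLC G (2 * M' + 2) ((n : F) ^ 2) := by
    have h1 := (hX.derivative.mul hZ).congr (e := 2 * M' + 2) (by omega) rfl
    have h2 := (hX.mul hZ.derivative).congr (e := 2 * M' + 2) (by omega) rfl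
    exact (h1.sub h2).congr rfl (by push_cast; ring)
  have hG0 : G ≠ 0 := hGlc.ne_zero (pow_ne_zero 2 hn0)
  -- generic `c`
  obtain ⟨c, hc⟩ := Infinite.exists_notMem_finset
    (G.roots.toFinset.image (fun g => Xn.eval g / Zn.eval g))
  set hpoly := Xn - C c * Zn with hhpoly
  have hlc : IsLC hpoly (M' + 1 + 1) 1 := by
    have h1 : IsLC (C c * Zn) (M' + 1 + 1) 0 := ((isLC_C c).mul hZ).lift (by omega)
    exact (hX.sub h1).congr rfl (by ring)
  have hh0 : hpoly ≠ 0 := hlc.ne_zero one_ne_zero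
  have hdeg : hpoly.natDegree = n ^ 2 := by
    rw [hlc.natDegree_eq one_ne_zero]; omega
  -- the ladder values never vanish simultaneously
  have hnv : ∀ a : F, Zn.eval a = 0 → Xn.eval a ≠ 0 := by
    intro a hZa hXa
    obtain ⟨P, hP⟩ := exists_point_xRep W a
    obtain ⟨k, hk, h1, h2⟩ := ladW_eval_of_xRep W hP n
    rw [← hXn] at h1
    rw [← hZn] at h2
    rw [hXa] at h1
    rw [hZa] at h2
    have e1 : (n • P).xRep 0 = 0 := by
      rcases mul_eq_zero.mp h1.symm with h | h
      · exact absurd h hk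
      · exact h
    have e2 : (n • P).xRep 1 = 0 := by
      rcases mul_eq_zero.mp h2.symm with h | h
      · exact absurd h hk
      · exact h
    apply Point.xRep_ne_zero (n • P)
    funext i
    fin_cases i
    · exact e1
    · exact e2
  -- roots of `hpoly` are simple
  have hroot : ∀ a ∈ hpoly.roots, Xn.eval a = c * Zn.eval a ∧ Zn.eval a ≠ 0 := by
    intro a ha
    rw [mem_roots hh0, IsRoot.def, hhpoly, eval_sub, eval_mul, eval_C, sub_eq_zero] at ha
    refine ⟨ha, fun hZa => hnv a hZa ?_⟩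
    rw [ha, hZa, mul_zero]
  have hnodup : hpoly.roots.Nodup := by
    rw [Multiset.nodup_iff_count_le_one]
    intro a
    rw [count_roots]
    by_contra hcon
    have hlt : 1 < rootMultiplicity a hpoly := by omega
    obtain ⟨hr1, hr2⟩ := (one_lt_rootMultiplicity_iff_isRoot hh0).mp hlt
    have ha : a ∈ hpoly.roots := (mem_roots hh0).mpr hr1
    obtain ⟨hXa, hZa⟩ := hroot a ha
    rw [IsRoot.def, hhpoly, derivative_sub, derivative_mul, derivative_C, zero_mul, zero_add,
      eval_sub, eval_mul, eval_C, sub_eq_zero] at hr2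
    have hGa : G.eval a = 0 := by
      rw [hG, eval_sub, eval_mul, eval_mul, hXa, hr2]
      ring
    apply hc
    rw [Finset.mem_image]
    refine ⟨a, ?_, ?_⟩
    · rw [Multiset.mem_toFinset, mem_roots hG0]
      exact hGa
    · rw [hXa]
      field_simp
  have hcardroots : hpoly.roots.toFinset.card = n ^ 2 := by
    rw [Multiset.toFinset_card_of_nodup hnodup,
      (splits_iff_card_roots.mp (IsAlgClosed.splits hpoly)), hdeg]
  -- a point above `c`
  obtain ⟨Q₀, hQ₀⟩ := exists_point_xRep W c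
  -- for each root `a` a point `P` above `a` with `n • P = Q₀`
  have hex : ∀ a ∈ hpoly.roots, ∃ P : W.Point, P.xRep = ![a, 1] ∧ n • P = Q₀ := by
    intro a ha
    obtain ⟨hXa, hZa⟩ := hroot a ha
    obtain ⟨P₁, hP₁⟩ := exists_point_xRep W a
    obtain ⟨k, hk, h1, h2⟩ := ladW_eval_of_xRep W hP₁ n
    rw [← hXn] at h1
    rw [← hZn] at h2
    have hrep : (n • P₁).xRep = Q₀.xRep := by
      have hne : n • P₁ ≠ 0 := by
        intro h0
        rw [h0] at h2
        apply hZa
        rw [h2]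
        simp [Point.xRep_zero]
      rcases hnP : n • P₁ with _ | ⟨x', y', h'⟩
      · exact absurd hnP hne
      · rw [hnP] at h1 h2
        simp only [Point.xRep_some, Matrix.cons_val_zero, Matrix.cons_val_one, mul_one] at h1 h2
        have hx' : x' = c := by
          have : k * x' = c * k := by rw [← h1, hXa, h2]
          have hk' : k * x' = k * c := by rw [this, mul_comm]
          exact mul_left_cancel₀ hk hk'
        rw [hQ₀, Point.xRep_some, hx']
    rcases Point.xRep_eq_xRep_iff.mp hrep with h3 | h3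
    · exact ⟨P₁, hP₁, h3⟩
    · refine ⟨-P₁, by rw [Point.xRep_neg, hP₁], ?_⟩
      rw [smul_neg, h3, neg_neg]
  choose! f hf using hex
  -- a base root
  have hne : hpoly.roots.toFinset.Nonempty := by
    rw [← Finset.card_pos, hcardroots]
    exact Nat.pow_pos (by omega)
  obtain ⟨a₀, ha₀⟩ := hne
  rw [Multiset.mem_toFinset] at ha₀
  rw [Set.ncard_eq_toFinset_card _ hfin, ← hcardroots]
  refine Finset.card_le_card_of_injOn (fun a => f a - f a₀) ?_ ?_
  · intro a ha
    rw [Finset.mem_coe, Multiset.mem_toFinset] at ha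
    simp only [Finset.mem_coe, Set.Finite.mem_toFinset, Set.mem_ofPred_eq]
    rw [smul_sub, (hf a ha).2, (hf a₀ ha₀).2, sub_self]
  · intro a ha b hb hab
    rw [Finset.mem_coe, Multiset.mem_toFinset] at ha hb
    have hab' : f a = f b := by
      have := congrArg (fun P => P + f a₀) hab
      simpa using this
    have h1 := (hf a ha).1
    have h2 := (hf b hb).1
    rw [hab', h2] at h1
    have := congrFun h1 0
    simpa using this.symm

end Lower

/-! ### Exact count -/

section Exact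

variable [IsAlgClosed F] [W.IsElliptic] [CharZero F]

/-- **Exact count**: for `n` odd, exactly `n ^ 2` points are killed by `n`. -/
theorem ncard_nsmul_eq_zero (n : ℕ) (hn : Odd n) :
    {P : W.Point | n • P = 0}.ncard = n ^ 2 := by
  obtain ⟨m, rfl⟩ := hn
  exact le_antisymm (ncard_nsmul_eq_zero_le W m) (le_ncard_nsmul_eq_zero W (2 * m + 1) (by omega))

/-- **Exact count**, in the form used by the frozen statements:
`Nat.card E[n] = n ^ 2` for odd `n`. -/
theorem card_torsionBy (n : ℕ) (hn : Odd n) :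
    Nat.card (Submodule.torsionBy ℤ W.Point (n : ℤ)) = n ^ 2 := by
  have hset : ((Submodule.torsionBy ℤ W.Point (n : ℤ) : Submodule ℤ W.Point) : Set W.Point) =
      {P : W.Point | n • P = 0} := by
    ext P
    simp
  rw [← ncard_nsmul_eq_zero W n hn, ← hset]
  exact Nat.card_coe_set_eq _

/-- the `n`-torsion is nontrivial for odd `n ≥ 3` -/
theorem nontrivial_torsionBy (n : ℕ) (hn : Odd n) (hn1 : 1 < n) :
    Nontrivial (Submodule.torsionBy ℤ W.Point (n : ℤ)) := by
  have h := card_torsionBy W n hn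
  have h1 : 1 < Nat.card (Submodule.torsionBy ℤ W.Point (n : ℤ)) := by
    rw [h]
    exact Nat.one_lt_pow (by norm_num) hn1
  have : Finite (Submodule.torsionBy ℤ W.Point (n : ℤ)) :=
    Nat.finite_of_card_ne_zero (by omega)
  exact Finite.one_lt_card_iff_nontrivial.mp h1

end Exact

end Field

/-! ### The Frey curve -/

section Frey

open WeierstrassCurve WeierstrassCurve.Affine

theorem freyCurve_Δ (P : FreyPackage) :
    P.freyCurve.Δ = ((P.a : ℚ) ^ P.p * (P.b : ℚ) ^ P.p * ((P.a : ℚ) ^ P.p + (P.b : ℚ) ^ P.p)) ^ 2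
      / 256 := by
  simp only [FreyPackage.freyCurve, WeierstrassCurve.Δ, WeierstrassCurve.b₂, WeierstrassCurve.b₄,
    WeierstrassCurve.b₆, WeierstrassCurve.b₈]
  ring

theorem freyCurve_Δ_ne_zero (P : FreyPackage) : P.freyCurve.Δ ≠ 0 := by
  rw [freyCurve_Δ]
  have ha : (P.a : ℚ) ≠ 0 := by exact_mod_cast P.ha0
  have hb : (P.b : ℚ) ≠ 0 := by exact_mod_cast P.hb0
  have hc : (P.c : ℚ) ≠ 0 := by exact_mod_cast P.hc0
  have hsum : (P.a : ℚ) ^ P.p + (P.b : ℚ) ^ P.p = (P.c : ℚ) ^ P.p := by exact_mod_cast P.hFLT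
  rw [hsum]
  positivity

instance freyCurve_isElliptic (P : FreyPackage) : P.freyCurve.IsElliptic :=
  ⟨isUnit_iff_ne_zero.mpr (freyCurve_Δ_ne_zero P)⟩

instance freyCurve_baseChange_isElliptic (P : FreyPackage) (K : Type*) [Field K] [Algebra ℚ K] :
    (P.freyCurve⁄K).IsElliptic :=
  inferInstanceAs (P.freyCurve.map (algebraMap ℚ K)).IsElliptic

/-- **I1 for S13**: the `p`-torsion of the Frey curve over `ℚ̄` has exactly `p ^ 2` points. -/
theorem frey_card_torsion (P : FreyPackage) [DecidableEq (AlgebraicClosure ℚ)] :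
    Nat.card (Submodule.torsionBy ℤ ((P.freyCurve)⁄(AlgebraicClosure ℚ)).Point P.p) = P.p ^ 2 :=
  card_torsionBy (P.freyCurve⁄(AlgebraicClosure ℚ)) P.p P.hp_odd

/-- the `p`-torsion of the Frey curve over `ℚ̄` is nontrivial -/
theorem frey_nontrivial_torsion (P : FreyPackage) [DecidableEq (AlgebraicClosure ℚ)] :
    Nontrivial (Submodule.torsionBy ℤ ((P.freyCurve)⁄(AlgebraicClosure ℚ)).Point P.p) :=
  nontrivial_torsionBy (P.freyCurve⁄(AlgebraicClosure ℚ)) P.p P.hp_odd
    (by have := P.hp5; omega)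

end Frey

end Fermat.Agent.Lib.helper1397
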