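import Mathlib
import Fermat.Prelude.Def_FLTPrelim_FreyPackage
import Fermat.Agent.Lib.helper1397_TorsionCard

/-!
# Divisibility / Newton-polygon input for torsion x-coordinates

* `exists_coeff_eq_mul_prod_inv` : if `ψ : A[X]` (`A` a domain inside a field `F`) has degree
  `≤ d` and `S` is a finite set of roots `x ≠ 0` of `ψ` in `F` with `x⁻¹ ∈ A`, then
  `∏_{x ∈ S} x⁻¹` divides the coefficient `ψ.coeff d` in `A`.
* `val_coeff_le_prod_inv` : valuation form for `ψ : ℤ[X]`.
* `freyPsi P : ℤ[X]` : the odd division polynomial of the Frey curve has INTEGER coefficients,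
  degree `≤ (p ^ 2 - 1) / 2`, coefficient `-p` in that degree, and its roots are exactly the
  x-coordinates of the nonzero `p`-torsion points (over any field extension of `ℚ`).
* `frey_val_p_le_prod_inv` : for any valuation `v` on `K ⊇ ℚ` and any finite set `S` of
  x-coordinates of `p`-torsion points of the Frey curve with `1 < v x`:
  `v p ≤ ∏_{x ∈ S} (v x)⁻¹`.
-/

set_option autoImplicit false

namespace Fermat.Agent.Lib.helper1397

open Polynomial

section Dvd

variable {A F : Type*} [CommRing A] [IsDomain A] [Field F] [Algebra A F]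

/-- Divisibility form: the product of the inverses of distinct roots divides the top
coefficient. -/
theorem exists_coeff_eq_mul_prod_inv (hinj : Function.Injective (algebraMap A F)) (ψ : A[X])
    (d : ℕ) (hd : ψ.natDegree ≤ d) (S : Finset F)
    (hS : ∀ x ∈ S, x ≠ 0 ∧ (∃ r : A, algebraMap A F r = x⁻¹) ∧ aeval x ψ = 0) :
    ∃ t : A, algebraMap A F (ψ.coeff d) = algebraMap A F t * ∏ x ∈ S, x⁻¹ := by
  classical
  by_cases hc : ψ.coeff d = 0
  · exact ⟨0, by rw [hc, map_zero, zero_mul]⟩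
  set f := reflect d ψ with hf
  have hf0c : f.coeff 0 = ψ.coeff d := by
    rw [hf, coeff_reflect, revAt_le (Nat.zero_le d), Nat.sub_zero]
  have hf0 : f ≠ 0 := by
    intro h
    rw [h, coeff_zero] at hf0c
    exact hc hf0c.symm
  have hex : ∀ x ∈ S, ∃ r : A, algebraMap A F r = x⁻¹ := fun x hx => (hS x hx).2.1
  choose! r hr using hex
  have hroot : ∀ x ∈ S, f.IsRoot (r x) := by
    intro x hx
    obtain ⟨hx0, -, hx2⟩ := hS x hx
    rw [IsRoot.def]
    apply hinj
    rw [map_zero, ← eval₂_hom, hr x hx]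
    have h1 := @eval₂_reflect_mul_pow _ _ _ _ (algebraMap A F) x (invertibleOfNonzero hx0) d ψ hd
    rw [aeval_def] at hx2
    rw [@invOf_eq_inv _ _ x (invertibleOfNonzero hx0), hx2] at h1
    rcases mul_eq_zero.mp h1 with h2 | h2
    · exact h2
    · exact absurd h2 (pow_ne_zero d hx0)
  have hrinj : Set.InjOn r (S : Set F) := by
    intro x hx x' hx' hxx'
    have := congrArg (algebraMap A F) hxx'
    rw [hr x hx, hr x' hx'] at this
    exact inv_injective this
  have hle : S.val.map r ≤ f.roots := by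
    rw [Multiset.le_iff_subset (Multiset.Nodup.map_on (fun x hx x' hx' h => hrinj hx hx' h) S.nodup)]
    intro a ha
    obtain ⟨x, hx, rfl⟩ := Multiset.mem_map.mp ha
    exact (mem_roots hf0).mpr (hroot x hx)
  obtain ⟨g, hg⟩ := (Multiset.prod_X_sub_C_dvd_iff_le_roots hf0 _).mpr hle
  have hprod : ((S.val.map r).map fun a => X - C a).prod = ∏ x ∈ S, (X - C (r x)) := by
    rw [Multiset.map_map]
    rfl
  rw [hprod] at hg
  have hcoeff : ψ.coeff d = (∏ x ∈ S, (-(r x))) * g.eval 0 := by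
    rw [← hf0c, coeff_zero_eq_eval_zero, hg, eval_mul, eval_prod]
    congr 1
    refine Finset.prod_congr rfl fun x _ => ?_
    simp
  refine ⟨(-1) ^ S.card * g.eval 0, ?_⟩
  rw [hcoeff, map_mul, map_mul, map_prod, map_pow, map_neg, map_one]
  have e : ∏ x ∈ S, algebraMap A F (-(r x)) = (-1) ^ S.card * ∏ x ∈ S, x⁻¹ := by
    rw [← Finset.prod_const, ← Finset.prod_mul_distrib]
    refine Finset.prod_congr rfl fun x hx => ?_
    rw [map_neg, hr x hx]
    ring
  rw [e]
  ring

end Dvd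

section Val

variable {K Γ₀ : Type*} [Field K] [LinearOrderedCommGroupWithZero Γ₀]

/-- Valuation form (Newton-polygon input): for `ψ : ℤ[X]` of degree `≤ d` and distinct roots
`x` with `1 < v x`, the top coefficient satisfies `v (ψ.coeff d) ≤ ∏ (v x)⁻¹`. -/
theorem val_coeff_le_prod_inv (v : Valuation K Γ₀) (ψ : ℤ[X]) (d : ℕ) (hd : ψ.natDegree ≤ d)
    (S : Finset K) (hS : ∀ x ∈ S, 1 < v x ∧ aeval x ψ = 0) :
    v ((ψ.coeff d : ℤ) : K) ≤ ∏ x ∈ S, (v x)⁻¹ := by
  have hinj : Function.Injective (algebraMap v.valuationSubring K) := Subtype.val_injective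
  have hd' : (ψ.map (Int.castRingHom v.valuationSubring)).natDegree ≤ d :=
    (natDegree_map_le).trans hd
  obtain ⟨t, ht⟩ := exists_coeff_eq_mul_prod_inv hinj (ψ.map (Int.castRingHom v.valuationSubring))
    d hd' S (by
      intro x hx
      obtain ⟨h1, h2⟩ := hS x hx
      have hx0 : x ≠ 0 := by
        rintro rfl
        rw [map_zero] at h1
        exact not_lt_of_ge zero_le_one h1
      refine ⟨hx0, ⟨⟨x⁻¹, ?_⟩, rfl⟩, ?_⟩
      · rw [Valuation.mem_valuationSubring_iff, map_inv₀]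
        exact inv_le_one_of_one_le₀ h1.le
      · rw [← h2, aeval_def, aeval_def, eval₂_map]
        congr 1)
  have hcoe : algebraMap v.valuationSubring K
      ((ψ.map (Int.castRingHom v.valuationSubring)).coeff d) = ((ψ.coeff d : ℤ) : K) := by
    rw [coeff_map]
    simp
  rw [hcoe] at ht
  rw [ht, map_mul, map_prod]
  have ht1 : v (algebraMap v.valuationSubring K t) ≤ 1 :=
    (Valuation.mem_valuationSubring_iff v _).mp t.2
  calc v (algebraMap v.valuationSubring K t) * ∏ x ∈ S, v x⁻¹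
      ≤ 1 * ∏ x ∈ S, v x⁻¹ := mul_le_mul_left ht1 _
    _ = ∏ x ∈ S, (v x)⁻¹ := by
      rw [one_mul]
      exact Finset.prod_congr rfl fun x _ => map_inv₀ v x

end Val

/-! ### The Frey curve: an integral division polynomial -/

section Frey

open WeierstrassCurve WeierstrassCurve.Affine

/-- `b ^ p / 16` (an integer since `b` is even and `p ≥ 5`) -/
def freyC (P : FreyPackage) : ℤ := P.b ^ P.p / 16

theorem freyC_spec (P : FreyPackage) : P.b ^ P.p = 16 * freyC P := by
  have h2 : (2 : ℤ) ∣ P.b := (ZMod.intCast_zmod_eq_zero_iff_dvd P.b 2).1 P.hb2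
  have h16 : (16 : ℤ) ∣ P.b ^ P.p := by
    have h1 : (2 : ℤ) ^ P.p ∣ P.b ^ P.p := pow_dvd_pow_of_dvd h2 _
    have h3 : (2 : ℤ) ^ 4 ∣ 2 ^ P.p := pow_dvd_pow 2 (by have := P.hp5; omega)
    have h4 : (16 : ℤ) = 2 ^ 4 := by norm_num
    rw [h4]
    exact h3.trans h1
  rw [freyC, Int.mul_ediv_cancel' h16]

theorem freyCurve_b₂ (P : FreyPackage) :
    P.freyCurve.b₂ = ((P.b ^ P.p - P.a ^ P.p : ℤ) : ℚ) := by
  simp only [FreyPackage.freyCurve, WeierstrassCurve.b₂]
  push_cast
  ring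

theorem freyCurve_b₄ (P : FreyPackage) :
    P.freyCurve.b₄ = ((-2 * P.a ^ P.p * freyC P : ℤ) : ℚ) := by
  have h : (P.b : ℚ) ^ P.p = 16 * (freyC P : ℚ) := by exact_mod_cast freyC_spec P
  simp only [FreyPackage.freyCurve, WeierstrassCurve.b₄]
  push_cast
  rw [h]
  ring

theorem freyCurve_b₆ (P : FreyPackage) : P.freyCurve.b₆ = ((0 : ℤ) : ℚ) := by
  simp [FreyPackage.freyCurve, WeierstrassCurve.b₆]

theorem freyCurve_b₈ (P : FreyPackage) :
    P.freyCurve.b₈ = ((-(P.a ^ P.p * freyC P) ^ 2 : ℤ) : ℚ) := by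
  have h : (P.b : ℚ) ^ P.p = 16 * (freyC P : ℚ) := by exact_mod_cast freyC_spec P
  simp only [FreyPackage.freyCurve, WeierstrassCurve.b₈]
  push_cast
  rw [h]
  ring

/-- The odd division polynomial of the Frey curve, with INTEGER coefficients. -/
noncomputable def freyPsi (P : FreyPackage) : ℤ[X] :=
  psiP (P.b ^ P.p - P.a ^ P.p) (-2 * P.a ^ P.p * freyC P) 0 (-(P.a ^ P.p * freyC P) ^ 2)
    ((P.p - 1) / 2)

theorem frey_two_mul_add_one (P : FreyPackage) : 2 * ((P.p - 1) / 2) + 1 = P.p := by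
  obtain ⟨m, hm⟩ := P.hp_odd
  omega

theorem freyPsi_isLC (P : FreyPackage) :
    IsLC (freyPsi P) ((P.p ^ 2 - 1) / 2) (-(P.p : ℤ)) := by
  have h := psiP_isLC (P.b ^ P.p - P.a ^ P.p) (-2 * P.a ^ P.p * freyC P) 0
    (-(P.a ^ P.p * freyC P) ^ 2) ((P.p - 1) / 2)
  have hp := frey_two_mul_add_one P
  refine h.congr ?_ ?_
  · have e : P.p ^ 2 = 2 * (2 * ((P.p - 1) / 2) ^ 2 + 2 * ((P.p - 1) / 2)) + 1 := by
      conv_lhs => rw [← hp]
      ring
    omega
  · have : ((2 * ((P.p - 1) / 2) + 1 : ℕ) : ℤ) = (P.p : ℤ) := by rw [hp]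
    rw [← this]
    push_cast
    ring

theorem freyPsi_map (P : FreyPackage) (K : Type*) [Field K] [Algebra ℚ K] :
    psiW (P.freyCurve⁄K) ((P.p - 1) / 2) = (freyPsi P).map (Int.castRingHom K) := by
  rw [freyPsi, ← psiP_map, psiW]
  have h2 : (P.freyCurve⁄K).b₂ = algebraMap ℚ K P.freyCurve.b₂ := WeierstrassCurve.map_b₂ _ _
  have h4 : (P.freyCurve⁄K).b₄ = algebraMap ℚ K P.freyCurve.b₄ := WeierstrassCurve.map_b₄ _ _
  have h6 : (P.freyCurve⁄K).b₆ = algebraMap ℚ K P.freyCurve.b₆ := WeierstrassCurve.map_b₆ _ _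
  have h8 : (P.freyCurve⁄K).b₈ = algebraMap ℚ K P.freyCurve.b₈ := WeierstrassCurve.map_b₈ _ _
  rw [h2, h4, h6, h8, freyCurve_b₂, freyCurve_b₄, freyCurve_b₆, freyCurve_b₈]
  simp only [map_intCast, eq_intCast]

/-- Root characterisation of `freyPsi` over any field extension of `ℚ`. -/
theorem freyPsi_aeval_eq_zero_iff (P : FreyPackage) {K : Type*} [Field K] [Algebra ℚ K]
    [DecidableEq K] {x y : K} (h : (P.freyCurve⁄K).Nonsingular x y) :
    aeval x (freyPsi P) = 0 ↔ P.p • Point.some x y h = 0 := by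
  have h1 := psiW_eval_eq_zero_iff (P.freyCurve⁄K) h ((P.p - 1) / 2)
  rw [frey_two_mul_add_one, freyPsi_map, eval_map] at h1
  rw [← h1, aeval_def]
  congr! 2

/-- **Newton-polygon input for `at_p`**: for any valuation `v` on a field `K ⊇ ℚ` and any finite
set `S` of x-coordinates of `p`-torsion points of the Frey curve with `1 < v x`
(i.e. points in the kernel of reduction), `v p ≤ ∏_{x ∈ S} (v x)⁻¹`. -/
theorem frey_val_p_le_prod_inv (P : FreyPackage) {K Γ₀ : Type*} [Field K] [Algebra ℚ K]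
    [DecidableEq K] [LinearOrderedCommGroupWithZero Γ₀] (v : Valuation K Γ₀) (S : Finset K)
    (hS : ∀ x ∈ S, 1 < v x ∧ ∃ (y : K) (h : (P.freyCurve⁄K).Nonsingular x y),
      P.p • Point.some x y h = 0) :
    v (P.p : K) ≤ ∏ x ∈ S, (v x)⁻¹ := by
  have h := val_coeff_le_prod_inv v (freyPsi P) ((P.p ^ 2 - 1) / 2) (freyPsi_isLC P).1 S (by
    intro x hx
    obtain ⟨h1, y, hxy, h2⟩ := hS x hx
    exact ⟨h1, (freyPsi_aeval_eq_zero_iff P hxy).mpr h2⟩)
  rw [(freyPsi_isLC P).2] at h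
  simpa using h

end Frey

end Fermat.Agent.Lib.helper1397
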