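import Mathlib

/-!
# Level-one modular forms are spanned by forms with integral `q`-expansion (helper1403)

For every weight `k : ℤ`, the space `ModularForm 𝒮ℒ k` is spanned over `ℂ` by the forms whose
`q`-expansion has integer coefficients.  Consequences:

* `levelOne_conj`: for every ring hom `σ : ℂ →+* ℂ` and every level-one form `r` there is a
  level-one form `r'` of the same weight with `qExpansion 1 r' = (qExpansion 1 r).map σ`;
* `levelOne_cusp_conj`: the same for cusp forms;
* `levelOne_qExpansion_mem_intSpan`: the `q`-expansion of a level-one form lies in the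
  `ℂ`-span of the integral power series.
-/

set_option autoImplicit false

namespace Fermat.Agent.Lib.helper1403

open UpperHalfPlane ModularForm EisensteinSeries MatrixGroups ModularFormClass
open scoped Manifold

/-- Membership in the range of `PowerSeries.map (Int.castRingHom ℂ)`, coefficientwise. -/
theorem mem_range_map_int_iff (p : PowerSeries ℂ) :
    p ∈ (PowerSeries.map (Int.castRingHom ℂ)).range ↔
      ∀ n : ℕ, ∃ m : ℤ, PowerSeries.coeff n p = (m : ℂ) := by
  constructor
  · rintro ⟨P, rfl⟩ n
    exact ⟨PowerSeries.coeff n P, by simp⟩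
  · intro h
    choose m hm using h
    refine ⟨PowerSeries.mk m, ?_⟩
    ext n
    simp [hm]

/-- The level-one forms of weight `k` with integral `q`-expansion. -/
def intForms (k : ℤ) : Set (ModularForm 𝒮ℒ k) :=
  {r | qExpansion 1 r ∈ (PowerSeries.map (Int.castRingHom ℂ)).range}

theorem mem_intForms_iff {k : ℤ} (r : ModularForm 𝒮ℒ k) :
    r ∈ intForms k ↔ qExpansion 1 r ∈ (PowerSeries.map (Int.castRingHom ℂ)).range := Iff.rfl

theorem qExpansion_E₄_mem : qExpansion 1 E₄ ∈ (PowerSeries.map (Int.castRingHom ℂ)).range := by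
  rw [mem_range_map_int_iff]
  intro n
  rw [E_qExpansion_coeff _ ⟨2, rfl⟩]
  split_ifs with h
  · exact ⟨1, by simp⟩
  · refine ⟨240 * (ArithmeticFunction.sigma 3 n : ℤ), ?_⟩
    norm_num [show bernoulli 4 = -1 / 30 by decide +kernel]

theorem qExpansion_E₆_mem : qExpansion 1 E₆ ∈ (PowerSeries.map (Int.castRingHom ℂ)).range := by
  rw [mem_range_map_int_iff]
  intro n
  rw [E_qExpansion_coeff _ ⟨3, rfl⟩]
  split_ifs with h
  · exact ⟨1, by simp⟩
  · refine ⟨-504 * (ArithmeticFunction.sigma 5 n : ℤ), ?_⟩
    norm_num [show bernoulli 6 = 1 / 42 by decide +kernel]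

/-- `1728 Δ = E₄³ - E₆²` has an integral `q`-expansion. -/
theorem qExpansion_discriminant_smul_mem :
    (1728 : ℂ) • qExpansion 1 ModularForm.discriminant ∈
      (PowerSeries.map (Int.castRingHom ℂ)).range := by
  let F12 : ModularForm 𝒮ℒ 12 :=
    ModularForm.mcast (by norm_num) (E₄.pow 3) - ModularForm.mcast (by norm_num) (E₆.pow 2)
  have h1 : qExpansion 1 F12 = qExpansion 1 E₄ ^ 3 - qExpansion 1 E₆ ^ 2 := by
    simp only [F12, FunLike.coe_sub, coe_mcast,
      ModularForm.qExpansion_sub one_pos one_mem_strictPeriods_SL,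
      ModularForm.qExpansion_pow one_pos one_mem_strictPeriods_SL]
  have h2 : (F12 : ℍ → ℂ) = (1728 : ℂ) • (CuspForm.discriminant : ℍ → ℂ) := by
    ext z
    simp only [F12, FunLike.coe_sub, coe_mcast, ModularForm.coe_pow, Pi.sub_apply, Pi.pow_apply,
      Pi.smul_apply, smul_eq_mul]
    rw [CuspForm.coe_discriminant, discriminant_eq_E₄_cube_sub_E₆_sq z]
    ring
  have h3 : (1728 : ℂ) • qExpansion 1 ModularForm.discriminant = qExpansion 1 F12 := by
    rw [h2, ← CuspForm.coe_discriminant,
      ModularForm.qExpansion_smul one_pos one_mem_strictPeriods_SL (1728 : ℂ) CuspForm.discriminant]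
  rw [h3, h1]
  exact Subring.sub_mem _ (Subring.pow_mem _ qExpansion_E₄_mem 3)
    (Subring.pow_mem _ qExpansion_E₆_mem 2)

/-- The normalised Eisenstein series lies in the span of the integral forms. -/
theorem E_mem_span {m : ℕ} (hm : 3 ≤ m) (hm2 : Even m) :
    E hm ∈ Submodule.span ℂ (intForms (m : ℤ)) := by
  set β : ℚ := -(2 * m / bernoulli m) with hβ
  have hd : (β.den : ℂ) ≠ 0 := by exact_mod_cast β.den_nz
  have hβc : -(2 * (m : ℂ) / ((bernoulli m : ℚ) : ℂ)) = ((β : ℚ) : ℂ) := by
    rw [hβ]; push_cast; ring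
  have hmem : ((β.den : ℂ) • E hm) ∈ intForms (m : ℤ) := by
    rw [mem_intForms_iff, FunLike.coe_smul, ModularForm.qExpansion_smul one_pos one_mem_strictPeriods_SL,
      mem_range_map_int_iff]
    intro n
    rw [PowerSeries.coeff_smul, E_qExpansion_coeff hm hm2]
    split_ifs with h
    · exact ⟨β.den, by simp⟩
    · refine ⟨β.num * (ArithmeticFunction.sigma (m - 1) n : ℤ), ?_⟩
      have h1 : (β.den : ℂ) * ((β : ℚ) : ℂ) = (β.num : ℂ) := by
        have := congrArg (fun q : ℚ => (q : ℂ)) (Rat.mul_den_eq_num β)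
        simp only [Rat.cast_mul, Rat.cast_natCast, Rat.cast_intCast] at this
        rw [mul_comm]; exact this
      rw [hβc, smul_eq_mul, ← mul_assoc, h1]
      push_cast
      ring
  have : E hm = (β.den : ℂ)⁻¹ • ((β.den : ℂ) • E hm) := by
    rw [smul_smul, inv_mul_cancel₀ hd, one_smul]
  rw [this]
  exact Submodule.smul_mem _ _ (Submodule.subset_span hmem)

theorem eq_zero_of_weight_two {k : ℤ} (hk : k = 2) (c : ModularForm 𝒮ℒ k) : c = 0 := by
  subst hk
  exact rank_zero_iff_forall_zero.mp levelOne_weight_two_rank_zero c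

theorem mem_span_intForms_aux (n : ℕ) : ∀ (k : ℤ), k ≤ n → ∀ c : ModularForm 𝒮ℒ k,
    c ∈ Submodule.span ℂ (intForms k) := by
  induction n with
  | zero =>
    intro k hk c
    rcases lt_or_eq_of_le hk with hk | hk
    · have : c = 0 :=
        rank_zero_iff_forall_zero.mp (levelOne_neg_weight_rank_zero (by exact_mod_cast hk)) c
      rw [this]; exact Submodule.zero_mem _
    · have hk0 : k = 0 := by exact_mod_cast hk
      subst hk0
      obtain ⟨a, ha⟩ := ModularFormClass.levelOne_weight_zero_const c
      have hc : c = a • (1 : ModularForm 𝒮ℒ 0) := by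
        ext z
        simp [ha, one_coe_eq_one]
      rw [hc]
      refine Submodule.smul_mem _ _ (Submodule.subset_span ?_)
      rw [mem_intForms_iff, ModularForm.qExpansion_one]
      exact Subring.one_mem _
  | succ n ih =>
    intro k hk c
    by_cases hk' : k ≤ n
    · exact ih k hk' c
    have hkeq : k = ((n + 1 : ℕ) : ℤ) := by push_cast at hk ⊢; omega
    subst hkeq
    rcases Nat.even_or_odd (n + 1) with he | ho
    · by_cases h2 : n + 1 = 2
      · have : c = 0 := eq_zero_of_weight_two (by exact_mod_cast h2) c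
        rw [this]; exact Submodule.zero_mem _
      · have h3 : 3 ≤ n + 1 := by
          obtain ⟨t, ht⟩ := he; omega
        have hcusp := (isCuspForm_iff_coeffZero_eq_zero _).mp
          (sub_smul_isCuspForm c (E h3) (E_qExpansion_coeff_zero h3 he))
        set a := PowerSeries.coeff 0 (qExpansion 1 c) with ha
        set c' := c - a • E h3 with hc'
        set g := CuspForm.discriminantEquiv (toCuspForm c' hcusp) with hg
        have hgmem : g ∈ Submodule.span ℂ (intForms (((n + 1 : ℕ) : ℤ) - 12)) :=
          ih _ (by push_cast; omega) g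
        let L : ModularForm 𝒮ℒ (((n + 1 : ℕ) : ℤ) - 12) →ₗ[ℂ] ModularForm 𝒮ℒ ((n + 1 : ℕ) : ℤ) :=
          CuspForm.toModularFormₗ ∘ₗ
            (CuspForm.discriminantEquiv (k := ((n + 1 : ℕ) : ℤ))).symm.toLinearMap
        have hL : L g = c' := by
          ext z
          simp [L, g]
        have hLS : ∀ e ∈ intForms (((n + 1 : ℕ) : ℤ) - 12),
            L e ∈ Submodule.span ℂ (intForms ((n + 1 : ℕ) : ℤ)) := by
          intro e he
          have hcoe : (L e : ℍ → ℂ) = (CuspForm.discriminant : ℍ → ℂ) * (e : ℍ → ℂ) := by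
            ext z; rfl
          have hq : qExpansion 1 (L e) = qExpansion 1 ModularForm.discriminant * qExpansion 1 e := by
            rw [hcoe]
            exact ModularForm.qExpansion_mul_coe one_pos one_mem_strictPeriods_SL
              CuspForm.discriminant e
          have hmem : ((1728 : ℂ) • L e) ∈ intForms _ := by
            rw [mem_intForms_iff, FunLike.coe_smul, ModularForm.qExpansion_smul one_pos one_mem_strictPeriods_SL,
              hq, ← smul_mul_assoc]
            exact Subring.mul_mem _ qExpansion_discriminant_smul_mem he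
          have : L e = (1728 : ℂ)⁻¹ • ((1728 : ℂ) • L e) := by
            rw [smul_smul, inv_mul_cancel₀ (by norm_num), one_smul]
          rw [this]
          exact Submodule.smul_mem _ _ (Submodule.subset_span hmem)
        have hc'mem : c' ∈ Submodule.span ℂ (intForms ((n + 1 : ℕ) : ℤ)) := by
          rw [← hL]
          exact (Submodule.map_span_le L _ _).mpr hLS (Submodule.mem_map_of_mem hgmem)
        have : c = c' + a • E h3 := by simp [hc']
        rw [this]
        exact Submodule.add_mem _ hc'mem (Submodule.smul_mem _ _ (E_mem_span h3 he))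
    · have : c = 0 := levelOne_odd_weight_eq_zero (by exact_mod_cast ho) c
      rw [this]; exact Submodule.zero_mem _

/-- **Level one, integral structure**: for every weight `k`, the level-one modular forms with
integral `q`-expansion span `ModularForm 𝒮ℒ k` over `ℂ`. -/
theorem levelOne_span_int (k : ℤ) :
    Submodule.span ℂ {r : ModularForm 𝒮ℒ k |
      qExpansion 1 r ∈ (PowerSeries.map (Int.castRingHom ℂ)).range} = ⊤ := by
  rw [eq_top_iff]
  intro c _
  exact mem_span_intForms_aux k.toNat k (Int.self_le_toNat k) c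

theorem mem_span_intForms {k : ℤ} (c : ModularForm 𝒮ℒ k) :
    c ∈ Submodule.span ℂ (intForms k) :=
  mem_span_intForms_aux k.toNat k (Int.self_le_toNat k) c

/-- **Level one, conjugation**: coefficientwise conjugation of the `q`-expansion by a ring
endomorphism of `ℂ` preserves level-one modular forms of every weight. -/
theorem levelOne_conj (σ : ℂ →+* ℂ) (k : ℤ) (r : ModularForm 𝒮ℒ k) :
    ∃ r' : ModularForm 𝒮ℒ k, qExpansion 1 r' = PowerSeries.map σ (qExpansion 1 r) := by
  refine Submodule.span_induction (p := fun (x : ModularForm 𝒮ℒ k) _ =>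
    ∃ r' : ModularForm 𝒮ℒ k, qExpansion 1 r' = PowerSeries.map σ (qExpansion 1 x)) ?_ ?_ ?_ ?_ (mem_span_intForms r)
  · rintro x ⟨P, hP⟩
    refine ⟨x, ?_⟩
    rw [← hP]
    ext n
    simp
  · refine ⟨0, ?_⟩
    simp [qExpansion_zero]
  · rintro x y _ _ ⟨x', hx'⟩ ⟨y', hy'⟩
    refine ⟨x' + y', ?_⟩
    rw [FunLike.coe_add, FunLike.coe_add,
      ModularForm.qExpansion_add one_pos one_mem_strictPeriods_SL,
      ModularForm.qExpansion_add one_pos one_mem_strictPeriods_SL, hx', hy', map_add]
  · rintro a x _ ⟨x', hx'⟩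
    refine ⟨σ a • x', ?_⟩
    rw [FunLike.coe_smul, FunLike.coe_smul,
      ModularForm.qExpansion_smul one_pos one_mem_strictPeriods_SL,
      ModularForm.qExpansion_smul one_pos one_mem_strictPeriods_SL, hx']
    ext n
    simp

/-- Coefficientwise version of `levelOne_conj`. -/
theorem levelOne_conj_coeff (σ : ℂ →+* ℂ) (k : ℤ) (r : ModularForm 𝒮ℒ k) :
    ∃ r' : ModularForm 𝒮ℒ k, ∀ n : ℕ,
      PowerSeries.coeff n (qExpansion 1 r') = σ (PowerSeries.coeff n (qExpansion 1 r)) := by
  obtain ⟨r', hr'⟩ := levelOne_conj σ k r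
  exact ⟨r', fun n => by rw [hr', PowerSeries.coeff_map]⟩

/-- **Level one, conjugation of cusp forms**. -/
theorem levelOne_cusp_conj (σ : ℂ →+* ℂ) (k : ℤ) (r : CuspForm 𝒮ℒ k) :
    ∃ r' : CuspForm 𝒮ℒ k, qExpansion 1 r' = PowerSeries.map σ (qExpansion 1 r) := by
  obtain ⟨r'', hr''⟩ := levelOne_conj σ k (CuspForm.toModularFormₗ r)
  have hcoe : (CuspForm.toModularFormₗ r : ℍ → ℂ) = (r : ℍ → ℂ) := rfl
  rw [hcoe] at hr''
  have h0 : PowerSeries.coeff 0 (qExpansion 1 r'') = 0 := by
    rw [hr'', PowerSeries.coeff_map,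
      CuspFormClass.qExpansion_coeff_zero r one_pos one_mem_strictPeriods_SL, map_zero]
  exact ⟨toCuspForm r'' h0, hr''⟩

/-- Coefficientwise version of `levelOne_cusp_conj`. -/
theorem levelOne_cusp_conj_coeff (σ : ℂ →+* ℂ) (k : ℤ) (r : CuspForm 𝒮ℒ k) :
    ∃ r' : CuspForm 𝒮ℒ k, ∀ n : ℕ,
      PowerSeries.coeff n (qExpansion 1 r') = σ (PowerSeries.coeff n (qExpansion 1 r)) := by
  obtain ⟨r', hr'⟩ := levelOne_cusp_conj σ k r
  exact ⟨r', fun n => by rw [hr', PowerSeries.coeff_map]⟩

/-- The `q`-expansion of a level-one modular form lies in the `ℂ`-span of the integral power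
series. -/
theorem levelOne_qExpansion_mem_intSpan (k : ℤ) (r : ModularForm 𝒮ℒ k) :
    qExpansion 1 r ∈
      Submodule.span ℂ (Set.range (PowerSeries.map (Int.castRingHom ℂ))) := by
  refine Submodule.span_induction (p := fun (x : ModularForm 𝒮ℒ k) _ => qExpansion 1 x ∈
    Submodule.span ℂ (Set.range (PowerSeries.map (Int.castRingHom ℂ)))) ?_ ?_ ?_ ?_
    (mem_span_intForms r)
  · rintro x ⟨P, hP⟩
    exact Submodule.subset_span ⟨P, hP⟩
  · simp [qExpansion_zero]
  · rintro x y _ _ hx hy
    rw [FunLike.coe_add, ModularForm.qExpansion_add one_pos one_mem_strictPeriods_SL]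
    exact Submodule.add_mem _ hx hy
  · rintro a x _ hx
    rw [FunLike.coe_smul, ModularForm.qExpansion_smul one_pos one_mem_strictPeriods_SL]
    exact Submodule.smul_mem _ _ hx

/-- The `q`-expansion of a level-one cusp form lies in the `ℂ`-span of the integral power
series. -/
theorem levelOne_cusp_qExpansion_mem_intSpan (k : ℤ) (r : CuspForm 𝒮ℒ k) :
    qExpansion 1 r ∈
      Submodule.span ℂ (Set.range (PowerSeries.map (Int.castRingHom ℂ))) :=
  levelOne_qExpansion_mem_intSpan k (CuspForm.toModularFormₗ r)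

end Fermat.Agent.Lib.helper1403
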