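/-
Several complex variables: regularity of Fréchet-holomorphic maps.

Mathlib has Cauchy estimates, "differentiable ⇒ analytic" and the Weierstrass convergence theorem
only for functions of ONE complex variable (`f : ℂ → E`).  This file provides the versions for maps
`f : E → F` between complex normed spaces which are complex differentiable on an open set.

Main statements (namespace `Fermat.Agent.Lib.helper1527`):

* `norm_fderiv_le_of_forall_mem_ball_norm_le` : Cauchy estimate `‖fderiv ℂ f x‖ ≤ M / r`.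
* `norm_fderiv_add_sub_le`, `continuousOn_fderiv`, `hasStrictFDerivAt_of_differentiableOn` :
  a holomorphic map is `C¹`, with an explicit Lipschitz estimate for the derivative.
* `differentiableOn_of_tendstoUniformlyOn_ball`, `differentiableOn_of_tendstoLocallyUniformlyOn`,
  `tendstoLocallyUniformlyOn_fderiv` : Weierstrass convergence theorem.
* `differentiableOn_fderiv_apply`, `differentiableOn_fderiv` : the derivative is holomorphic.
* `contDiffOn_infty_of_differentiableOn`, `analyticOnNhd_of_differentiableOn` : a holomorphic map on an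
  open subset of a finite-dimensional space is `C^∞` and analytic.
-/
import Mathlib

set_option autoImplicit false

open Metric Set Filter Topology

namespace Fermat.Agent.Lib.helper1527

variable {E F : Type*} [NormedAddCommGroup E] [NormedSpace ℂ E]
  [NormedAddCommGroup F] [NormedSpace ℂ F]

/-! ### Cauchy estimate for the Fréchet derivative -/

/-- Cauchy estimate along a complex line: if `f` is complex differentiable on `ball x r` and bounded
by `M` there, then `‖fderiv ℂ f x v‖ * r ≤ M * ‖v‖`. -/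
theorem norm_fderiv_apply_mul_le {f : E → F} {x : E} {r M : ℝ}
    (hf : DifferentiableOn ℂ f (ball x r)) (hM : ∀ y ∈ ball x r, ‖f y‖ ≤ M) (hr : 0 < r) (v : E) :
    ‖fderiv ℂ f x v‖ * r ≤ M * ‖v‖ := by
  have hM0 : 0 ≤ M := (norm_nonneg _).trans (hM x (mem_ball_self hr))
  rcases eq_or_ne v 0 with rfl | hv
  · simp
  have hv' : 0 < ‖v‖ := norm_pos_iff.2 hv
  rcases eq_or_lt_of_le (norm_nonneg (fderiv ℂ f x v)) with h0 | hpos
  · rw [← h0, zero_mul]; positivity
  rw [← le_div_iff₀' hpos]
  refine le_of_forall_lt_imp_le_of_dense fun ρ hρ => ?_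
  rcases le_or_gt ρ 0 with hρ0 | hρ0
  · exact hρ0.trans (by positivity)
  rw [le_div_iff₀' hpos]
  -- the one-variable function along the line through `x` in the direction `v`
  set g : ℂ → F := fun z => f (x + z • v) with hg
  have hmaps : MapsTo (fun z : ℂ => x + z • v) (ball (0 : ℂ) (r / ‖v‖)) (ball x r) := by
    intro z hz
    rw [mem_ball_zero_iff] at hz
    rw [mem_ball_iff_norm, add_sub_cancel_left, norm_smul]
    exact (lt_div_iff₀ hv').1 hz
  have hgd : DifferentiableOn ℂ g (ball (0 : ℂ) (r / ‖v‖)) :=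
    hf.comp (by fun_prop) hmaps
  have hsub : closedBall (0 : ℂ) (ρ / ‖v‖) ⊆ ball (0 : ℂ) (r / ‖v‖) :=
    closedBall_subset_ball (by gcongr)
  have hdc : DiffContOnCl ℂ g (ball (0 : ℂ) (ρ / ‖v‖)) := hgd.diffContOnCl_ball hsub
  have hbd : ∀ z ∈ sphere (0 : ℂ) (ρ / ‖v‖), ‖g z‖ ≤ M := fun z hz =>
    hM _ (hmaps (hsub (sphere_subset_closedBall hz)))
  have hder : HasDerivAt g (fderiv ℂ f x v) 0 := by
    have h1 : HasDerivAt (fun z : ℂ => x + z • v) v 0 := by
      simpa using ((hasDerivAt_id (0 : ℂ)).smul_const v).const_add x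
    have hx : DifferentiableAt ℂ f (x + (0 : ℂ) • v) := by
      simpa using hf.differentiableAt (isOpen_ball.mem_nhds (mem_ball_self hr))
    have h2 := hx.hasFDerivAt.comp_hasDerivAt (0 : ℂ) h1
    rw [zero_smul, add_zero] at h2
    exact h2
  have hmain := Complex.norm_deriv_le_of_forall_mem_sphere_norm_le (div_pos hρ0 hv') hdc hbd
  rw [hder.deriv, le_div_iff₀ (div_pos hρ0 hv'), ← mul_div_assoc, div_le_iff₀ hv'] at hmain
  linarith

/-- **Cauchy estimate** in several variables: if `f` is complex differentiable on `ball x r` and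
bounded by `M` there, then `‖fderiv ℂ f x‖ ≤ M / r`. -/
theorem norm_fderiv_le_of_forall_mem_ball_norm_le {f : E → F} {x : E} {r M : ℝ}
    (hf : DifferentiableOn ℂ f (ball x r)) (hM : ∀ y ∈ ball x r, ‖f y‖ ≤ M) (hr : 0 < r) :
    ‖fderiv ℂ f x‖ ≤ M / r := by
  have hM0 : 0 ≤ M := (norm_nonneg _).trans (hM x (mem_ball_self hr))
  refine ContinuousLinearMap.opNorm_le_bound _ (div_nonneg hM0 hr.le) fun v => ?_
  rw [div_mul_eq_mul_div, le_div_iff₀ hr]
  exact norm_fderiv_apply_mul_le hf hM hr v

/-- Cauchy estimate, version for a function differentiable on a set containing the ball. -/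
theorem norm_fderiv_le_of_ball_subset {f : E → F} {U : Set E} {x : E} {r M : ℝ}
    (hf : DifferentiableOn ℂ f U) (hU : ball x r ⊆ U) (hM : ∀ y ∈ ball x r, ‖f y‖ ≤ M)
    (hr : 0 < r) : ‖fderiv ℂ f x‖ ≤ M / r :=
  norm_fderiv_le_of_forall_mem_ball_norm_le (hf.mono hU) hM hr

/-! ### A holomorphic map is `C¹` -/

/-- Lipschitz estimate for the derivative of a bounded holomorphic map: if `f` is complex
differentiable and bounded by `M` on `ball x (3 * ρ)`, then
`‖fderiv ℂ f (x + w) - fderiv ℂ f x‖ ≤ M / ρ ^ 2 * ‖w‖` for `‖w‖ < ρ`. -/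
theorem norm_fderiv_add_sub_le {f : E → F} {x : E} {ρ M : ℝ} (hρ : 0 < ρ)
    (hf : DifferentiableOn ℂ f (ball x (3 * ρ))) (hM : ∀ y ∈ ball x (3 * ρ), ‖f y‖ ≤ M)
    {w : E} (hw : ‖w‖ < ρ) :
    ‖fderiv ℂ f (x + w) - fderiv ℂ f x‖ ≤ M / ρ ^ 2 * ‖w‖ := by
  have hM0 : 0 ≤ M := (norm_nonneg _).trans (hM x (mem_ball_self (by positivity)))
  -- (a) derivative bound on `ball x (2 * ρ)`
  have ha : ∀ y ∈ ball x (2 * ρ), ‖fderiv ℂ f y‖ ≤ M / ρ := by
    intro y hy
    have hsub : ball y ρ ⊆ ball x (3 * ρ) := by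
      apply ball_subset_ball'
      rw [mem_ball] at hy
      linarith
    exact norm_fderiv_le_of_ball_subset hf hsub (fun z hz => hM z (hsub hz)) hρ
  -- (b) Lipschitz bound on `ball x (2 * ρ)`
  have hdiff : ∀ y ∈ ball x (2 * ρ), DifferentiableAt ℂ f y := fun y hy =>
    hf.differentiableAt (isOpen_ball.mem_nhds (ball_subset_ball (by linarith) hy))
  have hb : ∀ y ∈ ball x (2 * ρ), ∀ y' ∈ ball x (2 * ρ), ‖f y' - f y‖ ≤ M / ρ * ‖y' - y‖ :=
    fun y hy y' hy' =>
      (convex_ball x (2 * ρ)).norm_image_sub_le_of_norm_fderiv_le hdiff ha hy hy'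
  -- (c) the difference `h y = f (y + w) - f y`
  have hmem : ∀ y ∈ ball x ρ, y + w ∈ ball x (2 * ρ) := by
    intro y hy
    rw [mem_ball_iff_norm] at hy ⊢
    calc ‖y + w - x‖ = ‖(y - x) + w‖ := by congr 1; abel
      _ ≤ ‖y - x‖ + ‖w‖ := norm_add_le _ _
      _ < 2 * ρ := by linarith
  have hshift : ∀ y ∈ ball x ρ, DifferentiableAt ℂ (fun y => f (y + w)) y := fun y hy =>
    (hdiff (y + w) (hmem y hy)).comp y (by fun_prop)
  have hhd : DifferentiableOn ℂ (fun y => f (y + w) - f y) (ball x ρ) := fun y hy =>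
    ((hshift y hy).sub (hdiff y (ball_subset_ball (by linarith) hy))).differentiableWithinAt
  have hhM : ∀ y ∈ ball x ρ, ‖f (y + w) - f y‖ ≤ M / ρ * ‖w‖ := by
    intro y hy
    have := hb y (ball_subset_ball (by linarith) hy) (y + w) (hmem y hy)
    simpa using this
  have hfin := norm_fderiv_le_of_forall_mem_ball_norm_le hhd hhM hρ
  have hderiv : fderiv ℂ (fun y => f (y + w) - f y) x = fderiv ℂ f (x + w) - fderiv ℂ f x := by
    rw [fderiv_fun_sub (hshift x (mem_ball_self hρ)) (hdiff x (mem_ball_self (by positivity))),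
      fderiv_comp_add_right]
  rw [hderiv] at hfin
  calc ‖fderiv ℂ f (x + w) - fderiv ℂ f x‖ ≤ M / ρ * ‖w‖ / ρ := hfin
    _ = M / ρ ^ 2 * ‖w‖ := by field_simp

/-- The derivative of a map which is complex differentiable near `x` is continuous at `x`. -/
theorem continuousAt_fderiv {f : E → F} {x : E} (hf : ∀ᶠ y in 𝓝 x, DifferentiableAt ℂ f y) :
    ContinuousAt (fderiv ℂ f) x := by
  have hx : DifferentiableAt ℂ f x := hf.self_of_nhds
  have hbd : ∀ᶠ y in 𝓝 x, ‖f y‖ ≤ ‖f x‖ + 1 := by
    have h1 : ∀ᶠ y in 𝓝 x, ‖f y‖ < ‖f x‖ + 1 :=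
      hx.continuousAt.norm.eventually (Iio_mem_nhds (lt_add_one _))
    exact h1.mono fun y hy => hy.le
  obtain ⟨ε, hε, hball⟩ := Metric.eventually_nhds_iff_ball.1 (hf.and hbd)
  have hρ : 0 < ε / 3 := by positivity
  have h3 : 3 * (ε / 3) = ε := by ring
  have hfd : DifferentiableOn ℂ f (ball x (3 * (ε / 3))) := by
    rw [h3]
    exact fun y hy => (hball y hy).1.differentiableWithinAt
  have hM : ∀ y ∈ ball x (3 * (ε / 3)), ‖f y‖ ≤ ‖f x‖ + 1 := by
    rw [h3]
    exact fun y hy => (hball y hy).2
  refine continuousAt_of_locally_lipschitz hρ ((‖f x‖ + 1) / (ε / 3) ^ 2) fun y hy => ?_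
  have h := norm_fderiv_add_sub_le hρ hfd hM (w := y - x) (by rwa [← dist_eq_norm])
  rw [add_sub_cancel] at h
  rw [dist_eq_norm, dist_eq_norm]
  exact h

/-- The derivative of a holomorphic map on an open set is continuous. -/
theorem continuousOn_fderiv {f : E → F} {U : Set E} (hU : IsOpen U)
    (hf : DifferentiableOn ℂ f U) : ContinuousOn (fderiv ℂ f) U := fun _ hx =>
  (continuousAt_fderiv (eventually_of_mem (hU.mem_nhds hx) fun _ hy =>
    hf.differentiableAt (hU.mem_nhds hy))).continuousWithinAt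

/-- A holomorphic map on an open set is strictly differentiable at every point, so the inverse and
implicit function theorems of Mathlib apply to it. -/
theorem hasStrictFDerivAt_of_differentiableOn {f : E → F} {U : Set E} (hU : IsOpen U)
    (hf : DifferentiableOn ℂ f U) {x : E} (hx : x ∈ U) :
    HasStrictFDerivAt f (fderiv ℂ f x) x := by
  have hev : ∀ᶠ y in 𝓝 x, DifferentiableAt ℂ f y :=
    eventually_of_mem (hU.mem_nhds hx) fun _ hy => hf.differentiableAt (hU.mem_nhds hy)
  exact hasStrictFDerivAt_of_hasFDerivAt_of_continuousAt (hev.mono fun y hy => hy.hasFDerivAt)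
    (continuousAt_fderiv hev)

/-- Strict differentiability from differentiability on a neighbourhood. -/
theorem hasStrictFDerivAt_of_eventually_differentiableAt {f : E → F} {x : E}
    (hf : ∀ᶠ y in 𝓝 x, DifferentiableAt ℂ f y) : HasStrictFDerivAt f (fderiv ℂ f x) x :=
  hasStrictFDerivAt_of_hasFDerivAt_of_continuousAt (hf.mono fun _ hy => hy.hasFDerivAt)
    (continuousAt_fderiv hf)

/-- Second-order Taylor estimate: if `f` is complex differentiable and bounded by `M` on
`ball x (3 * ρ)`, then `‖f (x + w) - f x - fderiv ℂ f x w‖ ≤ M / ρ ^ 2 * ‖w‖ ^ 2` for `‖w‖ < ρ`. -/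
theorem norm_sub_sub_fderiv_le {f : E → F} {x : E} {ρ M : ℝ} (hρ : 0 < ρ)
    (hf : DifferentiableOn ℂ f (ball x (3 * ρ))) (hM : ∀ y ∈ ball x (3 * ρ), ‖f y‖ ≤ M)
    {w : E} (hw : ‖w‖ < ρ) :
    ‖f (x + w) - f x - fderiv ℂ f x w‖ ≤ M / ρ ^ 2 * ‖w‖ ^ 2 := by
  have hM0 : 0 ≤ M := (norm_nonneg _).trans (hM x (mem_ball_self (by positivity)))
  have hsub : closedBall x ‖w‖ ⊆ ball x (3 * ρ) :=
    closedBall_subset_ball (by linarith)
  have hmv := (convex_closedBall x ‖w‖).norm_image_sub_le_of_norm_fderiv_le'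
    (f := f) (φ := fderiv ℂ f x) (C := M / ρ ^ 2 * ‖w‖)
    (fun z hz => hf.differentiableAt (isOpen_ball.mem_nhds (hsub hz)))
    (fun z hz => by
      have hz' : ‖z - x‖ ≤ ‖w‖ := by rwa [mem_closedBall, dist_eq_norm] at hz
      have h := norm_fderiv_add_sub_le hρ hf hM (w := z - x) (lt_of_le_of_lt hz' hw)
      rw [add_sub_cancel] at h
      exact h.trans (by gcongr))
    (mem_closedBall_self (norm_nonneg _))
    (show x + w ∈ closedBall x ‖w‖ by simp [mem_closedBall, dist_eq_norm])
  rw [add_sub_cancel_left] at hmv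
  calc ‖f (x + w) - f x - fderiv ℂ f x w‖ ≤ M / ρ ^ 2 * ‖w‖ * ‖w‖ := hmv
    _ = M / ρ ^ 2 * ‖w‖ ^ 2 := by ring

/-! ### Weierstrass convergence theorem -/

section Weierstrass

variable {ι : Type*} {p : Filter ι}

/-- If the `G n` are eventually holomorphic on `ball x r` and converge uniformly there, then their
derivatives form a uniform Cauchy family on every smaller ball. -/
theorem uniformCauchySeqOn_fderiv {G : ι → E → F} {f : E → F} {x : E} {r r' : ℝ} (hr' : r' < r)
    (hG : ∀ᶠ n in p, DifferentiableOn ℂ (G n) (ball x r))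
    (hconv : TendstoUniformlyOn G f p (ball x r)) :
    UniformCauchySeqOn (fun n => fderiv ℂ (G n)) p (ball x r') := by
  intro u hu
  obtain ⟨ε, hε, hεu⟩ := Metric.mem_uniformity_dist.1 hu
  have hδ : 0 < r - r' := by linarith
  have hε' : 0 < ε * (r - r') / 2 := by positivity
  have hC := hconv.uniformCauchySeqOn _ (Metric.dist_mem_uniformity hε')
  filter_upwards [hC, hG.prod_mk hG] with m hm hmd y hy
  apply hεu
  have hsub : ball y (r - r') ⊆ ball x r := by
    apply ball_subset_ball'
    rw [mem_ball] at hy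
    linarith
  have hd1 : DifferentiableAt ℂ (G m.1) y :=
    hmd.1.differentiableAt (isOpen_ball.mem_nhds (hsub (mem_ball_self hδ)))
  have hd2 : DifferentiableAt ℂ (G m.2) y :=
    hmd.2.differentiableAt (isOpen_ball.mem_nhds (hsub (mem_ball_self hδ)))
  have hdd : DifferentiableOn ℂ (fun z => G m.1 z - G m.2 z) (ball y (r - r')) :=
    (hmd.1.mono hsub).sub (hmd.2.mono hsub)
  have hbd : ∀ z ∈ ball y (r - r'), ‖G m.1 z - G m.2 z‖ ≤ ε * (r - r') / 2 := fun z hz => by
    rw [← dist_eq_norm]
    exact (hm z (hsub hz)).le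
  have h := norm_fderiv_le_of_forall_mem_ball_norm_le hdd hbd hδ
  rw [fderiv_fun_sub hd1 hd2] at h
  rw [dist_eq_norm]
  calc ‖fderiv ℂ (G m.1) y - fderiv ℂ (G m.2) y‖ ≤ ε * (r - r') / 2 / (r - r') := h
    _ = ε / 2 := by field_simp
    _ < ε := by linarith

variable [CompleteSpace F]

/-- Core of the Weierstrass theorem on a ball. -/
theorem weierstrass_ball_aux [NeBot p] {G : ι → E → F} {f : E → F} {x : E} {r r' : ℝ}
    (hr' : r' < r) (hG : ∀ᶠ n in p, DifferentiableOn ℂ (G n) (ball x r))
    (hconv : TendstoUniformlyOn G f p (ball x r)) :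
    (∀ y ∈ ball x r', DifferentiableAt ℂ f y) ∧
      TendstoUniformlyOn (fun n => fderiv ℂ (G n)) (fderiv ℂ f) p (ball x r') := by
  have hC := uniformCauchySeqOn_fderiv hr' hG hconv
  have hex : ∀ y ∈ ball x r', ∃ L : E →L[ℂ] F,
      Tendsto (fun n => fderiv ℂ (G n) y) p (𝓝 L) := fun y hy =>
    cauchy_map_iff_exists_tendsto.1 (hC.cauchy_map hy)
  classical
  set g' : E → E →L[ℂ] F := fun y => if hy : y ∈ ball x r' then Classical.choose (hex y hy) else 0
    with hg'
  have hg'lim : ∀ y ∈ ball x r', Tendsto (fun n => fderiv ℂ (G n) y) p (𝓝 (g' y)) := by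
    intro y hy
    simp only [hg', dif_pos hy]
    exact Classical.choose_spec (hex y hy)
  have hunif : TendstoUniformlyOn (fun n => fderiv ℂ (G n)) g' p (ball x r') :=
    hC.tendstoUniformlyOn_of_tendsto hg'lim
  have hder : ∀ y ∈ ball x r', HasFDerivAt f (g' y) y := by
    intro y hy
    have hy' : y ∈ ball x r := ball_subset_ball hr'.le hy
    refine hasFDerivAt_of_tendstoUniformlyOnFilter (f := G)
      (hunif.tendstoUniformlyOnFilter.mono_right
        (le_principal_iff.2 (isOpen_ball.mem_nhds hy))) ?_ ?_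
    · filter_upwards [hG.prod_mk (isOpen_ball.mem_nhds hy')] with n hn
      exact (hn.1.differentiableAt (isOpen_ball.mem_nhds hn.2)).hasFDerivAt
    · filter_upwards [isOpen_ball.mem_nhds hy'] with z hz
      exact hconv.tendsto_at hz
  refine ⟨fun y hy => (hder y hy).differentiableAt, hunif.congr_right fun y hy => ?_⟩
  exact (hder y hy).fderiv.symm

/-- **Weierstrass convergence theorem** on a ball: a uniform limit on `ball x r` of maps which are
eventually holomorphic there is holomorphic. -/
theorem differentiableOn_of_tendstoUniformlyOn_ball [NeBot p] {G : ι → E → F} {f : E → F} {x : E}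
    {r : ℝ} (hG : ∀ᶠ n in p, DifferentiableOn ℂ (G n) (ball x r))
    (hconv : TendstoUniformlyOn G f p (ball x r)) : DifferentiableOn ℂ f (ball x r) := by
  intro y hy
  rw [mem_ball] at hy
  obtain ⟨r', h1, h2⟩ := exists_between hy
  exact ((weierstrass_ball_aux h2 hG hconv).1 y (mem_ball.2 h1)).differentiableWithinAt

/-- Weierstrass convergence theorem on a ball: the derivatives converge uniformly on smaller
balls. -/
theorem tendstoUniformlyOn_fderiv_ball [NeBot p] {G : ι → E → F} {f : E → F} {x : E}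
    {r r' : ℝ} (hr' : r' < r) (hG : ∀ᶠ n in p, DifferentiableOn ℂ (G n) (ball x r))
    (hconv : TendstoUniformlyOn G f p (ball x r)) :
    TendstoUniformlyOn (fun n => fderiv ℂ (G n)) (fderiv ℂ f) p (ball x r') :=
  (weierstrass_ball_aux hr' hG hconv).2

/-- **Weierstrass convergence theorem** (general normed spaces): if every point of the open set `U`
has a neighbourhood on which the eventually holomorphic maps `G n` converge uniformly to `f`,
then `f` is holomorphic on `U`. -/
theorem differentiableOn_of_forall_exists_tendstoUniformlyOn [NeBot p] {G : ι → E → F}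
    {f : E → F} {U : Set E} (hU : IsOpen U) (hG : ∀ᶠ n in p, DifferentiableOn ℂ (G n) U)
    (hconv : ∀ x ∈ U, ∃ t ∈ 𝓝 x, TendstoUniformlyOn G f p t) : DifferentiableOn ℂ f U := by
  intro x hx
  obtain ⟨t, ht, hconvt⟩ := hconv x hx
  obtain ⟨ε, hε, hball⟩ := Metric.mem_nhds_iff.1 (inter_mem ht (hU.mem_nhds hx))
  have hsubt : ball x ε ⊆ t := hball.trans inter_subset_left
  have hsubU : ball x ε ⊆ U := hball.trans inter_subset_right
  have h := differentiableOn_of_tendstoUniformlyOn_ball (hG.mono fun n hn => hn.mono hsubU)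
    (hconvt.mono hsubt)
  exact (h.differentiableAt (isOpen_ball.mem_nhds (mem_ball_self hε))).differentiableWithinAt

/-- Derivatives converge locally uniformly in the Weierstrass theorem. -/
theorem tendstoLocallyUniformlyOn_fderiv_of_forall_exists [NeBot p] {G : ι → E → F}
    {f : E → F} {U : Set E} (hU : IsOpen U) (hG : ∀ᶠ n in p, DifferentiableOn ℂ (G n) U)
    (hconv : ∀ x ∈ U, ∃ t ∈ 𝓝 x, TendstoUniformlyOn G f p t) :
    TendstoLocallyUniformlyOn (fun n => fderiv ℂ (G n)) (fderiv ℂ f) p U := by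
  refine tendstoLocallyUniformlyOn_of_forall_exists_nhds fun x hx => ?_
  obtain ⟨t, ht, hconvt⟩ := hconv x hx
  obtain ⟨ε, hε, hball⟩ := Metric.mem_nhds_iff.1 (inter_mem ht (hU.mem_nhds hx))
  have hsubt : ball x ε ⊆ t := hball.trans inter_subset_left
  have hsubU : ball x ε ⊆ U := hball.trans inter_subset_right
  refine ⟨ball x (ε / 2), mem_nhdsWithin_of_mem_nhds (ball_mem_nhds x (by positivity)), ?_⟩
  exact tendstoUniformlyOn_fderiv_ball (by linarith) (hG.mono fun n hn => hn.mono hsubU)
    (hconvt.mono hsubt)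

/-- **Weierstrass convergence theorem** in several complex variables: a locally uniform limit of
holomorphic maps on an open subset of a locally compact (e.g. finite-dimensional) complex normed
space is holomorphic. -/
theorem differentiableOn_of_tendstoLocallyUniformlyOn [NeBot p] [LocallyCompactSpace E]
    {G : ι → E → F} {f : E → F} {U : Set E} (hU : IsOpen U)
    (hG : ∀ᶠ n in p, DifferentiableOn ℂ (G n) U) (hconv : TendstoLocallyUniformlyOn G f p U) :
    DifferentiableOn ℂ f U := by
  refine differentiableOn_of_forall_exists_tendstoUniformlyOn hU hG fun x hx => ?_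
  obtain ⟨K, hK, hxK, hKU⟩ := exists_compact_subset hU hx
  exact ⟨K, mem_interior_iff_mem_nhds.1 hxK,
    (tendstoLocallyUniformlyOn_iff_forall_isCompact hU).1 hconv K hKU hK⟩

/-- In the Weierstrass theorem the derivatives converge locally uniformly as well. -/
theorem tendstoLocallyUniformlyOn_fderiv [NeBot p] [LocallyCompactSpace E]
    {G : ι → E → F} {f : E → F} {U : Set E} (hU : IsOpen U)
    (hG : ∀ᶠ n in p, DifferentiableOn ℂ (G n) U) (hconv : TendstoLocallyUniformlyOn G f p U) :
    TendstoLocallyUniformlyOn (fun n => fderiv ℂ (G n)) (fderiv ℂ f) p U := by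
  refine tendstoLocallyUniformlyOn_fderiv_of_forall_exists hU hG fun x hx => ?_
  obtain ⟨K, hK, hxK, hKU⟩ := exists_compact_subset hU hx
  exact ⟨K, mem_interior_iff_mem_nhds.1 hxK,
    (tendstoLocallyUniformlyOn_iff_forall_isCompact hU).1 hconv K hKU hK⟩

end Weierstrass

/-! ### The derivative of a holomorphic map is holomorphic -/

section Higher

variable [CompleteSpace F]

/-- Directional derivatives of a holomorphic map are holomorphic (any complex normed space `E`). -/
theorem differentiableOn_fderiv_apply {f : E → F} {U : Set E} (hU : IsOpen U)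
    (hf : DifferentiableOn ℂ f U) (v : E) : DifferentiableOn ℂ (fun x => fderiv ℂ f x v) U := by
  intro x₀ hx₀
  have hx : DifferentiableAt ℂ f x₀ := hf.differentiableAt (hU.mem_nhds hx₀)
  have hbd : ∀ᶠ y in 𝓝 x₀, ‖f y‖ ≤ ‖f x₀‖ + 1 := by
    have h1 : ∀ᶠ y in 𝓝 x₀, ‖f y‖ < ‖f x₀‖ + 1 :=
      hx.continuousAt.norm.eventually (Iio_mem_nhds (lt_add_one _))
    exact h1.mono fun y hy => hy.le
  obtain ⟨ε, hε, hball⟩ := Metric.eventually_nhds_iff_ball.1 ((hU.eventually_mem hx₀).and hbd)
  set M : ℝ := ‖f x₀‖ + 1 with hMdef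
  have hM0 : 0 ≤ M := by positivity
  set ρ : ℝ := ε / 6 with hρdef
  have hρ : 0 < ρ := by positivity
  have h6 : 6 * ρ = ε := by rw [hρdef]; ring
  have hsubU : ball x₀ (6 * ρ) ⊆ U := fun y hy => (hball y (h6 ▸ hy)).1
  have hMb : ∀ y ∈ ball x₀ (6 * ρ), ‖f y‖ ≤ M := fun y hy => (hball y (h6 ▸ hy)).2
  have hfd : DifferentiableOn ℂ f (ball x₀ (6 * ρ)) := hf.mono hsubU
  have hdiffAt : ∀ y ∈ ball x₀ (6 * ρ), DifferentiableAt ℂ f y := fun y hy =>
    hfd.differentiableAt (isOpen_ball.mem_nhds hy)
  -- Lipschitz estimate for the derivative around every point of `ball x₀ (3 * ρ)`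
  have hLip : ∀ y ∈ ball x₀ (3 * ρ), ∀ w : E, ‖w‖ < ρ →
      ‖fderiv ℂ f (y + w) - fderiv ℂ f y‖ ≤ M / ρ ^ 2 * ‖w‖ := by
    intro y hy w hw
    have hsub : ball y (3 * ρ) ⊆ ball x₀ (6 * ρ) := by
      apply ball_subset_ball'
      rw [mem_ball] at hy
      linarith
    exact norm_fderiv_add_sub_le hρ (hfd.mono hsub) (fun z hz => hMb z (hsub hz)) hw
  -- the difference quotients
  set G : ℂ → E → F := fun t x => t⁻¹ • (f (x + t • v) - f x) with hG
  have hsmall : ∀ᶠ t in 𝓝[≠] (0 : ℂ), ‖t‖ * (‖v‖ + 1) < ρ := by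
    have h1 : ∀ᶠ t in 𝓝 (0 : ℂ), ‖t‖ * (‖v‖ + 1) < ρ := by
      have hc : ContinuousAt (fun t : ℂ => ‖t‖ * (‖v‖ + 1)) 0 := by fun_prop
      have := hc.eventually (Iio_mem_nhds (show ‖(0 : ℂ)‖ * (‖v‖ + 1) < ρ by simpa using hρ))
      exact this
    exact h1.filter_mono nhdsWithin_le_nhds
  have htv : ∀ t : ℂ, ‖t‖ * (‖v‖ + 1) < ρ → ‖t • v‖ < ρ := by
    intro t ht
    rw [norm_smul]
    nlinarith [norm_nonneg t, norm_nonneg v]
  have hGd : ∀ᶠ t in 𝓝[≠] (0 : ℂ), DifferentiableOn ℂ (G t) (ball x₀ (2 * ρ)) := by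
    filter_upwards [hsmall] with t ht
    intro x hx
    have hx1 : x ∈ ball x₀ (6 * ρ) := ball_subset_ball (by linarith) hx
    have hx2 : x + t • v ∈ ball x₀ (6 * ρ) := by
      rw [mem_ball_iff_norm] at hx ⊢
      calc ‖x + t • v - x₀‖ = ‖(x - x₀) + t • v‖ := by congr 1; abel
        _ ≤ ‖x - x₀‖ + ‖t • v‖ := norm_add_le _ _
        _ < 6 * ρ := by linarith [htv t ht]
    have h1 : DifferentiableAt ℂ (fun x => f (x + t • v)) x :=
      (hdiffAt _ hx2).comp x (by fun_prop)
    exact ((h1.sub (hdiffAt x hx1)).const_smul t⁻¹).differentiableWithinAt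
  have hconv : TendstoUniformlyOn G (fun x => fderiv ℂ f x v) (𝓝[≠] (0 : ℂ))
      (ball x₀ (2 * ρ)) := by
    rw [Metric.tendstoUniformlyOn_iff]
    intro η hη
    have hsmall2 : ∀ᶠ t in 𝓝[≠] (0 : ℂ), M / ρ ^ 2 * ‖v‖ ^ 2 * ‖t‖ < η := by
      have h1 : ∀ᶠ t in 𝓝 (0 : ℂ), M / ρ ^ 2 * ‖v‖ ^ 2 * ‖t‖ < η := by
        have hc : ContinuousAt (fun t : ℂ => M / ρ ^ 2 * ‖v‖ ^ 2 * ‖t‖) 0 := by fun_prop
        exact hc.eventually (Iio_mem_nhds (show M / ρ ^ 2 * ‖v‖ ^ 2 * ‖(0 : ℂ)‖ < η by
          simpa using hη))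
      exact h1.filter_mono nhdsWithin_le_nhds
    filter_upwards [hsmall, hsmall2, self_mem_nhdsWithin] with t ht ht2 ht0 x hx
    have ht0' : t ≠ 0 := ht0
    have htv' := htv t ht
    have hx3 : x ∈ ball x₀ (3 * ρ) := ball_subset_ball (by linarith) hx
    -- mean value inequality on the closed ball around `x` of radius `‖t • v‖`
    have hsub : closedBall x ‖t • v‖ ⊆ ball x₀ (6 * ρ) := by
      intro z hz
      rw [mem_closedBall, dist_eq_norm] at hz
      rw [mem_ball_iff_norm] at hx ⊢
      calc ‖z - x₀‖ = ‖(z - x) + (x - x₀)‖ := by congr 1; abel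
        _ ≤ ‖z - x‖ + ‖x - x₀‖ := norm_add_le _ _
        _ < 6 * ρ := by linarith
    have hmv := (convex_closedBall x ‖t • v‖).norm_image_sub_le_of_norm_fderiv_le'
      (f := f) (φ := fderiv ℂ f x) (C := M / ρ ^ 2 * ‖t • v‖)
      (fun z hz => hdiffAt z (hsub hz))
      (fun z hz => by
        have hz' : ‖z - x‖ ≤ ‖t • v‖ := by rwa [mem_closedBall, dist_eq_norm] at hz
        have h := hLip x hx3 (z - x) (lt_of_le_of_lt hz' htv')
        rw [add_sub_cancel] at h
        exact h.trans (by gcongr))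
      (mem_closedBall_self (norm_nonneg _))
      (show x + t • v ∈ closedBall x ‖t • v‖ by simp [mem_closedBall, dist_eq_norm])
    rw [add_sub_cancel_left] at hmv
    have hkey : G t x - fderiv ℂ f x v = t⁻¹ • (f (x + t • v) - f x - fderiv ℂ f x (t • v)) := by
      simp only [hG, map_smul, smul_sub, smul_smul, inv_mul_cancel₀ ht0', one_smul]
    rw [dist_comm, dist_eq_norm, hkey, norm_smul, norm_inv]
    have htpos : 0 < ‖t‖ := norm_pos_iff.2 ht0'
    calc ‖t‖⁻¹ * ‖f (x + t • v) - f x - fderiv ℂ f x (t • v)‖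
        ≤ ‖t‖⁻¹ * (M / ρ ^ 2 * ‖t • v‖ * ‖t • v‖) := by gcongr
      _ = M / ρ ^ 2 * ‖v‖ ^ 2 * ‖t‖ := by
        rw [norm_smul]; field_simp
      _ < η := ht2
  have h := differentiableOn_of_tendstoUniformlyOn_ball hGd hconv
  exact (h.differentiableAt (isOpen_ball.mem_nhds (mem_ball_self (by positivity)))).differentiableWithinAt

open scoped ContDiff in
/-- A holomorphic map on an open subset of a finite-dimensional space is `C^n` for every `n`. -/
theorem contDiffOn_nat_of_differentiableOn [FiniteDimensional ℂ E] {U : Set E} (hU : IsOpen U)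
    (n : ℕ) : ∀ {f : E → F}, DifferentiableOn ℂ f U → ContDiffOn ℂ n f U := by
  induction n with
  | zero =>
    intro f hf
    exact contDiffOn_zero.2 hf.continuousOn
  | succ n ih =>
    intro f hf
    have h := contDiffOn_succ_of_fderiv_apply (n := (n : WithTop ℕ∞)) hf
      (fun h => absurd h (by simp)) fun y =>
        (ih (differentiableOn_fderiv_apply hU hf y)).congr fun x hx => by
          rw [fderivWithin_of_isOpen hU hx]
    exact_mod_cast h

open scoped ContDiff in
/-- **Holomorphic maps in several variables are smooth**: a map which is complex differentiable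
on an open subset of a finite-dimensional complex normed space is `C^∞` there. -/
theorem contDiffOn_infty_of_differentiableOn [FiniteDimensional ℂ E] {f : E → F} {U : Set E}
    (hU : IsOpen U) (hf : DifferentiableOn ℂ f U) : ContDiffOn ℂ ∞ f U :=
  contDiffOn_infty.2 fun n => contDiffOn_nat_of_differentiableOn hU n hf

/-- The derivative of a holomorphic map (finite-dimensional domain) is holomorphic, as a map into
the space of continuous linear maps. -/
theorem differentiableOn_fderiv [FiniteDimensional ℂ E] {f : E → F} {U : Set E}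
    (hU : IsOpen U) (hf : DifferentiableOn ℂ f U) : DifferentiableOn ℂ (fderiv ℂ f) U := by
  have h2 : ContDiffOn ℂ ((1 : ℕ) + 1 : ℕ) f U := contDiffOn_nat_of_differentiableOn hU 2 hf
  have h3 : ContDiffOn ℂ (1 + 1) f U := by exact_mod_cast h2
  exact ((contDiffOn_succ_iff_fderiv_of_isOpen hU).1 h3).2.2.differentiableOn (by simp)

end Higher

/-! ### Holomorphic maps are analytic -/

section Analytic

variable [CompleteSpace F] [FiniteDimensional ℂ E]

open scoped ContDiff in
/-- The iterated derivatives of a holomorphic map are holomorphic. -/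
theorem differentiableOn_iteratedFDeriv {f : E → F} {U : Set E} (hU : IsOpen U)
    (hf : DifferentiableOn ℂ f U) (n : ℕ) : DifferentiableOn ℂ (iteratedFDeriv ℂ n f) U := by
  have h := (contDiffOn_infty_of_differentiableOn hU hf).differentiableOn_iteratedFDerivWithin
    (m := n) (by exact_mod_cast ENat.natCast_lt_top n) hU.uniqueDiffOn
  exact h.congr fun x hx => (iteratedFDerivWithin_of_isOpen n hU hx).symm

/-- **Cauchy estimates** for the iterated Fréchet derivatives of a holomorphic map. -/
theorem norm_iteratedFDeriv_le {f : E → F} {U : Set E} (hU : IsOpen U)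
    (hf : DifferentiableOn ℂ f U) {M : ℝ} (n : ℕ) :
    ∀ {x : E} {s : ℝ}, 0 < s → ball x s ⊆ U → (∀ y ∈ ball x s, ‖f y‖ ≤ M) →
      ‖iteratedFDeriv ℂ n f x‖ ≤ M * ((n : ℝ) / s) ^ n := by
  induction n with
  | zero =>
    intro x s hs _ hM
    simpa [norm_iteratedFDeriv_zero] using hM x (mem_ball_self hs)
  | succ n ih =>
    intro x s hs hsU hM
    have hM0 : 0 ≤ M := (norm_nonneg _).trans (hM x (mem_ball_self hs))
    have hn1 : (0 : ℝ) < (n : ℝ) + 1 := by positivity
    set δ : ℝ := s / ((n : ℝ) + 1) with hδdef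
    have hδ : 0 < δ := by positivity
    have hδs : δ ≤ s := by
      rw [hδdef, div_le_iff₀ hn1]
      nlinarith [Nat.cast_nonneg (α := ℝ) n]
    have hsub : ball x δ ⊆ U := (ball_subset_ball hδs).trans hsU
    -- bound for the `n`-th derivative on `ball x δ`
    have hB : ∀ y ∈ ball x δ, ‖iteratedFDeriv ℂ n f y‖ ≤ M * (((n : ℝ) + 1) / s) ^ n := by
      intro y hy
      rcases Nat.eq_zero_or_pos n with rfl | hnpos
      · simpa [norm_iteratedFDeriv_zero] using hM y (ball_subset_ball hδs hy)
      have hnpos' : (0 : ℝ) < n := by exact_mod_cast hnpos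
      have hs' : 0 < s - δ := by
        have : δ < s := by
          rw [hδdef, div_lt_iff₀ hn1]
          nlinarith
        linarith
      have hsub' : ball y (s - δ) ⊆ ball x s := by
        apply ball_subset_ball'
        rw [mem_ball] at hy
        linarith
      have h := ih hs' (hsub'.trans hsU) (fun z hz => hM z (hsub' hz))
      have heq : (n : ℝ) / (s - δ) = ((n : ℝ) + 1) / s := by
        rw [div_eq_div_iff hs'.ne' hs.ne', hδdef]
        field_simp
        ring
      rwa [heq] at h
    have hd : DifferentiableOn ℂ (iteratedFDeriv ℂ n f) (ball x δ) :=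
      (differentiableOn_iteratedFDeriv hU hf n).mono hsub
    have h := norm_fderiv_le_of_forall_mem_ball_norm_le hd hB hδ
    rw [norm_fderiv_iteratedFDeriv] at h
    calc ‖iteratedFDeriv ℂ (n + 1) f x‖ ≤ M * (((n : ℝ) + 1) / s) ^ n / δ := h
      _ = M * (((n + 1 : ℕ) : ℝ) / s) ^ (n + 1) := by
        rw [hδdef, pow_succ]
        push_cast
        field_simp

/-- Taylor expansion along complex lines: the Taylor series of a holomorphic map at `c` converges
to the map on every ball around `c` on which the map is holomorphic. -/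
theorem hasSum_iteratedFDeriv_of_differentiableOn {f : E → F} {c : E} {R : ℝ}
    (hf : DifferentiableOn ℂ f (ball c R)) {y : E} (hy : ‖y‖ < R) :
    HasSum (fun n : ℕ => ((n.factorial : ℂ)⁻¹ • iteratedFDeriv ℂ n f c) fun _ => y)
      (f (c + y)) := by
  have hR : 0 < R := (norm_nonneg y).trans_lt hy
  -- the translated map
  set h : E → F := fun u => f (c + u) with hh
  have hhd : DifferentiableOn ℂ h (ball (0 : E) R) := by
    refine hf.comp (by fun_prop) fun u hu => ?_
    rw [mem_ball_zero_iff] at hu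
    simpa [mem_ball_iff_norm] using hu
  have hhc := contDiffOn_infty_of_differentiableOn isOpen_ball hhd
  -- the line
  set L : ℂ →L[ℂ] E := ContinuousLinearMap.toSpanSingleton ℂ y with hL
  have hLz : ∀ z : ℂ, L z = z • y := fun z => by simp [hL, ContinuousLinearMap.toSpanSingleton_apply]
  set m : ℝ := max ‖y‖ (R / 2) with hm
  have hm0 : 0 < m := lt_of_lt_of_le (by positivity) (le_max_right _ _)
  have hmR : m < R := max_lt hy (by linarith)
  have hym : ‖y‖ ≤ m := le_max_left _ _
  have hmaps : ∀ z ∈ ball (0 : ℂ) (R / m), L z ∈ ball (0 : E) R := by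
    intro z hz
    rw [mem_ball_zero_iff] at hz ⊢
    rw [hLz, norm_smul]
    have h1 : ‖z‖ * m < R := (lt_div_iff₀ hm0).1 hz
    calc ‖z‖ * ‖y‖ ≤ ‖z‖ * m := by gcongr
      _ < R := h1
  have hgd : DifferentiableOn ℂ (h ∘ L) (ball (0 : ℂ) (R / m)) :=
    hhd.comp L.differentiableOn hmaps
  have h1mem : (1 : ℂ) ∈ ball (0 : ℂ) (R / m) := by
    rw [mem_ball_zero_iff, norm_one, lt_div_iff₀ hm0]
    linarith
  have hT := Complex.hasSum_taylorSeries_on_ball hgd h1mem
  have hval : (h ∘ L) 1 = f (c + y) := by simp [hh, hLz]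
  rw [hval] at hT
  -- identify the iterated derivatives
  have hiter : ∀ n : ℕ, iteratedDeriv n (h ∘ L) 0 = iteratedFDeriv ℂ n f c fun _ => y := by
    intro n
    have hopen : IsOpen (L ⁻¹' ball (0 : E) R) := isOpen_ball.preimage L.continuous
    have h0 : (0 : ℂ) ∈ L ⁻¹' ball (0 : E) R := by simp [hR]
    have hL0 : L 0 ∈ ball (0 : E) R := by simpa using h0
    have h1 := L.iteratedFDerivWithin_comp_right (f := h) (i := n) hhc isOpen_ball.uniqueDiffOn
      hopen.uniqueDiffOn hL0 (by exact_mod_cast le_top)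
    rw [iteratedFDerivWithin_of_isOpen n hopen h0, iteratedFDerivWithin_of_isOpen n isOpen_ball hL0]
      at h1
    rw [iteratedDeriv_eq_iteratedFDeriv, h1, map_zero, hh, iteratedFDeriv_comp_add_left, add_zero]
    simp [hLz]
  convert hT using 2 with n
  rw [hiter n]
  simp

/-- A holomorphic bounded map on a ball has a power series expansion at the centre. -/
theorem hasFPowerSeriesOnBall_of_differentiableOn {f : E → F} {c : E} {R M : ℝ} (hR : 0 < R)
    (hf : DifferentiableOn ℂ f (ball c R)) (hM : ∀ y ∈ ball c R, ‖f y‖ ≤ M) :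
    HasFPowerSeriesOnBall f (fun n => (n.factorial : ℂ)⁻¹ • iteratedFDeriv ℂ n f c) c
      (ENNReal.ofReal (R / Real.exp 1)) := by
  have he : 0 < Real.exp 1 := Real.exp_pos 1
  have hr : 0 < R / Real.exp 1 := div_pos hR he
  have hM0 : 0 ≤ M := (norm_nonneg _).trans (hM c (mem_ball_self hR))
  refine ⟨?_, ENNReal.ofReal_pos.2 hr, fun {y} hy => ?_⟩
  · rw [ENNReal.ofReal]
    refine FormalMultilinearSeries.le_radius_of_bound _ M fun n => ?_
    have h1 := norm_iteratedFDeriv_le isOpen_ball hf n hR subset_rfl hM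
    have h2 : (n : ℝ) ^ n / n.factorial ≤ Real.exp 1 ^ n := by
      rw [← Real.exp_nat_mul, mul_one]
      exact Real.pow_div_factorial_le_exp (n : ℝ) (Nat.cast_nonneg n) n
    have hfac : (0 : ℝ) < n.factorial := by exact_mod_cast n.factorial_pos
    rw [Real.coe_toNNReal _ hr.le, norm_smul, norm_inv, Complex.norm_natCast]
    calc (n.factorial : ℝ)⁻¹ * ‖iteratedFDeriv ℂ n f c‖ * (R / Real.exp 1) ^ n
        ≤ (n.factorial : ℝ)⁻¹ * (M * ((n : ℝ) / R) ^ n) * (R / Real.exp 1) ^ n := by gcongr
      _ = M * ((n : ℝ) ^ n / n.factorial) / Real.exp 1 ^ n := by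
        rw [div_pow, div_pow]
        field_simp
      _ ≤ M * Real.exp 1 ^ n / Real.exp 1 ^ n := by gcongr
      _ = M := by field_simp
  · have hy' : ‖y‖ < R := by
      have h1 : ‖y‖ < R / Real.exp 1 := by
        rw [Metric.mem_eball, edist_zero_right, ← ofReal_norm, ENNReal.ofReal_lt_ofReal_iff hr] at hy
        exact hy
      have h2 : R / Real.exp 1 ≤ R := div_le_self hR.le (by
        have := Real.add_one_le_exp (1 : ℝ); linarith)
      linarith
    exact hasSum_iteratedFDeriv_of_differentiableOn hf hy'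

/-- **Holomorphic maps in several variables are analytic**: a map which is complex differentiable
on an open subset of a finite-dimensional complex normed space is analytic there. -/
theorem analyticOnNhd_of_differentiableOn {f : E → F} {U : Set E} (hU : IsOpen U)
    (hf : DifferentiableOn ℂ f U) : AnalyticOnNhd ℂ f U := by
  intro c hc
  have hx : DifferentiableAt ℂ f c := hf.differentiableAt (hU.mem_nhds hc)
  have hbd : ∀ᶠ y in 𝓝 c, ‖f y‖ ≤ ‖f c‖ + 1 := by
    have h1 : ∀ᶠ y in 𝓝 c, ‖f y‖ < ‖f c‖ + 1 :=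
      hx.continuousAt.norm.eventually (Iio_mem_nhds (lt_add_one _))
    exact h1.mono fun y hy => hy.le
  obtain ⟨ε, hε, hball⟩ := Metric.eventually_nhds_iff_ball.1 ((hU.eventually_mem hc).and hbd)
  exact (hasFPowerSeriesOnBall_of_differentiableOn hε
    (hf.mono fun y hy => (hball y hy).1) fun y hy => (hball y hy).2).analyticAt

/-- On an open subset of a finite-dimensional complex normed space, complex differentiability is
equivalent to analyticity. -/
theorem analyticOnNhd_iff_differentiableOn {f : E → F} {U : Set E} (hU : IsOpen U) :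
    AnalyticOnNhd ℂ f U ↔ DifferentiableOn ℂ f U :=
  ⟨fun h => h.differentiableOn, analyticOnNhd_of_differentiableOn hU⟩

/-- A map which is complex differentiable near a point of a finite-dimensional complex normed
space is analytic at that point. -/
theorem analyticAt_of_eventually_differentiableAt {f : E → F} {x : E}
    (hf : ∀ᶠ y in 𝓝 x, DifferentiableAt ℂ f y) : AnalyticAt ℂ f x := by
  obtain ⟨ε, hε, hball⟩ := Metric.eventually_nhds_iff_ball.1 hf
  exact analyticOnNhd_of_differentiableOn isOpen_ball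
    (fun y hy => (hball y hy).differentiableWithinAt) x (mem_ball_self hε)

open scoped ContDiff in
/-- A holomorphic map on an open subset of a finite-dimensional space is `C^ω`. -/
theorem contDiffOn_omega_of_differentiableOn {f : E → F} {U : Set E} (hU : IsOpen U)
    (hf : DifferentiableOn ℂ f U) : ContDiffOn ℂ ω f U :=
  (analyticOnNhd_of_differentiableOn hU hf).contDiffOn_of_completeSpace

/-- A map which is complex differentiable near a point of a finite-dimensional complex normed
space is `C^n` at that point, for every `n` (including `ω`). -/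
theorem contDiffAt_of_eventually_differentiableAt {f : E → F} {x : E}
    (hf : ∀ᶠ y in 𝓝 x, DifferentiableAt ℂ f y) {n : WithTop ℕ∞} : ContDiffAt ℂ n f x :=
  (analyticAt_of_eventually_differentiableAt hf).contDiffAt

/-- An entire map on a finite-dimensional complex normed space is analytic. -/
theorem analyticOnNhd_univ_of_differentiable {f : E → F} (hf : Differentiable ℂ f) :
    AnalyticOnNhd ℂ f univ :=
  analyticOnNhd_of_differentiableOn isOpen_univ hf.differentiableOn

/-- **Weierstrass convergence theorem**, analytic form: a locally uniform limit of analytic maps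
on an open subset of a finite-dimensional complex normed space is analytic. -/
theorem analyticOnNhd_of_tendstoLocallyUniformlyOn {ι : Type*} {p : Filter ι} [NeBot p]
    {G : ι → E → F} {f : E → F} {U : Set E} (hU : IsOpen U)
    (hG : ∀ᶠ n in p, AnalyticOnNhd ℂ (G n) U) (hconv : TendstoLocallyUniformlyOn G f p U) :
    AnalyticOnNhd ℂ f U :=
  analyticOnNhd_of_differentiableOn hU
    (differentiableOn_of_tendstoLocallyUniformlyOn hU (hG.mono fun _ hn => hn.differentiableOn)
      hconv)

end Analytic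

end Fermat.Agent.Lib.helper1527
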