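import Fermat.Agent.Lib.helper1558_LegKer
import Fermat.Agent.S05.helper245_Local
import Fermat.Agent.S05.helper1445_Top

set_option autoImplicit false

/-!
# The local theorem for the Frey curve at an odd prime `q`, with `q = p` allowed

`K = ℚ̄`, `A` a valuation subring of `K` over an odd prime `q`, `E` the Frey curve of a Frey
package `P` over `K`.  The kernel of reduction is `InKer A T := T = 0 ∨ x(T) ∉ A`.

* `frey_inKer_add`, `inKer_neg`, `freyKer` : the kernel of reduction is a subgroup;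
* `frey_inertia_sub_inKer` : for `σ` in the inertia group of `A` and `T` with `p • T = 0`,
  `σ • T - T` lies in the kernel of reduction.  **No hypothesis `q ≠ p`.**
* `frey_inKer_torsion_eq_zero` : if `q ≠ p`, a `p`-torsion point in the kernel of reduction is `0`.

The last two together reprove S05; the first two at `q = p` are the local input for the
analysis of inertia at `p` (S13, ingredient `at_p`).

Everything is obtained from the abstract theorems of `helper1558_LegKer` (built on `helper245`'s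
Legendre-coordinatised groups) through the variable changes of `helper725`.
-/

namespace Fermat.Agent.Lib.helper1558

open WeierstrassCurve WeierstrassCurve.Affine WeierstrassCurve.Affine.Point
open Fermat.Agent.S05.helper245 Fermat.Agent.S05.helper725 Fermat.Agent.S05.helper1445

local notation "Qbar" => AlgebraicClosure ℚ

section General

variable {F : Type*} [Field F]

/-- The kernel of reduction with respect to a valuation subring `A`: the point at infinity, or
an affine point whose `x`-coordinate is not in `A`. -/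
def InKer {W : Affine F} (A : ValuationSubring F) (T : W.Point) : Prop :=
  T = 0 ∨ ptX T ∉ A

theorem inKer_zero {W : Affine F} (A : ValuationSubring F) : InKer A (0 : W.Point) :=
  Or.inl rfl

theorem inKer_iff_val {W : Affine F} (A : ValuationSubring F) (T : W.Point) :
    InKer A T ↔ T = 0 ∨ 1 < A.valuation (ptX T) := by
  unfold InKer
  rw [← A.valuation_le_one_iff, not_le]

theorem inKer_some_iff {W : Affine F} (A : ValuationSubring F) {x y : F}
    (h : W.Nonsingular x y) : InKer A (Point.some x y h) ↔ x ∉ A := by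
  unfold InKer
  constructor
  · rintro (h0 | h0)
    · exact absurd h0 (Point.some_ne_zero _)
    · exact h0
  · intro h0; exact Or.inr h0

theorem inKer_neg [DecidableEq F] {W : Affine F} (A : ValuationSubring F) {T : W.Point} (hT : InKer A T) :
    InKer A (-T) := by
  cases T with
  | zero => exact Or.inl rfl
  | some x y h =>
    rw [Point.neg_some]
    exact (inKer_some_iff A _).mpr ((inKer_some_iff A h).mp hT)

/-- The kernel of reduction is invariant under a change of variables `(u²x + r, …)` with `u` a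
unit of `A` and `r ∈ A`. -/
theorem inKer_vcHom_iff [DecidableEq F] {W₁ W₂ : WeierstrassCurve F} {u r s t : F}
    (h : IsVarChange W₁ W₂ u r s t) (A : ValuationSubring F) (hu : A.valuation u = 1)
    (hr : r ∈ A) (T : W₁.toAffine.Point) : InKer A (vcHom h T) ↔ InKer A T := by
  cases T with
  | zero =>
    have : vcHom h (0 : W₁.toAffine.Point) = 0 := _root_.map_zero _
    constructor
    · intro _; exact Or.inl rfl
    · intro _; exact Or.inl this
  | some x y hxy =>
    rw [vcHom_some, inKer_some_iff, inKer_some_iff]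
    have huA : u ∈ A := (A.valuation_le_one_iff u).mp hu.le
    have hu0 : u ≠ 0 := h.hu
    have huinv : u⁻¹ ∈ A := by
      rw [← A.valuation_le_one_iff, map_inv₀, hu, inv_one]
    constructor
    · intro hx hxA
      exact hx (A.add_mem _ _ (A.mul_mem _ _ (A.pow_mem huA 2) hxA) hr)
    · intro hx hxA
      apply hx
      have h1 : u ^ 2 * x ∈ A := by
        have := sub_mem hxA hr
        rwa [add_sub_cancel_right] at this
      have h2 : x = (u⁻¹) ^ 2 * (u ^ 2 * x) := by
        field_simp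
      rw [h2]
      exact A.mul_mem _ _ (A.pow_mem huinv 2) h1

end General

section Legendre

variable (A : ValuationSubring Qbar) (W : WeierstrassCurve ℚ)

/-- Legendre coordinates on the `ℚ̄`-points of `Y² = X³ + a₂ X² + a₄ X` (coefficients in `ℚ`). -/
theorem legendre_isLegCoord (h₁ : W.a₁ = 0) (h₃ : W.a₃ = 0) (h₆ : W.a₆ = 0) :
    IsLegCoord (algebraMap ℚ Qbar W.a₂) (algebraMap ℚ Qbar W.a₄)
      (ptX (W := (W⁄Qbar))) (ptY (W := (W⁄Qbar))) := by
  have e₁ : (W⁄Qbar).a₁ = 0 := by simp [WeierstrassCurve.baseChange, h₁]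
  have e₃ : (W⁄Qbar).a₃ = 0 := by simp [WeierstrassCurve.baseChange, h₃]
  have e₆ : (W⁄Qbar).a₆ = 0 := by simp [WeierstrassCurve.baseChange, h₆]
  have e₂ : (W⁄Qbar).a₂ = algebraMap ℚ Qbar W.a₂ := by simp [WeierstrassCurve.baseChange]
  have e₄ : (W⁄Qbar).a₄ = algebraMap ℚ Qbar W.a₄ := by simp [WeierstrassCurve.baseChange]
  have hL := isLegCoord_of_short (W := (W⁄Qbar)) e₁ e₃ e₆
  rw [e₂, e₄] at hL
  exact hL

/-- The kernel of reduction of a Legendre-type model with integral coefficients is closed under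
addition. -/
theorem legendre_inKer_add (h₁ : W.a₁ = 0) (h₃ : W.a₃ = 0) (h₆ : W.a₆ = 0)
    (ha₂ : algebraMap ℚ Qbar W.a₂ ∈ A) (ha₄ : algebraMap ℚ Qbar W.a₄ ∈ A)
    {P Q : (W⁄Qbar).Point} (hP : InKer A P) (hQ : InKer A Q) : InKer A (P + Q) := by
  have hL := legendre_isLegCoord W h₁ h₃ h₆
  have hva : A.valuation (algebraMap ℚ Qbar W.a₂) ≤ 1 := (A.valuation_le_one_iff _).mpr ha₂
  have hvb : A.valuation (algebraMap ℚ Qbar W.a₄) ≤ 1 := (A.valuation_le_one_iff _).mpr ha₄
  rw [inKer_iff_val] at hP hQ ⊢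
  have hP' : P ∈ E1 A.valuation hL hva hvb := hP
  have hQ' : Q ∈ E1 A.valuation hL hva hvb := hQ
  exact add_mem hP' hQ'

/-- A torsion point of order prime to the residue characteristic in the kernel of reduction of
a Legendre-type model is `0`. -/
theorem legendre_inKer_torsion_eq_zero (h₁ : W.a₁ = 0) (h₃ : W.a₃ = 0) (h₆ : W.a₆ = 0)
    (ha₂ : algebraMap ℚ Qbar W.a₂ ∈ A) (ha₄ : algebraMap ℚ Qbar W.a₄ ∈ A)
    {n : ℕ} (hnv : A.valuation (n : Qbar) = 1)
    {P : (W⁄Qbar).Point} (hP : n • P = 0) (hK : InKer A P) : P = 0 := by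
  have hL := legendre_isLegCoord W h₁ h₃ h₆
  have hva : A.valuation (algebraMap ℚ Qbar W.a₂) ≤ 1 := (A.valuation_le_one_iff _).mpr ha₂
  have hvb : A.valuation (algebraMap ℚ Qbar W.a₄) ≤ 1 := (A.valuation_le_one_iff _).mpr ha₄
  rw [inKer_iff_val] at hK
  by_contra hP0
  exact E1_torsion_free A.valuation hL hva hvb hnv hP0 (hK.resolve_left hP0) hP

/-- **Local theorem on Legendre-type models, without any hypothesis on `v n`**: an
automorphism acting trivially modulo the maximal ideal of `A` moves every `n`-torsion point by an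
element of the kernel of reduction. -/
theorem legendre_sub_inKer (h₁ : W.a₁ = 0) (h₃ : W.a₃ = 0) (h₆ : W.a₆ = 0) (h₄ : W.a₄ ≠ 0)
    (ha₂ : algebraMap ℚ Qbar W.a₂ ∈ A) (ha₄ : algebraMap ℚ Qbar W.a₄ ∈ A)
    (h2 : A.valuation (2 : Qbar) = 1)
    (hdisc : A.valuation (algebraMap ℚ Qbar (W.a₂ ^ 2 - 4 * W.a₄)) = 1)
    (σ : Qbar ≃ₐ[ℚ] Qbar) (hσ : ∀ x, x ∈ A → σ x - x ∈ A.nonunits)
    (n : ℕ) (hn : n.Prime) (hn2 : n ≠ 2)
    (hcase : A.valuation (algebraMap ℚ Qbar W.a₄) = 1 ∨
      ∃ w : ℚ, A.valuation (algebraMap ℚ Qbar W.a₄) = A.valuation (algebraMap ℚ Qbar w) ^ n)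
    (P : (W⁄Qbar).Point) (hP : n • P = 0) : InKer A (σ • P - P) := by
  have hL := legendre_isLegCoord W h₁ h₃ h₆
  have e₆ : (W⁄Qbar).a₆ = 0 := by simp [WeierstrassCurve.baseChange, h₆]
  have e₄ : (W⁄Qbar).a₄ = algebraMap ℚ Qbar W.a₄ := by simp [WeierstrassCurve.baseChange]
  have hva : A.valuation (algebraMap ℚ Qbar W.a₂) ≤ 1 := (A.valuation_le_one_iff _).mpr ha₂
  have hvb : A.valuation (algebraMap ℚ Qbar W.a₄) ≤ 1 := (A.valuation_le_one_iff _).mpr ha₄
  have hdisc' : A.valuation ((algebraMap ℚ Qbar W.a₂) ^ 2 - 4 * algebraMap ℚ Qbar W.a₄) = 1 := by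
    rw [← hdisc]; congr 1; simp
  have hs : ∀ u : Qbar, A.valuation u ≤ 1 → A.valuation (σ u - u) < 1 := fun u hu =>
    (A.mem_nonunits_iff).mp (hσ u ((A.valuation_le_one_iff u).mp hu))
  have hτ0 : ∀ Q : (W⁄Qbar).Point, Q ≠ 0 → Point.map (W' := W) σ.toAlgHom Q ≠ 0 := by
    intro Q hQ
    cases Q with
    | zero => exact absurd rfl hQ
    | some x y h => rw [Point.map_some]; exact Point.some_ne_zero _
  have hτX : ∀ Q : (W⁄Qbar).Point, Q ≠ 0 →
      ptX (Point.map (W' := W) σ.toAlgHom Q) = (σ : Qbar →+* Qbar) (ptX Q) := by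
    intro Q hQ
    cases Q with
    | zero => exact absurd rfl hQ
    | some x y h => rw [Point.map_some]; rfl
  have hτY : ∀ Q : (W⁄Qbar).Point, Q ≠ 0 →
      ptY (Point.map (W' := W) σ.toAlgHom Q) = (σ : Qbar →+* Qbar) (ptY Q) := by
    intro Q hQ
    cases Q with
    | zero => exact absurd rfl hQ
    | some x y h => rw [Point.map_some]; rfl
  rw [algEquiv_smul_def, inKer_iff_val]
  have good : A.valuation (algebraMap ℚ Qbar W.a₄) = 1 →
      Point.map (W' := W) σ.toAlgHom P - P = 0 ∨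
        1 < A.valuation (ptX (Point.map (W' := W) σ.toAlgHom P - P)) := fun hb =>
    good_sub_mem A.valuation hL hva hb hdisc' h2 hn hn2 (Point.map (W' := W) σ.toAlgHom) hτ0
      (σ : Qbar →+* Qbar) hτX hτY hs hP
  rcases hcase with hb | ⟨w, hw⟩
  · exact good hb
  · rcases hvb.lt_or_eq with hlt | heq
    · have hb0 : algebraMap ℚ Qbar W.a₄ ≠ 0 := by
        rw [Ne, map_eq_zero]; exact h₄
      have hva1 : A.valuation (algebraMap ℚ Qbar W.a₂) = 1 := by
        apply eq_of_sq_eq_sq'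
        have h4b : A.valuation (4 * algebraMap ℚ Qbar W.a₄) <
            A.valuation ((algebraMap ℚ Qbar W.a₂) ^ 2 - 4 * algebraMap ℚ Qbar W.a₄) := by
          rw [hdisc', (A.valuation).map_mul]
          calc A.valuation 4 * A.valuation (algebraMap ℚ Qbar W.a₄)
              ≤ 1 * A.valuation (algebraMap ℚ Qbar W.a₄) := by
                gcongr; exact val_four_le_one _
            _ = A.valuation (algebraMap ℚ Qbar W.a₄) := one_mul _
            _ < 1 := hlt
        have e : (algebraMap ℚ Qbar W.a₂) ^ 2 =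
            ((algebraMap ℚ Qbar W.a₂) ^ 2 - 4 * algebraMap ℚ Qbar W.a₄) +
              4 * algebraMap ℚ Qbar W.a₄ := by ring
        rw [← (A.valuation).map_pow, e, (A.valuation).map_add_eq_of_lt_left h4b, hdisc', one_pow]
      obtain ⟨β, hβ⟩ := IsAlgClosed.exists_pow_nat_eq (algebraMap ℚ Qbar W.a₂) (n := 2)
        (by norm_num)
      have hT : (W⁄Qbar).Nonsingular 0 0 := by
        rw [nonsingular_zero]
        exact ⟨e₆, Or.inr (by rw [e₄]; exact hb0)⟩
      have hT0 : Point.some 0 0 hT ≠ 0 := Point.some_ne_zero _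
      exact node_sub_mem A.valuation hL hva1 hlt hb0 h2 hβ hT0 rfl rfl hn hn2
        (Point.map (W' := W) σ.toAlgHom) hτ0 (σ : Qbar →+* Qbar) hτX hτY hs
        (d := algebraMap ℚ Qbar w) (σ.commutes w) hw hP
    · exact good heq

end Legendre

section Frey

/-- The local theorem for the Legendre model `Y² = X³ + a₂ X² + e w^p X` attached to integer
data (`e = ±1`, `a₂² - 4 e w^p = d²` with `q ∤ d`), at an odd prime `q`; `q = p` is allowed. -/
theorem legendreModel_sub_inKer {q p : ℕ} (hq : q.Prime) (hq2 : q ≠ 2) (hp : p.Prime)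
    (hp2 : p ≠ 2) (a₂ w d : ℤ) (hw : w ≠ 0) (e : ℤ) (he : e = 1 ∨ e = -1)
    (hd : ¬ (q : ℤ) ∣ d) (hdisc : a₂ ^ 2 - 4 * (e * w ^ p) = d ^ 2)
    {A : ValuationSubring Qbar} (hA : A.LiesOverPrime q) {σ : Qbar ≃ₐ[ℚ] Qbar}
    (hσ : σ ∈ A.inertiaSubgroupIn ℚ)
    (T : ((legendreModel (a₂ : ℚ) ((e : ℚ) * (w : ℚ) ^ p))⁄Qbar).Point) (hT : p • T = 0) :
    InKer A (σ • T - T) := by
  have hA' : (q : Qbar) ∈ A.nonunits := hA
  obtain ⟨-, hσ2⟩ := inertia_facts hσ
  have he0 : (e : ℚ) ≠ 0 := by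
    rcases he with rfl | rfl <;> norm_num
  have hve : A.valuation ((e : ℤ) : Qbar) = 1 := by
    rcases he with rfl | rfl <;> simp
  refine legendre_sub_inKer A (legendreModel (a₂ : ℚ) ((e : ℚ) * (w : ℚ) ^ p)) rfl rfl rfl ?_ ?_ ?_
    (valuation_two_eq_one A hq hA' hq2) ?_ σ hσ2 p hp hp2 (Or.inr ⟨(w : ℚ), ?_⟩) _ hT
  · simp only [legendreModel_a₄]
    exact mul_ne_zero he0 (pow_ne_zero _ (by exact_mod_cast hw))
  · simp only [legendreModel_a₂, map_intCast]
    exact intCast_mem' A a₂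
  · simp only [legendreModel_a₄, map_mul, map_pow, map_intCast]
    exact A.mul_mem _ _ (intCast_mem' A e) (A.pow_mem (intCast_mem' A w) _)
  · have h1 : algebraMap ℚ Qbar ((legendreModel (a₂ : ℚ) ((e : ℚ) * (w : ℚ) ^ p)).a₂ ^ 2
        - 4 * (legendreModel (a₂ : ℚ) ((e : ℚ) * (w : ℚ) ^ p)).a₄) = ((d : ℤ) : Qbar) ^ 2 := by
      simp only [legendreModel_a₂, legendreModel_a₄]
      have h2 : ((a₂ : ℚ) ^ 2 - 4 * ((e : ℚ) * (w : ℚ) ^ p)) = ((d ^ 2 : ℤ) : ℚ) := by
        rw [← hdisc]; push_cast; ring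
      rw [h2]
      simp
    rw [h1, map_pow, valuation_intCast_eq_one A hq hA' hd, one_pow]
  · simp only [legendreModel_a₄, map_mul, map_pow, map_intCast]
    rw [hve, one_mul]

variable (P : FreyPackage)

/-- The change of variables from the Frey curve to `Y² = X (X - a^p) (X + b^p)`, over `ℚ̄`. -/
theorem frey_isVarChange_Qbar :
    IsVarChange (P.freyCurve⁄Qbar)
      ((legendreModel ((P.b : ℚ) ^ P.p - (P.a : ℚ) ^ P.p)
        (-((P.a : ℚ) ^ P.p * (P.b : ℚ) ^ P.p)))⁄Qbar)
      (algebraMap ℚ Qbar 2) (algebraMap ℚ Qbar 0) (algebraMap ℚ Qbar 1) (algebraMap ℚ Qbar 0) :=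
  (frey_isVarChange P).map (algebraMap ℚ Qbar)

/-- The change of variables from the Frey curve to `Y² = X (X + a^p) (X + c^p)`, over `ℚ̄`. -/
theorem frey_isVarChange_shift_Qbar :
    IsVarChange (P.freyCurve⁄Qbar)
      ((legendreModel ((P.a : ℚ) ^ P.p + (P.c : ℚ) ^ P.p)
        ((P.a : ℚ) ^ P.p * (P.c : ℚ) ^ P.p))⁄Qbar)
      (algebraMap ℚ Qbar 2) (algebraMap ℚ Qbar (-((P.a : ℚ) ^ P.p))) (algebraMap ℚ Qbar 1)
      (algebraMap ℚ Qbar 0) :=
  (frey_isVarChange_shift P).map (algebraMap ℚ Qbar)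

variable {P}

theorem val_algebraMap_two {q : ℕ} (hq : q.Prime) (hq2 : q ≠ 2) {A : ValuationSubring Qbar}
    (hA : A.LiesOverPrime q) : A.valuation (algebraMap ℚ Qbar 2) = 1 := by
  have := valuation_two_eq_one A hq hA hq2
  simpa using this

/-- **The kernel of reduction of the Frey curve at an odd prime is closed under addition.** -/
theorem frey_inKer_add {q : ℕ} (hq : q.Prime) (hq2 : q ≠ 2) {A : ValuationSubring Qbar}
    (hA : A.LiesOverPrime q) {T₁ T₂ : (P.freyCurve⁄Qbar).Point} (h₁ : InKer A T₁)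
    (h₂ : InKer A T₂) : InKer A (T₁ + T₂) := by
  have hK := frey_isVarChange_Qbar P
  have hu := val_algebraMap_two hq hq2 hA
  have hr : algebraMap ℚ Qbar 0 ∈ A := by rw [_root_.map_zero]; exact A.zero_mem
  rw [← inKer_vcHom_iff hK A hu hr] at h₁ h₂ ⊢
  rw [map_add]
  refine legendre_inKer_add A _ rfl rfl rfl ?_ ?_ h₁ h₂
  · have : algebraMap ℚ Qbar ((P.b : ℚ) ^ P.p - (P.a : ℚ) ^ P.p) =
        ((P.b ^ P.p - P.a ^ P.p : ℤ) : Qbar) := by
      push_cast; simp
    rw [legendreModel_a₂, this]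
    exact intCast_mem' A _
  · have : algebraMap ℚ Qbar (-((P.a : ℚ) ^ P.p * (P.b : ℚ) ^ P.p)) =
        ((-(P.a ^ P.p * P.b ^ P.p) : ℤ) : Qbar) := by
      push_cast; simp
    rw [legendreModel_a₄, this]
    exact intCast_mem' A _

/-- The kernel of reduction of the Frey curve at an odd prime, as a subgroup. -/
noncomputable def freyKer (P : FreyPackage) {q : ℕ} (hq : q.Prime) (hq2 : q ≠ 2) {A : ValuationSubring Qbar}
    (hA : A.LiesOverPrime q) : AddSubgroup (P.freyCurve⁄Qbar).Point where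
  carrier := {T | InKer A T}
  zero_mem' := inKer_zero A
  add_mem' := fun h₁ h₂ => frey_inKer_add hq hq2 hA h₁ h₂
  neg_mem' := fun h => inKer_neg A h

theorem mem_freyKer {q : ℕ} (hq : q.Prime) (hq2 : q ≠ 2) {A : ValuationSubring Qbar}
    (hA : A.LiesOverPrime q) (T : (P.freyCurve⁄Qbar).Point) :
    T ∈ freyKer P hq hq2 hA ↔ InKer A T := Iff.rfl

/-- **Local theorem for the Frey curve at an odd prime `q` (`q = p` allowed)**: an inertia
element at `q` moves every `p`-torsion point by an element of the kernel of reduction. -/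
theorem frey_inertia_sub_inKer (P : FreyPackage) {q : ℕ} (hq : q.Prime) (hq2 : q ≠ 2)
    {A : ValuationSubring Qbar} (hA : A.LiesOverPrime q) {σ : Qbar ≃ₐ[ℚ] Qbar}
    (hσ : σ ∈ A.inertiaSubgroupIn ℚ) (T : (P.freyCurve⁄Qbar).Point) (hT : P.p • T = 0) :
    InKer A (σ • T - T) := by
  have hp2 : P.p ≠ 2 := by have := P.hp5; omega
  have hFLT := P.hFLT
  have hu := val_algebraMap_two hq hq2 hA
  by_cases hc : (q : ℤ) ∣ P.c
  · -- `q ∣ c`: shifted model `Y² = X (X + a^p) (X + c^p)`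
    have hb : ¬ (q : ℤ) ∣ P.b :=
      not_dvd_of_gcd_eq_one hq (by rw [gcd_comm]; exact P.hgcdbc) hc
    have hK := frey_isVarChange_shift_Qbar P
    have hr : algebraMap ℚ Qbar (-((P.a : ℚ) ^ P.p)) ∈ A := by
      have : algebraMap ℚ Qbar (-((P.a : ℚ) ^ P.p)) = ((-(P.a ^ P.p) : ℤ) : Qbar) := by
        push_cast; simp
      rw [this]; exact intCast_mem' A _
    rw [← inKer_vcHom_iff hK A hu hr, map_sub, vcHom_smul hK]
    have hT' : P.p • vcHom hK T = 0 := by rw [← map_nsmul, hT, _root_.map_zero]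
    have key := legendreModel_sub_inKer hq hq2 P.pp hp2 (P.a ^ P.p + P.c ^ P.p) (P.a * P.c)
      (P.b ^ P.p) (mul_ne_zero P.ha0 P.hc0) 1 (Or.inl rfl)
      (fun h => hb ((Nat.prime_iff_prime_int.mp hq).dvd_of_dvd_pow h))
      (by rw [mul_pow, ← hFLT]; ring) hA hσ
    have e1 : (((P.a ^ P.p + P.c ^ P.p : ℤ) : ℚ)) = (P.a : ℚ) ^ P.p + (P.c : ℚ) ^ P.p := by
      push_cast; ring
    have e2 : ((1 : ℤ) : ℚ) * ((P.a * P.c : ℤ) : ℚ) ^ P.p
        = (P.a : ℚ) ^ P.p * (P.c : ℚ) ^ P.p := by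
      push_cast; ring
    rw [e1, e2] at key
    exact key _ hT'
  · -- `q ∤ c`: model `Y² = X (X - a^p) (X + b^p)`
    have hK := frey_isVarChange_Qbar P
    have hr : algebraMap ℚ Qbar 0 ∈ A := by rw [_root_.map_zero]; exact A.zero_mem
    rw [← inKer_vcHom_iff hK A hu hr, map_sub, vcHom_smul hK]
    have hT' : P.p • vcHom hK T = 0 := by rw [← map_nsmul, hT, _root_.map_zero]
    have key := legendreModel_sub_inKer hq hq2 P.pp hp2 (P.b ^ P.p - P.a ^ P.p) (P.a * P.b)
      (P.c ^ P.p) (mul_ne_zero P.ha0 P.hb0) (-1) (Or.inr rfl)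
      (fun h => hc ((Nat.prime_iff_prime_int.mp hq).dvd_of_dvd_pow h))
      (by rw [mul_pow, ← hFLT]; ring) hA hσ
    have e1 : (((P.b ^ P.p - P.a ^ P.p : ℤ) : ℚ)) = (P.b : ℚ) ^ P.p - (P.a : ℚ) ^ P.p := by
      push_cast; ring
    have e2 : ((-1 : ℤ) : ℚ) * ((P.a * P.b : ℤ) : ℚ) ^ P.p
        = -((P.a : ℚ) ^ P.p * (P.b : ℚ) ^ P.p) := by
      push_cast; ring
    rw [e1, e2] at key
    exact key _ hT'

/-- If `q ≠ p`, the kernel of reduction of the Frey curve at the odd prime `q` contains no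
nonzero `p`-torsion point. -/
theorem frey_inKer_torsion_eq_zero (P : FreyPackage) {q : ℕ} (hq : q.Prime) (hq2 : q ≠ 2)
    (hqp : q ≠ P.p) {A : ValuationSubring Qbar} (hA : A.LiesOverPrime q)
    {T : (P.freyCurve⁄Qbar).Point} (hT : P.p • T = 0) (hK : InKer A T) : T = 0 := by
  have hV := frey_isVarChange_Qbar P
  have hu := val_algebraMap_two hq hq2 hA
  have hr : algebraMap ℚ Qbar 0 ∈ A := by rw [_root_.map_zero]; exact A.zero_mem
  rw [← inKer_vcHom_iff hV A hu hr] at hK
  have hT' : P.p • vcHom hV T = 0 := by rw [← map_nsmul, hT, _root_.map_zero]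
  have h0 : vcHom hV T = 0 := by
    refine legendre_inKer_torsion_eq_zero A _ rfl rfl rfl ?_ ?_
      (valuation_prime_eq_one A hq hA P.pp hqp) hT' hK
    · have : algebraMap ℚ Qbar ((P.b : ℚ) ^ P.p - (P.a : ℚ) ^ P.p) =
          ((P.b ^ P.p - P.a ^ P.p : ℤ) : Qbar) := by
        push_cast; simp
      rw [legendreModel_a₂, this]
      exact intCast_mem' A _
    · have : algebraMap ℚ Qbar (-((P.a : ℚ) ^ P.p * (P.b : ℚ) ^ P.p)) =
          ((-(P.a ^ P.p * P.b ^ P.p) : ℤ) : Qbar) := by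
        push_cast; simp
      rw [legendreModel_a₄, this]
      exact intCast_mem' A _
  exact vcHom_injective hV (by rw [h0, _root_.map_zero])

end Frey

end Fermat.Agent.Lib.helper1558
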