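import Fermat.Agent.Lib.helper3588_AbsHeight
import Fermat.Agent.Lib.helper927_AbsHeight
import Fermat.Agent.Lib.helper1102_HeightBPF

/-!
# Height bounds for polynomial maps, uniform in the number field (helper1572)

Mathlib's `Height.logHeight_eval_le` / `Height.logHeight_eval_ge` bound the height of the image of
a tuple under a family of homogeneous polynomials over ONE field with admissible absolute values.
Here the polynomials have coefficients in a number field `K` and the point lies in an arbitrary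
finite extension `L` of `K`; the constants are `[L : K]` (resp. `[L : ℚ]`) times constants
depending only on the polynomials (`logHeight_eval_map_le`, `logHeight_eval_map_ge`).

Dividing by `[L : ℚ]` gives bounds for absolute heights of algebraic points with constants
independent of the field of definition of the point: `IsAbsLogHeight.eval_le` and
`IsAbsLogHeight.eval_ge`, stated for ANY function on tuples of a characteristic zero field `Ω`
which is computed by every number field through which the tuple factors (`IsAbsLogHeight`).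

The last section specialises to the absolute logarithmic height `helper927.absLogHeight` and
combines the lower bound with the Nullstellensatz witnesses of `helper1102_HeightBPF`:
`abs_absLogHeight_eval_sub_le_of_noCommonZero_on` is the functoriality of the absolute height
for a morphism of projective varieties given by homogeneous forms without common zero on the
variety, for ALL algebraic points.

Section `Bihomogeneous` gives the absolute twins of the bihomogeneous bounds of
`helper1102_HeightBPF`: for a family `p` of polynomials in two blocks of variables over a number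
field, bihomogeneous of bidegree `(a, b)`, `h(p(x, y)) ≤ C + a h(x) + b h(y)` for ALL algebraic
points (`absLogHeight_bieval_le`), and `≥` with another constant on a biprojective subvariety on
which the `p j` have no common zero (`absLogHeight_bieval_ge_on`,
`abs_absLogHeight_bieval_sub_le_on`, `abs_absLogHeight_biaeval_sub_le_on`).

Section `Minors` is the minors form: for a matrix `N` of bihomogeneous polynomials of bidegree
`(a, b)` and `ρ : ℕ`, the height of the family of all `ρ`-minors of `N(x, y)` is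
`ρ * (a h(x) + b h(y)) + O(1)` on every biprojective locus on which `rank N(x, y) ≥ ρ`
(`absLogHeight_minors_le`, `absLogHeight_minors_ge_on`, `abs_absLogHeight_minors_sub_le_on`,
and `abs_absLogHeight_minors_sub_le_of_rank` for a locus cut out by rank conditions), with the
linear algebra `rank_le_iff_forall_submatrix_det_eq_zero`.
-/

namespace Fermat.Agent.Lib.helper1572

open NumberField Height Module MvPolynomial

section MulHeightBound

variable {K : Type*} [Field K] [Height.AdmissibleAbsValues K] {ι ι' : Type*}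

/-- Mathlib's constant `Height.mulHeightBound` is nonnegative. -/
theorem mulHeightBound_nonneg (p : ι' → MvPolynomial ι K) : 0 ≤ mulHeightBound p := by
  rw [mulHeightBound_eq]
  refine mul_nonneg (Multiset.prod_map_nonneg fun v _ => ?_) (finprod_nonneg fun v => ?_)
  · exact Real.iSup_nonneg fun j => Finsupp.sum_nonneg fun s _ => by positivity
  · exact Real.iSup_nonneg fun j => le_trans zero_le_one (le_max_right _ _)

theorem max_pow_one_eq {B : ℝ} (hB : 0 ≤ B) (n : ℕ) : max (B ^ n) 1 = max B 1 ^ n := by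
  rcases le_total B 1 with h | h
  · rw [max_eq_right h, one_pow, max_eq_right (pow_le_one₀ hB h)]
  · rw [max_eq_left h, max_eq_left (one_le_pow₀ h)]

end MulHeightBound

section Uniform

variable {K L : Type*} [Field K] [NumberField K] [Field L] [NumberField L] [Algebra K L]
variable {ι ι' : Type*}

/-- The constant of Mathlib's `logHeight_eval_le`, computed over a finite extension. -/
theorem log_max_mulHeightBound_map [Finite ι'] (p : ι' → MvPolynomial ι K) :
    Real.log (max (mulHeightBound (fun j => MvPolynomial.map (algebraMap K L) (p j))) 1) =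
      finrank K L * Real.log (max (mulHeightBound p) 1) := by
  rw [helper3588.mulHeightBound_map_algebraMap, max_pow_one_eq (mulHeightBound_nonneg p),
    Real.log_pow]

/-- **Upper bound for the height of a polynomial image, uniform in the extension `L / K`.**
The polynomials `p j` are homogeneous of degree `N` over the number field `K`; the point `x`
has coordinates in an arbitrary finite extension `L` of `K`. -/
theorem logHeight_eval_map_le [Finite ι] [Finite ι'] {N : ℕ} {p : ι' → MvPolynomial ι K}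
    (hp : ∀ j, (p j).IsHomogeneous N) (x : ι → L) :
    logHeight (fun j => MvPolynomial.eval x (MvPolynomial.map (algebraMap K L) (p j))) ≤
      finrank K L * Real.log (max (mulHeightBound p) 1) + N * logHeight x := by
  have h := logHeight_eval_le (p := fun j => MvPolynomial.map (algebraMap K L) (p j))
    (fun j => (hp j).map _) x
  rwa [log_max_mulHeightBound_map p] at h

/-- **Lower bound for the height of a polynomial image, uniform in the extension `L / K`.**
The polynomials `q a` are homogeneous of degree `M` over the number field `K` and the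
relations `∑ j, q (k, j) * p j = X k ^ (M + N)` are only required at the point `x`, which
has coordinates in an arbitrary finite extension `L` of `K`. -/
theorem logHeight_eval_map_ge [Finite ι] [Fintype ι'] {M N : ℕ}
    {q : ι × ι' → MvPolynomial ι K} (hq : ∀ a, (q a).IsHomogeneous M)
    (p : ι' → MvPolynomial ι K) {x : ι → L}
    (h : ∀ k, ∑ j, MvPolynomial.eval x (MvPolynomial.map (algebraMap K L) (q (k, j))) *
      MvPolynomial.eval x (MvPolynomial.map (algebraMap K L) (p j)) = x k ^ (M + N)) :
    N * logHeight x - finrank ℚ L * Real.log (Nat.card ι') -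
        finrank K L * Real.log (max (mulHeightBound q) 1) ≤
      logHeight (fun j => MvPolynomial.eval x (MvPolynomial.map (algebraMap K L) (p j))) := by
  have h1 := logHeight_eval_ge (q := fun a => MvPolynomial.map (algebraMap K L) (q a))
    (fun a => (hq a).map _) (fun j => MvPolynomial.map (algebraMap K L) (p j)) h
  have hB : (0 : ℝ) ≤ finrank K L * Real.log (max (mulHeightBound q) 1) :=
    mul_nonneg (Nat.cast_nonneg _) (Real.log_nonneg (le_max_right _ _))
  rcases isEmpty_or_nonempty ι' with hι' | hι'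
  · have hc : Nat.card ι' = 0 := Nat.card_eq_zero.mpr (Or.inl hι')
    have htw : totalWeight L ≠ 0 := (totalWeight_pos L).ne'
    rw [hc, Nat.cast_zero, zero_pow htw, zero_mul, Real.log_zero, neg_zero, zero_add] at h1
    rw [hc, Nat.cast_zero, Real.log_zero, mul_zero, sub_zero]
    linarith
  · have hc : (0 : ℝ) < Nat.card ι' := by exact_mod_cast Nat.card_pos
    have hm : (0 : ℝ) < max (mulHeightBound
        (fun a => MvPolynomial.map (algebraMap K L) (q a))) 1 :=
      lt_of_lt_of_le zero_lt_one (le_max_right _ _)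
    rw [Real.log_mul (pow_ne_zero _ hc.ne') hm.ne', Real.log_pow, log_max_mulHeightBound_map q,
      totalWeight_eq_finrank] at h1
    linarith

end Uniform

section Absolute

universe u

variable {Ω : Type u} [Field Ω] [CharZero Ω]
variable {K : Type*} [Field K] [NumberField K] {ι ι' : Type*}

theorem finiteDimensional_fieldRange (f : K →+* Ω) :
    FiniteDimensional ℚ f.toRatAlgHom.fieldRange :=
  Module.Finite.of_surjective f.toRatAlgHom.rangeRestrict.toLinearMap
    f.toRatAlgHom.rangeRestrict_surjective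

/-- Finitely many algebraic elements of a characteristic zero field `Ω`, together with the image
of a number field `K`, lie in a number field `L ⊆ Ω` which is a `K`-algebra. -/
theorem exists_numberField_factor [Finite ι] (f : K →+* Ω) {x : ι → Ω}
    (hx : ∀ i, IsIntegral ℚ (x i)) :
    ∃ (L : Type u) (_ : Field L) (_ : NumberField L) (_ : Algebra K L) (g : L →+* Ω)
      (x' : ι → L), g.comp (algebraMap K L) = f ∧ ∀ i, g (x' i) = x i := by
  have h1 : FiniteDimensional ℚ f.toRatAlgHom.fieldRange := finiteDimensional_fieldRange f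
  have h2 : FiniteDimensional ℚ (IntermediateField.adjoin ℚ (Set.range x)) :=
    IntermediateField.finiteDimensional_adjoin (by rintro _ ⟨i, rfl⟩; exact hx i)
  let E : IntermediateField ℚ Ω :=
    f.toRatAlgHom.fieldRange ⊔ IntermediateField.adjoin ℚ (Set.range x)
  have h3 : FiniteDimensional ℚ E := IntermediateField.finiteDimensional_sup _ _
  have hf : ∀ k, f k ∈ E := fun k =>
    (le_sup_left : f.toRatAlgHom.fieldRange ≤ E) ⟨k, rfl⟩
  have hxE : ∀ i, x i ∈ E := fun i =>
    (le_sup_right : IntermediateField.adjoin ℚ (Set.range x) ≤ E)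
      (IntermediateField.subset_adjoin ℚ _ ⟨i, rfl⟩)
  let φ : K →+* E := f.codRestrict E.toSubfield hf
  refine ⟨E, inferInstance, { to_charZero := inferInstance, to_finiteDimensional := h3 },
    φ.toAlgebra, E.val.toRingHom, fun i => ⟨x i, hxE i⟩, ?_, fun i => rfl⟩
  ext k
  rfl

/-- `H` is an *absolute logarithmic height* on `ι`-tuples of `Ω`: on every tuple coming from
a number field `L` (through any ring homomorphism `L →+* Ω`) it is the logarithmic height
over `L` divided by `[L : ℚ]`. -/
def IsAbsLogHeight (Ω : Type u) [Field Ω] (ι : Type*) (H : (ι → Ω) → ℝ) : Prop :=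
  ∀ (L : Type u) [Field L] [NumberField L] (g : L →+* Ω) (y : ι → L),
    H (fun i => g (y i)) = logHeight y / finrank ℚ L

omit [CharZero Ω] [NumberField K] in
theorem eval_map_comp_eq {L : Type*} [Field L] [Algebra K L] (g : L →+* Ω) (x' : ι → L)
    (P : MvPolynomial ι K) :
    MvPolynomial.eval (fun i => g (x' i)) (MvPolynomial.map (g.comp (algebraMap K L)) P) =
      g (MvPolynomial.eval x' (MvPolynomial.map (algebraMap K L) P)) := by
  rw [MvPolynomial.eval_map, MvPolynomial.eval_map, MvPolynomial.eval₂_comp_left]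
  rfl

/-- **Absolute upper bound**: for homogeneous polynomials `p j` of degree `N` over a number
field `K ⊆ Ω` and ALL algebraic points `x` of `Ω`,
`h(p(x)) ≤ log (max B_p 1) / [K : ℚ] + N * h(x)` for the absolute logarithmic height `h`. -/
theorem IsAbsLogHeight.eval_le [Finite ι] [Finite ι'] {H : (ι → Ω) → ℝ} {H' : (ι' → Ω) → ℝ}
    (hH : IsAbsLogHeight Ω ι H) (hH' : IsAbsLogHeight Ω ι' H') (f : K →+* Ω) {N : ℕ}
    {p : ι' → MvPolynomial ι K} (hp : ∀ j, (p j).IsHomogeneous N) {x : ι → Ω}
    (hx : ∀ i, IsIntegral ℚ (x i)) :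
    H' (fun j => MvPolynomial.eval x (MvPolynomial.map f (p j))) ≤
      Real.log (max (mulHeightBound p) 1) / finrank ℚ K + N * H x := by
  obtain ⟨L, _, _, _, g, x', hg, hx'⟩ := exists_numberField_factor f hx
  obtain rfl : x = fun i => g (x' i) := funext fun i => (hx' i).symm
  subst hg
  simp only [eval_map_comp_eq]
  rw [hH' L g _, hH L g x']
  have hd : (finrank ℚ L : ℝ) = finrank ℚ K * finrank K L := by
    exact_mod_cast (finrank_mul_finrank ℚ K L).symm
  have hK : (0 : ℝ) < finrank ℚ K := by exact_mod_cast finrank_pos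
  have hKL : (0 : ℝ) < finrank K L := by exact_mod_cast finrank_pos
  have hL : (0 : ℝ) < finrank ℚ L := by rw [hd]; positivity
  have key := logHeight_eval_map_le (L := L) hp x'
  rw [div_le_iff₀ hL]
  calc _ ≤ _ := key
    _ = _ := by rw [hd]; field_simp

/-- **Absolute lower bound**: if `q a` are homogeneous of degree `M` over a number field
`K ⊆ Ω` and `∑ j, q (k, j) (x) * p j (x) = x k ^ (M + N)` at the algebraic point `x` of `Ω`,
then `N * h(x) - log #ι' - log (max B_q 1) / [K : ℚ] ≤ h(p(x))`. -/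
theorem IsAbsLogHeight.eval_ge [Finite ι] [Fintype ι'] {H : (ι → Ω) → ℝ} {H' : (ι' → Ω) → ℝ}
    (hH : IsAbsLogHeight Ω ι H) (hH' : IsAbsLogHeight Ω ι' H') (f : K →+* Ω) {M N : ℕ}
    {q : ι × ι' → MvPolynomial ι K} (hq : ∀ a, (q a).IsHomogeneous M)
    (p : ι' → MvPolynomial ι K) {x : ι → Ω} (hx : ∀ i, IsIntegral ℚ (x i))
    (h : ∀ k, ∑ j, MvPolynomial.eval x (MvPolynomial.map f (q (k, j))) *
      MvPolynomial.eval x (MvPolynomial.map f (p j)) = x k ^ (M + N)) :
    N * H x - Real.log (Nat.card ι') - Real.log (max (mulHeightBound q) 1) / finrank ℚ K ≤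
      H' (fun j => MvPolynomial.eval x (MvPolynomial.map f (p j))) := by
  obtain ⟨L, _, _, _, g, x', hg, hx'⟩ := exists_numberField_factor f hx
  obtain rfl : x = fun i => g (x' i) := funext fun i => (hx' i).symm
  subst hg
  simp only [eval_map_comp_eq] at h ⊢
  have h' : ∀ k, ∑ j, MvPolynomial.eval x' (MvPolynomial.map (algebraMap K L) (q (k, j))) *
      MvPolynomial.eval x' (MvPolynomial.map (algebraMap K L) (p j)) = x' k ^ (M + N) := by
    intro k
    apply g.injective
    rw [map_sum, map_pow, ← h k]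
    exact Finset.sum_congr rfl fun j _ => map_mul g _ _
  rw [hH' L g _, hH L g x']
  have hd : (finrank ℚ L : ℝ) = finrank ℚ K * finrank K L := by
    exact_mod_cast (finrank_mul_finrank ℚ K L).symm
  have hK : (0 : ℝ) < finrank ℚ K := by exact_mod_cast finrank_pos
  have hKL : (0 : ℝ) < finrank K L := by exact_mod_cast finrank_pos
  have hL : (0 : ℝ) < finrank ℚ L := by rw [hd]; positivity
  have key := logHeight_eval_map_ge (L := L) hq p h'
  rw [le_div_iff₀ hL]
  calc _ = _ := by rw [hd]; field_simp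
    _ ≤ _ := key

end Absolute

section AbsLogHeight

open helper927 (absLogHeight)

variable {Ω : Type*} [Field Ω] [CharZero Ω]
variable {K : Type*} [Field K] [NumberField K] {ι ι' : Type*}

/-- The absolute logarithmic height of `helper927_AbsHeight` is an absolute logarithmic height
in the sense of `IsAbsLogHeight` (this is its dictionary lemma `absLogHeight_ringHom`). -/
theorem isAbsLogHeight_absLogHeight [Finite ι] :
    IsAbsLogHeight Ω ι (absLogHeight (Ω := Ω) (ι := ι)) :=
  fun _ _ _ g y => helper927.absLogHeight_ringHom g y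

/-- **Absolute upper bound** for `absLogHeight`: the polynomials `p j` are homogeneous of
degree `N` over a number field `K`, the point `x` is any algebraic point of `Ω`. -/
theorem absLogHeight_eval_le [Finite ι] [Finite ι'] (f : K →+* Ω) {N : ℕ}
    {p : ι' → MvPolynomial ι K} (hp : ∀ j, (p j).IsHomogeneous N) {x : ι → Ω}
    (hx : ∀ i, IsIntegral ℚ (x i)) :
    absLogHeight (fun j => MvPolynomial.eval x (MvPolynomial.map f (p j))) ≤
      Real.log (max (mulHeightBound p) 1) / finrank ℚ K + N * absLogHeight x :=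
  isAbsLogHeight_absLogHeight.eval_le isAbsLogHeight_absLogHeight f hp hx

/-- **Absolute lower bound** for `absLogHeight`, with explicit witnesses `q` at the point. -/
theorem absLogHeight_eval_ge [Finite ι] [Fintype ι'] (f : K →+* Ω) {M N : ℕ}
    {q : ι × ι' → MvPolynomial ι K} (hq : ∀ a, (q a).IsHomogeneous M)
    (p : ι' → MvPolynomial ι K) {x : ι → Ω} (hx : ∀ i, IsIntegral ℚ (x i))
    (h : ∀ k, ∑ j, MvPolynomial.eval x (MvPolynomial.map f (q (k, j))) *
      MvPolynomial.eval x (MvPolynomial.map f (p j)) = x k ^ (M + N)) :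
    N * absLogHeight x - Real.log (Nat.card ι') -
        Real.log (max (mulHeightBound q) 1) / finrank ℚ K ≤
      absLogHeight (fun j => MvPolynomial.eval x (MvPolynomial.map f (p j))) :=
  isAbsLogHeight_absLogHeight.eval_ge isAbsLogHeight_absLogHeight f hq p hx h

omit [CharZero Ω] [NumberField K] in
/-- Evaluating (through `f`) an element of the ideal generated by polynomials vanishing at `x`
gives zero. -/
theorem eval_map_eq_zero_of_mem_span_range {ρ : Type*} (f : K →+* Ω) {g : ρ → MvPolynomial ι K}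
    {x : ι → Ω} (hx : ∀ l, MvPolynomial.eval x (MvPolynomial.map f (g l)) = 0)
    {P : MvPolynomial ι K} (hP : P ∈ Ideal.span (Set.range g)) :
    MvPolynomial.eval x (MvPolynomial.map f P) = 0 := by
  have hle : Ideal.span (Set.range g) ≤
      RingHom.ker ((MvPolynomial.eval x).comp (MvPolynomial.map f)) := by
    rw [Ideal.span_le]
    rintro _ ⟨l, rfl⟩
    exact hx l
  exact hle hP

/-- **Absolute height lower bound for maps that are base-point-free on a subvariety.**
`p` is a finite family of homogeneous polynomials of degree `N` over the number field `K`,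
`g` a family of homogeneous polynomials over `K` cutting out a projective variety `V`; if `p`
has no common zero on `V` (over an algebraically closed extension `L` of `K`), then
`C + N * h(x) ≤ h(p(x))` for ALL algebraic points `x` of `V` with coordinates in `Ω`. -/
theorem absLogHeight_eval_ge_of_noCommonZero_on (L : Type*) [Field L] [IsAlgClosed L]
    [Algebra K L] [Finite ι] [Fintype ι'] {ρ : Type*} (f : K →+* Ω) {N : ℕ}
    {p : ι' → MvPolynomial ι K} (hp : ∀ j, (p j).IsHomogeneous N) {g : ρ → MvPolynomial ι K}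
    (hg : ∀ l, ∃ n, (g l).IsHomogeneous n)
    (h0 : ∀ x : ι → L, (∀ l, MvPolynomial.aeval x (g l) = 0) →
      (∀ j, MvPolynomial.aeval x (p j) = 0) → x = 0) :
    ∃ C : ℝ, ∀ x : ι → Ω, (∀ i, IsIntegral ℚ (x i)) →
      (∀ l, MvPolynomial.eval x (MvPolynomial.map f (g l)) = 0) →
      C + N * absLogHeight x ≤
        absLogHeight (fun j => MvPolynomial.eval x (MvPolynomial.map f (p j))) := by
  obtain ⟨M, q, hq, hqp⟩ := helper1102.exists_witness_of_noCommonZero_on L hp hg h0
  refine ⟨-Real.log (Nat.card ι') - Real.log (max (mulHeightBound q) 1) / finrank ℚ K,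
    fun x hx hxg => ?_⟩
  have key := absLogHeight_eval_ge f hq p hx (fun k => by
    have h1 := eval_map_eq_zero_of_mem_span_range f hxg (hqp k)
    simp only [map_sub, map_pow, MvPolynomial.map_X, MvPolynomial.eval_X, map_sum,
      map_mul] at h1
    exact (sub_eq_zero.mp h1).symm)
  linarith

/-- **Functoriality of the absolute height on a projective variety**: for `p` homogeneous of
degree `N` without common zero on the variety `V` cut out by `g`, we have
`|h(p(x)) - N * h(x)| ≤ C` for ALL algebraic points `x` of `V`. -/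
theorem abs_absLogHeight_eval_sub_le_of_noCommonZero_on (L : Type*) [Field L] [IsAlgClosed L]
    [Algebra K L] [Finite ι] [Fintype ι'] {ρ : Type*} (f : K →+* Ω) {N : ℕ}
    {p : ι' → MvPolynomial ι K} (hp : ∀ j, (p j).IsHomogeneous N) {g : ρ → MvPolynomial ι K}
    (hg : ∀ l, ∃ n, (g l).IsHomogeneous n)
    (h0 : ∀ x : ι → L, (∀ l, MvPolynomial.aeval x (g l) = 0) →
      (∀ j, MvPolynomial.aeval x (p j) = 0) → x = 0) :
    ∃ C : ℝ, ∀ x : ι → Ω, (∀ i, IsIntegral ℚ (x i)) →
      (∀ l, MvPolynomial.eval x (MvPolynomial.map f (g l)) = 0) →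
      |absLogHeight (fun j => MvPolynomial.eval x (MvPolynomial.map f (p j))) -
        N * absLogHeight x| ≤ C := by
  obtain ⟨C₁, h₁⟩ := absLogHeight_eval_ge_of_noCommonZero_on L f hp hg h0
  refine ⟨max (Real.log (max (mulHeightBound p) 1) / finrank ℚ K) (-C₁), fun x hx hxg => ?_⟩
  have h2 := h₁ x hx hxg
  have h3 := absLogHeight_eval_le f hp hx
  rw [abs_le]
  constructor
  · have := le_max_right (Real.log (max (mulHeightBound p) 1) / finrank ℚ K) (-C₁)
    linarith
  · have := le_max_left (Real.log (max (mulHeightBound p) 1) / finrank ℚ K) (-C₁)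
    linarith

/-- The absolute lower bound on all of projective space (no subvariety). -/
theorem absLogHeight_eval_ge_of_noCommonZero (L : Type*) [Field L] [IsAlgClosed L]
    [Algebra K L] [Finite ι] [Fintype ι'] (f : K →+* Ω) {N : ℕ}
    {p : ι' → MvPolynomial ι K} (hp : ∀ j, (p j).IsHomogeneous N)
    (h0 : ∀ x : ι → L, (∀ j, MvPolynomial.aeval x (p j) = 0) → x = 0) :
    ∃ C : ℝ, ∀ x : ι → Ω, (∀ i, IsIntegral ℚ (x i)) →
      C + N * absLogHeight x ≤
        absLogHeight (fun j => MvPolynomial.eval x (MvPolynomial.map f (p j))) := by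
  obtain ⟨C, hC⟩ := absLogHeight_eval_ge_of_noCommonZero_on L f hp
    (g := fun _ : Empty => (0 : MvPolynomial ι K)) (fun l => l.elim) (fun x _ hx => h0 x hx)
  exact ⟨C, fun x hx => hC x hx (fun l => l.elim)⟩

/-- Two-sided form on all of projective space: `|h(p(x)) - N * h(x)| ≤ C` for all algebraic
points `x`, when the homogeneous forms `p j` of degree `N` have no common zero. -/
theorem abs_absLogHeight_eval_sub_le_of_noCommonZero (L : Type*) [Field L] [IsAlgClosed L]
    [Algebra K L] [Finite ι] [Fintype ι'] (f : K →+* Ω) {N : ℕ}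
    {p : ι' → MvPolynomial ι K} (hp : ∀ j, (p j).IsHomogeneous N)
    (h0 : ∀ x : ι → L, (∀ j, MvPolynomial.aeval x (p j) = 0) → x = 0) :
    ∃ C : ℝ, ∀ x : ι → Ω, (∀ i, IsIntegral ℚ (x i)) →
      |absLogHeight (fun j => MvPolynomial.eval x (MvPolynomial.map f (p j))) -
        N * absLogHeight x| ≤ C := by
  obtain ⟨C, hC⟩ := abs_absLogHeight_eval_sub_le_of_noCommonZero_on L f hp
    (g := fun _ : Empty => (0 : MvPolynomial ι K)) (fun l => l.elim) (fun x _ hx => h0 x hx)
  exact ⟨C, fun x hx => hC x hx (fun l => l.elim)⟩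

omit [CharZero Ω] [NumberField K] in
theorem aeval_eq_eval_map_algebraMap [Algebra K Ω] (x : ι → Ω) (P : MvPolynomial ι K) :
    MvPolynomial.aeval x P = MvPolynomial.eval x (MvPolynomial.map (algebraMap K Ω) P) := by
  rw [MvPolynomial.aeval_def, MvPolynomial.eval₂_eq_eval_map]

/-- **Functoriality of the absolute height, self-contained `aeval` form** for an
algebraically closed field `Ω` of characteristic zero (e.g. `AlgebraicClosure ℚ` or `ℂ`)
which is an algebra over the number field `K` of the coefficients: if the homogeneous forms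
`p j` of degree `N` have no common zero on the projective variety `V` cut out by the
homogeneous forms `g l`, then `|h(p(x)) - N * h(x)| ≤ C` for ALL algebraic points `x` of
`V`. -/
theorem abs_absLogHeight_aeval_sub_le_on [IsAlgClosed Ω] [Algebra K Ω] [Finite ι] [Fintype ι']
    {ρ : Type*} {N : ℕ} {p : ι' → MvPolynomial ι K} (hp : ∀ j, (p j).IsHomogeneous N)
    {g : ρ → MvPolynomial ι K} (hg : ∀ l, ∃ n, (g l).IsHomogeneous n)
    (h0 : ∀ x : ι → Ω, (∀ l, MvPolynomial.aeval x (g l) = 0) →
      (∀ j, MvPolynomial.aeval x (p j) = 0) → x = 0) :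
    ∃ C : ℝ, ∀ x : ι → Ω, (∀ i, IsIntegral ℚ (x i)) →
      (∀ l, MvPolynomial.aeval x (g l) = 0) →
      |absLogHeight (fun j => MvPolynomial.aeval x (p j)) - N * absLogHeight x| ≤ C := by
  obtain ⟨C, hC⟩ := abs_absLogHeight_eval_sub_le_of_noCommonZero_on Ω (algebraMap K Ω) hp hg h0
  refine ⟨C, fun x hx hxg => ?_⟩
  simp only [aeval_eq_eval_map_algebraMap] at hxg ⊢
  exact hC x hx hxg

/-- Upper bound in `aeval` form, explicit constant. -/
theorem absLogHeight_aeval_le [Algebra K Ω] [Finite ι] [Finite ι'] {N : ℕ}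
    {p : ι' → MvPolynomial ι K} (hp : ∀ j, (p j).IsHomogeneous N) {x : ι → Ω}
    (hx : ∀ i, IsIntegral ℚ (x i)) :
    absLogHeight (fun j => MvPolynomial.aeval x (p j)) ≤
      Real.log (max (mulHeightBound p) 1) / finrank ℚ K + N * absLogHeight x := by
  simp only [aeval_eq_eval_map_algebraMap]
  exact absLogHeight_eval_le (algebraMap K Ω) hp hx

end AbsLogHeight

section Bihomogeneous

open helper927 (absLogHeight)
open helper1102 (biWeight)

/-- The exponent vectors of bidegree `(a, b)` in the variables `ι ⊕ κ`. -/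
abbrev BiExp (ι κ : Type*) (a b : ℕ) : Type _ :=
  {d : ι ⊕ κ →₀ ℕ // Finsupp.weight (biWeight ι κ) d = (a, b)}

theorem finite_biExp (ι κ : Type*) [Finite ι] [Finite κ] (a b : ℕ) : Finite (BiExp ι κ a b) := by
  cases nonempty_fintype ι
  cases nonempty_fintype κ
  have hsub : {d : ι ⊕ κ →₀ ℕ | Finsupp.weight (biWeight ι κ) d = (a, b)} ⊆
      {d : ι ⊕ κ →₀ ℕ | d.degree ≤ a + b} := by
    intro d hd
    have hd' : Finsupp.weight (biWeight ι κ) d = (a, b) := hd
    rw [helper1102.weight_biWeight, Prod.mk.injEq] at hd'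
    show d.degree ≤ a + b
    rw [Finsupp.degree_eq_sum, Fintype.sum_sum_type, hd'.1, hd'.2]
  exact ((Finsupp.finite_of_degree_le (a + b)).subset hsub).to_subtype

theorem biExp_sum_inl {ι κ : Type*} [Fintype ι] [Fintype κ] {a b : ℕ} (d : BiExp ι κ a b) :
    ∑ i, d.1 (Sum.inl i) = a := by
  have := d.2
  rw [helper1102.weight_biWeight, Prod.mk.injEq] at this
  exact this.1

theorem biExp_sum_inr {ι κ : Type*} [Fintype ι] [Fintype κ] {a b : ℕ} (d : BiExp ι κ a b) :
    ∑ k, d.1 (Sum.inr k) = b := by
  have := d.2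
  rw [helper1102.weight_biWeight, Prod.mk.injEq] at this
  exact this.2

/-- A bihomogeneous polynomial evaluated at `(x, y)` is the sum over the exponent vectors of
bidegree `(a, b)` of coefficient times monomial in `x` times monomial in `y`. -/
theorem eval_sumElim_eq_sum {R : Type*} [CommRing R] {ι κ : Type*} [Fintype ι] [Fintype κ]
    {a b : ℕ} [Fintype (BiExp ι κ a b)] {P : MvPolynomial (ι ⊕ κ) R}
    (hP : P.IsWeightedHomogeneous (biWeight ι κ) (a, b)) (x : ι → R) (y : κ → R) :
    MvPolynomial.eval (Sum.elim x y) P = ∑ d : BiExp ι κ a b,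
      MvPolynomial.coeff d.1 P * ((∏ i, x i ^ d.1 (Sum.inl i)) * ∏ k, y k ^ d.1 (Sum.inr k)) := by
  classical
  rw [MvPolynomial.eval_eq']
  have hsub : P.support ⊆
      (Finset.univ : Finset (BiExp ι κ a b)).map (Function.Embedding.subtype _) := by
    intro d hd
    simp only [Finset.mem_map, Finset.mem_univ, true_and, Function.Embedding.coe_subtype,
      Subtype.exists, exists_prop, exists_eq_right]
    exact hP (MvPolynomial.mem_support_iff.mp hd)
  rw [Finset.sum_subset hsub, Finset.sum_map]
  · refine Finset.sum_congr rfl fun d _ => ?_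
    simp only [Function.Embedding.coe_subtype, Fintype.prod_sum_type, Sum.elim_inl, Sum.elim_inr]
  · intro d _ hd
    simp [MvPolynomial.notMem_support_iff.mp hd]

theorem isWeightedHomogeneous_map {R S : Type*} [CommSemiring R] [CommSemiring S] {σ M : Type*}
    [AddCommMonoid M] (f : R →+* S) {w : σ → M} {n : M} {P : MvPolynomial σ R}
    (hP : P.IsWeightedHomogeneous w n) : (MvPolynomial.map f P).IsWeightedHomogeneous w n := by
  intro d hd
  rw [MvPolynomial.coeff_map] at hd
  exact hP (fun h0 => hd (by rw [h0, map_zero]))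

variable {Ω : Type*} [Field Ω] [CharZero Ω] [Algebra.IsAlgebraic ℚ Ω]
variable {K : Type*} [Field K] [NumberField K] {ι κ ι'' : Type*} [Finite ι] [Finite κ]

/-- **Absolute upper bound for bihomogeneous maps.** For a finite family `p` of polynomials in
the variables `ι ⊕ κ` over a number field `K`, bihomogeneous of bidegree `(a, b)`, and ALL
points `x`, `y` with coordinates in `Ω` (algebraic over `ℚ`):
`h(p(x, y)) ≤ C + a * h(x) + b * h(y)` for the absolute logarithmic height. -/
theorem absLogHeight_bieval_le [Finite ι''] (f : K →+* Ω) {a b : ℕ}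
    {p : ι'' → MvPolynomial (ι ⊕ κ) K}
    (hp : ∀ j, (p j).IsWeightedHomogeneous (biWeight ι κ) (a, b)) :
    ∃ C : ℝ, ∀ (x : ι → Ω) (y : κ → Ω),
      absLogHeight (fun j => MvPolynomial.eval (Sum.elim x y) (MvPolynomial.map f (p j))) ≤
        C + a * absLogHeight x + b * absLogHeight y := by
  classical
  cases nonempty_fintype ι
  cases nonempty_fintype κ
  have hDfin : Finite (BiExp ι κ a b) := finite_biExp ι κ a b
  cases nonempty_fintype (BiExp ι κ a b)
  -- the two monomial families
  let pu : BiExp ι κ a b → MvPolynomial ι K := fun d => ∏ i, X i ^ (d.1 (Sum.inl i))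
  let pv : BiExp ι κ a b → MvPolynomial κ K := fun d => ∏ k, X k ^ (d.1 (Sum.inr k))
  have hpu : ∀ d, (pu d).IsHomogeneous a := fun d => by
    have := IsHomogeneous.prod (R := K) Finset.univ
      (fun i : ι => (X i : MvPolynomial ι K) ^ (d.1 (Sum.inl i)))
      (fun i => d.1 (Sum.inl i)) (fun i _ => isHomogeneous_X_pow i _)
    rwa [biExp_sum_inl d] at this
  have hpv : ∀ d, (pv d).IsHomogeneous b := fun d => by
    have := IsHomogeneous.prod (R := K) Finset.univ
      (fun k : κ => (X k : MvPolynomial κ K) ^ (d.1 (Sum.inr k)))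
      (fun k => d.1 (Sum.inr k)) (fun k _ => isHomogeneous_X_pow k _)
    rwa [biExp_sum_inr d] at this
  let A : ι'' × BiExp ι κ a b → Ω := fun t => f (coeff t.2.1 (p t.1))
  refine ⟨Real.log (Nat.card (BiExp ι κ a b)) + absLogHeight A +
    Real.log (max (mulHeightBound pu) 1) / finrank ℚ K +
    Real.log (max (mulHeightBound pv) 1) / finrank ℚ K, fun x y => ?_⟩
  have hx : ∀ i, IsIntegral ℚ (x i) := fun i => Algebra.IsIntegral.isIntegral (x i)
  have hy : ∀ k, IsIntegral ℚ (y k) := fun k => Algebra.IsIntegral.isIntegral (y k)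
  have hrep : (fun j => MvPolynomial.eval (Sum.elim x y) (MvPolynomial.map f (p j))) =
      fun j => ∑ d : BiExp ι κ a b, A (j, d) *
        ((fun d => MvPolynomial.eval x (MvPolynomial.map f (pu d))) *
          (fun d => MvPolynomial.eval y (MvPolynomial.map f (pv d)))) d := by
    funext j
    rw [eval_sumElim_eq_sum (isWeightedHomogeneous_map f (hp j)) x y]
    refine Finset.sum_congr rfl fun d _ => ?_
    simp only [A, pu, pv, Pi.mul_apply, MvPolynomial.coeff_map, map_prod, map_pow,
      MvPolynomial.map_X, MvPolynomial.eval_X]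
  rw [hrep]
  have h1 := helper927.absLogHeight_linearMap_apply_le A
    ((fun d => MvPolynomial.eval x (MvPolynomial.map f (pu d))) *
      (fun d => MvPolynomial.eval y (MvPolynomial.map f (pv d))))
  have h2 := helper927.absLogHeight_mul_le
    (fun d => MvPolynomial.eval x (MvPolynomial.map f (pu d)))
    (fun d => MvPolynomial.eval y (MvPolynomial.map f (pv d)))
  have h3 := absLogHeight_eval_le f hpu hx
  have h4 := absLogHeight_eval_le f hpv hy
  linarith

/-- **Absolute lower bound for bihomogeneous maps, pointwise-certificate form.** If the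
polynomials `q ((i, k), j)` are bihomogeneous of bidegree `(M₁, M₂)` and
`∑ j, q ((i, k), j)(x, y) * p j (x, y) = x i ^ (M₁ + a) * y k ^ (M₂ + b)` at the point
`(x, y)` (`x ≠ 0`, `y ≠ 0`, coordinates in `Ω`), then
`C + a * h(x) + b * h(y) ≤ h(p(x, y))` with `C` depending only on `q`. -/
theorem absLogHeight_bieval_ge_of_witness [Fintype ι''] (f : K →+* Ω) (a b : ℕ) {M₁ M₂ : ℕ}
    (p : ι'' → MvPolynomial (ι ⊕ κ) K) {q : (ι × κ) × ι'' → MvPolynomial (ι ⊕ κ) K}
    (hq : ∀ t, (q t).IsWeightedHomogeneous (biWeight ι κ) (M₁, M₂)) :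
    ∃ C : ℝ, ∀ (x : ι → Ω) (y : κ → Ω), x ≠ 0 → y ≠ 0 →
      (∀ i k, ∑ j, MvPolynomial.eval (Sum.elim x y) (MvPolynomial.map f (q ((i, k), j))) *
          MvPolynomial.eval (Sum.elim x y) (MvPolynomial.map f (p j)) =
        x i ^ (M₁ + a) * y k ^ (M₂ + b)) →
      C + a * absLogHeight x + b * absLogHeight y ≤
        absLogHeight (fun j => MvPolynomial.eval (Sum.elim x y) (MvPolynomial.map f (p j))) := by
  obtain ⟨CQ, hQ⟩ := absLogHeight_bieval_le f hq
  refine ⟨-(Real.log (Nat.card ι'') + CQ), fun x y hx hy hrel => ?_⟩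
  obtain ⟨i₀, hi₀⟩ := Function.ne_iff.mp hx
  obtain ⟨k₀, hk₀⟩ := Function.ne_iff.mp hy
  have hxe : x ^ (M₁ + a) ≠ 0 :=
    Function.ne_iff.mpr ⟨i₀, by simpa using pow_ne_zero (M₁ + a) hi₀⟩
  have hye : y ^ (M₂ + b) ≠ 0 :=
    Function.ne_iff.mpr ⟨k₀, by simpa using pow_ne_zero (M₂ + b) hk₀⟩
  set Qv : (ι × κ) × ι'' → Ω :=
    fun t => MvPolynomial.eval (Sum.elim x y) (MvPolynomial.map f (q t)) with hQv
  set Pv : ι'' → Ω :=
    fun j => MvPolynomial.eval (Sum.elim x y) (MvPolynomial.map f (p j)) with hPv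
  have h1 : absLogHeight (fun t : ι × κ => (x ^ (M₁ + a)) t.1 * (y ^ (M₂ + b)) t.2) =
      (M₁ + a : ℕ) * absLogHeight x + (M₂ + b : ℕ) * absLogHeight y := by
    rw [helper927.absLogHeight_fun_mul_eq hxe hye, helper927.absLogHeight_pow,
      helper927.absLogHeight_pow]
  have hfun : (fun t : ι × κ => (x ^ (M₁ + a)) t.1 * (y ^ (M₂ + b)) t.2) =
      fun t : ι × κ => ∑ j, Qv (t, j) * Pv j := funext fun t => (hrel t.1 t.2).symm
  have h2 := helper927.absLogHeight_linearMap_apply_le Qv Pv
  rw [← hfun, h1] at h2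
  have h3 := hQ x y
  push_cast at h2
  linarith

/-- **Absolute lower bound for bihomogeneous maps on a subvariety** (the absolute twin of
`helper1102.mulHeight_bieval_ge_on`, same hypotheses). Let `p` be a finite family of
bihomogeneous polynomials of bidegree `(a, b)` over the number field `K` and `g` a family of
bihomogeneous polynomials. If every common zero `(x, y)` of `p` and `g` over an algebraically
closed extension `L` of `K` has `x = 0` or `y = 0`, then
`C + a * h(x) + b * h(y) ≤ h(p(x, y))` for ALL nonzero `x`, `y` with coordinates in `Ω` and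
`g(x, y) = 0`, with `C` independent of the field of definition of `(x, y)`. -/
theorem absLogHeight_bieval_ge_on (L : Type*) [Field L] [IsAlgClosed L] [Algebra K L]
    [Fintype ι''] {ρ : Type*} (f : K →+* Ω) {a b : ℕ} {p : ι'' → MvPolynomial (ι ⊕ κ) K}
    (hp : ∀ j, (p j).IsWeightedHomogeneous (biWeight ι κ) (a, b))
    {g : ρ → MvPolynomial (ι ⊕ κ) K}
    (hg : ∀ l, ∃ n, (g l).IsWeightedHomogeneous (biWeight ι κ) n)
    (h0 : ∀ (x : ι → L) (y : κ → L), (∀ l, MvPolynomial.aeval (Sum.elim x y) (g l) = 0) →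
      (∀ j, MvPolynomial.aeval (Sum.elim x y) (p j) = 0) → x = 0 ∨ y = 0) :
    ∃ C : ℝ, ∀ (x : ι → Ω) (y : κ → Ω), x ≠ 0 → y ≠ 0 →
      (∀ l, MvPolynomial.eval (Sum.elim x y) (MvPolynomial.map f (g l)) = 0) →
      C + a * absLogHeight x + b * absLogHeight y ≤
        absLogHeight (fun j => MvPolynomial.eval (Sum.elim x y) (MvPolynomial.map f (p j))) := by
  obtain ⟨M, q, hq, hqp⟩ := helper1102.exists_biwitness_of_noCommonZero_on L hp hg h0
  obtain ⟨C, hC⟩ := absLogHeight_bieval_ge_of_witness f a b p hq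
  refine ⟨C, fun x y hx hy hgxy => hC x y hx hy fun i k => ?_⟩
  have h1 := eval_map_eq_zero_of_mem_span_range f hgxy (hqp i k)
  simp only [map_sub, map_pow, map_mul, MvPolynomial.map_X, MvPolynomial.eval_X, map_sum,
    Sum.elim_inl, Sum.elim_inr] at h1
  rw [← sub_eq_zero.mp h1, mul_pow]
  congr 1
  rw [show M + b + a = M + a + b by ring]

/-- Two-sided form on a subvariety: `|h(p(x, y)) - (a * h(x) + b * h(y))| ≤ C` for all nonzero
`x`, `y` with coordinates in `Ω` and `g(x, y) = 0`. -/
theorem abs_absLogHeight_bieval_sub_le_on (L : Type*) [Field L] [IsAlgClosed L] [Algebra K L]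
    [Fintype ι''] {ρ : Type*} (f : K →+* Ω) {a b : ℕ} {p : ι'' → MvPolynomial (ι ⊕ κ) K}
    (hp : ∀ j, (p j).IsWeightedHomogeneous (biWeight ι κ) (a, b))
    {g : ρ → MvPolynomial (ι ⊕ κ) K}
    (hg : ∀ l, ∃ n, (g l).IsWeightedHomogeneous (biWeight ι κ) n)
    (h0 : ∀ (x : ι → L) (y : κ → L), (∀ l, MvPolynomial.aeval (Sum.elim x y) (g l) = 0) →
      (∀ j, MvPolynomial.aeval (Sum.elim x y) (p j) = 0) → x = 0 ∨ y = 0) :
    ∃ C : ℝ, ∀ (x : ι → Ω) (y : κ → Ω), x ≠ 0 → y ≠ 0 →
      (∀ l, MvPolynomial.eval (Sum.elim x y) (MvPolynomial.map f (g l)) = 0) →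
      |absLogHeight (fun j => MvPolynomial.eval (Sum.elim x y) (MvPolynomial.map f (p j))) -
        (a * absLogHeight x + b * absLogHeight y)| ≤ C := by
  obtain ⟨C₁, h₁⟩ := absLogHeight_bieval_ge_on L f hp hg h0
  obtain ⟨C₂, h₂⟩ := absLogHeight_bieval_le f hp
  refine ⟨max C₂ (-C₁), fun x y hx hy hgxy => ?_⟩
  have h3 := h₁ x y hx hy hgxy
  have h4 := h₂ x y
  rw [abs_le]
  constructor
  · have := le_max_right C₂ (-C₁)
    linarith
  · have := le_max_left C₂ (-C₁)
    linarith

/-- The absolute bihomogeneous lower bound without a subvariety. -/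
theorem absLogHeight_bieval_ge (L : Type*) [Field L] [IsAlgClosed L] [Algebra K L]
    [Fintype ι''] (f : K →+* Ω) {a b : ℕ} {p : ι'' → MvPolynomial (ι ⊕ κ) K}
    (hp : ∀ j, (p j).IsWeightedHomogeneous (biWeight ι κ) (a, b))
    (h0 : ∀ (x : ι → L) (y : κ → L),
      (∀ j, MvPolynomial.aeval (Sum.elim x y) (p j) = 0) → x = 0 ∨ y = 0) :
    ∃ C : ℝ, ∀ (x : ι → Ω) (y : κ → Ω), x ≠ 0 → y ≠ 0 →
      C + a * absLogHeight x + b * absLogHeight y ≤
        absLogHeight (fun j => MvPolynomial.eval (Sum.elim x y) (MvPolynomial.map f (p j))) := by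
  obtain ⟨C, hC⟩ := absLogHeight_bieval_ge_on L f hp
    (g := fun e : Empty => (e.elim : MvPolynomial (ι ⊕ κ) K)) (fun l => l.elim)
    (fun x y _ hxy => h0 x y hxy)
  exact ⟨C, fun x y hx hy => hC x y hx hy fun l => l.elim⟩

/-- Two-sided absolute bihomogeneous bound without a subvariety. -/
theorem abs_absLogHeight_bieval_sub_le (L : Type*) [Field L] [IsAlgClosed L] [Algebra K L]
    [Fintype ι''] (f : K →+* Ω) {a b : ℕ} {p : ι'' → MvPolynomial (ι ⊕ κ) K}
    (hp : ∀ j, (p j).IsWeightedHomogeneous (biWeight ι κ) (a, b))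
    (h0 : ∀ (x : ι → L) (y : κ → L),
      (∀ j, MvPolynomial.aeval (Sum.elim x y) (p j) = 0) → x = 0 ∨ y = 0) :
    ∃ C : ℝ, ∀ (x : ι → Ω) (y : κ → Ω), x ≠ 0 → y ≠ 0 →
      |absLogHeight (fun j => MvPolynomial.eval (Sum.elim x y) (MvPolynomial.map f (p j))) -
        (a * absLogHeight x + b * absLogHeight y)| ≤ C := by
  obtain ⟨C, hC⟩ := abs_absLogHeight_bieval_sub_le_on L f hp
    (g := fun e : Empty => (e.elim : MvPolynomial (ι ⊕ κ) K)) (fun l => l.elim)
    (fun x y _ hxy => h0 x y hxy)
  exact ⟨C, fun x y hx hy => hC x y hx hy fun l => l.elim⟩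

/-- **Self-contained `aeval` form** for an algebraically closed `Ω` which is algebraic over `ℚ`
(e.g. `AlgebraicClosure ℚ`) and an algebra over the number field `K` of the coefficients:
if every common zero `(x, y)` in `Ω` of `p` (bihomogeneous of bidegree `(a, b)`) and `g`
(bihomogeneous) has `x = 0` or `y = 0`, then `|h(p(x, y)) - (a * h(x) + b * h(y))| ≤ C` for
all nonzero `x`, `y` with `g(x, y) = 0`. -/
theorem abs_absLogHeight_biaeval_sub_le_on [IsAlgClosed Ω] [Algebra K Ω] [Fintype ι'']
    {ρ : Type*} {a b : ℕ} {p : ι'' → MvPolynomial (ι ⊕ κ) K}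
    (hp : ∀ j, (p j).IsWeightedHomogeneous (biWeight ι κ) (a, b))
    {g : ρ → MvPolynomial (ι ⊕ κ) K}
    (hg : ∀ l, ∃ n, (g l).IsWeightedHomogeneous (biWeight ι κ) n)
    (h0 : ∀ (x : ι → Ω) (y : κ → Ω), (∀ l, MvPolynomial.aeval (Sum.elim x y) (g l) = 0) →
      (∀ j, MvPolynomial.aeval (Sum.elim x y) (p j) = 0) → x = 0 ∨ y = 0) :
    ∃ C : ℝ, ∀ (x : ι → Ω) (y : κ → Ω), x ≠ 0 → y ≠ 0 →
      (∀ l, MvPolynomial.aeval (Sum.elim x y) (g l) = 0) →
      |absLogHeight (fun j => MvPolynomial.aeval (Sum.elim x y) (p j)) -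
        (a * absLogHeight x + b * absLogHeight y)| ≤ C := by
  obtain ⟨C, hC⟩ := abs_absLogHeight_bieval_sub_le_on Ω (algebraMap K Ω) hp hg h0
  refine ⟨C, fun x y hx hy hgxy => ?_⟩
  simp only [aeval_eq_eval_map_algebraMap] at hgxy ⊢
  exact hC x y hx hy hgxy

/-- Upper bound in `aeval` form. -/
theorem absLogHeight_biaeval_le [Algebra K Ω] [Finite ι''] {a b : ℕ}
    {p : ι'' → MvPolynomial (ι ⊕ κ) K}
    (hp : ∀ j, (p j).IsWeightedHomogeneous (biWeight ι κ) (a, b)) :
    ∃ C : ℝ, ∀ (x : ι → Ω) (y : κ → Ω),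
      absLogHeight (fun j => MvPolynomial.aeval (Sum.elim x y) (p j)) ≤
        C + a * absLogHeight x + b * absLogHeight y := by
  obtain ⟨C, hC⟩ := absLogHeight_bieval_le (algebraMap K Ω) hp
  refine ⟨C, fun x y => ?_⟩
  simp only [aeval_eq_eval_map_algebraMap]
  exact hC x y

end Bihomogeneous

section Minors

open helper927 (absLogHeight)
open helper1102 (biWeight)

/-- Minors (all-maps indexing) of a matrix of weighted homogeneous polynomials of one weight `d`
are weighted homogeneous of weight `ρ • d`. -/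
theorem isWeightedHomogeneous_det_submatrix {R σ M : Type*} [CommRing R] [AddCommMonoid M]
    {m n : Type*} {w : σ → M} {d : M} {N : Matrix m n (MvPolynomial σ R)}
    (hN : ∀ i j, (N i j).IsWeightedHomogeneous w d) {ρ : ℕ} (s : Fin ρ → m) (c : Fin ρ → n) :
    (N.submatrix s c).det.IsWeightedHomogeneous w (ρ • d) := by
  rw [Matrix.det_apply]
  refine IsWeightedHomogeneous.sum _ _ _ fun τ _ => ?_
  have h1 : (∏ i, N.submatrix s c (τ i) i).IsWeightedHomogeneous w (∑ _i : Fin ρ, d) :=
    IsWeightedHomogeneous.prod _ _ _ fun i _ => hN _ _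
  rw [Finset.sum_const, Finset.card_univ, Fintype.card_fin] at h1
  rcases Int.units_eq_one_or (Equiv.Perm.sign τ) with h | h
  · rw [h, one_smul]
    exact h1
  · rw [h, Units.neg_smul, one_smul]
    exact (mem_weightedHomogeneousSubmodule R w _ _).mp
      (neg_mem ((mem_weightedHomogeneousSubmodule R w _ _).mpr h1))

/-- Evaluation commutes with minors. -/
theorem eval_map_det_submatrix {R S σ : Type*} [CommRing R] [CommRing S] (f : R →+* S)
    {m n : Type*} (N : Matrix m n (MvPolynomial σ R)) (z : σ → S) {ρ : ℕ} (s : Fin ρ → m)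
    (c : Fin ρ → n) :
    MvPolynomial.eval z (MvPolynomial.map f (N.submatrix s c).det) =
      ((N.map fun P => MvPolynomial.eval z (MvPolynomial.map f P)).submatrix s c).det := by
  have h := RingHom.map_det ((MvPolynomial.eval z).comp (MvPolynomial.map f)) (N.submatrix s c)
  exact h

/-- `aeval` commutes with minors. -/
theorem aeval_det_submatrix {R S σ : Type*} [CommRing R] [CommRing S] [Algebra R S]
    {m n : Type*} (N : Matrix m n (MvPolynomial σ R)) (z : σ → S) {ρ : ℕ} (s : Fin ρ → m)
    (c : Fin ρ → n) :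
    MvPolynomial.aeval z (N.submatrix s c).det =
      ((N.map (MvPolynomial.aeval z)).submatrix s c).det := by
  have h := AlgHom.map_det (MvPolynomial.aeval z : MvPolynomial σ R →ₐ[R] S) (N.submatrix s c)
  exact h

/-- A matrix over a field of rank at least `ρ` has a nonvanishing `ρ`-minor. -/
theorem exists_submatrix_det_ne_zero_of_le_rank {F : Type*} [Field F] {m n : Type*} [Finite m]
    [Fintype n] (A : Matrix m n F) {ρ : ℕ} (h : ρ ≤ A.rank) :
    ∃ (s : Fin ρ → m) (c : Fin ρ → n), (A.submatrix s c).det ≠ 0 := by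
  classical
  -- `ρ` linearly independent rows
  have h' : ρ ≤ finrank F (Submodule.span F (Set.range A.row)) := by
    rw [← A.rank_eq_finrank_span_row]
    exact h
  obtain ⟨f, hf, -, hfli⟩ := Submodule.exists_fun_fin_finrank_span_eq F (Set.range A.row)
  choose s' hs' using hf
  let s : Fin ρ → m := fun i => s' (Fin.castLE h' i)
  let B : Matrix (Fin ρ) n F := A.submatrix s id
  have hBrow : B.row = fun i => f (Fin.castLE h' i) := by
    funext i
    rw [← hs' (Fin.castLE h' i)]
    rfl
  have hBli : LinearIndependent F B.row := by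
    rw [hBrow]
    exact hfli.comp _ (Fin.castLE_injective h')
  -- `ρ` linearly independent columns of `B`
  have hBrank : ρ = finrank F (Submodule.span F (Set.range B.col)) := by
    rw [← B.rank_eq_finrank_span_cols, hBli.rank_matrix, Fintype.card_fin]
  obtain ⟨g, hg, -, hgli⟩ := Submodule.exists_fun_fin_finrank_span_eq F (Set.range B.col)
  choose c' hc' using hg
  let c : Fin ρ → n := fun j => c' (Fin.cast hBrank j)
  refine ⟨s, c, ?_⟩
  have hcol : (A.submatrix s c).col = fun j => g (Fin.cast hBrank j) := by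
    funext j
    rw [← hc' (Fin.cast hBrank j)]
    rfl
  have hli : LinearIndependent F (A.submatrix s c).col := by
    rw [hcol]
    exact hgli.comp _ (Fin.cast_injective hBrank)
  have hunit := Matrix.linearIndependent_cols_iff_isUnit.mp hli
  exact ((Matrix.isUnit_iff_isUnit_det _).mp hunit).ne_zero

/-- A matrix over a field with a nonvanishing `ρ`-minor has rank at least `ρ`. -/
theorem le_rank_of_submatrix_det_ne_zero {F : Type*} [Field F] {m n : Type*} [Finite m]
    [Fintype n] (A : Matrix m n F) {ρ : ℕ} (s : Fin ρ → m) (c : Fin ρ → n)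
    (h : (A.submatrix s c).det ≠ 0) : ρ ≤ A.rank := by
  classical
  have hunit : IsUnit (A.submatrix s c) :=
    (Matrix.isUnit_iff_isUnit_det _).mpr (isUnit_iff_ne_zero.mpr h)
  have hli : LinearIndependent F (A.submatrix s c).row :=
    Matrix.linearIndependent_rows_iff_isUnit.mpr hunit
  have hli' : LinearIndependent F (fun i => A.row (s i)) := by
    refine LinearIndependent.of_comp (LinearMap.funLeft F F c) ?_
    exact hli
  have h1 : Fintype.card (Fin ρ) = Set.finrank F (Set.range fun i => A.row (s i)) :=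
    linearIndependent_iff_card_eq_finrank_span.mp hli'
  rw [Fintype.card_fin] at h1
  rw [A.rank_eq_finrank_span_row, h1]
  refine Submodule.finrank_mono (Submodule.span_mono ?_)
  rintro _ ⟨i, rfl⟩
  exact ⟨s i, rfl⟩

/-- The rank of a matrix over a field is at most `R` iff all its `(R + 1)`-minors vanish. -/
theorem rank_le_iff_forall_submatrix_det_eq_zero {F : Type*} [Field F] {m n : Type*} [Finite m]
    [Fintype n] (A : Matrix m n F) (R : ℕ) :
    A.rank ≤ R ↔ ∀ (s : Fin (R + 1) → m) (c : Fin (R + 1) → n), (A.submatrix s c).det = 0 := by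
  constructor
  · intro h s c
    by_contra h0
    have := le_rank_of_submatrix_det_ne_zero A s c h0
    omega
  · intro h
    by_contra h0
    obtain ⟨s, c, hsc⟩ := exists_submatrix_det_ne_zero_of_le_rank A (ρ := R + 1) (by omega)
    exact hsc (h s c)

variable {Ω : Type*} [Field Ω] [CharZero Ω] [Algebra.IsAlgebraic ℚ Ω]
variable {K : Type*} [Field K] [NumberField K] {ι κ : Type*} [Finite ι] [Finite κ]

/-- The monomial `c * X_i * Y_k` is bihomogeneous of bidegree `(1, 1)`. -/
theorem isWeightedHomogeneous_biWeight_C_mul_X_mul_X {R : Type*} [CommSemiring R] {ι κ : Type*}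
    (c : R) (i : ι) (k : κ) :
    (C c * X (Sum.inl i) * X (Sum.inr k) : MvPolynomial (ι ⊕ κ) R).IsWeightedHomogeneous
      (biWeight ι κ) (1, 1) := by
  have h := ((isWeightedHomogeneous_C (biWeight ι κ) c).mul
    (isWeightedHomogeneous_X R (biWeight ι κ) (Sum.inl i))).mul
    (isWeightedHomogeneous_X R (biWeight ι κ) (Sum.inr k))
  simpa using h

/-- The monomial `c * X_i` is bihomogeneous of bidegree `(1, 0)`. -/
theorem isWeightedHomogeneous_biWeight_C_mul_X_inl {R : Type*} [CommSemiring R] {ι κ : Type*}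
    (c : R) (i : ι) :
    (C c * X (Sum.inl i) : MvPolynomial (ι ⊕ κ) R).IsWeightedHomogeneous
      (biWeight ι κ) (1, 0) := by
  have h := (isWeightedHomogeneous_C (biWeight ι κ) c).mul
    (isWeightedHomogeneous_X R (biWeight ι κ) (Sum.inl i))
  simpa using h

/-- The monomial `c * Y_k` is bihomogeneous of bidegree `(0, 1)`. -/
theorem isWeightedHomogeneous_biWeight_C_mul_X_inr {R : Type*} [CommSemiring R] {ι κ : Type*}
    (c : R) (k : κ) :
    (C c * X (Sum.inr k) : MvPolynomial (ι ⊕ κ) R).IsWeightedHomogeneous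
      (biWeight ι κ) (0, 1) := by
  have h := (isWeightedHomogeneous_C (biWeight ι κ) c).mul
    (isWeightedHomogeneous_X R (biWeight ι κ) (Sum.inr k))
  simpa using h

/-- Minors of a matrix of bihomogeneous polynomials of bidegree `(a, b)`. -/
theorem isWeightedHomogeneous_biWeight_det_submatrix {R : Type*} [CommRing R] {ι κ : Type*}
    {m n : Type*} {a b : ℕ} {N : Matrix m n (MvPolynomial (ι ⊕ κ) R)}
    (hN : ∀ i j, (N i j).IsWeightedHomogeneous (biWeight ι κ) (a, b)) {ρ : ℕ} (s : Fin ρ → m)
    (c : Fin ρ → n) :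
    (N.submatrix s c).det.IsWeightedHomogeneous (biWeight ι κ) (ρ * a, ρ * b) := by
  have h := isWeightedHomogeneous_det_submatrix hN s c
  simpa [Prod.smul_mk] using h

/-- **Absolute upper bound for the minors of a bihomogeneous polynomial matrix.** -/
theorem absLogHeight_minors_le (f : K →+* Ω) {m n : Type*} [Finite m] [Finite n] {a b : ℕ}
    {N : Matrix m n (MvPolynomial (ι ⊕ κ) K)}
    (hN : ∀ i j, (N i j).IsWeightedHomogeneous (biWeight ι κ) (a, b)) (ρ : ℕ) :
    ∃ C : ℝ, ∀ (x : ι → Ω) (y : κ → Ω),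
      absLogHeight (fun sc : (Fin ρ → m) × (Fin ρ → n) =>
        ((N.map fun P => MvPolynomial.eval (Sum.elim x y) (MvPolynomial.map f P)).submatrix
          sc.1 sc.2).det) ≤ C + ρ * (a * absLogHeight x + b * absLogHeight y) := by
  obtain ⟨C, hC⟩ := absLogHeight_bieval_le f
    (p := fun sc : (Fin ρ → m) × (Fin ρ → n) => (N.submatrix sc.1 sc.2).det)
    (fun sc => isWeightedHomogeneous_biWeight_det_submatrix hN sc.1 sc.2)
  refine ⟨C, fun x y => ?_⟩
  have h := hC x y
  simp only [eval_map_det_submatrix] at h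
  push_cast at h
  linarith

/-- **Absolute lower bound for the minors of a bihomogeneous polynomial matrix** (minors form
of (BPF)). `N` is a matrix of polynomials over the number field `K` in the variables `ι ⊕ κ`,
all entries bihomogeneous of bidegree `(a, b)`; `g` is a family of bihomogeneous polynomials.
If for all nonzero `x`, `y` over an algebraically closed extension `L` of `K` with
`g(x, y) = 0` some `ρ`-minor of `N(x, y)` does not vanish, then
`C + ρ * (a * h(x) + b * h(y)) ≤ h(all ρ-minors of N(x, y))` for ALL nonzero `x`, `y` with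
coordinates in `Ω` and `g(x, y) = 0`. -/
theorem absLogHeight_minors_ge_on (L : Type*) [Field L] [IsAlgClosed L] [Algebra K L]
    {m n : Type*} [Fintype m] [Fintype n] {ρ' : Type*} (f : K →+* Ω) {a b : ℕ}
    {N : Matrix m n (MvPolynomial (ι ⊕ κ) K)}
    (hN : ∀ i j, (N i j).IsWeightedHomogeneous (biWeight ι κ) (a, b))
    {g : ρ' → MvPolynomial (ι ⊕ κ) K}
    (hg : ∀ l, ∃ d, (g l).IsWeightedHomogeneous (biWeight ι κ) d) (ρ : ℕ)
    (h0 : ∀ (x : ι → L) (y : κ → L), x ≠ 0 → y ≠ 0 →
      (∀ l, MvPolynomial.aeval (Sum.elim x y) (g l) = 0) →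
      ∃ (s : Fin ρ → m) (c : Fin ρ → n),
        ((N.map (MvPolynomial.aeval (Sum.elim x y))).submatrix s c).det ≠ 0) :
    ∃ C : ℝ, ∀ (x : ι → Ω) (y : κ → Ω), x ≠ 0 → y ≠ 0 →
      (∀ l, MvPolynomial.eval (Sum.elim x y) (MvPolynomial.map f (g l)) = 0) →
      C + ρ * (a * absLogHeight x + b * absLogHeight y) ≤
        absLogHeight (fun sc : (Fin ρ → m) × (Fin ρ → n) =>
          ((N.map fun P => MvPolynomial.eval (Sum.elim x y) (MvPolynomial.map f P)).submatrix
            sc.1 sc.2).det) := by
  classical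
  obtain ⟨C, hC⟩ := absLogHeight_bieval_ge_on L f
    (p := fun sc : (Fin ρ → m) × (Fin ρ → n) => (N.submatrix sc.1 sc.2).det)
    (fun sc => isWeightedHomogeneous_biWeight_det_submatrix hN sc.1 sc.2) hg
    (fun x y hgxy hp0 => by
      by_contra hne
      rw [not_or] at hne
      obtain ⟨s, c, hsc⟩ := h0 x y hne.1 hne.2 hgxy
      exact hsc (by rw [← aeval_det_submatrix]; exact hp0 (s, c)))
  refine ⟨C, fun x y hx hy hgxy => ?_⟩
  have h := hC x y hx hy hgxy
  simp only [eval_map_det_submatrix] at h
  push_cast at h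
  linarith

/-- `absLogHeight_minors_ge_on` with the hypothesis in rank form:
`ρ ≤ rank N(x, y)` for all nonzero `x`, `y` over `L` with `g(x, y) = 0`. -/
theorem absLogHeight_minors_ge_on_of_rank (L : Type*) [Field L] [IsAlgClosed L] [Algebra K L]
    {m n : Type*} [Fintype m] [Fintype n] {ρ' : Type*} (f : K →+* Ω) {a b : ℕ}
    {N : Matrix m n (MvPolynomial (ι ⊕ κ) K)}
    (hN : ∀ i j, (N i j).IsWeightedHomogeneous (biWeight ι κ) (a, b))
    {g : ρ' → MvPolynomial (ι ⊕ κ) K}
    (hg : ∀ l, ∃ d, (g l).IsWeightedHomogeneous (biWeight ι κ) d) (ρ : ℕ)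
    (h0 : ∀ (x : ι → L) (y : κ → L), x ≠ 0 → y ≠ 0 →
      (∀ l, MvPolynomial.aeval (Sum.elim x y) (g l) = 0) →
      ρ ≤ (N.map (MvPolynomial.aeval (Sum.elim x y))).rank) :
    ∃ C : ℝ, ∀ (x : ι → Ω) (y : κ → Ω), x ≠ 0 → y ≠ 0 →
      (∀ l, MvPolynomial.eval (Sum.elim x y) (MvPolynomial.map f (g l)) = 0) →
      C + ρ * (a * absLogHeight x + b * absLogHeight y) ≤
        absLogHeight (fun sc : (Fin ρ → m) × (Fin ρ → n) =>
          ((N.map fun P => MvPolynomial.eval (Sum.elim x y) (MvPolynomial.map f P)).submatrix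
            sc.1 sc.2).det) :=
  absLogHeight_minors_ge_on L f hN hg ρ fun x y hx hy hgxy =>
    exists_submatrix_det_ne_zero_of_le_rank _ (h0 x y hx hy hgxy)

/-- **Two-sided minors form of (BPF), self-contained `aeval` form** for an algebraically closed
`Ω` algebraic over `ℚ` (e.g. `AlgebraicClosure ℚ`) which is an algebra over the number field `K`
of the coefficients: if `ρ ≤ rank N(x, y)` for all nonzero `x`, `y` over `Ω` with
`g(x, y) = 0`, then `|h(all ρ-minors of N(x, y)) - ρ * (a * h(x) + b * h(y))| ≤ C` for all such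
`x`, `y`. -/
theorem abs_absLogHeight_minors_sub_le_on [IsAlgClosed Ω] [Algebra K Ω]
    {m n : Type*} [Fintype m] [Fintype n] {ρ' : Type*} {a b : ℕ}
    {N : Matrix m n (MvPolynomial (ι ⊕ κ) K)}
    (hN : ∀ i j, (N i j).IsWeightedHomogeneous (biWeight ι κ) (a, b))
    {g : ρ' → MvPolynomial (ι ⊕ κ) K}
    (hg : ∀ l, ∃ d, (g l).IsWeightedHomogeneous (biWeight ι κ) d) (ρ : ℕ)
    (h0 : ∀ (x : ι → Ω) (y : κ → Ω), x ≠ 0 → y ≠ 0 →
      (∀ l, MvPolynomial.aeval (Sum.elim x y) (g l) = 0) →
      ρ ≤ (N.map (MvPolynomial.aeval (Sum.elim x y))).rank) :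
    ∃ C : ℝ, ∀ (x : ι → Ω) (y : κ → Ω), x ≠ 0 → y ≠ 0 →
      (∀ l, MvPolynomial.aeval (Sum.elim x y) (g l) = 0) →
      |absLogHeight (fun sc : (Fin ρ → m) × (Fin ρ → n) =>
          ((N.map (MvPolynomial.aeval (Sum.elim x y))).submatrix sc.1 sc.2).det) -
        ρ * (a * absLogHeight x + b * absLogHeight y)| ≤ C := by
  obtain ⟨C₁, h₁⟩ := absLogHeight_minors_ge_on_of_rank Ω (algebraMap K Ω) hN hg ρ h0
  obtain ⟨C₂, h₂⟩ := absLogHeight_minors_le (Ω := Ω) (algebraMap K Ω) hN ρ
  refine ⟨max C₂ (-C₁), fun x y hx hy hgxy => ?_⟩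
  have hmat : (N.map fun P => MvPolynomial.eval (Sum.elim x y)
      (MvPolynomial.map (algebraMap K Ω) P)) = N.map (MvPolynomial.aeval (Sum.elim x y)) := by
    ext i j
    simp only [Matrix.map_apply, aeval_eq_eval_map_algebraMap]
  have h3 := h₁ x y hx hy (fun l => by rw [← aeval_eq_eval_map_algebraMap]; exact hgxy l)
  have h4 := h₂ x y
  rw [hmat] at h3 h4
  rw [abs_le]
  constructor
  · have := le_max_right C₂ (-C₁)
    linarith
  · have := le_max_left C₂ (-C₁)
    linarith

/-- **(BPF) with rank conditions.** `N`, `G₁`, `G₂` are matrices of bihomogeneous polynomials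
over the number field `K` (entries of `N` of bidegree `(a, b)`; all entries of `G₁` of one
bidegree, all entries of `G₂` of one bidegree, e.g. `(1, 0)` and `(0, 1)`), `Ω` is algebraically
closed and algebraic over `ℚ`. If for all nonzero `x`, `y` over `Ω` with `rank G₁(x, y) ≤ R₁`
and `rank G₂(x, y) ≤ R₂` the matrix `N(x, y)` has rank at least `ρ`, then on this locus
`|h(all ρ-minors of N(x, y)) - ρ * (a * h(x) + b * h(y))| ≤ C`. -/
theorem abs_absLogHeight_minors_sub_le_of_rank [IsAlgClosed Ω] [Algebra K Ω]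
    {m n m₁ n₁ m₂ n₂ : Type*} [Fintype m] [Fintype n] [Fintype m₁] [Fintype n₁] [Fintype m₂]
    [Fintype n₂] {a b : ℕ} {N : Matrix m n (MvPolynomial (ι ⊕ κ) K)}
    (hN : ∀ i j, (N i j).IsWeightedHomogeneous (biWeight ι κ) (a, b)) {d₁ d₂ : ℕ × ℕ}
    {G₁ : Matrix m₁ n₁ (MvPolynomial (ι ⊕ κ) K)}
    (hG₁ : ∀ i j, (G₁ i j).IsWeightedHomogeneous (biWeight ι κ) d₁)
    {G₂ : Matrix m₂ n₂ (MvPolynomial (ι ⊕ κ) K)}
    (hG₂ : ∀ i j, (G₂ i j).IsWeightedHomogeneous (biWeight ι κ) d₂) (ρ R₁ R₂ : ℕ)
    (h0 : ∀ (x : ι → Ω) (y : κ → Ω), x ≠ 0 → y ≠ 0 →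
      (G₁.map (MvPolynomial.aeval (Sum.elim x y))).rank ≤ R₁ →
      (G₂.map (MvPolynomial.aeval (Sum.elim x y))).rank ≤ R₂ →
      ρ ≤ (N.map (MvPolynomial.aeval (Sum.elim x y))).rank) :
    ∃ C : ℝ, ∀ (x : ι → Ω) (y : κ → Ω), x ≠ 0 → y ≠ 0 →
      (G₁.map (MvPolynomial.aeval (Sum.elim x y))).rank ≤ R₁ →
      (G₂.map (MvPolynomial.aeval (Sum.elim x y))).rank ≤ R₂ →
      |absLogHeight (fun sc : (Fin ρ → m) × (Fin ρ → n) =>
          ((N.map (MvPolynomial.aeval (Sum.elim x y))).submatrix sc.1 sc.2).det) -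
        ρ * (a * absLogHeight x + b * absLogHeight y)| ≤ C := by
  classical
  let g : ((Fin (R₁ + 1) → m₁) × (Fin (R₁ + 1) → n₁)) ⊕ ((Fin (R₂ + 1) → m₂) × (Fin (R₂ + 1) → n₂)) →
      MvPolynomial (ι ⊕ κ) K :=
    Sum.elim (fun sc => (G₁.submatrix sc.1 sc.2).det) (fun sc => (G₂.submatrix sc.1 sc.2).det)
  have hg : ∀ l, ∃ d, (g l).IsWeightedHomogeneous (biWeight ι κ) d := by
    rintro (sc | sc)
    · exact ⟨_, isWeightedHomogeneous_det_submatrix hG₁ sc.1 sc.2⟩
    · exact ⟨_, isWeightedHomogeneous_det_submatrix hG₂ sc.1 sc.2⟩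
  have hiff : ∀ (x : ι → Ω) (y : κ → Ω), (∀ l, MvPolynomial.aeval (Sum.elim x y) (g l) = 0) ↔
      ((G₁.map (MvPolynomial.aeval (Sum.elim x y))).rank ≤ R₁ ∧
        (G₂.map (MvPolynomial.aeval (Sum.elim x y))).rank ≤ R₂) := by
    intro x y
    rw [rank_le_iff_forall_submatrix_det_eq_zero, rank_le_iff_forall_submatrix_det_eq_zero]
    constructor
    · intro h
      refine ⟨fun s c => ?_, fun s c => ?_⟩
      · have := h (Sum.inl (s, c))
        rwa [show g (Sum.inl (s, c)) = (G₁.submatrix s c).det from rfl,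
          aeval_det_submatrix] at this
      · have := h (Sum.inr (s, c))
        rwa [show g (Sum.inr (s, c)) = (G₂.submatrix s c).det from rfl,
          aeval_det_submatrix] at this
    · rintro ⟨h1, h2⟩ (sc | sc)
      · rw [show g (Sum.inl sc) = (G₁.submatrix sc.1 sc.2).det from rfl, aeval_det_submatrix]
        exact h1 sc.1 sc.2
      · rw [show g (Sum.inr sc) = (G₂.submatrix sc.1 sc.2).det from rfl, aeval_det_submatrix]
        exact h2 sc.1 sc.2
  obtain ⟨C, hC⟩ := abs_absLogHeight_minors_sub_le_on (Ω := Ω) hN hg ρ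
    (fun x y hx hy hgxy => h0 x y hx hy ((hiff x y).mp hgxy).1 ((hiff x y).mp hgxy).2)
  exact ⟨C, fun x y hx hy h1 h2 => hC x y hx hy ((hiff x y).mpr ⟨h1, h2⟩)⟩

end Minors

end Fermat.Agent.Lib.helper1572
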