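import Mathlib
import Fermat.Prelude.Def_EllipticCurve_FrobeniusTrace

/-!
# Existence of Frobenius elements in `Gal(ℚ̄/ℚ)` (helper54)

For every prime `ℓ` and every valuation subring `A` of `ℚ̄` lying over `ℓ` there is
`σ ∈ Gal(ℚ̄/ℚ)` with `A.IsFrobeniusAt σ ℓ` (in the sense of the prelude).  Valuation subrings
over `ℓ` exist.
-/

set_option autoImplicit false

namespace Fermat.Agent.Lib.helper54

open Polynomial
open scoped Pointwise

/-- Seidenberg-style `u, u⁻¹` lemma, in fraction form and without localisations: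
if `R` is integrally closed in the field `L` (in the weak sense that integral elements
come from `R`), `q` is an ideal of `R`, and `u : L` is a root of a polynomial over `R`
having a coefficient outside `q`, then `u = a / b` or `u⁻¹ = a / b` with `b ∉ q`. -/
theorem exists_frac_of_aeval_eq_zero {R L : Type*} [CommRing R] [Field L] [Algebra R L]
    (hcl : ∀ x : L, IsIntegral R x → ∃ r : R, algebraMap R L r = x) (q : Ideal R) (u : L) :
    ∀ (n : ℕ) (p : R[X]), p.natDegree ≤ n → aeval u p = 0 → (∃ i, p.coeff i ∉ q) →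
      ∃ a b : R, b ∉ q ∧ (u * algebraMap R L b = algebraMap R L a ∨
        u * algebraMap R L a = algebraMap R L b) := by
  intro n
  induction n with
  | zero =>
    intro p hdeg hp ⟨i, hi⟩
    have hpC : p = C (p.coeff 0) := eq_C_of_natDegree_le_zero hdeg
    have hi0 : i = 0 := by
      by_contra h
      apply hi
      rw [hpC, coeff_C, if_neg h]
      exact q.zero_mem
    subst hi0
    refine ⟨0, p.coeff 0, hi, Or.inl ?_⟩
    rw [hpC, aeval_C] at hp
    rw [hp, mul_zero, map_zero]
  | succ n ih =>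
    intro p hdeg hp hex
    by_cases hdeg' : p.natDegree ≤ n
    · exact ih p hdeg' hp hex
    have hdeg_eq : p.natDegree = n + 1 := le_antisymm hdeg (Nat.succ_le_of_lt (not_le.mp hdeg'))
    obtain ⟨c, hc⟩ := hcl _ (isIntegral_leadingCoeff_smul p u hp)
    rw [Algebra.smul_def] at hc
    by_cases han : p.leadingCoeff ∈ q
    · -- the leading coefficient lies in `q`: lower the degree
      set p' : R[X] := p.eraseLead + C c * X ^ n with hp'
      have hdeg1 : p'.natDegree ≤ n := by
        refine (natDegree_add_le _ _).trans (max_le ?_ (natDegree_C_mul_X_pow_le c n))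
        have := eraseLead_natDegree_le p
        omega
      have hsplit : p = p.eraseLead + C p.leadingCoeff * X ^ (n + 1) := by
        have := eraseLead_add_C_mul_X_pow p
        rw [hdeg_eq] at this
        exact this.symm
      have hp'0 : aeval u p' = 0 := by
        have h1 : aeval u p = aeval u p.eraseLead + algebraMap R L p.leadingCoeff * u ^ (n + 1) := by
          conv_lhs => rw [hsplit]
          simp
        rw [hp', map_add, map_mul, aeval_C, map_pow, aeval_X, hc, ← hp, h1]
        ring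
      by_cases hex' : ∃ i, p'.coeff i ∉ q
      · exact ih p' hdeg1 hp'0 hex'
      · push Not at hex'
        obtain ⟨i, hi⟩ := hex
        have hcoeff : ∀ j, p'.coeff j = p.eraseLead.coeff j + if j = n then c else 0 := by
          intro j
          rw [hp', coeff_add, coeff_C_mul_X_pow]
        have hi_ne : i ≠ n + 1 := by
          rintro rfl
          apply hi
          rw [← hdeg_eq]
          exact han
        have hpi : p.eraseLead.coeff i = p.coeff i := by
          rw [eraseLead_coeff, if_neg (by rw [hdeg_eq]; exact hi_ne)]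
        have hin : i = n := by
          by_contra hne
          apply hi
          have := hex' i
          rwa [hcoeff, if_neg hne, add_zero, hpi] at this
        subst hin
        have hcq : c ∉ q := by
          intro hcq
          apply hi
          have := hex' i
          rw [hcoeff, if_pos rfl, hpi] at this
          have h2 := q.sub_mem this hcq
          rwa [add_sub_cancel_right] at h2
        exact ⟨p.leadingCoeff, c, hcq, Or.inr (by rw [mul_comm]; exact hc.symm)⟩
    · exact ⟨c, p.leadingCoeff, han, Or.inl (by rw [mul_comm]; exact hc.symm)⟩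

theorem isAlgebraic_Qbar : Algebra.IsAlgebraic ℚ (AlgebraicClosure ℚ) :=
  AlgebraicClosure.isAlgebraic ℚ

theorem isAlgClosure_Qbar : IsAlgClosure ℚ (AlgebraicClosure ℚ) :=
  ⟨inferInstance, isAlgebraic_Qbar⟩

theorem isGalois_Qbar : IsGalois ℚ (AlgebraicClosure ℚ) :=
  haveI := isAlgClosure_Qbar
  inferInstance

theorem isIntegral_Qbar : Algebra.IsIntegral ℚ (AlgebraicClosure ℚ) :=
  haveI := isAlgebraic_Qbar
  inferInstance

attribute [local instance] isAlgebraic_Qbar isAlgClosure_Qbar isGalois_Qbar isIntegral_Qbar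

local notation "Qb" => AlgebraicClosure ℚ
local notation "GQ" => (AlgebraicClosure ℚ ≃ₐ[ℚ] AlgebraicClosure ℚ)
local notation "Zb" => integralClosure ℤ (AlgebraicClosure ℚ)

/-- Integral elements lie in every valuation subring. -/
theorem mem_valuationSubring_of_isIntegral {L : Type*} [Field L] (A : ValuationSubring L)
    (z : L) (hz : IsIntegral ℤ z) : z ∈ A := by
  have h1 : IsIntegral A z := hz.tower_top
  obtain ⟨y, hy⟩ := IsIntegrallyClosed.isIntegral_iff.mp h1
  rw [← hy]
  exact y.2

/-- The inclusion of the ring of all algebraic integers into a valuation subring. -/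
noncomputable def zbarToValuationSubring (A : ValuationSubring Qb) : Zb →+* A where
  toFun z := ⟨z.1, mem_valuationSubring_of_isIntegral A z.1 z.2⟩
  map_one' := rfl
  map_mul' _ _ := rfl
  map_zero' := rfl
  map_add' _ _ := rfl

theorem coe_zbarToValuationSubring (A : ValuationSubring Qb) (z : Zb) :
    ((zbarToValuationSubring A z : A) : Qb) = (z : Qb) := rfl

/-- The prime of the ring of algebraic integers cut out by a valuation subring. -/
noncomputable def primeOfValuationSubring (A : ValuationSubring Qb) : Ideal Zb :=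
  (IsLocalRing.maximalIdeal A).comap (zbarToValuationSubring A)

instance primeOfValuationSubring_isPrime (A : ValuationSubring Qb) :
    (primeOfValuationSubring A).IsPrime :=
  Ideal.comap_isPrime _ _

theorem mem_primeOfValuationSubring (A : ValuationSubring Qb) (z : Zb) :
    z ∈ primeOfValuationSubring A ↔ (z : Qb) ∈ A.nonunits := by
  rw [primeOfValuationSubring, Ideal.mem_comap, ← ValuationSubring.coe_mem_nonunits_iff,
    coe_zbarToValuationSubring]

/-- The prime `ℓ` lies in the prime cut out by a valuation subring over `ℓ`. -/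
theorem natCast_mem_primeOfValuationSubring {ℓ : ℕ}
    (A : ValuationSubring Qb) (hA : A.LiesOverPrime ℓ) :
    ((ℓ : ℕ) : Zb) ∈ primeOfValuationSubring A := by
  rw [mem_primeOfValuationSubring]
  have : (((ℓ : ℕ) : Zb) : Qb) = (ℓ : Qb) := by simp
  rw [this]
  exact hA

/-- An integer prime to `ℓ` is not in the prime cut out by a valuation subring over `ℓ`. -/
theorem intCast_not_mem_primeOfValuationSubring {ℓ : ℕ} (hℓ : ℓ.Prime)
    (A : ValuationSubring Qb) (hA : A.LiesOverPrime ℓ) (m : ℤ) (hm : ¬ (ℓ : ℤ) ∣ m) :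
    ((m : ℤ) : Zb) ∉ primeOfValuationSubring A := by
  intro hmem
  have hcop : IsCoprime (ℓ : ℤ) m :=
    (Nat.prime_iff_prime_int.mp hℓ).irreducible.coprime_iff_not_dvd.mpr hm
  obtain ⟨s, t, hst⟩ := hcop
  have h1 : (1 : Zb) ∈ primeOfValuationSubring A := by
    have h2 := (primeOfValuationSubring A).add_mem
      ((primeOfValuationSubring A).mul_mem_left (s : Zb) (natCast_mem_primeOfValuationSubring A hA))
      ((primeOfValuationSubring A).mul_mem_left (t : Zb) hmem)
    have h3 : ((s : Zb) * ((ℓ : ℕ) : Zb) + (t : Zb) * ((m : ℤ) : Zb)) = 1 := by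
      have := congrArg (Int.cast : ℤ → Zb) hst
      push_cast at this
      exact this
    rwa [h3] at h2
  exact (Ideal.ne_top_iff_one _).mp (Ideal.IsPrime.ne_top inferInstance) h1

/-- Every element of a valuation subring of `ℚ̄` over `ℓ` is a quotient of algebraic integers
with denominator outside the maximal ideal. -/
theorem exists_frac_of_mem_valuationSubring {ℓ : ℕ} (hℓ : ℓ.Prime)
    (A : ValuationSubring Qb) (hA : A.LiesOverPrime ℓ) (x : Qb) (hx : x ∈ A) :
    ∃ a b : Zb, b ∉ primeOfValuationSubring A ∧ x * (b : Qb) = (a : Qb) := by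
  -- a primitive integer polynomial killing `x`
  have halg : IsAlgebraic ℤ x := by
    have h1 : IsAlgebraic ℚ x := Algebra.IsAlgebraic.isAlgebraic x
    exact (IsFractionRing.isAlgebraic_iff ℤ ℚ Qb).mpr h1
  obtain ⟨p, hp0, hpx⟩ := halg
  have hprim : p.primPart.IsPrimitive := p.isPrimitive_primPart
  have hpx' : aeval x p.primPart = 0 := by
    have h1 := p.eq_C_content_mul_primPart
    rw [h1, map_mul, aeval_C] at hpx
    rcases mul_eq_zero.mp hpx with h | h
    · exfalso
      have hc : p.content ≠ 0 := by rwa [Ne, content_eq_zero_iff]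
      apply hc
      have hinj : Function.Injective (algebraMap ℤ Qb) := (algebraMap ℤ Qb).injective_int
      exact hinj (by rw [h, map_zero])
    · exact h
  -- some coefficient is not divisible by `ℓ`
  have hcoeff : ∃ i, ¬ (ℓ : ℤ) ∣ p.primPart.coeff i := by
    by_contra hall
    push Not at hall
    have h1 : C (ℓ : ℤ) ∣ p.primPart := (C_dvd_iff_dvd_coeff _ _).mpr hall
    have h2 := hprim _ h1
    exact (Nat.prime_iff_prime_int.mp hℓ).not_isUnit h2
  obtain ⟨i, hi⟩ := hcoeff
  set P : Zb[X] := p.primPart.map (algebraMap ℤ Zb) with hP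
  have hPx : aeval x P = 0 := by
    rw [hP, aeval_map_algebraMap]
    exact hpx'
  have hPi : P.coeff i ∉ primeOfValuationSubring A := by
    rw [hP, coeff_map]
    exact intCast_not_mem_primeOfValuationSubring hℓ A hA _ hi
  have hcl : ∀ y : Qb, IsIntegral Zb y → ∃ r : Zb, algebraMap Zb Qb r = y := by
    intro y hy
    exact ⟨⟨y, isIntegral_trans (R := ℤ) (A := Zb) y hy⟩, rfl⟩
  obtain ⟨a, b, hb, h | h⟩ := exists_frac_of_aeval_eq_zero hcl (primeOfValuationSubring A) x
    P.natDegree P le_rfl hPx ⟨i, hPi⟩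
  · exact ⟨a, b, hb, h⟩
  · refine ⟨b, a, ?_, h⟩
    intro ha
    apply hb
    rw [mem_primeOfValuationSubring] at ha ⊢
    have h4 : (b : Qb) = x * (a : Qb) := h.symm
    rw [h4]
    have h5 : ((⟨x, hx⟩ : A) * (zbarToValuationSubring A a)) ∈ IsLocalRing.maximalIdeal A :=
      Ideal.mul_mem_left _ _ (ValuationSubring.coe_mem_nonunits_iff.mp ha)
    exact ValuationSubring.coe_mem_nonunits_iff.mpr h5

/-- The integral closure of `ℤ` in `ℚ̄` has `ℤ` as its ring of Galois invariants. -/
theorem isInvariant_Zbar : Algebra.IsInvariant ℤ Zb GQ := by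
  refine ⟨fun b hb => ?_⟩
  have h1 : (b : Qb) ∈ Set.range (algebraMap ℚ Qb) := by
    rw [InfiniteGalois.mem_range_algebraMap_iff_fixed]
    intro f
    exact congrArg Subtype.val (hb f)
  obtain ⟨r, hr⟩ := h1
  have h2 : IsIntegral ℤ r := by
    have h3 : IsIntegral ℤ (algebraMap ℚ Qb r) := hr ▸ b.2
    exact (isIntegral_algHom_iff (IsScalarTower.toAlgHom ℤ ℚ Qb) (algebraMap ℚ Qb).injective).mp h3
  obtain ⟨m, hm⟩ := IsIntegrallyClosed.isIntegral_iff.mp h2
  refine ⟨m, Subtype.ext ?_⟩
  rw [← hr, ← hm]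
  simp

/-- Every algebraic integer is an `ℓ`-th power of an algebraic integer. -/
theorem exists_pow_eq_zbar (ℓ : ℕ) (hℓ : 0 < ℓ) (a : Zb) : ∃ b : Zb, b ^ ℓ = a := by
  obtain ⟨b, hb⟩ := IsAlgClosed.exists_pow_nat_eq (a : Qb) hℓ
  have hbint : IsIntegral ℤ b := by
    apply IsIntegral.of_pow hℓ
    rw [hb]
    exact a.2
  exact ⟨⟨b, hbint⟩, Subtype.ext hb⟩

/-- Existence of a Frobenius element on the ring of algebraic integers. -/
theorem exists_frobenius_zbar {ℓ : ℕ} (hℓ : ℓ.Prime) (q : Ideal Zb) [q.IsPrime]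
    (hℓq : ((ℓ : ℕ) : Zb) ∈ q) :
    ∃ σ : GQ, σ • q = q ∧ ∀ b : Zb, σ • b - b ^ ℓ ∈ q := by
  classical
  have : Fact ℓ.Prime := ⟨hℓ⟩
  have hℓq' : ((ℓ : ℕ) : Zb ⧸ q) = 0 := by
    rw [← map_natCast (Ideal.Quotient.mk q)]
    exact Ideal.Quotient.eq_zero_iff_mem.mpr hℓq
  have : CharP (Zb ⧸ q) ℓ := (CharP.charP_iff_prime_eq_zero hℓ).mpr hℓq'
  let frobHom : (Zb ⧸ q) →ₐ[ℤ ⧸ q.under ℤ] (Zb ⧸ q) :=
    { frobenius (Zb ⧸ q) ℓ with
      commutes' := by
        intro r
        obtain ⟨m, rfl⟩ := Ideal.Quotient.mk_surjective r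
        have h0 : algebraMap (ℤ ⧸ q.under ℤ) (Zb ⧸ q) (Ideal.Quotient.mk (q.under ℤ) m) =
            ((m : ℤ) : Zb ⧸ q) := by
          rw [Ideal.Quotient.algebraMap_mk_of_liesOver]
          simp
        change frobenius (Zb ⧸ q) ℓ _ = _
        rw [h0, map_intCast] }
  have hbij : Function.Bijective frobHom := by
    refine ⟨frobenius_inj (Zb ⧸ q) ℓ, ?_⟩
    intro y
    obtain ⟨a, rfl⟩ := Ideal.Quotient.mk_surjective y
    obtain ⟨b, hb⟩ := exists_pow_eq_zbar ℓ hℓ.pos a
    refine ⟨Ideal.Quotient.mk q b, ?_⟩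
    change frobenius (Zb ⧸ q) ℓ _ = _
    rw [frobenius_def, ← map_pow, hb]
  let φ : (Zb ⧸ q) ≃ₐ[ℤ ⧸ q.under ℤ] (Zb ⧸ q) := AlgEquiv.ofBijective frobHom hbij
  let : TopologicalSpace Zb := ⊥
  have : DiscreteTopology Zb := ⟨rfl⟩
  have : ContinuousSMul GQ Zb := by
    rw [continuousSMul_iff_stabilizer_isOpen]
    intro z
    have : (MulAction.stabilizer GQ z : Set GQ) = MulAction.stabilizer GQ (z : Qb) := by
      ext g
      simp [Subtype.ext_iff]
    rw [this]
    exact stabilizer_isOpen_of_isIntegral _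
  have := isInvariant_Zbar
  obtain ⟨⟨σ, hσ⟩, hσφ⟩ :=
    Ideal.Quotient.stabilizerHom_surjective_of_profinite (G := GQ) (q.under ℤ) q φ
  refine ⟨σ, hσ, fun b => ?_⟩
  have h1 : Ideal.Quotient.mk q (σ • b) = (Ideal.Quotient.mk q b) ^ ℓ :=
    congrArg (fun f => f (Ideal.Quotient.mk q b)) hσφ
  rw [← map_pow, Ideal.Quotient.eq] at h1
  exact h1

/-- An automorphism stabilising the prime cut out by `A` maps `A` into itself. -/
theorem map_mem_of_smul_prime_eq {ℓ : ℕ} (hℓ : ℓ.Prime) (A : ValuationSubring Qb)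
    (hA : A.LiesOverPrime ℓ) (τ : GQ)
    (hτ : τ • primeOfValuationSubring A = primeOfValuationSubring A) (x : Qb) (hx : x ∈ A) :
    τ x ∈ A := by
  obtain ⟨a, b, hb, hab⟩ := exists_frac_of_mem_valuationSubring hℓ A hA x hx
  have hτb : τ • b ∉ primeOfValuationSubring A := by
    intro h
    rw [← hτ, Ideal.smul_mem_pointwise_smul_iff] at h
    exact hb h
  have h1 : τ x * ((τ • b : Zb) : Qb) = ((τ • a : Zb) : Qb) := by
    have := congrArg τ hab
    rwa [map_mul] at this
  have hτaA : ((τ • a : Zb) : Qb) ∈ A := mem_valuationSubring_of_isIntegral A _ (τ • a).2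
  rw [mem_primeOfValuationSubring, ValuationSubring.mem_nonunits_iff_or] at hτb
  push Not at hτb
  obtain ⟨hne, hunit⟩ := hτb
  have h2 : τ x = ((τ • a : Zb) : Qb) * (((τ • b : Zb) : Qb))⁻¹ := by
    rw [← h1, mul_assoc, mul_inv_cancel₀ hne, mul_one]
  rw [h2]
  exact A.mul_mem _ _ hτaA hunit

/-- An automorphism stabilising the prime cut out by `A` lies in the decomposition group. -/
theorem mem_decompositionSubgroup_of_smul_prime_eq {ℓ : ℕ} (hℓ : ℓ.Prime)
    (A : ValuationSubring Qb) (hA : A.LiesOverPrime ℓ) (σ : GQ)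
    (hσ : σ • primeOfValuationSubring A = primeOfValuationSubring A) :
    σ ∈ A.decompositionSubgroup ℚ := by
  have hσ' : σ⁻¹ • primeOfValuationSubring A = primeOfValuationSubring A := by
    rw [inv_smul_eq_iff, hσ]
  rw [MulAction.mem_stabilizer_iff]
  apply le_antisymm
  · intro y hy
    rw [ValuationSubring.mem_pointwise_smul_iff_inv_smul_mem] at hy
    have := map_mem_of_smul_prime_eq hℓ A hA σ hσ _ hy
    simpa using this
  · intro y hy
    rw [ValuationSubring.mem_pointwise_smul_iff_inv_smul_mem]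
    exact map_mem_of_smul_prime_eq hℓ A hA σ⁻¹ hσ' y hy

/-- **Existence of Frobenius elements**: for every valuation subring `A` of `ℚ̄` over a prime
`ℓ` there is a Frobenius element at `A` in `Gal(ℚ̄/ℚ)`. -/
theorem exists_isFrobeniusAt {ℓ : ℕ} (hℓ : ℓ.Prime) (A : ValuationSubring Qb)
    (hA : A.LiesOverPrime ℓ) : ∃ σ : GQ, A.IsFrobeniusAt σ ℓ := by
  obtain ⟨σ, hσq, hσfrob⟩ := exists_frobenius_zbar hℓ (primeOfValuationSubring A)
    (natCast_mem_primeOfValuationSubring A hA)
  have hσA := mem_decompositionSubgroup_of_smul_prime_eq hℓ A hA σ hσq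
  refine ⟨σ, hσA, ?_⟩
  intro xbar
  obtain ⟨x, rfl⟩ := IsLocalRing.residue_surjective xbar
  obtain ⟨a, b, hb, hab⟩ := exists_frac_of_mem_valuationSubring hℓ A hA x.1 x.2
  rw [← IsLocalRing.ResidueField.residue_smul, ← map_pow]
  have e1 : x * zbarToValuationSubring A b = zbarToValuationSubring A a := Subtype.ext hab
  have e2 : ((⟨σ, hσA⟩ : A.decompositionSubgroup ℚ) • x) * zbarToValuationSubring A (σ • b) =
      zbarToValuationSubring A (σ • a) := by
    apply Subtype.ext
    show σ (x : Qb) * σ (b : Qb) = σ (a : Qb)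
    rw [← map_mul, hab]
  have e3 : ∀ c : Zb, IsLocalRing.residue A (zbarToValuationSubring A (σ • c)) =
      (IsLocalRing.residue A (zbarToValuationSubring A c)) ^ ℓ := by
    intro c
    rw [← map_pow, ← map_pow, ← sub_eq_zero, ← map_sub, ← map_sub,
      IsLocalRing.residue_eq_zero_iff]
    exact hσfrob c
  have e4 : IsLocalRing.residue A (zbarToValuationSubring A b) ≠ 0 := by
    rw [Ne, IsLocalRing.residue_eq_zero_iff]
    exact hb
  have e5 := congrArg (IsLocalRing.residue A) e2
  rw [map_mul, e3, e3, ← e1, map_mul, mul_pow] at e5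
  rw [map_pow]
  exact mul_right_cancel₀ (pow_ne_zero _ e4) e5

/-- Valuation subrings of `ℚ̄` over any prime exist. -/
theorem exists_liesOverPrime {ℓ : ℕ} (hℓ : ℓ.Prime) :
    ∃ A : ValuationSubring Qb, A.LiesOverPrime ℓ := by
  let R : Subring Qb := (Int.castRingHom Qb).range
  let ℓR : R := ⟨(ℓ : Qb), ⟨(ℓ : ℤ), by simp⟩⟩
  have hI : Ideal.span {ℓR} ≠ ⊤ := by
    intro h
    rw [Ideal.span_singleton_eq_top] at h
    obtain ⟨⟨c, m, rfl⟩, hc⟩ := isUnit_iff_exists_inv.mp h
    have h1 : ((ℓ : ℤ) : Qb) * ((m : ℤ) : Qb) = 1 := by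
      simpa [ℓR] using congrArg Subtype.val hc
    have h2 : (ℓ : ℤ) * m = 1 := by exact_mod_cast h1
    have h3 : IsUnit (ℓ : ℤ) := IsUnit.of_mul_eq_one _ h2
    exact (Nat.prime_iff_prime_int.mp hℓ).not_isUnit h3
  obtain ⟨B, -, hB2⟩ := Ideal.image_subset_nonunits_valuationSubring _ hI
  exact ⟨B, hB2 ⟨ℓR, Ideal.subset_span rfl, rfl⟩⟩

/-- For every prime `ℓ` there are a valuation subring of `ℚ̄` over `ℓ` and a Frobenius element
at it. -/
theorem exists_liesOverPrime_isFrobeniusAt {ℓ : ℕ} (hℓ : ℓ.Prime) :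
    ∃ (A : ValuationSubring Qb) (σ : GQ), A.LiesOverPrime ℓ ∧ A.IsFrobeniusAt σ ℓ := by
  obtain ⟨A, hA⟩ := exists_liesOverPrime hℓ
  obtain ⟨σ, hσ⟩ := exists_isFrobeniusAt hℓ A hA
  exact ⟨A, σ, hA, hσ⟩

end Fermat.Agent.Lib.helper54
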