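import Mathlib
import Fermat.Prelude.Def_FLTPrelim_Ramification
import Fermat.Agent.Lib.helper54_Frobenius

/-!
# Minkowski's theorem in inertia form (helper1646)

`ℚ` has no nontrivial everywhere-unramified extension, phrased with valuation subrings of `ℚ̄`:
an open subgroup of `Gal(ℚ̄/ℚ)` containing the inertia subgroup of every valuation subring
lying over every prime is the whole group.
-/

set_option autoImplicit false

namespace Fermat.Agent.Lib.helper1646

open scoped Pointwise NumberField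

section General

variable {K L : Type*} [Field K] [Field L] [Algebra K L]

/-- Elementwise description of `ValuationSubring.inertiaSubgroupIn`. -/
theorem mem_inertiaSubgroupIn_iff (A : ValuationSubring L) (σ : L ≃ₐ[K] L) :
    σ ∈ A.inertiaSubgroupIn K ↔
      σ ∈ A.decompositionSubgroup K ∧ ∀ x ∈ A, σ x - x ∈ A.nonunits := by
  unfold ValuationSubring.inertiaSubgroupIn
  constructor
  · rintro ⟨τ, hτ, rfl⟩
    refine ⟨τ.2, fun x hx => ?_⟩
    have hker : MulSemiringAction.toRingAut (A.decompositionSubgroup K)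
        (IsLocalRing.ResidueField A) τ = 1 := hτ
    have h1 : τ • IsLocalRing.residue A ⟨x, hx⟩ = IsLocalRing.residue A ⟨x, hx⟩ := by
      have := congrArg (fun f : RingAut (IsLocalRing.ResidueField A) =>
        f (IsLocalRing.residue A ⟨x, hx⟩)) hker
      simpa using this
    rw [← IsLocalRing.ResidueField.residue_smul] at h1
    have h2 : IsLocalRing.residue A (τ • (⟨x, hx⟩ : A) - ⟨x, hx⟩) = 0 := by
      rw [map_sub, h1, sub_self]
    rw [IsLocalRing.residue_eq_zero_iff] at h2
    exact (ValuationSubring.coe_mem_nonunits_iff (A := A)).2 h2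
  · rintro ⟨h, hσ⟩
    refine ⟨⟨σ, h⟩, ?_, rfl⟩
    change MulSemiringAction.toRingAut (A.decompositionSubgroup K)
        (IsLocalRing.ResidueField A) ⟨σ, h⟩ = 1
    ext y
    obtain ⟨x, rfl⟩ := IsLocalRing.residue_surjective y
    change (⟨σ, h⟩ : A.decompositionSubgroup K) • IsLocalRing.residue A x = IsLocalRing.residue A x
    rw [← IsLocalRing.ResidueField.residue_smul, ← sub_eq_zero, ← map_sub,
      IsLocalRing.residue_eq_zero_iff]
    exact (ValuationSubring.coe_mem_nonunits_iff (A := A)).1 (hσ x.1 x.2)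

theorem smul_mem_nonunits_smul (A : ValuationSubring L) (g : L ≃ₐ[K] L) {z : L}
    (hz : z ∈ A.nonunits) : g z ∈ (g • A).nonunits := by
  rw [ValuationSubring.mem_nonunits_iff_or] at hz ⊢
  rcases hz with rfl | hz
  · left; simp
  · right
    intro h
    apply hz
    rw [ValuationSubring.mem_pointwise_smul_iff_inv_smul_mem] at h
    have : g⁻¹ • (g z)⁻¹ = z⁻¹ := by
      change g⁻¹ ((g z)⁻¹) = z⁻¹
      rw [map_inv₀]
      congr 1
      exact g.symm_apply_apply z
    rwa [this] at h

theorem liesOverPrime_smul (A : ValuationSubring L) (g : L ≃ₐ[K] L) {q : ℕ}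
    (hA : A.LiesOverPrime q) : (g • A).LiesOverPrime q := by
  have := smul_mem_nonunits_smul A g hA
  rwa [map_natCast] at this

/-- Conjugating an inertia element gives an inertia element of the translated valuation ring. -/
theorem conj_mem_inertiaSubgroupIn (A : ValuationSubring L) (g σ : L ≃ₐ[K] L)
    (hσ : σ ∈ A.inertiaSubgroupIn K) : g * σ * g⁻¹ ∈ (g • A).inertiaSubgroupIn K := by
  rw [mem_inertiaSubgroupIn_iff] at hσ ⊢
  obtain ⟨hD, hI⟩ := hσ
  refine ⟨?_, fun x hx => ?_⟩
  · rw [MulAction.mem_stabilizer_iff] at hD ⊢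
    rw [mul_smul, mul_smul, inv_smul_smul, hD]
  · rw [ValuationSubring.mem_pointwise_smul_iff_inv_smul_mem] at hx
    have h2 := smul_mem_nonunits_smul A g (hI _ hx)
    have h3 : g (σ (g⁻¹ • x) - g⁻¹ • x) = (g * σ * g⁻¹) x - x := by
      rw [map_sub]
      change g (σ (g⁻¹ x)) - g (g⁻¹ x) = g (σ (g⁻¹ x)) - x
      congr 1
      exact g.apply_symm_apply x
    rwa [h3] at h2

end General

section Finite

/-- Finite-level Minkowski: in a nontrivial Galois number field some rational prime has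
nontrivial inertia at every prime above it. -/
theorem exists_prime_forall_exists_inertia (K : Type*) [Field K] [NumberField K] [IsGalois ℚ K]
    (hK : 1 < Module.finrank ℚ K) :
    ∃ p : ℕ, p.Prime ∧ ∀ (P : Ideal (𝓞 K)), P.IsPrime → (p : 𝓞 K) ∈ P →
      ∃ τ : Gal(K/ℚ), τ ≠ 1 ∧ ∀ x : 𝓞 K, τ • x - x ∈ P := by
  obtain ⟨p, hp, h⟩ := NumberField.exists_not_isUnramifiedAt_int_of_isGalois (K := K) (𝒪 := 𝓞 K) hK
  refine ⟨p, hp, fun P hPprime hpP => ?_⟩
  by_contra hcon
  push Not at hcon
  apply h P hPprime hpP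
  have htriv : Ideal.inertia Gal(K/ℚ) P = ⊥ := by
    rw [eq_bot_iff]
    intro τ hτ
    rw [Subgroup.mem_bot]
    by_contra hne
    obtain ⟨x, hx⟩ := hcon τ hne
    exact hx (hτ x)
  have hpZ : Prime (p : ℤ) := Nat.prime_iff_prime_int.mp hp
  have hlies : P.LiesOver (Ideal.span {(p : ℤ)}) := by
    rw [Ideal.liesOver_span_iff hPprime.ne_top hpZ]
    simpa using hpP
  have hpprime : (Ideal.span {(p : ℤ)}).IsPrime := by
    rw [Ideal.span_singleton_prime hpZ.ne_zero]
    exact hpZ
  have hcard := Ideal.card_inertia_eq_ramificationIdxIn (G := Gal(K/ℚ)) (Ideal.span {(p : ℤ)}) P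
  rw [htriv, Subgroup.card_bot, Ideal.ramificationIdxIn_eq_ramificationIdx _ P Gal(K/ℚ)] at hcard
  exact Ideal.ramificationIdx_eq_one_iff.mp hcard.symm

end Finite

section Qbar

open Fermat.Agent.Lib.helper54

local notation "Qb" => AlgebraicClosure ℚ
local notation "GQ" => (AlgebraicClosure ℚ ≃ₐ[ℚ] AlgebraicClosure ℚ)
local notation "Zb" => integralClosure ℤ (AlgebraicClosure ℚ)

attribute [local instance] isAlgebraic_Qbar isAlgClosure_Qbar isGalois_Qbar isIntegral_Qbar

/-- If `σ` stabilises the prime of `ℤ̄` cut out by `A` and acts trivially on `ℤ̄` modulo this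
prime, then `σ` lies in the inertia subgroup of `A`. -/
theorem mem_inertiaSubgroupIn_of_forall_zbar {ℓ : ℕ} (hℓ : ℓ.Prime) (A : ValuationSubring Qb)
    (hA : A.LiesOverPrime ℓ) (σ : GQ)
    (hσ : σ • primeOfValuationSubring A = primeOfValuationSubring A)
    (h : ∀ z : Zb, σ • z - z ∈ primeOfValuationSubring A) :
    σ ∈ A.inertiaSubgroupIn ℚ := by
  rw [mem_inertiaSubgroupIn_iff]
  have hD := mem_decompositionSubgroup_of_smul_prime_eq hℓ A hA σ hσ
  refine ⟨hD, fun x hx => ?_⟩
  obtain ⟨a, b, hb, hab⟩ := exists_frac_of_mem_valuationSubring hℓ A hA x hx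
  have hσb : σ • b ∉ primeOfValuationSubring A := by
    intro hmem
    rw [← hσ, Ideal.smul_mem_pointwise_smul_iff] at hmem
    exact hb hmem
  have ha := h a
  have hb' := h b
  rw [mem_primeOfValuationSubring, ValuationSubring.mem_nonunits_iff] at ha hb' hσb
  rw [ValuationSubring.mem_nonunits_iff]
  have hσbA : A.valuation ((σ • b : Zb) : Qb) ≤ 1 :=
    (ValuationSubring.valuation_le_one_iff A _).mpr
      (mem_valuationSubring_of_isIntegral A _ (σ • b).2)
  have hσb1 : A.valuation ((σ • b : Zb) : Qb) = 1 := le_antisymm hσbA (not_lt.mp hσb)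
  have hx1 : A.valuation x ≤ 1 := (ValuationSubring.valuation_le_one_iff A _).mpr hx
  have hca : ((σ • a - a : Zb) : Qb) = σ (a : Qb) - (a : Qb) := rfl
  have hcb : ((σ • b - b : Zb) : Qb) = σ (b : Qb) - (b : Qb) := rfl
  have hcb' : ((σ • b : Zb) : Qb) = σ (b : Qb) := rfl
  rw [hca] at ha
  rw [hcb] at hb'
  rw [hcb'] at hσb1
  have key : (σ x - x) * σ (b : Qb) = (σ (a : Qb) - (a : Qb)) - x * (σ (b : Qb) - (b : Qb)) := by
    have h1 : σ x * σ (b : Qb) = σ (a : Qb) := by rw [← map_mul, hab]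
    rw [sub_mul, h1, mul_sub, hab]
    ring
  have h2 : A.valuation ((σ x - x) * σ (b : Qb)) < 1 := by
    rw [key]
    refine lt_of_le_of_lt (Valuation.map_sub _ _ _) (max_lt ha ?_)
    rw [map_mul]
    calc A.valuation x * A.valuation (σ (b : Qb) - (b : Qb))
        ≤ 1 * A.valuation (σ (b : Qb) - (b : Qb)) := mul_le_mul_left hx1 _
      _ < 1 := by rwa [one_mul]
  rwa [map_mul, hσb1, mul_one] at h2

/-- The Galois action on `ℤ̄` is continuous for the discrete topology. -/
theorem continuousSMul_zbar :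
    @ContinuousSMul GQ Zb _ _ (⊥ : TopologicalSpace Zb) := by
  let : TopologicalSpace Zb := ⊥
  have : DiscreteTopology Zb := ⟨rfl⟩
  rw [continuousSMul_iff_stabilizer_isOpen]
  intro z
  have : (MulAction.stabilizer GQ z : Set GQ) = MulAction.stabilizer GQ (z : Qb) := by
    ext g
    simp [Subtype.ext_iff]
  rw [this]
  exact stabilizer_isOpen_of_isIntegral _

/-- **Lifting inertia.**  Let `N` be an open normal subgroup of `Gal(ℚ̄/ℚ)` and let `σ` act
trivially, modulo the prime cut out by `A`, on the `N`-invariant algebraic integers.  Then some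
`N`-translate of `σ` lies in the inertia subgroup of `A`. -/
theorem exists_mul_mem_inertiaSubgroupIn {ℓ : ℕ} (hℓ : ℓ.Prime) (A : ValuationSubring Qb)
    (hA : A.LiesOverPrime ℓ) (N : Subgroup GQ) [hNn : N.Normal] (hN : IsOpen (N : Set GQ))
    (σ : GQ)
    (hσ : ∀ z : Zb, (∀ n ∈ N, n • z = z) → σ • z - z ∈ primeOfValuationSubring A) :
    ∃ n ∈ N, n * σ ∈ A.inertiaSubgroupIn ℚ := by
  classical
  set Q := primeOfValuationSubring A with hQ
  let : TopologicalSpace Zb := ⊥
  have : DiscreteTopology Zb := ⟨rfl⟩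
  have : ContinuousSMul GQ Zb := continuousSMul_zbar
  have : CompactSpace N := isCompact_iff_compactSpace.mp (N.isClosed_of_isOpen hN).isCompact
  have : TotallyDisconnectedSpace N := Subtype.totallyDisconnectedSpace
  have : ContinuousSMul N Zb := ⟨by
    have h1 : Continuous fun p : GQ × Zb => p.1 • p.2 := continuous_smul
    exact h1.comp (continuous_subtype_val.prodMap continuous_id)⟩
  let A' := FixedPoints.subalgebra ℤ Zb N
  have : SMulCommClass N A' Zb := ⟨fun n a b => by
    change n • (a.1 * b) = a.1 * n • b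
    rw [smul_mul', a.2 n]⟩
  have : Algebra.IsInvariant A' Zb N := ⟨fun b hb => ⟨⟨b, hb⟩, rfl⟩⟩
  -- translates of `N`-fixed elements are `N`-fixed
  have hfix : ∀ a : A', ∀ g : GQ, ∀ n ∈ N, n • (g • (a : Zb)) = g • (a : Zb) := by
    intro a g n hn
    have hmem : g⁻¹ * n * g ∈ N := by
      have := hNn.conj_mem n hn g⁻¹
      simpa using this
    have h2 : (g⁻¹ * n * g) • (a : Zb) = (a : Zb) := a.2 ⟨g⁻¹ * n * g, hmem⟩
    calc n • g • (a : Zb) = g • ((g⁻¹ * n * g) • (a : Zb)) := by
          simp only [mul_smul, smul_inv_smul]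
      _ = g • (a : Zb) := by rw [h2]
  -- Step 1: `σ • Q` and `Q` have the same contraction to `A'`
  have hunder : (σ • Q).under A' = Q.under A' := by
    ext a
    simp only [Ideal.under_def, Ideal.mem_comap]
    rw [Ideal.mem_pointwise_smul_iff_inv_smul_mem]
    have hy := hσ (σ⁻¹ • (a : Zb)) (fun n hn => hfix a σ⁻¹ n hn)
    rw [smul_inv_smul] at hy
    constructor
    · intro h
      have := Q.add_mem hy h
      simpa using this
    · intro h
      have := Q.sub_mem h hy
      simpa using this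
  -- Step 2: transitivity of `N` on the primes above a prime of `A'`
  obtain ⟨n, hn⟩ := Algebra.IsInvariant.exists_smul_of_under_eq_of_profinite (A := A') (G := N)
    (σ • Q) Q hunder
  have hσ1Q : ((n : GQ) * σ) • Q = Q := by
    rw [mul_smul]
    exact hn.symm
  -- Step 3: `n * σ` acts trivially on `A'` modulo `Q`
  have hσ1A' : ∀ a : A', ((n : GQ) * σ) • (a : Zb) - (a : Zb) ∈ Q := by
    intro a
    have h1 : ((n : GQ) * σ) • (a : Zb) = σ • (a : Zb) := by
      rw [mul_smul]
      exact hfix a σ n n.2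
    rw [h1]
    exact hσ _ (fun m hm => a.2 ⟨m, hm⟩)
  let φ0 := Ideal.Quotient.stabilizerHom Q (Q.under ℤ) GQ ⟨(n : GQ) * σ, hσ1Q⟩
  have hφ0 : ∀ z : Zb, φ0 (Ideal.Quotient.mk Q z) = Ideal.Quotient.mk Q (((n : GQ) * σ) • z) :=
    fun z => rfl
  let φ : (Zb ⧸ Q) ≃ₐ[A' ⧸ Q.under A'] (Zb ⧸ Q) :=
    AlgEquiv.ofRingEquiv (f := φ0.toRingEquiv) (by
      intro r
      obtain ⟨a, rfl⟩ := Ideal.Quotient.mk_surjective r
      rw [Ideal.Quotient.algebraMap_mk_of_liesOver]
      change φ0 (Ideal.Quotient.mk Q (a : Zb)) = Ideal.Quotient.mk Q (a : Zb)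
      rw [hφ0, Ideal.Quotient.eq]
      exact hσ1A' a)
  have hφ : ∀ z : Zb, φ (Ideal.Quotient.mk Q z) = Ideal.Quotient.mk Q (((n : GQ) * σ) • z) :=
    fun z => rfl
  -- Step 4: lift the residue automorphism to the stabiliser of `Q` in `N`
  obtain ⟨⟨m, hm⟩, hmφ⟩ :=
    Ideal.Quotient.stabilizerHom_surjective_of_profinite (G := N) (Q.under A') Q φ
  have hmQ : (m : GQ) • Q = Q := hm
  have hmz : ∀ z : Zb, (m : GQ) • z - ((n : GQ) * σ) • z ∈ Q := by
    intro z
    have h1 := congrArg (fun f => f (Ideal.Quotient.mk Q z)) hmφ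
    have h2 : Ideal.Quotient.mk Q ((m : GQ) • z) = Ideal.Quotient.mk Q (((n : GQ) * σ) • z) := h1
    rwa [Ideal.Quotient.eq] at h2
  have hm' : (m : GQ)⁻¹ • Q = Q := by rw [inv_smul_eq_iff, hmQ]
  have hstab : ((m : GQ)⁻¹ * n * σ) • Q = Q := by
    rw [mul_assoc, mul_smul, hσ1Q, hm']
  have hz : ∀ z : Zb, ((m : GQ)⁻¹ * n * σ) • z - z ∈ Q := by
    intro z
    have h1 : ((m : GQ)⁻¹ * n * σ) • z - z =
        (m : GQ)⁻¹ • (((n : GQ) * σ) • z - (m : GQ) • z) := by
      rw [smul_sub, inv_smul_smul, mul_assoc, mul_smul]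
    rw [h1]
    have h2 : ((n : GQ) * σ) • z - (m : GQ) • z ∈ Q := by
      have := Q.neg_mem (hmz z)
      rwa [neg_sub] at this
    rw [← hm', Ideal.smul_mem_pointwise_smul_iff]
    exact h2
  exact ⟨(m : GQ)⁻¹ * n, N.mul_mem (N.inv_mem m.2) n.2,
    mem_inertiaSubgroupIn_of_forall_zbar hℓ A hA _ hstab hz⟩

/-- The inclusion of the ring of integers of a subfield of `ℚ̄` into `ℤ̄`. -/
noncomputable def ringOfIntegersToZbar (K : IntermediateField ℚ Qb) : 𝓞 K →+* Zb where
  toFun x := ⟨((x : K) : Qb), by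
    have h := NumberField.RingOfIntegers.isIntegral_coe x
    exact h.map (IsScalarTower.toAlgHom ℤ K Qb)⟩
  map_one' := rfl
  map_mul' _ _ := rfl
  map_zero' := rfl
  map_add' _ _ := rfl

theorem coe_ringOfIntegersToZbar (K : IntermediateField ℚ Qb) (x : 𝓞 K) :
    ((ringOfIntegersToZbar K x : Zb) : Qb) = ((x : K) : Qb) := rfl

/-- **Minkowski, inertia form, normal case.** -/
theorem eq_top_of_inertia_le_of_normal (N : Subgroup GQ) [hNn : N.Normal]
    (hN : IsOpen (N : Set GQ))
    (h : ∀ q : ℕ, q.Prime → ∀ A : ValuationSubring Qb, A.LiesOverPrime q →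
      A.inertiaSubgroupIn ℚ ≤ N) : N = ⊤ := by
  classical
  set K : IntermediateField ℚ Qb := IntermediateField.fixedField N with hKdef
  have hfix : K.fixingSubgroup = N :=
    InfiniteGalois.fixingSubgroup_fixedField ⟨N, N.isClosed_of_isOpen hN⟩
  have hfd : FiniteDimensional ℚ K := by
    rw [← InfiniteGalois.isOpen_iff_finite, hfix]
    exact hN
  have hgal : IsGalois ℚ K := by
    have h1 : IsGalois ℚ K := (InfiniteGalois.normal_iff_isGalois K).mp (hfix ▸ hNn)
    convert h1
  have hnf : NumberField K := ⟨⟩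
  by_contra hne
  have hK : 1 < Module.finrank ℚ K := by
    by_contra hle
    have hpos : 0 < Module.finrank ℚ K := Module.finrank_pos
    have h1 : Module.finrank ℚ K = 1 := by omega
    rw [IntermediateField.finrank_eq_one_iff] at h1
    apply hne
    rw [← hfix, h1, IntermediateField.fixingSubgroup_bot]
  obtain ⟨p, hp, hP⟩ := exists_prime_forall_exists_inertia K hK
  obtain ⟨A, hA⟩ := exists_liesOverPrime hp
  let P : Ideal (𝓞 K) := (primeOfValuationSubring A).comap (ringOfIntegersToZbar K)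
  have hPprime : P.IsPrime := Ideal.comap_isPrime _ _
  have hpP : (p : 𝓞 K) ∈ P := by
    change ringOfIntegersToZbar K (p : 𝓞 K) ∈ primeOfValuationSubring A
    rw [map_natCast]
    exact natCast_mem_primeOfValuationSubring A hA
  obtain ⟨τ, hτ1, hτ⟩ := hP P hPprime hpP
  obtain ⟨σ, rfl⟩ := AlgEquiv.restrictNormalHom_surjective Qb τ
  obtain ⟨n, hn, hnσ⟩ := exists_mul_mem_inertiaSubgroupIn hp A hA N hN σ (by
    intro z hz
    have hzK : (z : Qb) ∈ K := by
      rw [hKdef, IntermediateField.mem_fixedField_iff]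
      intro g hg
      exact congrArg Subtype.val (hz g hg)
    have hint : IsIntegral ℤ (⟨(z : Qb), hzK⟩ : K) := by
      have h1 : IsIntegral ℤ (z : Qb) := z.2
      exact (isIntegral_algHom_iff (IsScalarTower.toAlgHom ℤ K Qb)
        (algebraMap K Qb).injective).mp h1
    let x : 𝓞 K := ⟨⟨(z : Qb), hzK⟩, hint⟩
    have hx := hτ x
    change ringOfIntegersToZbar K (AlgEquiv.restrictNormalHom K σ • x - x) ∈
      primeOfValuationSubring A at hx
    have h2 : ringOfIntegersToZbar K (AlgEquiv.restrictNormalHom K σ • x - x) = σ • z - z := by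
      apply Subtype.ext
      rw [coe_ringOfIntegersToZbar]
      have h3 : ((AlgEquiv.restrictNormalHom K σ • x - x : 𝓞 K) : K) =
          (AlgEquiv.restrictNormalHom K σ) (x : K) - (x : K) := rfl
      rw [h3]
      have h4 : (((AlgEquiv.restrictNormalHom K σ) (x : K) : K) : Qb) = σ ((x : K) : Qb) :=
        AlgEquiv.restrictNormal_commutes σ K (x : K)
      have h5 : (((AlgEquiv.restrictNormalHom K σ) (x : K) - (x : K) : K) : Qb) =
          (((AlgEquiv.restrictNormalHom K σ) (x : K) : K) : Qb) - ((x : K) : Qb) := rfl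
      rw [h5, h4]
      rfl
    rwa [h2] at hx)
  have hσN : σ ∈ N := by
    have h1 : n * σ ∈ N := h p hp A hA hnσ
    have := N.mul_mem (N.inv_mem hn) h1
    simpa using this
  apply hτ1
  ext x
  have h4 : (((AlgEquiv.restrictNormalHom K σ) x : K) : Qb) = σ (x : Qb) :=
    AlgEquiv.restrictNormal_commutes σ K x
  rw [h4]
  rw [← hfix, IntermediateField.mem_fixingSubgroup_iff] at hσN
  exact hσN x x.2

/-- **Minkowski, inertia form** (ingredient `I6` of the S13 skeleton): an open subgroup of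
`Gal(ℚ̄/ℚ)` containing the inertia subgroups of all valuation subrings of `ℚ̄` lying over
primes is everything.  Equivalently, `ℚ` has no nontrivial everywhere-unramified finite
extension. -/
theorem eq_top_of_inertia_le (H : Subgroup GQ) (hH : IsOpen (H : Set GQ))
    (h : ∀ q : ℕ, q.Prime → ∀ A : ValuationSubring Qb, A.LiesOverPrime q →
      A.inertiaSubgroupIn ℚ ≤ H) : H = ⊤ := by
  have hfin : Finite (GQ ⧸ H) := H.quotient_finite_of_isOpen hH
  have hfi : H.FiniteIndex := H.finiteIndex_of_finite_quotient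
  have hNopen : IsOpen (H.normalCore : Set GQ) :=
    Subgroup.isOpen_of_isClosed_of_finiteIndex _ (H.normalCore_isClosed (H.isClosed_of_isOpen hH))
  have hN : H.normalCore = ⊤ := by
    apply eq_top_of_inertia_le_of_normal H.normalCore hNopen
    intro q hq A hA σ hσ g
    have h1 := conj_mem_inertiaSubgroupIn A g σ hσ
    exact h q hq (g • A) (liesOverPrime_smul A g hA) h1
  exact top_le_iff.mp (hN ▸ H.normalCore_le)

/-- The statement of `eq_top_of_inertia_le` for all open subgroups at once, in the exact shape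
of the field `minkowski` of `Fermat.Agent.S13.helper13.Ingredients`. -/
theorem minkowski_inertia :
    ∀ H : Subgroup GQ, IsOpen (H : Set GQ) →
      (∀ q : ℕ, q.Prime → ∀ A : ValuationSubring Qb, A.LiesOverPrime q →
        A.inertiaSubgroupIn ℚ ≤ H) → H = ⊤ :=
  eq_top_of_inertia_le

/-- Character form: a homomorphism from `Gal(ℚ̄/ℚ)` with open kernel which is trivial on every
inertia subgroup (at every valuation subring over every prime) is trivial. -/
theorem monoidHom_eq_one_of_inertia {M : Type*} [Group M] (χ : GQ →* M)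
    (hχ : IsOpen (χ.ker : Set GQ))
    (h : ∀ q : ℕ, q.Prime → ∀ A : ValuationSubring Qb, A.LiesOverPrime q →
      ∀ σ ∈ A.inertiaSubgroupIn ℚ, χ σ = 1) (σ : GQ) : χ σ = 1 := by
  have h1 : χ.ker = ⊤ :=
    eq_top_of_inertia_le χ.ker hχ fun q hq A hA τ hτ => MonoidHom.mem_ker.mpr (h q hq A hA τ hτ)
  exact MonoidHom.mem_ker.mp (h1 ▸ Subgroup.mem_top σ)

end Qbar

end Fermat.Agent.Lib.helper1646
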