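import Mathlib
import Fermat.Agent.S13.helper5736_KerB

/-!
# Unipotent inertia on odd torsion for a general Weierstrass model (helper2687)

`K` is a field with a valuation `v`, `W` a Weierstrass curve over `K` in general form
`y² + a₁xy + a₃y = x³ + a₂x² + a₄x + a₆` with `v`-integral coefficients and **good or
multiplicative reduction** (`v Δ = 1 ∨ v c₄ = 1`).  No hypothesis on the residue characteristic
(2 and 3 are allowed), no change of model.

`Φ` is an additive endomorphism of the group of points given on coordinates by a ring endomorphism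
`σ` of `K` which fixes the coefficients, preserves `v` and is trivial modulo the maximal ideal
(an inertia element).  Then for every point `T` of odd order `n` with `v n = 1`:

* `Φ (Φ T - T) = Φ T - T`   (`unipotent_of_semistable`),
* `Φ^[n] T = T`             (`iterate_fixed_of_semistable`),
* `Φ T = T` if `v Δ = 1`    (`fixed_of_good`).

Method (all in the coordinates of the given model).  With the partial derivatives
`η = 2y + a₁x + a₃`, `γ = 3x² + 2a₂x + a₄ - a₁y`, an integral point is *singular mod `v`* if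
`v η < 1` and `v γ < 1`.
(A) two integral points with the same non-singular reduction differ by a point of the kernel of
reduction, which has no torsion of order prime to the residue characteristic (landed
`S13/helper5736_KerB`);
(B) if `P` is singular but `2P` is not, `Φ (2P) = 2P` and `n` odd give `Φ P = P`;
(C) if `P` and `2P` are both singular, the tangent slope `λ` of `P` is integral and reduces to a
tangent direction of the node; `-Φ P` has the *other* tangent direction and the same `v η`, and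
the chord relation `η μ - γ = dx (dx - q(μ))` at both ends shows that `P - Φ P` is not singular,
hence fixed by (A).
-/

set_option autoImplicit false

namespace Fermat.Agent.Lib.helper2687

open WeierstrassCurve WeierstrassCurve.Affine

variable {K : Type*} [Field K] {Γ₀ : Type*} [LinearOrderedCommGroupWithZero Γ₀]

/-! ### Valuation toolkit -/

section val

variable (v : Valuation K Γ₀)

theorem le_add {a b : K} (ha : v a ≤ 1) (hb : v b ≤ 1) : v (a + b) ≤ 1 := v.map_add_le ha hb

theorem le_sub {a b : K} (ha : v a ≤ 1) (hb : v b ≤ 1) : v (a - b) ≤ 1 := v.map_sub_le ha hb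

theorem le_neg {a : K} (ha : v a ≤ 1) : v (-a) ≤ 1 := by rwa [Valuation.map_neg]

theorem le_mul {a b : K} (ha : v a ≤ 1) (hb : v b ≤ 1) : v (a * b) ≤ 1 := by
  rw [map_mul]; exact Left.mul_le_one ha hb

theorem le_pow {a : K} (ha : v a ≤ 1) (n : ℕ) : v (a ^ n) ≤ 1 := by
  rw [map_pow]; exact pow_le_one' ha n

theorem le_nat (n : ℕ) : v (n : K) ≤ 1 := by
  induction n with
  | zero => simp
  | succ n ih =>
    rw [Nat.cast_succ]
    exact v.map_add_le ih (le_of_eq v.map_one)

theorem le_ofNat (n : ℕ) [n.AtLeastTwo] : v (OfNat.ofNat n : K) ≤ 1 := by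
  rw [← Nat.cast_ofNat]; exact le_nat v n

theorem le_one' : v (1 : K) ≤ 1 := le_of_eq v.map_one

theorem lt_add {a b : K} (ha : v a < 1) (hb : v b < 1) : v (a + b) < 1 := v.map_add_lt ha hb

theorem lt_sub {a b : K} (ha : v a < 1) (hb : v b < 1) : v (a - b) < 1 := v.map_sub_lt ha hb

theorem lt_neg {a : K} (ha : v a < 1) : v (-a) < 1 := by rwa [Valuation.map_neg]

theorem lt_mul_left {a b : K} (ha : v a < 1) (hb : v b ≤ 1) : v (a * b) < 1 := by
  rw [map_mul]; exact mul_lt_one_of_lt_of_le ha hb

theorem lt_mul_right {a b : K} (ha : v a ≤ 1) (hb : v b < 1) : v (a * b) < 1 := by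
  rw [map_mul]; exact Right.mul_lt_one_of_le_of_lt ha hb

theorem lt_of_pow_lt {a : K} {n : ℕ} (h : v (a ^ n) < 1) : v a < 1 := by
  rw [map_pow] at h
  by_contra hc
  exact absurd h (not_lt.2 (one_le_pow_of_one_le' (not_lt.1 hc) n))

theorem eq_one_of_sq_eq_one {a : K} (h : v (a ^ 2) = 1) : v a = 1 := by
  rw [map_pow] at h
  rcases lt_trichotomy (v a) 1 with hlt | heq | hgt
  · exact absurd h (ne_of_lt (pow_lt_one' hlt two_ne_zero))
  · exact heq
  · exact absurd h (ne_of_gt (one_lt_pow' hgt two_ne_zero))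

/-- A unit plus an element of the maximal ideal is a unit. -/
theorem eq_one_add {a b : K} (ha : v a = 1) (hb : v b < 1) : v (a + b) = 1 := by
  rw [v.map_add_eq_of_lt_left (by rw [ha]; exact hb), ha]

/-- Dominant term of a monic quadratic at a non-integral argument. -/
theorem one_lt_quad {s b c : K} (hs : 1 < v s) (hb : v b ≤ 1) (hc : v c ≤ 1) :
    1 < v (s ^ 2 + b * s - c) := by
  have h1 : v (b * s - c) ≤ v s := by
    refine v.map_sub_le ?_ (hc.trans hs.le)
    rw [map_mul]
    exact mul_le_of_le_one_left' hb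
  have h2 : v s < v (s ^ 2) := by
    rw [map_pow]
    exact lt_self_pow₀ hs (by norm_num)
  have h3 : v (s ^ 2 + b * s - c) = v (s ^ 2) := by
    rw [add_sub_assoc]
    exact v.map_add_eq_of_lt_left (h1.trans_lt h2)
  rw [h3]
  exact hs.trans h2

/-- A root of a monic quadratic with integral coefficients is integral. -/
theorem le_of_quad {s b c : K} (hb : v b ≤ 1) (hc : v c ≤ 1) (h : v (s ^ 2 + b * s - c) ≤ 1) :
    v s ≤ 1 := by
  by_contra hs
  exact absurd h (not_le.2 (one_lt_quad v (not_le.1 hs) hb hc))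

end val

/-! ### Polynomial identities on a Weierstrass curve -/

section identities

variable (W : Affine K)

/-- The partial derivative `∂F/∂y = 2y + a₁x + a₃` of the Weierstrass polynomial. -/
def eta (x y : K) : K := 2 * y + W.a₁ * x + W.a₃

/-- Minus the partial derivative `∂F/∂x`, i.e. `3x² + 2a₂x + a₄ - a₁y`. -/
def gam (x y : K) : K := 3 * x ^ 2 + 2 * W.a₂ * x + W.a₄ - W.a₁ * y

/-- The tangent-cone polynomial `s² + a₁s - a₂ - 3x` at abscissa `x`. -/
def qq (x s : K) : K := s ^ 2 + W.a₁ * s - W.a₂ - 3 * x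

theorem eta_negY (x y : K) : eta W x (W.negY x y) = -eta W x y := by
  simp only [eta, negY]; ring

theorem gam_negY (x y : K) : gam W x (W.negY x y) = gam W x y + W.a₁ * eta W x y := by
  simp only [gam, eta, negY]; ring

theorem sub_negY (x y : K) : y - W.negY x y = eta W x y := by
  simp only [eta, negY]; ring

/-- **Chord relation**: for two points of `W` with distinct abscissas and chord slope `μ`,
`η μ - γ = dx (dx - q(μ))`. -/
theorem chord {x y x' y' : K} (h : W.Equation x y) (h' : W.Equation x' y') (hx : x ≠ x') :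
    eta W x y * ((y - y') / (x - x')) - gam W x y
      = (x' - x) * ((x' - x) - qq W x ((y - y') / (x - x'))) := by
  rw [equation_iff] at h h'
  have hne : x - x' ≠ 0 := sub_ne_zero.2 hx
  simp only [eta, gam, qq]
  field_simp
  linear_combination (x' - x) * h' - (x' - x) * h

/-- **Uniqueness of the singular point**, polynomial form. -/
theorem uniq {x y x' y' : K} (h : W.Equation x y) (h' : W.Equation x' y') :
    (x' - x) ^ 3 = (gam W x y + gam W x' y') * (x' - x) - (eta W x y + eta W x' y') * (y' - y) := by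
  rw [equation_iff] at h h'
  simp only [eta, gam]
  linear_combination 2 * h' - 2 * h

theorem c4_id (x y : K) :
    W.c₄ = (W.b₂ + 12 * x) ^ 2 - 24 * (2 * gam W x y + W.a₁ * eta W x y) := by
  simp only [WeierstrassCurve.c₄, WeierstrassCurve.b₂, WeierstrassCurve.b₄, gam, eta]; ring

theorem disc_id {x y : K} (h : W.Equation x y) :
    W.Δ = -(W.b₂ + 12 * x) ^ 2 *
          (-W.a₁ * eta W x y * gam W x y + (W.a₂ + 3 * x) * eta W x y ^ 2 - gam W x y ^ 2)
        - 8 * (2 * gam W x y + W.a₁ * eta W x y) ^ 3 - 27 * eta W x y ^ 4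
        + 9 * (W.b₂ + 12 * x) * (2 * gam W x y + W.a₁ * eta W x y) * eta W x y ^ 2 := by
  rw [equation_iff] at h
  simp only [WeierstrassCurve.Δ, WeierstrassCurve.b₂, WeierstrassCurve.b₄, WeierstrassCurve.b₆,
    WeierstrassCurve.b₈, gam, eta]
  linear_combination
    (-(-(W.a₁ ^ 2 + 4 * W.a₂ + 12 * x) ^ 3
        - 216 * (2 * y + W.a₁ * x + W.a₃) ^ 2
        - 432 * (x ^ 3 + W.a₂ * x ^ 2 + W.a₄ * x + W.a₆ - (y ^ 2 + W.a₁ * x * y + W.a₃ * y))
        + 36 * (W.a₁ ^ 2 + 4 * W.a₂ + 12 * x)
          * (2 * (3 * x ^ 2 + 2 * W.a₂ * x + W.a₄ - W.a₁ * y)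
              + W.a₁ * (2 * y + W.a₁ * x + W.a₃)))) * h

theorem sq_id (x s : K) : (2 * s + W.a₁) ^ 2 = 4 * qq W x s + (W.b₂ + 12 * x) := by
  simp only [qq, WeierstrassCurve.b₂]; ring

/-- The tangent slope at a point which is not of order two is `γ / η`. -/
theorem slope_self [DecidableEq K] {x y : K} (hy : y ≠ W.negY x y) :
    W.slope x x y y = gam W x y / eta W x y := by
  rw [slope_of_Y_ne rfl hy, sub_negY]; rfl

end identities

/-! ### Integral models and singular reduction -/

section model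

variable (v : Valuation K Γ₀) (W : Affine K)

/-- The coefficients of `W` are `v`-integral. -/
structure IntModel : Prop where
  a₁ : v W.a₁ ≤ 1
  a₂ : v W.a₂ ≤ 1
  a₃ : v W.a₃ ≤ 1
  a₄ : v W.a₄ ≤ 1
  a₆ : v W.a₆ ≤ 1

/-- An (integral) point reduces to a singular point: both partial derivatives lie in the
maximal ideal. -/
def Sing (x y : K) : Prop := v (eta W x y) < 1 ∧ v (gam W x y) < 1

variable {v W}

namespace IntModel

variable (hW : IntModel v W)
include hW

theorem b₂ : v W.b₂ ≤ 1 := by
  simp only [WeierstrassCurve.b₂]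
  exact le_add v (le_pow v hW.a₁ 2) (le_mul v (le_ofNat v 4) hW.a₂)

theorem b₄ : v W.b₄ ≤ 1 := by
  simp only [WeierstrassCurve.b₄]
  exact le_add v (le_mul v (le_ofNat v 2) hW.a₄) (le_mul v hW.a₁ hW.a₃)

theorem b₆ : v W.b₆ ≤ 1 := by
  simp only [WeierstrassCurve.b₆]
  exact le_add v (le_pow v hW.a₃ 2) (le_mul v (le_ofNat v 4) hW.a₆)

theorem b₈ : v W.b₈ ≤ 1 := by
  simp only [WeierstrassCurve.b₈]
  exact le_sub v (le_add v (le_sub v (le_add v (le_mul v (le_pow v hW.a₁ 2) hW.a₆)
    (le_mul v (le_mul v (le_ofNat v 4) hW.a₂) hW.a₆)) (le_mul v (le_mul v hW.a₁ hW.a₃) hW.a₄))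
    (le_mul v hW.a₂ (le_pow v hW.a₃ 2))) (le_pow v hW.a₄ 2)

theorem le_eta {x y : K} (hx : v x ≤ 1) (hy : v y ≤ 1) : v (eta W x y) ≤ 1 := by
  simp only [eta]
  exact le_add v (le_add v (le_mul v (le_ofNat v 2) hy) (le_mul v hW.a₁ hx)) hW.a₃

theorem le_gam {x y : K} (hx : v x ≤ 1) (hy : v y ≤ 1) : v (gam W x y) ≤ 1 := by
  simp only [gam]
  exact le_sub v (le_add v (le_add v (le_mul v (le_ofNat v 3) (le_pow v hx 2))
    (le_mul v (le_mul v (le_ofNat v 2) hW.a₂) hx)) hW.a₄) (le_mul v hW.a₁ hy)

theorem le_qq {x s : K} (hx : v x ≤ 1) (hs : v s ≤ 1) : v (qq W x s) ≤ 1 := by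
  simp only [qq]
  exact le_sub v (le_sub v (le_add v (le_pow v hs 2) (le_mul v hW.a₁ hs)) hW.a₂)
    (le_mul v (le_ofNat v 3) hx)

/-- The ordinate of a point with integral abscissa is integral. -/
theorem le_y {x y : K} (h : W.Equation x y) (hx : v x ≤ 1) : v y ≤ 1 := by
  rw [equation_iff] at h
  have hc : v (x ^ 3 + W.a₂ * x ^ 2 + W.a₄ * x + W.a₆) ≤ 1 :=
    le_add v (le_add v (le_add v (le_pow v hx 3) (le_mul v hW.a₂ (le_pow v hx 2)))
      (le_mul v hW.a₄ hx)) hW.a₆
  have hb : v (W.a₁ * x + W.a₃) ≤ 1 := le_add v (le_mul v hW.a₁ hx) hW.a₃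
  refine le_of_quad v hb hc ?_
  have h0 : y ^ 2 + (W.a₁ * x + W.a₃) * y - (x ^ 3 + W.a₂ * x ^ 2 + W.a₄ * x + W.a₆) = 0 := by
    linear_combination h
  rw [h0]
  simp

theorem sing_negY {x y : K} : Sing v W x (W.negY x y) ↔ Sing v W x y := by
  unfold Sing
  rw [eta_negY, gam_negY, Valuation.map_neg]
  constructor
  · rintro ⟨h1, h2⟩
    refine ⟨h1, ?_⟩
    have : gam W x y = gam W x y + W.a₁ * eta W x y - W.a₁ * eta W x y := by ring
    rw [this]
    exact lt_sub v h2 (lt_mul_right v hW.a₁ h1)
  · rintro ⟨h1, h2⟩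
    exact ⟨h1, lt_add v h2 (lt_mul_right v hW.a₁ h1)⟩

/-- A singular integral point forces `v Δ < 1`. -/
theorem disc_lt {x y : K} (h : W.Equation x y) (hx : v x ≤ 1) (hy : v y ≤ 1)
    (hs : Sing v W x y) : v W.Δ < 1 := by
  obtain ⟨h1, h2⟩ := hs
  have he := hW.le_eta hx hy
  have hg := hW.le_gam hx hy
  have hb : v (W.b₂ + 12 * x) ≤ 1 := le_add v hW.b₂ (le_mul v (le_ofNat v 12) hx)
  have h2g : v (2 * gam W x y + W.a₁ * eta W x y) < 1 :=
    lt_add v (lt_mul_right v (le_ofNat v 2) h2) (lt_mul_right v hW.a₁ h1)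
  rw [disc_id W h]
  refine lt_add v (lt_sub v (lt_sub v ?_ ?_) ?_) ?_
  · refine lt_mul_right v (le_neg v (le_pow v hb 2)) ?_
    refine lt_sub v (lt_add v ?_ ?_) ?_
    · exact lt_mul_right v (le_mul v (le_neg v hW.a₁) he) h2
    · refine lt_mul_right v (le_add v hW.a₂ (le_mul v (le_ofNat v 3) hx)) ?_
      rw [pow_two]; exact lt_mul_left v h1 he
    · rw [pow_two]; exact lt_mul_left v h2 hg
  · refine lt_mul_right v (le_ofNat v 8) ?_
    rw [pow_succ]; exact lt_mul_right v (le_pow v h2g.le 2) h2g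
  · refine lt_mul_right v (le_ofNat v 27) ?_
    rw [pow_succ]; exact lt_mul_right v (le_pow v he 3) h1
  · refine lt_mul_right v (le_mul v (le_mul v (le_ofNat v 9) hb) h2g.le) ?_
    rw [pow_two]; exact lt_mul_left v h1 he

/-- At a singular integral point of a model with `v c₄ = 1`, `b₂ + 12x` is a unit: the two
tangent directions of the node are distinct. -/
theorem unit_b (hc : v W.c₄ = 1) {x y : K} (hs : Sing v W x y) : v (W.b₂ + 12 * x) = 1 := by
  obtain ⟨h1, h2⟩ := hs
  apply eq_one_of_sq_eq_one v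
  have : (W.b₂ + 12 * x) ^ 2 = W.c₄ + 24 * (2 * gam W x y + W.a₁ * eta W x y) := by
    rw [c4_id W x y]; ring
  rw [this]
  exact eq_one_add v hc (lt_mul_right v (le_ofNat v 24)
    (lt_add v (lt_mul_right v (le_ofNat v 2) h2) (lt_mul_right v hW.a₁ h1)))

end IntModel

/-- Two singular integral points have congruent abscissas. -/
theorem sing_close {x y x' y' : K} (h : W.Equation x y) (h' : W.Equation x' y')
    (hx : v x ≤ 1) (hy : v y ≤ 1) (hx' : v x' ≤ 1) (hy' : v y' ≤ 1)
    (hs : Sing v W x y) (hs' : Sing v W x' y') : v (x' - x) < 1 := by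
  apply lt_of_pow_lt v (n := 3)
  rw [uniq W h h']
  exact lt_sub v (lt_mul_left v (lt_add v hs.2 hs'.2) (le_sub v hx' hx))
    (lt_mul_left v (lt_add v hs.1 hs'.1) (le_sub v hy' hy))

/-- If `q(s)` lies in the maximal ideal and `b₂ + 12x` is a unit then `2s + a₁` is a unit. -/
theorem unit_two_mul_add {x s : K} (hb : v (W.b₂ + 12 * x) = 1) (hq : v (qq W x s) < 1) :
    v (2 * s + W.a₁) = 1 := by
  apply eq_one_of_sq_eq_one v
  rw [sq_id W x s, add_comm]
  exact eq_one_add v hb (lt_mul_right v (le_ofNat v 4) hq)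

/-- The abscissa of a sum with non-integral slope is non-integral. -/
theorem one_lt_addX (hW : IntModel v W) {x₁ x₂ ℓ : K} (hx₁ : v x₁ ≤ 1) (hx₂ : v x₂ ≤ 1)
    (hℓ : 1 < v ℓ) : 1 < v (W.addX x₁ x₂ ℓ) := by
  have : W.addX x₁ x₂ ℓ = ℓ ^ 2 + W.a₁ * ℓ - (W.a₂ + x₁ + x₂) := by simp only [addX]; ring
  rw [this]
  exact one_lt_quad v hℓ hW.a₁ (le_add v (le_add v hW.a₂ hx₁) hx₂)

/-- If the abscissa of a sum is integral then so is the slope. -/
theorem le_slope_of_addX (hW : IntModel v W) {x₁ x₂ ℓ : K} (hx₁ : v x₁ ≤ 1) (hx₂ : v x₂ ≤ 1)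
    (h : v (W.addX x₁ x₂ ℓ) ≤ 1) : v ℓ ≤ 1 := by
  by_contra hℓ
  exact absurd h (not_le.2 (one_lt_addX hW hx₁ hx₂ (not_le.1 hℓ)))

variable [DecidableEq K]

/-- **(A)** Two integral points with the same reduction, the reduction being non-singular, are
equal or differ by a point with non-integral abscissa. -/
theorem same_red (hW : IntModel v W) {x y x' y' : K} (h : W.Nonsingular x y)
    (h' : W.Nonsingular x' y') (hx : v x ≤ 1) (hy : v y ≤ 1) (hxx : v (x' - x) < 1)
    (hyy : v (y' - y) < 1) (hns : ¬ Sing v W x y) :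
    Point.some x' y' h' = Point.some x y h ∨
      ∃ x₃ y₃, ∃ h₃ : W.Nonsingular x₃ y₃,
        Point.some x' y' h' - Point.some x y h = Point.some x₃ y₃ h₃ ∧ 1 < v x₃ := by
  have hx' : v x' ≤ 1 := by
    have : x' = x' - x + x := by ring
    rw [this]; exact le_add v hxx.le hx
  have he := hW.le_eta hx hy
  have hg := hW.le_gam hx hy
  by_cases hxe : x' = x
  · subst hxe
    rcases Y_eq_of_X_eq h'.1 h.1 rfl with hy1 | hy1
    · subst hy1; exact Or.inl rfl
    · by_cases hyy' : y' = y
      · subst hyy'; exact Or.inl rfl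
      · right
        subst hy1
        -- `P' = -P`, so `P' - P = 2 P'`
        have hne : W.negY x' y ≠ W.negY x' (W.negY x' y) := by
          rw [negY_negY]; exact hyy'
        have hη : v (eta W x' y) < 1 := by
          have : eta W x' y = -(W.negY x' y - y) := by simp only [eta, negY]; ring
          rw [this]; exact lt_neg v hyy
        have hη0 : eta W x' y ≠ 0 := by
          intro h0
          apply hyy'
          have : W.negY x' y - y = -eta W x' y := by simp only [eta, negY]; ring
          rw [h0, neg_zero, sub_eq_zero] at this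
          exact this
        have hγ : v (gam W x' y) = 1 := by
          refine le_antisymm hg (not_lt.1 fun hlt => hns ⟨hη, hlt⟩)
        have key : Point.some x' (W.negY x' y) h' - Point.some x' y h
            = Point.some _ _ (nonsingular_add h' h' fun hxy => hne hxy.right) := by
          rw [sub_eq_add_neg, Point.neg_some]
          exact Point.add_self_of_Y_ne hne
        refine ⟨_, _, _, key, ?_⟩
        · refine one_lt_addX hW hx hx ?_
          rw [slope_self W hne, eta_negY, gam_negY, map_div₀, Valuation.map_neg,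
            eq_one_add v hγ (lt_mul_right v hW.a₁ hη)]
          rw [one_div]
          exact (one_lt_inv₀ ((Valuation.pos_iff v).2 hη0)).2 hη
  · right
    have hne : x' - x ≠ 0 := sub_ne_zero.2 hxe
    have key : Point.some x' y' h' - Point.some x y h
        = Point.some _ _ (nonsingular_add h' ((nonsingular_neg x y).mpr h)
            fun hxy => hxe hxy.left) := by
      rw [sub_eq_add_neg, Point.neg_some]
      exact Point.add_of_X_ne hxe
    refine ⟨_, _, _, key, ?_⟩
    · refine one_lt_addX hW hx' hx ?_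
      rw [slope_of_X_ne hxe]
      by_contra hℓ
      rw [not_lt] at hℓ
      set ℓ := (y' - W.negY x y) / (x' - x) with hℓdef
      apply hns
      have hch := chord W ((equation_neg x y).mpr h.1) h'.1 (Ne.symm hxe)
      have hsl : (W.negY x y - y') / (x - x') = ℓ := by
        rw [hℓdef, ← neg_sub y' (W.negY x y), ← neg_sub x' x, neg_div_neg_eq]
      rw [hsl] at hch
      have hR : v ((x' - x) * ((x' - x) - qq W x ℓ)) < 1 :=
        lt_mul_left v hxx (le_sub v hxx.le (hW.le_qq hx hℓ))
      have hdy : y' - W.negY x y = ℓ * (x' - x) := by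
        rw [hℓdef, div_mul_cancel₀ _ hne]
      have hη : v (eta W x y) < 1 := by
        have : eta W x y = ℓ * (x' - x) - (y' - y) := by
          rw [← hdy]; simp only [eta, negY]; ring
        rw [this]
        exact lt_sub v (lt_mul_right v hℓ hxx) hyy
      refine ⟨hη, ?_⟩
      have hγ' : v (gam W x (W.negY x y)) < 1 := by
        have : gam W x (W.negY x y)
            = eta W x (W.negY x y) * ℓ - (x' - x) * ((x' - x) - qq W x ℓ) := by
          rw [← hch]; ring
        rw [this, eta_negY]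
        exact lt_sub v (lt_mul_left v (lt_neg v hη) hℓ) hR
      have : gam W x y = gam W x (W.negY x y) - W.a₁ * eta W x y := by
        rw [gam_negY]; ring
      rw [this]
      exact lt_sub v hγ' (lt_mul_right v hW.a₁ hη)

end model

/-! ### Inertia-like endomorphisms -/

section inertia

variable [DecidableEq K] (v : Valuation K Γ₀) (W : Affine K)

/-- `Φ` is induced on points by the ring endomorphism `σ`; `σ` fixes the coefficients of `W`,
preserves `v` and acts trivially on the residue field. -/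
structure Inertial (σ : K →+* K) (Φ : W.Point →+ W.Point) : Prop where
  hv : ∀ x, v (σ x) = v x
  h1 : ∀ x, v x ≤ 1 → v (σ x - x) < 1
  a₁ : σ W.a₁ = W.a₁
  a₂ : σ W.a₂ = W.a₂
  a₃ : σ W.a₃ = W.a₃
  a₄ : σ W.a₄ = W.a₄
  hΦ : ∀ x y (h : W.Nonsingular x y), ∃ h' : W.Nonsingular (σ x) (σ y),
    Φ (Point.some x y h) = Point.some (σ x) (σ y) h'

variable {v W}

theorem Inertial.map_eta {σ : K →+* K} {Φ : W.Point →+ W.Point} (hI : Inertial v W σ Φ)
    (x y : K) : eta W (σ x) (σ y) = σ (eta W x y) := by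
  simp only [eta, map_add, map_mul, hI.a₁, hI.a₃, map_ofNat]

theorem Inertial.map_gam {σ : K →+* K} {Φ : W.Point →+ W.Point} (hI : Inertial v W σ Φ)
    (x y : K) : gam W (σ x) (σ y) = σ (gam W x y) := by
  simp only [gam, map_add, map_sub, map_mul, map_pow, hI.a₁, hI.a₂, hI.a₄, map_ofNat]

/-- Torsion points of order prime to the residue characteristic are integral. -/
theorem torsion_le (hW : IntModel v W) {n : ℕ} (hvn : v (n : K) = 1) {x y : K}
    (h : W.Nonsingular x y) (hT : n • Point.some x y h = 0) : v x ≤ 1 ∧ v y ≤ 1 := by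
  have hx : v x ≤ 1 :=
    Fermat.Agent.S13.helper5736.v_le_one_of_torsion v W hW.b₂ hW.b₄ hW.b₆ hW.b₈ h n hvn hT
  exact ⟨hx, hW.le_y h.1 hx⟩

theorem eq_zero_of_two_of_odd {G : Type*} [AddCommGroup G] {n : ℕ} (hn : Odd n) {D : G}
    (h2 : 2 • D = 0) (hnD : n • D = 0) : D = 0 := by
  obtain ⟨k, rfl⟩ := hn
  have : (2 * k + 1) • D = k • (2 • D) + D := by
    rw [add_nsmul, one_nsmul, mul_nsmul]
  rw [this, h2, nsmul_zero, zero_add] at hnD
  exact hnD

/-- **(A)** A torsion point whose reduction is non-singular is fixed by inertia. -/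
theorem fixed_of_not_sing (hW : IntModel v W) {σ : K →+* K} {Φ : W.Point →+ W.Point}
    (hI : Inertial v W σ Φ) {n : ℕ} (hvn : v (n : K) = 1) {x y : K} (h : W.Nonsingular x y)
    (hT : n • Point.some x y h = 0) (hns : ¬ Sing v W x y) :
    Φ (Point.some x y h) = Point.some x y h := by
  obtain ⟨hx, hy⟩ := torsion_le hW hvn h hT
  obtain ⟨h', hΦT⟩ := hI.hΦ x y h
  have hTD : n • (Φ (Point.some x y h) - Point.some x y h) = 0 := by
    rw [nsmul_sub, ← map_nsmul, hT, map_zero, sub_zero]
  rw [hΦT] at hTD ⊢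
  rcases same_red hW h h' hx hy (hI.h1 x hx) (hI.h1 y hy) hns with heq | ⟨x₃, y₃, h₃, hD, hx₃⟩
  · exact heq
  · rw [hD] at hTD
    exact absurd (torsion_le hW hvn h₃ hTD).1 (not_le.2 hx₃)

/-- **(C)** If a torsion point `P` of odd order and its double `2P` both reduce to the node, then
`Φ P - P` is zero or reduces to a non-singular point. -/
theorem sub_not_sing (hW : IntModel v W) (hc4 : v W.c₄ = 1) {σ : K →+* K}
    {Φ : W.Point →+ W.Point} (hI : Inertial v W σ Φ) {n : ℕ} (hn : Odd n) (hvn : v (n : K) = 1)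
    {x y : K} (h : W.Nonsingular x y) (hT : n • Point.some x y h = 0) (hs : Sing v W x y)
    (h2 : ∀ x₂ y₂ (h₂ : W.Nonsingular x₂ y₂),
      2 • Point.some x y h = Point.some x₂ y₂ h₂ → Sing v W x₂ y₂) :
    Φ (Point.some x y h) - Point.some x y h = 0 ∨
      ∃ x₃ y₃, ∃ h₃ : W.Nonsingular x₃ y₃,
        Φ (Point.some x y h) - Point.some x y h = Point.some x₃ y₃ h₃ ∧ ¬ Sing v W x₃ y₃ := by
  obtain ⟨hx, hy⟩ := torsion_le hW hvn h hT
  have hb := hW.unit_b hc4 hs
  -- `P` is not of order two
  have hyne : y ≠ W.negY x y := by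
    intro hy0
    have h2P : 2 • Point.some x y h = 0 := by
      rw [two_nsmul]
      exact Point.add_self_of_Y_eq hy0
    exact Point.some_ne_zero h (eq_zero_of_two_of_odd hn h2P hT)
  have hη0 : eta W x y ≠ 0 := by
    rw [← sub_negY]; exact sub_ne_zero.2 hyne
  -- the tangent slope `lam` at `P` is integral and `2 lam + a₁` is a unit
  obtain ⟨lam, hlam⟩ : ∃ lam : K, lam = gam W x y / eta W x y := ⟨_, rfl⟩
  have hsl : W.slope x x y y = lam := by rw [hlam]; exact slope_self W hyne
  have hg : gam W x y = eta W x y * lam := by rw [hlam, mul_div_cancel₀ _ hη0]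
  have hne2 := nonsingular_add h h fun hxy => hyne hxy.right
  have h2P : 2 • Point.some x y h = Point.some _ _ hne2 := by
    rw [two_nsmul]; exact Point.add_self_of_Y_ne hyne
  have hs2 := h2 _ _ hne2 h2P
  have hT2 : n • Point.some _ _ hne2 = 0 := by
    rw [← h2P, nsmul_left_comm, hT, nsmul_zero]
  obtain ⟨hx2, hy2⟩ := torsion_le hW hvn hne2 hT2
  have hcl := sing_close h.1 hne2.1 hx hy hx2 hy2 hs hs2
  rw [hsl] at hx2 hcl
  have hlam_le : v lam ≤ 1 := le_slope_of_addX hW hx hx hx2
  have hq : v (qq W x lam) < 1 := by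
    have : qq W x lam = W.addX x x lam - x := by simp only [qq, addX]; ring
    rw [this]; exact hcl
  have hu : v (2 * lam + W.a₁) = 1 := unit_two_mul_add hb hq
  have hσlam : v (σ lam - lam) < 1 := hI.h1 lam hlam_le
  obtain ⟨h', hΦT⟩ := hI.hΦ x y h
  have hTD : n • (Φ (Point.some x y h) - Point.some x y h) = 0 := by
    rw [nsmul_sub, ← map_nsmul, hT, map_zero, sub_zero]
  rw [hΦT] at hTD ⊢
  have hη1 : eta W (σ x) (σ y) = σ (eta W x y) := hI.map_eta x y
  have hγ1 : gam W (σ x) (σ y) = σ (gam W x y) := hI.map_gam x y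
  have hlam1 : σ (gam W x y) = σ (eta W x y) * σ lam := by
    rw [← map_mul, ← hg]
  by_cases hxe : σ x = x
  · rcases Y_eq_of_X_eq h'.1 h.1 hxe with hy1 | hy1
    · left
      rw [sub_eq_zero]
      simp only [Point.some.injEq]
      exact ⟨hxe, hy1⟩
    · exfalso
      have e1 : σ (eta W x y) = -eta W x y := by rw [← hη1, hxe, hy1, eta_negY]
      have e2 : σ (gam W x y) = gam W x y + W.a₁ * eta W x y := by
        rw [← hγ1, hxe, hy1, gam_negY]
      have e3 : σ lam - lam = -(2 * lam + W.a₁) := by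
        have : σ lam = -lam - W.a₁ := by
          rw [e1, e2] at hlam1
          apply mul_left_cancel₀ hη0
          linear_combination hlam1 - hg
        rw [this]; ring
      rw [e3, Valuation.map_neg, hu] at hσlam
      exact lt_irrefl _ hσlam
  · right
    have hnegP : W.Nonsingular x (W.negY x y) := (nonsingular_neg x y).mpr h
    have hne3 := nonsingular_add h' hnegP fun hxy => hxe hxy.left
    have key : Point.some (σ x) (σ y) h' - Point.some x y h = Point.some _ _ hne3 := by
      rw [sub_eq_add_neg, Point.neg_some]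
      exact Point.add_of_X_ne hxe
    refine ⟨_, _, hne3, key, ?_⟩
    intro hs3
    rw [key] at hTD
    obtain ⟨hx3, hy3⟩ := torsion_le hW hvn hne3 hTD
    have hcl3 := sing_close h.1 hne3.1 hx hy hx3 hy3 hs hs3
    have hdx0 : σ x - x ≠ 0 := sub_ne_zero.2 hxe
    obtain ⟨μ, hμ⟩ : ∃ μ : K, μ = (σ y - W.negY x y) / (σ x - x) := ⟨_, rfl⟩
    have hsl3 : W.slope (σ x) x (σ y) (W.negY x y) = μ := by
      rw [hμ]; exact slope_of_X_ne hxe
    rw [hsl3] at hx3 hcl3
    have hσx : v (σ x) ≤ 1 := by rw [hI.hv]; exact hx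
    have hμ_le : v μ ≤ 1 := le_slope_of_addX hW hσx hx hx3
    have hdx : v (σ x - x) < 1 := hI.h1 x hx
    have hqμ : v (qq W x μ) < 1 := by
      have : qq W x μ = (W.addX (σ x) x μ - x) + (σ x - x) := by simp only [qq, addX]; ring
      rw [this]; exact lt_add v hcl3 hdx
    have huμ : v (2 * μ + W.a₁) = 1 := unit_two_mul_add hb hqμ
    -- the chord relation at both ends
    have hch1 := chord W h'.1 hnegP.1 hxe
    have hch2 := chord W hnegP.1 h'.1 (Ne.symm hxe)
    have hsl' : (W.negY x y - σ y) / (x - σ x) = μ := by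
      rw [hμ, ← neg_sub (σ y) (W.negY x y), ← neg_sub (σ x) x, neg_div_neg_eq]
    rw [hsl'] at hch2
    rw [← hμ, hη1, hγ1] at hch1
    rw [eta_negY, gam_negY] at hch2
    have E1 : σ (eta W x y) * (μ - σ lam) = (x - σ x) * ((x - σ x) - qq W (σ x) μ) := by
      rw [← hch1, hlam1]; ring
    have E2 : eta W x y * (μ + lam + W.a₁) = (x - σ x) * ((σ x - x) - qq W x μ) := by
      linear_combination -hch2 - hg
    have hR1 : v ((x - σ x) - qq W (σ x) μ) < 1 := by
      have : (x - σ x) - qq W (σ x) μ = 2 * (σ x - x) - qq W x μ := by simp only [qq]; ring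
      rw [this]; exact lt_sub v (lt_mul_right v (le_ofNat v 2) hdx) hqμ
    have hR2 : v ((σ x - x) - qq W x μ) < 1 := lt_sub v hdx hqμ
    have hpos : 0 < v (σ x - x) := (Valuation.pos_iff v).2 hdx0
    have hswap : v (x - σ x) = v (σ x - x) := Valuation.map_sub_swap v x (σ x)
    have F1 : v (eta W x y) * v (μ - σ lam) < v (σ x - x) := by
      rw [← hI.hv (eta W x y), ← map_mul, E1, map_mul, hswap]
      exact mul_lt_of_lt_one_right hpos hR1
    have F2 : v (eta W x y) * v (μ + lam + W.a₁) < v (σ x - x) := by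
      rw [← map_mul, E2, map_mul, hswap]
      exact mul_lt_of_lt_one_right hpos hR2
    have hunit : v ((μ + lam + W.a₁) - (μ - σ lam)) = 1 := by
      have : (μ + lam + W.a₁) - (μ - σ lam) = (2 * lam + W.a₁) + (σ lam - lam) := by ring
      rw [this]; exact eq_one_add v hu hσlam
    have hlt : v (eta W x y) < v (σ x - x) := by
      by_cases hc : v (μ - σ lam) < 1
      · have hc2 : ¬ v (μ + lam + W.a₁) < 1 := fun hc2 => by
          have := lt_sub v hc2 hc
          rw [hunit] at this
          exact lt_irrefl _ this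
        exact lt_of_le_of_lt (le_mul_of_one_le_right' (not_lt.1 hc2)) F2
      · exact lt_of_le_of_lt (le_mul_of_one_le_right' (not_lt.1 hc)) F1
    have hfin : eta W (σ x) (σ y) - eta W x (W.negY x y) = (σ x - x) * (2 * μ + W.a₁) := by
      have hdy : σ y - W.negY x y = μ * (σ x - x) := by rw [hμ, div_mul_cancel₀ _ hdx0]
      simp only [eta]
      linear_combination 2 * hdy
    have hcontra : v (eta W (σ x) (σ y) - eta W x (W.negY x y)) < v (σ x - x) := by
      refine lt_of_le_of_lt (Valuation.map_sub v _ _) (max_lt ?_ ?_)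
      · rw [hη1, hI.hv]; exact hlt
      · rw [eta_negY, Valuation.map_neg]; exact hlt
    rw [hfin, map_mul, huμ, mul_one] at hcontra
    exact lt_irrefl _ hcontra

/-- **Inertia acts unipotently on odd torsion of a semistable model.**  `W` has `v`-integral
coefficients and good or multiplicative reduction, `Φ` is induced by `σ` (which fixes the
coefficients, preserves `v` and is trivial on the residue field); then `(Φ - 1)² = 0` on the
points of odd order `n` prime to the residue characteristic. -/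
theorem unipotent_of_semistable (hW : IntModel v W) (hss : v W.Δ = 1 ∨ v W.c₄ = 1)
    {σ : K →+* K} {Φ : W.Point →+ W.Point} (hI : Inertial v W σ Φ) {n : ℕ} (hn : Odd n)
    (hvn : v (n : K) = 1) {T : W.Point} (hT : n • T = 0) : Φ (Φ T - T) = Φ T - T := by
  have hTD : n • (Φ T - T) = 0 := by
    rw [nsmul_sub, ← map_nsmul, hT, map_zero, sub_zero]
  rcases T with _ | @⟨x, y, h⟩
  · have h0 : (Point.zero : W.Point) = 0 := rfl
    rw [h0, map_zero, sub_zero, map_zero]
  · obtain ⟨hx, hy⟩ := torsion_le hW hvn h hT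
    by_cases hs : Sing v W x y
    · have hc4 : v W.c₄ = 1 := by
        rcases hss with hΔ | hc
        · exact absurd (hW.disc_lt h.1 hx hy hs) (by rw [hΔ]; exact lt_irrefl _)
        · exact hc
      by_cases h2 : ∀ x₂ y₂ (h₂ : W.Nonsingular x₂ y₂),
          2 • Point.some x y h = Point.some x₂ y₂ h₂ → Sing v W x₂ y₂
      · rcases sub_not_sing hW hc4 hI hn hvn h hT hs h2 with h0 | ⟨x₃, y₃, h₃, hD, hns⟩
        · rw [h0, map_zero]
        · rw [hD] at hTD ⊢
          exact fixed_of_not_sing hW hI hvn h₃ hTD hns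
      · push Not at h2
        obtain ⟨x₂, y₂, h₂, h2P, hns⟩ := h2
        have hT2 : n • Point.some x₂ y₂ h₂ = 0 := by
          rw [← h2P, nsmul_left_comm, hT, nsmul_zero]
        have hfix := fixed_of_not_sing hW hI hvn h₂ hT2 hns
        have h2D : 2 • (Φ (Point.some x y h) - Point.some x y h) = 0 := by
          rw [nsmul_sub, ← map_nsmul, h2P, hfix, sub_self]
        rw [eq_zero_of_two_of_odd hn h2D hTD, map_zero]
    · rw [fixed_of_not_sing hW hI hvn h hT hs, sub_self, map_zero]

/-- Iterating a unipotent `Φ`: `Φ^[k] T = T + k • (Φ T - T)`. -/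
theorem iterate_eq_of_unipotent {G : Type*} [AddCommGroup G] (Φ : G →+ G) {T : G}
    (hU : Φ (Φ T - T) = Φ T - T) (k : ℕ) : Φ^[k] T = T + k • (Φ T - T) := by
  induction k with
  | zero => simp
  | succ k ih =>
    rw [Function.iterate_succ_apply', ih, map_add, map_nsmul, hU, succ_nsmul]
    abel

/-- On odd `n`-torsion of a semistable model, the `n`-th power of an inertia element is
trivial. -/
theorem iterate_fixed_of_semistable (hW : IntModel v W) (hss : v W.Δ = 1 ∨ v W.c₄ = 1)
    {σ : K →+* K} {Φ : W.Point →+ W.Point} (hI : Inertial v W σ Φ) {n : ℕ} (hn : Odd n)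
    (hvn : v (n : K) = 1) {T : W.Point} (hT : n • T = 0) : Φ^[n] T = T := by
  rw [iterate_eq_of_unipotent Φ (unipotent_of_semistable hW hss hI hn hvn hT) n, nsmul_sub,
    ← map_nsmul, hT, map_zero, sub_zero, add_zero]

/-- **Good reduction**: inertia fixes the torsion prime to the residue characteristic (no
parity hypothesis). -/
theorem fixed_of_good (hW : IntModel v W) (hΔ : v W.Δ = 1) {σ : K →+* K}
    {Φ : W.Point →+ W.Point} (hI : Inertial v W σ Φ) {n : ℕ} (hvn : v (n : K) = 1)
    {T : W.Point} (hT : n • T = 0) : Φ T = T := by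
  rcases T with _ | @⟨x, y, h⟩
  · have h0 : (Point.zero : W.Point) = 0 := rfl
    rw [h0, map_zero]
  · obtain ⟨hx, hy⟩ := torsion_le hW hvn h hT
    refine fixed_of_not_sing hW hI hvn h hT fun hs => ?_
    exact absurd (hW.disc_lt h.1 hx hy hs) (by rw [hΔ]; exact lt_irrefl _)

end inertia

end Fermat.Agent.Lib.helper2687
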