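import Mathlib
import Fermat.Prelude.Def_FLTPrelim_Modularity
import Fermat.Agent.S05.helper2200_Inertia
import Fermat.Agent.Lib.helper2687_UnipotentInertia

/-!
# Unipotent inertia on torsion of an integral Weierstrass model: the `ℚ̄` adapter (helper1663)

The abstract "semistable ⟹ unipotent inertia" statement (board row LIB-UNIPOTENT-GENERAL) lives
over an arbitrary valued field.  This file is the adapter to the Prelude vocabulary: an integral
model `W : WeierstrassCurve ℤ`, a valuation subring `A` of `ℚ̄` over a prime `q` (ANY prime,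
`q = 2` included), `σ ∈ A.inertiaSubgroupIn ℚ`, and the Galois action on
`((W.map (Int.castRingHom ℚ))⁄ℚ̄).Point` and on `Submodule.torsionBy ℤ _ n`.

* `CoreAt A`: the abstract statement specialised to `K = ℚ̄`, `v = A.valuation` (a `Prop`).
* every hypothesis of the abstract statement is provided as a separate lemma
  (`val_a₁_le_one`, …, `val_Δ_or_c₄`, `galHom`, `galHom_some`, `val_natCast_eq_one`, …).
* `unipotent_point_of_core`, `unipotent_torsion_of_core`, `rel_of_core`:
  the consumer shapes, from `CoreAt A`.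
* `coreAt A : CoreAt A` from the landed abstract core `Lib/helper2687_UnipotentInertia`, and the
  HYPOTHESIS-FREE consumer theorems (any prime `q`, `2` included; no `Δ ≠ 0` needed):
  `unipotent_point`, `unipotent_torsion`, `rel_torsion`, `pow_smul_torsion`,
  `unipotent_torsion_of_semistable`, `fixed_point_of_good`, `fixed_torsion_of_good`.
-/

set_option autoImplicit false

namespace Fermat.Agent.Lib.helper1663

open WeierstrassCurve WeierstrassCurve.Affine WeierstrassCurve.Affine.Point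

local notation "Qbar" => AlgebraicClosure ℚ
local notation "GQ" => (AlgebraicClosure ℚ) ≃ₐ[ℚ] (AlgebraicClosure ℚ)

/-- The base change to `ℚ̄` of an integral Weierstrass model (the curve whose points carry the
Prelude Galois action). -/
noncomputable abbrev barW (W : WeierstrassCurve ℤ) : WeierstrassCurve Qbar :=
  WeierstrassCurve.baseChange (W.map (Int.castRingHom ℚ)) Qbar

theorem barW_eq_map (W : WeierstrassCurve ℤ) : barW W = W.map (Int.castRingHom Qbar) := by
  simp only [barW, WeierstrassCurve.baseChange, WeierstrassCurve.map_map]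
  rw [show (algebraMap ℚ Qbar).comp (Int.castRingHom ℚ) = Int.castRingHom Qbar from
    RingHom.ext_int _ _]

theorem barW_a₁ (W : WeierstrassCurve ℤ) : (barW W).a₁ = ((W.a₁ : ℤ) : Qbar) := by
  rw [barW_eq_map]; simp
theorem barW_a₂ (W : WeierstrassCurve ℤ) : (barW W).a₂ = ((W.a₂ : ℤ) : Qbar) := by
  rw [barW_eq_map]; simp
theorem barW_a₃ (W : WeierstrassCurve ℤ) : (barW W).a₃ = ((W.a₃ : ℤ) : Qbar) := by
  rw [barW_eq_map]; simp
theorem barW_a₄ (W : WeierstrassCurve ℤ) : (barW W).a₄ = ((W.a₄ : ℤ) : Qbar) := by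
  rw [barW_eq_map]; simp
theorem barW_a₆ (W : WeierstrassCurve ℤ) : (barW W).a₆ = ((W.a₆ : ℤ) : Qbar) := by
  rw [barW_eq_map]; simp
theorem barW_c₄ (W : WeierstrassCurve ℤ) : (barW W).c₄ = ((W.c₄ : ℤ) : Qbar) := by
  rw [barW_eq_map]; simp
theorem barW_Δ (W : WeierstrassCurve ℤ) : (barW W).Δ = ((W.Δ : ℤ) : Qbar) := by
  rw [barW_eq_map]; simp

theorem barW_Δ_ne_zero (W : WeierstrassCurve ℤ) (hΔ : W.Δ ≠ 0) : (barW W).Δ ≠ 0 := by
  rw [barW_Δ]; exact_mod_cast hΔ

/-- **The abstract core, specialised to `ℚ̄` and the valuation of `A`** (board row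
LIB-UNIPOTENT-GENERAL; `W.Δ ≠ 0` is offered as an extra hypothesis). -/
def CoreAt (A : ValuationSubring Qbar) : Prop :=
  ∀ (E : WeierstrassCurve.Affine Qbar),
    A.valuation E.a₁ ≤ 1 → A.valuation E.a₂ ≤ 1 → A.valuation E.a₃ ≤ 1 →
    A.valuation E.a₄ ≤ 1 → A.valuation E.a₆ ≤ 1 → E.Δ ≠ 0 →
    (A.valuation E.Δ = 1 ∨ A.valuation E.c₄ = 1) →
    ∀ σ : Qbar →+* Qbar, (∀ x, A.valuation (σ x) = A.valuation x) →
    (∀ x, A.valuation x ≤ 1 → A.valuation (σ x - x) < 1) →
    σ E.a₁ = E.a₁ → σ E.a₂ = E.a₂ → σ E.a₃ = E.a₃ → σ E.a₄ = E.a₄ → σ E.a₆ = E.a₆ →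
    ∀ Φ : E.Point →+ E.Point,
    (∀ (x y : Qbar) (h : E.Nonsingular x y),
      ∃ h' : E.Nonsingular (σ x) (σ y), Φ (Point.some x y h) = Point.some (σ x) (σ y) h') →
    ∀ n : ℕ, Odd n → A.valuation (n : Qbar) = 1 → ∀ T : E.Point, n • T = 0 →
    Φ (Φ T - T) = Φ T - T

section ingredients

variable (W : WeierstrassCurve ℤ) (A : ValuationSubring Qbar)

theorem val_a₁_le_one : A.valuation (barW W).a₁ ≤ 1 := by
  rw [barW_a₁]; exact Fermat.Agent.S05.helper2200.valuation_intCast_le_one A _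
theorem val_a₂_le_one : A.valuation (barW W).a₂ ≤ 1 := by
  rw [barW_a₂]; exact Fermat.Agent.S05.helper2200.valuation_intCast_le_one A _
theorem val_a₃_le_one : A.valuation (barW W).a₃ ≤ 1 := by
  rw [barW_a₃]; exact Fermat.Agent.S05.helper2200.valuation_intCast_le_one A _
theorem val_a₄_le_one : A.valuation (barW W).a₄ ≤ 1 := by
  rw [barW_a₄]; exact Fermat.Agent.S05.helper2200.valuation_intCast_le_one A _
theorem val_a₆_le_one : A.valuation (barW W).a₆ ≤ 1 := by
  rw [barW_a₆]; exact Fermat.Agent.S05.helper2200.valuation_intCast_le_one A _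

/-- Semistability at `q` (`q ∣ Δ → q ∤ c₄`) in valuation form: `Δ` or `c₄` is a unit of `A`. -/
theorem val_Δ_or_c₄ {q : ℕ} (hq : q.Prime) (hA : A.LiesOverPrime q)
    (hss : (q : ℤ) ∣ W.Δ → ¬ (q : ℤ) ∣ W.c₄) :
    A.valuation (barW W).Δ = 1 ∨ A.valuation (barW W).c₄ = 1 := by
  by_cases hdvd : (q : ℤ) ∣ W.Δ
  · right
    rw [barW_c₄]
    exact Fermat.Agent.S05.helper2200.valuation_intCast_eq_one A hq hA (hss hdvd)
  · left
    rw [barW_Δ]
    exact Fermat.Agent.S05.helper2200.valuation_intCast_eq_one A hq hA hdvd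

/-- A natural number prime to `q` is a unit of `A`. -/
theorem val_natCast_eq_one {q : ℕ} (hq : q.Prime) (hA : A.LiesOverPrime q) {n : ℕ}
    (hn : ¬ q ∣ n) : A.valuation (n : Qbar) = 1 := by
  have hnd : ¬ (q : ℤ) ∣ (n : ℤ) := by
    intro hd
    exact hn (by exact_mod_cast hd)
  have := Fermat.Agent.S05.helper2200.valuation_intCast_eq_one A hq hA hnd
  simpa using this

/-- The Galois action of `σ` on the points of `W` over `ℚ̄`, as an additive map. -/
noncomputable def galHom (σ : GQ) : (barW W).toAffine.Point →+ (barW W).toAffine.Point :=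
  Point.map (W' := (W.map (Int.castRingHom ℚ))) σ.toAlgHom

theorem galHom_apply (σ : GQ) (P : (barW W).toAffine.Point) : galHom W σ P = σ • P := rfl

theorem galHom_some (σ : GQ) (x y : Qbar) (h : (barW W).toAffine.Nonsingular x y) :
    ∃ h' : (barW W).toAffine.Nonsingular (σ x) (σ y),
      galHom W σ (Point.some x y h) = Point.some (σ x) (σ y) h' :=
  ⟨(WeierstrassCurve.Affine.baseChange_nonsingular (W := (W.map (Int.castRingHom ℚ)))
      (f := σ.toAlgHom) σ.toAlgHom.injective x y).mpr h, rfl⟩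

theorem smul_some (σ : GQ) {x y : Qbar} (h : (barW W).toAffine.Nonsingular x y) :
    ∃ h' : (barW W).toAffine.Nonsingular (σ x) (σ y),
      σ • (Point.some x y h : (barW W).toAffine.Point) = Point.some (σ x) (σ y) h' :=
  galHom_some W σ x y h

theorem smul_zero_pt (σ : GQ) : σ • (0 : (barW W).toAffine.Point) = 0 := rfl

theorem smul_sub_pt (σ : GQ) (P Q : (barW W).toAffine.Point) :
    σ • (P - Q) = σ • P - σ • Q :=
  map_sub (galHom W σ) P Q

theorem smul_nsmul_pt (σ : GQ) (n : ℕ) (P : (barW W).toAffine.Point) :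
    σ • (n • P) = n • (σ • P) :=
  map_nsmul (galHom W σ) n P

theorem apply_intCast (σ : GQ) (n : ℤ) : σ (n : Qbar) = n := map_intCast σ n

end ingredients

section consumers

variable (W : WeierstrassCurve ℤ) (A : ValuationSubring Qbar) {q : ℕ}

/-- **Unipotent inertia on points, from the abstract core.**  `W` an integral model with
`Δ ≠ 0`, semistable at the prime `q` (any `q`, `2` included), `A` over `q`, `σ` in the inertia
group of `A`, `n` odd and prime to `q`, `n • P = 0`: then `σ (σ P - P) = σ P - P`. -/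
theorem unipotent_point_of_core (hcore : CoreAt A) (hΔ : W.Δ ≠ 0) (hq : q.Prime) {n : ℕ}
    (hn : Odd n) (hnq : ¬ q ∣ n) (hss : (q : ℤ) ∣ W.Δ → ¬ (q : ℤ) ∣ W.c₄)
    (hA : A.LiesOverPrime q) {σ : GQ} (hσ : σ ∈ A.inertiaSubgroupIn ℚ)
    (P : (barW W).toAffine.Point) (hP : n • P = 0) :
    σ • (σ • P - P) = σ • P - P := by
  have h := hcore (barW W).toAffine (val_a₁_le_one W A) (val_a₂_le_one W A) (val_a₃_le_one W A)
    (val_a₄_le_one W A) (val_a₆_le_one W A) (barW_Δ_ne_zero W hΔ) (val_Δ_or_c₄ W A hq hA hss)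
    σ.toAlgHom.toRingHom
    (fun x => Fermat.Agent.S05.helper2200.valuation_apply A hσ x)
    (fun x hx => Fermat.Agent.S05.helper2200.valuation_apply_sub_lt_one A hσ x hx)
    (by rw [barW_a₁]; exact apply_intCast σ _) (by rw [barW_a₂]; exact apply_intCast σ _)
    (by rw [barW_a₃]; exact apply_intCast σ _) (by rw [barW_a₄]; exact apply_intCast σ _)
    (by rw [barW_a₆]; exact apply_intCast σ _)
    (galHom W σ) (fun x y h => galHom_some W σ x y h) n hn (val_natCast_eq_one A hq hA hnq) P hP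
  exact h

/-- **Unipotent inertia on the Prelude torsion module, from the abstract core.** -/
theorem unipotent_torsion_of_core (hcore : CoreAt A) (hΔ : W.Δ ≠ 0) (hq : q.Prime) {n : ℕ}
    (hn : Odd n) (hnq : ¬ q ∣ n) (hss : (q : ℤ) ∣ W.Δ → ¬ (q : ℤ) ∣ W.c₄)
    (hA : A.LiesOverPrime q) {σ : GQ} (hσ : σ ∈ A.inertiaSubgroupIn ℚ)
    (x : Submodule.torsionBy ℤ (((W.map (Int.castRingHom ℚ)).toAffine)⁄Qbar).Point n) :
    σ • (σ • x - x) = σ • x - x := by
  apply Subtype.ext
  have hx : n • (x : (barW W).toAffine.Point) = 0 := by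
    have h1 := x.2
    rw [Submodule.mem_torsionBy_iff] at h1
    rw [← natCast_zsmul]; exact h1
  exact unipotent_point_of_core W A hcore hΔ hq hn hnq hss hA hσ x.1 hx

/-- The same in the "annihilated by `(X - 1)²`" shape `σ²x - 2σx + x = 0`. -/
theorem rel_of_core (hcore : CoreAt A) (hΔ : W.Δ ≠ 0) (hq : q.Prime) {n : ℕ}
    (hn : Odd n) (hnq : ¬ q ∣ n) (hss : (q : ℤ) ∣ W.Δ → ¬ (q : ℤ) ∣ W.c₄)
    (hA : A.LiesOverPrime q) {σ : GQ} (hσ : σ ∈ A.inertiaSubgroupIn ℚ)
    (x : Submodule.torsionBy ℤ (((W.map (Int.castRingHom ℚ)).toAffine)⁄Qbar).Point n) :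
    σ • σ • x - (2 : ℤ) • σ • x + (1 : ℤ) • x = 0 := by
  have h := unipotent_torsion_of_core W A hcore hΔ hq hn hnq hss hA hσ x
  rw [smul_sub] at h
  rw [two_smul, one_smul]
  have h2 : σ • σ • x = σ • x - x + σ • x := by
    rw [← h]; abel
  rw [h2]; abel

end consumers

section final

variable (W : WeierstrassCurve ℤ) (A : ValuationSubring Qbar) {q : ℕ}

/-- The abstract core holds (landed `Lib/helper2687_UnipotentInertia`). -/
theorem coreAt : CoreAt A := by
  intro E h1 h2 h3 h4 h6 _ hss σ hv hσ f1 f2 f3 f4 _ Φ hΦ n hn hvn T hT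
  exact Fermat.Agent.Lib.helper2687.unipotent_of_semistable (v := A.valuation)
    ⟨h1, h2, h3, h4, h6⟩ hss ⟨hv, hσ, f1, f2, f3, f4, hΦ⟩ hn hvn hT

/-- The Galois action of an inertia element is `Inertial` for the valuation of `A`. -/
theorem inertial_galHom {σ : GQ} (hσ : σ ∈ A.inertiaSubgroupIn ℚ) :
    Fermat.Agent.Lib.helper2687.Inertial A.valuation (barW W).toAffine σ.toAlgHom.toRingHom
      (galHom W σ) :=
  ⟨fun x => Fermat.Agent.S05.helper2200.valuation_apply A hσ x,
    fun x hx => Fermat.Agent.S05.helper2200.valuation_apply_sub_lt_one A hσ x hx,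
    by rw [barW_a₁]; exact apply_intCast σ _, by rw [barW_a₂]; exact apply_intCast σ _,
    by rw [barW_a₃]; exact apply_intCast σ _, by rw [barW_a₄]; exact apply_intCast σ _,
    fun x y h => galHom_some W σ x y h⟩

theorem intModel_barW : Fermat.Agent.Lib.helper2687.IntModel A.valuation (barW W).toAffine :=
  ⟨val_a₁_le_one W A, val_a₂_le_one W A, val_a₃_le_one W A, val_a₄_le_one W A,
    val_a₆_le_one W A⟩

/-- **Semistable at `q` ⟹ unipotent inertia on points of odd order prime to `q`.**  ANY prime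
`q` (`2` and `3` included), any integral Weierstrass model, no hypothesis on `Δ`. -/
theorem unipotent_point (hq : q.Prime) {n : ℕ} (hn : Odd n) (hnq : ¬ q ∣ n)
    (hss : (q : ℤ) ∣ W.Δ → ¬ (q : ℤ) ∣ W.c₄)
    (hA : A.LiesOverPrime q) {σ : GQ} (hσ : σ ∈ A.inertiaSubgroupIn ℚ)
    (P : (barW W).toAffine.Point) (hP : n • P = 0) :
    σ • (σ • P - P) = σ • P - P :=
  Fermat.Agent.Lib.helper2687.unipotent_of_semistable (intModel_barW W A)
    (val_Δ_or_c₄ W A hq hA hss) (inertial_galHom W A hσ) hn (val_natCast_eq_one A hq hA hnq) hP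

/-- **Semistable at `q` ⟹ unipotent inertia on the Prelude `n`-torsion module**, `n` odd and
prime to `q`; ANY prime `q`. -/
theorem unipotent_torsion (hq : q.Prime) {n : ℕ} (hn : Odd n) (hnq : ¬ q ∣ n)
    (hss : (q : ℤ) ∣ W.Δ → ¬ (q : ℤ) ∣ W.c₄)
    (hA : A.LiesOverPrime q) {σ : GQ} (hσ : σ ∈ A.inertiaSubgroupIn ℚ)
    (x : Submodule.torsionBy ℤ (((W.map (Int.castRingHom ℚ)).toAffine)⁄Qbar).Point n) :
    σ • (σ • x - x) = σ • x - x := by
  apply Subtype.ext
  have hx : n • (x : (barW W).toAffine.Point) = 0 := by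
    have h1 := x.2
    rw [Submodule.mem_torsionBy_iff] at h1
    rw [← natCast_zsmul]; exact h1
  exact unipotent_point W A hq hn hnq hss hA hσ x.1 hx

/-- The same for a semistable model, at every prime. -/
theorem unipotent_torsion_of_semistable (hW : W.IsSemistableModel) (hq : q.Prime) {n : ℕ}
    (hn : Odd n) (hnq : ¬ q ∣ n) (hA : A.LiesOverPrime q) {σ : GQ}
    (hσ : σ ∈ A.inertiaSubgroupIn ℚ)
    (x : Submodule.torsionBy ℤ (((W.map (Int.castRingHom ℚ)).toAffine)⁄Qbar).Point n) :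
    σ • (σ • x - x) = σ • x - x :=
  unipotent_torsion W A hq hn hnq (hW q hq) hA hσ x

/-- The "annihilated by `(X - 1)²`" shape `σ²x - 2σx + x = 0`. -/
theorem rel_torsion (hq : q.Prime) {n : ℕ} (hn : Odd n) (hnq : ¬ q ∣ n)
    (hss : (q : ℤ) ∣ W.Δ → ¬ (q : ℤ) ∣ W.c₄)
    (hA : A.LiesOverPrime q) {σ : GQ} (hσ : σ ∈ A.inertiaSubgroupIn ℚ)
    (x : Submodule.torsionBy ℤ (((W.map (Int.castRingHom ℚ)).toAffine)⁄Qbar).Point n) :
    σ • σ • x - (2 : ℤ) • σ • x + (1 : ℤ) • x = 0 := by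
  have h := unipotent_torsion W A hq hn hnq hss hA hσ x
  rw [smul_sub] at h
  rw [two_smul, one_smul]
  have h2 : σ • σ • x = σ • x - x + σ • x := by
    rw [← h]; abel
  rw [h2]; abel

/-- Abstract: a unipotent element acts on `n`-torsion with `σ ^ n = 1`. -/
theorem pow_smul_eq_of_unip {G M : Type*} [Group G] [AddCommGroup M] [DistribMulAction G M]
    (σ : G) (x : M) (h : σ • (σ • x - x) = σ • x - x) (k : ℕ) :
    σ ^ k • x = x + k • (σ • x - x) := by
  induction k with
  | zero => simp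
  | succ k ih =>
    have h1 : σ • (k • (σ • x - x)) = k • (σ • (σ • x - x)) :=
      map_nsmul (DistribSMul.toAddMonoidHom M σ) k (σ • x - x)
    rw [pow_succ', mul_smul, ih, smul_add, h1, h, succ_nsmul]
    abel

/-- On the odd `n`-torsion of a model semistable at `q ∤ n`, the `n`-th power of every inertia
element at `q` is trivial. -/
theorem pow_smul_torsion (hq : q.Prime) {n : ℕ} (hn : Odd n) (hnq : ¬ q ∣ n)
    (hss : (q : ℤ) ∣ W.Δ → ¬ (q : ℤ) ∣ W.c₄)
    (hA : A.LiesOverPrime q) {σ : GQ} (hσ : σ ∈ A.inertiaSubgroupIn ℚ)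
    (x : Submodule.torsionBy ℤ (((W.map (Int.castRingHom ℚ)).toAffine)⁄Qbar).Point n) :
    σ ^ n • x = x := by
  rw [pow_smul_eq_of_unip σ x (unipotent_torsion W A hq hn hnq hss hA hσ x) n]
  have hx : n • x = 0 := by
    apply Subtype.ext
    have h1 := x.2
    rw [Submodule.mem_torsionBy_iff] at h1
    rw [AddSubmonoidClass.coe_nsmul, ZeroMemClass.coe_zero, ← natCast_zsmul]
    exact h1
  have hσx : n • (σ • x) = 0 := by
    have h1 : σ • (n • x) = n • (σ • x) :=
      map_nsmul (DistribSMul.toAddMonoidHom _ σ) n x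
    rw [← h1, hx, smul_zero]
  rw [nsmul_sub, hσx, hx, sub_zero, add_zero]

/-- **Good reduction at `q` ⟹ inertia at `q` fixes the points of order prime to `q`** (no
parity hypothesis; ANY prime `q`). -/
theorem fixed_point_of_good (hq : q.Prime) {n : ℕ} (hnq : ¬ q ∣ n) (hgood : ¬ (q : ℤ) ∣ W.Δ)
    (hA : A.LiesOverPrime q) {σ : GQ} (hσ : σ ∈ A.inertiaSubgroupIn ℚ)
    (P : (barW W).toAffine.Point) (hP : n • P = 0) : σ • P = P := by
  have hΔ : A.valuation (barW W).Δ = 1 := by
    rw [barW_Δ]; exact Fermat.Agent.S05.helper2200.valuation_intCast_eq_one A hq hA hgood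
  exact Fermat.Agent.Lib.helper2687.fixed_of_good (intModel_barW W A) hΔ (inertial_galHom W A hσ)
    (val_natCast_eq_one A hq hA hnq) hP

/-- Good reduction at `q`: inertia at `q` acts trivially on the Prelude `n`-torsion module,
`q ∤ n`. -/
theorem fixed_torsion_of_good (hq : q.Prime) {n : ℕ} (hnq : ¬ q ∣ n) (hgood : ¬ (q : ℤ) ∣ W.Δ)
    (hA : A.LiesOverPrime q) {σ : GQ} (hσ : σ ∈ A.inertiaSubgroupIn ℚ)
    (x : Submodule.torsionBy ℤ (((W.map (Int.castRingHom ℚ)).toAffine)⁄Qbar).Point n) :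
    σ • x = x := by
  apply Subtype.ext
  have hx : n • (x : (barW W).toAffine.Point) = 0 := by
    have h1 := x.2
    rw [Submodule.mem_torsionBy_iff] at h1
    rw [← natCast_zsmul]; exact h1
  exact fixed_point_of_good W A hq hnq hgood hA hσ x.1 hx

end final

end Fermat.Agent.Lib.helper1663
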