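/-
Shared Lib brick (S18 track C / S29 block D: bounded denominators of cusp expansions).
Author: helper1692.  Imports: Mathlib + one Prelude definition module.

# `O((X))` is integrally closed for a principal ideal domain `O`; consumers

For a PID `O` (e.g. a discrete valuation ring, a localisation of the ring of integers of a number
field at a prime) the ring `O⟦X⟧` is a UFD (Mathlib), hence integrally closed, hence so is its
localisation `O((X)) = LaurentSeries O`.  Consequences, in hypothesis-passing form:

* `laurentSeries_isIntegrallyClosed` : `IsIntegrallyClosed (LaurentSeries O)`.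
* `ratioSubfield ι hι : Subfield T` for an injective `ι : S →+* T` from a domain into a field: the
  elements `y` with `ι b * y = ι a`, `b ≠ 0` (the image of `Frac S`).
* `mem_range_of_isIntegralElem` : `S` integrally closed, `y ∈ ratioSubfield`, `y` integral over
  `ι` ⟹ `y ∈ ι.range`.  Variants: `y ^ n ∈ ι.range` (`n ≠ 0`); `IsIntegral R y` for any
  `R`-algebra structure on `T` whose structure map lands in `ι.range`.
* Laurent series form (`ι = ModularCurve.coeffMap f`, `f : O →+* K` injective, `K` a field):
  `laurentRatioSubfield f hf : Subfield (LaurentSeries K)`; membership from bounded denominators;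
  `coeff_mem_range_of_isIntegral`, `coeff_mem_range_of_pow` (a root of an `O`-integral series which
  lies in `Frac(O((q)))` is `O`-integral), `mul_coeff_mem_range_of_pow` (bounded denominators of
  the `n`-th power give bounded denominators).
-/
import Mathlib.RingTheory.LaurentSeries
import Mathlib.RingTheory.PowerSeries.Ideal
import Mathlib.RingTheory.Polynomial.RationalRoot
import Mathlib.RingTheory.IntegralClosure.IntegrallyClosed
import Mathlib.RingTheory.Localization.FractionRing
import Fermat.Prelude.Def_ModularCurve_LaurentCoeff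

set_option autoImplicit false

noncomputable section

namespace Fermat.Agent.Lib.helper1692

open Polynomial ModularCurve

/-! ### `O((X))` is integrally closed -/

/-- For a principal ideal domain `O`, the ring of Laurent series `O((X))` is integrally closed. -/
theorem laurentSeries_isIntegrallyClosed (O : Type*) [CommRing O] [IsDomain O]
    [IsPrincipalIdealRing O] : IsIntegrallyClosed (LaurentSeries O) := by
  have : IsIntegrallyClosed (PowerSeries O) := UniqueFactorizationMonoid.instIsIntegrallyClosed
  refine isIntegrallyClosed_of_isLocalization (LaurentSeries O)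
    (Submonoid.powers (PowerSeries.X : PowerSeries O)) ?_
  rintro _ ⟨n, rfl⟩
  exact mem_nonZeroDivisors_of_ne_zero (pow_ne_zero n PowerSeries.X_ne_zero)

/-! ### Abstract consumer: integrally closed domain inside a field -/

section Abstract

variable {S T : Type*} [CommRing S] [IsDomain S] [Field T]

/-- The subfield of `T` of all ratios `ι a / ι b`, i.e. the image of `Frac S`. -/
def ratioSubfield (ι : S →+* T) (hι : Function.Injective ι) : Subfield T :=
  (IsFractionRing.lift (K := FractionRing S) hι).fieldRange

theorem mem_ratioSubfield_iff (ι : S →+* T) (hι : Function.Injective ι) (y : T) :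
    y ∈ ratioSubfield ι hι ↔ ∃ a b : S, b ≠ 0 ∧ ι b * y = ι a := by
  constructor
  · rintro ⟨z, rfl⟩
    obtain ⟨a, b, hb, rfl⟩ := IsFractionRing.div_surjective (A := S) z
    have hb0 : b ≠ 0 := nonZeroDivisors.ne_zero hb
    refine ⟨a, b, hb0, ?_⟩
    have hιb : ι b ≠ 0 := (map_ne_zero_iff ι hι).mpr hb0
    rw [map_div₀, IsFractionRing.lift_algebraMap, IsFractionRing.lift_algebraMap]
    field_simp
  · rintro ⟨a, b, hb, h⟩
    have hιb : ι b ≠ 0 := (map_ne_zero_iff ι hι).mpr hb
    refine ⟨algebraMap S (FractionRing S) a / algebraMap S (FractionRing S) b, ?_⟩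
    rw [map_div₀, IsFractionRing.lift_algebraMap, IsFractionRing.lift_algebraMap, ← h]
    field_simp

theorem map_mem_ratioSubfield (ι : S →+* T) (hι : Function.Injective ι) (a : S) :
    ι a ∈ ratioSubfield ι hι :=
  (mem_ratioSubfield_iff ι hι _).mpr ⟨a, 1, one_ne_zero, by simp⟩

/-- Bounded denominators: if `ι d * y ∈ ι.range` with `d ≠ 0` then `y` is a ratio. -/
theorem mem_ratioSubfield_of_mul_mem (ι : S →+* T) (hι : Function.Injective ι) {y : T} {d : S}
    (hd : d ≠ 0) (h : ι d * y ∈ ι.range) : y ∈ ratioSubfield ι hι := by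
  obtain ⟨a, ha⟩ := h
  exact (mem_ratioSubfield_iff ι hι y).mpr ⟨a, d, hd, ha.symm⟩

/-- **Normality, abstract form.**  If `S` is integrally closed, `ι : S →+* T` is injective, `y : T`
is a ratio of elements of `ι.range` and `y` is integral over `ι`, then `y ∈ ι.range`. -/
theorem mem_range_of_isIntegralElem [IsIntegrallyClosed S] (ι : S →+* T)
    (hι : Function.Injective ι) {y : T} (hy : y ∈ ratioSubfield ι hι)
    (hint : ι.IsIntegralElem y) : y ∈ ι.range := by
  obtain ⟨z, rfl⟩ := hy
  have hg : (IsFractionRing.lift (K := FractionRing S) hι).comp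
      (algebraMap S (FractionRing S)) = ι := by
    ext s
    simp
  obtain ⟨p, hp, hpe⟩ := hint
  have hz : IsIntegral S z := by
    refine ⟨p, hp, (IsFractionRing.lift (K := FractionRing S) hι).injective ?_⟩
    rw [map_zero, Polynomial.hom_eval₂, hg]
    exact hpe
  obtain ⟨s, rfl⟩ := IsIntegrallyClosed.isIntegral_iff.mp hz
  exact ⟨s, (IsFractionRing.lift_algebraMap hι s).symm⟩

/-- Root form: `y` a ratio with `y ^ n ∈ ι.range`, `n ≠ 0` ⟹ `y ∈ ι.range`. -/
theorem mem_range_of_pow_mem [IsIntegrallyClosed S] (ι : S →+* T)
    (hι : Function.Injective ι) {y : T} (hy : y ∈ ratioSubfield ι hι) {n : ℕ} (hn : n ≠ 0)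
    (hpow : y ^ n ∈ ι.range) : y ∈ ι.range := by
  obtain ⟨c, hc⟩ := hpow
  refine mem_range_of_isIntegralElem ι hι hy ⟨X ^ n - C c, monic_X_pow_sub_C c hn, ?_⟩
  simp [hc]

/-- Scaled root form (bounded denominators): `y` a ratio with `ι d * y ^ n ∈ ι.range`, `n ≠ 0`
⟹ `ι d * y ∈ ι.range`. -/
theorem mul_mem_range_of_mul_pow_mem [IsIntegrallyClosed S] (ι : S →+* T)
    (hι : Function.Injective ι) {y : T} (hy : y ∈ ratioSubfield ι hι) {n : ℕ} (hn : n ≠ 0)
    (d : S) (hpow : ι d * y ^ n ∈ ι.range) : ι d * y ∈ ι.range := by
  refine mem_range_of_pow_mem ι hι ((ratioSubfield ι hι).mul_mem (map_mem_ratioSubfield ι hι d) hy)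
    hn ?_
  obtain ⟨c, hc⟩ := hpow
  obtain ⟨m, rfl⟩ := Nat.exists_eq_add_one_of_ne_zero hn
  refine ⟨d ^ m * c, ?_⟩
  rw [map_mul, map_pow, hc]
  ring

/-- Algebra form: if `T` is an `R`-algebra whose structure map lands in `ι.range`, then an
`R`-integral ratio lies in `ι.range`. -/
theorem mem_range_of_isIntegral [IsIntegrallyClosed S] (ι : S →+* T)
    (hι : Function.Injective ι) {R : Type*} [CommRing R] [Algebra R T]
    (hR : ∀ r : R, algebraMap R T r ∈ ι.range) {y : T} (hy : y ∈ ratioSubfield ι hι)
    (hint : IsIntegral R y) : y ∈ ι.range := by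
  classical
  refine mem_range_of_isIntegralElem ι hι hy ?_
  obtain ⟨p, hp, hpe⟩ := hint
  -- lift the coefficients of `p` along `ι`
  have hcoe : ∀ r : R, ∃ s : S, ι s = algebraMap R T r := hR
  choose σ hσ using hcoe
  have hσ1 : σ 1 = 1 := hι (by rw [hσ, map_one, map_one])
  refine ⟨∑ i ∈ Finset.range (p.natDegree + 1), C (σ (p.coeff i)) * X ^ i, ?_, ?_⟩
  · have h1 : (∑ i ∈ Finset.range (p.natDegree + 1), C (σ (p.coeff i)) * X ^ i : S[X])
        = X ^ p.natDegree + ∑ i ∈ Finset.range p.natDegree, C (σ (p.coeff i)) * X ^ i := by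
      rw [Finset.sum_range_succ, add_comm]
      congr 1
      rw [show p.coeff p.natDegree = 1 from hp.coeff_natDegree, hσ1, map_one, one_mul]
    rw [h1]
    refine Polynomial.monic_X_pow_add ?_
    refine (Polynomial.degree_sum_le _ _).trans_lt ?_
    rw [Finset.sup_lt_iff (by exact WithBot.bot_lt_coe _)]
    intro i hi
    refine (Polynomial.degree_C_mul_X_pow_le i _).trans_lt ?_
    exact_mod_cast Finset.mem_range.mp hi
  · rw [Polynomial.eval₂_finsetSum]
    simp only [eval₂_mul, eval₂_C, eval₂_X_pow, hσ]
    rw [← hpe, Polynomial.eval₂_eq_sum_range]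

end Abstract

/-! ### Laurent series form -/

section Laurent

variable {O K : Type*} [CommRing O] [Field K]

theorem coeffMap_injective {f : O →+* K} (hf : Function.Injective f) :
    Function.Injective (coeffMap f) := by
  intro x y h
  ext k
  apply hf
  rw [← coeffMap_coeff, ← coeffMap_coeff, h]

/-- A Laurent series over `K` lies in the image of `coeffMap f` iff all its coefficients lie in
the image of `f`. -/
theorem mem_range_coeffMap_iff (f : O →+* K) (y : LaurentSeries K) :
    y ∈ (coeffMap f).range ↔ ∀ k : ℤ, y.coeff k ∈ f.range := by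
  classical
  constructor
  · rintro ⟨x, rfl⟩ k
    exact ⟨x.coeff k, rfl⟩
  · intro h
    choose c hc using h
    let c' : ℤ → O := fun k => if y.coeff k = 0 then 0 else c k
    have hc' : ∀ k, f (c' k) = y.coeff k := by
      intro k
      by_cases hk : y.coeff k = 0
      · simp [c', hk]
      · simp [c', hk, hc]
    have hsupp : Function.support c' ⊆ y.support := by
      intro k hk
      simp only [Function.mem_support, HahnSeries.mem_support] at hk ⊢
      intro h0
      exact hk (by simp [c', h0])
    refine ⟨⟨c', y.isPWO_support.mono hsupp⟩, ?_⟩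
    ext k
    rw [coeffMap_coeff]
    exact hc' k

theorem coeff_C_mul_eq (a : K) (y : LaurentSeries K) (k : ℤ) :
    (HahnSeries.C a * y).coeff k = a * y.coeff k := by
  rw [HahnSeries.C_mul_eq_smul, HahnSeries.coeff_smul, smul_eq_mul]

theorem coeffMap_C (f : O →+* K) (d : O) :
    coeffMap f (HahnSeries.C d) = HahnSeries.C (f d) := by
  rw [HahnSeries.C_apply, HahnSeries.C_apply, coeffMap_single]

variable [IsDomain O]

/-- The subfield of `K((q))` of ratios of series with coefficients in `f(O)`; it is the image of
`Frac(O((q)))`. -/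
def laurentRatioSubfield (f : O →+* K) (hf : Function.Injective f) :
    Subfield (LaurentSeries K) :=
  ratioSubfield (coeffMap f) (coeffMap_injective hf)

theorem mem_laurentRatioSubfield_iff (f : O →+* K) (hf : Function.Injective f)
    (y : LaurentSeries K) :
    y ∈ laurentRatioSubfield f hf ↔
      ∃ a b : LaurentSeries O, b ≠ 0 ∧ coeffMap f b * y = coeffMap f a :=
  mem_ratioSubfield_iff _ _ y

theorem coeffMap_mem_laurentRatioSubfield (f : O →+* K) (hf : Function.Injective f)
    (a : LaurentSeries O) : coeffMap f a ∈ laurentRatioSubfield f hf :=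
  map_mem_ratioSubfield _ _ a

/-- A series all of whose coefficients lie in `f(O)` is in the ratio subfield. -/
theorem mem_laurentRatioSubfield_of_coeff (f : O →+* K) (hf : Function.Injective f)
    {y : LaurentSeries K} (h : ∀ k : ℤ, y.coeff k ∈ f.range) :
    y ∈ laurentRatioSubfield f hf := by
  obtain ⟨a, rfl⟩ := (mem_range_coeffMap_iff f y).mpr h
  exact coeffMap_mem_laurentRatioSubfield f hf a

/-- Bounded denominators: if `f d * (coefficients of y) ⊆ f(O)` for some `d ≠ 0`, then `y` is in
the ratio subfield. -/
theorem mem_laurentRatioSubfield_of_bounded (f : O →+* K) (hf : Function.Injective f)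
    {y : LaurentSeries K} {d : O} (hd : d ≠ 0) (h : ∀ k : ℤ, f d * y.coeff k ∈ f.range) :
    y ∈ laurentRatioSubfield f hf := by
  refine mem_ratioSubfield_of_mul_mem _ _ (d := HahnSeries.C d) ?_ ?_
  · intro h0
    apply hd
    have := congrArg (fun z : LaurentSeries O => z.coeff 0) h0
    simpa using this
  · rw [coeffMap_C, mem_range_coeffMap_iff]
    intro k
    rw [coeff_C_mul_eq]
    exact h k

/-- Constants of `Frac O` are in the ratio subfield. -/
theorem C_mem_laurentRatioSubfield (f : O →+* K) (hf : Function.Injective f) {c : K} {d : O}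
    (hd : d ≠ 0) (h : f d * c ∈ f.range) : HahnSeries.C c ∈ laurentRatioSubfield f hf := by
  refine mem_laurentRatioSubfield_of_bounded f hf hd ?_
  intro k
  rw [HahnSeries.C_apply]
  by_cases hk : k = 0
  · subst hk
    simpa using h
  · rw [HahnSeries.coeff_single_of_ne hk, mul_zero]
    exact zero_mem _

/-- The monomials `q ^ k` (`single k 1`) are in the ratio subfield. -/
theorem single_one_mem_laurentRatioSubfield (f : O →+* K) (hf : Function.Injective f) (k : ℤ) :
    (HahnSeries.single k (1 : K) : LaurentSeries K) ∈ laurentRatioSubfield f hf := by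
  have : (HahnSeries.single k (1 : K) : LaurentSeries K)
      = coeffMap f (HahnSeries.single k (1 : O)) := by
    rw [coeffMap_single, f.map_one]
  rw [this]
  exact coeffMap_mem_laurentRatioSubfield f hf _

variable [IsPrincipalIdealRing O]

/-- **(N1)** `O` a PID, `f : O →+* K` injective.  If `y ∈ K((q))` is a ratio of series with
coefficients in `f(O)` and `y` is integral over a ring `R` whose image in `K((q))` consists of
series with coefficients in `f(O)`, then all coefficients of `y` lie in `f(O)`. -/
theorem coeff_mem_range_of_isIntegral (f : O →+* K) (hf : Function.Injective f)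
    {R : Type*} [CommRing R] [Algebra R (LaurentSeries K)]
    (hR : ∀ (r : R) (k : ℤ), (algebraMap R (LaurentSeries K) r).coeff k ∈ f.range)
    {y : LaurentSeries K} (hy : y ∈ laurentRatioSubfield f hf) (hint : IsIntegral R y) :
    ∀ k : ℤ, y.coeff k ∈ f.range := by
  have := laurentSeries_isIntegrallyClosed O
  rw [← mem_range_coeffMap_iff]
  exact mem_range_of_isIntegral (coeffMap f) (coeffMap_injective hf)
    (fun r => (mem_range_coeffMap_iff f _).mpr (hR r)) hy hint

/-- **(N2), root form.**  If `y ∈ K((q))` is a ratio of series with coefficients in `f(O)` and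
`y ^ n` (`n ≠ 0`) has coefficients in `f(O)`, then so does `y`. -/
theorem coeff_mem_range_of_pow (f : O →+* K) (hf : Function.Injective f)
    {y : LaurentSeries K} (hy : y ∈ laurentRatioSubfield f hf) {n : ℕ} (hn : n ≠ 0)
    (hpow : ∀ k : ℤ, (y ^ n).coeff k ∈ f.range) : ∀ k : ℤ, y.coeff k ∈ f.range := by
  have := laurentSeries_isIntegrallyClosed O
  rw [← mem_range_coeffMap_iff] at hpow ⊢
  exact mem_range_of_pow_mem (coeffMap f) (coeffMap_injective hf) hy hn hpow

/-- **(N2), bounded-denominator form.**  If `y ∈ K((q))` is a ratio of series with coefficients in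
`f(O)` and `f d • y ^ n` (`n ≠ 0`) has coefficients in `f(O)`, then so does `f d • y`. -/
theorem mul_coeff_mem_range_of_pow (f : O →+* K) (hf : Function.Injective f)
    {y : LaurentSeries K} (hy : y ∈ laurentRatioSubfield f hf) {n : ℕ} (hn : n ≠ 0) (d : O)
    (hpow : ∀ k : ℤ, f d * (y ^ n).coeff k ∈ f.range) : ∀ k : ℤ, f d * y.coeff k ∈ f.range := by
  have := laurentSeries_isIntegrallyClosed O
  have h1 : coeffMap f (HahnSeries.C d) * y ^ n ∈ (coeffMap f).range := by
    rw [coeffMap_C, mem_range_coeffMap_iff]
    intro k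
    rw [coeff_C_mul_eq]
    exact hpow k
  have h2 := mul_mem_range_of_mul_pow_mem (coeffMap f) (coeffMap_injective hf) hy hn
    (HahnSeries.C d) h1
  rw [coeffMap_C, mem_range_coeffMap_iff] at h2
  intro k
  rw [← coeff_C_mul_eq]
  exact h2 k

end Laurent

end Fermat.Agent.Lib.helper1692
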