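/-
Shared Lib brick (S18 track C / S29 block D), second file.  Author: helper1692.
Imports: `Lib/helper1692_LaurentNormal` + Prelude `Def_ModularCurve_X0ModL`.

# Bounded denominators of functions regular off the cusps

`O` a principal ideal domain with fraction field `K`.

* `exists_mul_mem_range_of_isIntegral_adjoin` (abstract) and
  `exists_bounded_of_isIntegral_adjoin` (Laurent form): a ratio of `O`-integral series which is
  integral over the `K`-algebra generated by `O`-integral series (`K[j]`, `K[t, 1/t]`, ...) has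
  bounded denominators: `∃ d ≠ 0, d • y` is `O`-integral.
* `mem_range_of_isIntegral_comp` : the same normality statement through an arbitrary ring
  hom `τ : F →+* T` (a cusp embedding).
* `map_adjoin_mem` : a ring hom out of `IntermediateField.adjoin K s` lands in a subfield as soon
  as the constants and the generators do.
* `laurentRatioField O K : IntermediateField K (LaurentSeries K)` and
  `modularFunctionFieldFullC_le_laurentRatioField` : the frozen function field
  `K(j(q^d) : d ∣ N) ⊆ K((q))` consists of ratios of `O`-integral series; corollaries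
  `exists_bounded_of_mem_full_of_isIntegral`, `mul_coeff_mem_range_of_pow_of_mem_full`.
* `exists_bounded_of_unit_mul_pow`, `exists_bounded_of_mem_full_of_unit_mul_pow` : bounded
  denominators of Kummer-twisted spaces (`u * f ^ p` regular off the cusps, `u` a unit series).
* `exists_linearIndependent_lift` : a `K`-independent family with bounded denominators gives an
  `O`-independent family of `O`-integral series (rank of the lattice).
-/
import Fermat.Agent.Lib.helper1692_LaurentNormal
import Fermat.Prelude.Def_ModularCurve_X0ModL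
import Mathlib.RingTheory.Polynomial.ScaleRoots
import Mathlib.Algebra.Polynomial.Lifts

set_option autoImplicit false

noncomputable section

namespace Fermat.Agent.Lib.helper1692

open Polynomial ModularCurve

/-! ### Abstract clearing of denominators -/

section AbstractBounded

variable {O K S T : Type*} [CommRing O] [IsDomain O] [Field K] [Algebra O K] [IsFractionRing O K]
  [CommRing S] [IsDomain S] [Field T] [Algebra K T]

omit [IsDomain S] in
/-- Common denominators in the `K`-algebra generated by a set of "integral" elements. -/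
theorem exists_mul_mem_range_of_mem_adjoin (ι : S →+* T) (c : O →+* S)
    (hc : ∀ o : O, ι (c o) = algebraMap K T (algebraMap O K o)) {s : Set T}
    (hs : s ⊆ (ι.range : Set T)) {b : T} (hb : b ∈ Algebra.adjoin K s) :
    ∃ d : O, d ≠ 0 ∧ algebraMap K T (algebraMap O K d) * b ∈ ι.range := by
  induction hb using Algebra.adjoin_induction with
  | mem x hx => exact ⟨1, one_ne_zero, by simpa using hs hx⟩
  | algebraMap r =>
    obtain ⟨n, d, hd, rfl⟩ := IsFractionRing.div_surjective (A := O) r
    have hd0 : d ≠ 0 := nonZeroDivisors.ne_zero hd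
    have hdK : algebraMap O K d ≠ 0 :=
      (map_ne_zero_iff _ (IsFractionRing.injective O K)).mpr hd0
    refine ⟨d, hd0, c n, ?_⟩
    rw [hc, ← map_mul, mul_div_cancel₀ _ hdK]
  | add x y _ _ hx hy =>
    obtain ⟨d₁, hd₁, a₁, ha₁⟩ := hx
    obtain ⟨d₂, hd₂, a₂, ha₂⟩ := hy
    refine ⟨d₁ * d₂, mul_ne_zero hd₁ hd₂, c d₂ * a₁ + c d₁ * a₂, ?_⟩
    rw [map_add, map_mul, map_mul, ha₁, ha₂, hc, hc]
    simp only [map_mul]
    ring
  | mul x y _ _ hx hy =>
    obtain ⟨d₁, hd₁, a₁, ha₁⟩ := hx
    obtain ⟨d₂, hd₂, a₂, ha₂⟩ := hy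
    refine ⟨d₁ * d₂, mul_ne_zero hd₁ hd₂, a₁ * a₂, ?_⟩
    rw [map_mul, ha₁, ha₂]
    simp only [map_mul]
    ring

omit [IsFractionRing O K] [IsDomain S] in
/-- Common denominator for finitely many elements. -/
theorem exists_common_mul_mem_range (ι : S →+* T) (c : O →+* S)
    (hc : ∀ o : O, ι (c o) = algebraMap K T (algebraMap O K o)) (t : Finset T)
    (h : ∀ b ∈ t, ∃ d : O, d ≠ 0 ∧ algebraMap K T (algebraMap O K d) * b ∈ ι.range) :
    ∃ d : O, d ≠ 0 ∧ ∀ b ∈ t, algebraMap K T (algebraMap O K d) * b ∈ ι.range := by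
  classical
  induction t using Finset.induction_on with
  | empty => exact ⟨1, one_ne_zero, by simp⟩
  | insert x t _ ih =>
    obtain ⟨d₁, hd₁, h₁⟩ := ih (fun b hb => h b (Finset.mem_insert_of_mem hb))
    obtain ⟨d₂, hd₂, a₂, ha₂⟩ := h x (Finset.mem_insert_self x t)
    refine ⟨d₁ * d₂, mul_ne_zero hd₁ hd₂, ?_⟩
    intro b hb
    rcases Finset.mem_insert.mp hb with rfl | hb
    · refine ⟨c d₁ * a₂, ?_⟩
      rw [map_mul, ha₂, hc]
      simp only [map_mul]
      ring
    · obtain ⟨a₁, ha₁⟩ := h₁ b hb
      refine ⟨c d₂ * a₁, ?_⟩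
      rw [map_mul, ha₁, hc]
      simp only [map_mul]
      ring

/-- **Clearing denominators, abstract form.**  `S` an integrally closed domain with an injective
`ι : S →+* T` into a field which is a `K = Frac O`-algebra, compatibly with `c : O →+* S`.
If `y` is a ratio of elements of `ι.range` and `y` is integral over the `K`-algebra generated by a
subset of `ι.range`, then `d • y ∈ ι.range` for some nonzero `d : O`. -/
theorem exists_mul_mem_range_of_isIntegral_adjoin [IsIntegrallyClosed S] (ι : S →+* T)
    (hι : Function.Injective ι) (c : O →+* S)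
    (hc : ∀ o : O, ι (c o) = algebraMap K T (algebraMap O K o)) {s : Set T}
    (hs : s ⊆ (ι.range : Set T)) {y : T} (hy : y ∈ ratioSubfield ι hι)
    (hint : IsIntegral (Algebra.adjoin K s) y) :
    ∃ d : O, d ≠ 0 ∧ algebraMap K T (algebraMap O K d) * y ∈ ι.range := by
  classical
  obtain ⟨p, hp, hpe⟩ := hint
  -- the polynomial over `T`
  set P : T[X] := p.map (algebraMap (Algebra.adjoin K s) T) with hP
  have hPm : P.Monic := hp.map _
  have hPe : eval y P = 0 := by
    rw [hP, eval_map]
    exact hpe
  have hcoeff : ∀ i : ℕ, P.coeff i ∈ Algebra.adjoin K s := by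
    intro i
    rw [hP, coeff_map]
    exact (p.coeff i).2
  obtain ⟨d, hd, hdP⟩ := exists_common_mul_mem_range ι c hc
    ((Finset.range P.natDegree).image fun i => P.coeff i) (by
      intro b hb
      obtain ⟨i, -, rfl⟩ := Finset.mem_image.mp hb
      exact exists_mul_mem_range_of_mem_adjoin ι c hc hs (hcoeff i))
  set δ : T := algebraMap K T (algebraMap O K d) with hδ
  have hδr : δ ∈ ι.range := ⟨c d, hc d⟩
  refine ⟨d, hd, ?_⟩
  refine mem_range_of_isIntegralElem ι hι
    ((ratioSubfield ι hι).mul_mem
      (by have h := map_mem_ratioSubfield ι hι (c d); rw [hc] at h; exact h) hy) ?_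
  -- the scaled polynomial has coefficients in `ι.range`
  have hlift : scaleRoots P δ ∈ lifts ι := by
    rw [lifts_iff_coeff_lifts]
    intro i
    rw [coeff_scaleRoots]
    change _ ∈ ι.range
    rcases lt_trichotomy i P.natDegree with hi | hi | hi
    · obtain ⟨m, hm⟩ : ∃ m, P.natDegree - i = m + 1 :=
        Nat.exists_eq_add_one_of_ne_zero (by omega)
      have h1 : δ * P.coeff i ∈ ι.range :=
        hdP _ (Finset.mem_image.mpr ⟨i, Finset.mem_range.mpr hi, rfl⟩)
      have h2 : P.coeff i * δ ^ (P.natDegree - i) = (δ * P.coeff i) * δ ^ m := by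
        rw [hm]; ring
      rw [h2]
      exact mul_mem h1 (pow_mem hδr m)
    · rw [hi, show P.coeff P.natDegree = 1 from hPm.coeff_natDegree, one_mul]
      exact pow_mem hδr _
    · rw [coeff_eq_zero_of_natDegree_lt hi, zero_mul]
      exact zero_mem _
  obtain ⟨q, hq, -, hqm⟩ :=
    lifts_and_natDegree_eq_and_monic hlift ((monic_scaleRoots_iff δ).mpr hPm)
  refine ⟨q, hqm, ?_⟩
  rw [← eval_map, hq]
  have := scaleRoots_eval₂_eq_zero (RingHom.id T) (p := P) (r := y) (s := δ)
    (by rw [eval₂_id]; exact hPe)
  simpa [eval₂_id] using this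

end AbstractBounded

section AbstractComp

variable {S T : Type*} [CommRing S] [IsDomain S] [Field T]

/-- Normality through an arbitrary ring hom `τ : F →+* T` (e.g. the expansion at a cusp): if `x`
is integral over `R`, `τ` maps `R` into `ι.range` and `τ x` is a ratio, then `τ x ∈ ι.range`. -/
theorem mem_range_of_isIntegral_comp [IsIntegrallyClosed S] (ι : S →+* T)
    (hι : Function.Injective ι) {F : Type*} [CommRing F] (τ : F →+* T) {R : Type*} [CommRing R]
    [Algebra R F] (hR : ∀ r : R, τ (algebraMap R F r) ∈ ι.range) {x : F}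
    (hx : τ x ∈ ratioSubfield ι hι) (hint : IsIntegral R x) : τ x ∈ ι.range := by
  let _ : Algebra R T := (τ.comp (algebraMap R F)).toAlgebra
  refine mem_range_of_isIntegral ι hι (R := R) (fun r => hR r) hx ?_
  obtain ⟨p, hp, hpe⟩ := hint
  refine ⟨p, hp, ?_⟩
  have h1 : algebraMap R T = τ.comp (algebraMap R F) := RingHom.algebraMap_toAlgebra _
  rw [h1, ← Polynomial.hom_eval₂, hpe, map_zero]

/-- A ring hom out of `IntermediateField.adjoin K s` lands in a subfield `L` as soon as the
constants and the generators do. -/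
theorem map_adjoin_mem {K E : Type*} [Field K] [Field E] [Algebra K E] {s : Set E}
    (τ : IntermediateField.adjoin K s →+* T) (L : Subfield T)
    (hK : ∀ c : K, τ (algebraMap K (IntermediateField.adjoin K s) c) ∈ L)
    (hs : ∀ (x : E) (hx : x ∈ s), τ ⟨x, IntermediateField.subset_adjoin K s hx⟩ ∈ L)
    (x : IntermediateField.adjoin K s) : τ x ∈ L := by
  obtain ⟨x, hx⟩ := x
  induction hx using IntermediateField.adjoin_induction with
  | mem x hx => exact hs x hx
  | algebraMap c => exact hK c
  | add x y hx hy ihx ihy =>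
    have : (⟨x + y, add_mem hx hy⟩ : IntermediateField.adjoin K s) = ⟨x, hx⟩ + ⟨y, hy⟩ := rfl
    rw [this, map_add]
    exact L.add_mem ihx ihy
  | inv x hx ihx =>
    have : (⟨x⁻¹, inv_mem hx⟩ : IntermediateField.adjoin K s) = (⟨x, hx⟩)⁻¹ := rfl
    rw [this, map_inv₀]
    exact L.inv_mem ihx
  | mul x y hx hy ihx ihy =>
    have : (⟨x * y, mul_mem hx hy⟩ : IntermediateField.adjoin K s) = ⟨x, hx⟩ * ⟨y, hy⟩ := rfl
    rw [this, map_mul]
    exact L.mul_mem ihx ihy

end AbstractComp

/-! ### Laurent series form, `K = Frac O` -/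

section LaurentBounded

variable (O K : Type*) [CommRing O] [IsDomain O] [Field K] [Algebra O K] [IsFractionRing O K]

/-- The field of ratios of `O`-integral Laurent series, as an intermediate field of
`K((q)) / K` for `K = Frac O`. -/
def laurentRatioField : IntermediateField K (LaurentSeries K) :=
  (laurentRatioSubfield (algebraMap O K) (IsFractionRing.injective O K)).toIntermediateField
    (fun r => by
      obtain ⟨n, d, hd, rfl⟩ := IsFractionRing.div_surjective (A := O) r
      have hd0 : d ≠ 0 := nonZeroDivisors.ne_zero hd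
      have hdK : algebraMap O K d ≠ 0 :=
        (map_ne_zero_iff _ (IsFractionRing.injective O K)).mpr hd0
      have h1 : algebraMap K (LaurentSeries K) (algebraMap O K n / algebraMap O K d)
          = HahnSeries.C (algebraMap O K n / algebraMap O K d) := by
        rw [algebraMap_laurentSeries_eq_single, HahnSeries.C_apply]
      rw [h1]
      exact C_mem_laurentRatioSubfield _ _ hd0 ⟨n, by rw [mul_div_cancel₀ _ hdK]⟩)

variable {O K}

theorem mem_laurentRatioField_iff {y : LaurentSeries K} :
    y ∈ laurentRatioField O K ↔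
      y ∈ laurentRatioSubfield (algebraMap O K) (IsFractionRing.injective O K) :=
  Iff.rfl

variable (O) in
/-- **Clearing denominators, Laurent form.**  `O` a PID, `K = Frac O`.  If `y ∈ K((q))` is a
ratio of `O`-integral series and is integral over the `K`-algebra generated by a set `s` of
`O`-integral series, then `y` has bounded denominators. -/
theorem exists_bounded_of_isIntegral_adjoin [IsPrincipalIdealRing O]
    {s : Set (LaurentSeries K)}
    (hs : ∀ x ∈ s, ∀ k : ℤ, x.coeff k ∈ (algebraMap O K).range) {y : LaurentSeries K}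
    (hy : y ∈ laurentRatioField O K) (hint : IsIntegral (Algebra.adjoin K s) y) :
    ∃ d : O, d ≠ 0 ∧ ∀ k : ℤ, algebraMap O K d * y.coeff k ∈ (algebraMap O K).range := by
  have := laurentSeries_isIntegrallyClosed O
  have hc : ∀ o : O, coeffMap (algebraMap O K) (HahnSeries.C o)
      = algebraMap K (LaurentSeries K) (algebraMap O K o) := by
    intro o
    rw [coeffMap_C, algebraMap_laurentSeries_eq_single, HahnSeries.C_apply]
  obtain ⟨d, hd, hdy⟩ := exists_mul_mem_range_of_isIntegral_adjoin (O := O) (K := K)
    (coeffMap (algebraMap O K)) (coeffMap_injective (IsFractionRing.injective O K))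
    (HahnSeries.C : O →+* LaurentSeries O) hc (s := s)
    (fun x hx => (mem_range_coeffMap_iff _ x).mpr (hs x hx))
    (mem_laurentRatioField_iff.mp hy) hint
  refine ⟨d, hd, ?_⟩
  rw [← hc, coeffMap_C, mem_range_coeffMap_iff] at hdy
  intro k
  rw [← coeff_C_mul_eq]
  exact hdy k

variable (O) in
/-- **Bounded denominators of a Kummer-twisted space.**  `O` a PID, `K = Frac O`.  Let `u ≠ 0` be
a series whose inverse is `O`-integral (e.g. `u ∈ 1 + q O[[q]]`), `f` a ratio of `O`-integral
series, and suppose that `u * f ^ p` (`p ≠ 0`) is integral over the `K`-algebra generated by a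
set `s` of `O`-integral series.  Then `f` has bounded denominators. -/
theorem exists_bounded_of_unit_mul_pow [IsPrincipalIdealRing O] {s : Set (LaurentSeries K)}
    (hs : ∀ x ∈ s, ∀ k : ℤ, x.coeff k ∈ (algebraMap O K).range) {u f : LaurentSeries K}
    (hu0 : u ≠ 0) (hu : ∀ k : ℤ, (u⁻¹).coeff k ∈ (algebraMap O K).range)
    (hf : f ∈ laurentRatioField O K) {p : ℕ} (hp : p ≠ 0)
    (hint : IsIntegral (Algebra.adjoin K s) (u * f ^ p)) :
    ∃ d : O, d ≠ 0 ∧ ∀ k : ℤ, algebraMap O K d * f.coeff k ∈ (algebraMap O K).range := by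
  have huinv : u⁻¹ ∈ laurentRatioField O K :=
    mem_laurentRatioField_iff.mpr (mem_laurentRatioSubfield_of_coeff _ _ hu)
  have hu' : u ∈ laurentRatioField O K := by
    have := (laurentRatioField O K).inv_mem huinv
    rwa [inv_inv] at this
  obtain ⟨d, hd, hdy⟩ := exists_bounded_of_isIntegral_adjoin O hs
    ((laurentRatioField O K).mul_mem hu' ((laurentRatioField O K).pow_mem hf p)) hint
  refine ⟨d, hd, ?_⟩
  refine mul_coeff_mem_range_of_pow (algebraMap O K) (IsFractionRing.injective O K)
    (mem_laurentRatioField_iff.mp hf) hp d ?_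
  -- `d • f ^ p = u⁻¹ * (d • (u * f ^ p))` is a product of two integral series
  have h1 : HahnSeries.C (algebraMap O K d) * (u * f ^ p) ∈ (coeffMap (algebraMap O K)).range := by
    rw [mem_range_coeffMap_iff]
    intro k
    rw [coeff_C_mul_eq]
    exact hdy k
  have h2 : u⁻¹ ∈ (coeffMap (algebraMap O K)).range := (mem_range_coeffMap_iff _ _).mpr hu
  have h3 : HahnSeries.C (algebraMap O K d) * f ^ p
      = u⁻¹ * (HahnSeries.C (algebraMap O K d) * (u * f ^ p)) := by
    field_simp
  have h4 := mul_mem h2 h1
  rw [← h3, mem_range_coeffMap_iff] at h4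
  intro k
  rw [← coeff_C_mul_eq]
  exact h4 k

variable (O) in
/-- **From a `K`-independent family with bounded denominators to an `O`-independent family of
`O`-integral series** (the shape of a "rank of the lattice" hypothesis). -/
theorem exists_linearIndependent_lift {r : ℕ} (v : Fin r → LaurentSeries K)
    (hv : LinearIndependent K v)
    (hb : ∀ i, ∃ d : O, d ≠ 0 ∧ ∀ k : ℤ, algebraMap O K d * (v i).coeff k ∈ (algebraMap O K).range) :
    ∃ b : Fin r → LaurentSeries O, LinearIndependent O b ∧
      ∀ i, ∃ d : O, d ≠ 0 ∧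
        coeffMap (algebraMap O K) (b i) = HahnSeries.C (algebraMap O K d) * v i := by
  choose d hd hdv using hb
  have hex : ∀ i, ∃ b : LaurentSeries O,
      coeffMap (algebraMap O K) b = HahnSeries.C (algebraMap O K (d i)) * v i := by
    intro i
    have : HahnSeries.C (algebraMap O K (d i)) * v i ∈ (coeffMap (algebraMap O K)).range := by
      rw [mem_range_coeffMap_iff]
      intro k
      rw [coeff_C_mul_eq]
      exact hdv i k
    exact this
  choose b hbv using hex
  refine ⟨b, ?_, fun i => ⟨d i, hd i, hbv i⟩⟩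
  rw [Fintype.linearIndependent_iff]
  intro g hg i
  have h1 : ∑ i, (algebraMap O K (g i) * algebraMap O K (d i)) • v i = 0 := by
    have h2 := congrArg (coeffMap (algebraMap O K)) hg
    rw [map_zero, map_sum] at h2
    rw [← h2]
    refine Finset.sum_congr rfl fun i _ => ?_
    have h3 : g i • b i = HahnSeries.C (g i) * b i := by
      rw [HahnSeries.C_mul_eq_smul]
    rw [h3, map_mul, coeffMap_C, hbv, HahnSeries.C_mul_eq_smul, HahnSeries.C_mul_eq_smul,
      smul_smul]
  have h4 := (Fintype.linearIndependent_iff.mp hv) _ h1 i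
  have h5 : algebraMap O K (g i * d i) = 0 := by rw [map_mul]; exact h4
  have h6 : g i * d i = 0 := (map_eq_zero_iff _ (IsFractionRing.injective O K)).mp h5
  exact (mul_eq_zero.mp h6).resolve_right (hd i)

end LaurentBounded

/-! ### The frozen function field `K(j(q^d) : d ∣ N)` -/

section Prelude

variable {O K : Type*} [CommRing O] [Field K]

/-- The coefficients of `j` lie in the image of any ring hom. -/
theorem jqModC_coeff_mem_range (f : O →+* K) (k : ℤ) : (jqModC K).coeff k ∈ f.range := by
  rw [jqModC_eq_map_intCast, HahnSeries.map_coeff]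
  exact ⟨((jqModC ℤ).coeff k : O), by simp⟩

theorem qExpand_coeff_mem_range (f : O →+* K) (d : ℕ) [NeZero d] {x : LaurentSeries K}
    (hx : ∀ k : ℤ, x.coeff k ∈ f.range) (k : ℤ) : (qExpand K d x).coeff k ∈ f.range := by
  by_cases hk : (d : ℤ) ∣ k
  · obtain ⟨m, rfl⟩ := hk
    rw [qExpand_coeff_mul]
    exact hx m
  · rw [qExpand_coeff_of_not_dvd d x hk]
    exact zero_mem _

variable [IsDomain O] [Algebra O K] [IsFractionRing O K]

variable (O) in
/-- The frozen function field `K(j(q^d) : d ∣ N)` consists of ratios of `O`-integral series. -/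
theorem modularFunctionFieldFullC_le_laurentRatioField (N : ℕ) :
    modularFunctionFieldFullC K N ≤ laurentRatioField O K := by
  rw [modularFunctionFieldFullC, IntermediateField.adjoin_le_iff]
  rintro x ⟨d, hne, -, rfl⟩
  have := hne
  exact mem_laurentRatioField_iff.mpr (mem_laurentRatioSubfield_of_coeff _ _
    (qExpand_coeff_mem_range (algebraMap O K) d (jqModC_coeff_mem_range (algebraMap O K))))

variable (O) in
/-- **(N1) for the frozen function field.**  An element of `K(j(q^d) : d ∣ N)` which is integral
over `K[s]`, `s` a set of `O`-integral series (e.g. `{j}`: a function regular off the cusps),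
has bounded denominators. -/
theorem exists_bounded_of_mem_full_of_isIntegral [IsPrincipalIdealRing O] (N : ℕ)
    {s : Set (LaurentSeries K)}
    (hs : ∀ x ∈ s, ∀ k : ℤ, x.coeff k ∈ (algebraMap O K).range) {y : LaurentSeries K}
    (hy : y ∈ modularFunctionFieldFullC K N) (hint : IsIntegral (Algebra.adjoin K s) y) :
    ∃ d : O, d ≠ 0 ∧ ∀ k : ℤ, algebraMap O K d * y.coeff k ∈ (algebraMap O K).range :=
  exists_bounded_of_isIntegral_adjoin O hs
    (modularFunctionFieldFullC_le_laurentRatioField O N hy) hint

variable (O) in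
/-- The case `s = {j}`. -/
theorem exists_bounded_of_mem_full_of_isIntegral_j [IsPrincipalIdealRing O] (N : ℕ)
    {y : LaurentSeries K} (hy : y ∈ modularFunctionFieldFullC K N)
    (hint : IsIntegral (Algebra.adjoin K {jqModC K}) y) :
    ∃ d : O, d ≠ 0 ∧ ∀ k : ℤ, algebraMap O K d * y.coeff k ∈ (algebraMap O K).range :=
  exists_bounded_of_mem_full_of_isIntegral O N
    (by rintro x rfl k; exact jqModC_coeff_mem_range _ k) hy hint

variable (O) in
/-- **(N2) for the frozen function field.**  `G = h * x` with `h` an `O`-integral series and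
`x ∈ K(j(q^d) : d ∣ N)`: if `d • G ^ n` is `O`-integral (`n ≠ 0`) then `d • G` is `O`-integral. -/
theorem mul_coeff_mem_range_of_pow_of_mem_full [IsPrincipalIdealRing O] (N : ℕ)
    {h x : LaurentSeries K} (hh : ∀ k : ℤ, h.coeff k ∈ (algebraMap O K).range)
    (hx : x ∈ modularFunctionFieldFullC K N) {n : ℕ} (hn : n ≠ 0) (d : O)
    (hpow : ∀ k : ℤ, algebraMap O K d * ((h * x) ^ n).coeff k ∈ (algebraMap O K).range) :
    ∀ k : ℤ, algebraMap O K d * (h * x).coeff k ∈ (algebraMap O K).range :=
  mul_coeff_mem_range_of_pow (algebraMap O K) (IsFractionRing.injective O K)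
    (mem_laurentRatioField_iff.mp ((laurentRatioField O K).mul_mem
      (mem_laurentRatioField_iff.mpr (mem_laurentRatioSubfield_of_coeff _ _ hh))
      (modularFunctionFieldFullC_le_laurentRatioField O N hx))) hn d hpow

variable (O) in
/-- **Bounded denominators of `L(n∞ + D₀)`-type spaces in the frozen function field.**
`f ∈ K(j(q^d) : d ∣ N)`, `u ≠ 0` with `O`-integral inverse, `u * f ^ p` integral over `K[j]`
(regular off the cusps) ⟹ `f` has bounded denominators. -/
theorem exists_bounded_of_mem_full_of_unit_mul_pow [IsPrincipalIdealRing O] (N : ℕ)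
    {u f : LaurentSeries K} (hu0 : u ≠ 0)
    (hu : ∀ k : ℤ, (u⁻¹).coeff k ∈ (algebraMap O K).range)
    (hf : f ∈ modularFunctionFieldFullC K N) {p : ℕ} (hp : p ≠ 0)
    (hint : IsIntegral (Algebra.adjoin K {jqModC K}) (u * f ^ p)) :
    ∃ d : O, d ≠ 0 ∧ ∀ k : ℤ, algebraMap O K d * f.coeff k ∈ (algebraMap O K).range :=
  exists_bounded_of_unit_mul_pow O
    (by rintro x rfl k; exact jqModC_coeff_mem_range _ k) hu0 hu
    (modularFunctionFieldFullC_le_laurentRatioField O N hf) hp hint

end Prelude

end Fermat.Agent.Lib.helper1692
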