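import Mathlib

/-!
# Tame discriminant in residue characteristic zero (helper1724)

`V` a discrete valuation ring with uniformizer `t` whose residue field has characteristic zero,
`S` an integrally closed domain which is a finite free `V`-algebra of rank `n`.  Then the
discriminant of `S` over `V` is `t ^ (n - n₀)` up to a unit, where `n₀` is the dimension of
`S / rad(tS)` over the residue field (the number of geometric points of the fibre).

This is sub-leaf (B) of S37/S18-DISCNORM (board row 1343): it supplies the count hypothesis of the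
"minimal discriminant => normal special fibre" criterion at the horizontal prime.

The proof is elementary (no completion, no different, no factorisation of fractional ideals):

* in characteristic zero the radical of the trace form of a finite-dimensional commutative
  algebra is its nilradical (`isNilpotent_of_trace_mul_eq_zero`);
* hence `Tr (x S) ⊆ tV` iff `x ∈ rad(tS)` (`trace_mem_of_mem_radical`,
  `mem_radical_of_trace_mul_mem`);
* `Tr (x S) ⊆ t²V` implies `x ∈ tS` (`dvd_of_sq_dvd_trace_mul`; this is where integral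
  closedness enters, through `Ideal.sup_mul_inf` in the Dedekind domain `S` and Nakayama);
* so the pairing `rad(tS) × S → V`, `(x, y) ↦ Tr (x y) / t` is perfect, and a Smith basis of
  `rad(tS)` in `S` gives the discriminant.
-/

set_option autoImplicit false
set_option linter.unusedSectionVars false

noncomputable section

namespace Fermat.Agent.Lib.helper1724

open IsLocalRing Module

/-! ### Characteristic zero: the radical of the trace form is the nilradical -/

section Field

variable {k Λ : Type*} [Field k] [CharZero k] [CommRing Λ] [Algebra k Λ] [Module.Finite k Λ]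

/-- In characteristic zero, an element of a finite-dimensional commutative algebra which is
orthogonal to everything for the trace form is nilpotent. -/
theorem isNilpotent_of_trace_mul_eq_zero (x : Λ)
    (h : ∀ y : Λ, Algebra.trace k Λ (x * y) = 0) : IsNilpotent x := by
  have : IsArtinianRing Λ := IsArtinianRing.of_finite k Λ
  obtain ⟨n, u, hu⟩ := IsArtinian.exists_pow_succ_smul_dvd x (1 : Λ)
  -- `x ^ (n+1) * u = x ^ n`
  simp only [smul_eq_mul, mul_one] at hu
  have key : ∀ j : ℕ, x ^ (n + j) * u ^ j = x ^ n := by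
    intro j
    induction j with
    | zero => simp
    | succ j ih =>
      calc x ^ (n + (j + 1)) * u ^ (j + 1) = (x ^ (n + 1) * u) * (x ^ j * u ^ j) := by ring
        _ = x ^ n * (x ^ j * u ^ j) := by rw [hu]
        _ = x ^ (n + j) * u ^ j := by ring
        _ = x ^ n := ih
  -- the idempotent `ε = x ^ (n+1) * u ^ (n+1)`
  have hxm : x ^ (n + 1 + (n + 1)) * u ^ (n + 1) = x ^ (n + 1) := by
    calc x ^ (n + 1 + (n + 1)) * u ^ (n + 1) = x * (x ^ (n + (n + 1)) * u ^ (n + 1)) := by ring
      _ = x * x ^ n := by rw [key (n + 1)]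
      _ = x ^ (n + 1) := by ring
  set ε : Λ := x ^ (n + 1) * u ^ (n + 1) with hε
  have hidem : ε * ε = ε := by
    calc ε * ε = (x ^ (n + 1 + (n + 1)) * u ^ (n + 1)) * u ^ (n + 1) := by rw [hε]; ring
      _ = ε := by rw [hxm]
  have htr : Algebra.trace k Λ ε = 0 := by
    have : ε = x * (x ^ n * u ^ (n + 1)) := by rw [hε]; ring
    rw [this]
    exact h _
  have hidem' : IsIdempotentElem (Algebra.lmul k Λ ε) := by
    show Algebra.lmul k Λ ε * Algebra.lmul k Λ ε = Algebra.lmul k Λ ε
    rw [← map_mul, hidem]
  rw [Algebra.trace_apply] at htr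
  have hzero : Algebra.lmul k Λ ε = 0 :=
    (LinearMap.IsIdempotentElem.trace_eq_zero_iff hidem').mp htr
  have hε0 : ε = 0 := by
    have := congrArg (fun f : Λ →ₗ[k] Λ => f 1) hzero
    simpa using this
  refine ⟨n + 1, ?_⟩
  calc x ^ (n + 1) = x ^ (n + 1 + (n + 1)) * u ^ (n + 1) := hxm.symm
    _ = x ^ (n + 1) * ε := by rw [hε]; ring
    _ = 0 := by rw [hε0, mul_zero]

end Field

/-! ### Trace and the radical of the special fibre over a local base -/

section Local

variable {V S : Type*} [CommRing V] [IsLocalRing V]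
  [CommRing S] [Algebra V S] [Module.Free V S] [Module.Finite V S]

attribute [local instance] Ideal.Quotient.field

local notation "𝔭" => maximalIdeal V
local notation "𝔭S" => Ideal.map (algebraMap V S) (maximalIdeal V)

theorem finite_quotient_map : Module.Finite (V ⧸ 𝔭) (S ⧸ 𝔭S) :=
  Module.Finite.of_basis (basisQuotient (Module.Free.chooseBasis V S))

/-- (F1) The trace of an element which is nilpotent modulo the maximal ideal lies in the maximal
ideal. -/
theorem trace_mem_maximalIdeal_of_mem_radical (x : S) (hx : x ∈ (𝔭S).radical) :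
    Algebra.trace V S x ∈ 𝔭 := by
  obtain ⟨N, hN⟩ := hx
  have : Module.Finite (V ⧸ 𝔭) (S ⧸ 𝔭S) := finite_quotient_map
  have h1 : IsNilpotent (Ideal.Quotient.mk 𝔭S x) :=
    ⟨N, by rw [← map_pow]; exact Ideal.Quotient.eq_zero_iff_mem.mpr hN⟩
  have h2 : IsNilpotent (Algebra.trace (V ⧸ 𝔭) (S ⧸ 𝔭S) (Ideal.Quotient.mk 𝔭S x)) := by
    rw [Algebra.trace_apply]
    exact LinearMap.isNilpotent_trace_of_isNilpotent (h1.map (Algebra.lmul (V ⧸ 𝔭) (S ⧸ 𝔭S)))
  rw [Algebra.trace_quotient_mk] at h2
  exact Ideal.Quotient.eq_zero_iff_mem.mp h2.eq_zero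

/-- (F2) In residue characteristic zero, an element whose trace form takes values in the maximal
ideal is nilpotent modulo the maximal ideal. -/
theorem mem_radical_of_trace_mul_mem [CharZero (ResidueField V)] (x : S)
    (h : ∀ y : S, Algebra.trace V S (x * y) ∈ 𝔭) : x ∈ (𝔭S).radical := by
  have : CharZero (V ⧸ 𝔭) := ‹CharZero (ResidueField V)›
  have : Module.Finite (V ⧸ 𝔭) (S ⧸ 𝔭S) := finite_quotient_map
  have hnil : IsNilpotent (Ideal.Quotient.mk 𝔭S x) := by
    apply isNilpotent_of_trace_mul_eq_zero (k := V ⧸ 𝔭)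
    intro y
    obtain ⟨y, rfl⟩ := Ideal.Quotient.mk_surjective y
    rw [← map_mul, Algebra.trace_quotient_mk]
    exact Ideal.Quotient.eq_zero_iff_mem.mpr (h y)
  obtain ⟨N, hN⟩ := hnil
  exact ⟨N, Ideal.Quotient.eq_zero_iff_mem.mp (by rw [map_pow]; exact hN)⟩

/-- For a finite algebra over a local ring, the radical of the special fibre ideal lies in the
Jacobson radical. -/
theorem radical_map_maximalIdeal_le_jacobson_bot :
    (𝔭S).radical ≤ Ideal.jacobson (⊥ : Ideal S) := by
  refine le_sInf ?_
  rintro M ⟨-, hM⟩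
  have hc : (M.comap (algebraMap V S)).IsMaximal :=
    Ideal.isMaximal_comap_of_isIntegral_of_isMaximal M
  have h1 : M.comap (algebraMap V S) = 𝔭 := IsLocalRing.eq_maximalIdeal hc
  have h2 : 𝔭S ≤ M := by
    rw [Ideal.map_le_iff_le_comap, h1]
  exact (hM.isPrime.radical_le_iff).mpr h2

end Local

/-! ### The Dedekind step: `Tr (x S) ⊆ t² V` forces `t ∣ x` -/

section DVR

variable {V S : Type*} [CommRing V] [IsDomain V] [IsDiscreteValuationRing V]
  [CommRing S] [IsDomain S] [Algebra V S] [Module.Free V S] [Module.Finite V S]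

theorem map_maximalIdeal_eq_span {t : V} (ht : Irreducible t) :
    Ideal.map (algebraMap V S) (maximalIdeal V) = Ideal.span {algebraMap V S t} := by
  rw [ht.maximalIdeal_eq, Ideal.map_span, Set.image_singleton]

theorem isDedekindDomain_of_finite_free (V : Type*) {S : Type*} [CommRing V] [IsDomain V]
    [IsDiscreteValuationRing V] [CommRing S] [IsDomain S] [Algebra V S] [Module.Finite V S]
    [IsIntegrallyClosed S] : IsDedekindDomain S := by
  have h1 : IsNoetherianRing S := IsNoetherianRing.of_finite V S
  have h2 : Ring.DimensionLEOne S := Ring.DimensionLEOne.of_isIntegral V S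
  exact { }

/-- (3') If `Tr (x y)` is divisible by `t ^ 2` for every `y`, then `x` is divisible by `t`. -/
theorem dvd_of_sq_dvd_trace_mul [IsIntegrallyClosed S] [CharZero (ResidueField V)] {t : V}
    (ht : Irreducible t) (x : S) (h : ∀ y : S, t ^ 2 ∣ Algebra.trace V S (x * y)) :
    algebraMap V S t ∣ x := by
  have : IsDedekindDomain S := isDedekindDomain_of_finite_free V
  set τ := algebraMap V S t with hτ
  have hτ0 : τ ≠ 0 := by
    rw [hτ, Ne, map_eq_zero_iff _ (FaithfulSMul.algebraMap_injective V S)]
    exact ht.ne_zero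
  set T : Ideal S := Ideal.span {τ} with hT
  set a : Ideal S := Ideal.span {x} with ha
  set J : Ideal S := T.radical with hJdef
  have hJ : J = (Ideal.map (algebraMap V S) (maximalIdeal V)).radical := by
    rw [map_maximalIdeal_eq_span ht]
  -- Claim 1
  have h1 : a ⊓ T ≤ T * J := by
    intro w hw
    obtain ⟨hwa, hwT⟩ := hw
    obtain ⟨z, rfl⟩ := Ideal.mem_span_singleton'.mp hwa
    obtain ⟨w1, hw1⟩ := Ideal.mem_span_singleton'.mp hwT
    have hw1J : w1 ∈ J := by
      rw [hJ]
      apply mem_radical_of_trace_mul_mem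
      intro y
      have e : t * Algebra.trace V S (w1 * y) = Algebra.trace V S (x * (z * y)) := by
        rw [← smul_eq_mul, ← map_smul]
        congr 1
        rw [Algebra.smul_def, ← hτ]
        calc τ * (w1 * y) = (w1 * τ) * y := by ring
          _ = (z * x) * y := by rw [hw1]
          _ = x * (z * y) := by ring
      obtain ⟨c, hc⟩ := h (z * y)
      rw [← e] at hc
      have : Algebra.trace V S (w1 * y) = t * c :=
        mul_left_cancel₀ ht.ne_zero (by rw [hc]; ring)
      rw [ht.maximalIdeal_eq, Ideal.mem_span_singleton]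
      exact ⟨c, this⟩
    rw [← hw1, mul_comm w1 τ]
    exact Ideal.mul_mem_mul (Ideal.mem_span_singleton_self τ) hw1J
  -- Claim 2
  have h2 : a ≤ J * (a ⊔ T) := by
    have e := Ideal.sup_mul_inf a T
    have h3 : T * a ≤ T * (J * (a ⊔ T)) := by
      calc T * a = (a ⊔ T) * (a ⊓ T) := by rw [e, mul_comm]
        _ ≤ (a ⊔ T) * (T * J) := Ideal.mul_mono_right h1
        _ = T * (J * (a ⊔ T)) := by ring
    have hT0 : T ≠ 0 := by
      rw [hT, Ne, Ideal.zero_eq_bot, Ideal.span_singleton_eq_bot]
      exact hτ0
    rw [← Ideal.dvd_iff_le] at h3 ⊢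
    exact (mul_dvd_mul_iff_left hT0).mp h3
  -- Claim 3 (Nakayama)
  have hJac : J ≤ Ideal.jacobson (⊥ : Ideal S) := by
    rw [hJ]
    exact radical_map_maximalIdeal_le_jacobson_bot
  have h4 : a ≤ J * T := by
    apply Submodule.le_of_le_smul_of_le_jacobson_bot (Submodule.fg_span_singleton x) hJac
    calc a ≤ J * (a ⊔ T) := h2
      _ = J * T ⊔ J • a := by rw [Ideal.mul_sup, sup_comm, smul_eq_mul]
  have h5 : x ∈ T := Ideal.mul_le_right (h4 (Ideal.mem_span_singleton_self x))
  exact Ideal.mem_span_singleton.mp h5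

end DVR

/-! ### The perfect pairing `rad(tS) × S → V`, `(x, y) ↦ Tr (x y) / t` -/

section Main

variable {V S : Type*} [CommRing V] [IsDomain V] [IsDiscreteValuationRing V]
  [CommRing S] [IsDomain S] [Algebra V S] [Module.Finite V S] [IsIntegrallyClosed S]
  [CharZero (ResidueField V)]
variable {ι : Type*} [Fintype ι] [DecidableEq ι]

/-- Core of the count: if `g` is a `V`-basis of `rad(tS)`, `e` a `V`-basis of `S` and
`Tr (g i * e j) = t * H' i j`, then the rows of `H'` are independent modulo `t`. -/
theorem dvd_of_dvd_sum_mul {t : V} (ht : Irreducible t) (b : Basis ι V S) {J : Ideal S}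
    (hJ : J = (Ideal.span {algebraMap V S t}).radical)
    (g : Basis ι V J) (e : Basis ι V S)
    (H' : Matrix ι ι V) (hH : ∀ i j, Algebra.trace V S ((g i : S) * e j) = t * H' i j)
    (l : ι → V) (hl : ∀ j, t ∣ ∑ i, l i * H' i j) : ∀ i, t ∣ l i := by
  have : Module.Free V S := Module.Free.of_basis b
  set w' : J := ∑ i, l i • g i with hw'def
  have hcoe : ((w' : J) : S) = ∑ i, l i • (g i : S) := by
    rw [hw'def]
    simp
  have hw : ∀ j, t ^ 2 ∣ Algebra.trace V S ((w' : S) * e j) := by
    intro j
    obtain ⟨c, hc⟩ := hl j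
    refine ⟨c, ?_⟩
    rw [hcoe, Finset.sum_mul, map_sum]
    simp_rw [smul_mul_assoc, map_smul, hH, smul_eq_mul]
    calc ∑ i, l i * (t * H' i j) = t * ∑ i, l i * H' i j := by
          rw [Finset.mul_sum]
          exact Finset.sum_congr rfl fun i _ => by ring
      _ = t ^ 2 * c := by rw [hc]; ring
  have hw2 : ∀ y : S, t ^ 2 ∣ Algebra.trace V S ((w' : S) * y) := by
    intro y
    rw [← e.sum_repr y, Finset.mul_sum, map_sum]
    refine Finset.dvd_sum fun j _ => ?_
    rw [mul_smul_comm, map_smul, smul_eq_mul]
    exact Dvd.dvd.mul_left (hw j) _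
  obtain ⟨w1, hw1⟩ := dvd_of_sq_dvd_trace_mul ht (w' : S) hw2
  have hw1J : w1 ∈ J := by
    rw [hJ, ← map_maximalIdeal_eq_span ht]
    apply mem_radical_of_trace_mul_mem
    intro y
    obtain ⟨c, hc⟩ := hw2 y
    have e1 : t * Algebra.trace V S (w1 * y) = Algebra.trace V S ((w' : S) * y) := by
      rw [hw1, ← smul_eq_mul, ← map_smul, Algebra.smul_def, mul_assoc]
    have : Algebra.trace V S (w1 * y) = t * c :=
      mul_left_cancel₀ ht.ne_zero (by rw [e1, hc]; ring)
    rw [ht.maximalIdeal_eq, Ideal.mem_span_singleton]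
    exact ⟨c, this⟩
  have heq : w' = t • (⟨w1, hw1J⟩ : J) := by
    apply Subtype.ext
    rw [hw1]
    simp [Algebra.smul_def]
  intro i
  have h1 : g.repr w' i = l i := by
    rw [hw'def, g.repr_sum_self l]
  have h2 : g.repr w' i = t * g.repr ⟨w1, hw1J⟩ i := by
    rw [heq, map_smul]
    simp
  exact ⟨_, h1.symm.trans h2⟩

/-- The radical of `tS`. -/
abbrev radT (S : Type*) [CommRing S] [Algebra V S] (t : V) : Ideal S :=
  (Ideal.span {algebraMap V S t}).radical

omit [IsIntegrallyClosed S] [CharZero (ResidueField V)] [DecidableEq ι] [IsDiscreteValuationRing V]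
  [Module.Finite V S] in
/-- Membership in a nonzero ideal in terms of the Smith coefficients. -/
theorem mem_iff_smithCoeffs_dvd [IsPrincipalIdealRing V] (b : Basis ι V S) (I : Ideal S)
    (hI : I ≠ ⊥) (x : S) :
    x ∈ I ↔ ∀ i, Ideal.smithCoeffs b I hI i ∣ (Ideal.ringBasis b I hI).repr x i := by
  constructor
  · intro hx i
    have h1 := (Ideal.selfBasis b I hI).sum_repr ⟨x, hx⟩
    have h2 : x = ∑ j, ((Ideal.selfBasis b I hI).repr ⟨x, hx⟩ j * Ideal.smithCoeffs b I hI j) •
        Ideal.ringBasis b I hI j := by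
      have h3 : ((∑ j, (Ideal.selfBasis b I hI).repr ⟨x, hx⟩ j • Ideal.selfBasis b I hI j : I) : S)
          = x := congrArg (Subtype.val) h1
      have h3' : ((∑ j, (Ideal.selfBasis b I hI).repr ⟨x, hx⟩ j • Ideal.selfBasis b I hI j : I) : S)
          = ∑ j, (Ideal.selfBasis b I hI).repr ⟨x, hx⟩ j • (Ideal.selfBasis b I hI j : S) := by
        simp only [Submodule.coe_sum, Submodule.coe_smul_of_tower]
      calc x = _ := h3.symm
        _ = _ := h3'
        _ = _ := Finset.sum_congr rfl fun j _ => by rw [Ideal.selfBasis_def, mul_smul]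
    have h4 : (Ideal.ringBasis b I hI).repr x i =
        (Ideal.selfBasis b I hI).repr ⟨x, hx⟩ i * Ideal.smithCoeffs b I hI i := by
      conv_lhs => rw [h2]
      rw [(Ideal.ringBasis b I hI).repr_sum_self]
    rw [h4]
    exact Dvd.intro_left _ rfl
  · intro h
    choose c hc using h
    have h5 : x = ∑ i, c i • (Ideal.selfBasis b I hI i : S) := by
      conv_lhs => rw [← (Ideal.ringBasis b I hI).sum_repr x]
      refine Finset.sum_congr rfl fun i _ => ?_
      rw [Ideal.selfBasis_def, hc i, mul_comm, mul_smul]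
    rw [h5]
    exact Ideal.sum_mem _ fun i _ => Submodule.smul_of_tower_mem _ _ (Subtype.mem _)

/-- The trace pairing between a Smith basis of `rad(tS)` and the corresponding basis of `S` has
determinant `t ^ n` up to a unit. -/
theorem prod_smithCoeffs_mul_discr {t : V} (ht : Irreducible t) (b : Basis ι V S)
    (hJ0 : radT S t ≠ ⊥) :
    ∃ u : Vˣ, (∏ i, Ideal.smithCoeffs b (radT S t) hJ0 i) *
      Algebra.discr V (Ideal.ringBasis b (radT S t) hJ0) = t ^ Fintype.card ι * u := by
  have : Module.Free V S := Module.Free.of_basis b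
  have hdef := Ideal.selfBasis_def b (radT S t) hJ0
  have hF1 : ∀ i j, ∃ c, Algebra.trace V S
      ((Ideal.selfBasis b (radT S t) hJ0 i : S) * Ideal.ringBasis b (radT S t) hJ0 j) = t * c := by
    intro i j
    have hmem : (Ideal.selfBasis b (radT S t) hJ0 i : S) * Ideal.ringBasis b (radT S t) hJ0 j ∈
        (Ideal.map (algebraMap V S) (maximalIdeal V)).radical := by
      rw [map_maximalIdeal_eq_span ht]
      exact Ideal.mul_mem_right _ _ (Ideal.selfBasis b (radT S t) hJ0 i).2
    have h := trace_mem_maximalIdeal_of_mem_radical _ hmem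
    rw [ht.maximalIdeal_eq, Ideal.mem_span_singleton] at h
    exact h
  choose H' hH using hF1
  have hunit : IsUnit (Matrix.of H').det := by
    by_contra hnu
    have h0 : residue V (Matrix.of H').det = 0 := by
      rw [residue_eq_zero_iff]
      exact (mem_maximalIdeal _).mpr hnu
    have h1 : ((residue V).mapMatrix (Matrix.of H')).det = 0 := by
      rw [← RingHom.map_det]
      exact h0
    obtain ⟨v, hv0, hv⟩ := Matrix.exists_vecMul_eq_zero_iff.mpr h1
    choose l hl using fun i => residue_surjective (v i)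
    have key : ∀ i, t ∣ l i :=
      dvd_of_dvd_sum_mul ht b rfl (Ideal.selfBasis b (radT S t) hJ0)
        (Ideal.ringBasis b (radT S t) hJ0) (Matrix.of H') hH l (by
          intro j
          have hj := congrFun hv j
          simp only [Matrix.vecMul, dotProduct, RingHom.mapMatrix_apply, Matrix.map_apply,
            Matrix.of_apply, Pi.zero_apply] at hj
          have h2 : residue V (∑ i, l i * H' i j) = 0 := by
            rw [map_sum]
            simp_rw [map_mul, hl]
            exact hj
          rw [residue_eq_zero_iff, ht.maximalIdeal_eq, Ideal.mem_span_singleton] at h2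
          exact h2)
    apply hv0
    ext i
    obtain ⟨c, hc⟩ := key i
    have h3 : residue V t = 0 := by
      rw [residue_eq_zero_iff, ht.maximalIdeal_eq]
      exact Ideal.mem_span_singleton_self t
    rw [← hl i, hc, map_mul, h3, zero_mul]
    rfl
  have hdet : (∏ i, Ideal.smithCoeffs b (radT S t) hJ0 i) *
      Algebra.discr V (Ideal.ringBasis b (radT S t) hJ0) =
      t ^ Fintype.card ι * (Matrix.of H').det := by
    rw [Algebra.discr_def, ← Matrix.det_mul_column, ← Matrix.det_smul]
    congr 1
    ext i j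
    simp only [Matrix.of_apply, Matrix.smul_apply, smul_eq_mul, Algebra.traceMatrix_apply,
      Algebra.traceForm_apply]
    rw [← hH i j, hdef i, smul_mul_assoc, map_smul, smul_eq_mul]
  exact ⟨hunit.unit, by rw [hdet]; rfl⟩

omit [IsIntegrallyClosed S] [CharZero (ResidueField V)] [DecidableEq ι] [Module.Finite V S] in
theorem radT_ne_bot {t : V} (ht : Irreducible t) (b : Basis ι V S) : radT S t ≠ ⊥ := by
  have : Module.Free V S := Module.Free.of_basis b
  intro h
  have hmem : algebraMap V S t ∈ radT S t := Ideal.le_radical (Ideal.mem_span_singleton_self _)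
  rw [h, Ideal.mem_bot, map_eq_zero_iff _ (FaithfulSMul.algebraMap_injective V S)] at hmem
  exact ht.ne_zero hmem

omit [IsIntegrallyClosed S] [CharZero (ResidueField V)] [DecidableEq ι] [Module.Finite V S] in
/-- Every Smith coefficient of `rad(tS)` divides `t`. -/
theorem smithCoeffs_dvd {t : V} (b : Basis ι V S) (hJ0 : radT S t ≠ ⊥) (i : ι) :
    Ideal.smithCoeffs b (radT S t) hJ0 i ∣ t := by
  have hmem : t • Ideal.ringBasis b (radT S t) hJ0 i ∈ radT S t := by
    rw [Algebra.smul_def]
    exact Ideal.mul_mem_right _ _ (Ideal.le_radical (Ideal.mem_span_singleton_self _))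
  have h := (mem_iff_smithCoeffs_dvd b (radT S t) hJ0 _).mp hmem i
  simpa using h

omit [IsIntegrallyClosed S] [CharZero (ResidueField V)] [DecidableEq ι] [Module.Finite V S] in
/-- Membership in `rad(tS)` in Smith coordinates. -/
theorem mem_radT_iff {t : V} (ht : Irreducible t) (b : Basis ι V S) (hJ0 : radT S t ≠ ⊥) (x : S) :
    x ∈ radT S t ↔ ∀ i, ¬ IsUnit (Ideal.smithCoeffs b (radT S t) hJ0 i) →
      t ∣ (Ideal.ringBasis b (radT S t) hJ0).repr x i := by
  rw [mem_iff_smithCoeffs_dvd b (radT S t) hJ0 x]
  constructor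
  · intro h i hi
    exact ((ht.dvd_iff.mp (smithCoeffs_dvd b hJ0 i)).resolve_left hi).dvd.trans (h i)
  · intro h i
    by_cases hi : IsUnit (Ideal.smithCoeffs b (radT S t) hJ0 i)
    · exact hi.dvd
    · exact ((ht.dvd_iff.mp (smithCoeffs_dvd b hJ0 i)).resolve_left hi).symm.dvd.trans (h i hi)

omit [IsIntegrallyClosed S] [CharZero (ResidueField V)] [DecidableEq ι] [Module.Finite V S] in
theorem prod_smithCoeffs_associated {t : V} (ht : Irreducible t) (b : Basis ι V S)
    (hJ0 : radT S t ≠ ⊥) :
    Associated (∏ i, Ideal.smithCoeffs b (radT S t) hJ0 i)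
      (t ^ Nat.card {i // ¬ IsUnit (Ideal.smithCoeffs b (radT S t) hJ0 i)}) := by
  classical
  have h1 : Associated (∏ i, Ideal.smithCoeffs b (radT S t) hJ0 i)
      (∏ i, if IsUnit (Ideal.smithCoeffs b (radT S t) hJ0 i) then (1 : V) else t) :=
    Associated.prod _ _ _ fun i _ => by
      split_ifs with hu
      · exact associated_one_iff_isUnit.mpr hu
      · exact ((ht.dvd_iff.mp (smithCoeffs_dvd b hJ0 i)).resolve_left hu).symm
  rw [Finset.prod_ite, Finset.prod_const_one, one_mul, Finset.prod_const] at h1
  rw [Nat.card_eq_fintype_card, Fintype.card_subtype]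
  exact h1

/-- The discriminant of the Smith basis. -/
theorem discr_ringBasis_associated {t : V} (ht : Irreducible t) (b : Basis ι V S)
    (hJ0 : radT S t ≠ ⊥) :
    Associated (Algebra.discr V (Ideal.ringBasis b (radT S t) hJ0))
      (t ^ (Fintype.card ι - Nat.card {i // ¬ IsUnit (Ideal.smithCoeffs b (radT S t) hJ0 i)})) := by
  classical
  obtain ⟨u, hu⟩ := prod_smithCoeffs_mul_discr ht b hJ0
  have h1 := prod_smithCoeffs_associated ht b hJ0
  have hle : Nat.card {i // ¬ IsUnit (Ideal.smithCoeffs b (radT S t) hJ0 i)} ≤ Fintype.card ι := by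
    rw [Nat.card_eq_fintype_card]
    exact Fintype.card_subtype_le _
  have h2 : Associated ((∏ i, Ideal.smithCoeffs b (radT S t) hJ0 i) *
      Algebra.discr V (Ideal.ringBasis b (radT S t) hJ0))
      (t ^ Nat.card {i // ¬ IsUnit (Ideal.smithCoeffs b (radT S t) hJ0 i)} *
        t ^ (Fintype.card ι - Nat.card {i // ¬ IsUnit (Ideal.smithCoeffs b (radT S t) hJ0 i)})) := by
    rw [hu, ← pow_add, Nat.add_sub_cancel' hle]
    exact associated_mul_unit_left _ _ u.isUnit
  refine Associated.of_mul_left h2 h1 ?_
  exact Finset.prod_ne_zero_iff.mpr fun i _ => Ideal.smithCoeffs_ne_zero b _ hJ0 i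

omit [IsDomain V] [IsDiscreteValuationRing V] [IsDomain S] [Module.Finite V S]
  [IsIntegrallyClosed S] [CharZero (ResidueField V)] in
/-- Two bases of a finite free algebra have associated discriminants. -/
theorem discr_associated_of_basis (b b' : Basis ι V S) :
    Associated (Algebra.discr V b) (Algebra.discr V b') := by
  have h := Algebra.discr_of_matrix_vecMul (A := V) (b := (b' : ι → S)) (b'.toMatrix b)
  rw [Basis.toMatrix_map_vecMul] at h
  rw [h]
  have hu : IsUnit (b'.toMatrix b).det := by
    rw [← LinearMap.toMatrix_id_eq_basis_toMatrix b b']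
    exact LinearEquiv.isUnit_det (LinearEquiv.refl V S) b b'
  exact associated_unit_mul_left _ _ (hu.pow 2)

/-- **Tame discriminant, Smith form.** -/
theorem discr_associated_smith {t : V} (ht : Irreducible t) (b : Basis ι V S)
    (hJ0 : radT S t ≠ ⊥) :
    Associated (Algebra.discr V b)
      (t ^ (Fintype.card ι - Nat.card {i // ¬ IsUnit (Ideal.smithCoeffs b (radT S t) hJ0 i)})) :=
  (discr_associated_of_basis b _).trans (discr_ringBasis_associated ht b hJ0)

/-! ### Comparison with a family spanning / independent modulo `rad(tS)` -/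

omit [IsIntegrallyClosed S] [CharZero (ResidueField V)] [DecidableEq ι] [Module.Finite V S] in
theorem residue_uniformizer {t : V} (ht : Irreducible t) : residue V t = 0 := by
  rw [residue_eq_zero_iff, ht.maximalIdeal_eq]
  exact Ideal.mem_span_singleton_self t

omit [IsIntegrallyClosed S] [CharZero (ResidueField V)] [DecidableEq ι] [Module.Finite V S] in
/-- A family which is independent modulo `rad(tS)` has at most as many elements as there are
non-unit Smith coefficients. -/
theorem le_card_of_indep {t : V} (ht : Irreducible t) (b : Basis ι V S) (hJ0 : radT S t ≠ ⊥)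
    {n0 : ℕ} (c : Fin n0 → S)
    (hind : ∀ l : Fin n0 → V, ∑ i, l i • c i ∈ radT S t → ∀ i, t ∣ l i) :
    n0 ≤ Nat.card {i // ¬ IsUnit (Ideal.smithCoeffs b (radT S t) hJ0 i)} := by
  classical
  let P : Fin n0 → ({i // ¬ IsUnit (Ideal.smithCoeffs b (radT S t) hJ0 i)} → ResidueField V) :=
    fun i w => residue V ((Ideal.ringBasis b (radT S t) hJ0).repr (c i) w)
  have hli : LinearIndependent (ResidueField V) P := by
    rw [Fintype.linearIndependent_iff]
    intro g hg i
    choose l hl using fun i => residue_surjective (g i)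
    have hmem : ∑ i, l i • c i ∈ radT S t := by
      rw [mem_radT_iff ht b hJ0]
      intro w hw
      have h1 := congrFun hg ⟨w, hw⟩
      have h2 : residue V ((Ideal.ringBasis b (radT S t) hJ0).repr (∑ i, l i • c i) w) = 0 := by
        rw [map_sum]
        simp only [map_smul, Finsupp.coe_finsetSum, Finset.sum_apply, Finsupp.smul_apply,
          smul_eq_mul, map_sum, map_mul, hl]
        simpa [P] using h1
      rw [residue_eq_zero_iff, ht.maximalIdeal_eq, Ideal.mem_span_singleton] at h2
      exact h2
    obtain ⟨d, hd⟩ := hind l hmem i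
    rw [← hl i, hd, map_mul, residue_uniformizer ht, zero_mul]
  have h3 := hli.fintype_card_le_finrank
  simpa using h3

omit [IsIntegrallyClosed S] [CharZero (ResidueField V)] [DecidableEq ι] [Module.Finite V S] in
/-- A family which spans modulo `rad(tS)` has at least as many elements as there are non-unit
Smith coefficients. -/
theorem card_le_of_span {t : V} (ht : Irreducible t) (b : Basis ι V S) (hJ0 : radT S t ≠ ⊥)
    {n0 : ℕ} (c : Fin n0 → S)
    (hspan : ∀ x : S, ∃ l : Fin n0 → V, x - ∑ i, l i • c i ∈ radT S t) :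
    Nat.card {i // ¬ IsUnit (Ideal.smithCoeffs b (radT S t) hJ0 i)} ≤ n0 := by
  classical
  choose Q hQ using fun w : {i // ¬ IsUnit (Ideal.smithCoeffs b (radT S t) hJ0 i)} =>
    hspan (Ideal.ringBasis b (radT S t) hJ0 w)
  let Qb : {i // ¬ IsUnit (Ideal.smithCoeffs b (radT S t) hJ0 i)} → (Fin n0 → ResidueField V) :=
    fun w i => residue V (Q w i)
  have hli : LinearIndependent (ResidueField V) Qb := by
    rw [Fintype.linearIndependent_iff]
    intro g hg w
    choose m hm using fun w => residue_surjective (g w)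
    have hy : ∑ w' : {i // ¬ IsUnit (Ideal.smithCoeffs b (radT S t) hJ0 i)},
        m w' • Ideal.ringBasis b (radT S t) hJ0 w' ∈ radT S t := by
      have hdecomp : ∑ w' : {i // ¬ IsUnit (Ideal.smithCoeffs b (radT S t) hJ0 i)},
          m w' • Ideal.ringBasis b (radT S t) hJ0 w' =
          ∑ w' : {i // ¬ IsUnit (Ideal.smithCoeffs b (radT S t) hJ0 i)},
            m w' • (Ideal.ringBasis b (radT S t) hJ0 w' - ∑ i, Q w' i • c i) +
          ∑ i, (∑ w' : {i // ¬ IsUnit (Ideal.smithCoeffs b (radT S t) hJ0 i)},
            m w' * Q w' i) • c i := by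
        simp only [smul_sub, Finset.sum_sub_distrib, Finset.smul_sum, Finset.sum_smul, mul_smul]
        rw [Finset.sum_comm (γ := Fin n0)]
        abel
      rw [hdecomp]
      refine Ideal.add_mem _ (Ideal.sum_mem _ fun w' _ =>
        Submodule.smul_of_tower_mem _ _ (hQ w')) (Ideal.sum_mem _ fun i _ => ?_)
      have h1 := congrFun hg i
      have h2 : residue V (∑ w' : {i // ¬ IsUnit (Ideal.smithCoeffs b (radT S t) hJ0 i)},
          m w' * Q w' i) = 0 := by
        rw [map_sum]
        simp_rw [map_mul, hm]
        simpa [Qb] using h1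
      rw [residue_eq_zero_iff, ht.maximalIdeal_eq, Ideal.mem_span_singleton] at h2
      obtain ⟨d, hd⟩ := h2
      rw [hd, mul_smul, Algebra.smul_def]
      exact Ideal.mul_mem_right _ _ (Ideal.le_radical (Ideal.mem_span_singleton_self _))
    have h3 := (mem_radT_iff ht b hJ0 _).mp hy w.1 w.2
    have h4 : (Ideal.ringBasis b (radT S t) hJ0).repr
        (∑ w' : {i // ¬ IsUnit (Ideal.smithCoeffs b (radT S t) hJ0 i)},
          m w' • Ideal.ringBasis b (radT S t) hJ0 w') (w : ι) = m w := by
      rw [map_sum]
      simp only [map_smul, Basis.repr_self, Finsupp.coe_finsetSum, Finset.sum_apply,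
        Finsupp.smul_apply, smul_eq_mul]
      rw [Finset.sum_eq_single w]
      · simp
      · intro w' _ hne
        rw [Finsupp.single_eq_of_ne (fun h => hne (Subtype.ext h.symm)), mul_zero]
      · intro h
        exact absurd (Finset.mem_univ w) h
    rw [h4] at h3
    obtain ⟨d, hd⟩ := h3
    rw [← hm w, hd, map_mul, residue_uniformizer ht, zero_mul]
  have h5 := hli.fintype_card_le_finrank
  simpa using h5

/-! ### Main statements -/

/-- **Tame discriminant in residue characteristic zero** (sub-leaf (B) of DISCNORM).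
`V` a DVR with uniformizer `t` and residue field of characteristic zero, `S` an integrally closed
domain, finite free over `V` with basis `b` (rank `n = Fintype.card ι`), `c : Fin n0 → S` a family
which spans `S` modulo `rad(tS)` and is independent modulo `rad(tS)`.
Then `discr(S/V) = unit * t ^ (n - n0)`. -/
theorem discr_associated_pow {t : V} (ht : Irreducible t) (b : Basis ι V S) {n0 : ℕ}
    (c : Fin n0 → S)
    (hspan : ∀ x : S, ∃ l : Fin n0 → V, x - ∑ i, l i • c i ∈ radT S t)
    (hind : ∀ l : Fin n0 → V, ∑ i, l i • c i ∈ radT S t → ∀ i, t ∣ l i) :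
    Associated (Algebra.discr V b) (t ^ (Fintype.card ι - n0)) := by
  have hJ0 := radT_ne_bot ht b
  have h := discr_associated_smith ht b hJ0
  rwa [le_antisymm (card_le_of_span ht b hJ0 c hspan) (le_card_of_indep ht b hJ0 c hind)] at h

/-- Divisibility form, using only independence modulo `rad(tS)`:
`discr(S/V)` divides `t ^ (n - n0)`. -/
theorem exists_discr_mul_eq_pow {t : V} (ht : Irreducible t) (b : Basis ι V S) {n0 : ℕ}
    (c : Fin n0 → S)
    (hind : ∀ l : Fin n0 → V, ∑ i, l i • c i ∈ radT S t → ∀ i, t ∣ l i) :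
    ∃ u : V, Algebra.discr V b * u = t ^ (Fintype.card ι - n0) := by
  have hJ0 := radT_ne_bot ht b
  have h := discr_associated_smith ht b hJ0
  have hle := le_card_of_indep ht b hJ0 c hind
  have hdvd : Algebra.discr V b ∣ t ^ (Fintype.card ι - n0) :=
    h.dvd.trans (pow_dvd_pow t (Nat.sub_le_sub_left hle _))
  obtain ⟨u, hu⟩ := hdvd
  exact ⟨u, hu.symm⟩

end Main

end Fermat.Agent.Lib.helper1724
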