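/-
Copyright: team file, seat helper1724.

DISCNORM (A): normality from the discriminant count.

`V` a discrete valuation ring with uniformizer `t` (ANY residue characteristic), `C` a domain,
finite free over `V` of rank `n`, `c : Fin s → C` a family spanning `C` modulo `rad(tC)`.
If `discr(C/V) ∣ t ^ a` with `a + s ≤ n`, then `C` is integrally closed (hence a Dedekind domain).

Proof: with Smith bases `g i = a i • e i` of `J = rad(tC) ⊆ C`, the Gram matrix
`Tr (g i * e j) = t * H' i j` satisfies `(∏ a i) * discr e = t ^ n * det H'`; the count forces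
`det H'` to be a unit, i.e. the pairing `J × C → V`, `(x, y) ↦ Tr (x y) / t` is perfect.  Hence
`c0 J ⊆ t^N J` implies `t^N ∣ c0`, hence `(J : J) = C` inside `Frac C`, and the
Grauert–Remmert descent on the conductor of `C[x]` (`x` integral over `C`) gives `x ∈ C`.
-/
import Mathlib
import Fermat.Agent.Lib.helper1724_TameDiscr

set_option autoImplicit false
set_option linter.unusedSectionVars false

noncomputable section

namespace Fermat.Agent.Lib.helper1724

open IsLocalRing Module

section DiscNormal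

variable {V C : Type*} [CommRing V] [IsDomain V] [IsDiscreteValuationRing V]
  [CommRing C] [IsDomain C] [Algebra V C] [Module.Finite V C]
variable {ι : Type*} [Fintype ι] [DecidableEq ι]

/-- The Gram matrix of the Smith bases of `rad(tC) ⊆ C` for the trace form, divided by `t`
(any residue characteristic). -/
theorem exists_gram_smith {t : V} (ht : Irreducible t) (b : Basis ι V C)
    (hJ0 : radT C t ≠ ⊥) :
    ∃ H' : Matrix ι ι V,
      (∀ i j, Algebra.trace V C ((Ideal.selfBasis b (radT C t) hJ0 i : C) *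
          Ideal.ringBasis b (radT C t) hJ0 j) = t * H' i j) ∧
      (∏ i, Ideal.smithCoeffs b (radT C t) hJ0 i) *
        Algebra.discr V (Ideal.ringBasis b (radT C t) hJ0) = t ^ Fintype.card ι * H'.det := by
  have : Module.Free V C := Module.Free.of_basis b
  have hdef := Ideal.selfBasis_def b (radT C t) hJ0
  have hF1 : ∀ i j, ∃ c, Algebra.trace V C
      ((Ideal.selfBasis b (radT C t) hJ0 i : C) * Ideal.ringBasis b (radT C t) hJ0 j) = t * c := by
    intro i j
    have hmem : (Ideal.selfBasis b (radT C t) hJ0 i : C) * Ideal.ringBasis b (radT C t) hJ0 j ∈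
        (Ideal.map (algebraMap V C) (maximalIdeal V)).radical := by
      rw [map_maximalIdeal_eq_span ht]
      exact Ideal.mul_mem_right _ _ (Ideal.selfBasis b (radT C t) hJ0 i).2
    have h := trace_mem_maximalIdeal_of_mem_radical _ hmem
    rw [ht.maximalIdeal_eq, Ideal.mem_span_singleton] at h
    exact h
  choose H' hH using hF1
  refine ⟨Matrix.of H', hH, ?_⟩
  rw [Algebra.discr_def, ← Matrix.det_mul_column, ← Matrix.det_smul]
  congr 1
  ext i j
  simp only [Matrix.of_apply, Matrix.smul_apply, smul_eq_mul, Algebra.traceMatrix_apply,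
    Algebra.traceForm_apply]
  rw [← hH i j, hdef i, smul_mul_assoc, map_smul, smul_eq_mul]

/-- The count `a + s ≤ n` forces the Gram matrix to be unimodular. -/
theorem isUnit_det_of_count {t : V} (ht : Irreducible t) (b : Basis ι V C)
    (hJ0 : radT C t ≠ ⊥) {a s : ℕ} (c : Fin s → C)
    (hspan : ∀ x : C, ∃ l : Fin s → V, x - ∑ i, l i • c i ∈ radT C t)
    (hdisc : Algebra.discr V b ∣ t ^ a) (hcount : a + s ≤ Fintype.card ι)
    (H' : Matrix ι ι V)
    (hdet : (∏ i, Ideal.smithCoeffs b (radT C t) hJ0 i) *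
        Algebra.discr V (Ideal.ringBasis b (radT C t) hJ0) = t ^ Fintype.card ι * H'.det) :
    IsUnit H'.det := by
  classical
  have h1 := prod_smithCoeffs_associated ht b hJ0
  have h2 := card_le_of_span ht b hJ0 c hspan
  have h3 : Algebra.discr V (Ideal.ringBasis b (radT C t) hJ0) ∣ t ^ a :=
    (discr_associated_of_basis _ b).dvd.trans hdisc
  obtain ⟨a', ha', h4⟩ := (dvd_prime_pow ht.prime a).mp h3
  have h5 : Associated (t ^ Fintype.card ι * H'.det)
      (t ^ (Nat.card {i // ¬ IsUnit (Ideal.smithCoeffs b (radT C t) hJ0 i)} + a')) := by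
    rw [← hdet, pow_add]
    exact h1.mul_mul h4
  obtain ⟨k, hk⟩ := Nat.exists_eq_add_of_le
    (show Nat.card {i // ¬ IsUnit (Ideal.smithCoeffs b (radT C t) hJ0 i)} + a' ≤ Fintype.card ι
      by omega)
  rw [hk, pow_add, mul_assoc] at h5
  have h6 : Associated (t ^ k * H'.det) 1 :=
    Associated.of_mul_left (by rwa [mul_one]) (Associated.refl _) (pow_ne_zero _ ht.ne_zero)
  exact isUnit_of_mul_isUnit_right (associated_one_iff_isUnit.mp h6)

/-- (★★) Perfectness of the pairing `J × C → V`: if `c0 * J ⊆ t ^ N * J` then `t ^ N ∣ c0`. -/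
theorem dvd_of_mul_radT {t : V} (ht : Irreducible t) (b : Basis ι V C)
    (hJ0 : radT C t ≠ ⊥) (H' : Matrix ι ι V)
    (hH : ∀ i j, Algebra.trace V C ((Ideal.selfBasis b (radT C t) hJ0 i : C) *
        Ideal.ringBasis b (radT C t) hJ0 j) = t * H' i j)
    (hdet : IsUnit H'.det) (N : ℕ) (c0 : C)
    (h : ∀ j ∈ radT C t, ∃ j' ∈ radT C t, c0 * j = algebraMap V C t ^ N * j') :
    algebraMap V C t ^ N ∣ c0 := by
  have : Module.Free V C := Module.Free.of_basis b
  choose j' hj'J hj' using fun k => h (Ideal.selfBasis b (radT C t) hJ0 k : C)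
    (Ideal.selfBasis b (radT C t) hJ0 k).2
  have hF1 : ∀ k, ∃ m, Algebra.trace V C (j' k) = t * m := by
    intro k
    have hmem : j' k ∈ (Ideal.map (algebraMap V C) (maximalIdeal V)).radical := by
      rw [map_maximalIdeal_eq_span ht]
      exact hj'J k
    have h := trace_mem_maximalIdeal_of_mem_radical _ hmem
    rw [ht.maximalIdeal_eq, Ideal.mem_span_singleton] at h
    exact h
  choose m hm using hF1
  set e := Ideal.ringBasis b (radT C t) hJ0 with he
  set γ : ι → V := fun j => e.repr c0 j with hγ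
  have hc0 : c0 = ∑ j, γ j • e j := (e.sum_repr c0).symm
  have hkey : ∀ k, ∑ j, H' k j * γ j = t ^ N * m k := by
    intro k
    have e1 : Algebra.trace V C (c0 * (Ideal.selfBasis b (radT C t) hJ0 k : C)) =
        t * ∑ j, H' k j * γ j := by
      conv_lhs => rw [hc0]
      rw [Finset.sum_mul, map_sum, Finset.mul_sum]
      refine Finset.sum_congr rfl fun j _ => ?_
      rw [smul_mul_assoc, map_smul, smul_eq_mul, mul_comm (e j), hH k j]
      ring
    have e2 : Algebra.trace V C (c0 * (Ideal.selfBasis b (radT C t) hJ0 k : C)) =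
        t * (t ^ N * m k) := by
      rw [hj' k, ← map_pow, ← Algebra.smul_def, map_smul, hm k, smul_eq_mul]
      ring
    exact mul_left_cancel₀ ht.ne_zero (e1.symm.trans e2)
  have hmv : H'.mulVec γ = t ^ N • m := by
    ext k
    simp only [Matrix.mulVec, dotProduct, Pi.smul_apply, smul_eq_mul]
    exact hkey k
  have hγ' : γ = t ^ N • H'⁻¹.mulVec m := by
    have h1 : H'⁻¹.mulVec (H'.mulVec γ) = γ := by
      rw [Matrix.mulVec_mulVec, Matrix.nonsing_inv_mul _ hdet, Matrix.one_mulVec]
    rw [← h1, hmv, Matrix.mulVec_smul]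
  refine ⟨∑ j, (H'⁻¹.mulVec m) j • e j, ?_⟩
  rw [hc0, Finset.mul_sum]
  refine Finset.sum_congr rfl fun j _ => ?_
  rw [hγ', Pi.smul_apply, smul_eq_mul, mul_smul, ← map_pow, ← Algebra.smul_def]

/-- Every nonzero element of `C` divides a power of `t`. -/
theorem exists_pow_eq_mul {t : V} (ht : Irreducible t) (y : C) (hy : y ≠ 0) :
    ∃ (N : ℕ) (y' : C), algebraMap V C t ^ N = y * y' := by
  have halg : IsAlgebraic V y := (Algebra.IsIntegral.isIntegral y).isAlgebraic
  obtain ⟨r, hr0, hr⟩ := halg.exists_nonzero_dvd (mem_nonZeroDivisors_of_ne_zero hy)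
  obtain ⟨N, hN⟩ := IsDiscreteValuationRing.associated_pow_irreducible hr0 ht
  obtain ⟨u, hu⟩ := hN
  obtain ⟨y1, hy1⟩ := hr
  exact ⟨N, y1 * algebraMap V C u, by rw [← map_pow, ← hu, map_mul, hy1, mul_assoc]⟩

/-- `(J : J) = C` inside the fraction field, `J = rad(tC)`. -/
theorem mem_range_of_mul_radT {K : Type*} [Field K] [Algebra C K] [IsFractionRing C K]
    {t : V} (ht : Irreducible t) (b : Basis ι V C)
    (hJ0 : radT C t ≠ ⊥) (H' : Matrix ι ι V)
    (hH : ∀ i j, Algebra.trace V C ((Ideal.selfBasis b (radT C t) hJ0 i : C) *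
        Ideal.ringBasis b (radT C t) hJ0 j) = t * H' i j)
    (hdet : IsUnit H'.det) (u : K)
    (hu : ∀ j ∈ radT C t, ∃ c ∈ radT C t, u * algebraMap C K j = algebraMap C K c) :
    ∃ c : C, algebraMap C K c = u := by
  have : Module.Free V C := Module.Free.of_basis b
  obtain ⟨⟨d, hd⟩, c0, hc0⟩ := IsLocalization.exists_integer_multiple (nonZeroDivisors C) u
  obtain ⟨N, d', hN⟩ := exists_pow_eq_mul ht d (nonZeroDivisors.ne_zero hd)
  have h1 : algebraMap C K (algebraMap V C t ^ N) * u = algebraMap C K (d' * c0) := by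
    rw [hN, map_mul, map_mul, hc0, Algebra.smul_def]
    ring
  have h2 : algebraMap V C t ^ N ∣ d' * c0 := by
    apply dvd_of_mul_radT ht b hJ0 H' hH hdet
    intro j hj
    obtain ⟨cj, hcj, hcj'⟩ := hu j hj
    refine ⟨cj, hcj, ?_⟩
    apply IsFractionRing.injective C K
    rw [map_mul (algebraMap C K) (d' * c0) j, ← h1,
      map_mul (algebraMap C K) (algebraMap V C t ^ N) cj, ← hcj']
    ring
  obtain ⟨c1, hc1⟩ := h2
  refine ⟨c1, ?_⟩
  have hne : algebraMap C K (algebraMap V C t ^ N) ≠ 0 := by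
    rw [Ne, map_eq_zero_iff _ (IsFractionRing.injective C K)]
    exact pow_ne_zero _ (by
      rw [Ne, map_eq_zero_iff _ (FaithfulSMul.algebraMap_injective V C)]
      exact ht.ne_zero)
  apply mul_left_cancel₀ hne
  rw [h1, hc1, map_mul]

/-- Grauert–Remmert descent: if the pairing `J × C → V` is perfect (`det H'` a unit), then `C`
is integrally closed. -/
theorem isIntegrallyClosed_of_gram {t : V} (ht : Irreducible t) (b : Basis ι V C)
    (hJ0 : radT C t ≠ ⊥) (H' : Matrix ι ι V)
    (hH : ∀ i j, Algebra.trace V C ((Ideal.selfBasis b (radT C t) hJ0 i : C) *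
        Ideal.ringBasis b (radT C t) hJ0 j) = t * H' i j)
    (hdet : IsUnit H'.det) : IsIntegrallyClosed C := by
  have hnoeth : IsNoetherianRing C := IsNoetherianRing.of_finite V C
  rw [isIntegrallyClosed_iff (FractionRing C)]
  intro x hx
  have hinj := IsFractionRing.injective C (FractionRing C)
  obtain ⟨F, hF⟩ := hx.fg_adjoin_singleton
  obtain ⟨⟨d, hd⟩, hdF⟩ :=
    IsLocalization.exist_integer_multiples_of_finset (nonZeroDivisors C) F
  obtain ⟨N0, d', hN0⟩ := exists_pow_eq_mul ht d (nonZeroDivisors.ne_zero hd)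
  -- a common denominator for `C[x]`
  have hden : ∀ z ∈ Submodule.span C (F : Set (FractionRing C)), ∃ c : C,
      algebraMap C (FractionRing C) (algebraMap V C t ^ N0) * z =
        algebraMap C (FractionRing C) c := by
    intro z hz
    induction hz using Submodule.span_induction with
    | mem f hf =>
      obtain ⟨c, hc⟩ := hdF f hf
      exact ⟨d' * c, by rw [hN0, map_mul, map_mul, hc, Algebra.smul_def]; ring⟩
    | zero => exact ⟨0, by simp⟩
    | add z1 z2 _ _ h1 h2 =>
      obtain ⟨c1, hc1⟩ := h1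
      obtain ⟨c2, hc2⟩ := h2
      exact ⟨c1 + c2, by rw [mul_add, hc1, hc2, map_add]⟩
    | smul r z _ h =>
      obtain ⟨c, hc⟩ := h
      exact ⟨r * c, by rw [Algebra.smul_def, mul_left_comm, hc, map_mul]⟩
  have hden' : ∀ z ∈ Algebra.adjoin C {x}, ∃ c : C,
      algebraMap C (FractionRing C) (algebraMap V C t ^ N0) * z =
        algebraMap C (FractionRing C) c := by
    intro z hz
    apply hden z
    rw [hF]
    exact hz
  obtain ⟨M, hM⟩ := Ideal.exists_radical_pow_le_of_fg (Ideal.span {algebraMap V C t})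
    (IsNoetherian.noetherian _)
  -- the conductor contains a power of `J`
  have hbase : ∀ w ∈ radT C t ^ (M * N0), ∀ z ∈ Algebra.adjoin C {x}, ∃ c : C,
      algebraMap C (FractionRing C) w * z = algebraMap C (FractionRing C) c := by
    intro w hw z hz
    have h1 : radT C t ^ (M * N0) ≤ Ideal.span {algebraMap V C t ^ N0} := by
      rw [pow_mul, ← Ideal.span_singleton_pow]
      exact Ideal.pow_right_mono hM N0
    obtain ⟨w', hw'⟩ := Ideal.mem_span_singleton'.mp (h1 hw)
    obtain ⟨c, hc⟩ := hden' z hz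
    exact ⟨w' * c, by rw [← hw', map_mul, mul_assoc, hc, map_mul]⟩
  -- descent
  have hstep : ∀ n : ℕ, (∀ w ∈ radT C t ^ (n + 1), ∀ z ∈ Algebra.adjoin C {x}, ∃ c : C,
      algebraMap C (FractionRing C) w * z = algebraMap C (FractionRing C) c) →
      ∀ w ∈ radT C t ^ n, ∀ z ∈ Algebra.adjoin C {x}, ∃ c : C,
      algebraMap C (FractionRing C) w * z = algebraMap C (FractionRing C) c := by
    intro n hn w hw z hz
    obtain ⟨c, hc⟩ := mem_range_of_mul_radT ht b hJ0 H' hH hdet
      (algebraMap C (FractionRing C) w * z) (by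
        intro j hj
        have hwj : w * j ∈ radT C t ^ (n + 1) := by
          rw [pow_succ]
          exact Ideal.mul_mem_mul hw hj
        obtain ⟨c, hc⟩ := hn (w * j) hwj z hz
        refine ⟨c, ?_, by rw [← hc, map_mul]; ring⟩
        refine ⟨M + 1, ?_⟩
        obtain ⟨q, hq⟩ := Ideal.mem_span_singleton'.mp (hM (Ideal.pow_mem_pow hj M))
        have hmem : q * (w ^ (M + 1) * j) ∈ radT C t ^ (n + 1) := by
          refine Ideal.mul_mem_left _ _ ?_
          have h1 : w ^ (M + 1) * j ∈ radT C t ^ (n * (M + 1) + 1) := by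
            rw [pow_succ (radT C t) (n * (M + 1)), pow_mul]
            exact Ideal.mul_mem_mul (Ideal.pow_mem_pow hw _) hj
          exact Ideal.pow_le_pow_right (by nlinarith) h1
        obtain ⟨c', hc'⟩ := hn _ hmem (z ^ (M + 1)) (pow_mem hz _)
        rw [Ideal.mem_span_singleton']
        refine ⟨c', hinj ?_⟩
        rw [map_mul, ← hc', map_pow, ← hc, mul_pow, ← map_pow, mul_pow, pow_succ j M, ← hq]
        simp only [map_mul, map_pow]
        ring)
    exact ⟨c, hc.symm⟩
  have hall : ∀ n : ℕ, (∀ w ∈ radT C t ^ n, ∀ z ∈ Algebra.adjoin C {x}, ∃ c : C,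
      algebraMap C (FractionRing C) w * z = algebraMap C (FractionRing C) c) →
      ∀ w ∈ radT C t ^ 0, ∀ z ∈ Algebra.adjoin C {x}, ∃ c : C,
      algebraMap C (FractionRing C) w * z = algebraMap C (FractionRing C) c := by
    intro n
    induction n with
    | zero => exact fun h => h
    | succ n ih => exact fun h => ih (hstep n h)
  obtain ⟨c, hc⟩ := hall _ hbase 1 (by simp) x (Algebra.self_mem_adjoin_singleton C x)
  exact ⟨c, by rw [← hc, map_one, one_mul]⟩

/-- **DISCNORM (A): normality from the discriminant count** (any residue characteristic).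
`V` a DVR with uniformizer `t`, `C` a domain, finite free over `V` with basis `b` (rank
`n = Fintype.card ι`), `c : Fin s → C` a family spanning `C` modulo `rad(tC)`.  If
`discr(C/V) ∣ t ^ a` and `a + s ≤ n`, then `C` is integrally closed. -/
theorem isIntegrallyClosed_of_discr {t : V} (ht : Irreducible t) (b : Basis ι V C)
    {a s : ℕ} (c : Fin s → C)
    (hspan : ∀ x : C, ∃ l : Fin s → V, x - ∑ i, l i • c i ∈ radT C t)
    (hdisc : Algebra.discr V b ∣ t ^ a) (hcount : a + s ≤ Fintype.card ι) :
    IsIntegrallyClosed C := by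
  have hJ0 := radT_ne_bot ht b
  obtain ⟨H', hH, hdet⟩ := exists_gram_smith ht b hJ0
  exact isIntegrallyClosed_of_gram ht b hJ0 H' hH
    (isUnit_det_of_count ht b hJ0 c hspan hdisc hcount H' hdet)

/-- Dedekind form of `isIntegrallyClosed_of_discr`. -/
theorem isDedekindDomain_of_discr {t : V} (ht : Irreducible t) (b : Basis ι V C)
    {a s : ℕ} (c : Fin s → C)
    (hspan : ∀ x : C, ∃ l : Fin s → V, x - ∑ i, l i • c i ∈ radT C t)
    (hdisc : Algebra.discr V b ∣ t ^ a) (hcount : a + s ≤ Fintype.card ι) :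
    IsDedekindDomain C := by
  have := isIntegrallyClosed_of_discr ht b c hspan hdisc hcount
  exact isDedekindDomain_of_finite_free V

/-- In a Dedekind domain every maximal ideal is locally principal, in elementwise form:
there is `u ∈ P` such that every `x ∈ P` has a multiple `w * x ∈ (u)` with `w ∉ P`. -/
theorem exists_local_generator {D : Type*} [CommRing D] [IsDedekindDomain D]
    (P : Ideal D) [hP : P.IsMaximal] :
    ∃ u ∈ P, ∀ x ∈ P, ∃ w, w ∉ P ∧ w * x ∈ Ideal.span {u} := by
  by_cases hP0 : P = ⊥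
  · refine ⟨0, P.zero_mem, fun x hx => ⟨1, (Ideal.ne_top_iff_one P).mp hP.ne_top, ?_⟩⟩
    rw [hP0, Ideal.mem_bot] at hx
    rw [hx, mul_zero]
    exact Ideal.zero_mem _
  · obtain ⟨u, hu1, hu2⟩ := Ideal.exists_mem_pow_notMem_pow_succ P hP0 hP.ne_top 1
    rw [pow_one] at hu1
    have hle : Ideal.span {u} ≤ P := (Ideal.span_singleton_le_iff_mem P).mpr hu1
    obtain ⟨I, hI⟩ := Ideal.dvd_iff_le.mpr hle
    have hIP : ¬ I ≤ P := by
      intro hIP
      apply hu2
      have h1 : Ideal.span {u} ≤ P ^ (1 + 1) := by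
        rw [hI, pow_succ, pow_one]
        exact Ideal.mul_mono_right hIP
      exact h1 (Ideal.mem_span_singleton_self u)
    obtain ⟨w, hwI, hwP⟩ := SetLike.not_le_iff_exists.mp hIP
    refine ⟨u, hu1, fun x hx => ⟨w, hwP, ?_⟩⟩
    rw [hI, mul_comm P I]
    exact Ideal.mul_mem_mul hwI hx

/-- Element form of `isIntegrallyClosed_of_discr`: every maximal ideal of `C` is locally
principal. -/
theorem exists_local_generator_of_discr {t : V} (ht : Irreducible t) (b : Basis ι V C)
    {a s : ℕ} (c : Fin s → C)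
    (hspan : ∀ x : C, ∃ l : Fin s → V, x - ∑ i, l i • c i ∈ radT C t)
    (hdisc : Algebra.discr V b ∣ t ^ a) (hcount : a + s ≤ Fintype.card ι)
    (P : Ideal C) [P.IsMaximal] :
    ∃ u ∈ P, ∀ x ∈ P, ∃ w, w ∉ P ∧ w * x ∈ Ideal.span {u} := by
  have := isDedekindDomain_of_discr ht b c hspan hdisc hcount
  exact exists_local_generator P

end DiscNormal

end Fermat.Agent.Lib.helper1724
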