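import Mathlib
import Fermat.Agent.S05.helper305_Shape
import Fermat.Agent.S05.helper1745_XOnly

/-!
# Generalised node valuation lemma (helper1728)

`nodeVal_gen`: NODEVAL with NO hypothesis on `v 2` and NO hypothesis on `v p` (usable in
residue characteristic `2` and `p`), and without any kernel-of-reduction input.

For a Weierstrass curve of `Shape W e al be` (`η² = ξ (ξ² + al ξ + be)`, `ξ = x - e`) over a
valued field with `v (4 * al) = 1`, `0 < v be < 1`, and a point `T = (x, y)` of odd prime order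
`p` with `v (x - e) < 1`:

* every nonzero multiple `S` of `T` is a node point: `v be < v (ξ S) < 1`
  (`node_multiples_gen`),
* `v be < v (x - e)` and `v (x - e) ^ p = v be ^ (2 * j)` for some `j : ℤ` (`nodeVal_gen`).

Layers: `comb`/`comb_final` (pure ordered additive group induction), `comb_final₀`
(multiplicative form), `node_abstract_gen` (abstract abelian group `G` with a coordinate
`X : G → K` satisfying the product, sum and duplication formulas), then the instance on Mathlib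
points via `helper1745_XOnly`.
-/

set_option autoImplicit false

namespace Fermat.Agent.Lib.helper1728

section comb

variable {Γ : Type*} [AddCommGroup Γ] [LinearOrder Γ] [IsOrderedAddMonoid Γ]

/-- Pure ordered-group induction behind the node step. -/
theorem comb (p : ℕ) (θ N : Γ) (r : ℕ → Γ)
    (h0 : r 0 = 0) (h1 : r 1 = θ) (hθ : 0 < θ) (hθN : θ < N)
    (hr : ∀ m, 1 ≤ m → m ≤ p - 1 → 0 < r m ∧ r m < N ∧ θ ≤ r m)
    (hstep : ∀ m, 1 ≤ m → m + 1 ≤ p - 1 → ∃ c d : Γ,
      r (m + 1) + r (m - 1) + 2 • d = 2 • c ∧ θ ≤ d ∧ ((r m ≠ θ ∨ m = 1) → d = θ) ∧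
      min (r m + θ) N ≤ c ∧ (r m + θ ≠ N → c = min (r m + θ) N)) :
    ∀ m, (m ≤ p - 1 → (m • θ < N ∧ r m = m • θ) ∨ (N < m • θ ∧ r m + m • θ = 2 • N)) ∧
      (m + 1 ≤ p - 1 →
        ((m + 1) • θ < N ∧ r (m + 1) = (m + 1) • θ) ∨
          (N < (m + 1) • θ ∧ r (m + 1) + (m + 1) • θ = 2 • N)) := by
  intro m
  induction m with
  | zero =>
    refine ⟨fun _ => ?_, fun _ => ?_⟩
    · left
      simp only [zero_nsmul]
      grind
    · left
      simp only [zero_add, one_nsmul]
      grind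
  | succ m ih =>
    refine ⟨ih.2, fun h => ?_⟩
    have hm1 : m + 1 ≤ p - 1 := by omega
    have hm0 : m ≤ p - 1 := by omega
    have H0 := ih.1 hm0
    have H1 := ih.2 hm1
    obtain ⟨c, d, hs, hd, hd', hc, hc'⟩ := hstep (m + 1) (by omega) h
    have hr2 := hr (m + 1 + 1) (by omega) h
    have hr1 := hr (m + 1) (by omega) hm1
    have e1 : (m + 1) • θ = m • θ + θ := succ_nsmul θ m
    have e2 : (m + 1 + 1) • θ = m • θ + θ + θ := by rw [succ_nsmul, succ_nsmul]
    have hpos : 0 ≤ m • θ := nsmul_nonneg hθ.le m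
    have hpos' : m ≠ 0 → 0 < m • θ := fun hm => nsmul_pos hθ hm
    have hzero : m = 0 → m • θ = 0 := fun hm => by rw [hm, zero_nsmul]
    simp only [Nat.add_sub_cancel] at hs
    rw [e2]
    rw [e1] at H1
    generalize m • θ = a at *
    by_cases hm : m = 0
    · have ha := hzero hm
      subst hm
      grind
    · have hpos'' := hpos' hm
      have hm' : ¬ (m + 1 = 1) := by omega
      simp only [hm', or_false] at hd'
      grind

/-- Consequence: `p • θ = 2 • N` and every `r m` is `m • θ` or `2N - m • θ`. -/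
theorem comb_final (p : ℕ) (hp : 3 ≤ p) (θ N : Γ) (r : ℕ → Γ)
    (h0 : r 0 = 0) (h1 : r 1 = θ) (hθ : 0 < θ) (hθN : θ < N)
    (hr : ∀ m, 1 ≤ m → m ≤ p - 1 → 0 < r m ∧ r m < N ∧ θ ≤ r m)
    (hstep : ∀ m, 1 ≤ m → m + 1 ≤ p - 1 → ∃ c d : Γ,
      r (m + 1) + r (m - 1) + 2 • d = 2 • c ∧ θ ≤ d ∧ ((r m ≠ θ ∨ m = 1) → d = θ) ∧
      min (r m + θ) N ≤ c ∧ (r m + θ ≠ N → c = min (r m + θ) N))
    (hsymm : r (p - 1) = θ) :
    p • θ = 2 • N ∧ ∀ m, m ≤ p - 1 → r m = m • θ ∨ r m + m • θ = 2 • N := by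
  have key := comb p θ N r h0 h1 hθ hθN hr hstep
  refine ⟨?_, fun m hm => ?_⟩
  · have hk := (key (p - 1)).1 le_rfl
    have e : p • θ = (p - 1) • θ + θ := by
      conv_lhs => rw [show p = (p - 1) + 1 by omega]
      exact succ_nsmul θ (p - 1)
    have e' : (p - 1) • θ = (p - 2) • θ + θ := by
      conv_lhs => rw [show p - 1 = (p - 2) + 1 by omega]
      exact succ_nsmul θ (p - 2)
    have hpos : 0 < (p - 2) • θ := nsmul_pos hθ (by omega)
    rw [hsymm] at hk
    rcases hk with ⟨_, hk⟩ | ⟨_, hk⟩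
    · grind
    · grind
  · rcases (key m).1 hm with ⟨_, hk⟩ | ⟨_, hk⟩
    · exact Or.inl hk
    · exact Or.inr hk

end comb

section ordv

variable {Γ₀ : Type*} [LinearOrderedCommGroupWithZero Γ₀]

/-- Additive "order" of a nonzero element of the value group with zero (junk value at `0`). -/
noncomputable def ordv (g : Γ₀) : Additive Γ₀ˣ :=
  if h : g = 0 then 0 else Additive.ofMul (Units.mk0 g h)⁻¹

theorem ordv_of_ne {g : Γ₀} (h : g ≠ 0) : ordv g = Additive.ofMul (Units.mk0 g h)⁻¹ := by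
  simp [ordv, h]

theorem ordv_one : ordv (1 : Γ₀) = 0 := by
  rw [ordv_of_ne one_ne_zero]
  simp

theorem ordv_mul {g h : Γ₀} (hg : g ≠ 0) (hh : h ≠ 0) : ordv (g * h) = ordv g + ordv h := by
  rw [ordv_of_ne hg, ordv_of_ne hh, ordv_of_ne (mul_ne_zero hg hh), ← ofMul_mul]
  congr 1
  rw [← mul_inv]
  congr 1
  ext
  simp

theorem ordv_pow {g : Γ₀} (hg : g ≠ 0) (k : ℕ) : ordv (g ^ k) = k • ordv g := by
  induction k with
  | zero => simp [ordv_one]
  | succ k ih => rw [pow_succ, ordv_mul (pow_ne_zero k hg) hg, ih, succ_nsmul]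

theorem ordv_lt {g h : Γ₀} (hg : g ≠ 0) (hh : h ≠ 0) : ordv g < ordv h ↔ h < g := by
  rw [ordv_of_ne hg, ordv_of_ne hh, Additive.ofMul_lt, inv_lt_inv_iff, ← Units.val_lt_val]
  simp

theorem ordv_le {g h : Γ₀} (hg : g ≠ 0) (hh : h ≠ 0) : ordv g ≤ ordv h ↔ h ≤ g := by
  rw [ordv_of_ne hg, ordv_of_ne hh, Additive.ofMul_le, inv_le_inv_iff, ← Units.val_le_val]
  simp

theorem ordv_inj {g h : Γ₀} (hg : g ≠ 0) (hh : h ≠ 0) : ordv g = ordv h ↔ g = h := by
  constructor
  · intro e
    exact le_antisymm ((ordv_le hh hg).1 e.ge) ((ordv_le hg hh).1 e.le)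
  · intro e
    rw [e]

theorem ordv_max {g h : Γ₀} (hg : g ≠ 0) (hh : h ≠ 0) :
    ordv (max g h) = min (ordv g) (ordv h) := by
  rcases le_total g h with hle | hle
  · rw [max_eq_right hle, min_eq_right ((ordv_le hh hg).2 hle)]
  · rw [max_eq_left hle, min_eq_left ((ordv_le hg hh).2 hle)]

end ordv

section comb0

variable {Γ₀ : Type*} [LinearOrderedCommGroupWithZero Γ₀]

theorem max_ne_zero_right {a b : Γ₀} (hb : b ≠ 0) : max a b ≠ 0 :=
  (lt_of_lt_of_le (zero_lt_iff.2 hb) (le_max_right a b)).ne'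

/-- The node induction, in multiplicative form in a value group with zero. -/
theorem comb_final₀ (p : ℕ) (hp : 3 ≤ p) (t n : Γ₀) (R : ℕ → Γ₀) (hn0 : n ≠ 0)
    (h1 : R 1 = t) (ht : t < 1) (htn : n < t)
    (hr : ∀ m, 1 ≤ m → m ≤ p - 1 → R m < 1 ∧ n < R m ∧ R m ≤ t)
    (hstep1 : ∃ C, R 2 * (t * t) = C ^ 2 ∧ C ≤ max (t * t) n ∧ (t * t ≠ n → C = max (t * t) n))
    (hstep : ∀ m, 2 ≤ m → m + 1 ≤ p - 1 → ∃ C D, D ≠ 0 ∧
      R (m + 1) * R (m - 1) * D ^ 2 = C ^ 2 ∧ D ≤ t ∧ (R m ≠ t → D = t) ∧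
      C ≤ max (R m * t) n ∧ (R m * t ≠ n → C = max (R m * t) n))
    (hsymm : R (p - 1) = t) :
    t ^ p = n ^ 2 ∧ ∀ m, 1 ≤ m → m ≤ p - 1 → R m = t ^ m ∨ R m * t ^ m = n ^ 2 := by
  have ht0 : t ≠ 0 := (lt_of_le_of_lt zero_le htn).ne'
  have hR0 : ∀ m, 1 ≤ m → m ≤ p - 1 → R m ≠ 0 := fun m hm hm' =>
    (lt_of_le_of_lt zero_le (hr m hm hm').2.1).ne'
  set r : ℕ → Additive Γ₀ˣ := fun m => if m = 0 then 0 else ordv (R m) with hrdef
  have hr_of : ∀ m, m ≠ 0 → r m = ordv (R m) := fun m hm => by simp [hrdef, hm]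
  have hr_zero : r 0 = 0 := by simp [hrdef]
  have key := comb_final p hp (ordv t) (ordv n) r hr_zero (by rw [hr_of 1 one_ne_zero, h1])
    (by rw [← ordv_one, ordv_lt one_ne_zero ht0]; exact ht)
    (by rw [ordv_lt ht0 hn0]; exact htn)
    (by
      intro m hm hm'
      have hm0 : m ≠ 0 := by omega
      rw [hr_of m hm0]
      obtain ⟨a, b, c⟩ := hr m hm hm'
      refine ⟨?_, ?_, ?_⟩
      · rw [← ordv_one, ordv_lt one_ne_zero (hR0 m hm hm')]; exact a
      · rw [ordv_lt (hR0 m hm hm') hn0]; exact b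
      · rw [ordv_le ht0 (hR0 m hm hm')]; exact c)
    (by
      intro m hm hm'
      rcases Nat.lt_or_ge m 2 with hlt | hge
      · have hm1 : m = 1 := by omega
        subst hm1
        obtain ⟨C, hC, hCle, hCeq⟩ := hstep1
        have hR2 : R 2 ≠ 0 := hR0 2 (by omega) hm'
        have hC0 : C ≠ 0 := by
          intro h0
          rw [h0] at hC
          have : R 2 * (t * t) ≠ 0 := mul_ne_zero hR2 (mul_ne_zero ht0 ht0)
          exact this (by rw [hC]; simp)
        have htt0 : t * t ≠ 0 := mul_ne_zero ht0 ht0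
        have hmax0 : max (t * t) n ≠ 0 := max_ne_zero_right hn0
        refine ⟨ordv C, ordv t, ?_, le_rfl, fun _ => rfl, ?_, ?_⟩
        · have := congrArg ordv hC
          rw [ordv_mul hR2 htt0, ordv_mul ht0 ht0, ordv_pow hC0] at this
          rw [hr_of 2 (by omega), show (1 - 1 : ℕ) = 0 from rfl, hr_zero, add_zero, ← this,
            two_nsmul]
        · rw [hr_of 1 one_ne_zero, h1, ← ordv_mul ht0 ht0, ← ordv_max htt0 hn0,
            ordv_le hmax0 hC0]
          exact hCle
        · rw [hr_of 1 one_ne_zero, h1, ← ordv_mul ht0 ht0, ← ordv_max htt0 hn0,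
            ordv_inj hC0 hmax0]
          intro hne
          exact hCeq (fun h => hne (by rw [h]))
      · obtain ⟨C, D, hD0, hC, hDle, hDeq, hCle, hCeq⟩ := hstep m hge hm'
        have hRm : R m ≠ 0 := hR0 m (by omega) (by omega)
        have hRm1 : R (m + 1) ≠ 0 := hR0 (m + 1) (by omega) hm'
        have hRm' : R (m - 1) ≠ 0 := hR0 (m - 1) (by omega) (by omega)
        have hC0 : C ≠ 0 := by
          intro h0
          rw [h0] at hC
          have : R (m + 1) * R (m - 1) * D ^ 2 ≠ 0 :=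
            mul_ne_zero (mul_ne_zero hRm1 hRm') (pow_ne_zero 2 hD0)
          exact this (by rw [hC]; simp)
        have hRt0 : R m * t ≠ 0 := mul_ne_zero hRm ht0
        have hmax0 : max (R m * t) n ≠ 0 := max_ne_zero_right hn0
        have hm0 : m ≠ 0 := by omega
        refine ⟨ordv C, ordv D, ?_, ?_, ?_, ?_, ?_⟩
        · have := congrArg ordv hC
          rw [ordv_mul (mul_ne_zero hRm1 hRm') (pow_ne_zero 2 hD0), ordv_mul hRm1 hRm',
            ordv_pow hD0, ordv_pow hC0] at this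
          rw [hr_of (m + 1) (by omega), hr_of (m - 1) (by omega)]
          exact this
        · rw [ordv_le ht0 hD0]; exact hDle
        · intro h
          rw [ordv_inj hD0 ht0]
          apply hDeq
          rcases h with h | h
          · rw [hr_of m hm0] at h
            exact fun e => h (by rw [e])
          · omega
        · rw [hr_of m hm0, ← ordv_mul hRm ht0, ← ordv_max hRt0 hn0, ordv_le hmax0 hC0]
          exact hCle
        · rw [hr_of m hm0, ← ordv_mul hRm ht0, ← ordv_max hRt0 hn0, ordv_inj hC0 hmax0]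
          intro hne
          exact hCeq (fun h => hne (by rw [h])))
    (by rw [hr_of (p - 1) (by omega), hsymm])
  obtain ⟨k1, k2⟩ := key
  refine ⟨?_, fun m hm hm' => ?_⟩
  · rw [← ordv_inj (pow_ne_zero p ht0) (pow_ne_zero 2 hn0), ordv_pow ht0, ordv_pow hn0]
    exact k1
  · have hRm : R m ≠ 0 := hR0 m hm hm'
    have hm0 : m ≠ 0 := by omega
    rcases k2 m hm' with h | h
    · left
      rw [← ordv_inj hRm (pow_ne_zero m ht0), ordv_pow ht0, ← hr_of m hm0]
      exact h
    · right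
      rw [← ordv_inj (mul_ne_zero hRm (pow_ne_zero m ht0)) (pow_ne_zero 2 hn0),
        ordv_mul hRm (pow_ne_zero m ht0), ordv_pow ht0, ordv_pow hn0, ← hr_of m hm0]
      exact h

end comb0

section grp

variable {G : Type*} [AddCommGroup G]

theorem nsmul_ne_zero_of_lt {p : ℕ} (hp : p.Prime) {S : G} (hS : S ≠ 0) (hpS : p • S = 0)
    (m : ℕ) (hm : 1 ≤ m) (hm' : m ≤ p - 1) : m • S ≠ 0 := by
  have := Fact.mk hp
  have ho : addOrderOf S = p := addOrderOf_eq_prime hpS hS
  intro h
  have hd : p ∣ m := by rw [← ho]; exact addOrderOf_dvd_iff_nsmul_eq_zero.2 h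
  have := Nat.le_of_dvd (by omega) hd
  have := hp.two_le
  omega

theorem nsmul_eq_zero_of_mem_zmultiples {p : ℕ} {T S : G} (hpT : p • T = 0)
    (hS : S ∈ AddSubgroup.zmultiples T) : p • S = 0 := by
  obtain ⟨z, rfl⟩ := AddSubgroup.mem_zmultiples_iff.1 hS
  rw [smul_comm, hpT, smul_zero]

theorem exists_nsmul_of_mem_zmultiples {p : ℕ} (hp : p.Prime) {T S : G} (hpT : p • T = 0)
    (hS : S ∈ AddSubgroup.zmultiples T) (hS0 : S ≠ 0) :
    ∃ i, 1 ≤ i ∧ i ≤ p - 1 ∧ S = i • T := by
  obtain ⟨z, rfl⟩ := AddSubgroup.mem_zmultiples_iff.1 hS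
  have hp0 : (p : ℤ) ≠ 0 := by exact_mod_cast hp.ne_zero
  have hpos : (0 : ℤ) < p := by exact_mod_cast hp.pos
  have h1 : 0 ≤ z % p := Int.emod_nonneg z hp0
  have h2 : z % p < p := Int.emod_lt_of_pos z hpos
  have key : z • T = (z % p).toNat • T := by
    conv_lhs => rw [← Int.emod_add_mul_ediv z p]
    rw [add_zsmul, mul_zsmul, natCast_zsmul, smul_comm (p : ℕ) (z / (p : ℤ)) T, hpT, smul_zero,
      add_zero]
    conv_lhs => rw [← Int.toNat_of_nonneg h1]
    rw [natCast_zsmul]
  refine ⟨(z % p).toNat, ?_, ?_, key⟩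
  · by_contra hlt
    have : (z % p).toNat = 0 := by omega
    rw [key, this, zero_nsmul] at hS0
    exact hS0 rfl
  · have := hp.two_le
    omega

theorem mem_zmultiples_of_nsmul {p : ℕ} (hp : p.Prime) {T : G} (hpT : p • T = 0)
    (k : ℕ) (hk : 1 ≤ k) (hk' : k ≤ p - 1) : T ∈ AddSubgroup.zmultiples (k • T) := by
  have hcop : Nat.Coprime k p := by
    rw [Nat.coprime_comm, hp.coprime_iff_not_dvd]
    intro hd
    have := Nat.le_of_dvd (by omega) hd
    have := hp.two_le
    omega
  obtain ⟨a, b, hab⟩ := Nat.isCoprime_iff_coprime.2 hcop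
  rw [AddSubgroup.mem_zmultiples_iff]
  refine ⟨a, ?_⟩
  have : T = (a * k + b * p) • T := by rw [hab, one_zsmul]
  conv_rhs => rw [this]
  rw [add_zsmul, mul_zsmul, mul_zsmul, natCast_zsmul, natCast_zsmul, hpT, zsmul_zero, add_zero]

end grp

section node

variable {K : Type*} [Field K] {Γ₀ : Type*} [LinearOrderedCommGroupWithZero Γ₀]
  (v : Valuation K Γ₀) {G : Type*} [AddCommGroup G]

theorem map_sub_of_ne (x y : K) (h : v x ≠ v y) : v (x - y) = max (v x) (v y) := by
  rw [sub_eq_add_neg, v.map_add_of_distinct_val (by rwa [v.map_neg]), v.map_neg]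

theorem map_two_le_one : v (2 : K) ≤ 1 := by
  have : (2 : K) = 1 + 1 := by norm_num
  rw [this]
  exact v.map_add_le (by rw [map_one]) (by rw [map_one])

theorem map_four_le_one : v (4 : K) ≤ 1 := by
  have : (4 : K) = 2 * 2 := by norm_num
  rw [this, map_mul]
  exact mul_le_one' (map_two_le_one v) (map_two_le_one v)

/-- **Node step, abstract x-only form, general residue characteristic.** -/
theorem node_abstract_gen (X : G → K) (al be : K)
    (hal : v (4 * al) = 1) (hbe : v be < 1) (hbe0 : be ≠ 0)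
    (hneg : ∀ P, X (-P) = X P)
    (hPi : ∀ P Q, P ≠ 0 → Q ≠ 0 → P + Q ≠ 0 → P - Q ≠ 0 →
      X P ≠ X Q ∧ X (P + Q) * X (P - Q) * (X P - X Q) ^ 2 = (X P * X Q - be) ^ 2 ∧
        (X (P + Q) + X (P - Q)) * (X P - X Q) ^ 2 =
          2 * (X P + X Q) * (X P * X Q + be) + 4 * al * X P * X Q)
    (hDbl : ∀ P, P ≠ 0 → P + P ≠ 0 →
      X (P + P) * (4 * (X P * (X P ^ 2 + al * X P + be))) = (X P ^ 2 - be) ^ 2)
    (p : ℕ) (hp : p.Prime) (hp2 : p ≠ 2)
    (T : G) (hT0 : T ≠ 0) (hpT : p • T = 0) (hT : v (X T) < 1) :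
    (∀ S ∈ AddSubgroup.zmultiples T, S ≠ 0 → v be < v (X S) ∧ v (X S) < 1) ∧
      ∃ j : ℤ, v (X T) ^ p = v be ^ (2 * j) := by
  have hp3 : 3 ≤ p := by have := hp.two_le; omega
  have hv2 := map_two_le_one v
  have hv4 := map_four_le_one v
  have hn0 : v be ≠ 0 := v.ne_zero_iff.2 hbe0
  -- duplication formula with the factor `4` distributed
  have hDbl' : ∀ P, P ≠ 0 → P + P ≠ 0 →
      v (X (P + P)) * (v (X P) * v (4 * X P ^ 2 + 4 * al * X P + 4 * be)) =
        v (X P ^ 2 - be) ^ 2 := by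
    intro P hP hPP
    have h := hDbl P hP hPP
    have h' : X (P + P) * (X P * (4 * X P ^ 2 + 4 * al * X P + 4 * be)) = (X P ^ 2 - be) ^ 2 := by
      rw [← h]; ring
    have := congrArg v h'
    simpa only [map_mul, map_pow] using this
  -- (V1) points with `1 ≤ v X` propagate
  have hE0 : ∀ S, S ≠ 0 → p • S = 0 → 1 ≤ v (X S) →
      ∀ k, (1 ≤ k → k ≤ p - 1 → 1 ≤ v (X (k • S))) ∧
        (1 ≤ k + 1 → k + 1 ≤ p - 1 → 1 ≤ v (X ((k + 1) • S))) := by
    intro S hS0 hpS hS k
    induction k with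
    | zero =>
      refine ⟨fun h => absurd h (by omega), fun _ _ => by rw [zero_add, one_nsmul]; exact hS⟩
    | succ k ih =>
      refine ⟨ih.2, fun _ hk => ?_⟩
      have hk2S : (k + 1 + 1) • S ≠ 0 := nsmul_ne_zero_of_lt hp hS0 hpS _ (by omega) hk
      have ha0 : (0 : Γ₀) < v (X S) := lt_of_lt_of_le zero_lt_one hS
      rcases Nat.eq_zero_or_pos k with hk0 | hkpos
      · subst hk0
        have e : (0 + 1 + 1) • S = S + S := by rw [zero_add, one_add_one_eq_two, two_nsmul]
        rw [e] at hk2S ⊢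
        have hd := hDbl' S hS0 hk2S
        by_contra hnot
        have hlt : v (X (S + S)) < 1 := not_le.1 hnot
        have hsq1 : 1 ≤ v (X S) ^ 2 := one_le_pow₀ hS
        have h1 : v (X S ^ 2 - be) = v (X S) ^ 2 := by
          rw [v.map_sub_eq_of_lt_left (by rw [map_pow]; exact lt_of_lt_of_le hbe hsq1), map_pow]
        have hle_sq : v (X S) ≤ v (X S) ^ 2 := by
          rw [sq]; exact le_mul_of_one_le_right zero_le hS
        have h2 : v (4 * X S ^ 2 + 4 * al * X S + 4 * be) ≤ v (X S) ^ 2 := by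
          apply v.map_add_le (v.map_add_le _ _) _
          · rw [map_mul, map_pow]
            exact mul_le_of_le_one_left' hv4
          · rw [map_mul, hal, one_mul]; exact hle_sq
          · rw [map_mul]
            exact le_trans (mul_le_of_le_one_left' hv4) (le_trans hbe.le hsq1)
        rw [h1] at hd
        have hpos : (0 : Γ₀) < v (X S) * v (X S) ^ 2 :=
          mul_pos ha0 (pow_pos ha0 2)
        have : v (X (S + S)) * (v (X S) * v (4 * X S ^ 2 + 4 * al * X S + 4 * be)) <
            (v (X S) ^ 2) ^ 2 := by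
          calc v (X (S + S)) * (v (X S) * v (4 * X S ^ 2 + 4 * al * X S + 4 * be))
              ≤ v (X (S + S)) * (v (X S) * v (X S) ^ 2) :=
                mul_le_mul' le_rfl (mul_le_mul' le_rfl h2)
            _ < 1 * (v (X S) * v (X S) ^ 2) := mul_lt_mul_of_pos_right hlt hpos
            _ = v (X S) * v (X S) ^ 2 := one_mul _
            _ ≤ v (X S) ^ 2 * v (X S) ^ 2 := mul_le_mul' hle_sq le_rfl
            _ = (v (X S) ^ 2) ^ 2 := (sq _).symm
        exact this.ne hd
      · have hP0 : (k + 1) • S ≠ 0 := nsmul_ne_zero_of_lt hp hS0 hpS _ (by omega) (by omega)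
        have hk0S : k • S ≠ 0 := nsmul_ne_zero_of_lt hp hS0 hpS _ (by omega) (by omega)
        have e1 : (k + 1) • S + S = (k + 1 + 1) • S := (succ_nsmul S (k + 1)).symm
        have e2 : (k + 1) • S - S = k • S := by rw [succ_nsmul, add_sub_cancel_right]
        obtain ⟨-, hpi, hsum⟩ := hPi ((k + 1) • S) S hP0 hS0 (by rw [e1]; exact hk2S)
          (by rw [e2]; exact hk0S)
        rw [e1, e2] at hpi hsum
        have hvP : 1 ≤ v (X ((k + 1) • S)) := ih.2 (by omega) (by omega)
        have hvk : 1 ≤ v (X (k • S)) := ih.1 (by omega) (by omega)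
        by_contra hnot
        have hlt : v (X ((k + 1 + 1) • S)) < 1 := not_le.1 hnot
        set a := v (X ((k + 1) • S)) with ha
        set b := v (X S) with hb
        set c := v (X (k • S)) with hc
        set D := v (X ((k + 1) • S) - X S) with hD
        have hab1 : 1 ≤ a * b := one_le_mul_of_one_le_of_one_le hvP hS
        have hab0 : (0 : Γ₀) < a * b := lt_of_lt_of_le zero_lt_one hab1
        have hpi' := congrArg v hpi
        simp only [map_mul, map_pow] at hpi'
        have h1 : v (X ((k + 1) • S) * X S - be) = a * b := by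
          rw [v.map_sub_eq_of_lt_left (by rw [map_mul]; exact lt_of_lt_of_le hbe hab1), map_mul]
        rw [h1] at hpi'
        have hsum' := congrArg v hsum
        rw [map_mul, map_pow, v.map_add_eq_of_lt_right (lt_of_lt_of_le hlt hvk)] at hsum'
        have hM : v (2 * (X ((k + 1) • S) + X S) * (X ((k + 1) • S) * X S + be) +
            4 * al * X ((k + 1) • S) * X S) ≤ (a * b) * (a * b) := by
          apply v.map_add_le
          · rw [map_mul, map_mul]
            have h3 : v (X ((k + 1) • S) + X S) ≤ a * b :=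
              v.map_add_le (le_mul_of_one_le_right zero_le hS) (le_mul_of_one_le_left zero_le hvP)
            have h4 : v (X ((k + 1) • S) * X S + be) ≤ a * b :=
              v.map_add_le (by rw [map_mul]) (le_trans hbe.le hab1)
            calc v 2 * v (X ((k + 1) • S) + X S) * v (X ((k + 1) • S) * X S + be)
                ≤ 1 * (a * b) * (a * b) := mul_le_mul' (mul_le_mul' hv2 h3) h4
              _ = (a * b) * (a * b) := by rw [one_mul]
          · rw [map_mul, map_mul, hal, one_mul]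
            exact le_mul_of_one_le_left zero_le hab1
        rw [← hsum'] at hM
        have : v (X ((k + 1 + 1) • S)) * c * D ^ 2 < (a * b) ^ 2 := by
          calc v (X ((k + 1 + 1) • S)) * c * D ^ 2
              = v (X ((k + 1 + 1) • S)) * (c * D ^ 2) := mul_assoc _ _ _
            _ ≤ v (X ((k + 1 + 1) • S)) * ((a * b) * (a * b)) := mul_le_mul' le_rfl hM
            _ < 1 * ((a * b) * (a * b)) := mul_lt_mul_of_pos_right hlt (mul_pos hab0 hab0)
            _ = (a * b) ^ 2 := by rw [one_mul, sq]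
        exact this.ne hpi'
  set H := AddSubgroup.zmultiples T with hH
  have hTH : T ∈ H := AddSubgroup.mem_zmultiples T
  have hpH : ∀ S ∈ H, p • S = 0 := fun S hS => nsmul_eq_zero_of_mem_zmultiples hpT hS
  -- all nonzero elements of `H` have `v X < 1`
  have hlt1 : ∀ S ∈ H, S ≠ 0 → v (X S) < 1 := by
    intro S hS hS0
    by_contra hnot
    have hS1 : 1 ≤ v (X S) := not_lt.1 hnot
    obtain ⟨k, hk, hk', rfl⟩ := exists_nsmul_of_mem_zmultiples hp hpT hS hS0
    have hTmem : T ∈ AddSubgroup.zmultiples (k • T) := mem_zmultiples_of_nsmul hp hpT k hk hk'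
    obtain ⟨j, hj, hj', hTj⟩ := exists_nsmul_of_mem_zmultiples hp (hpH _ hS) hTmem hT0
    have := (hE0 (k • T) hS0 (hpH _ hS) hS1 j).1 hj hj'
    rw [← hTj] at this
    exact (not_le.2 hT) this
  have hdblH : ∀ S ∈ H, S ≠ 0 → S + S ∈ H ∧ S + S ≠ 0 := by
    intro S hS hS0
    refine ⟨H.add_mem hS hS, ?_⟩
    have := nsmul_ne_zero_of_lt hp hS0 (hpH S hS) 2 (by omega) (by omega)
    rwa [two_nsmul] at this
  -- (V2) no nonzero element of `H` has `v X ≤ v be`
  have hA : ∀ S ∈ H, S ≠ 0 → v be < v (X S) := by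
    intro S hS hS0
    by_contra hnot
    have hle : v (X S) ≤ v be := not_lt.1 hnot
    obtain ⟨h2H, h20⟩ := hdblH S hS hS0
    have h2lt := hlt1 _ h2H h20
    have hd := hDbl' S hS0 h20
    have hsq : v (X S) ^ 2 < v be := by
      calc v (X S) ^ 2 ≤ v be ^ 2 := pow_le_pow_left₀ zero_le hle 2
        _ = v be * v be := sq _
        _ < v be := mul_lt_of_lt_one_right (zero_lt_iff.2 hn0) hbe
    have h1 : v (X S ^ 2 - be) = v be := by
      rw [v.map_sub_eq_of_lt_right (by rw [map_pow]; exact hsq)]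
    have h2 : v (4 * X S ^ 2 + 4 * al * X S + 4 * be) ≤ v be := by
      apply v.map_add_le (v.map_add_le _ _) _
      · rw [map_mul, map_pow]
        exact le_trans (mul_le_of_le_one_left' hv4) hsq.le
      · rw [map_mul, hal, one_mul]; exact hle
      · rw [map_mul]
        exact mul_le_of_le_one_left' hv4
    rw [h1] at hd
    have : v (X (S + S)) * (v (X S) * v (4 * X S ^ 2 + 4 * al * X S + 4 * be)) < v be ^ 2 := by
      calc v (X (S + S)) * (v (X S) * v (4 * X S ^ 2 + 4 * al * X S + 4 * be))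
          ≤ v (X (S + S)) * (v be * v be) := mul_le_mul' le_rfl (mul_le_mul' hle h2)
        _ < 1 * (v be * v be) :=
            mul_lt_mul_of_pos_right h2lt (zero_lt_iff.2 (mul_ne_zero hn0 hn0))
        _ = v be ^ 2 := by rw [one_mul, sq]
    exact this.ne hd
  refine ⟨fun S hS hS0 => ⟨hA S hS hS0, hlt1 S hS hS0⟩, ?_⟩
  -- a generator with maximal `v X`
  obtain ⟨k₀, hk₀mem, hk₀max⟩ := Finset.exists_max_image (Finset.Icc 1 (p - 1))
    (fun k => v (X (k • T))) ⟨1, Finset.mem_Icc.2 ⟨le_rfl, by omega⟩⟩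
  rw [Finset.mem_Icc] at hk₀mem
  set T' := k₀ • T with hT'
  have hT'H : T' ∈ H := H.nsmul_mem hTH k₀
  have hT'0 : T' ≠ 0 := nsmul_ne_zero_of_lt hp hT0 hpT k₀ hk₀mem.1 hk₀mem.2
  have hpT' : p • T' = 0 := hpH T' hT'H
  have hmax : ∀ S ∈ H, S ≠ 0 → v (X S) ≤ v (X T') := by
    intro S hS hS0
    obtain ⟨i, hi, hi', rfl⟩ := exists_nsmul_of_mem_zmultiples hp hpT hS hS0
    exact hk₀max i (Finset.mem_Icc.2 ⟨hi, hi'⟩)
  have hmH : ∀ m, m • T' ∈ H := fun m => H.nsmul_mem hT'H m
  have hm0 : ∀ m, 1 ≤ m → m ≤ p - 1 → m • T' ≠ 0 := fun m hm hm' =>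
    nsmul_ne_zero_of_lt hp hT'0 hpT' m hm hm'
  have ht1 : v (X T') < 1 := hlt1 T' hT'H hT'0
  have hnt : v be < v (X T') := hA T' hT'H hT'0
  have ht0 : v (X T') ≠ 0 := (lt_of_le_of_lt zero_le hnt).ne'
  have key := comb_final₀ p hp3 (v (X T')) (v be) (fun m => v (X (m • T'))) hn0
    (by simp only [one_nsmul]) ht1 hnt
    (fun m hm hm' => ⟨hlt1 _ (hmH m) (hm0 m hm hm'), hA _ (hmH m) (hm0 m hm hm'),
      hmax _ (hmH m) (hm0 m hm hm')⟩)
    (by
      have h20 : T' + T' ≠ 0 := (hdblH T' hT'H hT'0).2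
      have hd := hDbl' T' hT'0 h20
      have hq : v (4 * X T' ^ 2 + 4 * al * X T' + 4 * be) = v (X T') := by
        have h1 : v (4 * X T' ^ 2) < v (4 * al * X T') := by
          rw [map_mul, map_pow, map_mul, hal, one_mul]
          calc v 4 * v (X T') ^ 2 ≤ v (X T') ^ 2 := mul_le_of_le_one_left' hv4
            _ = v (X T') * v (X T') := sq _
            _ < v (X T') := mul_lt_of_lt_one_right (zero_lt_iff.2 ht0) ht1
        have h2 : v (4 * X T' ^ 2 + 4 * al * X T') = v (X T') := by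
          rw [v.map_add_eq_of_lt_right h1, map_mul, hal, one_mul]
        have h3 : v (4 * be) < v (X T') := by
          rw [map_mul]
          exact lt_of_le_of_lt (mul_le_of_le_one_left' hv4) hnt
        rw [v.map_add_eq_of_lt_left (by rw [h2]; exact h3), h2]
      refine ⟨v (X T' ^ 2 - be), ?_, ?_, ?_⟩
      · show v (X (2 • T')) * (v (X T') * v (X T')) = _
        rw [two_nsmul, ← hd, hq]
      · rw [← sq, ← map_pow]; exact v.map_sub _ _
      · intro hne
        rw [← sq, ← map_pow] at hne ⊢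
        exact map_sub_of_ne v _ _ hne)
    (by
      intro m hm hm'
      have hP0 := hm0 m (by omega) (by omega)
      have hP1 := hm0 (m + 1) (by omega) hm'
      have hPm := hm0 (m - 1) (by omega) (by omega)
      have e1 : m • T' + T' = (m + 1) • T' := (succ_nsmul T' m).symm
      have e2 : m • T' - T' = (m - 1) • T' := by
        obtain ⟨m', rfl⟩ : ∃ m', m = m' + 1 := ⟨m - 1, by omega⟩
        rw [succ_nsmul, add_sub_cancel_right, Nat.add_sub_cancel]
      obtain ⟨hne, hpi, -⟩ := hPi (m • T') T' hP0 hT'0 (by rw [e1]; exact hP1)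
        (by rw [e2]; exact hPm)
      rw [e1, e2] at hpi
      have hpi' := congrArg v hpi
      simp only [map_mul, map_pow] at hpi'
      refine ⟨v (X (m • T') * X T' - be), v (X (m • T') - X T'), ?_, hpi', ?_, ?_, ?_, ?_⟩
      · exact v.ne_zero_iff.2 (sub_ne_zero.2 hne)
      · exact v.map_sub_le (hmax _ (hmH m) hP0) le_rfl
      · intro hne'
        have hlt : v (X (m • T')) < v (X T') := lt_of_le_of_ne (hmax _ (hmH m) hP0) hne'
        exact v.map_sub_eq_of_lt_right hlt
      · rw [← map_mul]; exact v.map_sub _ _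
      · intro hne'
        rw [← map_mul] at hne' ⊢
        exact map_sub_of_ne v _ _ hne')
    (by
      show v (X ((p - 1) • T')) = v (X T')
      have : (p - 1) • T' = -T' := by
        have h : (p - 1) • T' + T' = 0 := by
          rw [← succ_nsmul, show p - 1 + 1 = p by omega, hpT']
        exact eq_neg_of_add_eq_zero_left h
      rw [this, hneg])
  obtain ⟨kp, kall⟩ := key
  have hTmem : T ∈ AddSubgroup.zmultiples T' :=
    mem_zmultiples_of_nsmul hp hpT k₀ hk₀mem.1 hk₀mem.2
  obtain ⟨m, hm, hm', hTm⟩ := exists_nsmul_of_mem_zmultiples hp hpT' hTmem hT0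
  have hcase : v (X (m • T')) = v (X T') ^ m ∨ v (X (m • T')) * v (X T') ^ m = v be ^ 2 :=
    kall m hm hm'
  rw [← hTm] at hcase
  rcases hcase with h | h
  · refine ⟨m, ?_⟩
    rw [h, ← pow_mul, mul_comm, pow_mul, kp, ← pow_mul]
    rw [← zpow_natCast]
    push_cast
    rfl
  · refine ⟨(p : ℤ) - m, ?_⟩
    have h' : v (X T) ^ p * v be ^ (2 * m) = v be ^ (2 * p) := by
      calc v (X T) ^ p * v be ^ (2 * m) = v (X T) ^ p * (v (X T') ^ p) ^ m := by
            rw [kp, ← pow_mul]
        _ = (v (X T) * v (X T') ^ m) ^ p := by rw [mul_pow, ← pow_mul, ← pow_mul, mul_comm p m]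
        _ = v be ^ (2 * p) := by rw [h, ← pow_mul]
    rw [mul_sub, zpow_sub₀ hn0, eq_div_iff (zpow_ne_zero _ hn0)]
    have e1 : v be ^ (2 * (m : ℤ)) = v be ^ (2 * m) := by
      rw [← zpow_natCast]; push_cast; rfl
    have e2 : v be ^ (2 * (p : ℤ)) = v be ^ (2 * p) := by
      rw [← zpow_natCast]; push_cast; rfl
    rw [e1, e2, h']

end node

section inst

open WeierstrassCurve WeierstrassCurve.Affine
open Fermat.Agent.S05.helper305 (Shape)
open Fermat.Agent.S05.helper1745 (exists_add_sub_some exists_add_self_some)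

variable {K : Type*} [Field K]

/-- `b₈` in shape coordinates. -/
theorem shape_b8 {W : WeierstrassCurve K} {e al be : K} (hS : Shape W e al be) :
    W.b₈ = 3 * e ^ 4 - 4 * al * e ^ 3 + 6 * be * e ^ 2 - be ^ 2 := by
  have h2 := hS.two_ne
  have h4 : (4 : K) ≠ 0 := by
    have : (4 : K) = 2 * 2 := by norm_num
    rw [this]; exact mul_ne_zero h2 h2
  apply mul_left_cancel₀ h4
  rw [W.b_relation, hS.hb2, hS.hb4, hS.hb6]
  ring

/-- The `ξ`-coordinate as a total function on points (junk value `0` at the origin). -/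
def xi (W : WeierstrassCurve K) (e : K) : W.toAffine.Point → K
  | .zero => 0
  | .some x _ _ => x - e

@[simp] theorem xi_some (W : WeierstrassCurve K) (e : K) {x y : K}
    (h : W.toAffine.Nonsingular x y) : xi W e (Point.some x y h) = x - e := rfl

theorem xi_neg (W : WeierstrassCurve K) (e : K) (P : W.toAffine.Point) :
    xi W e (-P) = xi W e P := by
  cases P with
  | zero => rfl
  | some x y h => rfl

variable [DecidableEq K]

/-- Product and sum formulas for `ξ(P ± Q)` in shape coordinates, on points. -/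
theorem xi_Pi {W : WeierstrassCurve K} {e al be : K} (hS : Shape W e al be)
    (P Q : W.toAffine.Point) (hP : P ≠ 0) (hQ : Q ≠ 0) (hPQ : P + Q ≠ 0) (hPQ' : P - Q ≠ 0) :
    xi W e P ≠ xi W e Q ∧
      xi W e (P + Q) * xi W e (P - Q) * (xi W e P - xi W e Q) ^ 2 =
        (xi W e P * xi W e Q - be) ^ 2 ∧
      (xi W e (P + Q) + xi W e (P - Q)) * (xi W e P - xi W e Q) ^ 2 =
        2 * (xi W e P + xi W e Q) * (xi W e P * xi W e Q + be) +
          4 * al * xi W e P * xi W e Q := by
  cases P with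
  | zero => exact absurd rfl hP
  | some x₁ y₁ h₁ =>
  cases Q with
  | zero => exact absurd rfl hQ
  | some x₂ y₂ h₂ =>
  have hx : x₁ ≠ x₂ := by
    intro hx
    rcases Y_eq_of_X_eq h₁.1 h₂.1 hx with hy | hy
    · apply hPQ'
      subst hx hy
      exact sub_self _
    · exact hPQ (Point.add_of_Y_eq hx hy)
  obtain ⟨Xp, Yp, Xm, Ym, hp, hm, hadd, hsub, hprod, hsum⟩ := exists_add_sub_some h₁ h₂ hx
  rw [hadd, hsub]
  simp only [xi_some]
  have hb2 := hS.hb2
  have hb4 := hS.hb4
  have hb6 := hS.hb6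
  have hb8 := shape_b8 hS
  refine ⟨fun h => hx (by linear_combination h), ?_, ?_⟩
  · linear_combination hprod - e * hsum + (-e * x₁ * x₂) * hb2 +
      (-x₁ * x₂ - e * (x₁ + x₂)) * hb4 + (-(x₁ + x₂) - e) * hb6 + (-1) * hb8
  · linear_combination hsum + (x₁ * x₂) * hb2 + (x₁ + x₂) * hb4 + hb6

/-- Duplication formula for `ξ(2P)` in shape coordinates, on points. -/
theorem xi_Dbl {W : WeierstrassCurve K} {e al be : K} (hS : Shape W e al be)
    (P : W.toAffine.Point) (hP : P ≠ 0) (hPP : P + P ≠ 0) :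
    xi W e (P + P) * (4 * (xi W e P * (xi W e P ^ 2 + al * xi W e P + be))) =
      (xi W e P ^ 2 - be) ^ 2 := by
  cases P with
  | zero => exact absurd rfl hP
  | some x y h =>
  have hy : y ≠ W.toAffine.negY x y := fun hy => hPP (Point.add_self_of_Y_eq hy)
  obtain ⟨X, Y, h', hadd, hdup, -⟩ := exists_add_self_some h hy
  rw [hadd]
  simp only [xi_some]
  have hb2 := hS.hb2
  have hb4 := hS.hb4
  have hb6 := hS.hb6
  have hb8 := shape_b8 hS
  linear_combination hdup + (-X * x ^ 2) * hb2 + (-2 * X * x - x ^ 2) * hb4 +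
    (-X - 2 * x) * hb6 + (-1) * hb8

variable {Γ₀ : Type*} [LinearOrderedCommGroupWithZero Γ₀]

/-- All nonzero multiples of a node point of odd prime order are node points
(no hypothesis on `v 2` or `v p`). -/
theorem node_multiples_gen (v : Valuation K Γ₀) {W : WeierstrassCurve K} {e al be : K}
    (hS : Shape W e al be) (hal : v (4 * al) = 1) (hbe : v be < 1) (hbe0 : be ≠ 0)
    {p : ℕ} (hp : p.Prime) (hp2 : p ≠ 2) {x y : K} (h : W.toAffine.Nonsingular x y)
    (hx : v (x - e) < 1) (hT : p • (Point.some x y h : W.toAffine.Point) = 0)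
    (S : W.toAffine.Point) (hSm : S ∈ AddSubgroup.zmultiples (Point.some x y h : W.toAffine.Point))
    (hS0 : S ≠ 0) : v be < v (xi W e S) ∧ v (xi W e S) < 1 :=
  (node_abstract_gen v (xi W e) al be hal hbe hbe0 (xi_neg W e) (xi_Pi hS) (xi_Dbl hS)
    p hp hp2 (Point.some x y h) (Point.some_ne_zero h) hT hx).1 S hSm hS0

/-- **Generalised NODEVAL**: no hypothesis on `v 2`, none on `v p`, no kernel-of-reduction
input. -/
theorem nodeVal_gen (v : Valuation K Γ₀) {W : WeierstrassCurve K} {e al be : K}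
    (hS : Shape W e al be) (hal : v (4 * al) = 1) (hbe : v be < 1) (hbe0 : be ≠ 0)
    {p : ℕ} (hp : p.Prime) (hp2 : p ≠ 2) {x y : K} (h : W.toAffine.Nonsingular x y)
    (hx : v (x - e) < 1) (hT : p • (Point.some x y h : W.toAffine.Point) = 0) :
    v be < v (x - e) ∧ ∃ j : ℤ, v (x - e) ^ p = v be ^ (2 * j) := by
  have key := node_abstract_gen v (xi W e) al be hal hbe hbe0 (xi_neg W e) (xi_Pi hS)
    (xi_Dbl hS) p hp hp2 (Point.some x y h) (Point.some_ne_zero h) hT hx
  exact ⟨(key.1 _ (AddSubgroup.mem_zmultiples _) (Point.some_ne_zero h)).1, key.2⟩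

end inst

end Fermat.Agent.Lib.helper1728
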