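/-
helper1761: classification of the elements of `SL(2, ℤ)` of trace `±2`:
they are `±` conjugates of powers of `T`.  (Mathlib only.)
-/
import Mathlib

set_option autoImplicit false

namespace Fermat.Agent.Lib.helper1761

open scoped MatrixGroups
open Matrix

/-- A unipotent-type integer matrix (trace `2`, determinant `1`) fixes a primitive vector. -/
theorem exists_fixed_primitive (a b c d : ℤ) (htr : a + d = 2) (hdet : a * d - b * c = 1) :
    ∃ p q : ℤ, IsCoprime p q ∧ a * p + b * q = p ∧ c * p + d * q = q := by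
  by_cases hb : b = 0
  · subst hb
    have ha : a = 1 := by
      have h1 : (a - 1) ^ 2 = 0 := by
        have hd : d = 2 - a := by linarith
        subst hd
        nlinarith
      have h2 : a - 1 = 0 := by simpa using h1
      linarith
    have hd : d = 1 := by linarith
    refine ⟨0, 1, isCoprime_zero_left.mpr isUnit_one, ?_, ?_⟩
    · simp
    · simp [hd]
  · have hpos : 0 < Int.gcd b (a - 1) := Int.gcd_pos_of_ne_zero_left _ hb
    obtain ⟨p', r', hgcd, hbp, har⟩ := Int.exists_gcd_one hpos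
    set g₀ : ℤ := (Int.gcd b (a - 1) : ℤ) with hg₀
    have hg₀ne : g₀ ≠ 0 := by
      have : (0 : ℤ) < g₀ := Int.natCast_pos.mpr hpos
      exact this.ne'
    have hcop : IsCoprime p' r' := Int.isCoprime_iff_gcd_eq_one.mpr hgcd
    refine ⟨p', -r', hcop.neg_right, ?_, ?_⟩
    · have : (a - 1) * p' - b * r' = 0 := by rw [har, hbp]; ring
      linarith
    · -- `b c = -(a-1)^2`, cancel `g₀`
      have hbc : b * c = -(a - 1) ^ 2 := by
        have hd : d = 2 - a := by linarith
        subst hd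
        nlinarith
      have h1 : g₀ * (p' * c + r' ^ 2 * g₀) = 0 := by
        have : p' * g₀ * c = -(r' * g₀) ^ 2 := by rw [← hbp, ← har]; exact hbc
        nlinarith
      have h2 : p' * c + r' ^ 2 * g₀ = 0 := by
        rcases mul_eq_zero.mp h1 with h | h
        · exact absurd h hg₀ne
        · exact h
      have hd : d - 1 = -(r' * g₀) := by rw [← har]; linarith
      have : c * p' - (d - 1) * r' = 0 := by rw [hd]; linarith
      linarith

/-- Elements of `SL(2, ℤ)` of trace `2` are conjugate to a power of `T`. -/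
theorem exists_conj_T_zpow_of_trace_eq_two (γ : SL(2, ℤ))
    (h : (γ : Matrix (Fin 2) (Fin 2) ℤ).trace = 2) :
    ∃ (g : SL(2, ℤ)) (n : ℤ), γ = g * ModularGroup.T ^ n * g⁻¹ := by
  have htr : γ 0 0 + γ 1 1 = 2 := by
    rw [Matrix.trace_fin_two] at h
    exact h
  have hdet : γ 0 0 * γ 1 1 - γ 0 1 * γ 1 0 = 1 := by
    have := γ.det_coe
    rw [Matrix.det_fin_two] at this
    exact this
  obtain ⟨p, q, hcop, hv1, hv2⟩ := exists_fixed_primitive _ _ _ _ htr hdet
  obtain ⟨x, y, hxy⟩ := hcop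
  have h1 : p * x + q * y = 1 := by linarith
  set w₁ : ℤ := -(γ 0 0) * y + γ 0 1 * x with hw₁
  set w₂ : ℤ := -(γ 1 0) * y + γ 1 1 * x with hw₂
  have h2 : -q * w₁ + p * w₂ = 1 := by
    rw [hw₁, hw₂]
    linear_combination (-x) * hv1 + (-y) * hv2 + (q * y + p * x) * htr + h1
  let g : SL(2, ℤ) := ⟨!![p, -y; q, x], by rw [Matrix.det_fin_two_of]; linarith⟩
  refine ⟨g, x * w₁ + y * w₂, ?_⟩
  rw [eq_mul_inv_iff_mul_eq]
  apply Subtype.ext
  rw [Matrix.SpecialLinearGroup.coe_mul, Matrix.SpecialLinearGroup.coe_mul,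
    ModularGroup.coe_T_zpow]
  have hγ : (γ : Matrix (Fin 2) (Fin 2) ℤ) = !![γ 0 0, γ 0 1; γ 1 0, γ 1 1] := by
    ext i j
    fin_cases i <;> fin_cases j <;> rfl
  rw [hγ]
  show !![γ 0 0, γ 0 1; γ 1 0, γ 1 1] * !![p, -y; q, x]
    = !![p, -y; q, x] * !![1, x * w₁ + y * w₂; 0, 1]
  rw [Matrix.mul_fin_two, Matrix.mul_fin_two]
  ext i j
  fin_cases i <;> fin_cases j
  · simp only [Fin.zero_eta, Fin.isValue, of_apply, cons_val', cons_val_zero, cons_val_fin_one]
    linarith
  · simp only [Fin.zero_eta, Fin.isValue, Fin.mk_one, of_apply, cons_val', cons_val_one,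
      cons_val_fin_one, cons_val_zero]
    linear_combination (-w₁) * h1 - y * h2
  · simp only [Fin.mk_one, Fin.isValue, Fin.zero_eta, of_apply, cons_val', cons_val_zero,
      cons_val_fin_one, cons_val_one]
    linarith
  · simp only [Fin.mk_one, Fin.isValue, of_apply, cons_val', cons_val_one, cons_val_fin_one]
    linear_combination (-w₂) * h1 + x * h2

/-- Elements of `SL(2, ℤ)` with `trace ^ 2 = 4` are, up to sign, conjugate to a power of `T`. -/
theorem exists_conj_T_zpow_of_trace_sq (γ : SL(2, ℤ))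
    (h : (γ : Matrix (Fin 2) (Fin 2) ℤ).trace ^ 2 = 4) :
    ∃ (g : SL(2, ℤ)) (n : ℤ),
      γ = g * ModularGroup.T ^ n * g⁻¹ ∨ γ = -(g * ModularGroup.T ^ n * g⁻¹) := by
  have h' : (γ : Matrix (Fin 2) (Fin 2) ℤ).trace = 2 ∨ (γ : Matrix (Fin 2) (Fin 2) ℤ).trace = -2 := by
    have h2 : ((γ : Matrix (Fin 2) (Fin 2) ℤ).trace - 2) * ((γ : Matrix (Fin 2) (Fin 2) ℤ).trace + 2)
        = 0 := by ring_nf; linarith
    rcases mul_eq_zero.mp h2 with h3 | h3
    · left; linarith
    · right; linarith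
  rcases h' with h2 | h2
  · obtain ⟨g, n, hg⟩ := exists_conj_T_zpow_of_trace_eq_two γ h2
    exact ⟨g, n, Or.inl hg⟩
  · have h3 : ((-γ : SL(2, ℤ)) : Matrix (Fin 2) (Fin 2) ℤ).trace = 2 := by
      rw [Matrix.SpecialLinearGroup.coe_neg, Matrix.trace_neg, h2]
      norm_num
    obtain ⟨g, n, hg⟩ := exists_conj_T_zpow_of_trace_eq_two (-γ) h3
    refine ⟨g, n, Or.inr ?_⟩
    rw [← hg, neg_neg]

end Fermat.Agent.Lib.helper1761
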