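/-
helper1761: the universal property of `SL(2, ℤ)` coming from `PSL(2, ℤ) ≅ C₂ * C₃`:
for every group `K` and `s u : K` with `s ^ 2 = 1`, `u ^ 3 = 1` there is a homomorphism
`ψ : SL(2, ℤ) →* K` with `ψ S = s` and `ψ (S * T) = u`.

Proof: ping-pong (Mathlib `Monoid.CoprodI.lift_injective_of_ping_pong`) for the action of
`C₂ * C₃` on `SL(2, ℤ) ⧸ {±1}`, with the sets of cosets whose first column `(p, q)` has
`p * q > 0`, resp. `p * q < 0`.  Mathlib only.
-/
import Mathlib

set_option autoImplicit false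

namespace Fermat.Agent.Lib.helper1761

open scoped MatrixGroups Pointwise
open Matrix

/-! ### The subgroup `{1, -1}` and the sign-invariant of the first column -/

/-- the subgroup `{1, -1}` of `SL(2, ℤ)`. -/
def pmOne : Subgroup SL(2, ℤ) where
  carrier := {z | z = 1 ∨ z = -1}
  mul_mem' := by
    rintro a b (rfl | rfl) (rfl | rfl) <;> simp
  one_mem' := Or.inl rfl
  inv_mem' := by
    rintro a (rfl | rfl)
    · simp
    · right
      rw [inv_eq_iff_eq_inv, eq_comm, inv_eq_iff_mul_eq_one]
      simp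

theorem mem_pmOne {z : SL(2, ℤ)} : z ∈ pmOne ↔ z = 1 ∨ z = -1 := Iff.rfl

/-- the product `p * q` of the entries of the first column `(p, q)`, a function on
`SL(2, ℤ) ⧸ {±1}`. -/
def colProd (x : SL(2, ℤ) ⧸ pmOne) : ℤ :=
  Quotient.liftOn' x (fun g : SL(2, ℤ) => g 0 0 * g 1 0) (by
    intro a b hab
    rw [QuotientGroup.leftRel_apply] at hab
    rcases hab with h | h
    · have : b = a := by
        have := congrArg (fun t => a * t) h
        simpa using this
      rw [this]
    · have : b = -a := by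
        have := congrArg (fun t => a * t) h
        simpa using this
      rw [this]
      simp [Matrix.SpecialLinearGroup.coe_neg])

theorem colProd_mk (g : SL(2, ℤ)) :
    colProd (QuotientGroup.mk g : SL(2, ℤ) ⧸ pmOne) = g 0 0 * g 1 0 := rfl

theorem S_mul_col (g : SL(2, ℤ)) :
    (ModularGroup.S * g) 0 0 = -g 1 0 ∧ (ModularGroup.S * g) 1 0 = g 0 0 := by
  constructor <;>
    simp [Matrix.SpecialLinearGroup.coe_mul, ModularGroup.coe_S, Matrix.mul_apply,
      Fin.sum_univ_two]

theorem U_mul_col (g : SL(2, ℤ)) :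
    (ModularGroup.S * ModularGroup.T * g) 0 0 = -g 1 0 ∧
      (ModularGroup.S * ModularGroup.T * g) 1 0 = g 0 0 + g 1 0 := by
  constructor <;>
    simp [Matrix.SpecialLinearGroup.coe_mul, ModularGroup.coe_S, ModularGroup.coe_T,
      Matrix.mul_apply, Fin.sum_univ_two]

/-- `-1` acts trivially on `SL(2, ℤ) ⧸ {±1}`. -/
theorem neg_one_smul_coset (x : SL(2, ℤ) ⧸ pmOne) : (-1 : SL(2, ℤ)) • x = x := by
  induction x using QuotientGroup.induction_on with
  | H g =>
    rw [MulAction.Quotient.smul_mk, smul_eq_mul]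
    refine QuotientGroup.eq.mpr ?_
    rw [mem_pmOne]
    right
    simp

theorem colProd_S_smul (x : SL(2, ℤ) ⧸ pmOne) :
    colProd (ModularGroup.S • x) = -colProd x := by
  induction x using QuotientGroup.induction_on with
  | H g =>
    rw [MulAction.Quotient.smul_mk, smul_eq_mul, colProd_mk, colProd_mk, (S_mul_col g).1,
      (S_mul_col g).2]
    ring

/-- the ping-pong sets. -/
def pingSet (i : Fin 2) : Set (SL(2, ℤ) ⧸ pmOne) :=
  if i = 0 then {x | 0 < colProd x} else {x | colProd x < 0}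

theorem U_smul_mem (x : SL(2, ℤ) ⧸ pmOne) (hx : 0 < colProd x) :
    colProd ((ModularGroup.S * ModularGroup.T) • x) < 0 := by
  induction x using QuotientGroup.induction_on with
  | H g =>
    rw [colProd_mk] at hx
    rw [MulAction.Quotient.smul_mk, smul_eq_mul, colProd_mk, (U_mul_col g).1, (U_mul_col g).2]
    nlinarith [sq_nonneg (g 1 0)]

theorem U_smul_U_smul_mem (x : SL(2, ℤ) ⧸ pmOne) (hx : 0 < colProd x) :
    colProd ((ModularGroup.S * ModularGroup.T) • (ModularGroup.S * ModularGroup.T) • x) < 0 := by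
  induction x using QuotientGroup.induction_on with
  | H g =>
    rw [colProd_mk] at hx
    obtain ⟨h1, h2⟩ := U_mul_col g
    obtain ⟨h3, h4⟩ := U_mul_col (ModularGroup.S * ModularGroup.T * g)
    rw [MulAction.Quotient.smul_mk, MulAction.Quotient.smul_mk, smul_eq_mul, smul_eq_mul,
      colProd_mk, h3, h4, h1, h2]
    nlinarith [sq_nonneg (g 0 0)]

/-! ### Homomorphisms out of cyclic groups -/

/-- the homomorphism `Multiplicative (ZMod n) →* K` sending the generator to an element `e`
with `e ^ n = 1`. -/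
noncomputable def homOfPow {K : Type*} [Group K] (n : ℕ) (e : K) (he : e ^ n = 1) :
    Multiplicative (ZMod n) →* K :=
  AddMonoidHom.toMultiplicativeLeft
    (ZMod.lift n ⟨zmultiplesHom (Additive K) (Additive.ofMul e), by
      rw [zmultiplesHom_apply, natCast_zsmul, ← ofMul_pow, he]; rfl⟩)

theorem homOfPow_natCast {K : Type*} [Group K] (n : ℕ) (e : K) (he : e ^ n = 1) (k : ℕ) :
    homOfPow n e he (Multiplicative.ofAdd ((k : ℕ) : ZMod n)) = e ^ k := by
  have h1 : ((k : ℕ) : ZMod n) = (((k : ℤ)) : ZMod n) := by simp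
  rw [homOfPow, AddMonoidHom.toMultiplicativeLeft_apply_apply, toAdd_ofAdd, h1, ZMod.lift_coe]
  simp [zmultiplesHom_apply]

theorem homOfPow_exists {K : Type*} [Group K] (n : ℕ) [NeZero n] (e : K) (he : e ^ n = 1)
    (h : Multiplicative (ZMod n)) (hne : h ≠ 1) :
    ∃ r : ℕ, 0 < r ∧ r < n ∧ homOfPow n e he h = e ^ r := by
  refine ⟨(Multiplicative.toAdd h).val, ?_, ZMod.val_lt _, ?_⟩
  · rw [Nat.pos_iff_ne_zero, Ne, ZMod.val_eq_zero]
    intro h0
    apply hne
    exact Multiplicative.toAdd.injective h0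
  · rw [← homOfPow_natCast n e he, ZMod.natCast_zmod_val]
    rfl

/-! ### Ping-pong -/

/-- the two cyclic factors `C₂`, `C₃`. -/
abbrev Fac (i : Fin 2) : Type := Multiplicative (ZMod ((i : ℕ) + 2))

/-- the permutation representation of `SL(2, ℤ)` on `SL(2, ℤ) ⧸ {±1}`. -/
noncomputable abbrev sig : SL(2, ℤ) →* Equiv.Perm (SL(2, ℤ) ⧸ pmOne) :=
  MulAction.toPermHom SL(2, ℤ) (SL(2, ℤ) ⧸ pmOne)

theorem sig_neg_one : sig (-1) = 1 := by
  ext x
  simp [neg_one_smul_coset]

/-- the generators: `S` for `C₂`, `S * T` for `C₃`. -/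
def genElt (i : Fin 2) : SL(2, ℤ) :=
  if i = 0 then ModularGroup.S else ModularGroup.S * ModularGroup.T

theorem S_sq : ModularGroup.S ^ 2 = (-1 : SL(2, ℤ)) := by
  rw [pow_two]
  apply Subtype.ext
  rw [Matrix.SpecialLinearGroup.coe_mul, ModularGroup.S_mul_S_eq]
  simp

theorem U_cube : (ModularGroup.S * ModularGroup.T) ^ 3 = (-1 : SL(2, ℤ)) := by
  rw [pow_succ, pow_two]
  ext i j
  fin_cases i <;> fin_cases j <;>
    simp [ModularGroup.coe_S, ModularGroup.coe_T, Matrix.mul_apply, Fin.sum_univ_two]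

theorem genElt_pow (i : Fin 2) : genElt i ^ ((i : ℕ) + 2) = -1 := by
  fin_cases i
  · simpa [genElt] using S_sq
  · simpa [genElt] using U_cube

theorem sig_genElt_pow (i : Fin 2) : sig (genElt i) ^ ((i : ℕ) + 2) = 1 := by
  rw [← map_pow, genElt_pow, sig_neg_one]

/-- the homomorphisms `C₂ →* Perm`, `C₃ →* Perm`. -/
noncomputable def facHom (i : Fin 2) : Fac i →* Equiv.Perm (SL(2, ℤ) ⧸ pmOne) :=
  homOfPow ((i : ℕ) + 2) (sig (genElt i)) (sig_genElt_pow i)

theorem facHom_ping_pong :
    Pairwise fun i j : Fin 2 => ∀ h : Fac i, h ≠ 1 → facHom i h • pingSet j ⊆ pingSet i := by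
  intro i j hij h hne
  obtain ⟨r, hr0, hrn, hr⟩ := homOfPow_exists ((i : ℕ) + 2) (sig (genElt i)) (sig_genElt_pow i)
    h hne
  rw [facHom, hr]
  rintro _ ⟨x, hx, rfl⟩
  fin_cases i <;> fin_cases j
  · exact absurd rfl hij
  · -- `S` maps the negative set into the positive set
    have hr1 : r = 1 := by simp at hrn; omega
    subst hr1
    simp only [pingSet, genElt] at hx ⊢
    simp only [Fin.zero_eta, Fin.isValue, ↓reduceIte, pow_one, Set.mem_ofPred_eq] at hx ⊢
    simp only [Fin.mk_one, Fin.isValue, one_ne_zero, ↓reduceIte, Set.mem_ofPred_eq] at hx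
    show 0 < colProd (ModularGroup.S • x)
    rw [colProd_S_smul]
    linarith
  · -- `U`, `U²` map the positive set into the negative set
    simp only [pingSet, genElt] at hx ⊢
    simp only [Fin.zero_eta, Fin.isValue, ↓reduceIte, Set.mem_ofPred_eq] at hx
    simp only [Fin.mk_one, Fin.isValue, one_ne_zero, ↓reduceIte, Set.mem_ofPred_eq]
    have hr12 : r = 1 ∨ r = 2 := by simp at hrn; omega
    rcases hr12 with rfl | rfl
    · rw [pow_one]
      exact U_smul_mem x hx
    · rw [pow_two]
      exact U_smul_U_smul_mem x hx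
  · exact absurd rfl hij

theorem pingSet_nonempty (i : Fin 2) : (pingSet i).Nonempty := by
  fin_cases i
  · refine ⟨QuotientGroup.mk (⟨!![1, 0; 1, 1], by simp [Matrix.det_fin_two]⟩ : SL(2, ℤ)), ?_⟩
    simp [pingSet, colProd_mk]
  · refine ⟨QuotientGroup.mk (⟨!![1, 0; -1, 1], by simp [Matrix.det_fin_two]⟩ : SL(2, ℤ)), ?_⟩
    simp [pingSet, colProd_mk]

theorem pingSet_disjoint : Pairwise (Function.onFun Disjoint pingSet) := by
  intro i j hij
  rw [Function.onFun, Set.disjoint_left]
  intro x hx hx'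
  fin_cases i <;> fin_cases j
  · exact absurd rfl hij
  · simp [pingSet] at hx hx'; linarith
  · simp [pingSet] at hx hx'; linarith
  · exact absurd rfl hij

/-- **Ping-pong**: `C₂ * C₃ → Perm (SL(2, ℤ) ⧸ {±1})` is injective. -/
theorem lift_facHom_injective : Function.Injective (Monoid.CoprodI.lift facHom) := by
  refine Monoid.CoprodI.lift_injective_of_ping_pong facHom ?_ pingSet pingSet_nonempty
    pingSet_disjoint facHom_ping_pong
  right
  refine ⟨1, ?_⟩
  have : Cardinal.mk (Fac 1) = 3 := by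
    rw [Cardinal.mk_fintype]
    have : Fintype.card (Fac 1) = 3 := by
      show Fintype.card (Multiplicative (ZMod 3)) = 3
      rw [Fintype.card_multiplicative, ZMod.card]
    rw [this]; rfl
  rw [this]

/-! ### The universal property -/

theorem sig_mem_range (g : SL(2, ℤ)) : sig g ∈ (Monoid.CoprodI.lift facHom).range := by
  have hS : sig ModularGroup.S ∈ (Monoid.CoprodI.lift facHom).range := by
    refine ⟨Monoid.CoprodI.of (i := (0 : Fin 2)) (Multiplicative.ofAdd ((1 : ℕ) : ZMod 2)), ?_⟩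
    rw [Monoid.CoprodI.lift_of]
    have := homOfPow_natCast (((0 : Fin 2) : ℕ) + 2) (sig (genElt 0)) (sig_genElt_pow 0) 1
    simpa [facHom, genElt] using this
  have hU : sig (ModularGroup.S * ModularGroup.T) ∈ (Monoid.CoprodI.lift facHom).range := by
    refine ⟨Monoid.CoprodI.of (i := (1 : Fin 2)) (Multiplicative.ofAdd ((1 : ℕ) : ZMod 3)), ?_⟩
    rw [Monoid.CoprodI.lift_of]
    have := homOfPow_natCast (((1 : Fin 2) : ℕ) + 2) (sig (genElt 1)) (sig_genElt_pow 1) 1
    simpa [facHom, genElt] using this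
  have hT : sig ModularGroup.T ∈ (Monoid.CoprodI.lift facHom).range := by
    have h1 : sig ModularGroup.T = (sig ModularGroup.S)⁻¹ * sig (ModularGroup.S * ModularGroup.T) := by
      rw [map_mul, inv_mul_cancel_left]
    rw [h1]
    exact Subgroup.mul_mem _ (Subgroup.inv_mem _ hS) hU
  have hle : Subgroup.closure {ModularGroup.S, ModularGroup.T}
      ≤ (Monoid.CoprodI.lift facHom).range.comap sig := by
    rw [Subgroup.closure_le]
    rintro y (rfl | rfl)
    · exact hS
    · exact hT
  have hg : g ∈ Subgroup.closure {ModularGroup.S, ModularGroup.T} := by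
    rw [SpecialLinearGroup.SL2Z_generators]; trivial
  exact hle hg

theorem sig_exists (g : SL(2, ℤ)) : ∃ w, Monoid.CoprodI.lift facHom w = sig g :=
  MonoidHom.mem_range.mp (sig_mem_range g)

/-- the underlying function of `toCoprod`. -/
noncomputable def toCoprodFun (g : SL(2, ℤ)) : Monoid.CoprodI Fac := (sig_exists g).choose

theorem lift_toCoprodFun (g : SL(2, ℤ)) :
    Monoid.CoprodI.lift facHom (toCoprodFun g) = sig g :=
  (sig_exists g).choose_spec

/-- the lift `SL(2, ℤ) →* C₂ * C₃` of the permutation representation. -/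
noncomputable def toCoprod : SL(2, ℤ) →* Monoid.CoprodI Fac where
  toFun := toCoprodFun
  map_one' := by
    apply lift_facHom_injective
    rw [lift_toCoprodFun, map_one, map_one]
  map_mul' g h := by
    apply lift_facHom_injective
    rw [lift_toCoprodFun, map_mul, map_mul, lift_toCoprodFun, lift_toCoprodFun]

theorem lift_toCoprod (g : SL(2, ℤ)) : Monoid.CoprodI.lift facHom (toCoprod g) = sig g :=
  lift_toCoprodFun g

theorem toCoprod_S :
    toCoprod ModularGroup.S
      = Monoid.CoprodI.of (i := (0 : Fin 2)) (Multiplicative.ofAdd ((1 : ℕ) : ZMod 2)) := by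
  apply lift_facHom_injective
  rw [lift_toCoprod, Monoid.CoprodI.lift_of]
  have := homOfPow_natCast (((0 : Fin 2) : ℕ) + 2) (sig (genElt 0)) (sig_genElt_pow 0) 1
  simpa [facHom, genElt] using this.symm

theorem toCoprod_U :
    toCoprod (ModularGroup.S * ModularGroup.T)
      = Monoid.CoprodI.of (i := (1 : Fin 2)) (Multiplicative.ofAdd ((1 : ℕ) : ZMod 3)) := by
  apply lift_facHom_injective
  rw [lift_toCoprod, Monoid.CoprodI.lift_of]
  have := homOfPow_natCast (((1 : Fin 2) : ℕ) + 2) (sig (genElt 1)) (sig_genElt_pow 1) 1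
  simpa [facHom, genElt] using this.symm

/-- **Universal property of `SL(2, ℤ)` (from `PSL(2, ℤ) ≅ C₂ * C₃`)**: any pair `s, u` with
`s ^ 2 = 1`, `u ^ 3 = 1` in a group `K` is the image of `(S, S * T)` under a homomorphism. -/
theorem exists_monoidHom_of_sq_cube {K : Type*} [Group K] (s u : K) (hs : s ^ 2 = 1)
    (hu : u ^ 3 = 1) :
    ∃ ψ : SL(2, ℤ) →* K, ψ ModularGroup.S = s ∧ ψ (ModularGroup.S * ModularGroup.T) = u := by
  let t : Fin 2 → K := fun i => if i = 0 then s else u
  have ht : ∀ i : Fin 2, t i ^ ((i : ℕ) + 2) = 1 := by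
    intro i
    fin_cases i
    · simpa [t] using hs
    · simpa [t] using hu
  let F : ∀ i : Fin 2, Fac i →* K := fun i => homOfPow ((i : ℕ) + 2) (t i) (ht i)
  refine ⟨(Monoid.CoprodI.lift F).comp toCoprod, ?_, ?_⟩
  · rw [MonoidHom.comp_apply, toCoprod_S, Monoid.CoprodI.lift_of]
    have := homOfPow_natCast (((0 : Fin 2) : ℕ) + 2) (t 0) (ht 0) 1
    simpa [F, t] using this
  · rw [MonoidHom.comp_apply, toCoprod_U, Monoid.CoprodI.lift_of]
    have := homOfPow_natCast (((1 : Fin 2) : ℕ) + 2) (t 1) (ht 1) 1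
    simpa [F, t] using this

end Fermat.Agent.Lib.helper1761
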