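/-
CHARACTERISTIC-FREE FROBENIUS CAYLEY–HAMILTON (Manin's method) — helper1844.

For a finite field `F` with `q` elements, ANY Weierstrass curve `W` over `F` with `Δ ≠ 0`
(general `a₁..a₆`, every characteristic incl. 2 and 3) and every field `K ⊇ F`:
`φ (φ P) - (q + 1 - #W(F)) • φ P + q • P = 0` for all `P ∈ W(K)`.

Hypothesis-passing on the three leaves of `helper1844_FrobGenSpec` (`XParStmt`, `CountStmt`,
`IrrStmt`).
-/
import Mathlib
import Fermat.Agent.Lib.helper1844_FrobGenSpec
import Fermat.Agent.Lib.helper853_TorsionLadder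
import Fermat.Agent.S52.helper1617_QuadForm
import Fermat.Agent.S52.helper1104_GenericPoint
import Fermat.Agent.S52.helper586_Generic
import Fermat.Agent.S52.helper5875_RatFuncHeight

set_option autoImplicit false

namespace Fermat.Agent.Lib.helper1844

open Polynomial WeierstrassCurve WeierstrassCurve.Affine
open Fermat.Agent.S52.helper6492 (Prim3)
open Fermat.Agent.S52.helper5875 (ht)
open Fermat.Agent.Lib.helper853 (px pz px_zero pz_zero px_some pz_some symS symT symU)

noncomputable section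

universe u

variable {F : Type u} [Field F] (W : WeierstrassCurve F)

/-! ## The function field `L = F(t)[y]` -/

/-- `b = a₁ t + a₃ ∈ F(t)`. -/
def bK : RatFunc F := RatFunc.C W.a₁ * RatFunc.X + RatFunc.C W.a₃

/-- `f = t³ + a₂ t² + a₄ t + a₆ ∈ F(t)`. -/
def fK : RatFunc F :=
  RatFunc.X ^ 3 + RatFunc.C W.a₂ * RatFunc.X ^ 2 + RatFunc.C W.a₄ * RatFunc.X + RatFunc.C W.a₆

lemma quadPoly_eq : quadPoly W = X ^ 2 + C (bK W) * X - C (fK W) := rfl

lemma quadPoly_monic : (quadPoly W).Monic := by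
  rw [quadPoly_eq]
  have h : (X ^ 2 + C (bK W) * X - C (fK W) : (RatFunc F)[X]) =
      X ^ 2 + (C (bK W) * X - C (fK W)) := by ring
  rw [h]
  apply monic_X_pow_add
  refine lt_of_le_of_lt (degree_sub_le _ _) ?_
  refine max_lt ?_ ?_
  · exact lt_of_le_of_lt (degree_C_mul_X_le _) (by norm_num)
  · exact lt_of_le_of_lt degree_C_le (by norm_num)

lemma quadPoly_natDegree : (quadPoly W).natDegree = 2 := by
  rw [quadPoly_eq]
  have h : (X ^ 2 + C (bK W) * X - C (fK W) : (RatFunc F)[X]) =
      X ^ 2 + (C (bK W) * X - C (fK W)) := by ring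
  rw [h]
  have hlt : (C (bK W) * X - C (fK W) : (RatFunc F)[X]).degree < ((2 : ℕ) : WithBot ℕ) := by
    refine lt_of_le_of_lt (degree_sub_le _ _) ?_
    refine max_lt ?_ ?_
    · exact lt_of_le_of_lt (degree_C_mul_X_le _) (by norm_num)
    · exact lt_of_le_of_lt degree_C_le (by norm_num)
  have hdeg : (X ^ 2 + (C (bK W) * X - C (fK W)) : (RatFunc F)[X]).degree = ((2 : ℕ) : WithBot ℕ) := by
    rw [degree_add_eq_left_of_degree_lt]
    · simp
    · rw [degree_X_pow]; exact hlt
  exact natDegree_eq_of_degree_eq_some hdeg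

variable [hirr : Fact (Irreducible (quadPoly W))]

/-- The function field of `W`, as a quadratic extension of `F(t)`. -/
abbrev FL : Type u := AdjoinRoot (quadPoly W)

/-- The inclusion `F(t) → L`. -/
abbrev ofK : RatFunc F →+* FL W := AdjoinRoot.of (quadPoly W)

/-- `t ∈ L`. -/
def tL : FL W := ofK W RatFunc.X

/-- `y ∈ L`. -/
def yL : FL W := AdjoinRoot.root (quadPoly W)

lemma ofK_injective : Function.Injective (ofK W) := (ofK W).injective

lemma algebraMap_F_eq (a : F) : algebraMap F (FL W) a = ofK W (RatFunc.C a) := by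
  rw [IsScalarTower.algebraMap_apply F (RatFunc F) (FL W), RatFunc.algebraMap_eq_C]
  rfl

/-- The defining quadratic relation of `y`. -/
lemma yL_sq : yL W ^ 2 + ofK W (bK W) * yL W - ofK W (fK W) = 0 := by
  have h := AdjoinRoot.eval₂_root (quadPoly W)
  have h2 : (quadPoly W).eval₂ (AdjoinRoot.of (quadPoly W)) (AdjoinRoot.root (quadPoly W)) =
      yL W ^ 2 + ofK W (bK W) * yL W - ofK W (fK W) := by
    show (X ^ 2 + C (bK W) * X - C (fK W) : (RatFunc F)[X]).eval₂ (ofK W) (yL W) = _
    simp [eval₂_sub, eval₂_add, eval₂_mul, eval₂_pow]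
  rw [← h2]; exact h

/-- Every element of `L` is `α + β y` with `α, β ∈ F(t)`. -/
lemma exists_repr (z : FL W) : ∃ α β : RatFunc F, z = ofK W α + ofK W β * yL W := by
  obtain ⟨p, rfl⟩ := AdjoinRoot.mk_surjective (g := quadPoly W) z
  have hmod := modByMonic_add_div p (quadPoly W)
  have hdeg : (p %ₘ quadPoly W).natDegree < 2 := by
    have := natDegree_modByMonic_lt p (quadPoly_monic W)
      (by intro h1; have := quadPoly_natDegree W; rw [h1] at this; simp at this)
    rwa [quadPoly_natDegree] at this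
  have hr : p %ₘ quadPoly W = C ((p %ₘ quadPoly W).coeff 0) + C ((p %ₘ quadPoly W).coeff 1) * X := by
    have h2 : (p %ₘ quadPoly W).natDegree ≤ 1 := by omega
    conv_lhs => rw [eq_X_add_C_of_natDegree_le_one h2]
    ring
  refine ⟨(p %ₘ quadPoly W).coeff 0, (p %ₘ quadPoly W).coeff 1, ?_⟩
  have h3 : AdjoinRoot.mk (quadPoly W) p = AdjoinRoot.mk (quadPoly W) (p %ₘ quadPoly W) := by
    rw [AdjoinRoot.mk_eq_mk]
    exact ⟨p /ₘ quadPoly W, by linear_combination (-1 : (RatFunc F)[X]) * hmod⟩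
  rw [h3]
  conv_lhs => rw [hr]
  simp [yL, AdjoinRoot.mk_C, AdjoinRoot.mk_X]

/-- `1, y` are linearly independent over `F(t)`. -/
lemma repr_eq_zero {α β : RatFunc F} (h : ofK W α + ofK W β * yL W = 0) : α = 0 ∧ β = 0 := by
  have h1 : AdjoinRoot.mk (quadPoly W) (C α + C β * X) = 0 := by
    simpa [yL, AdjoinRoot.mk_C, AdjoinRoot.mk_X] using h
  rw [AdjoinRoot.mk_eq_zero] at h1
  have hzero : (C α + C β * X : (RatFunc F)[X]) = 0 := by
    by_contra hne
    have hle := natDegree_le_of_dvd h1 hne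
    rw [quadPoly_natDegree] at hle
    have hle2 : (C α + C β * X : (RatFunc F)[X]).natDegree ≤ 1 := by
      rw [add_comm]
      exact natDegree_linear_le
    omega
  have c0 := congrArg (fun p : (RatFunc F)[X] => p.coeff 0) hzero
  have c1 := congrArg (fun p : (RatFunc F)[X] => p.coeff 1) hzero
  simp at c0 c1
  exact ⟨c0, c1⟩

/-! ## The generic point -/

lemma ofK_bK : ofK W (bK W) =
    algebraMap F (FL W) W.a₁ * tL W + algebraMap F (FL W) W.a₃ := by
  simp only [bK, tL, algebraMap_F_eq, map_add, map_mul]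

lemma ofK_fK : ofK W (fK W) =
    tL W ^ 3 + algebraMap F (FL W) W.a₂ * tL W ^ 2 + algebraMap F (FL W) W.a₄ * tL W +
      algebraMap F (FL W) W.a₆ := by
  simp only [fK, tL, algebraMap_F_eq, map_add, map_mul, map_pow]

lemma gen_equation : (W⁄(FL W)).Equation (tL W) (yL W) := by
  rw [Affine.equation_iff]
  simp only [baseChange_a₁, baseChange_a₂, baseChange_a₃, baseChange_a₄, baseChange_a₆]
  have h := yL_sq W
  rw [ofK_bK, ofK_fK] at h
  linear_combination h

omit hirr in
lemma baseChange_Δ_ne_zero (A : Type*) [Field A] [Algebra F A] (hΔ : W.Δ ≠ 0) :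
    (W⁄A).Δ ≠ 0 := by
  have h1 : (W⁄A).Δ = algebraMap F A W.Δ := by
    show (WeierstrassCurve.map W (algebraMap F A)).Δ = _
    rw [WeierstrassCurve.map_Δ]
  rw [h1]
  exact (map_ne_zero_iff _ (algebraMap F A).injective).mpr hΔ

omit hirr in
lemma nonsingular_of_equation {A : Type*} [Field A] [Algebra F A] (hΔ : W.Δ ≠ 0) {x y : A}
    (h : (W⁄A).Equation x y) : (W⁄A).Nonsingular x y :=
  (equation_iff_nonsingular_of_Δ_ne_zero (baseChange_Δ_ne_zero W A hΔ)).mp h

/-- The generic point `G = (t, y)`. -/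
def genPt (hΔ : W.Δ ≠ 0) : (W⁄(FL W)).Point :=
  Point.some _ _ (nonsingular_of_equation W hΔ (gen_equation W))

/-! ## The conjugation `y ↦ -y - a₁ t - a₃` -/

/-- The nontrivial automorphism of `L` over `F(t)`. -/
def conjK : FL W →ₐ[RatFunc F] FL W :=
  AdjoinRoot.liftAlgHom (quadPoly W) (Algebra.ofId (RatFunc F) (FL W)) (-yL W - ofK W (bK W)) (by
    show (X ^ 2 + C (bK W) * X - C (fK W) : (RatFunc F)[X]).eval₂
      (Algebra.ofId (RatFunc F) (FL W) : RatFunc F →+* FL W) (-yL W - ofK W (bK W)) = 0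
    have e : ∀ r : RatFunc F, (Algebra.ofId (RatFunc F) (FL W) : RatFunc F →+* FL W) r = ofK W r :=
      fun r => rfl
    simp only [eval₂_sub, eval₂_add, eval₂_mul, eval₂_pow, eval₂_X, eval₂_C, e]
    linear_combination yL_sq W)

@[simp] lemma conjK_ofK (r : RatFunc F) : conjK W (ofK W r) = ofK W r := by
  simp [conjK]

@[simp] lemma conjK_yL : conjK W (yL W) = -yL W - ofK W (bK W) := by
  simp [conjK, yL]

/-- The conjugation as an `F`-algebra endomorphism. -/
def conjF : FL W →ₐ[F] FL W := (conjK W).restrictScalars F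

lemma conjF_apply (z : FL W) : conjF W z = conjK W z := rfl

omit hirr in
/-- In characteristic `2`, a Weierstrass curve with `a₁ = a₃ = 0` is singular. -/
lemma Δ_eq_zero_of_bK (hb : bK W = 0) (h2 : (2 : F) = 0) : W.Δ = 0 := by
  have hpoly : (C W.a₁ * X + C W.a₃ : F[X]) = 0 := by
    apply RatFunc.algebraMap_injective F
    rw [map_zero, ← hb, bK]
    simp [RatFunc.algebraMap_C, RatFunc.algebraMap_X]
  have h1 : W.a₁ = 0 := by
    have := congrArg (fun p : F[X] => p.coeff 1) hpoly
    simpa using this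
  have h3 : W.a₃ = 0 := by
    have := congrArg (fun p : F[X] => p.coeff 0) hpoly
    simpa using this
  simp only [WeierstrassCurve.Δ, WeierstrassCurve.b₂, WeierstrassCurve.b₄, WeierstrassCurve.b₆,
    WeierstrassCurve.b₈, h1, h3]
  linear_combination (-8 * W.a₂ ^ 2 * (4 * W.a₂ * W.a₆ - W.a₄ ^ 2) - 32 * W.a₄ ^ 3
    - 216 * W.a₆ ^ 2 + 144 * W.a₂ * W.a₄ * W.a₆) * h2

/-- The fixed field of the conjugation is `F(t)`. -/
lemma exists_ofK_of_conj_eq (hΔ : W.Δ ≠ 0) {z : FL W} (h : conjK W z = z) :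
    ∃ r : RatFunc F, z = ofK W r := by
  obtain ⟨α, β, rfl⟩ := exists_repr W z
  refine ⟨α, ?_⟩
  have h1 : ofK W (-(β * bK W)) + ofK W (-(2 * β)) * yL W = 0 := by
    simp only [map_add, map_mul, conjK_ofK, conjK_yL] at h
    simp only [map_neg, map_mul, map_ofNat]
    linear_combination h
  obtain ⟨e1, e2⟩ := repr_eq_zero W h1
  have hβ : β = 0 := by
    by_contra hβ
    have hb : bK W = 0 := by
      have : β * bK W = 0 := neg_eq_zero.mp e1
      exact (mul_eq_zero.mp this).resolve_left hβ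
    have h2 : (2 : RatFunc F) = 0 := by
      have : 2 * β = 0 := neg_eq_zero.mp e2
      exact (mul_eq_zero.mp this).resolve_right hβ
    have h2F : (2 : F) = 0 := by
      apply RatFunc.C_injective
      rw [map_ofNat, map_zero]; exact h2
    exact hΔ (Δ_eq_zero_of_bK W hb h2F)
  rw [hβ, map_zero, zero_mul, add_zero]

/-! ## The subgroup `Λ` of anti-invariant points and the height -/

noncomputable instance instDecEqFL : DecidableEq (FL W) := Classical.decEq _

/-- `Λ = {P ∈ W(L) : conj P = -P}`. -/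
def Lam : AddSubgroup (W⁄(FL W)).Point :=
  (Point.map (W' := W) (conjF W) + AddMonoidHom.id _).ker

lemma mem_Lam {P : (W⁄(FL W)).Point} : P ∈ Lam W ↔ Point.map (W' := W) (conjF W) P = -P := by
  rw [Lam, AddMonoidHom.mem_ker, AddMonoidHom.add_apply, AddMonoidHom.id_apply,
    add_eq_zero_iff_eq_neg]

lemma genPt_mem (hΔ : W.Δ ≠ 0) : genPt W hΔ ∈ Lam W := by
  rw [mem_Lam, genPt, Point.map_some, Point.neg_some]
  simp only [Point.some.injEq]
  refine ⟨by simp [conjF_apply, tL], ?_⟩
  rw [conjF_apply, conjK_yL, ofK_bK]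
  simp only [Affine.negY, baseChange_a₁, baseChange_a₃]
  ring

/-- The `x`-coordinate of an affine point of `Λ` lies in `F(t)`. -/
lemma exists_ofK_of_mem (hΔ : W.Δ ≠ 0) {x y : FL W} {h : (W⁄(FL W)).Nonsingular x y}
    (hP : Point.some x y h ∈ Lam W) : ∃ r : RatFunc F, x = ofK W r := by
  rw [mem_Lam, Point.map_some, Point.neg_some] at hP
  simp only [Point.some.injEq] at hP
  exact exists_ofK_of_conj_eq W hΔ hP.1

open Classical in
/-- The height of a point of `W(L)`: `0` at infinity, the height of the `x`-coordinate if it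
lies in `F(t)` (junk value `0` otherwise). -/
def hL (P : (W⁄(FL W)).Point) : ℕ :=
  match P with
  | .zero => 0
  | .some x _ _ => if h : ∃ r : RatFunc F, ofK W r = x then ht (Classical.choose h) else 0

lemma hL_zero : hL W 0 = 0 := rfl

lemma hL_some_ofK (r : RatFunc F) {y : FL W} (h : (W⁄(FL W)).Nonsingular (ofK W r) y) :
    hL W (Point.some _ _ h) = ht r := by
  have hex : ∃ r' : RatFunc F, ofK W r' = ofK W r := ⟨r, rfl⟩
  have : hL W (Point.some _ _ h) = ht (Classical.choose hex) := by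
    simp only [hL, dif_pos hex]
  rw [this]
  exact congrArg ht (ofK_injective W (Classical.choose_spec hex))

lemma hL_neg (P : (W⁄(FL W)).Point) : hL W (-P) = hL W P := by
  rcases P with _ | ⟨x, y, h⟩
  · rfl
  · rw [Point.neg_some]; rfl

lemma hL_some_eq {x y : FL W} (h : (W⁄(FL W)).Nonsingular x y) (r : RatFunc F)
    (hx : x = ofK W r) : hL W (Point.some x y h) = ht r := by
  subst hx
  exact hL_some_ofK W r h

/-! ## Primitive projective coordinates and the parallelogram law on `Λ` -/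

/-- The inclusion `F[t] → L`. -/
def aL : F[X] →+* FL W := (ofK W).comp (algebraMap F[X] (RatFunc F))

lemma aL_apply (p : F[X]) : aL W p = ofK W (algebraMap F[X] (RatFunc F) p) := rfl

lemma aL_injective : Function.Injective (aL W) :=
  (ofK_injective W).comp (RatFunc.algebraMap_injective F)

lemma aL_C (a : F) : aL W (C a) = algebraMap F (FL W) a := by
  rw [algebraMap_F_eq, aL_apply, RatFunc.algebraMap_C]

lemma aL_X : aL W X = tL W := by
  rw [aL_apply, RatFunc.algebraMap_X]; rfl

lemma baseChange_b₂' : (W⁄(FL W)).b₂ = aL W (C W.b₂) := by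
  rw [aL_C]; show (W.map (algebraMap F (FL W))).b₂ = _; rw [WeierstrassCurve.map_b₂]

lemma baseChange_b₄' : (W⁄(FL W)).b₄ = aL W (C W.b₄) := by
  rw [aL_C]; show (W.map (algebraMap F (FL W))).b₄ = _; rw [WeierstrassCurve.map_b₄]

lemma baseChange_b₆' : (W⁄(FL W)).b₆ = aL W (C W.b₆) := by
  rw [aL_C]; show (W.map (algebraMap F (FL W))).b₆ = _; rw [WeierstrassCurve.map_b₆]

lemma baseChange_b₈' : (W⁄(FL W)).b₈ = aL W (C W.b₈) := by
  rw [aL_C]; show (W.map (algebraMap F (FL W))).b₈ = _; rw [WeierstrassCurve.map_b₈]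

omit hirr in
lemma prim3_zero : Prim3 0 (0 : F[X]) 1 0 where
  fin := fun M hM h => hM.ne_top ((Ideal.eq_top_iff_one M).mpr h.2.1)
  da := by simp
  db := by simp
  dc := by simp
  top := fun h => by simpa using h.2.1

/-- Primitive projective `x`-coordinates of a point of `Λ`. -/
lemma exists_prim (hΔ : W.Δ ≠ 0) {P : (W⁄(FL W)).Point} (hP : P ∈ Lam W) :
    ∃ (D : ℕ) (n d : F[X]) (e : FL W), Prim3 D d n 0 ∧ hL W P = D ∧ e ≠ 0 ∧
      px P = e * aL W n ∧ pz P = e * aL W d := by
  rcases P with _ | ⟨x, y, h⟩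
  · refine ⟨0, 1, 0, 1, prim3_zero, rfl, one_ne_zero, ?_, ?_⟩
    · rw [map_one, mul_one]; exact px_zero
    · rw [map_zero, mul_zero]; exact pz_zero
  · obtain ⟨r, rfl⟩ := exists_ofK_of_mem W hΔ hP
    have hd : aL W r.denom ≠ 0 := by
      rw [Ne, map_eq_zero_iff _ (aL_injective W)]
      exact RatFunc.denom_ne_zero r
    refine ⟨ht r, r.num, r.denom, (aL W r.denom)⁻¹,
      Fermat.Agent.S52.helper6492.prim3_num_denom r, hL_some_ofK W r h, inv_ne_zero hd, ?_, ?_⟩
    · rw [px_some]
      conv_lhs => rw [← RatFunc.num_div_denom r]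
      rw [map_div₀]
      show aL W r.num / aL W r.denom = _
      rw [div_eq_inv_mul]
    · rw [pz_some, inv_mul_cancel₀ hd]

lemma aL_pS (s t u : F[X]) : aL W (pS W s t u) =
    symS (W⁄(FL W)).b₄ (W⁄(FL W)).b₆ (W⁄(FL W)).b₈ (aL W s) (aL W t) (aL W u) := by
  simp only [pS, symS, baseChange_b₄', baseChange_b₆', baseChange_b₈', map_sub, map_mul, map_pow]

lemma aL_pT (s t u : F[X]) : aL W (pT W s t u) =
    symT (W⁄(FL W)).b₂ (W⁄(FL W)).b₄ (W⁄(FL W)).b₆ (aL W s) (aL W t) (aL W u) := by
  simp only [pT, symT, baseChange_b₂', baseChange_b₄', baseChange_b₆', map_add, map_mul, map_pow,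
    map_ofNat]

lemma aL_pU (s t u : F[X]) : aL W (pU s t u) = symU (aL W s) (aL W t) (aL W u) := by
  simp only [pU, symU, map_sub, map_mul, map_pow, map_ofNat]

/-- **Parallelogram law** for the height on `Λ`. -/
theorem hL_parallelogram (hΔ : W.Δ ≠ 0) (hx : XParStmt W) {P Q : (W⁄(FL W)).Point}
    (hP : P ∈ Lam W) (hQ : Q ∈ Lam W) :
    hL W (P + Q) + hL W (P - Q) = 2 * hL W P + 2 * hL W Q := by
  obtain ⟨D₁, n₁, d₁, e₁, p₁, h₁, he₁, x₁, z₁⟩ := exists_prim W hΔ hP
  obtain ⟨D₂, n₂, d₂, e₂, p₂, h₂, he₂, x₂, z₂⟩ := exists_prim W hΔ hQ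
  obtain ⟨D₃, n₃, d₃, e₃, p₃, h₃, he₃, x₃, z₃⟩ := exists_prim W hΔ ((Lam W).add_mem hP hQ)
  obtain ⟨D₄, n₄, d₄, e₄, p₄, h₄, he₄, x₄, z₄⟩ := exists_prim W hΔ ((Lam W).sub_mem hP hQ)
  obtain ⟨c, hc, hS, hT, hU⟩ := Fermat.Agent.Lib.helper853.addSubRel (W⁄(FL W)) P Q
  simp only [x₁, x₂, x₃, x₄, z₁, z₂, z₃, z₄] at hS hT hU
  rw [h₁, h₂, h₃, h₄]
  have hlam : (e₁ * e₂) ^ 2 * (c * e₃ * e₄) ≠ 0 :=
    mul_ne_zero (pow_ne_zero 2 (mul_ne_zero he₁ he₂)) (mul_ne_zero (mul_ne_zero hc he₃) he₄)
  have ES : (e₁ * e₂) ^ 2 * aL W (pS W (n₁ * n₂) (n₁ * d₂ + d₁ * n₂) (d₁ * d₂)) =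
      c * e₃ * e₄ * aL W (n₃ * n₄) := by
    rw [aL_pS]
    simp only [map_mul, map_add, symS] at hS ⊢
    linear_combination hS
  have ET : (e₁ * e₂) ^ 2 * aL W (pT W (n₁ * n₂) (n₁ * d₂ + d₁ * n₂) (d₁ * d₂)) =
      c * e₃ * e₄ * aL W (n₃ * d₄ + d₃ * n₄) := by
    rw [aL_pT]
    simp only [map_mul, map_add, symT] at hT ⊢
    linear_combination hT
  have EU : (e₁ * e₂) ^ 2 * aL W (pU (n₁ * n₂) (n₁ * d₂ + d₁ * n₂) (d₁ * d₂)) =
      c * e₃ * e₄ * aL W (d₃ * d₄) := by
    rw [aL_pU]
    simp only [map_mul, map_add, symU] at hU ⊢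
    linear_combination hU
  have key := hx D₁ D₂ D₃ D₄ n₁ d₁ n₂ d₂ n₃ d₃ n₄ d₄ p₁ p₂ p₃ p₄ ?_ ?_ ?_
  · omega
  · apply aL_injective W
    apply mul_left_cancel₀ hlam
    rw [map_mul (aL W) (pS W _ _ _), map_mul (aL W) (pT W _ _ _)]
    linear_combination (c * e₃ * e₄ * aL W (n₃ * d₄ + d₃ * n₄)) * ES -
      (c * e₃ * e₄ * aL W (n₃ * n₄)) * ET
  · apply aL_injective W
    apply mul_left_cancel₀ hlam
    rw [map_mul (aL W) (pS W _ _ _), map_mul (aL W) (pU _ _ _)]
    linear_combination (c * e₃ * e₄ * aL W (d₃ * d₄)) * ES -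
      (c * e₃ * e₄ * aL W (n₃ * n₄)) * EU
  · apply aL_injective W
    apply mul_left_cancel₀ hlam
    rw [map_mul (aL W) (pT W _ _ _), map_mul (aL W) (pU _ _ _)]
    linear_combination (c * e₃ * e₄ * aL W (d₃ * d₄)) * ET -
      (c * e₃ * e₄ * aL W (n₃ * d₄ + d₃ * n₄)) * EU

/-! ## Endomorphisms of `L` commuting with the conjugation act on `Λ` -/

lemma map_mem_Lam (σ : FL W →ₐ[F] FL W) (hσ : ∀ z, conjF W (σ z) = σ (conjF W z))
    {P : (W⁄(FL W)).Point} (hP : P ∈ Lam W) : Point.map (W' := W) σ P ∈ Lam W := by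
  rw [mem_Lam] at hP ⊢
  have hcomm : (conjF W).comp σ = σ.comp (conjF W) := AlgHom.ext hσ
  rw [Point.map_map, hcomm, ← Point.map_map, hP, map_neg]

/-- The restriction to `Λ` of the map on points induced by an endomorphism commuting with the
conjugation. -/
def onLam (σ : FL W →ₐ[F] FL W) (hσ : ∀ z, conjF W (σ z) = σ (conjF W z)) : Lam W →+ Lam W :=
  ((Point.map (W' := W) σ).comp (Lam W).subtype).codRestrict (Lam W)
    (fun P => map_mem_Lam W σ hσ P.2)

lemma onLam_coe (σ : FL W →ₐ[F] FL W) (hσ : ∀ z, conjF W (σ z) = σ (conjF W z)) (P : Lam W) :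
    ((onLam W σ hσ P : Lam W) : (W⁄(FL W)).Point) = Point.map (W' := W) σ P.1 := rfl

/-! ## The Frobenius -/

section frob

variable [Fintype F]

/-- The `q`-power Frobenius of `L`. -/
def frobL : FL W →ₐ[F] FL W := FiniteField.frobeniusAlgHom F (FL W)

lemma frobL_apply (z : FL W) : frobL W z = z ^ Fintype.card F := by
  simp [frobL]

lemma frobL_comm (σ : FL W →ₐ[F] FL W) (z : FL W) : σ (frobL W z) = frobL W (σ z) := by
  rw [frobL_apply, frobL_apply, map_pow]

lemma conjF_frobL (z : FL W) : conjF W (frobL W z) = frobL W (conjF W z) := frobL_comm W _ z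

/-- Frobenius multiplies the height by `q`. -/
lemma hL_frobL (hΔ : W.Δ ≠ 0) {P : (W⁄(FL W)).Point} (hP : P ∈ Lam W) :
    hL W (Point.map (W' := W) (frobL W) P) = Fintype.card F * hL W P := by
  rcases P with _ | ⟨x, y, h⟩
  · show hL W 0 = _ * hL W 0
    rw [hL_zero, mul_zero]
  · obtain ⟨r, rfl⟩ := exists_ofK_of_mem W hΔ hP
    rw [Point.map_some, hL_some_ofK W r h]
    rw [hL_some_eq W _ (r ^ Fintype.card F) (by rw [frobL_apply, map_pow])]
    exact Fermat.Agent.S52.helper5875.ht_pow r _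

end frob

/-! ## The substitution endomorphism attached to a non-constant point of `Λ` -/

section rho

variable (r : RatFunc F) (hr : ¬ ∃ c, r = RatFunc.C c) (yQ : FL W)
  (hQ : (W⁄(FL W)).Equation (ofK W r) yQ)

/-- The substitution `t ↦ r`, `F(t) → L`. -/
def rho0 : RatFunc F →ₐ[F] FL W :=
  (IsScalarTower.toAlgHom F (RatFunc F) (FL W)).comp (Fermat.Agent.S52.helper5875.substHom r hr)

lemma rho0_apply (s : RatFunc F) :
    rho0 W r hr s = ofK W (Fermat.Agent.S52.helper5875.substHom r hr s) := rfl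

include hQ in
lemma rho_aux : (quadPoly W).eval₂ (rho0 W r hr : RatFunc F →+* FL W) yQ = 0 := by
  show (X ^ 2 + C (bK W) * X - C (fK W) : (RatFunc F)[X]).eval₂
    (rho0 W r hr : RatFunc F →+* FL W) yQ = 0
  have e : ∀ s : RatFunc F, (rho0 W r hr : RatFunc F →+* FL W) s =
      ofK W (Fermat.Agent.S52.helper5875.substHom r hr s) := fun s => rfl
  simp only [eval₂_sub, eval₂_add, eval₂_mul, eval₂_pow, eval₂_X, eval₂_C, e]
  rw [Affine.equation_iff] at hQ
  simp only [baseChange_a₁, baseChange_a₂, baseChange_a₃, baseChange_a₄, baseChange_a₆,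
    algebraMap_F_eq] at hQ
  simp only [bK, fK, map_add, map_mul, map_pow, Fermat.Agent.S52.helper5875.substHom_X,
    Fermat.Agent.S52.helper5875.substHom_C]
  linear_combination hQ

/-- The substitution endomorphism `t ↦ r`, `y ↦ yQ` of `L`. -/
def rho : FL W →ₐ[F] FL W :=
  AdjoinRoot.liftAlgHom (quadPoly W) (rho0 W r hr) yQ (rho_aux W r hr yQ hQ)

lemma rho_ofK (s : RatFunc F) :
    rho W r hr yQ hQ (ofK W s) = ofK W (Fermat.Agent.S52.helper5875.substHom r hr s) := by
  simp [rho, rho0_apply]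

lemma rho_yL : rho W r hr yQ hQ (yL W) = yQ := by
  simp [rho, yL]

lemma rho_tL : rho W r hr yQ hQ (tL W) = ofK W r := by
  rw [tL, rho_ofK, Fermat.Agent.S52.helper5875.substHom_X]

/-- `ρ_Q` commutes with the conjugation if `conj yQ = -yQ - a₁ r - a₃`. -/
lemma rho_conj (hc : conjK W yQ = -yQ - ofK W (RatFunc.C W.a₁ * r + RatFunc.C W.a₃)) (z : FL W) :
    conjF W (rho W r hr yQ hQ z) = rho W r hr yQ hQ (conjF W z) := by
  have key : ((conjF W : FL W →+* FL W)).comp (rho W r hr yQ hQ : FL W →+* FL W) =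
      (rho W r hr yQ hQ : FL W →+* FL W).comp (conjF W : FL W →+* FL W) := by
    apply AdjoinRoot.ringHom_ext
    · ext s
      show conjF W (rho W r hr yQ hQ (ofK W s)) = rho W r hr yQ hQ (conjF W (ofK W s))
      rw [conjF_apply, conjF_apply, conjK_ofK, rho_ofK, conjK_ofK]
    · show conjF W (rho W r hr yQ hQ (yL W)) = rho W r hr yQ hQ (conjF W (yL W))
      rw [conjF_apply, conjF_apply, conjK_yL, rho_yL, map_sub, map_neg, rho_yL, rho_ofK, hc]
      simp only [bK, map_add, map_mul, Fermat.Agent.S52.helper5875.substHom_X,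
        Fermat.Agent.S52.helper5875.substHom_C]
  exact congrArg (fun f : FL W →+* FL W => f z) key

/-- `ρ_Q` multiplies the height by `ht r`. -/
lemma hL_rho (hΔ : W.Δ ≠ 0) {P : (W⁄(FL W)).Point} (hP : P ∈ Lam W) :
    hL W (Point.map (W' := W) (rho W r hr yQ hQ) P) = ht r * hL W P := by
  rcases P with _ | ⟨x, y, h⟩
  · show hL W 0 = _ * hL W 0
    rw [hL_zero, mul_zero]
  · obtain ⟨s, rfl⟩ := exists_ofK_of_mem W hΔ hP
    rw [Point.map_some, hL_some_ofK W s h]
    rw [hL_some_eq W _ _ (rho_ofK W r hr yQ hQ s), Fermat.Agent.S52.helper5875.ht_substHom,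
      mul_comm]

/-- `ρ_Q` sends the generic point to `Q`. -/
lemma rho_genPt (hΔ : W.Δ ≠ 0) (h : (W⁄(FL W)).Nonsingular (ofK W r) yQ) :
    Point.map (W' := W) (rho W r hr yQ hQ) (genPt W hΔ) = Point.some _ _ h := by
  rw [genPt, Point.map_some]
  simp only [Point.some.injEq]
  exact ⟨rho_tL W r hr yQ hQ, rho_yL W r hr yQ hQ⟩

end rho

/-! ## The count: the height of `φ G - G` -/

section count

/-- Evaluation of the coordinate ring of `W` at the generic point. -/
def evC : W.toAffine.CoordinateRing →+* FL W :=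
  AdjoinRoot.lift (aL W) (yL W) (by
    rw [Affine.polynomial]
    simp only [eval₂_sub, eval₂_add, eval₂_mul, eval₂_pow, eval₂_X, eval₂_C, map_add, map_mul,
      map_pow, aL_C, aL_X]
    have h := yL_sq W
    rw [ofK_bK, ofK_fK] at h
    linear_combination h)

lemma evC_mk (p : F[X][X]) : evC W (CoordinateRing.mk W.toAffine p) = p.eval₂ (aL W) (yL W) :=
  AdjoinRoot.lift_mk _ _

lemma evC_xc : evC W (xc W) = tL W := by
  rw [xc, evC_mk, eval₂_C, aL_X]

lemma evC_yc : evC W (yc W) = yL W := by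
  rw [yc, evC_mk, eval₂_X]

lemma evC_algebraMap_poly (p : F[X]) :
    evC W (algebraMap F[X] W.toAffine.CoordinateRing p) = aL W p := by
  have : algebraMap F[X] W.toAffine.CoordinateRing p = CoordinateRing.mk W.toAffine (C p) := rfl
  rw [this, evC_mk, eval₂_C]

lemma evC_algebraMap (a : F) :
    evC W (algebraMap F W.toAffine.CoordinateRing a) = algebraMap F (FL W) a := by
  have : algebraMap F W.toAffine.CoordinateRing a = CoordinateRing.mk W.toAffine (C (C a)) := rfl
  rw [this, evC_mk, eval₂_C, aL_C]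

lemma evC_dc (q : ℕ) : evC W (dc W q) = tL W ^ q - tL W := by
  simp only [dc, map_sub, map_pow, evC_xc]

lemma evC_uc (q : ℕ) : evC W (uc W q) =
    yL W ^ q + yL W + (algebraMap F (FL W) W.a₁ * tL W + algebraMap F (FL W) W.a₃) := by
  simp only [uc, map_add, map_mul, map_pow, evC_xc, evC_yc, evC_algebraMap]

lemma evC_numc (q : ℕ) : evC W (numc W q) =
    evC W (uc W q) ^ 2 + algebraMap F (FL W) W.a₁ * evC W (uc W q) * evC W (dc W q) -
      (algebraMap F (FL W) W.a₂ + tL W ^ q + tL W) * evC W (dc W q) ^ 2 := by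
  simp only [numc, map_add, map_sub, map_mul, map_pow, evC_xc, evC_algebraMap]

variable [Fintype F]

lemma tL_pow_ne : tL W ^ Fintype.card F ≠ tL W := by
  intro h
  have h1 : aL W (X ^ Fintype.card F) = aL W X := by rw [map_pow, aL_X]; exact h
  have h2 := aL_injective W h1
  have h3 := congrArg Polynomial.natDegree h2
  rw [natDegree_X_pow, natDegree_X] at h3
  exact absurd h3 (Fintype.one_lt_card).ne'

/-- The point `φ G - G` is affine, with `x`-coordinate `numc / δ²`. -/
lemma frob_sub_gen (hΔ : W.Δ ≠ 0) :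
    ∃ (x3 y3 : FL W) (h3 : (W⁄(FL W)).Nonsingular x3 y3),
      Point.map (W' := W) (frobL W) (genPt W hΔ) - genPt W hΔ = Point.some x3 y3 h3 ∧
      x3 * evC W (dc W (Fintype.card F)) ^ 2 = evC W (numc W (Fintype.card F)) := by
  have hne : frobL W (tL W) ≠ tL W := by rw [frobL_apply]; exact tL_pow_ne W
  have hδ : tL W ^ Fintype.card F - tL W ≠ 0 := sub_ne_zero.mpr (tL_pow_ne W)
  rw [genPt, Point.map_some, sub_eq_add_neg, Point.neg_some, Point.add_of_X_ne hne]
  refine ⟨_, _, _, rfl, ?_⟩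
  rw [Affine.slope_of_X_ne hne, evC_numc, evC_uc, evC_dc, frobL_apply, frobL_apply]
  simp only [Affine.addX, Affine.negY, baseChange_a₁, baseChange_a₂, baseChange_a₃]
  field_simp
  ring

/-- **The count**: `φ G - G` has `x`-coordinate in `F(t)` of height `#W(F)`. -/
theorem hL_frob_sub_gen (hΔ : W.Δ ≠ 0) (hc : CountStmt W) :
    ∃ (r : RatFunc F) (y3 : FL W) (h3 : (W⁄(FL W)).Nonsingular (ofK W r) y3),
      Point.map (W' := W) (frobL W) (genPt W hΔ) - genPt W hΔ = Point.some _ _ h3 ∧
      ht r = Nat.card W.toAffine.Point ∧ ¬ ∃ c, r = RatFunc.C c := by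
  obtain ⟨x3, y3, h3, e, hx3⟩ := frob_sub_gen W hΔ
  obtain ⟨n, d, hcop, hdeg, hcard, heq⟩ := hc
  have hδ : evC W (dc W (Fintype.card F)) ^ 2 ≠ 0 := by
    rw [evC_dc]; exact pow_ne_zero 2 (sub_ne_zero.mpr (tL_pow_ne W))
  have h1 : aL W n = aL W d * x3 := by
    have := congrArg (evC W) heq
    rw [map_mul, map_mul, evC_algebraMap_poly, evC_algebraMap_poly, ← hx3, map_pow] at this
    apply mul_right_cancel₀ hδ
    linear_combination this
  have hd : d ≠ 0 := by
    rintro rfl
    rw [map_zero, zero_mul, map_eq_zero_iff _ (aL_injective W)] at h1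
    rw [h1] at hdeg
    simp at hdeg
  have hd' : aL W d ≠ 0 := by rwa [Ne, map_eq_zero_iff _ (aL_injective W)]
  have hx : x3 = ofK W (algebraMap F[X] (RatFunc F) n / algebraMap F[X] (RatFunc F) d) := by
    rw [map_div₀]
    show x3 = aL W n / aL W d
    rw [h1, mul_div_cancel_left₀ _ hd']
  have hht : ht (algebraMap F[X] (RatFunc F) n / algebraMap F[X] (RatFunc F) d) =
      Nat.card W.toAffine.Point := by
    rw [Fermat.Agent.S52.helper5875.ht_div_of_isCoprime hd hcop, ← hcard, hdeg]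
    simp
  subst hx
  refine ⟨_, y3, h3, e, hht, ?_⟩
  rw [← Fermat.Agent.S52.helper5875.ht_eq_zero_iff, hht, ← hcard]
  omega

end count

/-! ## The abstract quadratic-form ending -/

section abstract

open Fermat.Agent.S52.helper1617

/-- Abstract form of `φ² - a φ + ℓ = 0` on the generic point, with the substitution endomorphism
`R` attached to `φ P0 - P0`: if `Fr` multiplies the quadratic height `h` by `l`, `R` multiplies
it by `N = h (Fr P0 - P0)`, `R P0 = Fr P0 - P0`, `R` commutes with `Fr` and `h P0 = 1`, then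
`h (Fr (Fr P0) - (l + 1 - N) • Fr P0 + l • P0) = 0`. -/
theorem frobenius_quadratic_sub {G : Type*} [AddCommGroup G] {h : G → ℤ} (hp : IsPar h)
    (Fr R : G →+ G) (P0 : G) (l N : ℤ)
    (hF : ∀ x, h (Fr x) = l * h x) (hR : ∀ x, h (R x) = N * h x)
    (hRP : R P0 = Fr P0 - P0) (hRF : ∀ x, R (Fr x) = Fr (R x))
    (hP0 : h P0 = 1) (hN : h (Fr P0 - P0) = N) :
    h (Fr (Fr P0) - (l + 1 - N) • Fr P0 + l • P0) = 0 := by
  have e1 : h (Fr P0) = l := by rw [hF, hP0, mul_one]
  have e2 : h (Fr (Fr P0)) = l * l := by rw [hF, e1]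
  have b1 : IsPar.pairing h (Fr P0) P0 = l + 1 - N := by
    have := hp.map_sub (Fr P0) P0
    rw [hN, e1, hP0] at this
    linarith
  have b2 : IsPar.pairing h (Fr (Fr P0)) (Fr P0) = l * (l + 1 - N) := by
    rw [IsPar.pairing_map hF, b1]
  have e3 : R (Fr P0 - P0) = Fr (Fr P0) + (-2 : ℤ) • Fr P0 + (1 : ℤ) • P0 := by
    rw [map_sub, hRF, hRP, map_sub, neg_smul, one_smul, two_smul]
    abel
  have e4 : h (Fr (Fr P0) + (-2 : ℤ) • Fr P0 + (1 : ℤ) • P0) = N * N := by
    rw [← e3, hR, hN]
  have b3 : IsPar.pairing h (Fr (Fr P0)) P0 = (l + 1 - N) ^ 2 - 2 * l := by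
    rw [hp.map_add_add, hp.map_zsmul, hp.map_zsmul, hp.pairing_zsmul_right,
      hp.pairing_zsmul_right, hp.pairing_zsmul_left, hp.pairing_zsmul_right, e1, e2, hP0, b1,
      b2] at e4
    linear_combination e4
  have e5 : Fr (Fr P0) - (l + 1 - N) • Fr P0 + l • P0
      = Fr (Fr P0) + (-(l + 1 - N)) • Fr P0 + l • P0 := by
    rw [neg_smul, sub_eq_add_neg]
  rw [e5, hp.map_add_add, hp.map_zsmul, hp.map_zsmul, hp.pairing_zsmul_right,
    hp.pairing_zsmul_right, hp.pairing_zsmul_left, hp.pairing_zsmul_right, e1, e2, hP0, b1, b2,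
    b3]
  ring

end abstract

/-! ## The relation on the generic point, up to a constant point -/

section assemble

variable [Fintype F]

omit [Fintype F] in
lemma hL_genPt (hΔ : W.Δ ≠ 0) : hL W (genPt W hΔ) = 1 := by
  rw [genPt]
  exact (hL_some_eq W _ RatFunc.X rfl).trans Fermat.Agent.S52.helper5875.ht_X

/-- `Z = φ² G - a φ G + q G` lies in `Λ` and has height `0`. -/
theorem hL_relation (hΔ : W.Δ ≠ 0) (hx : XParStmt W) (hc : CountStmt W) :
    Point.map (W' := W) (frobL W) (Point.map (W' := W) (frobL W) (genPt W hΔ)) -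
        ((Fintype.card F : ℤ) + 1 - (Nat.card W.toAffine.Point : ℤ)) •
          Point.map (W' := W) (frobL W) (genPt W hΔ) +
        (Fintype.card F : ℤ) • genPt W hΔ ∈ Lam W ∧
    hL W (Point.map (W' := W) (frobL W) (Point.map (W' := W) (frobL W) (genPt W hΔ)) -
        ((Fintype.card F : ℤ) + 1 - (Nat.card W.toAffine.Point : ℤ)) •
          Point.map (W' := W) (frobL W) (genPt W hΔ) +
        (Fintype.card F : ℤ) • genPt W hΔ) = 0 := by
  obtain ⟨r, y3, h3, e, hr, hnc⟩ := hL_frob_sub_gen W hΔ hc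
  have hGm : genPt W hΔ ∈ Lam W := genPt_mem W hΔ
  have hφGm : Point.map (W' := W) (frobL W) (genPt W hΔ) ∈ Lam W :=
    map_mem_Lam W (frobL W) (conjF_frobL W) hGm
  have hQm : Point.some _ _ h3 ∈ Lam W := by
    rw [← e]; exact (Lam W).sub_mem hφGm hGm
  have hcj : conjK W y3 = -y3 - ofK W (RatFunc.C W.a₁ * r + RatFunc.C W.a₃) := by
    have h := hQm
    rw [mem_Lam, Point.map_some, Point.neg_some] at h
    simp only [Point.some.injEq] at h
    have h2 := h.2
    rw [conjF_apply] at h2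
    rw [h2]
    simp only [Affine.negY, baseChange_a₁, baseChange_a₃, algebraMap_F_eq, map_add, map_mul]
    ring
  set Fr : Lam W →+ Lam W := onLam W (frobL W) (conjF_frobL W) with hFr
  set R : Lam W →+ Lam W := onLam W (rho W r hnc y3 h3.1) (rho_conj W r hnc y3 h3.1 hcj) with hR
  set P0 : Lam W := ⟨genPt W hΔ, hGm⟩ with hP0
  have hpar : Fermat.Agent.S52.helper1617.IsPar (fun P : Lam W => (hL W P.1 : ℤ)) :=
    Fermat.Agent.S52.helper1617.isPar_of_nat (hN := fun P : Lam W => hL W P.1)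
      (fun P Q => hL_parallelogram W hΔ hx P.2 Q.2)
  have key := frobenius_quadratic_sub hpar Fr R P0 (Fintype.card F : ℤ)
    (Nat.card W.toAffine.Point : ℤ)
    (fun P => by
      show ((hL W (Point.map (W' := W) (frobL W) P.1) : ℕ) : ℤ) = _ * (hL W P.1 : ℤ)
      rw [hL_frobL W hΔ P.2]; push_cast; ring)
    (fun P => by
      show ((hL W (Point.map (W' := W) (rho W r hnc y3 h3.1) P.1) : ℕ) : ℤ) = _ * (hL W P.1 : ℤ)
      rw [hL_rho W r hnc y3 h3.1 hΔ P.2, hr]; push_cast; ring)
    (by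
      apply Subtype.ext
      show Point.map (W' := W) (rho W r hnc y3 h3.1) (genPt W hΔ) =
        Point.map (W' := W) (frobL W) (genPt W hΔ) - genPt W hΔ
      rw [rho_genPt W r hnc y3 h3.1 hΔ h3, e])
    (fun P => by
      apply Subtype.ext
      show Point.map (W' := W) (rho W r hnc y3 h3.1) (Point.map (W' := W) (frobL W) P.1) =
        Point.map (W' := W) (frobL W) (Point.map (W' := W) (rho W r hnc y3 h3.1) P.1)
      have hcomm : (rho W r hnc y3 h3.1).comp (frobL W) = (frobL W).comp (rho W r hnc y3 h3.1) :=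
        AlgHom.ext (fun z => by
          show rho W r hnc y3 h3.1 (frobL W z) = frobL W (rho W r hnc y3 h3.1 z)
          exact frobL_comm W _ z)
      rw [Point.map_map, Point.map_map, hcomm])
    (by
      show ((hL W (genPt W hΔ) : ℕ) : ℤ) = 1
      rw [hL_genPt]; rfl)
    (by
      show ((hL W (Point.map (W' := W) (frobL W) (genPt W hΔ) - genPt W hΔ) : ℕ) : ℤ) = _
      rw [e, hL_some_ofK W r h3, hr])
  refine ⟨?_, ?_⟩
  · exact (Lam W).add_mem ((Lam W).sub_mem (map_mem_Lam W (frobL W) (conjF_frobL W) hφGm)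
      ((Lam W).zsmul_mem hφGm _)) ((Lam W).zsmul_mem hGm _)
  · exact_mod_cast key

/-- `Z = φ² G - a φ G + q G` is `0` or an affine point with constant `x`-coordinate. -/
theorem relation_const (hΔ : W.Δ ≠ 0) (hx : XParStmt W) (hc : CountStmt W) :
    Point.map (W' := W) (frobL W) (Point.map (W' := W) (frobL W) (genPt W hΔ)) -
        ((Fintype.card F : ℤ) + 1 - (Nat.card W.toAffine.Point : ℤ)) •
          Point.map (W' := W) (frobL W) (genPt W hΔ) +
        (Fintype.card F : ℤ) • genPt W hΔ = 0 ∨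
    ∃ (c : F) (y : FL W) (h : (W⁄(FL W)).Nonsingular (algebraMap F (FL W) c) y),
      Point.map (W' := W) (frobL W) (Point.map (W' := W) (frobL W) (genPt W hΔ)) -
        ((Fintype.card F : ℤ) + 1 - (Nat.card W.toAffine.Point : ℤ)) •
          Point.map (W' := W) (frobL W) (genPt W hΔ) +
        (Fintype.card F : ℤ) • genPt W hΔ = Point.some _ _ h := by
  obtain ⟨hm, h0⟩ := hL_relation W hΔ hx hc
  generalize Point.map (W' := W) (frobL W) (Point.map (W' := W) (frobL W) (genPt W hΔ)) -
        ((Fintype.card F : ℤ) + 1 - (Nat.card W.toAffine.Point : ℤ)) •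
          Point.map (W' := W) (frobL W) (genPt W hΔ) +
        (Fintype.card F : ℤ) • genPt W hΔ = Z at hm h0 ⊢
  rcases Z with _ | ⟨x, y, h⟩
  · left; rfl
  · right
    obtain ⟨s, rfl⟩ := exists_ofK_of_mem W hΔ hm
    rw [hL_some_ofK W s h, Fermat.Agent.S52.helper5875.ht_eq_zero_iff] at h0
    obtain ⟨c, rfl⟩ := h0
    have key : ∀ (x : FL W) (_ : x = algebraMap F (FL W) c) (h : (W⁄(FL W)).Nonsingular x y),
        ∃ (h' : (W⁄(FL W)).Nonsingular (algebraMap F (FL W) c) y),
          Point.some x y h = Point.some _ _ h' := by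
      intro x hx h
      subst hx
      exact ⟨h, rfl⟩
    obtain ⟨h', e'⟩ := key _ (algebraMap_F_eq W c).symm h
    exact ⟨c, y, h', e'⟩

end assemble

/-! ## The ending: transport to the generic point over an algebraically closed field -/

section ending

open Fermat.Agent.S52.helper586 (GenField genX genY equation_gen transcendental_genX)

universe v

omit hirr in
/-- `Point.map` transports the quadratic expression in the Frobenius. -/
lemma map_relation {A : Type*} [Field A] [Algebra F A] [DecidableEq A]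
    {B : Type*} [Field B] [Algebra F B] [DecidableEq B]
    (φA : A →ₐ[F] A) (φB : B →ₐ[F] B) (σ : A →ₐ[F] B) (hσ : σ.comp φA = φB.comp σ) (a b : ℤ)
    (P : (W⁄A).Point) :
    Point.map (W' := W) σ (Point.map (W' := W) φA (Point.map (W' := W) φA P) -
        a • Point.map (W' := W) φA P + b • P) =
      Point.map (W' := W) φB (Point.map (W' := W) φB (Point.map (W' := W) σ P)) -
        a • Point.map (W' := W) φB (Point.map (W' := W) σ P) + b • Point.map (W' := W) σ P := by
  have h2 : σ.comp (φA.comp φA) = φB.comp (φB.comp σ) := by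
    rw [← AlgHom.comp_assoc, hσ, AlgHom.comp_assoc, hσ]
  simp only [map_add, map_sub, map_zsmul, Point.map_map, hσ, h2]

variable (K : Type v) [Field K] [Algebra F K]

omit hirr in
lemma transcendental_genX_F : Transcendental F (genX K) :=
  (transcendental_genX K).restrictScalars (algebraMap F K).injective

/-- `F(t) → GenField K`, `t ↦ genX`. -/
def theta0 : RatFunc F →ₐ[F] GenField K :=
  RatFunc.liftAlgHom (Polynomial.aeval (genX K))
    (nonZeroDivisors_le_comap_nonZeroDivisors_of_injective _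
      (transcendental_iff_injective.1 (transcendental_genX_F (F := F) K)))

omit hirr in
lemma theta0_algebraMap (p : F[X]) :
    theta0 K (algebraMap F[X] (RatFunc F) p) = Polynomial.aeval (genX K) p := by
  rw [theta0, RatFunc.liftAlgHom_apply, RatFunc.num_algebraMap, RatFunc.denom_algebraMap, map_one,
    div_one]

omit hirr in
lemma theta0_X : theta0 K (RatFunc.X : RatFunc F) = genX K := by
  rw [← RatFunc.algebraMap_X, theta0_algebraMap, aeval_X]

omit hirr in
lemma theta0_C (a : F) : theta0 K (RatFunc.C a) = algebraMap F (GenField K) a := by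
  rw [← RatFunc.algebraMap_eq_C, AlgHom.commutes]

omit hirr in
lemma theta_aux :
    (quadPoly W).eval₂ ((theta0 K : RatFunc F →ₐ[F] GenField K) : RatFunc F →+* GenField K)
      (genY W K) = 0 := by
  show (X ^ 2 + C (bK W) * X - C (fK W) : (RatFunc F)[X]).eval₂
    ((theta0 K : RatFunc F →ₐ[F] GenField K) : RatFunc F →+* GenField K) (genY W K) = 0
  have e : ∀ s : RatFunc F,
      ((theta0 K : RatFunc F →ₐ[F] GenField K) : RatFunc F →+* GenField K) s = theta0 K s :=
    fun s => rfl
  simp only [eval₂_sub, eval₂_add, eval₂_mul, eval₂_pow, eval₂_X, eval₂_C, e]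
  have hQ := equation_gen W K
  rw [Affine.equation_iff] at hQ
  simp only [baseChange_a₁, baseChange_a₂, baseChange_a₃, baseChange_a₄, baseChange_a₆] at hQ
  simp only [bK, fK, map_add, map_mul, map_pow, theta0_X, theta0_C]
  linear_combination hQ

/-- The embedding of the function field `L` of `W` into `GenField K`. -/
def theta : FL W →ₐ[F] GenField K :=
  AdjoinRoot.liftAlgHom (quadPoly W) (theta0 K) (genY W K) (theta_aux W K)

lemma theta_tL : theta W K (tL W) = genX K := by
  simp [theta, tL, theta0_X]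

lemma theta_yL : theta W K (yL W) = genY W K := by
  simp [theta, yL]

variable [Fintype F]

/-- Frobenius Cayley–Hamilton over an algebraically closed field. -/
theorem frobenius_cayley_hamilton_algClosed (hΔ : W.Δ ≠ 0) (hx : XParStmt W) (hc : CountStmt W)
    [IsAlgClosed K] [DecidableEq K] (P : (W⁄K).Point) :
    Point.map (W' := W) (FiniteField.frobeniusAlgHom F K)
        (Point.map (W' := W) (FiniteField.frobeniusAlgHom F K) P) -
      ((Fintype.card F : ℤ) + 1 - (Nat.card W.toAffine.Point : ℤ)) •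
        Point.map (W' := W) (FiniteField.frobeniusAlgHom F K) P +
      (Fintype.card F : ℤ) • P = 0 := by
  classical
  have : W.IsElliptic := ⟨isUnit_iff_ne_zero.mpr hΔ⟩
  let ι : K →ₐ[F] GenField K := IsScalarTower.toAlgHom F K (GenField K)
  let φM : GenField K →ₐ[F] GenField K := FiniteField.frobeniusAlgHom F (GenField K)
  have hθφ : (theta W K).comp (frobL W) = φM.comp (theta W K) :=
    AlgHom.ext (fun z => by
      show theta W K (frobL W z) = φM (theta W K z)
      rw [frobL_apply, map_pow]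
      simp [φM])
  have hG : Point.map (W' := W) (theta W K) (genPt W hΔ) ∉
      Set.range (Point.map (W' := W) ι) := by
    rintro ⟨T, hT⟩
    rw [genPt, Point.map_some] at hT
    rcases T with _ | ⟨x, y, h⟩
    · exact Point.some_ne_zero _ hT.symm
    · rw [Point.map_some] at hT
      simp only [Point.some.injEq] at hT
      have h1 : algebraMap K (GenField K) x = genX K := by
        rw [← theta_tL W K, ← hT.1]; rfl
      exact transcendental_genX K (h1 ▸ isAlgebraic_algebraMap x)
  have htrans := map_relation W (frobL W) φM (theta W K) hθφ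
    ((Fintype.card F : ℤ) + 1 - (Nat.card W.toAffine.Point : ℤ)) (Fintype.card F : ℤ) (genPt W hΔ)
  have hrel : ∃ T : (W⁄K).Point,
      Point.map (W' := W) φM (Point.map (W' := W) φM
          (Point.map (W' := W) (theta W K) (genPt W hΔ))) -
        ((Fintype.card F : ℤ) + 1 - (Nat.card W.toAffine.Point : ℤ)) •
          Point.map (W' := W) φM (Point.map (W' := W) (theta W K) (genPt W hΔ)) +
        (Fintype.card F : ℤ) • Point.map (W' := W) (theta W K) (genPt W hΔ) =
      Point.map (W' := W) ι T := by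
    rw [← htrans]
    rcases relation_const W hΔ hx hc with h0 | ⟨c, y, h, hZ⟩
    · exact ⟨0, by rw [h0, map_zero, map_zero]⟩
    · rw [hZ, Point.map_some]
      have hxr : theta W K (algebraMap F (FL W) c) ∈ Set.range ι :=
        ⟨algebraMap F K c, by rw [AlgHom.commutes, AlgHom.commutes]⟩
      obtain ⟨T, hT⟩ := Fermat.Agent.S52.helper1104.some_mem_range_map_of_x_mem W ι
        ((Affine.baseChange_nonsingular (W := W) (f := theta W K) (theta W K).injective _ _).mpr h)
        hxr
      exact ⟨T, hT.symm⟩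
  obtain ⟨T, hT⟩ := hrel
  exact Fermat.Agent.S52.helper1104.frob_trace_relation_of_generic W ι
    (FiniteField.frobeniusAlgHom F K) (fun x => by simp)
    φM (fun x => by simp [φM]) _ hG _ T hT P

/-- Frobenius Cayley–Hamilton over an arbitrary field extension (irreducibility as instance). -/
theorem frobenius_cayley_hamilton_aux (hΔ : W.Δ ≠ 0) (hx : XParStmt W) (hc : CountStmt W)
    [DecidableEq K] (P : (W⁄K).Point) :
    Point.map (W' := W) (FiniteField.frobeniusAlgHom F K)
        (Point.map (W' := W) (FiniteField.frobeniusAlgHom F K) P) -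
      ((Fintype.card F : ℤ) + 1 - (Nat.card W.toAffine.Point : ℤ)) •
        Point.map (W' := W) (FiniteField.frobeniusAlgHom F K) P +
      (Fintype.card F : ℤ) • P = 0 := by
  classical
  let ι' : K →ₐ[F] AlgebraicClosure K := IsScalarTower.toAlgHom F K (AlgebraicClosure K)
  have hcomm : ι'.comp (FiniteField.frobeniusAlgHom F K) =
      (FiniteField.frobeniusAlgHom F (AlgebraicClosure K)).comp ι' :=
    AlgHom.ext (fun z => by simp)
  apply Point.map_injective (W' := W) ι'
  rw [map_relation W _ _ ι' hcomm, map_zero]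
  exact frobenius_cayley_hamilton_algClosed W (AlgebraicClosure K) hΔ hx hc _

end ending

/-! ## Main theorem -/

omit hirr in
/-- **Frobenius Cayley–Hamilton, characteristic-free** (Manin's method).  `F` a finite field
with `q` elements, `W` ANY Weierstrass curve over `F` with `Δ ≠ 0` (general `a₁, …, a₆`, every
characteristic), `K` any field extension of `F`, `φ` the `q`-power Frobenius on `W(K)`:
`φ² - (q + 1 - #W(F)) φ + q = 0`.  Hypothesis-passing on the three leaves of
`helper1844_FrobGenSpec`. -/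
theorem frobenius_cayley_hamilton [Fintype F] (hΔ : W.Δ ≠ 0)
    (hx : XParStmt W) (hc : CountStmt W) (hi : IrrStmt W)
    {K : Type*} [Field K] [Algebra F K] [DecidableEq K] (P : (W⁄K).Point) :
    Point.map (W' := W) (FiniteField.frobeniusAlgHom F K)
        (Point.map (W' := W) (FiniteField.frobeniusAlgHom F K) P) -
      ((Fintype.card F : ℤ) + 1 - (Nat.card W.toAffine.Point : ℤ)) •
        Point.map (W' := W) (FiniteField.frobeniusAlgHom F K) P +
      (Fintype.card F : ℤ) • P = 0 := by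
  have : Fact (Irreducible (quadPoly W)) := ⟨hi⟩
  exact frobenius_cayley_hamilton_aux W K hΔ hx hc P

end

end Fermat.Agent.Lib.helper1844
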