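/-
LEAF IRR of the characteristic-free Frobenius Cayley–Hamilton brick (architect helper1844):
the Weierstrass quadratic `Y² + (a₁ t + a₃) Y - (t³ + a₂ t² + a₄ t + a₆)` is irreducible over
the rational function field `F(t)`, for every field `F` and every Weierstrass curve `W`.

Proof: the polynomial is monic of degree two, so it suffices to exclude a root `r ∈ F(t)`.
Such a root is integral over `F[t]`, hence a polynomial `n` (the polynomial ring is integrally
closed), and `n (n + (a₁ t + a₃))` has degree `3`, which is impossible: the degree is at most `2`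
when `deg n ≤ 1` and equals `2 deg n ≥ 4` otherwise.
-/
import Mathlib
import Fermat.Agent.Lib.helper1844_FrobGenSpec

set_option autoImplicit false

namespace Fermat.Agent.Lib.helper9358

open Polynomial

noncomputable section

universe u

variable {F : Type u} [Field F]

/-- The linear coefficient `a₁ t + a₃` of the Weierstrass quadratic, as a polynomial. -/
def linPoly (W : WeierstrassCurve F) : F[X] := C W.a₁ * X + C W.a₃

/-- The cubic `t³ + a₂ t² + a₄ t + a₆`, as a polynomial. -/
def cubPoly (W : WeierstrassCurve F) : F[X] :=
  X ^ 3 + C W.a₂ * X ^ 2 + C W.a₄ * X + C W.a₆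

theorem natDegree_linPoly_le (W : WeierstrassCurve F) : (linPoly W).natDegree ≤ 1 := by
  unfold linPoly
  compute_degree

theorem natDegree_cubPoly (W : WeierstrassCurve F) : (cubPoly W).natDegree = 3 := by
  unfold cubPoly
  compute_degree!

/-- No polynomial `n` satisfies `n² + (a₁ t + a₃) n = t³ + a₂ t² + a₄ t + a₆` (degree parity). -/
theorem sq_add_linPoly_mul_ne_cubPoly (W : WeierstrassCurve F) (n : F[X]) :
    n ^ 2 + linPoly W * n ≠ cubPoly W := by
  intro h
  have h3 := natDegree_cubPoly W
  rw [← h, show n ^ 2 + linPoly W * n = n * (n + linPoly W) by ring] at h3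
  have hb := natDegree_linPoly_le W
  by_cases hn : n.natDegree ≤ 1
  · have h1 : (n * (n + linPoly W)).natDegree ≤ 1 + 1 :=
      natDegree_mul_le.trans
        (add_le_add hn ((natDegree_add_le _ _).trans (max_le hn hb)))
    omega
  · have hlt : (linPoly W).natDegree < n.natDegree := by omega
    have h2 : (n + linPoly W).natDegree = n.natDegree :=
      natDegree_add_eq_left_of_natDegree_lt hlt
    have hn0 : n ≠ 0 := by
      rintro rfl
      simp at hn
    have hnb : n + linPoly W ≠ 0 := by
      intro h0
      rw [h0, natDegree_zero] at h2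
      omega
    rw [natDegree_mul hn0 hnb, h2] at h3
    omega

/-- The Weierstrass quadratic over `F(t)` is the image of a quadratic over `F[t]`. -/
theorem quadPoly_eq_map (W : WeierstrassCurve F) :
    helper1844.quadPoly W =
      (X ^ 2 + C (linPoly W) * X - C (cubPoly W) : F[X][X]).map (algebraMap F[X] (RatFunc F)) := by
  simp [helper1844.quadPoly, linPoly, cubPoly, Polynomial.map_sub, Polynomial.map_add,
    Polynomial.map_mul, Polynomial.map_pow]

theorem monic_quadInt (W : WeierstrassCurve F) :
    (X ^ 2 + C (linPoly W) * X - C (cubPoly W) : F[X][X]).Monic := by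
  monicity!

theorem natDegree_quadInt (W : WeierstrassCurve F) :
    (X ^ 2 + C (linPoly W) * X - C (cubPoly W) : F[X][X]).natDegree = 2 := by
  compute_degree!

/-- LEAF IRR: the Weierstrass quadratic is irreducible over `F(t)`; any field, any `W`. -/
theorem irrStmt (W : WeierstrassCurve F) : helper1844.IrrStmt W := by
  unfold helper1844.IrrStmt
  rw [quadPoly_eq_map]
  have hmonic := (monic_quadInt W).map (algebraMap F[X] (RatFunc F))
  have hdeg : ((X ^ 2 + C (linPoly W) * X - C (cubPoly W) : F[X][X]).map
      (algebraMap F[X] (RatFunc F))).natDegree = 2 := by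
    rw [(monic_quadInt W).natDegree_map, natDegree_quadInt]
  rw [hmonic.irreducible_iff_roots_eq_zero_of_degree_le_three (by omega) (by omega),
    Multiset.eq_zero_iff_forall_notMem]
  intro r hr
  rw [mem_roots hmonic.ne_zero, IsRoot.def, eval_map] at hr
  have hint : IsIntegral F[X] r := ⟨_, monic_quadInt W, hr⟩
  obtain ⟨n, rfl⟩ := IsIntegrallyClosed.isIntegral_iff.mp hint
  rw [eval₂_hom] at hr
  have h0 : eval n (X ^ 2 + C (linPoly W) * X - C (cubPoly W) : F[X][X]) = 0 :=
    RatFunc.algebraMap_injective F (by rw [hr, map_zero])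
  simp only [eval_sub, eval_add, eval_pow, eval_X, eval_mul, eval_C] at h0
  exact sq_add_linPoly_mul_ne_cubPoly W n (sub_eq_zero.mp h0)

end

end Fermat.Agent.Lib.helper9358
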