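/-
LEAF XPAR of the characteristic-free Frobenius Cayley–Hamilton brick (architect helper1844):
the add-sub map of an elliptic Weierstrass curve doubles the degree of primitive polynomial
triples (projective `x`-level parallelogram law, general `a₁..a₆`, every characteristic).

Main result: `xparStmt W : Fermat.Agent.Lib.helper1844.XParStmt W`.
-/
import Mathlib
import Fermat.Agent.S52.helper6492_Height
import Fermat.Agent.Lib.helper1844_FrobGenSpec

set_option autoImplicit false

namespace Fermat.Agent.Lib.helper9566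

open Polynomial
open Fermat.Agent.S52.helper6492 (Prim3 Bd fin_of_field core_pair)
open Fermat.Agent.Lib.helper1844 (pS pT pU XParStmt)

universe u

section field

variable {κ : Type*} [Field κ]

/-- The three quadratic forms of the add-sub map of an elliptic curve have no common zero on
`ℙ²` (Mathlib's `WeierstrassCurve.addSubMap_ne_zero`, unfolded). -/
theorem core_addsub (W : WeierstrassCurve κ) [W.IsElliptic] (s t u : κ)
    (h : ¬ (u = 0 ∧ t = 0 ∧ s = 0)) :
    ¬ (t ^ 2 - 4 * s * u = 0 ∧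
        2 * t * s + W.b₂ * s * u + W.b₄ * t * u + W.b₆ * u ^ 2 = 0 ∧
        s ^ 2 - W.b₄ * s * u - W.b₆ * t * u - W.b₈ * u ^ 2 = 0) := by
  rintro ⟨hU, hT, hS⟩
  have hx : (![s, t, u] : Fin 3 → κ) ≠ 0 := by
    intro h0
    apply h
    have e0 := congrFun h0 0
    have e1 := congrFun h0 1
    have e2 := congrFun h0 2
    simp at e0 e1 e2
    exact ⟨e2, e1, e0⟩
  apply WeierstrassCurve.addSubMap_ne_zero W hx
  funext i
  fin_cases i
  · simp [WeierstrassCurve.addSubMap]
    linear_combination hS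
  · simp [WeierstrassCurve.addSubMap]
    linear_combination hT
  · simp [WeierstrassCurve.addSubMap]
    linear_combination hU

end field

section poly

variable {k : Type u} [Field k]

/-- A primitive triple has no common zero under any ring hom to a field. -/
theorem map_prim3_ne {κ : Type*} [Field κ] (φ : k[X] →+* κ) {D : ℕ} {a b c : k[X]}
    (h : Prim3 D a b c) : ¬ (φ a = 0 ∧ φ b = 0 ∧ φ c = 0) := by
  rintro ⟨h1, h2, h3⟩
  obtain ⟨x, y, z, hxyz⟩ := h.bezout
  have : φ (x * a + y * b + z * c) = 1 := by rw [hxyz, map_one]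
  rw [map_add, map_add, map_mul, map_mul, map_mul, h1, h2, h3] at this
  simp at this

/-- Symmetric coordinates of two primitive pairs form a primitive triple. -/
theorem prim3_sym {D₁ D₂ : ℕ} {n₁ d₁ n₂ d₂ : k[X]} (h₁ : Prim3 D₁ d₁ n₁ 0)
    (h₂ : Prim3 D₂ d₂ n₂ 0) :
    Prim3 (D₁ + D₂) (d₁ * d₂) (n₁ * d₂ + d₁ * n₂) (n₁ * n₂) := by
  have bn₁ : Bd D₁ n₁ (n₁.coeff D₁) := ⟨h₁.db, rfl⟩
  have bd₁ : Bd D₁ d₁ (d₁.coeff D₁) := ⟨h₁.da, rfl⟩
  have bn₂ : Bd D₂ n₂ (n₂.coeff D₂) := ⟨h₂.db, rfl⟩
  have bd₂ : Bd D₂ d₂ (d₂.coeff D₂) := ⟨h₂.da, rfl⟩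
  have b1 := bd₁.mul bd₂
  have b2 := (bn₁.mul bd₂).add (bd₁.mul bn₂)
  have b3 := bn₁.mul bn₂
  refine ⟨fin_of_field (fun κ _ φ hh => ?_), b1.1, b2.1, b3.1, ?_⟩
  · simp only [map_mul, map_add] at hh
    refine core_pair _ _ _ _ (fun h => map_prim3_ne φ h₁ ⟨h.2, h.1, map_zero φ⟩)
      (fun h => map_prim3_ne φ h₂ ⟨h.2, h.1, map_zero φ⟩) hh
  · rw [b1.2, b2.2, b3.2]
    exact core_pair _ _ _ _ (fun h => h₁.top ⟨h.2, h.1, by simp⟩)
      (fun h => h₂.top ⟨h.2, h.1, by simp⟩)

/-- The add-sub map sends a primitive triple of degree `D` to a primitive triple of degree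
`2 D`. -/
theorem prim3_addsub (W : WeierstrassCurve k) [W.IsElliptic] {D : ℕ} {u t s : k[X]}
    (h : Prim3 D u t s) : Prim3 (D + D) (pU s t u) (pT W s t u) (pS W s t u) := by
  have bu : Bd D u (u.coeff D) := ⟨h.da, rfl⟩
  have bt : Bd D t (t.coeff D) := ⟨h.db, rfl⟩
  have bs : Bd D s (s.coeff D) := ⟨h.dc, rfl⟩
  have eU : pU s t u = t * t - C 4 * (s * u) := by
    unfold pU
    have : (C (4 : k) : k[X]) = 4 := map_ofNat (C : k →+* k[X]) 4
    rw [this]; ring
  have eT : pT W s t u =
      C 2 * (t * s) + C W.b₂ * (s * u) + C W.b₄ * (t * u) + C W.b₆ * (u * u) := by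
    unfold pT
    have : (C (2 : k) : k[X]) = 2 := map_ofNat (C : k →+* k[X]) 2
    rw [this]; ring
  have eS : pS W s t u =
      s * s - C W.b₄ * (s * u) - C W.b₆ * (t * u) - C W.b₈ * (u * u) := by
    unfold pS; ring
  have bU := (bt.mul bt).sub ((bs.mul bu).C_mul 4)
  have bT := ((((bt.mul bs).C_mul 2).add ((bs.mul bu).C_mul W.b₂)).add
    ((bt.mul bu).C_mul W.b₄)).add ((bu.mul bu).C_mul W.b₆)
  have bS := ((((bs.mul bs)).sub ((bs.mul bu).C_mul W.b₄)).sub
    ((bt.mul bu).C_mul W.b₆)).sub ((bu.mul bu).C_mul W.b₈)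
  rw [← eU] at bU
  rw [← eT] at bT
  rw [← eS] at bS
  refine ⟨fin_of_field (fun κ _ φ hh => ?_), bU.1, bT.1, bS.1, ?_⟩
  · have e2 : φ (2 : k[X]) = 2 := map_ofNat φ 2
    have e4 : φ (4 : k[X]) = 4 := map_ofNat φ 4
    have hb₂ : φ (C W.b₂) = (W.map (φ.comp C)).b₂ := by simp
    have hb₄ : φ (C W.b₄) = (W.map (φ.comp C)).b₄ := by simp
    have hb₆ : φ (C W.b₆) = (W.map (φ.comp C)).b₆ := by simp
    have hb₈ : φ (C W.b₈) = (W.map (φ.comp C)).b₈ := by simp
    unfold pU pT pS at hh
    simp only [map_mul, map_add, map_sub, map_pow, e2, e4, hb₂, hb₄, hb₆, hb₈] at hh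
    exact core_addsub (W.map (φ.comp C)) (φ s) (φ t) (φ u) (map_prim3_ne φ h) hh
  · rw [bU.2, bT.2, bS.2]
    intro hh
    exact core_addsub W (s.coeff D) (t.coeff D) (u.coeff D) h.top
      ⟨by linear_combination hh.1, by linear_combination hh.2.1, by linear_combination hh.2.2⟩

/-- Two proportional primitive triples have the same degree (symmetric form: all three
`2 × 2` minors vanish; no nonvanishing hypothesis). -/
theorem prim3_unique_of_minors {D D' : ℕ} {a b c a' b' c' : k[X]} (h : Prim3 D a b c)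
    (h' : Prim3 D' a' b' c') (hab : a * b' = a' * b) (hac : a * c' = a' * c)
    (hbc : b * c' = b' * c) : D = D' := by
  obtain ⟨x, y, z, hxyz⟩ := h.bezout
  obtain ⟨x', y', z', hxyz'⟩ := h'.bezout
  set g : k[X] := x * a' + y * b' + z * c' with hg
  set g' : k[X] := x' * a + y' * b + z' * c with hg'
  have ha : a * g = a' := by
    rw [hg]; linear_combination a' * hxyz + y * hab + z * hac
  have hb : b * g = b' := by
    rw [hg]; linear_combination b' * hxyz - x * hab + z * hbc
  have hc : c * g = c' := by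
    rw [hg]; linear_combination c' * hxyz - x * hac - y * hbc
  have ha' : a' * g' = a := by
    rw [hg']; linear_combination a * hxyz' - y' * hab - z' * hac
  have hb' : b' * g' = b := by
    rw [hg']; linear_combination b * hxyz' + x' * hab - z' * hbc
  have hc' : c' * g' = c := by
    rw [hg']; linear_combination c * hxyz' + x' * hac + y' * hbc
  have hgg : g * g' = 1 := by
    linear_combination -(g * g' - 1) * hxyz + x * g' * ha + y * g' * hb + z * g' * hc
      + x * ha' + y * hb' + z * hc'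
  have hu : IsUnit g := IsUnit.of_mul_eq_one g' hgg
  have hA : Associated a a' := ⟨hu.unit, by rw [IsUnit.unit_spec]; exact ha⟩
  have hB : Associated b b' := ⟨hu.unit, by rw [IsUnit.unit_spec]; exact hb⟩
  have hC : Associated c c' := ⟨hu.unit, by rw [IsUnit.unit_spec]; exact hc⟩
  rw [← h.max_eq, ← h'.max_eq, Fermat.Agent.S52.helper6492.natDegree_eq_of_assoc hA,
    Fermat.Agent.S52.helper6492.natDegree_eq_of_assoc hB,
    Fermat.Agent.S52.helper6492.natDegree_eq_of_assoc hC]

/-- **LEAF XPAR**: the projective `x`-level parallelogram law for the add-sub map of an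
elliptic Weierstrass curve over any field (general `a₁..a₆`, every characteristic). -/
theorem xparStmt (W : WeierstrassCurve k) [W.IsElliptic] : XParStmt W := by
  intro D₁ D₂ D₃ D₄ n₁ d₁ n₂ d₂ n₃ d₃ n₄ d₄ h₁ h₂ h₃ h₄ e1 e2 e3
  have P12 := prim3_sym h₁ h₂
  have P34 := prim3_sym h₃ h₄
  have PA := prim3_addsub W P12
  have key := prim3_unique_of_minors PA P34 (by linear_combination -e3)
    (by linear_combination -e2) (by linear_combination -e1)
  omega

end poly

end Fermat.Agent.Lib.helper9566
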