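/-
CHARACTERISTIC-FREE FROBENIUS CAYLEY–HAMILTON — wrapper with the landed leaves (helper1844).

`frobenius_cayley_hamilton_of_count`: for a finite field `F` (`q` elements), ANY Weierstrass curve
`W` over `F` with `Δ ≠ 0` (general `a₁..a₆`, all characteristics incl. 2, 3) and any field
`K ⊇ F`:  `φ (φ P) - (q + 1 - #W(F)) • φ P + q • P = 0` on `W(K)`,
given only the Manin count `CountStmt W` (leaf LIB-FROBGEN-COUNT).
The leaves XPAR (`helper9566`) and IRR (`helper9358`) are discharged here.
-/
import Mathlib
import Fermat.Agent.Lib.helper1844_FrobGen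
import Fermat.Agent.Lib.helper9566_FrobGenXPar
import Fermat.Agent.Lib.helper9358_FrobGenIrr

set_option autoImplicit false

namespace Fermat.Agent.Lib.helper1844

open WeierstrassCurve WeierstrassCurve.Affine

/-- **Frobenius Cayley–Hamilton, characteristic-free**, modulo the Manin count only. -/
theorem frobenius_cayley_hamilton_of_count {F : Type*} [Field F] [Fintype F]
    (W : WeierstrassCurve F) (hΔ : W.Δ ≠ 0) (hc : CountStmt W)
    {K : Type*} [Field K] [Algebra F K] [DecidableEq K] (P : (W⁄K).Point) :
    Point.map (W' := W) (FiniteField.frobeniusAlgHom F K)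
        (Point.map (W' := W) (FiniteField.frobeniusAlgHom F K) P) -
      ((Fintype.card F : ℤ) + 1 - (Nat.card W.toAffine.Point : ℤ)) •
        Point.map (W' := W) (FiniteField.frobeniusAlgHom F K) P +
      (Fintype.card F : ℤ) • P = 0 := by
  have : W.IsElliptic := ⟨isUnit_iff_ne_zero.mpr hΔ⟩
  exact frobenius_cayley_hamilton W hΔ (Fermat.Agent.Lib.helper9566.xparStmt W) hc
    (Fermat.Agent.Lib.helper9358.irrStmt W) P

end Fermat.Agent.Lib.helper1844
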