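/-
CHARACTERISTIC-FREE FROBENIUS CAYLEY–HAMILTON — UNCONDITIONAL (helper1844).

For a finite field `F` with `q` elements, ANY Weierstrass curve `W` over `F` with `Δ ≠ 0`
(general `a₁..a₆`, every characteristic, in particular `2` and `3`) and EVERY field `K ⊇ F`:
`φ (φ P) - (q + 1 - #W(F)) • φ P + q • P = 0` for all `P ∈ W(K)`, `φ` the `q`-power Frobenius.

All three leaves of the brick are discharged: XPAR (`helper9566`), IRR (`helper9358`),
COUNT (`helper1346`).  Adapters to the forms used by the consumers (`Prelude`'s
`traceOfFrobenius`, `helper3731.CHGeneral`, `helper130.FrobCH`) are included.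
-/
import Mathlib
import Fermat.Prelude.Def_FLTPrelim_Modularity
import Fermat.Agent.Lib.helper1844_FrobGenMain
import Fermat.Agent.Lib.helper1346_FrobGenCount
import Fermat.Agent.S52.helper3731_FrobAdapter
import Fermat.Agent.S52.helper130_Bridge

set_option autoImplicit false

namespace Fermat.Agent.Lib.helper1844

open WeierstrassCurve WeierstrassCurve.Affine

section general

variable {F : Type*} [Field F] [Fintype F] (W : WeierstrassCurve F)
  {K : Type*} [Field K] [Algebra F K] [DecidableEq K]

/-- **Frobenius Cayley–Hamilton, characteristic-free, unconditional.** -/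
theorem frobenius_cayley_hamilton_all (hΔ : W.Δ ≠ 0) (P : (W⁄K).Point) :
    Point.map (W' := W) (FiniteField.frobeniusAlgHom F K)
        (Point.map (W' := W) (FiniteField.frobeniusAlgHom F K) P) -
      ((Fintype.card F : ℤ) + 1 - (Nat.card W.toAffine.Point : ℤ)) •
        Point.map (W' := W) (FiniteField.frobeniusAlgHom F K) P +
      (Fintype.card F : ℤ) • P = 0 := by
  have : W.IsElliptic := ⟨isUnit_iff_ne_zero.mpr hΔ⟩
  exact frobenius_cayley_hamilton_of_count W hΔ (Fermat.Agent.Lib.helper1346.countStmt W) P

/-- The same with the `Prelude` trace of Frobenius. -/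
theorem frobenius_cayley_hamilton_trace (hΔ : W.Δ ≠ 0) (P : (W⁄K).Point) :
    Point.map (W' := W) (FiniteField.frobeniusAlgHom F K)
        (Point.map (W' := W) (FiniteField.frobeniusAlgHom F K) P) -
      W.traceOfFrobenius • Point.map (W' := W) (FiniteField.frobeniusAlgHom F K) P +
      (Fintype.card F : ℤ) • P = 0 := by
  have e : W.traceOfFrobenius = (Fintype.card F : ℤ) + 1 - (Nat.card W.toAffine.Point : ℤ) := by
    rw [WeierstrassCurve.traceOfFrobenius, Nat.card_eq_fintype_card]
    rfl
  rw [e]
  exact frobenius_cayley_hamilton_all W hΔ P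

/-- The same for any `F`-algebra endomorphism `frob` of `K` which is the `q`-power map. -/
theorem frobenius_cayley_hamilton_hom (hΔ : W.Δ ≠ 0) (frob : K →ₐ[F] K)
    (hfrob : ∀ z, frob z = z ^ Fintype.card F) (P : (W⁄K).Point) :
    Point.map (W' := W) frob (Point.map (W' := W) frob P) -
      W.traceOfFrobenius • Point.map (W' := W) frob P + (Fintype.card F : ℤ) • P = 0 := by
  have h : frob = FiniteField.frobeniusAlgHom F K :=
    AlgHom.ext (fun z => by rw [hfrob]; simp)
  subst h
  exact frobenius_cayley_hamilton_trace W hΔ P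

end general

section prime

variable (ℓ : ℕ) [Fact ℓ.Prime]

/-- `helper3731.CHGeneral` for EVERY prime `ℓ` (`2` and `3` included). -/
theorem chGeneral_all {K : Type*} [Field K] [DecidableEq K] [Algebra (ZMod ℓ) K]
    (frob : K →ₐ[ZMod ℓ] K) (hfrob : ∀ z, frob z = z ^ ℓ) :
    Fermat.Agent.S52.helper3731.CHGeneral ℓ frob := by
  intro W hΔ P
  have h := frobenius_cayley_hamilton_hom W hΔ frob (fun z => by rw [hfrob, ZMod.card]) P
  rw [ZMod.card] at h
  exact h

/-- `helper130.FrobCH` for EVERY prime `ℓ` and every integral model with good reduction at `ℓ`,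
over every field of characteristic `ℓ`. -/
theorem frobCH_all (W : WeierstrassCurve ℤ) (hgood : W.IsGoodPrimeFor ℓ)
    (K : Type) [Field K] [DecidableEq K] [Algebra (ZMod ℓ) K] :
    Fermat.Agent.S52.helper130.FrobCH ℓ W K := by
  intro P
  have h := frobenius_cayley_hamilton_trace (W.reductionMod ℓ)
    (Fermat.Agent.S52.helper3731.reductionMod_Δ_ne_zero W hgood) P
  rw [ZMod.card] at h
  exact h

end prime

end Fermat.Agent.Lib.helper1844
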