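import Mathlib

set_option autoImplicit false

/-!
# Hopf orders given by functions on a finite group

`R` a commutative ring, `Ω` a field with `algebraMap R Ω` injective, `M` a finite additive
commutative group, `H` an `R`-subalgebra of `M → Ω` which is free over `R` on a basis that is
`Ω`-linearly independent in `M → Ω`, separates the points of `M`, is closed under
`φ ↦ ((m, m') ↦ φ (m + m'))` (in the sense of finite sums of products) and has `φ 0 ∈ R`.
Then `H` is a finite flat cocommutative Hopf algebra over `R` whose `Ω`-points, with the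
convolution product, are `M`.
-/

open scoped TensorProduct

namespace Fermat.Agent.Lib.helper1852

section General

variable {R : Type*} [CommRing R] {Ω : Type*} [Field Ω] [Algebra R Ω]

/-- Products of two linearly independent families of functions are linearly independent
functions on the product. -/
theorem linearIndependent_mul_prod {X Y ι κ : Type*} [Fintype ι] [Fintype κ]
    {f : ι → X → Ω} {g : κ → Y → Ω} (hf : LinearIndependent Ω f) (hg : LinearIndependent Ω g) :
    LinearIndependent Ω (fun p : ι × κ => fun xy : X × Y => f p.1 xy.1 * g p.2 xy.2) := by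
  classical
  rw [Fintype.linearIndependent_iff] at hf hg ⊢
  intro c hc p
  obtain ⟨i, j⟩ := p
  have h1 : ∀ y : Y, ∀ i : ι, ∑ j : κ, c (i, j) * g j y = 0 := by
    intro y
    apply hf
    funext x
    have := congrFun hc (x, y)
    simp only [Finset.sum_apply, Pi.smul_apply, smul_eq_mul, Pi.zero_apply] at this ⊢
    rw [← this, Fintype.sum_prod_type]
    refine Finset.sum_congr rfl fun i _ => ?_
    rw [Finset.sum_mul]
    refine Finset.sum_congr rfl fun j _ => ?_
    ring
  have h2 : ∀ i : ι, ∑ j : κ, c (i, j) • g j = 0 := by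
    intro i
    funext y
    simpa using h1 y i
  exact hg (fun j => c (i, j)) (h2 i) j

/-- Every element of `A ⊗ B` is a sum `∑ b i ⊗ z i` for a basis `b` of `A`. -/
theorem exists_sum_basis_tmul {A B : Type*} [AddCommGroup A] [Module R A] [AddCommGroup B]
    [Module R B] {n : ℕ} (b : Module.Basis (Fin n) R A) (x : A ⊗[R] B) :
    ∃ z : Fin n → B, x = ∑ i, b i ⊗ₜ[R] z i := by
  induction x using TensorProduct.induction_on with
  | zero => exact ⟨fun _ => 0, by simp⟩
  | tmul a c =>
    refine ⟨fun i => b.repr a i • c, ?_⟩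
    conv_lhs => rw [← b.sum_repr a]
    rw [TensorProduct.sum_tmul]
    refine Finset.sum_congr rfl fun i _ => ?_
    rw [TensorProduct.smul_tmul]
  | add x y hx hy =>
    obtain ⟨z, hz⟩ := hx
    obtain ⟨w, hw⟩ := hy
    refine ⟨fun i => z i + w i, ?_⟩
    rw [hz, hw, ← Finset.sum_add_distrib]
    refine Finset.sum_congr rfl fun i _ => ?_
    rw [TensorProduct.tmul_add]

/-- The product map `a ⊗ c ↦ ((x, y) ↦ f a x * g c y)` is injective when `A` has a basis whose
image under `f` is `Ω`-linearly independent and `g` is injective. -/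
theorem injective_of_sum_basis {A B X Y : Type*} [CommRing A] [Algebra R A] [CommRing B]
    [Algebra R B] {n : ℕ} (b : Module.Basis (Fin n) R A) (f : A → X → Ω) (g : B →ₗ[R] (Y → Ω))
    (hb : LinearIndependent Ω (fun i => f (b i))) (hg : Function.Injective g)
    (F : A ⊗[R] B →ₗ[R] (X × Y → Ω))
    (hF : ∀ (a : A) (c : B) (p : X × Y), F (a ⊗ₜ[R] c) p = f a p.1 * g c p.2) :
    Function.Injective F := by
  classical
  rw [← LinearMap.ker_eq_bot, LinearMap.ker_eq_bot']
  intro x hx
  obtain ⟨z, rfl⟩ := exists_sum_basis_tmul b x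
  rw [Fintype.linearIndependent_iff] at hb
  have h1 : ∀ (y : Y) (i : Fin n), g (z i) y = 0 := by
    intro y
    apply hb
    funext x0
    have h2 := congrFun hx (x0, y)
    rw [map_sum] at h2
    simp only [Finset.sum_apply, hF, Pi.zero_apply] at h2
    simp only [Finset.sum_apply, Pi.smul_apply, smul_eq_mul, Pi.zero_apply]
    rw [← h2]
    refine Finset.sum_congr rfl fun i _ => ?_
    ring
  have h3 : ∀ i, z i = 0 := by
    intro i
    apply hg
    rw [map_zero]
    funext y
    exact h1 y i
  simp [h3]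

end General

section Core

set_option synthInstance.maxHeartbeats 400000
set_option maxHeartbeats 1000000

variable {R : Type} [CommRing R] {Ω : Type} [Field Ω] [Algebra R Ω]
variable {M : Type} [AddCommGroup M]

/-- Precomposition with a map, as an algebra homomorphism of function algebras. -/
def pb {X Y : Type} (g : X → Y) : (Y → Ω) →ₐ[R] (X → Ω) :=
  AlgHom.pi (fun x => Pi.evalAlgHom R (fun _ : Y => Ω) (g x))

@[simp] theorem pb_apply {X Y : Type} (g : X → Y) (φ : Y → Ω) (x : X) :
    pb (R := R) g φ x = φ (g x) := rfl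

variable (H : Subalgebra R (M → Ω))

/-- The hypotheses making `H` a Hopf order of functions on `M`. -/
structure FunOrder : Prop where
  inj : Function.Injective (algebraMap R Ω)
  basis : ∃ (n : ℕ) (b : Module.Basis (Fin n) R H),
    LinearIndependent Ω (fun i => ((b i : H) : M → Ω))
  sep : ∀ m m' : M, (∀ φ ∈ H, φ m = φ m') → m = m'
  add : ∀ φ ∈ H, ∃ (n : ℕ) (a c : Fin n → H), ∀ m m' : M,
    φ (m + m') = ∑ i, (a i : M → Ω) m * (c i : M → Ω) m'
  zero : ∀ φ ∈ H, φ 0 ∈ Set.range (algebraMap R Ω)

/-- Evaluation at a point of `M`. -/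
def ev (m : M) : H →ₐ[R] Ω := (Pi.evalAlgHom R (fun _ : M => Ω) m).comp H.val

@[simp] theorem ev_apply (m : M) (φ : H) : ev H m φ = (φ : M → Ω) m := rfl

/-- `a ⊗ c ↦ ((m, m') ↦ a m * c m')`. -/
def ι₂ : H ⊗[R] H →ₐ[R] (M × M → Ω) :=
  Algebra.TensorProduct.productMap ((pb Prod.fst).comp H.val) ((pb Prod.snd).comp H.val)

@[simp] theorem ι₂_tmul (a c : H) (p : M × M) :
    ι₂ H (a ⊗ₜ[R] c) p = (a : M → Ω) p.1 * (c : M → Ω) p.2 := rfl

/-- `a ⊗ x ↦ ((m, q) ↦ a m * ι₂ x q)`. -/
def ι₃ : H ⊗[R] (H ⊗[R] H) →ₐ[R] (M × (M × M) → Ω) :=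
  Algebra.TensorProduct.productMap ((pb Prod.fst).comp H.val) ((pb Prod.snd).comp (ι₂ H))

@[simp] theorem ι₃_tmul (a : H) (x : H ⊗[R] H) (p : M × (M × M)) :
    ι₃ H (a ⊗ₜ[R] x) p = (a : M → Ω) p.1 * ι₂ H x p.2 := rfl

variable {H}

theorem FunOrder.ι₂_injective (h : FunOrder H) : Function.Injective (ι₂ H) := by
  obtain ⟨n, b, hb⟩ := h.basis
  exact injective_of_sum_basis (R := R) (Ω := Ω) b (fun a : H => (a : M → Ω))
    H.val.toLinearMap hb Subtype.val_injective (ι₂ H).toLinearMap (fun a c p => rfl)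

theorem FunOrder.ι₃_injective (h : FunOrder H) : Function.Injective (ι₃ H) := by
  obtain ⟨n, b, hb⟩ := h.basis
  exact injective_of_sum_basis (R := R) (Ω := Ω) (A := H) (B := H ⊗[R] H) (X := M) (Y := M × M)
    b (fun a : H => (a : M → Ω)) (g := (ι₂ H).toLinearMap) hb h.ι₂_injective
    (F := (ι₃ H).toLinearMap) (fun a c p => ι₃_tmul H a c p)

variable (H) in
/-- `φ ↦ ((m, m') ↦ φ (m + m'))`. -/
def addHom : H →ₐ[R] (M × M → Ω) := (pb (fun p : M × M => p.1 + p.2)).comp H.val

@[simp] theorem addHom_apply (φ : H) (p : M × M) :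
    addHom H φ p = (φ : M → Ω) (p.1 + p.2) := rfl

theorem FunOrder.addHom_mem_range (h : FunOrder H) (φ : H) : addHom H φ ∈ (ι₂ H).range := by
  obtain ⟨n, a, c, hac⟩ := h.add φ φ.2
  refine ⟨∑ i, a i ⊗ₜ[R] c i, ?_⟩
  funext p
  rw [AlgHom.toRingHom_eq_coe, RingHom.coe_coe, map_sum, Finset.sum_apply, addHom_apply, hac]
  rfl

/-- The comultiplication. -/
noncomputable def FunOrder.comulAlgHom (h : FunOrder H) : H →ₐ[R] H ⊗[R] H :=
  ((AlgEquiv.ofInjective (ι₂ H) h.ι₂_injective).symm : (ι₂ H).range →ₐ[R] H ⊗[R] H).comp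
    ((addHom H).codRestrict (ι₂ H).range h.addHom_mem_range)

theorem FunOrder.ι₂_comulAlgHom (h : FunOrder H) (φ : H) :
    ι₂ H (h.comulAlgHom φ) = addHom H φ := by
  have h1 : ((AlgEquiv.ofInjective (ι₂ H) h.ι₂_injective) (h.comulAlgHom φ) : M × M → Ω) =
      addHom H φ := by
    rw [FunOrder.comulAlgHom, AlgHom.comp_apply, AlgEquiv.coe_algHom, AlgEquiv.apply_symm_apply]
    rfl
  rw [← h1]
  rfl

theorem FunOrder.ι₂_comulAlgHom_apply (h : FunOrder H) (φ : H) (m m' : M) :
    ι₂ H (h.comulAlgHom φ) (m, m') = (φ : M → Ω) (m + m') := by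
  rw [h.ι₂_comulAlgHom]
  rfl

theorem FunOrder.ev_zero_mem_range (h : FunOrder H) (φ : H) :
    ev H 0 φ ∈ (Algebra.ofId R Ω).range := by
  obtain ⟨r, hr⟩ := h.zero φ φ.2
  exact ⟨r, hr⟩

/-- The counit. -/
noncomputable def FunOrder.counitAlgHom (h : FunOrder H) : H →ₐ[R] R :=
  ((AlgEquiv.ofInjective (Algebra.ofId R Ω) h.inj).symm : (Algebra.ofId R Ω).range →ₐ[R] R).comp
    ((ev H 0).codRestrict (Algebra.ofId R Ω).range h.ev_zero_mem_range)

theorem FunOrder.algebraMap_counitAlgHom (h : FunOrder H) (φ : H) :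
    algebraMap R Ω (h.counitAlgHom φ) = (φ : M → Ω) 0 := by
  have h1 : ((AlgEquiv.ofInjective (Algebra.ofId R Ω) h.inj) (h.counitAlgHom φ) : Ω) =
      ev H 0 φ := by
    rw [FunOrder.counitAlgHom, AlgHom.comp_apply, AlgEquiv.coe_algHom, AlgEquiv.apply_symm_apply]
    rfl
  rw [← ev_apply, ← h1]
  rfl

theorem FunOrder.ι₃_map_id_comul (h : FunOrder H) (x : H ⊗[R] H) (q : M × (M × M)) :
    ι₃ H (Algebra.TensorProduct.map (AlgHom.id R H) h.comulAlgHom x) q =
      ι₂ H x (q.1, q.2.1 + q.2.2) := by
  induction x using TensorProduct.induction_on with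
  | zero => simp
  | tmul a c =>
    rw [Algebra.TensorProduct.map_tmul, ι₃_tmul, h.ι₂_comulAlgHom, ι₂_tmul]
    rfl
  | add x y hx hy => rw [map_add, map_add, map_add, Pi.add_apply, Pi.add_apply, hx, hy]

theorem ι₃_assoc_tmul (y : H ⊗[R] H) (c : H) (q : M × (M × M)) :
    ι₃ H (Algebra.TensorProduct.assoc R R R H H H (y ⊗ₜ[R] c)) q =
      ι₂ H y (q.1, q.2.1) * (c : M → Ω) q.2.2 := by
  induction y using TensorProduct.induction_on with
  | zero => simp
  | tmul u v =>
    rw [Algebra.TensorProduct.assoc_tmul, ι₃_tmul, ι₂_tmul, ι₂_tmul]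
    ring
  | add x y hx hy =>
    rw [TensorProduct.add_tmul, map_add, map_add, map_add, Pi.add_apply, Pi.add_apply, hx, hy,
      add_mul]

theorem FunOrder.ι₃_assoc_map_comul_id (h : FunOrder H) (x : H ⊗[R] H) (q : M × (M × M)) :
    ι₃ H (Algebra.TensorProduct.assoc R R R H H H
      (Algebra.TensorProduct.map h.comulAlgHom (AlgHom.id R H) x)) q =
      ι₂ H x (q.1 + q.2.1, q.2.2) := by
  induction x using TensorProduct.induction_on with
  | zero => simp
  | tmul a c =>
    rw [Algebra.TensorProduct.map_tmul, AlgHom.id_apply, ι₃_assoc_tmul, h.ι₂_comulAlgHom_apply,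
      ι₂_tmul]
  | add x y hx hy =>
    rw [map_add, map_add, map_add, map_add, Pi.add_apply, Pi.add_apply, hx, hy]

theorem FunOrder.coassoc (h : FunOrder H) :
    (Algebra.TensorProduct.assoc R R R H H H).toAlgHom.comp
      ((Algebra.TensorProduct.map h.comulAlgHom (.id R H)).comp h.comulAlgHom) =
    (Algebra.TensorProduct.map (.id R H) h.comulAlgHom).comp h.comulAlgHom := by
  apply AlgHom.ext
  intro φ
  apply h.ι₃_injective
  funext q
  have e1 := h.ι₃_assoc_map_comul_id (h.comulAlgHom φ) q
  have e2 := h.ι₃_map_id_comul (h.comulAlgHom φ) q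
  rw [h.ι₂_comulAlgHom_apply] at e1 e2
  rw [add_assoc] at e1
  exact e1.trans e2.symm

theorem FunOrder.lid_map_counit (h : FunOrder H) (x : H ⊗[R] H) (m : M) :
    ((Algebra.TensorProduct.lid R H
      (Algebra.TensorProduct.map h.counitAlgHom (AlgHom.id R H) x) : H) : M → Ω) m =
      ι₂ H x (0, m) := by
  induction x using TensorProduct.induction_on with
  | zero => simp
  | tmul a c =>
    rw [Algebra.TensorProduct.map_tmul, AlgHom.id_apply, Algebra.TensorProduct.lid_tmul, ι₂_tmul,
      Subalgebra.coe_smul, Pi.smul_apply, Algebra.smul_def, h.algebraMap_counitAlgHom]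
  | add x y hx hy =>
    rw [map_add, map_add, map_add, Subalgebra.coe_add, Pi.add_apply, Pi.add_apply, hx, hy]

theorem FunOrder.rid_map_counit (h : FunOrder H) (x : H ⊗[R] H) (m : M) :
    ((Algebra.TensorProduct.rid R R H
      (Algebra.TensorProduct.map (AlgHom.id R H) h.counitAlgHom x) : H) : M → Ω) m =
      ι₂ H x (m, 0) := by
  induction x using TensorProduct.induction_on with
  | zero => simp
  | tmul a c =>
    rw [Algebra.TensorProduct.map_tmul, AlgHom.id_apply, Algebra.TensorProduct.rid_tmul, ι₂_tmul,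
      Subalgebra.coe_smul, Pi.smul_apply, Algebra.smul_def, h.algebraMap_counitAlgHom, mul_comm]
  | add x y hx hy =>
    rw [map_add, map_add, map_add, Subalgebra.coe_add, Pi.add_apply, Pi.add_apply, hx, hy]

theorem FunOrder.rTensor (h : FunOrder H) :
    (Algebra.TensorProduct.map h.counitAlgHom (.id R H)).comp h.comulAlgHom =
      (Algebra.TensorProduct.lid R H).symm := by
  apply AlgHom.ext
  intro φ
  apply (Algebra.TensorProduct.lid R H).injective
  refine Eq.trans ?_ (AlgEquiv.apply_symm_apply (Algebra.TensorProduct.lid R H) φ).symm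
  apply Subtype.ext
  funext m
  exact (h.lid_map_counit (h.comulAlgHom φ) m).trans (by rw [h.ι₂_comulAlgHom_apply, zero_add])

theorem FunOrder.lTensor (h : FunOrder H) :
    (Algebra.TensorProduct.map (.id R H) h.counitAlgHom).comp h.comulAlgHom =
      (Algebra.TensorProduct.rid R R H).symm := by
  apply AlgHom.ext
  intro φ
  apply (Algebra.TensorProduct.rid R R H).injective
  refine Eq.trans ?_ (AlgEquiv.apply_symm_apply (Algebra.TensorProduct.rid R R H) φ).symm
  apply Subtype.ext
  funext m
  exact (h.rid_map_counit (h.comulAlgHom φ) m).trans (by rw [h.ι₂_comulAlgHom_apply, add_zero])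

/-- The bialgebra structure on a Hopf order of functions. -/
@[reducible] noncomputable def FunOrder.bialgebra (h : FunOrder H) : Bialgebra R H :=
  Bialgebra.ofAlgHom h.comulAlgHom h.counitAlgHom h.coassoc h.rTensor h.lTensor

/-! ### Points -/

theorem FunOrder.ev_injective (h : FunOrder H) : Function.Injective (ev (R := R) H) := by
  intro m m' hmm
  apply h.sep
  intro φ hφ
  exact congrArg (fun f : H →ₐ[R] Ω => f ⟨φ, hφ⟩) hmm

theorem FunOrder.nontrivial (h : FunOrder H) : Nontrivial R :=
  (algebraMap R Ω).domain_nontrivial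

theorem FunOrder.moduleFinite (h : FunOrder H) : Module.Finite R H := by
  obtain ⟨n, b, -⟩ := h.basis
  exact Module.Finite.of_basis b

theorem FunOrder.moduleFree (h : FunOrder H) : Module.Free R H := by
  obtain ⟨n, b, -⟩ := h.basis
  exact Module.Free.of_basis b

theorem FunOrder.finite (h : FunOrder H) : Finite M := by
  have := h.moduleFinite
  have := h.moduleFree
  exact Finite.of_injective _ h.ev_injective

theorem FunOrder.ev_bijective (h : FunOrder H) : Function.Bijective (ev (R := R) H) := by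
  have := h.moduleFinite
  have := h.moduleFree
  have := h.finite
  have := h.nontrivial
  have : Fintype M := Fintype.ofFinite M
  refine h.ev_injective.bijective_of_nat_card_le ?_
  obtain ⟨n, b, hb⟩ := h.basis
  calc Nat.card (H →ₐ[R] Ω) ≤ Module.finrank R H := card_algHom_le_finrank R H Ω
    _ = Fintype.card (Fin n) := Module.finrank_eq_card_basis b
    _ ≤ Module.finrank Ω (M → Ω) := hb.fintype_card_le_finrank
    _ = Fintype.card M := Module.finrank_fintype_fun_eq_card Ω
    _ = Nat.card M := Nat.card_eq_fintype_card.symm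

/-! ### Antipode -/

theorem FunOrder.nsmul_mem (h : FunOrder H) (k : ℕ) :
    ∀ φ : M → Ω, φ ∈ H → (fun m => φ (k • m)) ∈ H := by
  induction k with
  | zero =>
    intro φ hφ
    obtain ⟨r, hr⟩ := h.zero φ hφ
    have h1 : (fun m : M => φ (0 • m)) = algebraMap R (M → Ω) r := by
      funext m
      rw [zero_smul, ← hr]
      rfl
    rw [h1]
    exact H.algebraMap_mem r
  | succ k ih =>
    intro φ hφ
    obtain ⟨n, a, c, hac⟩ := h.add φ hφ
    have h1 : (fun m : M => φ ((k + 1) • m)) =
        ∑ i, (fun m => (a i : M → Ω) (k • m)) * (c i : M → Ω) := by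
      funext m
      rw [succ_nsmul, hac, Finset.sum_apply]
      rfl
    rw [h1]
    exact sum_mem fun i _ => mul_mem (ih _ (a i).2) (c i).2

theorem FunOrder.neg_mem (h : FunOrder H) (φ : M → Ω) (hφ : φ ∈ H) :
    (fun m => φ (-m)) ∈ H := by
  have := h.finite
  have h1 := h.nsmul_mem (Nat.card M - 1) φ hφ
  have h2 : ∀ m : M, (Nat.card M - 1) • m = -m := by
    intro m
    have h3 : Nat.card M • m = 0 := card_nsmul_eq_zero'
    have h4 : 0 < Nat.card M := Nat.card_pos
    rw [eq_neg_iff_add_eq_zero, ← succ_nsmul, Nat.sub_add_cancel h4, h3]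
  simpa only [h2] using h1

/-- The antipode `φ ↦ (m ↦ φ (-m))`. -/
noncomputable def FunOrder.antipodeAlgHom (h : FunOrder H) : H →ₐ[R] H :=
  ((pb (fun m : M => -m)).comp H.val).codRestrict H (fun φ => h.neg_mem φ φ.2)

theorem FunOrder.antipodeAlgHom_apply (h : FunOrder H) (φ : H) (m : M) :
    (h.antipodeAlgHom φ : M → Ω) m = (φ : M → Ω) (-m) := rfl

theorem FunOrder.lift_antipode_id (h : FunOrder H) (x : H ⊗[R] H) (m : M) :
    ((Algebra.TensorProduct.lift h.antipodeAlgHom (AlgHom.id R H) (fun _ _ => Commute.all _ _) x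
      : H) : M → Ω) m = ι₂ H x (-m, m) := by
  induction x using TensorProduct.induction_on with
  | zero => simp
  | tmul a c =>
    rw [Algebra.TensorProduct.lift_tmul, ι₂_tmul]
    rfl
  | add x y hx hy =>
    rw [map_add, map_add, Subalgebra.coe_add, Pi.add_apply, Pi.add_apply, hx, hy]

theorem FunOrder.lift_id_antipode (h : FunOrder H) (x : H ⊗[R] H) (m : M) :
    ((Algebra.TensorProduct.lift (AlgHom.id R H) h.antipodeAlgHom (fun _ _ => Commute.all _ _) x
      : H) : M → Ω) m = ι₂ H x (m, -m) := by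
  induction x using TensorProduct.induction_on with
  | zero => simp
  | tmul a c =>
    rw [Algebra.TensorProduct.lift_tmul, ι₂_tmul]
    rfl
  | add x y hx hy =>
    rw [map_add, map_add, Subalgebra.coe_add, Pi.add_apply, Pi.add_apply, hx, hy]

/-- The Hopf algebra structure on a Hopf order of functions. -/
@[reducible] noncomputable def FunOrder.hopfAlgebra (h : FunOrder H) : HopfAlgebra R H :=
  letI := h.bialgebra
  HopfAlgebra.ofAlgHom h.antipodeAlgHom
    (by
      apply AlgHom.ext
      intro φ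
      apply Subtype.ext
      funext m
      refine (h.lift_antipode_id (h.comulAlgHom φ) m).trans ?_
      rw [h.ι₂_comulAlgHom_apply, neg_add_cancel]
      exact (h.algebraMap_counitAlgHom φ).symm)
    (by
      apply AlgHom.ext
      intro φ
      apply Subtype.ext
      funext m
      refine (h.lift_id_antipode (h.comulAlgHom φ) m).trans ?_
      rw [h.ι₂_comulAlgHom_apply, add_neg_cancel]
      exact (h.algebraMap_counitAlgHom φ).symm)

/-! ### Cocommutativity and the group of points -/

theorem ι₂_comm (x : H ⊗[R] H) (p : M × M) :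
    ι₂ H (TensorProduct.comm R H H x) p = ι₂ H x (p.2, p.1) := by
  induction x using TensorProduct.induction_on with
  | zero => simp
  | tmul a c => rw [TensorProduct.comm_tmul, ι₂_tmul, ι₂_tmul, mul_comm]
  | add x y hx hy => rw [map_add, map_add, map_add, Pi.add_apply, Pi.add_apply, hx, hy]

theorem FunOrder.isCocomm (h : FunOrder H) :
    letI := h.hopfAlgebra
    Coalgebra.IsCocomm R H := by
  letI := h.hopfAlgebra
  constructor
  apply LinearMap.ext
  intro φ
  apply h.ι₂_injective
  funext p
  refine (ι₂_comm (h.comulAlgHom φ) p).trans ?_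
  rw [h.ι₂_comulAlgHom_apply, add_comm, ← h.ι₂_comulAlgHom_apply]
  rfl

theorem lift_ev_ev (m m' : M) (x : H ⊗[R] H) :
    Algebra.TensorProduct.lift (ev H m) (ev H m') (fun _ _ => Commute.all _ _) x =
      ι₂ H x (m, m') := by
  induction x using TensorProduct.induction_on with
  | zero => simp
  | tmul a c =>
    rw [Algebra.TensorProduct.lift_tmul, ι₂_tmul]
    rfl
  | add x y hx hy => rw [map_add, map_add, Pi.add_apply, hx, hy]

theorem FunOrder.toConv_ev_mul (h : FunOrder H) (m m' : M) :
    letI := h.hopfAlgebra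
    (WithConv.toConv (ev H m) * WithConv.toConv (ev H m') : WithConv (H →ₐ[R] Ω)) =
      WithConv.toConv (ev H (m + m')) := by
  letI := h.hopfAlgebra
  apply WithConv.ofConv_injective
  apply AlgHom.ext
  intro φ
  refine (AlgHom.convMul_apply _ _ φ).trans ?_
  refine (lift_ev_ev m m' (h.comulAlgHom φ)).trans ?_
  rw [h.ι₂_comulAlgHom_apply]
  rfl

/-- **Function model ⇒ Hopf algebra.**  A Hopf order of functions on `M` is a finite flat
cocommutative Hopf algebra whose `Ω`-points, under convolution, are `M`; any pair of maps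
`τ : M → M`, `σ : Ω → Ω` with `φ (τ m) = σ (φ m)` on `H` is carried to post-composition. -/
theorem FunOrder.exists_hopfAlgebra (h : FunOrder H) :
    ∃ (H' : Type) (_ : CommRing H') (_ : HopfAlgebra R H'),
      Module.Finite R H' ∧ Module.Flat R H' ∧ Coalgebra.IsCocomm R H' ∧
      ∃ e : WithConv (H' →ₐ[R] Ω) ≃ M,
        (∀ f g, e (f * g) = e f + e g) ∧
        ∀ (τ : M → M) (σ : Ω → Ω), (∀ φ ∈ H, ∀ m, φ (τ m) = σ (φ m)) →
          ∀ f g : WithConv (H' →ₐ[R] Ω), (∀ x, g x = σ (f x)) → e g = τ (e f) := by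
  letI := h.hopfAlgebra
  have hfin := h.moduleFinite
  have hfree := h.moduleFree
  let e0 : M ≃ WithConv (H →ₐ[R] Ω) :=
    (Equiv.ofBijective (ev (R := R) H) h.ev_bijective).trans (WithConv.equiv _).symm
  have he0 : ∀ m, e0 m = WithConv.toConv (ev H m) := fun m => rfl
  refine ⟨H, inferInstance, h.hopfAlgebra, hfin, inferInstance, h.isCocomm, e0.symm, ?_, ?_⟩
  · intro f g
    obtain ⟨m, rfl⟩ := e0.surjective f
    obtain ⟨m', rfl⟩ := e0.surjective g
    rw [Equiv.symm_apply_apply, Equiv.symm_apply_apply, Equiv.symm_apply_eq, he0, he0, he0]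
    exact h.toConv_ev_mul m m'
  · intro τ σ hτ f g hfg
    obtain ⟨m, rfl⟩ := e0.surjective f
    rw [Equiv.symm_apply_apply, Equiv.symm_apply_eq, he0]
    apply WithConv.ofConv_injective
    apply AlgHom.ext
    intro φ
    refine (hfg φ).trans ?_
    exact (hτ φ φ.2 m).symm

end Core

/-! ### Galois descent: the hypotheses of `FunOrder` from finiteness and equivariance -/

section Descent

/-- Equivariant functions that are linearly independent over the base field are linearly
independent over the big field (Galois descent, minimal-relation argument). -/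
theorem linearIndependent_of_equivariant {K Ω : Type*} [Field K] [Field Ω] [Algebra K Ω]
    [IsGalois K Ω] {X ι : Type*} (act : (Ω ≃ₐ[K] Ω) → X → X)
    (hact : ∀ σ, Function.Surjective (act σ)) (v : ι → X → Ω)
    (hv : ∀ i σ x, v i (act σ x) = σ (v i x)) (hK : LinearIndependent K v) :
    LinearIndependent Ω v := by
  classical
  rw [linearIndependent_iff'] at hK ⊢
  intro s
  induction s using Finset.strongInduction with
  | H s ih =>
    intro g hg
    by_contra hne
    obtain ⟨i0, hne⟩ := not_forall.mp hne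
    obtain ⟨hi0, hg0⟩ := Classical.not_imp.mp hne
    obtain ⟨c, hc⟩ : ∃ c : ι → Ω, ∀ i, c i = (g i0)⁻¹ * g i := ⟨_, fun _ => rfl⟩
    have hc0 : c i0 = 1 := by rw [hc, inv_mul_cancel₀ hg0]
    have hrel : ∑ i ∈ s, c i • v i = 0 := by
      have h1 : ∑ i ∈ s, c i • v i = (g i0)⁻¹ • ∑ i ∈ s, g i • v i := by
        rw [Finset.smul_sum]
        refine Finset.sum_congr rfl fun i _ => ?_
        rw [smul_smul, hc]
      rw [h1, hg, smul_zero]
    have hσ : ∀ σ : Ω ≃ₐ[K] Ω, ∑ i ∈ s, σ (c i) • v i = 0 := by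
      intro σ
      funext x
      obtain ⟨y, rfl⟩ := hact σ x
      have h1 := congrFun hrel y
      simp only [Finset.sum_apply, Pi.smul_apply, smul_eq_mul, Pi.zero_apply] at h1 ⊢
      have h2 := congrArg σ h1
      rw [map_sum, map_zero] at h2
      rw [← h2]
      refine Finset.sum_congr rfl fun i _ => ?_
      rw [map_mul, hv]
    have hfix : ∀ σ : Ω ≃ₐ[K] Ω, ∀ i ∈ s, σ (c i) = c i := by
      intro σ i hi
      by_cases hii : i = i0
      · rw [hii, hc0, map_one]
      · have h3 : ∑ i ∈ s.erase i0, (σ (c i) - c i) • v i = 0 := by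
          have h4 : ∑ i ∈ s, (σ (c i) - c i) • v i = 0 := by
            simp only [sub_smul, Finset.sum_sub_distrib, hσ σ, hrel, sub_zero]
          rw [← Finset.add_sum_erase s _ hi0] at h4
          rw [hc0, map_one, sub_self, zero_smul, zero_add] at h4
          exact h4
        have h5 := ih (s.erase i0) (Finset.erase_ssubset hi0) (fun i => σ (c i) - c i) h3 i
          (Finset.mem_erase.mpr ⟨hii, hi⟩)
        exact sub_eq_zero.mp h5
    have hrat : ∀ i ∈ s, ∃ d : K, algebraMap K Ω d = c i := by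
      intro i hi
      exact (InfiniteGalois.mem_range_algebraMap_iff_fixed (c i)).mpr (fun σ => hfix σ i hi)
    choose! d hd using hrat
    have hKrel : ∑ i ∈ s, d i • v i = 0 := by
      rw [← hrel]
      refine Finset.sum_congr rfl fun i hi => ?_
      rw [← hd i hi]
      funext x
      rw [Pi.smul_apply, Pi.smul_apply, smul_eq_mul, Algebra.smul_def]
    have h6 := hK s d hKrel i0 hi0
    rw [← hd i0 hi0, h6, map_zero] at hc0
    exact zero_ne_one hc0

variable {R : Type} [CommRing R] [IsDomain R] [IsPrincipalIdealRing R]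
variable {K : Type} [Field K] [Algebra R K] [IsFractionRing R K]
variable {Ω : Type} [Field Ω] [Algebra K Ω] [Algebra R Ω] [IsScalarTower R K Ω] [IsGalois K Ω]
variable {M : Type} [AddCommGroup M]

/-- **Adapter.**  An `R`-subalgebra `H` of `M → Ω` (`R` a PID with fraction field `K`, `Ω/K`
Galois) which is module-finite, consists of Galois-equivariant functions, separates points and
is closed under the addition law is a `FunOrder`. -/
theorem FunOrder.of_finite_equivariant {H : Subalgebra R (M → Ω)}
    (act : (Ω ≃ₐ[K] Ω) → M → M) (hact : ∀ σ, Function.Surjective (act σ))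
    (hact0 : ∀ σ, act σ 0 = 0) (hfin : Module.Finite R H)
    (heqv : ∀ φ ∈ H, ∀ (σ : Ω ≃ₐ[K] Ω) (m : M), φ (act σ m) = σ (φ m))
    (hsep : ∀ m m' : M, m ≠ m' → ∃ φ ∈ H, φ m ≠ φ m')
    (hcomul : ∀ φ ∈ H, ∃ (n : ℕ) (a b : Fin n → M → Ω), (∀ i, a i ∈ H) ∧ (∀ i, b i ∈ H) ∧
      ∀ m m' : M, φ (m + m') = ∑ i, a i m * b i m') :
    FunOrder H := by
  have hinjK : Function.Injective (algebraMap K Ω) := (algebraMap K Ω).injective
  have hinj : Function.Injective (algebraMap R Ω) := by
    rw [IsScalarTower.algebraMap_eq R K Ω]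
    exact hinjK.comp (IsFractionRing.injective R K)
  have htf : Module.IsTorsionFree R H := by
    refine Module.IsTorsionFree.of_smul_eq_zero fun r φ hr => ?_
    by_cases hr0 : r = 0
    · exact Or.inl hr0
    · right
      apply Subtype.ext
      funext m
      have h1 := congrFun (congrArg Subtype.val hr) m
      rw [Subalgebra.coe_smul, Pi.smul_apply, Algebra.smul_def] at h1
      have h2 : algebraMap R Ω r ≠ 0 := fun h => hr0 (hinj (h.trans (map_zero _).symm))
      exact (mul_eq_zero.mp h1).resolve_left h2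
  obtain ⟨n, b⟩ := Module.basisOfFiniteTypeTorsionFree' (R := R) (M := H)
  refine ⟨hinj, ⟨n, b, ?_⟩, ?_, ?_, ?_⟩
  · have h1 : LinearIndependent R (fun i => ((b i : H) : M → Ω)) :=
      b.linearIndependent.map' (Subalgebra.toSubmodule H).subtype (Submodule.ker_subtype _)
    have h2 : LinearIndependent K (fun i => ((b i : H) : M → Ω)) :=
      (LinearIndependent.iff_fractionRing R K).mp h1
    exact linearIndependent_of_equivariant act hact _ (fun i σ x => heqv _ (b i).2 σ x) h2
  · intro m m' h
    by_contra hne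
    obtain ⟨φ, hφ, hφne⟩ := hsep m m' hne
    exact hφne (h φ hφ)
  · intro φ hφ
    obtain ⟨n, a, c, ha, hc, hac⟩ := hcomul φ hφ
    exact ⟨n, fun i => ⟨a i, ha i⟩, fun i => ⟨c i, hc i⟩, hac⟩
  · intro φ hφ
    have h1 : ∀ σ : Ω ≃ₐ[K] Ω, σ (φ 0) = φ 0 := by
      intro σ
      rw [← heqv φ hφ σ 0, hact0]
    obtain ⟨q, hq⟩ := (InfiniteGalois.mem_range_algebraMap_iff_fixed (φ 0)).mpr h1
    have h2 : IsIntegral R (⟨φ, hφ⟩ : H) := IsIntegral.of_finite R _
    have h3 : IsIntegral R (φ 0) := h2.map (ev H 0)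
    rw [← hq] at h3
    have h4 : IsIntegral R q := (isIntegral_algebraMap_iff hinjK).mp h3
    obtain ⟨r, hr⟩ := IsIntegrallyClosed.isIntegral_iff.mp h4
    refine ⟨r, ?_⟩
    rw [IsScalarTower.algebraMap_apply R K Ω, hr, hq]

end Descent

end Fermat.Agent.Lib.helper1852
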