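import Mathlib

/-!
# Two-dimensional purity by discriminants (Mathlib-only brick, helper187)

Commutative-algebra core of "normal finite cover of a regular 2-dimensional local ring,
unramified in codimension one, is finite etale".

* `free_of_regular_pair` (P1): `S` local noetherian, `π` in the maximal ideal, `S/π` a PID domain,
  `M` finite, `π` is `M`-regular, `M/πM` torsion-free over `S/π`  ⟹  `M` is free.
* `isUnit_discr_iff_formallyUnramified`: for a finite free algebra over ANY commutative ring,
  the discriminant of a basis is a unit iff the algebra is formally unramified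
  (`formallyUnramified_of_isUnit_discr`, `isUnit_discr_of_formallyUnramified`).
* `discr_map`, `trace_map`, `repr_map`, `discr_baseChange`: discriminants under base change.
* `isUnit_of_forall_height_one_notMem` (Krull), `eq_span_of_height_one_of_mem`,
  `formallyUnramified_of_forall_height_one` (P2 = purity in discriminant form).
* fibre criteria (P3): `algebraMap_discr_ne_zero_of_fibre`, `discr_notMem_of_fibre`,
  `formallyUnramified_fibre_of_algebraMap_discr_ne_zero`,
  `formallyUnramified_of_injective_of_isSeparable`,
  `formallyUnramified_of_isReduced_of_perfectField`,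
  `map_discr_ne_zero_of_linearIndependent` + `linearIndependent_of_ker` (vertical prime),
  `isUnit_discr_of_isReduced_quotient` (horizontal primes, after localisation).
* consequences (P4): `map_maximalIdeal_localization_atPrime`, `exists_mul_mem_map_maximalIdeal`.
* `purity_of_regular_pair`: the packaged statement.
* `regular_pair_atPrime`, `purity_regular_pair`: output in the shape "the maximal ideal of `T_q` is
  `(π, g)` and `π` is prime in `T_q`" (regular closed points of the special fibre);
  `isDomain_of_maximalIdeal_eq_span_singleton`.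
-/

set_option autoImplicit false

namespace Fermat.Agent.Lib.helper187

open IsLocalRing

section Free

variable {S M : Type*} [CommRing S] [AddCommGroup M] [Module S M]

/-- **P1 (freeness from a regular pair).** `S` local noetherian, `π` in the maximal ideal with
`S/π` a principal ideal domain, `M` a finite `S`-module on which `π` is a nonzerodivisor and such
that `M/πM` is torsion-free over `S/π`. Then `M` is free over `S`. -/
theorem free_of_regular_pair [IsLocalRing S] [IsNoetherianRing S] [Module.Finite S M]
    (π : S) (hπ : π ∈ maximalIdeal S)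
    [IsDomain (S ⧸ Ideal.span {π})] [IsPrincipalIdealRing (S ⧸ Ideal.span {π})]
    (hreg : ∀ m : M, π • m = 0 → m = 0)
    (htf : ∀ (s : S) (m : M), s ∉ Ideal.span {π} →
      s • m ∈ (Ideal.span {π} • ⊤ : Submodule S M) →
      m ∈ (Ideal.span {π} • ⊤ : Submodule S M)) :
    Module.Free S M := by
  classical
  set I : Ideal S := Ideal.span {π} with hI
  set N : Submodule S M := I • ⊤ with hN
  -- the quotient module is finite and torsion-free over the PID `S ⧸ I`
  have : Module.Finite (S ⧸ I) (M ⧸ N) := Module.Finite.of_restrictScalars_finite S (S ⧸ I) (M ⧸ N)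
  have : Module.IsTorsionFree (S ⧸ I) (M ⧸ N) := by
    refine Module.IsTorsionFree.of_smul_eq_zero ?_
    intro r m hrm
    obtain ⟨s, rfl⟩ := Ideal.Quotient.mk_surjective r
    obtain ⟨m, rfl⟩ := Submodule.Quotient.mk_surjective N m
    by_cases hs : s ∈ I
    · left; exact Ideal.Quotient.eq_zero_iff_mem.mpr hs
    · right
      have h1 : Submodule.Quotient.mk (p := N) (s • m) = 0 := hrm
      rw [Submodule.Quotient.mk_eq_zero] at h1 ⊢
      exact htf s m hs h1
  have : Module.Free (S ⧸ I) (M ⧸ N) := Module.free_of_finite_type_torsion_free'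
  let ι := Module.Free.ChooseBasisIndex (S ⧸ I) (M ⧸ N)
  let b : Module.Basis ι (S ⧸ I) (M ⧸ N) := Module.Free.chooseBasis (S ⧸ I) (M ⧸ N)
  have : Fintype ι := Module.Free.ChooseBasisIndex.fintype (S ⧸ I) (M ⧸ N)
  choose m hm using fun i => Submodule.Quotient.mk_surjective N (b i)
  have hIjac : I ≤ Ideal.jacobson ⊥ := by
    rw [IsLocalRing.jacobson_eq_maximalIdeal ⊥ bot_ne_top, hI, Ideal.span_singleton_le_iff_mem]
    exact hπ
  -- spanning, by Nakayama
  have hspan : ⊤ ≤ Submodule.span S (Set.range m) := by
    refine Submodule.le_of_le_smul_of_le_jacobson_bot (Module.finite_def.mp inferInstance) hIjac ?_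
    intro x _
    have hx := b.sum_repr (Submodule.Quotient.mk (p := N) x)
    choose c hc using fun i => Ideal.Quotient.mk_surjective (b.repr (Submodule.Quotient.mk x) i)
    have h2 : Submodule.Quotient.mk (p := N) (x - ∑ i, c i • m i) = 0 := by
      rw [Submodule.Quotient.mk_sub, sub_eq_zero, ← hx]
      change _ = N.mkQ (∑ i, c i • m i)
      rw [map_sum]
      refine Finset.sum_congr rfl fun i _ => ?_
      rw [← hc i, ← hm i]
      rfl
    rw [Submodule.Quotient.mk_eq_zero] at h2
    have h3 : ∑ i, c i • m i ∈ Submodule.span S (Set.range m) :=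
      Submodule.sum_mem _ fun i _ => Submodule.smul_mem _ _ (Submodule.subset_span ⟨i, rfl⟩)
    have : x = ∑ i, c i • m i + (x - ∑ i, c i • m i) := by abel
    rw [this]
    exact Submodule.add_mem_sup h3 h2
  -- a relation has all coefficients in `I`
  have hbase : ∀ g : ι → S, ∑ i, g i • m i = 0 → ∀ i, g i ∈ I := by
    intro g hg i
    have h1 : ∑ i, (Ideal.Quotient.mk I (g i)) • b i = 0 := by
      have : Submodule.Quotient.mk (p := N) (∑ i, g i • m i) = 0 := by rw [hg]; rfl
      rw [← this]
      change _ = N.mkQ (∑ i, g i • m i)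
      rw [map_sum]
      refine Finset.sum_congr rfl fun i _ => ?_
      rw [← hm i]
      rfl
    have h2 := (Fintype.linearIndependent_iff.mp b.linearIndependent) _ h1 i
    exact Ideal.Quotient.eq_zero_iff_mem.mp h2
  have hpow : ∀ k : ℕ, ∀ g : ι → S, ∑ i, g i • m i = 0 → ∀ i, g i ∈ I ^ k := by
    intro k
    induction k with
    | zero => intro g _ i; simp
    | succ k ih =>
      intro g hg i
      have h1 := hbase g hg
      choose h hh using fun i => Ideal.mem_span_singleton'.mp (h1 i)
      have h2 : π • ∑ i, h i • m i = 0 := by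
        rw [Finset.smul_sum, ← hg]
        refine Finset.sum_congr rfl fun i _ => ?_
        rw [smul_smul, mul_comm, hh i]
      have h3 := ih h (hreg _ h2) i
      rw [← hh i, pow_succ]
      exact Ideal.mul_mem_mul h3 (Ideal.mem_span_singleton_self π)
  have hIne : I ≠ ⊤ := by
    intro h
    have : π ∈ maximalIdeal S := hπ
    have h1 : (1 : S) ∈ I := by rw [h]; trivial
    have h2 : I ≤ maximalIdeal S := by
      rw [hI, Ideal.span_singleton_le_iff_mem]; exact hπ
    exact (Ideal.ne_top_iff_one _).mp (maximalIdeal.isMaximal S).ne_top (h2 h1)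
  have hli : LinearIndependent S m := by
    rw [Fintype.linearIndependent_iff]
    intro g hg i
    have h1 : g i ∈ ⨅ k : ℕ, I ^ k := by
      rw [Ideal.mem_iInf]
      exact fun k => hpow k g hg i
    rw [Ideal.iInf_pow_eq_bot_of_isLocalRing I hIne] at h1
    simpa using h1
  exact Module.Free.of_basis (Module.Basis.mk hli hspan)

end Free

section Unramified

open TensorProduct

variable {S T ι : Type*} [CommRing S] [CommRing T] [Algebra S T] [Fintype ι] [DecidableEq ι]

/-- The trace is the sum of the diagonal coordinates. -/
lemma trace_eq_sum_repr (b : Module.Basis ι S T) (x : T) :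
    Algebra.trace S T x = ∑ i, b.repr (x * b i) i := by
  rw [Algebra.trace_eq_matrix_trace b, Matrix.trace]
  simp [Algebra.leftMulMatrix_eq_repr_mul]

/-- **Unit discriminant ⇒ unramified** (any base ring): a finite free algebra whose discriminant
is a unit is formally unramified (the separability idempotent is `∑ bᵢ ⊗ bᵢ^∨`). -/
theorem formallyUnramified_of_isUnit_discr (b : Module.Basis ι S T)
    (h : IsUnit (Algebra.discr S b)) : Algebra.FormallyUnramified S T := by
  classical
  have : Module.Finite S T := Module.Finite.of_basis b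
  set M : Matrix ι ι S := Algebra.traceMatrix S b with hM
  have hMdet : IsUnit M.det := h
  set N : Matrix ι ι S := M⁻¹ with hN
  have hNM : N * M = 1 := Matrix.nonsing_inv_mul M hMdet
  have hMN : M * N = 1 := Matrix.mul_nonsing_inv M hMdet
  have hMapply : ∀ i j, M i j = Algebra.trace S T (b i * b j) := fun i j => by
    simp [hM, Algebra.traceMatrix_apply, Algebra.traceForm_apply]
  let c : ι → T := fun i => ∑ j, N i j • b j
  have hD1 : ∀ i k, Algebra.trace S T (c i * b k) = if i = k then 1 else 0 := by
    intro i k
    have : Algebra.trace S T (c i * b k) = ∑ j, N i j * M j k := by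
      simp only [c, Finset.sum_mul, map_sum, smul_mul_assoc, map_smul, smul_eq_mul, hMapply]
    rw [this, ← Matrix.mul_apply, hNM, Matrix.one_apply]
  have hrepr : ∀ x i, b.repr x i = Algebra.trace S T (x * c i) := by
    intro x i
    conv_rhs => rw [← b.sum_repr x]
    simp only [Finset.sum_mul, map_sum, smul_mul_assoc, map_smul, smul_eq_mul]
    have : ∀ k, Algebra.trace S T (b k * c i) = if i = k then 1 else 0 := fun k => by
      rw [mul_comm]; exact hD1 i k
    simp [this]
  have hD2 : ∀ x, x = ∑ i, Algebra.trace S T (x * c i) • b i := by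
    intro x
    conv_lhs => rw [← b.sum_repr x]
    exact Finset.sum_congr rfl fun i _ => by rw [hrepr]
  have hbc : ∀ j, b j = ∑ i, M j i • c i := by
    intro j
    simp only [c, Finset.smul_sum, smul_smul]
    rw [Finset.sum_comm]
    simp only [← Finset.sum_smul, ← Matrix.mul_apply, hMN, Matrix.one_apply]
    simp
  have hD3 : ∀ x, x = ∑ i, Algebra.trace S T (x * b i) • c i := by
    intro x
    have h1 : ∀ i, Algebra.trace S T (x * b i) = ∑ j, b.repr x j * M j i := by
      intro i
      conv_lhs => rw [← b.sum_repr x]
      simp only [Finset.sum_mul, map_sum, smul_mul_assoc, map_smul, smul_eq_mul, hMapply]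
    conv_lhs => rw [← b.sum_repr x]
    simp only [h1, Finset.sum_smul]
    rw [Finset.sum_comm]
    refine Finset.sum_congr rfl fun j _ => ?_
    conv_lhs => rw [hbc j, Finset.smul_sum]
    simp only [smul_smul]
  rw [Algebra.FormallyUnramified.iff_exists_tensorProduct]
  refine ⟨∑ i, b i ⊗ₜ[S] c i, ?_, ?_⟩
  · intro s
    rw [sub_mul, sub_eq_zero, Finset.mul_sum, Finset.mul_sum]
    simp only [Algebra.TensorProduct.tmul_mul_tmul, one_mul]
    have h1 : ∀ i, s * c i = ∑ j, Algebra.trace S T (s * c i * b j) • c j := fun i => hD3 _
    have h2 : ∀ j, s * b j = ∑ i, Algebra.trace S T (s * b j * c i) • b i := fun j => hD2 _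
    calc ∑ i, b i ⊗ₜ[S] (s * c i)
        = ∑ i, ∑ j, Algebra.trace S T (s * c i * b j) • (b i ⊗ₜ[S] c j) := by
          refine Finset.sum_congr rfl fun i _ => ?_
          conv_lhs => rw [h1 i]
          simp only [TensorProduct.tmul_sum, TensorProduct.tmul_smul]
      _ = ∑ j, ∑ i, Algebra.trace S T (s * b j * c i) • (b i ⊗ₜ[S] c j) := by
          rw [Finset.sum_comm]
          refine Finset.sum_congr rfl fun j _ => Finset.sum_congr rfl fun i _ => ?_
          congr 2; ring
      _ = ∑ j, (s * b j) ⊗ₜ[S] c j := by
          refine Finset.sum_congr rfl fun j _ => ?_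
          conv_rhs => rw [h2 j]
          simp only [TensorProduct.sum_tmul, TensorProduct.smul_tmul']
  · rw [map_sum]
    simp only [Algebra.TensorProduct.lmul'_apply_tmul]
    set u := ∑ i, b i * c i with hu
    have htr : ∀ k, Algebra.trace S T ((u - 1) * b k) = 0 := by
      intro k
      rw [sub_mul, one_mul, map_sub, sub_eq_zero, trace_eq_sum_repr b (b k), hu, Finset.sum_mul,
        map_sum]
      refine Finset.sum_congr rfl fun i _ => ?_
      rw [hrepr]; congr 1; ring
    have := hD3 (u - 1)
    simp only [htr, zero_smul, Finset.sum_const_zero] at this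
    exact sub_eq_zero.mp this

/-- **Unramified ⇒ unit discriminant** (any base ring): for a finite free algebra which is formally
unramified, the discriminant of any basis is a unit. -/
theorem isUnit_discr_of_formallyUnramified (b : Module.Basis ι S T)
    [Algebra.FormallyUnramified S T] : IsUnit (Algebra.discr S b) := by
  classical
  have : Module.Finite S T := Module.Finite.of_basis b
  obtain ⟨t, ht1, ht2⟩ :=
    (Algebra.FormallyUnramified.iff_exists_tensorProduct (R := S) (S := T)).mp inferInstance
  let Λ : T → ι → (T ⊗[S] T →ₗ[S] T) := fun a j =>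
    TensorProduct.lift (((LinearMap.lsmul S T).comp (b.coord j)).comp (LinearMap.mulLeft S a))
  have hΛ : ∀ a j x y, Λ a j (x ⊗ₜ[S] y) = b.repr (a * x) j • y := by
    intro a j x y; simp [Λ]
  let Φ : T → (T ⊗[S] T →ₗ[S] T) := fun a =>
    TensorProduct.lift (((LinearMap.lsmul S T).comp (Algebra.trace S T)).comp
      (LinearMap.mulLeft S a))
  have hΦ : ∀ a x y, Φ a (x ⊗ₜ[S] y) = Algebra.trace S T (a * x) • y := by
    intro a x y; simp [Φ]
  have key1 : ∀ a z, ∑ j, Λ a j ((b j ⊗ₜ[S] 1) * z) = Φ a z := by
    intro a z
    induction z using TensorProduct.induction_on with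
    | zero => simp
    | tmul x y =>
      simp only [Algebra.TensorProduct.tmul_mul_tmul, one_mul, hΛ, hΦ, ← Finset.sum_smul]
      congr 1
      rw [trace_eq_sum_repr b]
      refine Finset.sum_congr rfl fun j _ => ?_
      congr 2; ring
    | add z w hz hw => simp only [mul_add, map_add, Finset.sum_add_distrib, hz, hw]
  have key2 : ∀ a z, ∑ j, Λ a j ((1 ⊗ₜ[S] b j) * z) = a * Algebra.TensorProduct.lmul' S z := by
    intro a z
    induction z using TensorProduct.induction_on with
    | zero => simp
    | tmul x y =>
      simp only [Algebra.TensorProduct.tmul_mul_tmul, one_mul, hΛ, Algebra.TensorProduct.lmul'_apply_tmul]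
      have : ∑ j, b.repr (a * x) j • (b j * y) = (∑ j, b.repr (a * x) j • b j) * y := by
        rw [Finset.sum_mul]; simp
      rw [this, b.sum_repr]; ring
    | add z w hz hw => simp only [mul_add, map_add, Finset.sum_add_distrib, hz, hw]
  have hcomm : ∀ s : T, (s ⊗ₜ[S] (1 : T)) * t = ((1 : T) ⊗ₜ[S] s) * t := by
    intro s
    have := ht1 s
    rw [sub_mul, sub_eq_zero] at this
    exact this.symm
  have star : ∀ a, Φ a t = a := by
    intro a
    rw [← key1 a t]
    simp only [hcomm]
    rw [key2 a t, ht2, mul_one]
  let Ψ : ι → (T ⊗[S] T →ₗ[S] T) := fun j =>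
    TensorProduct.lift ((LinearMap.lsmul S T).flip.compl₂ (b.coord j))
  have hΨ : ∀ j x y, Ψ j (x ⊗ₜ[S] y) = b.repr y j • x := by
    intro j x y; simp [Ψ]
  let c : ι → T := fun j => Ψ j t
  have key3 : ∀ a j z, b.repr (Φ a z) j = Algebra.trace S T (a * Ψ j z) := by
    intro a j z
    induction z using TensorProduct.induction_on with
    | zero => simp
    | tmul x y =>
      rw [hΦ, hΨ]; simp [mul_comm]
    | add z w hz hw => simp only [map_add, Finsupp.add_apply, mul_add, hz, hw]
  have hc : ∀ a j, Algebra.trace S T (a * c j) = b.repr a j := by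
    intro a j
    rw [← key3 a j t, star a]
  let N : Matrix ι ι S := fun j l => b.repr (c j) l
  have hNM : N * Algebra.traceMatrix S b = 1 := by
    ext j i
    rw [Matrix.mul_apply, Matrix.one_apply]
    simp only [N, Algebra.traceMatrix_apply, Algebra.traceForm_apply]
    have : ∑ l, b.repr (c j) l * Algebra.trace S T (b l * b i) = Algebra.trace S T (c j * b i) := by
      conv_rhs => rw [← b.sum_repr (c j)]
      simp only [Finset.sum_mul, map_sum, smul_mul_assoc, map_smul, smul_eq_mul]
    rw [this, mul_comm, hc, b.repr_self, Finsupp.single_apply]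
    simp [eq_comm]
  have hdet : (Algebra.traceMatrix S b).det * N.det = 1 := by
    rw [mul_comm, ← Matrix.det_mul, hNM, Matrix.det_one]
  exact IsUnit.of_mul_eq_one _ hdet

/-- For a finite free algebra: unit discriminant ⇔ formally unramified. -/
theorem isUnit_discr_iff_formallyUnramified (b : Module.Basis ι S T) :
    IsUnit (Algebra.discr S b) ↔ Algebra.FormallyUnramified S T :=
  ⟨formallyUnramified_of_isUnit_discr b, fun _ => isUnit_discr_of_formallyUnramified b⟩

end Unramified

section DiscrMap

open TensorProduct

variable {S T S' T' ι : Type*} [CommRing S] [CommRing T] [Algebra S T] [CommRing S'] [CommRing T']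
  [Algebra S' T'] [Fintype ι] [DecidableEq ι]

omit [DecidableEq ι] in
/-- Coordinates are compatible with a semilinear ring map carrying a basis to a basis. -/
theorem repr_map (φ : S →+* S') (ψ : T →+* T')
    (hψ : ∀ s, ψ (algebraMap S T s) = algebraMap S' T' (φ s))
    (b : Module.Basis ι S T) (b' : Module.Basis ι S' T') (hb : ∀ i, b' i = ψ (b i))
    (x : T) (i : ι) : b'.repr (ψ x) i = φ (b.repr x i) := by
  have h : ψ x = ∑ k, φ (b.repr x k) • b' k := by
    conv_lhs => rw [← b.sum_repr x]
    rw [map_sum]
    refine Finset.sum_congr rfl fun k _ => ?_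
    rw [Algebra.smul_def, map_mul, hψ, hb, Algebra.smul_def]
  rw [h, b'.repr_sum_self]

/-- Traces are compatible with a semilinear ring map carrying a basis to a basis. -/
theorem trace_map (φ : S →+* S') (ψ : T →+* T')
    (hψ : ∀ s, ψ (algebraMap S T s) = algebraMap S' T' (φ s))
    (b : Module.Basis ι S T) (b' : Module.Basis ι S' T') (hb : ∀ i, b' i = ψ (b i)) (x : T) :
    Algebra.trace S' T' (ψ x) = φ (Algebra.trace S T x) := by
  rw [trace_eq_sum_repr b', trace_eq_sum_repr b, map_sum]
  refine Finset.sum_congr rfl fun i _ => ?_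
  rw [hb, ← map_mul, repr_map φ ψ hψ b b' hb]

/-- Discriminants are compatible with a semilinear ring map carrying a basis to a basis. -/
theorem discr_map (φ : S →+* S') (ψ : T →+* T')
    (hψ : ∀ s, ψ (algebraMap S T s) = algebraMap S' T' (φ s))
    (b : Module.Basis ι S T) (b' : Module.Basis ι S' T') (hb : ∀ i, b' i = ψ (b i)) :
    Algebra.discr S' b' = φ (Algebra.discr S b) := by
  rw [Algebra.discr_def, Algebra.discr_def, RingHom.map_det]
  congr 1
  ext i j
  simp only [Algebra.traceMatrix_apply, Algebra.traceForm_apply, RingHom.mapMatrix_apply,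
    Matrix.map_apply]
  rw [hb, hb, ← map_mul, trace_map φ ψ hψ b b' hb]

/-- The discriminant commutes with base change. -/
theorem discr_baseChange (A : Type*) [CommRing A] [Algebra S A] (b : Module.Basis ι S T) :
    Algebra.discr A (Algebra.TensorProduct.basis A b) = algebraMap S A (Algebra.discr S b) := by
  refine discr_map (algebraMap S A)
    (Algebra.TensorProduct.includeRight : T →ₐ[S] A ⊗[S] T).toRingHom ?_ b _ ?_
  · intro s
    change (Algebra.TensorProduct.includeRight : T →ₐ[S] A ⊗[S] T) (algebraMap S T s) = _
    rw [AlgHom.commutes, ← IsScalarTower.algebraMap_apply]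
  · intro i
    simp

end DiscrMap

section Purity

open TensorProduct

/-- **Krull.** In a noetherian domain, a nonzero element lying in no height-one prime is a unit. -/
theorem isUnit_of_forall_height_one_notMem {S : Type*} [CommRing S] [IsDomain S]
    [IsNoetherianRing S] (d : S) (hd : d ≠ 0)
    (h : ∀ p : Ideal S, p.IsPrime → p.height = 1 → d ∉ p) : IsUnit d := by
  by_contra hu
  have hne : Ideal.span {d} ≠ ⊤ := by rwa [Ne, Ideal.span_singleton_eq_top]
  obtain ⟨p, hp⟩ := Ideal.nonempty_minimalPrimes hne
  have hpp : p.IsPrime := hp.1.1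
  have hdp : d ∈ p := hp.1.2 (Ideal.mem_span_singleton_self d)
  have h1 : p.height ≤ 1 := Ideal.height_le_one_of_isPrincipal_of_mem_minimalPrimes _ p hp
  have h0 : p.height ≠ 0 := by
    rw [Ne, Ideal.height_eq_zero_iff_eq_bot]
    rintro rfl
    exact hd (by simpa using hdp)
  have h2 : p.height = 1 := le_antisymm h1 (Order.one_le_iff_pos.mpr (pos_iff_ne_zero.mpr h0))
  exact h p hpp h2 hdp

/-- In a domain, a height-one prime containing a nonzero element `π` generating a prime ideal
is `(π)`. -/
theorem eq_span_of_height_one_of_mem {S : Type*} [CommRing S] [IsDomain S] {π : S}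
    (hπ0 : π ≠ 0) [hπ : (Ideal.span {π}).IsPrime]
    (p : Ideal S) [p.IsPrime] (hp : p.height = 1) (hmem : π ∈ p) : p = Ideal.span {π} := by
  have hle : Ideal.span {π} ≤ p := (Ideal.span_singleton_le_iff_mem p).mpr hmem
  by_contra hne
  have hlt : Ideal.span {π} < p := lt_of_le_of_ne hle (Ne.symm hne)
  have : p.FiniteHeight := p.finiteHeight_iff.mpr (Or.inr (by rw [hp]; exact ENat.one_ne_top))
  have h1 := Ideal.height_strict_mono_of_isPrime_of_isPrime hlt
  rw [hp, Order.lt_one_iff, Ideal.height_eq_zero_iff_eq_bot,
    Ideal.span_singleton_eq_bot] at h1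
  exact hπ0 h1

variable {S T ι : Type*} [CommRing S] [CommRing T] [Algebra S T] [Fintype ι] [DecidableEq ι]

/-- **Purity of the branch locus for finite free algebras, discriminant form.** Over a noetherian
domain, a finite free algebra whose discriminant is nonzero and lies in no height-one prime is
formally unramified (equivalently, its discriminant is a unit). -/
theorem formallyUnramified_of_forall_height_one [IsDomain S] [IsNoetherianRing S]
    (b : Module.Basis ι S T) (h0 : Algebra.discr S b ≠ 0)
    (h1 : ∀ p : Ideal S, p.IsPrime → p.height = 1 → Algebra.discr S b ∉ p) :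
    Algebra.FormallyUnramified S T :=
  formallyUnramified_of_isUnit_discr b (isUnit_of_forall_height_one_notMem _ h0 h1)

/-- Fibre criterion: if the fibre `κ ⊗ T` over a field `κ` is unramified, the discriminant
does not vanish in `κ`. -/
theorem algebraMap_discr_ne_zero_of_fibre (b : Module.Basis ι S T) (κ : Type*) [Field κ]
    [Algebra S κ] [Algebra.FormallyUnramified κ (κ ⊗[S] T)] :
    algebraMap S κ (Algebra.discr S b) ≠ 0 := by
  rw [← discr_baseChange κ b]
  exact (isUnit_discr_of_formallyUnramified _).ne_zero

/-- Fibre criterion, converse: if the discriminant does not vanish in the field `κ`, the fibre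
`κ ⊗ T` is unramified over `κ`. -/
theorem formallyUnramified_fibre_of_algebraMap_discr_ne_zero (b : Module.Basis ι S T)
    (κ : Type*) [Field κ] [Algebra S κ] (h : algebraMap S κ (Algebra.discr S b) ≠ 0) :
    Algebra.FormallyUnramified κ (κ ⊗[S] T) := by
  refine formallyUnramified_of_isUnit_discr (Algebra.TensorProduct.basis κ b) ?_
  rw [discr_baseChange κ b]
  exact isUnit_iff_ne_zero.mpr h

/-- Fibre criterion in ideal form: if `p` is contained in the kernel of `S → κ` and the fibre
`κ ⊗ T` is unramified over the field `κ`, the discriminant is not in `p`. -/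
theorem discr_notMem_of_fibre (b : Module.Basis ι S T) (p : Ideal S) (κ : Type*) [Field κ]
    [Algebra S κ] (hp : p ≤ RingHom.ker (algebraMap S κ))
    [Algebra.FormallyUnramified κ (κ ⊗[S] T)] : Algebra.discr S b ∉ p :=
  fun hmem => algebraMap_discr_ne_zero_of_fibre b κ (hp hmem)

end Purity

section FieldCriteria

open TensorProduct

/-- A finite algebra over a field that embeds into a separable field extension is unramified. -/
theorem formallyUnramified_of_injective_of_isSeparable {κ A L : Type*} [Field κ] [CommRing A]
    [Algebra κ A] [Module.Finite κ A] [Field L] [Algebra κ L] [Algebra.IsSeparable κ L]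
    (f : A →ₐ[κ] L) (hf : Function.Injective f) : Algebra.FormallyUnramified κ A := by
  have : IsDomain A := hf.isDomain f.toRingHom
  have : IsArtinianRing A := isArtinian_of_tower κ inferInstance
  let _ : Field A := (IsArtinianRing.isField_of_isDomain A).toField
  have : Algebra.IsSeparable κ A := by
    refine ⟨fun x => ?_⟩
    have h1 : IsSeparable κ (f x) := Algebra.IsSeparable.isSeparable κ (f x)
    unfold IsSeparable at h1 ⊢
    rwa [minpoly.algHom_eq f hf x] at h1
  exact Algebra.FormallyUnramified.of_isSeparable κ A

attribute [local instance] IsArtinianRing.fieldOfSubtypeIsMaximal in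
/-- A finite reduced algebra over a perfect field is unramified. -/
theorem formallyUnramified_of_isReduced_of_perfectField (κ A : Type*) [Field κ] [PerfectField κ]
    [CommRing A] [Algebra κ A] [Module.Finite κ A] [IsReduced A] :
    Algebra.FormallyUnramified κ A := by
  have : IsArtinianRing A := isArtinian_of_tower κ inferInstance
  rw [Algebra.FormallyUnramified.iff_of_equiv ((IsArtinianRing.equivPi A).restrictScalars κ)]
  have : ∀ I : MaximalSpectrum A, Algebra.FormallyUnramified κ (A ⧸ I.asIdeal) := fun I =>
    Algebra.FormallyUnramified.of_isSeparable κ _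
  infer_instance

end FieldCriteria

section Vertical

open TensorProduct

variable {S T ι : Type*} [CommRing S] [CommRing T] [Algebra S T] [Fintype ι] [DecidableEq ι]

/-- **Vertical-prime criterion.** If `ψ : T → L` is a ring map into a separable field extension
`L/κ`, semilinear over `φ : S → κ`, such that the images of a basis stay `κ`-linearly independent,
then the discriminant does not vanish under `φ`. -/
theorem map_discr_ne_zero_of_linearIndependent (b : Module.Basis ι S T)
    {κ L : Type*} [Field κ] [Field L] [Algebra κ L] [Algebra.IsSeparable κ L]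
    (φ : S →+* κ) (ψ : T →+* L) (hψ : ∀ s, ψ (algebraMap S T s) = algebraMap κ L (φ s))
    (hli : LinearIndependent κ (fun i => ψ (b i))) : φ (Algebra.discr S b) ≠ 0 := by
  let _ : Algebra S κ := φ.toAlgebra
  let _ : Algebra S L := ((algebraMap κ L).comp φ).toAlgebra
  have : IsScalarTower S κ L := IsScalarTower.of_algebraMap_eq fun s => rfl
  let g : T →ₐ[S] L := { ψ with commutes' := fun s => hψ s }
  let f : κ ⊗[S] T →ₐ[κ] L :=
    Algebra.TensorProduct.lift (Algebra.ofId κ L) g (fun _ _ => Commute.all _ _)
  have hf : ∀ i, f (Algebra.TensorProduct.basis κ b i) = ψ (b i) := by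
    intro i; simp [f, g]
  have hinj : Function.Injective f := by
    rw [injective_iff_map_eq_zero]
    intro x hx
    have hx' := (Algebra.TensorProduct.basis κ b).sum_repr x
    rw [← hx', map_sum] at hx
    simp only [map_smul, hf] at hx
    have := Fintype.linearIndependent_iff.mp hli _ hx
    rw [← hx']
    simp [this]
  have : Module.Finite κ (κ ⊗[S] T) := Module.Finite.of_basis (Algebra.TensorProduct.basis κ b)
  have : Algebra.FormallyUnramified κ (κ ⊗[S] T) :=
    formallyUnramified_of_injective_of_isSeparable f hinj
  exact algebraMap_discr_ne_zero_of_fibre b κ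

omit [DecidableEq ι] in
/-- Coordinates of an element of `I·T` lie in `I`. -/
theorem repr_mem_of_mem_map (b : Module.Basis ι S T) (I : Ideal S) {t : T}
    (ht : t ∈ I.map (algebraMap S T)) (i : ι) : b.repr t i ∈ I := by
  rw [Ideal.map] at ht
  induction ht using Submodule.span_induction generalizing i with
  | mem x hx =>
    obtain ⟨a, ha, rfl⟩ := hx
    rw [Algebra.algebraMap_eq_smul_one, map_smul, Finsupp.smul_apply, smul_eq_mul]
    exact I.mul_mem_right _ ha
  | zero => simp
  | add x y _ _ hx hy => rw [map_add, Finsupp.add_apply]; exact I.add_mem (hx i) (hy i)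
  | smul r x _ hx =>
    have h1 : r • x = ∑ j, b.repr x j • (r * b j) := by
      conv_lhs => rw [← b.sum_repr x, smul_eq_mul, Finset.mul_sum]
      refine Finset.sum_congr rfl fun j _ => ?_
      rw [mul_smul_comm]
    rw [h1, map_sum, Finsupp.coe_finsetSum, Finset.sum_apply]
    refine I.sum_mem fun j _ => ?_
    rw [map_smul, Finsupp.smul_apply, smul_eq_mul]
    exact I.mul_mem_right _ (hx j)

/-- The linear-independence hypothesis of `map_discr_ne_zero_of_linearIndependent` from a kernel
condition: `κ` is generated as a field by `φ(S)` and `ker ψ ⊆ (ker φ)·T`. -/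
theorem linearIndependent_of_ker (b : Module.Basis ι S T) {κ L : Type*} [Field κ] [Field L]
    [Algebra κ L] (φ : S →+* κ) (ψ : T →+* L)
    (hψ : ∀ s, ψ (algebraMap S T s) = algebraMap κ L (φ s))
    (hfrac : ∀ c : κ, ∃ s s' : S, φ s' ≠ 0 ∧ c * φ s' = φ s)
    (hker : ∀ t : T, ψ t = 0 → t ∈ (RingHom.ker φ).map (algebraMap S T)) :
    LinearIndependent κ (fun i => ψ (b i)) := by
  classical
  rw [Fintype.linearIndependent_iff]
  intro g hg i
  choose s s' hs' hs using fun i => hfrac (g i)
  let D : S := ∏ j, s' j
  have hD : φ D ≠ 0 := by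
    rw [map_prod]; exact Finset.prod_ne_zero_iff.mpr fun j _ => hs' j
  let u : ι → S := fun i => s i * ∏ j ∈ Finset.univ.erase i, s' j
  have hu : ∀ i, g i * φ D = φ (u i) := by
    intro i
    have h0 : D = s' i * ∏ j ∈ Finset.univ.erase i, s' j :=
      (Finset.mul_prod_erase _ _ (Finset.mem_univ i)).symm
    rw [h0, map_mul, ← mul_assoc, hs i, ← map_mul]
  have h1 : ψ (∑ i, u i • b i) = 0 := by
    rw [map_sum]
    have h2 : ∀ i, ψ (u i • b i) = φ D • (g i • ψ (b i)) := by
      intro i
      rw [Algebra.smul_def, map_mul, hψ, ← hu i, smul_smul, Algebra.smul_def, mul_comm (φ D)]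
    simp only [h2, ← Finset.smul_sum, hg, smul_zero]
  have h3 := repr_mem_of_mem_map b _ (hker _ h1) i
  rw [b.repr_sum_self, RingHom.mem_ker, ← hu i] at h3
  exact (mul_eq_zero.mp h3).resolve_right hD

end Vertical

section LocalConsequences

variable {S T : Type*} [CommRing S] [CommRing T] [Algebra S T]

/-- Unramified over a local ring: at every prime `q` of `T` over the maximal ideal `m` of `S`,
`m` generates the maximal ideal of `T_q`. -/
theorem map_maximalIdeal_localization_atPrime [IsLocalRing S] [Algebra.EssFiniteType S T]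
    [Algebra.FormallyUnramified S T] (q : Ideal T) [q.IsPrime]
    (hq : maximalIdeal S ≤ q.comap (algebraMap S T)) :
    (maximalIdeal S).map (algebraMap S (Localization.AtPrime q)) =
      maximalIdeal (Localization.AtPrime q) := by
  have : Algebra.FormallyUnramified T (Localization.AtPrime q) :=
    Algebra.FormallyUnramified.of_isLocalization q.primeCompl
  have : Algebra.FormallyUnramified S (Localization.AtPrime q) :=
    Algebra.FormallyUnramified.comp S T _
  have : Algebra.EssFiniteType S (Localization.AtPrime q) := Algebra.EssFiniteType.comp S T _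
  have : IsLocalHom (algebraMap S (Localization.AtPrime q)) := by
    constructor
    intro s hs
    by_contra hns
    have h1 : s ∈ maximalIdeal S := (IsLocalRing.mem_maximalIdeal s).mpr hns
    have h2 : algebraMap S T s ∈ q := hq h1
    have h3 : algebraMap T (Localization.AtPrime q) (algebraMap S T s) ∈
        maximalIdeal (Localization.AtPrime q) := by
      rw [← Localization.AtPrime.map_eq_maximalIdeal]
      exact Ideal.mem_map_of_mem _ h2
    rw [← IsScalarTower.algebraMap_apply] at h3
    exact (IsLocalRing.mem_maximalIdeal _).mp h3 hs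
  exact Algebra.FormallyUnramified.map_maximalIdeal

/-- Elementwise form of `map_maximalIdeal_localization_atPrime`: every element of `q` is, up to a
factor outside `q`, in `m·T`. -/
theorem exists_mul_mem_map_maximalIdeal [IsLocalRing S] [Algebra.EssFiniteType S T]
    [Algebra.FormallyUnramified S T] (q : Ideal T) [q.IsPrime]
    (hq : maximalIdeal S ≤ q.comap (algebraMap S T)) {x : T} (hx : x ∈ q) :
    ∃ s : T, s ∉ q ∧ s * x ∈ (maximalIdeal S).map (algebraMap S T) := by
  have h1 : algebraMap T (Localization.AtPrime q) x ∈ maximalIdeal (Localization.AtPrime q) := by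
    rw [← Localization.AtPrime.map_eq_maximalIdeal]
    exact Ideal.mem_map_of_mem _ hx
  rw [← map_maximalIdeal_localization_atPrime q hq,
    IsScalarTower.algebraMap_eq S T (Localization.AtPrime q), ← Ideal.map_map,
    IsLocalization.mem_map_algebraMap_iff q.primeCompl] at h1
  obtain ⟨⟨a, m⟩, h2⟩ := h1
  rw [← map_mul] at h2
  obtain ⟨c, hc⟩ := (IsLocalization.eq_iff_exists q.primeCompl _).mp h2
  refine ⟨c * m, ?_, ?_⟩
  · exact (q.primeCompl.mul_mem c.2 m.2)
  · have : (c : T) * (m : T) * x = c * a := by rw [← hc]; ring
    rw [this]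
    exact Ideal.mul_mem_left _ _ a.2

end LocalConsequences

section Residue

variable {R T' ι : Type*} [CommRing R] [IsLocalRing R] [CommRing T'] [Algebra R T']
  [Fintype ι] [DecidableEq ι]

attribute [local instance] Ideal.Quotient.field in
/-- **Horizontal-prime criterion (local form).** Over a local ring with perfect residue field, a
finite free algebra with reduced special fibre has unit discriminant. -/
theorem isUnit_discr_of_isReduced_quotient (b' : Module.Basis ι R T')
    (hperf : PerfectField (IsLocalRing.ResidueField R))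
    [IsReduced (T' ⧸ (maximalIdeal R).map (algebraMap R T'))] :
    IsUnit (Algebra.discr R b') := by
  have : Module.Free R T' := Module.Free.of_basis b'
  have : Module.Finite R T' := Module.Finite.of_basis b'
  have : PerfectField (R ⧸ maximalIdeal R) := hperf
  have : Module.Finite (R ⧸ maximalIdeal R) (T' ⧸ (maximalIdeal R).map (algebraMap R T')) :=
    Module.Finite.of_basis (IsLocalRing.basisQuotient b')
  have hU := formallyUnramified_of_isReduced_of_perfectField (R ⧸ maximalIdeal R)
    (T' ⧸ (maximalIdeal R).map (algebraMap R T'))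
  have h1 := (isUnit_discr_of_formallyUnramified (IsLocalRing.basisQuotient b')).ne_zero
  rw [discr_map (Ideal.Quotient.mk (maximalIdeal R)) (Ideal.Quotient.mk _) (fun s => rfl) b' _
    (fun i => IsLocalRing.basisQuotient_apply b' i)] at h1
  by_contra hu
  exact h1 (Ideal.Quotient.eq_zero_iff_mem.mpr ((IsLocalRing.mem_maximalIdeal _).mpr hu))

end Residue

section Package

/-- Membership in `(π)·M`, elementwise. -/
theorem mem_span_singleton_smul_top {S M : Type*} [CommRing S] [AddCommGroup M] [Module S M]
    (π : S) (m : M) :
    m ∈ (Ideal.span {π} • ⊤ : Submodule S M) ↔ ∃ m' : M, m = π • m' := by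
  rw [Submodule.ideal_span_singleton_smul, Submodule.mem_smul_pointwise_iff_exists]
  constructor
  · rintro ⟨m', -, rfl⟩; exact ⟨m', rfl⟩
  · rintro ⟨m', rfl⟩; exact ⟨m', trivial, rfl⟩

/-- **Two-dimensional purity, packaged.** `S` a noetherian local domain, `π ≠ 0` in its maximal
ideal with `S/π` a principal ideal domain (e.g. `S` regular local of dimension 2 and `S/π` a DVR).
`T` a finite `S`-algebra such that `π` is `T`-regular and `T/πT` is torsion-free over `S/π`.
If the discriminant (of any basis) avoids the vertical prime `(π)` and every height-one prime not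
containing `π`, then `T` is free and formally unramified over `S`, and the maximal ideal of `S`
generates the maximal ideal of `T_q` at every maximal ideal `q` of `T`. -/
theorem purity_of_regular_pair
    {S T : Type*} [CommRing S] [IsDomain S] [IsLocalRing S] [IsNoetherianRing S]
    [CommRing T] [Algebra S T] [Module.Finite S T]
    (π : S) (hπ : π ∈ maximalIdeal S) (hπ0 : π ≠ 0)
    [IsDomain (S ⧸ Ideal.span {π})] [IsPrincipalIdealRing (S ⧸ Ideal.span {π})]
    (hreg : ∀ t : T, π • t = 0 → t = 0)
    (htf : ∀ (s : S) (t : T), s ∉ Ideal.span {π} →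
      s • t ∈ (Ideal.span {π} • ⊤ : Submodule S T) → t ∈ (Ideal.span {π} • ⊤ : Submodule S T))
    (hV : ∀ (n : ℕ) (b : Module.Basis (Fin n) S T), Algebra.discr S b ∉ Ideal.span {π})
    (hH : ∀ (n : ℕ) (b : Module.Basis (Fin n) S T) (p : Ideal S), p.IsPrime → p.height = 1 →
      π ∉ p → Algebra.discr S b ∉ p) :
    Module.Free S T ∧ Algebra.FormallyUnramified S T ∧
      ∀ q : Ideal T, q.IsMaximal →
        ∀ x ∈ q, ∃ s : T, s ∉ q ∧ s * x ∈ (maximalIdeal S).map (algebraMap S T) := by
  have hfree : Module.Free S T := free_of_regular_pair π hπ hreg htf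
  let b : Module.Basis (Fin (Module.finrank S T)) S T := Module.finBasis S T
  have hprime : (Ideal.span {π}).IsPrime := (Ideal.Quotient.isDomain_iff_prime _).mp inferInstance
  have hd0 : Algebra.discr S b ≠ 0 := fun h => hV _ b (by rw [h]; exact Ideal.zero_mem _)
  have hunr : Algebra.FormallyUnramified S T := by
    refine formallyUnramified_of_forall_height_one b hd0 fun p hp hp1 => ?_
    by_cases hmem : π ∈ p
    · rw [eq_span_of_height_one_of_mem hπ0 p hp1 hmem]
      exact hV _ b
    · exact hH _ b p hp hp1 hmem
  refine ⟨hfree, hunr, fun q hq x hx => ?_⟩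
  have hcomap : (q.comap (algebraMap S T)).IsMaximal :=
    Ideal.isMaximal_comap_of_isIntegral_of_isMaximal q
  have hle : maximalIdeal S ≤ q.comap (algebraMap S T) :=
    (IsLocalRing.eq_maximalIdeal hcomap).ge
  exact exists_mul_mem_map_maximalIdeal q hle hx

end Package

section RegularPair

/-- A noetherian local ring whose maximal ideal is generated by one non-zero-divisor is a
domain (it is a DVR or a field). -/
theorem isDomain_of_maximalIdeal_eq_span_singleton {A : Type*} [CommRing A] [IsLocalRing A]
    [IsNoetherianRing A] (g : A) (hmax : maximalIdeal A = Ideal.span {g})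
    (hreg : ∀ x, g * x = 0 → x = 0) : IsDomain A := by
  have hinf : ⨅ n : ℕ, maximalIdeal A ^ n = ⊥ :=
    Ideal.iInf_pow_eq_bot_of_isLocalRing _ (maximalIdeal.isMaximal A).ne_top
  have hpowreg : ∀ (k : ℕ) (x : A), g ^ k * x = 0 → x = 0 := by
    intro k
    induction k with
    | zero => intro x hx; simpa using hx
    | succ k ih =>
      intro x hx
      rw [pow_succ, mul_assoc] at hx
      exact hreg x (ih _ hx)
  have key : ∀ x : A, x ≠ 0 → ∃ (n : ℕ) (u : A), IsUnit u ∧ x = g ^ n * u := by
    intro x hx
    have h1 : ∃ n : ℕ, x ∉ maximalIdeal A ^ n := by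
      by_contra hcon
      have hcon' : ∀ n : ℕ, x ∈ maximalIdeal A ^ n := fun n => by
        by_contra h; exact hcon ⟨n, h⟩
      have : x ∈ ⨅ n : ℕ, maximalIdeal A ^ n := by rw [Ideal.mem_iInf]; exact hcon'
      rw [hinf] at this
      exact hx (by simpa using this)
    classical
    let n := Nat.find h1
    have hn : x ∉ maximalIdeal A ^ n := Nat.find_spec h1
    have hn0 : n ≠ 0 := by
      intro h0
      rw [h0, pow_zero, Ideal.one_eq_top] at hn
      exact hn trivial
    obtain ⟨m, hm⟩ := Nat.exists_eq_succ_of_ne_zero hn0
    have hmem : x ∈ maximalIdeal A ^ m := by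
      by_contra hcon
      have := Nat.find_min' h1 hcon
      omega
    rw [hmax, Ideal.span_singleton_pow, Ideal.mem_span_singleton'] at hmem
    obtain ⟨y, hy⟩ := hmem
    refine ⟨m, y, ?_, by rw [← hy, mul_comm]⟩
    by_contra hu
    have hy' : y ∈ maximalIdeal A := (IsLocalRing.mem_maximalIdeal y).mpr hu
    rw [hmax, Ideal.mem_span_singleton'] at hy'
    obtain ⟨z, hz⟩ := hy'
    apply hn
    rw [hm, hmax, Ideal.span_singleton_pow, Ideal.mem_span_singleton']
    exact ⟨z, by rw [← hy, ← hz, pow_succ]; ring⟩
  have : NoZeroDivisors A := by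
    refine ⟨fun {a b} hab => ?_⟩
    by_contra hcon
    rw [not_or] at hcon
    obtain ⟨n, u, hu, rfl⟩ := key a hcon.1
    obtain ⟨m, v, hv, rfl⟩ := key b hcon.2
    have h2 : g ^ (n + m) * (u * v) = 0 := by rw [← hab, pow_add]; ring
    have h3 := hpowreg _ _ h2
    exact (hu.mul hv).ne_zero h3
  exact NoZeroDivisors.to_isDomain A

variable {S T : Type*} [CommRing S] [CommRing T] [Algebra S T]

/-- **Regular pair at a closed point (output shape for the local-equation consumers).**
`S` local with maximal ideal `(π, g)`, `T` noetherian, essentially of finite type and formally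
unramified over `S` (e.g. the conclusion of `purity_of_regular_pair`), `π` a non-zero-divisor on
`T` and `g` a non-zero-divisor on `T/πT`. Then at every prime `q` of `T` over the maximal ideal of
`S`, the local ring `T_q` has maximal ideal `(π, g)` and `π` is a prime element of `T_q`
(so `T_q/π` is a DVR or a field, with uniformiser `g`). -/
theorem regular_pair_atPrime [IsLocalRing S] [IsNoetherianRing T] [Algebra.EssFiniteType S T]
    [Algebra.FormallyUnramified S T] (π g : S) (hmax : maximalIdeal S = Ideal.span {π, g})
    (hπreg : ∀ t : T, π • t = 0 → t = 0)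
    (hgreg : ∀ t t' : T, g • t = π • t' → ∃ t'' : T, t = π • t'')
    (q : Ideal T) [q.IsPrime] (hq : maximalIdeal S ≤ q.comap (algebraMap S T)) :
    maximalIdeal (Localization.AtPrime q) =
        Ideal.span {algebraMap S (Localization.AtPrime q) π,
          algebraMap S (Localization.AtPrime q) g} ∧
      Prime (algebraMap S (Localization.AtPrime q) π) := by
  set R := Localization.AtPrime q with hR
  set π' : R := algebraMap S R π with hπ'
  set g' : R := algebraMap S R g with hg'
  have hmaxR : maximalIdeal R = Ideal.span {π', g'} := by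
    rw [← map_maximalIdeal_localization_atPrime q hq, hmax, Ideal.map_span, Set.image_pair]
  refine ⟨hmaxR, ?_⟩
  -- `π'` is nonzero
  have hπ0 : π' ≠ 0 := by
    intro h0
    rw [hπ', IsScalarTower.algebraMap_apply S T R,
      IsLocalization.map_eq_zero_iff q.primeCompl] at h0
    obtain ⟨c, hc⟩ := h0
    have h1 : π • (c : T) = 0 := by rw [Algebra.smul_def, mul_comm]; exact hc
    have h2 := hπreg _ h1
    exact c.2 (by rw [h2]; exact q.zero_mem)
  -- `g'` is regular modulo `π'`
  have hgR : ∀ x y : R, g' * x = π' * y → ∃ z : R, x = π' * z := by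
    intro x y hxy
    obtain ⟨t, s, rfl⟩ := IsLocalization.exists_mk'_eq q.primeCompl x
    obtain ⟨t', s', rfl⟩ := IsLocalization.exists_mk'_eq q.primeCompl y
    have h1 : algebraMap T R (algebraMap S T g * t * s') =
        algebraMap T R (algebraMap S T π * t' * s) := by
      have e1 : algebraMap T R (algebraMap S T g * t * s') =
          g' * IsLocalization.mk' R t s * (algebraMap T R s * algebraMap T R s') := by
        rw [hg', IsScalarTower.algebraMap_apply S T R, map_mul, map_mul]
        have := IsLocalization.mk'_spec R t s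
        calc algebraMap T R (algebraMap S T g) * algebraMap T R t * algebraMap T R s'
            = algebraMap T R (algebraMap S T g) * (IsLocalization.mk' R t s * algebraMap T R s)
                * algebraMap T R s' := by rw [this]
          _ = _ := by ring
      have e2 : algebraMap T R (algebraMap S T π * t' * s) =
          π' * IsLocalization.mk' R t' s' * (algebraMap T R s * algebraMap T R s') := by
        rw [hπ', IsScalarTower.algebraMap_apply S T R, map_mul, map_mul]
        have := IsLocalization.mk'_spec R t' s'
        calc algebraMap T R (algebraMap S T π) * algebraMap T R t' * algebraMap T R s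
            = algebraMap T R (algebraMap S T π) * (IsLocalization.mk' R t' s' * algebraMap T R s')
                * algebraMap T R s := by rw [this]
          _ = _ := by ring
      rw [e1, e2, hxy]
    obtain ⟨c, hc⟩ := (IsLocalization.eq_iff_exists q.primeCompl R).mp h1
    have h2 : g • ((c : T) * t * s') = π • ((c : T) * t' * s) := by
      rw [Algebra.smul_def, Algebra.smul_def]
      calc algebraMap S T g * ((c : T) * t * s') = (c : T) * (algebraMap S T g * t * s') := by ring
        _ = (c : T) * (algebraMap S T π * t' * s) := hc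
        _ = _ := by ring
    obtain ⟨t'', ht''⟩ := hgreg _ _ h2
    refine ⟨IsLocalization.mk' R t'' (c * s' * s), ?_⟩
    rw [hπ', IsScalarTower.algebraMap_apply S T R, IsLocalization.mul_mk'_eq_mk'_of_mul,
      IsLocalization.mk'_eq_iff_eq]
    congr 1
    simp only [Submonoid.coe_mul]
    rw [← Algebra.smul_def, ← ht'']
    ring
  -- the quotient `R / π'` is a domain
  have hπmem : π' ∈ maximalIdeal R := by
    rw [hmaxR]; exact Ideal.subset_span (Set.mem_insert _ _)
  have hne : Ideal.span {π'} ≠ ⊤ := by
    intro h
    have h1 : (1 : R) ∈ Ideal.span {π'} := by rw [h]; trivial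
    have h2 : Ideal.span {π'} ≤ maximalIdeal R :=
      (Ideal.span_singleton_le_iff_mem _).mpr hπmem
    exact (Ideal.ne_top_iff_one _).mp (maximalIdeal.isMaximal R).ne_top (h2 h1)
  have : Nontrivial (R ⧸ Ideal.span {π'}) := Ideal.Quotient.nontrivial_iff.mpr hne
  have : IsLocalRing (R ⧸ Ideal.span {π'}) :=
    IsLocalRing.of_surjective' (Ideal.Quotient.mk _) Ideal.Quotient.mk_surjective
  have hmaxQ : maximalIdeal (R ⧸ Ideal.span {π'}) =
      Ideal.span {Ideal.Quotient.mk (Ideal.span {π'}) g'} := by
    rw [← IsLocalRing.map_maximalIdeal_of_surjective (Ideal.Quotient.mk (Ideal.span {π'}))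
      Ideal.Quotient.mk_surjective, hmaxR, Ideal.map_span, Set.image_pair,
      Ideal.Quotient.eq_zero_iff_mem.mpr (Ideal.mem_span_singleton_self π')]
    refine le_antisymm (Ideal.span_le.mpr ?_) (Ideal.span_mono (by simp))
    rintro x (rfl | rfl)
    · exact Ideal.zero_mem _
    · exact Ideal.subset_span rfl
  have hregQ : ∀ x : R ⧸ Ideal.span {π'},
      Ideal.Quotient.mk (Ideal.span {π'}) g' * x = 0 → x = 0 := by
    intro x hx
    obtain ⟨x, rfl⟩ := Ideal.Quotient.mk_surjective x
    rw [← map_mul, Ideal.Quotient.eq_zero_iff_mem, Ideal.mem_span_singleton'] at hx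
    obtain ⟨y, hy⟩ := hx
    obtain ⟨z, rfl⟩ := hgR x y (by rw [← hy, mul_comm])
    rw [Ideal.Quotient.eq_zero_iff_mem]
    exact Ideal.mul_mem_right _ _ (Ideal.mem_span_singleton_self π')
  have hdom : IsDomain (R ⧸ Ideal.span {π'}) :=
    isDomain_of_maximalIdeal_eq_span_singleton _ hmaxQ hregQ
  have hprime : (Ideal.span {π'}).IsPrime := (Ideal.Quotient.isDomain_iff_prime _).mp hdom
  exact (Ideal.span_singleton_prime hπ0).mp hprime

end RegularPair

section PackageRegular

/-- **Two-dimensional purity, packaged in the regular-pair output shape.** `S` a noetherian local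
domain with maximal ideal `(π, g)`, `π ≠ 0`, `g ∉ (π)`, `S/π` a principal ideal domain; `T` a
finite `S`-algebra with `π` regular on `T` and `T/πT` torsion-free over `S/π` (kernel lemma); the
discriminant of every basis avoids `(π)` and every height-one prime not containing `π`. Then at
every maximal ideal `q` of `T`: the maximal ideal of `T_q` is `(π, g)` and `π` is prime in `T_q`. -/
theorem purity_regular_pair
    {S T : Type*} [CommRing S] [IsDomain S] [IsLocalRing S] [IsNoetherianRing S]
    [CommRing T] [Algebra S T] [Module.Finite S T]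
    (π g : S) (hmax : maximalIdeal S = Ideal.span {π, g}) (hπ0 : π ≠ 0)
    (hg : g ∉ Ideal.span {π})
    [IsDomain (S ⧸ Ideal.span {π})] [IsPrincipalIdealRing (S ⧸ Ideal.span {π})]
    (hreg : ∀ t : T, π • t = 0 → t = 0)
    (htf : ∀ (s : S) (t t' : T), s ∉ Ideal.span {π} → s • t = π • t' → ∃ t'' : T, t = π • t'')
    (hV : ∀ (n : ℕ) (b : Module.Basis (Fin n) S T), Algebra.discr S b ∉ Ideal.span {π})
    (hH : ∀ (n : ℕ) (b : Module.Basis (Fin n) S T) (p : Ideal S), p.IsPrime → p.height = 1 →
      π ∉ p → Algebra.discr S b ∉ p)
    (q : Ideal T) [q.IsMaximal] :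
    Module.Free S T ∧ Algebra.FormallyUnramified S T ∧
      maximalIdeal (Localization.AtPrime q) =
        Ideal.span {algebraMap S (Localization.AtPrime q) π,
          algebraMap S (Localization.AtPrime q) g} ∧
      Prime (algebraMap S (Localization.AtPrime q) π) := by
  have hπ : π ∈ maximalIdeal S := by
    rw [hmax]; exact Ideal.subset_span (Set.mem_insert _ _)
  have htf' : ∀ (s : S) (t : T), s ∉ Ideal.span {π} →
      s • t ∈ (Ideal.span {π} • ⊤ : Submodule S T) →
      t ∈ (Ideal.span {π} • ⊤ : Submodule S T) := by
    intro s t hs ht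
    obtain ⟨t', ht'⟩ := (mem_span_singleton_smul_top π (s • t)).mp ht
    exact (mem_span_singleton_smul_top π t).mpr (htf s t t' hs ht')
  obtain ⟨hfree, hunr, -⟩ := purity_of_regular_pair π hπ hπ0 hreg htf' hV hH
  have : IsNoetherianRing T := IsNoetherianRing.of_finite S T
  have hcomap : (q.comap (algebraMap S T)).IsMaximal :=
    Ideal.isMaximal_comap_of_isIntegral_of_isMaximal q
  have hle : maximalIdeal S ≤ q.comap (algebraMap S T) :=
    (IsLocalRing.eq_maximalIdeal hcomap).ge
  exact ⟨hfree, hunr, regular_pair_atPrime π g hmax hreg (fun t t' h => htf g t t' hg h) q hle⟩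

end PackageRegular

end Fermat.Agent.Lib.helper187
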