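import Mathlib

set_option autoImplicit false

namespace Fermat.Agent.Lib.helper1931

open NumberField Polynomial Finset

section basics

variable {p : ℕ} [hp : Fact p.Prime] {K : Type*} [Field K] [NumberField K]
  [hK : IsCyclotomicExtension {p} ℚ K] {ζ : K} (hζ : IsPrimitiveRoot ζ p)

omit [NumberField K] hK in
/-- `ζ - 1 ∣ ζ ^ j - 1`. -/
lemma lam_dvd_zeta_pow_sub_one (j : ℕ) : hζ.toInteger - 1 ∣ hζ.toInteger ^ j - 1 := by
  simpa using sub_dvd_pow_sub_pow hζ.toInteger 1 j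

/-- every element of `𝓞 K` is congruent to a rational integer modulo `ζ - 1`. -/
lemma exists_int_sub_dvd (w : 𝓞 K) : ∃ n : ℤ, hζ.toInteger - 1 ∣ w - (n : 𝓞 K) := by
  obtain ⟨f, hf⟩ := (hζ.integralPowerBasis).exists_eq_aeval' w
  refine ⟨f.eval 1, ?_⟩
  rw [hf, hζ.integralPowerBasis_gen]
  have := Polynomial.sub_dvd_eval_sub hζ.toInteger 1 (f.map (algebraMap ℤ (𝓞 K)))
  simpa [Polynomial.eval_map, Polynomial.aeval_def, Polynomial.eval₂_at_one] using this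

omit [NumberField K] hK in
/-- products over the `p`-th roots of unity are products over the powers `ζ ^ j`, `j < p`. -/
lemma prod_nthRootsFinset (f : 𝓞 K → 𝓞 K) :
    ∏ μ ∈ nthRootsFinset p (1 : 𝓞 K), f μ = ∏ j ∈ range p, f (hζ.toInteger ^ j) := by
  symm
  refine Finset.prod_nbij (fun j => hζ.toInteger ^ j) ?_ ?_ ?_ (fun _ _ => rfl)
  · intro j _
    rw [Polynomial.mem_nthRootsFinset hp.out.pos]
    rw [← pow_mul, mul_comm, pow_mul, hζ.toInteger_isPrimitiveRoot.pow_eq_one, one_pow]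
  · intro i hi j hj hij
    exact hζ.toInteger_isPrimitiveRoot.pow_inj (by simpa using hi) (by simpa using hj) hij
  · intro μ hμ
    have hμ' : μ ^ p = 1 := (Polynomial.mem_nthRootsFinset hp.out.pos _).1 hμ
    obtain ⟨i, hi, rfl⟩ := hζ.toInteger_isPrimitiveRoot.eq_pow_of_pow_eq_one hμ'
    exact ⟨i, by simpa using hi, rfl⟩

omit [NumberField K] hK in
/-- Factorisation of `x ^ p + y ^ p`. -/
lemma pow_add_pow_eq_prod (hp2 : p ≠ 2) (x y : 𝓞 K) :
    x ^ p + y ^ p = ∏ j ∈ range p, (x + hζ.toInteger ^ j * y) := by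
  rw [hζ.toInteger_isPrimitiveRoot.pow_add_pow_eq_prod_add_mul x y (hp.out.odd_of_ne_two hp2),
    prod_nthRootsFinset hζ (fun μ => x + μ * y)]

omit [NumberField K] hK in
/-- Factorisation of `x ^ p - y ^ p`. -/
lemma pow_sub_pow_eq_prod (x y : 𝓞 K) :
    x ^ p - y ^ p = ∏ j ∈ range p, (x - hζ.toInteger ^ j * y) := by
  rw [hζ.toInteger_isPrimitiveRoot.pow_sub_pow_eq_prod_sub_mul x y hp.out.pos,
    prod_nthRootsFinset hζ (fun μ => x - μ * y)]

omit [NumberField K] hK in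
/-- `p ∣ (ζ - 1) ^ k` for `p - 1 ≤ k`. -/
lemma p_dvd_lam_pow {k : ℕ} (hk : p - 1 ≤ k) : (p : 𝓞 K) ∣ (hζ.toInteger - 1) ^ k :=
  (IsCyclotomicExtension.Rat.associated_zeta_sub_one_pow_prime p hζ).symm.dvd.trans
    (pow_dvd_pow _ hk)

include hζ in
/-- a `p`-th power is congruent to a rational integer modulo `p`. -/
lemma exists_int_pow_sub_dvd (w : 𝓞 K) : ∃ n : ℤ, (p : 𝓞 K) ∣ w ^ p - (n : 𝓞 K) := by
  obtain ⟨n, hn⟩ := exists_int_sub_dvd hζ w
  refine ⟨n ^ p, ?_⟩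
  push_cast
  rw [pow_sub_pow_eq_prod hζ]
  refine (p_dvd_lam_pow hζ (Nat.sub_le p 1)).trans ?_
  calc (hζ.toInteger - 1) ^ p = ∏ _j ∈ range p, (hζ.toInteger - 1) := by simp
    _ ∣ _ := Finset.prod_dvd_prod_of_dvd _ _ (fun j _ => ?_)
  have h1 : w - hζ.toInteger ^ j * (n : 𝓞 K) = (w - n) - (hζ.toInteger ^ j - 1) * n := by ring
  rw [h1]
  exact dvd_sub hn ((lam_dvd_zeta_pow_sub_one hζ j).mul_right _)

omit [NumberField K] hK in
/-- `1 + ζ` is a unit for odd `p`. -/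
lemma isUnit_one_add_zeta (hp2 : p ≠ 2) : IsUnit (1 + hζ.toInteger) := by
  have h2 : (2 : ℕ).Coprime p :=
    (Nat.coprime_primes Nat.prime_two hp.out).2 (Ne.symm hp2)
  have := hζ.toInteger_isPrimitiveRoot.geom_sum_isUnit hp.out.two_le h2
  simpa [Finset.sum_range_succ] using this

end basics

section descent

variable {p : ℕ} [hp : Fact p.Prime] {K : Type*} [Field K] [NumberField K]
  [hK : IsCyclotomicExtension {p} ℚ K] {ζ : K} (hζ : IsPrimitiveRoot ζ p)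

local notation3 "η" => hζ.toInteger
local notation3 "lam" => hζ.toInteger - 1

/-- cancellation of prime powers. -/
lemma pow_mul_eq_pow_mul_aux {R : Type*} [CommRing R] [IsDomain R] {q A B : R} (hq : Prime q)
    {a b : ℕ} (hA : ¬ q ∣ A) (hab : a < b) (h : q ^ a * A = q ^ b * B) : False := by
  obtain ⟨k, rfl⟩ := Nat.exists_eq_add_of_lt hab
  rw [show a + k + 1 = a + (k + 1) by ring, pow_add, mul_assoc] at h
  have := mul_left_cancel₀ (pow_ne_zero a hq.ne_zero) h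
  exact hA ⟨q ^ k * B, by rw [this]; ring⟩

lemma pow_mul_eq_pow_mul {R : Type*} [CommRing R] [IsDomain R] {q A B : R} (hq : Prime q)
    {a b : ℕ} (hA : ¬ q ∣ A) (hB : ¬ q ∣ B) (h : q ^ a * A = q ^ b * B) : a = b := by
  rcases lt_trichotomy a b with h1 | h1 | h1
  · exact (pow_mul_eq_pow_mul_aux hq hA h1 h).elim
  · exact h1
  · exact (pow_mul_eq_pow_mul_aux hq hB h1 h.symm).elim

omit [NumberField K] hK in
/-- if `λ ∣ x ^ p + y ^ p` then `λ` divides every factor `x + ζ ^ j y`. -/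
lemma lam_dvd_all (hp2 : p ≠ 2) (hprime : Prime (lam)) (x y : 𝓞 K) (h : lam ∣ x ^ p + y ^ p)
    (j : ℕ) : lam ∣ x + η ^ j * y := by
  rw [pow_add_pow_eq_prod hζ hp2] at h
  obtain ⟨j0, -, hj0⟩ := hprime.exists_mem_finset_dvd h
  have h1 : x + η ^ j * y = (x + η ^ j0 * y) + ((η ^ j - 1) - (η ^ j0 - 1)) * y := by ring
  rw [h1]
  exact dvd_add hj0
    ((dvd_sub (lam_dvd_zeta_pow_sub_one hζ j) (lam_dvd_zeta_pow_sub_one hζ j0)).mul_right _)

/-- some factor is divisible by `λ ^ 2`. -/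
lemma exists_sq_dvd (hp2 : p ≠ 2) (x y : 𝓞 K) (h : lam ∣ x ^ p + y ^ p) (hy : ¬ lam ∣ y) :
    ∃ j : ℕ, lam ^ 2 ∣ x + η ^ j * y := by
  obtain ⟨t, ht⟩ : lam ∣ x + y := by
    simpa using lam_dvd_all hζ hp2 hζ.zeta_sub_one_prime' x y h 0
  obtain ⟨nt, hnt⟩ := exists_int_sub_dvd hζ t
  obtain ⟨ny, hny⟩ := exists_int_sub_dvd hζ y
  have hpny : ¬ (p : ℤ) ∣ ny := fun hd => hy (by
    have h1 := (IsCyclotomicExtension.Rat.zeta_sub_one_dvd_intCast_iff' p hζ).2 hd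
    simpa using dvd_add hny h1)
  obtain ⟨j, hj⟩ : ∃ j : ℕ, (p : ℤ) ∣ nt + j * ny := by
    have hny0 : (ny : ZMod p) ≠ 0 := by rwa [Ne, ZMod.intCast_zmod_eq_zero_iff_dvd]
    refine ⟨(-(nt : ZMod p) * (ny : ZMod p)⁻¹).val, ?_⟩
    rw [← ZMod.intCast_zmod_eq_zero_iff_dvd]
    push_cast
    rw [ZMod.natCast_zmod_val]
    field_simp
    ring
  refine ⟨j, ?_⟩
  have h1 : x + η ^ j * y = lam * (t + (∑ i ∈ range j, η ^ i) * y) := by
    have h2 := mul_geom_sum η j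
    linear_combination ht - y * h2
  have h2 : lam ∣ (∑ i ∈ range j, η ^ i) - (j : 𝓞 K) := by
    have h3 : (∑ i ∈ range j, η ^ i) - (j : 𝓞 K) = ∑ i ∈ range j, (η ^ i - 1) := by
      simp [Finset.sum_sub_distrib]
    rw [h3]
    exact Finset.dvd_sum (fun i _ => lam_dvd_zeta_pow_sub_one hζ i)
  have h3 : lam ∣ t + (∑ i ∈ range j, η ^ i) * y := by
    have h4 : t + (∑ i ∈ range j, η ^ i) * y = (t - nt) + ((∑ i ∈ range j, η ^ i) - j) * y
        + j * (y - ny) + ((nt + j * ny : ℤ) : 𝓞 K) := by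
      push_cast; ring
    rw [h4]
    exact dvd_add (dvd_add (dvd_add hnt (h2.mul_right _)) (hny.mul_left _))
      ((IsCyclotomicExtension.Rat.zeta_sub_one_dvd_intCast_iff' p hζ).2 hj)
  rw [h1, pow_two]
  exact mul_dvd_mul_left _ h3

/-- the other factors are not divisible by `λ ^ 2`. -/
lemma not_sq_dvd (x y : 𝓞 K) (hy : ¬ lam ∣ y) (hsq : lam ^ 2 ∣ x + y) {j : ℕ} (hj0 : 0 < j)
    (hjp : j < p) : ¬ lam ^ 2 ∣ x + η ^ j * y := by
  intro h
  have hcop : j.Coprime p := (Nat.coprime_of_lt_prime hj0.ne' hjp hp.out).symm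
  obtain ⟨v, hv⟩ := hζ.toInteger_isPrimitiveRoot.associated_sub_one_pow_sub_one_of_coprime hcop
  have h1 : lam ^ 2 ∣ lam * (v * y) := by
    have h2 : lam * (v * y) = (x + η ^ j * y) - (x + y) := by
      rw [← mul_assoc, hv]; ring
    rw [h2]
    exact dvd_sub h hsq
  rw [pow_two] at h1
  have h3 := (mul_dvd_mul_iff_left hζ.zeta_sub_one_prime'.ne_zero).1 h1
  exact hy ((Units.dvd_mul_left).1 h3)

omit [NumberField K] hK in
/-- the quotients `(x + ζ ^ j y) / λ` are pairwise coprime. -/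
lemma isCoprime_quot (hlam0 : lam ≠ 0) {x y : 𝓞 K} (hxy : IsCoprime x y) {i j : ℕ} (hi : i < p)
    (hj : j < p) (hij : i ≠ j) {Bi Bj : 𝓞 K} (hBi : x + η ^ i * y = lam * Bi)
    (hBj : x + η ^ j * y = lam * Bj) : IsCoprime Bi Bj := by
  obtain ⟨r, s, hrs⟩ := hxy
  have hmem : ∀ k : ℕ, η ^ k ∈ nthRootsFinset p (1 : 𝓞 K) := fun k => by
    rw [Polynomial.mem_nthRootsFinset hp.out.pos]
    rw [← pow_mul, mul_comm, pow_mul, hζ.toInteger_isPrimitiveRoot.pow_eq_one, one_pow]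
  have hne : η ^ i ≠ η ^ j := fun h => hij (hζ.toInteger_isPrimitiveRoot.pow_inj hi hj h)
  obtain ⟨w, hw⟩ := hζ.toInteger_isPrimitiveRoot.nthRootsFinset_pairwise_associated_sub_one_sub_of_prime
    hp.out (hmem i) (hmem j) hne
  have key : lam * (w : 𝓞 K) = lam * ((s - r * η ^ j) * Bi + (r * η ^ i - s) * Bj) := by
    rw [hw]
    linear_combination -(η ^ i - η ^ j) * hrs + (s - r * η ^ j) * hBi + (r * η ^ i - s) * hBj
  have h1 := mul_left_cancel₀ hlam0 key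
  refine ⟨(w⁻¹ : (𝓞 K)ˣ) * (s - r * η ^ j), (w⁻¹ : (𝓞 K)ˣ) * (r * η ^ i - s), ?_⟩
  rw [mul_assoc, mul_assoc, ← mul_add, ← h1, Units.inv_mul]

/-- The descent step, assuming `λ ^ 2 ∣ x + y`. -/
lemma descent_aux (hp2 : p ≠ 2) [IsPrincipalIdealRing (𝓞 K)]
    (hKum : ∀ u : (𝓞 K)ˣ, ∀ n : ℤ, (p : 𝓞 K) ∣ (u : 𝓞 K) - n → ∃ v : (𝓞 K)ˣ, u = v ^ p)
    {m : ℕ} (hm : 1 ≤ m) {x y z : 𝓞 K} {u : (𝓞 K)ˣ} (hxy : IsCoprime x y) (hy : ¬ lam ∣ y)
    (hz : ¬ lam ∣ z) (hsq : lam ^ 2 ∣ x + y) (H : x ^ p + y ^ p = u * (lam ^ m * z) ^ p) :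
    2 ≤ m ∧ ∃ x' y' z' : 𝓞 K, ∃ u' : (𝓞 K)ˣ, IsCoprime x' y' ∧ ¬ lam ∣ z' ∧
      x' ^ p + y' ^ p = u' * (lam ^ (m - 1) * z') ^ p := by
  classical
  have hprime : Prime (lam) := hζ.zeta_sub_one_prime'
  have hlam0 : lam ≠ 0 := hprime.ne_zero
  have hp0 : 0 < p := hp.out.pos
  have hp1 : 1 < p := hp.out.one_lt
  have hp3 : 3 ≤ p := by
    have := hp.out.two_le
    omega
  have hηp : η ^ p = 1 := hζ.toInteger_isPrimitiveRoot.pow_eq_one
  -- `λ` divides all factors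
  have hdvd : lam ∣ x ^ p + y ^ p := by
    rw [H, mul_pow, ← pow_mul]
    exact Dvd.dvd.mul_left (Dvd.dvd.mul_right (dvd_pow_self _ (by positivity)) _) _
  have hA : ∀ j : ℕ, lam ∣ x + η ^ j * y := lam_dvd_all hζ hp2 hprime x y hdvd
  choose B hB using hA
  -- the product of the `B j`
  have hprod : ∏ j ∈ range p, B j = u * (lam ^ (m - 1) * z) ^ p := by
    have h1 : lam ^ p * ∏ j ∈ range p, B j = lam ^ p * (u * (lam ^ (m - 1) * z) ^ p) := by
      calc lam ^ p * ∏ j ∈ range p, B j = ∏ j ∈ range p, (lam * B j) := by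
            rw [Finset.prod_mul_distrib, Finset.prod_const, Finset.card_range]
        _ = ∏ j ∈ range p, (x + η ^ j * y) := Finset.prod_congr rfl (fun j _ => (hB j).symm)
        _ = x ^ p + y ^ p := (pow_add_pow_eq_prod hζ hp2 x y).symm
        _ = u * (lam ^ m * z) ^ p := H
        _ = lam ^ p * (u * (lam ^ (m - 1) * z) ^ p) := by
            obtain ⟨m', rfl⟩ : ∃ m', m = m' + 1 := ⟨m - 1, by omega⟩
            have hL : ∀ L : 𝓞 K, (u : 𝓞 K) * (L ^ (m' + 1) * z) ^ p =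
                L ^ p * (u * (L ^ (m' + 1 - 1) * z) ^ p) := by
              intro L
              simp only [Nat.add_sub_cancel]
              ring
            exact hL _
    exact mul_left_cancel₀ (pow_ne_zero p hlam0) h1
  -- `λ` does not divide `B j` for `0 < j < p`
  have hBj : ∀ j : ℕ, 0 < j → j < p → ¬ lam ∣ B j := by
    intro j hj0 hjp hd
    apply not_sq_dvd hζ x y hy hsq hj0 hjp
    rw [hB j, pow_two]
    exact mul_dvd_mul_left _ hd
  -- `λ` divides `B 0`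
  have hB0 : lam ∣ B 0 := by
    have h1 := hB 0
    rw [pow_zero, one_mul] at h1
    rw [h1, pow_two] at hsq
    exact (mul_dvd_mul_iff_left hlam0).1 hsq
  -- pairwise coprimality
  have hcop : ∀ i j : ℕ, i < p → j < p → i ≠ j → IsCoprime (B i) (B j) :=
    fun i j hi hj hij => isCoprime_quot hζ hlam0 hxy hi hj hij (hB i) (hB j)
  -- each `B j` is associated to a `p`-th power
  have hpow : ∀ j : ℕ, j < p → ∃ d : 𝓞 K, Associated (d ^ p) (B j) := by
    intro j hj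
    have hjmem : j ∈ range p := Finset.mem_range.2 hj
    have h1 : IsCoprime (B j) (∏ i ∈ (range p).erase j, B i) :=
      IsCoprime.prod_right (fun i hi => hcop j i hj (Finset.mem_range.1 (Finset.mem_of_mem_erase hi))
        (Finset.ne_of_mem_erase hi).symm)
    have h2 : Associated ((lam ^ (m - 1) * z) ^ p) (B j * ∏ i ∈ (range p).erase j, B i) := by
      rw [Finset.mul_prod_erase _ _ hjmem, hprod]
      exact ⟨u, by ring⟩
    exact exists_associated_pow_of_associated_pow_mul h1 h2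
  obtain ⟨d0, e0, hd0⟩ := hpow 0 hp0
  obtain ⟨d1, e1, hd1⟩ := hpow 1 hp1
  obtain ⟨d2, e2, hd2⟩ := hpow (p - 1) (by omega)
  -- nonvanishing
  have hz0 : z ≠ 0 := fun h => hz (h ▸ dvd_zero _)
  have hprod0 : ∏ j ∈ range p, B j ≠ 0 := by
    rw [hprod]
    exact mul_ne_zero u.ne_zero (pow_ne_zero _ (mul_ne_zero (pow_ne_zero _ hlam0) hz0))
  have hB00 : B 0 ≠ 0 := fun h =>
    hprod0 (Finset.prod_eq_zero (Finset.mem_range.2 hp0) h)
  have hd00 : d0 ≠ 0 := by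
    intro h
    rw [h, zero_pow hp0.ne', zero_mul] at hd0
    exact hB00 hd0.symm
  -- write `d0 = λ ^ e * z'`
  obtain ⟨e, z', hz', hd0z⟩ := WfDvdMonoid.max_power_factor hd00 hprime.irreducible
  -- the exponent
  have hrest : ¬ lam ∣ ∏ i ∈ (range p).erase 0, B i := by
    intro h
    obtain ⟨i, hi, hdi⟩ := hprime.exists_mem_finset_dvd h
    exact hBj i (Nat.pos_of_ne_zero (Finset.ne_of_mem_erase hi))
      (Finset.mem_range.1 (Finset.mem_of_mem_erase hi)) hdi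
  have hexp : e * p = (m - 1) * p := by
    have h1 : lam ^ (e * p) * (z' ^ p * e0 * ∏ i ∈ (range p).erase 0, B i) =
        lam ^ ((m - 1) * p) * (u * z ^ p) := by
      calc lam ^ (e * p) * (z' ^ p * e0 * ∏ i ∈ (range p).erase 0, B i)
          = (d0 ^ p * e0) * ∏ i ∈ (range p).erase 0, B i := by rw [hd0z]; ring
        _ = ∏ j ∈ range p, B j := by rw [hd0, Finset.mul_prod_erase _ _ (Finset.mem_range.2 hp0)]
        _ = lam ^ ((m - 1) * p) * (u * z ^ p) := by rw [hprod]; ring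
    refine pow_mul_eq_pow_mul hprime ?_ ?_ h1
    · intro h
      rcases hprime.dvd_or_dvd h with h' | h'
      · rcases hprime.dvd_or_dvd h' with h'' | h''
        · exact hz' (hprime.dvd_of_dvd_pow h'')
        · exact hprime.not_isUnit (isUnit_of_dvd_unit h'' e0.isUnit)
      · exact hrest h'
    · intro h
      rcases hprime.dvd_or_dvd h with h' | h'
      · exact hprime.not_isUnit (isUnit_of_dvd_unit h' u.isUnit)
      · exact hz (hprime.dvd_of_dvd_pow h')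
  have hem : e = m - 1 := Nat.eq_of_mul_eq_mul_right hp0 hexp
  -- `2 ≤ m`
  have he1 : 1 ≤ e := by
    rcases Nat.eq_zero_or_pos e with h | h
    · exfalso
      rw [h, pow_zero, one_mul] at hd0z
      rw [← hd0, hd0z] at hB0
      rcases hprime.dvd_or_dvd hB0 with h' | h'
      · exact hz' (hprime.dvd_of_dvd_pow h')
      · exact hprime.not_isUnit (isUnit_of_dvd_unit h' e0.isUnit)
    · exact h
  have hm2 : 2 ≤ m := by omega
  refine ⟨hm2, ?_⟩
  -- the linear relation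
  have hrel : B 1 + η * B (p - 1) = (1 + η) * B 0 := by
    have h0 := hB 0
    have h1 := hB 1
    have h2 := hB (p - 1)
    have h3 : η * η ^ (p - 1) = 1 := by rw [← pow_succ', Nat.sub_add_cancel hp0, hηp]
    rw [pow_zero, one_mul] at h0
    rw [pow_one] at h1
    apply mul_left_cancel₀ hlam0
    linear_combination (-1 : 𝓞 K) * h1 - η * h2 + (1 + η) * h0 + y * h3
  -- `λ ∤ d2`
  have hd2' : ¬ lam ∣ d2 := by
    intro h
    apply hBj (p - 1) (by omega) (by omega)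
    rw [← hd2]
    exact Dvd.dvd.mul_right (dvd_pow h hp0.ne') _
  -- congruences
  obtain ⟨n1, hn1⟩ := exists_int_pow_sub_dvd hζ d1
  obtain ⟨n2, hn2⟩ := exists_int_pow_sub_dvd hζ d2
  have hpn2 : ¬ (p : ℤ) ∣ n2 := by
    intro h
    have h1 : lam ∣ (n2 : 𝓞 K) := (IsCyclotomicExtension.Rat.zeta_sub_one_dvd_intCast_iff' p hζ).2 h
    have h2 : lam ∣ d2 ^ p - (n2 : 𝓞 K) := hζ.toInteger_sub_one_dvd_prime'.trans hn2
    have h3 : lam ∣ d2 ^ p := by simpa using dvd_add h2 h1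
    exact hd2' (hprime.dvd_of_dvd_pow h3)
  obtain ⟨a, b, hab⟩ : IsCoprime (p : ℤ) n2 :=
    (Nat.prime_iff_prime_int.1 hp.out).coprime_iff_not_dvd.2 hpn2
  -- the unit `θ`
  let θ : (𝓞 K)ˣ := (hζ.toInteger_isPrimitiveRoot.isUnit hp0.ne').unit * e2 * e1⁻¹
  have hθ : (θ : 𝓞 K) = η * e2 * (e1⁻¹ : (𝓞 K)ˣ) := by simp [θ]
  let ε : (𝓞 K)ˣ := (isUnit_one_add_zeta hζ hp2).unit * e0 * e1⁻¹
  have hε : (ε : 𝓞 K) = (1 + η) * e0 * (e1⁻¹ : (𝓞 K)ˣ) := by simp [ε]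
  have he1 : (e1 : 𝓞 K) * (e1⁻¹ : (𝓞 K)ˣ) = 1 := by simp
  have hnew : d1 ^ p + θ * d2 ^ p = ε * (lam ^ (m - 1) * z') ^ p := by
    rw [hθ, hε]
    have h4 : d0 = lam ^ (m - 1) * z' := by rw [hd0z, hem]
    rw [← h4]
    linear_combination (↑e1⁻¹ : 𝓞 K) * hrel + (↑e1⁻¹ : 𝓞 K) * hd1 + η * (↑e1⁻¹ : 𝓞 K) * hd2
      - (1 + η) * (↑e1⁻¹ : 𝓞 K) * hd0 - d1 ^ p * he1
  have hpdvd : (p : 𝓞 K) ∣ d1 ^ p + θ * d2 ^ p := by
    rw [hnew, mul_pow, ← pow_mul]
    refine Dvd.dvd.mul_left (Dvd.dvd.mul_right (p_dvd_lam_pow hζ ?_) _) _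
    have : p ≤ (m - 1) * p := Nat.le_mul_of_pos_left p (by omega)
    omega
  have hθn : (p : 𝓞 K) ∣ (θ : 𝓞 K) - ((-(b * n1) : ℤ) : 𝓞 K) := by
    have hab' : ((a : 𝓞 K) * (p : 𝓞 K) + (b : 𝓞 K) * (n2 : 𝓞 K)) = 1 := by
      have := congrArg (Int.cast : ℤ → 𝓞 K) hab
      push_cast at this
      exact this
    have h5 : (θ : 𝓞 K) - ((-(b * n1) : ℤ) : 𝓞 K) = (p : 𝓞 K) * (a * θ)
        + b * (d1 ^ p + θ * d2 ^ p) - b * θ * (d2 ^ p - n2) - b * (d1 ^ p - n1) := by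
      push_cast
      linear_combination (-(θ : 𝓞 K)) * hab'
    rw [h5]
    exact dvd_sub (dvd_sub (dvd_add (dvd_mul_right _ _) (hpdvd.mul_left _)) (hn2.mul_left _))
      (hn1.mul_left _)
  obtain ⟨v, hv⟩ := hKum θ _ hθn
  refine ⟨d1, v * d2, z', ε, ?_, hz', ?_⟩
  · have h6 : IsCoprime (B 1) (B (p - 1)) := hcop 1 (p - 1) hp1 (by omega) (by omega)
    rw [← hd1, ← hd2] at h6
    have h7 : IsCoprime (d1 ^ p) (d2 ^ p) :=
      (isCoprime_mul_unit_right_left e1.isUnit _ _).1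
        ((isCoprime_mul_unit_right_right e2.isUnit _ _).1 h6)
    have h8 : IsCoprime d1 d2 := (IsCoprime.pow_iff hp0 hp0).1 h7
    exact (isCoprime_mul_unit_left_right v.isUnit _ _).2 h8
  · rw [mul_pow, ← hnew, hv]
    push_cast
    ring

/-- The descent step. -/
lemma descent (hp2 : p ≠ 2) [IsPrincipalIdealRing (𝓞 K)]
    (hKum : ∀ u : (𝓞 K)ˣ, ∀ n : ℤ, (p : 𝓞 K) ∣ (u : 𝓞 K) - n → ∃ v : (𝓞 K)ˣ, u = v ^ p)
    {m : ℕ} (hm : 1 ≤ m) {x y z : 𝓞 K} {u : (𝓞 K)ˣ} (hxy : IsCoprime x y)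
    (hz : ¬ lam ∣ z) (H : x ^ p + y ^ p = u * (lam ^ m * z) ^ p) :
    2 ≤ m ∧ ∃ x' y' z' : 𝓞 K, ∃ u' : (𝓞 K)ˣ, IsCoprime x' y' ∧ ¬ lam ∣ z' ∧
      x' ^ p + y' ^ p = u' * (lam ^ (m - 1) * z') ^ p := by
  have hprime : Prime (lam) := hζ.zeta_sub_one_prime'
  have hp0 : 0 < p := hp.out.pos
  have hηp : η ^ p = 1 := hζ.toInteger_isPrimitiveRoot.pow_eq_one
  have hηu : IsUnit η := hζ.toInteger_isPrimitiveRoot.isUnit hp0.ne'
  have hdvd : lam ∣ x ^ p + y ^ p := by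
    rw [H, mul_pow, ← pow_mul]
    exact Dvd.dvd.mul_left (Dvd.dvd.mul_right (dvd_pow_self _ (by positivity)) _) _
  have hy : ¬ lam ∣ y := by
    intro h
    have h1 : lam ∣ x ^ p := by
      have h2 : x ^ p = (x ^ p + y ^ p) - y ^ p := by ring
      rw [h2]
      exact dvd_sub hdvd (dvd_pow h hp0.ne')
    exact hprime.not_isUnit (hxy.isUnit_of_dvd' (hprime.dvd_of_dvd_pow h1) h)
  obtain ⟨j, hj⟩ := exists_sq_dvd hζ hp2 x y hdvd hy
  have hy1 : ¬ lam ∣ η ^ j * y := by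
    intro h
    rcases hprime.dvd_or_dvd h with h' | h'
    · exact hprime.not_isUnit (isUnit_of_dvd_unit h' (hηu.pow j))
    · exact hy h'
  have hxy1 : IsCoprime x (η ^ j * y) := (isCoprime_mul_unit_left_right (hηu.pow j) x y).2 hxy
  have H1 : x ^ p + (η ^ j * y) ^ p = u * (lam ^ m * z) ^ p := by
    rw [mul_pow, ← pow_mul, mul_comm j p, pow_mul, hηp, one_pow, one_mul, H]
  exact descent_aux hζ hp2 hKum hm hxy1 hy1 hz hj H1

/-- The generalised Fermat equation `x ^ p + y ^ p = u * (λ ^ m * z) ^ p` has no solutions with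
`1 ≤ m`, `x`, `y` coprime and `λ ∤ z`. -/
theorem gen (hp2 : p ≠ 2) [IsPrincipalIdealRing (𝓞 K)]
    (hKum : ∀ u : (𝓞 K)ˣ, ∀ n : ℤ, (p : 𝓞 K) ∣ (u : 𝓞 K) - n → ∃ v : (𝓞 K)ˣ, u = v ^ p)
    (m : ℕ) (hm : 1 ≤ m) (x y z : 𝓞 K) (u : (𝓞 K)ˣ) (hxy : IsCoprime x y)
    (hz : ¬ lam ∣ z) : x ^ p + y ^ p ≠ u * (lam ^ m * z) ^ p := by
  induction m generalizing x y z u with
  | zero => omega
  | succ k ih =>
    intro H
    obtain ⟨h2, x', y', z', u', hxy', hz', H'⟩ := descent hζ hp2 hKum hm hxy hz H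
    exact ih (by omega) x' y' z' u' hxy' hz' (by simpa using H')

end descent

section final

variable {p : ℕ} [hp : Fact p.Prime] {K : Type*} [Field K] [NumberField K]
  [hK : IsCyclotomicExtension {p} ℚ K]

/-- Case II with `p ∣ c`. -/
theorem caseII_dvd_c (hp2 : p ≠ 2) [IsPrincipalIdealRing (𝓞 K)]
    (hKum : ∀ u : (𝓞 K)ˣ, ∀ n : ℤ, (p : 𝓞 K) ∣ (u : 𝓞 K) - n → ∃ v : (𝓞 K)ˣ, u = v ^ p)
    (a b c : ℤ) (hab : IsCoprime a b) (hc : c ≠ 0) (hpc : (p : ℤ) ∣ c) :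
    a ^ p + b ^ p ≠ c ^ p := by
  intro H
  have hζ := IsCyclotomicExtension.zeta_spec p ℚ K
  have hp0 : 0 < p := hp.out.pos
  have hp1 : 1 < p := hp.out.one_lt
  have hpZ : Prime (p : ℤ) := Nat.prime_iff_prime_int.1 hp.out
  obtain ⟨t, c', hc', hct⟩ := WfDvdMonoid.max_power_factor hc hpZ.irreducible
  have ht : 1 ≤ t := by
    rcases Nat.eq_zero_or_pos t with h | h
    · rw [h, pow_zero, one_mul] at hct
      exact (hc' (hct ▸ hpc)).elim
    · exact h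
  obtain ⟨w, hw⟩ := IsCyclotomicExtension.Rat.associated_zeta_sub_one_pow_prime p hζ
  have hz : ¬ (hζ.toInteger - 1) ∣ (c' : 𝓞 K) := fun h =>
    hc' ((IsCyclotomicExtension.Rat.zeta_sub_one_dvd_intCast_iff' p hζ).1 h)
  have hm : 1 ≤ (p - 1) * t := Nat.mul_pos (by omega) ht
  refine gen hζ hp2 hKum ((p - 1) * t) hm (a : 𝓞 K) (b : 𝓞 K) (c' : 𝓞 K) (w ^ (t * p))
    hab.intCast hz ?_
  have H' := congrArg (Int.cast : ℤ → 𝓞 K) H
  push_cast at H'
  rw [H', hct]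
  push_cast
  rw [← hw]
  have hL : ∀ L : 𝓞 K, ((L ^ (p - 1) * (w : 𝓞 K)) ^ t * (c' : 𝓞 K)) ^ p =
      (w : 𝓞 K) ^ (t * p) * (L ^ ((p - 1) * t) * (c' : 𝓞 K)) ^ p := by
    intro L
    ring
  exact hL _

/-- **Case II of Fermat's Last Theorem** for an odd prime `p` such that the ring of integers of
the `p`-th cyclotomic field is a PID and Kummer's lemma holds. -/
theorem caseII (hp2 : p ≠ 2) [IsPrincipalIdealRing (𝓞 K)]
    (hKum : ∀ u : (𝓞 K)ˣ, ∀ n : ℤ, (p : 𝓞 K) ∣ (u : 𝓞 K) - n → ∃ v : (𝓞 K)ˣ, u = v ^ p)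
    (a b c : ℤ) (hab : IsCoprime a b) (habc : a * b * c ≠ 0) (hpabc : (p : ℤ) ∣ a * b * c) :
    a ^ p + b ^ p ≠ c ^ p := by
  intro H
  have hp0 : 0 < p := hp.out.pos
  have hpZ : Prime (p : ℤ) := Nat.prime_iff_prime_int.1 hp.out
  have hodd : Odd p := hp.out.odd_of_ne_two hp2
  have ha0 : a ≠ 0 := fun h => habc (by simp [h])
  have hb0 : b ≠ 0 := fun h => habc (by simp [h])
  have hc0 : c ≠ 0 := fun h => habc (by simp [h])
  rcases hpZ.dvd_or_dvd hpabc with h | h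
  · rcases hpZ.dvd_or_dvd h with h | h
    · -- `p ∣ a`: `c ^ p + (-b) ^ p = a ^ p`
      have hcb : IsCoprime c (-b) := by
        have h1 : IsCoprime (a ^ p) b := hab.pow_left
        have h2 : a ^ p = c ^ p + b * (-(b ^ (p - 1))) := by
          have h3 : b * b ^ (p - 1) = b ^ p := by rw [← pow_succ', Nat.sub_add_cancel hp0]
          linear_combination H + h3
        rw [h2] at h1
        exact ((IsCoprime.pow_left_iff hp0).1 h1.of_add_mul_left_left).neg_right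
      refine caseII_dvd_c (K := K) hp2 hKum c (-b) a hcb ha0 h ?_
      rw [hodd.neg_pow]
      linear_combination -H
    · -- `p ∣ b`: `c ^ p + (-a) ^ p = b ^ p`
      have hca : IsCoprime c (-a) := by
        have h1 : IsCoprime (b ^ p) a := hab.symm.pow_left
        have h2 : b ^ p = c ^ p + a * (-(a ^ (p - 1))) := by
          have h3 : a * a ^ (p - 1) = a ^ p := by rw [← pow_succ', Nat.sub_add_cancel hp0]
          linear_combination H + h3
        rw [h2] at h1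
        exact ((IsCoprime.pow_left_iff hp0).1 h1.of_add_mul_left_left).neg_right
      refine caseII_dvd_c (K := K) hp2 hKum c (-a) b hca hb0 h ?_
      rw [hodd.neg_pow]
      linear_combination -H
  · exact caseII_dvd_c (K := K) hp2 hKum a b c hab hc0 h H

end final

end Fermat.Agent.Lib.helper1931
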