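import Mathlib

/-!
# Constant field extensions are unramified (helper1998)

Mathlib-only core of the "`ℚ̄` ↔ number field" place dictionary (board row S18/S37-CFE).

* `IsUnif V τ` : `τ` is a uniformiser of the valuation subring `V` (elementwise form).
* `isUnif_of_comap` : if `V₀ = V ∩ F₀` has uniformiser `τ`, `K₀ ⊆ V₀`, and every element of `F`
  lies in `F₀(θ)` for some `θ` integral and separable over `K₀`, then `τ` is a uniformiser of `V`.
* `exists_comap_eq` : every valuation subring of `F₀` is the trace of one of `F`.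
-/

set_option autoImplicit false

namespace Fermat.Agent.Lib.helper1998

open Polynomial

/-- `τ` is a uniformiser of the valuation subring `V`: `τ ∈ V`, `τ⁻¹ ∉ V`, and every nonzero
element of the field is a power of `τ` times a unit of `V`. -/
def IsUnif {F : Type*} [Field F] (V : ValuationSubring F) (τ : F) : Prop :=
  τ ∈ V ∧ τ⁻¹ ∉ V ∧ ∀ x : F, x ≠ 0 → ∃ n : ℤ, ∃ u : F, u ∈ V ∧ u⁻¹ ∈ V ∧ x = τ ^ n * u

namespace IsUnif

variable {F : Type*} [Field F] {V : ValuationSubring F} {τ : F}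

theorem ne_zero (h : IsUnif V τ) : τ ≠ 0 := by
  rintro rfl
  exact h.2.1 (by rw [inv_zero]; exact V.zero_mem)

theorem pow_mem (h : IsUnif V τ) (n : ℕ) : τ ^ n ∈ V := V.pow_mem h.1 n

theorem zpow_mem_iff (h : IsUnif V τ) (n : ℤ) : τ ^ n ∈ V ↔ 0 ≤ n := by
  constructor
  · intro hn
    by_contra hlt
    push Not at hlt
    obtain ⟨k, hk⟩ : ∃ k : ℕ, n = -(k + 1 : ℤ) := ⟨(-n - 1).toNat, by omega⟩
    apply h.2.1
    have : τ⁻¹ = τ ^ k * τ ^ n := by
      rw [hk, zpow_neg, zpow_add₀ h.ne_zero, zpow_natCast, zpow_one]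
      field_simp [h.ne_zero]
    rw [this]
    exact V.mul_mem _ _ (h.pow_mem k) hn
  · intro hn
    obtain ⟨k, rfl⟩ := Int.eq_ofNat_of_zero_le hn
    rw [zpow_natCast]
    exact h.pow_mem k

/-- Denominators are powers of `τ`. -/
theorem exists_pow_mul_mem (h : IsUnif V τ) (x : F) : ∃ M : ℕ, τ ^ M * x ∈ V := by
  rcases eq_or_ne x 0 with rfl | hx
  · exact ⟨0, by simp [V.zero_mem]⟩
  · obtain ⟨n, u, hu, -, rfl⟩ := h.2.2 x hx
    refine ⟨(-n).toNat, ?_⟩
    rw [← mul_assoc, ← zpow_natCast, ← zpow_add₀ h.ne_zero]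
    exact V.mul_mem _ _ ((h.zpow_mem_iff _).mpr (by omega)) hu

theorem exists_pow_mul_mem_forall (h : IsUnif V τ) (p : F[X]) :
    ∃ M : ℕ, ∀ i, τ ^ M * p.coeff i ∈ V := by
  classical
  choose m hm using fun i => h.exists_pow_mul_mem (p.coeff i)
  refine ⟨p.support.sup m, fun i => ?_⟩
  by_cases hi : i ∈ p.support
  · have hle : m i ≤ p.support.sup m := Finset.le_sup hi
    obtain ⟨d, hd⟩ := Nat.exists_eq_add_of_le hle
    rw [hd, pow_add, mul_comm (τ ^ m i), mul_assoc]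
    exact V.mul_mem _ _ (h.pow_mem d) (hm i)
  · rw [Polynomial.notMem_support_iff.mp hi, mul_zero]
    exact V.zero_mem

/-- The maximal ideal is generated by `τ`. -/
theorem dvd_of_mem_maximalIdeal (h : IsUnif V τ) {a : ↥V}
    (ha : a ∈ IsLocalRing.maximalIdeal ↥V) : (⟨τ, h.1⟩ : ↥V) ∣ a := by
  rcases eq_or_ne a 0 with rfl | ha0
  · exact dvd_zero _
  have ha0' : (a : F) ≠ 0 := fun h0 => ha0 (Subtype.ext h0)
  obtain ⟨n, u, hu, hu', hau⟩ := h.2.2 (a : F) ha0'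
  have hu0 : u ≠ 0 := by
    rintro rfl
    rw [mul_zero] at hau
    exact ha0' hau
  have hn : 1 ≤ n := by
    by_contra hlt
    push Not at hlt
    apply (IsLocalRing.mem_maximalIdeal a).mp ha
    have hinv : (a : F)⁻¹ ∈ V := by
      rw [hau, mul_inv, ← zpow_neg]
      exact V.mul_mem _ _ ((h.zpow_mem_iff _).mpr (by omega)) hu'
    exact IsUnit.of_mul_eq_one (⟨(a : F)⁻¹, hinv⟩ : ↥V) (Subtype.ext (mul_inv_cancel₀ ha0'))
  refine ⟨⟨τ ^ (n - 1) * u, V.mul_mem _ _ ((h.zpow_mem_iff _).mpr (by omega)) hu⟩, Subtype.ext ?_⟩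
  show (a : F) = τ * (τ ^ (n - 1) * u)
  rw [hau, ← mul_assoc, ← zpow_one_add₀ h.ne_zero]
  congr 2
  ring

end IsUnif

section Core

variable {K₀ F₀ F : Type*} [Field K₀] [Field F₀] [Field F]
  [Algebra K₀ F₀] [Algebra F₀ F] [Algebra K₀ F] [IsScalarTower K₀ F₀ F]
  (V₀ : ValuationSubring F₀) (V : ValuationSubring F)

/-- The inclusion `V₀ → V` when `V₀ = V ∩ F₀`. -/
def incl (h : V.comap (algebraMap F₀ F) = V₀) : ↥V₀ →+* ↥V :=
  (algebraMap F₀ F).restrict V₀ V (fun x hx => by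
    rw [← h] at hx
    exact ValuationSubring.mem_comap.mp hx)

@[simp]
theorem coe_incl (h : V.comap (algebraMap F₀ F) = V₀) (a : ↥V₀) :
    ((incl V₀ V h a : ↥V) : F) = algebraMap F₀ F (a : F₀) := rfl

theorem subtype_comp_incl (h : V.comap (algebraMap F₀ F) = V₀) :
    V.subtype.comp (incl V₀ V h) = (algebraMap F₀ F).comp V₀.subtype := rfl

theorem coe_eval₂_incl (h : V.comap (algebraMap F₀ F) = V₀) (z : ↥V) (P : (↥V₀)[X]) :
    ((eval₂ (incl V₀ V h) z P : ↥V) : F) = aeval (z : F) (P.map V₀.subtype) := by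
  have h1 := hom_eval₂ P (incl V₀ V h) V.subtype z
  rw [subtype_comp_incl] at h1
  rw [aeval_def, eval₂_map]
  exact h1

theorem isLocalHom_incl (h : V.comap (algebraMap F₀ F) = V₀) : IsLocalHom (incl V₀ V h) := by
  refine ⟨fun a ha => ?_⟩
  rcases eq_or_ne a 0 with rfl | ha0
  · rw [map_zero] at ha
    exact absurd ha not_isUnit_zero
  have ha0' : (a : F₀) ≠ 0 := fun h0 => ha0 (Subtype.ext h0)
  obtain ⟨b, hb⟩ := isUnit_iff_exists_inv.mp ha
  have hb' : algebraMap F₀ F (a : F₀) * (b : F) = 1 := congrArg Subtype.val hb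
  have hbe : (b : F) = algebraMap F₀ F ((a : F₀)⁻¹) := by
    rw [map_inv₀]
    exact eq_inv_of_mul_eq_one_right hb'
  have hmem : (a : F₀)⁻¹ ∈ V₀ := by
    have h1 : (a : F₀)⁻¹ ∈ V.comap (algebraMap F₀ F) := by
      rw [ValuationSubring.mem_comap, ← hbe]
      exact b.2
    rwa [h] at h1
  exact IsUnit.of_mul_eq_one (⟨(a : F₀)⁻¹, hmem⟩ : ↥V₀) (Subtype.ext (mul_inv_cancel₀ ha0'))

/-- **Step lemma.** There is a unit `s` of `V` such that `s * P(θ) ∈ τ V₀[θ]` whenever `P(θ)` is a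
non-unit of `V`. -/
theorem exists_unit_step (h : V.comap (algebraMap F₀ F) = V₀)
    (hK : ∀ a : K₀, algebraMap K₀ F₀ a ∈ V₀) {τ : F₀} (hτ : IsUnif V₀ τ) (θ : ↥V)
    (hsep : (minpoly K₀ (θ : F)).Separable) :
    ∃ s : ↥V, IsUnit s ∧ ∀ P : (↥V₀)[X],
      eval₂ (incl V₀ V h) θ P ∈ IsLocalRing.maximalIdeal ↥V →
      ∃ R : (↥V₀)[X], s * eval₂ (incl V₀ V h) θ P
        = incl V₀ V h ⟨τ, hτ.1⟩ * eval₂ (incl V₀ V h) θ R := by
  classical
  have := isLocalHom_incl V₀ V h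
  set ι := incl V₀ V h with hι
  set res₀ : ↥V₀ →+* IsLocalRing.ResidueField ↥V₀ := IsLocalRing.residue ↥V₀ with hres₀
  set res : ↥V →+* IsLocalRing.ResidueField ↥V := IsLocalRing.residue ↥V with hres
  set ιbar : IsLocalRing.ResidueField ↥V₀ →+* IsLocalRing.ResidueField ↥V :=
    IsLocalRing.ResidueField.map ι with hιbar
  have hcomp : ιbar.comp res₀ = res.comp ι := by
    ext a
    rfl
  set ρbar : (IsLocalRing.ResidueField ↥V₀)[X] →+* IsLocalRing.ResidueField ↥V :=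
    eval₂RingHom ιbar (res θ) with hρbar
  have hρ : ∀ P : (↥V₀)[X], ρbar (P.map res₀) = res (eval₂ ι θ P) := by
    intro P
    rw [hρbar, coe_eval₂RingHom, eval₂_map, hcomp, hom_eval₂]
  have hsepi : IsIntegral K₀ (θ : F) := by
    by_contra hni
    rw [minpoly.eq_zero hni] at hsep
    exact not_separable_zero hsep
  set g₀ : K₀ →+* ↥V₀ := (algebraMap K₀ F₀).codRestrict V₀ hK with hg₀
  set f₀ : (↥V₀)[X] := (minpoly K₀ (θ : F)).map g₀ with hf₀def
  have hf₀ : eval₂ ι θ f₀ = 0 := by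
    apply Subtype.ext
    rw [coe_eval₂_incl, hf₀def, Polynomial.map_map]
    have hc : V₀.subtype.comp g₀ = algebraMap K₀ F₀ := rfl
    rw [hc, aeval_map_algebraMap]
    exact minpoly.aeval K₀ (θ : F)
  set fbar : (IsLocalRing.ResidueField ↥V₀)[X] := f₀.map res₀ with hfbar
  have hfbar_sq : Squarefree fbar := by
    have hfe : fbar = (minpoly K₀ (θ : F)).map (res₀.comp g₀) := by
      rw [hfbar, hf₀def, Polynomial.map_map]
    rw [hfe]
    exact hsep.map.squarefree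
  have hfbar_mem : fbar ∈ RingHom.ker ρbar := by
    rw [RingHom.mem_ker, hfbar, hρ, hf₀, map_zero]
  obtain ⟨g₁, hg₁⟩ : ∃ g₁, RingHom.ker ρbar = Ideal.span {g₁} :=
    ⟨_, (Ideal.span_singleton_generator _).symm⟩
  obtain ⟨hbar, hfh⟩ : g₁ ∣ fbar := by
    rw [← Ideal.mem_span_singleton, ← hg₁]
    exact hfbar_mem
  have hg₁_nu : ¬ IsUnit g₁ := by
    intro hu
    have h1 : (1 : (IsLocalRing.ResidueField ↥V₀)[X]) ∈ RingHom.ker ρbar := by
      rw [hg₁, Ideal.span_singleton_eq_top.mpr hu]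
      trivial
    rw [RingHom.mem_ker, map_one] at h1
    exact one_ne_zero h1
  have hh_notmem : hbar ∉ RingHom.ker ρbar := by
    intro hmem
    rw [hg₁, Ideal.mem_span_singleton] at hmem
    obtain ⟨c, hc⟩ := hmem
    apply hg₁_nu
    apply hfbar_sq g₁
    rw [hfh, hc]
    exact ⟨c, by ring⟩
  obtain ⟨hh, hhh⟩ := Polynomial.map_surjective res₀ IsLocalRing.residue_surjective hbar
  refine ⟨eval₂ ι θ hh, ?_, ?_⟩
  · rw [← IsLocalRing.notMem_maximalIdeal, ← IsLocalRing.residue_eq_zero_iff]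
    intro h0
    apply hh_notmem
    rw [RingHom.mem_ker, ← hhh, hρ]
    exact h0
  · intro P hP
    have hPker : P.map res₀ ∈ RingHom.ker ρbar := by
      rw [RingHom.mem_ker, hρ]
      exact (IsLocalRing.residue_eq_zero_iff _).mpr hP
    rw [hg₁, Ideal.mem_span_singleton] at hPker
    obtain ⟨Qbar, hQbar⟩ := hPker
    obtain ⟨Q, hQ⟩ := Polynomial.map_surjective res₀ IsLocalRing.residue_surjective Qbar
    have hD : (hh * P - f₀ * Q).map res₀ = 0 := by
      rw [Polynomial.map_sub, Polynomial.map_mul, Polynomial.map_mul, hhh, hQ, ← hfbar, hQbar,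
        hfh]
      ring
    have hdvd : C (⟨τ, hτ.1⟩ : ↥V₀) ∣ hh * P - f₀ * Q := by
      rw [Polynomial.C_dvd_iff_dvd_coeff]
      intro i
      have h0 : res₀ ((hh * P - f₀ * Q).coeff i) = 0 := by
        rw [← Polynomial.coeff_map, hD, coeff_zero]
      exact hτ.dvd_of_mem_maximalIdeal ((IsLocalRing.residue_eq_zero_iff _).mp h0)
    obtain ⟨R, hR⟩ := hdvd
    refine ⟨R, ?_⟩
    have h2 := congrArg (eval₂ ι θ) hR
    rw [eval₂_sub, eval₂_mul, eval₂_mul, eval₂_mul, eval₂_C, hf₀, zero_mul, sub_zero] at h2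
    exact h2

/-- **Bound lemma.** A nonzero element of `V` that is algebraic over `F₀` is divisible by only
finitely many powers of `τ`. -/
theorem exists_bound (h : V.comap (algebraMap F₀ F) = V₀) {τ : F₀} (hτ : IsUnif V₀ τ)
    (y : ↥V) (hy0 : y ≠ 0) (hyalg : IsIntegral F₀ (y : F)) :
    ∃ n₀ : ℕ, ∀ (k : ℕ) (c : ↥V), y = incl V₀ V h ⟨τ, hτ.1⟩ ^ k * c → k ≤ n₀ := by
  have hy0' : (y : F) ≠ 0 := fun h0 => hy0 (Subtype.ext h0)
  set μ := minpoly F₀ (y : F) with hμ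
  obtain ⟨M, hM⟩ := hτ.exists_pow_mul_mem_forall μ
  have hlift : C (τ ^ M) * μ ∈ Polynomial.lifts V₀.subtype := by
    rw [Polynomial.lifts_iff_coeff_lifts]
    intro i
    rw [coeff_C_mul]
    exact ⟨⟨_, hM i⟩, rfl⟩
  obtain ⟨G, hG⟩ := (Polynomial.mem_lifts _).mp hlift
  have hGy : eval₂ (incl V₀ V h) y G = 0 := by
    apply Subtype.ext
    rw [coe_eval₂_incl, hG, map_mul, aeval_C, hμ, minpoly.aeval, mul_zero]
    rfl
  have hb : ((G.coeff 0 : ↥V₀) : F₀) = τ ^ M * μ.coeff 0 := by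
    have h1 := congrArg (fun p => p.coeff 0) hG
    simp only [coeff_map, coeff_C_mul] at h1
    exact h1
  have hb0 : ((G.coeff 0 : ↥V₀) : F₀) ≠ 0 := by
    rw [hb]
    exact mul_ne_zero (pow_ne_zero _ hτ.ne_zero) (minpoly.coeff_zero_ne_zero hyalg hy0')
  obtain ⟨n, u, hu, hu', hbu⟩ := hτ.2.2 _ hb0
  have hu0 : u ≠ 0 := by
    rintro rfl
    rw [mul_zero] at hbu
    exact hb0 hbu
  have hτF : algebraMap F₀ F τ ≠ 0 := (_root_.map_ne_zero _).mpr hτ.ne_zero
  refine ⟨n.toNat, fun k c hc => ?_⟩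
  have hsplit : eval₂ (incl V₀ V h) y G.divX * y + incl V₀ V h (G.coeff 0) = 0 := by
    have h1 : eval₂ (incl V₀ V h) y (G.divX * X + C (G.coeff 0)) = 0 := by
      rw [divX_mul_X_add]
      exact hGy
    rw [eval₂_add, eval₂_mul, eval₂_X, eval₂_C] at h1
    exact h1
  set w := eval₂ (incl V₀ V h) y G.divX with hw
  have hkey : algebraMap F₀ F ((G.coeff 0 : ↥V₀) : F₀)
      = -((w : F) * (algebraMap F₀ F τ ^ k * (c : F))) := by
    have h1 : (w : F) * (y : F) + algebraMap F₀ F ((G.coeff 0 : ↥V₀) : F₀) = 0 :=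
      congrArg Subtype.val hsplit
    have h2 : (y : F) = algebraMap F₀ F τ ^ k * (c : F) := congrArg Subtype.val hc
    rw [h2] at h1
    linear_combination h1
  have hmem : ((G.coeff 0 : ↥V₀) : F₀) / τ ^ k ∈ V₀ := by
    have h1 : ((G.coeff 0 : ↥V₀) : F₀) / τ ^ k ∈ V.comap (algebraMap F₀ F) := by
      rw [ValuationSubring.mem_comap, map_div₀, map_pow, hkey]
      have h2 : -((w : F) * (algebraMap F₀ F τ ^ k * (c : F))) / algebraMap F₀ F τ ^ k
          = -((w : F) * (c : F)) := by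
        field_simp
      rw [h2]
      exact V.neg_mem _ (V.mul_mem _ _ w.2 c.2)
    rwa [h] at h1
  have h3 : τ ^ (n - (k : ℤ)) ∈ V₀ := by
    have h4 : τ ^ (n - (k : ℤ)) = ((G.coeff 0 : ↥V₀) : F₀) / τ ^ k * u⁻¹ := by
      rw [hbu, zpow_sub₀ hτ.ne_zero, zpow_natCast]
      field_simp
    rw [h4]
    exact V₀.mul_mem _ _ hmem hu'
  have h5 := (hτ.zpow_mem_iff _).mp h3
  omega

/-- Every nonzero element of `V₀[θ]` is a power of `τ` times a unit of `V`. -/
theorem exists_pow_mul_unit_eval (h : V.comap (algebraMap F₀ F) = V₀)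
    (hK : ∀ a : K₀, algebraMap K₀ F₀ a ∈ V₀) {τ : F₀} (hτ : IsUnif V₀ τ) (θ : ↥V)
    (hsep : (minpoly K₀ (θ : F)).Separable) (P : (↥V₀)[X])
    (hP : eval₂ (incl V₀ V h) θ P ≠ 0) :
    ∃ k : ℕ, ∃ u : ↥V, IsUnit u ∧
      eval₂ (incl V₀ V h) θ P = incl V₀ V h ⟨τ, hτ.1⟩ ^ k * u := by
  classical
  obtain ⟨s, hs, hstep⟩ := exists_unit_step V₀ V h hK hτ θ hsep
  have hθi : IsIntegral K₀ (θ : F) := by
    by_contra hni
    rw [minpoly.eq_zero hni] at hsep
    exact not_separable_zero hsep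
  have hθi' : IsIntegral F₀ (θ : F) := hθi.tower_top
  set y := eval₂ (incl V₀ V h) θ P with hy
  have hyint : IsIntegral F₀ (y : F) := by
    rw [hy, coe_eval₂_incl]
    have hle : Algebra.adjoin F₀ {(θ : F)} ≤ integralClosure F₀ F :=
      Algebra.adjoin_le (by
        intro z hz
        rw [Set.mem_singleton_iff] at hz
        rw [hz]
        exact hθi')
    exact hle (aeval_mem_adjoin_singleton F₀ (θ : F))
  obtain ⟨n₀, hn₀⟩ := exists_bound V₀ V h hτ y hP hyint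
  set t := incl V₀ V h ⟨τ, hτ.1⟩ with ht
  obtain ⟨s', hs'⟩ := isUnit_iff_exists_inv.mp hs
  let Q : ℕ → Prop := fun k => ∃ R : (↥V₀)[X], s ^ k * y = t ^ k * eval₂ (incl V₀ V h) θ R
  have hQ0 : Q 0 := ⟨P, by simp [hy]⟩
  have hQb : ∀ k, Q k → k ≤ n₀ := by
    rintro k ⟨R, hR⟩
    apply hn₀ k (eval₂ (incl V₀ V h) θ R * s' ^ k)
    calc y = (s * s') ^ k * y := by rw [hs', one_pow, one_mul]
      _ = s ^ k * y * s' ^ k := by ring
      _ = t ^ k * (eval₂ (incl V₀ V h) θ R * s' ^ k) := by rw [hR]; ring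
  have hk : Q (Nat.findGreatest Q n₀) := Nat.findGreatest_spec (Nat.zero_le _) hQ0
  set k := Nat.findGreatest Q n₀ with hkdef
  obtain ⟨R, hR⟩ := hk
  have hRu : IsUnit (eval₂ (incl V₀ V h) θ R) := by
    rw [← IsLocalRing.notMem_maximalIdeal]
    intro hmem
    obtain ⟨R', hR'⟩ := hstep R hmem
    have hQk1 : Q (k + 1) := by
      refine ⟨R', ?_⟩
      calc s ^ (k + 1) * y = s * (s ^ k * y) := by ring
        _ = t ^ k * (s * eval₂ (incl V₀ V h) θ R) := by rw [hR]; ring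
        _ = t ^ (k + 1) * eval₂ (incl V₀ V h) θ R' := by rw [hR']; ring
    have h1 : k + 1 ≤ Nat.findGreatest Q n₀ := Nat.le_findGreatest (hQb _ hQk1) hQk1
    omega
  have hs'u : IsUnit s' := IsUnit.of_mul_eq_one s (by rw [mul_comm]; exact hs')
  refine ⟨k, eval₂ (incl V₀ V h) θ R * s' ^ k, hRu.mul (hs'u.pow k), ?_⟩
  calc y = (s * s') ^ k * y := by rw [hs', one_pow, one_mul]
    _ = s ^ k * y * s' ^ k := by ring
    _ = t ^ k * (eval₂ (incl V₀ V h) θ R * s' ^ k) := by rw [hR]; ring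

/-- Field form: every nonzero `p(θ)`, `p ∈ F₀[X]`, is a power of `τ` times a unit of `V`. -/
theorem exists_zpow_mul_unit_aeval (h : V.comap (algebraMap F₀ F) = V₀)
    (hK : ∀ a : K₀, algebraMap K₀ F₀ a ∈ V₀) {τ : F₀} (hτ : IsUnif V₀ τ) (θ : ↥V)
    (hsep : (minpoly K₀ (θ : F)).Separable) (p : F₀[X]) (hp : aeval (θ : F) p ≠ 0) :
    ∃ n : ℤ, ∃ u : F, u ∈ V ∧ u⁻¹ ∈ V ∧ aeval (θ : F) p = algebraMap F₀ F τ ^ n * u := by
  have hτF : algebraMap F₀ F τ ≠ 0 := (_root_.map_ne_zero _).mpr hτ.ne_zero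
  obtain ⟨M, hM⟩ := hτ.exists_pow_mul_mem_forall p
  have hlift : C (τ ^ M) * p ∈ Polynomial.lifts V₀.subtype := by
    rw [Polynomial.lifts_iff_coeff_lifts]
    intro i
    rw [coeff_C_mul]
    exact ⟨⟨_, hM i⟩, rfl⟩
  obtain ⟨P, hPl⟩ := (Polynomial.mem_lifts _).mp hlift
  have hcoe : ((eval₂ (incl V₀ V h) θ P : ↥V) : F)
      = algebraMap F₀ F τ ^ M * aeval (θ : F) p := by
    rw [coe_eval₂_incl, hPl, map_mul, aeval_C, map_pow]
  have hne : eval₂ (incl V₀ V h) θ P ≠ 0 := by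
    intro h0
    rw [h0] at hcoe
    exact mul_ne_zero (pow_ne_zero _ hτF) hp hcoe.symm
  obtain ⟨k, u, hu, hku⟩ := exists_pow_mul_unit_eval V₀ V h hK hτ θ hsep P hne
  obtain ⟨u', hu'⟩ := isUnit_iff_exists_inv.mp hu
  have hu0 : (u : F) ≠ 0 := by
    intro h0
    have h1 : (u : F) * (u' : F) = 1 := congrArg Subtype.val hu'
    rw [h0, zero_mul] at h1
    exact zero_ne_one h1
  refine ⟨(k : ℤ) - M, (u : F), u.2, ?_, ?_⟩
  · have h1 : (u : F) * (u' : F) = 1 := congrArg Subtype.val hu'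
    rw [← eq_inv_of_mul_eq_one_right h1]
    exact u'.2
  · have h2 : ((eval₂ (incl V₀ V h) θ P : ↥V) : F) = algebraMap F₀ F τ ^ k * (u : F) :=
      congrArg Subtype.val hku
    rw [hcoe] at h2
    rw [zpow_sub₀ hτF, zpow_natCast, zpow_natCast]
    field_simp
    linear_combination h2

/-- One `θ`: every nonzero element of `F₀(θ)` is a power of `τ` times a unit of `V`. -/
theorem exists_zpow_mul_unit_of_mem_adjoin (h : V.comap (algebraMap F₀ F) = V₀)
    (hK : ∀ a : K₀, algebraMap K₀ F₀ a ∈ V₀) {τ : F₀} (hτ : IsUnif V₀ τ) (θ : F)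
    (hθ : IsIntegral K₀ θ) (hsep : (minpoly K₀ θ).Separable) {x : F}
    (hx : x ∈ IntermediateField.adjoin F₀ {θ}) (hx0 : x ≠ 0) :
    ∃ n : ℤ, ∃ u : F, u ∈ V ∧ u⁻¹ ∈ V ∧ x = algebraMap F₀ F τ ^ n * u := by
  have hτF : algebraMap F₀ F τ ≠ 0 := (_root_.map_ne_zero _).mpr hτ.ne_zero
  -- `θ ∈ V`
  have hθV : θ ∈ V := by
    have hKV : ∀ a : K₀, algebraMap K₀ F a ∈ V := by
      intro a
      rw [IsScalarTower.algebraMap_apply K₀ F₀ F]
      have h1 := hK a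
      rw [← h] at h1
      exact ValuationSubring.mem_comap.mp h1
    set gV : K₀ →+* ↥V := (algebraMap K₀ F).codRestrict V hKV with hgV
    have hint : IsIntegral ↥V θ := by
      refine ⟨(minpoly K₀ θ).map gV, (minpoly.monic hθ).map _, ?_⟩
      rw [eval₂_map]
      have hc : (algebraMap ↥V F).comp gV = algebraMap K₀ F := rfl
      rw [hc]
      exact minpoly.aeval K₀ θ
    obtain ⟨z, hz⟩ := IsIntegrallyClosed.isIntegral_iff.mp hint
    rw [← hz]
    exact z.2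
  obtain ⟨r, s, hrs⟩ := (IntermediateField.mem_adjoin_simple_iff F₀ x).mp hx
  have hr0 : aeval θ r ≠ 0 := by
    intro h0
    rw [hrs, h0, zero_div] at hx0
    exact hx0 rfl
  have hs0 : aeval θ s ≠ 0 := by
    intro h0
    rw [hrs, h0, div_zero] at hx0
    exact hx0 rfl
  obtain ⟨n₁, u₁, hu₁, hu₁', e₁⟩ :=
    exists_zpow_mul_unit_aeval V₀ V h hK hτ ⟨θ, hθV⟩ hsep r hr0
  obtain ⟨n₂, u₂, hu₂, hu₂', e₂⟩ :=
    exists_zpow_mul_unit_aeval V₀ V h hK hτ ⟨θ, hθV⟩ hsep s hs0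
  have e₁' : aeval θ r = algebraMap F₀ F τ ^ n₁ * u₁ := e₁
  have e₂' : aeval θ s = algebraMap F₀ F τ ^ n₂ * u₂ := e₂
  have hu₂0 : u₂ ≠ 0 := by
    rintro rfl
    rw [mul_zero] at e₂'
    exact hs0 e₂'
  refine ⟨n₁ - n₂, u₁ * u₂⁻¹, V.mul_mem _ _ hu₁ hu₂', ?_, ?_⟩
  · rw [mul_inv, inv_inv]
    exact V.mul_mem _ _ hu₁' hu₂
  · rw [hrs, e₁', e₂', zpow_sub₀ hτF]
    field_simp

/-- **Constant field extensions are unramified.** If `V₀ = V ∩ F₀` has uniformiser `τ`, contains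
`K₀`, and every element of `F` lies in `F₀(θ)` for some `θ` integral and separable over `K₀`,
then `τ` is a uniformiser of `V`. -/
theorem isUnif_of_comap (h : V.comap (algebraMap F₀ F) = V₀)
    (hK : ∀ a : K₀, algebraMap K₀ F₀ a ∈ V₀) {τ : F₀} (hτ : IsUnif V₀ τ)
    (hgen : ∀ x : F, ∃ θ : F, IsIntegral K₀ θ ∧ (minpoly K₀ θ).Separable ∧
      x ∈ IntermediateField.adjoin F₀ {θ}) :
    IsUnif V (algebraMap F₀ F τ) := by
  refine ⟨?_, ?_, ?_⟩
  · have h1 := hτ.1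
    rw [← h] at h1
    exact ValuationSubring.mem_comap.mp h1
  · intro hmem
    apply hτ.2.1
    have h1 : τ⁻¹ ∈ V.comap (algebraMap F₀ F) := by
      rw [ValuationSubring.mem_comap, map_inv₀]
      exact hmem
    rwa [h] at h1
  · intro x hx
    obtain ⟨θ, hθ, hsep, hxθ⟩ := hgen x
    exact exists_zpow_mul_unit_of_mem_adjoin V₀ V h hK hτ θ hθ hsep hxθ hx

end Core

section Existence

variable {F₀ F : Type*} [Field F₀] [Field F] [Algebra F₀ F]

/-- Every valuation subring of `F₀` is the trace on `F₀` of a valuation subring of `F`. -/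
theorem exists_comap_eq (V₀ : ValuationSubring F₀) :
    ∃ V : ValuationSubring F, V.comap (algebraMap F₀ F) = V₀ := by
  obtain ⟨A, hA, hloc⟩ :=
    IsLocalRing.exists_factor_valuationRing ((algebraMap F₀ F).comp V₀.subtype)
  refine ⟨A, ?_⟩
  ext x
  rw [ValuationSubring.mem_comap]
  constructor
  · intro hx
    by_contra hxV
    have hx0 : x ≠ 0 := fun h0 => hxV (h0 ▸ V₀.zero_mem)
    have hinv : x⁻¹ ∈ V₀ := (V₀.mem_or_inv_mem x).resolve_left hxV
    have hu : IsUnit (((algebraMap F₀ F).comp V₀.subtype).codRestrict A.toSubring hA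
        ⟨x⁻¹, hinv⟩) := by
      refine IsUnit.of_mul_eq_one (⟨algebraMap F₀ F x, hx⟩ : ↥A.toSubring) (Subtype.ext ?_)
      show algebraMap F₀ F x⁻¹ * algebraMap F₀ F x = 1
      rw [← map_mul, inv_mul_cancel₀ hx0, map_one]
    have hu' : IsUnit (⟨x⁻¹, hinv⟩ : ↥V₀) := hloc.map_nonunit _ hu
    obtain ⟨b, hb⟩ := isUnit_iff_exists_inv.mp hu'
    have hb' : x⁻¹ * (b : F₀) = 1 := congrArg Subtype.val hb
    have hbx : (b : F₀) = x := by
      have h1 := eq_inv_of_mul_eq_one_right hb'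
      rw [inv_inv] at h1
      exact h1
    exact hxV (hbx ▸ b.2)
  · intro hx
    exact hA ⟨x, hx⟩

/-- An element integral over a field that maps into `V` lies in `V`. -/
theorem mem_of_isIntegral_of_forall_mem (V : ValuationSubring F)
    (hF₀ : ∀ a : F₀, algebraMap F₀ F a ∈ V) {x : F} (hx : IsIntegral F₀ x) : x ∈ V := by
  set g : F₀ →+* ↥V := (algebraMap F₀ F).codRestrict V hF₀ with hg
  have hint : IsIntegral ↥V x := by
    refine ⟨(minpoly F₀ x).map g, (minpoly.monic hx).map _, ?_⟩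
    rw [eval₂_map]
    have hc : (algebraMap ↥V F).comp g = algebraMap F₀ F := rfl
    rw [hc]
    exact minpoly.aeval F₀ x
  obtain ⟨z, hz⟩ := IsIntegrallyClosed.isIntegral_iff.mp hint
  rw [← hz]
  exact z.2

end Existence

section DVR

variable {F : Type*} [Field F] {V : ValuationSubring F} {τ : F}

theorem IsUnif.ne_top (h : IsUnif V τ) : V ≠ ⊤ := fun ht =>
  h.2.1 (ht ▸ ValuationSubring.mem_top _)

theorem IsUnif.not_isUnit (h : IsUnif V τ) : ¬ IsUnit (⟨τ, h.1⟩ : ↥V) := by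
  intro hu
  obtain ⟨b, hb⟩ := isUnit_iff_exists_inv.mp hu
  have hb' : τ * (b : F) = 1 := congrArg Subtype.val hb
  apply h.2.1
  rw [← eq_inv_of_mul_eq_one_right hb']
  exact b.2

/-- Exponent of a nonzero element of `V` is nonnegative. -/
theorem IsUnif.exists_pow_mul_unit (h : IsUnif V τ) {x : ↥V} (hx : x ≠ 0) :
    ∃ n : ℕ, ∃ u : (↥V)ˣ, x = (⟨τ, h.1⟩ : ↥V) ^ n * (u : ↥V) := by
  have hx' : (x : F) ≠ 0 := fun h0 => hx (Subtype.ext h0)
  obtain ⟨n, u, hu, hu', hxu⟩ := h.2.2 (x : F) hx'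
  have hu0 : u ≠ 0 := by
    rintro rfl
    rw [mul_zero] at hxu
    exact hx' hxu
  have hn : 0 ≤ n := by
    rw [← h.zpow_mem_iff]
    have h1 : τ ^ n = (x : F) * u⁻¹ := by
      rw [hxu, mul_assoc, mul_inv_cancel₀ hu0, mul_one]
    rw [h1]
    exact V.mul_mem _ _ x.2 hu'
  obtain ⟨k, rfl⟩ := Int.eq_ofNat_of_zero_le hn
  refine ⟨k, ⟨⟨u, hu⟩, ⟨u⁻¹, hu'⟩, Subtype.ext (mul_inv_cancel₀ hu0),
    Subtype.ext (inv_mul_cancel₀ hu0)⟩, Subtype.ext ?_⟩
  rw [hxu, zpow_natCast]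
  rfl

theorem IsUnif.irreducible (h : IsUnif V τ) : Irreducible (⟨τ, h.1⟩ : ↥V) := by
  have hτ0 : (⟨τ, h.1⟩ : ↥V) ≠ 0 := fun h0 => h.ne_zero (congrArg Subtype.val h0)
  refine ⟨h.not_isUnit, fun a b hab => ?_⟩
  have ha0 : a ≠ 0 := by
    rintro rfl
    rw [zero_mul] at hab
    exact hτ0 hab
  have hb0 : b ≠ 0 := by
    rintro rfl
    rw [mul_zero] at hab
    exact hτ0 hab
  obtain ⟨i, u, rfl⟩ := h.exists_pow_mul_unit ha0
  obtain ⟨j, w, rfl⟩ := h.exists_pow_mul_unit hb0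
  rcases Nat.eq_zero_or_pos i with rfl | hi
  · left
    rw [pow_zero, one_mul]
    exact u.isUnit
  rcases Nat.eq_zero_or_pos j with rfl | hj
  · right
    rw [pow_zero, one_mul]
    exact w.isUnit
  exfalso
  -- `τ = τ ^ (i + j) * unit` with `i + j ≥ 2`
  have h1 : (⟨τ, h.1⟩ : ↥V) = ⟨τ, h.1⟩ * (⟨τ, h.1⟩ ^ (i + j - 1) * ((u : ↥V) * (w : ↥V))) := by
    have hij : i + j = (i + j - 1) + 1 := by omega
    calc (⟨τ, h.1⟩ : ↥V) = ⟨τ, h.1⟩ ^ i * (u : ↥V) * (⟨τ, h.1⟩ ^ j * (w : ↥V)) := hab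
      _ = ⟨τ, h.1⟩ ^ (i + j) * ((u : ↥V) * (w : ↥V)) := by ring
      _ = ⟨τ, h.1⟩ ^ ((i + j - 1) + 1) * ((u : ↥V) * (w : ↥V)) := by rw [← hij]
      _ = ⟨τ, h.1⟩ * (⟨τ, h.1⟩ ^ (i + j - 1) * ((u : ↥V) * (w : ↥V))) := by ring
  have h2 : (⟨τ, h.1⟩ : ↥V) ^ (i + j - 1) * ((u : ↥V) * (w : ↥V)) = 1 := by
    have h3 : (⟨τ, h.1⟩ : ↥V) * 1
        = ⟨τ, h.1⟩ * (⟨τ, h.1⟩ ^ (i + j - 1) * ((u : ↥V) * (w : ↥V))) := by
      rw [mul_one]
      exact h1
    exact (mul_left_cancel₀ hτ0 h3).symm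
  have h4 : IsUnit ((⟨τ, h.1⟩ : ↥V) ^ (i + j - 1)) :=
    IsUnit.of_mul_eq_one ((u : ↥V) * (w : ↥V)) h2
  exact h.not_isUnit ((isUnit_pow_iff (by omega)).mp h4)

/-- A valuation subring with a uniformiser is a discrete valuation ring. -/
theorem IsUnif.isDiscreteValuationRing (h : IsUnif V τ) : IsDiscreteValuationRing ↥V := by
  refine IsDiscreteValuationRing.ofHasUnitMulPowIrreducibleFactorization
    ⟨⟨τ, h.1⟩, h.irreducible, fun {x} hx => ?_⟩
  obtain ⟨n, u, rfl⟩ := h.exists_pow_mul_unit hx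
  exact ⟨n, u, rfl⟩

theorem IsUnif.isPrincipalIdealRing (h : IsUnif V τ) : IsPrincipalIdealRing ↥V := by
  have := h.isDiscreteValuationRing
  infer_instance

/-- An irreducible element of a discrete valuation subring is a uniformiser. -/
theorem IsUnif.of_irreducible (V : ValuationSubring F) [IsDiscreteValuationRing ↥V] {ϖ : ↥V}
    (hϖ : Irreducible ϖ) : IsUnif V (ϖ : F) := by
  have hϖ0 : (ϖ : F) ≠ 0 := fun h0 => hϖ.ne_zero (Subtype.ext h0)
  have key : ∀ x : F, x ∈ V → x ≠ 0 →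
      ∃ n : ℤ, ∃ u : F, u ∈ V ∧ u⁻¹ ∈ V ∧ x = (ϖ : F) ^ n * u := by
    intro x hxV hx
    have hx' : (⟨x, hxV⟩ : ↥V) ≠ 0 := fun h0 => hx (congrArg Subtype.val h0)
    obtain ⟨n, u, hu⟩ := IsDiscreteValuationRing.eq_unit_mul_pow_irreducible hx' hϖ
    refine ⟨n, ((u : ↥V) : F), (u : ↥V).2, ?_, ?_⟩
    · have h1 : (((u⁻¹ : (↥V)ˣ) : ↥V) : F) = ((u : ↥V) : F)⁻¹ := by
        have h2 : ((u : ↥V) : F) * (((u⁻¹ : (↥V)ˣ) : ↥V) : F) = 1 :=
          congrArg Subtype.val u.mul_inv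
        exact eq_inv_of_mul_eq_one_right h2
      rw [← h1]
      exact ((u⁻¹ : (↥V)ˣ) : ↥V).2
    · have h1 : x = ((u : ↥V) : F) * (ϖ : F) ^ n := congrArg Subtype.val hu
      rw [h1, zpow_natCast, mul_comm]
  refine ⟨ϖ.2, ?_, ?_⟩
  · intro hmem
    exact hϖ.not_isUnit
      (IsUnit.of_mul_eq_one (⟨(ϖ : F)⁻¹, hmem⟩ : ↥V) (Subtype.ext (mul_inv_cancel₀ hϖ0)))
  · intro x hx
    rcases V.mem_or_inv_mem x with hxV | hxV
    · exact key x hxV hx
    · obtain ⟨n, u, hu, hu', hxu⟩ := key x⁻¹ hxV (inv_ne_zero hx)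
      refine ⟨-n, u⁻¹, hu', by rwa [inv_inv], ?_⟩
      rw [← inv_inv x, hxu, mul_inv, zpow_neg]

theorem exists_isUnif (V : ValuationSubring F) [IsDiscreteValuationRing ↥V] :
    ∃ τ : F, IsUnif V τ := by
  obtain ⟨ϖ, hϖ⟩ := IsDiscreteValuationRing.exists_irreducible ↥V
  exact ⟨_, IsUnif.of_irreducible V hϖ⟩

end DVR

section Gen

variable {K₀ K F₀ F : Type*} [Field K₀] [Field K] [Field F₀] [Field F]
  [Algebra K₀ F₀] [Algebra F₀ F] [Algebra K₀ F] [IsScalarTower K₀ F₀ F]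
  [Algebra K₀ K] [Algebra K F] [IsScalarTower K₀ K F]

/-- The generation hypothesis of `isUnif_of_comap` from `F = F₀ · K` with `K / K₀` algebraic and
`K₀` perfect (e.g. of characteristic zero). -/
theorem gen_of_adjoin [PerfectField K₀] [Algebra.IsAlgebraic K₀ K]
    (hgen : IntermediateField.adjoin F₀ (Set.range (algebraMap K F)) = ⊤) (x : F) :
    ∃ θ : F, IsIntegral K₀ θ ∧ (minpoly K₀ θ).Separable ∧
      x ∈ IntermediateField.adjoin F₀ {θ} := by
  classical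
  have hx : x ∈ IntermediateField.adjoin F₀ (Set.range (algebraMap K F)) := by
    rw [hgen]
    trivial
  obtain ⟨T, hTS, hxT⟩ := IntermediateField.exists_finset_of_mem_adjoin hx
  have hTint : ∀ z ∈ (T : Set F), IsIntegral K₀ z := by
    intro z hz
    obtain ⟨a, rfl⟩ := hTS hz
    exact ((Algebra.IsAlgebraic.isAlgebraic (R := K₀) a).isIntegral).map
      (IsScalarTower.toAlgHom K₀ K F)
  set E : IntermediateField K₀ F := IntermediateField.adjoin K₀ (T : Set F) with hE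
  have : FiniteDimensional K₀ E := IntermediateField.finiteDimensional_adjoin hTint
  have : Algebra.IsAlgebraic K₀ E := IntermediateField.isAlgebraic_adjoin hTint
  obtain ⟨α, hα⟩ := Field.exists_primitive_element K₀ E
  have hαint : IsIntegral K₀ (α : F) := by
    have h1 : IsIntegral K₀ α := (Algebra.IsAlgebraic.isAlgebraic (R := K₀) α).isIntegral
    exact h1.map E.val
  refine ⟨(α : F), hαint, PerfectField.separable_of_irreducible (minpoly.irreducible hαint), ?_⟩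
  -- `E = K₀(α)` inside `F`
  have hEα : E = IntermediateField.adjoin K₀ {(α : F)} := by
    rw [← IntermediateField.lift_adjoin_simple K₀ E α, hα, IntermediateField.lift_top]
  have hTle : (T : Set F) ⊆ (IntermediateField.adjoin F₀ {(α : F)} : Set F) := by
    intro z hz
    have hzE : z ∈ E := IntermediateField.subset_adjoin K₀ _ hz
    rw [hEα] at hzE
    have hle : IntermediateField.adjoin K₀ {(α : F)}
        ≤ (IntermediateField.adjoin F₀ {(α : F)}).restrictScalars K₀ := by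
      rw [IntermediateField.adjoin_simple_le_iff, IntermediateField.mem_restrictScalars]
      exact IntermediateField.mem_adjoin_simple_self F₀ (α : F)
    exact (IntermediateField.mem_restrictScalars K₀).mp (hle hzE)
  exact (IntermediateField.adjoin_le_iff.mpr hTle) hxT

end Gen

end Fermat.Agent.Lib.helper1998
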