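import Mathlib
import Fermat.Prelude.Def_AlgebraicCurve_DivisorClassGroup
import Fermat.Agent.Lib.helper1998_ConstFieldExt

/-!
# Constant field extensions and Prelude places (helper1998)

Prelude adapter of `helper1998_ConstFieldExt`.  Setting: a tower of "function fields"
`F₀ / K₀` and `F / K` with `K₀ ⊆ K`, `F₀ ⊆ F` (all maps are `algebraMap`s), e.g.
`K₀` a number field, `K = ℚ̄`, `F = F₀ · K`.

* `ord_eq_of_isUnif`, `ord_nonneg_iff_mem` : `Place.ord` in terms of a uniformiser.
* `exists_isUnif_comap` : the trace of a place of `F` on any subfield `F₀` on which it is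
  nontrivial is a discrete valuation ring (with a divisibility statement: ramification index).
* `restrictConst` : `Place K F → Place K₀ F₀` (needs `F / F₀` algebraic).
* `ord_restrictConst` : **e = 1**: `(restrictConst v).ord f = v.ord (algebraMap F₀ F f)` when
  `F = F₀ · K` with `K / K₀` algebraic and `K₀` perfect (generation hypothesis `hgen`).
* `restrictConst_surjective` : every place of `F₀ / K₀` is a restriction.
* `dvd_ord_of_forall_place_dvd`, `dvd_ord_algebraMap_of_forall_place_dvd` : transfer of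
  `m ∣ ord` in both directions.
-/

set_option autoImplicit false

namespace Fermat.Agent.Lib.helper1998

open AlgebraicCurve

section PlaceOrd

variable {K F : Type*} [Field K] [Field F] [Algebra K F]

/-- The order of `τ ^ n * u` (`τ` a uniformiser, `u` a unit) at a place is `n`. -/
theorem ord_eq_of_isUnif (v : Place K F) {τ : F} (hτ : IsUnif v.toValuationSubring τ)
    {x u : F} {n : ℤ} (hu : u ∈ v.toValuationSubring) (hu' : u⁻¹ ∈ v.toValuationSubring)
    (hu0 : u ≠ 0) (hx : x = τ ^ n * u) : v.ord x = n := by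
  have h1 : v.ord τ = 1 := v.ord_coe_irreducible hτ.irreducible
  have h2 : v.ord u = 0 :=
    v.ord_coe_unit ⟨⟨u, hu⟩, ⟨u⁻¹, hu'⟩, Subtype.ext (mul_inv_cancel₀ hu0),
      Subtype.ext (inv_mul_cancel₀ hu0)⟩
  rw [hx, v.ord_mul (zpow_ne_zero n hτ.ne_zero) hu0, v.ord_zpow, h1, h2]
  ring

/-- The order of a uniformiser is one. -/
theorem ord_eq_one_of_isUnif (v : Place K F) {τ : F} (hτ : IsUnif v.toValuationSubring τ) :
    v.ord τ = 1 :=
  v.ord_coe_irreducible hτ.irreducible

/-- Membership in the valuation ring of a place is `0 ≤ ord`. -/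
theorem ord_nonneg_iff_mem (v : Place K F) {x : F} (hx : x ≠ 0) :
    0 ≤ v.ord x ↔ x ∈ v.toValuationSubring := by
  obtain ⟨τ, hτ⟩ := exists_isUnif v.toValuationSubring
  obtain ⟨n, u, hu, hu', hxu⟩ := hτ.2.2 x hx
  have hu0 : u ≠ 0 := by
    rintro rfl
    exact hx (by rw [hxu, mul_zero])
  rw [ord_eq_of_isUnif v hτ hu hu' hu0 hxu, ← hτ.zpow_mem_iff n]
  constructor
  · intro h
    rw [hxu]
    exact v.toValuationSubring.mul_mem _ _ h hu
  · intro h
    have h3 : τ ^ n = x * u⁻¹ := by
      rw [hxu, mul_assoc, mul_inv_cancel₀ hu0, mul_one]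
    rw [h3]
    exact v.toValuationSubring.mul_mem _ _ h hu'

/-- The trace of a place on a subfield on which it is nontrivial is a discrete valuation ring:
it has a uniformiser `τ`, and the order (upstairs) of every nonzero element of the subfield is a
multiple of the order of `τ` (the ramification index). -/
theorem exists_isUnif_comap {F₀ : Type*} [Field F₀] [Algebra F₀ F] (v : Place K F)
    (hne : ∃ x : F₀, algebraMap F₀ F x ∉ v.toValuationSubring) :
    ∃ τ : F₀, IsUnif (v.toValuationSubring.comap (algebraMap F₀ F)) τ ∧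
      0 < v.ord (algebraMap F₀ F τ) ∧
      ∀ x : F₀, x ≠ 0 → ∃ u : F₀, u ∈ v.toValuationSubring.comap (algebraMap F₀ F) ∧
        u⁻¹ ∈ v.toValuationSubring.comap (algebraMap F₀ F) ∧ u ≠ 0 ∧
        v.ord (algebraMap F₀ F x) = (v.ord (algebraMap F₀ F x) / v.ord (algebraMap F₀ F τ)) *
          v.ord (algebraMap F₀ F τ) ∧
        x = τ ^ (v.ord (algebraMap F₀ F x) / v.ord (algebraMap F₀ F τ)) * u := by
  classical
  have hmap0 : ∀ {y : F₀}, y ≠ 0 → algebraMap F₀ F y ≠ 0 := fun {y} hy =>
    (map_ne_zero (algebraMap F₀ F)).mpr hy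
  -- the set of positive orders is nonempty
  have hex : ∃ d : ℕ, 0 < d ∧ ∃ y : F₀, v.ord (algebraMap F₀ F y) = d := by
    obtain ⟨x, hx⟩ := hne
    have hx0 : x ≠ 0 := by
      rintro rfl
      exact hx (by rw [map_zero]; exact v.toValuationSubring.zero_mem)
    have hneg : v.ord (algebraMap F₀ F x) < 0 := by
      by_contra hnn
      exact hx ((ord_nonneg_iff_mem v (hmap0 hx0)).mp (not_lt.mp hnn))
    refine ⟨(-v.ord (algebraMap F₀ F x)).toNat, by omega, x⁻¹, ?_⟩
    rw [map_inv₀, v.ord_inv]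
    omega
  set d := Nat.find hex with hd
  obtain ⟨hdpos, τ, hτord⟩ := Nat.find_spec hex
  rw [← hd] at hdpos hτord
  have hmin : ∀ e : ℕ, 0 < e → (∃ y : F₀, v.ord (algebraMap F₀ F y) = e) → d ≤ e :=
    fun e he hy => Nat.find_min' hex ⟨he, hy⟩
  have hτ0 : τ ≠ 0 := by
    rintro rfl
    rw [map_zero, v.ord_zero] at hτord
    omega
  have hdpos' : (0 : ℤ) < (d : ℤ) := by exact_mod_cast hdpos
  have key : ∀ x : F₀, x ≠ 0 → ∃ u : F₀, u ∈ v.toValuationSubring.comap (algebraMap F₀ F) ∧
        u⁻¹ ∈ v.toValuationSubring.comap (algebraMap F₀ F) ∧ u ≠ 0 ∧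
        v.ord (algebraMap F₀ F x) = (v.ord (algebraMap F₀ F x) / (d : ℤ)) * (d : ℤ) ∧
        x = τ ^ (v.ord (algebraMap F₀ F x) / (d : ℤ)) * u := by
    intro x hx0
    set a := v.ord (algebraMap F₀ F x) with ha
    set n := a / (d : ℤ) with hn
    set u := x * (τ ^ n)⁻¹ with hu
    have hτn0 : τ ^ n ≠ 0 := zpow_ne_zero n hτ0
    have hu0 : u ≠ 0 := mul_ne_zero hx0 (inv_ne_zero hτn0)
    have hordu : v.ord (algebraMap F₀ F u) = a - n * (d : ℤ) := by
      rw [hu, map_mul, map_inv₀, map_zpow₀, v.ord_mul (hmap0 hx0)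
        (inv_ne_zero (zpow_ne_zero n (hmap0 hτ0))), v.ord_inv, v.ord_zpow, hτord]
      ring
    have hr0 : 0 ≤ a - n * (d : ℤ) := by
      have := Int.emod_nonneg a hdpos'.ne'
      have h2 := Int.emod_add_mul_ediv a (d : ℤ)
      rw [hn]
      nlinarith
    have hrlt : a - n * (d : ℤ) < (d : ℤ) := by
      have := Int.emod_lt_of_pos a hdpos'
      have h2 := Int.emod_add_mul_ediv a (d : ℤ)
      rw [hn]
      nlinarith
    have hr : a - n * (d : ℤ) = 0 := by
      by_contra hne0
      have hpos : 0 < a - n * (d : ℤ) := lt_of_le_of_ne hr0 (Ne.symm hne0)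
      have := hmin (a - n * (d : ℤ)).toNat (by omega) ⟨u, by rw [hordu]; omega⟩
      omega
    refine ⟨u, ?_, ?_, hu0, by omega, ?_⟩
    · rw [ValuationSubring.mem_comap, ← ord_nonneg_iff_mem v (hmap0 hu0), hordu, hr]
    · rw [ValuationSubring.mem_comap, ← ord_nonneg_iff_mem v (hmap0 (inv_ne_zero hu0)),
        map_inv₀, v.ord_inv, hordu, hr, neg_zero]
    · rw [hu, mul_comm x, ← mul_assoc, mul_inv_cancel₀ hτn0, one_mul]
  refine ⟨τ, ⟨?_, ?_, ?_⟩, by rw [hτord]; exact hdpos', ?_⟩
  · rw [ValuationSubring.mem_comap, ← ord_nonneg_iff_mem v (hmap0 hτ0), hτord]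
    exact hdpos'.le
  · rw [ValuationSubring.mem_comap, ← ord_nonneg_iff_mem v (hmap0 (inv_ne_zero hτ0)),
      map_inv₀, v.ord_inv, hτord]
    omega
  · intro x hx0
    obtain ⟨u, hu, hu', -, -, hxu⟩ := key x hx0
    exact ⟨_, u, hu, hu', hxu⟩
  · intro x hx0
    rw [hτord]
    exact key x hx0

end PlaceOrd

section Restrict

variable {K₀ K F₀ F : Type*} [Field K₀] [Field K] [Field F₀] [Field F]
  [Algebra K₀ F₀] [Algebra F₀ F] [Algebra K₀ F] [IsScalarTower K₀ F₀ F]
  [Algebra K₀ K] [Algebra K F] [IsScalarTower K₀ K F]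

/-- `F = F₀ · K` with `K / K₀` algebraic is algebraic over `F₀`. -/
theorem isAlgebraic_of_adjoin [Algebra.IsAlgebraic K₀ K]
    (hgen : IntermediateField.adjoin F₀ (Set.range (algebraMap K F)) = ⊤) :
    Algebra.IsAlgebraic F₀ F := by
  have hS : ∀ z ∈ Set.range (algebraMap K F), IsIntegral F₀ z := by
    rintro z ⟨a, rfl⟩
    have h1 : IsIntegral K₀ (algebraMap K F a) :=
      ((Algebra.IsAlgebraic.isAlgebraic (R := K₀) a).isIntegral).map
        (IsScalarTower.toAlgHom K₀ K F)
    exact h1.tower_top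
  have halg := IntermediateField.isAlgebraic_adjoin hS
  refine ⟨fun x => ?_⟩
  have hx : x ∈ IntermediateField.adjoin F₀ (Set.range (algebraMap K F)) := by
    rw [hgen]
    trivial
  have h2 := halg.isAlgebraic (⟨x, hx⟩ : IntermediateField.adjoin F₀ (Set.range (algebraMap K F)))
  exact (IntermediateField.isAlgebraic_iff).mp h2

/-- A place of `F / K` is nontrivial on a subfield `F₀` over which `F` is algebraic. -/
theorem exists_not_mem_of_isAlgebraic [Algebra.IsAlgebraic F₀ F] (v : Place K F) :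
    ∃ x : F₀, algebraMap F₀ F x ∉ v.toValuationSubring := by
  by_contra hcon
  push Not at hcon
  apply v.ne_top'
  rw [eq_top_iff]
  intro x _
  exact mem_of_isIntegral_of_forall_mem v.toValuationSubring hcon
    (Algebra.IsAlgebraic.isAlgebraic (R := F₀) x).isIntegral

theorem algebraMap_mem_of_tower (v : Place K F) (a : K₀) :
    algebraMap K₀ F a ∈ v.toValuationSubring := by
  rw [IsScalarTower.algebraMap_apply K₀ K F]
  exact v.algebraMap_mem' _

/-- Restriction of a place of `F / K` to a place of `F₀ / K₀` (change of constant field). -/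
noncomputable def restrictConst [Algebra.IsAlgebraic F₀ F] (v : Place K F) : Place K₀ F₀ where
  toValuationSubring := v.toValuationSubring.comap (algebraMap F₀ F)
  algebraMap_mem' := fun a => by
    rw [ValuationSubring.mem_comap, ← IsScalarTower.algebraMap_apply K₀ F₀ F]
    exact algebraMap_mem_of_tower v a
  ne_top' := by
    obtain ⟨τ, hτ, -⟩ := exists_isUnif_comap v (exists_not_mem_of_isAlgebraic (F₀ := F₀) v)
    exact hτ.ne_top
  isPrincipalIdealRing' := by
    obtain ⟨τ, hτ, -⟩ := exists_isUnif_comap v (exists_not_mem_of_isAlgebraic (F₀ := F₀) v)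
    exact hτ.isPrincipalIdealRing

@[simp]
theorem restrictConst_toValuationSubring [Algebra.IsAlgebraic F₀ F] (v : Place K F) :
    (restrictConst (K₀ := K₀) (F₀ := F₀) v).toValuationSubring =
      v.toValuationSubring.comap (algebraMap F₀ F) := rfl

theorem mem_restrictConst_iff [Algebra.IsAlgebraic F₀ F] (v : Place K F) (f : F₀) :
    f ∈ (restrictConst (K₀ := K₀) (F₀ := F₀) v).toValuationSubring ↔
      algebraMap F₀ F f ∈ v.toValuationSubring := Iff.rfl

/-- In general the order upstairs is a positive multiple (the ramification index) of the order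
at the restricted place. -/
theorem exists_ord_eq_mul_ord_restrictConst [Algebra.IsAlgebraic F₀ F] (v : Place K F) :
    ∃ e : ℤ, 0 < e ∧ ∀ f : F₀,
      v.ord (algebraMap F₀ F f) = e * (restrictConst (K₀ := K₀) (F₀ := F₀) v).ord f := by
  obtain ⟨τ, hτ, hpos, hτdiv⟩ :=
    exists_isUnif_comap v (exists_not_mem_of_isAlgebraic (F₀ := F₀) v)
  refine ⟨v.ord (algebraMap F₀ F τ), hpos, fun f => ?_⟩
  rcases eq_or_ne f 0 with rfl | hf0
  · simp
  · obtain ⟨u, hu, hu', hu0, hdiv, hfu⟩ := hτdiv f hf0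
    have h1 : (restrictConst (K₀ := K₀) (F₀ := F₀) v).ord f =
        v.ord (algebraMap F₀ F f) / v.ord (algebraMap F₀ F τ) :=
      ord_eq_of_isUnif (restrictConst (K₀ := K₀) (F₀ := F₀) v) hτ hu hu' hu0 hfu
    rw [h1, mul_comm]
    exact hdiv

/-- **Constant field extensions are unramified (Prelude form).**  If every element of `F` lies
in `F₀(θ)` for some `θ` integral and separable over `K₀`, then the order of `f : F₀` at a place
`v` of `F / K` equals its order at the restricted place of `F₀ / K₀`. -/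
theorem ord_restrictConst_of_gen [Algebra.IsAlgebraic F₀ F] (v : Place K F)
    (hgen : ∀ x : F, ∃ θ : F, IsIntegral K₀ θ ∧ (minpoly K₀ θ).Separable ∧
      x ∈ IntermediateField.adjoin F₀ {θ}) (f : F₀) :
    (restrictConst (K₀ := K₀) (F₀ := F₀) v).ord f = v.ord (algebraMap F₀ F f) := by
  rcases eq_or_ne f 0 with rfl | hf0
  · simp
  obtain ⟨τ, hτ, -⟩ := exists_isUnif_comap v (exists_not_mem_of_isAlgebraic (F₀ := F₀) v)
  have hK : ∀ a : K₀, algebraMap K₀ F₀ a ∈ v.toValuationSubring.comap (algebraMap F₀ F) :=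
    (restrictConst (K₀ := K₀) (F₀ := F₀) v).algebraMap_mem'
  have hτ' : IsUnif v.toValuationSubring (algebraMap F₀ F τ) :=
    isUnif_of_comap (v.toValuationSubring.comap (algebraMap F₀ F)) v.toValuationSubring rfl hK hτ
      hgen
  obtain ⟨n, u, hu, hu', hfu⟩ := hτ.2.2 f hf0
  have hu0 : u ≠ 0 := by
    rintro rfl
    exact hf0 (by rw [hfu, mul_zero])
  rw [ord_eq_of_isUnif (restrictConst (K₀ := K₀) (F₀ := F₀) v) hτ hu hu' hu0 hfu]
  symm
  refine ord_eq_of_isUnif v hτ' (u := algebraMap F₀ F u) hu ?_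
    ((map_ne_zero (algebraMap F₀ F)).mpr hu0) ?_
  · rw [← map_inv₀]
    exact hu'
  · rw [hfu, map_mul, map_zpow₀]

/-- `ord_restrictConst_of_gen` with the generation hypothesis in the form `F = F₀ · K`. -/
theorem ord_restrictConst [PerfectField K₀] [Algebra.IsAlgebraic K₀ K] [Algebra.IsAlgebraic F₀ F]
    (hgen : IntermediateField.adjoin F₀ (Set.range (algebraMap K F)) = ⊤) (v : Place K F)
    (f : F₀) :
    (restrictConst (K₀ := K₀) (F₀ := F₀) v).ord f = v.ord (algebraMap F₀ F f) :=
  ord_restrictConst_of_gen v (gen_of_adjoin (K₀ := K₀) hgen) f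

/-- Every element of `F₀` of order one at the restricted place has order one upstairs; in
particular some element of `F₀` is a uniformiser of `v`. -/
theorem exists_ord_algebraMap_eq_one [PerfectField K₀] [Algebra.IsAlgebraic K₀ K]
    (hgen : IntermediateField.adjoin F₀ (Set.range (algebraMap K F)) = ⊤) (v : Place K F) :
    ∃ τ : F₀, v.ord (algebraMap F₀ F τ) = 1 := by
  have halg : Algebra.IsAlgebraic F₀ F := isAlgebraic_of_adjoin (K₀ := K₀) hgen
  obtain ⟨τ, hτ, -⟩ := exists_isUnif_comap v (exists_not_mem_of_isAlgebraic (F₀ := F₀) v)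
  refine ⟨τ, ?_⟩
  rw [← ord_restrictConst (K₀ := K₀) hgen v τ]
  exact ord_eq_one_of_isUnif (restrictConst (K₀ := K₀) (F₀ := F₀) v) hτ

/-- **Surjectivity.** Every place of `F₀ / K₀` is the restriction of a place of `F / K`
(`K / K₀` algebraic, generation hypothesis as in `isUnif_of_comap`). -/
theorem exists_restrictConst_eq_of_gen [Algebra.IsAlgebraic K₀ K] [Algebra.IsAlgebraic F₀ F]
    (hgen : ∀ x : F, ∃ θ : F, IsIntegral K₀ θ ∧ (minpoly K₀ θ).Separable ∧
      x ∈ IntermediateField.adjoin F₀ {θ}) (P₀ : Place K₀ F₀) :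
    ∃ v : Place K F, restrictConst (K₀ := K₀) (F₀ := F₀) v = P₀ := by
  obtain ⟨V, hV⟩ := exists_comap_eq (F := F) P₀.toValuationSubring
  have hK₀ : ∀ a : K₀, algebraMap K₀ F a ∈ V := by
    intro a
    have h1 : algebraMap K₀ F₀ a ∈ V.comap (algebraMap F₀ F) := by
      rw [hV]
      exact P₀.algebraMap_mem' a
    rw [ValuationSubring.mem_comap, ← IsScalarTower.algebraMap_apply K₀ F₀ F] at h1
    exact h1
  have hK : ∀ a : K, algebraMap K F a ∈ V := by
    intro a
    have h1 : IsIntegral K₀ (algebraMap K F a) :=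
      ((Algebra.IsAlgebraic.isAlgebraic (R := K₀) a).isIntegral).map
        (IsScalarTower.toAlgHom K₀ K F)
    exact mem_of_isIntegral_of_forall_mem (F₀ := K₀) V hK₀ h1
  obtain ⟨τ, hτ⟩ := exists_isUnif P₀.toValuationSubring
  have hτ' : IsUnif V (algebraMap F₀ F τ) :=
    isUnif_of_comap P₀.toValuationSubring V hV P₀.algebraMap_mem' hτ hgen
  refine ⟨⟨V, hK, hτ'.ne_top, hτ'.isPrincipalIdealRing⟩, ?_⟩
  exact Place.ext hV

theorem restrictConst_surjective [PerfectField K₀] [Algebra.IsAlgebraic K₀ K]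
    [Algebra.IsAlgebraic F₀ F]
    (hgen : IntermediateField.adjoin F₀ (Set.range (algebraMap K F)) = ⊤) :
    Function.Surjective (restrictConst (K₀ := K₀) (F₀ := F₀) : Place K F → Place K₀ F₀) :=
  fun P₀ => exists_restrictConst_eq_of_gen (gen_of_adjoin (K₀ := K₀) hgen) P₀

/-- Transfer of divisibility of orders from the places of `F / K` to the places of `F₀ / K₀`. -/
theorem dvd_ord_of_forall_place_dvd [PerfectField K₀] [Algebra.IsAlgebraic K₀ K]
    (hgen : IntermediateField.adjoin F₀ (Set.range (algebraMap K F)) = ⊤) (m : ℤ) (U : F₀)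
    (h : ∀ v : Place K F, m ∣ v.ord (algebraMap F₀ F U)) (P₀ : Place K₀ F₀) :
    m ∣ P₀.ord U := by
  have halg : Algebra.IsAlgebraic F₀ F := isAlgebraic_of_adjoin (K₀ := K₀) hgen
  obtain ⟨v, rfl⟩ := restrictConst_surjective (K₀ := K₀) (F₀ := F₀) hgen P₀
  rw [ord_restrictConst (K₀ := K₀) hgen v U]
  exact h v

/-- Transfer of divisibility of orders from the places of `F₀ / K₀` to the places of `F / K`. -/
theorem dvd_ord_algebraMap_of_forall_place_dvd [PerfectField K₀] [Algebra.IsAlgebraic K₀ K]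
    (hgen : IntermediateField.adjoin F₀ (Set.range (algebraMap K F)) = ⊤) (m : ℤ) (U : F₀)
    (h : ∀ P₀ : Place K₀ F₀, m ∣ P₀.ord U) (v : Place K F) :
    m ∣ v.ord (algebraMap F₀ F U) := by
  have halg : Algebra.IsAlgebraic F₀ F := isAlgebraic_of_adjoin (K₀ := K₀) hgen
  rw [← ord_restrictConst (K₀ := K₀) hgen v U]
  exact h _

end Restrict

end Fermat.Agent.Lib.helper1998
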