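import Mathlib
import Fermat.Prelude.Def_FLTPrelim_Ramification
import Fermat.Agent.Lib.helper54_Frobenius
import Fermat.Agent.S05.helper4205_Inertia

/-!
# Minkowski's theorem in inertia form (helper2053)

`minkowski_inertia`: an open subgroup of `Gal(ℚ̄/ℚ)` containing the inertia subgroups of all
valuation subrings of `ℚ̄` over all primes is the whole group.  Equivalently: there is no
nontrivial everywhere unramified extension of `ℚ`.
-/

set_option autoImplicit false

namespace Fermat.Agent.Lib.helper2053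

open scoped Pointwise
open Fermat.Agent.Lib.helper54 Fermat.Agent.S05.helper4205

local notation "Qb" => AlgebraicClosure ℚ
local notation "GQ" => (AlgebraicClosure ℚ ≃ₐ[ℚ] AlgebraicClosure ℚ)
local notation "Zb" => integralClosure ℤ (AlgebraicClosure ℚ)

section General

variable {K L : Type*} [Field K] [Field L] [Algebra K L]

/-- Membership in the inertia subgroup, in elementary terms. -/
theorem mem_inertiaSubgroupIn_iff_sub_mem (A : ValuationSubring L) (σ : L ≃ₐ[K] L) :
    σ ∈ A.inertiaSubgroupIn K ↔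
      σ ∈ A.decompositionSubgroup K ∧ ∀ x ∈ A, σ x - x ∈ A.nonunits := by
  constructor
  · intro h
    exact ⟨mem_decomposition_of_mem_inertiaSubgroupIn h, fun x hx => apply_sub_mem_nonunits h hx⟩
  · rintro ⟨hD, hI⟩
    rw [mem_inertiaSubgroupIn_iff]
    refine ⟨hD, ?_⟩
    change MulSemiringAction.toRingAut (A.decompositionSubgroup K) (IsLocalRing.ResidueField A)
      ⟨σ, hD⟩ = 1
    ext xbar
    obtain ⟨x, rfl⟩ := IsLocalRing.residue_surjective xbar
    change (⟨σ, hD⟩ : A.decompositionSubgroup K) • IsLocalRing.residue A x = IsLocalRing.residue A x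
    rw [← IsLocalRing.ResidueField.residue_smul, ← sub_eq_zero, ← map_sub,
      IsLocalRing.residue_eq_zero_iff, ← ValuationSubring.coe_mem_nonunits_iff]
    exact hI x.1 x.2

end General

/-- An automorphism that stabilises the prime of `ℤ̄` cut out by `A` and acts trivially on the
quotient lies in the inertia subgroup of `A`. -/
theorem mem_inertiaSubgroupIn_of_zbar {q : ℕ} (hq : q.Prime) (A : ValuationSubring Qb)
    (hA : A.LiesOverPrime q) (σ : GQ)
    (hσ : σ • primeOfValuationSubring A = primeOfValuationSubring A)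
    (h : ∀ b : Zb, σ • b - b ∈ primeOfValuationSubring A) :
    σ ∈ A.inertiaSubgroupIn ℚ := by
  have hD : σ ∈ A.decompositionSubgroup ℚ :=
    mem_decompositionSubgroup_of_smul_prime_eq hq A hA σ hσ
  rw [mem_inertiaSubgroupIn_iff_sub_mem]
  refine ⟨hD, fun x hx => ?_⟩
  obtain ⟨a, b, hb, hab⟩ := exists_frac_of_mem_valuationSubring hq A hA x hx
  have hσb : σ • b ∉ primeOfValuationSubring A := by
    intro hmem
    rw [← hσ, Ideal.smul_mem_pointwise_smul_iff] at hmem
    exact hb hmem
  have hσx : σ x ∈ A := apply_mem_of_mem_decomposition hD hx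
  -- work inside the local ring `A`
  set X : A := ⟨x, hx⟩ with hX
  set X' : A := ⟨σ x, hσx⟩ with hX'
  have key : (X' - X) * (zbarToValuationSubring A (σ • b) * zbarToValuationSubring A b) =
      zbarToValuationSubring A (σ • a - a) * zbarToValuationSubring A b -
        zbarToValuationSubring A a * zbarToValuationSubring A (σ • b - b) := by
    apply Subtype.ext
    have h1 : σ x * σ (b : Qb) = σ (a : Qb) := by rw [← map_mul, hab]
    show (σ x - x) * (σ (b : Qb) * (b : Qb)) =
      (σ (a : Qb) - (a : Qb)) * (b : Qb) - (a : Qb) * (σ (b : Qb) - (b : Qb))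
    linear_combination (b : Qb) * h1 - σ (b : Qb) * hab
  have hm : (X' - X) * (zbarToValuationSubring A (σ • b) * zbarToValuationSubring A b) ∈
      IsLocalRing.maximalIdeal A := by
    rw [key]
    refine Ideal.sub_mem _ (Ideal.mul_mem_right _ _ ?_) (Ideal.mul_mem_left _ _ ?_)
    · exact h a
    · exact h b
  have hu : zbarToValuationSubring A (σ • b) * zbarToValuationSubring A b ∉
      IsLocalRing.maximalIdeal A := by
    intro hmem
    rcases (IsLocalRing.maximalIdeal.isMaximal A).isPrime.mem_or_mem hmem with h1 | h1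
    · exact hσb h1
    · exact hb h1
  have hfin : X' - X ∈ IsLocalRing.maximalIdeal A :=
    ((IsLocalRing.maximalIdeal.isMaximal A).isPrime.mem_or_mem hm).resolve_right hu
  have := (ValuationSubring.coe_mem_nonunits_iff (A := A)).mpr hfin
  simpa [hX, hX'] using this

section Lift

universe u

variable {G : Type u} [Group G] [TopologicalSpace G] [CompactSpace G] [TotallyDisconnectedSpace G]
  [IsTopologicalGroup G]
  {B : Type*} [CommRing B] [MulSemiringAction G B] [TopologicalSpace B] [DiscreteTopology B]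
  [ContinuousSMul G B]

/-- **Lifting inertia.** Let a profinite group `G` act continuously on a discrete ring `B`, let
`N` be a closed normal subgroup and `Q` a prime of `B`.  If `σ₀` acts trivially on `B^N` modulo
`Q`, then some element of the coset `N σ₀` stabilises `Q` and acts trivially on `B ⧸ Q`. -/
theorem exists_mul_mem_inertia (N : Subgroup G) [hNn : N.Normal] (hN : IsClosed (N : Set G))
    (Q : Ideal B) [Q.IsPrime] (σ0 : G)
    (h0 : ∀ b : B, (∀ n ∈ N, n • b = b) → σ0 • b - b ∈ Q) :
    ∃ n ∈ N, (n * σ0) • Q = Q ∧ ∀ b : B, (n * σ0) • b - b ∈ Q := by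
  classical
  -- the ring of `N`-invariants
  let A' : Subring B := FixedPoints.subring B N
  have hA'mem : ∀ b : B, b ∈ A' ↔ ∀ n ∈ N, n • b = b := by
    intro b
    constructor
    · intro hb n hn
      exact hb ⟨n, hn⟩
    · intro hb n
      exact hb n.1 n.2
  have : SMulCommClass N A' B := ⟨fun n a b => by
    show n • (a.1 * b) = a.1 * n • b
    rw [smul_mul', a.2 n]⟩
  have : Algebra.IsInvariant A' B N := ⟨fun b hb => ⟨⟨b, hb⟩, rfl⟩⟩
  have : CompactSpace N := isCompact_iff_compactSpace.mp hN.isCompact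
  -- conjugation invariance of fixed points
  have hfix : ∀ (g : G) (b : B), (∀ n ∈ N, n • b = b) → ∀ n ∈ N, n • g • b = g • b := by
    intro g b hb n hn
    have h1 : g⁻¹ * n * g ∈ N := by
      have := hNn.conj_mem n hn g⁻¹
      simpa using this
    have h2 := hb _ h1
    calc n • g • b = g • (g⁻¹ * n * g) • b := by simp [mul_smul]
      _ = g • b := by rw [h2]
  -- Step 1: `σ₀ • Q` and `Q` have the same contraction to the invariants
  have hunder : (σ0 • Q).under A' = Q.under A' := by
    ext ⟨b, hb⟩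
    rw [Ideal.mem_comap, Ideal.mem_comap]
    show b ∈ σ0 • Q ↔ b ∈ Q
    rw [Ideal.mem_pointwise_smul_iff_inv_smul_mem]
    have hb' : ∀ n ∈ N, n • σ0⁻¹ • b = σ0⁻¹ • b := hfix σ0⁻¹ b ((hA'mem b).mp hb)
    have h1 := h0 (σ0⁻¹ • b) hb'
    rw [smul_inv_smul] at h1
    constructor
    · intro h2
      have := Q.add_mem h1 h2
      simpa using this
    · intro h2
      have := Q.sub_mem h2 h1
      simpa using this
  -- Step 2: transitivity of `N` on the primes over a prime of the invariants
  obtain ⟨g, hg⟩ := Algebra.IsInvariant.exists_smul_of_under_eq_of_profinite (A := A') (G := N)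
    (σ0 • Q) Q hunder
  set σ1 : G := g.1 * σ0 with hσ1
  have hσ1Q : σ1 • Q = Q := by
    rw [hσ1, mul_smul]
    exact hg.symm
  have h1 : ∀ b : B, (∀ n ∈ N, n • b = b) → σ1 • b - b ∈ Q := by
    intro b hb
    have : σ1 • b = σ0 • b := by
      rw [hσ1, mul_smul]
      exact hfix σ0 b hb g.1 g.2
    rw [this]
    exact h0 b hb
  -- Step 3: the automorphism of `B ⧸ Q` induced by `σ₁` is linear over the invariants
  let e : (B ⧸ Q) ≃+* (B ⧸ Q) :=
    Ideal.quotientEquiv Q Q (MulSemiringAction.toRingEquiv G B σ1) hσ1Q.symm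
  have he : ∀ b : B, e (Ideal.Quotient.mk Q b) = Ideal.Quotient.mk Q (σ1 • b) := fun b => rfl
  let φ : (B ⧸ Q) ≃ₐ[A' ⧸ Q.under A'] (B ⧸ Q) := AlgEquiv.ofRingEquiv (f := e) (by
    intro x
    obtain ⟨a, rfl⟩ := Ideal.Quotient.mk_surjective x
    rw [Ideal.Quotient.algebraMap_mk_of_liesOver]
    show e (Ideal.Quotient.mk Q a.1) = Ideal.Quotient.mk Q a.1
    rw [he, Ideal.Quotient.eq]
    exact h1 a.1 ((hA'mem a.1).mp a.2))
  obtain ⟨⟨h2, hh2⟩, hφ⟩ :=
    Ideal.Quotient.stabilizerHom_surjective_of_profinite (G := N) (Q.under A') Q φ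
  have hh2Q : h2.1 • Q = Q := hh2
  have h3 : ∀ b : B, h2.1 • b - σ1 • b ∈ Q := by
    intro b
    have h4 : Ideal.Quotient.mk Q (h2 • b) = Ideal.Quotient.mk Q (σ1 • b) :=
      congrArg (fun f => f (Ideal.Quotient.mk Q b)) hφ
    exact Ideal.Quotient.eq.mp h4
  -- Step 4: conclusion
  refine ⟨h2.1⁻¹ * g.1, N.mul_mem (N.inv_mem h2.2) g.2, ?_, ?_⟩
  · rw [mul_assoc, ← hσ1, mul_smul, hσ1Q, inv_smul_eq_iff, hh2Q]
  · intro b
    rw [mul_assoc, ← hσ1]
    have h5 : h2.1 • ((h2.1⁻¹ * σ1) • b - b) ∈ h2.1 • Q := by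
      rw [hh2Q, smul_sub, mul_smul, smul_inv_smul]
      have := Q.neg_mem (h3 b)
      simpa using this
    exact Ideal.smul_mem_pointwise_smul_iff.mp h5

end Lift

section Conj

variable {K L : Type*} [Field K] [Field L] [Algebra K L]

/-- Automorphisms transport maximal ideals of valuation subrings. -/
theorem apply_mem_nonunits_smul (g : L ≃ₐ[K] L) (A : ValuationSubring L) {z : L}
    (hz : z ∈ A.nonunits) : g z ∈ (g • A).nonunits := by
  rw [ValuationSubring.mem_nonunits_iff_or] at hz ⊢
  rcases hz with hz | hz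
  · left
    rw [hz, map_zero]
  · right
    intro h
    apply hz
    rw [ValuationSubring.mem_pointwise_smul_iff_inv_smul_mem] at h
    have h2 : g⁻¹ • (g z)⁻¹ = z⁻¹ := by
      show g⁻¹ ((g z)⁻¹) = z⁻¹
      rw [← map_inv₀ g z]
      exact g.symm_apply_apply _
    rwa [h2] at h

/-- Conjugates of inertia subgroups are inertia subgroups. -/
theorem conj_mem_inertiaSubgroupIn (A : ValuationSubring L) (g σ : L ≃ₐ[K] L)
    (hσ : σ ∈ A.inertiaSubgroupIn K) : g * σ * g⁻¹ ∈ (g • A).inertiaSubgroupIn K := by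
  rw [mem_inertiaSubgroupIn_iff_sub_mem] at hσ ⊢
  obtain ⟨hD, hI⟩ := hσ
  refine ⟨?_, fun x hx => ?_⟩
  · have hD' : σ • A = A := hD
    show (g * σ * g⁻¹) • g • A = g • A
    rw [mul_smul, inv_smul_smul, mul_smul, hD']
  · rw [ValuationSubring.mem_pointwise_smul_iff_inv_smul_mem] at hx
    have h1 := apply_mem_nonunits_smul g A (hI _ hx)
    have h2 : g (σ (g⁻¹ • x) - g⁻¹ • x) = (g * σ * g⁻¹) x - x := by
      rw [map_sub]
      show g (σ (g⁻¹ x)) - g (g⁻¹ x) = g (σ (g⁻¹ x)) - x
      congr 1
      exact g.apply_symm_apply x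
    rwa [h2] at h1

end Conj

/-- Translates of valuation subrings over `q` lie over `q`. -/
theorem liesOverPrime_smul (g : GQ) (A : ValuationSubring Qb) {q : ℕ} (hA : A.LiesOverPrime q) :
    (g • A).LiesOverPrime q := by
  have h1 := apply_mem_nonunits_smul g A hA
  have h2 : g (q : Qb) = (q : Qb) := map_natCast g q
  rw [h2] at h1
  exact h1

section FiniteLevel

open NumberField

/-- In a nontrivial finite Galois extension of `ℚ` there is a prime `p` such that every prime
above `p` has a nontrivial inertia group. -/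
theorem exists_inertia_ne_one (L : Type*) [Field L] [NumberField L] [IsGalois ℚ L]
    (hL : 1 < Module.finrank ℚ L) :
    ∃ p : ℕ, p.Prime ∧ ∀ (P : Ideal (𝓞 L)), P.IsPrime → (p : 𝓞 L) ∈ P →
      ∃ τ : L ≃ₐ[ℚ] L, τ ≠ 1 ∧ ∀ x : 𝓞 L, τ • x - x ∈ P := by
  obtain ⟨p, hp, h⟩ := NumberField.exists_not_isUnramifiedAt_int_of_isGalois (K := L) (𝒪 := 𝓞 L) hL
  refine ⟨p, hp, fun P hP hpP => ?_⟩
  have hnot := h P hP hpP
  rw [← Ideal.ramificationIdx_eq_one_iff] at hnot
  have hcard := Ideal.card_inertia_eq_ramificationIdxIn (G := L ≃ₐ[ℚ] L) (P.under ℤ) P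
  rw [Ideal.ramificationIdxIn_eq_ramificationIdx (P.under ℤ) P (L ≃ₐ[ℚ] L)] at hcard
  have hne : P.inertia (L ≃ₐ[ℚ] L) ≠ ⊥ := by
    intro hbot
    apply hnot
    rw [← hcard, hbot]
    simp
  obtain ⟨⟨τ, hτ⟩, hτ1⟩ := (Subgroup.ne_bot_iff_exists_ne_one).mp hne
  refine ⟨τ, fun h1 => hτ1 (Subtype.ext h1), fun x => ?_⟩
  exact hτ x

end FiniteLevel

section Minkowski

open NumberField

attribute [local instance] isAlgebraic_Qbar isAlgClosure_Qbar isGalois_Qbar isIntegral_Qbar

/-- Inertia subgroups are contained in the normal core of any subgroup containing all inertia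
subgroups. -/
theorem inertiaSubgroupIn_le_normalCore (H : Subgroup GQ)
    (h : ∀ q : ℕ, q.Prime → ∀ A : ValuationSubring Qb, A.LiesOverPrime q →
      A.inertiaSubgroupIn ℚ ≤ H) {q : ℕ} (hq : q.Prime) (A : ValuationSubring Qb)
    (hA : A.LiesOverPrime q) : A.inertiaSubgroupIn ℚ ≤ H.normalCore := by
  intro σ hσ g
  exact h q hq (g • A) (liesOverPrime_smul g A hA) (conj_mem_inertiaSubgroupIn A g σ hσ)

/-- **Minkowski, normal case.** An open normal subgroup of `Gal(ℚ̄/ℚ)` containing all inertia
subgroups is everything. -/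
theorem minkowski_inertia_of_normal (N : Subgroup GQ) [hNn : N.Normal]
    (hN : IsOpen (N : Set GQ))
    (h : ∀ q : ℕ, q.Prime → ∀ A : ValuationSubring Qb, A.LiesOverPrime q →
      A.inertiaSubgroupIn ℚ ≤ N) : N = ⊤ := by
  classical
  by_contra hNtop
  have hNclosed : IsClosed (N : Set GQ) := Subgroup.isClosed_of_isOpen N hN
  -- the fixed field
  set L : IntermediateField ℚ Qb := IntermediateField.fixedField N with hLdef
  have hfix : L.fixingSubgroup = N :=
    InfiniteGalois.fixingSubgroup_fixedField (⟨N, hNclosed⟩ : ClosedSubgroup GQ)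
  have hfin : FiniteDimensional ℚ L := by
    rw [← InfiniteGalois.isOpen_iff_finite, hfix]
    exact hN
  have hgal : IsGalois ℚ L := by
    have h1 : L.fixingSubgroup.Normal := by rw [hfix]; exact hNn
    convert (InfiniteGalois.normal_iff_isGalois L).mp h1
    exact Subsingleton.elim _ _
  have hnf : NumberField L := { to_charZero := inferInstance, to_finiteDimensional := hfin }
  have hL : 1 < Module.finrank ℚ L := by
    by_contra hle
    have hpos : 0 < Module.finrank ℚ L := Module.finrank_pos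
    have h1 : Module.finrank ℚ L = 1 := by omega
    have h2 : L = ⊥ := IntermediateField.finrank_eq_one_iff.mp h1
    apply hNtop
    rw [← hfix, h2, IntermediateField.fixingSubgroup_bot]
  obtain ⟨p, hp, hP⟩ := exists_inertia_ne_one L hL
  obtain ⟨A, hA⟩ := exists_liesOverPrime hp
  -- the inclusion of the integers of `L` into the algebraic integers
  let ι : 𝓞 L →+* Zb :=
    { toFun := fun x => ⟨algebraMap L Qb (x : L), (RingOfIntegers.isIntegral_coe x).algebraMap⟩
      map_one' := by apply Subtype.ext; simp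
      map_mul' := fun x y => by apply Subtype.ext; simp
      map_zero' := by apply Subtype.ext; simp
      map_add' := fun x y => by apply Subtype.ext; simp }
  have hι : ∀ x : 𝓞 L, ((ι x : Zb) : Qb) = ((x : L) : Qb) := fun x => rfl
  set 𝔓 : Ideal Zb := primeOfValuationSubring A with h𝔓
  have hpP : (p : 𝓞 L) ∈ 𝔓.comap ι := by
    rw [Ideal.mem_comap, map_natCast]
    exact natCast_mem_primeOfValuationSubring A hA
  obtain ⟨τ, hτ1, hτ⟩ := hP (𝔓.comap ι) (Ideal.comap_isPrime _ _) hpP
  -- lift `τ` to the absolute Galois group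
  obtain ⟨σ0, hσ0⟩ := AlgEquiv.restrictNormalHom_surjective (F := ℚ) (K₁ := L) Qb τ
  have hσ0L : ∀ y : L, σ0 (y : Qb) = ((τ y : L) : Qb) := by
    intro y
    rw [← hσ0]
    exact (AlgEquiv.restrictNormal_commutes σ0 L y).symm
  -- `σ0` acts trivially modulo `𝔓` on the `N`-invariant algebraic integers
  have h0 : ∀ b : Zb, (∀ n ∈ N, n • b = b) → σ0 • b - b ∈ 𝔓 := by
    intro b hb
    have hbL : (b : Qb) ∈ L := by
      rw [hLdef, IntermediateField.mem_fixedField_iff]
      intro n hn
      exact congrArg Subtype.val (hb n hn)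
    have hint : IsIntegral ℤ (⟨(b : Qb), hbL⟩ : L) := by
      have h1 : IsIntegral ℤ (algebraMap L Qb ⟨(b : Qb), hbL⟩) := b.2
      exact (isIntegral_algebraMap_iff (algebraMap L Qb).injective).mp h1
    let x : 𝓞 L := ⟨⟨(b : Qb), hbL⟩, hint⟩
    have h2 := hτ x
    rw [Ideal.mem_comap, map_sub] at h2
    have e1 : ι x = b := Subtype.ext rfl
    have e2 : ι (τ • x) = σ0 • b := by
      apply Subtype.ext
      show ((τ (⟨(b : Qb), hbL⟩ : L) : L) : Qb) = σ0 (b : Qb)
      exact (hσ0L ⟨(b : Qb), hbL⟩).symm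
    rwa [e1, e2] at h2
  -- lift into the inertia group of `𝔓`
  let _ : TopologicalSpace Zb := ⊥
  have : DiscreteTopology Zb := ⟨rfl⟩
  have : ContinuousSMul GQ Zb := by
    rw [continuousSMul_iff_stabilizer_isOpen]
    intro z
    have : (MulAction.stabilizer GQ z : Set GQ) = MulAction.stabilizer GQ (z : Qb) := by
      ext g
      simp [Subtype.ext_iff]
    rw [this]
    exact stabilizer_isOpen_of_isIntegral _
  obtain ⟨n, hn, hnQ, hnI⟩ := exists_mul_mem_inertia N hNclosed 𝔓 σ0 h0
  have hmem : n * σ0 ∈ A.inertiaSubgroupIn ℚ :=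
    mem_inertiaSubgroupIn_of_zbar hp A hA (n * σ0) hnQ hnI
  have hσ0N : σ0 ∈ N := by
    have h3 := h p hp A hA hmem
    have h4 := N.mul_mem (N.inv_mem hn) h3
    simpa using h4
  -- hence `τ = 1`, a contradiction
  apply hτ1
  ext y
  have h5 : σ0 ∈ L.fixingSubgroup := by rw [hfix]; exact hσ0N
  rw [IntermediateField.mem_fixingSubgroup_iff] at h5
  have h6 := hσ0L y
  rw [h5 (y : Qb) y.2] at h6
  exact h6.symm

/-- **Minkowski's theorem, inertia form.** An open subgroup of `Gal(ℚ̄/ℚ)` containing the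
inertia subgroups of all valuation subrings of `ℚ̄` lying over primes is the whole group. -/
theorem minkowski_inertia (H : Subgroup GQ) (hH : IsOpen (H : Set GQ))
    (h : ∀ q : ℕ, q.Prime → ∀ A : ValuationSubring Qb, A.LiesOverPrime q →
      A.inertiaSubgroupIn ℚ ≤ H) : H = ⊤ := by
  have : Finite (GQ ⧸ H) := Subgroup.quotient_finite_of_isOpen H hH
  have : H.FiniteIndex := Subgroup.finiteIndex_of_finite_quotient
  have hcore : IsOpen (H.normalCore : Set GQ) :=
    Subgroup.isOpen_of_isClosed_of_finiteIndex _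
      (H.normalCore_isClosed (Subgroup.isClosed_of_isOpen H hH))
  have h1 : H.normalCore = ⊤ := minkowski_inertia_of_normal H.normalCore hcore
    (fun q hq A hA => inertiaSubgroupIn_le_normalCore H h hq A hA)
  exact top_unique (h1 ▸ H.normalCore_le)

end Minkowski

end Fermat.Agent.Lib.helper2053
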