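import Mathlib

set_option autoImplicit false
set_option linter.unusedSectionVars false

namespace Fermat.Agent.Lib.helper2111

open NumberField Polynomial

section LocalAnalysis

variable {p : ℕ} [hpri : Fact p.Prime] {K : Type*} [Field K] [NumberField K]
  [IsCyclotomicExtension {p} ℚ K] {ζ : K} (hζ : IsPrimitiveRoot ζ p)

/-- The difference of two distinct `p`-th roots of unity is associated to `ζ - 1`. -/
lemma assoc_sub_of_ne {η₁ η₂ : 𝓞 K} (h₁ : η₁ ∈ nthRootsFinset p (1 : 𝓞 K))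
    (h₂ : η₂ ∈ nthRootsFinset p (1 : 𝓞 K)) (hne : η₁ ≠ η₂) :
    Associated (hζ.toInteger - 1) (η₁ - η₂) :=
  hζ.toInteger_isPrimitiveRoot.nthRootsFinset_pairwise_associated_sub_one_sub_of_prime hpri.out
    (Finset.mem_coe.mpr h₁) (Finset.mem_coe.mpr h₂) hne

/-- If `ζ - 1` divides `x ^ p + y ^ p`, it divides every factor `x + η * y`. -/
lemma dvd_add_root_mul (hodd : p ≠ 2) {x y : 𝓞 K} (h : hζ.toInteger - 1 ∣ x ^ p + y ^ p)
    {η : 𝓞 K} (hη : η ∈ nthRootsFinset p (1 : 𝓞 K)) : hζ.toInteger - 1 ∣ x + η * y := by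
  have hprime := hζ.zeta_sub_one_prime'
  rw [hζ.toInteger_isPrimitiveRoot.pow_add_pow_eq_prod_add_mul x y
    (hpri.out.odd_of_ne_two hodd)] at h
  obtain ⟨η₀, hη₀, hdvd⟩ := (Prime.dvd_finsetProd_iff hprime _).mp h
  by_cases heq : η = η₀
  · rwa [heq]
  · have hassoc := assoc_sub_of_ne hζ hη hη₀ heq
    have : x + η * y = (x + η₀ * y) + (η - η₀) * y := by ring
    rw [this]
    exact dvd_add hdvd (Dvd.dvd.mul_right hassoc.dvd y)

/-- Pigeonhole: some factor is divisible by `(ζ - 1) ^ 2`. -/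
lemma exists_sq_dvd (hodd : p ≠ 2) {x y : 𝓞 K} (hy : ¬ hζ.toInteger - 1 ∣ y)
    (h : ∀ η ∈ nthRootsFinset p (1 : 𝓞 K), hζ.toInteger - 1 ∣ x + η * y) :
    ∃ η₀ ∈ nthRootsFinset p (1 : 𝓞 K), (hζ.toInteger - 1) ^ 2 ∣ x + η₀ * y := by
  classical
  have hprime : Prime (hζ.toInteger - 1) := hζ.zeta_sub_one_prime'
  choose! c hc using h
  let f : nthRootsFinset p (1 : 𝓞 K) → 𝓞 K ⧸ Ideal.span {hζ.toInteger - 1} :=
    fun η => Ideal.Quotient.mk _ (c η)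
  have hinj : Function.Injective f := by
    intro η₁ η₂ h12
    by_contra hne
    have hne' : (η₁ : 𝓞 K) ≠ η₂ := fun h => hne (Subtype.ext h)
    obtain ⟨u, hu⟩ := assoc_sub_of_ne hζ η₁.2 η₂.2 hne'
    have h1 := hc η₁ η₁.2
    have h2 := hc η₂ η₂.2
    have hsub : (hζ.toInteger - 1) * (c η₁ - c η₂) = (hζ.toInteger - 1) * (u * y) := by
      calc (hζ.toInteger - 1) * (c η₁ - c η₂) = (x + η₁ * y) - (x + η₂ * y) := by
            rw [h1, h2]; ring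
        _ = (η₁ - η₂) * y := by ring
        _ = (hζ.toInteger - 1) * (u * y) := by rw [← hu]; ring
    have hcan : c η₁ - c η₂ = u * y := mul_left_cancel₀ hprime.ne_zero hsub
    have hmem : c η₁ - c η₂ ∈ Ideal.span {hζ.toInteger - 1} := by
      rw [← Ideal.Quotient.eq]; exact h12
    rw [hcan, Ideal.mem_span_singleton] at hmem
    exact hy ((Units.dvd_mul_left).mp hmem)
  have hcard : Nat.card (𝓞 K ⧸ Ideal.span {hζ.toInteger - 1}) = p := by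
    rw [hζ.card_quotient_toInteger_sub_one, hζ.norm_toInteger_sub_one_of_prime_ne_two' hodd]
    simp
  have hfin : Finite (𝓞 K ⧸ Ideal.span {hζ.toInteger - 1}) :=
    Nat.finite_of_card_ne_zero (by rw [hcard]; exact hpri.out.ne_zero)
  have hbij := hinj.bijective_of_nat_card_le (by
    rw [hcard, Nat.card_eq_fintype_card, Fintype.card_coe,
      hζ.toInteger_isPrimitiveRoot.card_nthRootsFinset])
  obtain ⟨η₀, hη₀⟩ := hbij.2 0
  refine ⟨η₀, η₀.2, ?_⟩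
  have hmem : c η₀ ∈ Ideal.span {hζ.toInteger - 1} := by
    rwa [← Ideal.Quotient.eq_zero_iff_mem]
  rw [Ideal.mem_span_singleton] at hmem
  rw [hc η₀ η₀.2, pow_two]
  exact mul_dvd_mul_left _ hmem

/-- At most one factor is divisible by `(ζ - 1) ^ 2`. -/
lemma not_sq_dvd_of_ne {x y : 𝓞 K} (hy : ¬ hζ.toInteger - 1 ∣ y) {η₀ η : 𝓞 K}
    (hη₀ : η₀ ∈ nthRootsFinset p (1 : 𝓞 K)) (hη : η ∈ nthRootsFinset p (1 : 𝓞 K))
    (hne : η ≠ η₀) (h₀ : (hζ.toInteger - 1) ^ 2 ∣ x + η₀ * y) :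
    ¬ (hζ.toInteger - 1) ^ 2 ∣ x + η * y := by
  intro h
  have hprime : Prime (hζ.toInteger - 1) := hζ.zeta_sub_one_prime'
  obtain ⟨u, hu⟩ := assoc_sub_of_ne hζ hη hη₀ hne
  have h1 : (hζ.toInteger - 1) ^ 2 ∣ (x + η * y) - (x + η₀ * y) := dvd_sub h h₀
  have h2 : (x + η * y) - (x + η₀ * y) = (hζ.toInteger - 1) * (u * y) := by
    rw [← mul_assoc, hu]; ring
  rw [h2, pow_two] at h1
  have h3 := (mul_dvd_mul_iff_left hprime.ne_zero).mp h1
  exact hy ((Units.dvd_mul_left).mp h3)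

/-- `ζ - 1` does not divide `y` for a solution of the generalized equation. -/
lemma not_dvd_right_of_solution {x y z : 𝓞 K} {ε : (𝓞 K)ˣ} {m : ℕ} (hm : 1 ≤ m)
    (hxy : IsCoprime x y)
    (heq : x ^ p + y ^ p = ε * (hζ.toInteger - 1) ^ (p * m) * z ^ p) :
    ¬ hζ.toInteger - 1 ∣ y := by
  intro hy
  have hprime : Prime (hζ.toInteger - 1) := hζ.zeta_sub_one_prime'
  have hp0 : p ≠ 0 := hpri.out.ne_zero
  have h1 : hζ.toInteger - 1 ∣ x ^ p + y ^ p := by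
    rw [heq]
    exact Dvd.dvd.mul_right (Dvd.dvd.mul_left (dvd_pow_self _ (by positivity)) _) _
  have h2 : hζ.toInteger - 1 ∣ x ^ p := by
    have : x ^ p = (x ^ p + y ^ p) - y ^ p := by ring
    rw [this]
    exact dvd_sub h1 (dvd_pow hy hp0)
  have h3 : hζ.toInteger - 1 ∣ x := hprime.dvd_of_dvd_pow h2
  exact hprime.not_isUnit (hxy.isUnit_of_dvd' h3 hy)

/-- The `ζ - 1`-adic valuations of the factors of a solution of the generalized equation. -/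
lemma local_analysis (hodd : p ≠ 2) {x y z : 𝓞 K} {ε : (𝓞 K)ˣ} {m : ℕ} (hm : 1 ≤ m)
    (hxy : IsCoprime x y) (hz : ¬ hζ.toInteger - 1 ∣ z)
    (heq : x ^ p + y ^ p = ε * (hζ.toInteger - 1) ^ (p * m) * z ^ p) :
    2 ≤ m ∧ ∃ η₀ ∈ nthRootsFinset p (1 : 𝓞 K),
      emultiplicity (hζ.toInteger - 1) (x + η₀ * y) = (p * (m - 1) + 1 : ℕ) ∧
      ∀ η ∈ nthRootsFinset p (1 : 𝓞 K), η ≠ η₀ →
        emultiplicity (hζ.toInteger - 1) (x + η * y) = (1 : ℕ) := by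
  classical
  have hprime : Prime (hζ.toInteger - 1) := hζ.zeta_sub_one_prime'
  have hp0 : p ≠ 0 := hpri.out.ne_zero
  have hp1 : 1 ≤ p := hpri.out.one_le
  have hy := not_dvd_right_of_solution hζ hm hxy heq
  have h1 : hζ.toInteger - 1 ∣ x ^ p + y ^ p := by
    rw [heq]
    exact Dvd.dvd.mul_right (Dvd.dvd.mul_left (dvd_pow_self _ (by positivity)) _) _
  have hall : ∀ η ∈ nthRootsFinset p (1 : 𝓞 K), hζ.toInteger - 1 ∣ x + η * y :=
    fun η hη => dvd_add_root_mul hζ hodd h1 hη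
  obtain ⟨η₀, hη₀, hsq⟩ := exists_sq_dvd hζ hodd hy hall
  have hone : ∀ η ∈ nthRootsFinset p (1 : 𝓞 K), η ≠ η₀ →
      emultiplicity (hζ.toInteger - 1) (x + η * y) = (1 : ℕ) := by
    intro η hη hne
    apply emultiplicity_eq_of_dvd_of_not_dvd
    · simpa using hall η hη
    · simpa using not_sq_dvd_of_ne hζ hy hη₀ hη hne hsq
  -- total valuation
  have htot : emultiplicity (hζ.toInteger - 1) (x ^ p + y ^ p) = (p * m : ℕ) := by
    rw [heq, emultiplicity_mul hprime, emultiplicity_mul hprime,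
      emultiplicity_pow_self hprime.ne_zero hprime.not_isUnit, emultiplicity_pow hprime,
      emultiplicity_eq_zero.mpr hz, emultiplicity_eq_zero.mpr
        (fun h => hprime.not_isUnit (isUnit_of_dvd_unit h ε.isUnit))]
    simp
  have hsum : emultiplicity (hζ.toInteger - 1) (x ^ p + y ^ p) =
      emultiplicity (hζ.toInteger - 1) (x + η₀ * y) + ((p - 1 : ℕ) : ℕ∞) := by
    rw [hζ.toInteger_isPrimitiveRoot.pow_add_pow_eq_prod_add_mul x y
      (hpri.out.odd_of_ne_two hodd), Finset.emultiplicity_prod hprime,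
      ← Finset.add_sum_erase _ _ hη₀]
    congr 1
    rw [Finset.sum_congr rfl (fun η hη => hone η (Finset.mem_of_mem_erase hη)
      (Finset.ne_of_mem_erase hη))]
    simp [Finset.card_erase_of_mem hη₀, hζ.toInteger_isPrimitiveRoot.card_nthRootsFinset]
  rw [htot] at hsum
  -- the special valuation is finite
  have hne_top : emultiplicity (hζ.toInteger - 1) (x + η₀ * y) ≠ ⊤ := by
    intro htop
    rw [htop, top_add] at hsum
    exact ENat.natCast_ne_top _ hsum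
  obtain ⟨k, hk⟩ := ENat.ne_top_iff_exists.mp hne_top
  rw [← hk] at hsum
  have hsum' : p * m = k + (p - 1) := by exact_mod_cast hsum
  have hk2 : 2 ≤ k := by
    have : ((2 : ℕ) : ℕ∞) ≤ emultiplicity (hζ.toInteger - 1) (x + η₀ * y) :=
      le_emultiplicity_of_pow_dvd hsq
    rw [← hk] at this
    exact_mod_cast this
  have hm2 : 2 ≤ m := by
    by_contra hlt
    have hm1 : m = 1 := by omega
    subst hm1
    omega
  refine ⟨hm2, η₀, hη₀, ?_, hone⟩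
  rw [← hk]
  congr 1
  obtain ⟨m', rfl⟩ : ∃ m', m = m' + 1 := ⟨m - 1, by omega⟩
  simp only [Nat.add_sub_cancel]
  rw [Nat.mul_succ] at hsum'
  omega

end LocalAnalysis

section Global

variable {p : ℕ} [hpri : Fact p.Prime] {K : Type*} [Field K] [NumberField K]
  [IsCyclotomicExtension {p} ℚ K] {ζ : K} (hζ : IsPrimitiveRoot ζ p)

/-- A prime dividing two distinct factors is associated to `ζ - 1`. -/
lemma associated_of_prime_dvd_two_factors {x y : 𝓞 K} (hxy : IsCoprime x y) {η₁ η₂ : 𝓞 K}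
    (h₁ : η₁ ∈ nthRootsFinset p (1 : 𝓞 K)) (h₂ : η₂ ∈ nthRootsFinset p (1 : 𝓞 K))
    (hne : η₁ ≠ η₂) {q : 𝓞 K} (hq : Prime q) (hq1 : q ∣ x + η₁ * y) (hq2 : q ∣ x + η₂ * y) :
    Associated q (hζ.toInteger - 1) := by
  have hprime : Prime (hζ.toInteger - 1) := hζ.zeta_sub_one_prime'
  have hy : q ∣ (η₁ - η₂) * y := by
    have : (η₁ - η₂) * y = (x + η₁ * y) - (x + η₂ * y) := by ring
    rw [this]; exact dvd_sub hq1 hq2
  have hx : q ∣ (η₁ - η₂) * x := by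
    have : (η₁ - η₂) * x = η₁ * (x + η₂ * y) - η₂ * (x + η₁ * y) := by ring
    rw [this]; exact dvd_sub (Dvd.dvd.mul_left hq2 _) (Dvd.dvd.mul_left hq1 _)
  obtain ⟨a, b, hab⟩ := hxy
  have hd : q ∣ η₁ - η₂ := by
    have : η₁ - η₂ = a * ((η₁ - η₂) * x) + b * ((η₁ - η₂) * y) := by
      linear_combination (-(η₁ - η₂)) * hab
    rw [this]
    exact dvd_add (Dvd.dvd.mul_left hx _) (Dvd.dvd.mul_left hy _)
  have hlam : q ∣ hζ.toInteger - 1 := (assoc_sub_of_ne hζ h₁ h₂ hne).symm.dvd_iff_dvd_right.mp hd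
  exact hq.associated_of_dvd hprime hlam

/-- Every element of `𝓞 K` is congruent to a rational integer modulo `ζ - 1`. -/
lemma exists_int_sub_dvd (x : 𝓞 K) : ∃ n : ℤ, hζ.toInteger - 1 ∣ x - n := by
  have htop : Algebra.adjoin ℤ {hζ.toInteger} = ⊤ := by
    have := hζ.integralPowerBasis.adjoin_gen_eq_top
    rwa [hζ.integralPowerBasis_gen] at this
  have hx : x ∈ Algebra.adjoin ℤ {hζ.toInteger} := by rw [htop]; trivial
  induction hx using Algebra.adjoin_induction with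
  | mem x hx =>
    refine ⟨1, ?_⟩
    rw [Set.mem_singleton_iff.mp hx]
    simp
  | algebraMap r =>
    refine ⟨r, ?_⟩
    simp
  | add x y _ _ hx hy =>
    obtain ⟨n₁, h₁⟩ := hx
    obtain ⟨n₂, h₂⟩ := hy
    refine ⟨n₁ + n₂, ?_⟩
    have : x + y - ((n₁ + n₂ : ℤ) : 𝓞 K) = (x - n₁) + (y - n₂) := by push_cast; ring
    rw [this]
    exact dvd_add h₁ h₂
  | mul x y _ _ hx hy =>
    obtain ⟨n₁, h₁⟩ := hx
    obtain ⟨n₂, h₂⟩ := hy
    refine ⟨n₁ * n₂, ?_⟩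
    have : x * y - ((n₁ * n₂ : ℤ) : 𝓞 K) = (x - n₁) * y + n₁ * (y - n₂) := by push_cast; ring
    rw [this]
    exact dvd_add (Dvd.dvd.mul_right h₁ _) (Dvd.dvd.mul_left h₂ _)

/-- `p` divides `(ζ - 1) ^ k` as soon as `p - 1 ≤ k`. -/
lemma prime_dvd_lam_pow {k : ℕ} (hk : p - 1 ≤ k) : (p : 𝓞 K) ∣ (hζ.toInteger - 1) ^ k :=
  ((IsCyclotomicExtension.Rat.associated_zeta_sub_one_pow_prime p hζ).symm.dvd).trans
    (pow_dvd_pow _ hk)

include hζ in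
/-- Every `p`-th power in `𝓞 K` is congruent to a rational integer modulo `p`. -/
lemma exists_int_sub_pow_dvd (x : 𝓞 K) : ∃ n : ℤ, (p : 𝓞 K) ∣ x ^ p - n := by
  obtain ⟨n, t, ht⟩ := exists_int_sub_dvd hζ x
  have hx : x = n + (hζ.toInteger - 1) * t := by rw [← ht]; ring
  obtain ⟨r, hr⟩ := exists_add_pow_prime_eq hpri.out (n : 𝓞 K) ((hζ.toInteger - 1) * t)
  refine ⟨n ^ p, ?_⟩
  have h1 : x ^ p - ((n ^ p : ℤ) : 𝓞 K) =
      (hζ.toInteger - 1) ^ p * t ^ p + p * (n * ((hζ.toInteger - 1) * t) * r) := by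
    rw [hx, hr, mul_pow]; push_cast; ring
  rw [h1]
  exact dvd_add (Dvd.dvd.mul_right (prime_dvd_lam_pow hζ (Nat.sub_le p 1)) _)
    (Dvd.intro _ rfl)

/-- `ζ + 1` is a unit for odd `p`. -/
lemma isUnit_zeta_add_one (hodd : p ≠ 2) : IsUnit (hζ.toInteger + 1) := by
  have hprime : Prime (hζ.toInteger - 1) := hζ.zeta_sub_one_prime'
  have hcop : Nat.Coprime 2 p :=
    (Nat.coprime_primes Nat.prime_two hpri.out).mpr (Ne.symm hodd)
  obtain ⟨u, hu⟩ := hζ.toInteger_isPrimitiveRoot.associated_sub_one_pow_sub_one_of_coprime hcop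
  have : (hζ.toInteger - 1) * u = (hζ.toInteger - 1) * (hζ.toInteger + 1) := by rw [hu]; ring
  have h2 := mul_left_cancel₀ hprime.ne_zero this
  rw [← h2]
  exact u.isUnit

end Global

section Descent

/-- Pure algebra used in the descent step. -/
lemma descent_algebra {R : Type*} [CommRing R] [IsDomain R] {p : ℕ} {lam d₀ d₁ d₂ ζ' : R}
    {u₀ u₁ u₂ ζu w : Rˣ} {N : ℕ} (hlam : lam ≠ 0)
    (hζu : (ζu : R) = ζ') (hw : (w : R) = ζ' + 1)
    (key : lam * (d₁ ^ p * u₁) + ζ' * (lam * (d₂ ^ p * u₂)) =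
      (1 + ζ') * (lam ^ (N + 1) * (d₀ ^ p * u₀))) :
    d₁ ^ p + ((ζu * u₂ * u₁⁻¹ : Rˣ) : R) * d₂ ^ p =
      ((w * u₀ * u₁⁻¹ : Rˣ) : R) * lam ^ N * d₀ ^ p := by
  have hu : (u₁ : R) * ((u₁⁻¹ : Rˣ) : R) = 1 := by simp
  have h1 : (lam * u₁) * (d₁ ^ p + ((ζu * u₂ * u₁⁻¹ : Rˣ) : R) * d₂ ^ p) =
      (lam * u₁) * (((w * u₀ * u₁⁻¹ : Rˣ) : R) * lam ^ N * d₀ ^ p) := by
    push_cast
    rw [hζu, hw]
    linear_combination key +
      (lam * ζ' * u₂ * d₂ ^ p - (ζ' + 1) * u₀ * lam ^ (N + 1) * d₀ ^ p) * hu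
  exact mul_left_cancel₀ (mul_ne_zero hlam u₁.ne_zero) h1

variable {p : ℕ} [hpri : Fact p.Prime] {K : Type*} [Field K] [NumberField K]
  [IsCyclotomicExtension {p} ℚ K] {ζ : K} (hζ : IsPrimitiveRoot ζ p)
  [IsPrincipalIdealRing (𝓞 K)]

/-- Structure of the factors of a solution of the generalized equation. -/
lemma exists_factor_pow (hodd : p ≠ 2) {x y z : 𝓞 K} {ε : (𝓞 K)ˣ} {m : ℕ} (hm : 1 ≤ m)
    (hxy : IsCoprime x y) (hz : ¬ hζ.toInteger - 1 ∣ z)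
    (heq : x ^ p + y ^ p = ε * (hζ.toInteger - 1) ^ (p * m) * z ^ p) :
    2 ≤ m ∧ ∃ η₀ ∈ nthRootsFinset p (1 : 𝓞 K), ∃ (c : 𝓞 K → 𝓞 K),
      (x + η₀ * y = (hζ.toInteger - 1) ^ (p * (m - 1) + 1) * c η₀) ∧
      (∀ η ∈ nthRootsFinset p (1 : 𝓞 K), η ≠ η₀ → x + η * y = (hζ.toInteger - 1) * c η) ∧
      (∀ η ∈ nthRootsFinset p (1 : 𝓞 K), ¬ hζ.toInteger - 1 ∣ c η) ∧
      (∀ η₁ ∈ nthRootsFinset p (1 : 𝓞 K), ∀ η₂ ∈ nthRootsFinset p (1 : 𝓞 K), η₁ ≠ η₂ →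
        IsCoprime (c η₁) (c η₂)) ∧
      (∀ η ∈ nthRootsFinset p (1 : 𝓞 K), ∃ d : 𝓞 K, Associated (d ^ p) (c η)) := by
  classical
  have hprime : Prime (hζ.toInteger - 1) := hζ.zeta_sub_one_prime'
  obtain ⟨hm2, η₀, hη₀, hval₀, hval⟩ := local_analysis hζ hodd hm hxy hz heq
  refine ⟨hm2, η₀, hη₀, ?_⟩
  let k : 𝓞 K → ℕ := fun η => if η = η₀ then p * (m - 1) + 1 else 1
  have hk : ∀ η ∈ nthRootsFinset p (1 : 𝓞 K),
      emultiplicity (hζ.toInteger - 1) (x + η * y) = (k η : ℕ) := by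
    intro η hη
    by_cases h : η = η₀
    · simp only [k, if_pos h]; rw [h]; exact hval₀
    · simp only [k, if_neg h]; exact hval η hη h
  have hex : ∀ η ∈ nthRootsFinset p (1 : 𝓞 K), ∃ c,
      x + η * y = (hζ.toInteger - 1) ^ (k η) * c ∧ ¬ hζ.toInteger - 1 ∣ c := by
    intro η hη
    obtain ⟨⟨c, hc⟩, hnot⟩ := emultiplicity_eq_coe.mp (hk η hη)
    refine ⟨c, hc, fun ⟨d, hd⟩ => hnot ⟨d, ?_⟩⟩
    rw [hc, hd, pow_succ]; ring
  choose! c hc hc' using hex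
  have hcop : ∀ η₁ ∈ nthRootsFinset p (1 : 𝓞 K), ∀ η₂ ∈ nthRootsFinset p (1 : 𝓞 K), η₁ ≠ η₂ →
        IsCoprime (c η₁) (c η₂) := by
    intro η₁ h₁ η₂ h₂ hne
    refine isCoprime_of_prime_dvd ?_ ?_
    · rintro ⟨h0, -⟩; exact hc' η₁ h₁ (h0 ▸ dvd_zero _)
    · intro q hq hq1 hq2
      have hq1' : q ∣ x + η₁ * y := by rw [hc η₁ h₁]; exact Dvd.dvd.mul_left hq1 _
      have hq2' : q ∣ x + η₂ * y := by rw [hc η₂ h₂]; exact Dvd.dvd.mul_left hq2 _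
      have hassoc := associated_of_prime_dvd_two_factors hζ hxy h₁ h₂ hne hq hq1' hq2'
      exact hc' η₁ h₁ (hassoc.symm.dvd.trans hq1)
  refine ⟨c, ?_, ?_, hc', hcop, ?_⟩
  · have := hc η₀ hη₀; simpa [k] using this
  · intro η hη hne; have := hc η hη; simpa [k, hne] using this
  · have hprod : ∏ η ∈ nthRootsFinset p (1 : 𝓞 K), c η = ε * z ^ p := by
      have h1 : ∏ η ∈ nthRootsFinset p (1 : 𝓞 K), (x + η * y) =
          (hζ.toInteger - 1) ^ (∑ η ∈ nthRootsFinset p (1 : 𝓞 K), k η) *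
            ∏ η ∈ nthRootsFinset p (1 : 𝓞 K), c η := by
        rw [Finset.prod_congr rfl hc, Finset.prod_mul_distrib, Finset.prod_pow_eq_pow_sum]
      have h2 : ∑ η ∈ nthRootsFinset p (1 : 𝓞 K), k η = p * m := by
        rw [← Finset.add_sum_erase _ _ hη₀]
        have h3 : ∑ η ∈ (nthRootsFinset p (1 : 𝓞 K)).erase η₀, k η = p - 1 := by
          rw [Finset.sum_congr rfl (fun η hη => if_neg (Finset.ne_of_mem_erase hη))]
          simp [Finset.card_erase_of_mem hη₀, hζ.toInteger_isPrimitiveRoot.card_nthRootsFinset]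
        rw [h3]
        simp only [k, if_true]
        obtain ⟨m', rfl⟩ : ∃ m', m = m' + 1 := ⟨m - 1, by omega⟩
        have := hpri.out.one_le
        simp only [Nat.add_sub_cancel]
        rw [Nat.mul_succ]
        omega
      rw [← hζ.toInteger_isPrimitiveRoot.pow_add_pow_eq_prod_add_mul x y
        (hpri.out.odd_of_ne_two hodd), heq, h2] at h1
      have h3 : (hζ.toInteger - 1) ^ (p * m) * (∏ η ∈ nthRootsFinset p (1 : 𝓞 K), c η) =
          (hζ.toInteger - 1) ^ (p * m) * (ε * z ^ p) := by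
        rw [← h1]; ring
      exact mul_left_cancel₀ (pow_ne_zero _ hprime.ne_zero) h3
    intro η hη
    rw [← Finset.mul_prod_erase _ _ hη] at hprod
    refine exists_associated_pow_of_associated_pow_mul (c := z)
      (b := ∏ η' ∈ (nthRootsFinset p (1 : 𝓞 K)).erase η, c η') ?_ ?_
    · exact IsCoprime.prod_right (fun η' hη' => hcop η hη η' (Finset.mem_of_mem_erase hη')
        (Finset.ne_of_mem_erase hη').symm)
    · rw [hprod]; exact ⟨ε, by ring⟩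

/-- The descent step: a solution with parameter `m` forces `2 ≤ m` and yields a solution with
parameter `m - 1`. -/
lemma descent_step (hodd : p ≠ 2)
    (kummer : ∀ u : (𝓞 K)ˣ, ∀ n : ℤ, (p : 𝓞 K) ∣ (u : 𝓞 K) - n → ∃ v : (𝓞 K)ˣ, u = v ^ p)
    {x y z : 𝓞 K} {ε : (𝓞 K)ˣ} {m : ℕ} (hm : 1 ≤ m)
    (hxy : IsCoprime x y) (hz : ¬ hζ.toInteger - 1 ∣ z)
    (heq : x ^ p + y ^ p = ε * (hζ.toInteger - 1) ^ (p * m) * z ^ p) :
    2 ≤ m ∧ ∃ (x' y' z' : 𝓞 K) (ε' : (𝓞 K)ˣ), IsCoprime x' y' ∧ ¬ hζ.toInteger - 1 ∣ z' ∧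
      x' ^ p + y' ^ p = ε' * (hζ.toInteger - 1) ^ (p * (m - 1)) * z' ^ p := by
  classical
  have hprime : Prime (hζ.toInteger - 1) := hζ.zeta_sub_one_prime'
  have hp0 : p ≠ 0 := hpri.out.ne_zero
  obtain ⟨hm2, η₀, hη₀, c, hc₀, hc, hc', hcop, hpow⟩ := exists_factor_pow hζ hodd hm hxy hz heq
  refine ⟨hm2, ?_⟩
  have hζp : hζ.toInteger ^ p = 1 := hζ.toInteger_isPrimitiveRoot.pow_eq_one
  have hζunit : IsUnit hζ.toInteger := hζ.toInteger_isPrimitiveRoot.isUnit hp0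
  have hη₀p : η₀ ^ p = 1 := (mem_nthRootsFinset (Nat.pos_of_ne_zero hp0) 1).mp hη₀
  have hη₁ : η₀ * hζ.toInteger ∈ nthRootsFinset p (1 : 𝓞 K) := by
    rw [mem_nthRootsFinset (Nat.pos_of_ne_zero hp0)]; simp [mul_pow, hη₀p, hζp]
  have hη₂ : η₀ * hζ.toInteger ^ (p - 1) ∈ nthRootsFinset p (1 : 𝓞 K) := by
    rw [mem_nthRootsFinset (Nat.pos_of_ne_zero hp0)]
    simp only [mul_pow, hη₀p, one_mul]
    rw [← pow_mul, mul_comm, pow_mul, hζp, one_pow]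
  have hη₀ne : η₀ ≠ 0 := by
    intro h; rw [h, zero_pow hp0] at hη₀p; exact zero_ne_one hη₀p
  have hζ1 : hζ.toInteger ≠ 1 := hζ.toInteger_isPrimitiveRoot.ne_one hpri.out.one_lt
  have hζζ : hζ.toInteger * hζ.toInteger ^ (p - 1) = 1 := by
    rw [← pow_succ', Nat.sub_add_cancel hpri.out.one_le, hζp]
  have hne1 : η₀ * hζ.toInteger ≠ η₀ := by
    intro h
    have : η₀ * hζ.toInteger = η₀ * 1 := by rw [mul_one]; exact h
    exact hζ1 (mul_left_cancel₀ hη₀ne this)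
  have hne2 : η₀ * hζ.toInteger ^ (p - 1) ≠ η₀ := by
    intro h
    have : η₀ * hζ.toInteger ^ (p - 1) = η₀ * 1 := by rw [mul_one]; exact h
    have h1 : hζ.toInteger ^ (p - 1) = 1 := mul_left_cancel₀ hη₀ne this
    rw [h1, mul_one] at hζζ
    exact hζ1 hζζ
  have hne12 : η₀ * hζ.toInteger ≠ η₀ * hζ.toInteger ^ (p - 1) := by
    intro h
    have h1 : hζ.toInteger = hζ.toInteger ^ (p - 1) := mul_left_cancel₀ hη₀ne h
    have h2 : hζ.toInteger ^ 2 = 1 := by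
      rw [pow_two]; nth_rewrite 2 [h1]; exact hζζ
    have h3 : p ∣ 2 := (hζ.toInteger_isPrimitiveRoot.pow_eq_one_iff_dvd 2).mp h2
    have h4 : p ≤ 2 := Nat.le_of_dvd (by norm_num) h3
    have h5 := hpri.out.two_le
    omega
  obtain ⟨d₀, u₀, hd₀⟩ := hpow η₀ hη₀
  obtain ⟨d₁, u₁, hd₁⟩ := hpow _ hη₁
  obtain ⟨d₂, u₂, hd₂⟩ := hpow _ hη₂
  have key : (x + η₀ * hζ.toInteger * y) + hζ.toInteger * (x + η₀ * hζ.toInteger ^ (p - 1) * y) =
      (1 + hζ.toInteger) * (x + η₀ * y) := by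
    linear_combination (η₀ * y) * hζζ
  rw [hc _ hη₁ hne1, hc _ hη₂ hne2, hc₀, ← hd₀, ← hd₁, ← hd₂] at key
  obtain ⟨w, hw⟩ := isUnit_zeta_add_one hζ hodd
  obtain ⟨ζu, hζu⟩ := hζunit
  have key2 := descent_algebra (p := p) hprime.ne_zero hζu hw key
  have hd₂lam : ¬ hζ.toInteger - 1 ∣ d₂ := fun h => hc' _ hη₂ (by
    rw [← hd₂]; exact Dvd.dvd.mul_right (dvd_pow h hp0) _)
  have hd₀lam : ¬ hζ.toInteger - 1 ∣ d₀ := fun h => hc' η₀ hη₀ (by
    rw [← hd₀]; exact Dvd.dvd.mul_right (dvd_pow h hp0) _)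
  obtain ⟨n₁, hn₁⟩ := exists_int_sub_pow_dvd hζ d₁
  obtain ⟨n₂, hn₂⟩ := exists_int_sub_pow_dvd hζ d₂
  have hpn₂ : ¬ (p : ℤ) ∣ n₂ := by
    intro h
    have h1 : hζ.toInteger - 1 ∣ (n₂ : 𝓞 K) :=
      (IsCyclotomicExtension.Rat.zeta_sub_one_dvd_intCast_iff' p hζ).mpr h
    have h2 : hζ.toInteger - 1 ∣ d₂ ^ p - n₂ := (hζ.toInteger_sub_one_dvd_prime').trans hn₂
    have h3 : hζ.toInteger - 1 ∣ d₂ ^ p := by
      have := dvd_add h2 h1
      simpa using this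
    exact hd₂lam (hprime.dvd_of_dvd_pow h3)
  have hcop_int : IsCoprime n₂ (p : ℤ) :=
    ((Nat.prime_iff_prime_int.mp hpri.out).coprime_iff_not_dvd.mpr hpn₂).symm
  obtain ⟨s, t, hst⟩ := hcop_int
  have hplam : (p : 𝓞 K) ∣ (hζ.toInteger - 1) ^ (p * (m - 1)) := prime_dvd_lam_pow hζ (by
    calc p - 1 ≤ p := Nat.sub_le p 1
      _ = p * 1 := (mul_one p).symm
      _ ≤ p * (m - 1) := Nat.mul_le_mul_left p (by omega))
  have hkum : (p : 𝓞 K) ∣ ((ζu * u₂ * u₁⁻¹ : (𝓞 K)ˣ) : 𝓞 K) - ((-(s * n₁) : ℤ) : 𝓞 K) := by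
    have h1 : (p : 𝓞 K) ∣ d₁ ^ p + ((ζu * u₂ * u₁⁻¹ : (𝓞 K)ˣ) : 𝓞 K) * d₂ ^ p := by
      rw [key2]; exact Dvd.dvd.mul_right (Dvd.dvd.mul_left hplam _) _
    obtain ⟨q₁, hq₁⟩ := hn₁
    obtain ⟨q₂, hq₂⟩ := hn₂
    obtain ⟨q₃, hq₃⟩ := h1
    have hst' : (s : 𝓞 K) * n₂ + t * p = 1 := by
      exact_mod_cast congrArg (Int.cast : ℤ → 𝓞 K) hst
    refine ⟨s * (q₃ - ((ζu * u₂ * u₁⁻¹ : (𝓞 K)ˣ) : 𝓞 K) * q₂ - q₁) +
      ((ζu * u₂ * u₁⁻¹ : (𝓞 K)ˣ) : 𝓞 K) * t, ?_⟩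
    generalize ((ζu * u₂ * u₁⁻¹ : (𝓞 K)ˣ) : 𝓞 K) = E at hq₃ ⊢
    push_cast
    linear_combination (s : 𝓞 K) * hq₃ - ((s : 𝓞 K) * E) * hq₂ - (s : 𝓞 K) * hq₁ - E * hst'
  obtain ⟨v, hv⟩ := kummer _ _ hkum
  refine ⟨d₁, v * d₂, d₀, w * u₀ * u₁⁻¹, ?_, hd₀lam, ?_⟩
  · have h12 : IsCoprime (c (η₀ * hζ.toInteger)) (c (η₀ * hζ.toInteger ^ (p - 1))) :=
      hcop _ hη₁ _ hη₂ hne12
    rw [← hd₁, ← hd₂] at h12
    have h12' : IsCoprime d₁ d₂ := by
      have := IsCoprime.of_mul_left_left (IsCoprime.of_mul_right_left h12)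
      exact (IsCoprime.pow_iff (Nat.pos_of_ne_zero hp0) (Nat.pos_of_ne_zero hp0)).mp this
    exact (isCoprime_mul_unit_left_right v.isUnit _ _).mpr h12'
  · rw [mul_pow, ← Units.val_pow_eq_pow_val, ← hv]; exact key2

/-- **Generalized Case II**: the equation `x ^ p + y ^ p = ε * (ζ - 1) ^ (p * m) * z ^ p` has no
solution with `x`, `y` coprime, `ζ - 1 ∤ z` and `1 ≤ m`, provided `𝓞 K` is a PID and Kummer's
lemma holds. -/
theorem no_solution (hodd : p ≠ 2)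
    (kummer : ∀ u : (𝓞 K)ˣ, ∀ n : ℤ, (p : 𝓞 K) ∣ (u : 𝓞 K) - n → ∃ v : (𝓞 K)ˣ, u = v ^ p) :
    ∀ (m : ℕ), 1 ≤ m → ∀ (x y z : 𝓞 K) (ε : (𝓞 K)ˣ), IsCoprime x y → ¬ hζ.toInteger - 1 ∣ z →
      x ^ p + y ^ p ≠ ε * (hζ.toInteger - 1) ^ (p * m) * z ^ p := by
  intro m
  induction m with
  | zero => intro h; omega
  | succ m ih =>
    intro _ x y z ε hxy hz heq
    obtain ⟨hm2, x', y', z', ε', hxy', hz', heq'⟩ :=
      descent_step hζ hodd kummer (m := m + 1) (by omega) hxy hz heq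
    exact ih (by omega) x' y' z' ε' hxy' hz' heq'

end Descent

section Integers

variable {p : ℕ} [hpri : Fact p.Prime] (K : Type*) [Field K] [NumberField K]
  [IsCyclotomicExtension {p} ℚ K] [IsPrincipalIdealRing (𝓞 K)]

/-- Case II when `p ∣ c`. -/
lemma caseII_dvd_c (hodd : p ≠ 2)
    (kummer : ∀ u : (𝓞 K)ˣ, ∀ n : ℤ, (p : 𝓞 K) ∣ (u : 𝓞 K) - n → ∃ v : (𝓞 K)ˣ, u = v ^ p)
    {a b c : ℤ} (hab : IsCoprime a b) (hc : c ≠ 0) (hpc : (p : ℤ) ∣ c) :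
    a ^ p + b ^ p ≠ c ^ p := by
  intro h
  have hζ := IsCyclotomicExtension.zeta_spec p ℚ K
  have hprime : Prime (hζ.toInteger - 1) := hζ.zeta_sub_one_prime'
  have hcK : (c : 𝓞 K) ≠ 0 := by exact_mod_cast hc
  have hlamc : hζ.toInteger - 1 ∣ (c : 𝓞 K) :=
    (IsCyclotomicExtension.Rat.zeta_sub_one_dvd_intCast_iff' p hζ).mpr hpc
  have hfin : FiniteMultiplicity (hζ.toInteger - 1) (c : 𝓞 K) :=
    FiniteMultiplicity.of_not_isUnit hprime.not_isUnit hcK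
  obtain ⟨z, hz, hz'⟩ := hfin.exists_eq_pow_mul_and_not_dvd
  have hm : 1 ≤ multiplicity (hζ.toInteger - 1) (c : 𝓞 K) :=
    hfin.le_multiplicity_of_pow_dvd (by simpa using hlamc)
  refine no_solution hζ hodd kummer _ hm (a : 𝓞 K) (b : 𝓞 K) z 1 hab.intCast hz' ?_
  have h' : (a : 𝓞 K) ^ p + (b : 𝓞 K) ^ p = (c : 𝓞 K) ^ p := by
    exact_mod_cast congrArg (Int.cast : ℤ → 𝓞 K) h
  rw [h']
  nth_rewrite 1 [hz]
  rw [mul_pow, ← pow_mul, mul_comm (multiplicity _ _) p]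
  simp

/-- **Case II of Fermat's Last Theorem** for an odd prime `p` such that the ring of integers of
the `p`-th cyclotomic field is a PID and Kummer's lemma holds. -/
theorem caseII (hodd : p ≠ 2)
    (kummer : ∀ u : (𝓞 K)ˣ, ∀ n : ℤ, (p : 𝓞 K) ∣ (u : 𝓞 K) - n → ∃ v : (𝓞 K)ˣ, u = v ^ p)
    {a b c : ℤ} (hab : IsCoprime a b) (habc : a * b * c ≠ 0) (hdvd : (p : ℤ) ∣ a * b * c) :
    a ^ p + b ^ p ≠ c ^ p := by
  intro h
  have hpodd : Odd p := hpri.out.odd_of_ne_two hodd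
  have hp0 : p ≠ 0 := hpri.out.ne_zero
  have hpZ : Prime (p : ℤ) := Nat.prime_iff_prime_int.mp hpri.out
  have ha0 : a ≠ 0 := fun h0 => habc (by simp [h0])
  have hb0 : b ≠ 0 := fun h0 => habc (by simp [h0])
  have hc0 : c ≠ 0 := fun h0 => habc (by simp [h0])
  have hbc : IsCoprime b c := by
    have h1 : IsCoprime b (a ^ p + b * b ^ (p - 1)) := (hab.symm.pow_right).add_mul_left_right _
    rw [← pow_succ', Nat.sub_add_cancel hpri.out.one_le, h] at h1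
    exact (IsCoprime.pow_right_iff (Nat.pos_of_ne_zero hp0)).mp h1
  have hac : IsCoprime a c := by
    have h1 : IsCoprime a (b ^ p + a * a ^ (p - 1)) := (hab.pow_right).add_mul_left_right _
    rw [← pow_succ', Nat.sub_add_cancel hpri.out.one_le, add_comm, h] at h1
    exact (IsCoprime.pow_right_iff (Nat.pos_of_ne_zero hp0)).mp h1
  rcases hpZ.dvd_mul.mp hdvd with hpab | hpc
  · rcases hpZ.dvd_mul.mp hpab with hpa | hpb
    · refine caseII_dvd_c K hodd kummer (a := c) (b := -b) (c := a) hbc.symm.neg_right ha0 hpa ?_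
      rw [hpodd.neg_pow, ← h]; ring
    · refine caseII_dvd_c K hodd kummer (a := c) (b := -a) (c := b) hac.symm.neg_right hb0 hpb ?_
      rw [hpodd.neg_pow, ← h]; ring
  · exact caseII_dvd_c K hodd kummer hab hc0 hpc h

end Integers


end Fermat.Agent.Lib.helper2111
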