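import Mathlib

set_option autoImplicit false

namespace Fermat.Agent.Lib.helper2172

open Polynomial Finset

section Abstract

variable {R : Type*} [CommRing R] [IsDomain R]

lemma dvd_add_mul_of_mem {p : ℕ} (hp : p.Prime) {z : R} (hz : IsPrimitiveRoot z p)
    {a b η₁ η₂ : R} (h₁ : η₁ ∈ nthRootsFinset p (1 : R)) (h₂ : η₂ ∈ nthRootsFinset p (1 : R))
    (h : z - 1 ∣ a + η₁ * b) : z - 1 ∣ a + η₂ * b := by
  have h3 := hz.sub_one_dvd_sub hp h₂ h₁
  have e : a + η₂ * b = (a + η₁ * b) + (η₂ - η₁) * b := by ring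
  rw [e]
  exact dvd_add h (h3.mul_right b)

lemma pow_dvd_pow_sub_pow {p : ℕ} (hp : p.Prime) {z : R} (hz : IsPrimitiveRoot z p) {x y : R}
    (h : z - 1 ∣ x - y) : (z - 1) ^ p ∣ x ^ p - y ^ p := by
  rw [hz.pow_sub_pow_eq_prod_sub_mul x y hp.pos]
  have hc : (nthRootsFinset p (1 : R)).card = p := hz.card_nthRootsFinset
  conv_lhs => rw [← hc, ← Finset.prod_const]
  apply Finset.prod_dvd_prod_of_dvd
  intro η hη
  have h3 := hz.sub_one_dvd_sub hp (one_mem_nthRootsFinset hp.pos) hη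
  have e : x - η * y = (x - y) + (1 - η) * y := by ring
  rw [e]
  exact dvd_add h (h3.mul_right y)

lemma exists_sq_dvd {p : ℕ} (hp : p.Prime) (hp2 : p ≠ 2) {z : R} (hz : IsPrimitiveRoot z p)
    (hl : Prime (z - 1)) (hcard : Nat.card (R ⧸ Ideal.span {z - 1}) = p)
    {a b : R} (hb : ¬ z - 1 ∣ b) (h : z - 1 ∣ a ^ p + b ^ p) :
    ∃ η ∈ nthRootsFinset p (1 : R), (z - 1) ^ 2 ∣ a + η * b := by
  classical
  have hodd : Odd p := hp.odd_of_ne_two hp2
  rw [hz.pow_add_pow_eq_prod_add_mul a b hodd] at h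
  obtain ⟨η₁, hη₁, h₁⟩ := hl.exists_mem_finset_dvd h
  have hall : ∀ η ∈ nthRootsFinset p (1 : R), z - 1 ∣ a + η * b :=
    fun η hη => dvd_add_mul_of_mem hp hz hη₁ hη h₁
  choose! y hy using hall
  have hinj : Set.InjOn (fun η => Ideal.Quotient.mk (Ideal.span {z - 1}) (y η))
      (nthRootsFinset p (1 : R)) := by
    intro η₁ h₁ η₂ h₂ heq
    by_contra hne
    have hassoc := hz.nthRootsFinset_pairwise_associated_sub_one_sub_of_prime hp h₁ h₂ hne
    simp only [] at heq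
    rw [Ideal.Quotient.eq, Ideal.mem_span_singleton] at heq
    apply hb
    have e : (z - 1) * (y η₁ - y η₂) = (η₁ - η₂) * b := by
      rw [mul_sub, ← hy η₁ h₁, ← hy η₂ h₂]; ring
    obtain ⟨v, hv⟩ := hassoc
    rw [← hv] at e
    have e' : y η₁ - y η₂ = v * b := mul_left_cancel₀ hl.ne_zero (by rw [e]; ring)
    rw [e'] at heq
    exact (Units.dvd_mul_left).1 heq
  have : Finite (R ⧸ Ideal.span {z - 1}) :=
    Nat.finite_of_card_ne_zero (by rw [hcard]; exact hp.ne_zero)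
  have := Fintype.ofFinite (R ⧸ Ideal.span {z - 1})
  have hcard' : Fintype.card (R ⧸ Ideal.span {z - 1}) = p := by
    rw [← Nat.card_eq_fintype_card, hcard]
  have himg : (nthRootsFinset p (1 : R)).image
      (fun η => Ideal.Quotient.mk (Ideal.span {z - 1}) (y η)) = Finset.univ := by
    apply Finset.eq_univ_of_card
    rw [Finset.card_image_of_injOn hinj, hz.card_nthRootsFinset, hcard']
  have h0 : (0 : R ⧸ Ideal.span {z - 1}) ∈ (nthRootsFinset p (1 : R)).image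
      (fun η => Ideal.Quotient.mk (Ideal.span {z - 1}) (y η)) := by
    rw [himg]; exact Finset.mem_univ _
  obtain ⟨η, hη, h0⟩ := Finset.mem_image.1 h0
  refine ⟨η, hη, ?_⟩
  rw [Ideal.Quotient.eq_zero_iff_mem, Ideal.mem_span_singleton] at h0
  rw [hy η hη, pow_two]
  exact mul_dvd_mul_left _ h0

/-- The descent step, once the solution is normalised so that `(z - 1) ^ 2 ∣ a + b`. -/
theorem step_normalized [IsPrincipalIdealRing R] {p : ℕ} (hp : p.Prime) (hp2 : p ≠ 2) {z : R}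
    (hz : IsPrimitiveRoot z p) (hl : Prime (z - 1))
    (hint : ∀ x : R, ∃ n : ℤ, z - 1 ∣ x - n)
    (hass : Associated ((z - 1) ^ (p - 1)) (p : R))
    (hK : ∀ u : Rˣ, ∀ n : ℤ, (p : R) ∣ (u : R) - n → ∃ v : Rˣ, u = v ^ p)
    {m : ℕ} (hm : 1 ≤ m) {a b c : R} {u : Rˣ} (hb : ¬ z - 1 ∣ b) (hc : ¬ z - 1 ∣ c)
    (hab : IsCoprime a b) (H : a ^ p + b ^ p = u * ((z - 1) ^ m * c) ^ p)
    (hsq : (z - 1) ^ 2 ∣ a + b) :
    2 ≤ m ∧ ∃ (a' b' c' : R) (u' : Rˣ), ¬ z - 1 ∣ a' ∧ ¬ z - 1 ∣ b' ∧ ¬ z - 1 ∣ c' ∧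
      IsCoprime a' b' ∧ a' ^ p + b' ^ p = u' * ((z - 1) ^ (m - 1) * c') ^ p := by
  classical
  have hodd : Odd p := hp.odd_of_ne_two hp2
  have hp3 : 3 ≤ p := by have := hp.two_le; omega
  have hl0 : z - 1 ≠ 0 := hl.ne_zero
  have h1mem : (1 : R) ∈ nthRootsFinset p (1 : R) := one_mem_nthRootsFinset hp.pos
  -- the factors for `η ≠ 1`
  have hfac : ∀ η ∈ (nthRootsFinset p (1 : R)).erase 1,
      ∃ y, a + η * b = (z - 1) * y ∧ ¬ z - 1 ∣ y := by
    intro η hη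
    obtain ⟨hne, hmem⟩ := Finset.mem_erase.1 hη
    obtain ⟨v, hv⟩ := hz.nthRootsFinset_pairwise_associated_sub_one_sub_of_prime hp hmem h1mem hne
    obtain ⟨t, ht⟩ := hsq
    refine ⟨(z - 1) * t + v * b, ?_, ?_⟩
    · have e : a + η * b = (a + b) + (η - 1) * b := by ring
      rw [e, ht, ← hv]; ring
    · intro hdiv
      have h2 : z - 1 ∣ v * b := (dvd_add_right (dvd_mul_right _ _)).1 hdiv
      exact hb ((Units.dvd_mul_left).1 h2)
  choose! y hy hy' using hfac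
  set Y := ∏ η ∈ (nthRootsFinset p (1 : R)).erase 1, y η with hY
  have hYndvd : ¬ z - 1 ∣ Y := by
    intro hdiv
    obtain ⟨η, hη, hdiv'⟩ := hl.exists_mem_finset_dvd hdiv
    exact hy' η hη hdiv'
  have hcard : ((nthRootsFinset p (1 : R)).erase 1).card = p - 1 := by
    rw [Finset.card_erase_of_mem h1mem, hz.card_nthRootsFinset]
  have hprod : a ^ p + b ^ p = (a + b) * ((z - 1) ^ (p - 1) * Y) := by
    rw [hz.pow_add_pow_eq_prod_add_mul a b hodd, ← Finset.mul_prod_erase _ _ h1mem, one_mul]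
    congr 1
    rw [hY, ← hcard, ← Finset.prod_const, ← Finset.prod_mul_distrib]
    exact Finset.prod_congr rfl (fun η hη => hy η hη)
  -- extract the exact power of `z - 1` in `a + b`
  obtain ⟨m', rfl⟩ : ∃ m', m = m' + 1 := ⟨m - 1, by omega⟩
  have hpow : ((z - 1) ^ (m' + 1)) ^ p = (z - 1) ^ (m' * p + 1) * (z - 1) ^ (p - 1) := by
    rw [← pow_mul, ← pow_add]
    congr 1
    have : p = (p - 1) + 1 := by omega
    nlinarith
  have hmain : (a + b) * Y = (z - 1) ^ (m' * p + 1) * (u * c ^ p) := by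
    have h3 : (z - 1) ^ (p - 1) * ((a + b) * Y) =
        (z - 1) ^ (p - 1) * ((z - 1) ^ (m' * p + 1) * (u * c ^ p)) := by
      calc (z - 1) ^ (p - 1) * ((a + b) * Y) = a ^ p + b ^ p := by rw [hprod]; ring
        _ = u * (((z - 1) ^ (m' + 1)) ^ p * c ^ p) := by rw [H, mul_pow]
        _ = (z - 1) ^ (p - 1) * ((z - 1) ^ (m' * p + 1) * (u * c ^ p)) := by rw [hpow]; ring
    exact mul_left_cancel₀ (pow_ne_zero _ hl0) h3
  have hdx : (z - 1) ^ (m' * p + 1) ∣ a + b :=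
    hl.pow_dvd_of_dvd_mul_right _ hYndvd ⟨_, hmain⟩
  obtain ⟨x, hx⟩ := hdx
  have hxY : x * Y = u * c ^ p := by
    have h3 : (z - 1) ^ (m' * p + 1) * (x * Y) = (z - 1) ^ (m' * p + 1) * (u * c ^ p) := by
      rw [← hmain, hx]; ring
    exact mul_left_cancel₀ (pow_ne_zero _ hl0) h3
  have hxndvd : ¬ z - 1 ∣ x := by
    intro hdiv
    have h3 : z - 1 ∣ (u : R) * c ^ p := hxY ▸ hdiv.mul_right Y
    exact hc (hl.dvd_of_dvd_pow ((Units.dvd_mul_left).1 h3))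
  have hm' : 1 ≤ m' := by
    by_contra hcon
    have hm0 : m' = 0 := by omega
    subst hm0
    rw [zero_mul, zero_add, pow_one] at hx
    obtain ⟨t, ht⟩ := hsq
    rw [hx, pow_two, mul_assoc] at ht
    exact hxndvd ⟨t, mul_left_cancel₀ hl0 ht⟩
  refine ⟨by omega, ?_⟩
  -- the family of pairwise coprime factors
  set F : R → R := fun η => if η = 1 then x else y η with hF
  have hF1 : F 1 = x := by simp [hF]
  have hFne : ∀ η, η ≠ 1 → F η = y η := fun η hη => by simp [hF, hη]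
  have hFdvd : ∀ η ∈ nthRootsFinset p (1 : R), F η ∣ a + η * b := by
    intro η hη
    by_cases h1 : η = 1
    · subst h1; rw [hF1, one_mul, hx]; exact dvd_mul_left _ _
    · rw [hFne η h1, hy η (Finset.mem_erase.2 ⟨h1, hη⟩)]; exact dvd_mul_left _ _
  have hFndvd : ∀ η ∈ nthRootsFinset p (1 : R), ¬ z - 1 ∣ F η := by
    intro η hη
    by_cases h1 : η = 1
    · subst h1; rw [hF1]; exact hxndvd
    · rw [hFne η h1]; exact hy' η (Finset.mem_erase.2 ⟨h1, hη⟩)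
  have hFprod : ∏ η ∈ nthRootsFinset p (1 : R), F η = u * c ^ p := by
    rw [← Finset.mul_prod_erase _ _ h1mem, hF1, ← hxY]
    congr 1
    exact Finset.prod_congr rfl (fun η hη => hFne η (Finset.mem_erase.1 hη).1)
  have hFcop : ∀ η₁ ∈ nthRootsFinset p (1 : R), ∀ η₂ ∈ nthRootsFinset p (1 : R), η₁ ≠ η₂ →
      IsCoprime (F η₁) (F η₂) := by
    intro η₁ h₁ η₂ h₂ hne
    refine isCoprime_of_prime_dvd ?_ ?_
    · rintro ⟨h0, -⟩
      exact hFndvd η₁ h₁ (h0 ▸ dvd_zero _)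
    · intro q hq hq1 hq2
      have hq1' : q ∣ a + η₁ * b := hq1.trans (hFdvd η₁ h₁)
      have hq2' : q ∣ a + η₂ * b := hq2.trans (hFdvd η₂ h₂)
      obtain ⟨v, hv⟩ := hz.nthRootsFinset_pairwise_associated_sub_one_sub_of_prime hp h₁ h₂ hne
      have hqb : q ∣ (z - 1) * (v * b) := by
        have e : (z - 1) * (v * b) = (a + η₁ * b) - (a + η₂ * b) := by rw [← mul_assoc, hv]; ring
        rw [e]; exact dvd_sub hq1' hq2'
      have hqa : q ∣ (z - 1) * (v * a) := by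
        have e : (z - 1) * (v * a) = η₁ * (a + η₂ * b) - η₂ * (a + η₁ * b) := by
          rw [← mul_assoc, hv]; ring
        rw [e]; exact dvd_sub (hq2'.mul_left _) (hq1'.mul_left _)
      by_cases hql : q ∣ z - 1
      · exact hFndvd η₁ h₁ (((hq.associated_of_dvd hl hql).symm.dvd).trans hq1)
      · have hqb' : q ∣ b := (Units.dvd_mul_left).1 ((hq.dvd_or_dvd hqb).resolve_left hql)
        have hqa' : q ∣ a := (Units.dvd_mul_left).1 ((hq.dvd_or_dvd hqa).resolve_left hql)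
        exact hq.not_isUnit (hab.isUnit_of_dvd' hqa' hqb')
  have hFpow : ∀ η ∈ nthRootsFinset p (1 : R), ∃ d, Associated (d ^ p) (F η) := by
    intro η hη
    have hcop : IsCoprime (F η) (∏ η' ∈ (nthRootsFinset p (1 : R)).erase η, F η') :=
      IsCoprime.prod_right (fun η' hη' =>
        hFcop η hη η' (Finset.mem_erase.1 hη').2 (Finset.mem_erase.1 hη').1.symm)
    refine exists_associated_pow_of_associated_pow_mul hcop (c := c) ⟨u, ?_⟩
    rw [Finset.mul_prod_erase _ _ hη, hFprod, mul_comm]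
  -- the three factors we use
  have hz1 : z ≠ 1 := hz.ne_one hp.one_lt
  have hzmem : z ∈ nthRootsFinset p (1 : R) := hz.mem_nthRootsFinset hp.pos
  have hz2mem : z ^ 2 ∈ nthRootsFinset p (1 : R) := by
    rw [mem_nthRootsFinset hp.pos, ← pow_mul, mul_comm, pow_mul, hz.pow_eq_one, one_pow]
  have hz21 : z ^ 2 ≠ 1 := by
    intro h
    have := hz.dvd_of_pow_eq_one 2 h
    have := Nat.le_of_dvd (by norm_num) this
    omega
  obtain ⟨X, ε0, hX⟩ := hFpow 1 h1mem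
  obtain ⟨Y1, ε1, hY1⟩ := hFpow z hzmem
  obtain ⟨Y2, ε2, hY2⟩ := hFpow (z ^ 2) hz2mem
  rw [hF1] at hX
  rw [hFne z hz1] at hY1
  rw [hFne (z ^ 2) hz21] at hY2
  have hyz := hy z (Finset.mem_erase.2 ⟨hz1, hzmem⟩)
  have hyz2 := hy (z ^ 2) (Finset.mem_erase.2 ⟨hz21, hz2mem⟩)
  have hrel : z * ((z - 1) ^ (m' * p) * (X ^ p * ε0)) - (1 + z) * (Y1 ^ p * ε1) + Y2 ^ p * ε2 = 0 := by
    have h3 : (z - 1) * (z * ((z - 1) ^ (m' * p) * (X ^ p * ε0)) - (1 + z) * (Y1 ^ p * ε1)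
        + Y2 ^ p * ε2) = (z - 1) * 0 := by
      rw [hX, hY1, hY2]
      calc (z - 1) * (z * ((z - 1) ^ (m' * p) * x) - (1 + z) * y z + y (z ^ 2))
          = z * ((z - 1) ^ (m' * p + 1) * x) - (1 + z) * ((z - 1) * y z)
            + (z - 1) * y (z ^ 2) := by ring
        _ = z * (a + b) - (1 + z) * (a + z * b) + (a + z ^ 2 * b) := by rw [← hx, ← hyz, ← hyz2]
        _ = (z - 1) * 0 := by ring
    exact mul_left_cancel₀ hl0 h3
  -- units
  obtain ⟨uz, huz⟩ : ∃ w : Rˣ, (w : R) = z := ⟨(hz.isUnit hp.ne_zero).unit, rfl⟩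
  obtain ⟨u1z, hu1z⟩ : ∃ w : Rˣ, (w : R) = 1 + z := by
    have h3 : IsUnit (∑ i ∈ Finset.range 2, z ^ i) :=
      hz.geom_sum_isUnit hp.two_le ((Nat.coprime_primes Nat.prime_two hp).2 (Ne.symm hp2))
    rw [Finset.sum_range_succ, Finset.sum_range_one, pow_zero, pow_one] at h3
    exact ⟨h3.unit, rfl⟩
  set u4 : Rˣ := -(u1z * ε1 * ε2⁻¹) with hu4
  set u5 : Rˣ := -(uz * ε0 * ε2⁻¹) with hu5
  have hε2 : (ε2 : R) * ((ε2⁻¹ : Rˣ) : R) = 1 := by rw [← Units.val_mul, mul_inv_cancel, Units.val_one]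
  have hE : Y2 ^ p + u4 * Y1 ^ p = u5 * ((z - 1) ^ m' * X) ^ p := by
    rw [hu4, hu5]
    simp only [Units.val_neg, Units.val_mul, huz, hu1z]
    linear_combination ((ε2⁻¹ : Rˣ) : R) * hrel - Y2 ^ p * hε2
  -- non-divisibility
  have hXndvd : ¬ z - 1 ∣ X := fun h => hxndvd (hX ▸ (dvd_pow h hp.ne_zero).mul_right _)
  have hY1ndvd : ¬ z - 1 ∣ Y1 := fun h =>
    hy' z (Finset.mem_erase.2 ⟨hz1, hzmem⟩) (hY1 ▸ (dvd_pow h hp.ne_zero).mul_right _)
  have hY2ndvd : ¬ z - 1 ∣ Y2 := fun h =>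
    hy' (z ^ 2) (Finset.mem_erase.2 ⟨hz21, hz2mem⟩) (hY2 ▸ (dvd_pow h hp.ne_zero).mul_right _)
  -- Kummer's lemma input
  obtain ⟨n1, hn1⟩ := hint Y1
  obtain ⟨n2, hn2⟩ := hint Y2
  have hd1 := pow_dvd_pow_sub_pow hp hz hn1
  have hd2 := pow_dvd_pow_sub_pow hp hz hn2
  have hd3 : (z - 1) ^ p ∣ (u5 : R) * ((z - 1) ^ m' * X) ^ p :=
    (pow_dvd_pow_of_dvd ((dvd_pow_self _ (by omega)).mul_right X) p).mul_left _
  have hd4 : (z - 1) ^ p ∣ (n2 : R) ^ p + u4 * (n1 : R) ^ p := by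
    have e : (n2 : R) ^ p + u4 * (n1 : R) ^ p = (u5 : R) * ((z - 1) ^ m' * X) ^ p
        - (Y2 ^ p - (n2 : R) ^ p) - u4 * (Y1 ^ p - (n1 : R) ^ p) := by rw [← hE]; ring
    rw [e]
    exact dvd_sub (dvd_sub hd3 hd2) (hd1.mul_left _)
  have hpl : (p : R) ∣ (z - 1) ^ p :=
    hass.symm.dvd.trans (pow_dvd_pow _ (Nat.sub_le p 1))
  have hlp : z - 1 ∣ (p : R) :=
    (dvd_pow_self _ (by omega)).trans hass.dvd
  have hn1p : ¬ (p : ℤ) ∣ n1 := by
    intro hdiv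
    apply hY1ndvd
    have h3 : z - 1 ∣ (n1 : R) := by
      obtain ⟨k, rfl⟩ := hdiv
      push_cast
      exact hlp.mul_right _
    have e : Y1 = (Y1 - n1) + n1 := by ring
    rw [e]; exact dvd_add hn1 h3
  have hcop : IsCoprime (p : ℤ) (n1 ^ p) :=
    IsCoprime.pow_right (((Nat.prime_iff_prime_int.1 hp).irreducible.coprime_iff_not_dvd).2 hn1p)
  obtain ⟨s, r, hsr⟩ := hcop
  have hKin : (p : R) ∣ (u4 : R) - ((-(r * n2 ^ p) : ℤ) : R) := by
    have hsr' : (s : R) * (p : R) + (r : R) * (n1 : R) ^ p = 1 := by exact_mod_cast congrArg (Int.cast : ℤ → R) hsr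
    have e : (u4 : R) - ((-(r * n2 ^ p) : ℤ) : R) =
        (p : R) * (s * u4) + r * ((n2 : R) ^ p + u4 * (n1 : R) ^ p) := by
      push_cast
      linear_combination (-(u4 : R)) * hsr'
    rw [e]
    exact dvd_add (dvd_mul_right _ _) ((hpl.trans hd4).mul_left _)
  obtain ⟨v, hv⟩ := hK u4 _ hKin
  refine ⟨Y2, v * Y1, X, u5, hY2ndvd, ?_, hXndvd, ?_, ?_⟩
  · exact fun h => hY1ndvd ((Units.dvd_mul_left).1 h)
  · have h3 : IsCoprime (y (z ^ 2)) (y z) := by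
      have := hFcop (z ^ 2) hz2mem z hzmem (fun h => hz1 (by
        have h4 : z * z = z * 1 := by rw [mul_one, ← pow_two]; exact h
        exact mul_left_cancel₀ (hz.ne_zero hp.ne_zero) h4))
      rwa [hFne (z ^ 2) hz21, hFne z hz1] at this
    rw [← hY1, ← hY2] at h3
    have h4 : IsCoprime (Y2 ^ p) (Y1 ^ p) :=
      (isCoprime_mul_unit_right_left ε2.isUnit _ _).1
        ((isCoprime_mul_unit_right_right ε1.isUnit _ _).1 h3)
    have h5 : IsCoprime Y2 Y1 := (IsCoprime.pow_iff hp.pos hp.pos).1 h4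
    exact (isCoprime_mul_unit_left_right v.isUnit _ _).2 h5
  · rw [Nat.add_sub_cancel, mul_pow, ← hE, hv, Units.val_pow_eq_pow_val]

/-- No solution of the generalised Fermat equation with a positive power of `z - 1`. -/
theorem no_solution_pow [IsPrincipalIdealRing R] {p : ℕ} (hp : p.Prime) (hp2 : p ≠ 2) {z : R}
    (hz : IsPrimitiveRoot z p) (hl : Prime (z - 1))
    (hcard : Nat.card (R ⧸ Ideal.span {z - 1}) = p)
    (hint : ∀ x : R, ∃ n : ℤ, z - 1 ∣ x - n)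
    (hass : Associated ((z - 1) ^ (p - 1)) (p : R))
    (hK : ∀ u : Rˣ, ∀ n : ℤ, (p : R) ∣ (u : R) - n → ∃ v : Rˣ, u = v ^ p) :
    ∀ m : ℕ, 1 ≤ m → ∀ (a b c : R) (u : Rˣ), ¬ z - 1 ∣ a → ¬ z - 1 ∣ b → ¬ z - 1 ∣ c →
      IsCoprime a b → a ^ p + b ^ p ≠ u * ((z - 1) ^ m * c) ^ p := by
  intro m
  induction m using Nat.strong_induction_on with
  | _ m ih =>
    intro hm a b c u ha hb hc hab H
    have hdiv : z - 1 ∣ a ^ p + b ^ p := by
      rw [H, mul_pow, ← pow_mul]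
      exact ((dvd_pow_self _ (by have := hp.pos; positivity)).mul_right _).mul_left _
    obtain ⟨η, hη, hsq⟩ := exists_sq_dvd hp hp2 hz hl hcard hb hdiv
    have hηp : η ^ p = 1 := (mem_nthRootsFinset hp.pos 1).1 hη
    have hηu : IsUnit η := IsUnit.of_pow_eq_one hηp hp.ne_zero
    have hb' : ¬ z - 1 ∣ η * b := fun h => hb ((hηu.dvd_mul_left).1 h)
    have hab' : IsCoprime a (η * b) := (isCoprime_mul_unit_left_right hηu _ _).2 hab
    have H' : a ^ p + (η * b) ^ p = u * ((z - 1) ^ m * c) ^ p := by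
      rw [mul_pow, hηp, one_mul, H]
    obtain ⟨h2, a', b', c', u', ha', hb'', hc', hab'', H''⟩ :=
      step_normalized hp hp2 hz hl hint hass hK hm hb' hc hab' H' hsq
    exact ih (m - 1) (by omega) (by omega) a' b' c' u' ha' hb'' hc' hab'' H''

/-- The generalised equation `a ^ p + b ^ p = u * c ^ p` with `z - 1 ∣ c` has no solution. -/
theorem no_solution [IsPrincipalIdealRing R] {p : ℕ} (hp : p.Prime) (hp2 : p ≠ 2) {z : R}
    (hz : IsPrimitiveRoot z p) (hl : Prime (z - 1))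
    (hcard : Nat.card (R ⧸ Ideal.span {z - 1}) = p)
    (hint : ∀ x : R, ∃ n : ℤ, z - 1 ∣ x - n)
    (hass : Associated ((z - 1) ^ (p - 1)) (p : R))
    (hK : ∀ u : Rˣ, ∀ n : ℤ, (p : R) ∣ (u : R) - n → ∃ v : Rˣ, u = v ^ p)
    (a b c : R) (u : Rˣ) (ha : ¬ z - 1 ∣ a) (hb : ¬ z - 1 ∣ b) (hc0 : c ≠ 0) (hc : z - 1 ∣ c)
    (hab : IsCoprime a b) : a ^ p + b ^ p ≠ u * c ^ p := by
  have hfin : FiniteMultiplicity (z - 1) c := FiniteMultiplicity.of_not_isUnit hl.not_isUnit hc0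
  obtain ⟨c', hc', hc'ndvd⟩ := hfin.exists_eq_pow_mul_and_not_dvd
  have hm : 1 ≤ multiplicity (z - 1) c := by
    by_contra hcon
    have h0 : multiplicity (z - 1) c = 0 := by omega
    rw [h0, pow_zero, one_mul] at hc'
    exact hc'ndvd (hc' ▸ hc)
  rw [hc']
  exact no_solution_pow hp hp2 hz hl hcard hint hass hK _ hm a b c' u ha hb hc'ndvd hab

end Abstract

section Concrete

open NumberField

variable {p : ℕ} [hp : Fact p.Prime] {K : Type*} [Field K] [NumberField K]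
  [hK : IsCyclotomicExtension {p} ℚ K]

lemma exists_int_sub_dvd {ζ : K} (hζ : IsPrimitiveRoot ζ p) (x : 𝓞 K) :
    ∃ n : ℤ, hζ.toInteger - 1 ∣ x - n := by
  obtain ⟨f, hf⟩ := hζ.integralPowerBasis.exists_eq_aeval' x
  rw [hζ.integralPowerBasis_gen] at hf
  refine ⟨f.eval 1, ?_⟩
  have h := Polynomial.sub_dvd_eval_sub hζ.toInteger 1 (f.map (algebraMap ℤ (𝓞 K)))
  rw [Polynomial.eval_map, Polynomial.eval_map, ← Polynomial.aeval_def, ← hf,
    Polynomial.eval₂_at_one] at h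
  simpa using h

/-- Case II for integers, with `p ∣ c`. -/
theorem caseII_dvd_c (hp2 : p ≠ 2) [IsPrincipalIdealRing (𝓞 K)]
    (hKum : ∀ u : (𝓞 K)ˣ, ∀ n : ℤ, (p : 𝓞 K) ∣ (u : 𝓞 K) - n → ∃ v : (𝓞 K)ˣ, u = v ^ p)
    {a b c : ℤ} (hab : IsCoprime a b) (hc0 : c ≠ 0) (hc : (p : ℤ) ∣ c) :
    a ^ p + b ^ p ≠ c ^ p := by
  intro H
  have hpi : Prime (p : ℤ) := Nat.prime_iff_prime_int.1 hp.out
  have hζ := IsCyclotomicExtension.zeta_spec p ℚ K
  have hpa : ¬ (p : ℤ) ∣ a := by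
    intro h
    have h3 : (p : ℤ) ∣ b ^ p := by
      have e : b ^ p = c ^ p - a ^ p := by rw [← H]; ring
      rw [e]
      exact dvd_sub (dvd_pow hc hp.out.ne_zero) (dvd_pow h hp.out.ne_zero)
    exact hpi.not_isUnit (hab.isUnit_of_dvd' h (hpi.dvd_of_dvd_pow h3))
  have hpb : ¬ (p : ℤ) ∣ b := by
    intro h
    have h3 : (p : ℤ) ∣ a ^ p := by
      have e : a ^ p = c ^ p - b ^ p := by rw [← H]; ring
      rw [e]
      exact dvd_sub (dvd_pow hc hp.out.ne_zero) (dvd_pow h hp.out.ne_zero)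
    exact hpi.not_isUnit (hab.isUnit_of_dvd' (hpi.dvd_of_dvd_pow h3) h)
  have hcard : Nat.card (𝓞 K ⧸ Ideal.span {hζ.toInteger - 1}) = p := by
    rw [hζ.card_quotient_toInteger_sub_one, hζ.norm_toInteger_sub_one_of_prime_ne_two' hp2]
    simp
  refine no_solution hp.out hp2 hζ.toInteger_isPrimitiveRoot hζ.zeta_sub_one_prime' hcard
    (exists_int_sub_dvd hζ) (IsCyclotomicExtension.Rat.associated_zeta_sub_one_pow_prime p hζ)
    hKum (a : 𝓞 K) (b : 𝓞 K) (c : 𝓞 K) 1 ?_ ?_ ?_ ?_ ?_ ?_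
  · rwa [IsCyclotomicExtension.Rat.zeta_sub_one_dvd_intCast_iff' p hζ]
  · rwa [IsCyclotomicExtension.Rat.zeta_sub_one_dvd_intCast_iff' p hζ]
  · exact_mod_cast hc0
  · rwa [IsCyclotomicExtension.Rat.zeta_sub_one_dvd_intCast_iff' p hζ]
  · exact IsCoprime.intCast hab
  · rw [Units.val_one, one_mul]
    exact_mod_cast congrArg (Int.cast : ℤ → 𝓞 K) H

/-- **Case II of Fermat's Last Theorem** for an odd prime `p` such that the ring of integers of
the `p`-th cyclotomic field is a PID and satisfies Kummer's lemma. -/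
theorem caseII (hp2 : p ≠ 2) [IsPrincipalIdealRing (𝓞 K)]
    (hKum : ∀ u : (𝓞 K)ˣ, ∀ n : ℤ, (p : 𝓞 K) ∣ (u : 𝓞 K) - n → ∃ v : (𝓞 K)ˣ, u = v ^ p)
    {a b c : ℤ} (hab : IsCoprime a b) (h0 : a * b * c ≠ 0) (hdvd : (p : ℤ) ∣ a * b * c) :
    a ^ p + b ^ p ≠ c ^ p := by
  intro H
  have hpi : Prime (p : ℤ) := Nat.prime_iff_prime_int.1 hp.out
  have hodd : Odd p := hp.out.odd_of_ne_two hp2
  have ha0 : a ≠ 0 := fun h => h0 (by simp [h])
  have hb0 : b ≠ 0 := fun h => h0 (by simp [h])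
  have hc0 : c ≠ 0 := fun h => h0 (by simp [h])
  have hcb : IsCoprime c b := by
    have h3 : IsCoprime (a ^ p + b * b ^ (p - 1)) b := (hab.pow_left (m := p)).add_mul_left_left _
    have e : a ^ p + b * b ^ (p - 1) = c ^ p := by
      rw [← H, ← pow_succ', Nat.sub_add_cancel hp.out.pos]
    rw [e] at h3
    exact (IsCoprime.pow_left_iff hp.out.pos).1 h3
  have hca : IsCoprime c a := by
    have h3 : IsCoprime (b ^ p + a * a ^ (p - 1)) a :=
      (hab.symm.pow_left (m := p)).add_mul_left_left _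
    have e : b ^ p + a * a ^ (p - 1) = c ^ p := by
      rw [← H, ← pow_succ', Nat.sub_add_cancel hp.out.pos]; ring
    rw [e] at h3
    exact (IsCoprime.pow_left_iff hp.out.pos).1 h3
  rcases (hpi.dvd_or_dvd hdvd) with h | h
  · rcases (hpi.dvd_or_dvd h) with h | h
    · -- p ∣ a : c ^ p + (-b) ^ p = a ^ p
      refine caseII_dvd_c (K := K) hp2 hKum (a := c) (b := -b) (c := a) hcb.neg_right ha0 h ?_
      rw [hodd.neg_pow, ← H]; ring
    · -- p ∣ b : c ^ p + (-a) ^ p = b ^ p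
      refine caseII_dvd_c (K := K) hp2 hKum (a := c) (b := -a) (c := b) hca.neg_right hb0 h ?_
      rw [hodd.neg_pow, ← H]; ring
  · exact caseII_dvd_c (K := K) hp2 hKum hab hc0 h H

end Concrete

end Fermat.Agent.Lib.helper2172
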