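/-
Sharp Siegel lemma over `ℚ` in Plücker-height form, by pigeonhole on a maximal minor and
Cramer's rule (no Minkowski, no measure theory, no Gram determinants).

For an `r`-dimensional subspace `W ⊆ ℚ^n` spanned by `b₁, …, b_r` there is a nonzero `x ∈ W`
with `H(x)^r ≤ r^r · H(Plücker vector of b)`.
-/
import Mathlib

set_option autoImplicit false

namespace Fermat.Agent.Lib.helper2177

open Matrix Finset

section Minors

variable {R : Type*} [CommRing R] {n r : ℕ}

/-- The `r × r` minor of an `n × r` matrix on the rows `s 0, …, s (r-1)`. -/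
def minor (B : Matrix (Fin n) (Fin r) R) (s : Fin r → Fin n) : R :=
  (B.submatrix s id).det

theorem minor_map {S : Type*} [CommRing S] (f : R →+* S) (B : Matrix (Fin n) (Fin r) R)
    (s : Fin r → Fin n) : minor (B.map f) s = f (minor B s) := by
  unfold minor
  rw [RingHom.map_det]
  rfl

/-- Cauchy–Binet, in the only form needed here: the determinant of `G * B` is a combination
of the maximal minors of `B`. -/
theorem det_mul_eq_sum_minor (G : Matrix (Fin r) (Fin n) R) (B : Matrix (Fin n) (Fin r) R) :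
    (G * B).det = ∑ s : Fin r → Fin n, (∏ i, G i (s i)) * minor B s := by
  have h : (G * B) = fun i => ∑ k, G i k • B k := by
    ext i j
    simp [Matrix.mul_apply, Finset.sum_apply]
  rw [h]
  have h2 := (Matrix.detRowAlternating (R := R) (n := Fin r)).toMultilinearMap.map_sum
    (fun i k => G i k • B k)
  have h3 : ∀ s : Fin r → Fin n,
      (Matrix.detRowAlternating (R := R) (n := Fin r)).toMultilinearMap
        (fun i => G i (s i) • B (s i)) = (∏ i, G i (s i)) * minor B s := by
    intro s
    have := (Matrix.detRowAlternating (R := R) (n := Fin r)).toMultilinearMap.map_smul_univ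
      (fun i => G i (s i)) (fun i => B (s i))
    rw [this]
    rfl
  simp only [h3] at h2
  exact h2

/-- Cramer's rule for maximal minors: the coordinates of a vector in the column space are
determined by its coordinates on the rows `s`. -/
theorem minor_mul_mulVec (B : Matrix (Fin n) (Fin r) R) (s : Fin r → Fin n) (c : Fin r → R)
    (j : Fin n) :
    minor B s * (B *ᵥ c) j = ∑ i, minor B (Function.update s i j) * (B *ᵥ c) (s i) := by
  set M : Matrix (Fin r) (Fin r) R := B.submatrix s id with hM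
  -- `w i` is the determinant of `M` with row `i` replaced by row `j` of `B`
  set w : Fin r → R := Matrix.cramer Mᵀ (B j) with hw
  have hw' : ∀ i, w i = minor B (Function.update s i j) := by
    intro i
    rw [hw, Matrix.cramer_transpose_apply]
    unfold minor
    congr 1
    ext a k
    by_cases ha : a = i
    · subst ha
      simp [Matrix.updateRow_apply, Matrix.submatrix_apply]
    · simp [Matrix.updateRow_apply, Matrix.submatrix_apply, ha, hM]
  have hkey : Mᵀ *ᵥ w = M.det • B j := by
    rw [hw, Matrix.mulVec_cramer, Matrix.det_transpose]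
  have hk : ∀ k, M.det * B j k = ∑ i, M i k * w i := by
    intro k
    have := congrFun hkey k
    simp only [Matrix.mulVec, dotProduct, Matrix.transpose_apply, Pi.smul_apply,
      smul_eq_mul] at this
    rw [← this]
  have hMc : ∀ i, (B *ᵥ c) (s i) = ∑ k, M i k * c k := by
    intro i
    simp [Matrix.mulVec, dotProduct, hM]
  calc minor B s * (B *ᵥ c) j = ∑ k, (M.det * B j k) * c k := by
        simp only [Matrix.mulVec, dotProduct, Finset.mul_sum, mul_assoc]
        rfl
    _ = ∑ k, ∑ i, M i k * w i * c k := by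
        refine Finset.sum_congr rfl fun k _ => ?_
        rw [hk k, Finset.sum_mul]
    _ = ∑ i, ∑ k, M i k * w i * c k := Finset.sum_comm
    _ = ∑ i, minor B (Function.update s i j) * (B *ᵥ c) (s i) := by
        refine Finset.sum_congr rfl fun i _ => ?_
        rw [hMc i, ← hw' i, Finset.mul_sum]
        refine Finset.sum_congr rfl fun k _ => ?_
        ring

/-- Replacing column `k` by `v`, where `p • v = B *ᵥ c`, multiplies every maximal minor by
`c k / p`. -/
theorem mul_minor_updateCol (B : Matrix (Fin n) (Fin r) R) (k : Fin r) (c : Fin r → R)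
    (v : Fin n → R) (p : R) (hv : ∀ j, p * v j = (B *ᵥ c) j) (s : Fin r → Fin n) :
    p * minor (B.updateCol k v) s = c k * minor B s := by
  set M : Matrix (Fin r) (Fin r) R := B.submatrix s id with hM
  have h1 : (B.updateCol k v).submatrix s id = M.updateCol k (v ∘ s) := by
    ext a l
    by_cases hl : l = k
    · subst hl
      simp [Matrix.submatrix_apply]
    · simp [Matrix.submatrix_apply, hl, hM]
  have h2 : p • (v ∘ s) = M *ᵥ c := by
    ext i
    simp only [Pi.smul_apply, Function.comp_apply, smul_eq_mul]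
    rw [hv (s i)]
    simp [Matrix.mulVec, dotProduct, hM]
  unfold minor
  rw [h1, ← Matrix.det_updateCol_smul, h2, ← Matrix.cramer_apply,
    Matrix.cramer_eq_adjugate_mulVec, Matrix.mulVec_mulVec, Matrix.adjugate_mul,
    Matrix.smul_mulVec, Matrix.one_mulVec]
  simp only [Pi.smul_apply, smul_eq_mul]
  rw [mul_comm]

end Minors

section Field

variable {F : Type*} [Field F] {n r : ℕ}

/-- An `n × r` matrix over a field with linearly independent columns has a nonzero maximal
minor. -/
theorem exists_minor_ne_zero (B : Matrix (Fin n) (Fin r) F)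
    (hB : Function.Injective B.mulVec) : ∃ s : Fin r → Fin n, minor B s ≠ 0 := by
  by_contra hcon
  push Not at hcon
  have hker : LinearMap.ker (Matrix.toLin' B) = ⊥ := by
    rw [LinearMap.ker_eq_bot]
    intro x y hxy
    exact hB (by simpa [Matrix.toLin'_apply] using hxy)
  obtain ⟨g, hg⟩ := LinearMap.exists_leftInverse_of_injective (Matrix.toLin' B) hker
  have h1 : LinearMap.toMatrix' g * B = 1 := by
    have := congrArg LinearMap.toMatrix' hg
    rwa [LinearMap.toMatrix'_comp, LinearMap.toMatrix'_id, LinearMap.toMatrix'_toLin'] at this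
  have h2 := det_mul_eq_sum_minor (LinearMap.toMatrix' g) B
  rw [h1, Matrix.det_one] at h2
  simp [hcon] at h2

end Field

section Int

variable {n r : ℕ}

/-- If a prime divides all maximal minors of an integer matrix, its columns are linearly
dependent modulo `p`. -/
theorem exists_mulVec_dvd (B : Matrix (Fin n) (Fin r) ℤ) (p : ℕ) (hp : p.Prime)
    (h : ∀ s, (p : ℤ) ∣ minor B s) :
    ∃ c : Fin r → ℤ, (∀ i, 0 ≤ c i ∧ c i < p) ∧ (∃ k, c k ≠ 0) ∧
      ∀ j, (p : ℤ) ∣ (B *ᵥ c) j := by
  have := Fact.mk hp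
  set Bp : Matrix (Fin n) (Fin r) (ZMod p) := B.map (Int.castRingHom (ZMod p)) with hBp
  have hmin : ∀ s, minor Bp s = 0 := by
    intro s
    rw [hBp, minor_map]
    exact (ZMod.intCast_zmod_eq_zero_iff_dvd _ _).mpr (h s)
  have hninj : ¬ Function.Injective Bp.mulVec := fun hinj => by
    obtain ⟨s, hs⟩ := exists_minor_ne_zero Bp hinj
    exact hs (hmin s)
  rw [Function.Injective] at hninj
  push Not at hninj
  obtain ⟨u, v, huv, hne⟩ := hninj
  set cb : Fin r → ZMod p := u - v with hcb
  have hcb0 : cb ≠ 0 := sub_ne_zero.mpr hne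
  have hBc : Bp *ᵥ cb = 0 := by rw [hcb, Matrix.mulVec_sub, huv, sub_self]
  refine ⟨fun i => ((cb i).val : ℤ), fun i => ⟨?_, ?_⟩, ?_, ?_⟩
  · show (0 : ℤ) ≤ ((cb i).val : ℤ)
    positivity
  · show ((cb i).val : ℤ) < (p : ℤ)
    exact_mod_cast ZMod.val_lt (cb i)
  · obtain ⟨k, hk⟩ := Function.ne_iff.mp hcb0
    refine ⟨k, ?_⟩
    simp only [Pi.zero_apply] at hk
    intro h0
    apply hk
    have h0' : ((cb k).val : ℤ) = 0 := h0
    have : (cb k).val = 0 := by exact_mod_cast h0'
    exact (ZMod.val_eq_zero _).mp this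
  · intro j
    rw [← ZMod.intCast_zmod_eq_zero_iff_dvd]
    have := congrFun hBc j
    simp only [Matrix.mulVec, dotProduct, Pi.zero_apply] at this ⊢
    rw [← this]
    push_cast
    refine Finset.sum_congr rfl fun i _ => ?_
    simp [hBp, Matrix.map_apply]

/-- The sum of the absolute values of the maximal minors (the measure for the descent). -/
def minorSum (B : Matrix (Fin n) (Fin r) ℤ) : ℕ := ∑ s : Fin r → Fin n, (minor B s).natAbs

/-- Every integer matrix of full column rank can be replaced by one whose columns lie in the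
same rational subspace and whose maximal minors are coprime. -/
theorem exists_primitive (W : Submodule ℚ (Fin n → ℚ)) :
    ∀ (N : ℕ) (B₀ : Matrix (Fin n) (Fin r) ℤ), minorSum B₀ = N →
      (∀ k, (fun j => (B₀ j k : ℚ)) ∈ W) → (∃ s, minor B₀ s ≠ 0) →
      ∃ B : Matrix (Fin n) (Fin r) ℤ, (∀ k, (fun j => (B j k : ℚ)) ∈ W) ∧
        (∃ s, minor B s ≠ 0) ∧ ∀ p : ℕ, p.Prime → ∃ s, ¬ (p : ℤ) ∣ minor B s := by
  intro N
  induction N using Nat.strong_induction_on with
  | _ N ih =>
    intro B₀ hN hW h0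
    by_cases hprim : ∀ p : ℕ, p.Prime → ∃ s, ¬ (p : ℤ) ∣ minor B₀ s
    · exact ⟨B₀, hW, h0, hprim⟩
    · push Not at hprim
      obtain ⟨p, hp, hdvd⟩ := hprim
      obtain ⟨c, hc, ⟨k, hk⟩, hcdvd⟩ := exists_mulVec_dvd B₀ p hp hdvd
      have hp0 : (0 : ℤ) < p := by exact_mod_cast hp.pos
      choose v hv using hcdvd
      set B' := B₀.updateCol k v with hB'
      have hmin : ∀ s, (p : ℤ) * minor B' s = c k * minor B₀ s :=
        fun s => mul_minor_updateCol B₀ k c v p (fun j => (hv j).symm) s
      have hck : 0 < c k := lt_of_le_of_ne (hc k).1 (Ne.symm hk)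
      have hckp : c k < p := (hc k).2
      have hW' : ∀ l, (fun j => (B' j l : ℚ)) ∈ W := by
        intro l
        by_cases hl : l = k
        · subst hl
          have : (fun j => (B' j l : ℚ)) =
              (p : ℚ)⁻¹ • ∑ i, (c i : ℚ) • (fun j => (B₀ j i : ℚ)) := by
            ext j
            have hvj := hv j
            simp only [hB', Matrix.updateCol_self, Pi.smul_apply, Finset.sum_apply, smul_eq_mul]
            have hpq : (p : ℚ) ≠ 0 := by exact_mod_cast hp.ne_zero
            rw [eq_inv_mul_iff_mul_eq₀ hpq]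
            have : ((p : ℤ) : ℚ) * (v j : ℚ) = (((B₀ *ᵥ c) j : ℤ) : ℚ) := by
              rw [hvj]; push_cast; ring
            rw [Int.cast_natCast] at this
            rw [this]
            simp only [Matrix.mulVec, dotProduct]
            push_cast
            refine Finset.sum_congr rfl fun i _ => ?_
            ring
          rw [this]
          exact W.smul_mem _ (W.sum_mem fun i _ => W.smul_mem _ (hW i))
        · have : (fun j => (B' j l : ℚ)) = fun j => (B₀ j l : ℚ) := by
            ext j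
            simp [hB', Matrix.updateCol_ne hl]
          rw [this]
          exact hW l
      obtain ⟨s₁, hs₁⟩ := h0
      have h0' : ∃ s, minor B' s ≠ 0 := ⟨s₁, fun h => by
        have := hmin s₁
        rw [h, mul_zero] at this
        exact hs₁ ((mul_eq_zero.mp this.symm).resolve_left hck.ne')⟩
      have habs : ∀ s, (p : ℤ) * |minor B' s| = c k * |minor B₀ s| := by
        intro s
        have := congrArg abs (hmin s)
        rwa [abs_mul, abs_mul, abs_of_pos hp0, abs_of_pos hck] at this
      have hle : ∀ s, (minor B' s).natAbs ≤ (minor B₀ s).natAbs := by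
        intro s
        have h1 := habs s
        have h2 : |minor B' s| ≤ |minor B₀ s| := by
          have h3 : 0 ≤ |minor B₀ s| := abs_nonneg _
          nlinarith [abs_nonneg (minor B' s)]
        zify
        exact h2
      have hlt : (minor B' s₁).natAbs < (minor B₀ s₁).natAbs := by
        have h1 := habs s₁
        have h3 : 0 < |minor B₀ s₁| := abs_pos.mpr hs₁
        have h2 : |minor B' s₁| < |minor B₀ s₁| := by
          nlinarith [abs_nonneg (minor B' s₁)]
        zify
        exact h2
      have hdec : minorSum B' < N := by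
        rw [← hN]
        exact Finset.sum_lt_sum (fun s _ => hle s) ⟨s₁, Finset.mem_univ _, hlt⟩
      exact ih (minorSum B') hdec B' rfl hW' h0'

/-- Pigeonhole: a nonsingular integer `r × r` matrix maps some nonzero integer vector into
the cube of side `k` as soon as `|det| < (k+1)^r`. -/
theorem exists_small_mulVec (M : Matrix (Fin r) (Fin r) ℤ) (hM : M.det ≠ 0) (k : ℕ)
    (hk : M.det.natAbs < (k + 1) ^ r) :
    ∃ c : Fin r → ℤ, c ≠ 0 ∧ ∀ i, |(M *ᵥ c) i| ≤ k := by
  set f : (Fin r → ℤ) →ₗ[ℤ] (Fin r → ℤ) := Matrix.toLin' M with hf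
  have hinj : Function.Injective f := by
    intro x y hxy
    exact Matrix.mulVec_injective_of_det_ne_zero hM (by simpa [hf, Matrix.toLin'_apply] using hxy)
  set N : Submodule ℤ (Fin r → ℤ) := LinearMap.range f with hN
  have hcard : Nat.card ((Fin r → ℤ) ⧸ N) = M.det.natAbs := by
    let e : (Fin r → ℤ) ≃ₗ[ℤ] N := LinearEquiv.ofInjective f hinj
    have h1 := Submodule.natAbs_det_equiv N e
    rw [← h1, ← LinearMap.det_toLin' M]
    congr 2
  have : Finite ((Fin r → ℤ) ⧸ N) :=
    Nat.finite_of_card_ne_zero (by rw [hcard]; exact Int.natAbs_ne_zero.mpr hM)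
  let _ : Fintype ((Fin r → ℤ) ⧸ N) := Fintype.ofFinite _
  let φ : (Fin r → Fin (k + 1)) → (Fin r → ℤ) ⧸ N :=
    fun u => Submodule.Quotient.mk (fun i => ((u i : ℕ) : ℤ))
  have hlt : Fintype.card ((Fin r → ℤ) ⧸ N) < Fintype.card (Fin r → Fin (k + 1)) := by
    rw [← Nat.card_eq_fintype_card, hcard]
    simpa using hk
  obtain ⟨u, u', hne, heq⟩ := Fintype.exists_ne_map_eq_of_card_lt φ hlt
  have hmem : (fun i => ((u i : ℕ) : ℤ)) - (fun i => ((u' i : ℕ) : ℤ)) ∈ N :=
    (Submodule.Quotient.eq N).mp heq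
  obtain ⟨c, hc⟩ := hmem
  have hc' : ∀ i, (M *ᵥ c) i = ((u i : ℕ) : ℤ) - ((u' i : ℕ) : ℤ) := by
    intro i
    have := congrFun hc i
    simpa [hf, Matrix.toLin'_apply] using this
  refine ⟨c, ?_, ?_⟩
  · rintro rfl
    apply hne
    funext i
    have := hc' i
    simp only [Matrix.mulVec_zero, Pi.zero_apply] at this
    ext
    omega
  · intro i
    rw [hc' i]
    have h1 := (u i).isLt
    have h2 := (u' i).isLt
    rw [abs_le]
    constructor <;> omega

/-- Integer form of the sharp Siegel lemma: if `s0` indexes a maximal minor of an integer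
`n × r` matrix `B` of full rank, some nonzero integer combination of the columns has all
coordinates bounded by `r · |minor B s0|^(1/r)`. -/
theorem exists_mulVec_pow_le (B : Matrix (Fin n) (Fin r) ℤ) (hr : 0 < r) (s0 : Fin r → Fin n)
    (h0 : minor B s0 ≠ 0) (hmax : ∀ s, |minor B s| ≤ |minor B s0|) :
    ∃ c : Fin r → ℤ, c ≠ 0 ∧ B *ᵥ c ≠ 0 ∧
      ∀ j, |(B *ᵥ c) j| ^ r ≤ (r : ℤ) ^ r * |minor B s0| := by
  set H : ℕ := (minor B s0).natAbs with hH
  set k : ℕ := Nat.findGreatest (fun k => k ^ r ≤ H) H with hk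
  have hk1 : k ^ r ≤ H :=
    Nat.findGreatest_spec (P := fun k => k ^ r ≤ H) (m := 0) (Nat.zero_le _)
      (by simp [hr.ne'])
  have hk2 : H < (k + 1) ^ r := by
    by_contra hcon
    push Not at hcon
    have h1 : k + 1 ≤ H := le_trans (Nat.le_self_pow hr.ne' _) hcon
    have := Nat.le_findGreatest (P := fun k => k ^ r ≤ H) h1 hcon
    omega
  set M : Matrix (Fin r) (Fin r) ℤ := B.submatrix s0 id with hM
  obtain ⟨c, hc0, hc⟩ := exists_small_mulVec M h0 k hk2
  have hMc : ∀ i, (M *ᵥ c) i = (B *ᵥ c) (s0 i) := by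
    intro i
    simp [Matrix.mulVec, dotProduct, hM]
  refine ⟨c, hc0, ?_, ?_⟩
  · intro hBc
    apply hc0
    apply Matrix.mulVec_injective_of_det_ne_zero (M := M) h0
    ext i
    rw [hMc i, hBc]
    simp
  · intro j
    have hcr := minor_mul_mulVec B s0 c j
    have h1 : |minor B s0| * |(B *ᵥ c) j| ≤ |minor B s0| * ((r : ℤ) * k) := by
      rw [← abs_mul, hcr]
      calc |∑ i, minor B (Function.update s0 i j) * (B *ᵥ c) (s0 i)|
          ≤ ∑ i, |minor B (Function.update s0 i j) * (B *ᵥ c) (s0 i)| :=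
            Finset.abs_sum_le_sum_abs _ _
        _ ≤ ∑ _i : Fin r, |minor B s0| * (k : ℤ) := by
            refine Finset.sum_le_sum fun i _ => ?_
            rw [abs_mul]
            have := hc i
            rw [hMc i] at this
            exact mul_le_mul (hmax _) this (abs_nonneg _) (abs_nonneg _)
        _ = |minor B s0| * ((r : ℤ) * k) := by
            simp [Finset.sum_const, Finset.card_univ]
            ring
    have hpos : 0 < |minor B s0| := abs_pos.mpr h0
    have h2 : |(B *ᵥ c) j| ≤ (r : ℤ) * k := le_of_mul_le_mul_left h1 hpos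
    calc |(B *ᵥ c) j| ^ r ≤ ((r : ℤ) * k) ^ r := pow_le_pow_left₀ (abs_nonneg _) h2 r
      _ = (r : ℤ) ^ r * (k : ℤ) ^ r := mul_pow _ _ _
      _ ≤ (r : ℤ) ^ r * |minor B s0| := by
          refine mul_le_mul_of_nonneg_left ?_ (by positivity)
          rw [Int.abs_eq_natAbs]
          exact_mod_cast hk1

end Int

section Height

variable {n r : ℕ}

/-- The height of a nonzero integer vector is at most the absolute value of one of its
coordinates. -/
theorem exists_mulHeight_le_abs {ι : Type*} [Fintype ι] (y : ι → ℤ) (hy : y ≠ 0) :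
    ∃ j, Height.mulHeight (((↑) : ℤ → ℚ) ∘ y) ≤ ((|y j| : ℤ) : ℝ) := by
  classical
  obtain ⟨j₁, hj₁⟩ := Function.ne_iff.mp hy
  have : Nonempty ι := ⟨j₁⟩
  obtain ⟨g, hg, hg1⟩ := Finset.extract_gcd y (Finset.univ_nonempty (α := ι))
  set d : ℤ := Finset.univ.gcd y with hd
  have hd0 : d ≠ 0 := by
    intro h
    rw [hd, Finset.gcd_eq_zero_iff] at h
    exact hj₁ (h j₁ (Finset.mem_univ _))
  have hyg : ((↑) : ℤ → ℚ) ∘ y = (d : ℚ) • (((↑) : ℤ → ℚ) ∘ g) := by
    ext j
    simp only [Function.comp_apply, Pi.smul_apply, smul_eq_mul]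
    rw [hg j (Finset.mem_univ _)]
    push_cast
    ring
  rw [hyg, Height.mulHeight_smul_eq_mulHeight _ (by exact_mod_cast hd0),
    Rat.mulHeight_eq_max_abs_of_gcd_eq_one hg1]
  obtain ⟨j, hj⟩ := exists_eq_ciSup_of_finite (f := fun i => |g i|)
  refine ⟨j, ?_⟩
  rw [← hj]
  have : |g j| ≤ |y j| := by
    rw [hg j (Finset.mem_univ _), abs_mul]
    have : 1 ≤ |d| := Int.one_le_abs hd0
    nlinarith [abs_nonneg (g j)]
  exact_mod_cast this

/-- **Sharp Siegel lemma over `ℚ`, Plücker form.** A subspace of `ℚ^n` with basis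
`b₁, …, b_r` contains a nonzero vector `x` with `H(x)^r ≤ r^r · H(b₁ ∧ ⋯ ∧ b_r)`, where the
height of the wedge is the height of the vector of maximal minors. -/
theorem sharp_siegel (n r : ℕ) (hr : 0 < r) (b : Fin r → Fin n → ℚ)
    (hb : LinearIndependent ℚ b) :
    ∃ x : Fin n → ℚ, x ≠ 0 ∧ x ∈ Submodule.span ℚ (Set.range b) ∧
      Height.mulHeight x ^ r ≤ (r : ℝ) ^ r *
        Height.mulHeight (fun s : Fin r → Fin n => (Matrix.of fun i j => b i (s j)).det) := by
  classical
  have hbW : ∀ i, b i ∈ Submodule.span ℚ (Set.range b) := fun i => Submodule.subset_span ⟨i, rfl⟩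
  generalize hW : Submodule.span ℚ (Set.range b) = W at hbW ⊢
  -- clear denominators
  set d : ℕ := ∏ i, ∏ j, (b i j).den with hd
  have hd0 : d ≠ 0 := by
    rw [hd]
    exact Finset.prod_ne_zero_iff.mpr fun i _ =>
      Finset.prod_ne_zero_iff.mpr fun j _ => (b i j).den_nz
  have hdq : (d : ℚ) ≠ 0 := by exact_mod_cast hd0
  have hint : ∀ i j, ∃ z : ℤ, (z : ℚ) = (d : ℚ) * b i j := by
    intro i j
    have hdvd : (b i j).den ∣ d := by
      rw [hd]
      exact Dvd.dvd.trans (Finset.dvd_prod_of_mem (fun j => (b i j).den) (Finset.mem_univ j))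
        (Finset.dvd_prod_of_mem (fun i => ∏ j, (b i j).den) (Finset.mem_univ i))
    obtain ⟨m, hm⟩ := hdvd
    refine ⟨m * (b i j).num, ?_⟩
    rw [hm]
    push_cast
    have := Rat.den_mul_eq_num (b i j)
    rw [← this]
    ring
  choose z hz using hint
  set B₀ : Matrix (Fin n) (Fin r) ℤ := Matrix.of fun j i => z i j with hB₀
  have hW0 : ∀ k, (fun j => (B₀ j k : ℚ)) ∈ W := by
    intro k
    have : (fun j => (B₀ j k : ℚ)) = (d : ℚ) • b k := by
      ext j
      simp [hB₀, hz]
    rw [this]
    exact W.smul_mem _ (hbW k)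
  have hinj : Function.Injective (B₀.map (Int.castRingHom ℚ)).mulVec := by
    intro u v huv
    have h1 : (B₀.map (Int.castRingHom ℚ)) *ᵥ (u - v) = 0 := by
      rw [Matrix.mulVec_sub, huv, sub_self]
    have h2 : ∑ i, (u - v) i • b i = 0 := by
      ext j
      have := congrFun h1 j
      simp only [Matrix.mulVec, dotProduct, Matrix.map_apply, hB₀, Matrix.of_apply,
        Int.coe_castRingHom, hz, Pi.zero_apply] at this
      simp only [Finset.sum_apply, Pi.smul_apply, smul_eq_mul, Pi.zero_apply]
      have h3 : (d : ℚ) * ∑ i, (u - v) i * b i j = 0 := by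
        rw [Finset.mul_sum, ← this]
        exact Finset.sum_congr rfl fun i _ => by ring
      exact (mul_eq_zero.mp h3).resolve_left hdq
    have h3 := Fintype.linearIndependent_iff.mp hb _ h2
    exact sub_eq_zero.mp (funext h3)
  obtain ⟨s₀', hs₀'⟩ := exists_minor_ne_zero _ hinj
  have h0 : ∃ s, minor B₀ s ≠ 0 := ⟨s₀', fun h => hs₀' (by rw [minor_map, h]; simp)⟩
  obtain ⟨B, hBW, ⟨s₁, hs₁⟩, hprim⟩ := exists_primitive W _ B₀ rfl hW0 h0
  have : Nonempty (Fin r → Fin n) := ⟨s₁⟩
  -- the maximal minors of `B` are coprime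
  have hgcd : Finset.univ.gcd (minor B) = 1 := by
    set g := Finset.univ.gcd (minor B) with hg
    have hg0 : g ≠ 0 := by
      intro h
      rw [hg, Finset.gcd_eq_zero_iff] at h
      exact hs₁ (h s₁ (Finset.mem_univ _))
    have hgn : normalize g = g := Finset.normalize_gcd
    have hg_nonneg : 0 ≤ g := Int.nonneg_of_normalize_eq_self hgn
    have hnat : g.natAbs = 1 := by
      by_contra hne
      obtain ⟨p, hp, hpd⟩ := Nat.exists_prime_and_dvd hne
      obtain ⟨s, hs⟩ := hprim p hp
      apply hs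
      have : (p : ℤ) ∣ g := Int.natCast_dvd.mpr hpd
      exact this.trans (Finset.gcd_dvd (Finset.mem_univ s))
    omega
  -- express the columns of `B` in terms of `b`
  have hT : ∀ k, ∃ t : Fin r → ℚ, ∑ i, t i • b i = fun j => (B j k : ℚ) := fun k =>
    (Submodule.mem_span_range_iff_exists_fun ℚ).mp (hW ▸ hBW k)
  choose T hTeq using hT
  set A : Matrix (Fin n) (Fin r) ℚ := Matrix.of fun j i => b i j with hA
  set T' : Matrix (Fin r) (Fin r) ℚ := Matrix.of fun i k => T k i with hT'
  have hBA : B.map (Int.castRingHom ℚ) = A * T' := by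
    ext j k
    have := congrFun (hTeq k) j
    simp only [Finset.sum_apply, Pi.smul_apply, smul_eq_mul] at this
    simp only [Matrix.map_apply, Int.coe_castRingHom, Matrix.mul_apply, hA, hT', Matrix.of_apply]
    rw [← this]
    exact Finset.sum_congr rfl fun i _ => mul_comm _ _
  set P : (Fin r → Fin n) → ℚ := fun s => (Matrix.of fun i j => b i (s j)).det with hP
  have hminor : ∀ s, ((minor B s : ℤ) : ℚ) = T'.det * P s := by
    intro s
    have h1 : ((minor B s : ℤ) : ℚ) = minor (B.map (Int.castRingHom ℚ)) s := by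
      rw [minor_map]; rfl
    rw [h1, hBA]
    unfold minor
    have h2 : (A * T').submatrix s id = A.submatrix s id * T' := by
      ext a k
      simp [Matrix.mul_apply, Matrix.submatrix_apply]
    rw [h2, Matrix.det_mul, mul_comm]
    congr 1
    rw [hP]
    simp only
    rw [← Matrix.det_transpose]
    congr 1
  have hTdet : T'.det ≠ 0 := by
    intro h
    have := hminor s₁
    rw [h, zero_mul] at this
    exact hs₁ (by exact_mod_cast this)
  have hPeq : ((↑) : ℤ → ℚ) ∘ minor B = T'.det • P := by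
    ext s
    simp only [Function.comp_apply, Pi.smul_apply, smul_eq_mul]
    exact hminor s
  have hHP : Height.mulHeight P = ((⨆ s, |minor B s| : ℤ) : ℝ) := by
    rw [← Rat.mulHeight_eq_max_abs_of_gcd_eq_one hgcd, hPeq,
      Height.mulHeight_smul_eq_mulHeight _ hTdet]
  -- a maximal minor
  obtain ⟨s0, -, hs0⟩ := Finset.exists_max_image Finset.univ (fun s => |minor B s|)
    ⟨s₁, Finset.mem_univ _⟩
  have hmax : ∀ s, |minor B s| ≤ |minor B s0| := fun s => hs0 s (Finset.mem_univ _)
  have h00 : minor B s0 ≠ 0 := by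
    intro h
    have := hmax s₁
    rw [h, abs_zero] at this
    exact hs₁ (abs_eq_zero.mp (le_antisymm this (abs_nonneg _)))
  have hsup : (⨆ s, |minor B s|) = |minor B s0| :=
    le_antisymm (ciSup_le hmax)
      (le_ciSup (f := fun s => |minor B s|) (Finite.bddAbove_range _) s0)
  obtain ⟨c, hc0, hBc0, hc⟩ := exists_mulVec_pow_le B hr s0 h00 hmax
  obtain ⟨j, hj⟩ := exists_mulHeight_le_abs (B *ᵥ c) hBc0
  refine ⟨((↑) : ℤ → ℚ) ∘ (B *ᵥ c), ?_, ?_, ?_⟩
  · intro h
    apply hBc0
    ext i
    have := congrFun h i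
    simpa using this
  · have : ((↑) : ℤ → ℚ) ∘ (B *ᵥ c) = ∑ k, (c k : ℚ) • (fun j => (B j k : ℚ)) := by
      ext j
      simp only [Function.comp_apply, Matrix.mulVec, dotProduct, Finset.sum_apply,
        Pi.smul_apply, smul_eq_mul]
      push_cast
      exact Finset.sum_congr rfl fun i _ => mul_comm _ _
    rw [this]
    exact W.sum_mem fun k _ => W.smul_mem _ (hBW k)
  · rw [hHP, hsup]
    calc Height.mulHeight (((↑) : ℤ → ℚ) ∘ (B *ᵥ c)) ^ r
        ≤ (((|(B *ᵥ c) j| : ℤ)) : ℝ) ^ r :=
          pow_le_pow_left₀ (Height.mulHeight_pos _).le hj r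
      _ = ((|(B *ᵥ c) j| ^ r : ℤ) : ℝ) := by push_cast; rfl
      _ ≤ (((r : ℤ) ^ r * |minor B s0| : ℤ) : ℝ) := by exact_mod_cast hc j
      _ = (r : ℝ) ^ r * ((|minor B s0| : ℤ) : ℝ) := by push_cast; rfl

/-- Logarithmic form of `sharp_siegel`: `r · h(x) ≤ h(Plücker vector) + r · log r`. -/
theorem sharp_siegel_log (n r : ℕ) (hr : 0 < r) (b : Fin r → Fin n → ℚ)
    (hb : LinearIndependent ℚ b) :
    ∃ x : Fin n → ℚ, x ≠ 0 ∧ x ∈ Submodule.span ℚ (Set.range b) ∧
      (r : ℝ) * Height.logHeight x ≤
        Height.logHeight (fun s : Fin r → Fin n => (Matrix.of fun i j => b i (s j)).det) +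
          r * Real.log r := by
  obtain ⟨x, hx0, hxW, hx⟩ := sharp_siegel n r hr b hb
  refine ⟨x, hx0, hxW, ?_⟩
  have hrpos : (0 : ℝ) < r := by exact_mod_cast hr
  have h1 := Real.log_le_log (pow_pos (Height.mulHeight_pos x) r) hx
  rw [Real.log_pow, Real.log_mul (pow_pos hrpos r).ne' (Height.mulHeight_pos _).ne',
    Real.log_pow] at h1
  simp only [Height.logHeight]
  linarith

/-- `sharp_siegel` for vectors indexed by an arbitrary finite type. -/
theorem sharp_siegel_fintype {ι : Type*} [Fintype ι] (r : ℕ) (hr : 0 < r) (b : Fin r → ι → ℚ)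
    (hb : LinearIndependent ℚ b) :
    ∃ x : ι → ℚ, x ≠ 0 ∧ x ∈ Submodule.span ℚ (Set.range b) ∧
      Height.mulHeight x ^ r ≤ (r : ℝ) ^ r *
        Height.mulHeight (fun s : Fin r → ι => (Matrix.of fun i j => b i (s j)).det) := by
  classical
  set e : ι ≃ Fin (Fintype.card ι) := Fintype.equivFin ι with he
  set L : (ι → ℚ) ≃ₗ[ℚ] (Fin (Fintype.card ι) → ℚ) := LinearEquiv.funCongrLeft ℚ ℚ e.symm with hL
  have hb' : LinearIndependent ℚ (fun i => L (b i)) := hb.map' L.toLinearMap L.ker
  obtain ⟨x', hx'0, hx'W, hx'⟩ := sharp_siegel _ r hr _ hb'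
  have hP : (fun s' : Fin r → Fin (Fintype.card ι) =>
        (Matrix.of fun i j => L (b i) (s' j)).det) =
      (fun s : Fin r → ι => (Matrix.of fun i j => b i (s j)).det) ∘
        (Equiv.arrowCongr (Equiv.refl (Fin r)) e.symm) := by
    funext s'
    rfl
  rw [hP, Height.mulHeight_comp_equiv] at hx'
  refine ⟨L.symm x', ?_, ?_, ?_⟩
  · intro h
    exact hx'0 (by simpa using h)
  · have h1 : Set.range (fun i => L (b i)) = L '' Set.range b := by
      rw [← Set.range_comp]
      rfl
    rw [h1] at hx'W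
    have hx'W' : x' ∈ Submodule.map L.toLinearMap (Submodule.span ℚ (Set.range b)) := by
      rw [Submodule.map_span]
      exact hx'W
    obtain ⟨y, hy, hyx⟩ := hx'W'
    have : L.symm x' = y := by
      rw [← hyx]
      exact L.symm_apply_apply y
    rw [this]
    exact hy
  · have h2 : (L.symm x' : ι → ℚ) = x' ∘ e := by
      funext i
      rfl
    rw [h2, Height.mulHeight_comp_equiv]
    exact hx'

/-- `sharp_siegel` for a subspace with a given basis. -/
theorem sharp_siegel_basis {ι : Type*} [Fintype ι] (W : Submodule ℚ (ι → ℚ)) (r : ℕ)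
    (hr : 0 < r) (b : Module.Basis (Fin r) ℚ W) :
    ∃ x : ι → ℚ, x ≠ 0 ∧ x ∈ W ∧
      Height.mulHeight x ^ r ≤ (r : ℝ) ^ r *
        Height.mulHeight (fun s : Fin r → ι => (Matrix.of fun i j => (b i : ι → ℚ) (s j)).det) := by
  have hli : LinearIndependent ℚ (fun i => (b i : ι → ℚ)) :=
    b.linearIndependent.map' W.subtype W.ker_subtype
  obtain ⟨x, hx0, hxW, hx⟩ := sharp_siegel_fintype r hr _ hli
  refine ⟨x, hx0, ?_, hx⟩
  refine (Submodule.span_le.mpr ?_) hxW
  rintro _ ⟨i, rfl⟩
  exact (b i).2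

end Height

end Fermat.Agent.Lib.helper2177
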