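import Mathlib
import Fermat.Prelude.Def_FLTPrelim_Ramification
import Fermat.Agent.Lib.helper54_Frobenius

/-!
# Minkowski's theorem in inertia form (helper2299)

An open subgroup of `Gal(ℚ̄/ℚ)` containing the inertia subgroup of every valuation subring of `ℚ̄`
lying over a prime is the whole group: `ℚ` has no nontrivial extension unramified everywhere.
-/

set_option autoImplicit false

namespace Fermat.Agent.Lib.helper2299

open scoped Pointwise NumberField
open Fermat.Agent.Lib.helper54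

attribute [local instance] isAlgebraic_Qbar isAlgClosure_Qbar isGalois_Qbar isIntegral_Qbar

local notation "Qb" => AlgebraicClosure ℚ
local notation "GQ" => (AlgebraicClosure ℚ ≃ₐ[ℚ] AlgebraicClosure ℚ)
local notation "Zb" => integralClosure ℤ (AlgebraicClosure ℚ)

/-- Membership in the inertia subgroup of the decomposition group, elementwise. -/
theorem mem_inertiaSubgroup_iff (A : ValuationSubring Qb) (g : A.decompositionSubgroup ℚ) :
    g ∈ A.inertiaSubgroup ℚ ↔ ∀ x : A, g • x - x ∈ IsLocalRing.maximalIdeal A := by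
  rw [ValuationSubring.inertiaSubgroup, MonoidHom.mem_ker]
  constructor
  · intro h x
    have h1 := congrArg (fun f : RingAut (IsLocalRing.ResidueField A) => f (IsLocalRing.residue A x)) h
    simp only [MulSemiringAction.toRingAut_apply, RingAut.one_apply] at h1
    change g • (IsLocalRing.residue A x) = _ at h1
    rw [← IsLocalRing.ResidueField.residue_smul] at h1
    rw [← IsLocalRing.residue_eq_zero_iff, map_sub, h1, sub_self]
  · intro h
    ext xbar
    obtain ⟨x, rfl⟩ := IsLocalRing.residue_surjective xbar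
    simp only [MulSemiringAction.toRingAut_apply, RingAut.one_apply]
    change g • (IsLocalRing.residue A x) = _
    rw [← IsLocalRing.ResidueField.residue_smul, ← sub_eq_zero, ← map_sub,
      IsLocalRing.residue_eq_zero_iff]
    exact h x

/-- Elementwise characterisation of the inertia subgroup (as a subgroup of the full Galois
group) of a valuation subring of `ℚ̄`. -/
theorem mem_inertiaSubgroupIn_iff (A : ValuationSubring Qb) (σ : GQ) :
    σ ∈ A.inertiaSubgroupIn ℚ ↔ σ • A = A ∧ ∀ x ∈ A, σ x - x ∈ A.nonunits := by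
  rw [ValuationSubring.inertiaSubgroupIn, Subgroup.mem_map]
  constructor
  · rintro ⟨g, hg, rfl⟩
    refine ⟨g.2, fun x hx => ?_⟩
    have h := (mem_inertiaSubgroup_iff A g).mp hg ⟨x, hx⟩
    exact ValuationSubring.coe_mem_nonunits_iff.mpr h
  · rintro ⟨h1, h2⟩
    refine ⟨⟨σ, h1⟩, ?_, rfl⟩
    rw [mem_inertiaSubgroup_iff]
    intro x
    exact ValuationSubring.coe_mem_nonunits_iff.mp (h2 x.1 x.2)

/-- Nonunits of a translated valuation subring. -/
theorem mem_nonunits_smul_iff (A : ValuationSubring Qb) (τ : GQ) (x : Qb) :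
    x ∈ (τ • A).nonunits ↔ τ⁻¹ x ∈ A.nonunits := by
  rw [ValuationSubring.mem_nonunits_iff_or, ValuationSubring.mem_nonunits_iff_or,
    ValuationSubring.mem_pointwise_smul_iff_inv_smul_mem]
  have h1 : τ⁻¹ • x⁻¹ = (τ⁻¹ x)⁻¹ := by
    rw [AlgEquiv.smul_def, map_inv₀]
  have h2 : τ⁻¹ x = 0 ↔ x = 0 := by
    rw [map_eq_zero_iff _ (AlgEquiv.injective _)]
  rw [h1, h2]

/-- Translates of a valuation subring over `q` lie over `q`. -/
theorem liesOverPrime_smul (A : ValuationSubring Qb) (q : ℕ) (hA : A.LiesOverPrime q) (τ : GQ) :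
    (τ • A).LiesOverPrime q := by
  unfold ValuationSubring.LiesOverPrime at hA ⊢
  rw [mem_nonunits_smul_iff, map_natCast]
  exact hA

/-- The family of inertia subgroups is stable under conjugation. -/
theorem conj_mem_inertiaSubgroupIn (A : ValuationSubring Qb) (σ τ : GQ)
    (hσ : σ ∈ A.inertiaSubgroupIn ℚ) : τ * σ * τ⁻¹ ∈ (τ • A).inertiaSubgroupIn ℚ := by
  rw [mem_inertiaSubgroupIn_iff] at hσ ⊢
  obtain ⟨h1, h2⟩ := hσ
  refine ⟨?_, fun x hx => ?_⟩
  · rw [mul_smul, mul_smul, inv_smul_smul, h1]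
  · rw [ValuationSubring.mem_pointwise_smul_iff_inv_smul_mem] at hx
    rw [mem_nonunits_smul_iff]
    have h3 := h2 (τ⁻¹ x) hx
    have h4 : τ⁻¹ ((τ * σ * τ⁻¹) x - x) = σ (τ⁻¹ x) - τ⁻¹ x := by
      rw [map_sub]
      congr 1
      simp [AlgEquiv.mul_apply]
    rw [h4]
    exact h3

/-- An automorphism that stabilises the prime of the ring of algebraic integers cut out by `A`
and acts trivially modulo this prime lies in the inertia subgroup of `A`. -/
theorem mem_inertiaSubgroupIn_of_zbar {p : ℕ} (hp : p.Prime) (A : ValuationSubring Qb)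
    (hA : A.LiesOverPrime p) (σ : GQ)
    (h1 : σ • primeOfValuationSubring A = primeOfValuationSubring A)
    (h2 : ∀ b : Zb, σ • b - b ∈ primeOfValuationSubring A) :
    σ ∈ A.inertiaSubgroupIn ℚ := by
  have hD := mem_decompositionSubgroup_of_smul_prime_eq hp A hA σ h1
  have hDA : σ • A = A := MulAction.mem_stabilizer_iff.mp hD
  rw [mem_inertiaSubgroupIn_iff]
  refine ⟨hDA, fun x hx => ?_⟩
  obtain ⟨a, b, hb, hab⟩ := exists_frac_of_mem_valuationSubring hp A hA x hx
  have hσx : σ x ∈ A := by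
    have h3 : σ • x ∈ σ • A := ValuationSubring.smul_mem_pointwise_smul σ x A hx
    rw [hDA] at h3
    exact h3
  have hσb : σ • b ∉ primeOfValuationSubring A := by
    intro h
    apply hb
    have h4 := (primeOfValuationSubring A).sub_mem h (h2 b)
    rwa [sub_sub_cancel] at h4
  have key : ((⟨σ x, hσx⟩ : A) - ⟨x, hx⟩) * zbarToValuationSubring A (σ • b) =
      zbarToValuationSubring A (σ • a - a) - ⟨x, hx⟩ * zbarToValuationSubring A (σ • b - b) := by
    apply Subtype.ext
    have h3 : σ x * σ (b : Qb) = σ (a : Qb) := by rw [← map_mul, hab]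
    show (σ x - x) * σ (b : Qb) = (σ (a : Qb) - (a : Qb)) - x * (σ (b : Qb) - (b : Qb))
    rw [← h3, ← hab]
    ring
  have hmem : ((⟨σ x, hσx⟩ : A) - ⟨x, hx⟩) * zbarToValuationSubring A (σ • b) ∈
      IsLocalRing.maximalIdeal A := by
    rw [key]
    exact Ideal.sub_mem _ (h2 a) (Ideal.mul_mem_left _ _ (h2 b))
  have hprime : (IsLocalRing.maximalIdeal A).IsPrime := inferInstance
  rcases hprime.mem_or_mem hmem with h | h
  · exact ValuationSubring.coe_mem_nonunits_iff.mpr h
  · exact absurd h hσb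

/-- A normal intermediate field is stable under every automorphism. -/
theorem map_mem_of_normal (K : IntermediateField ℚ Qb) [Normal ℚ K] (ρ : GQ) (x : Qb)
    (hx : x ∈ K) : ρ x ∈ K := by
  have h := AlgEquiv.restrictNormal_commutes ρ K ⟨x, hx⟩
  have h' : ρ x = algebraMap K Qb (ρ.restrictNormal K ⟨x, hx⟩) := h.symm
  rw [h']
  exact (ρ.restrictNormal K ⟨x, hx⟩).2

/-- **Lifting of inertia.** Let `A` be a valuation subring of `ℚ̄` over `p`, `K` a normal
intermediate field and `τ` an automorphism acting trivially on the integers of `K` modulo the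
maximal ideal of `A`. Then the restriction of `τ` to `K` is the restriction of an element of the
inertia subgroup of `A`. -/
theorem exists_mem_inertiaSubgroupIn_of_forall_sub_mem {p : ℕ} (hp : p.Prime)
    (A : ValuationSubring Qb) (hA : A.LiesOverPrime p)
    (K : IntermediateField ℚ Qb) [Normal ℚ K] (τ : GQ)
    (hτ : ∀ x ∈ K, IsIntegral ℤ x → τ x - x ∈ A.nonunits) :
    ∃ σ ∈ A.inertiaSubgroupIn ℚ, ∀ x ∈ K, σ x = τ x := by
  classical
  set Q := primeOfValuationSubring A with hQ
  have hclosed : IsClosed (K.fixingSubgroup : Set GQ) := InfiniteGalois.fixingSubgroup_isClosed K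
  have : CompactSpace K.fixingSubgroup := isCompact_iff_compactSpace.mp hclosed.isCompact
  let : TopologicalSpace Zb := ⊥
  have : DiscreteTopology Zb := ⟨rfl⟩
  have : ContinuousSMul K.fixingSubgroup Zb := by
    rw [continuousSMul_iff_stabilizer_isOpen]
    intro z
    have h1 : (MulAction.stabilizer K.fixingSubgroup z : Set K.fixingSubgroup) =
        Subtype.val ⁻¹' (MulAction.stabilizer GQ (z : Qb) : Set GQ) := by
      ext g
      simp only [SetLike.mem_coe, MulAction.mem_stabilizer_iff, Set.mem_preimage]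
      constructor
      · intro h
        exact congrArg Subtype.val h
      · intro h
        exact Subtype.ext h
    rw [h1]
    exact (stabilizer_isOpen_of_isIntegral _).preimage continuous_subtype_val
  have : Algebra.IsInvariant (FixedPoints.subring Zb K.fixingSubgroup) Zb K.fixingSubgroup :=
    ⟨fun b hb => ⟨⟨b, hb⟩, rfl⟩⟩
  -- elements of the fixed ring lie in `K`
  have hA'K : ∀ z : FixedPoints.subring Zb K.fixingSubgroup, ((z : Zb) : Qb) ∈ K := by
    intro z
    have h0 : ((z : Zb) : Qb) ∈ IntermediateField.fixedField K.fixingSubgroup := by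
      rw [IntermediateField.mem_fixedField_iff]
      intro f hf
      exact congrArg Subtype.val (z.2 ⟨f, hf⟩)
    rwa [InfiniteGalois.fixedField_fixingSubgroup K] at h0
  -- `τ` acts trivially on the fixed ring modulo `Q`
  have hτA' : ∀ (ρ : GQ), (∀ x ∈ K, ρ x = τ x) →
      ∀ z : FixedPoints.subring Zb K.fixingSubgroup, ρ • (z : Zb) - (z : Zb) ∈ Q := by
    intro ρ hρ z
    rw [hQ, mem_primeOfValuationSubring]
    have h1 := hτ _ (hA'K z) (z : Zb).2
    rw [← hρ _ (hA'K z)] at h1
    exact h1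
  -- the two primes have the same contraction
  have hunder : (τ • Q).under (FixedPoints.subring Zb K.fixingSubgroup) =
      Q.under (FixedPoints.subring Zb K.fixingSubgroup) := by
    ext z
    rw [Ideal.mem_comap, Ideal.mem_comap, Ideal.mem_pointwise_smul_iff_inv_smul_mem]
    have hz : ((z : Zb) : Qb) ∈ K := hA'K z
    have hx : τ⁻¹ ((z : Zb) : Qb) ∈ K := map_mem_of_normal K τ⁻¹ _ hz
    have hint : IsIntegral ℤ (τ⁻¹ ((z : Zb) : Qb)) := (τ⁻¹ • (z : Zb)).2
    have h := hτ _ hx hint
    have h' : (z : Zb) - τ⁻¹ • (z : Zb) ∈ Q := by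
      rw [hQ, mem_primeOfValuationSubring]
      have e : (((z : Zb) - τ⁻¹ • (z : Zb) : Zb) : Qb) =
          τ (τ⁻¹ ((z : Zb) : Qb)) - τ⁻¹ ((z : Zb) : Qb) := by
        have e1 : τ (τ⁻¹ ((z : Zb) : Qb)) = ((z : Zb) : Qb) := by
          rw [← AlgEquiv.mul_apply, mul_inv_cancel, AlgEquiv.one_apply]
        rw [e1]
        rfl
      rw [e]
      exact h
    have hzz : algebraMap (FixedPoints.subring Zb K.fixingSubgroup) Zb z = (z : Zb) := rfl
    rw [hzz]
    constructor
    · intro h1
      have h2 := Q.add_mem h' h1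
      rwa [sub_add_cancel] at h2
    · intro h1
      have h2 := Q.sub_mem h1 h'
      rwa [sub_sub_cancel] at h2
  have hτQprime : (τ • Q).IsPrime := by
    rw [Ideal.pointwise_smul_eq_comap]
    exact Ideal.comap_isPrime _ _
  obtain ⟨g, hg⟩ := Algebra.IsInvariant.exists_smul_of_under_eq_of_profinite
    (A := FixedPoints.subring Zb K.fixingSubgroup) (G := K.fixingSubgroup) (τ • Q) Q hunder
  set τ' : GQ := (g : GQ) * τ with hτ'
  have hτ'Q : τ' • Q = Q := by
    rw [hτ', mul_smul]
    exact hg.symm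
  have hτ'K : ∀ x ∈ K, τ' x = τ x := by
    intro x hx
    rw [hτ', AlgEquiv.mul_apply]
    exact (IntermediateField.mem_fixingSubgroup_iff K g).mp g.2 _ (map_mem_of_normal K τ x hx)
  -- the automorphism of the residue ring induced by `τ'`
  let φ₀ : (Zb ⧸ Q) ≃ₐ[ℤ ⧸ Q.under ℤ] (Zb ⧸ Q) :=
    Ideal.Quotient.stabilizerHom Q (Q.under ℤ) GQ ⟨τ', hτ'Q⟩
  have hφ₀ : ∀ b : Zb, φ₀ (Ideal.Quotient.mk Q b) = Ideal.Quotient.mk Q (τ' • b) := by
    intro b
    exact Ideal.Quotient.stabilizerHom_apply Q (Q.under ℤ) GQ ⟨τ', hτ'Q⟩ b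
  let φ : (Zb ⧸ Q) ≃ₐ[(FixedPoints.subring Zb K.fixingSubgroup) ⧸
      Q.under (FixedPoints.subring Zb K.fixingSubgroup)] (Zb ⧸ Q) :=
    AlgEquiv.ofRingEquiv (f := φ₀.toRingEquiv) (by
      intro r
      obtain ⟨a, rfl⟩ := Ideal.Quotient.mk_surjective r
      rw [Ideal.Quotient.algebraMap_mk_of_liesOver]
      show φ₀ (Ideal.Quotient.mk Q (a : Zb)) = Ideal.Quotient.mk Q (a : Zb)
      rw [hφ₀, Ideal.Quotient.eq]
      exact hτA' τ' hτ'K a)
  have hφ : ∀ b : Zb, φ (Ideal.Quotient.mk Q b) = Ideal.Quotient.mk Q (τ' • b) := hφ₀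
  obtain ⟨⟨ρ, hρ⟩, hρφ⟩ := Ideal.Quotient.stabilizerHom_surjective_of_profinite
    (G := K.fixingSubgroup) (Q.under (FixedPoints.subring Zb K.fixingSubgroup)) Q φ
  have hρQ : (ρ : GQ) • Q = Q := hρ
  have hρb : ∀ b : Zb, (ρ : GQ) • b - τ' • b ∈ Q := by
    intro b
    have h1 := DFunLike.congr_fun hρφ (Ideal.Quotient.mk Q b)
    rw [Ideal.Quotient.stabilizerHom_apply, hφ, Ideal.Quotient.eq] at h1
    exact h1
  refine ⟨(ρ : GQ)⁻¹ * τ', ?_, ?_⟩
  · apply mem_inertiaSubgroupIn_of_zbar hp A hA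
    · rw [mul_smul, hτ'Q, inv_smul_eq_iff, hρQ]
    · intro b
      have h1 : ((ρ : GQ)⁻¹ * τ') • b - b = (ρ : GQ)⁻¹ • (τ' • b - (ρ : GQ) • b) := by
        rw [mul_smul, smul_sub, inv_smul_smul]
      rw [h1]
      have h2 : τ' • b - (ρ : GQ) • b ∈ Q := by
        have h3 := Q.neg_mem (hρb b)
        rwa [neg_sub] at h3
      have h4 : (ρ : GQ)⁻¹ • (τ' • b - (ρ : GQ) • b) ∈ (ρ : GQ)⁻¹ • Q :=
        Ideal.smul_mem_pointwise_smul _ _ _ h2
      rwa [inv_smul_eq_iff.mpr hρQ.symm] at h4
  · intro x hx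
    rw [AlgEquiv.mul_apply, hτ'K x hx]
    have h1 : (ρ : GQ)⁻¹ ∈ K.fixingSubgroup := K.fixingSubgroup.inv_mem ρ.2
    exact (IntermediateField.mem_fixingSubgroup_iff K _).mp h1 _ (map_mem_of_normal K τ x hx)

/-- In a Galois number field, a ramified prime has a nontrivial inertia group. -/
theorem exists_ne_one_mem_inertia (K : Type*) [Field K] [NumberField K] [IsGalois ℚ K]
    (P : Ideal (𝓞 K)) [P.IsPrime] (hP : ¬ Algebra.IsUnramifiedAt ℤ P) :
    ∃ σ : K ≃ₐ[ℚ] K, σ ≠ 1 ∧ ∀ x : 𝓞 K, σ • x - x ∈ P := by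
  have h1 : Nat.card (P.inertia (K ≃ₐ[ℚ] K)) = (P.under ℤ).ramificationIdxIn (𝓞 K) :=
    Ideal.card_inertia_eq_ramificationIdxIn (P.under ℤ) P
  rw [Ideal.ramificationIdxIn_eq_ramificationIdx (P.under ℤ) P (K ≃ₐ[ℚ] K)] at h1
  have h2 : P.ramificationIdx ℤ ≠ 1 := fun h => hP (Ideal.ramificationIdx_eq_one_iff.mp h)
  have h3 : P.inertia (K ≃ₐ[ℚ] K) ≠ ⊥ := by
    intro h
    rw [h, Subgroup.card_bot] at h1
    exact h2 h1.symm
  obtain ⟨⟨σ, hσ⟩, hne⟩ := (Subgroup.ne_bot_iff_exists_ne_one).mp h3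
  refine ⟨σ, ?_, fun x => ?_⟩
  · intro h
    apply hne
    exact Subtype.ext h
  · exact hσ x

/-- **Minkowski's theorem in inertia form**: an open subgroup of `Gal(ℚ̄/ℚ)` containing the
inertia subgroup of every valuation subring of `ℚ̄` lying over a prime is the whole group. -/
theorem minkowski_inertia (H : Subgroup GQ) (hH : IsOpen (H : Set GQ))
    (hI : ∀ q : ℕ, q.Prime → ∀ A : ValuationSubring Qb, A.LiesOverPrime q →
      A.inertiaSubgroupIn ℚ ≤ H) : H = ⊤ := by
  -- pass to the normal core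
  have hNI : ∀ q : ℕ, q.Prime → ∀ A : ValuationSubring Qb, A.LiesOverPrime q →
      A.inertiaSubgroupIn ℚ ≤ H.normalCore := by
    intro q hq A hA σ hσ
    show ∀ b : GQ, b * σ * b⁻¹ ∈ H
    intro b
    exact hI q hq (b • A) (liesOverPrime_smul A q hA b) (conj_mem_inertiaSubgroupIn A σ b hσ)
  have hHclosed : IsClosed (H : Set GQ) := Subgroup.isClosed_of_isOpen H hH
  have hfinq : Finite (GQ ⧸ H) := Subgroup.quotient_finite_of_isOpen H hH
  have hfin : H.FiniteIndex := Subgroup.finiteIndex_of_finite_quotient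
  have hNclosed : IsClosed (H.normalCore : Set GQ) := H.normalCore_isClosed hHclosed
  have hNopen : IsOpen (H.normalCore : Set GQ) :=
    Subgroup.isOpen_of_isClosed_of_finiteIndex _ hNclosed
  have hNnormal : H.normalCore.Normal := Subgroup.normalCore_normal H
  set K : IntermediateField ℚ Qb := IntermediateField.fixedField H.normalCore with hK
  have hKN : K.fixingSubgroup = H.normalCore :=
    InfiniteGalois.fixingSubgroup_fixedField ⟨H.normalCore, hNclosed⟩
  have hKfin : FiniteDimensional ℚ K :=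
    (InfiniteGalois.isOpen_iff_finite K).mp (by rw [hKN]; exact hNopen)
  have hKgal : IsGalois ℚ K :=
    (InfiniteGalois.normal_iff_isGalois K).mp (by rw [hKN]; exact hNnormal)
  have hKnf : NumberField K := { to_charZero := inferInstance, to_finiteDimensional := hKfin }
  have hK1 : Module.finrank ℚ K = 1 := by
    by_contra hne
    have hpos : 0 < Module.finrank ℚ K := Module.finrank_pos
    have hlt : 1 < Module.finrank ℚ K := by omega
    obtain ⟨p, hp, hram⟩ :=
      NumberField.exists_not_isUnramifiedAt_int_of_isGalois (K := K) (𝒪 := 𝓞 K) hlt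
    obtain ⟨A, hA⟩ := exists_liesOverPrime hp
    -- the prime of `𝓞 K` cut out by `A`
    let ι : 𝓞 K →+* Zb :=
      { toFun := fun x => ⟨((x : K) : Qb), by
          have h1 : IsIntegral ℤ (x : K) := x.2
          exact h1.map (IsScalarTower.toAlgHom ℤ K Qb)⟩
        map_one' := rfl
        map_mul' := fun _ _ => rfl
        map_zero' := rfl
        map_add' := fun _ _ => rfl }
    let P : Ideal (𝓞 K) := (primeOfValuationSubring A).comap ι
    have hPprime : P.IsPrime := Ideal.comap_isPrime _ _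
    have hpP : ((p : ℕ) : 𝓞 K) ∈ P := by
      show ι ((p : ℕ) : 𝓞 K) ∈ primeOfValuationSubring A
      rw [map_natCast]
      exact natCast_mem_primeOfValuationSubring A hA
    obtain ⟨σ, hσ1, hσ⟩ := exists_ne_one_mem_inertia K P (hram P hPprime hpP)
    obtain ⟨τ, hτ⟩ := AlgEquiv.restrictNormalHom_surjective Qb σ
    have hτK : ∀ x : K, τ (x : Qb) = ((σ x : K) : Qb) := by
      intro x
      rw [← hτ]
      exact (AlgEquiv.restrictNormal_commutes τ K x).symm
    obtain ⟨σ', hσ'I, hσ'K⟩ := exists_mem_inertiaSubgroupIn_of_forall_sub_mem hp A hA K τ (by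
      intro x hx hint
      have hint' : IsIntegral ℤ (⟨x, hx⟩ : K) :=
        (isIntegral_algHom_iff (IsScalarTower.toAlgHom ℤ K Qb) (algebraMap K Qb).injective).mp hint
      let y : 𝓞 K := ⟨⟨x, hx⟩, hint'⟩
      have h2 : ι (σ • y - y) ∈ primeOfValuationSubring A := hσ y
      rw [mem_primeOfValuationSubring] at h2
      have h3 : ((ι (σ • y - y) : Zb) : Qb) = τ x - x := by
        rw [hτK ⟨x, hx⟩]
        rfl
      rw [h3] at h2
      exact h2)
    have hσ'N : σ' ∈ K.fixingSubgroup := by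
      rw [hKN]
      exact hNI p hp A hA hσ'I
    apply hσ1
    ext x
    rw [← hτK x, ← hσ'K _ x.2]
    exact (IntermediateField.mem_fixingSubgroup_iff K σ').mp hσ'N _ x.2
  have hKbot : K = ⊥ := IntermediateField.finrank_eq_one_iff.mp hK1
  have hNtop : H.normalCore = ⊤ := by
    rw [← hKN, hKbot, IntermediateField.fixingSubgroup_bot]
  exact top_unique (hNtop ▸ H.normalCore_le)

end Fermat.Agent.Lib.helper2299
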