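/-
helper229 (library file, by-product of an independent proof of S49).

Contents (all for `CuspForm (Gamma0 N) k`, Prelude Hecke operators):
* `qCoeffLin N k n` : the `n`-th q-coefficient as a `ℂ`-linear functional; `qCoeff_zero_eq_zero`;
  `eq_zero_of_forall_qCoeff_eq_zero` (q-expansion principle); `qCoeff_heckeTLin`,
  `qCoeff_heckeULin` (q-coefficients of `T_p f`, `U_p f`).
* `IntQ f` (all q-coefficients in `ℤ`), `Q3 f` (all q-coefficients in `3ℤ`), closure properties,
  `intQ_of_mem_intLattice`, `mem_intLattice_of_intQ`, stability under the Prelude Hecke algebra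
  (`IntQ.hecke`, `Q3.hecke`).
* `exists_finset_span_of_hasIntegralStructure`, `finiteDimensional_of_hasIntegralStructure`.
* `heckeAlgebra_finite_of_hasIntegralStructure` :
    `1 ≤ k → CuspForm.HasIntegralStructure N k → Module.Finite ℤ (CuspForm.heckeAlgebra N k S)`
  (the bridge "integral structure in weight k ⟹ the statement of S22 in weight k").
-/
import Mathlib
import Fermat.Prelude.Def_FLTPrelim_Modularity
import Fermat.Prelude.Def_ModularForm_HeckeOperatorForms
import Fermat.Prelude.Def_CuspForm_IntegralStructure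
import Fermat.Prelude.Def_CuspForm_HeckeAlgebra
import Fermat.Prelude.Thm_ModularFormClass_qCoeff_heckeT
import Fermat.Prelude.Thm_ModularFormClass_qCoeff_heckeU
import Fermat.Prelude.Thm_CongruenceSubgroup_one_mem_strictPeriods_Gamma0
import Fermat.Prelude.Thm_CuspForm_intLattice_fg
import Fermat.Prelude.Thm_CuspForm_mem_intLattice_of_mem_heckeAlgebra

set_option autoImplicit false

namespace Fermat.Agent.Lib.helper229

section QCoeff


open ModularFormClass CongruenceSubgroup UpperHalfPlane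

variable {N : ℕ} {k : ℤ}

/-- The `n`-th q-coefficient as a `ℂ`-linear functional on cusp forms of level `Γ₀(N)`. -/
noncomputable def qCoeffLin (N : ℕ) (k : ℤ) (n : ℕ) : CuspForm (Gamma0 N) k →ₗ[ℂ] ℂ where
  toFun f := qCoeff f n
  map_add' f g := by
    change (qExpansion 1 (⇑(f + g))).coeff n = (qExpansion 1 f).coeff n + (qExpansion 1 g).coeff n
    rw [FunLike.coe_add,
      ModularForm.qExpansion_add one_pos (one_mem_strictPeriods_Gamma0 N) f g, map_add]
  map_smul' c f := by
    change (qExpansion 1 (⇑(c • f))).coeff n = c • (qExpansion 1 f).coeff n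
    rw [FunLike.coe_smul,
      ModularForm.qExpansion_smul one_pos (one_mem_strictPeriods_Gamma0 N) c f]
    simp

@[simp] theorem qCoeffLin_apply (n : ℕ) (f : CuspForm (Gamma0 N) k) :
    qCoeffLin N k n f = qCoeff f n := rfl

/-- The constant q-coefficient of a cusp form vanishes. -/
theorem qCoeff_zero_eq_zero (f : CuspForm (Gamma0 N) k) : qCoeff f 0 = 0 :=
  CuspFormClass.qExpansion_coeff_zero f one_pos (one_mem_strictPeriods_Gamma0 N)

/-- q-expansion principle for cusp forms of level `Γ₀(N)`. -/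
theorem eq_zero_of_forall_qCoeff_eq_zero (f : CuspForm (Gamma0 N) k)
    (h : ∀ n : ℕ, qCoeff f n = 0) : f = 0 := by
  have hΓ := one_mem_strictPeriods_Gamma0 N
  have hcusp : Fact (IsCusp OnePoint.infty
      (Subgroup.map (Matrix.SpecialLinearGroup.mapGL ℝ) (Gamma0 N))) :=
    ⟨Subgroup.isCusp_of_mem_strictPeriods one_pos hΓ⟩
  have h0 : qExpansion 1 (⇑f) = 0 := by
    ext n
    simpa [qCoeff] using h n
  have h1 : (⇑f : ℍ → ℂ) = 0 :=
    (qExpansion_eq_zero_iff one_pos (SlashInvariantFormClass.periodic_comp_ofComplex f hΓ)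
      (ModularFormClass.holo f) (ModularFormClass.bdd_at_infty f)).mp h0
  exact DFunLike.coe_injective h1

/-- q-coefficients of `T_p f` for `p ∤ N`. -/
theorem qCoeff_heckeTLin {p : ℕ} (hp : p.Prime) (hpN : ¬ p ∣ N)
    (f : CuspForm (Gamma0 N) k) (n : ℕ) :
    qCoeff (CuspForm.heckeTLin k hp hpN f) n =
      qCoeff f (n * p) + if p ∣ n then (p : ℂ) ^ (k - 1) * qCoeff f (n / p) else 0 := by
  rw [CuspForm.coe_heckeTLin_apply,
    ModularFormClass.qCoeff_heckeT f (one_mem_strictPeriods_Gamma0 N) hp.ne_zero n]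
  rfl

/-- q-coefficients of `U_p f` for `p ∣ N`. -/
theorem qCoeff_heckeULin [NeZero N] {p : ℕ} (hp : p ≠ 0) (hpN : p ∣ N)
    (f : CuspForm (Gamma0 N) k) (n : ℕ) :
    qCoeff (CuspForm.heckeULin k hpN f) n = qCoeff f (n * p) := by
  rw [CuspForm.coe_heckeULin_apply,
    ModularFormClass.qCoeff_heckeU f (one_mem_strictPeriods_Gamma0 N) hp n]
  rfl


end QCoeff

section Lattice


open ModularFormClass CongruenceSubgroup UpperHalfPlane

variable {N : ℕ} {k : ℤ}

/-- All q-coefficients are rational integers. -/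
def IntQ (f : CuspForm (Gamma0 N) k) : Prop := ∀ n : ℕ, ∃ m : ℤ, qCoeff f n = (m : ℂ)

/-- All q-coefficients are rational integers divisible by `3`. -/
def Q3 (f : CuspForm (Gamma0 N) k) : Prop := ∀ n : ℕ, ∃ m : ℤ, qCoeff f n = 3 * (m : ℂ)

theorem intQ_zero : IntQ (0 : CuspForm (Gamma0 N) k) := fun n =>
  ⟨0, by rw [← qCoeffLin_apply, map_zero, Int.cast_zero]⟩

theorem IntQ.add {f g : CuspForm (Gamma0 N) k} (hf : IntQ f) (hg : IntQ g) : IntQ (f + g) := by
  intro n
  obtain ⟨a, ha⟩ := hf n
  obtain ⟨b, hb⟩ := hg n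
  exact ⟨a + b, by rw [← qCoeffLin_apply, map_add, qCoeffLin_apply, qCoeffLin_apply, ha, hb,
    Int.cast_add]⟩

theorem IntQ.zsmul {f : CuspForm (Gamma0 N) k} (hf : IntQ f) (c : ℤ) : IntQ (c • f) := by
  intro n
  obtain ⟨a, ha⟩ := hf n
  exact ⟨c * a, by rw [← qCoeffLin_apply, map_zsmul, qCoeffLin_apply, ha, zsmul_eq_mul,
    Int.cast_mul]⟩

theorem intQ_of_mem_intLattice {f : CuspForm (Gamma0 N) k} (hf : f ∈ CuspForm.intLattice N k) :
    IntQ f := by
  unfold CuspForm.intLattice at hf
  induction hf using Submodule.span_induction with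
  | mem x hx => exact hx
  | zero => exact intQ_zero
  | add x y _ _ hx hy => exact hx.add hy
  | smul c x _ hx => exact hx.zsmul c

theorem mem_intLattice_of_intQ {f : CuspForm (Gamma0 N) k} (hf : IntQ f) :
    f ∈ CuspForm.intLattice N k :=
  Submodule.subset_span hf

theorem q3_zero : Q3 (0 : CuspForm (Gamma0 N) k) := fun n =>
  ⟨0, by rw [← qCoeffLin_apply, map_zero, Int.cast_zero, mul_zero]⟩

theorem Q3.add {f g : CuspForm (Gamma0 N) k} (hf : Q3 f) (hg : Q3 g) : Q3 (f + g) := by
  intro n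
  obtain ⟨a, ha⟩ := hf n
  obtain ⟨b, hb⟩ := hg n
  exact ⟨a + b, by rw [← qCoeffLin_apply, map_add, qCoeffLin_apply, qCoeffLin_apply, ha, hb,
    Int.cast_add, mul_add]⟩

theorem Q3.zsmul {f : CuspForm (Gamma0 N) k} (hf : Q3 f) (c : ℤ) : Q3 (c • f) := by
  intro n
  obtain ⟨a, ha⟩ := hf n
  exact ⟨c * a, by rw [← qCoeffLin_apply, map_zsmul, qCoeffLin_apply, ha, zsmul_eq_mul,
    Int.cast_mul]; ring⟩

theorem Q3.neg {f : CuspForm (Gamma0 N) k} (hf : Q3 f) : Q3 (-f) := by
  have := hf.zsmul (-1)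
  simpa using this

theorem Q3.sub {f g : CuspForm (Gamma0 N) k} (hf : Q3 f) (hg : Q3 g) : Q3 (f - g) := by
  rw [sub_eq_add_neg]
  exact hf.add hg.neg

theorem IntQ.q3_three_zsmul {f : CuspForm (Gamma0 N) k} (hf : IntQ f) : Q3 ((3 : ℤ) • f) := by
  intro n
  obtain ⟨a, ha⟩ := hf n
  exact ⟨a, by rw [← qCoeffLin_apply, map_zsmul, qCoeffLin_apply, ha, zsmul_eq_mul]; simp⟩

/-- A form whose q-coefficients are all divisible by `3` is three times an integral form. -/
theorem Q3.exists_eq_three_smul {f : CuspForm (Gamma0 N) k} (hf : Q3 f) :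
    ∃ g : CuspForm (Gamma0 N) k, IntQ g ∧ f = (3 : ℂ) • g := by
  refine ⟨(3 : ℂ)⁻¹ • f, ?_, ?_⟩
  · intro n
    obtain ⟨a, ha⟩ := hf n
    refine ⟨a, ?_⟩
    rw [← qCoeffLin_apply, map_smul, qCoeffLin_apply, ha, smul_eq_mul]
    field_simp
  · rw [smul_smul, mul_inv_cancel₀ (by norm_num : (3 : ℂ) ≠ 0), one_smul]

theorem IntQ.q3_three_smul {f : CuspForm (Gamma0 N) k} (hf : IntQ f) : Q3 ((3 : ℂ) • f) := by
  intro n
  obtain ⟨a, ha⟩ := hf n
  exact ⟨a, by rw [← qCoeffLin_apply, map_smul, qCoeffLin_apply, ha, smul_eq_mul]⟩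

section Hecke

variable [NeZero N]

/-- The Prelude Hecke algebra preserves integrality of q-expansions (weight `k ≥ 1`). -/
theorem IntQ.hecke (hk : 1 ≤ k) {S : Set ℕ}
    {t : Module.End ℂ (CuspForm (Gamma0 N) k)} (ht : t ∈ CuspForm.heckeAlgebra N k S)
    {f : CuspForm (Gamma0 N) k} (hf : IntQ f) : IntQ (t f) :=
  intQ_of_mem_intLattice
    (CuspForm.mem_intLattice_of_mem_heckeAlgebra hk ht (mem_intLattice_of_intQ hf))

/-- The Prelude Hecke algebra preserves divisibility by `3` of q-expansions (weight `k ≥ 1`). -/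
theorem Q3.hecke (hk : 1 ≤ k) {S : Set ℕ}
    {t : Module.End ℂ (CuspForm (Gamma0 N) k)} (ht : t ∈ CuspForm.heckeAlgebra N k S)
    {f : CuspForm (Gamma0 N) k} (hf : Q3 f) : Q3 (t f) := by
  obtain ⟨g, hg, rfl⟩ := hf.exists_eq_three_smul
  rw [map_smul]
  exact (hg.hecke hk ht).q3_three_smul

end Hecke

section Finite

variable [NeZero N]

/-- If the integral lattice spans, the space of cusp forms is finite-dimensional, with an
explicit finite spanning set inside the lattice. -/
theorem exists_finset_span_of_hasIntegralStructure (h : CuspForm.HasIntegralStructure N k) :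
    ∃ F : Finset (CuspForm (Gamma0 N) k),
      Submodule.span ℤ (F : Set (CuspForm (Gamma0 N) k)) = CuspForm.intLattice N k ∧
      Submodule.span ℂ (F : Set (CuspForm (Gamma0 N) k)) = ⊤ := by
  obtain ⟨F, hF⟩ := CuspForm.intLattice_fg N k
  refine ⟨F, hF, ?_⟩
  rw [eq_top_iff, ← h]
  apply Submodule.span_le.mpr
  intro x hx
  have hx' : x ∈ Submodule.span ℤ (F : Set (CuspForm (Gamma0 N) k)) := by rw [hF]; exact hx
  exact Submodule.span_le_restrictScalars ℤ ℂ _ hx'

theorem finiteDimensional_of_hasIntegralStructure (h : CuspForm.HasIntegralStructure N k) :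
    FiniteDimensional ℂ (CuspForm (Gamma0 N) k) := by
  obtain ⟨F, -, hF⟩ := exists_finset_span_of_hasIntegralStructure h
  exact Module.Finite.of_fg_top ⟨F, hF⟩

end Finite


end Lattice

open ModularFormClass CongruenceSubgroup UpperHalfPlane

section HeckeFinite

variable {N : ℕ} [NeZero N] {k : ℤ}

/-- If the integral lattice spans the space of cusp forms, the Prelude Hecke algebra is a finite
`ℤ`-module (weight `k ≥ 1`). -/
theorem heckeAlgebra_finite_of_hasIntegralStructure (hk : 1 ≤ k) (S : Set ℕ)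
    (h : CuspForm.HasIntegralStructure N k) :
    Module.Finite ℤ (CuspForm.heckeAlgebra N k S) := by
  obtain ⟨F, hFL, hFtop⟩ := exists_finset_span_of_hasIntegralStructure h
  have hmemL : ∀ (t : CuspForm.heckeAlgebra N k S) (x : F),
      (t : Module.End ℂ (CuspForm (Gamma0 N) k)) (x : CuspForm (Gamma0 N) k) ∈
        CuspForm.intLattice N k := by
    intro t x
    apply CuspForm.mem_intLattice_of_mem_heckeAlgebra hk t.2
    rw [← hFL]
    exact Submodule.subset_span x.2
  let Φ : (CuspForm.heckeAlgebra N k S) →ₗ[ℤ] (F → CuspForm.intLattice N k) :=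
    { toFun := fun t x => ⟨(t : Module.End ℂ (CuspForm (Gamma0 N) k)) x, hmemL t x⟩
      map_add' := fun s t => by
        funext x
        apply Subtype.ext
        simp
      map_smul' := fun c t => by
        funext x
        apply Subtype.ext
        simp }
  have hΦ : Function.Injective Φ := by
    intro s t hst
    apply Subtype.ext
    apply LinearMap.ext_on hFtop
    intro x hx
    have h1 := congrFun hst ⟨x, hx⟩
    exact congrArg Subtype.val h1
  have : IsNoetherian ℤ (CuspForm.intLattice N k) :=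
    isNoetherian_of_fg_of_noetherian _ (CuspForm.intLattice_fg N k)
  exact Module.Finite.of_injective Φ hΦ

end HeckeFinite

end Fermat.Agent.Lib.helper229
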