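/-
helper2301: universal property of `PSL(2, ℤ) = C₂ * C₃`, stated on `SL(2, ℤ)`.

For every group `H` and `s u : H` with `s * s = 1` and `u * u * u = 1` there is a group
homomorphism `f : SL(2, ℤ) →* H` with `f S = s` and `f (S * T) = u`.

Proof: ping-pong lemma (Mathlib `Monoid.CoprodI.lift_injective_of_ping_pong`) for the action on
the upper half plane with the sets `{re > 0}` and `{re < 0}`, plus generation of `SL(2, ℤ)` by
`S` and `T`.
-/
import Mathlib

set_option autoImplicit false

namespace Fermat.Agent.Lib.helper2301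

open scoped MatrixGroups Pointwise
open UpperHalfPlane

/-- the homomorphism from the cyclic group of order `n` sending the generator to `g`. -/
noncomputable def cyc {G : Type*} [Group G] (n : ℕ) (g : G) (hg : g ^ n = 1) :
    Multiplicative (ZMod n) →* G :=
  AddMonoidHom.toMultiplicativeLeft (ZMod.lift n ⟨zmultiplesHom (Additive G) (Additive.ofMul g), by
    rw [zmultiplesHom_apply, natCast_zsmul, ← ofMul_pow, hg]; rfl⟩)

theorem cyc_gen {G : Type*} [Group G] (n : ℕ) (g : G) (hg : g ^ n = 1) :
    cyc n g hg (Multiplicative.ofAdd 1) = g := by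
  have h1 : (1 : ZMod n) = ((1 : ℤ) : ZMod n) := by simp
  simp only [cyc, AddMonoidHom.coe_toMultiplicativeLeft, Function.comp_apply, toAdd_ofAdd]
  rw [h1, ZMod.lift_coe]
  simp


/-! ## The action on the upper half plane -/

theorem re_S_smul (z : ℍ) : (ModularGroup.S • z).re = -z.re / Complex.normSq (z : ℂ) := by
  rw [UpperHalfPlane.modular_S_smul]
  show ((-(z : ℂ))⁻¹).re = _
  rw [Complex.inv_re, Complex.normSq_neg, Complex.neg_re]
  rfl

theorem re_T_smul (z : ℍ) : (ModularGroup.T • z).re = 1 + z.re := by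
  rw [UpperHalfPlane.modular_T_smul, UpperHalfPlane.vadd_re]

theorem im_T_smul (z : ℍ) : (ModularGroup.T • z).im = z.im := by
  rw [UpperHalfPlane.modular_T_smul, UpperHalfPlane.vadd_im]

theorem normSq_pos' (z : ℍ) : 0 < Complex.normSq (z : ℂ) :=
  Complex.normSq_pos.mpr z.ne_zero

theorem re_S_smul_pos {z : ℍ} (h : z.re < 0) : 0 < (ModularGroup.S • z).re := by
  rw [re_S_smul]
  exact div_pos (by linarith) (normSq_pos' z)

theorem re_S_smul_neg {z : ℍ} (h : 0 < z.re) : (ModularGroup.S • z).re < 0 := by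
  rw [re_S_smul]
  exact div_neg_of_neg_of_pos (by linarith) (normSq_pos' z)

theorem re_S_smul_gt {z : ℍ} (h : 1 < z.re) : -1 < (ModularGroup.S • z).re := by
  rw [re_S_smul, lt_div_iff₀ (normSq_pos' z), Complex.normSq_apply]
  have him : 0 < z.im := z.im_pos
  show -1 * (z.re * z.re + z.im * z.im) < -z.re
  nlinarith

theorem re_ST_smul_neg {z : ℍ} (h : 0 < z.re) :
    ((ModularGroup.S * ModularGroup.T) • z).re < 0 := by
  rw [mul_smul]
  exact re_S_smul_neg (by rw [re_T_smul]; linarith)

theorem re_ST_smul_gt {z : ℍ} (h : 0 < z.re) :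
    -1 < ((ModularGroup.S * ModularGroup.T) • z).re := by
  rw [mul_smul]
  exact re_S_smul_gt (by rw [re_T_smul]; linarith)

theorem re_ST_ST_smul_neg {z : ℍ} (h : 0 < z.re) :
    ((ModularGroup.S * ModularGroup.T) • (ModularGroup.S * ModularGroup.T) • z).re < 0 := by
  rw [mul_smul ModularGroup.S ModularGroup.T]
  exact re_S_smul_neg (by rw [re_T_smul]; linarith [re_ST_smul_gt h])

/-- the permutation representation of `SL(2, ℤ)` on the upper half plane. -/
noncomputable def theta : SL(2, ℤ) →* Equiv.Perm ℍ := MulAction.toPermHom SL(2, ℤ) ℍ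

theorem theta_apply (g : SL(2, ℤ)) (z : ℍ) : theta g z = g • z := rfl

theorem neg_one_smul' (z : ℍ) : (-1 : SL(2, ℤ)) • z = z := by
  simp

theorem S_mul_S : ModularGroup.S * ModularGroup.S = (-1 : SL(2, ℤ)) := by
  apply Subtype.ext
  rw [Matrix.SpecialLinearGroup.coe_mul, ModularGroup.S_mul_S_eq]
  simp

theorem ST_cube :
    (ModularGroup.S * ModularGroup.T) * ((ModularGroup.S * ModularGroup.T)
      * (ModularGroup.S * ModularGroup.T)) = (-1 : SL(2, ℤ)) := by
  ext i j
  fin_cases i <;> fin_cases j <;>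
    simp [ModularGroup.coe_S, ModularGroup.coe_T, Matrix.mul_apply, Fin.sum_univ_two]

theorem theta_S_sq : theta ModularGroup.S ^ 2 = 1 := by
  rw [← map_pow, pow_two, S_mul_S]
  ext z
  simp [theta_apply]

theorem theta_ST_cube : theta (ModularGroup.S * ModularGroup.T) ^ 3 = 1 := by
  rw [← map_pow, pow_succ, pow_two, mul_assoc, ST_cube]
  ext z
  simp [theta_apply]


/-! ## Ping-pong -/

/-- the two cyclic factors `C₂`, `C₃`. -/
abbrev Fac (i : Fin 2) : Type := Multiplicative (ZMod (i.val + 2))

/-- the family of homs out of the cyclic factors determined by two elements of orders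
dividing `2` and `3`. -/
noncomputable def facHom {G : Type*} [Group G] (g : Fin 2 → G) (hg : ∀ i, g i ^ (i.val + 2) = 1)
    (i : Fin 2) : Fac i →* G := cyc (i.val + 2) (g i) (hg i)

theorem facHom_gen {G : Type*} [Group G] (g : Fin 2 → G) (hg : ∀ i, g i ^ (i.val + 2) = 1)
    (i : Fin 2) : facHom g hg i (Multiplicative.ofAdd 1) = g i := cyc_gen _ _ _

/-- the generators in `Perm ℍ`. -/
noncomputable def genP : Fin 2 → Equiv.Perm ℍ :=
  ![theta ModularGroup.S, theta (ModularGroup.S * ModularGroup.T)]

theorem genP_pow : ∀ i : Fin 2, genP i ^ (i.val + 2) = 1 := by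
  intro i
  fin_cases i
  · exact theta_S_sq
  · exact theta_ST_cube

/-- the ping-pong sets. -/
def pingSet : Fin 2 → Set ℍ := ![{z | 0 < z.re}, {z | z.re < 0}]

theorem fac_zero_cases (h : Fac 0) (hne : h ≠ 1) : h = Multiplicative.ofAdd 1 := by
  have key : ∀ a : ZMod 2, a ≠ 0 → a = 1 := by decide
  have h1 : Multiplicative.toAdd h ≠ 0 := fun h0 => hne (Multiplicative.toAdd.injective h0)
  exact Multiplicative.toAdd.injective (key _ h1)

theorem fac_one_cases (h : Fac 1) (hne : h ≠ 1) :
    h = Multiplicative.ofAdd 1 ∨ h = Multiplicative.ofAdd 1 * Multiplicative.ofAdd 1 := by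
  have key : ∀ a : ZMod 3, a ≠ 0 → a = 1 ∨ a = 1 + 1 := by decide
  have h1 : Multiplicative.toAdd h ≠ 0 := fun h0 => hne (Multiplicative.toAdd.injective h0)
  rcases key _ h1 with h2 | h2
  · exact Or.inl (Multiplicative.toAdd.injective h2)
  · exact Or.inr (Multiplicative.toAdd.injective h2)

open scoped Function in
theorem lift_genP_injective :
    Function.Injective (Monoid.CoprodI.lift (facHom genP genP_pow)) := by
  refine Monoid.CoprodI.lift_injective_of_ping_pong (facHom genP genP_pow) ?_ pingSet ?_ ?_ ?_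
  · refine Or.inr ⟨1, ?_⟩
    show (3 : Cardinal) ≤ Cardinal.mk (Multiplicative (ZMod 3))
    rw [Cardinal.mk_fintype]
    simp [ZMod.card]
  · intro i
    fin_cases i
    · refine ⟨(1 : ℝ) +ᵥ UpperHalfPlane.I, ?_⟩
      show 0 < ((1 : ℝ) +ᵥ UpperHalfPlane.I).re
      rw [UpperHalfPlane.vadd_re]; simp
    · refine ⟨(-1 : ℝ) +ᵥ UpperHalfPlane.I, ?_⟩
      show ((-1 : ℝ) +ᵥ UpperHalfPlane.I).re < 0
      rw [UpperHalfPlane.vadd_re]; simp
  · intro i j hij
    fin_cases i <;> fin_cases j
    · exact absurd rfl hij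
    · refine Set.disjoint_left.mpr fun z (hz : 0 < z.re) (hz' : z.re < 0) => ?_
      linarith
    · refine Set.disjoint_left.mpr fun z (hz : z.re < 0) (hz' : 0 < z.re) => ?_
      linarith
    · exact absurd rfl hij
  · intro i j hij
    fin_cases i <;> fin_cases j
    · exact absurd rfl hij
    · intro h hne
      rw [fac_zero_cases h hne]
      have hgen : facHom genP genP_pow 0 (Multiplicative.ofAdd 1) = theta ModularGroup.S :=
        facHom_gen genP genP_pow 0
      rintro w ⟨z, hz, rfl⟩
      show 0 < (facHom genP genP_pow 0 (Multiplicative.ofAdd 1) z).re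
      rw [hgen, theta_apply]
      exact re_S_smul_pos hz
    · intro h hne
      have hgen : facHom genP genP_pow 1 (Multiplicative.ofAdd 1)
          = theta (ModularGroup.S * ModularGroup.T) := facHom_gen genP genP_pow 1
      rintro w ⟨z, hz, rfl⟩
      rcases fac_one_cases h hne with rfl | rfl
      · show (facHom genP genP_pow 1 (Multiplicative.ofAdd 1) z).re < 0
        rw [hgen, theta_apply]
        exact re_ST_smul_neg hz
      · show (facHom genP genP_pow 1 (Multiplicative.ofAdd 1 * Multiplicative.ofAdd 1) z).re < 0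
        rw [map_mul, hgen, Equiv.Perm.mul_apply, theta_apply, theta_apply]
        exact re_ST_ST_smul_neg hz
    · exact absurd rfl hij


theorem lift_genP_of_zero :
    Monoid.CoprodI.lift (facHom genP genP_pow)
      (Monoid.CoprodI.of (i := (0 : Fin 2)) (Multiplicative.ofAdd 1)) = theta ModularGroup.S := by
  rw [Monoid.CoprodI.lift_of]
  exact facHom_gen genP genP_pow 0

theorem lift_genP_of_one :
    Monoid.CoprodI.lift (facHom genP genP_pow)
      (Monoid.CoprodI.of (i := (1 : Fin 2)) (Multiplicative.ofAdd 1))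
      = theta (ModularGroup.S * ModularGroup.T) := by
  rw [Monoid.CoprodI.lift_of]
  exact facHom_gen genP genP_pow 1

theorem theta_mem_range (g : SL(2, ℤ)) :
    theta g ∈ (Monoid.CoprodI.lift (facHom genP genP_pow)).range := by
  have hg : g ∈ Subgroup.closure {ModularGroup.S, ModularGroup.T} := by
    rw [SpecialLinearGroup.SL2Z_generators]; trivial
  have hS : theta ModularGroup.S ∈ (Monoid.CoprodI.lift (facHom genP genP_pow)).range :=
    ⟨_, lift_genP_of_zero⟩
  have hU : theta (ModularGroup.S * ModularGroup.T)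
      ∈ (Monoid.CoprodI.lift (facHom genP genP_pow)).range := ⟨_, lift_genP_of_one⟩
  have hle : Subgroup.closure {ModularGroup.S, ModularGroup.T}
      ≤ (Monoid.CoprodI.lift (facHom genP genP_pow)).range.comap theta := by
    rw [Subgroup.closure_le]
    rintro x (rfl | rfl)
    · exact hS
    · have hT : theta ModularGroup.T
          = (theta ModularGroup.S)⁻¹ * theta (ModularGroup.S * ModularGroup.T) := by
        rw [map_mul]; group
      show theta ModularGroup.T ∈ (Monoid.CoprodI.lift (facHom genP genP_pow)).range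
      rw [hT]
      exact mul_mem (inv_mem hS) hU
  exact hle hg

/-- **Universal property of `PSL(2, ℤ) = C₂ * C₃`**, stated on `SL(2, ℤ)`: elements `s`, `u` of a
group with `s² = 1` and `u³ = 1` define a homomorphism `SL(2, ℤ) →* H` with `S ↦ s`,
`S * T ↦ u`. -/
theorem exists_hom_of_sq_cube {H : Type*} [Group H] (s u : H) (hs : s * s = 1)
    (hu : u * u * u = 1) :
    ∃ f : SL(2, ℤ) →* H, f ModularGroup.S = s ∧ f (ModularGroup.S * ModularGroup.T) = u := by
  let gH : Fin 2 → H := ![s, u]
  have hgH : ∀ i : Fin 2, gH i ^ (i.val + 2) = 1 := by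
    intro i
    fin_cases i
    · show s ^ 2 = 1
      rw [pow_two, hs]
    · show u ^ 3 = 1
      rw [pow_succ, pow_two, hu]
  let e := MonoidHom.ofInjective lift_genP_injective
  let θ' : SL(2, ℤ) →* (Monoid.CoprodI.lift (facHom genP genP_pow)).range :=
    theta.codRestrict _ theta_mem_range
  refine ⟨(Monoid.CoprodI.lift (facHom gH hgH)).comp (e.symm.toMonoidHom.comp θ'), ?_, ?_⟩
  · have h1 : e.symm (θ' ModularGroup.S)
        = Monoid.CoprodI.of (i := (0 : Fin 2)) (Multiplicative.ofAdd 1) := by
      rw [MulEquiv.symm_apply_eq]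
      apply Subtype.ext
      exact lift_genP_of_zero.symm
    show Monoid.CoprodI.lift (facHom gH hgH) (e.symm (θ' ModularGroup.S)) = s
    rw [h1, Monoid.CoprodI.lift_of]
    exact facHom_gen gH hgH 0
  · have h1 : e.symm (θ' (ModularGroup.S * ModularGroup.T))
        = Monoid.CoprodI.of (i := (1 : Fin 2)) (Multiplicative.ofAdd 1) := by
      rw [MulEquiv.symm_apply_eq]
      apply Subtype.ext
      exact lift_genP_of_one.symm
    show Monoid.CoprodI.lift (facHom gH hgH) (e.symm (θ' (ModularGroup.S * ModularGroup.T))) = u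
    rw [h1, Monoid.CoprodI.lift_of]
    exact facHom_gen gH hgH 1

end Fermat.Agent.Lib.helper2301
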