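import Mathlib
import Fermat.Prelude.Def_FLTPrelim_Ramification
import Fermat.Agent.Lib.helper54_Frobenius

set_option autoImplicit false
open scoped Pointwise NumberField

namespace Fermat.Agent.Lib.helper2320

open Fermat.Agent.Lib.helper54

attribute [local instance] isAlgebraic_Qbar isAlgClosure_Qbar isGalois_Qbar isIntegral_Qbar

local notation "Qb" => AlgebraicClosure ℚ
local notation "GQ" => (AlgebraicClosure ℚ ≃ₐ[ℚ] AlgebraicClosure ℚ)
local notation "Zb" => integralClosure ℤ (AlgebraicClosure ℚ)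

section
variable {K L : Type*} [Field K] [Field L] [Algebra K L]

theorem mem_inertiaSubgroupIn_iff (A : ValuationSubring L) (σ : L ≃ₐ[K] L) :
    σ ∈ A.inertiaSubgroupIn K ↔
      σ ∈ A.decompositionSubgroup K ∧ ∀ x ∈ A, σ x - x ∈ A.nonunits := by
  unfold ValuationSubring.inertiaSubgroupIn
  rw [Subgroup.mem_map]
  constructor
  · rintro ⟨τ, hτ, rfl⟩
    refine ⟨τ.2, fun x hx => ?_⟩
    rw [ValuationSubring.inertiaSubgroup, MonoidHom.mem_ker] at hτ
    have h1 : τ • (IsLocalRing.residue A ⟨x, hx⟩) = IsLocalRing.residue A ⟨x, hx⟩ := by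
      have := congrArg (fun f => f (IsLocalRing.residue A ⟨x, hx⟩)) hτ
      simpa using this
    rw [← IsLocalRing.ResidueField.residue_smul, ← sub_eq_zero, ← map_sub,
      IsLocalRing.residue_eq_zero_iff, ← ValuationSubring.coe_mem_nonunits_iff] at h1
    exact h1
  · rintro ⟨hσ, h⟩
    refine ⟨⟨σ, hσ⟩, ?_, rfl⟩
    rw [ValuationSubring.inertiaSubgroup, MonoidHom.mem_ker]
    ext y
    obtain ⟨x, rfl⟩ := IsLocalRing.residue_surjective y
    change (⟨σ, hσ⟩ : A.decompositionSubgroup K) • (IsLocalRing.residue A x) = IsLocalRing.residue A x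
    rw [← IsLocalRing.ResidueField.residue_smul, ← sub_eq_zero, ← map_sub,
      IsLocalRing.residue_eq_zero_iff, ← ValuationSubring.coe_mem_nonunits_iff]
    exact h x.1 x.2

/-- Transport of non-units along an automorphism. -/
theorem map_mem_nonunits_smul (A : ValuationSubring L) (g : L ≃ₐ[K] L) {z : L}
    (hz : z ∈ A.nonunits) : g z ∈ (g • A).nonunits := by
  rw [ValuationSubring.mem_nonunits_iff_or] at hz ⊢
  rcases hz with hz | hz
  · left; rw [hz, map_zero]
  · right
    intro h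
    apply hz
    rw [ValuationSubring.mem_pointwise_smul_iff_inv_smul_mem, ← map_inv₀, AlgEquiv.smul_def] at h
    simpa using h

/-- Conjugating an inertia element gives an inertia element of the translated valuation
subring. -/
theorem conj_mem_inertiaSubgroupIn (A : ValuationSubring L) (g σ : L ≃ₐ[K] L)
    (hσ : σ ∈ A.inertiaSubgroupIn K) : g * σ * g⁻¹ ∈ (g • A).inertiaSubgroupIn K := by
  rw [mem_inertiaSubgroupIn_iff] at hσ ⊢
  obtain ⟨hσ1, hσ2⟩ := hσ
  refine ⟨?_, fun y hy => ?_⟩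
  · rw [MulAction.mem_stabilizer_iff] at hσ1 ⊢
    rw [smul_smul, inv_mul_cancel_right, mul_smul, hσ1]
  · rw [ValuationSubring.mem_pointwise_smul_iff_inv_smul_mem, AlgEquiv.smul_def] at hy
    have h1 := map_mem_nonunits_smul A g (hσ2 _ hy)
    have h2 : g (σ (g⁻¹ y) - g⁻¹ y) = (g * σ * g⁻¹) y - y := by
      rw [map_sub]
      simp [AlgEquiv.mul_apply]
    rwa [h2] at h1

theorem liesOverPrime_smul (A : ValuationSubring L) (g : L ≃ₐ[K] L) {q : ℕ}
    (hA : A.LiesOverPrime q) : (g • A).LiesOverPrime q := by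
  unfold ValuationSubring.LiesOverPrime at hA ⊢
  have := map_mem_nonunits_smul A g hA
  rwa [map_natCast] at this

end

/-- If every inertia subgroup is contained in `H`, the same holds for the normal core of `H`. -/
theorem inertia_le_normalCore (H : Subgroup GQ)
    (hI : ∀ q : ℕ, q.Prime → ∀ A : ValuationSubring Qb, A.LiesOverPrime q →
      A.inertiaSubgroupIn ℚ ≤ H) :
    ∀ q : ℕ, q.Prime → ∀ A : ValuationSubring Qb, A.LiesOverPrime q →
      A.inertiaSubgroupIn ℚ ≤ H.normalCore := by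
  intro q hq A hA σ hσ b
  exact hI q hq (b • A) (liesOverPrime_smul A b hA) (conj_mem_inertiaSubgroupIn A b σ hσ)

/-- The normal core of an open subgroup of `Gal(ℚ̄/ℚ)` is open. -/
theorem isOpen_normalCore (H : Subgroup GQ) (hH : IsOpen (H : Set GQ)) :
    IsOpen (H.normalCore : Set GQ) := by
  have h1 : (H : Set GQ) ∈ nhds (1 : GQ) := hH.mem_nhds H.one_mem
  rw [krullTopology_mem_nhds_one_iff_of_normal] at h1
  obtain ⟨E, hE1, hE2, hE3⟩ := h1
  have hn : E.fixingSubgroup.Normal := by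
    rw [← E.restrictNormalHom_ker]
    exact MonoidHom.normal_ker _
  have hle : E.fixingSubgroup ≤ H.normalCore := Subgroup.normal_le_normalCore.mpr hE3
  exact Subgroup.isOpen_mono hle E.fixingSubgroup_isOpen

/-- An open normal subgroup of `Gal(ℚ̄/ℚ)` is the fixing subgroup of a finite Galois extension. -/
theorem exists_finite_galois_of_open_normal (N : Subgroup GQ) [hN : N.Normal]
    (hNo : IsOpen (N : Set GQ)) :
    ∃ K : IntermediateField ℚ Qb, FiniteDimensional ℚ K ∧ IsGalois ℚ K ∧ K.fixingSubgroup = N := by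
  have hcl : IsClosed (N : Set GQ) := Subgroup.isClosed_of_isOpen N hNo
  let N' : ClosedSubgroup GQ := ⟨N, hcl⟩
  have h1 : (IntermediateField.fixedField N).fixingSubgroup = N :=
    InfiniteGalois.fixingSubgroup_fixedField N'
  refine ⟨IntermediateField.fixedField N, ?_, ?_, h1⟩
  · rw [← InfiniteGalois.isOpen_iff_finite]
    show IsOpen ((IntermediateField.fixedField N).fixingSubgroup : Set GQ)
    rw [h1]; exact hNo
  · have h2 := (InfiniteGalois.normal_iff_isGalois (IntermediateField.fixedField N)).mp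
      (by rw [h1]; exact hN)
    convert h2
    exact Subsingleton.elim _ _

/-- Fixed points of a normal subgroup are stable under the whole group. -/
theorem smul_fixed_of_normal (N : Subgroup GQ) [hN : N.Normal] (τ : GQ) (b : Zb)
    (hb : ∀ g ∈ N, g • b = b) : ∀ g ∈ N, g • (τ • b) = τ • b := by
  intro g hg
  have h1 : τ⁻¹ * g * τ ∈ N := by
    have := hN.conj_mem g hg τ⁻¹
    simpa using this
  have h2 := hb _ h1
  calc g • τ • b = τ • ((τ⁻¹ * g * τ) • b) := by simp [mul_smul]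
    _ = τ • b := by rw [h2]

/-- **Lifting lemma.** Let `N` be a closed normal subgroup of `Gal(ℚ̄/ℚ)`, `𝔓` a prime of the
ring of all algebraic integers, and `σ₀` an automorphism acting trivially modulo `𝔓` on the
`N`-invariant algebraic integers.  Then some element of the coset `N σ₀` stabilises `𝔓` and
acts trivially on all algebraic integers modulo `𝔓`. -/
theorem exists_mul_mem_inertia (N : Subgroup GQ) [hN : N.Normal] (hNc : IsClosed (N : Set GQ))
    (𝔓 : Ideal Zb) [h𝔓 : 𝔓.IsPrime] (σ₀ : GQ)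
    (h : ∀ b : Zb, (∀ g ∈ N, g • b = b) → σ₀ • b - b ∈ 𝔓) :
    ∃ g ∈ N, (g * σ₀) • 𝔓 = 𝔓 ∧ ∀ b : Zb, (g * σ₀) • b - b ∈ 𝔓 := by
  classical
  -- topological set-up
  have : CompactSpace N := isCompact_iff_compactSpace.mp hNc.isCompact
  let : TopologicalSpace Zb := ⊥
  have : DiscreteTopology Zb := ⟨rfl⟩
  have hcont : ContinuousSMul GQ Zb := by
    rw [continuousSMul_iff_stabilizer_isOpen]
    intro z
    have : (MulAction.stabilizer GQ z : Set GQ) = MulAction.stabilizer GQ (z : Qb) := by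
      ext g
      simp [Subtype.ext_iff]
    rw [this]
    exact stabilizer_isOpen_of_isIntegral _
  have : ContinuousSMul N Zb := inferInstance
  -- the ring of `N`-invariants
  let A₁ : Subalgebra ℤ Zb := FixedPoints.subalgebra ℤ Zb N
  have hA₁ : ∀ a : A₁, ∀ g ∈ N, g • (a : Zb) = a := fun a g hg => a.2 ⟨g, hg⟩
  have : SMulCommClass N A₁ Zb := ⟨fun g a b => by
    show g • ((a : Zb) * b) = (a : Zb) * g • b
    rw [smul_mul', a.2 g]⟩
  have : Algebra.IsInvariant A₁ Zb N := ⟨fun b hb => ⟨⟨b, hb⟩, rfl⟩⟩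
  -- `σ₀ • 𝔓` and `𝔓` lie over the same prime of the invariants
  have hund : (σ₀ • 𝔓).under A₁ = 𝔓.under A₁ := by
    ext a
    show (a : Zb) ∈ σ₀ • 𝔓 ↔ (a : Zb) ∈ 𝔓
    rw [Ideal.mem_pointwise_smul_iff_inv_smul_mem]
    have h1 := h (σ₀⁻¹ • (a : Zb)) (smul_fixed_of_normal N σ₀⁻¹ a (hA₁ a))
    rw [smul_inv_smul] at h1
    constructor
    · intro h2
      have := 𝔓.add_mem h1 h2
      simpa using this
    · intro h2
      have := 𝔓.sub_mem h2 h1
      simpa using this
  obtain ⟨g, hg⟩ := Algebra.IsInvariant.exists_smul_of_under_eq_of_profinite (A := A₁) (G := N)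
    (σ₀ • 𝔓) 𝔓 hund
  have hσ₁𝔓 : ((g : GQ) * σ₀) • 𝔓 = 𝔓 := by
    rw [mul_smul]; exact hg.symm
  -- the automorphism of `Zb ⧸ 𝔓` induced by `σ₁ = g σ₀`, linear over the invariants
  let ψ : (Zb ⧸ 𝔓) ≃ₐ[ℤ ⧸ 𝔓.under ℤ] (Zb ⧸ 𝔓) :=
    Ideal.Quotient.stabilizerHom 𝔓 (𝔓.under ℤ) GQ ⟨(g : GQ) * σ₀, hσ₁𝔓⟩
  have hψ : ∀ b : Zb, ψ (Ideal.Quotient.mk 𝔓 b) = Ideal.Quotient.mk 𝔓 (((g : GQ) * σ₀) • b) :=
    fun b => Ideal.Quotient.stabilizerHom_apply 𝔓 (𝔓.under ℤ) GQ ⟨(g : GQ) * σ₀, hσ₁𝔓⟩ b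
  let φ : (Zb ⧸ 𝔓) ≃ₐ[A₁ ⧸ 𝔓.under A₁] (Zb ⧸ 𝔓) := AlgEquiv.ofRingEquiv (f := ψ.toRingEquiv) (by
    intro x
    obtain ⟨a, rfl⟩ := Ideal.Quotient.mk_surjective x
    rw [Ideal.Quotient.algebraMap_mk_of_liesOver]
    show ψ (Ideal.Quotient.mk 𝔓 (a : Zb)) = _
    rw [hψ, Ideal.Quotient.eq, mul_smul]
    have h1 : (g : GQ) • (σ₀ • (a : Zb)) = σ₀ • (a : Zb) :=
      smul_fixed_of_normal N σ₀ a (hA₁ a) g g.2
    rw [h1]
    exact h a (hA₁ a))
  obtain ⟨ρ, hρ⟩ := Ideal.Quotient.stabilizerHom_surjective_of_profinite (G := N)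
    (𝔓.under A₁) 𝔓 φ
  have hρ𝔓 : ((ρ : N) : GQ) • 𝔓 = 𝔓 := ρ.2
  have hρφ : ∀ c : Zb, ((g : GQ) * σ₀) • c - ((ρ : N) : GQ) • c ∈ 𝔓 := by
    intro c
    have h1 := congrArg (fun f => f (Ideal.Quotient.mk 𝔓 c)) hρ
    simp only [Ideal.Quotient.stabilizerHom_apply] at h1
    have h2 : φ (Ideal.Quotient.mk 𝔓 c) = Ideal.Quotient.mk 𝔓 (((g : GQ) * σ₀) • c) := hψ c
    rw [h2] at h1
    exact Ideal.Quotient.eq.mp h1.symm
  obtain ⟨τ, hτN, hτ𝔓, hτφ⟩ : ∃ τ : GQ, τ ∈ N ∧ τ • 𝔓 = 𝔓 ∧
      ∀ c : Zb, ((g : GQ) * σ₀) • c - τ • c ∈ 𝔓 :=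
    ⟨((ρ : N) : GQ), (ρ : N).2, hρ𝔓, hρφ⟩
  refine ⟨τ⁻¹ * g, N.mul_mem (N.inv_mem hτN) g.2, ?_, fun b => ?_⟩
  · rw [mul_assoc, mul_smul, hσ₁𝔓, inv_smul_eq_iff, hτ𝔓]
  · have h1 : ((g : GQ) * σ₀) • b - τ • b ∈ τ • 𝔓 := by rw [hτ𝔓]; exact hτφ b
    rw [Ideal.mem_pointwise_smul_iff_inv_smul_mem, smul_sub, inv_smul_smul] at h1
    rw [mul_assoc, mul_smul]
    exact h1

/-- A nontrivial finite Galois extension of `ℚ` has a prime `p` such that every prime of its ring
of integers above `p` has a nontrivial inertia group. -/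
theorem exists_inertia_ne_one (K : Type*) [Field K] [NumberField K] [IsGalois ℚ K]
    (h : 1 < Module.finrank ℚ K) :
    ∃ p : ℕ, p.Prime ∧ ∀ (P : Ideal (𝓞 K)) [P.IsPrime], (p : 𝓞 K) ∈ P →
      ∃ s : K ≃ₐ[ℚ] K, s ≠ 1 ∧ ∀ x : 𝓞 K, s • x - x ∈ P := by
  obtain ⟨p, hp, hram⟩ :=
    NumberField.exists_not_isUnramifiedAt_int_of_isGalois (K := K) (𝒪 := 𝓞 K) h
  refine ⟨p, hp, fun P _ hpP => ?_⟩
  have hnr := hram P inferInstance hpP
  have hG : IsGaloisGroup (K ≃ₐ[ℚ] K) ℤ (𝓞 K) :=
    IsGaloisGroup.of_isFractionRing (K ≃ₐ[ℚ] K) ℤ (𝓞 K) ℚ K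
  rw [← Ideal.ramificationIdx_eq_one_iff,
    ← Ideal.ramificationIdxIn_eq_ramificationIdx (P.under ℤ) P (K ≃ₐ[ℚ] K),
    ← Ideal.card_inertia_eq_ramificationIdxIn (G := K ≃ₐ[ℚ] K) (P.under ℤ) P] at hnr
  have hex : ∃ s ∈ P.inertia (K ≃ₐ[ℚ] K), s ≠ 1 := by
    by_contra hcon
    push Not at hcon
    apply hnr
    have hbot : P.inertia (K ≃ₐ[ℚ] K) = ⊥ := (Subgroup.eq_bot_iff_forall _).mpr hcon
    rw [hbot]
    simp
  obtain ⟨s, hs, hs1⟩ := hex
  exact ⟨s, hs1, fun x => hs x⟩

/-- An automorphism that stabilises the prime of `Zb` cut out by a valuation subring `A` and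
acts trivially on `Zb` modulo this prime lies in the inertia subgroup of `A`. -/
theorem mem_inertiaSubgroupIn_of_zbar {ℓ : ℕ} (hℓ : ℓ.Prime) (A : ValuationSubring Qb)
    (hA : A.LiesOverPrime ℓ) (σ : GQ)
    (h1 : σ • primeOfValuationSubring A = primeOfValuationSubring A)
    (h2 : ∀ b : Zb, σ • b - b ∈ primeOfValuationSubring A) :
    σ ∈ A.inertiaSubgroupIn ℚ := by
  rw [mem_inertiaSubgroupIn_iff]
  refine ⟨mem_decompositionSubgroup_of_smul_prime_eq hℓ A hA σ h1, fun x hx => ?_⟩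
  obtain ⟨a, b, hb, hab⟩ := exists_frac_of_mem_valuationSubring hℓ A hA x hx
  have hvle : ∀ c : Zb, A.valuation (c : Qb) ≤ 1 := fun c =>
    (A.valuation_le_one_iff _).mpr (mem_valuationSubring_of_isIntegral A c.1 c.2)
  have hvlt : ∀ c : Zb, c ∈ primeOfValuationSubring A → A.valuation (c : Qb) < 1 := fun c hc =>
    (mem_primeOfValuationSubring A c).mp hc
  have hvone : ∀ c : Zb, c ∉ primeOfValuationSubring A → A.valuation (c : Qb) = 1 := by
    intro c hc
    refine le_antisymm (hvle c) (not_lt.mp fun hlt => hc ?_)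
    exact (mem_primeOfValuationSubring A c).mpr hlt
  have hσb : σ • b ∉ primeOfValuationSubring A := by
    intro hmem
    rw [← h1, Ideal.smul_mem_pointwise_smul_iff] at hmem
    exact hb hmem
  have e1 : σ x * ((σ • b : Zb) : Qb) = ((σ • a : Zb) : Qb) := by
    have := congrArg σ hab
    rwa [map_mul] at this
  have key : (σ x - x) * ((b : Qb) * ((σ • b : Zb) : Qb)) =
      ((σ • a - a : Zb) : Qb) * (b : Qb) - (a : Qb) * ((σ • b - b : Zb) : Qb) := by
    push_cast
    linear_combination (b : Qb) * e1 - ((σ • b : Zb) : Qb) * hab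
  have hlt : A.valuation ((σ x - x) * ((b : Qb) * ((σ • b : Zb) : Qb))) < 1 := by
    rw [key]
    apply Valuation.map_sub_lt
    · rw [map_mul, hvone b hb, mul_one]
      exact hvlt _ (h2 a)
    · rw [map_mul]
      calc A.valuation (a : Qb) * A.valuation ((σ • b - b : Zb) : Qb)
          ≤ 1 * A.valuation ((σ • b - b : Zb) : Qb) := by gcongr; exact hvle a
        _ = A.valuation ((σ • b - b : Zb) : Qb) := one_mul _
        _ < 1 := hvlt _ (h2 b)
  rw [map_mul, map_mul, hvone b hb, hvone _ hσb, mul_one, mul_one] at hlt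
  exact hlt

/-- The inclusion of the ring of integers of a subfield of `ℚ̄` into the ring of all algebraic
integers. -/
noncomputable def intHom (K : IntermediateField ℚ Qb) : 𝓞 K →+* Zb where
  toFun x := ⟨((x : K) : Qb), map_isIntegral_int (algebraMap K Qb) x.2⟩
  map_zero' := rfl
  map_one' := rfl
  map_add' _ _ := rfl
  map_mul' _ _ := rfl

theorem coe_intHom (K : IntermediateField ℚ Qb) (x : 𝓞 K) :
    ((intHom K x : Zb) : Qb) = ((x : K) : Qb) := rfl

/-- **Minkowski's theorem in inertia form**: an open subgroup of `Gal(ℚ̄/ℚ)` containing the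
inertia subgroups of all valuation subrings of `ℚ̄` over all primes is the whole group.
(`ℚ` has no nontrivial extension unramified at every prime.) -/
theorem minkowski (H : Subgroup GQ) (hH : IsOpen (H : Set GQ))
    (hI : ∀ q : ℕ, q.Prime → ∀ A : ValuationSubring Qb, A.LiesOverPrime q →
      A.inertiaSubgroupIn ℚ ≤ H) : H = ⊤ := by
  -- reduce to the normal core
  have hNn : H.normalCore.Normal := Subgroup.normalCore_normal H
  have hNo : IsOpen (H.normalCore : Set GQ) := isOpen_normalCore H hH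
  have hIN := inertia_le_normalCore H hI
  suffices hN : H.normalCore = ⊤ from top_le_iff.mp (hN ▸ Subgroup.normalCore_le H)
  generalize H.normalCore = N at hNn hNo hIN ⊢
  obtain ⟨K, hfin, hgal, hK⟩ := exists_finite_galois_of_open_normal N hNo
  by_cases hrank : Module.finrank ℚ K = 1
  · rw [IntermediateField.finrank_eq_one_iff] at hrank
    rw [← hK, hrank, IntermediateField.fixingSubgroup_bot]
  exfalso
  have hlt : 1 < Module.finrank ℚ K := by
    have : 0 < Module.finrank ℚ K := Module.finrank_pos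
    omega
  have : NumberField K := { to_charZero := inferInstance, to_finiteDimensional := hfin }
  obtain ⟨p, hp, hex⟩ := exists_inertia_ne_one K hlt
  obtain ⟨A, hA⟩ := exists_liesOverPrime hp
  have hpP : (p : 𝓞 K) ∈ (primeOfValuationSubring A).comap (intHom K) := by
    rw [Ideal.mem_comap, map_natCast]
    exact natCast_mem_primeOfValuationSubring A hA
  obtain ⟨s, hs1, hs⟩ := hex ((primeOfValuationSubring A).comap (intHom K)) hpP
  -- lift `s` to `Gal(ℚ̄/ℚ)`
  have hσ₀ : ∀ y : K, s.liftNormal Qb (y : Qb) = ((s y : K) : Qb) :=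
    fun y => s.liftNormal_commutes Qb y
  have hfix : ∀ b : Zb, (∀ g ∈ N, g • b = b) → s.liftNormal Qb • b - b ∈ primeOfValuationSubring A := by
    intro b hb
    have hbK : (b : Qb) ∈ K := by
      rw [← InfiniteGalois.fixedField_fixingSubgroup K, IntermediateField.mem_fixedField_iff]
      intro g hg
      rw [hK] at hg
      exact congrArg Subtype.val (hb g hg)
    have hint : (⟨(b : Qb), hbK⟩ : K) ∈ integralClosure ℤ K :=
      (isIntegral_algHom_iff (algebraMap K Qb).toIntAlgHom (algebraMap K Qb).injective).mp b.2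
    obtain ⟨x, hx⟩ : ∃ x : 𝓞 K, (x : K) = ⟨(b : Qb), hbK⟩ := ⟨⟨_, hint⟩, rfl⟩
    have h1 := hs x
    have e1 : intHom K x = b := by
      apply Subtype.ext
      rw [coe_intHom, hx]
    have e2 : intHom K (s • x) = s.liftNormal Qb • b := by
      apply Subtype.ext
      have h3 : ((s • x : 𝓞 K) : K) = s (x : K) := rfl
      rw [coe_intHom, h3, hx]
      exact (hσ₀ ⟨(b : Qb), hbK⟩).symm
    rw [Ideal.mem_comap, map_sub, e1, e2] at h1
    exact h1
  obtain ⟨g, hgN, hg𝔓, hgb⟩ := exists_mul_mem_inertia N (Subgroup.isClosed_of_isOpen N hNo)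
    (primeOfValuationSubring A) (s.liftNormal Qb) hfix
  have hmem : g * s.liftNormal Qb ∈ A.inertiaSubgroupIn ℚ :=
    mem_inertiaSubgroupIn_of_zbar hp A hA _ hg𝔓 hgb
  have hmemN : g * s.liftNormal Qb ∈ N := hIN p hp A hA hmem
  have hσ₀N : s.liftNormal Qb ∈ N := by
    have := N.mul_mem (N.inv_mem hgN) hmemN
    simpa using this
  apply hs1
  ext y
  rw [← hK, IntermediateField.mem_fixingSubgroup_iff] at hσ₀N
  have h1 := hσ₀N (y : Qb) y.2
  rw [hσ₀ y] at h1
  exact h1

/-! ### By-products: conjugacy of the valuation subrings over a prime -/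

section
variable {K L : Type*} [Field K] [Field L] [Algebra K L]

theorem mem_nonunits_smul_iff (A : ValuationSubring L) (g : L ≃ₐ[K] L) {z : L} :
    z ∈ (g • A).nonunits ↔ g⁻¹ z ∈ A.nonunits := by
  constructor
  · intro hz
    have := map_mem_nonunits_smul (g • A) g⁻¹ hz
    rwa [inv_smul_smul] at this
  · intro hz
    have := map_mem_nonunits_smul A g hz
    simpa using this

end

theorem primeOfValuationSubring_smul (g : GQ) (A : ValuationSubring Qb) :
    primeOfValuationSubring (g • A) = g • primeOfValuationSubring A := by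
  ext z
  rw [mem_primeOfValuationSubring, Ideal.mem_pointwise_smul_iff_inv_smul_mem,
    mem_primeOfValuationSubring, mem_nonunits_smul_iff]
  rfl

/-- A valuation subring of `ℚ̄` over a prime is determined by the prime of `Zb` it cuts out. -/
theorem eq_of_primeOfValuationSubring_eq {ℓ : ℕ} (hℓ : ℓ.Prime) (A A' : ValuationSubring Qb)
    (hA : A.LiesOverPrime ℓ) (hA' : A'.LiesOverPrime ℓ)
    (h : primeOfValuationSubring A = primeOfValuationSubring A') : A = A' := by
  have key : ∀ B B' : ValuationSubring Qb, B.LiesOverPrime ℓ →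
      primeOfValuationSubring B = primeOfValuationSubring B' → B ≤ B' := by
    intro B B' hB hBB' x hx
    obtain ⟨a, b, hb, hab⟩ := exists_frac_of_mem_valuationSubring hℓ B hB x hx
    rw [hBB', mem_primeOfValuationSubring, ValuationSubring.mem_nonunits_iff_or] at hb
    push Not at hb
    obtain ⟨hne, hinv⟩ := hb
    have h2 : x = (a : Qb) * ((b : Qb))⁻¹ := by
      rw [← hab, mul_assoc, mul_inv_cancel₀ hne, mul_one]
    rw [h2]
    exact B'.mul_mem _ _ (mem_valuationSubring_of_isIntegral B' a.1 a.2) hinv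
  exact le_antisymm (key A A' hA h) (key A' A hA' h.symm)

/-- The valuation subrings of `ℚ̄` over a given prime are conjugate under `Gal(ℚ̄/ℚ)`. -/
theorem exists_smul_eq_of_liesOverPrime {ℓ : ℕ} (hℓ : ℓ.Prime) (A A' : ValuationSubring Qb)
    (hA : A.LiesOverPrime ℓ) (hA' : A'.LiesOverPrime ℓ) : ∃ g : GQ, A' = g • A := by
  classical
  let : TopologicalSpace Zb := ⊥
  have : DiscreteTopology Zb := ⟨rfl⟩
  have : ContinuousSMul GQ Zb := by
    rw [continuousSMul_iff_stabilizer_isOpen]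
    intro z
    have : (MulAction.stabilizer GQ z : Set GQ) = MulAction.stabilizer GQ (z : Qb) := by
      ext g
      simp [Subtype.ext_iff]
    rw [this]
    exact stabilizer_isOpen_of_isIntegral _
  have := isInvariant_Zbar
  have hmax : (Ideal.span {(ℓ : ℤ)}).IsMaximal :=
    PrincipalIdealRing.isMaximal_of_irreducible (Nat.prime_iff_prime_int.mp hℓ).irreducible
  have hunder : ∀ B : ValuationSubring Qb, B.LiesOverPrime ℓ →
      (primeOfValuationSubring B).under ℤ = Ideal.span {(ℓ : ℤ)} := by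
    intro B hB
    symm
    apply hmax.eq_of_le (Ideal.IsPrime.under ℤ (primeOfValuationSubring B)).ne_top
    rw [Ideal.span_singleton_le_iff_mem, Ideal.mem_comap]
    have := natCast_mem_primeOfValuationSubring B hB
    simpa using this
  obtain ⟨g, hg⟩ := Algebra.IsInvariant.exists_smul_of_under_eq_of_profinite (A := ℤ) (G := GQ)
    (primeOfValuationSubring A) (primeOfValuationSubring A') ((hunder A hA).trans (hunder A' hA').symm)
  refine ⟨g, eq_of_primeOfValuationSubring_eq hℓ A' (g • A) hA' (liesOverPrime_smul A g hA) ?_⟩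
  rw [primeOfValuationSubring_smul, hg]

/-- If a normal subgroup contains the inertia subgroup of one valuation subring over `ℓ`, it
contains the inertia subgroups of all of them. -/
theorem inertia_le_of_normal {ℓ : ℕ} (hℓ : ℓ.Prime) (M : Subgroup GQ) [hM : M.Normal]
    (A A' : ValuationSubring Qb) (hA : A.LiesOverPrime ℓ) (hA' : A'.LiesOverPrime ℓ)
    (h : A.inertiaSubgroupIn ℚ ≤ M) : A'.inertiaSubgroupIn ℚ ≤ M := by
  obtain ⟨g, rfl⟩ := exists_smul_eq_of_liesOverPrime hℓ A A' hA hA'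
  intro σ hσ
  have h1 := conj_mem_inertiaSubgroupIn (g • A) g⁻¹ σ hσ
  rw [inv_smul_smul, inv_inv] at h1
  have h2 := hM.conj_mem _ (h h1) g
  simpa [mul_assoc] using h2

end Fermat.Agent.Lib.helper2320
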