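/-
Frobenius endgame algebra (route #1886 of S58, steps 4 / 5a; statement-agnostic).

Abstract setting: an abelian group `G` with an injective endomorphism `F` satisfying
`F² - t F + q = 0` (`q` divisible by the prime `l`), and an additive map `δ : G → K` into a field of
characteristic `l` that kills the image of `F`.  Then `δ` kills every torsion element,
and the two "Hecke relation" endgames follow.
-/
import Mathlib

namespace Fermat.Agent.Lib.helper2405

section Abstract

variable {G : Type*} [AddCommGroup G]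

/-- An injective endomorphism has injective powers (in `Module.End ℤ G`). -/
theorem pow_apply_eq_zero {f : Module.End ℤ G} (hf : Function.Injective f) :
    ∀ (a : ℕ) (x : G), (f ^ a) x = 0 → x = 0 := by
  intro a
  induction a with
  | zero => intro x hx; simpa using hx
  | succ a ih =>
    intro x hx
    rw [pow_succ, Module.End.mul_apply] at hx
    have h1 : f x = 0 := ih (f x) hx
    exact hf (by rw [h1, map_zero])

/-- **Torsion is killed by `δ`.**  `F` injective with `F² - tF + q = 0` (`l ∣ q`, `l` prime),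
`δ ∘ F = 0`, `K` of characteristic `l`: every torsion element of `G` lies in the kernel of `δ`.
(No division polynomials, no algebraicity of torsion points.) -/
theorem delta_eq_zero_of_nsmul_eq_zero
    {K : Type*} [Field K] (l : ℕ) [hl : Fact l.Prime] [CharP K l] (q : ℕ) (hq : l ∣ q)
    (F : G →+ G) (hF : Function.Injective F) (t : ℤ)
    (hCH : ∀ P : G, F (F P) - t • F P + (q : ℤ) • P = 0)
    (δ : G →+ K) (hδ : ∀ P : G, δ (F P) = 0)
    {Q : G} {n : ℕ} (hn : n ≠ 0) (hQ : n • Q = 0) : δ Q = 0 := by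
  classical
  -- work in the endomorphism ring
  let f : Module.End ℤ G := F.toIntLinearMap
  have hfF : ∀ x, f x = F x := fun x => rfl
  have hf : Function.Injective f := hF
  let v : Module.End ℤ G := (t : Module.End ℤ G) - f
  have hcomm_t : Commute (t : Module.End ℤ G) f := Int.cast_commute t f
  have hfv_comm : Commute f v := (hcomm_t.symm).sub_right (Commute.refl f)
  have hCH' : ∀ P : G, f (f P) = t • f P - q • P := by
    intro P
    have h := hCH P
    rw [natCast_zsmul] at h
    rw [hfF, hfF, ← sub_eq_zero, ← h]; abel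
  have hfv : f * v = (q : Module.End ℤ G) := by
    ext P
    simp only [Module.End.mul_apply, v, LinearMap.sub_apply, Module.End.intCast_apply,
      Module.End.natCast_apply, map_sub, map_zsmul, hCH' P]
    abel
  obtain ⟨a, n', hn', rfl⟩ := Nat.exists_eq_pow_mul_and_not_dvd hn l hl.out.ne_one
  set Q' : G := n' • Q with hQ'
  have hlQ' : (l ^ a) • Q' = 0 := by rw [hQ', ← mul_nsmul']; exact hQ
  have hqQ' : (q ^ a) • Q' = 0 := by
    obtain ⟨c, hc⟩ := pow_dvd_pow_of_dvd hq a
    rw [hc, mul_comm, mul_nsmul', hlQ', smul_zero]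
  -- `v ^ a` kills `Q'`
  have hva : (v ^ a) Q' = 0 := by
    have h1 : ((f * v) ^ a) Q' = 0 := by
      rw [hfv, ← Nat.cast_pow, Module.End.natCast_apply]; exact hqQ'
    rw [hfv_comm.mul_pow, Module.End.mul_apply] at h1
    exact pow_apply_eq_zero hf a _ h1
  have hn'K : (n' : K) ≠ 0 := by
    rw [Ne, CharP.cast_eq_zero_iff K l]; exact hn'
  have hδQ' : δ Q' = (n' : K) * δ Q := by rw [hQ', map_nsmul, nsmul_eq_mul]
  by_cases hlt : (l : ℤ) ∣ t
  · -- supersingular-type case: `F² = l * u`, hence `Q' = 0`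
    obtain ⟨s, hs⟩ := hlt
    obtain ⟨q', hq'⟩ := hq
    let u : Module.End ℤ G := (s : Module.End ℤ G) * f - (q' : Module.End ℤ G)
    have hff : f * f = (l : Module.End ℤ G) * u := by
      ext P
      simp only [u, Module.End.mul_apply, LinearMap.sub_apply, Module.End.intCast_apply,
        Module.End.natCast_apply, hCH' P, hs, hq']
      rw [nsmul_sub, ← natCast_zsmul (s • f P) l, smul_smul, mul_nsmul, smul_comm l q' P]
    have hlu : Commute (l : Module.End ℤ G) u := Nat.cast_commute l u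
    have hfa : (f ^ (2 * a)) Q' = 0 := by
      rw [pow_mul, pow_two, hff, hlu.mul_pow, (hlu.pow_pow a a).eq, Module.End.mul_apply,
        ← Nat.cast_pow, Module.End.natCast_apply, hlQ', map_zero]
    have hQ0 : Q' = 0 := pow_apply_eq_zero hf (2 * a) _ hfa
    have : (n' : K) * δ Q = 0 := by rw [← hδQ', hQ0, map_zero]
    exact (mul_eq_zero.mp this).resolve_left hn'K
  · -- ordinary-type case
    have htK : (t : K) ≠ 0 := by
      rw [Ne, CharP.intCast_eq_zero_iff K l]; exact hlt
    have hdvd : f ∣ (t : Module.End ℤ G) ^ a - v ^ a := by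
      have hc : Commute (t : Module.End ℤ G) v := Int.cast_commute t v
      have := hc.sub_dvd_pow_sub_pow a
      have hsub : (t : Module.End ℤ G) - v = f := by simp [v]
      rwa [hsub] at this
    obtain ⟨r, hr⟩ := hdvd
    have h1 : ((t : Module.End ℤ G) ^ a) Q' = f (r Q') := by
      have := congrArg (fun e : Module.End ℤ G => e Q') hr
      simp only [LinearMap.sub_apply, Module.End.mul_apply, hva, sub_zero] at this
      exact this
    have h2 : ((t : Module.End ℤ G) ^ a) Q' = (t ^ a) • Q' := by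
      rw [← Int.cast_pow, Module.End.intCast_apply]
    have h3 : δ ((t ^ a) • Q') = 0 := by rw [← h2, h1]; exact hδ _
    rw [map_zsmul, zsmul_eq_mul, hδQ'] at h3
    have h4 : ((t ^ a : ℤ) : K) ≠ 0 := by push_cast; exact pow_ne_zero a htK
    exact (mul_eq_zero.mp ((mul_eq_zero.mp h3).resolve_left h4)).resolve_left hn'K

/-- Integer version of `delta_eq_zero_of_nsmul_eq_zero`. -/
theorem delta_eq_zero_of_zsmul_eq_zero
    {K : Type*} [Field K] (l : ℕ) [Fact l.Prime] [CharP K l] (q : ℕ) (hq : l ∣ q)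
    (F : G →+ G) (hF : Function.Injective F) (t : ℤ)
    (hCH : ∀ P : G, F (F P) - t • F P + (q : ℤ) • P = 0)
    (δ : G →+ K) (hδ : ∀ P : G, δ (F P) = 0)
    {Q : G} {n : ℤ} (hn : n ≠ 0) (hQ : n • Q = 0) : δ Q = 0 := by
  refine delta_eq_zero_of_nsmul_eq_zero l q hq F hF t hCH δ hδ (n := n.natAbs)
    (Int.natAbs_ne_zero.mpr hn) ?_
  rcases Int.natAbs_eq n with h | h
  · rw [← natCast_zsmul, ← h]; exact hQ
  · have : (n.natAbs : ℤ) • Q = 0 := by
      have h' : (n.natAbs : ℤ) = -n := by omega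
      rw [h', neg_smul, hQ, neg_zero]
    rwa [natCast_zsmul] at this

/-- `δ Q ≠ 0` forces `Q` to be non-torsion. -/
theorem zsmul_ne_zero_of_delta_ne_zero
    {K : Type*} [Field K] (l : ℕ) [Fact l.Prime] [CharP K l] (q : ℕ) (hq : l ∣ q)
    (F : G →+ G) (hF : Function.Injective F) (t : ℤ)
    (hCH : ∀ P : G, F (F P) - t • F P + (q : ℤ) • P = 0)
    (δ : G →+ K) (hδ : ∀ P : G, δ (F P) = 0)
    {Q : G} (hQ : δ Q ≠ 0) {n : ℤ} (hn : n ≠ 0) : n • Q ≠ 0 :=
  fun h => hQ (delta_eq_zero_of_zsmul_eq_zero l q hq F hF t hCH δ hδ hn h)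

/-- **Endgame (E1), good prime.**  If `Q` satisfies `F² Q - a F Q + q Q = 0` and `δ Q ≠ 0`,
then `a = t`. -/
theorem trace_eq_of_frob_relation
    {K : Type*} [Field K] (l : ℕ) [Fact l.Prime] [CharP K l] (q : ℕ) (hq : l ∣ q)
    (F : G →+ G) (hF : Function.Injective F) (t : ℤ)
    (hCH : ∀ P : G, F (F P) - t • F P + (q : ℤ) • P = 0)
    (δ : G →+ K) (hδ : ∀ P : G, δ (F P) = 0)
    {Q : G} (hQ : δ Q ≠ 0) {a : ℤ}
    (hrel : F (F Q) - a • F Q + (q : ℤ) • Q = 0) : a = t := by
  by_contra hne
  have h1 : (t - a) • F Q = 0 := by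
    have h := hCH Q
    rw [sub_smul, ← sub_eq_zero.mpr (hrel.trans h.symm)]; abel
  have h2 : F ((t - a) • Q) = 0 := by rw [map_zsmul]; exact h1
  have h3 : (t - a) • Q = 0 := hF (by rw [h2, map_zero])
  exact hQ (delta_eq_zero_of_zsmul_eq_zero l q hq F hF t hCH δ hδ
    (sub_ne_zero.mpr (Ne.symm hne)) h3)

/-- **Endgame (E2), `U`-relation** (prime field: `q = l`).  If `l Q = a F Q` and `δ Q ≠ 0`,
then `t = ± (l + 1)`. -/
theorem trace_eq_of_U_relation
    {K : Type*} [Field K] (l : ℕ) [hl : Fact l.Prime] [CharP K l]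
    (F : G →+ G) (hF : Function.Injective F) (t : ℤ)
    (hCH : ∀ P : G, F (F P) - t • F P + (l : ℤ) • P = 0)
    (δ : G →+ K) (hδ : ∀ P : G, δ (F P) = 0)
    {Q : G} (hQ : δ Q ≠ 0) {a : ℤ}
    (hrel : (l : ℤ) • Q = a • F Q) : t = (l : ℤ) + 1 ∨ t = -((l : ℤ) + 1) := by
  -- `F Q = (t - a) Q`
  have h := hCH Q
  have h1 : F (t • Q - F Q) = F (a • Q) := by
    rw [map_sub, map_zsmul, map_zsmul, ← hrel, eq_comm, ← sub_eq_zero, ← h]; abel
  have h2 : F Q = (t - a) • Q := by
    have := hF h1
    rw [sub_smul, ← this]; abel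
  set m : ℤ := t - a with hm
  have h3 : (m * m - t * m + (l : ℤ)) • Q = 0 := by
    have h4 : F (F Q) = (m * m) • Q := by rw [h2, map_zsmul, h2, smul_smul]
    rw [h4, h2, smul_smul] at h
    rw [add_smul, sub_smul]; exact h
  have h5 : m * m - t * m + (l : ℤ) = 0 := by
    by_contra hne
    exact hQ (delta_eq_zero_of_zsmul_eq_zero l l dvd_rfl F hF t hCH δ hδ hne h3)
  -- `m * (t - m) = l`, `l` prime
  have h6 : m * (t - m) = (l : ℤ) := by linarith
  have hmd : m ∣ (l : ℤ) := Dvd.intro _ h6
  have hm_abs : m.natAbs = 1 ∨ m.natAbs = l := by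
    have : m.natAbs ∣ l := by
      have := Int.natAbs_dvd_natAbs.mpr hmd
      simpa using this
    exact (Nat.dvd_prime hl.out).mp this
  have hl0 : (0 : ℤ) < l := by exact_mod_cast hl.out.pos
  rcases hm_abs with h1' | hl'
  · rcases Int.natAbs_eq m with hmm | hmm <;> rw [h1'] at hmm
    · left; rw [hmm] at h6; push_cast at h6; linarith
    · right; rw [hmm] at h6; push_cast at h6; linarith
  · rcases Int.natAbs_eq m with hmm | hmm <;> rw [hl'] at hmm
    · left
      rw [hmm] at h6
      have : (t - (l : ℤ)) = 1 := by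
        have h7 : (l : ℤ) * (t - l) = (l : ℤ) * 1 := by linarith
        exact mul_left_cancel₀ hl0.ne' h7
      linarith
    · right
      rw [hmm] at h6
      have : (t - (-(l : ℤ))) = -1 := by
        have h7 : (l : ℤ) * (t - (-(l : ℤ))) = (l : ℤ) * (-1) := by linarith
        exact mul_left_cancel₀ hl0.ne' h7
      linarith

end Abstract

end Fermat.Agent.Lib.helper2405
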