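import Mathlib

/-!
# The invariant differential of a Weierstrass curve as an additive homomorphism (helper9242)

Let `L` be a field with a derivation `D` (over a subfield `k`) and let `W` be a Weierstrass curve
over `L` whose coefficients are killed by `D`.  For a nonsingular affine point `(x, y)` of `W` there
is a unique `c ∈ L` with

  `D x = c * (2y + a₁x + a₃)`  and  `D y = c * (3x² + 2a₂x + a₄ - a₁y)`,

namely `c = D x / (2y + a₁x + a₃)` (the invariant differential `dx / (2y + a₁x + a₃)` evaluated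
along `D`).  We prove that `P ↦ c(P)` (and `0 ↦ 0`) is an additive homomorphism `W.Point →+ L`,
valid in every characteristic, and that its kernel consists of the points with `D`-constant
coordinates.
-/

set_option autoImplicit false
set_option linter.unusedSimpArgs false
set_option linter.unusedSectionVars false

noncomputable section

namespace Fermat.Agent.Lib.helper9242

open WeierstrassCurve WeierstrassCurve.Affine Polynomial

variable {k L : Type*} [Field k] [Field L] [Algebra k L]

/-- `D` kills the coefficients of the Weierstrass curve `W`. -/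
def ConstCoeffs (D : Derivation k L L) (W : WeierstrassCurve.Affine L) : Prop :=
  D W.a₁ = 0 ∧ D W.a₂ = 0 ∧ D W.a₃ = 0 ∧ D W.a₄ = 0 ∧ D W.a₆ = 0

variable (D : Derivation k L L) (W : WeierstrassCurve.Affine L)

/-- The partial derivative in `Y` of the Weierstrass polynomial at `(x, y)`. -/
def uY (x y : L) : L := 2 * y + W.a₁ * x + W.a₃

/-- Minus the partial derivative in `X` of the Weierstrass polynomial at `(x, y)`. -/
def vX (x y : L) : L := 3 * x ^ 2 + 2 * W.a₂ * x + W.a₄ - W.a₁ * y

variable {D W}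

theorem D_ofNat (n : ℕ) [n.AtLeastTwo] : D (OfNat.ofNat n : L) = 0 := by
  rw [← Nat.cast_ofNat (R := L)]
  exact D.map_natCast n

theorem D_equation (hW : ConstCoeffs D W) {x y : L} (h : W.Equation x y) :
    uY W x y * D y = vX W x y * D x := by
  obtain ⟨h1, h2, h3, h4, h6⟩ := hW
  have h' := congrArg D ((W.equation_iff x y).mp h)
  simp only [map_add, Derivation.leibniz, Derivation.leibniz_pow, smul_eq_mul, h1, h2, h3, h4, h6,
    nsmul_eq_mul] at h'
  unfold uY vX
  linear_combination h'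

theorem uY_ne_or_vX_ne {x y : L} (h : W.Nonsingular x y) : uY W x y ≠ 0 ∨ vX W x y ≠ 0 := by
  rcases ((W.nonsingular_iff x y).mp h).2 with h1 | h1
  · right
    unfold vX
    intro h0
    exact h1 (by linear_combination -h0)
  · left
    unfold uY
    intro h0
    exact h1 (by linear_combination h0)

variable [DecidableEq L]

variable (D W) in
/-- The value of the invariant differential along `D` at a point: `0` at the point at infinity,
and the unique `c` with `D x = c * (2y + a₁x + a₃)`, `D y = c * (3x² + 2a₂x + a₄ - a₁y)` at a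
nonsingular affine point `(x, y)`. -/
def invDiffFun : W.Point → L
  | .zero => 0
  | .some x y _ => if uY W x y = 0 then D y / vX W x y else D x / uY W x y

@[simp]
theorem invDiffFun_zero : invDiffFun D W 0 = 0 := rfl

theorem invDiffFun_some_of_ne {x y : L} (h : W.Nonsingular x y) (hu : uY W x y ≠ 0) :
    invDiffFun D W (.some x y h) = D x / uY W x y := by
  simp [invDiffFun, hu]

theorem invDiffFun_spec (hW : ConstCoeffs D W) {x y : L} (h : W.Nonsingular x y) :
    D x = invDiffFun D W (.some x y h) * uY W x y ∧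
      D y = invDiffFun D W (.some x y h) * vX W x y := by
  have hrel := D_equation hW h.1
  by_cases hu : uY W x y = 0
  · have hv : vX W x y ≠ 0 := (uY_ne_or_vX_ne h).resolve_left (not_not.mpr hu)
    have hc : invDiffFun D W (.some x y h) = D y / vX W x y := by simp [invDiffFun, hu]
    rw [hc, hu, mul_zero, div_mul_cancel₀ _ hv]
    refine ⟨?_, rfl⟩
    rw [hu, zero_mul] at hrel
    rcases mul_eq_zero.mp hrel.symm with h0 | h0
    · exact absurd h0 hv
    · exact h0
  · rw [invDiffFun_some_of_ne h hu, div_mul_cancel₀ _ hu]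
    refine ⟨rfl, ?_⟩
    field_simp
    linear_combination hrel

theorem invDiffFun_unique (hW : ConstCoeffs D W) {x y : L} (h : W.Nonsingular x y) {c : L}
    (hx : D x = c * uY W x y) (hy : D y = c * vX W x y) : invDiffFun D W (.some x y h) = c := by
  obtain ⟨hx', hy'⟩ := invDiffFun_spec hW h
  have e1 : (invDiffFun D W (.some x y h) - c) * uY W x y = 0 := by
    linear_combination hx - hx'
  have e2 : (invDiffFun D W (.some x y h) - c) * vX W x y = 0 := by
    linear_combination hy - hy'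
  rcases uY_ne_or_vX_ne h with hu | hv
  · exact sub_eq_zero.mp ((mul_eq_zero.mp e1).resolve_right hu)
  · exact sub_eq_zero.mp ((mul_eq_zero.mp e2).resolve_right hv)

theorem invDiffFun_eq_zero_iff (hW : ConstCoeffs D W) {x y : L} (h : W.Nonsingular x y) :
    invDiffFun D W (.some x y h) = 0 ↔ D x = 0 ∧ D y = 0 := by
  constructor
  · intro h0
    obtain ⟨hx, hy⟩ := invDiffFun_spec hW h
    rw [h0, zero_mul] at hx hy
    exact ⟨hx, hy⟩
  · rintro ⟨hx, hy⟩
    exact invDiffFun_unique hW h (by rw [hx, zero_mul]) (by rw [hy, zero_mul])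

/-- The value at `t` of the derivative of the addition polynomial, in terms of the partial
derivatives of the Weierstrass polynomial along the line of slope `ℓ` through `(x₁, y₁)`. -/
theorem eval_derivative_addPolynomial (x₁ y₁ ℓ t : L) :
    (derivative (W.addPolynomial x₁ y₁ ℓ)).eval t =
      -(vX W t (ℓ * (t - x₁) + y₁) - ℓ * uY W t (ℓ * (t - x₁) + y₁)) := by
  rw [addPolynomial_eq]
  simp only [Cubic.toPoly, uY, vX, derivative_C, derivative_X, derivative_X_pow, derivative_neg,
    derivative_add, derivative_sub, derivative_mul, derivative_sq, eval_neg, eval_add, eval_mul,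
    eval_C, eval_X, eval_pow, eval_natCast, eval_ofNat, eval_sub, C_1, one_mul, mul_one, eval_one,
    zero_mul, zero_add, add_zero, mul_zero]
  ring

/-- **Translation invariance of the invariant differential**, in coordinates: if `D x_i = c_i u_i`
and `D y_i = c_i v_i` at two points `P₁`, `P₂` with `P₁ ≠ -P₂`, then `D x₃ = (c₁ + c₂) u₃` and
`D y₃ = (c₁ + c₂) v₃` at `P₃ = P₁ + P₂`. -/
theorem D_add (hW : ConstCoeffs D W) {x₁ x₂ y₁ y₂ : L} (h₁ : W.Equation x₁ y₁)
    (h₂ : W.Equation x₂ y₂) (hxy : ¬(x₁ = x₂ ∧ y₁ = W.negY x₂ y₂)) {c₁ c₂ : L}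
    (hx₁ : D x₁ = c₁ * uY W x₁ y₁) (hy₁ : D y₁ = c₁ * vX W x₁ y₁)
    (hx₂ : D x₂ = c₂ * uY W x₂ y₂) (hy₂ : D y₂ = c₂ * vX W x₂ y₂) :
    D (W.addX x₁ x₂ (W.slope x₁ x₂ y₁ y₂)) =
        (c₁ + c₂) * uY W (W.addX x₁ x₂ (W.slope x₁ x₂ y₁ y₂))
          (W.addY x₁ x₂ y₁ (W.slope x₁ x₂ y₁ y₂)) ∧
      D (W.addY x₁ x₂ y₁ (W.slope x₁ x₂ y₁ y₂)) =
        (c₁ + c₂) * vX W (W.addX x₁ x₂ (W.slope x₁ x₂ y₁ y₂))
          (W.addY x₁ x₂ y₁ (W.slope x₁ x₂ y₁ y₂)) := by
  obtain ⟨ha1, ha2, ha3, ha4, ha6⟩ := hW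
  set ℓ := W.slope x₁ x₂ y₁ y₂ with hℓ
  set x₃ := W.addX x₁ x₂ ℓ with hx₃
  have hder := derivative_addPolynomial_slope h₁ h₂ hxy
  rw [← hℓ, ← hx₃] at hder
  -- the line through `P₁` of slope `ℓ` passes through `P₂`
  have hline : ℓ * (x₁ - x₂) = y₁ - y₂ := by
    by_cases hx : x₁ = x₂
    · have hy : y₁ ≠ W.negY x₂ y₂ := fun h => hxy ⟨hx, h⟩
      rw [hx, Y_eq_of_Y_ne h₁ h₂ hx hy]
      ring
    · rw [hℓ, slope_of_X_ne hx, div_mul_cancel₀ _ (sub_ne_zero.mpr hx)]
  -- the three evaluations of the derivative of the addition polynomial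
  have hK1 : vX W x₁ y₁ - ℓ * uY W x₁ y₁ = (x₁ - x₂) * (x₁ - x₃) := by
    have e := congrArg (eval x₁) hder
    rw [eval_derivative_addPolynomial] at e
    simp only [eval_neg, eval_add, eval_mul, eval_sub, eval_X, eval_C, sub_self, mul_zero,
      zero_add, zero_mul, add_zero] at e
    linear_combination -e
  have hK2 : vX W x₂ y₂ - ℓ * uY W x₂ y₂ = (x₂ - x₁) * (x₂ - x₃) := by
    have e := congrArg (eval x₂) hder
    rw [eval_derivative_addPolynomial] at e
    have hy : ℓ * (x₂ - x₁) + y₁ = y₂ := by linear_combination -hline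
    rw [hy] at e
    simp only [eval_neg, eval_add, eval_mul, eval_sub, eval_X, eval_C, sub_self, mul_zero,
      zero_add, zero_mul, add_zero] at e
    linear_combination -e
  have hK3 : vX W x₃ (W.addY x₁ x₂ y₁ ℓ) =
      (x₃ - x₁) * (x₃ - x₂) - (W.a₁ + ℓ) * uY W x₃ (W.addY x₁ x₂ y₁ ℓ) := by
    have e := congrArg (eval x₃) hder
    rw [eval_derivative_addPolynomial] at e
    simp only [eval_neg, eval_add, eval_mul, eval_sub, eval_X, eval_C, sub_self, mul_zero,
      zero_add, zero_mul, add_zero] at e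
    simp only [addY, negAddY, negY, uY, vX, ← hx₃] at e ⊢
    linear_combination -e
  -- the two expressions of `u₃`
  have hu3 : uY W x₃ (W.addY x₁ x₂ y₁ ℓ) = (2 * ℓ + W.a₁) * (x₁ - x₃) - uY W x₁ y₁ := by
    simp only [addY, negAddY, negY, uY, ← hx₃]
    ring
  have hu3' : uY W x₃ (W.addY x₁ x₂ y₁ ℓ) = (2 * ℓ + W.a₁) * (x₂ - x₃) - uY W x₂ y₂ := by
    rw [hu3]
    simp only [uY]
    linear_combination 2 * hline
  -- the derivative of the slope
  have hDℓ : D ℓ = c₁ * (x₁ - x₃) + c₂ * (x₂ - x₃) := by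
    by_cases hx : x₁ = x₂
    · have hy : y₁ ≠ W.negY x₂ y₂ := fun h => hxy ⟨hx, h⟩
      have hyy : y₁ = y₂ := Y_eq_of_Y_ne h₁ h₂ hx hy
      subst hx hyy
      have hu : uY W x₁ y₁ ≠ 0 := by
        intro h0
        apply hy
        simp only [negY]
        simp only [uY] at h0
        linear_combination h0
      have hc : c₁ = c₂ := by
        have : (c₁ - c₂) * uY W x₁ y₁ = 0 := by linear_combination hx₂ - hx₁
        exact sub_eq_zero.mp ((mul_eq_zero.mp this).resolve_right hu)
      subst hc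
      have hℓu : ℓ * uY W x₁ y₁ = vX W x₁ y₁ := by
        have := hK1
        rw [sub_self, zero_mul] at this
        linear_combination -this
      have hDu : D (uY W x₁ y₁) = c₁ * (2 * vX W x₁ y₁ + W.a₁ * uY W x₁ y₁) := by
        simp only [uY, map_add, Derivation.leibniz, smul_eq_mul, ha1, ha3, hx₁, hy₁,
          D_ofNat (D := D), mul_zero, add_zero, zero_add]
        ring
      have hDv : D (vX W x₁ y₁) = c₁ * ((6 * x₁ + 2 * W.a₂) * uY W x₁ y₁ - W.a₁ * vX W x₁ y₁) := by
        simp only [vX, map_add, map_sub, Derivation.leibniz, Derivation.leibniz_pow, smul_eq_mul,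
          ha1, ha2, ha4, hx₁, hy₁, D_ofNat (D := D), mul_zero, add_zero, zero_add, nsmul_eq_mul]
        push_cast
        ring
      have e := congrArg D hℓu
      rw [Derivation.leibniz, smul_eq_mul, smul_eq_mul, hDu, hDv] at e
      have hx3 : x₃ = ℓ ^ 2 + W.a₁ * ℓ - W.a₂ - x₁ - x₁ := by rw [hx₃]; rfl
      apply mul_right_cancel₀ hu
      rw [hx3]
      linear_combination e + c₁ * (2 * ℓ + W.a₁) * hℓu
    · have hne : x₁ - x₂ ≠ 0 := sub_ne_zero.mpr hx
      have e := congrArg D hline
      rw [Derivation.leibniz, smul_eq_mul, smul_eq_mul, map_sub, map_sub, hx₁, hx₂, hy₁, hy₂] at e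
      apply mul_right_cancel₀ hne
      linear_combination e + c₁ * hK1 - c₂ * hK2
  have hDx3 : D x₃ = (2 * ℓ + W.a₁) * D ℓ - D x₁ - D x₂ := by
    rw [hx₃]
    simp only [addX, map_add, map_sub, Derivation.leibniz, Derivation.leibniz_pow, smul_eq_mul,
      ha1, ha2, nsmul_eq_mul]
    push_cast
    ring
  have goal1 : D x₃ = (c₁ + c₂) * uY W x₃ (W.addY x₁ x₂ y₁ ℓ) := by
    rw [hDx3, hDℓ, hx₁, hx₂]
    linear_combination (-c₁) * hu3 + (-c₂) * hu3'
  refine ⟨goal1, ?_⟩
  have hDy3 : D (W.addY x₁ x₂ y₁ ℓ) =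
      -(D ℓ * (x₃ - x₁) + ℓ * (D x₃ - D x₁) + D y₁) - W.a₁ * D x₃ := by
    simp only [addY, negAddY, negY, ← hx₃, map_add, map_sub, map_neg, Derivation.leibniz,
      smul_eq_mul, ha1, ha3]
    ring
  rw [hDy3, goal1, hDℓ, hx₁, hy₁, hK3]
  linear_combination (-c₁) * hK1 + ℓ * (c₁) * hu3 - ℓ * c₁ * hu3
    + 0 * hu3'

theorem invDiffFun_add (hW : ConstCoeffs D W) (P Q : W.Point) :
    invDiffFun D W (P + Q) = invDiffFun D W P + invDiffFun D W Q := by
  rcases P with _ | ⟨x₁, y₁, h₁⟩
  · rw [← Point.zero_def, zero_add, invDiffFun_zero, zero_add]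
  rcases Q with _ | ⟨x₂, y₂, h₂⟩
  · rw [← Point.zero_def, add_zero, invDiffFun_zero, add_zero]
  obtain ⟨hx₁, hy₁⟩ := invDiffFun_spec hW h₁
  obtain ⟨hx₂, hy₂⟩ := invDiffFun_spec hW h₂
  by_cases hxy : x₁ = x₂ ∧ y₁ = W.negY x₂ y₂
  · rw [Point.add_of_Y_eq hxy.1 hxy.2, invDiffFun_zero]
    obtain ⟨rfl, rfl⟩ := hxy
    set c₁ := invDiffFun D W (.some x₁ (W.negY x₁ y₂) h₁)
    set c₂ := invDiffFun D W (.some x₁ y₂ h₂)
    have hu : uY W x₁ (W.negY x₁ y₂) = -uY W x₁ y₂ := by
      simp only [uY, negY]; ring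
    have hv : vX W x₁ (W.negY x₁ y₂) = vX W x₁ y₂ + W.a₁ * uY W x₁ y₂ := by
      simp only [uY, vX, negY]; ring
    have hDy : D (W.negY x₁ y₂) = -D y₂ - W.a₁ * D x₁ := by
      simp only [negY, map_sub, map_neg, Derivation.leibniz, smul_eq_mul, hW.1, hW.2.2.1]
      ring
    have e1 : (c₁ + c₂) * uY W x₁ y₂ = 0 := by
      rw [hu] at hx₁
      linear_combination hx₁ - hx₂
    have e2 : (c₁ + c₂) * vX W x₁ y₂ = 0 := by
      rw [hv, hDy, hy₂, hx₂] at hy₁
      linear_combination -hy₁ - W.a₁ * e1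
    symm
    rcases uY_ne_or_vX_ne h₂ with h0 | h0
    · exact (mul_eq_zero.mp e1).resolve_right h0
    · exact (mul_eq_zero.mp e2).resolve_right h0
  · rw [Point.add_some hxy]
    obtain ⟨e1, e2⟩ := D_add hW h₁.1 h₂.1 hxy hx₁ hy₁ hx₂ hy₂
    exact invDiffFun_unique hW _ e1 e2

variable (D W) in
/-- **The invariant differential as an additive homomorphism.**  For a Weierstrass curve `W` over
a field `L` whose coefficients are killed by the derivation `D`, the map sending `0` to `0` and a
nonsingular affine point `(x, y)` to the unique `c` with `D x = c * (2y + a₁x + a₃)` and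
`D y = c * (3x² + 2a₂x + a₄ - a₁y)` is a homomorphism of groups `W.Point →+ L`. -/
def invDiff (hW : ConstCoeffs D W) : W.Point →+ L where
  toFun := invDiffFun D W
  map_zero' := rfl
  map_add' := invDiffFun_add hW

@[simp]
theorem invDiff_apply (hW : ConstCoeffs D W) (P : W.Point) :
    invDiff D W hW P = invDiffFun D W P := rfl

/-- `invDiff (x, y) = D x / (2y + a₁x + a₃)` when the denominator does not vanish. -/
theorem invDiff_some (hW : ConstCoeffs D W) {x y : L} (h : W.Nonsingular x y)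
    (hu : 2 * y + W.a₁ * x + W.a₃ ≠ 0) :
    invDiff D W hW (.some x y h) = D x / (2 * y + W.a₁ * x + W.a₃) :=
  invDiffFun_some_of_ne h hu

/-- `invDiff (x, y) = D y / (3x² + 2a₂x + a₄ - a₁y)` when the denominator does not vanish. -/
theorem invDiff_some' (hW : ConstCoeffs D W) {x y : L} (h : W.Nonsingular x y)
    (hv : 3 * x ^ 2 + 2 * W.a₂ * x + W.a₄ - W.a₁ * y ≠ 0) :
    invDiff D W hW (.some x y h) = D y / (3 * x ^ 2 + 2 * W.a₂ * x + W.a₄ - W.a₁ * y) := by
  have h2 := (invDiffFun_spec hW h).2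
  rw [invDiff_apply, eq_div_iff hv]
  exact h2.symm

/-- `D x = invDiff (x, y) * (2y + a₁x + a₃)`. -/
theorem D_x_eq (hW : ConstCoeffs D W) {x y : L} (h : W.Nonsingular x y) :
    D x = invDiff D W hW (.some x y h) * (2 * y + W.a₁ * x + W.a₃) :=
  (invDiffFun_spec hW h).1

/-- `D y = invDiff (x, y) * (3x² + 2a₂x + a₄ - a₁y)`. -/
theorem D_y_eq (hW : ConstCoeffs D W) {x y : L} (h : W.Nonsingular x y) :
    D y = invDiff D W hW (.some x y h) * (3 * x ^ 2 + 2 * W.a₂ * x + W.a₄ - W.a₁ * y) :=
  (invDiffFun_spec hW h).2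

/-- The kernel of `invDiff` consists of `0` and the points with `D`-constant coordinates. -/
theorem invDiff_eq_zero_iff (hW : ConstCoeffs D W) {x y : L} (h : W.Nonsingular x y) :
    invDiff D W hW (.some x y h) = 0 ↔ D x = 0 ∧ D y = 0 :=
  invDiffFun_eq_zero_iff hW h

/-- Uniqueness: any `c` with `D x = c * (2y + a₁x + a₃)` and `D y = c * (3x² + 2a₂x + a₄ - a₁y)`
is the value of `invDiff` at `(x, y)`. -/
theorem invDiff_eq_of_eq (hW : ConstCoeffs D W) {x y : L} (h : W.Nonsingular x y) {c : L}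
    (hx : D x = c * (2 * y + W.a₁ * x + W.a₃))
    (hy : D y = c * (3 * x ^ 2 + 2 * W.a₂ * x + W.a₄ - W.a₁ * y)) :
    invDiff D W hW (.some x y h) = c :=
  invDiffFun_unique hW h hx hy

theorem invDiff_neg (hW : ConstCoeffs D W) (P : W.Point) :
    invDiff D W hW (-P) = -invDiff D W hW P :=
  map_neg _ P

/-- A curve obtained by base change from the field of constants `k` has `D`-constant
coefficients. -/
theorem constCoeffs_map (D : Derivation k L L) (W₀ : WeierstrassCurve k) :
    ConstCoeffs D (W₀.map (algebraMap k L)) :=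
  ⟨D.map_algebraMap _, D.map_algebraMap _, D.map_algebraMap _, D.map_algebraMap _,
    D.map_algebraMap _⟩

/-- A curve obtained by base change from the field of constants `k` has `D`-constant
coefficients (`baseChange` form). -/
theorem constCoeffs_baseChange (D : Derivation k L L) (W₀ : WeierstrassCurve k) :
    ConstCoeffs D (W₀.baseChange L) :=
  constCoeffs_map D W₀

/-- If the sum of finitely many points has the same invariant-differential value as a point `Q`,
their difference is a point with `D`-constant coordinates (or `0`): kernel form. -/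
theorem invDiff_sub_eq_zero (hW : ConstCoeffs D W) {P Q : W.Point}
    (h : invDiff D W hW P = invDiff D W hW Q) : invDiff D W hW (P - Q) = 0 := by
  rw [map_sub, h, sub_self]

/-- A point in the kernel of `invDiff` is `0` or has `D`-constant coordinates. -/
theorem eq_zero_or_const_of_invDiff_eq_zero (hW : ConstCoeffs D W) {P : W.Point}
    (h : invDiff D W hW P = 0) :
    P = 0 ∨ ∃ (x y : L) (hxy : W.Nonsingular x y), P = .some x y hxy ∧ D x = 0 ∧ D y = 0 := by
  rcases P with _ | ⟨x, y, hxy⟩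
  · exact Or.inl rfl
  · exact Or.inr ⟨x, y, hxy, rfl, (invDiff_eq_zero_iff hW hxy).mp h⟩

end Fermat.Agent.Lib.helper9242

end
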