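/-
Frobenius endgames for Weierstrass curves over `ZMod ℓ` (route #1886 of S58, steps 4 / 5a).

Instance of `helper2405_FrobEndgame` with `G = (W⁄K).Point`, `F = Point.map frob`
(`frob z = z ^ ℓ`) and `δ = helper9242.invDiff D` for a derivation `D` of `K`:
a point `Q` with `invDiff D Q ≠ 0` is non-torsion (given Frobenius Cayley–Hamilton), a relation
`Fr² Q - a Fr Q + ℓ Q = 0` forces `a = traceOfFrobenius`, and a relation `ℓ Q = a Fr Q` is
impossible.  Also: `|traceOfFrobenius| ≤ card` for every Weierstrass curve over a finite field.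
-/
import Mathlib
import Fermat.Prelude.Def_FLTPrelim_Modularity
import Fermat.Agent.Lib.helper9242_InvDiffHom
import Fermat.Agent.Lib.helper2405_FrobEndgame

namespace Fermat.Agent.Lib.helper2405

open WeierstrassCurve WeierstrassCurve.Affine Polynomial
open scoped WeierstrassCurve.Affine
open Fermat.Agent.Lib.helper9242

section Card

variable {k : Type*} [Field k] [Fintype k]

/-- For fixed `x`, the Weierstrass equation has at most two solutions `y`. -/
theorem card_equation_fiber_le [DecidableEq k] (W : WeierstrassCurve.Affine k) (x : k)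
    [DecidablePred fun y : k => W.Equation x y] :
    (Finset.univ.filter (fun y : k => W.Equation x y)).card ≤ 2 := by
  set p : k[X] := X ^ 2 + C (W.a₁ * x + W.a₃) * X - C (x ^ 3 + W.a₂ * x ^ 2 + W.a₄ * x + W.a₆)
    with hp
  have hdeg : p.natDegree = 2 := by rw [hp]; compute_degree!
  have hp0 : p ≠ 0 := by
    intro h; rw [h] at hdeg; simp at hdeg
  have hsub : Finset.univ.filter (fun y : k => W.Equation x y) ⊆ p.roots.toFinset := by
    intro y hy
    rw [Finset.mem_filter] at hy
    rw [Multiset.mem_toFinset, mem_roots hp0, IsRoot.def]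
    have := (W.equation_iff x y).mp hy.2
    simp only [hp, eval_sub, eval_add, eval_pow, eval_X, eval_mul, eval_C]
    rw [← sub_eq_zero] at this
    rw [← this]; ring
  calc (Finset.univ.filter (fun y : k => W.Equation x y)).card
      ≤ p.roots.toFinset.card := Finset.card_le_card hsub
    _ ≤ Multiset.card p.roots := Multiset.toFinset_card_le _
    _ ≤ p.natDegree := card_roots' p
    _ = 2 := hdeg

/-- A Weierstrass curve over a finite field with `q` elements has at most `2q + 1` points. -/
theorem natCard_point_le (W : WeierstrassCurve.Affine k) :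
    Nat.card W.Point ≤ 2 * Fintype.card k + 1 := by
  classical
  let S : Finset (k × k) := Finset.univ.filter (fun p : k × k => W.Equation p.1 p.2)
  let g : W.Point → Option S := fun P => match P with
    | .zero => none
    | .some x y h => some ⟨(x, y), by simp only [S, Finset.mem_filter, Finset.mem_univ, true_and]; exact h.1⟩
  have hg : Function.Injective g := by
    rintro (_ | ⟨x₁, y₁, h₁⟩) (_ | ⟨x₂, y₂, h₂⟩) h
    · rfl
    · simp [g] at h
    · simp [g] at h
    · simp only [g, Option.some.injEq, Subtype.mk.injEq, Prod.mk.injEq] at h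
      obtain ⟨rfl, rfl⟩ := h; rfl
  have h1 : Nat.card W.Point ≤ Nat.card (Option S) := Nat.card_le_card_of_injective g hg
  have h2 : Nat.card (Option S) = S.card + 1 := by
    rw [Nat.card_eq_fintype_card, Fintype.card_option, Fintype.card_coe]
  have h3 : S.card ≤ 2 * Fintype.card k := by
    have hfib : ∀ x : k, (S.filter (fun p => p.1 = x)).card ≤ 2 := by
      intro x
      have hinj : (S.filter (fun p => p.1 = x)).card
          ≤ (Finset.univ.filter (fun y : k => W.Equation x y)).card := by
        apply Finset.card_le_card_of_injOn (fun p => p.2)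
        · intro p hp
          simp only [S, Finset.coe_filter, Finset.mem_filter, Finset.mem_univ, true_and,
            Set.mem_ofPred_eq] at hp ⊢
          obtain ⟨hp1, hp2⟩ := hp
          rw [← hp2]; exact hp1
        · intro p hp p' hp' hpp
          simp only [Finset.coe_filter, Set.mem_ofPred_eq] at hp hp'
          exact Prod.ext (hp.2.trans hp'.2.symm) hpp
      exact hinj.trans (card_equation_fiber_le W x)
    calc S.card = ∑ x : k, (S.filter (fun p => p.1 = x)).card :=
          Finset.card_eq_sum_card_fiberwise (f := Prod.fst) (fun _ _ => Finset.mem_univ _)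
      _ ≤ ∑ _x : k, 2 := Finset.sum_le_sum (fun x _ => hfib x)
      _ = 2 * Fintype.card k := by simp [mul_comm]
  omega

/-- `|a| ≤ q` for the trace of Frobenius `a = q + 1 - #W(k)` of any Weierstrass curve over a
finite field with `q` elements (trivial bound; no Hasse). -/
theorem abs_traceOfFrobenius_le (W : WeierstrassCurve k) :
    |W.traceOfFrobenius| ≤ (Fintype.card k : ℤ) := by
  have h1 : Nat.card W.toAffine.Point ≤ 2 * Fintype.card k + 1 := natCard_point_le W.toAffine
  have h2 : 0 < Nat.card W.toAffine.Point := Nat.card_pos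
  have h3 : W.traceOfFrobenius
      = (Fintype.card k : ℤ) + 1 - (Nat.card W.toAffine.Point : ℤ) := by
    simp [WeierstrassCurve.traceOfFrobenius, WeierstrassCurve.card, Nat.card_eq_fintype_card]
  rw [h3, abs_le]
  constructor <;> omega

end Card

section Instance

variable {ℓ : ℕ} [hℓ : Fact ℓ.Prime] {K : Type*} [Field K] [Algebra (ZMod ℓ) K] [DecidableEq K]

/-- The invariant differential of a Frobenius image vanishes (`D` kills `ℓ`-th powers). -/
theorem invDiff_map_frob (D : Derivation (ZMod ℓ) K K) (W : WeierstrassCurve (ZMod ℓ))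
    (frob : K →ₐ[ZMod ℓ] K) (hfrob : ∀ z, frob z = z ^ ℓ) (P : (W⁄K).Point) :
    invDiff D (W⁄K) (constCoeffs_baseChange D W) (Point.map (W' := W) frob P) = 0 := by
  have : CharP K ℓ := charP_of_injective_algebraMap (algebraMap (ZMod ℓ) K).injective ℓ
  have hD : ∀ z : K, D (frob z) = 0 := by
    intro z
    rw [hfrob, Derivation.leibniz_pow, nsmul_eq_mul, CharP.cast_eq_zero K ℓ, zero_mul]
  rcases P with _ | ⟨x, y, h⟩
  · exact map_zero _
  · rw [Point.map_some, invDiff_eq_zero_iff]
    exact ⟨hD x, hD y⟩

variable (D : Derivation (ZMod ℓ) K K) (W : WeierstrassCurve (ZMod ℓ))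
  (frob : K →ₐ[ZMod ℓ] K) (hfrob : ∀ z, frob z = z ^ ℓ)
  (hCH : ∀ P : (W⁄K).Point,
    Point.map (W' := W) frob (Point.map (W' := W) frob P)
      - W.traceOfFrobenius • Point.map (W' := W) frob P + (ℓ : ℤ) • P = 0)

include hfrob hCH

/-- **Non-torsion from the invariant differential.**  Given Frobenius Cayley–Hamilton, a point
`Q` of `W(K)` with `invDiff D Q ≠ 0` is not a torsion point. -/
theorem zsmul_ne_zero_of_invDiff_ne_zero {Q : (W⁄K).Point}
    (hQ : invDiff D (W⁄K) (constCoeffs_baseChange D W) Q ≠ 0) {n : ℤ} (hn : n ≠ 0) :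
    n • Q ≠ 0 := by
  have : CharP K ℓ := charP_of_injective_algebraMap (algebraMap (ZMod ℓ) K).injective ℓ
  exact zsmul_ne_zero_of_delta_ne_zero ℓ ℓ dvd_rfl (Point.map (W' := W) frob)
    (Point.map_injective (W' := W) frob) W.traceOfFrobenius hCH
    (invDiff D (W⁄K) (constCoeffs_baseChange D W)) (invDiff_map_frob D W frob hfrob) hQ hn

/-- **Endgame (E1): Eichler–Shimura at a good prime.**  If `Fr² Q - a Fr Q + ℓ Q = 0` for a point
`Q` with `invDiff D Q ≠ 0`, then `a` is the trace of Frobenius of `W`. -/
theorem trace_eq_of_point_relation {Q : (W⁄K).Point}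
    (hQ : invDiff D (W⁄K) (constCoeffs_baseChange D W) Q ≠ 0) {a : ℤ}
    (hrel : Point.map (W' := W) frob (Point.map (W' := W) frob Q)
      - a • Point.map (W' := W) frob Q + (ℓ : ℤ) • Q = 0) :
    a = W.traceOfFrobenius := by
  have : CharP K ℓ := charP_of_injective_algebraMap (algebraMap (ZMod ℓ) K).injective ℓ
  exact trace_eq_of_frob_relation ℓ ℓ dvd_rfl (Point.map (W' := W) frob)
    (Point.map_injective (W' := W) frob) W.traceOfFrobenius hCH
    (invDiff D (W⁄K) (constCoeffs_baseChange D W)) (invDiff_map_frob D W frob hfrob) hQ hrel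

/-- **Endgame (E2): the `U`-relation is impossible at a prime of good reduction.**  A point `Q`
with `invDiff D Q ≠ 0` cannot satisfy `ℓ Q = a Fr Q`. -/
theorem false_of_point_U_relation {Q : (W⁄K).Point}
    (hQ : invDiff D (W⁄K) (constCoeffs_baseChange D W) Q ≠ 0) {a : ℤ}
    (hrel : (ℓ : ℤ) • Q = a • Point.map (W' := W) frob Q) : False := by
  have : CharP K ℓ := charP_of_injective_algebraMap (algebraMap (ZMod ℓ) K).injective ℓ
  have h := trace_eq_of_U_relation ℓ (Point.map (W' := W) frob)
    (Point.map_injective (W' := W) frob) W.traceOfFrobenius hCH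
    (invDiff D (W⁄K) (constCoeffs_baseChange D W)) (invDiff_map_frob D W frob hfrob) hQ hrel
  have hb := abs_traceOfFrobenius_le W
  rw [ZMod.card, abs_le] at hb
  rcases h with h | h <;> omega

end Instance

end Fermat.Agent.Lib.helper2405
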