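import Mathlib

/-!
# Universal property of `SL(2, ℤ)` with respect to `s ^ 2 = 1 = u ^ 3` (helper242)

`PSL(2, ℤ)` is the free product `C₂ * C₃` (generated by the images of `S` and `S * T`).
We prove the consequence that is used for cocycle extension:

`exists_monoidHom_of_sq_cube` : for every group `K` and `s u : K` with `s ^ 2 = 1` and `u ^ 3 = 1`
there is a homomorphism `ψ : SL(2, ℤ) →* K` with `ψ S = s` and `ψ (S * T) = u`.

Proof: ping-pong lemma (`Monoid.CoprodI.lift_injective_of_ping_pong`) for the action on the upper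
half plane with the sets `{re > 0}` and `{re < 0}`.
-/

set_option autoImplicit false

open scoped MatrixGroups
open UpperHalfPlane ModularGroup

namespace Fermat.Agent.Lib.helper242

noncomputable section

/-- The permutation representation of `SL(2, ℤ)` on the upper half plane. -/
def rho : SL(2, ℤ) →* Equiv.Perm ℍ := MulAction.toPermHom SL(2, ℤ) ℍ

theorem rho_apply (g : SL(2, ℤ)) (z : ℍ) : rho g z = g • z := rfl

theorem rho_neg_one : rho (-1) = 1 := by
  ext z
  have h := SL_neg_smul 1 z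
  rw [one_smul] at h
  simp only [rho_apply, Equiv.Perm.coe_one, id_eq]
  exact congrArg _ h

theorem S_mul_S : (S * S : SL(2, ℤ)) = -1 := by
  apply Subtype.ext
  simp only [Matrix.SpecialLinearGroup.coe_mul, Matrix.SpecialLinearGroup.coe_neg,
    Matrix.SpecialLinearGroup.coe_one]
  exact S_mul_S_eq

theorem ST_cube : ((S * T) ^ 3 : SL(2, ℤ)) = -1 := by
  apply Subtype.ext
  simp only [Matrix.SpecialLinearGroup.coe_mul, Matrix.SpecialLinearGroup.coe_neg,
    Matrix.SpecialLinearGroup.coe_one, coe_S, coe_T,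
    pow_succ, pow_zero, one_mul, Matrix.mul_fin_two]
  ext i j
  fin_cases i <;> fin_cases j <;> simp

theorem rho_S_sq : rho S ^ 2 = 1 := by
  rw [← map_pow, pow_two, S_mul_S, rho_neg_one]

theorem rho_ST_cube : rho (S * T) ^ 3 = 1 := by
  rw [← map_pow, ST_cube, rho_neg_one]

theorem re_S_smul (z : ℍ) : (S • z).re = -z.re / Complex.normSq (z : ℂ) := by
  rw [modular_S_smul]
  show ((-(z : ℂ))⁻¹).re = _
  rw [Complex.inv_re, Complex.normSq_neg]
  simp

theorem re_S_smul_pos {z : ℍ} (hz : z.re < 0) : 0 < (S • z).re := by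
  rw [re_S_smul]
  exact div_pos (by linarith) (Complex.normSq_pos.mpr z.ne_zero)

theorem re_S_smul_neg {z : ℍ} (hz : 0 < z.re) : (S • z).re < 0 := by
  rw [re_S_smul]
  exact div_neg_of_neg_of_pos (by linarith) (Complex.normSq_pos.mpr z.ne_zero)

theorem re_ST_smul_neg {z : ℍ} (hz : 0 < z.re) : ((S * T) • z).re < 0 := by
  rw [mul_smul]
  apply re_S_smul_neg
  rw [re_T_smul]
  linarith

theorem S_inv_smul (z : ℍ) : S⁻¹ • z = S • z := by
  have h : (S⁻¹ : SL(2, ℤ)) = -S := by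
    rw [inv_eq_iff_eq_inv, ← mul_eq_one_iff_eq_inv]
    rw [mul_neg, S_mul_S, neg_neg]
  rw [h, SL_neg_smul]

theorem re_T_inv_smul (z : ℍ) : (T⁻¹ • z).re = z.re - 1 := by
  have := re_T_smul (T⁻¹ • z)
  rw [smul_inv_smul] at this
  linarith

theorem re_ST_inv_smul_neg {z : ℍ} (hz : 0 < z.re) : ((S * T)⁻¹ • z).re < 0 := by
  rw [mul_inv_rev, mul_smul, re_T_inv_smul, S_inv_smul]
  have := re_S_smul_neg hz
  linarith

/-! ### The two cyclic subgroups and the ping-pong sets -/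

/-- The two generators, as permutations of `ℍ`. -/
def gen : Fin 2 → Equiv.Perm ℍ := ![rho S, rho (S * T)]

@[simp] theorem gen_zero : gen 0 = rho S := rfl
@[simp] theorem gen_one : gen 1 = rho (S * T) := rfl

/-- The two cyclic subgroups (of orders `2` and `3`). -/
abbrev Hgrp (i : Fin 2) : Type := ↥(Subgroup.zpowers (gen i))

/-- The ping-pong sets. -/
def pp : Fin 2 → Set ℍ := ![{z | 0 < z.re}, {z | z.re < 0}]

theorem eq_of_mem_zpowers_S {h : Equiv.Perm ℍ} (hh : h ∈ Subgroup.zpowers (rho S)) (h1 : h ≠ 1) :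
    h = rho S := by
  obtain ⟨n, rfl⟩ := Subgroup.mem_zpowers_iff.mp hh
  rcases Int.even_or_odd' n with ⟨k, rfl | rfl⟩
  · exfalso
    apply h1
    rw [zpow_mul, zpow_ofNat, rho_S_sq, one_zpow]
  · rw [zpow_add, zpow_mul, zpow_ofNat, rho_S_sq, one_zpow, one_mul, zpow_one]

theorem eq_of_mem_zpowers_ST {h : Equiv.Perm ℍ} (hh : h ∈ Subgroup.zpowers (rho (S * T)))
    (h1 : h ≠ 1) : h = rho (S * T) ∨ h = rho ((S * T)⁻¹) := by
  obtain ⟨n, rfl⟩ := Subgroup.mem_zpowers_iff.mp hh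
  have key : ∀ k : ℤ, rho (S * T) ^ (3 * k) = 1 := fun k => by
    rw [zpow_mul, zpow_ofNat, rho_ST_cube, one_zpow]
  obtain ⟨k, hk | hk | hk⟩ : ∃ k : ℤ, n = 3 * k ∨ n = 3 * k + 1 ∨ n = 3 * k + (-1) :=
    ⟨(n + 1) / 3, by omega⟩
  · exact absurd (hk ▸ key k) h1
  · left
    rw [hk, zpow_add, key, one_mul, zpow_one]
  · right
    rw [hk, zpow_add, key, one_mul, zpow_neg, zpow_one, map_inv]

theorem rho_S_ne_one : rho S ≠ 1 := by
  intro h
  have h2 := congrArg (fun e : Equiv.Perm ℍ => (e ⟨⟨1, 1⟩, by simp⟩ : ℍ).re) h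
  simp only [rho_apply, Equiv.Perm.coe_one, id_eq] at h2
  have h3 := re_S_smul_neg (z := ⟨⟨1, 1⟩, by simp⟩) (by show (0 : ℝ) < 1; norm_num)
  rw [h2] at h3
  have : ((⟨⟨1, 1⟩, by simp⟩ : ℍ)).re = 1 := rfl
  linarith

theorem rho_ST_ne_one : rho (S * T) ≠ 1 := by
  intro h
  have h2 := congrArg (fun e : Equiv.Perm ℍ => (e ⟨⟨1, 1⟩, by simp⟩ : ℍ).re) h
  simp only [rho_apply, Equiv.Perm.coe_one, id_eq] at h2
  have h3 := re_ST_smul_neg (z := ⟨⟨1, 1⟩, by simp⟩) (by show (0 : ℝ) < 1; norm_num)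
  rw [h2] at h3
  have : ((⟨⟨1, 1⟩, by simp⟩ : ℍ)).re = 1 := rfl
  linarith

theorem orderOf_rho_S : orderOf (rho S) = 2 :=
  orderOf_eq_prime rho_S_sq rho_S_ne_one

theorem orderOf_rho_ST : orderOf (rho (S * T)) = 3 :=
  orderOf_eq_prime rho_ST_cube rho_ST_ne_one

/-! ### Ping-pong -/

open Monoid in
/-- The natural map from the free product of the two cyclic groups to `Perm ℍ`. -/
def Psi : Monoid.CoprodI Hgrp →* Equiv.Perm ℍ :=
  Monoid.CoprodI.lift fun i => (Subgroup.zpowers (gen i)).subtype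

theorem three_le_card_Hgrp_one : (3 : Cardinal) ≤ Cardinal.mk (Hgrp 1) := by
  have h3 : Nat.card (Hgrp 1) = 3 := by
    show Nat.card (Subgroup.zpowers (gen 1)) = 3
    rw [Nat.card_zpowers, gen_one, orderOf_rho_ST]
  have hfin : Finite (Hgrp 1) := Nat.finite_of_card_ne_zero (by omega)
  rw [← Nat.cast_card, h3]
  norm_num

theorem pp_nonempty (i : Fin 2) : (pp i).Nonempty := by
  fin_cases i
  · exact ⟨⟨⟨1, 1⟩, by simp⟩, by show (0 : ℝ) < 1; norm_num⟩
  · exact ⟨⟨⟨-1, 1⟩, by simp⟩, by show (-1 : ℝ) < 0; norm_num⟩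

theorem pp_disjoint : Pairwise (Function.onFun Disjoint pp) := by
  intro i j hij
  have key : Disjoint (pp 0) (pp 1) := by
    rw [Set.disjoint_left]
    intro z hz hz'
    have h0 : 0 < z.re := hz
    have h1 : z.re < 0 := hz'
    linarith
  fin_cases i <;> fin_cases j
  · exact absurd rfl hij
  · exact key
  · exact key.symm
  · exact absurd rfl hij

open scoped Pointwise in
theorem pp_ping_pong : Pairwise fun i j : Fin 2 => ∀ h : Hgrp i, h ≠ 1 →
    (Subgroup.zpowers (gen i)).subtype h • pp j ⊆ pp i := by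
  intro i j hij
  fin_cases i <;> fin_cases j
  · exact absurd rfl hij
  · rintro ⟨h, hh⟩ h1 _ ⟨z, hz, rfl⟩
    have h1' : h ≠ 1 := fun e => h1 (Subtype.ext e)
    have hS := eq_of_mem_zpowers_S hh h1'
    subst hS
    exact re_S_smul_pos (z := z) hz
  · rintro ⟨h, hh⟩ h1 _ ⟨z, hz, rfl⟩
    have h1' : h ≠ 1 := fun e => h1 (Subtype.ext e)
    rcases eq_of_mem_zpowers_ST hh h1' with hU | hU
    · subst hU
      exact re_ST_smul_neg (z := z) hz
    · subst hU
      exact re_ST_inv_smul_neg (z := z) hz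
  · exact absurd rfl hij

theorem Psi_injective : Function.Injective Psi :=
  Monoid.CoprodI.lift_injective_of_ping_pong _ (Or.inr ⟨1, three_le_card_Hgrp_one⟩) pp
    pp_nonempty pp_disjoint pp_ping_pong

/-! ### The universal property -/

theorem Psi_of (i : Fin 2) (x : Hgrp i) :
    Psi (Monoid.CoprodI.of x) = (x : Equiv.Perm ℍ) := by
  unfold Psi
  rw [Monoid.CoprodI.lift_of]
  rfl

theorem rho_mem_range_Psi (g : SL(2, ℤ)) : rho g ∈ Psi.range := by
  have hS : rho S ∈ Psi.range :=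
    ⟨Monoid.CoprodI.of (i := 0) ⟨rho S, Subgroup.mem_zpowers _⟩, Psi_of 0 _⟩
  have hU : rho (S * T) ∈ Psi.range :=
    ⟨Monoid.CoprodI.of (i := 1) ⟨rho (S * T), Subgroup.mem_zpowers _⟩, Psi_of 1 _⟩
  have hT : rho T ∈ Psi.range := by
    have : rho T = (rho S)⁻¹ * rho (S * T) := by
      rw [← map_inv, ← map_mul, inv_mul_cancel_left]
    rw [this]
    exact Psi.range.mul_mem (Psi.range.inv_mem hS) hU
  have hle : (⊤ : Subgroup SL(2, ℤ)) ≤ Psi.range.comap rho := by
    rw [← SpecialLinearGroup.SL2Z_generators, Subgroup.closure_le]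
    rintro x (rfl | rfl)
    · exact hS
    · exact hT
  exact hle (Subgroup.mem_top g)

/-- The lift of `rho` through the injective map `Psi`. -/
def kappa : SL(2, ℤ) →* Monoid.CoprodI Hgrp :=
  (MonoidHom.ofInjective Psi_injective).symm.toMonoidHom.comp
    (rho.codRestrict Psi.range rho_mem_range_Psi)

theorem Psi_kappa (g : SL(2, ℤ)) : Psi (kappa g) = rho g := by
  simp [kappa, MonoidHom.apply_ofInjective_symm]

theorem kappa_S : kappa S = Monoid.CoprodI.of (i := 0) ⟨rho S, Subgroup.mem_zpowers _⟩ := by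
  apply Psi_injective
  rw [Psi_kappa]
  exact (Psi_of 0 ⟨rho S, Subgroup.mem_zpowers _⟩).symm

theorem kappa_ST :
    kappa (S * T) = Monoid.CoprodI.of (i := 1) ⟨rho (S * T), Subgroup.mem_zpowers _⟩ := by
  apply Psi_injective
  rw [Psi_kappa]
  exact (Psi_of 1 ⟨rho (S * T), Subgroup.mem_zpowers _⟩).symm

theorem forall_mem_zpowers_gen (i : Fin 2) (x : Hgrp i) :
    x ∈ Subgroup.zpowers (⟨gen i, Subgroup.mem_zpowers _⟩ : Hgrp i) := by
  obtain ⟨x, hx⟩ := x
  obtain ⟨n, rfl⟩ := Subgroup.mem_zpowers_iff.mp hx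
  exact Subgroup.mem_zpowers_iff.mpr ⟨n, Subtype.ext (by simp)⟩

theorem orderOf_gen_mk (i : Fin 2) :
    orderOf (⟨gen i, Subgroup.mem_zpowers _⟩ : Hgrp i) = ![2, 3] i := by
  rw [← Subgroup.orderOf_coe]
  fin_cases i
  · exact orderOf_rho_S
  · exact orderOf_rho_ST

/-- **Universal property of `SL(2, ℤ)`** (presentation `PSL(2, ℤ) = C₂ * C₃`): for every group
`K` and elements `s u : K` with `s ^ 2 = 1` and `u ^ 3 = 1` there is a homomorphism
`ψ : SL(2, ℤ) →* K` with `ψ S = s` and `ψ (S * T) = u`. -/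
theorem exists_monoidHom_of_sq_cube {K : Type*} [Group K] (s u : K) (hs : s ^ 2 = 1)
    (hu : u ^ 3 = 1) :
    ∃ ψ : SL(2, ℤ) →* K, ψ ModularGroup.S = s ∧ ψ (ModularGroup.S * ModularGroup.T) = u := by
  have hdvd : ∀ i : Fin 2,
      orderOf ((![s, u] : Fin 2 → K) i) ∣ orderOf (⟨gen i, Subgroup.mem_zpowers _⟩ : Hgrp i) := by
    intro i
    rw [orderOf_gen_mk]
    fin_cases i
    · exact orderOf_dvd_of_pow_eq_one hs
    · exact orderOf_dvd_of_pow_eq_one hu
  let τ : ∀ i : Fin 2, Hgrp i →* K := fun i =>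
    monoidHomOfForallMemZpowers (forall_mem_zpowers_gen i) (hdvd i)
  refine ⟨(Monoid.CoprodI.lift τ).comp kappa, ?_, ?_⟩
  · rw [MonoidHom.comp_apply, kappa_S, Monoid.CoprodI.lift_of]
    exact monoidHomOfForallMemZpowers_apply_gen (forall_mem_zpowers_gen 0) (hdvd 0)
  · rw [MonoidHom.comp_apply, kappa_ST, Monoid.CoprodI.lift_of]
    exact monoidHomOfForallMemZpowers_apply_gen (forall_mem_zpowers_gen 1) (hdvd 1)

/-- Uniqueness part: a homomorphism out of `SL(2, ℤ)` is determined by its values on `S` and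
`S * T`. -/
theorem monoidHom_ext_S_ST {K : Type*} [Group K] {ψ ψ' : SL(2, ℤ) →* K}
    (hS : ψ ModularGroup.S = ψ' ModularGroup.S)
    (hU : ψ (ModularGroup.S * ModularGroup.T) = ψ' (ModularGroup.S * ModularGroup.T)) :
    ψ = ψ' := by
  have hT : ψ T = ψ' T := by
    have h1 : ψ T = (ψ S)⁻¹ * ψ (S * T) := by rw [← map_inv, ← map_mul, inv_mul_cancel_left]
    have h2 : ψ' T = (ψ' S)⁻¹ * ψ' (S * T) := by rw [← map_inv, ← map_mul, inv_mul_cancel_left]
    rw [h1, h2, hS, hU]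
  have hle : (⊤ : Subgroup SL(2, ℤ)) ≤ ψ.eqLocus ψ' := by
    rw [← SpecialLinearGroup.SL2Z_generators, Subgroup.closure_le]
    rintro x (rfl | rfl)
    · exact hS
    · exact hT
  exact MonoidHom.ext fun g => hle (Subgroup.mem_top g)

end

end Fermat.Agent.Lib.helper242
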