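import Mathlib
import Fermat.Agent.Lib.helper242_SL2ZPresentation

/-!
# Cocycle extension for `SL(2, ℤ)` (helper242)

For an `SL(2, ℤ)`-set `X` on which `-1` acts trivially and an abelian group `A`, a "cocycle" is a
map `κ : SL(2, ℤ) → X → A` with `κ (g * h) x = κ g (h • x) + κ h x` (the convention of
`Fermat.Agent.S21.helper681.coc_mul`).

* `exists_cocycle` : every pair `(a, b)` with `a (S • x) + a x = 0` and
  `b (U • U • x) + b (U • x) + b x = 0` (`U = S * T`) is `(κ S, κ (S * T))` for a cocycle `κ`.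
* `cocycle_ext` : a cocycle is determined by its values at `S` and `S * T`.

This is the presentation `PSL(2, ℤ) = C₂ * C₃`
(`Fermat.Agent.Lib.helper242.exists_monoidHom_of_sq_cube`) applied to the group of permutations
of `X × A`.
-/

set_option autoImplicit false

open scoped MatrixGroups
open ModularGroup

namespace Fermat.Agent.Lib.helper242

theorem closure_S_ST : Subgroup.closure ({S, S * T} : Set SL(2, ℤ)) = ⊤ := by
  rw [eq_top_iff, ← SpecialLinearGroup.SL2Z_generators, Subgroup.closure_le]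
  rintro x (rfl | rfl)
  · exact Subgroup.subset_closure (by simp)
  · have h : (T : SL(2, ℤ)) = S⁻¹ * (S * T) := by rw [inv_mul_cancel_left]
    rw [h]
    exact Subgroup.mul_mem _ (Subgroup.inv_mem _ (Subgroup.subset_closure (by simp)))
      (Subgroup.subset_closure (by simp))

section

variable {X : Type*} [MulAction SL(2, ℤ) X] {A : Type*} [AddCommGroup A]

/-- The permutation `(x, t) ↦ (g • x, t + c x)` of `X × A`. -/
def shear (g : SL(2, ℤ)) (c : X → A) : Equiv.Perm (X × A) where
  toFun p := (g • p.1, p.2 + c p.1)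
  invFun p := (g⁻¹ • p.1, p.2 - c (g⁻¹ • p.1))
  left_inv p := by simp
  right_inv p := by simp

@[simp] theorem shear_apply (g : SL(2, ℤ)) (c : X → A) (p : X × A) :
    shear g c p = (g • p.1, p.2 + c p.1) := rfl

theorem shear_mul (g h : SL(2, ℤ)) (c d : X → A) :
    shear g c * shear h d = shear (g * h) (fun x => c (h • x) + d x) := by
  ext p
  · simp [mul_smul]
  · simp only [Equiv.Perm.coe_mul, Function.comp_apply, shear_apply]
    abel

theorem shear_one : shear (1 : SL(2, ℤ)) (0 : X → A) = 1 := by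
  ext p <;> simp

theorem shear_inv (g : SL(2, ℤ)) (c : X → A) :
    (shear g c)⁻¹ = shear g⁻¹ (fun x => -c (g⁻¹ • x)) := by
  rw [inv_eq_iff_mul_eq_one, shear_mul]
  convert shear_one (X := X) (A := A) using 2
  · simp
  · funext x
    simp

/-- **Cocycle extension.** -/
theorem exists_cocycle (hneg : ∀ x : X, (-1 : SL(2, ℤ)) • x = x) (a b : X → A)
    (ha : ∀ x, a (S • x) + a x = 0)
    (hb : ∀ x, b ((S * T) • (S * T) • x) + b ((S * T) • x) + b x = 0) :
    ∃ κ : SL(2, ℤ) → X → A,
      (∀ g h x, κ (g * h) x = κ g (h • x) + κ h x) ∧ κ S = a ∧ κ (S * T) = b := by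
  have hs : shear S a ^ 2 = 1 := by
    rw [pow_two, shear_mul, S_mul_S]
    ext p
    · simp [hneg]
    · simp [ha]
  have hu : shear (S * T) b ^ 3 = 1 := by
    rw [pow_succ, pow_two, shear_mul, shear_mul, ← pow_two, ← pow_succ, ST_cube]
    ext p
    · simp [hneg]
    · simp only [shear_apply, Equiv.Perm.coe_one, id_eq, add_eq_left]
      rw [← hb p.1, mul_smul]
  obtain ⟨ψ, hψS, hψU⟩ := exists_monoidHom_of_sq_cube (shear S a) (shear (S * T) b) hs hu
  have key : ∀ g : SL(2, ℤ), ∃ c : X → A, ψ g = shear g c := by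
    intro g
    have hg : g ∈ Subgroup.closure ({S, S * T} : Set SL(2, ℤ)) := by
      rw [closure_S_ST]; trivial
    induction hg using Subgroup.closure_induction with
    | mem y hy =>
      rcases hy with rfl | rfl
      · exact ⟨a, hψS⟩
      · exact ⟨b, hψU⟩
    | one => exact ⟨0, by rw [map_one, shear_one]⟩
    | mul x y _ _ ihx ihy =>
      obtain ⟨c, hc⟩ := ihx
      obtain ⟨d, hd⟩ := ihy
      exact ⟨_, by rw [map_mul, hc, hd, shear_mul]⟩
    | inv x _ ihx =>
      obtain ⟨c, hc⟩ := ihx
      exact ⟨_, by rw [map_inv, hc, shear_inv]⟩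
  choose κ hκ using key
  have hinj : ∀ (g : SL(2, ℤ)) (c d : X → A), shear g c = shear g d → c = d := by
    intro g c d h
    funext x
    have := congrArg (fun e : Equiv.Perm (X × A) => (e (x, 0)).2) h
    simpa using this
  refine ⟨κ, ?_, ?_, ?_⟩
  · intro g h x
    have h1 : shear (g * h) (κ (g * h)) = shear (g * h) (fun x => κ g (h • x) + κ h x) := by
      rw [← hκ, map_mul, hκ g, hκ h, shear_mul]
    exact congrFun (hinj _ _ _ h1) x
  · exact hinj S _ _ (by rw [← hκ, hψS])
  · exact hinj (S * T) _ _ (by rw [← hκ, hψU])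

/-- A cocycle is determined by its values at `S` and `S * T`. -/
theorem cocycle_ext {κ κ' : SL(2, ℤ) → X → A}
    (hκ : ∀ g h x, κ (g * h) x = κ g (h • x) + κ h x)
    (hκ' : ∀ g h x, κ' (g * h) x = κ' g (h • x) + κ' h x)
    (hS : κ S = κ' S) (hU : κ (S * T) = κ' (S * T)) : κ = κ' := by
  have h1 : ∀ (c : SL(2, ℤ) → X → A), (∀ g h x, c (g * h) x = c g (h • x) + c h x) →
      ∀ x, c 1 x = 0 := by
    intro c hc x
    have := hc 1 1 x
    simpa using this
  have hinv : ∀ (c : SL(2, ℤ) → X → A), (∀ g h x, c (g * h) x = c g (h • x) + c h x) →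
      ∀ g x, c g⁻¹ x = -c g (g⁻¹ • x) := by
    intro c hc g x
    have := hc g g⁻¹ x
    rw [mul_inv_cancel, h1 c hc] at this
    rw [eq_neg_iff_add_eq_zero, add_comm]
    exact this.symm
  funext g
  have hg : g ∈ Subgroup.closure ({S, S * T} : Set SL(2, ℤ)) := by
    rw [closure_S_ST]; trivial
  induction hg using Subgroup.closure_induction with
  | mem y hy =>
    rcases hy with rfl | rfl
    · exact hS
    · exact hU
  | one => funext x; rw [h1 κ hκ, h1 κ' hκ']
  | mul x y _ _ ihx ihy =>
    funext z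
    rw [hκ, hκ', ihx, ihy]
  | inv x _ ihx =>
    funext z
    rw [hinv κ hκ, hinv κ' hκ', ihx]

end

end Fermat.Agent.Lib.helper242
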