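import Mathlib
import Fermat.Agent.Lib.helper54_Frobenius
import Fermat.Agent.S05.helper4205_Inertia

/-!
# Everywhere unramified implies trivial (Minkowski) for `Gal(ℚ̄/ℚ)` (helper2489)

Main results (`Qb := AlgebraicClosure ℚ`, `GQ := Qb ≃ₐ[ℚ] Qb`), all for the prelude notion
`ValuationSubring.inertiaSubgroupIn` / `ValuationSubring.LiesOverPrime`:

* `eq_top_of_inertia_le`: a normal subgroup `H` of `GQ` which contains `L.fixingSubgroup` for a
  finite extension `L` of `ℚ` and contains `A.inertiaSubgroupIn ℚ` for every valuation subring `A`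
  of `Qb` lying over a prime number is the whole group.
* `monoidHom_eq_one_of_unramified`: the same for a group homomorphism `χ : GQ →* M`.
* `exists_inertia_not_mem_fixingSubgroup`: a finite normal extension `F ≠ ℚ` inside `Qb` is
  ramified at some valuation subring.
* `exists_inertia_lift`: inertia elements of a finite normal subextension lift to inertia
  elements of `GQ`.
* `mem_inertiaSubgroupIn_of_forall`, `mem_inertiaSubgroupIn_of_zbar`: criteria for membership
  in the inertia subgroup.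
-/

set_option autoImplicit false

namespace Fermat.Agent.Lib.helper2489

open NumberField
open scoped Pointwise
open Fermat.Agent.Lib.helper54

attribute [local instance] isAlgebraic_Qbar isAlgClosure_Qbar isGalois_Qbar isIntegral_Qbar

local notation "Qb" => AlgebraicClosure ℚ
local notation "GQ" => (AlgebraicClosure ℚ ≃ₐ[ℚ] AlgebraicClosure ℚ)
local notation "Zb" => integralClosure ℤ (AlgebraicClosure ℚ)

/-! ## A Galois number field different from `ℚ` has a nontrivial inertia group -/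

set_option linter.deprecated false in
/-- A Galois number field `F ≠ ℚ` has a prime `P` of `𝓞 F` (above a prime number `p`) with
nontrivial inertia group (Minkowski's discriminant bound). -/
theorem exists_inertia_ne_one (F : Type*) [Field F] [NumberField F] [IsGalois ℚ F]
    (h : 1 < Module.finrank ℚ F) :
    ∃ (P : Ideal (𝓞 F)) (p : ℕ) (τ : F ≃ₐ[ℚ] F), P ≠ ⊤ ∧ p.Prime ∧ (p : 𝓞 F) ∈ P ∧
      τ ≠ 1 ∧ ∀ x : 𝓞 F, τ • x - x ∈ P := by
  have hd : 2 < |discr F| := abs_discr_gt_two h
  have hna : (discr F).natAbs ≠ 1 := by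
    intro h1
    have : |discr F| = 1 := by
      rw [Int.abs_eq_natAbs, h1]; rfl
    omega
  obtain ⟨p, hp, hpd⟩ := Nat.exists_prime_and_dvd hna
  have hpZ : Prime (p : ℤ) := Nat.prime_iff_prime_int.mp hp
  have hpd' : (p : ℤ) ∣ discr F := Int.natCast_dvd.mpr hpd
  have key := (not_dvd_discr_iff_forall_liesOver F (𝓞 F) hpZ).not.mp (not_not.mpr hpd')
  push Not at key
  obtain ⟨P, hPmax, hPover, hPram⟩ := key
  have hPprime : P.IsPrime := hPmax.isPrime
  have hpprime : (Ideal.span {(p : ℤ)}).IsPrime := (Ideal.span_singleton_prime hpZ.ne_zero).mpr hpZ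
  have he : P.ramificationIdx ℤ ≠ 1 := by
    intro he
    exact hPram (Algebra.isUnramifiedAt_iff_of_isDedekindDomain.mpr he)
  have hcard : Nat.card (P.inertia (F ≃ₐ[ℚ] F)) = P.ramificationIdx ℤ := by
    rw [Ideal.card_inertia_eq_ramificationIdxIn (G := F ≃ₐ[ℚ] F) (Ideal.span {(p : ℤ)}) P,
      Ideal.ramificationIdxIn_eq_ramificationIdx (Ideal.span {(p : ℤ)}) P (F ≃ₐ[ℚ] F)]
  have hne : Nontrivial (P.inertia (F ≃ₐ[ℚ] F)) := by
    rw [← Finite.one_lt_card_iff_nontrivial, hcard]
    have h0 : P.ramificationIdx ℤ ≠ 0 := by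
      rw [← hcard]
      exact Nat.card_pos.ne'
    omega
  obtain ⟨⟨τ, hτ⟩, hτ1⟩ := exists_ne (1 : P.inertia (F ≃ₐ[ℚ] F))
  have hpP : (p : 𝓞 F) ∈ P := by
    have h1 : (p : ℤ) ∈ P.under ℤ := by
      rw [← hPover.over]
      exact Ideal.mem_span_singleton_self _
    have h2 : algebraMap ℤ (𝓞 F) (p : ℤ) ∈ P := h1
    simpa using h2
  refine ⟨P, p, τ, hPmax.ne_top, hp, hpP, ?_, fun x => hτ x⟩
  intro h1
  exact hτ1 (Subtype.ext h1)

/-! ## Valuation subrings above a prime of a subring -/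

/-- Chevalley: a proper ideal of a ring mapping injectively to a field is contained in the
maximal ideal of a valuation subring of the field containing the image of the ring. -/
theorem exists_valuationSubring_nonunits {R K : Type*} [CommRing R] [Field K] (f : R →+* K)
    (hf : Function.Injective f) (P : Ideal R) (hP : P ≠ ⊤) :
    ∃ A : ValuationSubring K, (∀ r : R, f r ∈ A) ∧ ∀ x ∈ P, f x ∈ A.nonunits := by
  let e : R ≃+* f.range :=
    RingEquiv.ofBijective f.rangeRestrict ⟨fun a b h => hf (congrArg Subtype.val h),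
      f.rangeRestrict_surjective⟩
  let I : Ideal f.range := P.comap (e.symm : f.range →+* R)
  have hI : I ≠ ⊤ := Ideal.comap_ne_top _ hP
  obtain ⟨B, hB1, hB2⟩ := Ideal.image_subset_nonunits_valuationSubring I hI
  refine ⟨B, fun r => hB1 ⟨r, rfl⟩, fun x hx => ?_⟩
  apply hB2
  refine ⟨e x, ?_, rfl⟩
  change (e.symm (e x)) ∈ P
  rwa [RingEquiv.symm_apply_apply]

/-! ## Membership criteria for the inertia subgroup -/

/-- Criterion for membership in the inertia subgroup: an element of the decomposition group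
acting trivially modulo the maximal ideal. -/
theorem mem_inertiaSubgroupIn_of_forall {K L : Type*} [Field K] [Field L] [Algebra K L]
    {A : ValuationSubring L} {σ : L ≃ₐ[K] L}
    (hD : σ ∈ A.decompositionSubgroup K) (h : ∀ x : L, x ∈ A → σ x - x ∈ A.nonunits) :
    σ ∈ A.inertiaSubgroupIn K := by
  rw [Fermat.Agent.S05.helper4205.mem_inertiaSubgroupIn_iff]
  refine ⟨hD, ?_⟩
  change MulSemiringAction.toRingAut (A.decompositionSubgroup K) (IsLocalRing.ResidueField A)
      ⟨σ, hD⟩ = 1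
  ext r
  obtain ⟨a, rfl⟩ := IsLocalRing.residue_surjective r
  change (⟨σ, hD⟩ : A.decompositionSubgroup K) • IsLocalRing.residue A a = IsLocalRing.residue A a
  rw [← IsLocalRing.ResidueField.residue_smul, ← sub_eq_zero, ← map_sub,
    IsLocalRing.residue_eq_zero_iff, ← ValuationSubring.coe_mem_nonunits_iff]
  exact h a a.2

/-- An automorphism stabilising the prime `Q_A` of `ℤ̄` cut out by `A` and acting trivially on
`ℤ̄ / Q_A` lies in the inertia subgroup of `A`. -/
theorem mem_inertiaSubgroupIn_of_zbar {ℓ : ℕ} (hℓ : ℓ.Prime) (A : ValuationSubring Qb)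
    (hA : A.LiesOverPrime ℓ) (σ : GQ)
    (hσ : σ • primeOfValuationSubring A = primeOfValuationSubring A)
    (hσ' : ∀ z : Zb, σ • z - z ∈ primeOfValuationSubring A) :
    σ ∈ A.inertiaSubgroupIn ℚ := by
  have hD : σ ∈ A.decompositionSubgroup ℚ :=
    mem_decompositionSubgroup_of_smul_prime_eq hℓ A hA σ hσ
  refine mem_inertiaSubgroupIn_of_forall hD fun x hx => ?_
  obtain ⟨a, b, hb, hab⟩ := exists_frac_of_mem_valuationSubring hℓ A hA x hx
  have ha' : σ (a : Qb) - (a : Qb) ∈ A.nonunits := by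
    have := (mem_primeOfValuationSubring A _).mp (hσ' a)
    simpa using this
  have hb' : σ (b : Qb) - (b : Qb) ∈ A.nonunits := by
    have := (mem_primeOfValuationSubring A _).mp (hσ' b)
    simpa using this
  have hbA : (b : Qb) ∈ A := mem_valuationSubring_of_isIntegral A _ b.2
  have hbv : A.valuation (b : Qb) = 1 := by
    have h1 : A.valuation (b : Qb) ≤ 1 := (ValuationSubring.valuation_le_one_iff A _).2 hbA
    have h2 : ¬ A.valuation (b : Qb) < 1 := by
      rw [← ValuationSubring.mem_nonunits_iff, ← mem_primeOfValuationSubring]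
      exact hb
    exact le_antisymm h1 (not_lt.mp h2)
  have hσbv : A.valuation (σ (b : Qb)) = 1 := by
    rw [Fermat.Agent.S05.helper4205.valuation_apply_of_mem_decomposition hD, hbv]
  have hkey : (σ x - x) * σ (b : Qb) = (σ (a : Qb) - (a : Qb)) - x * (σ (b : Qb) - (b : Qb)) := by
    have h1 : σ x * σ (b : Qb) = σ (a : Qb) := by rw [← map_mul, hab]
    calc (σ x - x) * σ (b : Qb) = σ x * σ (b : Qb) - x * σ (b : Qb) := by ring
      _ = σ (a : Qb) - x * σ (b : Qb) := by rw [h1]
      _ = (σ (a : Qb) - (a : Qb)) - x * (σ (b : Qb) - (b : Qb)) := by rw [← hab]; ring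
  rw [ValuationSubring.mem_nonunits_iff] at ha' hb' ⊢
  have hxv : A.valuation x ≤ 1 := (ValuationSubring.valuation_le_one_iff A _).2 hx
  have h2 : A.valuation (x * (σ (b : Qb) - (b : Qb))) < 1 := by
    rw [map_mul]
    calc A.valuation x * A.valuation (σ (b : Qb) - (b : Qb))
        ≤ 1 * A.valuation (σ (b : Qb) - (b : Qb)) := mul_le_mul_left hxv _
      _ = A.valuation (σ (b : Qb) - (b : Qb)) := one_mul _
      _ < 1 := hb'
  have h3 : A.valuation ((σ x - x) * σ (b : Qb)) < 1 := by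
    rw [hkey]
    exact lt_of_le_of_lt (Valuation.map_sub _ _ _) (max_lt ha' h2)
  rwa [map_mul, hσbv, mul_one] at h3

/-! ## Lifting inertia from a finite normal subextension to `Gal(ℚ̄/ℚ)` -/

/-- Elements of `ℤ̄` fixed by `Gal(ℚ̄/F)` lie in `F`. -/
theorem coe_mem_of_fixed (F : IntermediateField ℚ Qb) (z : Zb)
    (hz : ∀ n : F.fixingSubgroup, n • z = z) : (z : Qb) ∈ F := by
  rw [← InfiniteGalois.fixedField_fixingSubgroup F, IntermediateField.mem_fixedField_iff]
  intro f hf
  exact congrArg Subtype.val (hz ⟨f, hf⟩)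

/-- A normal intermediate field is stable under all automorphisms. -/
theorem apply_mem_of_normal (F : IntermediateField ℚ Qb) [Normal ℚ F] (σ : GQ) {x : Qb}
    (hx : x ∈ F) : σ x ∈ F := by
  have h := AlgEquiv.restrictNormal_commutes σ F ⟨x, hx⟩
  have h2 : σ x = ((σ.restrictNormal F ⟨x, hx⟩ : F) : Qb) := h.symm
  rw [h2]
  exact (σ.restrictNormal F ⟨x, hx⟩).2

/-- The action of `Gal(ℚ̄/ℚ)` on the discrete ring `ℤ̄` is continuous. -/
theorem continuousSMul_GQ_Zbar :
    @ContinuousSMul GQ Zb _ _ (⊥ : TopologicalSpace Zb) := by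
  let _ : TopologicalSpace Zb := ⊥
  have : DiscreteTopology Zb := ⟨rfl⟩
  rw [continuousSMul_iff_stabilizer_isOpen]
  intro z
  have : (MulAction.stabilizer GQ z : Set GQ) = MulAction.stabilizer GQ (z : Qb) := by
    ext g
    simp [Subtype.ext_iff]
  rw [this]
  exact stabilizer_isOpen_of_isIntegral _

/-- Lifting inertia: if `σ₀` acts trivially modulo the prime `Q` of `ℤ̄` on the integers of a
normal extension `F` of `ℚ`, then some `ρ σ₀` with `ρ ∈ Gal(ℚ̄/F)` stabilises `Q` and acts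
trivially on `ℤ̄ / Q`. -/
theorem exists_inertia_lift (F : IntermediateField ℚ Qb) [Normal ℚ F]
    (Q : Ideal Zb) [Q.IsPrime] (σ₀ : GQ)
    (h₀ : ∀ z : Zb, (z : Qb) ∈ F → σ₀ • z - z ∈ Q) :
    ∃ ρ ∈ F.fixingSubgroup, (ρ * σ₀) • Q = Q ∧ ∀ z : Zb, (ρ * σ₀) • z - z ∈ Q := by
  classical
  let N : Subgroup GQ := F.fixingSubgroup
  let _ : TopologicalSpace Zb := ⊥
  have : DiscreteTopology Zb := ⟨rfl⟩
  have hcont : ContinuousSMul GQ Zb := continuousSMul_GQ_Zbar
  have : ContinuousSMul N Zb := by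
    refine ⟨?_⟩
    have h1 : Continuous fun p : N × Zb => ((p.1 : GQ), p.2) :=
      (continuous_subtype_val.comp continuous_fst).prodMk continuous_snd
    exact hcont.continuous_smul.comp h1
  have hNclosed : IsClosed (N : Set GQ) := InfiniteGalois.fixingSubgroup_isClosed F
  have : CompactSpace N := isCompact_iff_compactSpace.mp hNclosed.isCompact
  let A' := FixedPoints.subalgebra ℤ Zb N
  have : SMulCommClass N A' Zb := instSMulCommClassSubtypeMemSubalgebraSubalgebra ℤ Zb N
  have : Algebra.IsInvariant A' Zb N := ⟨fun x h => ⟨⟨x, h⟩, rfl⟩⟩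
  -- elements of A' lie in F
  have hA'F : ∀ a : A', ((a : Zb) : Qb) ∈ F := fun a => coe_mem_of_fixed F a.1 a.2
  -- automorphisms preserve the integers of F
  have hσF : ∀ (σ : GQ) (z : Zb), (z : Qb) ∈ F → ((σ • z : Zb) : Qb) ∈ F := by
    intro σ z hz
    rw [integralClosure.coe_smul]
    exact apply_mem_of_normal F σ hz
  -- N fixes the integers of F
  have hNfix : ∀ (n : GQ), n ∈ N → ∀ z : Zb, (z : Qb) ∈ F → n • z = z := by
    intro n hn z hz
    apply Subtype.ext
    rw [integralClosure.coe_smul]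
    exact (IntermediateField.mem_fixingSubgroup_iff F n).mp hn _ hz
  -- step (i): `σ₀ • Q` and `Q` have the same contraction to A'
  have hunder : (σ₀ • Q).under A' = Q.under A' := by
    ext a
    simp only [Ideal.under, Ideal.mem_comap]
    change (a : Zb) ∈ σ₀ • Q ↔ (a : Zb) ∈ Q
    rw [Ideal.mem_pointwise_smul_iff_inv_smul_mem]
    have hz : ((σ₀⁻¹ • (a : Zb) : Zb) : Qb) ∈ F := hσF σ₀⁻¹ a (hA'F a)
    have h1 := h₀ (σ₀⁻¹ • (a : Zb)) hz
    rw [smul_inv_smul] at h1
    constructor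
    · intro h
      have := Q.add_mem h1 h
      simpa using this
    · intro h
      have := Q.sub_mem h h1
      simpa using this
  -- step (ii): move `σ₀ • Q` back to `Q` by an element of N
  obtain ⟨ρ₁, hρ₁⟩ := Algebra.IsInvariant.exists_smul_of_under_eq_of_profinite
    (A := A') (B := Zb) (G := N) (σ₀ • Q) Q hunder
  let σ₁ : GQ := (ρ₁ : GQ) * σ₀
  have hσ₁Q : σ₁ • Q = Q := by
    rw [mul_smul]
    exact hρ₁.symm
  have hσ₁A' : ∀ a : A', σ₁ • (a : Zb) - (a : Zb) ∈ Q := by
    intro a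
    have h1 : σ₁ • (a : Zb) = σ₀ • (a : Zb) := by
      rw [mul_smul]
      exact hNfix ρ₁ ρ₁.2 _ (hσF σ₀ a (hA'F a))
    rw [h1]
    exact h₀ a (hA'F a)
  -- step (iii): the automorphism of `ℤ̄ / Q` induced by σ₁ is `A' / (Q ∩ A')`-linear
  have hmap : Q = Ideal.map ((MulSemiringAction.toRingEquiv GQ Zb σ₁ : Zb ≃+* Zb) : Zb →+* Zb) Q :=
    hσ₁Q.symm
  let φ₀ : (Zb ⧸ Q) ≃+* (Zb ⧸ Q) :=
    Ideal.quotientEquiv Q Q (MulSemiringAction.toRingEquiv GQ Zb σ₁) hmap
  have hφ₀ : ∀ z : Zb, φ₀ (Ideal.Quotient.mk Q z) = Ideal.Quotient.mk Q (σ₁ • z) := fun z => rfl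
  let φ : (Zb ⧸ Q) ≃ₐ[A' ⧸ Q.under A'] (Zb ⧸ Q) :=
    AlgEquiv.ofRingEquiv (f := φ₀) (by
      intro r
      obtain ⟨a, rfl⟩ := Ideal.Quotient.mk_surjective r
      rw [Ideal.Quotient.algebraMap_mk_of_liesOver, hφ₀, Ideal.Quotient.eq]
      exact hσ₁A' a)
  -- step (iv): realise it by an element of the stabiliser of `Q` in N
  obtain ⟨⟨ρ₂, hρ₂⟩, hφ⟩ :=
    Ideal.Quotient.stabilizerHom_surjective_of_profinite (G := N) (Q.under A') Q φ
  have hρ₂Q : (ρ₂ : GQ) • Q = Q := hρ₂
  have hcmp : ∀ z : Zb, (ρ₂ : GQ) • z - σ₁ • z ∈ Q := by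
    intro z
    have h1 := congrArg (fun f => f (Ideal.Quotient.mk Q z)) hφ
    have h2 : Ideal.Quotient.mk Q ((ρ₂ : GQ) • z) = Ideal.Quotient.mk Q (σ₁ • z) := h1
    exact Ideal.Quotient.eq.mp h2
  have hmul : (ρ₂ : GQ)⁻¹ * ρ₁ * σ₀ = (ρ₂ : GQ)⁻¹ * σ₁ := by
    simp only [σ₁, mul_assoc]
  refine ⟨(ρ₂ : GQ)⁻¹ * ρ₁, N.mul_mem (N.inv_mem ρ₂.2) ρ₁.2, ?_, ?_⟩
  · rw [hmul, mul_smul, hσ₁Q, inv_smul_eq_iff, hρ₂Q]
  · intro z
    rw [hmul, mul_smul]
    have h1 : (ρ₂ : GQ)⁻¹ • (σ₁ • z) - z = (ρ₂ : GQ)⁻¹ • (σ₁ • z - (ρ₂ : GQ) • z) := by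
      rw [smul_sub, inv_smul_smul]
    rw [h1]
    have h2 : σ₁ • z - (ρ₂ : GQ) • z ∈ Q := by
      have := Q.neg_mem (hcmp z)
      simpa using this
    have h3 : (ρ₂ : GQ)⁻¹ • (σ₁ • z - (ρ₂ : GQ) • z) ∈ (ρ₂ : GQ)⁻¹ • Q :=
      Ideal.smul_mem_pointwise_smul _ _ _ h2
    rwa [inv_smul_eq_iff.mpr hρ₂Q.symm] at h3

/-! ## Minkowski: no nontrivial everywhere unramified extension of `ℚ` -/

/-- A finite normal extension `F ≠ ℚ` inside `ℚ̄` is ramified somewhere: some inertia subgroup of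
`Gal(ℚ̄/ℚ)` does not fix `F` pointwise. -/
theorem exists_inertia_not_mem_fixingSubgroup (F : IntermediateField ℚ Qb)
    [FiniteDimensional ℚ F] [Normal ℚ F] (hF : F ≠ ⊥) :
    ∃ (A : ValuationSubring Qb) (q : ℕ), q.Prime ∧ A.LiesOverPrime q ∧
      ∃ σ ∈ A.inertiaSubgroupIn ℚ, σ ∉ F.fixingSubgroup := by
  classical
  have : NumberField F := { to_charZero := inferInstance, to_finiteDimensional := inferInstance }
  have : IsGalois ℚ F := ⟨⟩
  have hrank : 1 < Module.finrank ℚ F := by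
    have h0 : 0 < Module.finrank ℚ F := Module.finrank_pos
    have h1 : Module.finrank ℚ F ≠ 1 := fun h => hF (IntermediateField.finrank_eq_one_iff.mp h)
    omega
  obtain ⟨P, p, τ, hPtop, hp, hpP, hτ1, hτ⟩ := exists_inertia_ne_one F hrank
  let f : 𝓞 F →+* Qb := (algebraMap F Qb).comp (algebraMap (𝓞 F) F)
  have hf : Function.Injective f :=
    (algebraMap F Qb).injective.comp RingOfIntegers.coe_injective
  obtain ⟨A, -, hAP⟩ := exists_valuationSubring_nonunits f hf P hPtop
  have hA : A.LiesOverPrime p := by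
    have := hAP _ hpP
    simpa [ValuationSubring.LiesOverPrime, f] using this
  -- a lift of τ
  let σ₀ : GQ := τ.liftNormal Qb
  have hσ₀ : ∀ x : F, σ₀ (algebraMap F Qb x) = algebraMap F Qb (τ x) :=
    fun x => AlgEquiv.liftNormal_commutes τ Qb x
  have h₀ : ∀ z : Zb, (z : Qb) ∈ F → σ₀ • z - z ∈ primeOfValuationSubring A := by
    intro z hz
    have hint : IsIntegral ℤ (⟨(z : Qb), hz⟩ : F) := by
      have h1 : IsIntegral ℤ (algebraMap F Qb ⟨(z : Qb), hz⟩) := z.2
      exact (isIntegral_algebraMap_iff (algebraMap F Qb).injective).mp h1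
    let x : 𝓞 F := ⟨⟨(z : Qb), hz⟩, hint⟩
    have h1 := hAP _ (hτ x)
    rw [mem_primeOfValuationSubring]
    have h2 : f (τ • x - x) = σ₀ (z : Qb) - (z : Qb) := by
      have h3 : f (τ • x) = σ₀ (z : Qb) := by
        change algebraMap F Qb (τ (⟨(z : Qb), hz⟩ : F)) = σ₀ (z : Qb)
        rw [← hσ₀]
        rfl
      rw [map_sub, h3]
      rfl
    rw [h2] at h1
    simpa using h1
  obtain ⟨ρ, hρ, hσQ, hσz⟩ := exists_inertia_lift F (primeOfValuationSubring A) σ₀ h₀
  refine ⟨A, p, hp, hA, ρ * σ₀, mem_inertiaSubgroupIn_of_zbar hp A hA _ hσQ hσz, ?_⟩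
  intro hmem
  have hσ₀mem : σ₀ ∈ F.fixingSubgroup := by
    have := F.fixingSubgroup.mul_mem (F.fixingSubgroup.inv_mem hρ) hmem
    simpa using this
  apply hτ1
  ext x
  have h1 := (IntermediateField.mem_fixingSubgroup_iff F σ₀).mp hσ₀mem (x : Qb) x.2
  have h2 := hσ₀ x
  have h3 : algebraMap F Qb (τ x) = algebraMap F Qb x := by
    rw [← h2]
    exact h1
  exact h3

/-- **Minkowski**: a normal subgroup of `Gal(ℚ̄/ℚ)` which is open (contains the subgroup fixing a
finite extension `L` of `ℚ`) and contains all inertia subgroups is the whole group. -/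
theorem eq_top_of_inertia_le (H : Subgroup GQ) [hH : H.Normal] (L : IntermediateField ℚ Qb)
    [FiniteDimensional ℚ L] (hL : L.fixingSubgroup ≤ H)
    (hI : ∀ (A : ValuationSubring Qb) (q : ℕ), q.Prime → A.LiesOverPrime q →
      A.inertiaSubgroupIn ℚ ≤ H) : H = ⊤ := by
  classical
  let F : IntermediateField ℚ Qb := IntermediateField.fixedField H
  have hFL : F ≤ L := by
    intro x hx
    rw [← InfiniteGalois.fixedField_fixingSubgroup L, IntermediateField.mem_fixedField_iff]
    intro f hf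
    exact (IntermediateField.mem_fixedField_iff H x).mp hx f (hL hf)
  have : FiniteDimensional ℚ F :=
    Module.Finite.of_injective (IntermediateField.inclusion hFL).toLinearMap
      (IntermediateField.inclusion hFL).injective
  have hn : @Normal ℚ F _ _ (IntermediateField.algebra' F) := by
    rw [IntermediateField.normal_iff_forall_map_le']
    intro σ y hy
    obtain ⟨x, hx, rfl⟩ := hy
    have hx' : x ∈ IntermediateField.fixedField H := hx
    change σ x ∈ IntermediateField.fixedField H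
    rw [IntermediateField.mem_fixedField_iff] at hx' ⊢
    intro f hf
    have h1 : σ⁻¹ * f * σ ∈ H := by
      have := hH.conj_mem f hf σ⁻¹
      simpa using this
    have h2 := hx' _ h1
    have h3 : f (σ x) = σ ((σ⁻¹ * f * σ) x) := by
      simp [AlgEquiv.mul_apply]
    change f (σ x) = σ x
    rw [h3, h2]
  have : Normal ℚ F := by
    convert hn
    exact Subsingleton.elim _ _
  have hHF : H ≤ F.fixingSubgroup := by
    intro h hh
    rw [IntermediateField.mem_fixingSubgroup_iff]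
    intro x hx
    exact (IntermediateField.mem_fixedField_iff H x).mp hx h hh
  by_cases hF : F = ⊥
  · have hopen : IsOpen (H : Set GQ) :=
      Subgroup.isOpen_mono hL (IntermediateField.fixingSubgroup_isOpen L)
    have hclosed : IsClosed (H : Set GQ) := Subgroup.isClosed_of_isOpen H hopen
    have h1 := InfiniteGalois.fixingSubgroup_fixedField (⟨H, hclosed⟩ : ClosedSubgroup GQ)
    have h2 : F.fixingSubgroup = H := h1
    rw [← h2, hF]
    exact IntermediateField.fixingSubgroup_bot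
  · exfalso
    obtain ⟨A, q, hq, hA, σ, hσ, hσF⟩ := exists_inertia_not_mem_fixingSubgroup F hF
    exact hσF (hHF (hI A q hq hA hσ))

/-- Character form of Minkowski's theorem: a group homomorphism out of `Gal(ℚ̄/ℚ)` which factors
through a finite extension of `ℚ` and is trivial on all inertia subgroups is trivial. -/
theorem monoidHom_eq_one_of_unramified {M : Type*} [Group M] (χ : GQ →* M)
    (L : IntermediateField ℚ Qb) [FiniteDimensional ℚ L]
    (hL : ∀ σ ∈ L.fixingSubgroup, χ σ = 1)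
    (hI : ∀ (A : ValuationSubring Qb) (q : ℕ), q.Prime → A.LiesOverPrime q →
      ∀ σ ∈ A.inertiaSubgroupIn ℚ, χ σ = 1) (σ : GQ) : χ σ = 1 := by
  have h := eq_top_of_inertia_le χ.ker L (fun σ hσ => MonoidHom.mem_ker.mpr (hL σ hσ))
    (fun A q hq hA σ hσ => MonoidHom.mem_ker.mpr (hI A q hq hA σ hσ))
  have : σ ∈ χ.ker := h ▸ Subgroup.mem_top σ
  exact MonoidHom.mem_ker.mp this

end Fermat.Agent.Lib.helper2489
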