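import Mathlib
import Fermat.Prelude.Def_FLTPrelim_Ramification
import Fermat.Agent.Lib.helper54_Frobenius

/-!
# Minkowski's theorem in inertia form (helper2502)

`minkowski_inertia`: an open subgroup of `Gal(ℚ̄/ℚ)` containing the inertia subgroup
`A.inertiaSubgroupIn ℚ` of every valuation subring `A` of `ℚ̄` lying over a prime number is the
whole group.  Equivalently: `ℚ` has no nontrivial finite extension unramified at all primes.

Route: pass to the normal core `N` (open, normal, still contains all inertia groups since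
conjugation permutes them).  The ring `S` of `N`-fixed algebraic integers is the ring of integers
of the finite Galois extension `K = ℚ̄ ^ N`, with Galois group `G ⧸ N`.  If `K ≠ ℚ`, Mathlib's
Hermite–Minkowski theorem gives a prime number `p` such that all primes of `S` over `p` are
ramified, hence carry a nontrivial inertia element in `G ⧸ N`.  Such an element lifts to the
inertia group of any valuation subring of `ℚ̄` over `p` (transitivity of `N` on the primes of
`ℤ̄` over a prime of `S`, and surjectivity of the decomposition group of `N` onto the residual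
automorphism group), contradicting the hypothesis.

Main statements:
* `mem_inertiaSubgroupIn_iff` : elementwise description of `A.inertiaSubgroupIn K`;
* `conj_mem_inertiaSubgroupIn`, `liesOverPrime_smul` : conjugation of inertia subgroups;
* `mem_inertiaSubgroupIn_of_zbar` : inertia in terms of the prime of `ℤ̄` cut out by `A`;
* `exists_mem_inertiaSubgroupIn_not_mem` : lifting of finite-level inertia;
* `minkowski_inertia_normal`, `minkowski_inertia`;
* `eq_one_of_unramified_everywhere` : a homomorphism with open kernel, trivial on all inertia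
  subgroups, is trivial (continuous characters etc.).
-/

set_option autoImplicit false

namespace Fermat.Agent.Lib.helper2502

open scoped Pointwise

section General

variable {K L : Type*} [Field K] [Field L] [Algebra K L]

/-- Membership in the inertia subgroup, in elementwise form. -/
theorem mem_inertiaSubgroupIn_iff (A : ValuationSubring L) (σ : L ≃ₐ[K] L) :
    σ ∈ A.inertiaSubgroupIn K ↔
      σ ∈ A.decompositionSubgroup K ∧ ∀ x ∈ A, σ x - x ∈ A.nonunits := by
  unfold ValuationSubring.inertiaSubgroupIn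
  constructor
  · rintro ⟨τ, hτ, rfl⟩
    refine ⟨τ.2, fun x hx => ?_⟩
    have hker : MulSemiringAction.toRingAut (A.decompositionSubgroup K)
        (IsLocalRing.ResidueField A) τ = 1 := hτ
    have h1 : τ • IsLocalRing.residue A ⟨x, hx⟩ = IsLocalRing.residue A ⟨x, hx⟩ := by
      have := congrArg (fun f : RingAut (IsLocalRing.ResidueField A) =>
        f (IsLocalRing.residue A ⟨x, hx⟩)) hker
      simpa using this
    rw [← IsLocalRing.ResidueField.residue_smul] at h1
    have h2 : IsLocalRing.residue A (τ • (⟨x, hx⟩ : A) - ⟨x, hx⟩) = 0 := by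
      rw [map_sub, h1, sub_self]
    rw [IsLocalRing.residue_eq_zero_iff] at h2
    exact (ValuationSubring.coe_mem_nonunits_iff (A := A)).2 h2
  · rintro ⟨h, hσ⟩
    refine ⟨⟨σ, h⟩, ?_, rfl⟩
    change MulSemiringAction.toRingAut (A.decompositionSubgroup K)
        (IsLocalRing.ResidueField A) ⟨σ, h⟩ = 1
    ext xbar
    obtain ⟨x, rfl⟩ := IsLocalRing.residue_surjective xbar
    change (⟨σ, h⟩ : A.decompositionSubgroup K) • IsLocalRing.residue A x = IsLocalRing.residue A x
    rw [← IsLocalRing.ResidueField.residue_smul, ← sub_eq_zero, ← map_sub,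
      IsLocalRing.residue_eq_zero_iff, ← ValuationSubring.coe_mem_nonunits_iff]
    exact hσ x.1 x.2

/-- Galois conjugates of nonunits are nonunits of the conjugate valuation subring. -/
theorem apply_mem_nonunits_smul (A : ValuationSubring L) (g : L ≃ₐ[K] L) {z : L}
    (hz : z ∈ A.nonunits) : g z ∈ (g • A).nonunits := by
  rw [ValuationSubring.mem_nonunits_iff_or] at hz ⊢
  rcases hz with rfl | hz
  · left; simp
  · right
    intro h
    apply hz
    rw [ValuationSubring.mem_pointwise_smul_iff_inv_smul_mem] at h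
    have : g⁻¹ • (g z)⁻¹ = z⁻¹ := by
      show g⁻¹ ((g z)⁻¹) = z⁻¹
      rw [map_inv₀]
      congr 1
      exact g.symm_apply_apply z
    rwa [this] at h

/-- Conjugation carries inertia subgroups to inertia subgroups. -/
theorem conj_mem_inertiaSubgroupIn (A : ValuationSubring L) (g σ : L ≃ₐ[K] L)
    (hσ : σ ∈ A.inertiaSubgroupIn K) : g * σ * g⁻¹ ∈ (g • A).inertiaSubgroupIn K := by
  rw [mem_inertiaSubgroupIn_iff] at hσ ⊢
  obtain ⟨hD, hI⟩ := hσ
  have hD' : σ • A = A := hD
  refine ⟨?_, ?_⟩
  · show (g * σ * g⁻¹) • (g • A) = g • A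
    rw [mul_smul, inv_smul_smul, mul_smul, hD']
  · intro x hx
    rw [ValuationSubring.mem_smul_pointwise_iff_exists] at hx
    obtain ⟨y, hy, rfl⟩ := hx
    have h1 : (g * σ * g⁻¹) (g • y) - g • y = g (σ y - y) := by
      show g (σ (g⁻¹ (g y))) - g y = g (σ y - y)
      rw [map_sub]
      congr 2
      exact congrArg σ (g.symm_apply_apply y)
    rw [h1]
    exact apply_mem_nonunits_smul A g (hI y hy)

theorem liesOverPrime_smul (A : ValuationSubring L) (g : L ≃ₐ[K] L) {q : ℕ}
    (hA : A.LiesOverPrime q) : (g • A).LiesOverPrime q := by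
  have h := apply_mem_nonunits_smul A g hA
  rwa [map_natCast] at h

end General


local notation "Qb" => AlgebraicClosure ℚ
local notation "GQ" => (AlgebraicClosure ℚ ≃ₐ[ℚ] AlgebraicClosure ℚ)
local notation "Zb" => integralClosure ℤ (AlgebraicClosure ℚ)

attribute [local instance] helper54.isAlgebraic_Qbar helper54.isAlgClosure_Qbar
  helper54.isGalois_Qbar helper54.isIntegral_Qbar

/-- The ring of algebraic integers fixed by a subgroup `N` of the absolute Galois group. -/
noncomputable abbrev fixedInts (N : Subgroup GQ) : Subalgebra ℤ Zb := FixedPoints.subalgebra ℤ Zb N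

theorem mem_fixedInts_iff (N : Subgroup GQ) (z : Zb) :
    z ∈ fixedInts N ↔ ∀ g ∈ N, g (z : Qb) = (z : Qb) := by
  constructor
  · intro h g hg
    exact congrArg Subtype.val (h ⟨g, hg⟩)
  · intro h g
    exact Subtype.ext (h g.1 g.2)

/-- The inclusion of the `N`-fixed algebraic integers into the fixed field of `N`. -/
noncomputable def toFixedField (N : Subgroup GQ) :
    fixedInts N →+* IntermediateField.fixedField N where
  toFun s := ⟨((s : Zb) : Qb), by
    rw [IntermediateField.mem_fixedField_iff]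
    exact (mem_fixedInts_iff N s.1).1 s.2⟩
  map_one' := rfl
  map_mul' _ _ := rfl
  map_zero' := rfl
  map_add' _ _ := rfl

noncomputable instance algebraFixedField (N : Subgroup GQ) :
    Algebra (fixedInts N) (IntermediateField.fixedField N) :=
  (toFixedField N).toAlgebra

theorem coe_algebraMap_fixedField (N : Subgroup GQ) (s : fixedInts N) :
    ((algebraMap (fixedInts N) (IntermediateField.fixedField N) s :
      IntermediateField.fixedField N) : Qb) = ((s : Zb) : Qb) := rfl

instance isScalarTower_fixedField (N : Subgroup GQ) :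
    IsScalarTower ℤ (fixedInts N) (IntermediateField.fixedField N) :=
  IsScalarTower.of_algebraMap_eq fun x => by
    apply Subtype.ext
    rw [coe_algebraMap_fixedField]
    simp

instance isIntegralClosure_fixedField (N : Subgroup GQ) :
    IsIntegralClosure (fixedInts N) ℤ (IntermediateField.fixedField N) where
  algebraMap_injective a b h := by
    apply Subtype.ext
    apply Subtype.ext
    have := congrArg (fun x : IntermediateField.fixedField N => (x : Qb)) h
    simpa [coe_algebraMap_fixedField] using this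
  isIntegral_iff {x} := by
    constructor
    · intro hx
      have hx' : IsIntegral ℤ (x : Qb) := by
        have := hx.map (IsScalarTower.toAlgHom ℤ (IntermediateField.fixedField N) Qb)
        simpa using this
      have hfix : (⟨(x : Qb), hx'⟩ : Zb) ∈ fixedInts N := by
        rw [mem_fixedInts_iff]
        exact (IntermediateField.mem_fixedField_iff N _).1 x.2
      exact ⟨⟨⟨(x : Qb), hx'⟩, hfix⟩, Subtype.ext rfl⟩
    · rintro ⟨y, rfl⟩
      have hy : IsIntegral ℤ ((y : Zb) : Qb) := y.1.2
      have h2 : IsIntegral ℤ ((algebraMap (fixedInts N) (IntermediateField.fixedField N) y :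
          IntermediateField.fixedField N) : Qb) := hy
      exact (isIntegral_algHom_iff (IsScalarTower.toAlgHom ℤ (IntermediateField.fixedField N) Qb)
        (algebraMap (IntermediateField.fixedField N) Qb).injective).mp h2


section OpenNormal

variable (N : Subgroup GQ)

theorem fixingSubgroup_fixedField_of_isOpen (hN : IsOpen (N : Set GQ)) :
    (IntermediateField.fixedField N).fixingSubgroup = N :=
  InfiniteGalois.fixingSubgroup_fixedField ⟨N, Subgroup.isClosed_of_isOpen N hN⟩

theorem finiteDimensional_fixedField (hN : IsOpen (N : Set GQ)) :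
    FiniteDimensional ℚ (IntermediateField.fixedField N) := by
  rw [← InfiniteGalois.isOpen_iff_finite, fixingSubgroup_fixedField_of_isOpen N hN]
  exact hN

theorem numberField_fixedField (hN : IsOpen (N : Set GQ)) :
    NumberField (IntermediateField.fixedField N) :=
  { to_charZero := inferInstance
    to_finiteDimensional := finiteDimensional_fixedField N hN }

theorem isGalois_fixedField [N.Normal] (hN : IsOpen (N : Set GQ)) :
    IsGalois ℚ (IntermediateField.fixedField N) := by
  have h : @IsGalois ℚ _ (IntermediateField.fixedField N) _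
      (IntermediateField.algebra' (IntermediateField.fixedField N)) := by
    rw [← InfiniteGalois.normal_iff_isGalois, fixingSubgroup_fixedField_of_isOpen N hN]
    infer_instance
  convert h
  exact Subsingleton.elim _ _

theorem one_lt_finrank_fixedField (hN : IsOpen (N : Set GQ)) (hne : N ≠ ⊤) :
    1 < Module.finrank ℚ (IntermediateField.fixedField N) := by
  have := finiteDimensional_fixedField N hN
  have hpos : 0 < Module.finrank ℚ (IntermediateField.fixedField N) := Module.finrank_pos
  have hne1 : Module.finrank ℚ (IntermediateField.fixedField N) ≠ 1 := by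
    intro h
    rw [IntermediateField.finrank_eq_one_iff] at h
    apply hne
    rw [← fixingSubgroup_fixedField_of_isOpen N hN, h]
    exact IntermediateField.fixingSubgroup_bot
  omega

/-- Every element of the fixed field is a quotient of a fixed algebraic integer by a nonzero
integer. -/
theorem exists_int_mul_mem_fixedInts (x : Qb) (hx : x ∈ IntermediateField.fixedField N) :
    ∃ (m : ℤ) (s : fixedInts N), m ≠ 0 ∧ ((s : Zb) : Qb) = (m : Qb) * x := by
  have hint : IsIntegral ℚ x := Algebra.IsIntegral.isIntegral x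
  obtain ⟨m, hm⟩ := IsIntegral.exists_multiple_integral_of_isLocalization (nonZeroDivisors ℤ) x hint
  have hm' : IsIntegral ℤ ((m : ℤ) * x) := by
    have : (m • x : Qb) = ((m : ℤ) : Qb) * x := by
      rw [Submonoid.smul_def, zsmul_eq_mul]
    rwa [this] at hm
  refine ⟨m, ⟨⟨(m : ℤ) * x, hm'⟩, ?_⟩, nonZeroDivisors.coe_ne_zero m, rfl⟩
  rw [mem_fixedInts_iff]
  intro g hg
  show g (((m : ℤ) : Qb) * x) = ((m : ℤ) : Qb) * x
  rw [map_mul, map_intCast, (IntermediateField.mem_fixedField_iff N x).1 hx g hg]

theorem faithfulSMul_quotient [N.Normal] (hN : IsOpen (N : Set GQ)) :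
    FaithfulSMul (GQ ⧸ N) (fixedInts N) := by
  refine ⟨fun {q₁ q₂} h => ?_⟩
  obtain ⟨g₁, rfl⟩ := QuotientGroup.mk_surjective q₁
  obtain ⟨g₂, rfl⟩ := QuotientGroup.mk_surjective q₂
  rw [QuotientGroup.eq]
  rw [← fixingSubgroup_fixedField_of_isOpen N hN, IntermediateField.mem_fixingSubgroup_iff]
  intro x hx
  obtain ⟨m, s, hm, hs⟩ := exists_int_mul_mem_fixedInts N x hx
  have h1 : g₁ ((s : Zb) : Qb) = g₂ ((s : Zb) : Qb) :=
    congrArg (fun t : fixedInts N => ((t : Zb) : Qb)) (h s)
  rw [hs, map_mul, map_mul, map_intCast, map_intCast] at h1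
  have h2 : g₁ x = g₂ x := mul_left_cancel₀ (Int.cast_ne_zero.mpr hm) h1
  show (g₁⁻¹ * g₂) x = x
  rw [AlgEquiv.mul_apply, ← h2]
  exact g₁.symm_apply_apply x

theorem isGaloisGroup_quotient [N.Normal] (hN : IsOpen (N : Set GQ)) :
    IsGaloisGroup (GQ ⧸ N) ℤ (fixedInts N) :=
  have := helper54.isInvariant_Zbar
  { faithful := faithfulSMul_quotient N hN
    commutes := inferInstance
    isInvariant := inferInstance }



theorem isIntegralClosure_fixedField' :
    @IsIntegralClosure (fixedInts N) ℤ (IntermediateField.fixedField N) _ _ _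
      (Ring.toIntAlgebra _) (algebraFixedField N) := by
  convert isIntegralClosure_fixedField N
  exact Subsingleton.elim _ _

theorem isGaloisGroup_quotient' [N.Normal] (hN : IsOpen (N : Set GQ)) :
    @IsGaloisGroup (GQ ⧸ N) ℤ (fixedInts N) _ _ _ (Ring.toIntAlgebra _) _ := by
  have h := isGaloisGroup_quotient N hN
  have e : (Ring.toIntAlgebra (fixedInts N) : Algebra ℤ (fixedInts N)) = (fixedInts N).algebra :=
    Subsingleton.elim _ _
  rw [e]
  exact h

end OpenNormal

/-- Finite level, abstract form: in a Galois number field `K ≠ ℚ` there is a prime number `p`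
such that every prime of the ring of integers containing `p` has a nontrivial inertia element. -/
theorem exists_nontrivial_inertia_aux {K 𝒪 Γ : Type*} [Field K] [NumberField K] [IsGalois ℚ K]
    [CommRing 𝒪] [Algebra 𝒪 K] [IsIntegralClosure 𝒪 ℤ K] [Group Γ] [Finite Γ]
    [MulSemiringAction Γ 𝒪] [IsGaloisGroup Γ ℤ 𝒪] (h : 1 < Module.finrank ℚ K) :
    ∃ p : ℕ, p.Prime ∧ ∀ P : Ideal 𝒪, P.IsPrime → (p : 𝒪) ∈ P →
      ∃ γ : Γ, γ ≠ 1 ∧ ∀ s : 𝒪, γ • s - s ∈ P := by
  obtain ⟨p, hp, hram⟩ := NumberField.exists_not_isUnramifiedAt_int_of_isGalois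
    (K := K) (𝒪 := 𝒪) h
  refine ⟨p, hp, fun P hP hpP => ?_⟩
  have hunr : ¬ Algebra.IsUnramifiedAt ℤ P := hram P hP hpP
  have := (IsIntegralClosure.algebraMap_injective 𝒪 ℤ K).isDomain
  have := IsIntegralClosure.isDedekindDomain ℤ ℚ K 𝒪
  have := IsIntegralClosure.isFractionRing_of_finite_extension ℤ ℚ K 𝒪
  have := IsIntegralClosure.finite ℤ ℚ K 𝒪
  have := CharZero.of_module (R := 𝒪) K
  have := IsIntegralClosure.isIntegral_algebra ℤ (A := 𝒪) K
  have hidx : P.ramificationIdx ℤ ≠ 1 := fun h => hunr (Ideal.ramificationIdx_eq_one_iff.mp h)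
  have hcard : Nat.card (P.inertia Γ) ≠ 1 := by
    rw [Ideal.card_inertia_eq_ramificationIdxIn (G := Γ) (P.under ℤ) P,
      Ideal.ramificationIdxIn_eq_ramificationIdx (P.under ℤ) P Γ]
    exact hidx
  have hex : ∃ γ : Γ, γ ∈ P.inertia Γ ∧ γ ≠ 1 := by
    by_contra hcon
    push Not at hcon
    apply hcard
    have : Subsingleton (P.inertia Γ) :=
      ⟨fun a b => Subtype.ext ((hcon a.1 a.2).trans (hcon b.1 b.2).symm)⟩
    exact Nat.card_unique
  obtain ⟨γ, hγ, hγ1⟩ := hex
  exact ⟨γ, hγ1, fun s => hγ s⟩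

section OpenNormal2

variable (N : Subgroup GQ)

/-- Finite level: if `N ≠ ⊤` is open and normal there is a prime number `p` such that above every
prime of the `N`-fixed integers containing `p` there is a nontrivial inertia element. -/
theorem exists_nontrivial_inertia [N.Normal] (hN : IsOpen (N : Set GQ)) (hne : N ≠ ⊤) :
    ∃ p : ℕ, p.Prime ∧ ∀ (P : Ideal (fixedInts N)), P.IsPrime → (p : fixedInts N) ∈ P →
      ∃ g : GQ, g ∉ N ∧ ∀ s : fixedInts N, ((g : GQ ⧸ N) • s - s) ∈ P := by
  have hNF : NumberField (IntermediateField.fixedField N) := numberField_fixedField N hN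
  have hGal : IsGalois ℚ (IntermediateField.fixedField N) := isGalois_fixedField N hN
  have hfin : Finite (GQ ⧸ N) := Subgroup.quotient_finite_of_isOpen N hN
  obtain ⟨p, hp, h⟩ := @exists_nontrivial_inertia_aux (IntermediateField.fixedField N)
    (fixedInts N) (GQ ⧸ N) _ hNF hGal _ (algebraFixedField N) (isIntegralClosure_fixedField' N)
    _ hfin _ (isGaloisGroup_quotient' N hN) (one_lt_finrank_fixedField N hN hne)
  refine ⟨p, hp, fun P hP hpP => ?_⟩
  obtain ⟨γ, hγ1, hγ⟩ := h P hP hpP
  obtain ⟨g, rfl⟩ := QuotientGroup.mk_surjective γ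
  exact ⟨g, fun hg => hγ1 ((QuotientGroup.eq_one_iff g).mpr hg), hγ⟩

end OpenNormal2


/-- The discrete topology on the ring of algebraic integers (local use only). -/
@[reducible] def zbarTopology : TopologicalSpace Zb := ⊥

attribute [local instance] zbarTopology

theorem discreteTopology_zbar : DiscreteTopology Zb := ⟨rfl⟩

attribute [local instance] discreteTopology_zbar

theorem continuousSMul_zbar : ContinuousSMul GQ Zb := by
  rw [continuousSMul_iff_stabilizer_isOpen]
  intro z
  have : (MulAction.stabilizer GQ z : Set GQ) = MulAction.stabilizer GQ (z : Qb) := by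
    ext g
    simp [Subtype.ext_iff]
  rw [this]
  exact stabilizer_isOpen_of_isIntegral _

attribute [local instance] continuousSMul_zbar

variable (N : Subgroup GQ)


theorem isInvariant_fixedInts : Algebra.IsInvariant (fixedInts N) Zb N :=
  ⟨fun x h => ⟨⟨x, h⟩, rfl⟩⟩

theorem compactSpace_of_isClosed (hN : IsClosed (N : Set GQ)) : CompactSpace N :=
  isCompact_iff_compactSpace.mp hN.isCompact

/-- Elements of `N` act on ideals of `Zb` as they do in the ambient group. -/
theorem subgroup_smul_ideal (n : N) (I : Ideal Zb) : n • I = (n : GQ) • I := rfl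

theorem mem_smul_ideal_iff (g : GQ) (I : Ideal Zb) (z : Zb) : z ∈ g • I ↔ g⁻¹ • z ∈ I :=
  Ideal.mem_pointwise_smul_iff_inv_smul_mem

theorem coe_quotient_smul [N.Normal] (g : GQ) (s : fixedInts N) :
    (((g : GQ ⧸ N) • s : fixedInts N) : Zb) = g • (s : Zb) := rfl

/-- Step 1 of the lifting: a finite-level inertia element can be corrected by an element of `N`
to stabilise the prime `Q` of `Zb`, keeping the congruence on `N`-fixed integers. -/
theorem exists_stabilizer_lift [N.Normal] (hN : IsOpen (N : Set GQ)) (Q : Ideal Zb) [Q.IsPrime]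
    (g : GQ) (hg : g ∉ N)
    (hgI : ∀ s : fixedInts N, (((g : GQ ⧸ N) • s - s : fixedInts N) : Zb) ∈ Q) :
    ∃ g₂ : GQ, g₂ ∉ N ∧ g₂ • Q = Q ∧ ∀ s : fixedInts N, g₂ • (s : Zb) - (s : Zb) ∈ Q := by
  have hcl : IsClosed (N : Set GQ) := Subgroup.isClosed_of_isOpen N hN
  have : CompactSpace N := compactSpace_of_isClosed N hcl
  have := isInvariant_fixedInts N
  -- both `Q` and `g • Q` lie over the same prime of the fixed integers
  have hunder : (g • Q).under (fixedInts N) = Q.under (fixedInts N) := by
    ext s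
    rw [Ideal.mem_comap, Ideal.mem_comap]
    show (s : Zb) ∈ g • Q ↔ (s : Zb) ∈ Q
    rw [mem_smul_ideal_iff]
    have h1 := hgI (((g⁻¹ : GQ) : GQ ⧸ N) • s)
    have h2 : ((((g : GQ ⧸ N) • (((g⁻¹ : GQ) : GQ ⧸ N) • s) - ((g⁻¹ : GQ) : GQ ⧸ N) • s :
        fixedInts N) : Zb)) = (s : Zb) - g⁻¹ • (s : Zb) := by
      show g • (g⁻¹ • (s : Zb)) - g⁻¹ • (s : Zb) = _
      rw [smul_inv_smul]
    rw [h2] at h1
    constructor
    · intro h
      have := Q.add_mem h1 h
      simpa using this
    · intro h
      have := Q.sub_mem h h1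
      simpa using this
  obtain ⟨n, hn⟩ := Algebra.IsInvariant.exists_smul_of_under_eq_of_profinite
    (A := fixedInts N) (B := Zb) (G := N) (g • Q) Q hunder
  refine ⟨(n : GQ) * g, ?_, ?_, ?_⟩
  · intro h
    apply hg
    have := N.mul_mem (N.inv_mem n.2) h
    simpa using this
  · rw [mul_smul]
    exact hn.symm
  · intro s
    have h1 : (n : GQ) • (g • (s : Zb)) = g • (s : Zb) := by
      have := ((g : GQ ⧸ N) • s).2 n
      exact this
    rw [mul_smul, h1]
    exact hgI s


/-- Step 2 of the lifting: correct by an element of the decomposition group inside `N` so that the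
element acts trivially on `Zb ⧸ Q`. -/
theorem exists_inertia_lift [N.Normal] (hN : IsOpen (N : Set GQ)) (Q : Ideal Zb) [Q.IsPrime]
    (g₂ : GQ) (hg₂ : g₂ ∉ N) (hQ : g₂ • Q = Q)
    (hS : ∀ s : fixedInts N, g₂ • (s : Zb) - (s : Zb) ∈ Q) :
    ∃ g₃ : GQ, g₃ ∉ N ∧ g₃ • Q = Q ∧ ∀ b : Zb, g₃ • b - b ∈ Q := by
  have hcl : IsClosed (N : Set GQ) := Subgroup.isClosed_of_isOpen N hN
  have : CompactSpace N := compactSpace_of_isClosed N hcl
  have := isInvariant_fixedInts N
  let φ₀ : (Zb ⧸ Q) ≃ₐ[ℤ ⧸ Q.under ℤ] (Zb ⧸ Q) :=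
    Ideal.Quotient.stabilizerHom Q (Q.under ℤ) GQ ⟨g₂, hQ⟩
  have hφ₀ : ∀ b : Zb, φ₀ (Ideal.Quotient.mk Q b) = Ideal.Quotient.mk Q (g₂ • b) := fun b => rfl
  let φ : (Zb ⧸ Q) ≃ₐ[fixedInts N ⧸ Q.under (fixedInts N)] (Zb ⧸ Q) :=
    { φ₀.toRingEquiv with
      commutes' := by
        intro r
        obtain ⟨s, rfl⟩ := Ideal.Quotient.mk_surjective r
        rw [Ideal.Quotient.algebraMap_mk_of_liesOver]
        show φ₀ (Ideal.Quotient.mk Q (s : Zb)) = Ideal.Quotient.mk Q (s : Zb)
        rw [hφ₀, Ideal.Quotient.eq]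
        exact hS s }
  have hφ : ∀ b : Zb, φ (Ideal.Quotient.mk Q b) = Ideal.Quotient.mk Q (g₂ • b) := fun b => rfl
  obtain ⟨⟨n₂, hn₂⟩, hn₂φ⟩ := Ideal.Quotient.stabilizerHom_surjective_of_profinite (G := N)
    (Q.under (fixedInts N)) Q φ
  have hn₂Q : (n₂ : GQ) • Q = Q := hn₂
  have hcong : ∀ b : Zb, (n₂ : GQ) • b - g₂ • b ∈ Q := by
    intro b
    have h1 : Ideal.Quotient.mk Q (n₂ • b) = Ideal.Quotient.mk Q (g₂ • b) := by
      rw [← hφ, ← hn₂φ]
      rfl
    exact Ideal.Quotient.eq.mp h1
  refine ⟨(n₂ : GQ)⁻¹ * g₂, ?_, ?_, ?_⟩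
  · intro h
    apply hg₂
    have := N.mul_mem n₂.2 h
    simpa using this
  · rw [mul_smul, hQ, inv_smul_eq_iff, hn₂Q]
  · intro b
    have h1 := hcong b
    have h2 : (n₂ : GQ) • b - g₂ • b = (n₂ : GQ) • (b - ((n₂ : GQ)⁻¹ * g₂) • b) := by
      rw [smul_sub, mul_smul, smul_inv_smul]
    rw [h2, ← hn₂Q, Ideal.smul_mem_pointwise_smul_iff] at h1
    have := Q.neg_mem h1
    simpa using this


/-- Step 3 of the lifting: an automorphism stabilising the prime `Q` of `ℤ̄` cut out by `A` and
acting trivially on `ℤ̄ ⧸ Q` lies in the inertia subgroup of `A`. -/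
theorem mem_inertiaSubgroupIn_of_zbar {p : ℕ} (hp : p.Prime) (A : ValuationSubring Qb)
    (hA : A.LiesOverPrime p) (σ : GQ)
    (hσQ : σ • helper54.primeOfValuationSubring A = helper54.primeOfValuationSubring A)
    (hσ : ∀ b : Zb, σ • b - b ∈ helper54.primeOfValuationSubring A) :
    σ ∈ A.inertiaSubgroupIn ℚ := by
  rw [mem_inertiaSubgroupIn_iff]
  refine ⟨helper54.mem_decompositionSubgroup_of_smul_prime_eq hp A hA σ hσQ, fun x hx => ?_⟩
  obtain ⟨a, b, hb, hab⟩ := helper54.exists_frac_of_mem_valuationSubring hp A hA x hx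
  have hval : ∀ c : Zb, c ∉ helper54.primeOfValuationSubring A → A.valuation (c : Qb) = 1 := by
    intro c hc
    rw [helper54.mem_primeOfValuationSubring, ValuationSubring.mem_nonunits_iff] at hc
    have hle : A.valuation (c : Qb) ≤ 1 :=
      (A.valuation_le_one_iff _).mpr (helper54.mem_valuationSubring_of_isIntegral A _ c.2)
    exact le_antisymm hle (not_lt.mp hc)
  have hσb : σ • b ∉ helper54.primeOfValuationSubring A := by
    intro h
    rw [← hσQ, Ideal.smul_mem_pointwise_smul_iff] at h
    exact hb h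
  have hnum : (σ • a - a) * b - a * (σ • b - b) ∈ helper54.primeOfValuationSubring A :=
    Ideal.sub_mem _ (Ideal.mul_mem_right _ _ (hσ a)) (Ideal.mul_mem_left _ _ (hσ b))
  rw [helper54.mem_primeOfValuationSubring, ValuationSubring.mem_nonunits_iff] at hnum
  have key : (σ x - x) * (((σ • b : Zb) : Qb) * (b : Qb)) =
      (((σ • a - a) * b - a * (σ • b - b) : Zb) : Qb) := by
    have h1 : σ x * σ (b : Qb) = σ (a : Qb) := by rw [← map_mul, hab]
    have e1 : ((σ • b : Zb) : Qb) = σ (b : Qb) := rfl
    have e2 : ((σ • a : Zb) : Qb) = σ (a : Qb) := rfl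
    push_cast
    rw [e1, e2, ← h1, ← hab]
    ring
  rw [ValuationSubring.mem_nonunits_iff]
  have h2 := congrArg A.valuation key
  rw [map_mul, map_mul, hval _ hσb, hval _ hb, mul_one, mul_one] at h2
  rw [h2]
  exact hnum

/-- **Lifting of inertia.** If `N` is an open normal subgroup of `Gal(ℚ̄/ℚ)`, `A` a valuation
subring over `p` and `g ∉ N` acts trivially on the `N`-fixed algebraic integers modulo the prime
cut out by `A`, then the inertia subgroup of `A` is not contained in `N`. -/
theorem exists_mem_inertiaSubgroupIn_not_mem [N.Normal] (hN : IsOpen (N : Set GQ)) {p : ℕ}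
    (hp : p.Prime) (A : ValuationSubring Qb) (hA : A.LiesOverPrime p) (g : GQ) (hg : g ∉ N)
    (hgI : ∀ s : fixedInts N,
      (((g : GQ ⧸ N) • s - s : fixedInts N) : Zb) ∈ helper54.primeOfValuationSubring A) :
    ∃ σ ∈ A.inertiaSubgroupIn ℚ, σ ∉ N := by
  obtain ⟨g₂, hg₂, hg₂Q, hg₂S⟩ :=
    exists_stabilizer_lift N hN (helper54.primeOfValuationSubring A) g hg hgI
  obtain ⟨g₃, hg₃, hg₃Q, hg₃I⟩ :=
    exists_inertia_lift N hN (helper54.primeOfValuationSubring A) g₂ hg₂ hg₂Q hg₂S
  exact ⟨g₃, mem_inertiaSubgroupIn_of_zbar hp A hA g₃ hg₃Q hg₃I, hg₃⟩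

/-- Minkowski's theorem in inertia form, for open normal subgroups. -/
theorem minkowski_inertia_normal [N.Normal] (hN : IsOpen (N : Set GQ))
    (hI : ∀ q : ℕ, q.Prime → ∀ A : ValuationSubring Qb, A.LiesOverPrime q →
      A.inertiaSubgroupIn ℚ ≤ N) : N = ⊤ := by
  by_contra hne
  obtain ⟨p, hp, h⟩ := exists_nontrivial_inertia N hN hne
  obtain ⟨A, hA⟩ := helper54.exists_liesOverPrime hp
  have hpQ : (p : fixedInts N) ∈ (helper54.primeOfValuationSubring A).under (fixedInts N) := by
    rw [Ideal.mem_comap, map_natCast]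
    exact helper54.natCast_mem_primeOfValuationSubring A hA
  obtain ⟨g, hg, hgI⟩ := h _ inferInstance hpQ
  obtain ⟨σ, hσ, hσN⟩ := exists_mem_inertiaSubgroupIn_not_mem N hN hp A hA g hg hgI
  exact hσN (hI p hp A hA hσ)

/-- **Minkowski's theorem in inertia form**: an open subgroup of `Gal(ℚ̄/ℚ)` containing all
inertia subgroups (of all valuation subrings of `ℚ̄` over all prime numbers) is everything. -/
theorem minkowski_inertia (H : Subgroup GQ) (hH : IsOpen (H : Set GQ))
    (hI : ∀ q : ℕ, q.Prime → ∀ A : ValuationSubring Qb, A.LiesOverPrime q →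
      A.inertiaSubgroupIn ℚ ≤ H) : H = ⊤ := by
  obtain ⟨N₀, hN₀⟩ := ProfiniteGrp.exist_openNormalSubgroup_sub_open_nhds_of_one hH (one_mem H)
  have hle : (N₀ : Subgroup GQ) ≤ H.normalCore := Subgroup.normal_le_normalCore.mpr hN₀
  have hopen : IsOpen (H.normalCore : Set GQ) := Subgroup.isOpen_mono hle N₀.isOpen
  have hI' : ∀ q : ℕ, q.Prime → ∀ A : ValuationSubring Qb, A.LiesOverPrime q →
      A.inertiaSubgroupIn ℚ ≤ H.normalCore := by
    intro q hq A hA σ hσ b
    exact hI q hq (b • A) (liesOverPrime_smul A b hA) (conj_mem_inertiaSubgroupIn A b σ hσ)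
  have htop := minkowski_inertia_normal H.normalCore hopen hI'
  exact top_le_iff.mp (htop ▸ Subgroup.normalCore_le H)

/-- A homomorphism from `Gal(ℚ̄/ℚ)` with open kernel which is trivial on all inertia subgroups
(i.e. is unramified at every prime) is trivial.  In particular a continuous character of `G_ℚ`
with values in a discrete group that is unramified everywhere is trivial. -/
theorem eq_one_of_unramified_everywhere {M : Type*} [Group M] (χ : GQ →* M)
    (hopen : IsOpen (χ.ker : Set GQ))
    (hunr : ∀ q : ℕ, q.Prime → ∀ A : ValuationSubring Qb, A.LiesOverPrime q →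
      ∀ σ ∈ A.inertiaSubgroupIn ℚ, χ σ = 1) (σ : GQ) : χ σ = 1 := by
  have h : χ.ker = ⊤ := minkowski_inertia χ.ker hopen
    (fun q hq A hA σ hσ => MonoidHom.mem_ker.mpr (hunr q hq A hA σ hσ))
  have : σ ∈ χ.ker := h ▸ Subgroup.mem_top σ
  exact MonoidHom.mem_ker.mp this

end Fermat.Agent.Lib.helper2502
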