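import Mathlib

/-!
Case I of Fermat's Last Theorem for the exponents 5, 7, 11, 13 by the
Sophie Germain / Legendre criterion with an auxiliary prime.
-/

namespace Fermat.Agent.Lib.helper250

/-- The cofactor `(y ^ p + z ^ p) / (y + z)` for odd `p`. -/
def cof (p : ℕ) {R : Type*} [CommRing R] (y z : R) : R :=
  ∑ i ∈ Finset.range p, y ^ i * (-z) ^ (p - 1 - i)

lemma cof_mul {R : Type*} [CommRing R] {p : ℕ} (hp : Odd p) (y z : R) :
    (y + z) * cof p y z = y ^ p + z ^ p := by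
  have h := geom_sum₂_mul y (-z) p
  rw [Odd.neg_pow hp, sub_neg_eq_add, sub_neg_eq_add] at h
  rw [mul_comm]
  exact h

lemma cof_neg_self {R : Type*} [CommRing R] {p : ℕ} (y : R) :
    cof p y (-y) = (p : R) * y ^ (p - 1) := by
  unfold cof
  rw [neg_neg]
  have : ∀ i ∈ Finset.range p, y ^ i * y ^ (p - 1 - i) = y ^ (p - 1) := by
    intro i hi
    rw [← pow_add]
    congr 1
    have := Finset.mem_range.mp hi
    omega
  rw [Finset.sum_congr rfl this, Finset.sum_const, Finset.card_range, nsmul_eq_mul]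

lemma cof_zero_left {R : Type*} [CommRing R] {p : ℕ} (hp : Odd p) (y : R) :
    cof p 0 y = y ^ (p - 1) := by
  unfold cof
  obtain ⟨k, rfl⟩ := hp
  rw [Finset.sum_eq_single 0]
  · simp [pow_mul]
  · intro i _ hi
    simp [hi]
  · intro h
    simp at h

lemma map_cof {R S : Type*} [CommRing R] [CommRing S] (f : R →+* S) (p : ℕ) (y z : R) :
    f (cof p y z) = cof p (f y) (f z) := by
  simp [cof, map_sum]

lemma int_isCoprime_of_forall_prime {a b : ℤ}
    (h : ∀ r : ℕ, r.Prime → (r : ℤ) ∣ a → (r : ℤ) ∣ b → False) : IsCoprime a b := by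
  rw [Int.isCoprime_iff_gcd_eq_one]
  apply Nat.coprime_of_dvd
  intro k hk hka hkb
  exact h k hk (Int.natCast_dvd.mpr hka) (Int.natCast_dvd.mpr hkb)

lemma not_prime_dvd_of_isCoprime {a b : ℤ} (hab : IsCoprime a b) {r : ℕ} (hr : r.Prime)
    (ha : (r : ℤ) ∣ a) (hb : (r : ℤ) ∣ b) : False := by
  have := hab.isUnit_of_dvd' ha hb
  exact (Nat.prime_iff_prime_int.mp hr).not_isUnit this


/-- If `x ^ p + y ^ p + z ^ p = 0` with `y, z` coprime and `p ∤ x`, then `y + z` and the cofactor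
`(y ^ p + z ^ p) / (y + z)` are both `p`-th powers. -/
lemma exists_pow_of_eq {p : ℕ} (hp : p.Prime) (hodd : Odd p) {x y z : ℤ}
    (hyz : IsCoprime y z) (h : x ^ p + y ^ p + z ^ p = 0) (hpx : ¬ (p : ℤ) ∣ x) :
    ∃ A α : ℤ, y + z = A ^ p ∧ cof p y z = α ^ p := by
  have hmul : (y + z) * cof p y z = (-x) ^ p := by
    rw [cof_mul hodd, Odd.neg_pow hodd]
    linarith
  have hcop : IsCoprime (y + z) (cof p y z) := by
    apply int_isCoprime_of_forall_prime
    intro r hr h1 h2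
    have : Fact r.Prime := ⟨hr⟩
    have e1 : ((y : ZMod r) + (z : ZMod r)) = 0 := by
      have := (ZMod.intCast_zmod_eq_zero_iff_dvd (y + z) r).mpr h1
      simpa using this
    have e2 : cof p (y : ZMod r) (z : ZMod r) = 0 := by
      have := (ZMod.intCast_zmod_eq_zero_iff_dvd (cof p y z) r).mpr h2
      rw [← this]
      exact (map_cof (Int.castRingHom (ZMod r)) p y z).symm
    have e3 : (z : ZMod r) = -(y : ZMod r) := by
      rw [eq_neg_iff_add_eq_zero, add_comm]; exact e1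
    rw [e3, cof_neg_self] at e2
    rcases mul_eq_zero.mp e2 with e4 | e4
    · -- r ∣ p, so r = p and p ∣ x
      have hrp : r ∣ p := (ZMod.natCast_eq_zero_iff p r).mp e4
      have hrp' : r = p := (Nat.prime_dvd_prime_iff_eq hr hp).mp hrp
      subst hrp'
      have : (r : ℤ) ∣ (-x) ^ r := by
        rw [← hmul]; exact Dvd.dvd.mul_right h1 _
      have := (Nat.prime_iff_prime_int.mp hr).dvd_of_dvd_pow this
      exact hpx ((dvd_neg).mp this)
    · have e5 : (y : ZMod r) = 0 := by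
        exact pow_eq_zero_iff (n := p - 1) (by have := hp.two_le; omega) |>.mp e4
      have hy : (r : ℤ) ∣ y := (ZMod.intCast_zmod_eq_zero_iff_dvd y r).mp e5
      have hz : (r : ℤ) ∣ z := by
        have := (dvd_add_right hy).mp h1
        exact this
      exact not_prime_dvd_of_isCoprime hyz hr hy hz
  exact ⟨(Int.eq_pow_of_mul_eq_pow_odd_left hcop hodd hmul).choose,
    (Int.eq_pow_of_mul_eq_pow_odd_right hcop hodd hmul).choose,
    (Int.eq_pow_of_mul_eq_pow_odd_left hcop hodd hmul).choose_spec,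
    (Int.eq_pow_of_mul_eq_pow_odd_right hcop hodd hmul).choose_spec⟩


/-- Core of the Sophie Germain / Legendre argument: the auxiliary prime `q` cannot divide `x`. -/
lemma core {p q : ℕ} (hp : p.Prime) (hodd : Odd p) (hq : q.Prime)
    (h1 : ∀ x y z : ZMod q, x ^ p + y ^ p + z ^ p = 0 → x * y * z = 0)
    (h2 : ∀ t : ZMod q, t ^ p ≠ (p : ZMod q))
    {x y z : ℤ} (hxy : IsCoprime x y) (hyz : IsCoprime y z) (hzx : IsCoprime z x)
    (h : x ^ p + y ^ p + z ^ p = 0)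
    (hpx : ¬ (p : ℤ) ∣ x) (hpy : ¬ (p : ℤ) ∣ y) (hpz : ¬ (p : ℤ) ∣ z)
    (hqx : (q : ℤ) ∣ x) : False := by
  have : Fact q.Prime := ⟨hq⟩
  obtain ⟨A, α, hA, hα⟩ := exists_pow_of_eq hp hodd hyz h hpx
  obtain ⟨B, β, hB, -⟩ := exists_pow_of_eq hp hodd hzx (x := y) (by linarith) hpy
  obtain ⟨C, γ, hC, hγ⟩ := exists_pow_of_eq hp hodd hxy (x := z) (by linarith) hpz
  have hx0 : (x : ZMod q) = 0 := (ZMod.intCast_zmod_eq_zero_iff_dvd x q).mpr hqx
  have hy0 : (y : ZMod q) ≠ 0 := fun hy0 =>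
    not_prime_dvd_of_isCoprime hxy hq hqx ((ZMod.intCast_zmod_eq_zero_iff_dvd y q).mp hy0)
  have hz0 : (z : ZMod q) ≠ 0 := fun hz0 =>
    not_prime_dvd_of_isCoprime hzx hq ((ZMod.intCast_zmod_eq_zero_iff_dvd z q).mp hz0) hqx
  have hA' : (y : ZMod q) + z = (A : ZMod q) ^ p := by exact_mod_cast congrArg (Int.cast : ℤ → ZMod q) hA
  have hB' : (z : ZMod q) + x = (B : ZMod q) ^ p := by exact_mod_cast congrArg (Int.cast : ℤ → ZMod q) hB
  have hC' : (x : ZMod q) + y = (C : ZMod q) ^ p := by exact_mod_cast congrArg (Int.cast : ℤ → ZMod q) hC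
  have hα' : cof p (y : ZMod q) (z : ZMod q) = (α : ZMod q) ^ p := by
    have := congrArg (Int.castRingHom (ZMod q)) hα
    rw [map_cof, map_pow] at this
    exact this
  have hγ' : cof p (x : ZMod q) (y : ZMod q) = (γ : ZMod q) ^ p := by
    have := congrArg (Int.castRingHom (ZMod q)) hγ
    rw [map_cof, map_pow] at this
    exact this
  have hsum : (B : ZMod q) ^ p + (C : ZMod q) ^ p + (-(A : ZMod q)) ^ p = 0 := by
    rw [Odd.neg_pow hodd, ← hA', ← hB', ← hC', hx0]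
    ring
  have hprod := h1 _ _ _ hsum
  have hB0 : (B : ZMod q) ≠ 0 := by
    intro hB0
    rw [hB0, zero_pow hp.ne_zero, hx0, add_zero] at hB'
    exact hz0 hB'
  have hC0 : (C : ZMod q) ≠ 0 := by
    intro hC0
    rw [hC0, zero_pow hp.ne_zero, hx0, zero_add] at hC'
    exact hy0 hC'
  have hA0 : (A : ZMod q) = 0 := by
    rcases mul_eq_zero.mp hprod with h' | h'
    · rcases mul_eq_zero.mp h' with h'' | h''
      · exact absurd h'' hB0
      · exact absurd h'' hC0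
    · exact neg_eq_zero.mp h'
  have hzy : (z : ZMod q) = -(y : ZMod q) := by
    rw [hA0, zero_pow hp.ne_zero] at hA'
    rw [eq_neg_iff_add_eq_zero, add_comm]; exact hA'
  rw [hzy, cof_neg_self] at hα'
  rw [hx0, cof_zero_left hodd] at hγ'
  have hγ0 : (γ : ZMod q) ^ p ≠ 0 := by
    rw [← hγ']
    exact pow_ne_zero _ hy0
  apply h2 ((α : ZMod q) * (γ : ZMod q)⁻¹)
  rw [mul_pow, inv_pow, ← hα', ← hγ']
  rw [mul_assoc, mul_inv_cancel₀ (pow_ne_zero _ hy0), mul_one]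

/-- Symmetric form of Case I with an auxiliary prime. -/
theorem caseI_sym {p q : ℕ} (hp : p.Prime) (hodd : p ≠ 2) (hq : q.Prime)
    (h1 : ∀ x y z : ZMod q, x ^ p + y ^ p + z ^ p = 0 → x * y * z = 0)
    (h2 : ∀ t : ZMod q, t ^ p ≠ (p : ZMod q))
    {x y z : ℤ} (hxy : IsCoprime x y) (hyz : IsCoprime y z) (hzx : IsCoprime z x)
    (h : x ^ p + y ^ p + z ^ p = 0) : (p : ℤ) ∣ x * y * z := by
  have hodd' : Odd p := hp.odd_of_ne_two hodd
  by_contra hcon
  have hpx : ¬ (p : ℤ) ∣ x := fun hh => hcon ((hh.mul_right y).mul_right z)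
  have hpy : ¬ (p : ℤ) ∣ y := fun hh => hcon ((hh.mul_left x).mul_right z)
  have hpz : ¬ (p : ℤ) ∣ z := fun hh => hcon (hh.mul_left (x * y))
  have : Fact q.Prime := ⟨hq⟩
  have hmod : (x : ZMod q) ^ p + (y : ZMod q) ^ p + (z : ZMod q) ^ p = 0 := by
    exact_mod_cast congrArg (Int.cast : ℤ → ZMod q) h
  have hprod := h1 _ _ _ hmod
  rcases mul_eq_zero.mp hprod with h' | h'
  · rcases mul_eq_zero.mp h' with h'' | h''
    · exact core hp hodd' hq h1 h2 hxy hyz hzx h hpx hpy hpz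
        ((ZMod.intCast_zmod_eq_zero_iff_dvd x q).mp h'')
    · exact core hp hodd' hq h1 h2 hyz hzx hxy (by linarith) hpy hpz hpx
        ((ZMod.intCast_zmod_eq_zero_iff_dvd y q).mp h'')
  · exact core hp hodd' hq h1 h2 hzx hxy hyz (by linarith) hpz hpx hpy
      ((ZMod.intCast_zmod_eq_zero_iff_dvd z q).mp h')

/-- **Case I with an auxiliary prime** (Sophie Germain, Legendre): if `q` is a prime such that
`x ^ p + y ^ p + z ^ p = 0` has only trivial solutions mod `q` and `p` is not a `p`-th power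
mod `q`, then every coprime solution of `a ^ p + b ^ p = c ^ p` has `p ∣ a * b * c`. -/
theorem caseI_of_aux (p q : ℕ) (hp : p.Prime) (hodd : p ≠ 2) (hq : q.Prime)
    (h1 : ∀ x y z : ZMod q, x ^ p + y ^ p + z ^ p = 0 → x * y * z = 0)
    (h2 : ∀ t : ZMod q, t ^ p ≠ (p : ZMod q))
    (a b c : ℤ) (hab : IsCoprime a b) (h : a ^ p + b ^ p = c ^ p) : (p : ℤ) ∣ a * b * c := by
  have hodd' : Odd p := hp.odd_of_ne_two hodd
  have hac : IsCoprime a c := by
    rw [← IsCoprime.pow_right_iff hp.pos, ← h]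
    have h3 : IsCoprime a (b ^ p) := hab.pow_right
    have h4 := h3.add_mul_left_right (a ^ (p - 1))
    have h5 : a * a ^ (p - 1) = a ^ p := by
      rw [← pow_succ']; congr 1; have := hp.pos; omega
    rw [h5, add_comm] at h4
    exact h4
  have hbc : IsCoprime b c := by
    rw [← IsCoprime.pow_right_iff hp.pos, ← h]
    have h3 : IsCoprime b (a ^ p) := hab.symm.pow_right
    have h4 := h3.add_mul_left_right (b ^ (p - 1))
    have h5 : b * b ^ (p - 1) = b ^ p := by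
      rw [← pow_succ']; congr 1; have := hp.pos; omega
    rw [h5] at h4
    exact h4
  have key := caseI_sym hp hodd hq h1 h2 (x := a) (y := b) (z := -c) hab hbc.neg_right
    hac.symm.neg_left (by rw [Odd.neg_pow hodd']; linarith)
  rw [mul_neg, dvd_neg] at key
  exact key


/-- Criterion for the first auxiliary-prime hypothesis: the nonzero `p`-th powers mod `q`
lie in a finite set `T` no three elements of which sum to zero. -/
lemma h1_of_finset {p q : ℕ} (T : Finset (ZMod q))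
    (hT : ∀ x : ZMod q, x ≠ 0 → x ^ p ∈ T)
    (hsum : ∀ u ∈ T, ∀ v ∈ T, ∀ w ∈ T, u + v + w ≠ 0) :
    ∀ x y z : ZMod q, x ^ p + y ^ p + z ^ p = 0 → x * y * z = 0 := by
  intro x y z h
  by_contra hne
  have hx : x ≠ 0 := fun h0 => hne (by rw [h0]; ring)
  have hy : y ≠ 0 := fun h0 => hne (by rw [h0]; ring)
  have hz : z ≠ 0 := fun h0 => hne (by rw [h0]; ring)
  exact hsum _ (hT x hx) _ (hT y hy) _ (hT z hz) h

lemma h2_of_finset {p q : ℕ} (hp : p ≠ 0) (T : Finset (ZMod q))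
    (hT : ∀ x : ZMod q, x ≠ 0 → x ^ p ∈ T)
    (hp0 : (p : ZMod q) ≠ 0) (hpT : (p : ZMod q) ∉ T) :
    ∀ t : ZMod q, t ^ p ≠ (p : ZMod q) := by
  intro t ht
  by_cases h0 : t = 0
  · rw [h0, zero_pow hp] at ht
    exact hp0 ht.symm
  · exact hpT (ht ▸ hT t h0)

lemma pow_mem_of_roots {p q k : ℕ} [Fact q.Prime] (hk : p * k = q - 1) (T : Finset (ZMod q))
    (hroots : ∀ u : ZMod q, u ^ k = 1 → u ∈ T) :
    ∀ x : ZMod q, x ≠ 0 → x ^ p ∈ T := by
  intro x hx
  apply hroots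
  rw [← pow_mul, hk]
  exact ZMod.pow_card_sub_one_eq_one hx


lemma roots_five : ∀ u : ZMod 11, u ^ 2 = 1 → u ∈ ({1, -1} : Finset (ZMod 11)) := by decide

lemma sums_five : ∀ u ∈ ({1, -1} : Finset (ZMod 11)), ∀ v ∈ ({1, -1} : Finset (ZMod 11)),
    ∀ w ∈ ({1, -1} : Finset (ZMod 11)), u + v + w ≠ 0 := by decide

lemma notMem_five : ((5 : ℕ) : ZMod 11) ∉ ({1, -1} : Finset (ZMod 11)) := by decide

lemma ne_zero_five : ((5 : ℕ) : ZMod 11) ≠ 0 := by decide

theorem caseI_five (a b c : ℤ) (hab : IsCoprime a b) (h : a ^ 5 + b ^ 5 = c ^ 5) :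
    (5 : ℤ) ∣ a * b * c := by
  have hq : Nat.Prime 11 := by norm_num
  have : Fact (Nat.Prime 11) := ⟨hq⟩
  have hT : ∀ x : ZMod 11, x ≠ 0 → x ^ 5 ∈ ({1, -1} : Finset (ZMod 11)) :=
    pow_mem_of_roots (k := 2) (by norm_num) _ roots_five
  exact_mod_cast caseI_of_aux 5 11 (by norm_num) (by norm_num) hq
    (h1_of_finset _ hT sums_five) (h2_of_finset (by norm_num) _ hT ne_zero_five notMem_five)
    a b c hab h

lemma roots_seven : ∀ u : ZMod 29, u ^ 4 = 1 → u ∈ ({1, -1, 12, -12} : Finset (ZMod 29)) := by decide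

lemma sums_seven : ∀ u ∈ ({1, -1, 12, -12} : Finset (ZMod 29)), ∀ v ∈ ({1, -1, 12, -12} : Finset (ZMod 29)),
    ∀ w ∈ ({1, -1, 12, -12} : Finset (ZMod 29)), u + v + w ≠ 0 := by decide

lemma notMem_seven : ((7 : ℕ) : ZMod 29) ∉ ({1, -1, 12, -12} : Finset (ZMod 29)) := by decide

lemma ne_zero_seven : ((7 : ℕ) : ZMod 29) ≠ 0 := by decide

theorem caseI_seven (a b c : ℤ) (hab : IsCoprime a b) (h : a ^ 7 + b ^ 7 = c ^ 7) :
    (7 : ℤ) ∣ a * b * c := by
  have hq : Nat.Prime 29 := by norm_num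
  have : Fact (Nat.Prime 29) := ⟨hq⟩
  have hT : ∀ x : ZMod 29, x ≠ 0 → x ^ 7 ∈ ({1, -1, 12, -12} : Finset (ZMod 29)) :=
    pow_mem_of_roots (k := 4) (by norm_num) _ roots_seven
  exact_mod_cast caseI_of_aux 7 29 (by norm_num) (by norm_num) hq
    (h1_of_finset _ hT sums_seven) (h2_of_finset (by norm_num) _ hT ne_zero_seven notMem_seven)
    a b c hab h

lemma roots_eleven : ∀ u : ZMod 23, u ^ 2 = 1 → u ∈ ({1, -1} : Finset (ZMod 23)) := by decide

lemma sums_eleven : ∀ u ∈ ({1, -1} : Finset (ZMod 23)), ∀ v ∈ ({1, -1} : Finset (ZMod 23)),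
    ∀ w ∈ ({1, -1} : Finset (ZMod 23)), u + v + w ≠ 0 := by decide

lemma notMem_eleven : ((11 : ℕ) : ZMod 23) ∉ ({1, -1} : Finset (ZMod 23)) := by decide

lemma ne_zero_eleven : ((11 : ℕ) : ZMod 23) ≠ 0 := by decide

theorem caseI_eleven (a b c : ℤ) (hab : IsCoprime a b) (h : a ^ 11 + b ^ 11 = c ^ 11) :
    (11 : ℤ) ∣ a * b * c := by
  have hq : Nat.Prime 23 := by norm_num
  have : Fact (Nat.Prime 23) := ⟨hq⟩
  have hT : ∀ x : ZMod 23, x ≠ 0 → x ^ 11 ∈ ({1, -1} : Finset (ZMod 23)) :=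
    pow_mem_of_roots (k := 2) (by norm_num) _ roots_eleven
  exact_mod_cast caseI_of_aux 11 23 (by norm_num) (by norm_num) hq
    (h1_of_finset _ hT sums_eleven) (h2_of_finset (by norm_num) _ hT ne_zero_eleven notMem_eleven)
    a b c hab h

set_option maxRecDepth 8000 in
lemma roots_thirteen : ∀ u : ZMod 53, u ^ 4 = 1 → u ∈ ({1, -1, 23, -23} : Finset (ZMod 53)) := by decide

set_option maxRecDepth 8000 in
lemma sums_thirteen : ∀ u ∈ ({1, -1, 23, -23} : Finset (ZMod 53)), ∀ v ∈ ({1, -1, 23, -23} : Finset (ZMod 53)),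
    ∀ w ∈ ({1, -1, 23, -23} : Finset (ZMod 53)), u + v + w ≠ 0 := by decide

lemma notMem_thirteen : ((13 : ℕ) : ZMod 53) ∉ ({1, -1, 23, -23} : Finset (ZMod 53)) := by decide

lemma ne_zero_thirteen : ((13 : ℕ) : ZMod 53) ≠ 0 := by decide

theorem caseI_thirteen (a b c : ℤ) (hab : IsCoprime a b) (h : a ^ 13 + b ^ 13 = c ^ 13) :
    (13 : ℤ) ∣ a * b * c := by
  have hq : Nat.Prime 53 := by norm_num
  have : Fact (Nat.Prime 53) := ⟨hq⟩
  have hT : ∀ x : ZMod 53, x ≠ 0 → x ^ 13 ∈ ({1, -1, 23, -23} : Finset (ZMod 53)) :=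
    pow_mem_of_roots (k := 4) (by norm_num) _ roots_thirteen
  exact_mod_cast caseI_of_aux 13 53 (by norm_num) (by norm_num) hq
    (h1_of_finset _ hT sums_thirteen) (h2_of_finset (by norm_num) _ hT ne_zero_thirteen notMem_thirteen)
    a b c hab h

end Fermat.Agent.Lib.helper250
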