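import Fermat.Agent.Lib.helper28_IgusaKernel

/-!
# The Igusa kernel lemma on other charts (helper28; shared brick S37 / S18)

`evAt O h : O[X] →+* E` is `P ↦ P(h)` (for `O : ValuationSubring K`, `E` a field over `K`).
`KLAt O h 𝒞` is the kernel lemma for the chart `O[h]` on a class `𝒞 ⊆ E`:
`y ∈ 𝒞`, `c ≠ 0` in `O`, `c y` integral over `O[h]` ⟹ `y` integral over `O[h]`.

* `exists_pow_mul_isIntegralElem` (Lemma S): if `h * g(h') = r(h')` and `w` is integral over
  `O[h]`, then `g(h') ^ D * w` is integral over `O[h']` for some `D`.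
* `KLAt.transfer` : from the chart `O[h]` to a chart `O[h']` with `h'` integral over `O[h]` and
  `h = r(h') / g(h')`, `g` with a unit coefficient (Hauptmodul charts).
* `KLAt.inv`      : from the chart `O[h]` to the chart `O[h⁻¹]`.
* `klAt_jq`       : the chart `O[j]` (this is `isIntegralElem_of_smul`).
-/

set_option autoImplicit false

noncomputable section

namespace Fermat.Agent.Lib.helper28

open ModularCurve Polynomial

section LemmaS

variable {R E : Type*} [CommRing R] [CommRing E] (ι : R →+* E)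

theorem isIntegralElem_pow {R A : Type*} [CommRing R] [CommRing A] (φ : R →+* A) {x : A}
    (hx : φ.IsIntegralElem x) (n : ℕ) : φ.IsIntegralElem (x ^ n) := by
  induction n with
  | zero => rw [pow_zero]; exact φ.isIntegralElem_one
  | succ n ih => rw [pow_succ]; exact RingHom.IsIntegralElem.mul _ ih hx

/-- homogenisation of `p` of degree `D` with respect to `(r, g)`: `∑ p_k r^k g^(D-k)`. -/
def homPoly (r g : R[X]) (D : ℕ) (p : R[X]) : R[X] :=
  ∑ k ∈ Finset.range (D + 1), C (p.coeff k) * r ^ k * g ^ (D - k)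

theorem eval₂_homPoly (r g : R[X]) (D : ℕ) (p : R[X]) (hp : p.natDegree ≤ D) (h h' : E)
    (hrel : h * eval₂ ι h' g = eval₂ ι h' r) :
    eval₂ ι h' (homPoly r g D p) = eval₂ ι h' g ^ D * eval₂ ι h p := by
  rw [homPoly, eval₂_finsetSum, eval₂_eq_sum_range' ι (Nat.lt_succ_of_le hp), Finset.mul_sum]
  refine Finset.sum_congr rfl fun k hk => ?_
  have hk' : k ≤ D := Nat.lt_succ_iff.mp (Finset.mem_range.mp hk)
  rw [eval₂_mul, eval₂_mul, eval₂_C, eval₂_pow, eval₂_pow, ← hrel]
  have : eval₂ ι h' g ^ D = eval₂ ι h' g ^ k * eval₂ ι h' g ^ (D - k) := by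
    rw [← pow_add, Nat.add_sub_cancel' hk']
  rw [this]
  ring

/-- **Lemma S.** If `h * g(h') = r(h')` and `w` is integral over `R[h]`, then `g(h')^D * w` is
integral over `R[h']` for some `D`. -/
theorem exists_pow_mul_isIntegralElem (r g : R[X]) (h h' : E)
    (hrel : h * eval₂ ι h' g = eval₂ ι h' r) {w : E}
    (hw : (eval₂RingHom ι h).IsIntegralElem w) :
    ∃ D : ℕ, (eval₂RingHom ι h').IsIntegralElem (eval₂ ι h' g ^ D * w) := by
  classical
  obtain ⟨G, hG, hroot⟩ := hw
  set m := G.natDegree with hm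
  set D : ℕ := (Finset.range (m + 1)).sup (fun i => (G.coeff i).natDegree) with hD
  have hDle : ∀ i, i ≤ m → (G.coeff i).natDegree ≤ D := fun i hi =>
    Finset.le_sup (f := fun i => (G.coeff i).natDegree)
      (Finset.mem_range.mpr (Nat.lt_succ_of_le hi))
  set γ : E := eval₂ ι h' g with hγ
  set q : Fin m → R[X] := fun i => g ^ (D * (m - 1 - i)) * homPoly r g D (G.coeff i) with hq
  set G₂ : R[X][X] := X ^ m + ∑ i : Fin m, C (q i) * X ^ (i : ℕ) with hG₂
  have hG₂m : G₂.Monic := monic_X_pow_add (degree_sum_fin_lt _)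
  refine ⟨D, G₂, hG₂m, ?_⟩
  -- the original equation
  have h0 : w ^ m + ∑ i : Fin m, eval₂ ι h (G.coeff i) * w ^ (i : ℕ) = 0 := by
    have h1 := hroot
    rw [eval₂_eq_sum_range, Finset.sum_range_succ, ← hm, hG.coeff_natDegree, map_one, one_mul,
      Finset.sum_range] at h1
    rw [add_comm]
    simpa [coe_eval₂RingHom] using h1
  have key : eval₂ (eval₂RingHom ι h') (γ ^ D * w) G₂ =
      γ ^ (D * m) * (w ^ m + ∑ i : Fin m, eval₂ ι h (G.coeff i) * w ^ (i : ℕ)) := by
    rw [hG₂, eval₂_add, eval₂_pow, eval₂_X, eval₂_finsetSum, mul_add, Finset.mul_sum]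
    congr 1
    · rw [mul_pow, ← pow_mul]
    · refine Finset.sum_congr rfl fun i _ => ?_
      have hi : (i : ℕ) < m := i.2
      rw [eval₂_mul, eval₂_C, eval₂_pow, eval₂_X, hq, coe_eval₂RingHom, eval₂_mul, eval₂_pow,
        eval₂_homPoly ι r g D _ (hDle i hi.le) h h' hrel, ← hγ, mul_pow, ← pow_mul]
      have hexp : D * m = D * (m - 1 - i) + D + D * i := by
        have : m = (m - 1 - i) + 1 + i := by omega
        calc D * m = D * ((m - 1 - i) + 1 + i) := by rw [← this]
          _ = _ := by ring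
      rw [hexp, pow_add, pow_add]
      ring
  rw [key, h0, mul_zero]

end LemmaS

section Charts

variable {K E : Type*} [Field K] [Field E] [Algebra K E] (O : ValuationSubring K)

/-- `P ↦ P(h)`, `O[X] → E`. -/
def evAt (h : E) : O[X] →+* E := eval₂RingHom ((algebraMap K E).comp O.subtype) h

theorem evAt_apply (h : E) (P : O[X]) :
    evAt O h P = eval₂ ((algebraMap K E).comp O.subtype) h P := rfl

@[simp] theorem evAt_C (h : E) (c : O) : evAt O h (C c) = algebraMap K E (c : K) := by
  rw [evAt_apply, eval₂_C]; rfl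

@[simp] theorem evAt_X (h : E) : evAt O h X = h := by
  rw [evAt_apply, eval₂_X]

theorem evAt_eq_aeval (h : E) (P : O[X]) : evAt O h P = aeval h (P.map O.subtype) := by
  rw [evAt_apply, aeval_def, eval₂_map]

/-- The kernel lemma for the chart `O[h]` on the class `𝒞`. -/
def KLAt (h : E) (𝒞 : Set E) : Prop :=
  ∀ y ∈ 𝒞, ∀ c : O, c ≠ 0 →
    (evAt O h).IsIntegralElem (algebraMap K E (c : K) * y) → (evAt O h).IsIntegralElem y

variable {O}

/-- transitivity: if `h'` is integral over `O[h]`, everything integral over `O[h']` is integral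
over `O[h]`. -/
theorem isIntegralElem_evAt_trans {h h' : E} (hh' : (evAt O h).IsIntegralElem h') {z : E}
    (hz : (evAt O h').IsIntegralElem z) : (evAt O h).IsIntegralElem z := by
  let _ := (evAt O h).toAlgebra
  have hh'' : IsIntegral O[X] h' := hh'
  set ψ : O[X] →+* ↥(integralClosure O[X] E) :=
    eval₂RingHom ((algebraMap O[X] ↥(integralClosure O[X] E)).comp C) ⟨h', hh''⟩ with hψ
  have hcomp : (algebraMap ↥(integralClosure O[X] E) E).comp ψ = evAt O h' := by
    refine Polynomial.ringHom_ext (fun c => ?_) ?_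
    · rw [RingHom.comp_apply, hψ, coe_eval₂RingHom, eval₂_C, evAt_C, RingHom.comp_apply,
        ← IsScalarTower.algebraMap_apply]
      show evAt O h (C c) = _
      rw [evAt_C]
    · rw [RingHom.comp_apply, hψ, coe_eval₂RingHom, eval₂_X, evAt_X]
      rfl
  obtain ⟨G, hG, hroot⟩ := hz
  have hx : IsIntegral ↥(integralClosure O[X] E) z := by
    refine ⟨G.map ψ, hG.map _, ?_⟩
    rw [eval₂_map, hcomp]
    exact hroot
  exact isIntegral_trans z hx

/-- powers of a polynomial with a unit coefficient have a unit coefficient. -/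
theorem exists_isUnit_coeff_pow {g : O[X]} {i₀ : ℕ} (hg : IsUnit (g.coeff i₀)) (D : ℕ) :
    ∃ i₁, IsUnit ((g ^ D).coeff i₁) := by
  apply exists_isUnit_coeff
  rw [Polynomial.map_pow]
  refine pow_ne_zero D fun h0 => ?_
  have := congrArg (fun p => p.coeff i₀) h0
  simp only [coeff_map, coeff_zero] at this
  exact ((IsLocalRing.residue_eq_zero_iff _).mp this) hg

/-- **Transfer of the kernel lemma** from the chart `O[h]` to a chart `O[h']` with `h'` integral
over `O[h]` and `h * g(h') = r(h')`, `g` having a unit coefficient. -/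
theorem KLAt.transfer {h h' : E} {𝒞 : Set E} (hKL : KLAt O h 𝒞)
    (hh' : (evAt O h).IsIntegralElem h') (r g : O[X]) (i₀ : ℕ) (hg : IsUnit (g.coeff i₀))
    (hrel : h * evAt O h' g = evAt O h' r) (hinj : Function.Injective (evAt O h')) :
    KLAt O h' 𝒞 := by
  intro y hy c hc hcy
  have h1 : (evAt O h).IsIntegralElem y := hKL y hy c hc (isIntegralElem_evAt_trans hh' hcy)
  obtain ⟨D, hD⟩ := exists_pow_mul_isIntegralElem ((algebraMap K E).comp O.subtype) r g h h'
    hrel h1
  obtain ⟨i₁, hi₁⟩ := exists_isUnit_coeff_pow hg D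
  refine isIntegralElem_of_two_denominators_poly (evAt O h') hinj hc i₁ hi₁ ?_ ?_
  · rw [evAt_C]; exact hcy
  · rw [map_pow]; exact hD

/-- **The kernel lemma on the inverse chart**: from `O[h]` to `O[h⁻¹]`. -/
theorem KLAt.inv {h h' : E} {𝒞 : Set E} (hKL : KLAt O h 𝒞) (hhh' : h * h' = 1)
    (hmul : ∀ y ∈ 𝒞, h * y ∈ 𝒞) (hinj : Function.Injective (evAt O h')) :
    KLAt O h' 𝒞 := by
  intro y hy c hc hcy
  set ι : O →+* E := (algebraMap K E).comp O.subtype with hι
  have hpow : ∀ D : ℕ, h ^ D * y ∈ 𝒞 := by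
    intro D
    induction D with
    | zero => simpa using hy
    | succ D ih => rw [pow_succ', mul_assoc]; exact hmul _ ih
  -- from `O[h']` to `O[h]`
  obtain ⟨D, hD⟩ := exists_pow_mul_isIntegralElem ι 1 X h' h
    (by rw [eval₂_X, eval₂_one, mul_comm]; exact hhh') hcy
  rw [eval₂_X] at hD
  have h1 : (evAt O h).IsIntegralElem (h ^ D * y) := by
    refine hKL _ (hpow D) c hc ?_
    have : algebraMap K E (c : K) * (h ^ D * y) = h ^ D * (algebraMap K E (c : K) * y) := by ring
    rw [this]
    exact hD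
  -- back from `O[h]` to `O[h']`
  obtain ⟨D', hD'⟩ := exists_pow_mul_isIntegralElem ι 1 X h h'
    (by rw [eval₂_X, eval₂_one]; exact hhh') h1
  rw [eval₂_X] at hD'
  have hX : (evAt O h').IsIntegralElem h' := by
    have := RingHom.isIntegralElem_map (evAt O h') (x := X)
    rwa [evAt_X] at this
  have h2 : (evAt O h').IsIntegralElem (h' ^ D' * y) := by
    have h3 : (evAt O h').IsIntegralElem (h' ^ D * (h' ^ D' * (h ^ D * y))) :=
      RingHom.IsIntegralElem.mul _ (isIntegralElem_pow _ hX D) hD'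
    have h4 : h' ^ D * (h' ^ D' * (h ^ D * y)) = h' ^ D' * y := by
      have : h' ^ D * h ^ D = 1 := by rw [← mul_pow, mul_comm, hhh', one_pow]
      calc h' ^ D * (h' ^ D' * (h ^ D * y)) = (h' ^ D * h ^ D) * (h' ^ D' * y) := by ring
        _ = h' ^ D' * y := by rw [this, one_mul]
    rwa [h4] at h3
  refine isIntegralElem_of_two_denominators_poly (evAt O h') hinj hc (d := X ^ D') D' ?_ ?_ ?_
  · rw [coeff_X_pow, if_pos rfl]; exact isUnit_one
  · rw [evAt_C]; exact hcy
  · rw [map_pow, evAt_X]; exact h2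

end Charts

section JChart

variable {K : Type*} [Field K] (O : ValuationSubring K) {n : ℕ} (b : Fin n → LaurentSeries ℤ)

theorem evK_eq_evAt : evK O = evAt O (jqModC K) :=
  RingHom.ext fun P => (evK_eq_aeval O P).trans (evAt_eq_aeval O _ P).symm

/-- The class of Gauss-integral elements of the `K(j)`-span of the `b i`. -/
def gaussSpan : Set (LaurentSeries K) :=
  {y | HasRep b y ∧ ∃ a s : LaurentSeries O, redO O s ≠ 0 ∧ y * iotaO O s = iotaO O a}

/-- **The kernel lemma for the chart `O[j]`** in `KLAt` form. -/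
theorem klAt_jq (hb : ∀ i, IntOverZj (b i)) (hind : Indep O b) :
    KLAt O (jqModC K) (gaussSpan O b) := by
  rintro y ⟨hrep, a, s, hs, hys⟩ c hc hcy
  rw [← evK_eq_evAt] at hcy ⊢
  refine isIntegralElem_of_smul hb hind hrep hs hys hc ?_
  have : evK O (C c) = algebraMap K (LaurentSeries K) (c : K) := by
    rw [evK_eq_evAt, evAt_C]
  rw [this]
  exact hcy

end JChart

end Fermat.Agent.Lib.helper28
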