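import Fermat.Agent.Lib.helper3874_HauptSturm
import Fermat.Prelude.Def_ModularCurve_X0ModL
import Fermat.Agent.S28.helper3292_JqFacts

/-!
# Hauptmoduln of levels 2, 3, 4, 9 as formal integer `q`-series (helper3874, board #1002)

With `η(q) = ∏ (1 - qⁿ)` (Prelude `etaProd`, without the factor `q^{1/24}`) put

* `h2 = q⁻¹ (η(q)/η(q²))²⁴`, `h3 = q⁻¹ (η(q)/η(q³))¹²`,
* `t4 = q⁻¹ (η(q)/η(q⁴))⁸`,  `t9 = q⁻¹ (η(q)/η(q⁹))³`

as elements of `LaurentSeries ℤ`.  We prove the classical formulas for `j(q^d)`, `d ∣ m`, as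
identities in `LaurentSeries ℤ` (hence in `LaurentSeries R` for every commutative ring `R`), and
deduce that the function field `K(j(q^d) : d ∣ m)` is `K(t_m)` for `m = 4, 9`.

The only analytic input is the Sturm bound, used in `helper3874_HauptSturm` for four identities
between `E₄`, `Δ(q)`, `Δ(q²)`, `Δ(q³)`; everything else is formal algebra.
-/

set_option autoImplicit false

open PowerSeries ModularCurve

namespace Fermat.Agent.Lib.helper3874

noncomputable section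

local notation "e₂" => PowerSeries.expand 2 two_ne_zero
local notation "e₃" => PowerSeries.expand 3 three_ne_zero

/-! ## Power series level -/

/-- The inverse of the Euler product `∏ (1 - qⁿ)`. -/
def etaInv : PowerSeries ℤ := etaProd.invOfUnit 1

theorem etaProd_mul_etaInv : etaProd * etaInv = 1 :=
  PowerSeries.mul_invOfUnit _ _ (by rw [constantCoeff_etaProd]; rfl)

theorem constantCoeff_etaInv : constantCoeff etaInv = 1 := by
  have h := congrArg (constantCoeff (R := ℤ)) etaProd_mul_etaInv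
  rwa [map_mul, constantCoeff_etaProd, one_mul, map_one] at h

theorem dedekindEtaUnitInv_eq : dedekindEtaUnitInv = etaInv ^ 24 := by
  have h1 := dedekindEtaUnit_mul_inv
  have h2 : dedekindEtaUnit * etaInv ^ 24 = 1 := by
    rw [dedekindEtaUnit, ← mul_pow, etaProd_mul_etaInv, one_pow]
  calc dedekindEtaUnitInv = dedekindEtaUnitInv * (dedekindEtaUnit * etaInv ^ 24) := by
        rw [h2, mul_one]
    _ = (dedekindEtaUnit * dedekindEtaUnitInv) * etaInv ^ 24 := by ring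
    _ = etaInv ^ 24 := by rw [h1, one_mul]

/-- The eta quotient `∏ (1 - qⁿ) / (1 - q^{dn})`. -/
def etaQuot (d : ℕ) (hd : d ≠ 0) : PowerSeries ℤ := etaProd * PowerSeries.expand d hd etaInv

theorem constantCoeff_etaQuot (d : ℕ) (hd : d ≠ 0) : constantCoeff (etaQuot d hd) = 1 := by
  rw [etaQuot, map_mul, constantCoeff_etaProd, PowerSeries.constantCoeff_expand,
    constantCoeff_etaInv, one_mul]

theorem expand_etaProd_mul_expand_etaInv (d : ℕ) (hd : d ≠ 0) :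
    PowerSeries.expand d hd etaProd * PowerSeries.expand d hd etaInv = 1 := by
  rw [← map_mul, etaProd_mul_etaInv, map_one]

/-- `q h₂`, where `h₂ = q⁻¹ (η(q)/η(q²))²⁴`. -/
def H2 : PowerSeries ℤ := etaQuot 2 two_ne_zero ^ 24

/-- `q h₃`, where `h₃ = q⁻¹ (η(q)/η(q³))¹²`. -/
def H3 : PowerSeries ℤ := etaQuot 3 three_ne_zero ^ 12

/-- `q t₄`, where `t₄ = q⁻¹ (η(q)/η(q⁴))⁸`. -/
def T4 : PowerSeries ℤ := etaQuot 4 four_ne_zero ^ 8

/-- `q t₉`, where `t₉ = q⁻¹ (η(q)/η(q⁹))³`. -/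
def T9 : PowerSeries ℤ := etaQuot 9 (by norm_num) ^ 3

theorem constantCoeff_H2 : constantCoeff H2 = 1 := by
  rw [H2, map_pow, constantCoeff_etaQuot, one_pow]

theorem constantCoeff_H3 : constantCoeff H3 = 1 := by
  rw [H3, map_pow, constantCoeff_etaQuot, one_pow]

theorem constantCoeff_T4 : constantCoeff T4 = 1 := by
  rw [T4, map_pow, constantCoeff_etaQuot, one_pow]

theorem constantCoeff_T9 : constantCoeff T9 = 1 := by
  rw [T9, map_pow, constantCoeff_etaQuot, one_pow]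

theorem ne_zero_of_constantCoeff {s : PowerSeries ℤ} {c : ℤ} (h : constantCoeff s = c)
    (hc : c ≠ 0) : s ≠ 0 := fun h0 => by
  rw [h0, map_zero] at h
  exact hc h.symm

theorem expand_DeltaZ (d : ℕ) (hd : d ≠ 0) :
    PowerSeries.expand d hd DeltaZ = X ^ d * PowerSeries.expand d hd etaProd ^ 24 := by
  rw [DeltaZ, map_mul, map_pow, PowerSeries.expand_X]

theorem expand_DeltaZ_ne_zero (d : ℕ) (hd : d ≠ 0) : PowerSeries.expand d hd DeltaZ ≠ 0 := by
  rw [expand_DeltaZ]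
  refine mul_ne_zero (pow_ne_zero _ X_ne_zero) (pow_ne_zero _ ?_)
  exact ne_zero_of_constantCoeff
    (by rw [PowerSeries.constantCoeff_expand, constantCoeff_etaProd]) one_ne_zero

/-- `q Δ(q) = (q h₂) Δ(q²)`. -/
theorem X_mul_DeltaZ : X * DeltaZ = H2 * e₂ DeltaZ := by
  have h := expand_etaProd_mul_expand_etaInv 2 two_ne_zero
  rw [expand_DeltaZ, DeltaZ, H2, etaQuot]
  calc (X : PowerSeries ℤ) * (X * etaProd ^ 24) = X ^ 2 * etaProd ^ 24 * 1 ^ 24 := by ring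
    _ = X ^ 2 * etaProd ^ 24 * (e₂ etaProd * e₂ etaInv) ^ 24 := by rw [h]
    _ = _ := by ring

/-- `q² Δ(q) = (q h₃)² Δ(q³)`. -/
theorem X_sq_mul_DeltaZ : X ^ 2 * DeltaZ = H3 ^ 2 * e₃ DeltaZ := by
  have h := expand_etaProd_mul_expand_etaInv 3 three_ne_zero
  rw [expand_DeltaZ, DeltaZ, H3, etaQuot]
  calc (X : PowerSeries ℤ) ^ 2 * (X * etaProd ^ 24) = X ^ 3 * etaProd ^ 24 * 1 ^ 24 := by ring
    _ = X ^ 3 * etaProd ^ 24 * (e₃ etaProd * e₃ etaInv) ^ 24 := by rw [h]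
    _ = _ := by ring

/-- `q E₄³ = (q j) Δ`. -/
theorem X_mul_E4_cube : X * eisenstein4 ^ 3 = jNum * DeltaZ := by
  rw [jNum, dedekindEtaUnitInv_eq, DeltaZ]
  calc (X : PowerSeries ℤ) * eisenstein4 ^ 3 = X * eisenstein4 ^ 3 * 1 ^ 24 := by ring
    _ = X * eisenstein4 ^ 3 * (etaProd * etaInv) ^ 24 := by rw [etaProd_mul_etaInv]
    _ = _ := by ring

theorem expand_X_mul_E4_cube (d : ℕ) (hd : d ≠ 0) :
    X ^ d * PowerSeries.expand d hd eisenstein4 ^ 3 =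
      PowerSeries.expand d hd jNum * PowerSeries.expand d hd DeltaZ := by
  have h := congrArg (PowerSeries.expand d hd) X_mul_E4_cube
  rwa [map_mul, map_mul, map_pow, PowerSeries.expand_X] at h

/-! ### Abstract algebra behind levels 2 and 3 -/

theorem aux2a {R : Type*} [CommRing R] (J E D D2 H x : R) (F1 : x * D = H * D2)
    (F2 : x * E = J * D) (S : E * D * D2 = (D + 256 * D2) ^ 3) :
    J * H ^ 2 * D2 ^ 3 = (H + 256 * x) ^ 3 * D2 ^ 3 := by
  calc J * H ^ 2 * D2 ^ 3 = J * (H * D2) ^ 2 * D2 := by ring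
    _ = J * (x * D) ^ 2 * D2 := by rw [F1]
    _ = x ^ 2 * (J * D) * D * D2 := by ring
    _ = x ^ 2 * (x * E) * D * D2 := by rw [F2]
    _ = x ^ 3 * (E * D * D2) := by ring
    _ = x ^ 3 * (D + 256 * D2) ^ 3 := by rw [S]
    _ = (x * D + 256 * x * D2) ^ 3 := by ring
    _ = (H * D2 + 256 * x * D2) ^ 3 := by rw [F1]
    _ = (H + 256 * x) ^ 3 * D2 ^ 3 := by ring

theorem aux2b {R : Type*} [CommRing R] (J2 E2 D D2 H x : R) (F1 : x * D = H * D2)
    (F3 : x ^ 2 * E2 = J2 * D2) (S : E2 * D * D2 = (D + 16 * D2) ^ 3) :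
    J2 * H * D2 ^ 3 = (H + 16 * x) ^ 3 * D2 ^ 3 := by
  calc J2 * H * D2 ^ 3 = (J2 * D2) * (H * D2) * D2 := by ring
    _ = (x ^ 2 * E2) * (x * D) * D2 := by rw [F1, F3]
    _ = x ^ 3 * (E2 * D * D2) := by ring
    _ = x ^ 3 * (D + 16 * D2) ^ 3 := by rw [S]
    _ = (x * D + 16 * x * D2) ^ 3 := by ring
    _ = (H * D2 + 16 * x * D2) ^ 3 := by rw [F1]
    _ = (H + 16 * x) ^ 3 * D2 ^ 3 := by ring

theorem aux3a {R : Type*} [CommRing R] (J E D D3 H x : R) (F4 : x ^ 2 * D = H ^ 2 * D3)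
    (F2 : x * E = J * D)
    (S : (D ^ 2 + 196830 * (D * D3) + 387420489 * D3 ^ 2) ^ 2 =
      D * D3 * (E - 756 * D - 19131876 * D3) ^ 2) :
    (H ^ 4 + 196830 * x ^ 2 * H ^ 2 + 387420489 * x ^ 4) ^ 2 * D3 ^ 4 =
      (H * (J * H ^ 2 - 756 * x * H ^ 2 - 19131876 * x ^ 3)) ^ 2 * D3 ^ 4 := by
  calc (H ^ 4 + 196830 * x ^ 2 * H ^ 2 + 387420489 * x ^ 4) ^ 2 * D3 ^ 4
      = ((H ^ 2 * D3) ^ 2 + 196830 * x ^ 2 * (H ^ 2 * D3) * D3 + 387420489 * x ^ 4 * D3 ^ 2) ^ 2 := by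
        ring
    _ = ((x ^ 2 * D) ^ 2 + 196830 * x ^ 2 * (x ^ 2 * D) * D3 + 387420489 * x ^ 4 * D3 ^ 2) ^ 2 := by
        rw [F4]
    _ = x ^ 8 * (D ^ 2 + 196830 * (D * D3) + 387420489 * D3 ^ 2) ^ 2 := by ring
    _ = x ^ 8 * (D * D3 * (E - 756 * D - 19131876 * D3) ^ 2) := by rw [S]
    _ = (x ^ 2 * D) * D3 * x ^ 4 * (x * E - 756 * x * D - 19131876 * x * D3) ^ 2 := by ring
    _ = (x ^ 2 * D) * D3 * x ^ 4 * (J * D - 756 * x * D - 19131876 * x * D3) ^ 2 := by rw [F2]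
    _ = (x ^ 2 * D) * D3 * (J * (x ^ 2 * D) - 756 * x * (x ^ 2 * D) - 19131876 * x ^ 3 * D3) ^ 2 := by
        ring
    _ = (H ^ 2 * D3) * D3 * (J * (H ^ 2 * D3) - 756 * x * (H ^ 2 * D3) - 19131876 * x ^ 3 * D3) ^ 2 := by
        rw [F4]
    _ = (H * (J * H ^ 2 - 756 * x * H ^ 2 - 19131876 * x ^ 3)) ^ 2 * D3 ^ 4 := by ring

theorem aux3b {R : Type*} [CommRing R] (J3 E3 D D3 H x : R) (F4 : x ^ 2 * D = H ^ 2 * D3)
    (F5 : x ^ 3 * E3 = J3 * D3)
    (S : (D ^ 2 + 270 * (D * D3) + 729 * D3 ^ 2) ^ 2 =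
      D * D3 * (E3 - 36 * D - 756 * D3) ^ 2) :
    (H ^ 4 + 270 * x ^ 2 * H ^ 2 + 729 * x ^ 4) ^ 2 * D3 ^ 4 =
      (H * (J3 - 36 * x * H ^ 2 - 756 * x ^ 3)) ^ 2 * D3 ^ 4 := by
  calc (H ^ 4 + 270 * x ^ 2 * H ^ 2 + 729 * x ^ 4) ^ 2 * D3 ^ 4
      = ((H ^ 2 * D3) ^ 2 + 270 * x ^ 2 * (H ^ 2 * D3) * D3 + 729 * x ^ 4 * D3 ^ 2) ^ 2 := by
        ring
    _ = ((x ^ 2 * D) ^ 2 + 270 * x ^ 2 * (x ^ 2 * D) * D3 + 729 * x ^ 4 * D3 ^ 2) ^ 2 := by
        rw [F4]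
    _ = x ^ 8 * (D ^ 2 + 270 * (D * D3) + 729 * D3 ^ 2) ^ 2 := by ring
    _ = x ^ 8 * (D * D3 * (E3 - 36 * D - 756 * D3) ^ 2) := by rw [S]
    _ = (x ^ 2 * D) * D3 * (x ^ 3 * E3 - 36 * x * (x ^ 2 * D) - 756 * x ^ 3 * D3) ^ 2 := by ring
    _ = (H ^ 2 * D3) * D3 * (J3 * D3 - 36 * x * (H ^ 2 * D3) - 756 * x ^ 3 * D3) ^ 2 := by
        rw [F4, F5]
    _ = (H * (J3 - 36 * x * H ^ 2 - 756 * x ^ 3)) ^ 2 * D3 ^ 4 := by ring

/-- Square roots with constant coefficient `1` are unique. -/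
theorem eq_of_sq_eq {a b : PowerSeries ℤ} (h : a ^ 2 = b ^ 2) (ha : constantCoeff a = 1)
    (hb : constantCoeff b = 1) : a = b := by
  have h1 : (a - b) * (a + b) = 0 := by linear_combination h
  rcases mul_eq_zero.mp h1 with h2 | h2
  · exact sub_eq_zero.mp h2
  · exact absurd h2 (ne_zero_of_constantCoeff (c := 2) (by rw [map_add, ha, hb]; rfl) two_ne_zero)

/-- Cube roots with constant coefficient `1` are unique. -/
theorem eq_of_cube_eq {a b : PowerSeries ℤ} (h : a ^ 3 = b ^ 3) (ha : constantCoeff a = 1)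
    (hb : constantCoeff b = 1) : a = b := by
  have h1 : (a - b) * (a ^ 2 + a * b + b ^ 2) = 0 := by linear_combination h
  rcases mul_eq_zero.mp h1 with h2 | h2
  · exact sub_eq_zero.mp h2
  · exact absurd h2 (ne_zero_of_constantCoeff (c := 3)
      (by rw [map_add, map_add, map_pow, map_pow, map_mul, ha, hb]; rfl) three_ne_zero)

/-! ### Levels 2 and 3 -/

/-- `(q j) (q h₂)² = (q h₂ + 256 q)³`. -/
theorem ps2a : jNum * H2 ^ 2 = (H2 + 256 * X) ^ 3 :=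
  mul_right_cancel₀ (pow_ne_zero 3 (expand_DeltaZ_ne_zero 2 two_ne_zero))
    (aux2a jNum (eisenstein4 ^ 3) DeltaZ (e₂ DeltaZ) H2 X X_mul_DeltaZ X_mul_E4_cube sturm2a)

/-- `(q² j(q²)) (q h₂) = (q h₂ + 16 q)³`. -/
theorem ps2b : e₂ jNum * H2 = (H2 + 16 * X) ^ 3 :=
  mul_right_cancel₀ (pow_ne_zero 3 (expand_DeltaZ_ne_zero 2 two_ne_zero))
    (aux2b (e₂ jNum) (e₂ eisenstein4 ^ 3) DeltaZ (e₂ DeltaZ) H2 X X_mul_DeltaZ
      (expand_X_mul_E4_cube 2 two_ne_zero) sturm2b)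

/-- `(q j) (q h₃)³ = (q h₃ + 27 q) (q h₃ + 243 q)³`. -/
theorem ps3a : jNum * H3 ^ 3 = (H3 + 27 * X) * (H3 + 243 * X) ^ 3 := by
  have h := mul_right_cancel₀ (pow_ne_zero 4 (expand_DeltaZ_ne_zero 3 three_ne_zero))
    (aux3a jNum (eisenstein4 ^ 3) DeltaZ (e₃ DeltaZ) H3 X X_sq_mul_DeltaZ X_mul_E4_cube sturm3a)
  have h' := eq_of_sq_eq h
    (by simp [constantCoeff_H3])
    (by simp [constantCoeff_H3])
  linear_combination -h'

/-- `(q³ j(q³)) (q h₃) = (q h₃ + 27 q) (q h₃ + 3 q)³`. -/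
theorem ps3b : e₃ jNum * H3 = (H3 + 27 * X) * (H3 + 3 * X) ^ 3 := by
  have h := mul_right_cancel₀ (pow_ne_zero 4 (expand_DeltaZ_ne_zero 3 three_ne_zero))
    (aux3b (e₃ jNum) (e₃ eisenstein4 ^ 3) DeltaZ (e₃ DeltaZ) H3 X X_sq_mul_DeltaZ
      (expand_X_mul_E4_cube 3 three_ne_zero) sturm3b)
  have h' := eq_of_sq_eq h
    (by simp [constantCoeff_H3])
    (by simp [constantCoeff_H3])
  linear_combination -h'

/-! ### Level 4 -/

theorem nine_ne : (9 : ℕ) ≠ 0 := by norm_num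

local notation "e₄" => PowerSeries.expand 4 four_ne_zero
local notation "e₉" => PowerSeries.expand 9 nine_ne

theorem expand_two_two (φ : PowerSeries ℤ) : e₂ (e₂ φ) = e₄ φ :=
  (PowerSeries.expand_mul 2 two_ne_zero 2 two_ne_zero φ).symm

theorem expand_three_three (φ : PowerSeries ℤ) : e₃ (e₃ φ) = e₉ φ :=
  (PowerSeries.expand_mul 3 three_ne_zero 3 three_ne_zero φ).symm

/-- `(q t₄)³ = (q h₂) (q² h₂(q²))`. -/
theorem T4_cube : T4 ^ 3 = H2 * e₂ H2 := by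
  have h := expand_etaProd_mul_expand_etaInv 2 two_ne_zero
  rw [T4, H2, etaQuot, etaQuot, map_pow, map_mul, expand_two_two]
  calc ((etaProd * e₄ etaInv) ^ 8) ^ 3 = (etaProd * e₄ etaInv) ^ 24 * 1 ^ 24 := by ring
    _ = (etaProd * e₄ etaInv) ^ 24 * (e₂ etaProd * e₂ etaInv) ^ 24 := by rw [h]
    _ = _ := by ring

theorem expand_ps2a : e₂ jNum * e₂ H2 ^ 2 = (e₂ H2 + 256 * X ^ 2) ^ 3 := by
  have h := congrArg e₂ ps2a
  simpa only [map_mul, map_pow, map_add, PowerSeries.expand_X, map_ofNat] using h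

theorem expand_ps2b : e₄ jNum * e₂ H2 = (e₂ H2 + 16 * X ^ 2) ^ 3 := by
  have h := congrArg e₂ ps2b
  simpa only [map_mul, map_pow, map_add, PowerSeries.expand_X, map_ofNat, expand_two_two] using h

theorem ps4_aux : (H2 + 16 * X) * e₂ H2 = T4 * (e₂ H2 + 256 * X ^ 2) := by
  refine eq_of_cube_eq ?_ ?_ ?_
  · calc ((H2 + 16 * X) * e₂ H2) ^ 3 = (H2 + 16 * X) ^ 3 * e₂ H2 ^ 3 := by ring
      _ = (e₂ jNum * H2) * e₂ H2 ^ 3 := by rw [ps2b]
      _ = (e₂ jNum * e₂ H2 ^ 2) * (H2 * e₂ H2) := by ring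
      _ = (e₂ H2 + 256 * X ^ 2) ^ 3 * T4 ^ 3 := by rw [expand_ps2a, T4_cube]
      _ = (T4 * (e₂ H2 + 256 * X ^ 2)) ^ 3 := by ring
  · simp [constantCoeff_H2]
  · simp [constantCoeff_H2, constantCoeff_T4]

/-- `h₂(q²) = t₄ (t₄ + 16)` (power series form). -/
theorem expand_H2_eq : e₂ H2 = T4 * (T4 + 16 * X) := by
  have h1 : (T4 - 16 * X) * (e₂ H2 - T4 * (T4 + 16 * X)) = 0 := by
    linear_combination (-1 : PowerSeries ℤ) * ps4_aux - T4_cube
  rcases mul_eq_zero.mp h1 with h2 | h2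
  · exact absurd h2 (ne_zero_of_constantCoeff (c := 1) (by simp [constantCoeff_T4]) one_ne_zero)
  · exact sub_eq_zero.mp h2

/-- `h₂ (t₄ + 16) = t₄²` (power series form). -/
theorem H2_mul_eq : H2 * (T4 + 16 * X) = T4 ^ 2 := by
  have h1 : T4 * (H2 * (T4 + 16 * X) - T4 ^ 2) = 0 := by
    linear_combination (-H2) * expand_H2_eq - T4_cube
  rcases mul_eq_zero.mp h1 with h2 | h2
  · exact absurd h2 (ne_zero_of_constantCoeff constantCoeff_T4 one_ne_zero)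
  · exact sub_eq_zero.mp h2

theorem ps4a : jNum * T4 ^ 4 * (T4 + 16 * X) = (T4 ^ 2 + 256 * X * T4 + 4096 * X ^ 2) ^ 3 := by
  calc jNum * T4 ^ 4 * (T4 + 16 * X) = jNum * (T4 ^ 2) ^ 2 * (T4 + 16 * X) := by ring
    _ = jNum * (H2 * (T4 + 16 * X)) ^ 2 * (T4 + 16 * X) := by rw [H2_mul_eq]
    _ = (jNum * H2 ^ 2) * (T4 + 16 * X) ^ 3 := by ring
    _ = (H2 + 256 * X) ^ 3 * (T4 + 16 * X) ^ 3 := by rw [ps2a]
    _ = (H2 * (T4 + 16 * X) + 256 * X * (T4 + 16 * X)) ^ 3 := by ring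
    _ = (T4 ^ 2 + 256 * X * (T4 + 16 * X)) ^ 3 := by rw [H2_mul_eq]
    _ = _ := by ring

theorem ps4b :
    e₂ jNum * T4 ^ 2 * (T4 + 16 * X) ^ 2 = (T4 ^ 2 + 16 * X * T4 + 256 * X ^ 2) ^ 3 := by
  calc e₂ jNum * T4 ^ 2 * (T4 + 16 * X) ^ 2
      = e₂ jNum * (H2 * (T4 + 16 * X)) * (T4 + 16 * X) ^ 2 := by rw [H2_mul_eq]
    _ = (e₂ jNum * H2) * (T4 + 16 * X) ^ 3 := by ring
    _ = (H2 + 16 * X) ^ 3 * (T4 + 16 * X) ^ 3 := by rw [ps2b]
    _ = (H2 * (T4 + 16 * X) + 16 * X * (T4 + 16 * X)) ^ 3 := by ring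
    _ = (T4 ^ 2 + 16 * X * (T4 + 16 * X)) ^ 3 := by rw [H2_mul_eq]
    _ = _ := by ring

theorem ps4c : e₄ jNum * T4 * (T4 + 16 * X) = (T4 ^ 2 + 16 * X * T4 + 16 * X ^ 2) ^ 3 := by
  calc e₄ jNum * T4 * (T4 + 16 * X) = e₄ jNum * (T4 * (T4 + 16 * X)) := by ring
    _ = e₄ jNum * e₂ H2 := by rw [expand_H2_eq]
    _ = (e₂ H2 + 16 * X ^ 2) ^ 3 := expand_ps2b
    _ = (T4 * (T4 + 16 * X) + 16 * X ^ 2) ^ 3 := by rw [expand_H2_eq]
    _ = _ := by ring

/-! ### Level 9 -/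

/-- `(q t₉)⁴ = (q h₃) (q³ h₃(q³))`. -/
theorem T9_pow_four : T9 ^ 4 = H3 * e₃ H3 := by
  have h := expand_etaProd_mul_expand_etaInv 3 three_ne_zero
  rw [T9, H3, etaQuot, etaQuot, map_pow, map_mul, expand_three_three]
  calc ((etaProd * e₉ etaInv) ^ 3) ^ 4 = (etaProd * e₉ etaInv) ^ 12 * 1 ^ 12 := by ring
    _ = (etaProd * e₉ etaInv) ^ 12 * (e₃ etaProd * e₃ etaInv) ^ 12 := by rw [h]
    _ = _ := by ring

theorem expand_ps3a :
    e₃ jNum * e₃ H3 ^ 3 = (e₃ H3 + 27 * X ^ 3) * (e₃ H3 + 243 * X ^ 3) ^ 3 := by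
  have h := congrArg e₃ ps3a
  simpa only [map_mul, map_pow, map_add, PowerSeries.expand_X, map_ofNat] using h

theorem expand_ps3b :
    e₉ jNum * e₃ H3 = (e₃ H3 + 27 * X ^ 3) * (e₃ H3 + 3 * X ^ 3) ^ 3 := by
  have h := congrArg e₃ ps3b
  simpa only [map_mul, map_pow, map_add, PowerSeries.expand_X, map_ofNat, expand_three_three]
    using h

/-- The cofactor in the level `9` elimination. -/
def psi9 {R : Type*} [CommRing R] (T H x : R) : R :=
  -T^13 + 9*T^12*x - 54*T^11*x^2 - T^10*H + 243*T^10*x^3 - 18*T^9*H*x - 729*T^9*x^4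
    + 135*T^8*H*x^2 - T^7*H^2 - 486*T^7*H*x^3 + 19683*T^7*x^6 - 9*T^6*H^2*x - 177147*T^6*x^7
    - 27*T^5*H^2*x^2 + 13122*T^5*H*x^5 + 1062882*T^5*x^8 - T^4*H^3 - 98415*T^4*H*x^6
    - 4782969*T^4*x^9 + 729*T^3*H^2*x^4 + 354294*T^3*H*x^7 + 14348907*T^3*x^10
    + 6561*T^2*H^2*x^5 + 531441*T^2*H*x^8 + 19683*T*H^2*x^6 + 729*H^3*x^4

theorem psi9_spec {R : Type*} [CommRing R] (T H x : R) :
    (T ^ 4 + 27 * x * H) * (T ^ 4 + 3 * x * H) ^ 3
        - T ^ 4 * (H + 27 * x ^ 3) * (H + 243 * x ^ 3) ^ 3 =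
      (H - T * (T ^ 2 + 9 * x * T + 27 * x ^ 2)) * psi9 T H x := by
  unfold psi9
  ring

theorem ps9_aux :
    (T9 ^ 4 + 27 * X * e₃ H3) * (T9 ^ 4 + 3 * X * e₃ H3) ^ 3 =
      T9 ^ 4 * (e₃ H3 + 27 * X ^ 3) * (e₃ H3 + 243 * X ^ 3) ^ 3 := by
  calc (T9 ^ 4 + 27 * X * e₃ H3) * (T9 ^ 4 + 3 * X * e₃ H3) ^ 3
      = (H3 * e₃ H3 + 27 * X * e₃ H3) * (H3 * e₃ H3 + 3 * X * e₃ H3) ^ 3 := by rw [T9_pow_four]
    _ = e₃ H3 ^ 4 * ((H3 + 27 * X) * (H3 + 3 * X) ^ 3) := by ring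
    _ = e₃ H3 ^ 4 * (e₃ jNum * H3) := by rw [ps3b]
    _ = (e₃ jNum * e₃ H3 ^ 3) * (H3 * e₃ H3) := by ring
    _ = ((e₃ H3 + 27 * X ^ 3) * (e₃ H3 + 243 * X ^ 3) ^ 3) * T9 ^ 4 := by
        rw [expand_ps3a, T9_pow_four]
    _ = _ := by ring

/-- `h₃(q³) = t₉ (t₉² + 9 t₉ + 27)` (power series form). -/
theorem expand_H3_eq : e₃ H3 = T9 * (T9 ^ 2 + 9 * X * T9 + 27 * X ^ 2) := by
  have h1 : (e₃ H3 - T9 * (T9 ^ 2 + 9 * X * T9 + 27 * X ^ 2)) * psi9 T9 (e₃ H3) X = 0 := by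
    rw [← psi9_spec, ps9_aux, sub_self]
  rcases mul_eq_zero.mp h1 with h2 | h2
  · exact sub_eq_zero.mp h2
  · refine absurd h2 (ne_zero_of_constantCoeff (c := -4) ?_ (by norm_num))
    simp [psi9, constantCoeff_T9, constantCoeff_H3]

/-- `h₃ (t₉² + 9 t₉ + 27) = t₉³` (power series form). -/
theorem H3_mul_eq : H3 * (T9 ^ 2 + 9 * X * T9 + 27 * X ^ 2) = T9 ^ 3 := by
  have h1 : T9 * (H3 * (T9 ^ 2 + 9 * X * T9 + 27 * X ^ 2) - T9 ^ 3) = 0 := by
    linear_combination (-H3) * expand_H3_eq - T9_pow_four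
  rcases mul_eq_zero.mp h1 with h2 | h2
  · exact absurd h2 (ne_zero_of_constantCoeff constantCoeff_T9 one_ne_zero)
  · exact sub_eq_zero.mp h2

theorem ps9a :
    jNum * T9 ^ 9 * (T9 ^ 2 + 9 * X * T9 + 27 * X ^ 2) =
      (T9 + 9 * X) ^ 3 * (T9 ^ 3 + 243 * X * T9 ^ 2 + 2187 * X ^ 2 * T9 + 6561 * X ^ 3) ^ 3 := by
  calc jNum * T9 ^ 9 * (T9 ^ 2 + 9 * X * T9 + 27 * X ^ 2)
      = jNum * (T9 ^ 3) ^ 3 * (T9 ^ 2 + 9 * X * T9 + 27 * X ^ 2) := by ring
    _ = jNum * (H3 * (T9 ^ 2 + 9 * X * T9 + 27 * X ^ 2)) ^ 3 *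
          (T9 ^ 2 + 9 * X * T9 + 27 * X ^ 2) := by rw [H3_mul_eq]
    _ = (jNum * H3 ^ 3) * (T9 ^ 2 + 9 * X * T9 + 27 * X ^ 2) ^ 4 := by ring
    _ = ((H3 + 27 * X) * (H3 + 243 * X) ^ 3) * (T9 ^ 2 + 9 * X * T9 + 27 * X ^ 2) ^ 4 := by
        rw [ps3a]
    _ = (H3 * (T9 ^ 2 + 9 * X * T9 + 27 * X ^ 2) + 27 * X * (T9 ^ 2 + 9 * X * T9 + 27 * X ^ 2)) *
          (H3 * (T9 ^ 2 + 9 * X * T9 + 27 * X ^ 2) +
            243 * X * (T9 ^ 2 + 9 * X * T9 + 27 * X ^ 2)) ^ 3 := by ring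
    _ = (T9 ^ 3 + 27 * X * (T9 ^ 2 + 9 * X * T9 + 27 * X ^ 2)) *
          (T9 ^ 3 + 243 * X * (T9 ^ 2 + 9 * X * T9 + 27 * X ^ 2)) ^ 3 := by rw [H3_mul_eq]
    _ = _ := by ring

theorem ps9b :
    e₃ jNum * T9 ^ 3 * (T9 ^ 2 + 9 * X * T9 + 27 * X ^ 2) ^ 3 =
      (T9 + 9 * X) ^ 3 * (T9 ^ 3 + 3 * X * T9 ^ 2 + 27 * X ^ 2 * T9 + 81 * X ^ 3) ^ 3 := by
  calc e₃ jNum * T9 ^ 3 * (T9 ^ 2 + 9 * X * T9 + 27 * X ^ 2) ^ 3
      = e₃ jNum * (H3 * (T9 ^ 2 + 9 * X * T9 + 27 * X ^ 2)) *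
          (T9 ^ 2 + 9 * X * T9 + 27 * X ^ 2) ^ 3 := by rw [H3_mul_eq]
    _ = (e₃ jNum * H3) * (T9 ^ 2 + 9 * X * T9 + 27 * X ^ 2) ^ 4 := by ring
    _ = ((H3 + 27 * X) * (H3 + 3 * X) ^ 3) * (T9 ^ 2 + 9 * X * T9 + 27 * X ^ 2) ^ 4 := by
        rw [ps3b]
    _ = (H3 * (T9 ^ 2 + 9 * X * T9 + 27 * X ^ 2) + 27 * X * (T9 ^ 2 + 9 * X * T9 + 27 * X ^ 2)) *
          (H3 * (T9 ^ 2 + 9 * X * T9 + 27 * X ^ 2) +
            3 * X * (T9 ^ 2 + 9 * X * T9 + 27 * X ^ 2)) ^ 3 := by ring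
    _ = (T9 ^ 3 + 27 * X * (T9 ^ 2 + 9 * X * T9 + 27 * X ^ 2)) *
          (T9 ^ 3 + 3 * X * (T9 ^ 2 + 9 * X * T9 + 27 * X ^ 2)) ^ 3 := by rw [H3_mul_eq]
    _ = _ := by ring

theorem ps9c :
    e₉ jNum * T9 * (T9 ^ 2 + 9 * X * T9 + 27 * X ^ 2) =
      (T9 + 3 * X) ^ 3 * (T9 ^ 3 + 9 * X * T9 ^ 2 + 27 * X ^ 2 * T9 + 3 * X ^ 3) ^ 3 := by
  calc e₉ jNum * T9 * (T9 ^ 2 + 9 * X * T9 + 27 * X ^ 2)
      = e₉ jNum * (T9 * (T9 ^ 2 + 9 * X * T9 + 27 * X ^ 2)) := by ring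
    _ = e₉ jNum * e₃ H3 := by rw [expand_H3_eq]
    _ = (e₃ H3 + 27 * X ^ 3) * (e₃ H3 + 3 * X ^ 3) ^ 3 := expand_ps3b
    _ = (T9 * (T9 ^ 2 + 9 * X * T9 + 27 * X ^ 2) + 27 * X ^ 3) *
          (T9 * (T9 ^ 2 + 9 * X * T9 + 27 * X ^ 2) + 3 * X ^ 3) ^ 3 := by rw [expand_H3_eq]
    _ = _ := by ring

/-! ## Laurent series level -/

section Laurent

variable (R : Type*) [CommRing R]

/-- An integral power series as a Laurent series over `R`. -/
def toL : PowerSeries ℤ →+* LaurentSeries R :=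
  (HahnSeries.ofPowerSeries ℤ R).comp (PowerSeries.map (Int.castRingHom R))

/-- The variable `q`. -/
def qv : LaurentSeries R := HahnSeries.single 1 1

/-- `q⁻¹ s` for an integral power series `s`. -/
def lau (s : PowerSeries ℤ) : LaurentSeries R := HahnSeries.single (-1) 1 * toL R s

theorem toL_apply (s : PowerSeries ℤ) :
    toL R s = HahnSeries.ofPowerSeries ℤ R (s.map (Int.castRingHom R)) := rfl

theorem toL_X : toL R X = qv R := by
  rw [toL_apply, PowerSeries.map_X, HahnSeries.ofPowerSeries_X, qv]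

theorem qv_mul_single : qv R * HahnSeries.single (-1) 1 = 1 := by
  rw [qv, HahnSeries.single_mul_single]
  simp

theorem toL_eq (s : PowerSeries ℤ) : toL R s = qv R * lau R s := by
  rw [lau, ← mul_assoc, qv_mul_single, one_mul]

theorem qv_pow_cancel (n : ℕ) {a b : LaurentSeries R} (h : qv R ^ n * a = qv R ^ n * b) :
    a = b :=
  ((IsUnit.of_mul_eq_one _ (qv_mul_single R)).pow n).mul_left_cancel h

theorem jqModC_eq_lau : jqModC R = lau R jNum := rfl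

theorem toL_jNum : toL R jNum = qv R * jqModC R := toL_eq R jNum

theorem qExpand_ofPowerSeries (d : ℕ) [NeZero d] (s : PowerSeries R) :
    qExpand R d (HahnSeries.ofPowerSeries ℤ R s) =
      HahnSeries.ofPowerSeries ℤ R (PowerSeries.expand d (NeZero.ne d) s) := by
  ext k
  by_cases hk : (d : ℤ) ∣ k
  · obtain ⟨k', rfl⟩ := hk
    rw [qExpand_coeff_mul]
    rcases le_or_gt 0 k' with h | h
    · lift k' to ℕ using h
      rw [show (d : ℤ) * (k' : ℤ) = ((d * k' : ℕ) : ℤ) by push_cast; rfl,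
        HahnSeries.ofPowerSeries_apply_coeff, HahnSeries.ofPowerSeries_apply_coeff,
        PowerSeries.coeff_expand_mul]
    · have hd : (0 : ℤ) < d := by exact_mod_cast Nat.pos_of_ne_zero (NeZero.ne d)
      rw [ofPowerSeries_coeff_of_neg _ h, ofPowerSeries_coeff_of_neg _ (by nlinarith)]
  · rw [qExpand_coeff_of_not_dvd d _ hk]
    rcases le_or_gt 0 k with h | h
    · lift k to ℕ using h
      rw [HahnSeries.ofPowerSeries_apply_coeff, PowerSeries.coeff_expand_of_not_dvd]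
      exact fun h' => hk (Int.natCast_dvd_natCast.mpr h')
    · rw [ofPowerSeries_coeff_of_neg _ h]

theorem qExpand_toL (d : ℕ) [NeZero d] (s : PowerSeries ℤ) :
    qExpand R d (toL R s) = toL R (PowerSeries.expand d (NeZero.ne d) s) := by
  rw [toL_apply, toL_apply, qExpand_ofPowerSeries, PowerSeries.map_expand]

theorem qExpand_lau (d : ℕ) [NeZero d] (hd : d ≠ 0) (s : PowerSeries ℤ) :
    toL R (PowerSeries.expand d hd s) = qv R ^ d * qExpand R d (lau R s) := by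
  rw [lau, map_mul, qExpand_single, qExpand_toL, ← mul_assoc, qv, HahnSeries.single_pow,
    HahnSeries.single_mul_single]
  simp

theorem coeffMap_toL {S : Type*} [CommRing S] (f : R →+* S) (s : PowerSeries ℤ) :
    coeffMap f (toL R s) = toL S s := by
  rw [toL_apply, toL_apply, coeffMap_ofPowerSeries,
    ← RingHom.comp_apply (PowerSeries.map f) (PowerSeries.map (Int.castRingHom R)),
    ← PowerSeries.map_comp, RingHom.ext_int (f.comp (Int.castRingHom R)) (Int.castRingHom S)]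

theorem coeffMap_lau {S : Type*} [CommRing S] (f : R →+* S) (s : PowerSeries ℤ) :
    coeffMap f (lau R s) = lau S s := by
  rw [lau, map_mul, coeffMap_single, map_one, coeffMap_toL, lau]

theorem coeff_lau (s : PowerSeries ℤ) (k : ℤ) : (lau R s).coeff k = (toL R s).coeff (k + 1) := by
  have h := HahnSeries.coeff_single_mul_add (r := (1 : R)) (x := toL R s) (a := k + 1) (b := -1)
  rw [one_mul, add_neg_cancel_right] at h
  exact h

theorem coeff_lau_natCast_sub_one (s : PowerSeries ℤ) (n : ℕ) :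
    (lau R s).coeff ((n : ℤ) - 1) = ((PowerSeries.coeff n s : ℤ) : R) := by
  rw [coeff_lau, sub_add_cancel, toL_apply, HahnSeries.ofPowerSeries_apply_coeff,
    PowerSeries.coeff_map]
  rfl

theorem coeff_lau_neg_one (s : PowerSeries ℤ) :
    (lau R s).coeff (-1) = ((constantCoeff s : ℤ) : R) := by
  have h := coeff_lau_natCast_sub_one R s 0
  rwa [Nat.cast_zero, zero_sub, PowerSeries.coeff_zero_eq_constantCoeff] at h

theorem coeff_lau_of_lt (s : PowerSeries ℤ) {k : ℤ} (hk : k < -1) : (lau R s).coeff k = 0 := by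
  rw [coeff_lau, toL_apply, ofPowerSeries_coeff_of_neg _ (by omega)]

/-- `h₂ = q⁻¹ (η(q)/η(q²))²⁴` with coefficients in `R`. -/
def h2C : LaurentSeries R := lau R H2

/-- `h₃ = q⁻¹ (η(q)/η(q³))¹²` with coefficients in `R`. -/
def h3C : LaurentSeries R := lau R H3

/-- `t₄ = q⁻¹ (η(q)/η(q⁴))⁸` with coefficients in `R`. -/
def t4C : LaurentSeries R := lau R T4

/-- `t₉ = q⁻¹ (η(q)/η(q⁹))³` with coefficients in `R`. -/
def t9C : LaurentSeries R := lau R T9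

theorem toL_H2 : toL R H2 = qv R * h2C R := toL_eq R H2
theorem toL_H3 : toL R H3 = qv R * h3C R := toL_eq R H3
theorem toL_T4 : toL R T4 = qv R * t4C R := toL_eq R T4
theorem toL_T9 : toL R T9 = qv R * t9C R := toL_eq R T9

theorem toL_expand_jNum (d : ℕ) [NeZero d] (hd : d ≠ 0) :
    toL R (PowerSeries.expand d hd jNum) = qv R ^ d * qExpand R d (jqModC R) :=
  qExpand_lau R d hd jNum

theorem toL_expand_H2 : toL R (e₂ H2) = qv R ^ 2 * qExpand R 2 (h2C R) :=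
  qExpand_lau R 2 two_ne_zero H2

theorem toL_expand_H3 : toL R (e₃ H3) = qv R ^ 3 * qExpand R 3 (h3C R) :=
  qExpand_lau R 3 three_ne_zero H3

variable {R} in
theorem coeffMap_h2C {S : Type*} [CommRing S] (f : R →+* S) : coeffMap f (h2C R) = h2C S :=
  coeffMap_lau R f H2

variable {R} in
theorem coeffMap_h3C {S : Type*} [CommRing S] (f : R →+* S) : coeffMap f (h3C R) = h3C S :=
  coeffMap_lau R f H3

variable {R} in
theorem coeffMap_t4C {S : Type*} [CommRing S] (f : R →+* S) : coeffMap f (t4C R) = t4C S :=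
  coeffMap_lau R f T4

variable {R} in
theorem coeffMap_t9C {S : Type*} [CommRing S] (f : R →+* S) : coeffMap f (t9C R) = t9C S :=
  coeffMap_lau R f T9

/-! ### The identities -/

/-- `j h₂² = (h₂ + 256)³`. -/
theorem h2C_j1 : jqModC R * h2C R ^ 2 = (h2C R + 256) ^ 3 := by
  have h := congrArg (toL R) ps2a
  simp only [map_mul, map_pow, map_add, map_ofNat, toL_X, toL_jNum, toL_H2] at h
  exact qv_pow_cancel R 3 (by linear_combination h)

/-- `j(q²) h₂ = (h₂ + 16)³`. -/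
theorem h2C_j2 : qExpand R 2 (jqModC R) * h2C R = (h2C R + 16) ^ 3 := by
  have h := congrArg (toL R) ps2b
  simp only [map_mul, map_pow, map_add, map_ofNat, toL_X, toL_expand_jNum, toL_H2] at h
  exact qv_pow_cancel R 3 (by linear_combination h)

/-- `j h₃³ = (h₃ + 27) (h₃ + 243)³`. -/
theorem h3C_j1 : jqModC R * h3C R ^ 3 = (h3C R + 27) * (h3C R + 243) ^ 3 := by
  have h := congrArg (toL R) ps3a
  simp only [map_mul, map_pow, map_add, map_ofNat, toL_X, toL_jNum, toL_H3] at h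
  exact qv_pow_cancel R 4 (by linear_combination h)

/-- `j(q³) h₃ = (h₃ + 27) (h₃ + 3)³`. -/
theorem h3C_j3 : qExpand R 3 (jqModC R) * h3C R = (h3C R + 27) * (h3C R + 3) ^ 3 := by
  have h := congrArg (toL R) ps3b
  simp only [map_mul, map_pow, map_add, map_ofNat, toL_X, toL_expand_jNum, toL_H3] at h
  exact qv_pow_cancel R 4 (by linear_combination h)

/-- `h₂(q²) = t₄ (t₄ + 16)`. -/
theorem t4C_h2_expand : qExpand R 2 (h2C R) = t4C R * (t4C R + 16) := by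
  have h := congrArg (toL R) expand_H2_eq
  simp only [map_mul, map_add, map_ofNat, toL_X, toL_expand_H2, toL_T4] at h
  exact qv_pow_cancel R 2 (by linear_combination h)

/-- `h₂ (t₄ + 16) = t₄²`. -/
theorem t4C_h2 : h2C R * (t4C R + 16) = t4C R ^ 2 := by
  have h := congrArg (toL R) H2_mul_eq
  simp only [map_mul, map_pow, map_add, map_ofNat, toL_X, toL_H2, toL_T4] at h
  exact qv_pow_cancel R 2 (by linear_combination h)

/-- `j t₄⁴ (t₄ + 16) = (t₄² + 256 t₄ + 4096)³`. -/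
theorem t4C_j1 :
    jqModC R * t4C R ^ 4 * (t4C R + 16) = (t4C R ^ 2 + 256 * t4C R + 4096) ^ 3 := by
  have h := congrArg (toL R) ps4a
  simp only [map_mul, map_pow, map_add, map_ofNat, toL_X, toL_jNum, toL_T4] at h
  exact qv_pow_cancel R 6 (by linear_combination h)

/-- `j(q²) t₄² (t₄ + 16)² = (t₄² + 16 t₄ + 256)³`. -/
theorem t4C_j2 :
    qExpand R 2 (jqModC R) * t4C R ^ 2 * (t4C R + 16) ^ 2 =
      (t4C R ^ 2 + 16 * t4C R + 256) ^ 3 := by
  have h := congrArg (toL R) ps4b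
  simp only [map_mul, map_pow, map_add, map_ofNat, toL_X, toL_expand_jNum, toL_T4] at h
  exact qv_pow_cancel R 6 (by linear_combination h)

/-- `j(q⁴) t₄ (t₄ + 16) = (t₄² + 16 t₄ + 16)³`. -/
theorem t4C_j4 :
    qExpand R 4 (jqModC R) * t4C R * (t4C R + 16) = (t4C R ^ 2 + 16 * t4C R + 16) ^ 3 := by
  have h := congrArg (toL R) ps4c
  simp only [map_mul, map_pow, map_add, map_ofNat, toL_X, toL_expand_jNum, toL_T4] at h
  exact qv_pow_cancel R 6 (by linear_combination h)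

/-- `(j - 1728) t₄⁴ (t₄ + 16) = (t₄ + 32)² (t₄² - 512 t₄ - 8192)²`. -/
theorem t4C_j1_sub :
    (jqModC R - 1728) * t4C R ^ 4 * (t4C R + 16) =
      (t4C R + 32) ^ 2 * (t4C R ^ 2 - 512 * t4C R - 8192) ^ 2 := by
  linear_combination t4C_j1 R

/-- `h₃(q³) = t₉ (t₉² + 9 t₉ + 27)`. -/
theorem t9C_h3_expand : qExpand R 3 (h3C R) = t9C R * (t9C R ^ 2 + 9 * t9C R + 27) := by
  have h := congrArg (toL R) expand_H3_eq
  simp only [map_mul, map_pow, map_add, map_ofNat, toL_X, toL_expand_H3, toL_T9] at h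
  exact qv_pow_cancel R 3 (by linear_combination h)

/-- `h₃ (t₉² + 9 t₉ + 27) = t₉³`. -/
theorem t9C_h3 : h3C R * (t9C R ^ 2 + 9 * t9C R + 27) = t9C R ^ 3 := by
  have h := congrArg (toL R) H3_mul_eq
  simp only [map_mul, map_pow, map_add, map_ofNat, toL_X, toL_H3, toL_T9] at h
  exact qv_pow_cancel R 3 (by linear_combination h)

/-- `j t₉⁹ (t₉² + 9 t₉ + 27) = (t₉ + 9)³ (t₉³ + 243 t₉² + 2187 t₉ + 6561)³`. -/
theorem t9C_j1 :
    jqModC R * t9C R ^ 9 * (t9C R ^ 2 + 9 * t9C R + 27) =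
      (t9C R + 9) ^ 3 * (t9C R ^ 3 + 243 * t9C R ^ 2 + 2187 * t9C R + 6561) ^ 3 := by
  have h := congrArg (toL R) ps9a
  simp only [map_mul, map_pow, map_add, map_ofNat, toL_X, toL_jNum, toL_T9] at h
  exact qv_pow_cancel R 12 (by linear_combination h)

/-- `j(q³) t₉³ (t₉² + 9 t₉ + 27)³ = (t₉ + 9)³ (t₉³ + 3 t₉² + 27 t₉ + 81)³`. -/
theorem t9C_j3 :
    qExpand R 3 (jqModC R) * t9C R ^ 3 * (t9C R ^ 2 + 9 * t9C R + 27) ^ 3 =
      (t9C R + 9) ^ 3 * (t9C R ^ 3 + 3 * t9C R ^ 2 + 27 * t9C R + 81) ^ 3 := by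
  have h := congrArg (toL R) ps9b
  simp only [map_mul, map_pow, map_add, map_ofNat, toL_X, toL_expand_jNum, toL_T9] at h
  exact qv_pow_cancel R 12 (by linear_combination h)

/-- `j(q⁹) t₉ (t₉² + 9 t₉ + 27) = (t₉ + 3)³ (t₉³ + 9 t₉² + 27 t₉ + 3)³`. -/
theorem t9C_j9 :
    qExpand R 9 (jqModC R) * t9C R * (t9C R ^ 2 + 9 * t9C R + 27) =
      (t9C R + 3) ^ 3 * (t9C R ^ 3 + 9 * t9C R ^ 2 + 27 * t9C R + 3) ^ 3 := by
  have h := congrArg (toL R) ps9c
  simp only [map_mul, map_pow, map_add, map_ofNat, toL_X, toL_expand_jNum, toL_T9] at h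
  exact qv_pow_cancel R 12 (by linear_combination h)

/-- `(j - 1728) t₉⁹ (t₉² + 9 t₉ + 27)` is a square. -/
theorem t9C_j1_sub :
    (jqModC R - 1728) * t9C R ^ 9 * (t9C R ^ 2 + 9 * t9C R + 27) =
      (t9C R ^ 6 - 486 * t9C R ^ 5 - 24057 * t9C R ^ 4 - 367416 * t9C R ^ 3
        - 2657205 * t9C R ^ 2 - 9565938 * t9C R - 14348907) ^ 2 := by
  linear_combination t9C_j1 R

end Laurent

/-! ## Elimination polynomials -/

/-- Constant term of the level `2` elimination: `c₁ h₂ + c₀ = 0`. -/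
def c0L2 {R : Type*} [CommRing R] (j k : R) : R :=
  16773120 * (k + 48 * j + 161280) + 4096 * (j - 720) ^ 2

/-- Linear coefficient of the level `2` elimination: `c₁ h₂ + c₀ = 0`. -/
def c1L2 {R : Type*} [CommRing R] (j k : R) : R :=
  (k + 195840) ^ 2 + (j - 720) * (16773120 + 48 * (k + 195840) + (768 - k) * (j - 720))

theorem elim2 {R : Type*} [CommRing R] (h j k : R) (e1 : j * h ^ 2 = (h + 256) ^ 3)
    (e2 : k * h = (h + 16) ^ 3) : c1L2 j k * h + c0L2 j k = 0 := by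
  unfold c1L2 c0L2
  linear_combination (-(j - 720) ^ 2 + ((j - 720) * (h + 48) + (k + 195840))) * e2
    - ((j - 720) * (h + 48) + (k + 195840)) * e1

/-- Constant term of the level `3` elimination: `c₁ h₃ + c₀ = 0`. -/
def c0L3 {R : Type*} [CommRing R] (j k : R) : R :=
    729*j^5*k - 551124*j^5 + 13944460716*j^4*k + 16877673339120*j^4 + 35694226104480*j^3*k
      - 10379169493558848000*j^3 + 387419760*j^2*k^2 - 108392996345702400*j^2*k
      + 86248560322019464704000*j^2 - 557884454400*j*k^2 + 79754306454770688000*j*k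
      - 108081439958057877504000000*j + 200838403584000*k^2 - 18302525195157504000000*k
      + 36976851779007283200000000000

/-- Linear coefficient of the level `3` elimination: `c₁ h₃ + c₀ = 0`. -/
def c1L3 {R : Type*} [CommRing R] (j k : R) : R :=
    -j^5*k^2 + 1512*j^5*k - 374706*j^5 + 3672*j^4*k^2 + 2199927357*j^4*k + 3513587135760*j^4
      - 4802436*j^3*k^2 + 6287091255360*j^3*k - 578039691371443200*j^3 + j^2*k^3
      + 2734670160*j^2*k^2 - 12148776475948800*j^2*k + 3468720924518404608000*j^2 - 1440*j*k^3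
      - 607750387200*j*k^2 + 4430048196934656000*j*k - 4101236057280872448000000*j + 518400*k^3
      + 19110670848000*k^2 + 170148916887552000000*k + 1369513028852121600000000000

/-- Homogeneous form of `c0L3`. -/
def c0L3h {R : Type*} [CommRing R] (J K x : R) : R :=
    36976851779007283200000000000*x^8 - 108081439958057877504000000*J*x^7
      - 18302525195157504000000*K*x^5 + 86248560322019464704000*J^2*x^6
      + 79754306454770688000*J*K*x^4 - 10379169493558848000*J^3*x^5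
      - 108392996345702400*J^2*K*x^3 + 200838403584000*K^2*x^2 - 557884454400*J*K^2*x
      + 16877673339120*J^4*x^4 + 35694226104480*J^3*K*x^2 + 387419760*J^2*K^2
      + 13944460716*J^4*K*x - 551124*J^5*x^3 + 729*J^5*K

theorem c0L3h_spec {R : Type*} [CommRing R] (j k x : R) :
    c0L3h (x * j) (x ^ 3 * k) x = x ^ 8 * c0L3 j k := by
  unfold c0L3h c0L3
  ring

theorem elim3 {R : Type*} [CommRing R] (h j k : R) (eA : j * h ^ 3 = (h + 27) * (h + 243) ^ 3)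
    (eB : k * h = (h + 27) * (h + 3) ^ 3) : c1L3 j k * h + c0L3 j k = 0 := by
  unfold c1L3 c0L3
  linear_combination
    (-(270*h^2*j^4 + h^2*j^3*k + 25429680*h^2*j^3 - 2160*h^2*j^2*k - 17132083200*h^2*j^2
      + 1555200*h^2*j*k - 15281146368000*h^2*j - 373248000*h^2*k + 10319560704000000*h^2
      + h*j^4*k + 8964*h*j^4 - 2880*h*j^3*k - 158494320*h*j^3 + 2913840*h*j^2*k
      - 2055056832000*h*j^2 - 1209945600*h*j*k + 3192389024256000*h*j + 166841856000*h*k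
      - 1176429920256000000*h + 36*j^4*k + 45684*j^4 + 92124*j^3*k - 26779844160*j^3 + j^2*k^2
      - 279776160*j^2*k + 222607701273600*j^2 - 1440*j*k^2 + 205858713600*j*k
      - 278975282042880000*j + 518400*k^2 - 47241999360000*k + 95445616951296000000)) * eA
    + (-(-270*h^2*j^4 - h^2*j^3*k - 25429680*h^2*j^3 + 2160*h^2*j^2*k + 17132083200*h^2*j^2
      - 1555200*h^2*j*k + 15281146368000*h^2*j + 373248000*h^2*k - 10319560704000000*h^2
      + 270*h*j^5 + 25226316*h*j^4 - 35282958480*h*j^3 + 196560*h*j^2*k - 890989632000*h*j^2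
      - 283046400*h*j*k + 18129597064704000*h*j + 101896704000*h*k - 6253653786624000000*h
      + j^5*k - 756*j^5 - 3672*j^4*k - 1126535364*j^4 + 4802436*j^3*k - 5636726677440*j^3
      - j^2*k^2 - 2715539040*j^2*k + 7922962188518400*j^2 + 1440*j*k^2 + 580201574400*j*k
      - 959904104785920000*j - 518400*k^2 - 9193098240000*k - 1009345912897536000000)) * eB

theorem map_c0L3h {R S : Type*} [CommRing R] [CommRing S] (φ : R →+* S) (J K x : R) :
    φ (c0L3h J K x) = c0L3h (φ J) (φ K) (φ x) := by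
  simp only [c0L3h, map_add, map_sub, map_mul, map_pow, map_ofNat]

/-- If `t (t² + 9t + 27) = H` and `h (t² + 9t + 27) = t³` then `t` is a rational function of
`h` and `H`. -/
theorem level9_formula {F : Type*} [Field F] (h H t : F) (r1 : H = t * (t ^ 2 + 9 * t + 27))
    (r2 : h * (t ^ 2 + 9 * t + 27) = t ^ 3) (hw : t ^ 2 + 9 * t + 27 ≠ 0) :
    (h * H - 243 * h + 9 * H + 729) * t = h ^ 2 * H + 18 * h * H + 27 * H + 1458 * h := by
  apply mul_left_cancel₀ (pow_ne_zero 2 hw)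
  subst r1
  linear_combination (-t * (t ^ 2 + 9 * t + 27) * (h * (t ^ 2 + 9 * t + 27) + t ^ 3)
    + t ^ 2 * (t ^ 2 + 9 * t + 27) ^ 2 - 243 * t * (t ^ 2 + 9 * t + 27)
    - 18 * t * (t ^ 2 + 9 * t + 27) ^ 2 - 1458 * (t ^ 2 + 9 * t + 27)) * r2

/-! ## Function fields -/

section Fields

open IntermediateField

variable (K : Type*) [Field K]

theorem toL_ne_zero (s : PowerSeries ℤ) (h : ((constantCoeff s : ℤ) : K) ≠ 0) : toL K s ≠ 0 := by
  intro h0
  have h1 := coeff_lau_neg_one K s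
  rw [lau, h0, mul_zero, HahnSeries.coeff_zero] at h1
  exact h h1.symm

theorem ne_zero_of_toL (n : ℕ) {a : LaurentSeries K} (s : PowerSeries ℤ)
    (h : qv K ^ n * a = toL K s) (hs : ((constantCoeff s : ℤ) : K) ≠ 0) : a ≠ 0 := fun h0 =>
  toL_ne_zero K s hs (by rw [← h, h0, mul_zero])

theorem mem_of_mul_eq {F : Type*} [Field F] [Algebra K F] (S : IntermediateField K F)
    {h c1 c0 : F} (hc1 : c1 ∈ S) (hc0 : c0 ∈ S) (hrel : c1 * h = c0) (hne : c1 ≠ 0) : h ∈ S := by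
  have : h = c0 / c1 := eq_div_of_mul_eq hne (by rw [mul_comm]; exact hrel)
  rw [this]
  exact div_mem hc0 hc1

theorem mem_of_linear {F : Type*} [Field F] [Algebra K F] (S : IntermediateField K F)
    {h c1 c0 : F} (hc1 : c1 ∈ S) (hc0 : c0 ∈ S) (hrel : c1 * h + c0 = 0) (hne : c0 ≠ 0) :
    h ∈ S := by
  have h1 : c1 ≠ 0 := by
    rintro rfl
    rw [zero_mul, zero_add] at hrel
    exact hne hrel
  exact mem_of_mul_eq K S hc1 (neg_mem hc0) (by linear_combination hrel) h1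

theorem c0L2_mem {F : Type*} [Field F] [Algebra K F] (S : IntermediateField K F) {j k : F}
    (hj : j ∈ S) (hk : k ∈ S) : c0L2 j k ∈ S := by
  have h : c0L2 j k = S.val (c0L2 (⟨j, hj⟩ : S) ⟨k, hk⟩) := by
    simp only [c0L2, map_add, map_mul, map_pow, map_sub, map_ofNat, IntermediateField.coe_val]
  rw [h]
  exact SetLike.coe_mem _

theorem c1L2_mem {F : Type*} [Field F] [Algebra K F] (S : IntermediateField K F) {j k : F}
    (hj : j ∈ S) (hk : k ∈ S) : c1L2 j k ∈ S := by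
  have h : c1L2 j k = S.val (c1L2 (⟨j, hj⟩ : S) ⟨k, hk⟩) := by
    simp only [c1L2, map_add, map_mul, map_pow, map_sub, map_ofNat, IntermediateField.coe_val]
  rw [h]
  exact SetLike.coe_mem _

theorem c0L3_mem {F : Type*} [Field F] [Algebra K F] (S : IntermediateField K F) {j k : F}
    (hj : j ∈ S) (hk : k ∈ S) : c0L3 j k ∈ S := by
  have h : c0L3 j k = S.val (c0L3 (⟨j, hj⟩ : S) ⟨k, hk⟩) := by
    simp only [c0L3, map_add, map_mul, map_pow, map_sub, map_ofNat, IntermediateField.coe_val]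
  rw [h]
  exact SetLike.coe_mem _

theorem c1L3_mem {F : Type*} [Field F] [Algebra K F] (S : IntermediateField K F) {j k : F}
    (hj : j ∈ S) (hk : k ∈ S) : c1L3 j k ∈ S := by
  have h : c1L3 j k = S.val (c1L3 (⟨j, hj⟩ : S) ⟨k, hk⟩) := by
    simp only [c1L3, map_add, map_mul, map_pow, map_sub, map_neg, map_ofNat,
      IntermediateField.coe_val]
  rw [h]
  exact SetLike.coe_mem _

/-! ### Nonvanishing -/

theorem c0L2_ne_zero (h2 : (2 : K) ≠ 0) : c0L2 (jqModC K) (qExpand K 2 (jqModC K)) ≠ 0 := by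
  refine ne_zero_of_toL K 2
    (16773120 * (e₂ jNum + 48 * X * jNum + 161280 * X ^ 2) + 4096 * (jNum - 720 * X) ^ 2) ?_ ?_
  · simp only [map_add, map_mul, map_pow, map_sub, map_ofNat, toL_X, toL_jNum, toL_expand_jNum]
    unfold c0L2
    ring
  · have hc : constantCoeff (16773120 * (e₂ jNum + 48 * X * jNum + 161280 * X ^ 2)
        + 4096 * (jNum - 720 * X) ^ 2 : PowerSeries ℤ) = 16777216 := by
      simp only [map_add, map_mul, map_sub, map_pow, map_ofNat, constantCoeff_jNum,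
        PowerSeries.constantCoeff_expand, constantCoeff_X]
      norm_num
    rw [hc]
    have : ((16777216 : ℤ) : K) = 2 ^ 24 := by norm_num
    rw [this]
    exact pow_ne_zero 24 h2

theorem c0L3_ne_zero (h3 : (3 : K) ≠ 0) : c0L3 (jqModC K) (qExpand K 3 (jqModC K)) ≠ 0 := by
  refine ne_zero_of_toL K 8 (c0L3h jNum (e₃ jNum) X) ?_ ?_
  · rw [map_c0L3h, toL_X, toL_jNum, toL_expand_jNum, c0L3h_spec]
  · have hc : constantCoeff (c0L3h jNum (e₃ jNum) X : PowerSeries ℤ) = 387420489 := by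
      rw [map_c0L3h, constantCoeff_jNum, PowerSeries.constantCoeff_expand, constantCoeff_jNum,
        constantCoeff_X]
      norm_num [c0L3h]
    rw [hc]
    have : ((387420489 : ℤ) : K) = 3 ^ 18 := by norm_num
    rw [this]
    exact pow_ne_zero 18 h3

theorem h2C_ne_zero : h2C K ≠ 0 :=
  ne_zero_of_toL K 1 H2 (by rw [toL_H2, pow_one]) (by simp [constantCoeff_H2])

theorem h3C_ne_zero : h3C K ≠ 0 :=
  ne_zero_of_toL K 1 H3 (by rw [toL_H3, pow_one]) (by simp [constantCoeff_H3])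

theorem t4C_ne_zero : t4C K ≠ 0 :=
  ne_zero_of_toL K 1 T4 (by rw [toL_T4, pow_one]) (by simp [constantCoeff_T4])

theorem t9C_ne_zero : t9C K ≠ 0 :=
  ne_zero_of_toL K 1 T9 (by rw [toL_T9, pow_one]) (by simp [constantCoeff_T9])

theorem h2C_add_ne_zero : h2C K + 16 ≠ 0 := by
  refine ne_zero_of_toL K 1 (H2 + 16 * X) ?_ (by simp [constantCoeff_H2])
  simp only [map_add, map_mul, map_ofNat, toL_X, toL_H2]
  ring

theorem t4C_add_ne_zero : t4C K + 16 ≠ 0 := by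
  refine ne_zero_of_toL K 1 (T4 + 16 * X) ?_ (by simp [constantCoeff_T4])
  simp only [map_add, map_mul, map_ofNat, toL_X, toL_T4]
  ring

theorem t9C_quad_ne_zero : t9C K ^ 2 + 9 * t9C K + 27 ≠ 0 := by
  refine ne_zero_of_toL K 2 (T9 ^ 2 + 9 * X * T9 + 27 * X ^ 2) ?_ (by simp [constantCoeff_T9])
  simp only [map_add, map_mul, map_pow, map_ofNat, toL_X, toL_T9]
  ring

theorem t9C_den_ne_zero :
    h3C K * qExpand K 3 (h3C K) - 243 * h3C K + 9 * qExpand K 3 (h3C K) + 729 ≠ 0 := by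
  refine ne_zero_of_toL K 4 (H3 * e₃ H3 - 243 * X ^ 3 * H3 + 9 * X * e₃ H3 + 729 * X ^ 4) ?_
    (by simp [constantCoeff_H3])
  simp only [map_add, map_sub, map_mul, map_pow, map_ofNat, toL_X, toL_H3, toL_expand_H3]
  ring

/-! ### Membership -/

/-- `h₂ ∈ K(j, j(q²))` when `2 ≠ 0` in `K`. -/
theorem h2C_mem_full (h2 : (2 : K) ≠ 0) : h2C K ∈ modularFunctionFieldFullC K 2 := by
  have hj : jqModC K ∈ modularFunctionFieldFullC K 2 := jqModC_mem_full K 2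
  have hk : qExpand K 2 (jqModC K) ∈ modularFunctionFieldFullC K 2 :=
    jqModCd_mem_full K 2 dvd_rfl
  exact mem_of_linear K _ (c1L2_mem K _ hj hk) (c0L2_mem K _ hj hk)
    (elim2 _ _ _ (h2C_j1 K) (h2C_j2 K)) (c0L2_ne_zero K h2)

/-- `h₃ ∈ K(j, j(q³))` when `3 ≠ 0` in `K`. -/
theorem h3C_mem_full (h3 : (3 : K) ≠ 0) : h3C K ∈ modularFunctionFieldFullC K 3 := by
  have hj : jqModC K ∈ modularFunctionFieldFullC K 3 := jqModC_mem_full K 3
  have hk : qExpand K 3 (jqModC K) ∈ modularFunctionFieldFullC K 3 :=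
    jqModCd_mem_full K 3 dvd_rfl
  exact mem_of_linear K _ (c1L3_mem K _ hj hk) (c0L3_mem K _ hj hk)
    (elim3 _ _ _ (h3C_j1 K) (h3C_j3 K)) (c0L3_ne_zero K h3)

theorem expand_h2C_mem_full (h2 : (2 : K) ≠ 0) :
    qExpand K 2 (h2C K) ∈ modularFunctionFieldFullC K 4 :=
  full_degeneracyC_map_le K 2 2
    ((IntermediateField.mem_map _).mpr ⟨h2C K, h2C_mem_full K h2, rfl⟩)

theorem expand_h3C_mem_full (h3 : (3 : K) ≠ 0) :
    qExpand K 3 (h3C K) ∈ modularFunctionFieldFullC K 9 :=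
  full_degeneracyC_map_le K 3 3
    ((IntermediateField.mem_map _).mpr ⟨h3C K, h3C_mem_full K h3, rfl⟩)

/-- `t₄ ∈ K(j, j(q²), j(q⁴))` when `2 ≠ 0` in `K`. -/
theorem t4C_mem_full (h2 : (2 : K) ≠ 0) : t4C K ∈ modularFunctionFieldFullC K 4 := by
  have hh : h2C K ∈ modularFunctionFieldFullC K 4 :=
    full_degeneracyC_le K (show 2 ∣ 4 by norm_num) (h2C_mem_full K h2)
  have hH := expand_h2C_mem_full K h2
  refine mem_of_mul_eq K _ (c1 := h2C K + 16) (c0 := qExpand K 2 (h2C K) - 16 * h2C K)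
    (add_mem hh (ofNat_mem _ 16)) (sub_mem hH (mul_mem (ofNat_mem _ 16) hh)) ?_
    (h2C_add_ne_zero K)
  linear_combination (-1 : LaurentSeries K) * t4C_h2_expand K + t4C_h2 K

/-- `t₉ ∈ K(j, j(q³), j(q⁹))` when `3 ≠ 0` in `K`. -/
theorem t9C_mem_full (h3 : (3 : K) ≠ 0) : t9C K ∈ modularFunctionFieldFullC K 9 := by
  have hh : h3C K ∈ modularFunctionFieldFullC K 9 :=
    full_degeneracyC_le K (show 3 ∣ 9 by norm_num) (h3C_mem_full K h3)
  have hH := expand_h3C_mem_full K h3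
  refine mem_of_mul_eq K _
    (c1 := h3C K * qExpand K 3 (h3C K) - 243 * h3C K + 9 * qExpand K 3 (h3C K) + 729)
    (c0 := h3C K ^ 2 * qExpand K 3 (h3C K) + 18 * h3C K * qExpand K 3 (h3C K)
      + 27 * qExpand K 3 (h3C K) + 1458 * h3C K)
    (add_mem (add_mem (sub_mem (mul_mem hh hH) (mul_mem (ofNat_mem _ 243) hh))
      (mul_mem (ofNat_mem _ 9) hH)) (ofNat_mem _ 729))
    (add_mem (add_mem (add_mem (mul_mem (pow_mem hh 2) hH)
      (mul_mem (mul_mem (ofNat_mem _ 18) hh) hH)) (mul_mem (ofNat_mem _ 27) hH))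
      (mul_mem (ofNat_mem _ 1458) hh))
    (level9_formula _ _ _ (t9C_h3_expand K) (t9C_h3 K) (t9C_quad_ne_zero K))
    (t9C_den_ne_zero K)

/-! ### The function fields of levels 4 and 9 are rational -/

/-- `K(j, j(q²), j(q⁴)) = K(t₄)` when `2 ≠ 0` in `K`. -/
theorem full4_eq_adjoin (h2 : (2 : K) ≠ 0) : modularFunctionFieldFullC K 4 = K⟮t4C K⟯ := by
  refine le_antisymm ?_ (adjoin_simple_le_iff.mpr (t4C_mem_full K h2))
  rw [modularFunctionFieldFullC, adjoin_le_iff]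
  rintro x ⟨d, hne, hdvd, rfl⟩
  have ht : t4C K ∈ K⟮t4C K⟯ := mem_adjoin_simple_self K _
  have ht16 : t4C K + 16 ∈ K⟮t4C K⟯ := add_mem ht (ofNat_mem _ 16)
  have hd : d ≤ 4 := Nat.le_of_dvd (by norm_num) hdvd
  interval_cases d
  · exact absurd hdvd (by norm_num)
  · rw [SetLike.mem_coe, qExpand_one_apply]
    exact mem_of_mul_eq K _ (c1 := t4C K ^ 4 * (t4C K + 16))
      (c0 := (t4C K ^ 2 + 256 * t4C K + 4096) ^ 3) (mul_mem (pow_mem ht 4) ht16)
      (pow_mem (add_mem (add_mem (pow_mem ht 2) (mul_mem (ofNat_mem _ 256) ht))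
        (ofNat_mem _ 4096)) 3)
      (by linear_combination t4C_j1 K)
      (mul_ne_zero (pow_ne_zero 4 (t4C_ne_zero K)) (t4C_add_ne_zero K))
  · exact mem_of_mul_eq K _ (c1 := t4C K ^ 2 * (t4C K + 16) ^ 2)
      (c0 := (t4C K ^ 2 + 16 * t4C K + 256) ^ 3) (mul_mem (pow_mem ht 2) (pow_mem ht16 2))
      (pow_mem (add_mem (add_mem (pow_mem ht 2) (mul_mem (ofNat_mem _ 16) ht))
        (ofNat_mem _ 256)) 3)
      (by linear_combination t4C_j2 K)
      (mul_ne_zero (pow_ne_zero 2 (t4C_ne_zero K)) (pow_ne_zero 2 (t4C_add_ne_zero K)))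
  · exact absurd hdvd (by norm_num)
  · exact mem_of_mul_eq K _ (c1 := t4C K * (t4C K + 16))
      (c0 := (t4C K ^ 2 + 16 * t4C K + 16) ^ 3) (mul_mem ht ht16)
      (pow_mem (add_mem (add_mem (pow_mem ht 2) (mul_mem (ofNat_mem _ 16) ht))
        (ofNat_mem _ 16)) 3)
      (by linear_combination t4C_j4 K)
      (mul_ne_zero (t4C_ne_zero K) (t4C_add_ne_zero K))

/-- `K(j, j(q³), j(q⁹)) = K(t₉)` when `3 ≠ 0` in `K`. -/
theorem full9_eq_adjoin (h3 : (3 : K) ≠ 0) : modularFunctionFieldFullC K 9 = K⟮t9C K⟯ := by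
  refine le_antisymm ?_ (adjoin_simple_le_iff.mpr (t9C_mem_full K h3))
  rw [modularFunctionFieldFullC, adjoin_le_iff]
  rintro x ⟨d, hne, hdvd, rfl⟩
  have ht : t9C K ∈ K⟮t9C K⟯ := mem_adjoin_simple_self K _
  have hw : t9C K ^ 2 + 9 * t9C K + 27 ∈ K⟮t9C K⟯ :=
    add_mem (add_mem (pow_mem ht 2) (mul_mem (ofNat_mem _ 9) ht)) (ofNat_mem _ 27)
  have hd : d ≤ 9 := Nat.le_of_dvd (by norm_num) hdvd
  interval_cases d
  · exact absurd hdvd (by norm_num)
  · rw [SetLike.mem_coe, qExpand_one_apply]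
    exact mem_of_mul_eq K _ (c1 := t9C K ^ 9 * (t9C K ^ 2 + 9 * t9C K + 27))
      (c0 := (t9C K + 9) ^ 3 * (t9C K ^ 3 + 243 * t9C K ^ 2 + 2187 * t9C K + 6561) ^ 3)
      (mul_mem (pow_mem ht 9) hw)
      (mul_mem (pow_mem (add_mem ht (ofNat_mem _ 9)) 3)
        (pow_mem (add_mem (add_mem (add_mem (pow_mem ht 3)
          (mul_mem (ofNat_mem _ 243) (pow_mem ht 2))) (mul_mem (ofNat_mem _ 2187) ht))
          (ofNat_mem _ 6561)) 3))
      (by linear_combination t9C_j1 K)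
      (mul_ne_zero (pow_ne_zero 9 (t9C_ne_zero K)) (t9C_quad_ne_zero K))
  · exact absurd hdvd (by norm_num)
  · exact mem_of_mul_eq K _ (c1 := t9C K ^ 3 * (t9C K ^ 2 + 9 * t9C K + 27) ^ 3)
      (c0 := (t9C K + 9) ^ 3 * (t9C K ^ 3 + 3 * t9C K ^ 2 + 27 * t9C K + 81) ^ 3)
      (mul_mem (pow_mem ht 3) (pow_mem hw 3))
      (mul_mem (pow_mem (add_mem ht (ofNat_mem _ 9)) 3)
        (pow_mem (add_mem (add_mem (add_mem (pow_mem ht 3)
          (mul_mem (ofNat_mem _ 3) (pow_mem ht 2))) (mul_mem (ofNat_mem _ 27) ht))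
          (ofNat_mem _ 81)) 3))
      (by linear_combination t9C_j3 K)
      (mul_ne_zero (pow_ne_zero 3 (t9C_ne_zero K)) (pow_ne_zero 3 (t9C_quad_ne_zero K)))
  · exact absurd hdvd (by norm_num)
  · exact absurd hdvd (by norm_num)
  · exact absurd hdvd (by norm_num)
  · exact absurd hdvd (by norm_num)
  · exact absurd hdvd (by norm_num)
  · exact mem_of_mul_eq K _ (c1 := t9C K * (t9C K ^ 2 + 9 * t9C K + 27))
      (c0 := (t9C K + 3) ^ 3 * (t9C K ^ 3 + 9 * t9C K ^ 2 + 27 * t9C K + 3) ^ 3)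
      (mul_mem ht hw)
      (mul_mem (pow_mem (add_mem ht (ofNat_mem _ 3)) 3)
        (pow_mem (add_mem (add_mem (add_mem (pow_mem ht 3)
          (mul_mem (ofNat_mem _ 9) (pow_mem ht 2))) (mul_mem (ofNat_mem _ 27) ht))
          (ofNat_mem _ 3)) 3))
      (by linear_combination t9C_j9 K)
      (mul_ne_zero (t9C_ne_zero K) (t9C_quad_ne_zero K))

/-- `ℚ(j(q^d) : d ∣ 4) = ℚ(t₄)`. -/
theorem full4_rat : modularFunctionFieldFull 4 = ℚ⟮t4C ℚ⟯ :=
  full4_eq_adjoin ℚ two_ne_zero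

/-- `ℚ(j(q^d) : d ∣ 9) = ℚ(t₉)`. -/
theorem full9_rat : modularFunctionFieldFull 9 = ℚ⟮t9C ℚ⟯ :=
  full9_eq_adjoin ℚ three_ne_zero

end Fields

/-! ## Integrality, transcendence, higher levels -/

section Extras

open IntermediateField Polynomial

/-- Integrality of the level `4` Hauptmodul over `B[j]`, in hom form: if `φ` sends the variable
to `j` and `j t⁴ (t + 16) = (t² + 256 t + 4096)³` then `t` is integral over `φ`. -/
theorem isIntegralElem_level4 {B E : Type*} [CommRing B] [CommRing E] (φ : B[X] →+* E)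
    {j t : E} (hφ : φ Polynomial.X = j)
    (h : j * t ^ 4 * (t + 16) = (t ^ 2 + 256 * t + 4096) ^ 3) : φ.IsIntegralElem t := by
  refine ⟨(Polynomial.X ^ 2 + 256 * Polynomial.X + 4096) ^ 3
    - Polynomial.C Polynomial.X * Polynomial.X ^ 4 * (Polynomial.X + 16), ?_, ?_⟩
  · monicity!
  · simp only [eval₂_sub, eval₂_mul, eval₂_pow, eval₂_add, Polynomial.eval₂_X,
      Polynomial.eval₂_C, eval₂_ofNat, hφ]
    linear_combination -h

/-- Integrality of the level `9` Hauptmodul over `B[j]`, in hom form. -/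
theorem isIntegralElem_level9 {B E : Type*} [CommRing B] [CommRing E] (φ : B[X] →+* E)
    {j t : E} (hφ : φ Polynomial.X = j)
    (h : j * t ^ 9 * (t ^ 2 + 9 * t + 27) =
      (t + 9) ^ 3 * (t ^ 3 + 243 * t ^ 2 + 2187 * t + 6561) ^ 3) : φ.IsIntegralElem t := by
  refine ⟨(Polynomial.X + 9) ^ 3
      * (Polynomial.X ^ 3 + 243 * Polynomial.X ^ 2 + 2187 * Polynomial.X + 6561) ^ 3
    - Polynomial.C Polynomial.X * Polynomial.X ^ 9
      * (Polynomial.X ^ 2 + 9 * Polynomial.X + 27), ?_, ?_⟩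
  · monicity!
  · simp only [eval₂_sub, eval₂_mul, eval₂_pow, eval₂_add, Polynomial.eval₂_X,
      Polynomial.eval₂_C, eval₂_ofNat, hφ]
    linear_combination -h

/-- Integrality of the level `2` Hauptmodul over `B[j]`, in hom form. -/
theorem isIntegralElem_level2 {B E : Type*} [CommRing B] [CommRing E] (φ : B[X] →+* E)
    {j h : E} (hφ : φ Polynomial.X = j) (e : j * h ^ 2 = (h + 256) ^ 3) :
    φ.IsIntegralElem h := by
  refine ⟨(Polynomial.X + 256) ^ 3 - Polynomial.C Polynomial.X * Polynomial.X ^ 2, ?_, ?_⟩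
  · monicity!
  · simp only [eval₂_sub, eval₂_mul, eval₂_pow, eval₂_add, Polynomial.eval₂_X,
      Polynomial.eval₂_C, eval₂_ofNat, hφ]
    linear_combination -e

/-- Integrality of the level `3` Hauptmodul over `B[j]`, in hom form. -/
theorem isIntegralElem_level3 {B E : Type*} [CommRing B] [CommRing E] (φ : B[X] →+* E)
    {j h : E} (hφ : φ Polynomial.X = j) (e : j * h ^ 3 = (h + 27) * (h + 243) ^ 3) :
    φ.IsIntegralElem h := by
  refine ⟨(Polynomial.X + 27) * (Polynomial.X + 243) ^ 3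
    - Polynomial.C Polynomial.X * Polynomial.X ^ 3, ?_, ?_⟩
  · monicity!
  · simp only [eval₂_sub, eval₂_mul, eval₂_pow, eval₂_add, Polynomial.eval₂_X,
      Polynomial.eval₂_C, eval₂_ofNat, hφ]
    linear_combination -e

variable (R : Type*) [CommRing R]

/-- `t₄` is integral over `R[j]`. -/
theorem isIntegralElem_t4C :
    (Polynomial.aeval (R := R) (jqModC R)).toRingHom.IsIntegralElem (t4C R) :=
  isIntegralElem_level4 _ (Polynomial.aeval_X _) (t4C_j1 R)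

/-- `t₉` is integral over `R[j]`. -/
theorem isIntegralElem_t9C :
    (Polynomial.aeval (R := R) (jqModC R)).toRingHom.IsIntegralElem (t9C R) :=
  isIntegralElem_level9 _ (Polynomial.aeval_X _) (t9C_j1 R)

/-- `h₂` is integral over `R[j]`. -/
theorem isIntegralElem_h2C :
    (Polynomial.aeval (R := R) (jqModC R)).toRingHom.IsIntegralElem (h2C R) :=
  isIntegralElem_level2 _ (Polynomial.aeval_X _) (h2C_j1 R)

/-- `h₃` is integral over `R[j]`. -/
theorem isIntegralElem_h3C :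
    (Polynomial.aeval (R := R) (jqModC R)).toRingHom.IsIntegralElem (h3C R) :=
  isIntegralElem_level3 _ (Polynomial.aeval_X _) (h3C_j1 R)

variable (K : Type*) [Field K]

/-- `j ∈ K(t₄)` over every field. -/
theorem jqModC_mem_adjoin_t4C : jqModC K ∈ K⟮t4C K⟯ := by
  have ht : t4C K ∈ K⟮t4C K⟯ := mem_adjoin_simple_self K _
  exact mem_of_mul_eq K _ (c1 := t4C K ^ 4 * (t4C K + 16))
    (c0 := (t4C K ^ 2 + 256 * t4C K + 4096) ^ 3)
    (mul_mem (pow_mem ht 4) (add_mem ht (ofNat_mem _ 16)))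
    (pow_mem (add_mem (add_mem (pow_mem ht 2) (mul_mem (ofNat_mem _ 256) ht))
      (ofNat_mem _ 4096)) 3)
    (by linear_combination t4C_j1 K)
    (mul_ne_zero (pow_ne_zero 4 (t4C_ne_zero K)) (t4C_add_ne_zero K))

/-- `j ∈ K(t₉)` over every field. -/
theorem jqModC_mem_adjoin_t9C : jqModC K ∈ K⟮t9C K⟯ := by
  have ht : t9C K ∈ K⟮t9C K⟯ := mem_adjoin_simple_self K _
  exact mem_of_mul_eq K _ (c1 := t9C K ^ 9 * (t9C K ^ 2 + 9 * t9C K + 27))
    (c0 := (t9C K + 9) ^ 3 * (t9C K ^ 3 + 243 * t9C K ^ 2 + 2187 * t9C K + 6561) ^ 3)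
    (mul_mem (pow_mem ht 9)
      (add_mem (add_mem (pow_mem ht 2) (mul_mem (ofNat_mem _ 9) ht)) (ofNat_mem _ 27)))
    (mul_mem (pow_mem (add_mem ht (ofNat_mem _ 9)) 3)
      (pow_mem (add_mem (add_mem (add_mem (pow_mem ht 3)
        (mul_mem (ofNat_mem _ 243) (pow_mem ht 2))) (mul_mem (ofNat_mem _ 2187) ht))
        (ofNat_mem _ 6561)) 3))
    (by linear_combination t9C_j1 K)
    (mul_ne_zero (pow_ne_zero 9 (t9C_ne_zero K)) (t9C_quad_ne_zero K))

/-- `j ∈ K(h₂)` over every field. -/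
theorem jqModC_mem_adjoin_h2C : jqModC K ∈ K⟮h2C K⟯ := by
  have ht : h2C K ∈ K⟮h2C K⟯ := mem_adjoin_simple_self K _
  exact mem_of_mul_eq K _ (c1 := h2C K ^ 2) (c0 := (h2C K + 256) ^ 3) (pow_mem ht 2)
    (pow_mem (add_mem ht (ofNat_mem _ 256)) 3) (by linear_combination h2C_j1 K)
    (pow_ne_zero 2 (h2C_ne_zero K))

/-- `j ∈ K(h₃)` over every field. -/
theorem jqModC_mem_adjoin_h3C : jqModC K ∈ K⟮h3C K⟯ := by
  have ht : h3C K ∈ K⟮h3C K⟯ := mem_adjoin_simple_self K _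
  exact mem_of_mul_eq K _ (c1 := h3C K ^ 3) (c0 := (h3C K + 27) * (h3C K + 243) ^ 3)
    (pow_mem ht 3)
    (mul_mem (add_mem ht (ofNat_mem _ 27)) (pow_mem (add_mem ht (ofNat_mem _ 243)) 3))
    (by linear_combination h3C_j1 K) (pow_ne_zero 3 (h3C_ne_zero K))

/-- If the transcendental `j` lies in `K(h)`, then `h` is transcendental. -/
theorem transcendental_of_jqModC_mem {h : LaurentSeries K} (hj : jqModC K ∈ K⟮h⟯) :
    Transcendental K h := by
  intro halg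
  have : Algebra.IsAlgebraic K K⟮h⟯ := IntermediateField.isAlgebraic_adjoin_simple halg.isIntegral
  have h1 : IsAlgebraic K (⟨jqModC K, hj⟩ : K⟮h⟯) := Algebra.IsAlgebraic.isAlgebraic _
  have h2 : IsAlgebraic K (jqModC K) :=
    (isAlgebraic_algebraMap_iff (algebraMap K⟮h⟯ (LaurentSeries K)).injective).mpr h1
  exact (transcendental_iff_injective.mpr
    (Fermat.Agent.S28.helper3292.aeval_jqModC_injective K)) h2

/-- The Hauptmodul `t₄` is transcendental over every coefficient field. -/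
theorem transcendental_t4C : Transcendental K (t4C K) :=
  transcendental_of_jqModC_mem K (jqModC_mem_adjoin_t4C K)

/-- The Hauptmodul `t₉` is transcendental over every coefficient field. -/
theorem transcendental_t9C : Transcendental K (t9C K) :=
  transcendental_of_jqModC_mem K (jqModC_mem_adjoin_t9C K)

/-- The Hauptmodul `h₂` is transcendental over every coefficient field. -/
theorem transcendental_h2C : Transcendental K (h2C K) :=
  transcendental_of_jqModC_mem K (jqModC_mem_adjoin_h2C K)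

/-- The Hauptmodul `h₃` is transcendental over every coefficient field. -/
theorem transcendental_h3C : Transcendental K (h3C K) :=
  transcendental_of_jqModC_mem K (jqModC_mem_adjoin_h3C K)


/-- `t₄ ∈ K(j(q^d) : d ∣ M)` whenever `4 ∣ M` and `2 ≠ 0` in `K`. -/
theorem t4C_mem_full_of_dvd (h2 : (2 : K) ≠ 0) {M : ℕ} [NeZero M] (hM : 4 ∣ M) :
    t4C K ∈ modularFunctionFieldFullC K M :=
  full_degeneracyC_le K hM (t4C_mem_full K h2)

/-- `t₉ ∈ K(j(q^d) : d ∣ M)` whenever `9 ∣ M` and `3 ≠ 0` in `K`. -/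
theorem t9C_mem_full_of_dvd (h3 : (3 : K) ≠ 0) {M : ℕ} [NeZero M] (hM : 9 ∣ M) :
    t9C K ∈ modularFunctionFieldFullC K M :=
  full_degeneracyC_le K hM (t9C_mem_full K h3)

/-- `h₂ ∈ K(j(q^d) : d ∣ M)` whenever `2 ∣ M` and `2 ≠ 0` in `K`. -/
theorem h2C_mem_full_of_dvd (h2 : (2 : K) ≠ 0) {M : ℕ} [NeZero M] (hM : 2 ∣ M) :
    h2C K ∈ modularFunctionFieldFullC K M :=
  full_degeneracyC_le K hM (h2C_mem_full K h2)

/-- `h₃ ∈ K(j(q^d) : d ∣ M)` whenever `3 ∣ M` and `3 ≠ 0` in `K`. -/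
theorem h3C_mem_full_of_dvd (h3 : (3 : K) ≠ 0) {M : ℕ} [NeZero M] (hM : 3 ∣ M) :
    h3C K ∈ modularFunctionFieldFullC K M :=
  full_degeneracyC_le K hM (h3C_mem_full K h3)

/-- `K(j, j(q²)) = K(h₂)` when `2 ≠ 0` in `K`. -/
theorem full2_eq_adjoin (h2 : (2 : K) ≠ 0) : modularFunctionFieldFullC K 2 = K⟮h2C K⟯ := by
  refine le_antisymm ?_ (adjoin_simple_le_iff.mpr (h2C_mem_full K h2))
  rw [modularFunctionFieldFullC, adjoin_le_iff]
  rintro x ⟨d, hne, hdvd, rfl⟩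
  have ht : h2C K ∈ K⟮h2C K⟯ := mem_adjoin_simple_self K _
  have hd : d ≤ 2 := Nat.le_of_dvd (by norm_num) hdvd
  interval_cases d
  · exact absurd hdvd (by norm_num)
  · rw [SetLike.mem_coe, qExpand_one_apply]
    exact jqModC_mem_adjoin_h2C K
  · exact mem_of_mul_eq K _ (c1 := h2C K) (c0 := (h2C K + 16) ^ 3) ht
      (pow_mem (add_mem ht (ofNat_mem _ 16)) 3) (by linear_combination h2C_j2 K)
      (h2C_ne_zero K)

/-- `K(j, j(q³)) = K(h₃)` when `3 ≠ 0` in `K`. -/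
theorem full3_eq_adjoin (h3 : (3 : K) ≠ 0) : modularFunctionFieldFullC K 3 = K⟮h3C K⟯ := by
  refine le_antisymm ?_ (adjoin_simple_le_iff.mpr (h3C_mem_full K h3))
  rw [modularFunctionFieldFullC, adjoin_le_iff]
  rintro x ⟨d, hne, hdvd, rfl⟩
  have ht : h3C K ∈ K⟮h3C K⟯ := mem_adjoin_simple_self K _
  have hd : d ≤ 3 := Nat.le_of_dvd (by norm_num) hdvd
  interval_cases d
  · exact absurd hdvd (by norm_num)
  · rw [SetLike.mem_coe, qExpand_one_apply]
    exact jqModC_mem_adjoin_h3C K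
  · exact absurd hdvd (by norm_num)
  · exact mem_of_mul_eq K _ (c1 := h3C K) (c0 := (h3C K + 27) * (h3C K + 3) ^ 3) ht
      (mul_mem (add_mem ht (ofNat_mem _ 27)) (pow_mem (add_mem ht (ofNat_mem _ 3)) 3))
      (by linear_combination h3C_j3 K) (h3C_ne_zero K)

end Extras

end

end Fermat.Agent.Lib.helper3874
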