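import Fermat.Agent.Lib.helper28_IgusaLocal
import Fermat.Agent.Lib.helper3874_Hauptmodul

/-!
# The Igusa kernel lemma on Hauptmodul lines (helper28; shared brick S37 / S18)

* `KLAt.transfer_of_rel` : transfer of the kernel lemma from the chart `O[h]` to a chart `O[h']`
  with `h * g(h') = r(h')`, `r`, `g` monic, `deg g < deg r` (integrality of `h'` over `O[h]` is
  derived from the relation: `isIntegralElem_of_rel`).
* `klAt_lau` : the kernel lemma on the line of any `t = q⁻¹ s`, `s ∈ ℤ[[q]]`, `s(0) = 1`, with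
  such a relation to `j` (`evAt_lau_injective`: `t` is transcendental).
* `klAt_t4C`, `klAt_t9C` : the Hauptmoduln of `X₀(4)`, `X₀(9)` (`Lib/helper3874_Hauptmodul`),
  at EVERY level `N` prime to the residue characteristic; `t4C_mem_gaussFRing` (`4 ∣ N`),
  `t9C_mem_gaussFRing` (`9 ∣ N`).
* chart form of (GI) / (RED) for any coordinate `t` with the kernel lemma:
  `mem_gaussRing_of_isIntegralElem_evAt`, `exists_eq_smul_of_klAt`,
  `exists_eq_smul_of_gaussRho_eq_zero`.
-/

set_option autoImplicit false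

noncomputable section

namespace Fermat.Agent.Lib.helper28

open ModularCurve Polynomial

/-! ## Transfer along a monic relation -/

section Transfer

variable {K E : Type*} [Field K] [Field E] [Algebra K E] {O : ValuationSubring K}

theorem evAt_comp_C (h : E) : (evAt O h).comp C = (algebraMap K E).comp O.subtype := by
  ext c
  rw [RingHom.comp_apply, evAt_C]
  rfl

theorem evAt_C_ofNat (t : E) (n : ℕ) [n.AtLeastTwo] :
    evAt O t (C (OfNat.ofNat n : O)) = (OfNat.ofNat n : E) := by
  rw [evAt_C]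
  exact map_ofNat (algebraMap K E) n

theorem natDegree_X_pow_add_of_degree_lt {R : Type*} [CommRing R] [Nontrivial R] {p : R[X]}
    {n : ℕ} (H : degree p < n) : (X ^ n + p).natDegree = n := by
  rw [natDegree_add_eq_left_of_degree_lt (by rwa [degree_X_pow]), natDegree_X_pow]

/-- If `h * g(h') = r(h')` with `r` monic and `deg g < deg r`, then `h'` is integral over
`O[h]`. -/
theorem isIntegralElem_of_rel {h h' : E} (r g : (↥O)[X]) (hr : r.Monic)
    (hdeg : g.natDegree < r.natDegree) (hrel : h * evAt O h' g = evAt O h' r) :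
    (evAt O h).IsIntegralElem h' := by
  refine ⟨r.map C - C (X : (↥O)[X]) * g.map C, ?_, ?_⟩
  · refine (hr.map C).sub_of_left (degree_lt_degree ?_)
    calc (C (X : (↥O)[X]) * g.map C).natDegree ≤ (g.map C).natDegree := natDegree_C_mul_le _ _
      _ ≤ g.natDegree := natDegree_map_le
      _ < r.natDegree := hdeg
      _ = (r.map C).natDegree := (hr.natDegree_map C).symm
  · rw [eval₂_sub, eval₂_mul, eval₂_C, eval₂_map, eval₂_map, evAt_X, evAt_comp_C, ← evAt_apply,
      ← evAt_apply, ← hrel, sub_self]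

/-- **Transfer of the kernel lemma along a monic relation** `h * g(h') = r(h')`. -/
theorem KLAt.transfer_of_rel {h h' : E} {𝒞 : Set E} (hKL : KLAt O h 𝒞) (r g : (↥O)[X])
    (hr : r.Monic) (hg : g.Monic) (hdeg : g.natDegree < r.natDegree)
    (hrel : h * evAt O h' g = evAt O h' r) (hinj : Function.Injective (evAt O h')) :
    KLAt O h' 𝒞 :=
  hKL.transfer (isIntegralElem_of_rel r g hr hdeg hrel) r g g.natDegree
    (by rw [hg.coeff_natDegree]; exact isUnit_one) hrel hinj

end Transfer

/-! ## Series of the form `q⁻¹ s` -/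

section Lau

open Fermat.Agent.Lib.helper3874 Fermat.Agent.S28

variable (R : Type*) [CommRing R]

theorem lau_pow (s : PowerSeries ℤ) (n : ℕ) :
    lau R s ^ n = HahnSeries.single (-(n : ℤ)) (1 : R) * toL R (s ^ n) := by
  rw [lau, mul_pow, HahnSeries.single_pow, one_pow, ← map_pow]
  congr 2
  simp

theorem coeff_lau_pow (s : PowerSeries ℤ) (n : ℕ) (k : ℤ) :
    (lau R s ^ n).coeff k = (toL R (s ^ n)).coeff (k + n) := by
  rw [lau_pow]
  have h := HahnSeries.coeff_single_mul_add (r := (1 : R)) (x := toL R (s ^ n)) (a := k + n)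
    (b := -(n : ℤ))
  rw [one_mul, add_neg_cancel_right] at h
  exact h

theorem coeff_lau_pow_self {s : PowerSeries ℤ} (hs : PowerSeries.constantCoeff s = 1) (n : ℕ) :
    (lau R s ^ n).coeff (-(n : ℤ)) = 1 := by
  rw [coeff_lau_pow, neg_add_cancel, toL_apply]
  have h := HahnSeries.ofPowerSeries_apply_coeff (Γ := ℤ) ((s ^ n).map (Int.castRingHom R)) 0
  rw [Nat.cast_zero] at h
  rw [h, PowerSeries.coeff_map, PowerSeries.coeff_zero_eq_constantCoeff, map_pow, hs, one_pow]
  simp

theorem coeff_lau_pow_of_lt (s : PowerSeries ℤ) {n : ℕ} {m : ℤ} (hm : m < -(n : ℤ)) :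
    (lau R s ^ n).coeff m = 0 := by
  rw [coeff_lau_pow, toL_apply, ofPowerSeries_coeff_of_neg _ (by omega)]

/-- the coefficient of `q^(-deg p)` in `p(t)`, `t = q⁻¹ s`, is the leading coefficient of `p`. -/
theorem coeff_aeval_lau_neg_natDegree {s : PowerSeries ℤ}
    (hs : PowerSeries.constantCoeff s = 1) (p : R[X]) :
    (aeval (lau R s) p).coeff (-(p.natDegree : ℤ)) = p.leadingCoeff := by
  rw [Polynomial.aeval_eq_sum_range, HahnSeries.coeff_sum]
  simp only [Algebra.smul_def]
  rw [Finset.sum_eq_single p.natDegree]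
  · rw [helper3292.coeff_algebraMap_mul, coeff_lau_pow_self R hs, mul_one, Polynomial.leadingCoeff]
  · intro i hi hne
    have hlt : i < p.natDegree :=
      lt_of_le_of_ne (Nat.lt_succ_iff.mp (Finset.mem_range.mp hi)) hne
    rw [helper3292.coeff_algebraMap_mul,
      coeff_lau_pow_of_lt R s (by exact_mod_cast (neg_lt_neg_iff.mpr (Int.ofNat_lt.mpr hlt))),
      mul_zero]
  · intro h
    exact absurd (Finset.mem_range.mpr (Nat.lt_succ_self _)) h

/-- `t = q⁻¹ s` is transcendental: `p(t) = 0 → p = 0`, over any commutative ring. -/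
theorem aeval_lau_eq_zero_iff {s : PowerSeries ℤ} (hs : PowerSeries.constantCoeff s = 1)
    (p : R[X]) : aeval (lau R s) p = 0 ↔ p = 0 := by
  constructor
  · intro hp
    have h := coeff_aeval_lau_neg_natDegree R hs p
    rw [hp, HahnSeries.coeff_zero] at h
    exact Polynomial.leadingCoeff_eq_zero.mp h.symm
  · rintro rfl
    simp

end Lau

/-! ## The modular instances -/

section Modular

open Fermat.Agent.S28 Fermat.Agent.S18 Fermat.Agent.Lib.helper3874

variable {L : Type} [Field L] [Algebra ℚ L] (A : ValuationSubring L) (N : ℕ) [NeZero N]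

omit [Algebra ℚ L] in
theorem evAt_lau_injective {s : PowerSeries ℤ} (hs : PowerSeries.constantCoeff s = 1) :
    Function.Injective (evAt A (lau L s)) := by
  rw [injective_iff_map_eq_zero]
  intro P hP
  rw [evAt_eq_aeval, aeval_lau_eq_zero_iff L hs] at hP
  exact Polynomial.map_injective A.subtype Subtype.val_injective
    (hP.trans (Polynomial.map_zero _).symm)

/-- **The kernel lemma on a Hauptmodul line** `t = q⁻¹ s` with `j * g(t) = r(t)`, `r`, `g` monic,
`deg g < deg r`. -/
theorem klAt_lau (hN : GoodLevel A N) {s : PowerSeries ℤ}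
    (hs : PowerSeries.constantCoeff s = 1) (r g : (↥A)[X]) (hr : r.Monic) (hg : g.Monic)
    (hdeg : g.natDegree < r.natDegree)
    (hrel : jqModC L * evAt A (lau L s) g = evAt A (lau L s) r) :
    KLAt A (lau L s) (gaussFSet A N) :=
  (klAt_jq_modular A N hN).transfer_of_rel r g hr hg hdeg hrel (evAt_lau_injective A hs)

/-! ### `t₄` -/

section T4

variable (R : Type*) [CommRing R]

/-- `(X² + 256 X + 4096)³`. -/
def t4Num : R[X] := (X ^ 2 + (C 256 * X + C 4096)) ^ 3

/-- `X⁴ (X + 16)`. -/
def t4Den : R[X] := X ^ 4 * (X + C 16)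

theorem t4Num_monic : (t4Num R).Monic :=
  (monic_X_pow_add (lt_of_le_of_lt (degree_linear_le) (by exact_mod_cast one_lt_two))).pow 3

theorem t4Den_monic : (t4Den R).Monic := (monic_X_pow 4).mul (monic_X_add_C 16)

theorem natDegree_t4Num [Nontrivial R] : (t4Num R).natDegree = 6 := by
  have h : (X ^ 2 + (C 256 * X + C 4096) : R[X]).Monic :=
    monic_X_pow_add (lt_of_le_of_lt (degree_linear_le) (by exact_mod_cast one_lt_two))
  rw [t4Num, h.natDegree_pow,
    natDegree_X_pow_add_of_degree_lt (lt_of_le_of_lt (degree_linear_le) (by exact_mod_cast one_lt_two))]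

theorem natDegree_t4Den [Nontrivial R] : (t4Den R).natDegree = 5 := by
  rw [t4Den, (monic_X_pow 4).natDegree_mul (monic_X_add_C 16), natDegree_X_pow,
    natDegree_X_add_C]

end T4

omit [Algebra ℚ L] in
theorem evAt_t4Num (t : LaurentSeries L) :
    evAt A t (t4Num A) = (t ^ 2 + 256 * t + 4096) ^ 3 := by
  simp only [t4Num, map_pow, map_add, map_mul, evAt_X, add_assoc]
  rw [evAt_C_ofNat, evAt_C_ofNat]

omit [Algebra ℚ L] in
theorem evAt_t4Den (t : LaurentSeries L) : evAt A t (t4Den A) = t ^ 4 * (t + 16) := by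
  simp only [t4Den, map_pow, map_add, map_mul, evAt_X]
  rw [evAt_C_ofNat]

/-- **The kernel lemma on the line of `t₄`** (Hauptmodul of `X₀(4)`), chart `A[t₄]`. -/
theorem klAt_t4C (hN : GoodLevel A N) : KLAt A (t4C L) (gaussFSet A N) := by
  refine klAt_lau A N hN constantCoeff_T4 (t4Num A) (t4Den A) (t4Num_monic A) (t4Den_monic A)
    (by rw [natDegree_t4Den, natDegree_t4Num]; norm_num) ?_
  show jqModC L * evAt A (t4C L) (t4Den A) = evAt A (t4C L) (t4Num A)
  rw [evAt_t4Num, evAt_t4Den, ← mul_assoc]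
  exact t4C_j1 L

/-! ### `t₉` -/

section T9

variable (R : Type*) [CommRing R]

/-- `(X + 9)³ (X³ + 243 X² + 2187 X + 6561)³`. -/
def t9Num : R[X] := (X + C 9) ^ 3 * (X ^ 3 + (C 243 * X ^ 2 + C 2187 * X + C 6561)) ^ 3

/-- `X⁹ (X² + 9 X + 27)`. -/
def t9Den : R[X] := X ^ 9 * (X ^ 2 + (C 9 * X + C 27))

theorem t9Num_monic : (t9Num R).Monic :=
  ((monic_X_add_C 9).pow 3).mul
    ((monic_X_pow_add (lt_of_le_of_lt (degree_quadratic_le)
      (by exact_mod_cast (by norm_num : (2 : ℕ) < 3)))).pow 3)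

theorem t9Den_monic : (t9Den R).Monic :=
  (monic_X_pow 9).mul
    (monic_X_pow_add (lt_of_le_of_lt (degree_linear_le) (by exact_mod_cast one_lt_two)))

theorem natDegree_t9Num [Nontrivial R] : (t9Num R).natDegree = 12 := by
  have h3 : (X ^ 3 + (C 243 * X ^ 2 + C 2187 * X + C 6561) : R[X]).Monic :=
    monic_X_pow_add (lt_of_le_of_lt (degree_quadratic_le)
      (by exact_mod_cast (by norm_num : (2 : ℕ) < 3)))
  rw [t9Num, ((monic_X_add_C 9).pow 3).natDegree_mul (h3.pow 3), (monic_X_add_C 9).natDegree_pow,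
    h3.natDegree_pow, natDegree_X_add_C,
    natDegree_X_pow_add_of_degree_lt (lt_of_le_of_lt (degree_quadratic_le)
      (by exact_mod_cast (by norm_num : (2 : ℕ) < 3)))]

theorem natDegree_t9Den [Nontrivial R] : (t9Den R).natDegree = 11 := by
  have h2 : (X ^ 2 + (C 9 * X + C 27) : R[X]).Monic :=
    monic_X_pow_add (lt_of_le_of_lt (degree_linear_le) (by exact_mod_cast one_lt_two))
  rw [t9Den, (monic_X_pow 9).natDegree_mul h2, natDegree_X_pow,
    natDegree_X_pow_add_of_degree_lt (lt_of_le_of_lt (degree_linear_le) (by exact_mod_cast one_lt_two))]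

end T9

omit [Algebra ℚ L] in
theorem evAt_t9Num (t : LaurentSeries L) :
    evAt A t (t9Num A) = (t + 9) ^ 3 * (t ^ 3 + 243 * t ^ 2 + 2187 * t + 6561) ^ 3 := by
  simp only [t9Num, map_pow, map_add, map_mul, evAt_X, add_assoc]
  rw [evAt_C_ofNat, evAt_C_ofNat, evAt_C_ofNat, evAt_C_ofNat]

omit [Algebra ℚ L] in
theorem evAt_t9Den (t : LaurentSeries L) :
    evAt A t (t9Den A) = t ^ 9 * (t ^ 2 + 9 * t + 27) := by
  simp only [t9Den, map_pow, map_add, map_mul, evAt_X, add_assoc]
  rw [evAt_C_ofNat, evAt_C_ofNat]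

/-- **The kernel lemma on the line of `t₉`** (Hauptmodul of `X₀(9)`), chart `A[t₉]`. -/
theorem klAt_t9C (hN : GoodLevel A N) : KLAt A (t9C L) (gaussFSet A N) := by
  refine klAt_lau A N hN constantCoeff_T9 (t9Num A) (t9Den A) (t9Num_monic A) (t9Den_monic A)
    (by rw [natDegree_t9Den, natDegree_t9Num]; norm_num) ?_
  show jqModC L * evAt A (t9C L) (t9Den A) = evAt A (t9C L) (t9Num A)
  rw [evAt_t9Num, evAt_t9Den, ← mul_assoc]
  exact t9C_j1 L

/-! ### Membership in the Gauss ring of `F` -/

theorem t4C_mem_gaussFRing (h4 : 4 ∣ N) : t4C L ∈ gaussFRing A N := by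
  have hL0 : CharZero L := algebraRat.charZero L
  refine ⟨(helper8991.mem_laurentBaseChange_full_iff N).mpr
    (full_degeneracyC_le L h4 (t4C_mem_full L two_ne_zero)), ?_⟩
  have h := helper8991.inc_mem_gaussRing A (IsLocalRing.residue A) (t4C A)
  rwa [show helper8991.inc A (t4C A) = t4C L from coeffMap_t4C _] at h

theorem t9C_mem_gaussFRing (h9 : 9 ∣ N) : t9C L ∈ gaussFRing A N := by
  have hL0 : CharZero L := algebraRat.charZero L
  refine ⟨(helper8991.mem_laurentBaseChange_full_iff N).mpr
    (full_degeneracyC_le L h9 (t9C_mem_full L three_ne_zero)), ?_⟩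
  have h := helper8991.inc_mem_gaussRing A (IsLocalRing.residue A) (t9C A)
  rwa [show helper8991.inc A (t9C A) = t9C L from coeffMap_t9C _] at h

/-! ### Chart form of (GI) and (RED) for an arbitrary coordinate -/

omit [NeZero N] in
/-- **(GI)** in the chart `A[t]`, `t` any Gauss-integral element of `F`. -/
theorem mem_gaussRing_of_isIntegralElem_evAt {t : LaurentSeries L} (ht : t ∈ gaussFRing A N)
    {y : LaurentSeries L} (hy : y ∈ laurentBaseChange L (modularFunctionFieldFull N))
    (hint : (evAt A t).IsIntegralElem y) :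
    y ∈ helper8991.gaussRing A (IsLocalRing.residue A) := by
  refine mem_gaussRing_of_isIntegral A N (R := (evAt A t).range) ?_ hy
    ((isIntegralElem_iff_isIntegral_range _).mp hint)
  rintro _ ⟨P, rfl⟩
  exact evAt_mem_gaussFRing A N ht P

/-- **(RED)** in the chart `A[t]` for any coordinate `t` with the kernel lemma. -/
theorem exists_eq_smul_of_klAt (hN : GoodLevel A N) {t : LaurentSeries L}
    (hKL : KLAt A t (gaussFSet A N)) {y : LaurentSeries L}
    (hy : y ∈ laurentBaseChange L (modularFunctionFieldFull N))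
    (hint : (evAt A t).IsIntegralElem y) {X Y : LaurentSeries A} (hY : redO A Y ≠ 0)
    (hXY : y * iotaO A Y = iotaO A X) (hX : redO A X = 0) :
    ∃ (c : A) (g : LaurentSeries L), c ∈ IsLocalRing.maximalIdeal A ∧
      y = algebraMap L (LaurentSeries L) (c : L) * g ∧ g ∈ gaussFSet A N ∧
      (evAt A t).IsIntegralElem g := by
  obtain ⟨c, g, hc, hyg, hg, hgint⟩ := exists_eq_smul_of_klSub A N hN hKL.klSub hy
    ((isIntegralElem_iff_isIntegral_range _).mp hint) hY hXY hX
  exact ⟨c, g, hc, hyg, hg, (isIntegralElem_iff_isIntegral_range _).mpr hgint⟩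

/-- **(RED), `gaussRho` form**: a Gauss-integral element of `F`, integral over a chart ring `R`
with the kernel lemma and with zero reduction, is `c g` with `c` in the maximal ideal of `A` and
`g ∈ F` Gauss-integral and integral over `R`. -/
theorem exists_eq_smul_of_gaussRho_eq_zero (hN : GoodLevel A N) {R : Subring (LaurentSeries L)}
    (hKL : KLSub A R (gaussFSet A N)) {y : LaurentSeries L}
    (hy : y ∈ laurentBaseChange L (modularFunctionFieldFull N)) (hint : IsIntegral R y)
    (hyG : y ∈ helper8991.gaussRing A (IsLocalRing.residue A))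
    (h0 : helper8991.gaussRho A (IsLocalRing.residue A) ⟨y, hyG⟩ = 0) :
    ∃ (c : A) (g : LaurentSeries L), c ∈ IsLocalRing.maximalIdeal A ∧
      y = algebraMap L (LaurentSeries L) (c : L) * g ∧ g ∈ gaussFSet A N ∧ IsIntegral R g := by
  obtain ⟨X, Y, hY, hXY⟩ := hyG
  have h1 := helper8991.gaussRho_eq A (IsLocalRing.residue A) ⟨y, ⟨X, Y, hY, hXY⟩⟩ hY hXY
  rw [h0] at h1
  have hX : redO A X = 0 := by
    rcases div_eq_zero_iff.mp h1.symm with h | h
    · exact h
    · exact absurd h hY
  exact exists_eq_smul_of_klSub A N hN hKL hy hint hY hXY hX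

end Modular

end Fermat.Agent.Lib.helper28
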