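import Fermat.Agent.Lib.helper28_TwoDenominators
import Fermat.Agent.S28.helper3292_JqFacts

/-!
# The Igusa kernel lemma over an arbitrary valuation ring (helper28; shared brick S37 / S18)

Setting: `K` a field, `O : ValuationSubring K` (a DVR of a number field, or the non-discrete
valuation ring of `ℚ̄` over a prime `ℓ`), `k` its residue field, `j = jqModC` the formal
`j`-series.  `evK O : O[X] →+* K((q))` is `P ↦ P(j)`; "integral over `O[j]`" means
`(evK O).IsIntegralElem`.

Input (hypothesis passing): integer `q`-series `b i`, integral over `ℤ[j]`, whose reductions are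
linearly independent over `k[j̄]` (`Indep O b`), and an element `f : K((q))` of the `K(j)`-span of
the `b i` (`HasRep b f`).  For `f` in the function field of `X₀(N)` over `K` and the `b i` of the
S28 core (`ℓ ∤ N`) both hold.

Output:
* `exists_normalRep`            : primitive representation `Q(j) f = ∑ P_i(j) b_i` over `O[X]`;
* `normalRep_primitive_of_isIntegralElem` (GI) : if `f` is integral over `O[j]`, the denominator
  `Q` is primitive (`f` lies in the Gauss ring, with an explicit denominator);
* `isIntegralElem_of_smul` (KL) : `f` Gauss-integral, `c ≠ 0` in `O`, `c f` integral over `O[j]`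
  ⟹ `f` integral over `O[j]`;
* `exists_eq_smul_of_redO_eq_zero` (RED) : `f` integral over `O[j]` with zero reduction is
  `c g` with `c` a non-unit of `O` and `g` integral over `O[j]`.
-/

set_option autoImplicit false

noncomputable section

namespace Fermat.Agent.Lib.helper28

open ModularCurve Polynomial

section Basic

variable {K : Type*} [Field K] (O : ValuationSubring K)

/-- The residue field of `O`. -/
abbrev kO : Type _ := IsLocalRing.ResidueField O

/-- `O((q)) → K((q))`. -/
def iotaO : LaurentSeries O →+* LaurentSeries K := coeffMap O.subtype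

/-- coefficientwise reduction `O((q)) → k((q))`. -/
def redO : LaurentSeries O →+* LaurentSeries (kO O) := coeffMap (IsLocalRing.residue O)

theorem iotaO_injective : Function.Injective (iotaO O) := by
  intro x y h
  ext n
  have h1 := congrArg (fun z => z.coeff n) h
  simp only [iotaO, coeffMap_coeff] at h1
  exact congrArg Subtype.val (Subtype.ext h1)

/-- `P ↦ P(j)`, `O[X] → O((q))`. -/
def evO : O[X] →+* LaurentSeries O :=
  (aeval (jqModC O) : O[X] →ₐ[O] LaurentSeries O).toRingHom

/-- `P ↦ P(j)`, `O[X] → K((q))`. -/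
def evK : O[X] →+* LaurentSeries K := (iotaO O).comp (evO O)

/-- `p ↦ p(j̄)`, `k[X] → k((q))`. -/
def evk : (kO O)[X] →+* LaurentSeries (kO O) :=
  (aeval (jqModC (kO O)) : (kO O)[X] →ₐ[kO O] LaurentSeries (kO O)).toRingHom

theorem evK_apply (P : O[X]) : evK O P = iotaO O (evO O P) := rfl

theorem redO_evO (P : O[X]) : redO O (evO O P) = evk O (P.map (IsLocalRing.residue O)) :=
  Fermat.Agent.S28.helper3292.coeffMap_aeval_jqModC _ P

theorem evK_eq_aeval (P : O[X]) : evK O P = aeval (jqModC K) (P.map O.subtype) :=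
  Fermat.Agent.S28.helper3292.coeffMap_aeval_jqModC _ P

theorem evO_injective : Function.Injective (evO O) :=
  (injective_iff_map_eq_zero _).mpr fun p hp =>
    (Fermat.Agent.S28.helper3292.aeval_jqModC_eq_zero_iff O p).mp hp

theorem evK_injective : Function.Injective (evK O) :=
  (iotaO_injective O).comp (evO_injective O)

theorem evk_eq_zero_iff (p : (kO O)[X]) : evk O p = 0 ↔ p = 0 :=
  Fermat.Agent.S28.helper3292.aeval_jqModC_eq_zero_iff _ p

/-- an integer `q`-series as an element of `O((q))`. -/
def zO (b : LaurentSeries ℤ) : LaurentSeries O := coeffMap (Int.castRingHom O) b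

theorem iotaO_zO (b : LaurentSeries ℤ) :
    iotaO O (zO O b) = coeffMap (Int.castRingHom K) b := by
  rw [iotaO, zO, coeffMap_coeffMap]
  exact coeffMap_congr (RingHom.ext_int _ _) b

theorem redO_zO (b : LaurentSeries ℤ) :
    redO O (zO O b) = coeffMap (Int.castRingHom (kO O)) b := by
  rw [redO, zO, coeffMap_coeffMap]
  exact coeffMap_congr (RingHom.ext_int _ _) b

end Basic

/-- `b` is integral over `ℤ[j]` inside `ℤ((q))` (same unfolding as the S28 `Spec.IsIntegralOverZj`). -/
def IntOverZj (b : LaurentSeries ℤ) : Prop :=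
  ∃ P : Polynomial (Polynomial ℤ), P.Monic ∧
    P.eval₂ (Polynomial.aeval (jqModC ℤ)).toRingHom b = 0

section Core

variable {K : Type*} [Field K] (O : ValuationSubring K) {n : ℕ} (b : Fin n → LaurentSeries ℤ)

/-- The reductions of the `b i` are linearly independent over `k[j̄]`. -/
def Indep : Prop :=
  ∀ p : Fin n → (kO O)[X],
    ∑ i, evk O (p i) * coeffMap (Int.castRingHom (kO O)) (b i) = 0 → p = 0

/-- `f` lies in the `K(j)`-span of the `b i`. -/
def HasRep (f : LaurentSeries K) : Prop :=
  ∃ (Q : K[X]) (P : Fin n → K[X]), Q ≠ 0 ∧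
    aeval (jqModC K) Q * f = ∑ i, aeval (jqModC K) (P i) * coeffMap (Int.castRingHom K) (b i)

/-- A jointly primitive representation of `f` over `O[X]`. -/
def NormalRep (f : LaurentSeries K) (Q : O[X]) (P : Fin n → O[X]) : Prop :=
  Q ≠ 0 ∧ evK O Q * f = ∑ i, evK O (P i) * coeffMap (Int.castRingHom K) (b i) ∧
    (Q.map (IsLocalRing.residue O) ≠ 0 ∨ ∃ i, (P i).map (IsLocalRing.residue O) ≠ 0)

variable {O b}

theorem isIntegralElem_sum {R A : Type*} [CommRing R] [CommRing A] (φ : R →+* A) {ι : Type*}
    (s : Finset ι) (g : ι → A) (h : ∀ i ∈ s, φ.IsIntegralElem (g i)) :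
    φ.IsIntegralElem (∑ i ∈ s, g i) := by
  classical
  induction s using Finset.induction_on with
  | empty => simpa using φ.isIntegralElem_zero
  | insert a s ha ih =>
    rw [Finset.sum_insert ha]
    exact RingHom.IsIntegralElem.add _ (h a (Finset.mem_insert_self a s))
      (ih fun i hi => h i (Finset.mem_insert_of_mem hi))

/-- integer series integral over `ℤ[j]` are integral over `O[j]`. -/
theorem isIntegralElem_evK_of_intOverZj (O : ValuationSubring K) {c : LaurentSeries ℤ}
    (hc : IntOverZj c) : (evK O).IsIntegralElem (coeffMap (Int.castRingHom K) c) := by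
  obtain ⟨P, hP, h0⟩ := hc
  refine ⟨P.map (Polynomial.mapRingHom (Int.castRingHom O)), hP.map _, ?_⟩
  rw [Polynomial.eval₂_map]
  have hcomp : (evK O).comp (Polynomial.mapRingHom (Int.castRingHom O)) =
      (coeffMap (Int.castRingHom K)).comp
        (aeval (jqModC ℤ) : ℤ[X] →ₐ[ℤ] LaurentSeries ℤ).toRingHom := by
    refine RingHom.ext fun p => ?_
    show iotaO O (aeval (jqModC O) (p.map (Int.castRingHom O))) =
      coeffMap (Int.castRingHom K) (aeval (jqModC ℤ) p)
    rw [← Fermat.Agent.S28.helper3292.coeffMap_aeval_jqModC, iotaO, coeffMap_coeffMap]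
    exact coeffMap_congr (RingHom.ext_int _ _) _
  rw [hcomp, ← Polynomial.hom_eval₂, h0, map_zero]

/-- **Normal form.** -/
theorem exists_normalRep {f : LaurentSeries K} (hf : HasRep b f) :
    ∃ (Q : O[X]) (P : Fin n → O[X]), NormalRep O b f Q P := by
  classical
  obtain ⟨Q, P, hQ, hrel⟩ := hf
  set S : Finset K := Q.coeffs ∪ Finset.univ.biUnion (fun i => (P i).coeffs) with hS
  have hne : S.Nonempty := by
    refine ⟨Q.leadingCoeff, Finset.mem_union_left _ ?_⟩
    exact Polynomial.coeff_mem_coeffs (Polynomial.leadingCoeff_ne_zero.mpr hQ)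
  obtain ⟨s₀, hs₀S, hmax⟩ := S.exists_max_image (fun s => O.valuation s) hne
  have hS0 : ∀ s ∈ S, s ≠ 0 := by
    intro s hs
    rcases Finset.mem_union.mp hs with h | h
    · obtain ⟨m, hm, rfl⟩ := Polynomial.mem_coeffs_iff.mp h
      exact Polynomial.mem_support_iff.mp hm
    · obtain ⟨i, -, hi⟩ := Finset.mem_biUnion.mp h
      obtain ⟨m, hm, rfl⟩ := Polynomial.mem_coeffs_iff.mp hi
      exact Polynomial.mem_support_iff.mp hm
  have hs₀ : s₀ ≠ 0 := hS0 s₀ hs₀S
  set u : K := s₀⁻¹ with hu
  have hu0 : u ≠ 0 := inv_ne_zero hs₀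
  have hmemO : ∀ s, (s = 0 ∨ s ∈ S) → u * s ∈ O := by
    intro s hs
    rcases hs with rfl | hs
    · rw [mul_zero]; exact O.zero_mem
    · rw [← O.valuation_le_one_iff, map_mul, hu, map_inv₀, mul_comm]
      have hv0 : O.valuation s₀ ≠ 0 := (Valuation.ne_zero_iff _).mpr hs₀
      exact mul_inv_le_one_of_le₀ (hmax s hs) zero_le
  have hcoefQ : ∀ m, Q.coeff m = 0 ∨ Q.coeff m ∈ S := by
    intro m
    by_cases h : Q.coeff m = 0
    · exact Or.inl h
    · exact Or.inr (Finset.mem_union_left _ (Polynomial.coeff_mem_coeffs h))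
  have hcoefP : ∀ i m, (P i).coeff m = 0 ∨ (P i).coeff m ∈ S := by
    intro i m
    by_cases h : (P i).coeff m = 0
    · exact Or.inl h
    · exact Or.inr (Finset.mem_union_right _
        (Finset.mem_biUnion.mpr ⟨i, Finset.mem_univ i, Polynomial.coeff_mem_coeffs h⟩))
  have hliftQ : C u * Q ∈ lifts O.subtype := by
    rw [lifts_iff_coeff_lifts]
    intro m
    rw [coeff_C_mul]
    exact ⟨⟨_, hmemO _ (hcoefQ m)⟩, rfl⟩
  have hliftP : ∀ i, C u * P i ∈ lifts O.subtype := by
    intro i
    rw [lifts_iff_coeff_lifts]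
    intro m
    rw [coeff_C_mul]
    exact ⟨⟨_, hmemO _ (hcoefP i m)⟩, rfl⟩
  obtain ⟨Q', hQ'⟩ := (mem_lifts _).mp hliftQ
  choose P' hP' using fun i => (mem_lifts _).mp (hliftP i)
  have hsubinj : Function.Injective O.subtype := Subtype.val_injective
  refine ⟨Q', P', ?_, ?_, ?_⟩
  · rintro rfl
    rw [Polynomial.map_zero] at hQ'
    exact (mul_ne_zero (C_ne_zero.mpr hu0) hQ) hQ'.symm
  · rw [evK_eq_aeval, hQ', map_mul, mul_assoc, hrel, Finset.mul_sum]
    refine Finset.sum_congr rfl fun i _ => ?_
    rw [evK_eq_aeval, hP' i, map_mul, mul_assoc]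
  · -- the coefficient `s₀` becomes `1`
    have hone : ∀ (R : O[X]) (T : K[X]) (m : ℕ), R.map O.subtype = C u * T → T.coeff m = s₀ →
        R.map (IsLocalRing.residue O) ≠ 0 := by
      intro R T m hR hT h0
      have h1 : (R.coeff m : K) = 1 := by
        have := congrArg (fun p => p.coeff m) hR
        simp only [coeff_map, coeff_C_mul, hT] at this
        exact this.trans (by rw [hu, inv_mul_cancel₀ hs₀])
      have h2 : R.coeff m = 1 := Subtype.ext h1
      have h3 := congrArg (fun p => p.coeff m) h0
      simp only [coeff_map, coeff_zero, h2, map_one] at h3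
      exact one_ne_zero h3
    rcases Finset.mem_union.mp hs₀S with h | h
    · obtain ⟨m, -, hm⟩ := Polynomial.mem_coeffs_iff.mp h
      exact Or.inl (hone Q' Q m hQ' hm.symm)
    · obtain ⟨i, -, hi⟩ := Finset.mem_biUnion.mp h
      obtain ⟨m, -, hm⟩ := Polynomial.mem_coeffs_iff.mp hi
      exact Or.inr ⟨i, hone (P' i) (P i) m (hP' i) hm.symm⟩

/-- the numerator of a normal representation, as an element of `O((q))`. -/
def numO (O : ValuationSubring K) (b : Fin n → LaurentSeries ℤ) (P : Fin n → O[X]) :
    LaurentSeries O :=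
  ∑ i, evO O (P i) * zO O (b i)

theorem iotaO_numO (P : Fin n → O[X]) :
    iotaO O (numO O b P) = ∑ i, evK O (P i) * coeffMap (Int.castRingHom K) (b i) := by
  rw [numO, map_sum]
  refine Finset.sum_congr rfl fun i _ => ?_
  rw [map_mul, iotaO_zO, evK_apply]

theorem redO_numO (P : Fin n → O[X]) :
    redO O (numO O b P) =
      ∑ i, evk O ((P i).map (IsLocalRing.residue O)) *
        coeffMap (Int.castRingHom (kO O)) (b i) := by
  rw [numO, map_sum]
  refine Finset.sum_congr rfl fun i _ => ?_
  rw [map_mul, redO_zO, redO_evO]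

/-- if the reduction of the numerator vanishes, all `P i` reduce to zero. -/
theorem map_residue_eq_zero_of_redO_numO (hind : Indep O b) {P : Fin n → O[X]}
    (h : redO O (numO O b P) = 0) (i : Fin n) : (P i).map (IsLocalRing.residue O) = 0 := by
  rw [redO_numO] at h
  exact congrFun (hind _ h) i

/-- **(GI)** An element integral over `O[j]` has a primitive denominator: it lies in the Gauss
ring. -/
theorem normalRep_primitive_of_isIntegralElem (hind : Indep O b) {f : LaurentSeries K}
    {Q : O[X]} {P : Fin n → O[X]} (h : NormalRep O b f Q P)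
    (hint : (evK O).IsIntegralElem f) : Q.map (IsLocalRing.residue O) ≠ 0 := by
  obtain ⟨hQ0, hrel, hprim⟩ := h
  intro hQres
  obtain ⟨G, hG, hroot⟩ := hint
  set G' : O[X][X] := G.scaleRoots Q with hG'
  have hG'm : G'.Monic := (monic_scaleRoots_iff _).2 hG
  have h1 : G'.eval₂ (evK O) (iotaO O (numO O b P)) = 0 := by
    rw [iotaO_numO, ← hrel, hG', scaleRoots_eval₂_mul, hroot, mul_zero]
  have h2 : G'.eval₂ (evO O) (numO O b P) = 0 := by
    apply iotaO_injective O
    rw [Polynomial.hom_eval₂, map_zero]
    exact h1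
  have h3 : G'.eval₂ ((redO O).comp (evO O)) (redO O (numO O b P)) = 0 := by
    rw [← Polynomial.hom_eval₂, h2, map_zero]
  have hψQ : ((redO O).comp (evO O)) Q = 0 := by
    rw [RingHom.comp_apply, redO_evO, hQres, map_zero]
  have h4 : G'.eval₂ ((redO O).comp (evO O)) (redO O (numO O b P)) =
      (redO O (numO O b P)) ^ G'.natDegree := by
    rw [Polynomial.eval₂_eq_sum_range, Finset.sum_range_succ]
    rw [Finset.sum_eq_zero, zero_add, hG'm.coeff_natDegree, map_one, one_mul]
    intro i hi
    have hi' : i < G.natDegree := by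
      have := Finset.mem_range.mp hi
      rwa [hG', natDegree_scaleRoots] at this
    rw [hG', coeff_scaleRoots, map_mul, map_pow, hψQ, zero_pow (by omega), mul_zero, zero_mul]
  rw [h4] at h3
  have h5 : redO O (numO O b P) = 0 := eq_zero_of_pow_eq_zero h3
  rcases hprim with hq | ⟨i, hi⟩
  · exact hq hQres
  · exact hi (map_residue_eq_zero_of_redO_numO hind h5 i)

/-- a polynomial over `O` with nonzero reduction has a unit coefficient. -/
theorem exists_isUnit_coeff {Q : O[X]} (hQ : Q.map (IsLocalRing.residue O) ≠ 0) :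
    ∃ i, IsUnit (Q.coeff i) := by
  by_contra hcon
  push Not at hcon
  apply hQ
  ext i
  rw [coeff_map, coeff_zero, IsLocalRing.residue_eq_zero_iff]
  exact hcon i

/-- The relation between a Gauss-integral presentation `f * ι s = ι a` and a normal
representation, inside `O((q))`. -/
theorem evO_mul_eq_numO_mul {f : LaurentSeries K} {Q : O[X]} {P : Fin n → O[X]}
    (hrel : evK O Q * f = ∑ i, evK O (P i) * coeffMap (Int.castRingHom K) (b i))
    {a s : LaurentSeries O} (hfs : f * iotaO O s = iotaO O a) :
    evO O Q * a = numO O b P * s := by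
  apply iotaO_injective O
  rw [map_mul, map_mul, ← hfs, iotaO_numO, ← hrel, evK_apply]
  ring

/-- A Gauss-integral element has primitive denominator in every normal representation. -/
theorem normalRep_primitive_of_gauss (hind : Indep O b) {f : LaurentSeries K}
    {Q : O[X]} {P : Fin n → O[X]} (h : NormalRep O b f Q P)
    {a s : LaurentSeries O} (hs : redO O s ≠ 0) (hfs : f * iotaO O s = iotaO O a) :
    Q.map (IsLocalRing.residue O) ≠ 0 := by
  obtain ⟨hQ0, hrel, hprim⟩ := h
  intro hQres
  have h1 := congrArg (redO O) (evO_mul_eq_numO_mul hrel hfs)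
  rw [map_mul, map_mul, redO_evO, hQres, map_zero, zero_mul] at h1
  have h2 : redO O (numO O b P) = 0 := (mul_eq_zero.mp h1.symm).resolve_right hs
  rcases hprim with hq | ⟨i, hi⟩
  · exact hq hQres
  · exact hi (map_residue_eq_zero_of_redO_numO hind h2 i)

/-- the numerator side of a normal representation is integral over `O[j]`. -/
theorem isIntegralElem_evK_mul (hb : ∀ i, IntOverZj (b i)) {f : LaurentSeries K} {Q : O[X]}
    {P : Fin n → O[X]}
    (hrel : evK O Q * f = ∑ i, evK O (P i) * coeffMap (Int.castRingHom K) (b i)) :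
    (evK O).IsIntegralElem (evK O Q * f) := by
  rw [hrel]
  exact isIntegralElem_sum _ _ _ fun i _ =>
    RingHom.IsIntegralElem.mul _ (RingHom.isIntegralElem_map _)
      (isIntegralElem_evK_of_intOverZj O (hb i))

/-- **(KL) The Igusa kernel lemma over `O`.**  If `f` (in the `K(j)`-span of the `b i`) is
Gauss-integral, `f * ι s = ι a` with `red s ≠ 0`, and `c f` is integral over `O[j]` for some
nonzero `c : O`, then `f` is integral over `O[j]`. -/
theorem isIntegralElem_of_smul (hb : ∀ i, IntOverZj (b i)) (hind : Indep O b)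
    {f : LaurentSeries K} (hrep : HasRep b f) {a s : LaurentSeries O} (hs : redO O s ≠ 0)
    (hfs : f * iotaO O s = iotaO O a) {c : O} (hc : c ≠ 0)
    (hcf : (evK O).IsIntegralElem (evK O (C c) * f)) : (evK O).IsIntegralElem f := by
  obtain ⟨Q, P, hQP⟩ := exists_normalRep (O := O) hrep
  have hQres := normalRep_primitive_of_gauss hind hQP hs hfs
  obtain ⟨i₀, hi₀⟩ := exists_isUnit_coeff hQres
  exact isIntegralElem_of_two_denominators_poly (evK O) (evK_injective O) hc i₀ hi₀ hcf
    (isIntegralElem_evK_mul hb hQP.2.1)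

/-- **(RED) kernel of the reduction on the integral closure.**  If `f` is integral over `O[j]`
and has zero reduction (`f * ι s = ι a`, `red s ≠ 0`, `red a = 0`), then `f = c g` with `c` a
non-unit of `O` and `g` integral over `O[j]`, again in the span of the `b i` and Gauss-integral. -/
theorem exists_eq_smul_of_redO_eq_zero (hb : ∀ i, IntOverZj (b i)) (hind : Indep O b)
    {f : LaurentSeries K} (hrep : HasRep b f) {a s : LaurentSeries O} (hs : redO O s ≠ 0)
    (hfs : f * iotaO O s = iotaO O a) (ha : redO O a = 0) :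
    ∃ (c : O) (g : LaurentSeries K), ¬ IsUnit c ∧ f = evK O (C c) * g ∧ HasRep b g ∧
      (∃ a' s' : LaurentSeries O, redO O s' ≠ 0 ∧ g * iotaO O s' = iotaO O a') ∧
      ((evK O).IsIntegralElem f → (evK O).IsIntegralElem g) := by
  classical
  obtain ⟨Q, P, hQP⟩ := exists_normalRep (O := O) hrep
  have hQres := normalRep_primitive_of_gauss hind hQP hs hfs
  obtain ⟨hQ0, hrel, -⟩ := hQP
  have hevQ : evK O Q ≠ 0 := fun h => hQ0 (evK_injective O (h.trans (map_zero _).symm))
  -- all `P i` reduce to zero
  have hPres : ∀ i, (P i).map (IsLocalRing.residue O) = 0 := by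
    have h1 := congrArg (redO O) (evO_mul_eq_numO_mul hrel hfs)
    rw [map_mul, map_mul, ha, mul_zero] at h1
    have h2 : redO O (numO O b P) = 0 := (mul_eq_zero.mp h1.symm).resolve_right hs
    exact map_residue_eq_zero_of_redO_numO hind h2
  have hnonunit : ∀ i m, ¬ IsUnit ((P i).coeff m) := by
    intro i m
    have := congrArg (fun p => p.coeff m) (hPres i)
    simp only [coeff_map, coeff_zero] at this
    exact (IsLocalRing.residue_eq_zero_iff _).mp this
  set T : Finset O := Finset.univ.biUnion (fun i => (P i).coeffs) with hT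
  by_cases hTne : T.Nonempty
  · obtain ⟨c, hcT, hmax⟩ := T.exists_max_image (fun t => O.valuation (t : K)) hTne
    obtain ⟨i₁, -, hi₁⟩ := Finset.mem_biUnion.mp hcT
    obtain ⟨m₁, hm₁, rfl⟩ := Polynomial.mem_coeffs_iff.mp hi₁
    set c : O := (P i₁).coeff m₁ with hcdef
    have hc0 : c ≠ 0 := Polynomial.mem_support_iff.mp hm₁
    have hcK : (c : K) ≠ 0 := fun h => hc0 (Subtype.ext h)
    have hdiv : ∀ i m, ((c : K)⁻¹ * ((P i).coeff m : K)) ∈ O := by
      intro i m
      by_cases h0 : (P i).coeff m = 0
      · rw [h0]; simp [O.zero_mem]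
      · have hmem : (P i).coeff m ∈ T :=
          Finset.mem_biUnion.mpr ⟨i, Finset.mem_univ i, Polynomial.coeff_mem_coeffs h0⟩
        rw [← O.valuation_le_one_iff, map_mul, map_inv₀, mul_comm]
        exact mul_inv_le_one_of_le₀ (hmax _ hmem) zero_le
    have hlift : ∀ i, C (c : K)⁻¹ * (P i).map O.subtype ∈ lifts O.subtype := by
      intro i
      rw [lifts_iff_coeff_lifts]
      intro m
      rw [coeff_C_mul, coeff_map]
      exact ⟨⟨_, hdiv i m⟩, rfl⟩
    choose P' hP' using fun i => (mem_lifts _).mp (hlift i)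
    have hPP' : ∀ i, P i = C c * P' i := by
      intro i
      apply Polynomial.map_injective O.subtype Subtype.val_injective
      rw [Polynomial.map_mul, hP' i, Polynomial.map_C, ← mul_assoc, ← C_mul]
      show _ = C ((c : K) * (c : K)⁻¹) * _
      rw [mul_inv_cancel₀ hcK, C_1, one_mul]
    have hevC : evK O (C c) ≠ 0 :=
      fun h => hc0 (C_eq_zero.mp (evK_injective O (h.trans (map_zero _).symm)))
    set g : LaurentSeries K := (evK O (C c))⁻¹ * f with hg
    have hfg : f = evK O (C c) * g := by
      rw [hg, ← mul_assoc, mul_inv_cancel₀ hevC, one_mul]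
    have hrelg : evK O Q * g = ∑ i, evK O (P' i) * coeffMap (Int.castRingHom K) (b i) := by
      have h1 : evK O (C c) * (evK O Q * g) =
          evK O (C c) * ∑ i, evK O (P' i) * coeffMap (Int.castRingHom K) (b i) := by
        rw [Finset.mul_sum]
        calc evK O (C c) * (evK O Q * g) = evK O Q * f := by rw [hfg]; ring
          _ = ∑ i, evK O (P i) * coeffMap (Int.castRingHom K) (b i) := hrel
          _ = _ := Finset.sum_congr rfl fun i _ => by rw [hPP' i, map_mul, mul_assoc]
      exact mul_left_cancel₀ hevC h1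
    have hrepg : HasRep b g := by
      refine ⟨Q.map O.subtype, fun i => (P' i).map O.subtype,
        (Polynomial.map_ne_zero_iff Subtype.val_injective).mpr hQ0, ?_⟩
      rw [← evK_eq_aeval, hrelg]
      exact Finset.sum_congr rfl fun i _ => by rw [evK_eq_aeval]
    have hgauss : g * iotaO O (evO O Q) = iotaO O (numO O b P') := by
      rw [iotaO_numO, ← hrelg, evK_apply]
      ring
    have hredQ : redO O (evO O Q) ≠ 0 := by
      rw [redO_evO]
      exact fun h => hQres ((evk_eq_zero_iff O _).mp h)
    refine ⟨c, g, hnonunit i₁ m₁, hfg, hrepg, ⟨_, _, hredQ, hgauss⟩, fun hint => ?_⟩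
    refine isIntegralElem_of_smul hb hind hrepg hredQ hgauss hc0 ?_
    rw [← hfg]
    exact hint
  · -- all `P i` vanish: `f = 0`
    have hP0 : ∀ i, P i = 0 := by
      intro i
      by_contra hne
      exact hTne ⟨(P i).leadingCoeff, Finset.mem_biUnion.mpr ⟨i, Finset.mem_univ i,
        Polynomial.coeff_mem_coeffs (Polynomial.leadingCoeff_ne_zero.mpr hne)⟩⟩
    have hf0 : f = 0 := by
      have h1 : evK O Q * f = 0 := by
        rw [hrel]
        exact Finset.sum_eq_zero fun i _ => by rw [hP0 i, map_zero, zero_mul]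
      exact (mul_eq_zero.mp h1).resolve_left hevQ
    refine ⟨0, 0, not_isUnit_zero, by rw [hf0, mul_zero], ?_, ⟨0, 1, ?_, by simp⟩, fun _ => ?_⟩
    · exact ⟨1, fun _ => 0, one_ne_zero, by simp⟩
    · rw [map_one]; exact one_ne_zero
    · exact (evK O).isIntegralElem_zero

end Core

end Fermat.Agent.Lib.helper28
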