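import Fermat.Agent.Lib.helper28_IgusaModular

/-!
# The Igusa kernel lemma for arbitrary chart rings; localisation; the inertia congruence
(helper28; shared brick S37 / S18)

* `KLSub O R 𝒞` : the kernel lemma for a chart ring `R ⊆ E` (a `Subring`); `KLAt.klSub` converts
  the polynomial-chart form; `KLSub.localize` passes to a ring of fractions `R₁ = R₀[S⁻¹]`.
* `mem_gaussRing_of_isIntegral` (GI for any chart): an element of `F` integral over a subring of
  Gauss-integral elements of `F` is Gauss-integral (the Gauss ring of `F` is a valuation ring).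
* `exists_eq_smul_of_klSub` (RED for any chart with the kernel lemma).
* `exists_eq_smul_of_inertia` : for `σ` acting trivially on the residue field of `A`,
  `σ y - y = c g` with `c ∈ 𝔪_A` and `g` in the same chart.
* the two standard charts of the `j`-line: `Subring.closure (finGenE A j)` (`= A[j]`) and
  `Subring.closure (infGenE A j⁻¹)` (`= A[1/j]` localised at `1 + (1/j) A[1/j]`):
  `klSub_finChart_jq`, `klSub_infChart_jq`, `closure_finGenE_jq_le`, `closure_infGenE_jq_inv_le`.
-/

set_option autoImplicit false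

noncomputable section

namespace Fermat.Agent.Lib.helper28

open ModularCurve HahnSeries Polynomial

/-! ## Part 1: integrality over subrings -/

section Subrings

variable {E : Type*} [CommRing E]

/-- integrality over a subring, in terms of polynomials over the ambient ring. -/
theorem isIntegral_subring_iff {R : Subring E} {x : E} :
    IsIntegral R x ↔ ∃ p : E[X], p.Monic ∧ (∀ i, p.coeff i ∈ R) ∧ p.eval x = 0 := by
  constructor
  · rintro ⟨p, hp, hx⟩
    refine ⟨p.map R.subtype, hp.map _, fun i => ?_, ?_⟩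
    · rw [Polynomial.coeff_map]; exact (p.coeff i).2
    · rw [eval_map]; exact hx
  · rintro ⟨p, hp, hc, hx⟩
    have hl : p ∈ lifts R.subtype := by
      rw [lifts_iff_coeff_lifts]
      intro i
      exact ⟨⟨_, hc i⟩, rfl⟩
    obtain ⟨q, hq, -, hqm⟩ := lifts_and_natDegree_eq_and_monic hl hp
    refine ⟨q, hqm, ?_⟩
    have : eval₂ R.subtype x q = eval x (q.map R.subtype) := (eval_map _ _).symm
    rw [hq] at this
    exact this.trans hx

theorem isIntegralElem_iff_exists {R₀ : Type*} [CommRing R₀] (φ : R₀ →+* E) {x : E} :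
    φ.IsIntegralElem x ↔ ∃ p : E[X], p.Monic ∧ (∀ i, p.coeff i ∈ φ.range) ∧ p.eval x = 0 := by
  constructor
  · rintro ⟨p, hp, hx⟩
    refine ⟨p.map φ, hp.map _, fun i => ?_, ?_⟩
    · rw [Polynomial.coeff_map]; exact ⟨_, rfl⟩
    · rw [eval_map]; exact hx
  · rintro ⟨p, hp, hc, hx⟩
    have hl : p ∈ lifts φ := by
      rw [lifts_iff_coeff_lifts]
      intro i
      exact RingHom.mem_range.mp (hc i)
    obtain ⟨q, hq, -, hqm⟩ := lifts_and_natDegree_eq_and_monic hl hp
    refine ⟨q, hqm, ?_⟩
    have : eval₂ φ x q = eval x (q.map φ) := (eval_map _ _).symm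
    rw [hq] at this
    exact this.trans hx

/-- `φ.IsIntegralElem` is integrality over the subring `φ.range`. -/
theorem isIntegralElem_iff_isIntegral_range {R₀ : Type*} [CommRing R₀] (φ : R₀ →+* E) {x : E} :
    φ.IsIntegralElem x ↔ IsIntegral φ.range x := by
  rw [isIntegralElem_iff_exists, isIntegral_subring_iff]

theorem isIntegral_subring_mono {R R' : Subring E} (h : R ≤ R') {x : E} (hx : IsIntegral R x) :
    IsIntegral R' x := by
  rw [isIntegral_subring_iff] at hx ⊢
  obtain ⟨p, hp, hc, hpx⟩ := hx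
  exact ⟨p, hp, fun i => h (hc i), hpx⟩

theorem isIntegral_subring_of_mem {R : Subring E} {x : E} (hx : x ∈ R) : IsIntegral R x :=
  isIntegral_algebraMap (R := R) (A := E) (x := ⟨x, hx⟩)

/-- integrality is preserved by ring homomorphisms. -/
theorem isIntegral_subring_map {E' : Type*} [CommRing E'] (φ : E →+* E') {R : Subring E} {x : E}
    (hx : IsIntegral R x) : IsIntegral (R.map φ) (φ x) := by
  rw [isIntegral_subring_iff] at hx ⊢
  obtain ⟨p, hp, hc, hpx⟩ := hx
  refine ⟨p.map φ, hp.map _, fun i => ?_, ?_⟩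
  · rw [Polynomial.coeff_map]; exact ⟨_, hc i, rfl⟩
  · rw [eval_map, eval₂_at_apply, hpx, map_zero]

/-- integrality is reflected by injective ring homomorphisms. -/
theorem isIntegral_subring_of_map {E' : Type*} [CommRing E'] (φ : E →+* E')
    (hφ : Function.Injective φ) {R : Subring E} {x : E}
    (hx : IsIntegral (R.map φ) (φ x)) : IsIntegral R x := by
  rw [isIntegral_subring_iff] at hx
  obtain ⟨p, hp, hc, hpx⟩ := hx
  have hl : p ∈ lifts (φ.comp R.subtype) := by
    rw [lifts_iff_coeff_lifts]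
    intro i
    obtain ⟨r, hr, hri⟩ := hc i
    exact ⟨⟨r, hr⟩, hri⟩
  obtain ⟨q, hq, -, hqm⟩ := lifts_and_natDegree_eq_and_monic hl hp
  refine ⟨q, hqm, hφ ?_⟩
  have h1 : φ (eval₂ R.subtype x q) = eval₂ (φ.comp R.subtype) (φ x) q := hom_eval₂ q _ φ x
  have h2 : eval₂ (φ.comp R.subtype) (φ x) q = eval (φ x) (q.map (φ.comp R.subtype)) :=
    (eval_map _ _).symm
  rw [hq, hpx] at h2
  rw [map_zero]
  exact h1.trans h2

/-- Elements of the ring generated by `G ⊆ R₀` and inverses of elements of `S` are fractions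
with denominator in `S`. -/
theorem exists_mul_mem_of_mem_closure {R₀ : Subring E} {S : Submonoid E} (hS : ∀ s ∈ S, s ∈ R₀)
    {G I : Set E} (hG : G ⊆ R₀) (hI : ∀ x ∈ I, ∃ s ∈ S, s * x = 1) {x : E}
    (hx : x ∈ Subring.closure (G ∪ I)) : ∃ s ∈ S, s * x ∈ R₀ := by
  induction hx using Subring.closure_induction with
  | mem x hx =>
    rcases hx with hx | hx
    · exact ⟨1, S.one_mem, by rw [one_mul]; exact hG hx⟩
    · obtain ⟨s, hs, h1⟩ := hI x hx
      exact ⟨s, hs, by rw [h1]; exact R₀.one_mem⟩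
  | zero => exact ⟨1, S.one_mem, by rw [mul_zero]; exact R₀.zero_mem⟩
  | one => exact ⟨1, S.one_mem, by rw [mul_one]; exact R₀.one_mem⟩
  | add x y _ _ hx hy =>
    obtain ⟨s, hs, hsx⟩ := hx
    obtain ⟨t, ht, hty⟩ := hy
    refine ⟨s * t, S.mul_mem hs ht, ?_⟩
    have : s * t * (x + y) = t * (s * x) + s * (t * y) := by ring
    rw [this]
    exact R₀.add_mem (R₀.mul_mem (hS t ht) hsx) (R₀.mul_mem (hS s hs) hty)
  | neg x _ hx =>
    obtain ⟨s, hs, hsx⟩ := hx
    exact ⟨s, hs, by rw [mul_neg]; exact R₀.neg_mem hsx⟩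
  | mul x y _ _ hx hy =>
    obtain ⟨s, hs, hsx⟩ := hx
    obtain ⟨t, ht, hty⟩ := hy
    refine ⟨s * t, S.mul_mem hs ht, ?_⟩
    have : s * t * (x * y) = (s * x) * (t * y) := by ring
    rw [this]
    exact R₀.mul_mem hsx hty

/-- **Clearing denominators**: if every element of `R₁` is a fraction with denominator in
`S ⊆ R₀`, an element integral over `R₁` becomes integral over `R₀` after multiplication by an
element of `S`. -/
theorem exists_mul_isIntegral {R₀ R₁ : Subring E} {S : Submonoid E} (hS : ∀ s ∈ S, s ∈ R₀)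
    (hfrac : ∀ x ∈ R₁, ∃ s ∈ S, s * x ∈ R₀) {x : E} (hx : IsIntegral R₁ x) :
    ∃ s ∈ S, IsIntegral R₀ (s * x) := by
  classical
  rw [isIntegral_subring_iff] at hx
  obtain ⟨p, hp, hc, hpx⟩ := hx
  have hden : ∀ T : Finset ℕ, ∃ s ∈ S, ∀ i ∈ T, s * p.coeff i ∈ R₀ := by
    intro T
    induction T using Finset.induction_on with
    | empty => exact ⟨1, S.one_mem, by simp⟩
    | insert a T _ ih =>
      obtain ⟨s, hs, h⟩ := ih
      obtain ⟨t, ht, hta⟩ := hfrac _ (hc a)
      refine ⟨s * t, S.mul_mem hs ht, fun i hi => ?_⟩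
      rcases Finset.mem_insert.mp hi with rfl | hi
      · rw [mul_assoc]; exact R₀.mul_mem (hS s hs) hta
      · have : s * t * p.coeff i = t * (s * p.coeff i) := by ring
        rw [this]; exact R₀.mul_mem (hS t ht) (h i hi)
  obtain ⟨s, hs, hsc⟩ := hden (Finset.range p.natDegree)
  refine ⟨s, hs, ?_⟩
  rw [isIntegral_subring_iff]
  refine ⟨scaleRoots p s, (monic_scaleRoots_iff s).mpr hp, fun i => ?_, ?_⟩
  · rw [coeff_scaleRoots]
    rcases lt_trichotomy i p.natDegree with hi | hi | hi
    · have h1 : p.natDegree - i = (p.natDegree - i - 1) + 1 := by omega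
      have h2 : p.coeff i * s ^ (p.natDegree - i) =
          s ^ (p.natDegree - i - 1) * (s * p.coeff i) := by
        calc p.coeff i * s ^ (p.natDegree - i)
            = p.coeff i * s ^ ((p.natDegree - i - 1) + 1) := by rw [← h1]
          _ = s ^ (p.natDegree - i - 1) * (s * p.coeff i) := by rw [pow_succ]; ring
      rw [h2]
      exact R₀.mul_mem (R₀.pow_mem (hS s hs) _) (hsc i (Finset.mem_range.mpr hi))
    · rw [hi, Nat.sub_self, pow_zero, mul_one, hp.coeff_natDegree]; exact R₀.one_mem
    · rw [coeff_eq_zero_of_natDegree_lt hi, zero_mul]; exact R₀.zero_mem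
  · rw [scaleRoots_eval_mul, hpx, mul_zero]

end Subrings

/-! ## Part 2: the kernel lemma for chart rings, localisation -/

section KL

variable {K E : Type*} [Field K] [Field E] [Algebra K E] (O : ValuationSubring K)

/-- The kernel lemma for a chart ring `R ⊆ E` on the class `𝒞`. -/
def KLSub (R : Subring E) (𝒞 : Set E) : Prop :=
  ∀ y ∈ 𝒞, ∀ c : O, c ≠ 0 → IsIntegral R (algebraMap K E (c : K) * y) → IsIntegral R y

variable {O}

theorem KLAt.klSub {h : E} {𝒞 : Set E} (hKL : KLAt O h 𝒞) : KLSub O (evAt O h).range 𝒞 := by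
  intro y hy c hc hint
  rw [← isIntegralElem_iff_isIntegral_range] at hint ⊢
  exact hKL y hy c hc hint

theorem KLSub.klAt {h : E} {𝒞 : Set E} (hKL : KLSub O (evAt O h).range 𝒞) : KLAt O h 𝒞 := by
  intro y hy c hc hint
  rw [isIntegralElem_iff_isIntegral_range] at hint ⊢
  exact hKL y hy c hc hint

/-- **Localisation of the kernel lemma**: from a chart ring `R₀` to a ring of fractions `R₁` of
`R₀` with denominators in a multiplicative set `S ⊆ R₀` preserving the class `𝒞`. -/
theorem KLSub.localize {R₀ R₁ : Subring E} {S : Submonoid E} {𝒞 : Set E} (hKL : KLSub O R₀ 𝒞)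
    (hle : R₀ ≤ R₁) (hS : ∀ s ∈ S, s ∈ R₀) (hinv : ∀ s ∈ S, ∃ t ∈ R₁, t * s = 1)
    (hfrac : ∀ x ∈ R₁, ∃ s ∈ S, s * x ∈ R₀) (h𝒞 : ∀ s ∈ S, ∀ y ∈ 𝒞, s * y ∈ 𝒞) :
    KLSub O R₁ 𝒞 := by
  intro y hy c hc hint
  obtain ⟨s, hs, hsint⟩ := exists_mul_isIntegral hS hfrac hint
  have h1 : IsIntegral R₀ (algebraMap K E (c : K) * (s * y)) := by
    have : algebraMap K E (c : K) * (s * y) = s * (algebraMap K E (c : K) * y) := by ring
    rw [this]; exact hsint
  have h2 : IsIntegral R₀ (s * y) := hKL _ (h𝒞 s hs y hy) c hc h1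
  have h3 : IsIntegral R₁ (s * y) := isIntegral_subring_mono hle h2
  obtain ⟨t, ht, hts⟩ := hinv s hs
  have h4 : IsIntegral R₁ t := isIntegral_subring_of_mem ht
  have : y = t * (s * y) := by rw [← mul_assoc, hts, one_mul]
  rw [this]
  exact h4.mul h3

end KL

/-! ## Part 3: the function field of `X₀(N)` -/

section Coeff

open Fermat.Agent.S28

theorem coeffMap_aeval_general {R S : Type*} [CommRing R] [CommRing S] (f : R →+* S)
    (x : LaurentSeries R) (p : R[X]) :
    coeffMap f (aeval x p) = aeval (coeffMap f x) (p.map f) := by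
  induction p using Polynomial.induction_on with
  | C a =>
    rw [aeval_C, Polynomial.map_C, aeval_C, helper3292.coeffMap_algebraMap']
  | add p q hp hq => rw [map_add, map_add, hp, hq, Polynomial.map_add, map_add]
  | monomial n a ih =>
    rw [map_mul, map_mul, Polynomial.map_mul, map_mul, aeval_C, Polynomial.map_C,
      aeval_C, Polynomial.map_pow, Polynomial.map_X, map_pow, map_pow, map_pow,
      aeval_X, aeval_X, helper3292.coeffMap_algebraMap']

theorem coeffMap_jInvSeries {R S : Type*} [CommRing R] [CommRing S] (f : R →+* S) :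
    coeffMap f (helper3292.jInvSeries R) = helper3292.jInvSeries S := by
  have h1 := congrArg (coeffMap f) (helper3292.jInvSeries_mul_jqModC R)
  rw [map_mul, map_one, coeffMap_jqModC] at h1
  have h2 := helper3292.jInvSeries_mul_jqModC S
  calc coeffMap f (helper3292.jInvSeries R)
      = coeffMap f (helper3292.jInvSeries R) * (helper3292.jInvSeries S * jqModC S) := by
        rw [h2, mul_one]
    _ = (coeffMap f (helper3292.jInvSeries R) * jqModC S) * helper3292.jInvSeries S := by ring
    _ = helper3292.jInvSeries S := by rw [h1, one_mul]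

end Coeff

section Modular

open Fermat.Agent.S28 Fermat.Agent.S18

variable {L : Type} [Field L] [Algebra ℚ L] (A : ValuationSubring L) (N : ℕ) [NeZero N]

/-- The Gauss-integral elements of `F` as a subring of `L((q))` (carrier `gaussFSet A N`). -/
def gaussFRing : Subring (LaurentSeries L) :=
  (laurentBaseChange L (modularFunctionFieldFull N)).toSubring ⊓
    helper8991.gaussRing A (IsLocalRing.residue A)

omit [NeZero N] in
theorem mem_gaussFRing_iff {y : LaurentSeries L} : y ∈ gaussFRing A N ↔ y ∈ gaussFSet A N :=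
  Iff.rfl

omit [NeZero N] in
theorem algebraMap_mem_gaussFRing {a : L} (ha : a ∈ A) :
    algebraMap L (LaurentSeries L) a ∈ gaussFRing A N := by
  refine ⟨IntermediateField.algebraMap_mem _ a, ?_⟩
  show algebraMap L (LaurentSeries L) a ∈ helper8991.gaussRing A (IsLocalRing.residue A)
  rw [← helper8991.C_eq_algebraMap, ← helper8991.inc_C A ⟨a, ha⟩]
  exact helper8991.inc_mem_gaussRing A _ _

omit [NeZero N] in
theorem evAt_mem_gaussFRing {h : LaurentSeries L} (hh : h ∈ gaussFRing A N) (P : (↥A)[X]) :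
    evAt A h P ∈ gaussFRing A N := by
  induction P using Polynomial.induction_on with
  | C a => rw [evAt_C]; exact algebraMap_mem_gaussFRing A N a.2
  | add p q hp hq => rw [map_add]; exact add_mem hp hq
  | monomial n a ih =>
    rw [pow_succ, ← mul_assoc, map_mul, evAt_X]; exact mul_mem ih hh

omit [NeZero N] in
/-- **(GI) for any chart ring**: an element of `F` integral over a ring of Gauss-integral
elements of `F` is Gauss-integral (the Gauss ring of `F` is a valuation ring). -/
theorem mem_gaussRing_of_isIntegral {R : Subring (LaurentSeries L)} (hR : R ≤ gaussFRing A N)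
    {y : LaurentSeries L} (hy : y ∈ laurentBaseChange L (modularFunctionFieldFull N))
    (hint : IsIntegral R y) : y ∈ helper8991.gaussRing A (IsLocalRing.residue A) := by
  rw [isIntegral_subring_iff] at hint
  obtain ⟨p, hp, hc, hpy⟩ := hint
  let ψ : ↥(helper8991.gaussF A (IsLocalRing.residue A) N) →+* LaurentSeries L :=
    (algebraMap ↥(laurentBaseChange L (modularFunctionFieldFull N)) (LaurentSeries L)).comp
      (helper8991.gaussF A (IsLocalRing.residue A) N).subtype
  have hl : p ∈ lifts ψ := by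
    rw [lifts_iff_coeff_lifts]
    intro i
    obtain ⟨h1, h2⟩ := hR (hc i)
    exact ⟨⟨⟨p.coeff i, h1⟩, h2⟩, rfl⟩
  obtain ⟨q, hq, -, hqm⟩ := lifts_and_natDegree_eq_and_monic hl hp
  have hyV : IsIntegral ↥(helper8991.gaussF A (IsLocalRing.residue A) N)
      (⟨y, hy⟩ : ↥(laurentBaseChange L (modularFunctionFieldFull N))) := by
    refine ⟨q, hqm, ?_⟩
    apply (algebraMap ↥(laurentBaseChange L (modularFunctionFieldFull N))
      (LaurentSeries L)).injective
    have h1 := hom_eval₂ q (algebraMap ↥(helper8991.gaussF A (IsLocalRing.residue A) N)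
      ↥(laurentBaseChange L (modularFunctionFieldFull N)))
      (algebraMap ↥(laurentBaseChange L (modularFunctionFieldFull N)) (LaurentSeries L)) ⟨y, hy⟩
    have h2 : eval₂ ψ y q = eval y (q.map ψ) := (eval_map _ _).symm
    rw [hq, hpy] at h2
    rw [map_zero]
    exact h1.trans h2
  obtain ⟨z, hz⟩ := IsIntegrallyClosed.isIntegral_iff.mp hyV
  have hmem : (⟨y, hy⟩ : ↥(laurentBaseChange L (modularFunctionFieldFull N))) ∈
      helper8991.gaussF A (IsLocalRing.residue A) N := by
    rw [← hz]; exact z.2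
  exact hmem

omit [Algebra ℚ L] in
/-- **The inertia congruence on the Gauss ring.** If `σ` preserves `A` and acts trivially on its
residue field, then for every Gauss-integral `y` the difference `σ y - y` is a fraction `X / Y`
with `X ≡ 0` and `Y ≢ 0` modulo the maximal ideal. -/
theorem exists_gauss_rep_sub_of_inertia (σ : L →+* L) (hσA : ∀ a ∈ A, σ a ∈ A)
    (hσm : ∀ a ∈ A, A.valuation (σ a - a) < 1) {y : LaurentSeries L}
    (hy : y ∈ helper8991.gaussRing A (IsLocalRing.residue A)) :
    ∃ X Y : LaurentSeries A, redO A Y ≠ 0 ∧ (coeffMap σ y - y) * iotaO A Y = iotaO A X ∧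
      redO A X = 0 := by
  obtain ⟨X₀, Y₀, hY₀, hXY₀⟩ := hy
  have hY₀' : redO A Y₀ ≠ 0 := hY₀
  have hXY₀' : y * iotaO A Y₀ = iotaO A X₀ := hXY₀
  let σA : A →+* A := (σ.comp A.subtype).codRestrict A (fun a => hσA a a.2)
  have h1 : ∀ Z : LaurentSeries A, coeffMap σ (iotaO A Z) = iotaO A (coeffMap σA Z) := by
    intro Z
    rw [iotaO, coeffMap_coeffMap, coeffMap_coeffMap]
    exact coeffMap_congr (RingHom.ext fun a => rfl) _
  have hres : (IsLocalRing.residue A).comp σA = IsLocalRing.residue A := by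
    ext a
    rw [RingHom.comp_apply, ← sub_eq_zero, ← map_sub, IsLocalRing.residue_eq_zero_iff,
      ValuationSubring.valuation_lt_one_iff]
    exact hσm a a.2
  have h2 : ∀ Z : LaurentSeries A, redO A (coeffMap σA Z) = redO A Z := by
    intro Z
    rw [redO, coeffMap_coeffMap, hres]
  have h3 : coeffMap σ y * iotaO A (coeffMap σA Y₀) = iotaO A (coeffMap σA X₀) := by
    rw [← h1, ← h1, ← hXY₀', map_mul]
  refine ⟨coeffMap σA X₀ * Y₀ - X₀ * coeffMap σA Y₀, Y₀ * coeffMap σA Y₀, ?_, ?_, ?_⟩
  · rw [map_mul, h2]; exact mul_ne_zero hY₀' hY₀'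
  · rw [map_mul, map_sub, map_mul, map_mul, ← h3, ← hXY₀']
    ring
  · rw [map_sub, map_mul, map_mul, h2, h2, mul_comm, sub_self]

/-- **(RED), chart-free part**: an element of `F` with a Gauss representation `X / Y`, `X ≡ 0`,
is `c g` with `c` in the maximal ideal of `A` and `g ∈ F` Gauss-integral. -/
theorem exists_eq_smul_gauss (hN : GoodLevel A N) {y : LaurentSeries L}
    (hy : y ∈ laurentBaseChange L (modularFunctionFieldFull N)) {X Y : LaurentSeries A}
    (hY : redO A Y ≠ 0) (hXY : y * iotaO A Y = iotaO A X) (hX : redO A X = 0) :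
    ∃ (c : A) (g : LaurentSeries L), c ∈ IsLocalRing.maximalIdeal A ∧
      y = algebraMap L (LaurentSeries L) (c : L) * g ∧ g ∈ gaussFSet A N := by
  obtain ⟨b, -, hbint, hind, hrep⟩ := exists_igusaBasis A N hN
  obtain ⟨c, g, hc, hyg, -, hgG, -⟩ :=
    exists_eq_smul_of_redO_eq_zero hbint hind (hrep y hy) hY hXY hX
  have hcK : evK A (C c) = algebraMap L (LaurentSeries L) (c : L) := by
    rw [evK_eq_evAt, evAt_C]
  by_cases hc0 : c = 0
  · refine ⟨0, 0, Ideal.zero_mem _, ?_, ⟨zero_mem _, Subring.zero_mem _⟩⟩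
    rw [hyg, hc0]
    simp
  · have hcL : algebraMap L (LaurentSeries L) (c : L) ≠ 0 := by
      rw [Ne, map_eq_zero]
      exact fun h => hc0 (Subtype.ext h)
    have hgF : g ∈ laurentBaseChange L (modularFunctionFieldFull N) := by
      have : g = (algebraMap L (LaurentSeries L) (c : L))⁻¹ * y := by
        rw [hyg, hcK, ← mul_assoc, inv_mul_cancel₀ hcL, one_mul]
      rw [this]
      exact mul_mem (inv_mem (IntermediateField.algebraMap_mem _ _)) hy
    exact ⟨c, g, hc, by rw [hyg, hcK], ⟨hgF, hgG⟩⟩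

/-- **(RED) for any chart ring with the kernel lemma.** -/
theorem exists_eq_smul_of_klSub (hN : GoodLevel A N) {R : Subring (LaurentSeries L)}
    (hKL : KLSub A R (gaussFSet A N)) {y : LaurentSeries L}
    (hy : y ∈ laurentBaseChange L (modularFunctionFieldFull N)) (hint : IsIntegral R y)
    {X Y : LaurentSeries A} (hY : redO A Y ≠ 0) (hXY : y * iotaO A Y = iotaO A X)
    (hX : redO A X = 0) :
    ∃ (c : A) (g : LaurentSeries L), c ∈ IsLocalRing.maximalIdeal A ∧
      y = algebraMap L (LaurentSeries L) (c : L) * g ∧ g ∈ gaussFSet A N ∧ IsIntegral R g := by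
  obtain ⟨c, g, hc, hyg, hg⟩ := exists_eq_smul_gauss A N hN hy hY hXY hX
  by_cases hc0 : c = 0
  · refine ⟨0, 0, Ideal.zero_mem _, ?_, ⟨zero_mem _, Subring.zero_mem _⟩, isIntegral_zero⟩
    rw [hyg, hc0]
    simp
  · exact ⟨c, g, hc, hyg, hg, hKL g hg c hc0 (by rw [← hyg]; exact hint)⟩

/-- **The inertia congruence in a chart.** `R` a chart ring of Gauss-integral elements of `F`
with the kernel lemma, `σ` preserving `A` and acting trivially on its residue field, `y ∈ F`
with `y` and `σ y` integral over `R`: then `σ y - y = c g` with `c` in the maximal ideal of `A`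
and `g ∈ F` integral over `R`. -/
theorem exists_eq_smul_of_inertia (hN : GoodLevel A N) {R : Subring (LaurentSeries L)}
    (hR : R ≤ gaussFRing A N) (hKL : KLSub A R (gaussFSet A N))
    (σ : L →+* L) (hσA : ∀ a ∈ A, σ a ∈ A) (hσm : ∀ a ∈ A, A.valuation (σ a - a) < 1)
    {y : LaurentSeries L} (hy : y ∈ laurentBaseChange L (modularFunctionFieldFull N))
    (hσy : coeffMap σ y ∈ laurentBaseChange L (modularFunctionFieldFull N))
    (hint : IsIntegral R y) (hσint : IsIntegral R (coeffMap σ y)) :
    ∃ (c : A) (g : LaurentSeries L), c ∈ IsLocalRing.maximalIdeal A ∧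
      coeffMap σ y - y = algebraMap L (LaurentSeries L) (c : L) * g ∧ g ∈ gaussFSet A N ∧
      IsIntegral R g := by
  have hyG := mem_gaussRing_of_isIntegral A N hR hy hint
  obtain ⟨X, Y, hY, hXY, hX⟩ := exists_gauss_rep_sub_of_inertia A σ hσA hσm hyG
  exact exists_eq_smul_of_klSub A N hN hKL (sub_mem hσy hy) (hσint.sub hint) hY hXY hX

/-! ### The two standard charts of the `j`-line -/

/-- generators of the chart ring `A[t]`: the constants of `A` and `t`. -/
def finGenE (t : LaurentSeries L) : Set (LaurentSeries L) :=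
  algebraMap L (LaurentSeries L) '' (A : Set L) ∪ {t}

/-- generators of the local chart ring at infinity: `A[u]` localised at `1 + u A[u]`. -/
def infGenE (u : LaurentSeries L) : Set (LaurentSeries L) :=
  finGenE A u ∪ {x | ∃ c ∈ Subring.closure (finGenE A u), x = (1 + u * c)⁻¹}

omit [Algebra ℚ L] in
theorem closure_finGenE (t : LaurentSeries L) :
    Subring.closure (finGenE A t) = (evAt A t).range := by
  apply le_antisymm
  · rw [Subring.closure_le]
    rintro x (⟨a, ha, rfl⟩ | hx)
    · exact ⟨C ⟨a, ha⟩, evAt_C A t _⟩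
    · rw [Set.mem_singleton_iff] at hx
      rw [hx]
      exact ⟨X, evAt_X A t⟩
  · rintro _ ⟨P, rfl⟩
    induction P using Polynomial.induction_on with
    | C a => rw [evAt_C]; exact Subring.subset_closure (Or.inl ⟨a, a.2, rfl⟩)
    | add p q hp hq => rw [map_add]; exact add_mem hp hq
    | monomial n a ih =>
      rw [pow_succ, ← mul_assoc, map_mul, evAt_X]
      exact mul_mem ih (Subring.subset_closure (Or.inr rfl))

omit [NeZero N] in
theorem closure_finGenE_le {t : LaurentSeries L} (ht : t ∈ gaussFRing A N) :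
    Subring.closure (finGenE A t) ≤ gaussFRing A N := by
  rw [Subring.closure_le]
  rintro x (⟨a, ha, rfl⟩ | hx)
  · exact algebraMap_mem_gaussFRing A N ha
  · rw [Set.mem_singleton_iff] at hx
    rw [hx]
    exact ht

omit [NeZero N] in
theorem jqModC_mem_gaussFRing : jqModC L ∈ gaussFRing A N := jqModC_mem_gaussFSet A N

omit [NeZero N] in
theorem jqModC_inv_mem_gaussFRing : (jqModC L)⁻¹ ∈ gaussFRing A N := by
  have hF : (jqModC L)⁻¹ ∈ laurentBaseChange L (modularFunctionFieldFull N) :=
    inv_mem (jqModC_mem_gaussFSet A N).1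
  refine ⟨hF, 1, jqModC A, ?_, ?_⟩
  · show coeffMap (IsLocalRing.residue A) (jqModC A) ≠ 0
    rw [coeffMap_jqModC]
    exact jqModC_ne_zero_of_nontrivial _
  · show (jqModC L)⁻¹ * coeffMap A.subtype (jqModC A) = coeffMap A.subtype 1
    rw [coeffMap_jqModC, map_one]
    exact inv_mul_cancel₀ (jqModC_ne_zero_of_nontrivial L)

omit [Algebra ℚ L] in
theorem jqModC_inv_eq : (jqModC L)⁻¹ = helper3292.jInvSeries L := by
  rw [inv_eq_iff_eq_inv]
  exact (eq_inv_of_mul_eq_one_right (helper3292.jInvSeries_mul_jqModC L))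

omit [Algebra ℚ L] in
/-- a polynomial with nonzero reduction, evaluated at `1/j`, is a unit of the Gauss ring. -/
theorem inv_evAt_jq_inv_mem_gaussRing (P : (↥A)[X]) (hP : P.map (IsLocalRing.residue A) ≠ 0) :
    (evAt A (jqModC L)⁻¹ P)⁻¹ ∈ helper8991.gaussRing A (IsLocalRing.residue A) ∧
      evAt A (jqModC L)⁻¹ P ≠ 0 := by
  have h1 : iotaO A (aeval (helper3292.jInvSeries A) P) = evAt A (jqModC L)⁻¹ P := by
    rw [iotaO, coeffMap_aeval_general, coeffMap_jInvSeries, evAt_eq_aeval, jqModC_inv_eq]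
  have h2 : redO A (aeval (helper3292.jInvSeries A) P) ≠ 0 := by
    rw [redO, coeffMap_aeval_general, coeffMap_jInvSeries]
    exact fun h => hP ((helper3292.aeval_jInvSeries_eq_zero_iff _ _).mp h)
  have h3 : evAt A (jqModC L)⁻¹ P ≠ 0 := by
    rw [← h1]
    intro h
    apply h2
    rw [iotaO_injective A (h.trans (map_zero _).symm), map_zero]
  refine ⟨⟨1, aeval (helper3292.jInvSeries A) P, h2, ?_⟩, h3⟩
  show (evAt A (jqModC L)⁻¹ P)⁻¹ * iotaO A (aeval (helper3292.jInvSeries A) P) = iotaO A 1
  rw [h1, map_one, inv_mul_cancel₀ h3]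

omit [Algebra ℚ L] in
theorem one_add_mul_evAt (u : LaurentSeries L) (P : (↥A)[X]) :
    1 + u * evAt A u P = evAt A u (1 + X * P) := by
  rw [map_add, map_one, map_mul, evAt_X]

omit [Algebra ℚ L] in
theorem map_one_add_X_mul_ne_zero (P : (↥A)[X]) :
    (1 + X * P).map (IsLocalRing.residue A) ≠ 0 := by
  intro h
  have := congrArg (fun p => p.coeff 0) h
  simp at this

omit [Algebra ℚ L] in
theorem one_add_mul_ne_zero {c : LaurentSeries L}
    (hc : c ∈ Subring.closure (finGenE A (jqModC L)⁻¹)) : 1 + (jqModC L)⁻¹ * c ≠ 0 := by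
  rw [closure_finGenE] at hc
  obtain ⟨P, rfl⟩ := hc
  rw [one_add_mul_evAt]
  exact (inv_evAt_jq_inv_mem_gaussRing A _ (map_one_add_X_mul_ne_zero A P)).2

omit [NeZero N] in
/-- the finite chart ring `A[j]` consists of Gauss-integral elements of `F`. -/
theorem closure_finGenE_jq_le : Subring.closure (finGenE A (jqModC L)) ≤ gaussFRing A N :=
  closure_finGenE_le A N (jqModC_mem_gaussFRing A N)

omit [NeZero N] in
/-- the local chart ring at infinity consists of Gauss-integral elements of `F`. -/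
theorem closure_infGenE_jq_inv_le :
    Subring.closure (infGenE A (jqModC L)⁻¹) ≤ gaussFRing A N := by
  rw [Subring.closure_le]
  rintro x (hx | ⟨c, hc, rfl⟩)
  · exact closure_finGenE_le A N (jqModC_inv_mem_gaussFRing A N) (Subring.subset_closure hx)
  · have hne := one_add_mul_ne_zero A hc
    rw [closure_finGenE] at hc
    obtain ⟨P, rfl⟩ := hc
    rw [one_add_mul_evAt] at hne ⊢
    have hF : (evAt A (jqModC L)⁻¹ (1 + X * P))⁻¹ ∈
        laurentBaseChange L (modularFunctionFieldFull N) :=
      inv_mem (evAt_mem_gaussFRing A N (jqModC_inv_mem_gaussFRing A N) _).1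
    exact ⟨hF, (inv_evAt_jq_inv_mem_gaussRing A _ (map_one_add_X_mul_ne_zero A P)).1⟩

/-- **(KL) for the finite chart ring `A[j]`**, subring form. -/
theorem klSub_finChart_jq (hN : GoodLevel A N) :
    KLSub A (Subring.closure (finGenE A (jqModC L))) (gaussFSet A N) := by
  rw [closure_finGenE]
  exact (klAt_jq_modular A N hN).klSub

/-- the multiplicative set `1 + u A[u]`. -/
def oneAddSubmonoid (u : LaurentSeries L) : Submonoid (LaurentSeries L) where
  carrier := {s | ∃ c ∈ Subring.closure (finGenE A u), s = 1 + u * c}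
  one_mem' := ⟨0, zero_mem _, by rw [mul_zero, add_zero]⟩
  mul_mem' := by
    rintro _ _ ⟨c, hc, rfl⟩ ⟨d, hd, rfl⟩
    have hu : u ∈ Subring.closure (finGenE A u) := Subring.subset_closure (Or.inr rfl)
    exact ⟨c + d + u * c * d, add_mem (add_mem hc hd) (mul_mem (mul_mem hu hc) hd), by ring⟩

/-- **(KL) for the local chart ring at infinity** `A[1/j]` localised at `1 + (1/j) A[1/j]`. -/
theorem klSub_infChart_jq (hN : GoodLevel A N) :
    KLSub A (Subring.closure (infGenE A (jqModC L)⁻¹)) (gaussFSet A N) := by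
  have hKL₀ : KLSub A (Subring.closure (finGenE A (jqModC L)⁻¹)) (gaussFSet A N) := by
    rw [closure_finGenE]
    exact (klAt_jq_inv_modular A N hN).klSub
  have huR : (jqModC L)⁻¹ ∈ Subring.closure (finGenE A (jqModC L)⁻¹) :=
    Subring.subset_closure (Or.inr rfl)
  have hS : ∀ s ∈ oneAddSubmonoid A (jqModC L)⁻¹,
      s ∈ Subring.closure (finGenE A (jqModC L)⁻¹) := by
    rintro _ ⟨c, hc, rfl⟩
    exact add_mem (one_mem _) (mul_mem huR hc)
  refine hKL₀.localize (S := oneAddSubmonoid A (jqModC L)⁻¹)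
    (Subring.closure_mono Set.subset_union_left) hS ?_ ?_ ?_
  · rintro _ ⟨c, hc, rfl⟩
    exact ⟨(1 + (jqModC L)⁻¹ * c)⁻¹, Subring.subset_closure (Or.inr ⟨c, hc, rfl⟩),
      inv_mul_cancel₀ (one_add_mul_ne_zero A hc)⟩
  · intro x hx
    refine exists_mul_mem_of_mem_closure hS Subring.subset_closure ?_ hx
    rintro _ ⟨c, hc, rfl⟩
    exact ⟨1 + (jqModC L)⁻¹ * c, ⟨c, hc, rfl⟩, mul_inv_cancel₀ (one_add_mul_ne_zero A hc)⟩
  · intro s hs y hy
    exact mul_mem_gaussFSet A N
      (closure_finGenE_le A N (jqModC_inv_mem_gaussFRing A N) (hS s hs)) hy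

end Modular

end Fermat.Agent.Lib.helper28
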