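import Fermat.Agent.Lib.helper28_IgusaCharts
import Fermat.Agent.S28.helper1595_RouteP
import Fermat.Agent.S28.helper508_FormalPrime
import Fermat.Agent.S28.helper754_PrimeIrr
import Fermat.Agent.S18.helper8991_GaussInst

/-!
# The Igusa kernel lemma for the function field of `X₀(N)` (helper28; shared brick S37 / S18)

Modular instance of `helper28_IgusaKernel` / `helper28_IgusaCharts`, from the landed S28 library.

Setting: `L` a field of characteristic zero, `A : ValuationSubring L` whose residue field `k` has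
characteristic prime to `N` (`GoodLevel A N`), `F = laurentBaseChange L (modularFunctionFieldFull N)`
inside `L((q))`, `j = jqModC L`, Gauss ring `= S18.helper8991.gaussRing A (residue A)`.

* `exists_igusaBasis` : `ψ(N)` integer monomials `b i` in the `j(q^d)`, integral over `ℤ[j]`,
  reductions independent over `k[j̄]`, spanning `F` over `L(j)`.
* `klAt_jq_modular`, `klAt_jq_inv_modular` : the kernel lemma for the charts `A[j]`, `A[1/j]` on
  `gaussFSet A N` (Gauss-integral elements of `F`).
* `mem_gaussRing_of_isIntegralElem` (GI), `exists_eq_smul_of_red_eq_zero` (RED).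

The degree export (`relrank_fullC`, `exists_monomial_basis`, `mem_span_of_linearIndependent`,
`exists_common_denominator`) follows the WIP of helper9706 (S18-GAUSS-MOD backup), inlined here so
that this file only depends on landed modules.
-/

set_option autoImplicit false

noncomputable section

namespace Fermat.Agent.Lib.helper28

open ModularCurve HahnSeries IntermediateField Polynomial

/-! ## Part 1: degree export from the S28 library -/

section Cast

/-- Coefficientwise cast `ℤ((q)) → R((q))`. -/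
abbrev castZ (R : Type*) [CommRing R] : LaurentSeries ℤ →+* LaurentSeries R :=
  coeffMap (Int.castRingHom R)

theorem castZ_qExpand (R : Type*) [CommRing R] (d : ℕ) [NeZero d] :
    castZ R (qExpand ℤ d (jqModC ℤ)) = qExpand R d (jqModC R) := by
  rw [castZ, coeffMap_qExpand, coeffMap_jqModC]

theorem castZ_image_genZ (κ : Type*) [Field κ] (N : ℕ) :
    (castZ κ) '' (Fermat.Agent.S28.helper1595.genZ N) = divisorExpansionsC κ N := by
  ext x
  constructor
  · rintro ⟨b, ⟨d, hd, hdN, rfl⟩, rfl⟩
    exact ⟨d, hd, hdN, castZ_qExpand κ d⟩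
  · rintro ⟨d, hd, hdN, rfl⟩
    exact ⟨qExpand ℤ d (jqModC ℤ), ⟨d, hd, hdN, rfl⟩, castZ_qExpand κ d⟩

theorem castZ_image_closure (κ : Type*) [Field κ] (N : ℕ) :
    (castZ κ) '' (Submonoid.closure (Fermat.Agent.S28.helper1595.genZ N) :
      Set (LaurentSeries ℤ)) =
      (Submonoid.closure (divisorExpansionsC κ N) : Set (LaurentSeries κ)) := by
  rw [← castZ_image_genZ κ N]
  have := MonoidHom.map_mclosure ((castZ κ : LaurentSeries ℤ →+* LaurentSeries κ) :
    LaurentSeries ℤ →* LaurentSeries κ) (Fermat.Agent.S28.helper1595.genZ N)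
  have h2 := congrArg (fun S : Submonoid (LaurentSeries κ) => (S : Set (LaurentSeries κ))) this
  simpa using h2

theorem castZ_mem_fullC (κ : Type*) [Field κ] (N : ℕ) {b : LaurentSeries ℤ}
    (hb : b ∈ Submonoid.closure (Fermat.Agent.S28.helper1595.genZ N)) :
    castZ κ b ∈ modularFunctionFieldFullC κ N := by
  induction hb using Submonoid.closure_induction with
  | mem x hx =>
    obtain ⟨d, hd, hdN, rfl⟩ := hx
    rw [castZ_qExpand]
    exact jqModCd_mem_full κ N hdN
  | one => rw [map_one]; exact one_mem _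
  | mul x y _ _ hx hy => rw [map_mul]; exact mul_mem hx hy

end Cast

section Degree

open Fermat.Agent.S28

theorem primeRelZ (p : ℕ) [NeZero p] (hp : p.Prime) : helper1595.PrimeRelZ p := by
  have : Fact p.Prime := ⟨hp⟩
  exact Fermat.Agent.S28.helper28.primeRel_int p (helper508.stmt_FormalPrime p)

/-- **Degree equality** (S28 library): for every field `κ` in which the primes dividing `N` are
nonzero, `[κ(j(q^d) : d ∣ N) : κ(j)] = ψ(N)`. -/
theorem relrank_fullC (κ : Type) [Field κ] (N : ℕ) [NeZero N]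
    (hκ : ∀ p : ℕ, p.Prime → p ∣ N → (p : κ) ≠ 0) :
    (κ⟮jqModC κ⟯).relrank (modularFunctionFieldFullC κ N) = (dedekindPsi N : Cardinal) := by
  refine helper1595.relrank_full_eq_dedekindPsi κ N (NeZero.pos N)
    (helper559.hub_of_formalPrime κ N (NeZero.pos N) (fun p _ _ => helper508.stmt_FormalPrime p)) ?_
  intro p _ hp hpN
  have : Fact p.Prime := ⟨hp⟩
  exact helper1595.primeData_of_relZ κ p hp (primeRelZ p hp)
    (helper754.nonrat p (helper508.stmt_FormalPrime p) κ (hκ p hp hpN))

variable (κ : Type) [Field κ] (N : ℕ) [NeZero N]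

/-- Casts of series integral over `ℤ[j]` are integral over `κ(j)`. -/
theorem isIntegral_castZ {b : LaurentSeries ℤ} (hb : Spec.IsIntegralOverZj b) :
    IsIntegral ↥(κ⟮jqModC κ⟯) (castZ κ b) := by
  obtain ⟨P, hP, hroot⟩ := hb
  have h1 : (P.map (helper328.evalJ (jqModC ℤ))).eval b = 0 := by
    rw [eval_map, helper1595.evalJ_eq_aeval]; exact hroot
  have h2 := congrArg (castZ κ) h1
  rw [helper1595.map_eval_evalJ, map_zero] at h2
  have hJ : (castZ κ) (jqModC ℤ) = jqModC κ := coeffMap_jqModC _
  rw [hJ, ← helper1595.ev2_map_intCast] at h2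
  refine ⟨(P.map (Polynomial.mapRingHom (Int.castRingHom κ))).map
    (helper1595.toAdj (jqModC κ)), (hP.map _).map _, ?_⟩
  rw [← aeval_def, helper1595.aeval_map_toAdj]
  exact h2

/-- **Monomial basis**: `ψ(N)` integer monomials in the `j(q^d)`, `d ∣ N`, whose casts to
`κ((q))` are linearly independent over `κ(j)`. -/
theorem exists_monomial_basis (hκ : ∀ p : ℕ, p.Prime → p ∣ N → (p : κ) ≠ 0) :
    ∃ b : Fin (dedekindPsi N) → LaurentSeries ℤ,
      (∀ i, b i ∈ Submonoid.closure (helper1595.genZ N)) ∧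
      LinearIndependent ↥(κ⟮jqModC κ⟯) (fun i => castZ κ (b i)) := by
  classical
  set J := jqModC κ with hJ
  have hrank := relrank_fullC κ N hκ
  have h : κ⟮J⟯ ≤ adjoin κ (divisorExpansionsC κ N) := helper1595.adjoin_jqModC_le κ N
  have hrank' : Module.rank ↥(κ⟮J⟯) ↥(extendScalars h) = (dedekindPsi N : Cardinal) := by
    rw [← relrank_eq_rank_of_le h]; exact hrank
  have halg : ∀ x ∈ divisorExpansionsC κ N, IsAlgebraic ↥(κ⟮J⟯) x := by
    intro x hx
    rw [← castZ_image_genZ κ N] at hx
    obtain ⟨b, hb, rfl⟩ := hx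
    exact (isIntegral_castZ κ (helper1595.isIntegral_of_mem_closure N
      (fun p _ hp _ => primeRelZ p hp) (Submonoid.subset_closure hb))).isAlgebraic
  have hspan : Module.rank ↥(κ⟮J⟯) ↥(Submodule.span ↥(κ⟮J⟯)
      (Submonoid.closure (divisorExpansionsC κ N) : Set (LaurentSeries κ))) =
      (dedekindPsi N : Cardinal) := by
    rw [← hrank', extendScalars_adjoin h, ← Algebra.adjoin_eq_span,
      Subalgebra.rank_toSubmodule, ← adjoin_toSubalgebra_of_isAlgebraic halg,
      IntermediateField.rank_eq_rank_subalgebra]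
  obtain ⟨B, hBT, hBspan, hBli⟩ := exists_linearIndependent ↥(κ⟮J⟯)
    (Submonoid.closure (divisorExpansionsC κ N) : Set (LaurentSeries κ))
  have hcard : Cardinal.mk B = (dedekindPsi N : Cardinal) := by
    rw [← hspan, ← hBspan]
    exact (rank_span_set hBli).symm
  obtain ⟨e⟩ := Cardinal.mk_eq_nat_iff.mp hcard
  have hlift : ∀ i : Fin (dedekindPsi N), ∃ b : LaurentSeries ℤ,
      b ∈ Submonoid.closure (helper1595.genZ N) ∧
        castZ κ b = ((e.symm i : B) : LaurentSeries κ) := by
    intro i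
    have := hBT (e.symm i).2
    rw [← castZ_image_closure κ N] at this
    obtain ⟨b, hb, hb'⟩ := this
    exact ⟨b, hb, hb'⟩
  choose bZ hbZ_mem hbZ_red using hlift
  refine ⟨bZ, hbZ_mem, ?_⟩
  have hli : LinearIndependent ↥(κ⟮J⟯)
      (fun i : Fin (dedekindPsi N) => ((e.symm i : B) : LaurentSeries κ)) :=
    hBli.comp _ e.symm.injective
  have hfun : (fun i => castZ κ (bZ i)) =
      (fun i : Fin (dedekindPsi N) => ((e.symm i : B) : LaurentSeries κ)) :=
    funext hbZ_red
  rw [hfun]
  exact hli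

/-- Any `ψ(N)` elements of `κ(j(q^d) : d ∣ N)` that are linearly independent over `κ(j)`
span it. -/
theorem mem_span_of_linearIndependent (hκ : ∀ p : ℕ, p.Prime → p ∣ N → (p : κ) ≠ 0)
    (b : Fin (dedekindPsi N) → LaurentSeries κ)
    (hb : ∀ i, b i ∈ modularFunctionFieldFullC κ N)
    (hli : LinearIndependent ↥(κ⟮jqModC κ⟯) b) {x : LaurentSeries κ}
    (hx : x ∈ modularFunctionFieldFullC κ N) :
    x ∈ Submodule.span ↥(κ⟮jqModC κ⟯) (Set.range b) := by
  classical
  set J := jqModC κ with hJ
  have hrank := relrank_fullC κ N hκ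
  have h : κ⟮J⟯ ≤ modularFunctionFieldFullC κ N := helper1595.adjoin_jqModC_le κ N
  have hrank' : Module.rank ↥(κ⟮J⟯) ↥(extendScalars h) = (dedekindPsi N : Cardinal) := by
    rw [← relrank_eq_rank_of_le h]; exact hrank
  set V : Submodule ↥(κ⟮J⟯) (LaurentSeries κ) :=
    Subalgebra.toSubmodule (extendScalars h).toSubalgebra with hV
  have hVrank : Module.rank ↥(κ⟮J⟯) ↥V = (dedekindPsi N : Cardinal) := by
    rw [hV, Subalgebra.rank_toSubmodule, IntermediateField.rank_eq_rank_subalgebra]
    exact hrank'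
  have hVfree : Module.Free ↥(κ⟮J⟯) ↥V := Module.Free.of_divisionRing _ _
  have hVfin : Module.Finite ↥(κ⟮J⟯) ↥V := Module.finite_of_rank_eq_nat hVrank
  have hVfinrank : Module.finrank ↥(κ⟮J⟯) ↥V = dedekindPsi N :=
    Module.finrank_eq_of_rank_eq hVrank
  have hle : Submodule.span ↥(κ⟮J⟯) (Set.range b) ≤ V := by
    rw [Submodule.span_le]
    rintro _ ⟨i, rfl⟩
    exact hb i
  have hSfinrank : Module.finrank ↥(κ⟮J⟯) ↥(Submodule.span ↥(κ⟮J⟯) (Set.range b)) =
      dedekindPsi N := by
    rw [finrank_span_eq_card hli, Fintype.card_fin]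
  have heq : Submodule.span ↥(κ⟮J⟯) (Set.range b) = V :=
    Submodule.eq_of_le_of_finrank_eq hle (by rw [hSfinrank, hVfinrank])
  rw [heq]
  exact hx

omit [NeZero N] in
/-- Clearing denominators for finitely many elements of `κ(j)`. -/
theorem exists_common_denominator {n : ℕ} (g : Fin n → LaurentSeries κ)
    (hg : ∀ i, g i ∈ κ⟮jqModC κ⟯) :
    ∃ (D : κ[X]) (R : Fin n → κ[X]), D ≠ 0 ∧
      ∀ i, g i * aeval (jqModC κ) D = aeval (jqModC κ) (R i) := by
  classical
  have h1 : ∀ i, ∃ P Q : κ[X], Q ≠ 0 ∧ g i * aeval (jqModC κ) Q = aeval (jqModC κ) P := by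
    intro i
    obtain ⟨P, Q, hPQ⟩ := (IntermediateField.mem_adjoin_simple_iff κ (g i)).mp (hg i)
    by_cases hQ : Q = 0
    · refine ⟨0, 1, one_ne_zero, ?_⟩
      rw [hPQ, hQ]
      simp
    · refine ⟨P, Q, hQ, ?_⟩
      have hQ' : aeval (jqModC κ) Q ≠ 0 := fun h0 =>
        hQ (helper3292.aeval_jqModC_injective κ (by rw [h0, map_zero]))
      rw [hPQ, div_mul_cancel₀ _ hQ']
  choose P Q hQ hPQ using h1
  refine ⟨∏ i, Q i, fun i => P i * ∏ j ∈ Finset.univ.erase i, Q j,
    Finset.prod_ne_zero_iff.mpr (fun i _ => hQ i), fun i => ?_⟩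
  rw [← Finset.mul_prod_erase Finset.univ Q (Finset.mem_univ i), map_mul, map_mul, ← mul_assoc,
    hPQ i]

end Degree

/-! ## Part 2: the Igusa basis over a valuation ring -/

section Basis

open Fermat.Agent.S28

variable {L : Type} [Field L] (A : ValuationSubring L)

/-- **Primitive scaling**: a finite family of polynomials over `L`, not all zero, can be scaled
by one nonzero constant into `A[X]` with at least one polynomial of nonzero reduction. -/
theorem exists_primitive_scaling {n : ℕ} (R : Fin n → L[X]) (hR : ∃ i, R i ≠ 0) :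
    ∃ (u : L) (r : Fin n → (↥A)[X]), u ≠ 0 ∧
      (∀ i, (r i).map A.subtype = C u * R i) ∧
      ∃ i, (r i).map (IsLocalRing.residue A) ≠ 0 := by
  classical
  set S : Finset L := Finset.univ.biUnion (fun i => (R i).coeffs) with hS
  have hne : S.Nonempty := by
    obtain ⟨i, hi⟩ := hR
    exact ⟨(R i).leadingCoeff, Finset.mem_biUnion.mpr ⟨i, Finset.mem_univ i,
      Polynomial.coeff_mem_coeffs (Polynomial.leadingCoeff_ne_zero.mpr hi)⟩⟩
  obtain ⟨s₀, hs₀S, hmax⟩ := S.exists_max_image (fun s => A.valuation s) hne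
  have hs₀ : s₀ ≠ 0 := by
    obtain ⟨i, -, hi⟩ := Finset.mem_biUnion.mp hs₀S
    obtain ⟨m, hm, rfl⟩ := Polynomial.mem_coeffs_iff.mp hi
    exact Polynomial.mem_support_iff.mp hm
  set u : L := s₀⁻¹ with hu
  have hmemA : ∀ i m, u * (R i).coeff m ∈ A := by
    intro i m
    by_cases h0 : (R i).coeff m = 0
    · rw [h0, mul_zero]; exact A.zero_mem
    · have hmem : (R i).coeff m ∈ S :=
        Finset.mem_biUnion.mpr ⟨i, Finset.mem_univ i, Polynomial.coeff_mem_coeffs h0⟩
      rw [← A.valuation_le_one_iff, map_mul, hu, map_inv₀, mul_comm]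
      exact mul_inv_le_one_of_le₀ (hmax _ hmem) zero_le
  have hlift : ∀ i, C u * R i ∈ lifts A.subtype := by
    intro i
    rw [lifts_iff_coeff_lifts]
    intro m
    rw [Polynomial.coeff_C_mul]
    exact ⟨⟨_, hmemA i m⟩, rfl⟩
  choose r hr using fun i => (mem_lifts _).mp (hlift i)
  refine ⟨u, r, inv_ne_zero hs₀, hr, ?_⟩
  obtain ⟨i, -, hi⟩ := Finset.mem_biUnion.mp hs₀S
  obtain ⟨m, -, hm⟩ := Polynomial.mem_coeffs_iff.mp hi
  refine ⟨i, fun h0 => ?_⟩
  have h1 : ((r i).coeff m : L) = 1 := by
    have := congrArg (fun p => p.coeff m) (hr i)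
    simp only [Polynomial.coeff_map, Polynomial.coeff_C_mul, ← hm] at this
    exact this.trans (by rw [hu, inv_mul_cancel₀ hs₀])
  have h2 : (r i).coeff m = 1 := Subtype.ext h1
  have h3 := congrArg (fun p => p.coeff m) h0
  simp only [Polynomial.coeff_map, Polynomial.coeff_zero, h2, map_one] at h3
  exact one_ne_zero h3

/-- Linear independence over `k(j̄)` gives `Indep`. -/
theorem indep_of_linearIndependent {n : ℕ} (b : Fin n → LaurentSeries ℤ)
    (hb : LinearIndependent ↥((kO A)⟮jqModC (kO A)⟯) (fun i => castZ (kO A) (b i))) :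
    Indep A b := by
  intro p hp
  rw [Fintype.linearIndependent_iff] at hb
  have e1 := helper1595.algebraMap_comp_toAdj (k := kO A) (jqModC (kO A))
  have hval : ∀ i, algebraMap ↥((kO A)⟮jqModC (kO A)⟯) (LaurentSeries (kO A))
      (helper1595.toAdj (jqModC (kO A)) (p i)) = aeval (jqModC (kO A)) (p i) := by
    intro i
    rw [← RingHom.comp_apply, e1]; rfl
  have h' : ∑ i, (helper1595.toAdj (jqModC (kO A)) (p i)) • castZ (kO A) (b i) = 0 := by
    rw [← hp]
    refine Finset.sum_congr rfl fun i _ => ?_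
    rw [Algebra.smul_def, hval i]
    rfl
  funext i
  have h0 := hb _ h' i
  have h1 : aeval (jqModC (kO A)) (p i) = 0 := by
    rw [← hval i, h0, map_zero]
  exact (helper3292.aeval_jqModC_eq_zero_iff _ _).mp h1

/-- Independence modulo the maximal ideal of `A` implies independence over `L(j)`. -/
theorem linearIndependent_castZ_of_indep {n : ℕ} (b : Fin n → LaurentSeries ℤ)
    (hind : Indep A b) : LinearIndependent ↥(L⟮jqModC L⟯) (fun i => castZ L (b i)) := by
  rw [Fintype.linearIndependent_iff]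
  intro g hg
  by_contra hne
  push Not at hne
  obtain ⟨i0, hi0⟩ := hne
  obtain ⟨D, R, hD, hR⟩ := exists_common_denominator L
    (fun i => ((g i : ↥(L⟮jqModC L⟯)) : LaurentSeries L)) (fun i => (g i).2)
  have hD' : aeval (jqModC L) D ≠ 0 := fun h0 =>
    hD (helper3292.aeval_jqModC_injective L (by rw [h0, map_zero]))
  have hRi0 : R i0 ≠ 0 := by
    intro h0
    have := hR i0
    rw [h0, map_zero] at this
    rcases mul_eq_zero.mp this with h | h
    · exact hi0 (Subtype.ext h)
    · exact hD' h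
  have hsum : ∑ i, aeval (jqModC L) (R i) * castZ L (b i) = 0 := by
    have : ∑ i, aeval (jqModC L) (R i) * castZ L (b i) =
        (∑ i, g i • castZ L (b i)) * aeval (jqModC L) D := by
      rw [Finset.sum_mul]
      refine Finset.sum_congr rfl (fun i _ => ?_)
      rw [← hR i, Algebra.smul_def, IntermediateField.algebraMap_apply]
      ring
    rw [this, hg, zero_mul]
  obtain ⟨u, r, -, hr, i1, hi1⟩ := exists_primitive_scaling A R ⟨i0, hRi0⟩
  have hzero : numO A b r = 0 := by
    apply iotaO_injective A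
    rw [iotaO_numO, map_zero]
    have : ∀ i, evK A (r i) * coeffMap (Int.castRingHom L) (b i) =
        algebraMap L (LaurentSeries L) u * (aeval (jqModC L) (R i) * castZ L (b i)) := by
      intro i
      rw [evK_eq_aeval, hr i, map_mul, aeval_C, mul_assoc]
    rw [Finset.sum_congr rfl (fun i _ => this i), ← Finset.mul_sum, hsum, mul_zero]
  exact hi1 (map_residue_eq_zero_of_redO_numO hind (by rw [hzero, map_zero]) i1)

/-- Elements of the `L(j)`-span of the `b i` have a polynomial representation. -/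
theorem hasRep_of_mem_span {n : ℕ} (b : Fin n → LaurentSeries ℤ) {x : LaurentSeries L}
    (hx : x ∈ Submodule.span ↥(L⟮jqModC L⟯) (Set.range fun i => castZ L (b i))) :
    HasRep b x := by
  obtain ⟨g, hg⟩ := (Submodule.mem_span_range_iff_exists_fun _).mp hx
  obtain ⟨D, R, hD, hR⟩ := exists_common_denominator L
    (fun i => ((g i : ↥(L⟮jqModC L⟯)) : LaurentSeries L)) (fun i => (g i).2)
  refine ⟨D, R, hD, ?_⟩
  rw [← hg, Finset.mul_sum]
  refine Finset.sum_congr rfl fun i _ => ?_
  rw [← hR i, Algebra.smul_def, IntermediateField.algebraMap_apply]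
  ring

variable [Algebra ℚ L] (N : ℕ) [NeZero N]

/-- The primes dividing `N` are nonzero in the residue field of `A`. -/
def GoodLevel : Prop :=
  ∀ p : ℕ, p.Prime → p ∣ N → ((p : ℕ) : kO A) ≠ 0

/-- **The Igusa basis.** `ψ(N)` integer monomials in the `j(q^d)`, `d ∣ N`, integral over
`ℤ[j]`, with reductions independent over `k[j̄]`, spanning `F` over `L(j)`. -/
theorem exists_igusaBasis (hN : GoodLevel A N) :
    ∃ b : Fin (dedekindPsi N) → LaurentSeries ℤ,
      (∀ i, b i ∈ Submonoid.closure (helper1595.genZ N)) ∧ (∀ i, IntOverZj (b i)) ∧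
      Indep A b ∧ ∀ f ∈ laurentBaseChange L (modularFunctionFieldFull N), HasRep b f := by
  obtain ⟨b, hbmem, hbli⟩ := exists_monomial_basis (kO A) N hN
  have hind : Indep A b := indep_of_linearIndependent A b hbli
  have hL0 : CharZero L := algebraRat.charZero L
  have hL : ∀ p : ℕ, p.Prime → p ∣ N → (p : L) ≠ 0 :=
    fun p hp _ => Nat.cast_ne_zero.mpr hp.ne_zero
  refine ⟨b, hbmem, fun i => helper1595.isIntegral_of_mem_closure N
    (fun p _ hp _ => primeRelZ p hp) (hbmem i), hind, fun f hf => ?_⟩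
  apply hasRep_of_mem_span
  exact mem_span_of_linearIndependent L N hL (fun i => castZ L (b i))
    (fun i => castZ_mem_fullC L N (hbmem i)) (linearIndependent_castZ_of_indep A b hind)
    ((Fermat.Agent.S18.helper8991.mem_laurentBaseChange_full_iff N).mp hf)

end Basis

/-! ## Part 3: the kernel lemma for the function field of `X₀(N)` -/

section Modular

open Fermat.Agent.S28 Fermat.Agent.S18

variable {L : Type} [Field L] [Algebra ℚ L] (A : ValuationSubring L) (N : ℕ) [NeZero N]

/-- The Gauss-integral elements of `F = laurentBaseChange L (modularFunctionFieldFull N)`. -/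
def gaussFSet : Set (LaurentSeries L) :=
  {y | y ∈ laurentBaseChange L (modularFunctionFieldFull N) ∧
    y ∈ helper8991.gaussRing A (IsLocalRing.residue A)}

omit [NeZero N] in
theorem mem_gaussFSet_iff {y : LaurentSeries L} :
    y ∈ gaussFSet A N ↔ y ∈ laurentBaseChange L (modularFunctionFieldFull N) ∧
      ∃ X Y : LaurentSeries A, redO A Y ≠ 0 ∧ y * iotaO A Y = iotaO A X := Iff.rfl

omit [NeZero N] in
theorem jqModC_mem_gaussFSet : jqModC L ∈ gaussFSet A N := by
  refine ⟨?_, ?_⟩
  · rw [helper8991.laurentBaseChange_full_eq]; exact jqModC_mem_full L N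
  · have := helper8991.inc_mem_gaussRing A (IsLocalRing.residue A) (jqModC A)
    rwa [show helper8991.inc A (jqModC A) = jqModC L from coeffMap_jqModC _] at this

omit [NeZero N] in
theorem mul_mem_gaussFSet {x y : LaurentSeries L} (hx : x ∈ gaussFSet A N)
    (hy : y ∈ gaussFSet A N) : x * y ∈ gaussFSet A N :=
  ⟨mul_mem hx.1 hy.1, Subring.mul_mem _ hx.2 hy.2⟩

/-- **(KL), chart `A[j]`.** For `y ∈ F` Gauss-integral and `c ≠ 0` in `A`: if `c y` is integral
over `A[j]` then so is `y`. -/
theorem klAt_jq_modular (hN : GoodLevel A N) : KLAt A (jqModC L) (gaussFSet A N) := by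
  obtain ⟨b, -, hbint, hind, hrep⟩ := exists_igusaBasis A N hN
  intro y hy c hc hcy
  exact klAt_jq A b hbint hind y ⟨hrep y hy.1, hy.2⟩ c hc hcy

omit [Algebra ℚ L] in
theorem evAt_jq_inv_injective : Function.Injective (evAt A (jqModC L)⁻¹) := by
  have hinv : (jqModC L)⁻¹ = helper3292.jInvSeries L := by
    rw [inv_eq_iff_eq_inv]
    exact (eq_inv_of_mul_eq_one_right (helper3292.jInvSeries_mul_jqModC L))
  rw [injective_iff_map_eq_zero]
  intro P hP
  rw [evAt_eq_aeval, hinv, helper3292.aeval_jInvSeries_eq_zero_iff] at hP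
  exact Polynomial.map_injective A.subtype Subtype.val_injective (hP.trans (Polynomial.map_zero _).symm)

/-- **(KL), chart `A[1/j]`.** -/
theorem klAt_jq_inv_modular (hN : GoodLevel A N) : KLAt A (jqModC L)⁻¹ (gaussFSet A N) :=
  (klAt_jq_modular A N hN).inv (mul_inv_cancel₀ (jqModC_ne_zero_of_nontrivial L))
    (fun _ hy => mul_mem_gaussFSet A N (jqModC_mem_gaussFSet A N) hy) (evAt_jq_inv_injective A)

/-- **(GI)** Elements of `F` integral over `A[j]` lie in the Gauss ring. -/
theorem mem_gaussRing_of_isIntegralElem (hN : GoodLevel A N) {y : LaurentSeries L}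
    (hy : y ∈ laurentBaseChange L (modularFunctionFieldFull N))
    (hint : (evAt A (jqModC L)).IsIntegralElem y) :
    y ∈ helper8991.gaussRing A (IsLocalRing.residue A) := by
  obtain ⟨b, -, -, hind, hrep⟩ := exists_igusaBasis A N hN
  obtain ⟨Q, P, hQP⟩ := exists_normalRep (O := A) (hrep y hy)
  have hQres := normalRep_primitive_of_isIntegralElem hind hQP (by rwa [evK_eq_evAt])
  refine ⟨numO A b P, evO A Q, ?_, ?_⟩
  · show redO A (evO A Q) ≠ 0
    rw [redO_evO]
    exact fun h => hQres ((evk_eq_zero_iff A _).mp h)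
  · show y * iotaO A (evO A Q) = iotaO A (numO A b P)
    rw [iotaO_numO, ← hQP.2.1, evK_apply]
    ring

/-- **(RED)** An element of `F` integral over `A[j]` with zero reduction is `c g` with `c` in the
maximal ideal of `A` and `g ∈ F` Gauss-integral and integral over `A[j]`. -/
theorem exists_eq_smul_of_red_eq_zero (hN : GoodLevel A N) {y : LaurentSeries L}
    (hy : y ∈ laurentBaseChange L (modularFunctionFieldFull N))
    (hint : (evAt A (jqModC L)).IsIntegralElem y) {X Y : LaurentSeries A}
    (hY : redO A Y ≠ 0) (hXY : y * iotaO A Y = iotaO A X) (hX : redO A X = 0) :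
    ∃ (c : A) (g : LaurentSeries L), c ∈ IsLocalRing.maximalIdeal A ∧
      y = algebraMap L (LaurentSeries L) (c : L) * g ∧ g ∈ gaussFSet A N ∧
      (evAt A (jqModC L)).IsIntegralElem g := by
  obtain ⟨b, -, hbint, hind, hrep⟩ := exists_igusaBasis A N hN
  obtain ⟨c, g, hc, hyg, -, hgG, hgint⟩ :=
    exists_eq_smul_of_redO_eq_zero hbint hind (hrep y hy) hY hXY hX
  have hcK : evK A (C c) = algebraMap L (LaurentSeries L) (c : L) := by
    rw [evK_eq_evAt, evAt_C]
  by_cases hc0 : c = 0
  · refine ⟨0, 0, Ideal.zero_mem _, ?_, ⟨zero_mem _, Subring.zero_mem _⟩,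
      (evAt A (jqModC L)).isIntegralElem_zero⟩
    rw [hyg, hc0]
    simp
  · have hcL : algebraMap L (LaurentSeries L) (c : L) ≠ 0 := by
      rw [Ne, map_eq_zero]
      exact fun h => hc0 (Subtype.ext h)
    have hgF : g ∈ laurentBaseChange L (modularFunctionFieldFull N) := by
      have : g = (algebraMap L (LaurentSeries L) (c : L))⁻¹ * y := by
        rw [hyg, hcK, ← mul_assoc, inv_mul_cancel₀ hcL, one_mul]
      rw [this]
      exact mul_mem (inv_mem (IntermediateField.algebraMap_mem _ _)) hy
    refine ⟨c, g, hc, by rw [hyg, hcK], ⟨hgF, hgG⟩, ?_⟩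
    rw [← evK_eq_evAt]
    exact hgint (by rwa [evK_eq_evAt])

end Modular

end Fermat.Agent.Lib.helper28
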