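import Mathlib

/-!
# The two-denominator lemma (helper28; shared brick for S37 / S18)

`isIntegral_of_two_denominators`: over an integrally closed domain `B`, if `c • y` and `d • y` are
integral and `d` is regular modulo every power of `c` (`c ^ n ∣ d ^ n * t → c ^ n ∣ t`), then `y`
is integral.  No primality of `c`, no noetherian hypothesis: this is the shape needed over the
non-discrete valuation ring of `ℚ̄` (where there is no uniformiser).

`Polynomial.regular_C_pow_of_isUnit_coeff`: the regularity hypothesis for `B = R[X]`,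
`c = C c₀` a constant and `d` a polynomial with a unit coefficient (McCoy).

`isIntegralElem_of_two_denominators_poly`: the packaged statement for a ring hom
`φ : R[X] →+* E`.
-/

set_option autoImplicit false

namespace Fermat.Agent.Lib.helper28

open Polynomial

/-- **Two-denominator lemma.** `B` integrally closed, `c • y` and `d • y` integral, `d` regular
modulo all powers of `c`: then `y` is integral. -/
theorem isIntegral_of_two_denominators {B E : Type*} [CommRing B] [IsDomain B]
    [IsIntegrallyClosed B] [Field E] [Algebra B E] [FaithfulSMul B E] {c d : B} (hc : c ≠ 0)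
    (hd : d ≠ 0) (H : ∀ (n : ℕ) (t : B), c ^ n ∣ d ^ n * t → c ^ n ∣ t) {y : E}
    (hcy : IsIntegral B (algebraMap B E c * y)) (hdy : IsIntegral B (algebraMap B E d * y)) :
    IsIntegral B y := by
  have hinj : Function.Injective (algebraMap B E) := FaithfulSMul.algebraMap_injective B E
  set z : E := algebraMap B E c * y with hz
  set w : E := algebraMap B E d * y with hw
  have hscale : (minpoly B z).scaleRoots d = (minpoly B w).scaleRoots c := by
    rw [← IsIntegrallyClosed.minpoly_smul hd hcy, ← IsIntegrallyClosed.minpoly_smul hc hdy]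
    congr 1
    rw [Algebra.smul_def, Algebra.smul_def, hz, hw]
    ring
  set f := minpoly B z with hf
  set g := minpoly B w with hg
  have hdeg : f.natDegree = g.natDegree := by
    have := congrArg natDegree hscale
    simpa [natDegree_scaleRoots] using this
  have hdiv : ∀ i, c ^ (f.natDegree - i) ∣ f.coeff i := by
    intro i
    have hcoef := congrArg (fun p => p.coeff i) hscale
    simp only [coeff_scaleRoots] at hcoef
    rw [← hdeg] at hcoef
    apply H
    rw [mul_comm, hcoef]
    exact dvd_mul_left _ _
  set u : E := algebraMap B E c with hu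
  have hu0 : u ≠ 0 := fun h0 => hc (hinj (h0.trans (map_zero _).symm))
  have hfm : f.Monic := minpoly.monic hcy
  set fE : E[X] := f.map (algebraMap B E) with hfE
  have hfEm : fE.Monic := hfm.map _
  set G : E[X] := fE.scaleRoots u⁻¹ with hG
  have hGm : G.Monic := (monic_scaleRoots_iff _).2 hfEm
  have hGroot : G.eval (u⁻¹ * z) = 0 := by
    have h0 : fE.eval z = 0 := by
      rw [hfE, eval_map, ← aeval_def]
      exact minpoly.aeval B z
    rw [hG, scaleRoots_eval_mul, h0, mul_zero]
  have hGlift : G ∈ lifts (algebraMap B E) := by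
    rw [lifts_iff_coeff_lifts]
    intro i
    obtain ⟨q, hq⟩ := hdiv i
    refine ⟨q, ?_⟩
    rw [hG, coeff_scaleRoots, hfE, coeff_map, hfm.natDegree_map, hq, map_mul, map_pow,
      ← hu, inv_pow]
    field_simp
  obtain ⟨F, hFmap, -, hFm⟩ := lifts_and_natDegree_eq_and_monic hGlift hGm
  have hy : y = u⁻¹ * z := by
    rw [hz, ← mul_assoc, inv_mul_cancel₀ hu0, one_mul]
  rw [hy]
  refine ⟨F, hFm, ?_⟩
  rw [← eval_map, hFmap]
  exact hGroot

/-- Ring-hom form of `isIntegral_of_two_denominators`. -/
theorem isIntegralElem_of_two_denominators {B E : Type*} [CommRing B] [IsDomain B]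
    [IsIntegrallyClosed B] [Field E] (φ : B →+* E) (hφ : Function.Injective φ) {c d : B}
    (hc : c ≠ 0) (hd : d ≠ 0) (H : ∀ (n : ℕ) (t : B), c ^ n ∣ d ^ n * t → c ^ n ∣ t) {y : E}
    (hcy : φ.IsIntegralElem (φ c * y)) (hdy : φ.IsIntegralElem (φ d * y)) :
    φ.IsIntegralElem y := by
  let _ : Algebra B E := φ.toAlgebra
  have : FaithfulSMul B E := (faithfulSMul_iff_algebraMap_injective B E).mpr hφ
  exact isIntegral_of_two_denominators (E := E) hc hd H hcy hdy

/-- **McCoy regularity.** A polynomial with a unit coefficient is regular modulo every power of a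
constant. -/
theorem regular_C_pow_of_isUnit_coeff {R : Type*} [CommRing R] (c₀ : R) (d : R[X]) (i₀ : ℕ)
    (hd : IsUnit (d.coeff i₀)) (n : ℕ) (t : R[X]) (h : (C c₀) ^ n ∣ d ^ n * t) :
    (C c₀) ^ n ∣ t := by
  rw [← C_pow] at h ⊢
  set a : R := c₀ ^ n with ha
  set I : Ideal R := Ideal.span {a} with hI
  have key : ∀ p : R[X], C a ∣ p ↔ p.map (Ideal.Quotient.mk I) = 0 := by
    intro p
    rw [C_dvd_iff_dvd_coeff]
    constructor
    · intro hp
      ext i
      rw [coeff_map, coeff_zero, Ideal.Quotient.eq_zero_iff_mem, hI, Ideal.mem_span_singleton]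
      exact hp i
    · intro hp i
      have := congrArg (fun q => q.coeff i) hp
      simp only [coeff_map, coeff_zero] at this
      rwa [Ideal.Quotient.eq_zero_iff_mem, hI, Ideal.mem_span_singleton] at this
  rw [key] at h ⊢
  rw [Polynomial.map_mul, Polynomial.map_pow] at h
  have hnzd : d.map (Ideal.Quotient.mk I) ∈ nonZeroDivisors ((R ⧸ I)[X]) := by
    rw [Polynomial.mem_nonZeroDivisors_iff]
    intro r hr
    have h1 := congrArg (fun q => q.coeff i₀) hr
    simp only [coeff_smul, coeff_map, coeff_zero, smul_eq_mul] at h1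
    have hunit : IsUnit (Ideal.Quotient.mk I (d.coeff i₀)) := hd.map _
    exact (hunit.mul_left_eq_zero).mp h1
  have hpow : (d.map (Ideal.Quotient.mk I)) ^ n ∈ nonZeroDivisors ((R ⧸ I)[X]) :=
    pow_mem hnzd n
  exact (mul_left_mem_nonZeroDivisors_eq_zero_iff hpow).mp h

/-- **Two-denominator lemma over a polynomial ring.** `R` an integrally closed domain,
`φ : R[X] →+* E` injective, `c₀ ≠ 0` a constant and `d` a polynomial with a unit coefficient:
if `φ (C c₀) * y` and `φ d * y` are integral over `φ`, so is `y`. -/
theorem isIntegralElem_of_two_denominators_poly {R E : Type*} [CommRing R] [IsDomain R]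
    [IsIntegrallyClosed R] [Field E] (φ : R[X] →+* E) (hφ : Function.Injective φ) {c₀ : R}
    (hc : c₀ ≠ 0) {d : R[X]} (i₀ : ℕ) (hd : IsUnit (d.coeff i₀)) {y : E}
    (hcy : φ.IsIntegralElem (φ (C c₀) * y)) (hdy : φ.IsIntegralElem (φ d * y)) :
    φ.IsIntegralElem y := by
  have hd0 : d ≠ 0 := by
    rintro rfl
    rw [coeff_zero] at hd
    exact not_isUnit_zero hd
  exact isIntegralElem_of_two_denominators φ hφ (C_ne_zero.mpr hc) hd0
    (regular_C_pow_of_isUnit_coeff c₀ d i₀ hd) hcy hdy

end Fermat.Agent.Lib.helper28
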