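import Mathlib
import Fermat.Prelude.Def_EllipticCurve_FrobeniusTrace
import Fermat.Prelude.Def_FLTPrelim_Ramification

/-!
# Existence of Frobenius elements in `Gal(ℚ̄/ℚ)`  (helper294)

Main results (all in namespace `Fermat.Agent.Lib.helper294`):

* `exists_liesOverPrime` : for every prime `ℓ` there is a valuation subring `A` of
  `AlgebraicClosure ℚ` with `A.LiesOverPrime ℓ`.
* `exists_isFrobeniusAt` : for every valuation subring `A` of `AlgebraicClosure ℚ` lying over
  a prime `ℓ` there is `σ : AlgebraicClosure ℚ ≃ₐ[ℚ] AlgebraicClosure ℚ` with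
  `A.IsFrobeniusAt σ ℓ`.
* `exists_frobenius` : both statements combined.

The proof uses Mathlib's profinite version of the surjectivity of the stabilizer of a prime onto
the automorphism group of the residue field extension, applied to the ring of all algebraic
integers, together with the elementary fact that a valuation subring of `ℚ̄` is the localisation
of the ring of algebraic integers at its centre (`exists_integral_denominator`).
-/

set_option autoImplicit false

namespace Fermat.Agent.Lib.helper294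

open scoped Pointwise

theorem isIntegral_of_forall_mem_valuationSubring {K : Type*} [Field K] (y : K)
    (h : ∀ V : ValuationSubring K, y ∈ V) : IsIntegral ℤ y := by
  by_contra hy
  have hy' : y ∉ (integralClosure ℤ K).toSubring := hy
  obtain ⟨V, -, hV⟩ := Subring.exists_le_valuationSubring_of_isIntegrallyClosedIn hy'
  exact hV (h V)

theorem mem_valuationSubring_of_isIntegral {K : Type*} [Field K] (V : ValuationSubring K) {y : K}
    (hy : IsIntegral ℤ y) : y ∈ V := by
  have h1 : IsIntegral V y := hy.tower_top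
  obtain ⟨z, hz⟩ := IsIntegrallyClosed.isIntegral_iff.1 h1
  rw [← hz]; exact z.2

/-- Key lemma: any element `x` of a valuation subring `A` (of a characteristic zero field,
algebraic over `ℚ`) in which the prime `ℓ` is a non-unit can be written `x = b / s` with
`b, s` algebraic integers and `s` a unit of `A`. -/
theorem exists_integral_denominator {K : Type*} [Field K] [CharZero K]
    (A : ValuationSubring K) (ℓ : ℕ) (hℓ : ℓ.Prime)
    (hA : (ℓ : K) ∈ A.nonunits) (x : K) (hx : x ∈ A) (halg : IsAlgebraic ℤ x) :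
    ∃ s : K, IsIntegral ℤ s ∧ IsIntegral ℤ (s * x) ∧ s ∈ A ∧ s ∉ A.nonunits := by
  obtain ⟨P0, hP0, hP0x⟩ := halg
  set P := P0.primPart with hP
  have hPx : Polynomial.aeval x P = 0 := Polynomial.aeval_primPart_eq_zero hP0 hP0x
  have hprim : P.IsPrimitive := Polynomial.isPrimitive_primPart P0
  have hℓint : Prime (ℓ : ℤ) := Nat.prime_iff_prime_int.mp hℓ
  -- some coefficient is not divisible by ℓ
  have hex : ∃ i, ¬ (ℓ : ℤ) ∣ P.coeff i := by
    by_contra hcon
    push Not at hcon
    have h1 : Polynomial.C (ℓ : ℤ) ∣ P := (Polynomial.C_dvd_iff_dvd_coeff _ _).2 hcon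
    exact hℓint.not_isUnit (hprim _ h1)
  set n := P.natDegree with hn
  obtain ⟨i0, hi0⟩ := hex
  have hi0n : i0 ≤ n := by
    by_contra hlt
    push Not at hlt
    exact hi0 (by rw [Polynomial.coeff_eq_zero_of_natDegree_lt hlt]; exact dvd_zero _)
  set k := Nat.findGreatest (fun i => ¬ (ℓ : ℤ) ∣ P.coeff i) n with hkdef
  have hk : ¬ (ℓ : ℤ) ∣ P.coeff k := Nat.findGreatest_spec (P := fun i => ¬ (ℓ : ℤ) ∣ P.coeff i) hi0n hi0
  have hkn : k ≤ n := Nat.findGreatest_le n
  have hk' : ∀ j, k < j → (ℓ : ℤ) ∣ P.coeff j := by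
    intro j hj
    by_cases hjn : j ≤ n
    · have := Nat.findGreatest_is_greatest (P := fun i => ¬ (ℓ : ℤ) ∣ P.coeff i) hj hjn
      simpa using this
    · push Not at hjn
      rw [Polynomial.coeff_eq_zero_of_natDegree_lt hjn]; exact dvd_zero _
  -- the elements s and t
  set s : K := ∑ j ∈ Finset.range (n - k + 1), (P.coeff (k + j) : K) * x ^ j with hs
  set t : K := ∑ i ∈ Finset.range k, (P.coeff i : K) * x ^ i with ht
  have hsum : t + x ^ k * s = 0 := by
    rw [← hPx, Polynomial.aeval_eq_sum_range, ← hn]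
    have hnk : n + 1 = k + (n - k + 1) := by omega
    rw [hnk, Finset.sum_range_add, hs, ht, Finset.mul_sum]
    congr 1
    · refine Finset.sum_congr rfl fun i _ => ?_
      rw [zsmul_eq_mul]
    · refine Finset.sum_congr rfl fun j _ => ?_
      rw [zsmul_eq_mul, pow_add]; ring
  -- membership of s in A, and non-membership in the maximal ideal
  have hsA : s ∈ A := by
    rw [hs]
    exact sum_mem fun j _ => mul_mem (intCast_mem A _) (pow_mem hx j)
  have hs_nonunit : s ∉ A.nonunits := by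
    intro hsn
    -- s = a_k + ℓ * (...)
    have h2 : s = (P.coeff k : K) + ∑ j ∈ Finset.range (n - k), (P.coeff (k + (j + 1)) : K) * x ^ (j + 1) := by
      rw [hs, Finset.sum_range_succ', add_comm]; simp
    have h3 : ∑ j ∈ Finset.range (n - k), (P.coeff (k + (j + 1)) : K) * x ^ (j + 1) ∈ A.nonunits := by
      have h4 : ∀ j ∈ Finset.range (n - k), ∃ c : ℤ, (P.coeff (k + (j + 1)) : K) * x ^ (j + 1)
          = (ℓ : K) * ((c : K) * x ^ (j + 1)) := by
        intro j _
        obtain ⟨c, hc⟩ := hk' (k + (j + 1)) (by omega)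
        exact ⟨c, by rw [hc]; push_cast; ring⟩
      choose! c hc using h4
      rw [Finset.sum_congr rfl hc, ← Finset.mul_sum]
      have h5 : ∑ j ∈ Finset.range (n - k), (c j : K) * x ^ (j + 1) ∈ A :=
        sum_mem fun j _ => mul_mem (intCast_mem A _) (pow_mem hx _)
      rw [ValuationSubring.mem_nonunits_iff] at hA ⊢
      rw [map_mul]
      have h6 := (A.valuation_le_one_iff _).2 h5
      calc A.valuation (ℓ : K) * A.valuation (∑ j ∈ Finset.range (n - k), (c j : K) * x ^ (j + 1))
          ≤ A.valuation (ℓ : K) * 1 := by gcongr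
        _ < 1 := by rwa [mul_one]
    have h7 : (P.coeff k : K) ∈ A.nonunits := by
      have : (P.coeff k : K) = s - ∑ j ∈ Finset.range (n - k), (P.coeff (k + (j + 1)) : K) * x ^ (j + 1) := by
        rw [h2]; ring
      rw [this, ValuationSubring.mem_nonunits_iff]
      rw [ValuationSubring.mem_nonunits_iff] at hsn h3
      exact lt_of_le_of_lt (Valuation.map_sub _ _ _) (max_lt hsn h3)
    -- but a_k is coprime to ℓ
    obtain ⟨u, v, huv⟩ := (hℓint.irreducible.coprime_iff_not_dvd).2 hk
    have h8 : (u : K) * (ℓ : K) + (v : K) * (P.coeff k : K) = 1 := by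
      have := congrArg (Int.cast : ℤ → K) huv
      push_cast at this
      exact this
    have h9 : (1 : K) ∈ A.nonunits := by
      rw [← h8, ValuationSubring.mem_nonunits_iff]
      rw [ValuationSubring.mem_nonunits_iff] at h7 hA
      refine lt_of_le_of_lt (Valuation.map_add _ _ _) (max_lt ?_ ?_)
      · rw [map_mul]
        calc A.valuation (u : K) * A.valuation (ℓ : K) ≤ 1 * A.valuation (ℓ : K) := by
              gcongr; exact (A.valuation_le_one_iff _).2 (intCast_mem A _)
          _ < 1 := by rwa [one_mul]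
      · rw [map_mul]
        calc A.valuation (v : K) * A.valuation (P.coeff k : K) ≤ 1 * A.valuation (P.coeff k : K) := by
              gcongr; exact (A.valuation_le_one_iff _).2 (intCast_mem A _)
          _ < 1 := by rwa [one_mul]
    rw [ValuationSubring.mem_nonunits_iff, map_one] at h9
    exact lt_irrefl _ h9
  -- integrality of s and s * x
  have hint : ∀ V : ValuationSubring K, s ∈ V ∧ s * x ∈ V := by
    intro V
    by_cases hxV : x ∈ V
    · have hsV : s ∈ V := by
        rw [hs]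
        exact sum_mem fun j _ => mul_mem (intCast_mem V _) (pow_mem hxV j)
      exact ⟨hsV, mul_mem hsV hxV⟩
    · have hxinv : x⁻¹ ∈ V := (V.mem_or_inv_mem x).resolve_left hxV
      have hx0 : x ≠ 0 := fun h0 => hxV (h0 ▸ zero_mem V)
      have hs_eq : s = - (t * (x⁻¹) ^ k) := by
        have h1 : x ^ k * s = - t := by linear_combination hsum
        have h2 : (x⁻¹) ^ k * x ^ k = 1 := by rw [← mul_pow, inv_mul_cancel₀ hx0, one_pow]
        calc s = (x⁻¹) ^ k * x ^ k * s := by rw [h2, one_mul]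
          _ = (x⁻¹) ^ k * (x ^ k * s) := by ring
          _ = - (t * (x⁻¹) ^ k) := by rw [h1]; ring
      have hterm : ∀ i ∈ Finset.range k, (P.coeff i : K) * x ^ i * (x⁻¹) ^ k
          = (P.coeff i : K) * (x⁻¹) ^ (k - i - 1) * x⁻¹ := by
        intro i hi
        have hik : i < k := Finset.mem_range.1 hi
        have h1 : k = i + (k - i - 1) + 1 := by omega
        have h2 : x ^ i * (x⁻¹) ^ i = 1 := by rw [← mul_pow, mul_inv_cancel₀ hx0, one_pow]
        calc (P.coeff i : K) * x ^ i * (x⁻¹) ^ k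
            = (P.coeff i : K) * x ^ i * (x⁻¹) ^ (i + (k - i - 1) + 1) := by rw [← h1]
          _ = (P.coeff i : K) * (x ^ i * (x⁻¹) ^ i) * (x⁻¹) ^ (k - i - 1) * x⁻¹ := by
              rw [pow_succ, pow_add]; ring
          _ = _ := by rw [h2, mul_one]
      refine ⟨?_, ?_⟩
      · rw [hs_eq, ht, Finset.sum_mul]
        refine neg_mem (sum_mem fun i hi => ?_)
        rw [hterm i hi]
        exact mul_mem (mul_mem (intCast_mem V _) (pow_mem hxinv _)) hxinv
      · rw [hs_eq, ht, neg_mul, Finset.sum_mul, Finset.sum_mul]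
        refine neg_mem (sum_mem fun i hi => ?_)
        rw [hterm i hi, mul_assoc, inv_mul_cancel₀ hx0, mul_one]
        exact mul_mem (intCast_mem V _) (pow_mem hxinv _)
  exact ⟨s, isIntegral_of_forall_mem_valuationSubring s fun V => (hint V).1,
    isIntegral_of_forall_mem_valuationSubring (s * x) fun V => (hint V).2, hsA, hs_nonunit⟩

local notation "Qbar" => AlgebraicClosure ℚ
local notation "GQ" => (AlgebraicClosure ℚ ≃ₐ[ℚ] AlgebraicClosure ℚ)
local notation "OQbar" => integralClosure ℤ (AlgebraicClosure ℚ)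

/-- `AlgebraicClosure ℚ` is an algebraic closure of `ℚ` for the `ℚ`-algebra structure that
instance search finds by default (`DivisionRing.toRatAlgebra`), which is not the one for which
Mathlib states the instance (they agree by unfolding). -/
theorem isAlgClosure_rat : IsAlgClosure ℚ Qbar := AlgebraicClosure.instIsAlgClosure ℚ

attribute [local instance] isAlgClosure_rat

theorem isInvariant_OQbar : Algebra.IsInvariant ℤ OQbar GQ := by
  refine ⟨fun b hb => ?_⟩
  have h1 : ∀ g : GQ, g (b : Qbar) = b := fun g => congrArg Subtype.val (hb g)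
  obtain ⟨r, hr⟩ := (InfiniteGalois.mem_range_algebraMap_iff_fixed (k := ℚ) (K := Qbar) (b : Qbar)).2 h1
  have hb' : IsIntegral ℤ (b : Qbar) := b.2
  rw [← hr] at hb'
  have hr' : IsIntegral ℤ r :=
    (isIntegral_algebraMap_iff (FaithfulSMul.algebraMap_injective ℚ Qbar)).1 hb'
  obtain ⟨n, hn⟩ := IsIntegrallyClosed.isIntegral_iff.1 hr'
  refine ⟨n, Subtype.ext ?_⟩
  rw [← hr, ← hn]
  simp

theorem continuousSMul_OQbar :
    @ContinuousSMul GQ OQbar _ _ ⊥ := by
  let _ : TopologicalSpace OQbar := ⊥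
  have _ : DiscreteTopology OQbar := ⟨rfl⟩
  rw [continuousSMul_iff_stabilizer_isOpen]
  intro b
  have := stabilizer_isOpen_of_isIntegral (K := ℚ) (L := Qbar) (b : Qbar)
  convert this using 1
  ext g
  simp only [SetLike.mem_coe, MulAction.mem_stabilizer_iff]
  exact Subtype.ext_iff

theorem isAlgebraic_int_Qbar (x : Qbar) : IsAlgebraic ℤ x :=
  (IsFractionRing.isAlgebraic_iff ℤ ℚ Qbar).2 (Algebra.IsAlgebraic.isAlgebraic x)

/-- Existence of Frobenius elements: for every valuation subring `A` of `ℚ̄` lying over a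
prime `ℓ` there is `σ ∈ Gal(ℚ̄/ℚ)` in the decomposition group of `A` acting as `x ↦ x ^ ℓ`
on the residue field of `A`. -/
theorem exists_isFrobeniusAt (A : ValuationSubring Qbar) (ℓ : ℕ) (hℓ : ℓ.Prime)
    (hA : A.LiesOverPrime ℓ) : ∃ σ : GQ, A.IsFrobeniusAt σ ℓ := by
  classical
  have : Fact ℓ.Prime := ⟨hℓ⟩
  have hA' : (ℓ : Qbar) ∈ A.nonunits := hA
  let ι : OQbar →+* A :=
    { toFun := fun b => ⟨b.1, mem_valuationSubring_of_isIntegral A b.2⟩
      map_one' := rfl
      map_mul' := fun _ _ => rfl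
      map_zero' := rfl
      map_add' := fun _ _ => rfl }
  let Q : Ideal OQbar := (IsLocalRing.maximalIdeal A).comap ι
  have hQmem : ∀ b : OQbar, b ∈ Q ↔ (b : Qbar) ∈ A.nonunits := by
    intro b
    rw [Ideal.mem_comap, ← ValuationSubring.coe_mem_nonunits_iff]
    rfl
  have hQprime : Q.IsPrime := Ideal.comap_isPrime ι _
  let P : Ideal ℤ := Ideal.span {(ℓ : ℤ)}
  have hPmax : P.IsMaximal :=
    PrincipalIdealRing.isMaximal_of_irreducible (Nat.prime_iff_prime_int.mp hℓ).irreducible
  have hℓQ : (ℓ : OQbar) ∈ Q := by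
    rw [hQmem]; simpa using hA'
  have hQP : Q.LiesOver P := ⟨by
    refine hPmax.eq_of_le ?_ ?_
    · exact Ideal.comap_ne_top _ hQprime.ne_top
    · rw [Ideal.span_singleton_le_iff_mem, Ideal.under, Ideal.mem_comap]
      simpa using hℓQ⟩
  have : CharP (OQbar ⧸ Q) ℓ := (CharP.charP_iff_prime_eq_zero hℓ).2 (by
    rw [← map_natCast (Ideal.Quotient.mk Q)]; exact Ideal.Quotient.eq_zero_iff_mem.2 hℓQ)
  have : ExpChar (OQbar ⧸ Q) ℓ := .prime hℓ
  have hsurj : Function.Surjective (frobenius (OQbar ⧸ Q) ℓ) := by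
    intro y
    obtain ⟨b, rfl⟩ := Ideal.Quotient.mk_surjective y
    obtain ⟨z, hz⟩ := IsAlgClosed.exists_pow_nat_eq (b : Qbar) hℓ.pos
    have hzint : IsIntegral ℤ z := by
      have : IsIntegral ℤ (z ^ ℓ) := hz ▸ b.2
      exact IsIntegral.of_pow hℓ.pos this
    refine ⟨Ideal.Quotient.mk Q ⟨z, hzint⟩, ?_⟩
    rw [frobenius_def, ← map_pow]
    congr 1
    exact Subtype.ext hz
  have : PerfectRing (OQbar ⧸ Q) ℓ := PerfectRing.ofSurjective _ _ hsurj
  let l : (OQbar ⧸ Q) ≃ₐ[ℤ ⧸ P] (OQbar ⧸ Q) :=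
    { frobeniusEquiv (OQbar ⧸ Q) ℓ with
      commutes' := fun r => by
        obtain ⟨n, rfl⟩ := Ideal.Quotient.mk_surjective r
        change frobenius (OQbar ⧸ Q) ℓ (Ideal.Quotient.mk Q (algebraMap ℤ OQbar n)) =
          Ideal.Quotient.mk Q (algebraMap ℤ OQbar n)
        rw [eq_intCast, map_intCast, map_intCast] }
  let _ : TopologicalSpace OQbar := ⊥
  have : DiscreteTopology OQbar := ⟨rfl⟩
  have := continuousSMul_OQbar
  have := isInvariant_OQbar
  obtain ⟨⟨σ, hσQ⟩, hσ⟩ := Ideal.Quotient.stabilizerHom_surjective_of_profinite (G := GQ) P Q l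
  have hfrob : ∀ b : OQbar, σ • b - b ^ ℓ ∈ Q := by
    intro b
    have h1 := DFunLike.congr_fun hσ (Ideal.Quotient.mk Q b)
    rw [Ideal.Quotient.stabilizerHom_apply] at h1
    have h2 : l (Ideal.Quotient.mk Q b) = Ideal.Quotient.mk Q (b ^ ℓ) := by
      rw [map_pow]; rfl
    rw [h2] at h1
    exact Ideal.Quotient.eq.1 h1
  -- elements of the stabilizer of Q preserve A
  have hstab : ∀ τ : GQ, τ ∈ MulAction.stabilizer GQ Q → ∀ y ∈ A, τ y ∈ A := by
    intro τ hτ y hy
    obtain ⟨s, hs, hsy, hsA, hsn⟩ := exists_integral_denominator A ℓ hℓ hA' y hy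
      (isAlgebraic_int_Qbar y)
    have h1 : (⟨s, hs⟩ : OQbar) ∉ Q := by rw [hQmem]; exact hsn
    have h2 : τ • (⟨s, hs⟩ : OQbar) ∉ Q := by
      intro h
      rw [← MulAction.mem_stabilizer_iff.1 hτ] at h
      exact h1 (Ideal.smul_mem_pointwise_smul_iff.1 h)
    have h3 : τ s ∉ A.nonunits := by
      rw [hQmem] at h2; exact h2
    have h4 : τ s ∈ A := mem_valuationSubring_of_isIntegral A (hs.map τ.toAlgHom.toIntAlgHom)
    have h5 : τ s * τ y ∈ A := by
      rw [← map_mul]
      exact mem_valuationSubring_of_isIntegral A (hsy.map τ.toAlgHom.toIntAlgHom)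
    have h6 : A.valuation (τ s) = 1 :=
      le_antisymm ((A.valuation_le_one_iff _).2 h4) (not_lt.1 h3)
    rw [← A.valuation_le_one_iff] at h5 ⊢
    rwa [map_mul, h6, one_mul] at h5
  have hσA : σ ∈ A.decompositionSubgroup ℚ := by
    rw [MulAction.mem_stabilizer_iff]
    refine le_antisymm ?_ ?_
    · intro x hx
      rw [ValuationSubring.mem_pointwise_smul_iff_inv_smul_mem] at hx
      have := hstab σ hσQ _ hx
      simpa using this
    · intro x hx
      rw [ValuationSubring.mem_pointwise_smul_iff_inv_smul_mem]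
      exact hstab σ⁻¹ (inv_mem hσQ) x hx
  refine ⟨σ, hσA, fun xbar => ?_⟩
  obtain ⟨x, rfl⟩ := IsLocalRing.residue_surjective xbar
  rw [← IsLocalRing.ResidueField.residue_smul, ← map_pow]
  refine (Ideal.Quotient.eq).2 ?_
  rw [← ValuationSubring.coe_mem_nonunits_iff]
  change σ (x : Qbar) - (x : Qbar) ^ ℓ ∈ A.nonunits
  obtain ⟨s, hs, hsy, hsA, hsn⟩ := exists_integral_denominator A ℓ hℓ hA' x x.2
    (isAlgebraic_int_Qbar _)
  have h1 : (⟨s, hs⟩ : OQbar) ∉ Q := by rw [hQmem]; exact hsn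
  have h2 : σ • (⟨s, hs⟩ : OQbar) ∉ Q := by
    intro h
    rw [← MulAction.mem_stabilizer_iff.1 hσQ] at h
    exact h1 (Ideal.smul_mem_pointwise_smul_iff.1 h)
  have h3 : σ s ∉ A.nonunits := by
    rw [hQmem] at h2; exact h2
  have h4 : σ s ∈ A := mem_valuationSubring_of_isIntegral A (hs.map σ.toAlgHom.toIntAlgHom)
  have h6 : A.valuation (σ s) = 1 :=
    le_antisymm ((A.valuation_le_one_iff _).2 h4) (not_lt.1 h3)
  have h7 : σ s - s ^ ℓ ∈ A.nonunits := by
    have := hfrob ⟨s, hs⟩
    rw [hQmem] at this; exact this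
  have h8 : σ (s * x) - (s * x) ^ ℓ ∈ A.nonunits := by
    have := hfrob ⟨s * x, hsy⟩
    rw [hQmem] at this; exact this
  have h9 : σ s * (σ (x : Qbar) - (x : Qbar) ^ ℓ) =
      (σ (s * x) - (s * x) ^ ℓ) - (σ s - s ^ ℓ) * (x : Qbar) ^ ℓ := by
    rw [map_mul]; ring
  rw [ValuationSubring.mem_nonunits_iff] at h7 h8 ⊢
  have h10 : A.valuation (σ s * (σ (x : Qbar) - (x : Qbar) ^ ℓ)) < 1 := by
    rw [h9]
    refine lt_of_le_of_lt (Valuation.map_sub _ _ _) (max_lt h8 ?_)
    rw [map_mul]
    calc A.valuation (σ s - s ^ ℓ) * A.valuation ((x : Qbar) ^ ℓ)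
        ≤ A.valuation (σ s - s ^ ℓ) * 1 := by
          gcongr; exact (A.valuation_le_one_iff _).2 (pow_mem x.2 _)
      _ < 1 := by rwa [mul_one]
  rwa [map_mul, h6, one_mul] at h10

/-- Every prime number has a valuation subring of `ℚ̄` lying over it. -/
theorem exists_liesOverPrime (ℓ : ℕ) (hℓ : ℓ.Prime) :
    ∃ A : ValuationSubring Qbar, A.LiesOverPrime ℓ := by
  let R : Subring Qbar := ⊥
  let I : Ideal R := Ideal.span {(ℓ : R)}
  have hI : I ≠ ⊤ := by
    intro h
    rw [Ideal.eq_top_iff_one, Ideal.mem_span_singleton'] at h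
    obtain ⟨⟨c, hc⟩, hc1⟩ := h
    obtain ⟨m, rfl⟩ := Subring.mem_bot.1 hc
    have h1 : ((m * (ℓ : ℤ) : ℤ) : Qbar) = ((1 : ℤ) : Qbar) := by
      have := congrArg (Subtype.val : R → Qbar) hc1
      push_cast at this ⊢
      exact this
    have h2 : m * (ℓ : ℤ) = 1 := Int.cast_injective h1
    have h3 : IsUnit (ℓ : ℤ) := IsUnit.of_mul_eq_one _ (by rw [mul_comm]; exact h2)
    exact (Nat.prime_iff_prime_int.mp hℓ).not_isUnit h3
  obtain ⟨A, -, hA⟩ := Ideal.image_subset_nonunits_valuationSubring I hI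
  refine ⟨A, ?_⟩
  have : (ℓ : Qbar) ∈ R.subtype '' (I : Set R) :=
    ⟨(ℓ : R), Ideal.subset_span rfl, by simp⟩
  exact hA this

/-- Frobenius elements exist at every prime. -/
theorem exists_frobenius (ℓ : ℕ) (hℓ : ℓ.Prime) :
    ∃ (A : ValuationSubring Qbar) (σ : GQ), A.LiesOverPrime ℓ ∧ A.IsFrobeniusAt σ ℓ := by
  obtain ⟨A, hA⟩ := exists_liesOverPrime ℓ hℓ
  obtain ⟨σ, hσ⟩ := exists_isFrobeniusAt A ℓ hℓ hA
  exact ⟨A, σ, hA, hσ⟩

end Fermat.Agent.Lib.helper294
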