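import Mathlib

/-!
# Case II of Fermat's Last Theorem for a prime exponent `p`, assuming the ring of integers of the
`p`-th cyclotomic field is a PID and Kummer's lemma holds (helper3071).

Kummer descent (Washington, Thm 9.3), PID version.
-/

set_option autoImplicit false
set_option linter.unusedSectionVars false

namespace Fermat.Agent.Lib.helper3071

open NumberField Polynomial Finset

/-- In a Bézout domain, if a product of pairwise coprime elements is a unit times a `k`-th power,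
then every factor is associated to a `k`-th power. -/
lemma exists_associated_pow_of_prod_eq_unit_mul_pow {R ι : Type*} [CommRing R] [IsDomain R]
    [IsBezout R] [DecidableEq ι] {s : Finset ι} {f : ι → R} {ε : Rˣ} {ξ : R} {k : ℕ}
    (hcop : ∀ i ∈ s, ∀ j ∈ s, i ≠ j → IsCoprime (f i) (f j))
    (hprod : ∏ i ∈ s, f i = ε * ξ ^ k) :
    ∀ i ∈ s, ∃ d : R, Associated (d ^ k) (f i) := by
  intro i hi
  have h1 : f i * ((ε⁻¹ : Rˣ) * ∏ j ∈ s.erase i, f j) = ξ ^ k := by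
    have : f i * ∏ j ∈ s.erase i, f j = ε * ξ ^ k := by
      rw [Finset.mul_prod_erase s f hi, hprod]
    calc f i * ((ε⁻¹ : Rˣ) * ∏ j ∈ s.erase i, f j)
        = (ε⁻¹ : Rˣ) * (f i * ∏ j ∈ s.erase i, f j) := by ring
      _ = ξ ^ k := by rw [this, ← mul_assoc, Units.inv_mul, one_mul]
  have h2 : IsCoprime (f i) ((ε⁻¹ : Rˣ) * ∏ j ∈ s.erase i, f j) := by
    refine IsCoprime.mul_right (isCoprime_one_right.of_isCoprime_of_dvd_right ?_) ?_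
    · exact (ε⁻¹).isUnit.dvd
    · refine IsCoprime.prod_right fun j hj => ?_
      exact hcop i hi j (Finset.mem_of_mem_erase hj) (Finset.ne_of_mem_erase hj).symm
  exact exists_associated_pow_of_mul_eq_pow' h2 h1

section basic

variable {p : ℕ} [hp : Fact p.Prime] {K : Type*} [Field K] [NumberField K]
  [IsCyclotomicExtension {p} ℚ K] {ζ : K} (hζ : IsPrimitiveRoot ζ p)

/-- The set of `p`-th roots of unity in `𝓞 K`. -/
noncomputable abbrev mu (p : ℕ) (K : Type*) [Field K] [NumberField K] : Finset (𝓞 K) :=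
  nthRootsFinset p (1 : 𝓞 K)

include hζ in
lemma card_mu : (mu p K).card = p :=
  hζ.toInteger_isPrimitiveRoot.card_nthRootsFinset

lemma one_mem_mu [NeZero p] : (1 : 𝓞 K) ∈ mu p K := by
  rw [mem_nthRootsFinset (NeZero.pos p)]
  exact one_pow p

lemma zeta_mem_mu : hζ.toInteger ∈ mu p K := by
  rw [mem_nthRootsFinset (NeZero.pos p)]
  exact hζ.toInteger_isPrimitiveRoot.pow_eq_one

lemma pow_eq_one_of_mem_mu [NeZero p] {η : 𝓞 K} (hη : η ∈ mu p K) : η ^ p = 1 :=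
  (mem_nthRootsFinset (NeZero.pos p) 1).1 hη

lemma pow_mem_mu [NeZero p] {η : 𝓞 K} (hη : η ∈ mu p K) (k : ℕ) : η ^ k ∈ mu p K := by
  rw [mem_nthRootsFinset (NeZero.pos p)]
  rw [← pow_mul, mul_comm, pow_mul, pow_eq_one_of_mem_mu hη, one_pow]

lemma isUnit_of_mem_mu [NeZero p] {η : 𝓞 K} (hη : η ∈ mu p K) : IsUnit η :=
  IsUnit.of_pow_eq_one (pow_eq_one_of_mem_mu hη) (NeZero.ne p)

include hζ in
/-- Distinct `p`-th roots of unity differ by a unit times `ζ - 1`. -/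
lemma exists_unit_sub_eq {η₁ η₂ : 𝓞 K} (h₁ : η₁ ∈ mu p K) (h₂ : η₂ ∈ mu p K) (hne : η₁ ≠ η₂) :
    ∃ u : (𝓞 K)ˣ, η₁ - η₂ = (hζ.toInteger - 1) * u := by
  obtain ⟨u, hu⟩ :=
    hζ.toInteger_isPrimitiveRoot.nthRootsFinset_pairwise_associated_sub_one_sub_of_prime
      hp.out h₁ h₂ hne
  exact ⟨u, hu.symm⟩

include hζ in
lemma sub_one_dvd_sub_of_mem_mu {η₁ η₂ : 𝓞 K} (h₁ : η₁ ∈ mu p K) (h₂ : η₂ ∈ mu p K) :
    hζ.toInteger - 1 ∣ η₁ - η₂ :=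
  hζ.toInteger_isPrimitiveRoot.sub_one_dvd_sub hp.out h₁ h₂

include hζ in
lemma not_isUnit_p : ¬ IsUnit (p : 𝓞 K) := fun h =>
  hζ.zeta_sub_one_prime'.not_isUnit (isUnit_of_dvd_unit hζ.toInteger_sub_one_dvd_prime' h)

include hζ in
/-- Every `p`-th power in `𝓞 K` is congruent to a rational integer modulo `p`. -/
lemma exists_int_dvd_pow_sub (α : 𝓞 K) : ∃ n : ℤ, (p : 𝓞 K) ∣ α ^ p - n := by
  obtain ⟨f, hf⟩ := hζ.integralPowerBasis.exists_eq_aeval' α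
  rw [hζ.integralPowerBasis_gen] at hf
  have : CharP (𝓞 K ⧸ Ideal.span {(p : 𝓞 K)}) p := CharP.quotient (𝓞 K) p (not_isUnit_p hζ)
  refine ⟨f.eval 1, ?_⟩
  rw [← Ideal.mem_span_singleton, ← Ideal.Quotient.eq]
  set R := 𝓞 K ⧸ Ideal.span {(p : 𝓞 K)}
  set q : 𝓞 K →+* R := Ideal.Quotient.mk _ with hq
  change q (α ^ p) = q ((f.eval 1 : ℤ) : 𝓞 K)
  have h1 : q α = eval₂ (Int.castRingHom R) (q hζ.toInteger) f := by
    rw [hf, aeval_def, hom_eval₂]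
    congr 1
  have h2 : (q hζ.toInteger) ^ p = 1 := by
    rw [← map_pow, hζ.toInteger_isPrimitiveRoot.pow_eq_one, map_one]
  calc q (α ^ p) = frobenius R p (q α) := by rw [map_pow, frobenius_def]
    _ = eval₂ ((frobenius R p).comp (Int.castRingHom R)) (frobenius R p (q hζ.toInteger)) f := by
        rw [h1, hom_eval₂]
    _ = eval₂ (Int.castRingHom R) 1 f := by
        rw [frobenius_def, h2]
        congr 1
        exact RingHom.ext_int _ _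
    _ = q ((f.eval 1 : ℤ) : 𝓞 K) := by
        rw [eval₂_at_one]; simp

local notation3 "Λ" => hζ.toInteger - 1

include hζ in
lemma all_dvd (hp2 : p ≠ 2) {m : ℕ} (hm : 1 ≤ m) {ω θ ξ : 𝓞 K} {ε : (𝓞 K)ˣ}
    (heq : ω ^ p + θ ^ p = ε * (Λ ^ m * ξ) ^ p) : ∀ η ∈ mu p K, Λ ∣ ω + η * θ := by
  have hΛ : Prime Λ := hζ.zeta_sub_one_prime'
  have hodd : Odd p := hp.out.odd_of_ne_two hp2
  have h1 : ω ^ p + θ ^ p = ∏ η ∈ mu p K, (ω + η * θ) :=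
    hζ.toInteger_isPrimitiveRoot.pow_add_pow_eq_prod_add_mul ω θ hodd
  have h2 : Λ ∣ ∏ η ∈ mu p K, (ω + η * θ) := by
    rw [← h1, heq]
    refine Dvd.dvd.mul_left (dvd_pow ?_ hp.out.ne_zero) _
    exact Dvd.dvd.mul_right (dvd_pow_self _ (by omega)) _
  obtain ⟨η₁, hη₁, hd⟩ := (hΛ.dvd_finsetProd_iff _).1 h2
  intro η hη
  have : ω + η * θ = (ω + η₁ * θ) + (η - η₁) * θ := by ring
  rw [this]
  exact dvd_add hd (Dvd.dvd.mul_right (sub_one_dvd_sub_of_mem_mu hζ hη hη₁) _)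

include hζ in
lemma exists_sq_dvd (hp2 : p ≠ 2) {ω θ : 𝓞 K} (hθ : ¬ Λ ∣ θ)
    (hdiv : ∀ η ∈ mu p K, Λ ∣ ω + η * θ) : ∃ η₀ ∈ mu p K, Λ ^ 2 ∣ ω + η₀ * θ := by
  classical
  have hΛ : Prime Λ := hζ.zeta_sub_one_prime'
  choose! c hc using hdiv
  let g : ↥(mu p K) → 𝓞 K ⧸ Ideal.span {Λ} := fun η => Ideal.Quotient.mk _ (c η.1)
  have hg : Function.Injective g := by
    intro η₁ η₂ h
    by_contra hne
    have hne' : η₁.1 ≠ η₂.1 := fun h' => hne (Subtype.ext h')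
    obtain ⟨u, hu⟩ := exists_unit_sub_eq hζ η₁.2 η₂.2 hne'
    have e1 : c η₁.1 - c η₂.1 = u * θ := by
      apply mul_left_cancel₀ hΛ.ne_zero
      rw [mul_sub, ← hc η₁.1 η₁.2, ← hc η₂.1 η₂.2, ← mul_assoc, ← hu]; ring
    have h3 : Λ ∣ c η₁.1 - c η₂.1 := by
      rw [← Ideal.mem_span_singleton, ← Ideal.Quotient.eq]
      exact h
    rw [e1] at h3
    exact hθ ((hΛ.dvd_mul.1 h3).resolve_left
      (fun h => hΛ.not_isUnit (isUnit_of_dvd_unit h u.isUnit)))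
  have hfin : Finite (𝓞 K ⧸ Ideal.span {Λ}) :=
    hζ.finite_quotient_toInteger_sub_one hp.out.one_lt
  have hcard : Nat.card (𝓞 K ⧸ Ideal.span {Λ}) ≤ Nat.card ↥(mu p K) := by
    rw [hζ.card_quotient_toInteger_sub_one, hζ.norm_toInteger_sub_one_of_prime_ne_two' hp2,
      Nat.card_eq_fintype_card, Fintype.card_coe, card_mu hζ]
    simp
  obtain ⟨η₀, h0⟩ := (hg.bijective_of_nat_card_le hcard).2 0
  refine ⟨η₀.1, η₀.2, ?_⟩
  have h3 : Λ ∣ c η₀.1 := by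
    rw [← Ideal.mem_span_singleton, ← Ideal.Quotient.eq_zero_iff_mem]
    exact h0
  rw [hc η₀.1 η₀.2, pow_two]
  exact mul_dvd_mul_left _ h3

include hζ in
lemma zeta_pow_pred_mem : hζ.toInteger ^ (p - 1) ∈ mu p K := pow_mem_mu (zeta_mem_mu hζ) _

include hζ in
lemma zeta_mul_zeta_pow_pred : hζ.toInteger * hζ.toInteger ^ (p - 1) = 1 := by
  rw [← pow_succ', Nat.sub_add_cancel hp.out.one_le, hζ.toInteger_isPrimitiveRoot.pow_eq_one]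

include hζ in
lemma zeta_ne_one : hζ.toInteger ≠ 1 := hζ.toInteger_isPrimitiveRoot.ne_one hp.out.one_lt

include hζ in
lemma zeta_pow_pred_ne_one : hζ.toInteger ^ (p - 1) ≠ 1 :=
  hζ.toInteger_isPrimitiveRoot.pow_ne_one_of_pos_of_lt
    (Nat.sub_pos_of_lt hp.out.one_lt).ne' (Nat.sub_lt hp.out.pos Nat.one_pos)

include hζ in
lemma zeta_ne_zeta_pow_pred (hp2 : p ≠ 2) : hζ.toInteger ≠ hζ.toInteger ^ (p - 1) := by
  intro h
  have h1 : hζ.toInteger ^ 2 = 1 := by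
    rw [pow_two]
    nth_rewrite 2 [h]
    exact zeta_mul_zeta_pow_pred hζ
  have h2 : p ∣ 2 := (hζ.toInteger_isPrimitiveRoot.pow_eq_one_iff_dvd 2).1 h1
  have h3 : p ≤ 2 := Nat.le_of_dvd (by norm_num) h2
  have h4 := hp.out.two_le
  omega

include hζ in
lemma isUnit_one_add_zeta (hp2 : p ≠ 2) : IsUnit (1 + hζ.toInteger) := by
  have h := hζ.toInteger_isPrimitiveRoot.geom_sum_isUnit hp.out.two_le
    ((Nat.coprime_primes Nat.prime_two hp.out).2 (Ne.symm hp2))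
  simpa [Finset.sum_range_succ] using h

include hζ in
lemma p_dvd_pow {n : ℕ} (hn : p - 1 ≤ n) : (p : 𝓞 K) ∣ Λ ^ n :=
  (IsCyclotomicExtension.Rat.associated_zeta_sub_one_pow_prime p hζ).symm.dvd.trans
    (pow_dvd_pow _ hn)

include hζ in
lemma dvd_intCast_iff {n : ℤ} : Λ ∣ (n : 𝓞 K) ↔ (p : ℤ) ∣ n := by
  have h1 : IsCyclotomicExtension {p ^ (0 + 1)} ℚ K := by simpa using ‹IsCyclotomicExtension {p} ℚ K›
  have h2 : IsPrimitiveRoot ζ (p ^ (0 + 1)) := by simpa using hζ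
  exact IsCyclotomicExtension.Rat.zeta_sub_one_dvd_intCast_iff p 0 h2

/-- `Sol hζ m`: a solution of the generalised Fermat equation with `λ`-exponent `m`. -/
def Sol (m : ℕ) : Prop :=
  ∃ (ω θ ξ : 𝓞 K) (ε : (𝓞 K)ˣ), ¬ Λ ∣ ω ∧ ¬ Λ ∣ θ ∧ ¬ Λ ∣ ξ ∧ IsCoprime ω θ ∧
    ω ^ p + θ ^ p = ε * (Λ ^ m * ξ) ^ p

include hζ in
/-- The core of the descent: from a solution with `λ² ∣ ω + θ` we get `2 ≤ m` and a solution with
exponent `m - 1`. -/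
lemma descent_core [IsPrincipalIdealRing (𝓞 K)] (hp2 : p ≠ 2)
    (hK : ∀ u : (𝓞 K)ˣ, ∀ n : ℤ, (p : 𝓞 K) ∣ (u : 𝓞 K) - n → ∃ v : (𝓞 K)ˣ, u = v ^ p)
    {m : ℕ} (hm : 1 ≤ m) {ω θ ξ : 𝓞 K} {ε : (𝓞 K)ˣ}
    (hθ : ¬ Λ ∣ θ) (hξ : ¬ Λ ∣ ξ) (hcop : IsCoprime ω θ)
    (heq : ω ^ p + θ ^ p = ε * (Λ ^ m * ξ) ^ p) (hsq : Λ ^ 2 ∣ ω + θ) :
    2 ≤ m ∧ Sol hζ (m - 1) := by
  classical
  have hΛ : Prime Λ := hζ.zeta_sub_one_prime'
  have hodd : Odd p := hp.out.odd_of_ne_two hp2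
  have hppos : 0 < p := hp.out.pos
  have hdiv : ∀ η ∈ mu p K, Λ ∣ ω + η * θ := all_dvd hζ hp2 hm heq
  choose! c hc using hdiv
  have h1mem : (1 : 𝓞 K) ∈ mu p K := one_mem_mu
  -- `λ ∣ c 1`
  have hc1 : Λ ∣ c 1 := by
    have h := hc 1 h1mem
    rw [one_mul] at h
    rw [h, pow_two] at hsq
    exact (mul_dvd_mul_iff_left hΛ.ne_zero).1 hsq
  -- `λ ∤ c η` for `η ≠ 1`
  have hcne : ∀ η ∈ mu p K, η ≠ 1 → ¬ Λ ∣ c η := by
    intro η hη hne hdvd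
    obtain ⟨u, hu⟩ := exists_unit_sub_eq hζ hη h1mem hne
    have e2 : c η - c 1 = u * θ := by
      apply mul_left_cancel₀ hΛ.ne_zero
      rw [mul_sub, ← hc η hη, ← hc 1 h1mem, ← mul_assoc, ← hu]; ring
    have h3 : Λ ∣ (u : 𝓞 K) * θ := e2 ▸ dvd_sub hdvd hc1
    exact hθ ((hΛ.dvd_mul.1 h3).resolve_left
      (fun h => hΛ.not_isUnit (isUnit_of_dvd_unit h u.isUnit)))
  -- pairwise coprimality
  have hcop' : ∀ η₁ ∈ mu p K, ∀ η₂ ∈ mu p K, η₁ ≠ η₂ → IsCoprime (c η₁) (c η₂) := by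
    intro η₁ h₁ η₂ h₂ hne
    obtain ⟨u, hu⟩ := exists_unit_sub_eq hζ h₁ h₂ hne
    have e1 : c η₁ - c η₂ = u * θ := by
      apply mul_left_cancel₀ hΛ.ne_zero
      rw [mul_sub, ← hc η₁ h₁, ← hc η₂ h₂, ← mul_assoc, ← hu]; ring
    have e2 : η₂ * c η₁ - η₁ * c η₂ = - (u * ω) := by
      apply mul_left_cancel₀ hΛ.ne_zero
      have e3 : Λ * (η₂ * c η₁ - η₁ * c η₂) = η₂ * (Λ * c η₁) - η₁ * (Λ * c η₂) := by ring
      have e4 : Λ * -(↑u * ω) = - ((Λ * u) * ω) := by ring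
      rw [e3, ← hc η₁ h₁, ← hc η₂ h₂, e4, ← hu]; ring
    obtain ⟨s, t, hst⟩ := hcop
    refine ⟨((u⁻¹ : (𝓞 K)ˣ) : 𝓞 K) * (t - s * η₂), ((u⁻¹ : (𝓞 K)ˣ) : 𝓞 K) * (s * η₁ - t), ?_⟩
    have e5 : (t - s * η₂) * c η₁ + (s * η₁ - t) * c η₂ = u * (s * ω + t * θ) := by
      linear_combination t * e1 - s * e2
    calc ((u⁻¹ : (𝓞 K)ˣ) : 𝓞 K) * (t - s * η₂) * c η₁
          + ((u⁻¹ : (𝓞 K)ˣ) : 𝓞 K) * (s * η₁ - t) * c η₂
        = ((u⁻¹ : (𝓞 K)ˣ) : 𝓞 K) * ((t - s * η₂) * c η₁ + (s * η₁ - t) * c η₂) := by ring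
      _ = 1 := by rw [e5, hst, mul_one, Units.inv_mul]
  -- the product formula
  have hprod : ∏ η ∈ mu p K, c η = ε * (Λ ^ (m - 1) * ξ) ^ p := by
    have h1 : ω ^ p + θ ^ p = ∏ η ∈ mu p K, (ω + η * θ) :=
      hζ.toInteger_isPrimitiveRoot.pow_add_pow_eq_prod_add_mul ω θ hodd
    have h2 : ∏ η ∈ mu p K, (ω + η * θ) = Λ ^ p * ∏ η ∈ mu p K, c η := by
      rw [Finset.prod_congr rfl hc, Finset.prod_mul_distrib, Finset.prod_const, card_mu hζ]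
    apply mul_left_cancel₀ (pow_ne_zero p hΛ.ne_zero)
    rw [← h2, ← h1, heq]
    obtain ⟨m', rfl⟩ : ∃ m', m = m' + 1 := ⟨m - 1, by omega⟩
    simp only [Nat.add_sub_cancel]
    generalize (hζ.toInteger - 1 : 𝓞 K) = L
    ring
  set P' := ∏ η ∈ (mu p K).erase 1, c η with hP'
  have hP'prod : c 1 * P' = ε * (Λ ^ (m - 1) * ξ) ^ p := by
    rw [hP', Finset.mul_prod_erase _ _ h1mem, hprod]
  have hP'ndvd : ¬ Λ ∣ P' := by
    rw [hP', hΛ.dvd_finsetProd_iff]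
    rintro ⟨η, hη, hdvd⟩
    exact hcne η (Finset.mem_of_mem_erase hη) (Finset.ne_of_mem_erase hη) hdvd
  have hpow : Λ ^ ((m - 1) * p) ∣ c 1 := by
    refine hΛ.pow_dvd_of_dvd_mul_right _ hP'ndvd ?_
    rw [hP'prod, mul_pow, ← pow_mul]
    exact Dvd.dvd.mul_left (Dvd.intro _ rfl) _
  obtain ⟨t, ht⟩ := hpow
  have htP' : t * P' = ε * ξ ^ p := by
    apply mul_left_cancel₀ (pow_ne_zero ((m - 1) * p) hΛ.ne_zero)
    rw [← mul_assoc, ← ht, hP'prod, mul_pow, ← pow_mul]; ring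
  have htndvd : ¬ Λ ∣ t := by
    intro h
    have h3 : Λ ∣ (ε : 𝓞 K) * ξ ^ p := htP' ▸ Dvd.dvd.mul_right h P'
    have h4 := (hΛ.dvd_mul.1 h3).resolve_left
      (fun h => hΛ.not_isUnit (isUnit_of_dvd_unit h ε.isUnit))
    exact hξ (hΛ.dvd_of_dvd_pow h4)
  have hm2 : 2 ≤ m := by
    by_contra hlt
    have hm1 : m = 1 := by omega
    subst hm1
    simp only [Nat.sub_self, zero_mul, pow_zero, one_mul] at ht
    exact htndvd (ht ▸ hc1)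
  refine ⟨hm2, ?_⟩
  -- every (modified) factor is a unit times a `p`-th power
  set f : 𝓞 K → 𝓞 K := fun η => if η = 1 then t else c η with hf
  have hfdvd : ∀ η, f η ∣ c η := by
    intro η
    by_cases h : η = 1
    · simp only [hf, h, if_true]; exact Dvd.intro_left _ ht.symm
    · simp only [hf, h, if_false]; exact dvd_rfl
  have hfcop : ∀ η₁ ∈ mu p K, ∀ η₂ ∈ mu p K, η₁ ≠ η₂ → IsCoprime (f η₁) (f η₂) :=
    fun η₁ h₁ η₂ h₂ hne =>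
      ((hcop' η₁ h₁ η₂ h₂ hne).of_isCoprime_of_dvd_left (hfdvd η₁)).of_isCoprime_of_dvd_right
        (hfdvd η₂)
  have hfprod : ∏ η ∈ mu p K, f η = ε * ξ ^ p := by
    rw [← Finset.mul_prod_erase _ _ h1mem, ← htP', hP']
    congr 1
    · simp [hf]
    · refine Finset.prod_congr rfl fun η hη => ?_
      simp [hf, Finset.ne_of_mem_erase hη]
  have hpth := exists_associated_pow_of_prod_eq_unit_mul_pow hfcop hfprod
  -- the three roots of unity we use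
  set z : 𝓞 K := hζ.toInteger with hz
  set z' : 𝓞 K := hζ.toInteger ^ (p - 1) with hz'
  have hzmem : z ∈ mu p K := zeta_mem_mu hζ
  have hz'mem : z' ∈ mu p K := zeta_pow_pred_mem hζ
  have hzne : z ≠ 1 := zeta_ne_one hζ
  have hz'ne : z' ≠ 1 := zeta_pow_pred_ne_one hζ
  have hzz' : z ≠ z' := zeta_ne_zeta_pow_pred hζ hp2
  have hzmul : z * z' = 1 := zeta_mul_zeta_pow_pred hζ
  obtain ⟨d₁, u₁, hd₁⟩ := hpth z hzmem
  obtain ⟨d₂, u₂, hd₂⟩ := hpth z' hz'mem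
  obtain ⟨d₀, u₀, hd₀⟩ := hpth 1 h1mem
  simp only [hf, hzne, hz'ne, if_false, if_true] at hd₁ hd₂ hd₀
  -- the linear relation
  have hrel : z * c z' + c z = (1 + z) * c 1 := by
    apply mul_left_cancel₀ hΛ.ne_zero
    have e1 := hc z hzmem
    have e2 := hc z' hz'mem
    have e3 := hc 1 h1mem
    linear_combination (-z) * e2 - e1 + (1 + z) * e3 + θ * hzmul
  obtain ⟨uz, huz⟩ := isUnit_of_mem_mu hzmem
  obtain ⟨w, hw⟩ := isUnit_one_add_zeta hζ hp2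
  -- the new equation
  have hnew : d₁ ^ p + ((u₁⁻¹ * uz * u₂ : (𝓞 K)ˣ) : 𝓞 K) * d₂ ^ p
      = ((u₁⁻¹ * w * u₀ : (𝓞 K)ˣ) : 𝓞 K) * (Λ ^ (m - 1 - 1 + 1) * d₀) ^ p := by
    have hm' : m - 1 - 1 + 1 = m - 1 := by omega
    rw [hm']
    have e1 : ((u₁ : (𝓞 K)ˣ) : 𝓞 K) * ((u₁⁻¹ : (𝓞 K)ˣ) : 𝓞 K) = 1 := Units.mul_inv u₁
    have e2 : z * (d₂ ^ p * u₂) + d₁ ^ p * u₁ = (1 + z) * (Λ ^ ((m - 1) * p) * (d₀ ^ p * u₀)) := by
      rw [hd₁, hd₂, hd₀, ← ht]; exact hrel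
    simp only [Units.val_mul, huz, hw, mul_pow, ← pow_mul]
    linear_combination ((u₁⁻¹ : (𝓞 K)ˣ) : 𝓞 K) * e2 + (- d₁ ^ p) * e1
  -- non-divisibility and coprimality of the new data
  have hd₁ndvd : ¬ Λ ∣ d₁ := fun h =>
    hcne z hzmem hzne (hd₁ ▸ Dvd.dvd.mul_right (dvd_pow h hppos.ne') _)
  have hd₂ndvd : ¬ Λ ∣ d₂ := fun h =>
    hcne z' hz'mem hz'ne (hd₂ ▸ Dvd.dvd.mul_right (dvd_pow h hppos.ne') _)
  have hd₀ndvd : ¬ Λ ∣ d₀ := fun h =>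
    htndvd (hd₀ ▸ Dvd.dvd.mul_right (dvd_pow h hppos.ne') _)
  have hd₁₂ : IsCoprime d₁ d₂ := by
    have h3 : IsCoprime (d₁ ^ p * u₁) (d₂ ^ p * u₂) := by
      rw [hd₁, hd₂]; exact hcop' z hzmem z' hz'mem hzz'
    exact (IsCoprime.pow_iff hppos hppos).1 h3.of_mul_left_left.of_mul_right_left
  -- Kummer's lemma applies to the unit `u₁⁻¹ * uz * u₂`
  obtain ⟨n₁, hn₁⟩ := exists_int_dvd_pow_sub hζ d₁
  obtain ⟨n₂, hn₂⟩ := exists_int_dvd_pow_sub hζ d₂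
  have hn₂ndvd : ¬ (p : ℤ) ∣ n₂ := by
    intro h
    have h3 : Λ ∣ (n₂ : 𝓞 K) := (dvd_intCast_iff hζ).2 h
    have h4 : Λ ∣ d₂ ^ p := by
      have h5 : Λ ∣ d₂ ^ p - n₂ := hζ.toInteger_sub_one_dvd_prime'.trans hn₂
      have h6 := dvd_add h5 h3
      rwa [sub_add_cancel] at h6
    exact hd₂ndvd (hΛ.dvd_of_dvd_pow h4)
  have hpdvd : (p : 𝓞 K) ∣ d₁ ^ p + ((u₁⁻¹ * uz * u₂ : (𝓞 K)ˣ) : 𝓞 K) * d₂ ^ p := by
    rw [hnew, mul_pow, ← pow_mul]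
    refine Dvd.dvd.mul_left (Dvd.dvd.mul_right (p_dvd_pow hζ ?_) _) _
    have h3 : 1 ≤ m - 1 - 1 + 1 := by omega
    calc p - 1 ≤ p := Nat.sub_le _ _
      _ = 1 * p := (one_mul p).symm
      _ ≤ (m - 1 - 1 + 1) * p := Nat.mul_le_mul_right p h3
  have hpdvd' : (p : 𝓞 K) ∣ (n₁ : 𝓞 K) + ((u₁⁻¹ * uz * u₂ : (𝓞 K)ˣ) : 𝓞 K) * n₂ := by
    have e : (n₁ : 𝓞 K) + ((u₁⁻¹ * uz * u₂ : (𝓞 K)ˣ) : 𝓞 K) * n₂
        = (d₁ ^ p + ((u₁⁻¹ * uz * u₂ : (𝓞 K)ˣ) : 𝓞 K) * d₂ ^ p) - (d₁ ^ p - n₁)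
          - ((u₁⁻¹ * uz * u₂ : (𝓞 K)ˣ) : 𝓞 K) * (d₂ ^ p - n₂) := by ring
    rw [e]
    exact dvd_sub (dvd_sub hpdvd hn₁) (Dvd.dvd.mul_left hn₂ _)
  have hcopn : IsCoprime (p : ℤ) n₂ :=
    (Nat.prime_iff_prime_int.1 hp.out).coprime_iff_not_dvd.2 hn₂ndvd
  obtain ⟨b, a, hab⟩ := hcopn
  have hkum : (p : 𝓞 K) ∣ ((u₁⁻¹ * uz * u₂ : (𝓞 K)ˣ) : 𝓞 K) - ((- (a * n₁) : ℤ) : 𝓞 K) := by
    have hab' : (b : 𝓞 K) * (p : 𝓞 K) + (a : 𝓞 K) * (n₂ : 𝓞 K) = 1 := by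
      have := congrArg (Int.cast : ℤ → 𝓞 K) hab
      push_cast at this
      exact this
    have e : ((u₁⁻¹ * uz * u₂ : (𝓞 K)ˣ) : 𝓞 K) - ((- (a * n₁) : ℤ) : 𝓞 K)
        = (a : 𝓞 K) * ((n₁ : 𝓞 K) + ((u₁⁻¹ * uz * u₂ : (𝓞 K)ˣ) : 𝓞 K) * n₂)
          + (p : 𝓞 K) * (b * ((u₁⁻¹ * uz * u₂ : (𝓞 K)ˣ) : 𝓞 K)) := by
      rw [Int.cast_neg, Int.cast_mul]
      linear_combination (-((u₁⁻¹ * uz * u₂ : (𝓞 K)ˣ) : 𝓞 K)) * hab'
    rw [e]
    exact dvd_add (Dvd.dvd.mul_left hpdvd' _) (Dvd.intro _ rfl)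
  obtain ⟨v, hv⟩ := hK _ _ hkum
  refine ⟨d₁, v * d₂, d₀, u₁⁻¹ * w * u₀, hd₁ndvd, ?_, hd₀ndvd, ?_, ?_⟩
  · intro h
    exact hd₂ndvd ((hΛ.dvd_mul.1 h).resolve_left
      (fun h => hΛ.not_isUnit (isUnit_of_dvd_unit h v.isUnit)))
  · exact (isCoprime_mul_unit_left_right v.isUnit _ _).2 hd₁₂
  · have hm' : m - 1 - 1 + 1 = m - 1 := by omega
    rw [← hm', ← hnew, hv, mul_pow]
    push_cast
    ring

include hζ in
/-- The descent step: from a solution with exponent `m ≥ 1` we get `2 ≤ m` and a solution with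
exponent `m - 1`. -/
lemma descent [IsPrincipalIdealRing (𝓞 K)] (hp2 : p ≠ 2)
    (hK : ∀ u : (𝓞 K)ˣ, ∀ n : ℤ, (p : 𝓞 K) ∣ (u : 𝓞 K) - n → ∃ v : (𝓞 K)ˣ, u = v ^ p)
    {m : ℕ} (hm : 1 ≤ m) (h : Sol hζ m) : 2 ≤ m ∧ Sol hζ (m - 1) := by
  obtain ⟨ω, θ, ξ, ε, -, hθ, hξ, hcop, heq⟩ := h
  have hΛ : Prime Λ := hζ.zeta_sub_one_prime'
  obtain ⟨η₀, hη₀, hsq⟩ := exists_sq_dvd hζ hp2 hθ (all_dvd hζ hp2 hm heq)
  have hu : IsUnit η₀ := isUnit_of_mem_mu hη₀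
  refine descent_core hζ hp2 hK hm (ω := ω) (θ := η₀ * θ) (ξ := ξ) (ε := ε) ?_ hξ ?_ ?_ hsq
  · intro h
    exact hθ ((hΛ.dvd_mul.1 h).resolve_left (fun h => hΛ.not_isUnit (isUnit_of_dvd_unit h hu)))
  · exact (isCoprime_mul_unit_left_right hu _ _).2 hcop
  · rw [mul_pow, pow_eq_one_of_mem_mu hη₀, one_mul, heq]

include hζ in
/-- There is no solution of the generalised equation with exponent `m ≥ 1`. -/
lemma not_sol [IsPrincipalIdealRing (𝓞 K)] (hp2 : p ≠ 2)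
    (hK : ∀ u : (𝓞 K)ˣ, ∀ n : ℤ, (p : 𝓞 K) ∣ (u : 𝓞 K) - n → ∃ v : (𝓞 K)ˣ, u = v ^ p)
    (m : ℕ) (hm : 1 ≤ m) : ¬ Sol hζ m := by
  induction m with
  | zero => omega
  | succ k ih =>
    intro h
    obtain ⟨h2, h'⟩ := descent hζ hp2 hK hm h
    simp only [Nat.add_sub_cancel] at h'
    exact ih (by omega) h'

include hζ in
/-- Case II with `p ∣ c`. -/
lemma caseII_core [IsPrincipalIdealRing (𝓞 K)] (hp2 : p ≠ 2)
    (hK : ∀ u : (𝓞 K)ˣ, ∀ n : ℤ, (p : 𝓞 K) ∣ (u : 𝓞 K) - n → ∃ v : (𝓞 K)ˣ, u = v ^ p)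
    {a b c : ℤ} (hab : IsCoprime a b) (hc : c ≠ 0) (hpc : (p : ℤ) ∣ c) :
    a ^ p + b ^ p ≠ c ^ p := by
  intro heq
  have hΛ : Prime Λ := hζ.zeta_sub_one_prime'
  have hppos : 0 < p := hp.out.pos
  have hpZ : Prime (p : ℤ) := Nat.prime_iff_prime_int.1 hp.out
  -- `p ∤ a` and `p ∤ b`
  have hpa : ¬ (p : ℤ) ∣ a := by
    intro h
    have h1 : (p : ℤ) ∣ b ^ p := by
      have h2 : b ^ p = c ^ p - a ^ p := by rw [← heq]; ring
      rw [h2]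
      exact dvd_sub (dvd_pow hpc hppos.ne') (dvd_pow h hppos.ne')
    exact hpZ.not_isUnit (hab.isUnit_of_dvd' h (hpZ.dvd_of_dvd_pow h1))
  have hpb : ¬ (p : ℤ) ∣ b := by
    intro h
    have h1 : (p : ℤ) ∣ a ^ p := by
      have h2 : a ^ p = c ^ p - b ^ p := by rw [← heq]; ring
      rw [h2]
      exact dvd_sub (dvd_pow hpc hppos.ne') (dvd_pow h hppos.ne')
    exact hpZ.not_isUnit (hab.isUnit_of_dvd' (hpZ.dvd_of_dvd_pow h1) h)
  have hc' : (c : 𝓞 K) ≠ 0 := by exact_mod_cast hc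
  have hfin : FiniteMultiplicity Λ (c : 𝓞 K) := FiniteMultiplicity.of_prime_left hΛ hc'
  obtain ⟨ξ, hξ, hξndvd⟩ := hfin.exists_eq_pow_mul_and_not_dvd
  set m := multiplicity Λ (c : 𝓞 K) with hm
  have hm1 : 1 ≤ m := by
    by_contra h
    have h0 : m = 0 := by omega
    rw [h0, pow_zero, one_mul] at hξ
    exact hξndvd (hξ ▸ (dvd_intCast_iff hζ).2 hpc)
  refine not_sol hζ hp2 hK m hm1 ⟨a, b, ξ, 1, ?_, ?_, hξndvd, hab.intCast, ?_⟩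
  · rwa [dvd_intCast_iff hζ]
  · rwa [dvd_intCast_iff hζ]
  · rw [Units.val_one, one_mul, ← hξ]
    exact_mod_cast heq

end basic

/-- **Case II of Fermat's Last Theorem** for an odd prime `p` such that the ring of integers of
the `p`-th cyclotomic field is a PID and Kummer's lemma holds: there are no coprime integers
`a`, `b` and nonzero `c` with `p ∣ a * b * c` and `a ^ p + b ^ p = c ^ p`. -/
theorem caseII {p : ℕ} [hp : Fact p.Prime] (hp2 : p ≠ 2) {K : Type*} [Field K] [NumberField K]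
    [IsCyclotomicExtension {p} ℚ K] [IsPrincipalIdealRing (𝓞 K)]
    (hK : ∀ u : (𝓞 K)ˣ, ∀ n : ℤ, (p : 𝓞 K) ∣ (u : 𝓞 K) - n → ∃ v : (𝓞 K)ˣ, u = v ^ p)
    {a b c : ℤ} (hab : IsCoprime a b) (habc : a * b * c ≠ 0) (hdvd : (p : ℤ) ∣ a * b * c) :
    a ^ p + b ^ p ≠ c ^ p := by
  intro heq
  obtain ⟨ζ, hζ⟩ := IsCyclotomicExtension.exists_isPrimitiveRoot ℚ K (Set.mem_singleton p)
    hp.out.ne_zero
  have hodd : Odd p := hp.out.odd_of_ne_two hp2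
  have hppos : 0 < p := hp.out.pos
  have hpZ : Prime (p : ℤ) := Nat.prime_iff_prime_int.1 hp.out
  have ha : a ≠ 0 := fun h => habc (by simp [h])
  have hb : b ≠ 0 := fun h => habc (by simp [h])
  have hc : c ≠ 0 := fun h => habc (by simp [h])
  -- coprimality of the other pairs
  have hac : IsCoprime a c := by
    have h1 : IsCoprime a (c ^ p) := by
      rw [← heq]
      have h2 : a ^ p + b ^ p = b ^ p + a * a ^ (p - 1) := by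
        rw [← pow_succ', Nat.sub_add_cancel hp.out.one_le]; ring
      rw [h2]
      exact (IsCoprime.add_mul_left_right_iff).2 (hab.pow_right)
    exact (IsCoprime.pow_right_iff hppos).1 h1
  have hbc : IsCoprime b c := by
    have h1 : IsCoprime b (c ^ p) := by
      rw [← heq]
      have h2 : a ^ p + b ^ p = a ^ p + b * b ^ (p - 1) := by
        rw [← pow_succ', Nat.sub_add_cancel hp.out.one_le]
      rw [h2]
      exact (IsCoprime.add_mul_left_right_iff).2 (hab.symm.pow_right)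
    exact (IsCoprime.pow_right_iff hppos).1 h1
  rcases (hpZ.dvd_mul.1 hdvd) with h | h
  · rcases (hpZ.dvd_mul.1 h) with h | h
    · -- `p ∣ a`: `(-c) ^ p + b ^ p = (-a) ^ p`
      refine caseII_core hζ hp2 hK (a := -c) (b := b) (c := -a) hbc.symm.neg_left
        (neg_ne_zero.2 ha) ((dvd_neg).2 h) ?_
      rw [hodd.neg_pow, hodd.neg_pow, ← heq]; ring
    · -- `p ∣ b`: `a ^ p + (-c) ^ p = (-b) ^ p`
      refine caseII_core hζ hp2 hK (a := a) (b := -c) (c := -b) hac.neg_right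
        (neg_ne_zero.2 hb) ((dvd_neg).2 h) ?_
      rw [hodd.neg_pow, hodd.neg_pow, ← heq]; ring
  · exact caseII_core hζ hp2 hK hab hc h heq

end Fermat.Agent.Lib.helper3071
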