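import Mathlib

set_option autoImplicit false

namespace Fermat.Agent.Lib.helper3156

open WeierstrassCurve WeierstrassCurve.Affine

section Group

/-- An additive map that vanishes outside a finite subset of an infinite group is zero. -/
theorem hom_eq_zero_of_finite_exceptions {G H : Type*} [AddGroup G] [Infinite G] [AddGroup H]
    (ψ : G →+ H) (S : Set G) (hS : S.Finite) (h : ∀ P, P ∉ S → ψ P = 0) (P : G) : ψ P = 0 := by
  have hS' : ((fun Q => -P + Q) '' S).Finite := hS.image _
  obtain ⟨Q, hQ⟩ := (hS.union hS').exists_notMem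
  have h1 : Q ∉ S := fun hq => hQ (Or.inl hq)
  have h2 : P + Q ∉ S := fun hq => hQ (Or.inr ⟨P + Q, hq, by simp⟩)
  have e1 := h Q h1
  have e2 := h (P + Q) h2
  rw [map_add, e1, add_zero] at e2
  exact e2

end Group

section Curve

variable {F : Type*} [Field F] {W : Affine F}

theorem some_congr {x y x' y' : F} {h : W.Nonsingular x y} {h' : W.Nonsingular x' y'}
    (hx : x = x') (hy : y = y') : Point.some x y h = Point.some x' y' h' := by
  subst hx; subst hy; rfl

variable [DecidableEq F]

/-- Chord addition in division-free form. -/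
theorem add_eq_some_of_chord {x₁ y₁ x₂ y₂ x₃ y₃ : F} (h₁ : W.Nonsingular x₁ y₁)
    (h₂ : W.Nonsingular x₂ y₂) (h₃ : W.Nonsingular x₃ y₃) (hx : x₁ ≠ x₂)
    (hX : x₃ * (x₁ - x₂) ^ 2 = (y₁ - y₂) ^ 2 + W.a₁ * (y₁ - y₂) * (x₁ - x₂)
      - (W.a₂ + x₁ + x₂) * (x₁ - x₂) ^ 2)
    (hY : (-y₃ - W.a₁ * x₃ - W.a₃ - y₁) * (x₁ - x₂) = (y₁ - y₂) * (x₃ - x₁)) :
    Point.some x₁ y₁ h₁ + Point.some x₂ y₂ h₂ = Point.some x₃ y₃ h₃ := by
  have hd : x₁ - x₂ ≠ 0 := sub_ne_zero.mpr hx
  rw [Point.add_of_X_ne hx]
  have hs : W.slope x₁ x₂ y₁ y₂ = (y₁ - y₂) / (x₁ - x₂) := slope_of_X_ne hx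
  have e3 : x₃ = W.addX x₁ x₂ (W.slope x₁ x₂ y₁ y₂) := by
    rw [hs, addX]
    field_simp
    linear_combination hX
  apply some_congr
  · exact e3.symm
  · rw [addY, negAddY, negY, ← e3, hs]
    field_simp
    linear_combination hY

/-- Tangent addition (doubling) in division-free form, with the slope supplied. -/
theorem add_self_eq_some_of_tangent {x y ℓ x₃ y₃ : F} (h : W.Nonsingular x y)
    (h₃ : W.Nonsingular x₃ y₃) (hy : y ≠ W.negY x y)
    (hℓ : ℓ * (y - W.negY x y) = 3 * x ^ 2 + 2 * W.a₂ * x + W.a₄ - W.a₁ * y)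
    (hX : x₃ = ℓ ^ 2 + W.a₁ * ℓ - W.a₂ - x - x)
    (hY : y₃ = -(ℓ * (x₃ - x) + y) - W.a₁ * x₃ - W.a₃) :
    Point.some x y h + Point.some x y h = Point.some x₃ y₃ h₃ := by
  have hd : y - W.negY x y ≠ 0 := sub_ne_zero.mpr hy
  rw [Point.add_self_of_Y_ne hy]
  have hs : W.slope x x y y = ℓ := by
    rw [slope_of_Y_ne rfl hy, div_eq_iff hd, hℓ]
  apply some_congr
  · rw [hs, addX, hX]
  · rw [addY, negAddY, negY, hs, addX, hY, hX]

/-- Nonsingularity of the double, with the slope supplied. -/
theorem nonsingular_double {x y ℓ : F} (h : W.Nonsingular x y) (hy : y ≠ W.negY x y)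
    (hℓ : ℓ * (y - W.negY x y) = 3 * x ^ 2 + 2 * W.a₂ * x + W.a₄ - W.a₁ * y) :
    W.Nonsingular (ℓ ^ 2 + W.a₁ * ℓ - W.a₂ - x - x)
      (-(ℓ * ((ℓ ^ 2 + W.a₁ * ℓ - W.a₂ - x - x) - x) + y)
        - W.a₁ * (ℓ ^ 2 + W.a₁ * ℓ - W.a₂ - x - x) - W.a₃) := by
  have hd : y - W.negY x y ≠ 0 := sub_ne_zero.mpr hy
  have hs : W.slope x x y y = ℓ := by
    rw [slope_of_Y_ne rfl hy, div_eq_iff hd, hℓ]
  have := nonsingular_add h h (fun hxy => hy hxy.2)
  rw [hs, addY, negAddY, negY, addX] at this
  exact this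

end Curve

section Finite

variable {F : Type*} [Field F] {W : Affine F}

/-- Coordinates of a point (auxiliary injection). -/
def coords : W.Point → Option (F × F)
  | .zero => none
  | .some x y _ => Option.some (x, y)

theorem coords_injective : Function.Injective (coords (W := W)) := by
  rintro (_ | ⟨x₁, y₁, h₁⟩) (_ | ⟨x₂, y₂, h₂⟩) h <;>
    simp only [coords, Option.some.injEq, Prod.mk.injEq, reduceCtorEq] at h
  · rfl
  · obtain ⟨rfl, rfl⟩ := h; rfl

open Polynomial in
theorem quad_degree (a b : F) : (X ^ 2 + C a * X - C b : F[X]).degree = 2 := by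
  compute_degree!

open Polynomial in
/-- The points whose `x`-coordinate is a root of a fixed nonzero polynomial form a finite set
(the point at infinity is included). -/
theorem finite_bad_points (g : F[X]) (hg : g ≠ 0) :
    {P : W.Point | ∀ x y h, P = Point.some x y h → g.eval x = 0}.Finite := by
  classical
  -- for each x, finitely many y
  have hy : ∀ x : F, {y : F | W.Equation x y}.Finite := by
    intro x
    have hq : (X ^ 2 + C (W.a₁ * x + W.a₃) * X
        - C (x ^ 3 + W.a₂ * x ^ 2 + W.a₄ * x + W.a₆) : F[X]) ≠ 0 := by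
      intro h0
      have h2 := quad_degree (W.a₁ * x + W.a₃) (x ^ 3 + W.a₂ * x ^ 2 + W.a₄ * x + W.a₆)
      rw [h0, degree_zero] at h2
      exact absurd h2 (by decide)
    refine (finite_setOfPred_isRoot hq).subset ?_
    intro y hy
    have hy' : W.Equation x y := hy
    rw [W.equation_iff] at hy'
    show IsRoot _ y
    simp only [IsRoot.def, eval_sub, eval_add, eval_pow, eval_X, eval_mul, eval_C]
    linear_combination hy'
  have hT : (⋃ x ∈ {x : F | IsRoot g x}, (fun y => (x, y)) '' {y : F | W.Equation x y}).Finite :=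
    Set.Finite.biUnion (finite_setOfPred_isRoot hg) (fun x _ => (hy x).image _)
  have hT' : (insert none (Option.some '' (⋃ x ∈ {x : F | IsRoot g x},
      (fun y => (x, y)) '' {y : F | W.Equation x y}))).Finite :=
    (hT.image _).insert _
  refine Set.Finite.of_finite_image (hT'.subset ?_) coords_injective.injOn
  rintro _ ⟨P, hP, rfl⟩
  rcases P with _ | ⟨x, y, h⟩
  · exact Set.mem_insert _ _
  · refine Set.mem_insert_of_mem _ ⟨(x, y), ?_, rfl⟩
    refine Set.mem_biUnion (x := x) (hP x y h rfl) ?_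
    exact ⟨y, h.1, rfl⟩

open Polynomial in
/-- An elliptic curve over an algebraically closed field has infinitely many points. -/
theorem infinite_points [IsAlgClosed F] (hΔ : W.Δ ≠ 0) : Infinite W.Point := by
  classical
  have hex : ∀ x : F, ∃ y : F, W.Nonsingular x y := by
    intro x
    have hdeg : (X ^ 2 + C (W.a₁ * x + W.a₃) * X
        - C (x ^ 3 + W.a₂ * x ^ 2 + W.a₄ * x + W.a₆) : F[X]).degree ≠ 0 := by
      rw [quad_degree]; decide
    obtain ⟨y, hy⟩ := IsAlgClosed.exists_root _ hdeg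
    refine ⟨y, (W.equation_iff_nonsingular_of_Δ_ne_zero hΔ).mp ?_⟩
    rw [W.equation_iff]
    simp only [IsRoot.def, eval_sub, eval_add, eval_pow, eval_X, eval_mul, eval_C] at hy
    linear_combination hy
  choose f hf using hex
  refine Infinite.of_injective (fun x : F => Point.some x (f x) (hf x)) ?_
  intro a b hab
  simp only [Point.some.injEq] at hab
  exact hab.1

end Finite

section Assembly

variable {p : ℕ} [Fact p.Prime]

/-- The Frobenius map on the points of a curve over `ZMod p`, over any field `K` of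
characteristic `p` (same definition as `Fermat.Agent.S52.helper7612.frobPt`). -/
noncomputable abbrev frobPt (W : WeierstrassCurve (ZMod p)) (K : Type*) [Field K]
    [Algebra (ZMod p) K] [DecidableEq K] : (W⁄K).Point →+ (W⁄K).Point :=
  Point.map (W' := W) (FiniteField.frobeniusAlgHom (ZMod p) K)

theorem frobeniusAlgHom_apply' (K : Type*) [Field K] [Algebra (ZMod p) K] (x : K) :
    FiniteField.frobeniusAlgHom (ZMod p) K x = x ^ p := by
  rw [FiniteField.coe_frobeniusAlgHom, ZMod.card]

theorem nonsingular_frob (W : WeierstrassCurve (ZMod p)) {K : Type*} [Field K]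
    [Algebra (ZMod p) K] {x y : K} (h : (W⁄K).Nonsingular x y) :
    (W⁄K).Nonsingular (x ^ p) (y ^ p) := by
  have := (WeierstrassCurve.Affine.baseChange_nonsingular W
    (FiniteField.frobeniusAlgHom (ZMod p) K).injective x y).mpr h
  rwa [frobeniusAlgHom_apply', frobeniusAlgHom_apply'] at this

theorem frobPt_some (W : WeierstrassCurve (ZMod p)) {K : Type*} [Field K]
    [Algebra (ZMod p) K] [DecidableEq K] {x y : K} (h : (W⁄K).Nonsingular x y) :
    frobPt W K (Point.some x y h) = Point.some (x ^ p) (y ^ p) (nonsingular_frob W h) := by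
  rw [frobPt, Point.map_some]
  exact some_congr (frobeniusAlgHom_apply' K x) (frobeniusAlgHom_apply' K y)

open Polynomial in
/-- From a generic identity (valid off the zero set of a nonzero polynomial in `x`) to
Cayley–Hamilton on all points, over an algebraically closed field. -/
theorem ch_of_generic (W : WeierstrassCurve (ZMod p)) (hΔ : W.Δ ≠ 0) (t : ℤ)
    {K : Type*} [Field K] [Algebra (ZMod p) K] [IsAlgClosed K] [DecidableEq K]
    (g : K[X]) (hg : g ≠ 0)
    (hgen : ∀ (x y : K) (hP : (W⁄K).Nonsingular x y) (hQ : (W⁄K).Nonsingular (x ^ p) (y ^ p))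
      (hR : (W⁄K).Nonsingular ((x ^ p) ^ p) ((y ^ p) ^ p)), g.eval x ≠ 0 →
      Point.some _ _ hR - t • Point.some _ _ hQ + (p : ℤ) • Point.some _ _ hP = 0)
    (P : (W⁄K).Point) :
    frobPt W K (frobPt W K P) - t • frobPt W K P + (p : ℤ) • P = 0 := by
  have hΔK : (W⁄K).Δ ≠ 0 := by
    show (W.map (algebraMap (ZMod p) K)).Δ ≠ 0
    rw [WeierstrassCurve.map_Δ]
    exact (map_ne_zero_iff _ (algebraMap (ZMod p) K).injective).mpr hΔ
  have : Infinite (W⁄K).Point := infinite_points hΔK
  let ψ : (W⁄K).Point →+ (W⁄K).Point :=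
    (frobPt W K).comp (frobPt W K) - t • frobPt W K + (p : ℤ) • AddMonoidHom.id _
  have hψ : ∀ Q, ψ Q = frobPt W K (frobPt W K Q) - t • frobPt W K Q + (p : ℤ) • Q := by
    intro Q; rfl
  rw [← hψ]
  refine hom_eq_zero_of_finite_exceptions ψ _ (finite_bad_points (W := W⁄K) g hg) ?_ P
  intro Q hQ
  rcases Q with _ | ⟨x, y, h⟩
  · exact map_zero ψ
  · have hx : g.eval x ≠ 0 := by
      intro h0
      apply hQ
      intro x' y' h' e
      have := Point.some.inj e
      rw [← this.1]; exact h0
    rw [hψ, frobPt_some, frobPt_some]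
    exact hgen x y h _ _ hx

/-- Cayley–Hamilton over algebraically closed fields implies Cayley–Hamilton over all fields. -/
theorem ch_of_algClosed (W : WeierstrassCurve (ZMod p)) (t : ℤ) {K : Type*} [Field K]
    [Algebra (ZMod p) K] [DecidableEq K]
    (hcl : ∀ [DecidableEq (AlgebraicClosure K)] (P : (W⁄(AlgebraicClosure K)).Point),
      frobPt W (AlgebraicClosure K) (frobPt W (AlgebraicClosure K) P)
        - t • frobPt W (AlgebraicClosure K) P + (p : ℤ) • P = 0)
    (P : (W⁄K).Point) :
    frobPt W K (frobPt W K P) - t • frobPt W K P + (p : ℤ) • P = 0 := by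
  classical
  let ι : K →ₐ[ZMod p] AlgebraicClosure K := IsScalarTower.toAlgHom (ZMod p) K (AlgebraicClosure K)
  have hcomm : ∀ Q : (W⁄K).Point,
      Point.map (W' := W) ι (frobPt W K Q) = frobPt W (AlgebraicClosure K) (Point.map (W' := W) ι Q) := by
    intro Q
    have hh : ι.comp (FiniteField.frobeniusAlgHom (ZMod p) K)
        = (FiniteField.frobeniusAlgHom (ZMod p) (AlgebraicClosure K)).comp ι := by
      ext x
      show ι (FiniteField.frobeniusAlgHom (ZMod p) K x)
        = FiniteField.frobeniusAlgHom (ZMod p) (AlgebraicClosure K) (ι x)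
      rw [frobeniusAlgHom_apply', frobeniusAlgHom_apply', map_pow]
    rw [frobPt, frobPt, Point.map_map, Point.map_map, hh]
  apply Point.map_injective (W' := W) ι
  rw [map_zero, map_add, map_sub, map_zsmul, map_zsmul, hcomm, hcomm]
  exact hcl _

end Assembly

end Fermat.Agent.Lib.helper3156
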