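import Mathlib
import Fermat.Prelude.Def_FLTPrelim_Modularity
import Fermat.Agent.Lib.helper3156_FrobCore
import Fermat.Agent.S52.helper3731_FrobAdapter

/-!
# Frobenius Cayley–Hamilton at `ℓ = 2` (helper3156, board #871)

For every Weierstrass curve `W` over `ZMod 2` with `Δ ≠ 0`, every field `K` over `ZMod 2` and
every point `P` of `W` over `K`:  `Fr (Fr P) - W.traceOfFrobenius • Fr P + 2 • P = 0`.

Method: up to the variable changes `(r, s, t) ∈ (ZMod 2)³` there are exactly five curves over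
`ZMod 2`; for each one the identity `Fr² P + 2 P = Fr (t P)` is checked by explicit
(machine-generated) `linear_combination` certificates, off the zero set of a polynomial in `x`
for the two ordinary curves; an additive map vanishing off a finite subset of an infinite group is
zero; finally transfer to all models along variable changes.
-/

set_option autoImplicit false
set_option linter.unusedSimpArgs false

namespace Fermat.Agent.Lib.helper3156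

open WeierstrassCurve WeierstrassCurve.Affine

section CharTwoGeneric

variable {K : Type*} [Field K] [DecidableEq K]

/-- Generic identity for `y² + y = x^3` in characteristic `2` (trace `0`). -/
theorem ss0_generic (h2 : (2 : K) = 0) {W : Affine K}
    (ha1 : W.a₁ = 0) (ha2 : W.a₂ = 0) (ha3 : W.a₃ = 1) (ha4 : W.a₄ = 0) (ha6 : W.a₆ = 0)
    {x y : K} (hP : W.Nonsingular x y) (hQ : W.Nonsingular (x ^ 2) (y ^ 2))
    (hR : W.Nonsingular ((x ^ 2) ^ 2) ((y ^ 2) ^ 2)) :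
    Point.some _ _ hR - (0 : ℤ) • Point.some _ _ hQ + (2 : ℤ) • Point.some _ _ hP = 0 := by
  have hc : y ^ 2 + y = x ^ 3 := by
    have := (W.equation_iff x y).mp hP.1
    rw [ha1, ha2, ha3, ha4, ha6] at this
    linear_combination this
  have hy : y ≠ W.negY x y := by
    rw [negY, ha1, ha3]
    intro h
    exact one_ne_zero (by linear_combination h - y * h2 : (1 : K) = 0)
  have hℓ : (x ^ 2) * (y - W.negY x y) = 3 * x ^ 2 + 2 * W.a₂ * x + W.a₄ - W.a₁ * y := by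
    rw [negY, ha1, ha2, ha3, ha4]
    linear_combination (x^2*y - x^2) * h2
  have hN := nonsingular_double hP hy hℓ
  have e2 : (2 : ℤ) • Point.some _ _ hP = Point.some _ _ hN := by
    rw [two_zsmul]
    exact add_self_eq_some_of_tangent hP hN hy hℓ rfl rfl
  have e4 : Point.some _ _ hN = -Point.some _ _ hR := by
    rw [Point.neg_some]
    apply some_congr
    · simp only [ha1, ha2]
      linear_combination (-x) * h2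
    · simp only [negY, ha1, ha2, ha3]
      linear_combination (x^3 + y^2 - y + 1) * hc + (-x^3*y + 2*x^3 - y) * h2
  rw [e2, e4, zero_smul, sub_zero, add_neg_cancel]

/-- Generic identity for `y² + y = x^3 + x` in characteristic `2` (trace `-2`). -/
theorem ssm2_generic (h2 : (2 : K) = 0) {W : Affine K}
    (ha1 : W.a₁ = 0) (ha2 : W.a₂ = 0) (ha3 : W.a₃ = 1) (ha4 : W.a₄ = 1) (ha6 : W.a₆ = 0)
    {x y : K} (hP : W.Nonsingular x y) (hQ : W.Nonsingular (x ^ 2) (y ^ 2))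
    (hR : W.Nonsingular ((x ^ 2) ^ 2) ((y ^ 2) ^ 2)) :
    Point.some _ _ hR - (-2 : ℤ) • Point.some _ _ hQ + (2 : ℤ) • Point.some _ _ hP = 0 := by
  have hc : y ^ 2 + y = x ^ 3 + x := by
    have := (W.equation_iff x y).mp hP.1
    rw [ha1, ha2, ha3, ha4, ha6] at this
    linear_combination this
  have hy : y ≠ W.negY x y := by
    rw [negY, ha1, ha3]
    intro h
    exact one_ne_zero (by linear_combination h - y * h2 : (1 : K) = 0)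
  have hℓ : (x ^ 2 + 1) * (y - W.negY x y) = 3 * x ^ 2 + 2 * W.a₂ * x + W.a₄ - W.a₁ * y := by
    rw [negY, ha1, ha2, ha3, ha4]
    linear_combination (x^2*y - x^2 + y) * h2
  have hN := nonsingular_double hP hy hℓ
  have e2 : (2 : ℤ) • Point.some _ _ hP = Point.some _ _ hN := by
    rw [two_zsmul]
    exact add_self_eq_some_of_tangent hP hN hy hℓ rfl rfl
  have hyq : y ^ 2 ≠ W.negY (x ^ 2) (y ^ 2) := by
    rw [negY, ha1, ha3]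
    intro h
    exact one_ne_zero (by linear_combination h - y ^ 2 * h2 : (1 : K) = 0)
  have hℓq : ((x ^ 2) ^ 2 + 1) * (y ^ 2 - W.negY (x ^ 2) (y ^ 2))
      = 3 * (x ^ 2) ^ 2 + 2 * W.a₂ * x ^ 2 + W.a₄ - W.a₁ * y ^ 2 := by
    rw [negY, ha1, ha2, ha3, ha4]
    linear_combination (x^4*y^2 - x^4 + y^2) * h2
  have hNq := nonsingular_double hQ hyq hℓq
  have e2q : (2 : ℤ) • Point.some _ _ hQ = Point.some _ _ hNq := by
    rw [two_zsmul]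
    exact add_self_eq_some_of_tangent hQ hNq hyq hℓq rfl rfl
  have hC := (W.nonsingular_neg _ _).mpr hNq
  have e3 : Point.some _ _ hR + Point.some _ _ hN = Point.some _ _ hC := by
    apply add_eq_some_of_chord hR hN hC
    · simp only [ha1, ha2]
      intro h
      exact one_ne_zero (by linear_combination (-1 : K) * h + (-x^2 + x) * h2 : (1 : K) = 0)
    · simp only [negY, ha1, ha2, ha3]
      linear_combination (-3*x^9 - 11*x^7 - 3*x^6*y^2 + 5*x^6*y - 2*x^6 - 15*x^5 - 8*x^4*y^2 + 12*x^4*y - 6*x^4 - x^3*y^4 + 2*x^3*y^3 + 3*x^3*y^2 - 4*x^3*y - 6*x^3 - 7*x^2*y^2 + 9*x^2*y - 6*x^2 - x*y^4 + 2*x*y^3 + 3*x*y^2 - 4*x*y + x - y^6 + y^5 - y^4 - y^3 - 3*y^2 + 3*y - 4) * hc + (-4*x^11 - 6*x^10 + 4*x^9*y - 12*x^8 + 14*x^7*y - 8*x^7 - 2*x^6*y - 10*x^6 + 18*x^5*y - 4*x^4*y - 8*x^4 + 12*x^3*y - 6*x^3 - 2*x^2*y + 2*x^2 + 4*x*y - x - 1) * h2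
    · simp only [negY, ha1, ha2, ha3]
      linear_combination (-x^11 - x^9 - x^8*y^2 + x^8*y - x^8 - x^7 + 3*x^5 - x^4*y^2 + x^4*y - 3*x^4 + 4*x^3 + 4*x^2*y^2 - 4*x^2*y + 4*x^2 - 2*x*y^2 + 2*x*y - 4*x + 1) * hc + (-x^13 - 2*x^12 + x^11*y + x^11 + x^9*y - 2*x^9 - 2*x^8 + x^7*y + 3*x^7 + 6*x^6 - 3*x^5*y - 4*x^5 + 2*x^4*y - x^4 - 4*x^3*y + 4*x^3 - x^2 + 2*x*y - y) * h2
  have e5 : Point.some _ _ hC = -Point.some _ _ hNq := (Point.neg_some hNq).symm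
  rw [neg_smul, sub_neg_eq_add, e2, e2q, add_right_comm, e3, e5, neg_add_cancel]

/-- Generic identity for `y² + y = x^3 + x + 1` in characteristic `2` (trace `2`). -/
theorem ssp2_generic (h2 : (2 : K) = 0) {W : Affine K}
    (ha1 : W.a₁ = 0) (ha2 : W.a₂ = 0) (ha3 : W.a₃ = 1) (ha4 : W.a₄ = 1) (ha6 : W.a₆ = 1)
    {x y : K} (hP : W.Nonsingular x y) (hQ : W.Nonsingular (x ^ 2) (y ^ 2))
    (hR : W.Nonsingular ((x ^ 2) ^ 2) ((y ^ 2) ^ 2)) :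
    Point.some _ _ hR - (2 : ℤ) • Point.some _ _ hQ + (2 : ℤ) • Point.some _ _ hP = 0 := by
  have hc : y ^ 2 + y = x ^ 3 + x + 1 := by
    have := (W.equation_iff x y).mp hP.1
    rw [ha1, ha2, ha3, ha4, ha6] at this
    linear_combination this
  have hy : y ≠ W.negY x y := by
    rw [negY, ha1, ha3]
    intro h
    exact one_ne_zero (by linear_combination h - y * h2 : (1 : K) = 0)
  have hℓ : (x ^ 2 + 1) * (y - W.negY x y) = 3 * x ^ 2 + 2 * W.a₂ * x + W.a₄ - W.a₁ * y := by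
    rw [negY, ha1, ha2, ha3, ha4]
    linear_combination (x^2*y - x^2 + y) * h2
  have hN := nonsingular_double hP hy hℓ
  have e2 : (2 : ℤ) • Point.some _ _ hP = Point.some _ _ hN := by
    rw [two_zsmul]
    exact add_self_eq_some_of_tangent hP hN hy hℓ rfl rfl
  have hyq : y ^ 2 ≠ W.negY (x ^ 2) (y ^ 2) := by
    rw [negY, ha1, ha3]
    intro h
    exact one_ne_zero (by linear_combination h - y ^ 2 * h2 : (1 : K) = 0)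
  have hℓq : ((x ^ 2) ^ 2 + 1) * (y ^ 2 - W.negY (x ^ 2) (y ^ 2))
      = 3 * (x ^ 2) ^ 2 + 2 * W.a₂ * x ^ 2 + W.a₄ - W.a₁ * y ^ 2 := by
    rw [negY, ha1, ha2, ha3, ha4]
    linear_combination (x^4*y^2 - x^4 + y^2) * h2
  have hNq := nonsingular_double hQ hyq hℓq
  have e2q : (2 : ℤ) • Point.some _ _ hQ = Point.some _ _ hNq := by
    rw [two_zsmul]
    exact add_self_eq_some_of_tangent hQ hNq hyq hℓq rfl rfl
  have e3 : Point.some _ _ hR + Point.some _ _ hN = Point.some _ _ hNq := by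
    apply add_eq_some_of_chord hR hN hNq
    · simp only [ha1, ha2]
      intro h
      exact one_ne_zero (by linear_combination (-1 : K) * h + (-x^2 + x) * h2 : (1 : K) = 0)
    · simp only [negY, ha1, ha2, ha3]
      linear_combination (-3*x^9 - 11*x^7 - 3*x^6*y^2 + 5*x^6*y - 7*x^6 - 15*x^5 - 8*x^4*y^2 + 12*x^4*y - 18*x^4 - x^3*y^4 + 2*x^3*y^3 + x^3*y^2 + 2*x^3*y - 15*x^3 - 7*x^2*y^2 + 9*x^2*y - 15*x^2 - x*y^4 + 2*x*y^3 + x*y^2 + 2*x*y - 8*x - y^6 + y^5 - 2*y^4 + y^3 - 7*y^2 + 8*y - 16) * hc + (-4*x^11 - 6*x^10 + 4*x^9*y - 4*x^9 - 12*x^8 + 14*x^7*y - 22*x^7 + 6*x^6*y - 18*x^6 + 18*x^5*y - 18*x^5 + 14*x^4*y - 26*x^4 + 20*x^3*y - 24*x^3 + 10*x^2*y - 10*x^2 + 12*x*y - 11*x + 10*y - 9) * h2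
    · simp only [negY, ha1, ha2, ha3]
      linear_combination (-x^11 - x^9 - x^8*y^2 + x^8*y - 2*x^8 - x^7 + 3*x^5 - x^4*y^2 + x^4*y - 4*x^4 + 4*x^3 + 4*x^2*y^2 - 4*x^2*y + 4*x^2 - 2*x*y^2 + 2*x*y - 2*x - 1) * hc + (-2*x^14 + x^13 - 3*x^12 + x^11*y - 6*x^10 + x^9*y + 3*x^9 + x^8*y + x^7*y - 4*x^7 + 3*x^6 - 3*x^5*y + 3*x^5 + 3*x^4*y + x^4 - 4*x^3*y - x^3 - 2*x^2*y + 2*x^2 + 2*x*y + x - 2) * h2
  rw [e2, e2q, sub_add_eq_add_sub, e3, sub_self]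

/-- Generic identity for `y² + xy = x^3 + 1` in characteristic `2` (trace `-1`). -/
theorem ordm1_generic (h2 : (2 : K) = 0) {W : Affine K}
    (ha1 : W.a₁ = 1) (ha2 : W.a₂ = 0) (ha3 : W.a₃ = 0) (ha4 : W.a₄ = 0) (ha6 : W.a₆ = 1)
    {x y : K} (hP : W.Nonsingular x y) (hQ : W.Nonsingular (x ^ 2) (y ^ 2))
    (hR : W.Nonsingular ((x ^ 2) ^ 2) ((y ^ 2) ^ 2)) (hx : x ≠ 0) (hg : x ^ 6 + x ^ 4 + 1 ≠ 0) :
    Point.some _ _ hR - (-1 : ℤ) • Point.some _ _ hQ + (2 : ℤ) • Point.some _ _ hP = 0 := by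
  have hc : y ^ 2 + x * y = x ^ 3 + 1 := by
    have := (W.equation_iff x y).mp hP.1
    rw [ha1, ha2, ha3, ha4, ha6] at this
    linear_combination this
  obtain ⟨i, hi⟩ : ∃ i : K, x * i = 1 := ⟨x⁻¹, mul_inv_cancel₀ hx⟩
  have hy : y ≠ W.negY x y := by
    rw [negY, ha1, ha3]
    intro h
    apply hx
    linear_combination h - y * h2
  have hℓ : ((x ^ 2 + y) * i) * (y - W.negY x y)
      = 3 * x ^ 2 + 2 * W.a₂ * x + W.a₄ - W.a₁ * y := by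
    rw [negY, ha1, ha2, ha3, ha4]
    linear_combination (2*i) * hc + (3*x^2 + 2*x*y - y) * hi + (x*y + i) * h2
  have hN := nonsingular_double hP hy hℓ
  have e2 : (2 : ℤ) • Point.some _ _ hP = Point.some _ _ hN := by
    rw [two_zsmul]
    exact add_self_eq_some_of_tangent hP hN hy hℓ rfl rfl
  have hC := (W.nonsingular_neg _ _).mpr hQ
  have e3 : Point.some _ _ hR + Point.some _ _ hN = Point.some _ _ hC := by
    apply add_eq_some_of_chord hR hN hC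
    · simp only [ha1, ha2]
      intro h
      apply hg
      linear_combination (x ^ 2) * h + (x^2*i^2) * hc + (x^5*i + x^4*i + x^4 + 2*x^3*y*i + 2*x^3 - x^2*y*i + 2*x^2*y + x*i + 1) * hi + (x^4 + x^2*y + 1) * h2
    · simp only [negY, ha1, ha2, ha3]
      linear_combination (-2*x^9*i^3 - x^9 - 6*x^8*i^4 + 4*x^8*i^3 - x^8*i^2 - 6*x^8 - 4*x^7*y*i^3 + 3*x^7*y + 3*x^7*i^4 - 6*x^7*i^3 - 3*x^7*i^2 - 6*x^7 - 2*x^6*y^2*i^3 - x^6*y^2 - 4*x^6*y*i^4 + 4*x^6*y*i^3 + 4*x^6*y + 5*x^6*i^4 - 9*x^6*i^3 + 4*x^6*i^2 + 6*x^6*i - 5*x^6 - 3*x^5*y^2 + x^5*y*i^4 - 3*x^5*y*i^2 + 2*x^5*y - 3*x^5*i^4 + 5*x^5*i^3 + x^5*i^2 - 7*x^5*i - 12*x^5 - 6*x^4*y^3*i^3 + 2*x^4*y^3 - x^4*y^2*i^4 - 2*x^4*y^2*i^3 - 3*x^4*y^2*i^2 - 2*x^4*y^2 + 4*x^4*y*i^4 - 11*x^4*y*i^3 + 6*x^4*y - 6*x^4*i^3 - 9*x^4*i^2 - 5*x^4*i - x^3*y^4 + 4*x^3*y^3*i^3 + x^3*y^3 + 2*x^3*y^2*i^3 + 3*x^3*y^2*i^2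 + 6*x^3*y^2*i - 2*x^3*y^2 - x^3*y*i^4 + 8*x^3*y*i^3 + 3*x^3*y*i^2 + 6*x^3*y*i + 2*x^3*y + 7*x^3*i^3 + 2*x^3*i^2 + 7*x^3*i + x^3 - 6*x^2*y^4*i^3 - x^2*y^4 - 2*x^2*y^3*i^3 - 6*x^2*y^3*i^2 + x^2*y^2*i^4 - 6*x^2*y^2*i^3 - 3*x^2*y^2*i^2 - 7*x^2*y^2*i - 3*x^2*y^2 - 10*x^2*y*i^3 - 6*x^2*y*i^2 - x^2*y*i - 4*x^2*y + x^2*i^4 - 7*x^2*i^3 - 11*x^2*i^2 - 13*x^2*i - 6*x^2 + x*y^5 + 2*x*y^4*i^3 + 3*x*y^3*i^2 + 6*x*y^3*i + 2*x*y^3 + 4*x*y^2*i^3 + x*y^2*i + 4*x*y^2 + x*y*i^3 + 6*x*y*i^2 + 6*x*y*i + 3*x*y + 6*x*i^3 + 2*x*i^2 + 8*x*i + 6*x - y^6 - 2*y^5*i^3 - 3*y^4*i^2 - y^4 - 2*y^3*i^3 - y^3*i - 2*y^3 - 2*y^2*i^3 - 3*y^2*i^2 - y^2 - 2*y*i^3 - 3*y*i^2 - y*i - 2*y - 2*i^3 - 3*i^2 - i - 2) * hc + (-x^11*i^3 - 2*x^11*i^2 - x^11*i - 6*x^10*i^3 + 3*x^10*i^2 - 3*x^10*i - x^10 - 4*x^9*y*i^3 - 2*x^9*y*i^2 - 2*x^9*y*i + 4*x^9*i^3 - 15*x^9*i^2 - 2*x^9*i - 4*x^9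 + 2*x^8*y*i^3 - 4*x^8*y*i^2 - x^8*y*i - 2*x^8*y + 5*x^8*i^3 - 7*x^8*i^2 - 7*x^8*i + 4*x^8 + 2*x^7*y*i^3 - x^7*y*i^2 - 8*x^7*y*i - 2*x^7*y - 9*x^7*i^3 + 16*x^7*i^2 - 10*x^7*i - 16*x^7 - x^6*y*i^3 - 4*x^6*y*i^2 + 3*x^6*y*i - 14*x^6*y + 3*x^6*i^3 - 22*x^6*i^2 - 8*x^6 - 2*x^5*y*i^3 + 10*x^5*y*i^2 - 8*x^5*y*i + 14*x^5*y + 5*x^5*i^3 + x^5*i^2 - 12*x^5*i + 12*x^5 + x^4*y*i^3 - 9*x^4*y*i^2 + 2*x^4*y*i + 3*x^4*y - 2*x^4*i^3 + 3*x^4*i^2 - 10*x^4*i - 36*x^4 + 4*x^3*y*i^3 - 16*x^3*y*i^2 - 2*x^3*i^2 - 4*x^3*i - x^3 - 2*x^2*y*i^3 + 17*x^2*y*i^2 - 7*x^2*y*i + 20*x^2*y + 5*x^2*i^2 - 3*x^2*i + 2*x^2 - 18*x*y*i^2 + 9*x*y*i - 11*x*y + x*i^3 - 7*x*i^2 - 6*x*i - 16*x + 3*y*i^2 - 9*y*i + 16*y + 7*i^2 - 5*i + 2) * hi + (-3*x^11 + 2*x^10*y - 3*x^10 + 5*x^9*y - 4*x^9 + 3*x^8*y - 7*x^8 + 6*x^7*y - 9*x^7 + 2*x^6*y - 8*x^6 + 6*x^5*y - 2*x^5 + 5*x^4*y - 13*x^4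 + 3*x^3*y - 5*x^3 + 5*x^2*y - 2*x^2 - 2*x*y - 5*x - y*i^3 - 5*y*i + 7*y - i^3 + 2*i^2 - 3*i) * h2
    · simp only [negY, ha1, ha2, ha3]
      linear_combination (x^7*i^2 + 3*x^6*i^3 - 2*x^6*i^2 + x^5*y*i^2 - x^5*i^3 + x^5*i^2 + x^5*i - x^5 + x^4*y^2*i^2 + x^4*y*i^3 - 3*x^4*i^3 + 3*x^4*i^2 - x^4*i - 2*x^4 - x^3*y^2*i^2 - x^3*y*i^2 + x^3*y + x^3*i^3 - x^3*i^2 - x^3*i - 2*x^3 + 2*x^2*y^3*i^2 + x^2*y^2*i^2 + x^2*y^2*i - x^2*y^2 - x^2*y*i^3 + x^2*y*i + 2*x^2*y - x^2 - x*y^3*i^2 - x*y^2*i - 2*x*y^2 - x*y*i^2 - x*i + y^4*i^2 + y^3*i) * hc + (x^9*i^2 + x^9*i + 3*x^8*i^2 - x^8*i + x^8 + 3*x^7*y*i^2 - 2*x^7*i^2 + 6*x^7*i - 2*x^6*y*i^2 + 5*x^6*y*i - 3*x^6*i^2 + 2*x^6*i + 2*x^6 - 2*x^5*y*i^2 + 4*x^5*y + 4*x^5*i^2 - 8*x^5*i + 2*x^5 + 2*x^4*y*i^2 - 4*x^4*y*i - x^4*y - x^4*i^2 + 5*x^4*i - 4*x^4 - 2*x^3*y*i - 2*x^3*y - 3*x^3*i^2 + 2*x^3*i + 2*x^3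 - x^2*y*i + x^2*y + x^2*i^2 - 4*x^2*i + x^2 - x*y*i^2 + x*i - 4*x - 2*y*i) * hi + (-x^7 + x^6*y + 4*x^5*y - x^5 + x^4*y - 3*x^4 + x^3 + x^2*y - 2*x - y*i) * h2
  have e5 : Point.some _ _ hC = -Point.some _ _ hQ := (Point.neg_some hQ).symm
  rw [neg_one_zsmul, sub_neg_eq_add, e2, add_right_comm, e3, e5, neg_add_cancel]

/-- Generic identity for `y² + xy = x^3 + x^2 + 1` in characteristic `2` (trace `1`). -/
theorem ordp1_generic (h2 : (2 : K) = 0) {W : Affine K}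
    (ha1 : W.a₁ = 1) (ha2 : W.a₂ = 1) (ha3 : W.a₃ = 0) (ha4 : W.a₄ = 0) (ha6 : W.a₆ = 1)
    {x y : K} (hP : W.Nonsingular x y) (hQ : W.Nonsingular (x ^ 2) (y ^ 2))
    (hR : W.Nonsingular ((x ^ 2) ^ 2) ((y ^ 2) ^ 2)) (hx : x ≠ 0) (hg : x ^ 6 + x ^ 4 + 1 ≠ 0) :
    Point.some _ _ hR - (1 : ℤ) • Point.some _ _ hQ + (2 : ℤ) • Point.some _ _ hP = 0 := by
  have hc : y ^ 2 + x * y = x ^ 3 + x ^ 2 + 1 := by
    have := (W.equation_iff x y).mp hP.1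
    rw [ha1, ha2, ha3, ha4, ha6] at this
    linear_combination this
  obtain ⟨i, hi⟩ : ∃ i : K, x * i = 1 := ⟨x⁻¹, mul_inv_cancel₀ hx⟩
  have hy : y ≠ W.negY x y := by
    rw [negY, ha1, ha3]
    intro h
    apply hx
    linear_combination h - y * h2
  have hℓ : ((x ^ 2 + y) * i) * (y - W.negY x y)
      = 3 * x ^ 2 + 2 * W.a₂ * x + W.a₄ - W.a₁ * y := by
    rw [negY, ha1, ha2, ha3, ha4]
    linear_combination (2*i) * hc + (3*x^2 + 2*x*y + 2*x - y) * hi + (x*y + i) * h2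
  have hN := nonsingular_double hP hy hℓ
  have e2 : (2 : ℤ) • Point.some _ _ hP = Point.some _ _ hN := by
    rw [two_zsmul]
    exact add_self_eq_some_of_tangent hP hN hy hℓ rfl rfl
  have e3 : Point.some _ _ hR + Point.some _ _ hN = Point.some _ _ hQ := by
    apply add_eq_some_of_chord hR hN hQ
    · simp only [ha1, ha2]
      intro h
      apply hg
      linear_combination (x ^ 2) * h + (x^2*i^2) * hc + (x^5*i + x^4*i + x^4 + 2*x^3*y*i + x^3*i + 2*x^3 - x^2*y*i + 2*x^2*y + x^2 + x*i + 1) * hi + (x^4 + x^2*y + 1) * h2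
    · simp only [negY, ha1, ha2, ha3]
      linear_combination (-2*x^9*i^3 - x^9 - 6*x^8*i^4 + 2*x^8*i^3 - x^8*i^2 - 9*x^8 - 4*x^7*y*i^3 + 3*x^7*y + 3*x^7*i^4 - 6*x^7*i^3 - 3*x^7*i^2 - 21*x^7 - 2*x^6*y^2*i^3 - x^6*y^2 - 4*x^6*y*i^4 - 2*x^6*y*i^3 + 10*x^6*y + 4*x^6*i^4 - 21*x^6*i^3 + x^6*i^2 + 6*x^6*i - 18*x^6 - 5*x^5*y^2 + x^5*y*i^4 + 8*x^5*y*i^3 - 3*x^5*y*i^2 + 9*x^5*y - 3*x^5*i^4 + 19*x^5*i^3 + 7*x^5*i^2 + x^5*i - 18*x^5 - 6*x^4*y^3*i^3 + 2*x^4*y^3 - x^4*y^2*i^4 - 8*x^4*y^2*i^3 - 3*x^4*y^2*i^2 - 6*x^4*y^2 + 4*x^4*y*i^4 - 19*x^4*y*i^3 - 6*x^4*y*i^2 + 6*x^4*y + x^4*i^4 - 18*x^4*i^3 - 21*x^4*i^2 - 18*x^4*i - 15*x^4 - x^3*y^4 + 4*x^3*y^3*i^3 + 3*x^3*y^3 + 6*x^3*y^2*i^3 + 3*x^3*y^2*i^2 + 6*x^3*y^2*i - 2*x^3*y^2 - x^3*y*i^4 + 8*x^3*y*i^3 + 9*x^3*y*i^2 + 12*x^3*y*i + 8*x^3*y + 19*x^3*i^3 + 2*x^3*i^2 + 3*x^3*i + 8*x^3 - 6*x^2*y^4*i^3 - 2*x^2*y^4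 - 4*x^2*y^3*i^3 - 6*x^2*y^3*i^2 + x^2*y^2*i^4 - 6*x^2*y^2*i^3 - 6*x^2*y^2*i^2 - 5*x^2*y^2*i - 5*x^2*y^2 - 14*x^2*y*i^3 - 6*x^2*y*i^2 + 2*x^2*y*i - 6*x^2*y + x^2*i^4 - 9*x^2*i^3 - 19*x^2*i^2 - 11*x^2*i - 7*x^2 + x*y^5 + 2*x*y^4*i^3 + 3*x*y^3*i^2 + 6*x*y^3*i + 2*x*y^3 + 4*x*y^2*i^3 - x*y^2*i + 4*x*y^2 + x*y*i^3 + 6*x*y*i^2 + 6*x*y*i + 2*x*y + 6*x*i^3 + 4*x*i^2 + 4*x*i + 6*x - y^6 - 2*y^5*i^3 - 3*y^4*i^2 - y^4 - 2*y^3*i^3 + y^3*i - 2*y^3 - 2*y^2*i^3 - 3*y^2*i^2 - 2*y*i^3 - 3*y*i^2 + y*i - 2*y - 2*i^3 - 3*i^2 + i - 1) * hc + (-x^11*i^3 - 2*x^11*i^2 - x^11*i - 6*x^10*i^3 - x^10*i^2 - 3*x^10*i - x^10 - 4*x^9*y*i^3 - 2*x^9*y*i^2 - 2*x^9*y*i - 2*x^9*i^3 - 13*x^9*i^2 - 7*x^9*i - 4*x^9 + 2*x^8*y*i^3 - 12*x^8*y*i^2 - x^8*y*i - 2*x^8*y + 7*x^8*i^3 - 31*x^8*i^2 - 11*x^8*i - x^8 - 2*x^7*y*i^3 + 5*x^7*y*i^2 - 16*x^7*y*i - 2*x^7*y - 5*x^7*i^3 + 9*x^7*i^2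 - 27*x^7*i - 6*x^7 + x^6*y*i^3 + 4*x^6*y*i^2 + 3*x^6*y*i - 22*x^6*y + x^6*i^3 - 11*x^6*i^2 - 12*x^6*i - 37*x^6 + 2*x^5*y*i^3 - 27*x^5*y*i^2 - 6*x^5*y*i + 12*x^5*y + 5*x^5*i^3 - 19*x^5*i^2 - 27*x^5*i - 21*x^5 - x^4*y*i^3 + 19*x^4*y*i^2 - 14*x^4*y*i + 33*x^4*y - 2*x^4*i^3 + 34*x^4*i^2 - 28*x^4*i - 38*x^4 + 4*x^3*y*i^3 - 52*x^3*y*i^2 + 12*x^3*y*i - 9*x^3*y + 2*x^3*i^3 - 23*x^3*i^2 - 2*x^3*i - 49*x^3 - 2*x^2*y*i^3 + 20*x^2*y*i^2 - 19*x^2*y*i + 44*x^2*y + 25*x^2*i^2 - 20*x^2*i + 9*x^2 - 24*x*y*i^2 + 7*x*y*i - 15*x*y + x*i^3 - 11*x*i^2 + 3*x*i - 30*x + 3*y*i^2 - 15*y*i + 15*y + 7*i^2 - 7*i + 7) * hi + (-5*x^11 + 2*x^10*y - 15*x^10 + 11*x^9*y - 21*x^9 + 19*x^8*y - 22*x^8 + 17*x^7*y - 28*x^7 + 10*x^6*y - 32*x^6 + 19*x^5*y - 18*x^5 + 13*x^4*y - 24*x^4 + 3*x^3*y - 20*x^3 + 15*x^2*y - 3*x^2 - 5*x*y - 13*x - y*i^3 - 7*y*i + 7*y - i^3 + 2*i^2 -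 3*i + 3) * h2
    · simp only [negY, ha1, ha2, ha3]
      linear_combination (x^7*i^2 + 3*x^6*i^3 - x^6*i^2 + x^5*y*i^2 - x^5*i^3 - x^5*i^2 + x^5*i - x^5 + x^4*y^2*i^2 + x^4*y*i^3 + 2*x^4*y*i^2 - 3*x^4*i^3 + 9*x^4*i^2 - 5*x^4 - x^3*y^2*i^2 - 3*x^3*y*i^2 + x^3*y + x^3*i^3 - 3*x^3*i^2 - 3*x^3*i - 5*x^3 + 2*x^2*y^3*i^2 + 2*x^2*y^2*i^2 + x^2*y^2*i - x^2*y^2 - x^2*y*i^3 + 4*x^2*y*i^2 + 2*x^2*y*i + 2*x^2*y + 6*x^2*i^2 + 2*x^2*i - 3*x^2 - x*y^3*i^2 - x*y^2*i - 2*x*y^2 - 3*x*y*i^2 + x*y - 3*x*i - 4*x + y^4*i^2 + y^3*i + 2*y^2*i^2 - y^2 + 2*y*i + 2*i^2 - 2) * hc + (x^9*i^2 + x^9*i + 3*x^8*i^2 + x^8*i + x^8 + 3*x^7*y*i^2 + x^7*i^2 + 3*x^7*i + 2*x^7 - 2*x^6*y*i^2 + 7*x^6*y*i - 4*x^6*i^2 + 10*x^6*i + x^6 - x^5*y*i^2 + 2*x^5*y*i + 6*x^5*y + x^5*i^2 + 7*x^5 + 2*x^4*y*i^2 - 8*x^4*y*i + x^4*y + 3*x^4*i + 3*x^4 - x^3*y*i^2 + 6*x^3*y*i - 3*x^3*y - 3*x^3*i^2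 + 15*x^3*i + 3*x^3 - 13*x^2*y*i + 9*x^2*y + x^2*i^2 - 4*x^2*i + 9*x^2 - x*y*i^2 + 4*x*y*i - 5*x*y + 9*x*i - 2*x - 6*y*i + 4*y + 6) * hi + (-2*x^7 + x^6*y - 5*x^6 + 7*x^5*y - 2*x^5 + 5*x^4*y - 5*x^4 + x^3*y - 4*x^3 + 7*x^2*y + 2*x^2 - x*y - 3*x - 2*y*i + 2*y + i^2 + 2) * h2
  rw [one_zsmul, e2, sub_add_eq_add_sub, e3, sub_self]

end CharTwoGeneric

/-! ### Point counts -/

/-- Point count of an elliptic curve over `ZMod p` as a count of affine solutions. -/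
theorem card_point_zmod {p : ℕ} [Fact p.Prime] (W : WeierstrassCurve (ZMod p)) (hΔ : W.Δ ≠ 0) :
    Nat.card W.toAffine.Point = Nat.card {xy : ZMod p × ZMod p //
      xy.2 ^ 2 + W.a₁ * xy.1 * xy.2 + W.a₃ * xy.2
        = xy.1 ^ 3 + W.a₂ * xy.1 ^ 2 + W.a₄ * xy.1 + W.a₆} + 1 := by
  rw [Nat.card_congr (nonsingularPointEquiv W.toAffine)]
  have e : {xy : ZMod p × ZMod p // W.toAffine.Nonsingular xy.1 xy.2} ≃ {xy : ZMod p × ZMod p //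
      xy.2 ^ 2 + W.a₁ * xy.1 * xy.2 + W.a₃ * xy.2
        = xy.1 ^ 3 + W.a₂ * xy.1 ^ 2 + W.a₄ * xy.1 + W.a₆} :=
    Equiv.subtypeEquivRight (fun xy =>
      ((W.toAffine.equation_iff_nonsingular_of_Δ_ne_zero hΔ).symm.trans
        (W.toAffine.equation_iff xy.1 xy.2)))
  rw [← Nat.card_congr e]
  exact Finite.card_option

/-! ### The five curves over `ZMod 2` -/

/-- `y² + xy = x³ + 1` (4 points, trace `-1`). -/
def twoN1 : WeierstrassCurve (ZMod 2) := ⟨1, 0, 0, 0, 1⟩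
/-- `y² + xy = x³ + x² + 1` (2 points, trace `1`). -/
def twoN2 : WeierstrassCurve (ZMod 2) := ⟨1, 1, 0, 0, 1⟩
/-- `y² + y = x³` (3 points, trace `0`). -/
def twoN3 : WeierstrassCurve (ZMod 2) := ⟨0, 0, 1, 0, 0⟩
/-- `y² + y = x³ + x` (5 points, trace `-2`). -/
def twoN4 : WeierstrassCurve (ZMod 2) := ⟨0, 0, 1, 1, 0⟩
/-- `y² + y = x³ + x + 1` (1 point, trace `2`). -/
def twoN5 : WeierstrassCurve (ZMod 2) := ⟨0, 0, 1, 1, 1⟩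

theorem twoN1_Δ : twoN1.Δ ≠ 0 := by decide
theorem twoN2_Δ : twoN2.Δ ≠ 0 := by decide
theorem twoN3_Δ : twoN3.Δ ≠ 0 := by decide
theorem twoN4_Δ : twoN4.Δ ≠ 0 := by decide
theorem twoN5_Δ : twoN5.Δ ≠ 0 := by decide

theorem twoN1_trace : twoN1.traceOfFrobenius = -1 := by
  unfold WeierstrassCurve.traceOfFrobenius WeierstrassCurve.card
  rw [card_point_zmod twoN1 twoN1_Δ, Nat.card_eq_fintype_card, Nat.card_eq_fintype_card]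
  decide

theorem twoN2_trace : twoN2.traceOfFrobenius = 1 := by
  unfold WeierstrassCurve.traceOfFrobenius WeierstrassCurve.card
  rw [card_point_zmod twoN2 twoN2_Δ, Nat.card_eq_fintype_card, Nat.card_eq_fintype_card]
  decide

theorem twoN3_trace : twoN3.traceOfFrobenius = 0 := by
  unfold WeierstrassCurve.traceOfFrobenius WeierstrassCurve.card
  rw [card_point_zmod twoN3 twoN3_Δ, Nat.card_eq_fintype_card, Nat.card_eq_fintype_card]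
  decide

theorem twoN4_trace : twoN4.traceOfFrobenius = -2 := by
  unfold WeierstrassCurve.traceOfFrobenius WeierstrassCurve.card
  rw [card_point_zmod twoN4 twoN4_Δ, Nat.card_eq_fintype_card, Nat.card_eq_fintype_card]
  decide

theorem twoN5_trace : twoN5.traceOfFrobenius = 2 := by
  unfold WeierstrassCurve.traceOfFrobenius WeierstrassCurve.card
  rw [card_point_zmod twoN5 twoN5_Δ, Nat.card_eq_fintype_card, Nat.card_eq_fintype_card]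
  decide

/-! ### Cayley–Hamilton for the five curves -/

section NormalForms

variable (K : Type*) [Field K] [Algebra (ZMod 2) K]

theorem two_eq_zero_of_algebra : (2 : K) = 0 := by
  have h : (2 : ZMod 2) = 0 := by decide
  have := congrArg (algebraMap (ZMod 2) K) h
  rwa [map_ofNat, map_zero] at this

variable [DecidableEq K]

open Polynomial in
theorem twoN1_ch (P : (twoN1⁄K).Point) :
    frobPt twoN1 K (frobPt twoN1 K P) - twoN1.traceOfFrobenius • frobPt twoN1 K P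
      + ((2 : ℕ) : ℤ) • P = 0 := by
  rw [twoN1_trace]
  apply ch_of_algClosed twoN1 (-1)
  intro _ P
  have h2 := two_eq_zero_of_algebra (AlgebraicClosure K)
  refine ch_of_generic twoN1 twoN1_Δ (-1) (X * (X ^ 6 + X ^ 4 + 1)) ?_ ?_ P
  · refine mul_ne_zero X_ne_zero (fun h => ?_)
    have := congrArg (eval 0) h
    simp at this
  · intro x y hP hQ hR hg
    have hg' : x * (x ^ 6 + x ^ 4 + 1) ≠ 0 := by simpa using hg
    rw [Nat.cast_ofNat]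
    exact ordm1_generic h2 (by simp [twoN1]) (by simp [twoN1]) (by simp [twoN1])
      (by simp [twoN1]) (by simp [twoN1]) hP hQ hR (left_ne_zero_of_mul hg')
      (right_ne_zero_of_mul hg')

open Polynomial in
theorem twoN2_ch (P : (twoN2⁄K).Point) :
    frobPt twoN2 K (frobPt twoN2 K P) - twoN2.traceOfFrobenius • frobPt twoN2 K P
      + ((2 : ℕ) : ℤ) • P = 0 := by
  rw [twoN2_trace]
  apply ch_of_algClosed twoN2 1
  intro _ P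
  have h2 := two_eq_zero_of_algebra (AlgebraicClosure K)
  refine ch_of_generic twoN2 twoN2_Δ 1 (X * (X ^ 6 + X ^ 4 + 1)) ?_ ?_ P
  · refine mul_ne_zero X_ne_zero (fun h => ?_)
    have := congrArg (eval 0) h
    simp at this
  · intro x y hP hQ hR hg
    have hg' : x * (x ^ 6 + x ^ 4 + 1) ≠ 0 := by simpa using hg
    rw [Nat.cast_ofNat]
    exact ordp1_generic h2 (by simp [twoN2]) (by simp [twoN2]) (by simp [twoN2])
      (by simp [twoN2]) (by simp [twoN2]) hP hQ hR (left_ne_zero_of_mul hg')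
      (right_ne_zero_of_mul hg')

theorem twoN3_ch (P : (twoN3⁄K).Point) :
    frobPt twoN3 K (frobPt twoN3 K P) - twoN3.traceOfFrobenius • frobPt twoN3 K P
      + ((2 : ℕ) : ℤ) • P = 0 := by
  rw [twoN3_trace]
  apply ch_of_algClosed twoN3 0
  intro _ P
  have h2 := two_eq_zero_of_algebra (AlgebraicClosure K)
  refine ch_of_generic twoN3 twoN3_Δ 0 1 one_ne_zero ?_ P
  intro x y hP hQ hR _
  rw [Nat.cast_ofNat]
  exact ss0_generic h2 (by simp [twoN3]) (by simp [twoN3]) (by simp [twoN3])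
    (by simp [twoN3]) (by simp [twoN3]) hP hQ hR

theorem twoN4_ch (P : (twoN4⁄K).Point) :
    frobPt twoN4 K (frobPt twoN4 K P) - twoN4.traceOfFrobenius • frobPt twoN4 K P
      + ((2 : ℕ) : ℤ) • P = 0 := by
  rw [twoN4_trace]
  apply ch_of_algClosed twoN4 (-2)
  intro _ P
  have h2 := two_eq_zero_of_algebra (AlgebraicClosure K)
  refine ch_of_generic twoN4 twoN4_Δ (-2) 1 one_ne_zero ?_ P
  intro x y hP hQ hR _
  rw [Nat.cast_ofNat]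
  exact ssm2_generic h2 (by simp [twoN4]) (by simp [twoN4]) (by simp [twoN4])
    (by simp [twoN4]) (by simp [twoN4]) hP hQ hR

theorem twoN5_ch (P : (twoN5⁄K).Point) :
    frobPt twoN5 K (frobPt twoN5 K P) - twoN5.traceOfFrobenius • frobPt twoN5 K P
      + ((2 : ℕ) : ℤ) • P = 0 := by
  rw [twoN5_trace]
  apply ch_of_algClosed twoN5 2
  intro _ P
  have h2 := two_eq_zero_of_algebra (AlgebraicClosure K)
  refine ch_of_generic twoN5 twoN5_Δ 2 1 one_ne_zero ?_ P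
  intro x y hP hQ hR _
  rw [Nat.cast_ofNat]
  exact ssp2_generic h2 (by simp [twoN5]) (by simp [twoN5]) (by simp [twoN5])
    (by simp [twoN5]) (by simp [twoN5]) hP hQ hR

end NormalForms

/-! ### Classification of the models over `ZMod 2` -/

set_option synthInstance.maxSize 2000 in
set_option synthInstance.maxHeartbeats 2000000 in
theorem two_classify : ∀ a1 a2 a3 a4 a6 : ZMod 2,
    (⟨a1, a2, a3, a4, a6⟩ : WeierstrassCurve (ZMod 2)).Δ ≠ 0 →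
    ∃ r s t : ZMod 2,
      (a1 + 2 * s, a2 - s * a1 + 3 * r - s ^ 2, a3 + r * a1 + 2 * t,
        a4 - s * a3 + 2 * r * a2 - (t + r * s) * a1 + 3 * r ^ 2 - 2 * s * t,
        a6 + r * a4 + r ^ 2 * a2 + r ^ 3 - t * a3 - t ^ 2 - r * t * a1) ∈
      ([(1, 0, 0, 0, 1), (1, 1, 0, 0, 1), (0, 0, 1, 0, 0), (0, 0, 1, 1, 0), (0, 0, 1, 1, 1)] :
        List (ZMod 2 × ZMod 2 × ZMod 2 × ZMod 2 × ZMod 2)) := by
  decide

theorem two_smul_eq (r s t a1 a2 a3 a4 a6 : ZMod 2) :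
    (⟨1, r, s, t⟩ : VariableChange (ZMod 2)) • (⟨a1, a2, a3, a4, a6⟩ : WeierstrassCurve (ZMod 2))
      = ⟨a1 + 2 * s, a2 - s * a1 + 3 * r - s ^ 2, a3 + r * a1 + 2 * t,
        a4 - s * a3 + 2 * r * a2 - (t + r * s) * a1 + 3 * r ^ 2 - 2 * s * t,
        a6 + r * a4 + r ^ 2 * a2 + r ^ 3 - t * a3 - t ^ 2 - r * t * a1⟩ := by
  rw [variableChange_def]
  simp

/-- Every elliptic curve over `ZMod 2` is a variable change of one of the five normal forms. -/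
theorem two_exists_normal_form (W : WeierstrassCurve (ZMod 2)) (hΔ : W.Δ ≠ 0) :
    ∃ C : VariableChange (ZMod 2), C • W = twoN1 ∨ C • W = twoN2 ∨ C • W = twoN3
      ∨ C • W = twoN4 ∨ C • W = twoN5 := by
  obtain ⟨a1, a2, a3, a4, a6⟩ := W
  obtain ⟨r, s, t, h⟩ := two_classify a1 a2 a3 a4 a6 hΔ
  refine ⟨⟨1, r, s, t⟩, ?_⟩
  rw [two_smul_eq]
  simp only [List.mem_cons, Prod.mk.injEq, List.not_mem_nil, or_false] at h
  rcases h with h | h | h | h | h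
  · left; obtain ⟨h1, h2, h3, h4, h6⟩ := h; rw [h1, h2, h3, h4, h6]; rfl
  · right; left; obtain ⟨h1, h2, h3, h4, h6⟩ := h; rw [h1, h2, h3, h4, h6]; rfl
  · right; right; left; obtain ⟨h1, h2, h3, h4, h6⟩ := h; rw [h1, h2, h3, h4, h6]; rfl
  · right; right; right; left; obtain ⟨h1, h2, h3, h4, h6⟩ := h; rw [h1, h2, h3, h4, h6]; rfl
  · right; right; right; right; obtain ⟨h1, h2, h3, h4, h6⟩ := h; rw [h1, h2, h3, h4, h6]; rfl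

/-! ### The theorem -/

/-- **Frobenius Cayley–Hamilton at `ℓ = 2`**, in the shape of `helper7612.Stmt_CH`. -/
theorem ch_two (W : WeierstrassCurve (ZMod 2)) (hΔ : W.Δ ≠ 0) (K : Type*) [Field K]
    [Algebra (ZMod 2) K] [DecidableEq K] (P : (W⁄K).Point) :
    frobPt W K (frobPt W K P) - W.traceOfFrobenius • frobPt W K P + ((2 : ℕ) : ℤ) • P = 0 := by
  obtain ⟨C, hC⟩ := two_exists_normal_form W hΔ
  rw [← Fermat.Agent.S52.helper3731.traceOfFrobenius_variableChange C W]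
  refine Fermat.Agent.S52.helper3731.cayleyHamilton_of_variableChange
    (FiniteField.frobeniusAlgHom (ZMod 2) K) _ _ C W ?_ P
  rcases hC with h | h | h | h | h <;> rw [h]
  · exact twoN1_ch K
  · exact twoN2_ch K
  · exact twoN3_ch K
  · exact twoN4_ch K
  · exact twoN5_ch K

/-- The same with the literal `(2 : ℤ)`. -/
theorem ch_two' (W : WeierstrassCurve (ZMod 2)) (hΔ : W.Δ ≠ 0) (K : Type*) [Field K]
    [Algebra (ZMod 2) K] [DecidableEq K] (P : (W⁄K).Point) :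
    Point.map (W' := W) (FiniteField.frobeniusAlgHom (ZMod 2) K)
        (Point.map (W' := W) (FiniteField.frobeniusAlgHom (ZMod 2) K) P)
      - W.traceOfFrobenius • Point.map (W' := W) (FiniteField.frobeniusAlgHom (ZMod 2) K) P
      + (2 : ℤ) • P = 0 := by
  have := ch_two W hΔ K P
  rwa [Nat.cast_ofNat] at this

end Fermat.Agent.Lib.helper3156
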