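/-
Wild Kummer core (helper3195).

The multi-valuation Kummer core `Fermat.Agent.S35.helper1788.kummer_multi` with the hypothesis
`v i m = 1` (tame case) replaced by a depth hypothesis on the seeds: `m = p` is a prime with
`v i p ≠ 0` arbitrary (in particular `v i p < 1`, the residue characteristic), and the seeds
satisfy

  `v i (a₀ ^ p * u - 1) ^ (p - 1) < v i p ^ p`   (beyond the depth `p / (p - 1)`),
  `v i (a₀ - b₀) ^ (p - 1) < v i p * w i ^ (p - 1)`   (the two seeds are on the same branch).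

Proof: for `s = a ^ p * u - 1`, `σ = s / p`, `a' = (1 - σ) * a` one has
`|s'| ≤ max (|p| |σ| ^ 2) (|σ| ^ p)`, which contracts exactly beyond the threshold, and
`|(1 + z) ^ p - 1| = |p| |z|` as soon as `|z| ^ (p - 1) < |p|`.  The end-game (reduction to
the fixed level `k₀` and boundedness of a left inverse) is that of `kummer_multi`.
-/
import Mathlib
import Fermat.Agent.S35.helper1788_KummerMulti

set_option autoImplicit false

namespace Fermat.Agent.Lib.helper3195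

open Polynomial

/-! ### The binomial expansion for a prime exponent -/

section Poly

/-- `(1 + X) ^ p = 1 + p X + p X² G + X ^ p` in `ℤ[X]` for a prime `p`. -/
theorem exists_poly_one_add_pow {p : ℕ} (hp : p.Prime) :
    ∃ G : ℤ[X], (1 + X : ℤ[X]) ^ p = 1 + C (p : ℤ) * X + C (p : ℤ) * X ^ 2 * G + X ^ p := by
  have hp2 := hp.two_le
  set Q : ℤ[X] := (1 + X) ^ p - 1 - C (p : ℤ) * X - X ^ p with hQ
  have hcoeff : ∀ n : ℕ, Q.coeff n =
      (p.choose n : ℤ) - (if n = 0 then 1 else 0) - (if n = 1 then (p : ℤ) else 0) -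
        (if n = p then 1 else 0) := by
    intro n
    rw [hQ, coeff_sub, coeff_sub, coeff_sub, coeff_one_add_X_pow, coeff_one, coeff_C_mul_X,
      coeff_X_pow]
  have hdvd : C (p : ℤ) ∣ Q := by
    rw [C_dvd_iff_dvd_coeff]
    intro n
    rw [hcoeff n]
    rcases Nat.lt_trichotomy n p with h | h | h
    · rcases Nat.eq_zero_or_pos n with h0 | h0
      · subst h0
        have : (0 : ℕ) ≠ p := by omega
        simp [this]
      · by_cases h1 : n = 1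
        · subst h1
          have : (1 : ℕ) ≠ p := by omega
          simp [this]
        · have hn0 : n ≠ 0 := by omega
          have hnp : n ≠ p := by omega
          simp only [hn0, h1, hnp, if_false, sub_zero]
          exact_mod_cast (Int.natCast_dvd_natCast.mpr (hp.dvd_choose_self hn0 h))
    · subst h
      have h0 : n ≠ 0 := by omega
      have h1 : n ≠ 1 := by omega
      simp [h0, h1]
    · have h0 : n ≠ 0 := by omega
      have h1 : n ≠ 1 := by omega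
      have hnp : n ≠ p := by omega
      simp [h0, h1, hnp, Nat.choose_eq_zero_of_lt h]
  obtain ⟨Q1, hQ1⟩ := hdvd
  have hpz : (p : ℤ) ≠ 0 := by exact_mod_cast hp.ne_zero
  have hc : ∀ n, Q.coeff n = (p : ℤ) * Q1.coeff n := by
    intro n
    rw [hQ1, coeff_C_mul]
  have hX : (X : ℤ[X]) ^ 2 ∣ Q1 := by
    rw [X_pow_dvd_iff]
    intro d hd
    have hd' : d = 0 ∨ d = 1 := by omega
    have h0 : Q.coeff d = 0 := by
      rw [hcoeff d]
      rcases hd' with rfl | rfl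
      · have : (0 : ℕ) ≠ p := by omega
        simp [this]
      · have : (1 : ℕ) ≠ p := by omega
        simp [this]
    rw [hc d] at h0
    exact (mul_eq_zero.mp h0).resolve_left hpz
  obtain ⟨G, hG⟩ := hX
  refine ⟨G, ?_⟩
  have h1 : (1 + X : ℤ[X]) ^ p = Q + 1 + C (p : ℤ) * X + X ^ p := by rw [hQ]; ring
  rw [h1, hQ1, hG]
  ring

end Poly

section ValuationLemmas

variable {F Γ₀ : Type*} [Field F] [LinearOrderedCommGroupWithZero Γ₀] (v : Valuation F Γ₀)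

theorem val_intCast_le_one (n : ℤ) : v (n : F) ≤ 1 := by
  rcases Int.eq_nat_or_neg n with ⟨m, rfl | rfl⟩
  · rw [Int.cast_natCast]
    exact Fermat.Agent.S18.helper1788.val_natCast_le_one v m
  · rw [Int.cast_neg, Int.cast_natCast, Valuation.map_neg]
    exact Fermat.Agent.S18.helper1788.val_natCast_le_one v m

/-- An integer polynomial takes integral values at integral arguments. -/
theorem val_aeval_int_le_one (G : ℤ[X]) {y : F} (hy : v y ≤ 1) : v (aeval y G) ≤ 1 := by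
  rw [aeval_eq_sum_range]
  refine v.map_sum_le fun n _ => ?_
  rw [zsmul_eq_mul, map_mul, map_pow]
  exact mul_le_one' (val_intCast_le_one v _) (pow_le_one' hy n)

end ValuationLemmas

/-- The binomial expansion for a prime exponent in a commutative ring, with an integral
polynomial remainder: `(1 + y) ^ p = 1 + p y + p y² G(y) + y ^ p`. -/
theorem exists_poly_one_add_pow' {p : ℕ} (hp : p.Prime) :
    ∃ G : ℤ[X], ∀ {R : Type*} [CommRing R] (y : R),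
      (1 + y) ^ p = 1 + (p : R) * y + (p : R) * y ^ 2 * aeval y G + y ^ p := by
  obtain ⟨G, hG⟩ := exists_poly_one_add_pow hp
  refine ⟨G, fun {R} _ y => ?_⟩
  have h := congrArg (aeval y) hG
  simpa using h


section Newton

variable {F Γ₀ : Type*} [Field F] [LinearOrderedCommGroupWithZero Γ₀] (v : Valuation F Γ₀)

/-- `|z| ^ n < 1` with `n ≠ 0` forces `|z| < 1`. -/
theorem lt_one_of_pow_lt_one {x : Γ₀} {n : ℕ} (h : x ^ n < 1) : x < 1 := by
  by_contra hx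
  exact absurd (lt_of_le_of_lt (one_le_pow_of_one_le' (not_lt.mp hx) n) h) (lt_irrefl _)

/-- `|(1 + z) ^ p - 1| = |p| |z|` when `|z| ^ (p - 1) < |p|` (`p` prime). -/
theorem val_one_add_pow_prime_sub_one {p : ℕ} (hp : p.Prime) {z : F}
    (hz : v z ^ (p - 1) < v (p : F)) : v ((1 + z) ^ p - 1) = v (p : F) * v z := by
  obtain ⟨G, hG⟩ := exists_poly_one_add_pow' hp
  have hP1 : v (p : F) ≤ 1 := Fermat.Agent.S18.helper1788.val_natCast_le_one v p
  have hp2 := hp.two_le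
  have hz1 : v z < 1 := lt_one_of_pow_lt_one (lt_of_lt_of_le hz hP1)
  by_cases hz0 : z = 0
  · subst hz0
    simp
  have hvz : v z ≠ 0 := (Valuation.ne_zero_iff v).mpr hz0
  have hg1 : v (aeval z G) ≤ 1 := val_aeval_int_le_one v G hz1.le
  have h1 : (1 + z) ^ p - 1 = (p : F) * z * (1 + z * aeval z G) + z ^ p := by
    rw [hG z]; ring
  have h2 : v (1 + z * aeval z G) = 1 := by
    refine v.map_one_add_of_lt ?_
    rw [map_mul]
    exact lt_of_le_of_lt (mul_le_of_le_one_right' hg1) hz1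
  have h3 : v (z ^ p) < v ((p : F) * z * (1 + z * aeval z G)) := by
    rw [map_mul, map_mul, h2, mul_one, map_pow]
    have hpe : p = (p - 1) + 1 := by omega
    calc v z ^ p = v z ^ (p - 1) * v z := by
          conv_lhs => rw [hpe]
          rw [pow_succ]
      _ < v (p : F) * v z := mul_lt_mul_of_pos_right hz (zero_lt_iff.mpr hvz)
  rw [h1, v.map_add_eq_of_lt_left h3, map_mul, map_mul, h2, mul_one]

/-- One Newton step for the equation `a ^ p * u = 1`, `p` prime, with no hypothesis on `|p|`: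
with `σ = (a ^ p * u - 1) / p`, the new error is at most `max (|p| |σ|²) (|σ| ^ p)`. -/
theorem val_wild_newton_step {p : ℕ} (hp : p.Prime) (hp0 : (p : F) ≠ 0) (a u : F)
    (hσ : v ((p : F)⁻¹ * (a ^ p * u - 1)) ≤ 1) :
    v (((1 - (p : F)⁻¹ * (a ^ p * u - 1)) * a) ^ p * u - 1) ≤
      max (v (p : F) * v ((p : F)⁻¹ * (a ^ p * u - 1)) ^ 2)
        (v ((p : F)⁻¹ * (a ^ p * u - 1)) ^ p) := by
  obtain ⟨G, hG⟩ := exists_poly_one_add_pow' hp
  set s := a ^ p * u - 1 with hsdef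
  set σ := (p : F)⁻¹ * s with hσdef
  have hps : (p : F) * σ = s := by
    rw [hσdef, ← mul_assoc, mul_inv_cancel₀ hp0, one_mul]
  have hau : a ^ p * u = 1 + (p : F) * σ := by rw [hps, hsdef]; ring
  have hg1 : v (aeval (-σ) G) ≤ 1 :=
    val_aeval_int_le_one v G (by rw [Valuation.map_neg]; exact hσ)
  have hexp : (1 - σ) ^ p =
      1 + (p : F) * (-σ) + (p : F) * (-σ) ^ 2 * aeval (-σ) G + (-σ) ^ p := by
    have h := hG (-σ)
    rwa [← sub_eq_add_neg] at h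
  have key : ((1 - σ) * a) ^ p * u - 1 =
      (p : F) * σ ^ 2 * (aeval (-σ) G * (1 + (p : F) * σ) - (p : F)) +
        (-σ) ^ p * (1 + (p : F) * σ) := by
    rw [mul_pow, mul_assoc, hau, hexp]; ring
  have hP1 : v (p : F) ≤ 1 := Fermat.Agent.S18.helper1788.val_natCast_le_one v p
  have h1s : v (1 + (p : F) * σ) ≤ 1 :=
    v.map_add_le (le_of_eq v.map_one) (by rw [map_mul]; exact mul_le_one' hP1 hσ)
  rw [key]
  refine le_trans (v.map_add _ _) (max_le_max ?_ ?_)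
  · rw [map_mul, map_mul, map_pow]
    have h2 : v (aeval (-σ) G * (1 + (p : F) * σ) - (p : F)) ≤ 1 :=
      v.map_sub_le (by rw [map_mul]; exact mul_le_one' hg1 h1s) hP1
    exact mul_le_of_le_one_right' h2
  · rw [map_mul, map_pow, Valuation.map_neg]
    exact mul_le_of_le_one_right' h1s

/-- The order-theoretic content of the contraction: from `T ≤ η`, `T ^ (p - 1) ≤ P η` and
`S' ≤ max (P T²) (T ^ p)` one gets `S' / P ≤ η²` and `(S' / P) ^ (p - 1) ≤ P η²`. -/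
theorem order_step {p : ℕ} (hp2 : 2 ≤ p) {P T η S' : Γ₀}
    (hP0 : P ≠ 0) (hη : η ≤ 1) (hT : T ≤ η) (hT2 : T ^ (p - 1) ≤ P * η)
    (hS' : S' ≤ max (P * T ^ 2) (T ^ p)) :
    P⁻¹ * S' ≤ η ^ 2 ∧ (P⁻¹ * S') ^ (p - 1) ≤ P * η ^ 2 := by
  have hPpos : 0 < P := zero_lt_iff.mpr hP0
  have hpe : p = (p - 1) + 1 := by omega
  have h1 : S' ≤ P * (T * η) := by
    refine le_trans hS' (max_le ?_ ?_)
    · rw [sq]
      exact mul_le_mul' le_rfl (mul_le_mul' le_rfl hT)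
    · calc T ^ p = T * T ^ (p - 1) := by
            conv_lhs => rw [hpe]
            rw [pow_succ']
        _ ≤ T * (P * η) := mul_le_mul' le_rfl hT2
        _ = P * (T * η) := by rw [mul_left_comm]
  have h2 : P⁻¹ * S' ≤ T * η := by
    rw [inv_mul_le_iff₀ hPpos]
    exact h1
  refine ⟨le_trans h2 (by rw [sq]; exact mul_le_mul' hT le_rfl), ?_⟩
  calc (P⁻¹ * S') ^ (p - 1) ≤ (T * η) ^ (p - 1) := pow_le_pow_left' h2 _
    _ = T ^ (p - 1) * η ^ (p - 1) := mul_pow _ _ _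
    _ ≤ P * η * η ^ (p - 1) := mul_le_mul' hT2 le_rfl
    _ = P * η ^ p := by
        rw [mul_assoc, ← pow_succ']
        congr 2
        omega
    _ ≤ P * η ^ 2 := mul_le_mul' le_rfl (pow_le_pow_right_of_le_one' hη hp2)

/-- Initial bound: beyond the threshold, `T = S / P` satisfies `T ^ (p - 1) < P` and `T < 1`. -/
theorem init_bound {p : ℕ} (hp2 : 2 ≤ p) {P S : Γ₀} (hP0 : P ≠ 0) (hP1 : P ≤ 1)
    (h : S ^ (p - 1) < P ^ p) :
    max (P⁻¹ * S) (P⁻¹ * (P⁻¹ * S) ^ (p - 1)) < 1 := by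
  have hPpos : 0 < P := zero_lt_iff.mpr hP0
  have hpe : p = (p - 1) + 1 := by omega
  have h1 : (P⁻¹ * S) ^ (p - 1) < P := by
    rw [mul_pow, inv_pow, inv_mul_lt_iff₀ (pow_pos hPpos _)]
    calc S ^ (p - 1) < P ^ p := h
      _ = P ^ (p - 1) * P := by
          conv_lhs => rw [hpe]
          rw [pow_succ]
  refine max_lt ?_ ?_
  · exact lt_one_of_pow_lt_one (lt_of_lt_of_le h1 hP1)
  · rw [inv_mul_lt_iff₀ hPpos, mul_one]
    exact h1

end Newton


section Core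

variable {L F Γ₀ : Type*} [Field L] [Field F] [Algebra L F] [LinearOrderedCommGroupWithZero Γ₀]

open Fermat.Agent.S35.helper1788

/-- A finite family of elements `< 1` is uniformly bounded by some `ε < 1`. -/
theorem exists_bound_lt_one {ι : Type*} [Finite ι] (f : ι → Γ₀) (hf : ∀ i, f i < 1) :
    ∃ ε : Γ₀, ε < 1 ∧ ∀ i, f i ≤ ε := by
  rcases isEmpty_or_nonempty ι with h | h
  · exact ⟨0, zero_lt_one, fun i => (IsEmpty.false i).elim⟩
  · obtain ⟨i₀, hi₀⟩ := Finite.exists_max f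
    exact ⟨f i₀, hf i₀, hi₀⟩

/-- **Wild multi-valuation Kummer core, contradiction form.**  `p` is a prime, nothing is
assumed about `v i p` except `p ≠ 0` in `F`; the seeds are beyond the depth `p / (p - 1)`. -/
theorem wild_kummer_multi_false
    {ι : Type*} [Finite ι] [Nonempty ι] (v : ι → Valuation F Γ₀)
    (harch : ∀ ε κ : Γ₀, ε < 1 → κ ≠ 0 → ∃ n : ℕ, ε ^ n < κ)
    (p : ℕ) (hp : p.Prime) (hp0 : (p : F) ≠ 0) (u : F)
    (M1 M2 M12 P Q : ℕ → Submodule L F)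
    (hM1 : ∀ k, M1 k ≤ M12 k) (hM2 : ∀ k, M2 k ≤ M12 k)
    (hP1 : ∀ k, (1 : F) ∈ P k) (hQ1 : ∀ k, (1 : F) ∈ Q k)
    (hP : ∀ k, ∀ a ∈ M1 k, a ^ p * u ∈ P (p * k))
    (hQ : ∀ k, ∀ b ∈ M2 k, b ^ p * u ∈ Q (p * k))
    (hPM : ∀ j k, ∀ s ∈ P j, ∀ a ∈ M1 k, s * a ∈ M1 (j + k))
    (hQM : ∀ j k, ∀ s ∈ Q j, ∀ b ∈ M2 k, s * b ∈ M2 (j + k))
    (k₀ : ℕ)
    (hsep : ∀ k, k₀ ≤ k → ∀ a ∈ M1 k, ∀ b ∈ M2 k, a - b ∈ M12 k₀ → a ∈ M1 k₀ ∧ b ∈ M2 k₀)
    (w : ι → Γ₀)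
    (hsurj : ∀ k, k₀ ≤ k → ∀ c ∈ M12 k, ∀ r : Γ₀, (∀ i, v i c ≤ r * w i) →
      ∃ c₀ ∈ M12 k₀, ∃ a₁ ∈ M1 k, ∃ b₁ ∈ M2 k, c = c₀ + a₁ - b₁ ∧
        (∀ i, v i a₁ ≤ r * w i) ∧ (∀ i, v i b₁ ≤ r * w i) ∧ (∀ i, v i c₀ ≤ r * w i))
    (hbound : ∃ κ : Γ₀, κ ≠ 0 ∧ ∀ a ∈ M1 k₀, ∀ b ∈ M2 k₀, ∀ r : Γ₀,
      (∀ i, v i (a - b) ≤ r * w i) → ∀ i, κ * v i a ≤ r * w i)
    (a₀ b₀ : F) (ha₀ : a₀ ∈ M1 k₀) (hb₀ : b₀ ∈ M2 k₀) (hva₀ : ∀ i, v i a₀ = w i)
    (hab₀ : ∀ i, v i (a₀ - b₀) ^ (p - 1) < v i (p : F) * w i ^ (p - 1))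
    (hsa₀ : ∀ i, v i (a₀ ^ p * u - 1) ^ (p - 1) < v i (p : F) ^ p)
    (hsb₀ : ∀ i, v i (b₀ ^ p * u - 1) ^ (p - 1) < v i (p : F) ^ p) :
    False := by
  obtain ⟨κ, hκ0, hκ⟩ := hbound
  obtain ⟨i₁⟩ := ‹Nonempty ι›
  have hp2 := hp.two_le
  have hpe : p = (p - 1) + 1 := by omega
  have hp1 : p - 1 ≠ 0 := by omega
  have hPi0 : ∀ i, v i (p : F) ≠ 0 := fun i => (Valuation.ne_zero_iff _).mpr hp0
  have hPipos : ∀ i, 0 < v i (p : F) := fun i => zero_lt_iff.mpr (hPi0 i)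
  have hPi1 : ∀ i, v i (p : F) ≤ 1 := fun i =>
    Fermat.Agent.S18.helper1788.val_natCast_le_one (v i) p
  -- the weights are nonzero
  have hw : ∀ i, w i ≠ 0 := by
    intro i h
    have h1 := hab₀ i
    rw [h, zero_pow hp1, mul_zero] at h1
    exact not_lt_zero h1
  have hwpos : ∀ i, 0 < w i := fun i => zero_lt_iff.mpr (hw i)
  have hwpow : ∀ i, 0 < v i (p : F) * w i ^ (p - 1) := fun i =>
    mul_pos (hPipos i) (pow_pos (hwpos i) _)
  -- `x ^ (p - 1) < P w ^ (p - 1)` implies `x < w`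
  have hlt_w : ∀ i (x : Γ₀), x ^ (p - 1) < v i (p : F) * w i ^ (p - 1) → x < w i := by
    intro i x hx
    by_contra hcon
    have h1 : w i ^ (p - 1) ≤ x ^ (p - 1) := pow_le_pow_left' (not_lt.mp hcon) _
    have h2 : v i (p : F) * w i ^ (p - 1) ≤ w i ^ (p - 1) := mul_le_of_le_one_left' (hPi1 i)
    exact absurd (lt_of_lt_of_le hx (le_trans h2 h1)) (lt_irrefl _)
  -- the Newton correction
  set σ : F → F := fun x => (p : F)⁻¹ * (x ^ p * u - 1) with hσ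
  have hvσ : ∀ i x, v i (σ x) = (v i (p : F))⁻¹ * v i (x ^ p * u - 1) := fun i x => by
    rw [hσ]; simp only [map_mul, map_inv₀]
  have hsσ : ∀ i x, v i (x ^ p * u - 1) = v i (p : F) * v i (σ x) := fun i x => by
    rw [hvσ, ← mul_assoc, mul_inv_cancel₀ (hPi0 i), one_mul]
  -- a uniform bound for the initial errors
  obtain ⟨ε, hε1, hε⟩ := exists_bound_lt_one
    (fun i : ι => max
      (max (v i (σ a₀)) ((v i (p : F))⁻¹ * v i (σ a₀) ^ (p - 1)))
      (max (v i (σ b₀)) ((v i (p : F))⁻¹ * v i (σ b₀) ^ (p - 1))))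
    (fun i => by
      refine max_lt ?_ ?_
      · rw [hvσ]; exact init_bound hp2 (hPi0 i) (hPi1 i) (hsa₀ i)
      · rw [hvσ]; exact init_bound hp2 (hPi0 i) (hPi1 i) (hsb₀ i))
  have hεa : ∀ i, v i (σ a₀) ≤ ε := fun i =>
    le_trans (le_trans (le_max_left _ _) (le_max_left _ _)) (hε i)
  have hεa' : ∀ i, v i (σ a₀) ^ (p - 1) ≤ v i (p : F) * ε := fun i => by
    rw [← inv_mul_le_iff₀ (hPipos i)]
    exact le_trans (le_trans (le_max_right _ _) (le_max_left _ _)) (hε i)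
  have hεb : ∀ i, v i (σ b₀) ≤ ε := fun i =>
    le_trans (le_trans (le_max_left _ _) (le_max_right _ _)) (hε i)
  have hεb' : ∀ i, v i (σ b₀) ^ (p - 1) ≤ v i (p : F) * ε := fun i => by
    rw [← inv_mul_le_iff₀ (hPipos i)]
    exact le_trans (le_trans (le_max_right _ _) (le_max_right _ _)) (hε i)
  have hpow1 : ∀ j : ℕ, ε ^ (2 ^ j) < 1 := fun j =>
    pow_lt_one' hε1 (pow_ne_zero j two_ne_zero)
  -- membership of the Newton factor
  have hfacP : ∀ k, ∀ a ∈ M1 k, 1 - σ a ∈ P (p * k) := by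
    intro k a ha
    have h1 : a ^ p * u - 1 ∈ P (p * k) := sub_mem (hP k a ha) (hP1 _)
    have h2 : σ a = ((p : L)⁻¹) • (a ^ p * u - 1) := by
      rw [hσ, Algebra.smul_def, map_inv₀, map_natCast]
    rw [h2]
    exact sub_mem (hP1 _) (Submodule.smul_mem _ _ h1)
  have hfacQ : ∀ k, ∀ b ∈ M2 k, 1 - σ b ∈ Q (p * k) := by
    intro k b hb
    have h1 : b ^ p * u - 1 ∈ Q (p * k) := sub_mem (hQ k b hb) (hQ1 _)
    have h2 : σ b = ((p : L)⁻¹) • (b ^ p * u - 1) := by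
      rw [hσ, Algebra.smul_def, map_inv₀, map_natCast]
    rw [h2]
    exact sub_mem (hQ1 _) (Submodule.smul_mem _ _ h1)
  -- one Newton step preserves the invariant
  have hstep : ∀ (i : ι) (x : F) (η : Γ₀), η < 1 → v i (σ x) ≤ η →
      v i (σ x) ^ (p - 1) ≤ v i (p : F) * η →
      v i (σ ((1 - σ x) * x)) ≤ η ^ 2 ∧
        v i (σ ((1 - σ x) * x)) ^ (p - 1) ≤ v i (p : F) * η ^ 2 := by
    intro i x η hη hT hT2
    have h1 := val_wild_newton_step (v i) hp hp0 x u (le_trans hT hη.le)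
    have h2 := order_step hp2 (hPi0 i) hη.le hT hT2 h1
    rw [hvσ i ((1 - σ x) * x)]
    exact h2
  -- the Newton iteration
  have key : ∀ j : ℕ, ∃ (k : ℕ) (a b : F), k₀ ≤ k ∧ a ∈ M1 k ∧ b ∈ M2 k ∧
      (∀ i, v i a = w i) ∧ (∀ i, v i b = w i) ∧
      (∀ i, v i (a - b) ^ (p - 1) < v i (p : F) * w i ^ (p - 1)) ∧
      (∀ i, v i (σ a) ≤ ε ^ (2 ^ j) ∧ v i (σ a) ^ (p - 1) ≤ v i (p : F) * ε ^ (2 ^ j)) ∧
      (∀ i, v i (σ b) ≤ ε ^ (2 ^ j) ∧ v i (σ b) ^ (p - 1) ≤ v i (p : F) * ε ^ (2 ^ j)) := by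
    intro j
    induction j with
    | zero =>
      refine ⟨k₀, a₀, b₀, le_rfl, ha₀, hb₀, hva₀, fun i => ?_, hab₀, fun i => ?_, fun i => ?_⟩
      · have h : v i (a₀ - b₀) < v i a₀ := by
          rw [hva₀]; exact hlt_w i _ (hab₀ i)
        have h2 := (v i).map_sub_eq_of_lt_left h
        rw [sub_sub_cancel] at h2
        rw [h2, hva₀]
      · rw [pow_zero, pow_one]; exact ⟨hεa i, hεa' i⟩
      · rw [pow_zero, pow_one]; exact ⟨hεb i, hεb' i⟩
    | succ j ih =>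
      obtain ⟨k, a, b, hk, ha, hb, hva, hvb, hab, hsa, hsb⟩ := ih
      have hη1 : ε ^ (2 ^ j) < 1 := hpow1 j
      have hvσa : ∀ i, v i (σ a) < 1 := fun i => lt_of_le_of_lt (hsa i).1 hη1
      have hvσb : ∀ i, v i (σ b) < 1 := fun i => lt_of_le_of_lt (hsb i).1 hη1
      have hvta : ∀ i, v i (1 - σ a) = 1 := fun i => (v i).map_one_sub_of_lt (hvσa i)
      have hvtb : ∀ i, v i (1 - σ b) = 1 := fun i => (v i).map_one_sub_of_lt (hvσb i)
      have hpowsucc : ε ^ (2 ^ (j + 1)) = (ε ^ (2 ^ j)) ^ 2 := by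
        rw [← pow_mul, pow_succ]
      refine ⟨p * k + k, (1 - σ a) * a, (1 - σ b) * b, le_trans hk (Nat.le_add_left _ _),
        hPM _ _ _ (hfacP k a ha) a ha, hQM _ _ _ (hfacQ k b hb) b hb,
        fun i => ?_, fun i => ?_, fun i => ?_, fun i => ?_, fun i => ?_⟩
      · rw [map_mul, hvta, hva, one_mul]
      · rw [map_mul, hvtb, hvb, one_mul]
      · have h1 : (1 - σ a) * a - (1 - σ b) * b = (1 - σ a) * (a - b) + (σ b - σ a) * b := by
          ring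
        have h2 : v i ((1 - σ a) * (a - b)) ^ (p - 1) < v i (p : F) * w i ^ (p - 1) := by
          rw [map_mul, hvta, one_mul]; exact hab i
        have h3 : v i ((σ b - σ a) * b) ^ (p - 1) < v i (p : F) * w i ^ (p - 1) := by
          rw [map_mul, hvb, mul_pow]
          have h4 : v i (σ b - σ a) ^ (p - 1) ≤ v i (p : F) * ε ^ (2 ^ j) := by
            rcases le_total (v i (σ b)) (v i (σ a)) with hle | hle
            · exact le_trans (pow_le_pow_left' ((v i).map_sub_le hle le_rfl) _) (hsa i).2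
            · exact le_trans (pow_le_pow_left' ((v i).map_sub_le le_rfl hle) _) (hsb i).2
          calc v i (σ b - σ a) ^ (p - 1) * w i ^ (p - 1)
              ≤ v i (p : F) * ε ^ (2 ^ j) * w i ^ (p - 1) := mul_le_mul' h4 le_rfl
            _ = ε ^ (2 ^ j) * (v i (p : F) * w i ^ (p - 1)) := by
                rw [mul_comm (v i (p : F)) (ε ^ (2 ^ j)), mul_assoc]
            _ < 1 * (v i (p : F) * w i ^ (p - 1)) := mul_lt_mul_of_pos_right hη1 (hwpow i)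
            _ = v i (p : F) * w i ^ (p - 1) := one_mul _
        rw [h1]
        rcases le_total (v i ((1 - σ a) * (a - b))) (v i ((σ b - σ a) * b)) with hle | hle
        · exact lt_of_le_of_lt (pow_le_pow_left' ((v i).map_add_le hle le_rfl) _) h3
        · exact lt_of_le_of_lt (pow_le_pow_left' ((v i).map_add_le le_rfl hle) _) h2
      · rw [hpowsucc]
        exact hstep i a _ hη1 (hsa i).1 (hsa i).2
      · rw [hpowsucc]
        exact hstep i b _ hη1 (hsb i).1 (hsb i).2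
  -- choose the step
  obtain ⟨n, hn⟩ := harch ε κ hε1 hκ0
  obtain ⟨k, a, b, hk, ha, hb, hva, hvb, hab, hsa, hsb⟩ := key n
  have hEκ : ε ^ (2 ^ n) < κ := by
    refine lt_of_le_of_lt ?_ hn
    exact pow_le_pow_right_of_le_one' hε1.le (Nat.lt_two_pow_self).le
  -- closeness of `a` and `b`
  have hb0 : b ≠ 0 := by
    intro h
    have := hvb i₁
    rw [h, map_zero] at this
    exact hw i₁ this.symm
  have hclose : ∀ i, v i (a - b) ≤ ε ^ (2 ^ n) * w i := by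
    intro i
    set z := (a - b) / b with hz
    have hvz : v i z * w i = v i (a - b) := by
      rw [hz, map_div₀, hvb, div_mul_cancel₀ _ (hw i)]
    have hvz1 : v i z ^ (p - 1) < v i (p : F) := by
      have h1 := hab i
      rw [← hvz, mul_pow] at h1
      exact lt_of_mul_lt_mul_right' h1
    have hab' : a = b * (1 + z) := by
      rw [hz, mul_add, mul_one, mul_div_cancel₀ _ hb0]; ring
    have hsb1 : v i (b ^ p * u - 1) < 1 := by
      rw [hsσ]
      exact lt_of_le_of_lt (mul_le_of_le_one_left' (hPi1 i))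
        (lt_of_le_of_lt (hsb i).1 (hpow1 n))
    have hbu : v i (b ^ p * u) = 1 := by
      have h1 : b ^ p * u = 1 + (b ^ p * u - 1) := by ring
      rw [h1]
      exact (v i).map_one_add_of_lt hsb1
    have h2 : a ^ p * u - b ^ p * u = b ^ p * u * ((1 + z) ^ p - 1) := by
      rw [hab', mul_pow]; ring
    have h3 : v i (a ^ p * u - b ^ p * u) = v i (p : F) * v i z := by
      rw [h2, map_mul, hbu, one_mul, val_one_add_pow_prime_sub_one (v i) hp hvz1]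
    have h4 : a ^ p * u - b ^ p * u = (a ^ p * u - 1) - (b ^ p * u - 1) := by ring
    have h5 : v i (p : F) * v i z ≤ v i (p : F) * ε ^ (2 ^ n) := by
      rw [← h3, h4]
      refine (v i).map_sub_le ?_ ?_
      · rw [hsσ]; exact mul_le_mul' le_rfl (hsa i).1
      · rw [hsσ]; exact mul_le_mul' le_rfl (hsb i).1
    have h6 : v i z ≤ ε ^ (2 ^ n) := le_of_mul_le_mul_left h5 (hPipos i)
    rw [← hvz]
    exact mul_le_mul' h6 le_rfl
  -- reduction to level `k₀`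
  obtain ⟨c₀, hc₀, a₁, ha₁, b₁, hb₁, hc, hva₁, hvb₁, hvc₀⟩ :=
    hsurj k hk (a - b) (sub_mem (hM1 k ha) (hM2 k hb)) (ε ^ (2 ^ n)) hclose
  have hdiff : (a - a₁) - (b - b₁) = c₀ := by
    have : (a - a₁) - (b - b₁) = (a - b) - (a₁ - b₁) := by ring
    rw [this, hc]; ring
  obtain ⟨ha', hb'⟩ := hsep k hk (a - a₁) (sub_mem ha ha₁) (b - b₁) (sub_mem hb hb₁)
    (by rw [hdiff]; exact hc₀)
  have hva' : v i₁ (a - a₁) = w i₁ := by
    have h : v i₁ a₁ < v i₁ a := by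
      rw [hva]
      calc v i₁ a₁ ≤ ε ^ (2 ^ n) * w i₁ := hva₁ i₁
        _ < 1 * w i₁ := mul_lt_mul_of_pos_right (hpow1 n) (hwpos i₁)
        _ = w i₁ := one_mul _
    rw [(v i₁).map_sub_eq_of_lt_left h, hva]
  have hfin := hκ (a - a₁) ha' (b - b₁) hb' (ε ^ (2 ^ n)) (by rw [hdiff]; exact hvc₀) i₁
  rw [hva'] at hfin
  have hfin' : κ ≤ ε ^ (2 ^ n) := le_of_mul_le_mul_right hfin (hwpos i₁)
  exact absurd (lt_of_le_of_lt hfin' hEκ) (lt_irrefl κ)

/-- **Wild multi-valuation Kummer core.** -/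
theorem wild_kummer_multi
    {ι : Type*} [Finite ι] [Nonempty ι] (v : ι → Valuation F Γ₀)
    (harch : ∀ ε κ : Γ₀, ε < 1 → κ ≠ 0 → ∃ n : ℕ, ε ^ n < κ)
    (p : ℕ) (hp : p.Prime) (hp0 : (p : F) ≠ 0) (u : F)
    (M1 M2 M12 P Q : ℕ → Submodule L F)
    (hM1 : ∀ k, M1 k ≤ M12 k) (hM2 : ∀ k, M2 k ≤ M12 k)
    (hP1 : ∀ k, (1 : F) ∈ P k) (hQ1 : ∀ k, (1 : F) ∈ Q k)
    (hP : ∀ k, ∀ a ∈ M1 k, a ^ p * u ∈ P (p * k))
    (hQ : ∀ k, ∀ b ∈ M2 k, b ^ p * u ∈ Q (p * k))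
    (hPM : ∀ j k, ∀ s ∈ P j, ∀ a ∈ M1 k, s * a ∈ M1 (j + k))
    (hQM : ∀ j k, ∀ s ∈ Q j, ∀ b ∈ M2 k, s * b ∈ M2 (j + k))
    (k₀ : ℕ)
    (hsep : ∀ k, k₀ ≤ k → ∀ a ∈ M1 k, ∀ b ∈ M2 k, a - b ∈ M12 k₀ → a ∈ M1 k₀ ∧ b ∈ M2 k₀)
    (w : ι → Γ₀)
    (hsurj : ∀ k, k₀ ≤ k → ∀ c ∈ M12 k, ∀ r : Γ₀, (∀ i, v i c ≤ r * w i) →
      ∃ c₀ ∈ M12 k₀, ∃ a₁ ∈ M1 k, ∃ b₁ ∈ M2 k, c = c₀ + a₁ - b₁ ∧
        (∀ i, v i a₁ ≤ r * w i) ∧ (∀ i, v i b₁ ≤ r * w i) ∧ (∀ i, v i c₀ ≤ r * w i))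
    {τ : Type*} [Finite τ] (bas : Module.Basis τ L (M12 k₀))
    (horth : ∀ (x : M12 k₀) (r : Γ₀), (∀ i, v i (x : F) ≤ r * w i) →
      ∀ (t : τ) (i : ι), v i (algebraMap L F (bas.repr x t)) ≤ r)
    (a₀ b₀ : F) (ha₀ : a₀ ∈ M1 k₀) (hb₀ : b₀ ∈ M2 k₀) (hva₀ : ∀ i, v i a₀ = w i)
    (hab₀ : ∀ i, v i (a₀ - b₀) ^ (p - 1) < v i (p : F) * w i ^ (p - 1))
    (hsa₀ : ∀ i, v i (a₀ ^ p * u - 1) ^ (p - 1) < v i (p : F) ^ p)
    (hsb₀ : ∀ i, v i (b₀ ^ p * u - 1) ^ (p - 1) < v i (p : F) ^ p) :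
    ∃ f : F, f ≠ 0 ∧ f ∈ M1 k₀ ∧ f ∈ M2 k₀ := by
  by_contra hcon
  have hinf : ∀ f : F, f ∈ M1 k₀ → f ∈ M2 k₀ → f = 0 := by
    intro f h1 h2
    by_contra hf
    exact hcon ⟨f, hf, h1, h2⟩
  have hp1 : p - 1 ≠ 0 := by have := hp.two_le; omega
  have hw : ∀ i, w i ≠ 0 := by
    intro i h
    have h1 := hab₀ i
    rw [h, zero_pow hp1, mul_zero] at h1
    exact not_lt_zero h1
  exact wild_kummer_multi_false v harch p hp hp0 u M1 M2 M12 P Q hM1 hM2 hP1 hQ1 hP hQ hPM hQM k₀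
    hsep w hsurj
    (exists_bound_of_orthonormal_multi v w hw (M1 k₀) (M2 k₀) (M12 k₀) (hM1 k₀) (hM2 k₀) hinf bas
      horth)
    a₀ b₀ ha₀ hb₀ hva₀ hab₀ hsa₀ hsb₀

end Core

end Fermat.Agent.Lib.helper3195
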