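/-
Wild Kummer theory on top of the landed S35 multi-valuation machinery (helper3195).

`p` is a prime which is NOT assumed to be a unit for the valuations (residue characteristic).
A Kummer pair `u = a / b`, `p • D0 = div u`, is DEEP if `|u - 1| ^ (p - 1) < |p| ^ p` for all
the valuations (`u ≡ 1` beyond the depth `p / (p - 1)`).

* `wild_special_fibreW`, `wild_countW`, `isPrincipal_of_deep_seeds` : the wild core
  `helper3195.wild_kummer_multi` with the special-fibre supply of `helper2459` and the count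
  layer of `helper1788` (seeds beyond the threshold on both charts ⟹ `D0` principal).
-/
import Mathlib
import Fermat.Agent.Lib.helper3195_WildKummerCore
import Fermat.Agent.S35.helper1788_KummerMultiInst

set_option autoImplicit false

open AlgebraicCurve Polynomial

namespace Fermat.Agent.Lib.helper3195

open Fermat.Agent.S35.helper2459 Fermat.Agent.S35.helper1788 Fermat.Agent.S18.helper4226

section Abstract

variable {L F Γ₀ : Type*} [Field L] [Field F] [Algebra L F] [LinearOrderedCommGroupWithZero Γ₀]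
variable {ι : Type*} {kk : Type*} [Field kk] {Fk : Type*} [CommRing Fk] [Algebra kk Fk]

/-- **Wild multi-valuation Kummer core with special-fibre inputs**: the statement of
`helper2459.kummer_core_special_fibreW` with explicit seeds beyond the threshold instead of
`v i m = 1` and a class `θ`. -/
theorem wild_special_fibreW [Finite ι] [Nonempty ι]
    (v : ι → Valuation F Γ₀) (w : ι → Γ₀) (vL : Valuation L Γ₀)
    (harch : ∀ ε κ : Γ₀, ε < 1 → κ ≠ 0 → ∃ n : ℕ, ε ^ n < κ)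
    (p : ℕ) (hp : p.Prime) (hp0 : (p : F) ≠ 0) (u : F)
    (M1 M2 M12 P Q : ℕ → Submodule L F)
    (hM1 : ∀ k, M1 k ≤ M12 k) (hM2 : ∀ k, M2 k ≤ M12 k)
    (hP1 : ∀ k, (1 : F) ∈ P k) (hQ1 : ∀ k, (1 : F) ∈ Q k)
    (hP : ∀ k, ∀ a ∈ M1 k, a ^ p * u ∈ P (p * k))
    (hQ : ∀ k, ∀ b ∈ M2 k, b ^ p * u ∈ Q (p * k))
    (hPM : ∀ j k, ∀ s ∈ P j, ∀ a ∈ M1 k, s * a ∈ M1 (j + k))
    (hQM : ∀ j k, ∀ s ∈ Q j, ∀ b ∈ M2 k, s * b ∈ M2 (j + k))
    (k₀ : ℕ)
    (hsep : ∀ k, k₀ ≤ k → ∀ a ∈ M1 k, ∀ b ∈ M2 k, a - b ∈ M12 k₀ → a ∈ M1 k₀ ∧ b ∈ M2 k₀)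
    (hmono : ∀ k, k₀ ≤ k → M12 k₀ ≤ M12 k)
    {red redM : F → Fk} (hred : RedDataW v w vL kk red redM)
    (hVG : ∀ (i : ι) (f : F), f ≠ 0 → ∃ c : L, vL c = v i f / w i)
    (hcart : ∀ k, k₀ ≤ k → CartesianW v w vL (M12 k))
    (N1 N2 N12 : ℕ → Submodule kk Fk)
    (hcont : ∀ k, k₀ ≤ k → ∀ a ∈ M12 k, (∀ i, v i a ≤ w i) → redM a ∈ N12 k)
    (hsum : ∀ k, k₀ ≤ k → N12 k ≤ N12 k₀ ⊔ N1 k ⊔ N2 k)
    (hs12 : ∀ y ∈ N12 k₀, ∃ a ∈ M12 k₀, (∀ i, v i a ≤ w i) ∧ redM a = y)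
    (hs1 : ∀ k, k₀ ≤ k → ∀ y ∈ N1 k, ∃ a ∈ M1 k, (∀ i, v i a ≤ w i) ∧ redM a = y)
    (hs2 : ∀ k, k₀ ≤ k → ∀ y ∈ N2 k, ∃ a ∈ M2 k, (∀ i, v i a ≤ w i) ∧ redM a = y)
    (a₀ b₀ : F) (ha₀ : a₀ ∈ M1 k₀) (hb₀ : b₀ ∈ M2 k₀) (hva₀ : ∀ i, v i a₀ = w i)
    (hab₀ : ∀ i, v i (a₀ - b₀) ^ (p - 1) < v i (p : F) * w i ^ (p - 1))
    (hsa₀ : ∀ i, v i (a₀ ^ p * u - 1) ^ (p - 1) < v i (p : F) ^ p)
    (hsb₀ : ∀ i, v i (b₀ ^ p * u - 1) ^ (p - 1) < v i (p : F) ^ p) :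
    ∃ f : F, f ≠ 0 ∧ f ∈ M1 k₀ ∧ f ∈ M2 k₀ := by
  obtain ⟨n, bas, -, horth⟩ := (hcart k₀ le_rfl).exists_basis hred
  have hsurj : ∀ k, k₀ ≤ k → ∀ c ∈ M12 k, ∀ r : Γ₀, (∀ i, v i c ≤ r * w i) →
      ∃ c₀ ∈ M12 k₀, ∃ a₁ ∈ M1 k, ∃ b₁ ∈ M2 k, c = c₀ + a₁ - b₁ ∧
        (∀ i, v i a₁ ≤ r * w i) ∧ (∀ i, v i b₁ ≤ r * w i) ∧ (∀ i, v i c₀ ≤ r * w i) :=
    fun k hk =>
      exists_decompW hred hVG (hmono k hk) (hM1 k) (hM2 k) (hcart k hk) (hcont k hk) (hsum k hk)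
        hs12 (hs1 k hk) (hs2 k hk)
  exact wild_kummer_multi v harch p hp hp0 u M1 M2 M12 P Q hM1 hM2 hP1 hQ1 hP hQ hPM hQM k₀ hsep w
    hsurj bas horth a₀ b₀ ha₀ hb₀ hva₀ hab₀ hsa₀ hsb₀

/-- **Wild multi-valuation Kummer core, count form** (abstract two-parameter families): the
statement of `helper1788.kummer_core_countW` with seeds beyond the threshold at a level `k₁`. -/
theorem wild_countW [Finite ι] [Nonempty ι]
    (v : ι → Valuation F Γ₀) (w : ι → Γ₀) (vL : Valuation L Γ₀)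
    (harch : ∀ ε κ : Γ₀, ε < 1 → κ ≠ 0 → ∃ n : ℕ, ε ^ n < κ)
    (p : ℕ) (hp : p.Prime) (hp0 : (p : F) ≠ 0) (u : F)
    (M : ℕ → ℕ → Submodule L F) (P Q : ℕ → Submodule L F)
    (hMmono : ∀ a a' b b' : ℕ, a ≤ a' → b ≤ b' → M a b ≤ M a' b')
    (hP1 : ∀ k, (1 : F) ∈ P k) (hQ1 : ∀ k, (1 : F) ∈ Q k)
    (hP : ∀ k, ∀ a ∈ M k 0, a ^ p * u ∈ P (p * k))
    (hQ : ∀ k, ∀ b ∈ M 0 k, b ^ p * u ∈ Q (p * k))
    (hPM : ∀ j k, ∀ s ∈ P j, ∀ a ∈ M k 0, s * a ∈ M (j + k) 0)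
    (hQM : ∀ j k, ∀ s ∈ Q j, ∀ b ∈ M 0 k, s * b ∈ M 0 (j + k))
    (hMsep : ∀ k₀ k : ℕ, k₀ ≤ k → ∀ a ∈ M k 0, ∀ b ∈ M 0 k, a - b ∈ M k₀ k₀ →
      a ∈ M k₀ 0 ∧ b ∈ M 0 k₀)
    {red redM : F → Fk} (hred : RedDataW v w vL kk red redM)
    (hVG : ∀ (i : ι) (f : F), f ≠ 0 → ∃ c : L, vL c = v i f / w i)
    (hcart : ∀ a b : ℕ, CartesianW v w vL (M a b))
    (d γ c : ℤ) (hd : 0 < d)
    (hRiemF : ∀ a b : ℕ, c ≤ ((a : ℤ) + b) * d →
      ((a : ℤ) + b) * d + 1 - γ ≤ (Module.finrank L (M a b) : ℤ))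
    (N : ℕ → ℕ → Submodule kk Fk) (hfin : ∀ a b : ℕ, Module.Finite kk (N a b))
    (hNmono : ∀ a a' b b' : ℕ, a ≤ a' → b ≤ b' → N a b ≤ N a' b')
    (hNinf : ∀ a a' b b' : ℕ, a ≤ a' → b' ≤ b → N a b ⊓ N a' b' ≤ N a b')
    (hNred : ∀ a b : ℕ, ∀ x ∈ M a b, (∀ i, v i x ≤ w i) → redM x ∈ N a b)
    (hRiemk : ∀ a b : ℕ, c ≤ ((a : ℤ) + b) * d →
      (Module.finrank kk (N a b) : ℤ) ≤ ((a : ℤ) + b) * d + 1 - γ)
    (k₁ : ℕ) (a₀ b₀ : F) (ha₀ : a₀ ∈ M k₁ 0) (hb₀ : b₀ ∈ M 0 k₁) (hva₀ : ∀ i, v i a₀ = w i)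
    (hab₀ : ∀ i, v i (a₀ - b₀) ^ (p - 1) < v i (p : F) * w i ^ (p - 1))
    (hsa₀ : ∀ i, v i (a₀ ^ p * u - 1) ^ (p - 1) < v i (p : F) ^ p)
    (hsb₀ : ∀ i, v i (b₀ ^ p * u - 1) ^ (p - 1) < v i (p : F) ^ p) :
    ∃ f : F, f ≠ 0 ∧ f ∈ M 0 0 := by
  -- a level in the Riemann range, above the level of the seeds
  obtain ⟨k₀, hk₀, hk₁⟩ : ∃ k₀ : ℕ, c ≤ (k₀ : ℤ) * d ∧ k₁ ≤ k₀ := by
    refine ⟨max c.toNat k₁, ?_, le_max_right _ _⟩
    have h1 : c ≤ (c.toNat : ℤ) := Int.self_le_toNat c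
    have h2 : (c.toNat : ℤ) ≤ ((max c.toNat k₁ : ℕ) : ℤ) := by exact_mod_cast le_max_left _ _
    have h3 : (0 : ℤ) ≤ (c.toNat : ℤ) := Int.natCast_nonneg _
    nlinarith
  have hrange : ∀ a b : ℕ, k₀ ≤ a + b → c ≤ ((a : ℤ) + b) * d := by
    intro a b hab
    have h1 : (k₀ : ℤ) ≤ (a : ℤ) + b := by exact_mod_cast hab
    nlinarith
  -- the squeeze: exact dimension and surjectivity in the Riemann range
  have hsq : ∀ a b : ℕ, c ≤ ((a : ℤ) + b) * d →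
      (Module.finrank kk (N a b) : ℤ) = ((a : ℤ) + b) * d + 1 - γ ∧
        ∀ y ∈ N a b, ∃ x ∈ M a b, (∀ i, v i x ≤ w i) ∧ redM x = y := by
    intro a b hab
    have := hfin a b
    have h1 := finrank_le_of_cartesianW hred (hcart a b) (N a b) (hNred a b)
    have h1' : (Module.finrank L (M a b) : ℤ) ≤ (Module.finrank kk (N a b) : ℤ) := by
      exact_mod_cast h1
    have h2 := hRiemF a b hab
    have h3 := hRiemk a b hab
    have h4 : Module.finrank kk (N a b) ≤ Module.finrank L (M a b) := by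
      have : (Module.finrank kk (N a b) : ℤ) ≤ (Module.finrank L (M a b) : ℤ) := by linarith
      exact_mod_cast this
    exact ⟨by linarith, squeezeW hred (hcart a b) (N a b) (hNred a b) h4⟩
  -- sum formula for a rectangle
  have hsup : ∀ a a' b b' : ℕ, a ≤ a' → b' ≤ b → c ≤ ((a : ℤ) + b') * d →
      N a' b ≤ N a b ⊔ N a' b' := by
    intro a a' b b' ha hb hc
    have ha' : (a : ℤ) ≤ a' := by exact_mod_cast ha
    have hb' : (b' : ℤ) ≤ b := by exact_mod_cast hb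
    have := hfin a b
    have := hfin a' b'
    have := hfin a b'
    have := hfin a' b
    have e1 := (hsq a b (by nlinarith)).1
    have e2 := (hsq a' b' (by nlinarith)).1
    have e3 := (hsq a b' hc).1
    have e4 := (hsq a' b (by nlinarith)).1
    refine le_sup_of_finrank (N a b) (N a' b') (N a' b) (N a b')
      (hNmono a a' b b ha le_rfl) (hNmono a' a' b' b le_rfl hb) (hNinf a a' b b' ha hb) ?_
    have : ((Module.finrank kk (N a' b) + Module.finrank kk (N a b') : ℕ) : ℤ) ≤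
        ((Module.finrank kk (N a b) + Module.finrank kk (N a' b') : ℕ) : ℤ) := by
      push_cast
      rw [e1, e2, e3, e4]
      linarith
    exact_mod_cast this
  have hsum : ∀ k, k₀ ≤ k → N k k ≤ N k₀ k₀ ⊔ N k 0 ⊔ N 0 k := by
    intro k hk
    have h1 := hsup k₀ k k₀ 0 hk (Nat.zero_le _) (by simpa using hk₀)
    have h2 := hsup 0 k k k₀ (Nat.zero_le _) hk (by simpa using hk₀)
    refine h2.trans ?_
    rw [sup_comm]
    exact sup_le_sup_right h1 _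
  obtain ⟨f, hf0, hf1, hf2⟩ := wild_special_fibreW v w vL harch p hp hp0 u
    (fun k => M k 0) (fun k => M 0 k) (fun k => M k k) P Q
    (fun k => hMmono k k 0 k le_rfl (Nat.zero_le k))
    (fun k => hMmono 0 k k k (Nat.zero_le k) le_rfl)
    hP1 hQ1 hP hQ hPM hQM k₀ (hMsep k₀) (fun k hk => hMmono k₀ k k₀ k hk hk) hred hVG
    (fun k _ => hcart k k) (fun k => N k 0) (fun k => N 0 k) (fun k => N k k)
    (fun k _ => hNred k k) hsum
    (hsq k₀ k₀ (hrange k₀ k₀ (Nat.le_add_right _ _))).2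
    (fun k hk => (hsq k 0 (hrange k 0 (by simpa using hk))).2)
    (fun k hk => (hsq 0 k (hrange 0 k (by simpa using hk))).2)
    a₀ b₀ (hMmono k₁ k₀ 0 0 hk₁ le_rfl ha₀) (hMmono 0 0 k₁ k₀ le_rfl hk₁ hb₀) hva₀ hab₀ hsa₀ hsb₀
  exact ⟨f, hf0, (hMsep 0 k₀ (Nat.zero_le _) f hf1 f hf2 (by rw [sub_self]; exact (M 0 0).zero_mem)).1⟩

end Abstract


/-! ### Per-valuation estimates -/

section Estimates

variable {F Γ₀ : Type*} [Field F] [LinearOrderedCommGroupWithZero Γ₀] (v : Valuation F Γ₀)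

/-- `x ^ n < y ^ n` implies `x < y`. -/
theorem lt_of_pow_lt_pow' {x y : Γ₀} {n : ℕ} (h : x ^ n < y ^ n) : x < y := by
  by_contra hxy
  exact absurd (lt_of_lt_of_le h (pow_le_pow_left' (not_lt.mp hxy) n)) (lt_irrefl _)

/-- `x ^ n ≤ y ^ n` with `n ≠ 0` implies `x ≤ y`. -/
theorem le_of_pow_le_pow' {x y : Γ₀} {n : ℕ} (hn : n ≠ 0) (h : x ^ n ≤ y ^ n) : x ≤ y := by
  by_contra hxy
  exact absurd (lt_of_lt_of_le (pow_lt_pow_left₀ (not_le.mp hxy) zero_le hn) h) (lt_irrefl _)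

/-- **Shallow expansion.**  If `|g| = 1`, `|x| ≤ |c| < 1`, `|p| < |c| ^ (p - 1)` and
`|u - 1| < |c| ^ p`, then `((g + x) ^ p u - g ^ p) / c ^ p ≡ (x / c) ^ p u`. -/
theorem val_shallow {p : ℕ} (hp : p.Prime) {g x u c : F} (hg : v g = 1) (hx : v x ≤ v c)
    (hc : v c < 1) (hc0 : c ≠ 0) (hu : v (u - 1) < v c ^ p)
    (hsh : v (p : F) < v c ^ (p - 1)) :
    v ((c ^ p)⁻¹ * ((g + x) ^ p * u - g ^ p) - (c⁻¹ * x) ^ p * u) < 1 := by
  obtain ⟨G, hG⟩ := exists_poly_one_add_pow' hp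
  have hp2 := hp.two_le
  have hpe : p = (p - 1) + 1 := by omega
  have hg0 : g ≠ 0 := by
    intro h
    rw [h, map_zero] at hg
    exact zero_ne_one hg
  have hvc0 : v c ≠ 0 := (Valuation.ne_zero_iff v).mpr hc0
  have hvcpos : 0 < v c := zero_lt_iff.mpr hvc0
  set z := x * g⁻¹ with hz
  have hvz : v z ≤ v c := by rw [hz, map_mul, map_inv₀, hg, inv_one, mul_one]; exact hx
  have hvz1 : v z ≤ 1 := le_trans hvz hc.le
  have hgz : g * (1 + z) = g + x := by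
    rw [hz, mul_add, mul_one, mul_comm x, mul_inv_cancel_left₀ hg0]
  have h1 : (g + x) ^ p = g ^ p * (1 + (p : F) * z + (p : F) * z ^ 2 * aeval z G + z ^ p) := by
    rw [← hgz, mul_pow, hG z]
  have h2 : g ^ p * z ^ p = x ^ p := by
    rw [← mul_pow, hz, mul_comm x, mul_inv_cancel_left₀ hg0]
  have h3 : (c⁻¹ * x) ^ p = (c ^ p)⁻¹ * x ^ p := by rw [mul_pow, inv_pow]
  have key : (c ^ p)⁻¹ * ((g + x) ^ p * u - g ^ p) - (c⁻¹ * x) ^ p * u =
      (c ^ p)⁻¹ * (g ^ p * (u - 1)) +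
        (c ^ p)⁻¹ * (g ^ p * ((p : F) * z * (1 + z * aeval z G)) * u) := by
    rw [h1, h3, ← h2]; ring
  have hvu : v u = 1 := by
    have h4 : v (u - 1) < 1 := lt_of_lt_of_le hu (pow_le_one' hc.le p)
    have h5 : u = 1 + (u - 1) := by ring
    rw [h5]
    exact v.map_one_add_of_lt h4
  have hGz : v (1 + z * aeval z G) ≤ 1 :=
    v.map_add_le (le_of_eq v.map_one)
      (by rw [map_mul]; exact mul_le_one' hvz1 (val_aeval_int_le_one v G hvz1))
  have hcp : 0 < v c ^ p := pow_pos hvcpos p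
  rw [key]
  refine v.map_add_lt ?_ ?_
  · rw [map_mul, map_inv₀, map_pow, map_mul, map_pow, hg, one_pow, one_mul,
      inv_mul_lt_iff₀ hcp, mul_one]
    exact hu
  · rw [map_mul, map_inv₀, map_pow, map_mul, map_mul, map_pow, hg, one_pow, one_mul, hvu,
      mul_one, map_mul, map_mul, inv_mul_lt_iff₀ hcp, mul_one]
    calc v (p : F) * v z * v (1 + z * aeval z G) ≤ v (p : F) * v c * 1 :=
          mul_le_mul' (mul_le_mul' le_rfl hvz) hGz
      _ = v (p : F) * v c := mul_one _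
      _ < v c ^ (p - 1) * v c := mul_lt_mul_of_pos_right hsh hvcpos
      _ = v c ^ p := by
          conv_rhs => rw [hpe]
          rw [pow_succ]

/-- **Artin–Schreier expansion.**  If `π ^ (p - 1) = -p`, `|π| < 1`, `|β| ≤ 1` and
`|u - 1| < |π| ^ p`, then `((1 + π β) ^ p u - 1) / π ^ p ≡ β ^ p - β`. -/
theorem val_artinSchreier {p : ℕ} (hp : p.Prime) {π β u : F} (hπ : π ^ (p - 1) = -(p : F))
    (hπ0 : π ≠ 0) (hπ1 : v π < 1) (hβ : v β ≤ 1) (hu : v (u - 1) < v π ^ p) :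
    v ((π ^ p)⁻¹ * ((1 + π * β) ^ p * u - 1) - (β ^ p - β)) < 1 := by
  obtain ⟨G, hG⟩ := exists_poly_one_add_pow' hp
  have hp2 := hp.two_le
  have hpe : p = (p - 1) + 1 := by omega
  have hπp : π ^ p = -((p : F) * π) := by
    conv_lhs => rw [hpe]
    rw [pow_succ, hπ]; ring
  have hπp0 : π ^ p ≠ 0 := pow_ne_zero p hπ0
  have hvπpos : 0 < v π := zero_lt_iff.mpr ((Valuation.ne_zero_iff v).mpr hπ0)
  have hcp : 0 < v π ^ p := pow_pos hvπpos p
  have hpπ : (p : F) * π = -π ^ p := by rw [hπp]; ring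
  have hvπβ : v (π * β) ≤ 1 := by rw [map_mul]; exact mul_le_one' hπ1.le hβ
  have h1 : (1 + π * β) ^ p - 1 =
      π ^ p * (β ^ p - β - π * β ^ 2 * aeval (π * β) G) := by
    rw [hG (π * β)]
    have e1 : (p : F) * (π * β) = -π ^ p * β := by rw [← mul_assoc, hpπ]
    have e2 : (p : F) * (π * β) ^ 2 = -π ^ p * π * β ^ 2 := by
      rw [mul_pow, sq π, ← mul_assoc, ← mul_assoc, hpπ]
    rw [e1, e2, mul_pow]; ring
  have key : (π ^ p)⁻¹ * ((1 + π * β) ^ p * u - 1) - (β ^ p - β) =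
      (β ^ p - β) * (u - 1) - π * β ^ 2 * aeval (π * β) G * u + (π ^ p)⁻¹ * (u - 1) := by
    have e3 : (1 + π * β) ^ p * u - 1 = ((1 + π * β) ^ p - 1) * u + (u - 1) := by ring
    rw [e3, h1, mul_add, ← mul_assoc, ← mul_assoc, inv_mul_cancel₀ hπp0]; ring
  have hu1 : v (u - 1) < 1 := lt_of_lt_of_le hu (pow_le_one' hπ1.le p)
  have hvu : v u = 1 := by
    have h5 : u = 1 + (u - 1) := by ring
    rw [h5]
    exact v.map_one_add_of_lt hu1
  rw [key]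
  refine v.map_add_lt (v.map_sub_lt ?_ ?_) ?_
  · rw [map_mul]
    exact lt_of_le_of_lt
      (mul_le_of_le_one_left' (v.map_sub_le (by rw [map_pow]; exact pow_le_one' hβ p) hβ)) hu1
  · rw [map_mul, map_mul, map_mul, map_pow, hvu, mul_one, mul_assoc]
    exact lt_of_le_of_lt
      (mul_le_of_le_one_right' (mul_le_one' (pow_le_one' hβ 2)
        (val_aeval_int_le_one v G hvπβ))) hπ1
  · rw [map_mul, map_inv₀, map_pow, inv_mul_lt_iff₀ hcp, mul_one]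
    exact hu

/-- Beyond `π`, the `p`-th power is beyond the threshold: `|z| ^ (p - 1) < |p|` and
`|u - 1| ^ (p - 1) < |p| ^ p` give `|(1 + z) ^ p u - 1| ^ (p - 1) < |p| ^ p`. -/
theorem val_deep_pow {p : ℕ} (hp : p.Prime) {z u : F} (hz : v z ^ (p - 1) < v (p : F))
    (hu : v (u - 1) ^ (p - 1) < v (p : F) ^ p) :
    v ((1 + z) ^ p * u - 1) ^ (p - 1) < v (p : F) ^ p := by
  have hp2 := hp.two_le
  have hpe : p = (p - 1) + 1 := by omega
  have hP1 : v (p : F) ≤ 1 := Fermat.Agent.S18.helper1788.val_natCast_le_one v p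
  have hu1 : v (u - 1) < 1 := by
    refine lt_one_of_pow_lt_one (n := p - 1) (lt_of_lt_of_le hu (pow_le_one' hP1 p))
  have hvu : v u = 1 := by
    have h5 : u = 1 + (u - 1) := by ring
    rw [h5]
    exact v.map_one_add_of_lt hu1
  have hP0 : v (p : F) ≠ 0 := by
    intro h
    rw [h] at hz
    exact not_lt_zero hz
  have hPpos : 0 < v (p : F) := zero_lt_iff.mpr hP0
  have e : (1 + z) ^ p * u - 1 = ((1 + z) ^ p - 1) * u + (u - 1) := by ring
  have h1 : v (((1 + z) ^ p - 1) * u) ^ (p - 1) < v (p : F) ^ p := by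
    rw [map_mul, hvu, mul_one, val_one_add_pow_prime_sub_one v hp hz, mul_pow]
    calc v (p : F) ^ (p - 1) * v z ^ (p - 1) < v (p : F) ^ (p - 1) * v (p : F) :=
          mul_lt_mul_of_pos_left hz (pow_pos hPpos _)
      _ = v (p : F) ^ p := pow_sub_one_mul hp.ne_zero _
  rw [e]
  rcases le_total (v (((1 + z) ^ p - 1) * u)) (v (u - 1)) with hle | hle
  · exact lt_of_le_of_lt (pow_le_pow_left' (v.map_add_le hle le_rfl) _) hu
  · exact lt_of_le_of_lt (pow_le_pow_left' (v.map_add_le le_rfl hle) _) h1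

end Estimates


/-! ### Best approximation in a cartesian space -/

section Approx

variable {K F : Type*} [Field K] [Field F] [Algebra K F]
variable {Γ₀ : Type*} [LinearOrderedCommGroupWithZero Γ₀] {ι : Type*}

/-- **Attained distance.**  If every finite-dimensional subspace is cartesian, `W` is a
finite-dimensional subspace containing `1` and `f ≡ 1`, then `f = g + c • e` with `g ∈ W`,
`|c| < 1`, `e` in the unit ball, and (if `c ≠ 0`) `e` at distance `1` from `W`. -/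
theorem exists_best_approx [Finite ι] {val : ι → Valuation F Γ₀}
    {vK : Valuation K Γ₀}
    (hcartS : ∀ S : Submodule K F, Module.Finite K S →
      CartesianW val (fun _ => (1 : Γ₀)) vK S)
    (W : Submodule K F) (hW : Module.Finite K W) (h1 : (1 : F) ∈ W)
    (f : F) (hf : ∀ i, val i (f - 1) < 1) :
    ∃ (g e : F) (c : K), g ∈ W ∧ f = g + c • e ∧ vK c < 1 ∧ (∀ i, val i e ≤ 1) ∧
      (c ≠ 0 → ∀ w ∈ W, ¬ ∀ i, val i (e - w) < 1) := by
  classical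
  by_cases hfW : f ∈ W
  · exact ⟨f, 0, 0, hfW, by simp, by simp, fun i => by simp, fun h => absurd rfl h⟩
  have := hW
  set S : Submodule K F := W ⊔ Submodule.span K {f} with hS
  have hWS : W ≤ S := le_sup_left
  have hfS : f ∈ S := le_sup_right (a := W) (Submodule.mem_span_singleton_self f)
  obtain ⟨n, e, heS, he1, horth, hspan⟩ := hcartS S inferInstance
  obtain ⟨φ, hφf, hφW⟩ := Submodule.exists_dual_map_eq_bot_of_notMem hfW inferInstance
  have hφ0 : ∀ w ∈ W, φ w = 0 := fun w hw => by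
    have : φ w ∈ W.map φ := Submodule.mem_map_of_mem hw
    rw [hφW] at this
    exact (Submodule.mem_bot K).mp this
  -- expansion in the orthonormal family
  have hexp : ∀ x ∈ S, ∃ c : Fin n → K, x = ∑ j, c j • e j := by
    intro x hx
    rw [← hspan] at hx
    obtain ⟨c, hc⟩ := (Submodule.mem_span_range_iff_exists_fun K).mp hx
    exact ⟨c, hc.symm⟩
  -- some `φ (e j)` is nonzero
  obtain ⟨j₁, hj₁⟩ : ∃ j, φ (e j) ≠ 0 := by
    by_contra hcon
    push Not at hcon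
    obtain ⟨c, hc⟩ := hexp f hfS
    apply hφf
    rw [hc, map_sum]
    exact Finset.sum_eq_zero fun j _ => by rw [map_smul, hcon j, smul_zero]
  have : Nonempty (Fin n) := ⟨j₁⟩
  obtain ⟨j₀, hj₀⟩ := Finite.exists_max (fun j => vK (φ (e j)))
  have hj₀0 : φ (e j₀) ≠ 0 := by
    intro h
    have h2 := hj₀ j₁
    rw [h, map_zero, le_zero_iff, map_eq_zero] at h2
    exact hj₁ h2
  have hj₀pos : 0 < vK (φ (e j₀)) := zero_lt_iff.mpr ((Valuation.ne_zero_iff vK).mpr hj₀0)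
  -- the functional is bounded by `|φ (e j₀)|`
  have hbd : ∀ x ∈ S, ∀ r : Γ₀, (∀ i, val i x ≤ r) → vK (φ x) ≤ r * vK (φ (e j₀)) := by
    intro x hx r hr
    obtain ⟨c, hc⟩ := hexp x hx
    have hcj : ∀ j, vK (c j) ≤ r := horth c r (fun i => by rw [← hc, mul_one]; exact hr i)
    rw [hc, map_sum]
    refine vK.map_sum_le fun j _ => ?_
    rw [map_smul, smul_eq_mul, map_mul]
    exact mul_le_mul' (hcj j) (hj₀ j)
  -- the approximation
  set c : K := φ f / φ (e j₀) with hc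
  set g : F := f - c • e j₀ with hg
  have hφg : φ g = 0 := by
    rw [hg, map_sub, map_smul, smul_eq_mul, hc, div_mul_cancel₀ _ hj₀0, sub_self]
  have hgS : g ∈ S := S.sub_mem hfS (S.smul_mem c (heS j₀))
  have hgW : g ∈ W := by
    obtain ⟨w, hw, z, hz, hwz⟩ := Submodule.mem_sup.mp hgS
    obtain ⟨t, rfl⟩ := Submodule.mem_span_singleton.mp hz
    have h2 : φ (w + t • f) = 0 := by rw [hwz]; exact hφg
    rw [map_add, hφ0 w hw, zero_add, map_smul, smul_eq_mul] at h2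
    have ht : t = 0 := (mul_eq_zero.mp h2).resolve_right hφf
    rw [← hwz, ht, zero_smul, add_zero]
    exact hw
  refine ⟨g, e j₀, c, hgW, by rw [hg]; ring, ?_, fun i => by simpa using he1 j₀ i, ?_⟩
  · -- `|c| < 1`
    obtain ⟨r, hr1, hr⟩ := exists_bound_lt_one (fun i => val i (f - 1)) hf
    have h2 := hbd (f - 1) (S.sub_mem hfS (hWS h1)) r hr
    rw [map_sub, hφ0 1 h1, sub_zero] at h2
    rw [hc, map_div₀, div_lt_one₀ hj₀pos]
    exact lt_of_le_of_lt h2 (by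
      calc r * vK (φ (e j₀)) < 1 * vK (φ (e j₀)) := mul_lt_mul_of_pos_right hr1 hj₀pos
        _ = vK (φ (e j₀)) := one_mul _)
  · -- distance `1`
    intro _ w hw hlt
    obtain ⟨r, hr1, hr⟩ := exists_bound_lt_one (fun i => val i (e j₀ - w)) hlt
    have h2 := hbd (e j₀ - w) (S.sub_mem (heS j₀) (hWS hw)) r hr
    rw [map_sub, hφ0 w hw, sub_zero] at h2
    have h3 : r * vK (φ (e j₀)) < vK (φ (e j₀)) := by
      calc r * vK (φ (e j₀)) < 1 * vK (φ (e j₀)) := mul_lt_mul_of_pos_right hr1 hj₀pos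
        _ = vK (φ (e j₀)) := one_mul _
    exact absurd (lt_of_le_of_lt h2 h3) (lt_irrefl _)

end Approx


/-! ### Riemann–Roch form -/

section RR

variable {K F : Type*} [Field K] [Field F] [Algebra K F]
variable {Γ₀ : Type*} [LinearOrderedCommGroupWithZero Γ₀] {ι : Type*}
  {kk : Type*} [Field kk] {Fk : Type*} [CommRing Fk] [Algebra kk Fk] {red : F → Fk}

/-- **Deep seeds on both charts ⟹ principal.**  The wild analogue of
`helper1788.isPrincipal_of_root_closed`: `p` prime, nothing assumed about `val i p`; `u = a / b`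
with `p • D0 = div u`, `u ≡ 1`; a root-closed special-fibre family `N m n`; seeds
`a₀ ∈ L(D0 + k₁ E1)`, `b₀ ∈ L(D0 + k₁ E2)` beyond the threshold.  Then `D0` is principal. -/
theorem isPrincipal_of_deep_seeds_on [HasPrincipalDivisors K F] [Finite ι] [Nonempty ι]
    (hdeg : ∀ v : Place K F, 0 < v.deg)
    (D0 E1 E2 : Divisor K F) (hE1 : ∀ v : Place K F, 0 ≤ E1 v) (hE2 : ∀ v : Place K F, 0 ≤ E2 v)
    (hdisj : ∀ v : Place K F, E1 v = 0 ∨ E2 v = 0) (hD0 : Divisor.degree D0 = 0)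
    (p : ℕ) (hp : p.Prime) (a b : F) (ha : a ≠ 0) (hb : b ≠ 0)
    (hord : ∀ v : Place K F, (p : ℤ) * D0 v = v.ord a - v.ord b)
    (val : ι → Valuation F Γ₀) (vK : Valuation K Γ₀)
    (harch : ∀ ε κ : Γ₀, ε < 1 → κ ≠ 0 → ∃ n : ℕ, ε ^ n < κ) (hp0 : (p : F) ≠ 0)
    (hu1 : ∀ i, val i (a * b⁻¹ - 1) < 1)
    (hred : RedDataW val (fun _ => (1 : Γ₀)) vK kk red red)
    (hVG : ∀ (i : ι) (f : F), f ≠ 0 → ∃ c : K, vK c = val i f)
    (hcart : ∀ m n : ℕ,
      CartesianW val (fun _ => (1 : Γ₀)) vK (riemannRochSpace (D0 + m • E1 + n • E2)))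
    (d γ c : ℤ) (hd : 0 < d)
    (hRiemF : ∀ m n : ℕ, c ≤ ((m : ℤ) + n) * d → ((m : ℤ) + n) * d + 1 - γ ≤
      (Module.finrank K (riemannRochSpace (D0 + m • E1 + n • E2)) : ℤ))
    (N : ℕ → ℕ → Submodule kk Fk) (hfin : ∀ m n : ℕ, Module.Finite kk (N m n))
    (hNmono : ∀ m m' n n' : ℕ, m ≤ m' → n ≤ n' → N m n ≤ N m' n')
    (hNinf : ∀ m m' n n' : ℕ, m ≤ m' → n' ≤ n → N m n ⊓ N m' n' ≤ N m n')
    (hNred0 : ∀ m n : ℕ, ∀ x ∈ riemannRochSpace (m • E1 + n • E2),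
      (∀ i, val i x ≤ 1) → red x ∈ N m n)
    (hRiemk : ∀ m n : ℕ, c ≤ ((m : ℤ) + n) * d →
      (Module.finrank kk (N m n) : ℤ) ≤ ((m : ℤ) + n) * d + 1 - γ)
    (S : Set Fk) (hS : ∀ x : F, (∀ i, val i x ≤ 1) → red x ∈ S)
    (hNroot : ∀ m n : ℕ, ∀ y ∈ S, y ^ p ∈ N (p * m) (p * n) → y ∈ N m n)
    (k₁ : ℕ) (a₀ b₀ : F) (ha₀ : a₀ ∈ riemannRochSpace (D0 + k₁ • E1))
    (hb₀ : b₀ ∈ riemannRochSpace (D0 + k₁ • E2)) (hva₀ : ∀ i, val i a₀ = 1)
    (hab₀ : ∀ i, val i (a₀ - b₀) ^ (p - 1) < val i (p : F))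
    (hsa₀ : ∀ i, val i (a₀ ^ p * (a * b⁻¹) - 1) ^ (p - 1) < val i (p : F) ^ p)
    (hsb₀ : ∀ i, val i (b₀ ^ p * (a * b⁻¹) - 1) ^ (p - 1) < val i (p : F) ^ p) :
    Divisor.IsPrincipal D0 := by
  have hu0 : a * b⁻¹ ≠ 0 := mul_ne_zero ha (inv_ne_zero hb)
  have hordu : ∀ v : Place K F, (p : ℤ) * D0 v ≤ v.ord (a * b⁻¹) := fun v => by
    rw [v.ord_mul ha (inv_ne_zero hb), v.ord_inv, hord v]; linarith
  have h10 : ∀ k : ℕ, D0 + k • E1 + (0 : ℕ) • E2 = D0 + k • E1 := fun k => by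
    rw [zero_smul, add_zero]
  have h01 : ∀ k : ℕ, D0 + (0 : ℕ) • E1 + k • E2 = D0 + k • E2 := fun k => by
    rw [zero_smul, add_zero]
  obtain ⟨f, hf0, hf⟩ := wild_countW val (fun _ => (1 : Γ₀)) vK harch p hp hp0 (a * b⁻¹)
    (fun m n : ℕ => riemannRochSpace (D0 + m • E1 + n • E2))
    (fun k : ℕ => riemannRochSpace (k • E1)) (fun k : ℕ => riemannRochSpace (k • E2))
    (fun m m' n n' hm hn => rr_le_of_le fun v => by
      rw [Finsupp.add_apply, Finsupp.add_apply, Finsupp.smul_apply, Finsupp.smul_apply,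
        nsmul_eq_mul, nsmul_eq_mul, Finsupp.add_apply, Finsupp.add_apply, Finsupp.smul_apply,
        Finsupp.smul_apply, nsmul_eq_mul, nsmul_eq_mul]
      have hm' : (m : ℤ) ≤ m' := by exact_mod_cast hm
      have hn' : (n : ℤ) ≤ n' := by exact_mod_cast hn
      have h1 := mul_le_mul_of_nonneg_right hm' (hE1 v)
      have h2 := mul_le_mul_of_nonneg_right hn' (hE2 v)
      linarith)
    (kc_hP1 E1 hE1) (kc_hP1 E2 hE2)
    (fun k x hx => by
      rw [h10] at hx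
      exact kc_hP D0 E1 p (a * b⁻¹) hu0 hordu k x hx)
    (fun k x hx => by
      rw [h01] at hx
      exact kc_hP D0 E2 p (a * b⁻¹) hu0 hordu k x hx)
    (fun j k s hs x hx => by
      rw [h10] at hx ⊢
      exact kc_hPM D0 E1 j k s hs x hx)
    (fun j k s hs x hx => by
      rw [h01] at hx ⊢
      exact kc_hPM D0 E2 j k s hs x hx)
    (fun k₀ k hk x hx y hy hxy => by
      rw [h10] at hx ⊢
      rw [h01] at hy ⊢
      exact kc_hsep D0 E1 E2 hE1 hE2 hdisj k₀ k hk x hx y hy hxy)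
    hred
    (fun i f hf => by
      obtain ⟨c', hc'⟩ := hVG i f hf
      exact ⟨c', by rw [hc', div_one]⟩)
    hcart d γ c hd hRiemF N hfin hNmono hNinf
    (fun m n x hx hxb => red_mem_of_root_closed_on D0 E1 E2 p a b ha hb hord val vK hu1 hred N
      hNred0 S hS hNroot m n x hx hxb)
    hRiemk k₁ a₀ b₀ (by rw [h10]; exact ha₀) (by rw [h01]; exact hb₀) hva₀
    (fun i => by rw [one_pow, mul_one]; exact hab₀ i) hsa₀ hsb₀
  have hf' : f ∈ riemannRochSpace D0 := by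
    have h00 : D0 + (0 : ℕ) • E1 + (0 : ℕ) • E2 = D0 := by
      rw [zero_smul, zero_smul, add_zero, add_zero]
    rw [h00] at hf
    exact hf
  exact isPrincipal_of_mem_rr hdeg hD0 hf0 hf'

end RR


/-! ### No shallow obstruction -/

section ShallowElim

variable {K F : Type*} [Field K] [Field F] [Algebra K F]
variable {Γ₀ : Type*} [LinearOrderedCommGroupWithZero Γ₀] {ι : Type*}
  {kk : Type*} [Field kk] {Fk : Type*} [CommRing Fk] [Algebra kk Fk] {red : F → Fk}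

/-- **No shallow obstruction, one chart, abstract form.**  `U k` plays the role of `L(k E)`
(untwisted), `T k` of `L(D0 + k E)` (twisted), `u` is deep, `f ∈ T k` is a first-order seed.
If the unit ball of `U k` reduces onto `Nk`, that of `U (p k)` into `Nk'`, and `p`-th roots of
elements of `Nk'` lie in `Nk`, then some twisted section is `≡ 1` modulo `π`
(`|a₀ - 1| ^ (p - 1) ≤ |p|`). -/
theorem exists_seed_mod_pi_aux [Finite ι] [Nonempty ι]
    (val : ι → Valuation F Γ₀) (vK : Valuation K Γ₀)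
    (harch : ∀ ε κ : Γ₀, ε < 1 → κ ≠ 0 → ∃ n : ℕ, ε ^ n < κ)
    (p : ℕ) (hp : p.Prime) (hp0 : (p : F) ≠ 0) (u : F)
    (hdeep : ∀ i, val i (u - 1) ^ (p - 1) < val i (p : F) ^ p)
    (hred : RedDataW val (fun _ => (1 : Γ₀)) vK kk red red)
    (hcartS : ∀ S : Submodule K F, Module.Finite K S →
      CartesianW val (fun _ => (1 : Γ₀)) vK S)
    (U T : ℕ → Submodule K F)
    (hU1 : ∀ k, (1 : F) ∈ U k)
    (hUmono : ∀ j k, j ≤ k → U j ≤ U k)
    (hUmul : ∀ j k, ∀ s ∈ U j, ∀ t ∈ U k, s * t ∈ U (j + k))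
    (hUT : ∀ j k, ∀ s ∈ U j, ∀ a ∈ T k, s * a ∈ T (j + k))
    (hTU : ∀ k, ∀ a ∈ T k, a ^ p * u ∈ U (p * k))
    (k : ℕ) (hUfin : Module.Finite K (U k))
    (Nk Nk' : Submodule kk Fk)
    (hUred : ∀ x ∈ U (p * k), (∀ i, val i x ≤ 1) → red x ∈ Nk')
    (hUsurj : ∀ y ∈ Nk, ∃ x ∈ U k, (∀ i, val i x ≤ 1) ∧ red x = y)
    (S : Set Fk) (hS : ∀ x : F, (∀ i, val i x ≤ 1) → red x ∈ S)
    (hroot : ∀ y ∈ S, y ^ p ∈ Nk' → y ∈ Nk)
    (f : F) (hfT : f ∈ T k) (hf : ∀ i, val i (f - 1) < 1) :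
    ∃ (k' : ℕ) (a₀ : F), a₀ ∈ T k' ∧ ∀ i, val i (a₀ - 1) ^ (p - 1) ≤ val i (p : F) := by
  have hp2 := hp.two_le
  have hp1 : p - 1 ≠ 0 := by omega
  have hvp : ∀ i, val i (p : F) = vK (p : K) := fun i => by
    rw [← map_natCast (algebraMap K F) p, hred.val_algebraMap]
  obtain ⟨i₁⟩ := ‹Nonempty ι›
  have hvKp0 : vK (p : K) ≠ 0 := by
    rw [← hvp i₁]
    exact (Valuation.ne_zero_iff _).mpr hp0
  have hvKp1 : vK (p : K) ≤ 1 := by
    rw [← hvp i₁]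
    exact Fermat.Agent.S18.helper1788.val_natCast_le_one _ p
  have hu1 : ∀ i, val i (u - 1) < 1 := fun i => by
    refine lt_one_of_pow_lt_one (n := p - 1) (lt_of_lt_of_le (hdeep i) ?_)
    rw [hvp]
    exact pow_le_one' hvKp1 p
  obtain ⟨hvu, hru⟩ := red_eq_one_of_val_sub_one_lt hred hu1
  -- powers in the untwisted family
  have hUpow : ∀ (s : F), s ∈ U k → ∀ j : ℕ, s ^ j ∈ U (j * k) := by
    intro s hs j
    induction j with
    | zero => rw [pow_zero]; exact hU1 _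
    | succ j ih =>
      rw [pow_succ, Nat.succ_mul]
      exact hUmul _ _ _ ih _ hs
  -- best approximation of `f` in `U k`
  obtain ⟨g, e, c, hgW, hfg, hc1, he1, hdist⟩ :=
    exists_best_approx hcartS (U k) hUfin (hU1 k) f hf
  set cF : F := algebraMap K F c with hcF
  have hvcF : ∀ i, val i cF = vK c := fun i => hred.val_algebraMap i c
  have hfg' : f = g + cF * e := by rw [hfg, Algebra.smul_def]
  have hvce : ∀ i, val i (cF * e) ≤ vK c := fun i => by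
    rw [map_mul, hvcF]
    exact mul_le_of_le_one_right' (he1 i)
  have hg1 : ∀ i, val i (g - 1) < 1 := fun i => by
    have h1 : g - 1 = (f - 1) - cF * e := by rw [hfg']; ring
    rw [h1]
    exact (val i).map_sub_lt (hf i) (lt_of_le_of_lt (hvce i) hc1)
  have hvg : ∀ i, val i g = 1 := (red_eq_one_of_val_sub_one_lt hred hg1).1
  -- the approximation is not shallow
  have hns : vK c ^ (p - 1) ≤ vK (p : K) := by
    by_contra hsh
    have hsh' : vK (p : K) < vK c ^ (p - 1) := not_le.mp hsh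
    have hc0 : c ≠ 0 := by
      rintro rfl
      rw [map_zero, zero_pow hp1] at hsh'
      exact not_lt_zero hsh'
    have hcF0 : cF ≠ 0 := by
      rw [hcF]
      exact (map_ne_zero (algebraMap K F)).mpr hc0
    have hu' : ∀ i, val i (u - 1) < val i cF ^ p := fun i => by
      refine lt_of_pow_lt_pow' (n := p - 1) (lt_trans (hdeep i) ?_)
      rw [hvp, hvcF, ← pow_mul, mul_comm p (p - 1), pow_mul]
      exact pow_lt_pow_left₀ hsh' zero_le hp.ne_zero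
    set y : F := (cF ^ p)⁻¹ * (f ^ p * u - g ^ p) with hy
    have hyclose : ∀ i, val i (y - e ^ p * u) < 1 := fun i => by
      have h1 := val_shallow (val i) hp (g := g) (x := cF * e) (u := u) (c := cF) (hvg i)
        (by rw [hvcF]; exact hvce i) (by rw [hvcF]; exact hc1) hcF0 (hu' i)
        (by rw [hvp, hvcF]; exact hsh')
      rwa [← hfg', inv_mul_cancel_left₀ hcF0] at h1
    have heu : ∀ i, val i (e ^ p * u) ≤ 1 := fun i => by
      rw [map_mul, map_pow, hvu i, mul_one]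
      exact pow_le_one' (he1 i) p
    have hyball : ∀ i, val i y ≤ 1 := fun i => by
      have h1 : y = (y - e ^ p * u) + e ^ p * u := by ring
      rw [h1]
      exact (val i).map_add_le (hyclose i).le (heu i)
    have hyU : y ∈ U (p * k) := by
      have h1 : y = ((c ^ p)⁻¹ : K) • (f ^ p * u - g ^ p) := by
        rw [hy, Algebra.smul_def, map_inv₀, map_pow]
      rw [h1]
      exact (U (p * k)).smul_mem _ ((U (p * k)).sub_mem (hTU k f hfT) (hUpow g hgW p))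
    have hry : red y = red e ^ p := by
      have h1 : red (y - e ^ p * u) = 0 :=
        (hred.eq_zero_iff _ (fun i => (hyclose i).le)).mpr hyclose
      rw [hred.map_sub _ _ hyball heu, sub_eq_zero] at h1
      rw [h1, hred.map_mul _ _ (fun i => by rw [map_pow]; exact pow_le_one' (he1 i) p)
        (fun i => (hvu i).le), red_pow_of_ball hred he1, hru, mul_one]
    have hre : red e ∈ Nk := hroot _ (hS e he1) (by rw [← hry]; exact hUred y hyU hyball)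
    obtain ⟨w, hwU, hwb, hwr⟩ := hUsurj _ hre
    refine hdist hc0 w hwU ?_
    refine (hred.eq_zero_iff _ (fun i => (val i).map_sub_le (he1 i) (hwb i))).mp ?_
    rw [hred.map_sub _ _ he1 hwb, hwr, sub_self]
  -- the seed `f * Σ_{j < n} (1 - g) ^ j`
  obtain ⟨ρ, hρ1, hρ⟩ := exists_bound_lt_one (fun i => val i (1 - g)) (fun i => by
    rw [← neg_sub, Valuation.map_neg]; exact hg1 i)
  obtain ⟨n, hn⟩ := harch ρ (vK (p : K)) hρ1 hvKp0
  set gh : F := ∑ j ∈ Finset.range n, (1 - g) ^ j with hgh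
  have hgU : (1 - g) ∈ U k := (U k).sub_mem (hU1 k) hgW
  have hghU : gh ∈ U (n * k) := by
    refine Submodule.sum_mem _ fun j hj => ?_
    exact hUmono (j * k) (n * k) (Nat.mul_le_mul_right k (Finset.mem_range.mp hj).le)
      (hUpow _ hgU j)
  have hghball : ∀ i, val i gh ≤ 1 := fun i => by
    refine (val i).map_sum_le fun j _ => ?_
    rw [map_pow]
    exact pow_le_one' (le_trans (hρ i) hρ1.le) j
  have hggh : g * gh = 1 - (1 - g) ^ n := by
    have h1 := geom_sum_mul (1 - g) n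
    rw [← hgh] at h1
    have h2 : gh * (1 - g - 1) = -(g * gh) := by ring
    rw [h2] at h1
    rw [← neg_eq_iff_eq_neg.mpr h1.symm]
    ring
  refine ⟨n * k + k, gh * f, hUT _ _ _ hghU _ hfT, fun i => ?_⟩
  have h1 : gh * f - 1 = -(1 - g) ^ n + cF * e * gh := by
    rw [hfg', mul_add, mul_comm gh g, hggh]; ring
  rw [h1, hvp]
  have hA : val i (-(1 - g) ^ n) ^ (p - 1) ≤ vK (p : K) := by
    rw [Valuation.map_neg, map_pow]
    have h2 : val i (1 - g) ^ n ≤ ρ ^ n := pow_le_pow_left' (hρ i) n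
    have h3 : (val i (1 - g) ^ n) ^ (p - 1) ≤ (val i (1 - g) ^ n) ^ 1 :=
      pow_le_pow_right_of_le_one' (le_trans h2 (pow_le_one' hρ1.le n)) (by omega)
    rw [pow_one] at h3
    exact le_trans h3 (le_trans h2 hn.le)
  have hB : val i (cF * e * gh) ^ (p - 1) ≤ vK (p : K) := by
    have h2 : val i (cF * e * gh) ≤ vK c := by
      rw [map_mul]
      exact le_trans (mul_le_of_le_one_right' (hghball i)) (hvce i)
    exact le_trans (pow_le_pow_left' h2 _) hns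
  rcases le_total (val i (-(1 - g) ^ n)) (val i (cF * e * gh)) with hle | hle
  · exact le_trans (pow_le_pow_left' ((val i).map_add_le hle le_rfl) _) hB
  · exact le_trans (pow_le_pow_left' ((val i).map_add_le le_rfl hle) _) hA

end ShallowElim


/-! ### The two theorems in Riemann–Roch form -/

section Main

variable {K F : Type*} [Field K] [Field F] [Algebra K F]
variable {Γ₀ : Type*} [LinearOrderedCommGroupWithZero Γ₀] {ι : Type*}
  {kk : Type*} [Field kk] {Fk : Type*} [CommRing Fk] [Algebra kk Fk] {red : F → Fk}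

/-- **(A) No shallow obstruction, both charts.**  For a DEEP Kummer pair `u = a / b`,
`p • D0 = div u` (`|u - 1| ^ (p - 1) < |p| ^ p` for all the valuations), with a root-closed
special-fibre family `N m n` and every finite-dimensional subspace cartesian, there are twisted
sections `a₀ ∈ L(D0 + k E1)` and `b₀ ∈ L(D0 + k E2)` which are `≡ 1` modulo `π`:
`|a₀ - 1| ^ (p - 1) ≤ |p|`, `|b₀ - 1| ^ (p - 1) ≤ |p|`. -/
theorem exists_seed_mod_pi_on [Finite ι] [Nonempty ι]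
    (D0 E1 E2 : Divisor K F) (hE1 : ∀ v : Place K F, 0 ≤ E1 v) (hE2 : ∀ v : Place K F, 0 ≤ E2 v)
    (p : ℕ) (hp : p.Prime) (a b : F) (ha : a ≠ 0) (hb : b ≠ 0)
    (hord : ∀ v : Place K F, (p : ℤ) * D0 v = v.ord a - v.ord b)
    (val : ι → Valuation F Γ₀) (vK : Valuation K Γ₀)
    (harch : ∀ ε κ : Γ₀, ε < 1 → κ ≠ 0 → ∃ n : ℕ, ε ^ n < κ) (hp0 : (p : F) ≠ 0)
    (hdeep : ∀ i, val i (a * b⁻¹ - 1) ^ (p - 1) < val i (p : F) ^ p)
    (hred : RedDataW val (fun _ => (1 : Γ₀)) vK kk red red)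
    (hcartS : ∀ S : Submodule K F, Module.Finite K S →
      CartesianW val (fun _ => (1 : Γ₀)) vK S)
    (hfd : ∀ D : Divisor K F, Module.Finite K (riemannRochSpace D))
    (d γ c : ℤ) (hd : 0 < d)
    (hRiemF : ∀ m n : ℕ, c ≤ ((m : ℤ) + n) * d → ((m : ℤ) + n) * d + 1 - γ ≤
      (Module.finrank K (riemannRochSpace (D0 + m • E1 + n • E2)) : ℤ))
    (hRiemF0 : ∀ m n : ℕ, c ≤ ((m : ℤ) + n) * d → ((m : ℤ) + n) * d + 1 - γ ≤
      (Module.finrank K (riemannRochSpace ((0 : Divisor K F) + m • E1 + n • E2)) : ℤ))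
    (N : ℕ → ℕ → Submodule kk Fk) (hfin : ∀ m n : ℕ, Module.Finite kk (N m n))
    (hNred0 : ∀ m n : ℕ, ∀ x ∈ riemannRochSpace (m • E1 + n • E2),
      (∀ i, val i x ≤ 1) → red x ∈ N m n)
    (hRiemk : ∀ m n : ℕ, c ≤ ((m : ℤ) + n) * d →
      (Module.finrank kk (N m n) : ℤ) ≤ ((m : ℤ) + n) * d + 1 - γ)
    (S : Set Fk) (hS : ∀ x : F, (∀ i, val i x ≤ 1) → red x ∈ S)
    (hNroot : ∀ m n : ℕ, ∀ y ∈ S, y ^ p ∈ N (p * m) (p * n) → y ∈ N m n) :
    (∃ (k : ℕ) (a₀ : F), a₀ ∈ riemannRochSpace (D0 + k • E1) ∧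
        ∀ i, val i (a₀ - 1) ^ (p - 1) ≤ val i (p : F)) ∧
      (∃ (k : ℕ) (b₀ : F), b₀ ∈ riemannRochSpace (D0 + k • E2) ∧
        ∀ i, val i (b₀ - 1) ^ (p - 1) ≤ val i (p : F)) := by
  have hp2 := hp.two_le
  obtain ⟨i₁⟩ := ‹Nonempty ι›
  have hP1 : ∀ i, val i (p : F) ≤ 1 := fun i =>
    Fermat.Agent.S18.helper1788.val_natCast_le_one _ p
  have hu1 : ∀ i, val i (a * b⁻¹ - 1) < 1 := fun i =>
    lt_one_of_pow_lt_one (n := p - 1) (lt_of_lt_of_le (hdeep i) (pow_le_one' (hP1 i) p))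
  have hu0 : a * b⁻¹ ≠ 0 := mul_ne_zero ha (inv_ne_zero hb)
  have hordu : ∀ v : Place K F, (p : ℤ) * D0 v ≤ v.ord (a * b⁻¹) := fun v => by
    rw [v.ord_mul ha (inv_ne_zero hb), v.ord_inv, hord v]; linarith
  have hcart : ∀ m n : ℕ,
      CartesianW val (fun _ => (1 : Γ₀)) vK (riemannRochSpace (D0 + m • E1 + n • E2)) :=
    fun m n => hcartS _ (hfd _)
  have hcart0 : ∀ m n : ℕ, CartesianW val (fun _ => (1 : Γ₀)) vK
      (riemannRochSpace ((0 : Divisor K F) + m • E1 + n • E2)) :=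
    fun m n => hcartS _ (hfd _)
  -- first-order seeds
  obtain ⟨k₀, hk₀⟩ := exists_seeds_of_root_closed_on D0 E1 E2 hE1 hE2 p a b ha hb hord val vK hu1
    hred hcart d γ c hd hRiemF N hfin hNred0 hRiemk S hS hNroot
  set k : ℕ := max k₀ c.toNat with hk
  have hkc : c ≤ (k : ℤ) * d := by
    have h1 : c ≤ (c.toNat : ℤ) := Int.self_le_toNat c
    have h2 : (c.toNat : ℤ) ≤ (k : ℤ) := by exact_mod_cast le_max_right _ _
    have h3 : (0 : ℤ) ≤ (c.toNat : ℤ) := Int.natCast_nonneg _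
    nlinarith
  obtain ⟨f₁, hf₁, f₂, hf₂, hf₁1, hf₂1, -⟩ := hk₀ k (le_max_left _ _)
  -- untwisted surjectivity
  have hsurj0 : ∀ m n : ℕ, c ≤ ((m : ℤ) + n) * d → ∀ y ∈ N m n,
      ∃ x ∈ riemannRochSpace (m • E1 + n • E2), (∀ i, val i x ≤ 1) ∧ red x = y := by
    intro m n hmn y hy
    obtain ⟨x, hx, hxb, hxr⟩ := exists_mem_rr_red_eq_of_root_closed_on (0 : Divisor K F) E1 E2 p
      1 1 one_ne_zero one_ne_zero (fun v => by simp) val vK (fun i => by simp) hred hcart0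
      d γ c hRiemF0 N hfin hNred0 hRiemk S hS hNroot m n hmn y hy
    rw [zero_add] at hx
    exact ⟨x, hx, hxb, hxr⟩
  have hmul : ∀ (E : Divisor K F) (j k : ℕ), ∀ s ∈ riemannRochSpace (j • E),
      ∀ t ∈ riemannRochSpace (k • E), s * t ∈ riemannRochSpace ((j + k) • E) :=
    fun E j k s hs t ht => mul_mem_rr hs ht fun v => by rw [add_smul, Finsupp.add_apply]
  have hmono : ∀ (E : Divisor K F), (∀ v : Place K F, 0 ≤ E v) → ∀ j k : ℕ, j ≤ k →
      riemannRochSpace (j • E) ≤ riemannRochSpace (k • E) :=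
    fun E hE j k hjk => rr_le_of_le fun v => by
      rw [nsmul_apply', nsmul_apply']
      have hjk' : (j : ℤ) ≤ k := by exact_mod_cast hjk
      exact mul_le_mul_of_nonneg_right hjk' (hE v)
  refine ⟨?_, ?_⟩
  · refine exists_seed_mod_pi_aux val vK harch p hp hp0 (a * b⁻¹) hdeep hred hcartS
      (fun j => riemannRochSpace (j • E1)) (fun j => riemannRochSpace (D0 + j • E1))
      (kc_hP1 E1 hE1) (hmono E1 hE1) (hmul E1) (kc_hPM D0 E1)
      (kc_hP D0 E1 p (a * b⁻¹) hu0 hordu) k (hfd _) (N k 0) (N (p * k) 0)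
      (fun x hx hxb => hNred0 (p * k) 0 x (by rw [zero_smul, add_zero]; exact hx) hxb)
      (fun y hy => by
        obtain ⟨x, hx, hxb, hxr⟩ := hsurj0 k 0 (by simpa using hkc) y hy
        rw [zero_smul, add_zero] at hx
        exact ⟨x, hx, hxb, hxr⟩)
      S hS (fun y hyS hy => hNroot k 0 y hyS (by rw [mul_zero]; exact hy)) f₁ hf₁ hf₁1
  · refine exists_seed_mod_pi_aux val vK harch p hp hp0 (a * b⁻¹) hdeep hred hcartS
      (fun j => riemannRochSpace (j • E2)) (fun j => riemannRochSpace (D0 + j • E2))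
      (kc_hP1 E2 hE2) (hmono E2 hE2) (hmul E2) (kc_hPM D0 E2)
      (kc_hP D0 E2 p (a * b⁻¹) hu0 hordu) k (hfd _) (N 0 k) (N 0 (p * k))
      (fun x hx hxb => hNred0 0 (p * k) x (by rw [zero_smul, zero_add]; exact hx) hxb)
      (fun y hy => by
        obtain ⟨x, hx, hxb, hxr⟩ := hsurj0 0 k (by simpa using hkc) y hy
        rw [zero_smul, zero_add] at hx
        exact ⟨x, hx, hxb, hxr⟩)
      S hS (fun y hyS hy => hNroot 0 k y hyS (by rw [mul_zero]; exact hy)) f₂ hf₂ hf₂1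

/-- **(C′) A deep seed on one chart ⟹ principal.**  For a DEEP Kummer pair `u = a / b`,
`p • D0 = div u`, in residue characteristic `p` (`|p| < 1`, `π ^ (p - 1) = -p`), with a
special-fibre family `N m n` which is root-closed and Artin–Schreier-closed
(`y ∈ N m₀ n₀`, `y ^ p - y ∈ N (p m) (p n)` ⟹ `y ∈ N m n`): if ONE twisted section
`a₁ ∈ L(D0 + k₁ E1)` is `≡ 1` strictly beyond `π` (`|a₁ - 1| ^ (p - 1) < |p|`), then `D0` is
principal. -/
theorem isPrincipal_of_deep_seed_on [HasPrincipalDivisors K F] [Finite ι] [Nonempty ι]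
    (hdeg : ∀ v : Place K F, 0 < v.deg)
    (D0 E1 E2 : Divisor K F) (hE1 : ∀ v : Place K F, 0 ≤ E1 v) (hE2 : ∀ v : Place K F, 0 ≤ E2 v)
    (hdisj : ∀ v : Place K F, E1 v = 0 ∨ E2 v = 0) (hD0 : Divisor.degree D0 = 0)
    (p : ℕ) (hp : p.Prime) (a b : F) (ha : a ≠ 0) (hb : b ≠ 0)
    (hord : ∀ v : Place K F, (p : ℤ) * D0 v = v.ord a - v.ord b)
    (val : ι → Valuation F Γ₀) (vK : Valuation K Γ₀)
    (harch : ∀ ε κ : Γ₀, ε < 1 → κ ≠ 0 → ∃ n : ℕ, ε ^ n < κ) (hp0 : (p : F) ≠ 0)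
    (hplt : vK (p : K) < 1) (π : K) (hπ : π ^ (p - 1) = -(p : K))
    (hdeep : ∀ i, val i (a * b⁻¹ - 1) ^ (p - 1) < val i (p : F) ^ p)
    (hred : RedDataW val (fun _ => (1 : Γ₀)) vK kk red red)
    (hVG : ∀ (i : ι) (f : F), f ≠ 0 → ∃ c : K, vK c = val i f)
    (hcartS : ∀ S : Submodule K F, Module.Finite K S →
      CartesianW val (fun _ => (1 : Γ₀)) vK S)
    (hfd : ∀ D : Divisor K F, Module.Finite K (riemannRochSpace D))
    (d γ c : ℤ) (hd : 0 < d)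
    (hRiemF : ∀ m n : ℕ, c ≤ ((m : ℤ) + n) * d → ((m : ℤ) + n) * d + 1 - γ ≤
      (Module.finrank K (riemannRochSpace (D0 + m • E1 + n • E2)) : ℤ))
    (hRiemF0 : ∀ m n : ℕ, c ≤ ((m : ℤ) + n) * d → ((m : ℤ) + n) * d + 1 - γ ≤
      (Module.finrank K (riemannRochSpace ((0 : Divisor K F) + m • E1 + n • E2)) : ℤ))
    (N : ℕ → ℕ → Submodule kk Fk) (hfin : ∀ m n : ℕ, Module.Finite kk (N m n))
    (hNmono : ∀ m m' n n' : ℕ, m ≤ m' → n ≤ n' → N m n ≤ N m' n')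
    (hNinf : ∀ m m' n n' : ℕ, m ≤ m' → n' ≤ n → N m n ⊓ N m' n' ≤ N m n')
    (hNred0 : ∀ m n : ℕ, ∀ x ∈ riemannRochSpace (m • E1 + n • E2),
      (∀ i, val i x ≤ 1) → red x ∈ N m n)
    (hRiemk : ∀ m n : ℕ, c ≤ ((m : ℤ) + n) * d →
      (Module.finrank kk (N m n) : ℤ) ≤ ((m : ℤ) + n) * d + 1 - γ)
    (S : Set Fk) (hS : ∀ x : F, (∀ i, val i x ≤ 1) → red x ∈ S)
    (hNroot : ∀ m n : ℕ, ∀ y ∈ S, y ^ p ∈ N (p * m) (p * n) → y ∈ N m n)
    (hNAS : ∀ m₀ n₀ m n : ℕ, ∀ y ∈ N m₀ n₀, y ^ p - y ∈ N (p * m) (p * n) → y ∈ N m n)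
    (k₁ : ℕ) (a₁ : F) (ha₁ : a₁ ∈ riemannRochSpace (D0 + k₁ • E1))
    (hva₁ : ∀ i, val i (a₁ - 1) ^ (p - 1) < val i (p : F)) :
    Divisor.IsPrincipal D0 := by
  have hp2 := hp.two_le
  have hp1 : p - 1 ≠ 0 := by omega
  set u : F := a * b⁻¹ with hu
  have hvp : ∀ i, val i (p : F) = vK (p : K) := fun i => by
    rw [← map_natCast (algebraMap K F) p, hred.val_algebraMap]
  have hu1 : ∀ i, val i (u - 1) < 1 := fun i => by
    refine lt_one_of_pow_lt_one (n := p - 1) (lt_of_lt_of_le (hdeep i) ?_)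
    rw [hvp]
    exact pow_le_one' hplt.le p
  have hu0 : u ≠ 0 := mul_ne_zero ha (inv_ne_zero hb)
  have hordu : ∀ v : Place K F, (p : ℤ) * D0 v ≤ v.ord u := fun v => by
    rw [hu, v.ord_mul ha (inv_ne_zero hb), v.ord_inv, hord v]; linarith
  obtain ⟨hvu, hru⟩ := red_eq_one_of_val_sub_one_lt hred hu1
  have hcart : ∀ m n : ℕ,
      CartesianW val (fun _ => (1 : Γ₀)) vK (riemannRochSpace (D0 + m • E1 + n • E2)) :=
    fun m n => hcartS _ (hfd _)
  -- the uniformiser `π`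
  have hvπ : vK π ^ (p - 1) = vK (p : K) := by
    rw [← map_pow, hπ, Valuation.map_neg]
  have hπ1 : vK π < 1 := lt_one_of_pow_lt_one (n := p - 1) (by rw [hvπ]; exact hplt)
  have hπ0 : π ≠ 0 := by
    rintro rfl
    rw [map_zero, zero_pow hp1] at hvπ
    have h2 : vK (p : K) ≠ 0 := by
      obtain ⟨i₁⟩ := ‹Nonempty ι›
      rw [← hvp i₁]
      exact (Valuation.ne_zero_iff _).mpr hp0
    exact h2 hvπ.symm
  have hvπpos : 0 < vK π := zero_lt_iff.mpr ((Valuation.ne_zero_iff vK).mpr hπ0)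
  set πF : F := algebraMap K F π with hπF
  have hπF0 : πF ≠ 0 := (map_ne_zero (algebraMap K F)).mpr hπ0
  have hvπF : ∀ i, val i πF = vK π := fun i => hred.val_algebraMap i π
  have hπFp : πF ^ (p - 1) = -(p : F) := by
    rw [hπF, ← map_pow, hπ, map_neg, map_natCast]
  have hsmul : ∀ z : F, πF⁻¹ * z = (π⁻¹ : K) • z := fun z => by
    rw [Algebra.smul_def, map_inv₀]
  -- chart-2 seed modulo `π`
  obtain ⟨-, k₂, b₂, hb₂, hvb₂⟩ := exists_seed_mod_pi_on D0 E1 E2 hE1 hE2 p hp a b ha hb hord val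
    vK harch hp0 hdeep hred hcartS hfd d γ c hd hRiemF hRiemF0 N hfin hNred0 hRiemk S hS hNroot
  -- a common level in the Riemann range
  set k : ℕ := max (max k₁ k₂) c.toNat with hk
  have hk₁ : k₁ ≤ k := le_trans (le_max_left _ _) (le_max_left _ _)
  have hk₂ : k₂ ≤ k := le_trans (le_max_right _ _) (le_max_left _ _)
  have hkc : c ≤ (k : ℤ) * d := by
    have h1 : c ≤ (c.toNat : ℤ) := Int.self_le_toNat c
    have h2 : (c.toNat : ℤ) ≤ (k : ℤ) := by exact_mod_cast le_max_right _ _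
    have h3 : (0 : ℤ) ≤ (c.toNat : ℤ) := Int.natCast_nonneg _
    nlinarith
  have hmonoT : ∀ (E : Divisor K F), (∀ v : Place K F, 0 ≤ E v) → ∀ j k : ℕ, j ≤ k →
      riemannRochSpace (D0 + j • E) ≤ riemannRochSpace (D0 + k • E) :=
    fun E hE j k hjk => rr_le_of_le fun v => by
      rw [add_nsmul_apply, add_nsmul_apply]
      have hjk' : (j : ℤ) ≤ k := by exact_mod_cast hjk
      have := mul_le_mul_of_nonneg_right hjk' (hE v)
      linarith
  have ha₁k : a₁ ∈ riemannRochSpace (D0 + k • E1) := hmonoT E1 hE1 k₁ k hk₁ ha₁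
  have hb₂k : b₂ ∈ riemannRochSpace (D0 + k • E2) := hmonoT E2 hE2 k₂ k hk₂ hb₂
  -- the coordinates `α`, `β`
  have hva₁' : ∀ i, val i (a₁ - 1) < vK π := fun i =>
    lt_of_pow_lt_pow' (n := p - 1) (by rw [hvπ, ← hvp i]; exact hva₁ i)
  have hvb₂' : ∀ i, val i (b₂ - 1) ≤ vK π := fun i =>
    le_of_pow_le_pow' hp1 (by rw [hvπ, ← hvp i]; exact hvb₂ i)
  set α : F := πF⁻¹ * (a₁ - 1) with hα
  set β : F := πF⁻¹ * (b₂ - 1) with hβ
  have hvα : ∀ i, val i α < 1 := fun i => by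
    rw [hα, map_mul, map_inv₀, hvπF, inv_mul_lt_iff₀ hvπpos, mul_one]
    exact hva₁' i
  have hvβ : ∀ i, val i β ≤ 1 := fun i => by
    rw [hβ, map_mul, map_inv₀, hvπF, inv_mul_le_iff₀ hvπpos, mul_one]
    exact hvb₂' i
  have hb₂β : 1 + πF * β = b₂ := by
    rw [hβ, mul_inv_cancel_left₀ hπF0]; ring
  have hrα : red α = 0 := (hred.eq_zero_iff α (fun i => (hvα i).le)).mpr hvα
  -- `red β ∈ N k k`
  have hβN : red β ∈ N k k := by
    have hx : β - α ∈ riemannRochSpace (D0 + k • E1 + k • E2) := by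
      have h1 : β - α = (π⁻¹ : K) • (b₂ - a₁) := by
        rw [← hsmul, hα, hβ]; ring
      rw [h1]
      exact Submodule.smul_mem _ _ (Submodule.sub_mem _ (kc_hM2 D0 E1 E2 hE1 k hb₂k)
        (kc_hM1 D0 E1 E2 hE2 k ha₁k))
    have hxb : ∀ i, val i (β - α) ≤ 1 := fun i => (val i).map_sub_le (hvβ i) (hvα i).le
    have h2 := red_mem_of_root_closed_on D0 E1 E2 p a b ha hb hord val vK hu1 hred N hNred0 S hS
      hNroot k k (β - α) hx hxb
    rwa [hred.map_sub β α hvβ (fun i => (hvα i).le), hrα, sub_zero] at h2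
  -- the Artin–Schreier relation
  have hAS : red β ^ p - red β ∈ N (p * 0) (p * k) := by
    set Y : F := (πF ^ p)⁻¹ * (b₂ ^ p * u - 1) with hY
    have hYclose : ∀ i, val i (Y - (β ^ p - β)) < 1 := fun i => by
      have h1 := val_artinSchreier (val i) hp (π := πF) (β := β) (u := u) hπFp hπF0
        (by rw [hvπF]; exact hπ1) (hvβ i)
        (by
          refine lt_of_pow_lt_pow' (n := p - 1) (lt_of_lt_of_eq (hdeep i) ?_)
          rw [hvp, hvπF, ← hvπ, ← pow_mul, ← pow_mul, mul_comm])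
      rwa [hb₂β] at h1
    have hβp : ∀ i, val i (β ^ p - β) ≤ 1 := fun i =>
      (val i).map_sub_le (by rw [map_pow]; exact pow_le_one' (hvβ i) p) (hvβ i)
    have hYball : ∀ i, val i Y ≤ 1 := fun i => by
      have h1 : Y = (Y - (β ^ p - β)) + (β ^ p - β) := by ring
      rw [h1]
      exact (val i).map_add_le (hYclose i).le (hβp i)
    have hYmem : Y ∈ riemannRochSpace ((0 : ℕ) • E1 + (p * k) • E2) := by
      have h1 : Y = ((π ^ p)⁻¹ : K) • (b₂ ^ p * u - 1) := by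
        rw [hY, Algebra.smul_def, map_inv₀, map_pow]
      rw [h1, zero_smul, zero_add]
      exact Submodule.smul_mem _ _ (Submodule.sub_mem _
        (kc_hP D0 E2 p u hu0 hordu k b₂ hb₂k) (kc_hP1 E2 hE2 _))
    have hrY : red Y = red β ^ p - red β := by
      have h1 : red (Y - (β ^ p - β)) = 0 :=
        (hred.eq_zero_iff _ (fun i => (hYclose i).le)).mpr hYclose
      rw [hred.map_sub _ _ hYball hβp, sub_eq_zero] at h1
      rw [h1, hred.map_sub _ _ (fun i => by rw [map_pow]; exact pow_le_one' (hvβ i) p) hvβ,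
        red_pow_of_ball hred hvβ]
    rw [← hrY, mul_zero]
    exact hNred0 0 (p * k) Y hYmem hYball
  have hβN0 : red β ∈ N 0 k := hNAS k k 0 k (red β) hβN hAS
  -- correct the chart-2 seed
  obtain ⟨x', hx', hx'b, hx'r⟩ := exists_mem_rr_red_eq_of_root_closed_on D0 E1 E2 p a b ha hb hord
    val vK hu1 hred hcart d γ c hRiemF N hfin hNred0 hRiemk S hS hNroot 0 k (by simpa using hkc)
    (red β) hβN0
  rw [zero_smul, add_zero] at hx'
  set b' : F := b₂ - πF * x' with hb'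
  have hb'mem : b' ∈ riemannRochSpace (D0 + k • E2) := by
    have h1 : πF * x' = π • x' := by rw [Algebra.smul_def]
    rw [hb', h1]
    exact Submodule.sub_mem _ hb₂k (Submodule.smul_mem _ _ hx')
  have hb'1 : ∀ i, val i (b' - 1) < vK π := fun i => by
    have h1 : b' - 1 = πF * (β - x') := by rw [hb', ← hb₂β]; ring
    have h2 : ∀ i, val i (β - x') < 1 := by
      refine (hred.eq_zero_iff _ (fun i => (val i).map_sub_le (hvβ i) (hx'b i))).mp ?_
      rw [hred.map_sub _ _ hvβ hx'b, hx'r, sub_self]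
    rw [h1, map_mul, hvπF]
    calc vK π * val i (β - x') < vK π * 1 := mul_lt_mul_of_pos_left (h2 i) hvπpos
      _ = vK π := mul_one _
  have hb'1' : ∀ i, val i (b' - 1) ^ (p - 1) < val i (p : F) := fun i => by
    rw [hvp, ← hvπ]
    exact pow_lt_pow_left₀ (hb'1 i) zero_le hp1
  -- the wild core
  have ha₁1 : ∀ i, val i (a₁ - 1) < 1 := fun i => lt_trans (hva₁' i) hπ1
  refine isPrincipal_of_deep_seeds_on hdeg D0 E1 E2 hE1 hE2 hdisj hD0 p hp a b ha hb hord val vK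
    harch hp0 hu1 hred hVG hcart d γ c hd hRiemF N hfin hNmono hNinf hNred0 hRiemk S hS hNroot k
    a₁ b'
    ha₁k hb'mem (red_eq_one_of_val_sub_one_lt hred ha₁1).1 (fun i => ?_) (fun i => ?_)
    (fun i => ?_)
  · have h1 : a₁ - b' = (a₁ - 1) - (b' - 1) := by ring
    rw [h1]
    rcases le_total (val i (a₁ - 1)) (val i (b' - 1)) with hle | hle
    · exact lt_of_le_of_lt (pow_le_pow_left' ((val i).map_sub_le hle le_rfl) _) (hb'1' i)
    · exact lt_of_le_of_lt (pow_le_pow_left' ((val i).map_sub_le le_rfl hle) _) (hva₁ i)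
  · have h1 := val_deep_pow (val i) hp (z := a₁ - 1) (u := u) (hva₁ i) (hdeep i)
    rwa [add_sub_cancel] at h1
  · have h1 := val_deep_pow (val i) hp (z := b' - 1) (u := u) (hb'1' i) (hdeep i)
    rwa [add_sub_cancel] at h1

/-! ### The forms with root closure in the whole carrier (`S = Set.univ`) -/

/-- `isPrincipal_of_deep_seeds_on` with root closure in the whole carrier `Fk`. -/
theorem isPrincipal_of_deep_seeds [HasPrincipalDivisors K F] [Finite ι] [Nonempty ι]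
    (hdeg : ∀ v : Place K F, 0 < v.deg)
    (D0 E1 E2 : Divisor K F) (hE1 : ∀ v : Place K F, 0 ≤ E1 v) (hE2 : ∀ v : Place K F, 0 ≤ E2 v)
    (hdisj : ∀ v : Place K F, E1 v = 0 ∨ E2 v = 0) (hD0 : Divisor.degree D0 = 0)
    (p : ℕ) (hp : p.Prime) (a b : F) (ha : a ≠ 0) (hb : b ≠ 0)
    (hord : ∀ v : Place K F, (p : ℤ) * D0 v = v.ord a - v.ord b)
    (val : ι → Valuation F Γ₀) (vK : Valuation K Γ₀)
    (harch : ∀ ε κ : Γ₀, ε < 1 → κ ≠ 0 → ∃ n : ℕ, ε ^ n < κ) (hp0 : (p : F) ≠ 0)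
    (hu1 : ∀ i, val i (a * b⁻¹ - 1) < 1)
    (hred : RedDataW val (fun _ => (1 : Γ₀)) vK kk red red)
    (hVG : ∀ (i : ι) (f : F), f ≠ 0 → ∃ c : K, vK c = val i f)
    (hcart : ∀ m n : ℕ,
      CartesianW val (fun _ => (1 : Γ₀)) vK (riemannRochSpace (D0 + m • E1 + n • E2)))
    (d γ c : ℤ) (hd : 0 < d)
    (hRiemF : ∀ m n : ℕ, c ≤ ((m : ℤ) + n) * d → ((m : ℤ) + n) * d + 1 - γ ≤
      (Module.finrank K (riemannRochSpace (D0 + m • E1 + n • E2)) : ℤ))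
    (N : ℕ → ℕ → Submodule kk Fk) (hfin : ∀ m n : ℕ, Module.Finite kk (N m n))
    (hNmono : ∀ m m' n n' : ℕ, m ≤ m' → n ≤ n' → N m n ≤ N m' n')
    (hNinf : ∀ m m' n n' : ℕ, m ≤ m' → n' ≤ n → N m n ⊓ N m' n' ≤ N m n')
    (hNred0 : ∀ m n : ℕ, ∀ x ∈ riemannRochSpace (m • E1 + n • E2),
      (∀ i, val i x ≤ 1) → red x ∈ N m n)
    (hRiemk : ∀ m n : ℕ, c ≤ ((m : ℤ) + n) * d →
      (Module.finrank kk (N m n) : ℤ) ≤ ((m : ℤ) + n) * d + 1 - γ)
    (hNroot : ∀ m n : ℕ, ∀ y : Fk, y ^ p ∈ N (p * m) (p * n) → y ∈ N m n)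
    (k₁ : ℕ) (a₀ b₀ : F) (ha₀ : a₀ ∈ riemannRochSpace (D0 + k₁ • E1))
    (hb₀ : b₀ ∈ riemannRochSpace (D0 + k₁ • E2)) (hva₀ : ∀ i, val i a₀ = 1)
    (hab₀ : ∀ i, val i (a₀ - b₀) ^ (p - 1) < val i (p : F))
    (hsa₀ : ∀ i, val i (a₀ ^ p * (a * b⁻¹) - 1) ^ (p - 1) < val i (p : F) ^ p)
    (hsb₀ : ∀ i, val i (b₀ ^ p * (a * b⁻¹) - 1) ^ (p - 1) < val i (p : F) ^ p) :
    Divisor.IsPrincipal D0 :=
  isPrincipal_of_deep_seeds_on hdeg D0 E1 E2 hE1 hE2 hdisj hD0 p hp a b ha hb hord val vK harch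
    hp0 hu1 hred hVG hcart d γ c hd hRiemF N hfin hNmono hNinf hNred0 hRiemk Set.univ
    (fun _ _ => Set.mem_univ _) (fun m n y _ hy => hNroot m n y hy) k₁ a₀ b₀ ha₀ hb₀ hva₀ hab₀
    hsa₀ hsb₀

/-- `exists_seed_mod_pi_on` with root closure in the whole carrier `Fk`. -/
theorem exists_seed_mod_pi [Finite ι] [Nonempty ι]
    (D0 E1 E2 : Divisor K F) (hE1 : ∀ v : Place K F, 0 ≤ E1 v) (hE2 : ∀ v : Place K F, 0 ≤ E2 v)
    (p : ℕ) (hp : p.Prime) (a b : F) (ha : a ≠ 0) (hb : b ≠ 0)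
    (hord : ∀ v : Place K F, (p : ℤ) * D0 v = v.ord a - v.ord b)
    (val : ι → Valuation F Γ₀) (vK : Valuation K Γ₀)
    (harch : ∀ ε κ : Γ₀, ε < 1 → κ ≠ 0 → ∃ n : ℕ, ε ^ n < κ) (hp0 : (p : F) ≠ 0)
    (hdeep : ∀ i, val i (a * b⁻¹ - 1) ^ (p - 1) < val i (p : F) ^ p)
    (hred : RedDataW val (fun _ => (1 : Γ₀)) vK kk red red)
    (hcartS : ∀ S : Submodule K F, Module.Finite K S →
      CartesianW val (fun _ => (1 : Γ₀)) vK S)
    (hfd : ∀ D : Divisor K F, Module.Finite K (riemannRochSpace D))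
    (d γ c : ℤ) (hd : 0 < d)
    (hRiemF : ∀ m n : ℕ, c ≤ ((m : ℤ) + n) * d → ((m : ℤ) + n) * d + 1 - γ ≤
      (Module.finrank K (riemannRochSpace (D0 + m • E1 + n • E2)) : ℤ))
    (hRiemF0 : ∀ m n : ℕ, c ≤ ((m : ℤ) + n) * d → ((m : ℤ) + n) * d + 1 - γ ≤
      (Module.finrank K (riemannRochSpace ((0 : Divisor K F) + m • E1 + n • E2)) : ℤ))
    (N : ℕ → ℕ → Submodule kk Fk) (hfin : ∀ m n : ℕ, Module.Finite kk (N m n))
    (hNred0 : ∀ m n : ℕ, ∀ x ∈ riemannRochSpace (m • E1 + n • E2),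
      (∀ i, val i x ≤ 1) → red x ∈ N m n)
    (hRiemk : ∀ m n : ℕ, c ≤ ((m : ℤ) + n) * d →
      (Module.finrank kk (N m n) : ℤ) ≤ ((m : ℤ) + n) * d + 1 - γ)
    (hNroot : ∀ m n : ℕ, ∀ y : Fk, y ^ p ∈ N (p * m) (p * n) → y ∈ N m n) :
    (∃ (k : ℕ) (a₀ : F), a₀ ∈ riemannRochSpace (D0 + k • E1) ∧
        ∀ i, val i (a₀ - 1) ^ (p - 1) ≤ val i (p : F)) ∧
      (∃ (k : ℕ) (b₀ : F), b₀ ∈ riemannRochSpace (D0 + k • E2) ∧
        ∀ i, val i (b₀ - 1) ^ (p - 1) ≤ val i (p : F)) :=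
  exists_seed_mod_pi_on D0 E1 E2 hE1 hE2 p hp a b ha hb hord val vK harch hp0 hdeep hred hcartS
    hfd d γ c hd hRiemF hRiemF0 N hfin hNred0 hRiemk Set.univ (fun _ _ => Set.mem_univ _)
    (fun m n y _ hy => hNroot m n y hy)

/-- `isPrincipal_of_deep_seed_on` with root closure in the whole carrier `Fk`. -/
theorem isPrincipal_of_deep_seed [HasPrincipalDivisors K F] [Finite ι] [Nonempty ι]
    (hdeg : ∀ v : Place K F, 0 < v.deg)
    (D0 E1 E2 : Divisor K F) (hE1 : ∀ v : Place K F, 0 ≤ E1 v) (hE2 : ∀ v : Place K F, 0 ≤ E2 v)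
    (hdisj : ∀ v : Place K F, E1 v = 0 ∨ E2 v = 0) (hD0 : Divisor.degree D0 = 0)
    (p : ℕ) (hp : p.Prime) (a b : F) (ha : a ≠ 0) (hb : b ≠ 0)
    (hord : ∀ v : Place K F, (p : ℤ) * D0 v = v.ord a - v.ord b)
    (val : ι → Valuation F Γ₀) (vK : Valuation K Γ₀)
    (harch : ∀ ε κ : Γ₀, ε < 1 → κ ≠ 0 → ∃ n : ℕ, ε ^ n < κ) (hp0 : (p : F) ≠ 0)
    (hplt : vK (p : K) < 1) (π : K) (hπ : π ^ (p - 1) = -(p : K))
    (hdeep : ∀ i, val i (a * b⁻¹ - 1) ^ (p - 1) < val i (p : F) ^ p)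
    (hred : RedDataW val (fun _ => (1 : Γ₀)) vK kk red red)
    (hVG : ∀ (i : ι) (f : F), f ≠ 0 → ∃ c : K, vK c = val i f)
    (hcartS : ∀ S : Submodule K F, Module.Finite K S →
      CartesianW val (fun _ => (1 : Γ₀)) vK S)
    (hfd : ∀ D : Divisor K F, Module.Finite K (riemannRochSpace D))
    (d γ c : ℤ) (hd : 0 < d)
    (hRiemF : ∀ m n : ℕ, c ≤ ((m : ℤ) + n) * d → ((m : ℤ) + n) * d + 1 - γ ≤
      (Module.finrank K (riemannRochSpace (D0 + m • E1 + n • E2)) : ℤ))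
    (hRiemF0 : ∀ m n : ℕ, c ≤ ((m : ℤ) + n) * d → ((m : ℤ) + n) * d + 1 - γ ≤
      (Module.finrank K (riemannRochSpace ((0 : Divisor K F) + m • E1 + n • E2)) : ℤ))
    (N : ℕ → ℕ → Submodule kk Fk) (hfin : ∀ m n : ℕ, Module.Finite kk (N m n))
    (hNmono : ∀ m m' n n' : ℕ, m ≤ m' → n ≤ n' → N m n ≤ N m' n')
    (hNinf : ∀ m m' n n' : ℕ, m ≤ m' → n' ≤ n → N m n ⊓ N m' n' ≤ N m n')
    (hNred0 : ∀ m n : ℕ, ∀ x ∈ riemannRochSpace (m • E1 + n • E2),
      (∀ i, val i x ≤ 1) → red x ∈ N m n)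
    (hRiemk : ∀ m n : ℕ, c ≤ ((m : ℤ) + n) * d →
      (Module.finrank kk (N m n) : ℤ) ≤ ((m : ℤ) + n) * d + 1 - γ)
    (hNroot : ∀ m n : ℕ, ∀ y : Fk, y ^ p ∈ N (p * m) (p * n) → y ∈ N m n)
    (hNAS : ∀ m₀ n₀ m n : ℕ, ∀ y ∈ N m₀ n₀, y ^ p - y ∈ N (p * m) (p * n) → y ∈ N m n)
    (k₁ : ℕ) (a₁ : F) (ha₁ : a₁ ∈ riemannRochSpace (D0 + k₁ • E1))
    (hva₁ : ∀ i, val i (a₁ - 1) ^ (p - 1) < val i (p : F)) :
    Divisor.IsPrincipal D0 :=
  isPrincipal_of_deep_seed_on hdeg D0 E1 E2 hE1 hE2 hdisj hD0 p hp a b ha hb hord val vK harch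
    hp0 hplt π hπ hdeep hred hVG hcartS hfd d γ c hd hRiemF hRiemF0 N hfin hNmono hNinf hNred0
    hRiemk Set.univ (fun _ _ => Set.mem_univ _) (fun m n y _ hy => hNroot m n y hy) hNAS k₁ a₁
    ha₁ hva₁

end Main

end Fermat.Agent.Lib.helper3195
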