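/-
Wild Kummer theory, the `χ`-action (helper3195): step (2) (TOR) of the S44 blueprint in the
function-field vocabulary of `helper3195_WildKummer` and the landed Kummer-class API
(`S29.helper8217`: `IsKummer`, `kummerDivisor`, `kummerClass`, `SemilinearAut`).

* `val_zeta_sub_one_pow` : `|ζ - 1| ^ (p - 1) = |p|` for a primitive `p`-th root of unity.
* `val_twist_sub_one_lt` : if `a ≡ 1` modulo `ζ - 1`, `τ ζ = ζ ^ n`, `τ` is trivial on the residue
  field and `p ∣ n + m`, then `τ a * a ^ m ≡ 1` STRICTLY beyond `ζ - 1`.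
* `smul_kummerClass_of_deep` : **inertia acts on the deep Kummer classes through the cyclotomic
  character.**  For a semilinear automorphism `g` of `F / K` preserving the valuations `val i`,
  trivial on the reductions, fixing the chart divisor `E1`, with `g ζ = ζ ^ n`, and a DEEP
  `p`-Kummer element `h` (`|h - 1| ^ (p - 1) < |p| ^ p` for all `i`):
  `g • kummerClass K p h = n • kummerClass K p h`.
  Proof: the shallow seed `a₀` of `h` (`exists_seed_mod_pi_on`, step (A)) gives the twisted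
  section `a' = g a₀ * a₀ ^ ((p - 1) n)` of `h' = g h * h ^ ((p - 1) n)`, which is `≡ 1` strictly
  beyond `π`; the one-seed criterion `isPrincipal_of_deep_seed_on` (step (C′)) kills the class
  of `h'`.  No jump vector, no completion.
-/
import Mathlib
import Fermat.Agent.Lib.helper3195_WildKummer
import Fermat.Agent.S29.helper8217_KummerClass

set_option autoImplicit false

open AlgebraicCurve Polynomial

namespace Fermat.Agent.Lib.helper3195

open Fermat.Agent.S35.helper2459 Fermat.Agent.S35.helper1788 Fermat.Agent.S18.helper4226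
open Fermat.Agent.S29.helper8217

/-! ### One valuation -/

section OneVal

variable {F : Type*} [Field F] {Γ₀ : Type*} [LinearOrderedCommGroupWithZero Γ₀]
  (v : Valuation F Γ₀)

/-- A root of unity has valuation `1`. -/
theorem val_eq_one_of_pow_eq_one {ζ : F} {n : ℕ} (hn : n ≠ 0) (h : ζ ^ n = 1) : v ζ = 1 := by
  have h1 : v ζ ^ n = 1 := by rw [← map_pow, h, map_one]
  rcases lt_trichotomy (v ζ) 1 with hlt | heq | hgt
  · exact absurd h1 (ne_of_lt (pow_lt_one' hlt hn))
  · exact heq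
  · exact absurd h1 (ne_of_gt (one_lt_pow' hgt hn))

/-- `|1 - ζ ^ j| ≤ |1 - ζ|` for `|ζ| ≤ 1`. -/
theorem val_one_sub_pow_le {ζ : F} (hζ : v ζ ≤ 1) (j : ℕ) : v (1 - ζ ^ j) ≤ v (1 - ζ) := by
  rw [← mul_neg_geom_sum ζ j, map_mul]
  refine mul_le_of_le_one_right' (v.map_sum_le fun i _ => ?_)
  rw [map_pow]
  exact pow_le_one' hζ i

/-- `|ζ - 1| ^ (p - 1) = |p|` for a primitive `p`-th root of unity `ζ`, `p` prime. -/
theorem val_zeta_sub_one_pow {p : ℕ} (hp : p.Prime) {ζ : F} (hζ : IsPrimitiveRoot ζ p) :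
    v (ζ - 1) ^ (p - 1) = v (p : F) := by
  obtain ⟨n, rfl⟩ : ∃ n, p = n + 1 := ⟨p - 1, by have := hp.pos; omega⟩
  have hζ1 : v ζ = 1 := val_eq_one_of_pow_eq_one v hp.ne_zero hζ.pow_eq_one
  have hprod := hζ.prod_one_sub_pow_eq_order
  have hcast : ((n : F) + 1) = ((n + 1 : ℕ) : F) := by push_cast; ring
  rw [← hcast, ← hprod, map_prod, Nat.add_sub_cancel, Valuation.map_sub_swap]
  rw [Finset.prod_congr rfl (g := fun _ => v (1 - ζ)), Finset.prod_const, Finset.card_range]
  intro k hk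
  have hk' : k + 1 < n + 1 := by have := Finset.mem_range.mp hk; omega
  refine le_antisymm (val_one_sub_pow_le v hζ1.le (k + 1)) ?_
  have hcop : Nat.Coprime (k + 1) (n + 1) :=
    (Nat.coprime_of_lt_prime (Nat.succ_ne_zero k) hk' hp).symm
  obtain ⟨m, -, hm⟩ := Nat.exists_mul_mod_eq_one_of_coprime hcop hp.one_lt
  have h1 : (ζ ^ (k + 1)) ^ m = ζ := by
    rw [← pow_mul, pow_eq_pow_mod _ hζ.pow_eq_one, hm, pow_one]
  have h2 := val_one_sub_pow_le v (ζ := ζ ^ (k + 1))
    (by rw [map_pow, hζ1, one_pow]) m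
  rwa [h1] at h2

/-- `|(1 + y) ^ m - 1 - m y| ≤ |y| ^ 2` for `|y| ≤ 1`. -/
theorem val_one_add_pow_sub_le {y : F} (hy : v y ≤ 1) (m : ℕ) :
    v ((1 + y) ^ m - 1 - (m : F) * y) ≤ v y ^ 2 := by
  obtain ⟨g, hg, hg1⟩ := Fermat.Agent.S18.helper1788.exists_one_sub_pow v (σ := -y)
    (by rw [Valuation.map_neg]; exact hy) m
  have h1 : (1 + y) ^ m - 1 - (m : F) * y = y ^ 2 * g := by
    have : (1 + y) ^ m = (1 - -y) ^ m := by ring
    rw [this, hg]; ring
  rw [h1, map_mul, map_pow]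
  exact mul_le_of_le_one_right' hg1

/-- Products of elements `≡ 1` to a given depth. -/
theorem val_mul_sub_one_pow_lt {x y : F} {k : ℕ} {c : Γ₀} (hy : v y ≤ 1)
    (hx : v (x - 1) ^ k < c) (hy' : v (y - 1) ^ k < c) : v (x * y - 1) ^ k < c := by
  have e : x * y - 1 = (x - 1) * y + (y - 1) := by ring
  have h1 : v ((x - 1) * y) ≤ v (x - 1) := by
    rw [map_mul]; exact mul_le_of_le_one_right' hy
  rw [e]
  rcases le_total (v ((x - 1) * y)) (v (y - 1)) with hle | hle
  · exact lt_of_le_of_lt (pow_le_pow_left' (v.map_add_le hle le_rfl) k) hy'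
  · exact lt_of_le_of_lt (pow_le_pow_left' ((v.map_add_le le_rfl hle).trans h1) k) hx

/-- Powers of an element `≡ 1` to a given depth. -/
theorem val_pow_sub_one_pow_lt {x : F} {k : ℕ} (hk : k ≠ 0) {c : Γ₀} (hx1 : v x ≤ 1)
    (hx : v (x - 1) ^ k < c) (m : ℕ) : v (x ^ m - 1) ^ k < c := by
  induction m with
  | zero =>
    rw [pow_zero, sub_self, map_zero, zero_pow hk]
    exact lt_of_le_of_lt zero_le hx
  | succ m ih =>
    rw [pow_succ]
    exact val_mul_sub_one_pow_lt v hx1 ih hx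

/-- **The twist.**  Let `ζ` be a primitive `p`-th root of unity, `|p| < 1`, `τ` a ring
endomorphism with `τ ζ = ζ ^ n` which is trivial on the residue field, and `p ∣ n + m`.  If
`a ≡ 1` modulo `ζ - 1` (`|a - 1| ^ (p - 1) ≤ |p|`), then `τ a * a ^ m ≡ 1` strictly beyond
`ζ - 1`: `|τ a * a ^ m - 1| ^ (p - 1) < |p|`. -/
theorem val_twist_sub_one_lt {p : ℕ} (hp : p.Prime) (hp0 : (p : F) ≠ 0) (hplt : v (p : F) < 1)
    {ζ : F} (hζ : IsPrimitiveRoot ζ p) (τ : F →+* F) (n m : ℕ) (hnm : p ∣ n + m)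
    (hτζ : τ ζ = ζ ^ n) (hτres : ∀ f : F, v f ≤ 1 → v (τ f - f) < 1) {a : F}
    (ha : v (a - 1) ^ (p - 1) ≤ v (p : F)) : v (τ a * a ^ m - 1) ^ (p - 1) < v (p : F) := by
  have hp2 := hp.two_le
  have hp1 : p - 1 ≠ 0 := by omega
  set lam : F := ζ - 1 with hlam
  have hvlam : v lam ^ (p - 1) = v (p : F) := val_zeta_sub_one_pow v hp hζ
  have hvp0 : v (p : F) ≠ 0 := (Valuation.ne_zero_iff v).mpr hp0
  have hlam0 : lam ≠ 0 := by
    intro h0
    rw [h0, map_zero, zero_pow hp1] at hvlam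
    exact hvp0 hvlam.symm
  have hvlam1 : v lam < 1 := lt_one_of_pow_lt_one (n := p - 1) (by rw [hvlam]; exact hplt)
  have hvlampos : 0 < v lam := zero_lt_iff.mpr ((Valuation.ne_zero_iff v).mpr hlam0)
  have hvζ : v ζ = 1 := val_eq_one_of_pow_eq_one v hp.ne_zero hζ.pow_eq_one
  -- the coordinate `β`
  set β : F := lam⁻¹ * (a - 1) with hβ
  have hva : v (a - 1) ≤ v lam := le_of_pow_le_pow' hp1 (by rw [hvlam]; exact ha)
  have hvβ : v β ≤ 1 := by
    rw [hβ, map_mul, map_inv₀, inv_mul_le_iff₀ hvlampos, mul_one]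
    exact hva
  have haβ : a = 1 + lam * β := by
    rw [hβ, mul_inv_cancel_left₀ hlam0]; ring
  -- the action of `τ`
  set G : F := ∑ i ∈ Finset.range n, ζ ^ i with hG
  have hτlam : τ lam = lam * G := by
    rw [hlam, map_sub, map_one, hτζ, hG, mul_geom_sum]
  have hvG1 : v G ≤ 1 := v.map_sum_le fun i _ => by
    rw [map_pow, hvζ, one_pow]
  have hvGn : v (G - (n : F)) < 1 := by
    have e : G - (n : F) = ∑ i ∈ Finset.range n, (ζ ^ i - 1) := by
      rw [Finset.sum_sub_distrib, Finset.sum_const, Finset.card_range, nsmul_eq_mul, mul_one]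
    rw [e]
    refine v.map_sum_lt one_ne_zero fun i _ => ?_
    rw [Valuation.map_sub_swap]
    exact lt_of_le_of_lt (val_one_sub_pow_le v hvζ.le i)
      (by rw [Valuation.map_sub_swap]; exact hvlam1)
  set δ : F := τ β - β with hδ
  have hvδ : v δ < 1 := hτres β hvβ
  have hvτβ : v (τ β) ≤ 1 := by
    have e : τ β = δ + β := by rw [hδ]; ring
    rw [e]
    exact v.map_add_le hvδ.le hvβ
  have hτa : τ a - 1 = lam * G * τ β := by
    rw [haβ, map_add, map_one, map_mul, hτlam]; ring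
  -- the power
  set y : F := lam * β with hy
  have hvy : v y ≤ v lam := by
    rw [hy, map_mul]; exact mul_le_of_le_one_right' hvβ
  set e₂ : F := (1 + y) ^ m - 1 - (m : F) * y with he₂
  have hve₂ : v e₂ ≤ v lam ^ 2 :=
    (val_one_add_pow_sub_le v (hvy.trans hvlam1.le) m).trans (pow_le_pow_left' hvy 2)
  have hlam2 : v lam ^ 2 < v lam := by
    rw [pow_two]
    calc v lam * v lam < v lam * 1 := mul_lt_mul_of_pos_left hvlam1 hvlampos
      _ = v lam := mul_one _
  have hvm : v (m : F) ≤ 1 := Fermat.Agent.S18.helper1788.val_natCast_le_one v m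
  have hvn : v (n : F) ≤ 1 := Fermat.Agent.S18.helper1788.val_natCast_le_one v n
  have hapow : a ^ m - 1 = (m : F) * y + e₂ := by rw [he₂, haβ]; ring
  have hvapow : v (a ^ m - 1) ≤ v lam := by
    rw [hapow]
    refine v.map_add_le ?_ (hve₂.trans hlam2.le)
    rw [map_mul]
    exact (mul_le_of_le_one_left' hvm).trans hvy
  -- the bracket
  set B : F := (G - (n : F)) * τ β + (n : F) * δ + ((n + m : ℕ) : F) * β with hB
  have hvnm : v (((n + m : ℕ) : F)) < 1 := by
    obtain ⟨q, hq⟩ := hnm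
    rw [hq, Nat.cast_mul, map_mul]
    exact lt_of_le_of_lt (mul_le_of_le_one_right'
      (Fermat.Agent.S18.helper1788.val_natCast_le_one v q)) hplt
  have hvB : v B < 1 := by
    rw [hB]
    refine v.map_add_lt (v.map_add_lt ?_ ?_) ?_
    · rw [map_mul]
      exact lt_of_le_of_lt (mul_le_of_le_one_right' hvτβ) hvGn
    · rw [map_mul]
      exact lt_of_le_of_lt (mul_le_of_le_one_left' hvn) hvδ
    · rw [map_mul]
      exact lt_of_le_of_lt (mul_le_of_le_one_right' hvβ) hvnm
  have hmain : τ a * a ^ m - 1 = lam * B + e₂ + (τ a - 1) * (a ^ m - 1) := by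
    have h1 : τ a * a ^ m - 1 = (τ a - 1) + (a ^ m - 1) + (τ a - 1) * (a ^ m - 1) := by ring
    rw [h1, hapow, hτa, hB, hy, hδ]
    push_cast
    ring
  have hX : v (τ a * a ^ m - 1) < v lam := by
    rw [hmain]
    refine v.map_add_lt (v.map_add_lt ?_ (lt_of_le_of_lt hve₂ hlam2)) ?_
    · rw [map_mul]
      calc v lam * v B < v lam * 1 := mul_lt_mul_of_pos_left hvB hvlampos
        _ = v lam := mul_one _
    · rw [map_mul]
      have h1 : v (τ a - 1) ≤ v lam := by
        rw [hτa, mul_assoc, map_mul]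
        refine mul_le_of_le_one_right' ?_
        rw [map_mul]
        exact mul_le_one' hvG1 hvτβ
      calc v (τ a - 1) * v (a ^ m - 1) ≤ v lam * v lam := mul_le_mul' h1 hvapow
        _ = v lam ^ 2 := (pow_two _).symm
        _ < v lam := hlam2
  rw [← hvlam]
  exact pow_lt_pow_left₀ hX zero_le hp1

end OneVal

/-! ### The `χ`-action on deep Kummer classes -/

section Chi

variable {K F : Type*} [Field K] [Field F] [Algebra K F]
variable {Γ₀ : Type*} [LinearOrderedCommGroupWithZero Γ₀] {ι : Type*}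
  {kk : Type*} [Field kk] {Fk : Type*} [CommRing Fk] [Algebra kk Fk] {red : F → Fk}

/-- **(TOR), the `χ`-action, abstract function-field form.**

Setting of `isPrincipal_of_deep_seed_on` (two charts `E1`, `E2`, valuations `val i` with a
reduction datum, every finite-dimensional subspace cartesian, Riemann bound for all twists of
degree `0`, a special-fibre family `N m n` which is root-closed on the reductions and
Artin–Schreier-closed, residue characteristic `p`, `π ^ (p - 1) = -p`).  Let `g` be a semilinear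
automorphism of `F / K` which preserves the valuations, is trivial on the reductions
(`|g f - f| < 1` for `|f| ≤ 1`), fixes the chart divisor `E1`, and acts on a primitive `p`-th
root of unity by `g ζ = ζ ^ n`.  Then for every DEEP `p`-Kummer element `h`
(`|h - 1| ^ (p - 1) < |p| ^ p` for all the valuations)

  `g • kummerClass K p h = n • kummerClass K p h`. -/
theorem smul_kummerClass_of_deep [HasPrincipalDivisors K F] [Finite ι] [Nonempty ι]
    (hdeg : ∀ v : Place K F, 0 < v.deg)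
    (E1 E2 : Divisor K F) (hE1 : ∀ v : Place K F, 0 ≤ E1 v) (hE2 : ∀ v : Place K F, 0 ≤ E2 v)
    (hdisj : ∀ v : Place K F, E1 v = 0 ∨ E2 v = 0)
    (p : ℕ) (hp : p.Prime)
    (val : ι → Valuation F Γ₀) (vK : Valuation K Γ₀)
    (harch : ∀ ε κ : Γ₀, ε < 1 → κ ≠ 0 → ∃ n : ℕ, ε ^ n < κ) (hp0 : (p : F) ≠ 0)
    (hplt : vK (p : K) < 1) (π : K) (hπ : π ^ (p - 1) = -(p : K))
    (hred : RedDataW val (fun _ => (1 : Γ₀)) vK kk red red)
    (hVG : ∀ (i : ι) (f : F), f ≠ 0 → ∃ c : K, vK c = val i f)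
    (hcartS : ∀ S : Submodule K F, Module.Finite K S →
      CartesianW val (fun _ => (1 : Γ₀)) vK S)
    (hfd : ∀ D : Divisor K F, Module.Finite K (riemannRochSpace D))
    (d γ c : ℤ) (hd : 0 < d)
    (hRiemF : ∀ D : Divisor K F, Divisor.degree D = 0 → ∀ m n : ℕ, c ≤ ((m : ℤ) + n) * d →
      ((m : ℤ) + n) * d + 1 - γ ≤
        (Module.finrank K (riemannRochSpace (D + m • E1 + n • E2)) : ℤ))
    (N : ℕ → ℕ → Submodule kk Fk) (hfin : ∀ m n : ℕ, Module.Finite kk (N m n))
    (hNmono : ∀ m m' n n' : ℕ, m ≤ m' → n ≤ n' → N m n ≤ N m' n')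
    (hNinf : ∀ m m' n n' : ℕ, m ≤ m' → n' ≤ n → N m n ⊓ N m' n' ≤ N m n')
    (hNred0 : ∀ m n : ℕ, ∀ x ∈ riemannRochSpace (m • E1 + n • E2),
      (∀ i, val i x ≤ 1) → red x ∈ N m n)
    (hRiemk : ∀ m n : ℕ, c ≤ ((m : ℤ) + n) * d →
      (Module.finrank kk (N m n) : ℤ) ≤ ((m : ℤ) + n) * d + 1 - γ)
    (S : Set Fk) (hS : ∀ x : F, (∀ i, val i x ≤ 1) → red x ∈ S)
    (hNroot : ∀ m n : ℕ, ∀ y ∈ S, y ^ p ∈ N (p * m) (p * n) → y ∈ N m n)
    (hNAS : ∀ m₀ n₀ m n : ℕ, ∀ y ∈ N m₀ n₀, y ^ p - y ∈ N (p * m) (p * n) → y ∈ N m n)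
    (g : SemilinearAut K F)
    (hgval : ∀ (i : ι) (f : F), val i (g • f) = val i f)
    (hgres : ∀ (i : ι) (f : F), val i f ≤ 1 → val i (g • f - f) < 1)
    (hgE1 : ∀ w : Place K F, E1 (g • w) = E1 w)
    (ζ : K) (hζ : IsPrimitiveRoot ζ p) (n : ℕ)
    (hgζ : g • algebraMap K F ζ = algebraMap K F (ζ ^ n))
    (h : F) (hK : IsKummer K p h)
    (hdeep : ∀ i, val i (h - 1) ^ (p - 1) < val i (p : F) ^ p) :
    g • kummerClass K p h = n • kummerClass K p h := by
  have hp2 := hp.two_le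
  have hp1 : p - 1 ≠ 0 := by omega
  have hppos : (0 : ℤ) < p := by exact_mod_cast hp.pos
  have hh0 : h ≠ 0 := hK.ne_zero
  have hvp : ∀ i, val i (p : F) = vK (p : K) := fun i => by
    rw [← map_natCast (algebraMap K F) p, hred.val_algebraMap]
  have hvplt : ∀ i, val i (p : F) < 1 := fun i => by rw [hvp]; exact hplt
  have hh1 : ∀ i, val i (h - 1) < 1 := fun i =>
    lt_one_of_pow_lt_one (n := p - 1) (lt_of_lt_of_le (hdeep i) (pow_le_one' (hvplt i).le p))
  have hvh : ∀ i, val i h = 1 := fun i => by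
    have := (val i).map_one_add_of_lt (hh1 i)
    rwa [add_sub_cancel] at this
  -- step (A): the shallow seed of `h`
  have hord0 : ∀ v : Place K F,
      (p : ℤ) * kummerDivisor K p h v = v.ord h - v.ord (1 : F) := fun v => by
    rw [Place.ord_one, sub_zero]
    exact hK.mul_ediv_cancel v
  obtain ⟨⟨k, a₀, ha₀, hva₀⟩, -⟩ := exists_seed_mod_pi_on (kummerDivisor K p h) E1 E2 hE1 hE2 p hp
    h 1 hh0 one_ne_zero hord0 val vK harch hp0 (by simpa using hdeep) hred hcartS hfd d γ c hd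
    (hRiemF _ (degree_kummerDivisor hK)) (hRiemF 0 (map_zero _)) N hfin hNred0 hRiemk S hS hNroot
  have ha₀0 : a₀ ≠ 0 := by
    rintro rfl
    obtain ⟨i⟩ := ‹Nonempty ι›
    have h1 := hva₀ i
    rw [zero_sub, Valuation.map_neg, map_one, one_pow] at h1
    exact absurd (lt_of_le_of_lt h1 (hvplt i)) (lt_irrefl _)
  -- the twisted data
  set m : ℕ := (p - 1) * n with hm
  have hnm : p ∣ n + m := ⟨n, by
    rw [hm]
    obtain ⟨q, rfl⟩ : ∃ q, p = q + 1 := ⟨p - 1, by omega⟩
    rw [Nat.add_sub_cancel]; ring⟩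
  have hgh0 : g • h ≠ 0 := by
    rw [SemilinearAut.smul_def]
    exact (_root_.map_ne_zero _).mpr hh0
  have hga₀0 : g • a₀ ≠ 0 := by
    rw [SemilinearAut.smul_def]
    exact (_root_.map_ne_zero _).mpr ha₀0
  set h' : F := g • h * h ^ m with hh'
  set a' : F := g • a₀ * a₀ ^ m with ha'
  have hh'0 : h' ≠ 0 := mul_ne_zero hgh0 (pow_ne_zero m hh0)
  have ha'0 : a' ≠ 0 := mul_ne_zero hga₀0 (pow_ne_zero m ha₀0)
  have hKg : IsKummer K p (g • h) := (isKummer_smul_iff g).mpr hK
  have hK' : IsKummer K p h' := hKg.mul (hK.pow m)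
  have hord' : ∀ v : Place K F,
      (p : ℤ) * kummerDivisor K p h' v = v.ord h' - v.ord (1 : F) := fun v => by
    rw [Place.ord_one, sub_zero]
    exact hK'.mul_ediv_cancel v
  -- `h'` is deep
  have hdeep' : ∀ i, val i (h' * (1 : F)⁻¹ - 1) ^ (p - 1) < val i (p : F) ^ p := fun i => by
    rw [inv_one, mul_one, hh']
    refine val_mul_sub_one_pow_lt (val i) ?_ ?_
      (val_pow_sub_one_pow_lt (val i) hp1 (hvh i).le (hdeep i) m)
    · rw [map_pow, hvh i, one_pow]
    · have e : g • h - 1 = g • (h - 1) := by rw [smul_sub, smul_one]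
      rw [e, hgval]
      exact hdeep i
  -- the twisted seed
  have ha'mem : a' ∈ riemannRochSpace (kummerDivisor K p h' + (k + m * k) • E1) := by
    refine (mem_rr_iff_ord ha'0).mpr fun w => ?_
    have h1 := (mem_rr_iff_ord ha₀0).mp ha₀ w
    have h2 := (mem_rr_iff_ord ha₀0).mp ha₀ (g⁻¹ • w)
    have h3 : w.ord (g • a₀) = (g⁻¹ • w).ord a₀ := by
      have := SemilinearAut.ord_smul g (g⁻¹ • w) a₀
      rwa [smul_inv_smul] at this
    have h4 : w.ord (g • h) = (g⁻¹ • w).ord h := by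
      have := SemilinearAut.ord_smul g (g⁻¹ • w) h
      rwa [smul_inv_smul] at this
    have h5 : E1 (g⁻¹ • w) = E1 w := by
      have := hgE1 (g⁻¹ • w)
      rw [smul_inv_smul] at this
      exact this.symm
    rw [add_nsmul_apply] at h1 h2 ⊢
    rw [h5] at h2
    have e0 : (p : ℤ) * kummerDivisor K p h w = w.ord h := hK.mul_ediv_cancel w
    have e1 : (p : ℤ) * kummerDivisor K p h (g⁻¹ • w) = (g⁻¹ • w).ord h :=
      hK.mul_ediv_cancel (g⁻¹ • w)
    have e2 : (p : ℤ) * kummerDivisor K p h' w = w.ord h' := hK'.mul_ediv_cancel w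
    have e3 : w.ord h' = w.ord (g • h) + (m : ℤ) * w.ord h := by
      rw [hh', w.ord_mul hgh0 (pow_ne_zero m hh0), ← zpow_natCast, w.ord_zpow]
    have e4 : w.ord a' = w.ord (g • a₀) + (m : ℤ) * w.ord a₀ := by
      rw [ha', w.ord_mul hga₀0 (pow_ne_zero m ha₀0), ← zpow_natCast, w.ord_zpow]
    rw [e4, h3]
    rw [e3, h4, ← e1, ← e0] at e2
    set A : ℤ := w.ord a₀
    set A' : ℤ := (g⁻¹ • w).ord a₀
    set d0 : ℤ := kummerDivisor K p h w
    set d0' : ℤ := kummerDivisor K p h (g⁻¹ • w)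
    set D' : ℤ := kummerDivisor K p h' w
    set e : ℤ := E1 w
    have hm0 : (0 : ℤ) ≤ (m : ℤ) := Int.natCast_nonneg m
    have e5 : D' = d0' + (m : ℤ) * d0 := by
      have : (p : ℤ) * D' = (p : ℤ) * (d0' + (m : ℤ) * d0) := by rw [e2]; ring
      exact mul_left_cancel₀ hppos.ne' this
    have h6 : (m : ℤ) * (-(d0 + (k : ℤ) * e)) ≤ (m : ℤ) * A := mul_le_mul_of_nonneg_left h1 hm0
    rw [e5]
    push_cast
    linarith
  have hva' : ∀ i, val i (a' - 1) ^ (p - 1) < val i (p : F) := fun i => by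
    have hζF : IsPrimitiveRoot (algebraMap K F ζ) p :=
      hζ.map_of_injective (algebraMap K F).injective
    have h1 := val_twist_sub_one_lt (val i) hp hp0 (hvplt i) hζF
      ((SemilinearAut.toRingAut g : F ≃+* F) : F →+* F) n m hnm
      (by
        have := hgζ
        rw [map_pow] at this
        exact this)
      (fun f hf => hgres i f hf) (hva₀ i)
    exact h1
  -- step (C′)
  have hprin : Divisor.IsPrincipal (kummerDivisor K p h') :=
    isPrincipal_of_deep_seed_on hdeg (kummerDivisor K p h') E1 E2 hE1 hE2 hdisj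
      (degree_kummerDivisor hK') p hp h' 1 hh'0 one_ne_zero hord' val vK harch hp0 hplt π hπ
      hdeep' hred hVG hcartS hfd d γ c hd (hRiemF _ (degree_kummerDivisor hK'))
      (hRiemF 0 (map_zero _)) N hfin hNmono hNinf hNred0 hRiemk S hS hNroot hNAS (k + m * k) a'
      ha'mem hva'
  have hcl : kummerClass K p h' = 0 := by
    rw [kummerClass_eq_mk hK', mk_eq_zero_iff]
    exact hprin
  rw [hh', kummerClass_mul hKg (hK.pow m), kummerClass_pow hK m, ← smul_kummerClass] at hcl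
  have hpc : (n + m) • kummerClass K p h = 0 := by
    obtain ⟨q, hq⟩ := hnm
    have h1 : (p : ℤ) • kummerClass K p h = 0 := zsmul_kummerClass p h
    rw [natCast_zsmul] at h1
    rw [hq, mul_nsmul, h1, smul_zero]
  rw [add_nsmul] at hpc
  exact add_right_cancel (hcl.trans hpc.symm)

end Chi

end Fermat.Agent.Lib.helper3195
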