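/-
Wild Kummer theory on a two-component nodal special fibre (helper3195).

The abstract special-fibre family `N m n` of `helper3195_WildKummer` / `helper3195_WildKummerChi`
is INSTANTIATED on the binders of the landed function-field theorem (E3)
`Fermat.Agent.S35.helper603.twisted_lattice_of_components` (generic fibre `F / K` with a family of
valuations and a reduction datum; special fibre = two function fields `Fk₁`, `Fk₂` over `kk`
glued along the nodes `P i`, `Q i`; chart function `x`, `div x = E2 - E1`; `hcont`, `hK1`, `hK2`),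
in residue characteristic `p`:

  `N m n = jj (glued 1 (L(m Yinf₁ + n Y0₁) × L(m Yinf₂ + n Y0₂)))`.

* `wild_family_of_components` : the family is finite-dimensional, monotone, intersects well,
  contains the reductions of the untwisted unit balls, satisfies the nodal Riemann count, is
  closed under `p`-th roots of reductions (Frobenius is injective on the residue field, so
  "glued `p`-th power ⟹ glued") and Artin–Schreier closed (pole orders).
* `exists_seed_mod_pi_of_components` : step (A) for a deep `p`-Kummer element, on both charts.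
* `smul_kummerClass_of_components` : (TOR), the `χ`-action on the deep `p`-Kummer classes.
-/
import Mathlib
import Fermat.Agent.Lib.helper3195_WildKummerChi
import Fermat.Agent.S35.helper603_TwistedFF

set_option autoImplicit false

namespace Fermat.Agent.Lib.helper3195

open AlgebraicCurve WithZero Module
open Fermat.Agent.S35.helper2459 (RedDataW CartesianW)
open Fermat.Agent.S35.helper603 (valueAt nodeRing evalAt pairRR glued nodeInclAlg
  nodeInclAlg_injective rr_le_nodeRing chartDiv_apply mem_rr_of_pow_mem IsNodalRR glued_mono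
  twisted_lattice_of_components)
open Fermat.Agent.S18.helper981 (HasRiemannBound riemannGenus)
open Fermat.Agent.S29.helper8217

/-! ### Artin–Schreier closure of Riemann–Roch spaces -/

section AS

variable {K F : Type*} [Field K] [Field F] [Algebra K F]

/-- If `y ^ p - y` has poles of order at most `p (a A + b B)` then `y` has poles of order at
most `a A + b B` (`A`, `B` effective, `p ≥ 2`). -/
theorem mem_rr_of_as_mem {p : ℕ} (hp : 2 ≤ p) {A B : Divisor K F} (hA : 0 ≤ A) (hB : 0 ≤ B)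
    (a b : ℕ) {y : F} (hy : y ^ p - y ∈ riemannRochSpace ((p * a) • A + (p * b) • B)) :
    y ∈ riemannRochSpace (a • A + b • B) := by
  intro w
  have hA0 : (0 : ℤ) ≤ A w := by simpa using Finsupp.le_def.mp hA w
  have hB0 : (0 : ℤ) ≤ B w := by simpa using Finsupp.le_def.mp hB w
  have hD0 : (0 : ℤ) ≤ (a • A + b • B) w := by
    rw [chartDiv_apply]
    positivity
  rcases le_or_gt (w.adicValuation y) 1 with hle | hgt
  · refine hle.trans ?_
    rw [← exp_zero]
    exact exp_le_exp.mpr hD0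
  · have hp0 : p ≠ 0 := by omega
    have h1 : w.adicValuation y < w.adicValuation (y ^ p) := by
      rw [map_pow]
      obtain ⟨q, rfl⟩ : ∃ q, p = q + 2 := ⟨p - 2, by omega⟩
      have h2 : 1 < w.adicValuation y ^ (q + 1) := one_lt_pow' hgt (Nat.succ_ne_zero q)
      have hpos : 0 < w.adicValuation y := lt_trans zero_lt_one hgt
      calc w.adicValuation y = w.adicValuation y * 1 := (mul_one _).symm
        _ < w.adicValuation y * w.adicValuation y ^ (q + 1) := mul_lt_mul_of_pos_left h2 hpos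
        _ = w.adicValuation y ^ (q + 2) := by rw [pow_succ' _ (q + 1)]
    have h3 : w.adicValuation (y ^ p - y) = w.adicValuation y ^ p := by
      rw [w.adicValuation.map_sub_eq_of_lt_left h1, map_pow]
    have h4 := hy w
    rw [h3] at h4
    have h5 : ((p * a) • A + (p * b) • B) w = p • (a • A + b • B) w := by
      rw [chartDiv_apply, chartDiv_apply]
      push_cast
      rw [nsmul_eq_mul]
      ring
    rw [h5, exp_nsmul] at h4
    exact le_of_pow_le_pow' hp0 h4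

end AS

/-! ### The special-fibre family as one Prop -/

section Family

variable {K F : Type*} [Field K] [Field F] [Algebra K F]
variable {Γ₀ : Type*} [LinearOrderedCommGroupWithZero Γ₀] {ι : Type*}

/-- **The wild special-fibre package** for the charts `E1`, `E2` and the valuations `v i` with
reduction `red`: a Riemann bound `(m + n) d + 1 - γ ≤ l(D + m E1 + n E2)` for all twists `D` of
degree `0`, and a family `N m n` of finite-dimensional subspaces of the special fibre which is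
monotone, intersects well, contains the reductions of the untwisted unit balls, has at most the
Riemann dimension, is closed under `p`-th roots of reductions and Artin–Schreier closed.
These are exactly the special-fibre hypotheses of `exists_seed_mod_pi_on`,
`isPrincipal_of_deep_seed_on`, `smul_kummerClass_of_deep`. -/
def WildFamily (v : ι → Valuation F Γ₀) (kk : Type*) [Field kk] {Fk : Type*} [CommRing Fk]
    [Algebra kk Fk] (red : F → Fk) (E1 E2 : Divisor K F) (p : ℕ) : Prop :=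
  ∃ (d γ c : ℤ) (N : ℕ → ℕ → Submodule kk Fk) (S : Set Fk),
    0 < d ∧
    (∀ D : Divisor K F, Divisor.degree D = 0 → ∀ m n : ℕ, c ≤ ((m : ℤ) + n) * d →
      ((m : ℤ) + n) * d + 1 - γ ≤
        (Module.finrank K (riemannRochSpace (D + m • E1 + n • E2)) : ℤ)) ∧
    (∀ m n : ℕ, Module.Finite kk (N m n)) ∧
    (∀ m m' n n' : ℕ, m ≤ m' → n ≤ n' → N m n ≤ N m' n') ∧
    (∀ m m' n n' : ℕ, m ≤ m' → n' ≤ n → N m n ⊓ N m' n' ≤ N m n') ∧
    (∀ m n : ℕ, ∀ f ∈ riemannRochSpace (m • E1 + n • E2), (∀ i, v i f ≤ 1) →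
      red f ∈ N m n) ∧
    (∀ m n : ℕ, c ≤ ((m : ℤ) + n) * d →
      (Module.finrank kk (N m n) : ℤ) ≤ ((m : ℤ) + n) * d + 1 - γ) ∧
    (∀ f : F, (∀ i, v i f ≤ 1) → red f ∈ S) ∧
    (∀ m n : ℕ, ∀ y ∈ S, y ^ p ∈ N (p * m) (p * n) → y ∈ N m n) ∧
    (∀ m₀ n₀ m n : ℕ, ∀ y ∈ N m₀ n₀, y ^ p - y ∈ N (p * m) (p * n) → y ∈ N m n)

variable {kk : Type*} [Field kk] {Fk : Type*} [CommRing Fk] [Algebra kk Fk] {red : F → Fk}
variable {v : ι → Valuation F Γ₀} {E1 E2 : Divisor K F} {p : ℕ}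

/-- **Step (A) from the package**: a deep `p`-Kummer element `h` has, on each of the two charts,
a twisted section `≡ 1` modulo `π` (`|a - 1| ^ (p - 1) ≤ |p|` for all the valuations). -/
theorem WildFamily.exists_seed_mod_pi [HasPrincipalDivisors K F] [Finite ι] [Nonempty ι]
    (hfam : WildFamily v kk red E1 E2 p)
    (hE1 : ∀ w : Place K F, 0 ≤ E1 w) (hE2 : ∀ w : Place K F, 0 ≤ E2 w) (hp : p.Prime)
    (vL : Valuation K Γ₀) (harch : ∀ ε κ : Γ₀, ε < 1 → κ ≠ 0 → ∃ n : ℕ, ε ^ n < κ)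
    (hp0 : (p : F) ≠ 0) (hred : RedDataW v (fun _ => (1 : Γ₀)) vL kk red red)
    (hcartS : ∀ S : Submodule K F, Module.Finite K S → CartesianW v (fun _ => (1 : Γ₀)) vL S)
    (hfd : ∀ D : Divisor K F, Module.Finite K (riemannRochSpace D))
    {h : F} (hK : IsKummer K p h) (hdeep : ∀ i, v i (h - 1) ^ (p - 1) < v i (p : F) ^ p) :
    (∃ (k : ℕ) (a₀ : F), a₀ ∈ riemannRochSpace (kummerDivisor K p h + k • E1) ∧
        ∀ i, v i (a₀ - 1) ^ (p - 1) ≤ v i (p : F)) ∧
      (∃ (k : ℕ) (b₀ : F), b₀ ∈ riemannRochSpace (kummerDivisor K p h + k • E2) ∧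
        ∀ i, v i (b₀ - 1) ^ (p - 1) ≤ v i (p : F)) := by
  obtain ⟨d, γ, c, N, S, hd, hRiemF, hfin, -, -, hNred0, hRiemk, hS, hNroot, -⟩ := hfam
  have hord0 : ∀ w : Place K F,
      (p : ℤ) * kummerDivisor K p h w = w.ord h - w.ord (1 : F) := fun w => by
    rw [Place.ord_one, sub_zero]
    exact hK.mul_ediv_cancel w
  exact exists_seed_mod_pi_on (kummerDivisor K p h) E1 E2 hE1 hE2 p hp h 1 hK.ne_zero one_ne_zero
    hord0 v vL harch hp0 (by simpa using hdeep) hred hcartS hfd d γ c hd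
    (hRiemF _ (degree_kummerDivisor hK)) (hRiemF 0 (map_zero _)) N hfin hNred0 hRiemk S hS hNroot

/-- **(TOR), the `χ`-action, from the package**: a semilinear automorphism `g` preserving the
valuations, trivial on the reductions, fixing the chart divisor `E1`, with `g ζ = ζ ^ n`, acts
on the class of every deep `p`-Kummer element by multiplication by `n`. -/
theorem WildFamily.smul_kummerClass [HasPrincipalDivisors K F] [Finite ι] [Nonempty ι]
    (hfam : WildFamily v kk red E1 E2 p)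
    (hdeg : ∀ w : Place K F, 0 < w.deg)
    (hE1 : ∀ w : Place K F, 0 ≤ E1 w) (hE2 : ∀ w : Place K F, 0 ≤ E2 w)
    (hdisj : ∀ w : Place K F, E1 w = 0 ∨ E2 w = 0) (hp : p.Prime)
    (vL : Valuation K Γ₀) (harch : ∀ ε κ : Γ₀, ε < 1 → κ ≠ 0 → ∃ n : ℕ, ε ^ n < κ)
    (hp0 : (p : F) ≠ 0) (hplt : vL (p : K) < 1) (π : K) (hπ : π ^ (p - 1) = -(p : K))
    (hred : RedDataW v (fun _ => (1 : Γ₀)) vL kk red red)
    (hVG : ∀ (i : ι) (f : F), f ≠ 0 → ∃ c : K, vL c = v i f)
    (hcartS : ∀ S : Submodule K F, Module.Finite K S → CartesianW v (fun _ => (1 : Γ₀)) vL S)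
    (hfd : ∀ D : Divisor K F, Module.Finite K (riemannRochSpace D))
    (g : SemilinearAut K F)
    (hgval : ∀ (i : ι) (f : F), v i (g • f) = v i f)
    (hgres : ∀ (i : ι) (f : F), v i f ≤ 1 → v i (g • f - f) < 1)
    (hgE1 : ∀ w : Place K F, E1 (g • w) = E1 w)
    (ζ : K) (hζ : IsPrimitiveRoot ζ p) (n : ℕ)
    (hgζ : g • algebraMap K F ζ = algebraMap K F (ζ ^ n))
    {h : F} (hK : IsKummer K p h) (hdeep : ∀ i, v i (h - 1) ^ (p - 1) < v i (p : F) ^ p) :
    g • kummerClass K p h = n • kummerClass K p h := by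
  obtain ⟨d, γ, c, N, S, hd, hRiemF, hfin, hNmono, hNinf, hNred0, hRiemk, hS, hNroot, hNAS⟩ :=
    hfam
  exact smul_kummerClass_of_deep hdeg E1 E2 hE1 hE2 hdisj p hp v vL harch hp0 hplt π hπ hred hVG
    hcartS hfd d γ c hd hRiemF N hfin hNmono hNinf hNred0 hRiemk S hS hNroot hNAS g hgval hgres
    hgE1 ζ hζ n hgζ h hK hdeep

end Family

/-! ### The family of the two components -/

section Components

variable {kk Fk₁ Fk₂ : Type*} [Field kk] [Field Fk₁] [Field Fk₂] [Algebra kk Fk₁]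
  [Algebra kk Fk₂]
variable {I : Type*} [Fintype I]

/-- **The wild special-fibre family of a two-component nodal reduction.**  On the binders of
`helper603.twisted_lattice_of_components`, in residue characteristic `p` (`|p| < 1`), the family
`N m n = jj (glued 1 (L(m Yinf₁ + n Y0₁) × L(m Yinf₂ + n Y0₂)))` satisfies all the hypotheses of
`exists_seed_mod_pi_on`, `isPrincipal_of_deep_seed_on` and `smul_kummerClass_of_deep`, with
`S = Set.range jj`, `d = deg E1`, `γ = g(F)`. -/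
theorem wild_family_of_components
    {K F : Type*} [Field K] [Field F] [Algebra K F] [HasPrincipalDivisors K F]
    (hdegK : ∀ w : Place K F, w.deg = 1)
    (hRBK : HasRiemannBound K F) (P₀ : Place K F)
    {Γ₀ : Type*} [LinearOrderedCommGroupWithZero Γ₀] {ι : Type*} [Finite ι] [Nonempty ι]
    (v : ι → Valuation F Γ₀) (vL : Valuation K Γ₀)
    {Fk : Type*} [CommRing Fk] [Algebra kk Fk] {red : F → Fk}
    (hred : RedDataW v (fun _ => (1 : Γ₀)) vL kk red red)
    (hconst : ∀ c : K, vL c ≤ 1 → ∃ κ : kk, red (algebraMap K F c) = algebraMap kk Fk κ)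
    (hcart : ∀ D : Divisor K F, CartesianW v (fun _ => (1 : Γ₀)) vL (riemannRochSpace D))
    (jj : Fk₁ × Fk₂ →ₐ[kk] Fk) (hjj : Function.Injective jj)
    (hrange : ∀ f : F, (∀ i, v i f ≤ 1) → ∃ y : Fk₁ × Fk₂, red f = jj y)
    [HasPrincipalDivisors kk Fk₁] [HasPrincipalDivisors kk Fk₂]
    (hdeg₁ : ∀ w : Place kk Fk₁, w.deg = 1) (hdeg₂ : ∀ w : Place kk Fk₂, w.deg = 1)
    (hRB₁ : HasRiemannBound kk Fk₁) (hRB₂ : HasRiemannBound kk Fk₂)
    (P₁ : Place kk Fk₁) (P₂ : Place kk Fk₂)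
    (P : I → Place kk Fk₁) (Q : I → Place kk Fk₂)
    (hP : Function.Injective P) (hQ : Function.Injective Q)
    (Yinf₁ Y0₁ : Divisor kk Fk₁) (Yinf₂ Y0₂ : Divisor kk Fk₂)
    (hYinf₁ : 0 ≤ Yinf₁) (hY0₁ : 0 ≤ Y0₁) (hYinf₂ : 0 ≤ Yinf₂) (hY0₂ : 0 ≤ Y0₂)
    (hdisj₁ : ∀ w : Place kk Fk₁, Yinf₁ w = 0 ∨ Y0₁ w = 0)
    (hdisj₂ : ∀ w : Place kk Fk₂, Yinf₂ w = 0 ∨ Y0₂ w = 0)
    (d₁ d₂ : ℕ) (hd₁ : 0 < d₁) (hd₂ : 0 < d₂)
    (hdY₁ : Divisor.degree Yinf₁ = d₁) (hdY0₁ : Divisor.degree Y0₁ = d₁)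
    (hdY₂ : Divisor.degree Yinf₂ = d₂) (hdY0₂ : Divisor.degree Y0₂ = d₂)
    (hPY : ∀ i, Yinf₁ (P i) = 0 ∧ Y0₁ (P i) = 0) (hQY : ∀ i, Yinf₂ (Q i) = 0 ∧ Y0₂ (Q i) = 0)
    (E1 E2 : Divisor K F) (hE1 : 0 ≤ E1) (hE2 : 0 ≤ E2) (hdE1 : 0 < Divisor.degree E1)
    (x : F) (hx0 : x ≠ 0) (hxord : ∀ w : Place K F, w.ord x = E2 w - E1 w)
    (hxv : ∀ i, v i x = 1)
    (x₁ : Fk₁) (x₂ : Fk₂) (hredx : red x = jj (x₁, x₂))
    (hx₁ : ∀ w : Place kk Fk₁, w.ord x₁ = Y0₁ w - Yinf₁ w)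
    (hx₂ : ∀ w : Place kk Fk₂, w.ord x₂ = Y0₂ w - Yinf₂ w)
    (hcont : ∀ a b : ℕ, ∀ f ∈ riemannRochSpace (a • E1 + b • E2), (∀ i, v i f ≤ 1) →
      ∃ y₁ ∈ riemannRochSpace (a • Yinf₁ + b • Y0₁),
        ∃ y₂ ∈ riemannRochSpace (a • Yinf₂ + b • Y0₂), red f = jj (y₁, y₂) ∧
          ∀ i, valueAt (Q i) (hdeg₂ (Q i)) y₂ = valueAt (P i) (hdeg₁ (P i)) y₁)
    (hK1 : ∀ a : ℕ, ∀ y₁ ∈ riemannRochSpace (a • Yinf₁), ∀ y₂ ∈ riemannRochSpace (a • Yinf₂),
      (∀ i, valueAt (Q i) (hdeg₂ (Q i)) y₂ = valueAt (P i) (hdeg₁ (P i)) y₁) →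
      ∃ a' : ℕ, ∃ f ∈ riemannRochSpace (a' • E1), (∀ i, v i f ≤ 1) ∧ red f = jj (y₁, y₂))
    (hK2 : ∀ b : ℕ, ∀ y₁ ∈ riemannRochSpace (b • Y0₁), ∀ y₂ ∈ riemannRochSpace (b • Y0₂),
      (∀ i, valueAt (Q i) (hdeg₂ (Q i)) y₂ = valueAt (P i) (hdeg₁ (P i)) y₁) →
      ∃ b' : ℕ, ∃ f ∈ riemannRochSpace (b' • E2), (∀ i, v i f ≤ 1) ∧ red f = jj (y₁, y₂))
    (p : ℕ) (hp : p.Prime) (hplt : vL (p : K) < 1) :
    WildFamily v kk red E1 E2 p := by
  classical
  obtain ⟨n₀, hT, hdegE1, hgenus, -⟩ := twisted_lattice_of_components hdegK hRBK P₀ v vL hred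
    hconst hcart jj hjj hrange hdeg₁ hdeg₂ hRB₁ hRB₂ P₁ P₂ P Q hP hQ Yinf₁ Y0₁ Yinf₂ Y0₂ hYinf₁
    hY0₁ hYinf₂ hY0₂ hdisj₁ hdisj₂ d₁ d₂ hd₁ hd₂ hdY₁ hdY0₁ hdY₂ hdY0₂ hPY hQY E1 E2 hE1 hE2 hdE1
    x hx0 hxord hxv x₁ x₂ hredx hx₁ hx₂ hcont hK1 hK2
  set pP : I → (nodeRing P × nodeRing Q) →ₐ[kk] kk := fun i =>
    (evalAt P (fun i => hdeg₁ (P i)) i).comp (AlgHom.fst kk (nodeRing P) (nodeRing Q)) with hpP
  set pQ : I → (nodeRing P × nodeRing Q) →ₐ[kk] kk := fun i =>
    (evalAt Q (fun i => hdeg₂ (Q i)) i).comp (AlgHom.snd kk (nodeRing P) (nodeRing Q)) with hpQ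
  set T : ℕ → ℕ → Submodule kk (nodeRing P × nodeRing Q) := fun a b =>
    pairRR P Q (a • Yinf₁ + b • Y0₁) (a • Yinf₂ + b • Y0₂) with hTdef
  set φ : (nodeRing P × nodeRing Q) →ₐ[kk] Fk := jj.comp (nodeInclAlg P Q) with hφdef
  have hφ : Function.Injective φ := hjj.comp (nodeInclAlg_injective P Q)
  have hA₁ : ∀ (a b : ℕ) (i : I), (a • Yinf₁ + b • Y0₁) (P i) = 0 := fun a b i => by
    rw [chartDiv_apply, (hPY i).1, (hPY i).2]; simp
  have hA₂ : ∀ (a b : ℕ) (i : I), (a • Yinf₂ + b • Y0₂) (Q i) = 0 := fun a b i => by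
    rw [chartDiv_apply, (hQY i).1, (hQY i).2]; simp
  have hdE2 : Divisor.degree E2 = Divisor.degree E1 := by
    obtain ⟨D, hD, hD0⟩ := HasPrincipalDivisors.exists_divisor (K := K) x hx0
    have hDE : D = E2 - E1 := Finsupp.ext fun w => by
      rw [hD w, hxord w, Finsupp.sub_apply]
    rw [hDE, map_sub] at hD0
    linarith
  -- the residue characteristic
  have hnat : ∀ n : ℕ, red (n : F) = (n : Fk) := by
    intro n
    induction n with
    | zero => rw [Nat.cast_zero, Nat.cast_zero, hred.map_zero]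
    | succ n ih =>
      rw [Nat.cast_succ, Nat.cast_succ, hred.map_add _ _
        (fun i => Fermat.Agent.S18.helper1788.val_natCast_le_one _ n)
        (fun i => le_of_eq (v i).map_one), ih, hred.map_one]
  have hpFk : (p : Fk) = 0 := by
    rw [← hnat p]
    have hvp : ∀ i, v i (p : F) < 1 := fun i => by
      rw [← map_natCast (algebraMap K F) p, hred.val_algebraMap]
      exact hplt
    exact (hred.eq_zero_iff _ (fun i => (hvp i).le)).mpr hvp
  have : Nontrivial Fk := hred.nontrivial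
  have hpk : (p : kk) = 0 := by
    apply (algebraMap kk Fk).injective
    rw [map_natCast, map_zero, hpFk]
  have : Fact p.Prime := ⟨hp⟩
  have : CharP kk p := (CharP.charP_iff_prime_eq_zero hp).mpr hpk
  have hfrob : ∀ a b : kk, a ^ p = b ^ p → a = b := fun a b hab => frobenius_inj kk p hab
  refine ⟨Divisor.degree E1, (riemannGenus K F : ℤ), (n₀ : ℤ) * Divisor.degree E1,
    fun m n => (glued pP pQ 1 (T m n)).map φ.toLinearMap, Set.range jj, hdE1, ?_, ?_, ?_, ?_, ?_,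
    ?_, ?_, ?_, ?_⟩
  · -- Riemann's inequality on the generic fibre
    intro D hD m n _
    have h1 := Fermat.Agent.S18.helper981.riemannGenus_mem hRBK (D + m • E1 + n • E2)
    rw [map_add, map_add, map_nsmul, map_nsmul, hD, hdE2, nsmul_eq_mul, nsmul_eq_mul] at h1
    linarith
  · intro m n
    have := hT.finite m n
    infer_instance
  · intro m m' n n' hm hn
    exact Submodule.map_mono (glued_mono pP pQ 1 (hT.mono m m' n n' hm hn))
  · rintro m m' n n' hm hn y ⟨h1, h2⟩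
    obtain ⟨w, hw, rfl⟩ := h1
    obtain ⟨w', hw', hww'⟩ := h2
    have hweq : w' = w := hφ hww'
    subst hweq
    refine ⟨w', ⟨?_, hw.2⟩, rfl⟩
    have h3 := hT.inter m n m' n' ⟨hw.1, hw'.1⟩
    rwa [min_eq_left hm, min_eq_right hn] at h3
  · intro m n f hf hfb
    obtain ⟨y₁, hy₁, y₂, hy₂, hfy, hnode⟩ := hcont m n f hf hfb
    refine ⟨(⟨y₁, rr_le_nodeRing P _ (hA₁ m n) y₁ hy₁⟩, ⟨y₂, rr_le_nodeRing Q _ (hA₂ m n) y₂ hy₂⟩),
      ⟨⟨hy₁, hy₂⟩, fun i => ?_⟩, hfy.symm⟩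
    rw [Pi.one_apply, one_mul]
    exact hnode i
  · intro m n hc
    have hn₀ : n₀ ≤ m + n := by
      have h1 : (n₀ : ℤ) ≤ (m : ℤ) + n := le_of_mul_le_mul_right hc hdE1
      exact_mod_cast h1
    have h1 := hT.finrank_glued (1 : I → kk) m n hn₀
    have h2 : finrank kk ((glued pP pQ 1 (T m n)).map φ.toLinearMap) =
        finrank kk (glued pP pQ 1 (T m n)) :=
      (LinearEquiv.finrank_eq (Submodule.equivMapOfInjective φ.toLinearMap hφ _)).symm
    rw [h2, hdegE1]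
    have h1' : (finrank kk (glued pP pQ 1 (T m n)) : ℤ) + Fintype.card I +
        ((riemannGenus kk Fk₁ : ℤ) + riemannGenus kk Fk₂) =
          ((d₁ : ℤ) + d₂) * ((m : ℤ) + n) + 2 := by exact_mod_cast h1
    have h3 : (riemannGenus K F : ℤ) + 1 =
        (riemannGenus kk Fk₁ : ℤ) + riemannGenus kk Fk₂ + Fintype.card I := by
      exact_mod_cast hgenus
    push_cast
    linarith
  · intro f hf
    obtain ⟨y, hy⟩ := hrange f hf
    exact ⟨y, hy.symm⟩
  · -- closure under `p`-th roots of reductions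
    rintro m n y ⟨z, rfl⟩ ⟨w, hw, hwz⟩
    have h1 : z ^ p = nodeInclAlg P Q w := hjj (by
      rw [map_pow]
      exact hwz.symm)
    have h11 : z.1 ^ p = (w.1 : Fk₁) := congrArg Prod.fst h1
    have h12 : z.2 ^ p = (w.2 : Fk₂) := congrArg Prod.snd h1
    have hz1 : z.1 ∈ riemannRochSpace (m • Yinf₁ + n • Y0₁) :=
      mem_rr_of_pow_mem hp.ne_zero m n (by rw [h11]; exact hw.1.1)
    have hz2 : z.2 ∈ riemannRochSpace (m • Yinf₂ + n • Y0₂) :=
      mem_rr_of_pow_mem hp.ne_zero m n (by rw [h12]; exact hw.1.2)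
    set w' : nodeRing P × nodeRing Q :=
      (⟨z.1, rr_le_nodeRing P _ (hA₁ m n) _ hz1⟩, ⟨z.2, rr_le_nodeRing Q _ (hA₂ m n) _ hz2⟩)
      with hw'
    have hww' : w = w' ^ p := Prod.ext (Subtype.ext h11.symm) (Subtype.ext h12.symm)
    refine ⟨w', ⟨⟨hz1, hz2⟩, fun i => ?_⟩, rfl⟩
    have h2 := hw.2 i
    rw [hww', map_pow, map_pow, Pi.one_apply, one_mul] at h2
    rw [Pi.one_apply, one_mul]
    exact hfrob _ _ h2
  · -- Artin–Schreier closure
    rintro m₀ n₀' m n y ⟨w, hw, rfl⟩ ⟨w2, hw2, hw2e⟩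
    have h1 : w2 = w ^ p - w := hφ (by
      rw [map_sub, map_pow]
      exact hw2e)
    have h2 := hw2.1
    rw [h1] at h2
    refine ⟨w, ⟨⟨?_, ?_⟩, hw.2⟩, rfl⟩
    · exact mem_rr_of_as_mem hp.two_le hYinf₁ hY0₁ m n h2.1
    · exact mem_rr_of_as_mem hp.two_le hYinf₂ hY0₂ m n h2.2

end Components

end Fermat.Agent.Lib.helper3195
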