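import Mathlib

set_option autoImplicit false

namespace Fermat.Agent.Lib.helper319

open Matrix UpperHalfPlane
open scoped MatrixGroups

/-- Hermite normal form of `diag(e,1) * γ` for `γ ∈ SL(2,ℤ)`:
`diag(e,1) * γ = γ' * [[a,b],[0,d]]` with `γ' ∈ SL(2,ℤ)`, `a = gcd(c_γ, e)`, `a * d = e`,
`0 ≤ b < d`. -/
theorem exists_hermite (e : ℕ) (he : 0 < e) (γ : SL(2, ℤ)) :
    ∃ (γ' : SL(2, ℤ)) (a b d : ℕ), a = Nat.gcd (γ 1 0).natAbs e ∧ a * d = e ∧ b < d ∧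
      (!![(e : ℤ), 0; 0, 1] * (γ : Matrix (Fin 2) (Fin 2) ℤ))
        = (γ' : Matrix (Fin 2) (Fin 2) ℤ) * !![(a : ℤ), (b : ℤ); 0, (d : ℤ)] := by
  obtain ⟨p, q, r, s, hdet, rfl⟩ : ∃ p q r s : ℤ, ∃ h : p * s - q * r = 1,
      γ = ⟨!![p, q; r, s], by rw [Matrix.det_fin_two_of]; exact h⟩ := by
    refine ⟨γ 0 0, γ 0 1, γ 1 0, γ 1 1, ?_, ?_⟩
    · have := γ.det_coe
      rw [Matrix.det_fin_two] at this
      exact this
    · ext i j
      fin_cases i <;> fin_cases j <;> rfl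
  simp only [of_apply, cons_val_one, cons_val_zero]
  set a : ℕ := Nat.gcd r.natAbs e with ha
  have ha_pos : 0 < a := Nat.gcd_pos_of_pos_right _ he
  obtain ⟨d, hd⟩ : a ∣ e := Nat.gcd_dvd_right _ _
  obtain ⟨r', hr'⟩ : (a : ℤ) ∣ r := Int.natCast_dvd.mpr (Nat.gcd_dvd_left _ _)
  have hd_pos : 0 < d := by
    rcases Nat.eq_zero_or_pos d with h | h
    · subst h; omega
    · exact h
  have hcop1 : IsCoprime (d : ℤ) r' := by
    rw [Int.isCoprime_iff_gcd_eq_one]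
    have h1 : r.natAbs = a * r'.natAbs := by
      rw [hr', Int.natAbs_mul, Int.natAbs_natCast]
    have h2 : Nat.gcd (a * r'.natAbs) (a * d) = a := by
      rw [← h1, ← hd]
    rw [Nat.gcd_mul_left] at h2
    have h3 : Nat.gcd r'.natAbs d = 1 := by
      have := Nat.eq_of_mul_eq_mul_left ha_pos (h2.trans (mul_one a).symm)
      exact this
    rw [Int.gcd_comm]
    simpa [Int.gcd] using h3
  have hcop2 : IsCoprime p r' := by
    refine ⟨s, -q * a, ?_⟩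
    rw [hr'] at hdet
    linear_combination hdet
  obtain ⟨x, y, hxy⟩ : IsCoprime ((d : ℤ) * p) r' := hcop1.mul_left hcop2
  set b₀ : ℤ := x * (e * q) + y * s with hb₀
  have hdZ : (0 : ℤ) < d := by exact_mod_cast hd_pos
  set k : ℤ := b₀ / d with hk
  have hb_nonneg : 0 ≤ b₀ % d := Int.emod_nonneg _ hdZ.ne'
  have hb_lt : b₀ % d < d := Int.emod_lt_of_pos _ hdZ
  obtain ⟨b, hb⟩ : ∃ b : ℕ, (b : ℤ) = b₀ % d := ⟨(b₀ % d).toNat, Int.toNat_of_nonneg hb_nonneg⟩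
  have hbk : b₀ = b + d * k := by
    rw [hb, hk]; exact (Int.emod_add_mul_ediv b₀ d).symm
  have heZ : (e : ℤ) = a * d := by exact_mod_cast hd
  refine ⟨⟨!![d * p, k * (d * p) - y; r', k * r' + x], ?_⟩, a, b, d, rfl, hd.symm, ?_, ?_⟩
  · rw [Matrix.det_fin_two_of]
    linear_combination hxy
  · exact_mod_cast hb ▸ hb_lt
  · ext i j
    fin_cases i <;> fin_cases j
    · simp [Matrix.mul_apply, Fin.sum_univ_two]
      rw [heZ]; ring
    · simp [Matrix.mul_apply, Fin.sum_univ_two]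
      have hb' : (b : ℤ) = x * (e * q) + y * s - d * k := by linarith [hbk, hb₀]
      rw [hb', heZ]
      rw [hr'] at hdet
      linear_combination (-(a : ℤ) * d * q) * hxy + (-(d : ℤ) * y) * hdet
    · simp [Matrix.mul_apply, Fin.sum_univ_two]
      rw [hr']; ring
    · simp [Matrix.mul_apply, Fin.sum_univ_two]
      have hb' : (b : ℤ) = x * (e * q) + y * s - d * k := by linarith [hbk, hb₀]
      rw [hb', heZ]
      rw [hr'] at hdet
      linear_combination (-s) * hxy + ((d : ℤ) * x) * hdet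

/-- Pointwise form of the Hermite decomposition: `e * (γ • τ) = γ' • ((a τ + b) / d)`. -/
theorem exists_hermite_smul (e : ℕ) (he : 0 < e) (γ : SL(2, ℤ)) :
    ∃ (γ' : SL(2, ℤ)) (a b d : ℕ), a = Nat.gcd (γ 1 0).natAbs e ∧ a * d = e ∧ b < d ∧
      ∀ τ σ : ℍ, (σ : ℂ) = ((a : ℂ) * τ + b) / d →
        ((γ' • σ : ℍ) : ℂ) = (e : ℂ) * ((γ • τ : ℍ) : ℂ) := by
  obtain ⟨γ', a, b, d, ha, had, hbd, hM⟩ := exists_hermite e he γ
  refine ⟨γ', a, b, d, ha, had, hbd, fun τ σ hσ => ?_⟩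
  have hd_pos : 0 < d := by omega
  have hdC : (d : ℂ) ≠ 0 := by exact_mod_cast hd_pos.ne'
  have h00 : (e : ℤ) * γ 0 0 = γ' 0 0 * a := by
    have := congrFun (congrFun hM 0) 0
    simpa [Matrix.mul_apply, Fin.sum_univ_two] using this
  have h01 : (e : ℤ) * γ 0 1 = γ' 0 0 * b + γ' 0 1 * d := by
    have := congrFun (congrFun hM 0) 1
    simpa [Matrix.mul_apply, Fin.sum_univ_two] using this
  have h10 : γ 1 0 = γ' 1 0 * a := by
    have := congrFun (congrFun hM 1) 0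
    simpa [Matrix.mul_apply, Fin.sum_univ_two] using this
  have h11 : γ 1 1 = γ' 1 0 * b + γ' 1 1 * d := by
    have := congrFun (congrFun hM 1) 1
    simpa [Matrix.mul_apply, Fin.sum_univ_two] using this
  have h00C : (e : ℂ) * (γ 0 0 : ℂ) = (γ' 0 0 : ℂ) * a := by exact_mod_cast h00
  have h01C : (e : ℂ) * (γ 0 1 : ℂ) = (γ' 0 0 : ℂ) * b + (γ' 0 1 : ℂ) * d := by exact_mod_cast h01
  have h10C : (γ 1 0 : ℂ) = (γ' 1 0 : ℂ) * a := by exact_mod_cast h10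
  have h11C : (γ 1 1 : ℂ) = (γ' 1 0 : ℂ) * b + (γ' 1 1 : ℂ) * d := by exact_mod_cast h11
  have hden : ((γ 1 0 : ℤ) : ℂ) * τ + ((γ 1 1 : ℤ) : ℂ) ≠ 0 := by
    have := UpperHalfPlane.denom_ne_zero ((γ : SL(2, ℤ)) : GL (Fin 2) ℝ) τ
    simpa [UpperHalfPlane.denom] using this
  rw [coe_specialLinearGroup_apply, coe_specialLinearGroup_apply, hσ]
  simp only [algebraMap_int_eq, Int.coe_castRingHom, Complex.ofReal_intCast]
  have hden' : ((γ' 1 0 : ℤ) : ℂ) * (((a : ℂ) * τ + b) / d) + ((γ' 1 1 : ℤ) : ℂ)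
      = (((γ 1 0 : ℤ) : ℂ) * τ + ((γ 1 1 : ℤ) : ℂ)) / d := by
    rw [h10C, h11C]; field_simp; ring
  have hnum' : ((γ' 0 0 : ℤ) : ℂ) * (((a : ℂ) * τ + b) / d) + ((γ' 0 1 : ℤ) : ℂ)
      = (e : ℂ) * (((γ 0 0 : ℤ) : ℂ) * τ + ((γ 0 1 : ℤ) : ℂ)) / d := by
    rw [mul_add, ← mul_assoc, h00C, h01C]; field_simp; ring
  rw [hden', hnum']
  field_simp

/-- For an `SL(2,ℤ)`-invariant function `J` on the upper half plane,
`J (e * (γ • τ)) = J ((a τ + b) / d)` with `(a, b, d)` the Hermite data of `diag(e,1) * γ`.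
(Stated for arbitrary points `σ₁, σ` of `ℍ` with the prescribed coordinates.) -/
theorem exists_hermite_invariant (e : ℕ) (he : 0 < e) (γ : SL(2, ℤ)) :
    ∃ (a b d : ℕ), a = Nat.gcd (γ 1 0).natAbs e ∧ a * d = e ∧ b < d ∧
      ∀ (J : ℍ → ℂ), (∀ (δ : SL(2, ℤ)) (τ : ℍ), J (δ • τ) = J τ) →
        ∀ τ σ₁ σ : ℍ, (σ₁ : ℂ) = (e : ℂ) * ((γ • τ : ℍ) : ℂ) →
          (σ : ℂ) = ((a : ℂ) * τ + b) / d → J σ₁ = J σ := by
  obtain ⟨γ', a, b, d, ha, had, hbd, h⟩ := exists_hermite_smul e he γ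
  refine ⟨a, b, d, ha, had, hbd, fun J hJ τ σ₁ σ hσ₁ hσ => ?_⟩
  have h1 : σ₁ = γ' • σ := UpperHalfPlane.ext (by rw [hσ₁, h τ σ hσ])
  rw [h1, hJ]

/-- Two-sided exponential growth at `i∞`: `‖J τ‖` is comparable to `exp (2 π Im τ)`.
This holds for the modular `j`-function (it follows from `J τ * exp (2 π i τ) → 1`). -/
def HasJGrowth (J : ℍ → ℂ) : Prop :=
  ∃ B c C : ℝ, 0 < c ∧ ∀ τ : ℍ, B ≤ τ.im →
    c * Real.exp (2 * Real.pi * τ.im) ≤ ‖J τ‖ ∧ ‖J τ‖ ≤ C * Real.exp (2 * Real.pi * τ.im)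

/-- **E5** (distinctness of conjugates): if `J` is `SL(2,ℤ)`-invariant with the growth of the
`j`-function at `i∞`, and `J (N * (g • τ)) = J (N * τ)` for all `τ`, then `g ∈ Γ₀(N)`. -/
theorem mem_Gamma0_of_forall_eq (J : ℍ → ℂ)
    (hinv : ∀ (δ : SL(2, ℤ)) (τ : ℍ), J (δ • τ) = J τ) (hgrowth : HasJGrowth J)
    (N : ℕ) (hN : 0 < N) (g : SL(2, ℤ))
    (h : ∀ τ σ₁ σ₂ : ℍ, (σ₁ : ℂ) = (N : ℂ) * ((g • τ : ℍ) : ℂ) → (σ₂ : ℂ) = (N : ℂ) * τ →
      J σ₁ = J σ₂) :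
    g ∈ CongruenceSubgroup.Gamma0 N := by
  obtain ⟨a, b, d, ha, had, hbd, hH⟩ := exists_hermite_invariant N hN g
  obtain ⟨B, c, C, hc, hBC⟩ := hgrowth
  have hd_pos : 0 < d := by omega
  have ha_pos : 0 < a := by
    rcases Nat.eq_zero_or_pos a with h0 | h0
    · rw [h0] at had; omega
    · exact h0
  -- it suffices to show `d = 1`
  by_cases hd1 : d = 1
  · rw [CongruenceSubgroup.Gamma0_mem]
    have haN : a = N := by rw [← had, hd1, mul_one]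
    have hdvd : (N : ℤ) ∣ g 1 0 := by
      have h1 : N ∣ (g 1 0).natAbs := by
        rw [← haN, ha]; exact Nat.gcd_dvd_left _ _
      exact Int.natCast_dvd.mpr h1
    exact (ZMod.intCast_zmod_eq_zero_iff_dvd _ _).mpr hdvd
  exfalso
  have hd2 : 2 ≤ d := by omega
  -- the exponent gap
  have hδ : (0 : ℝ) < (N : ℝ) - (a : ℝ) / d := by
    have h1 : (a : ℝ) / d ≤ (a : ℝ) / 2 := by
      apply div_le_div_of_nonneg_left (by positivity) (by norm_num)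
      exact_mod_cast hd2
    have h2 : (a : ℝ) ≤ N := by
      have : a ≤ N := Nat.le_of_dvd hN ⟨d, had.symm⟩
      exact_mod_cast this
    have h3 : (0 : ℝ) < a := by exact_mod_cast ha_pos
    linarith
  set δ : ℝ := (N : ℝ) - (a : ℝ) / d with hδdef
  have haR : (0 : ℝ) < a := by exact_mod_cast ha_pos
  have hdR : (0 : ℝ) < d := by exact_mod_cast hd_pos
  have hNR : (0 : ℝ) < N := by exact_mod_cast hN
  have e1 : ∀ᶠ y : ℝ in Filter.atTop, 0 < y := Filter.eventually_gt_atTop 0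
  have e2 : ∀ᶠ y : ℝ in Filter.atTop, B ≤ (a : ℝ) * y / d := by
    have : Filter.Tendsto (fun y : ℝ => (a : ℝ) * y / d) Filter.atTop Filter.atTop :=
      (Filter.tendsto_id.const_mul_atTop haR).atTop_div_const hdR
    exact this.eventually_ge_atTop B
  have e3 : ∀ᶠ y : ℝ in Filter.atTop, B ≤ (N : ℝ) * y := by
    have : Filter.Tendsto (fun y : ℝ => (N : ℝ) * y) Filter.atTop Filter.atTop :=
      Filter.tendsto_id.const_mul_atTop hNR
    exact this.eventually_ge_atTop B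
  have e4 : ∀ᶠ y : ℝ in Filter.atTop, C < c * Real.exp (2 * Real.pi * δ * y) := by
    have h1 : Filter.Tendsto (fun y : ℝ => 2 * Real.pi * δ * y) Filter.atTop Filter.atTop :=
      Filter.tendsto_id.const_mul_atTop (by positivity)
    have h2 : Filter.Tendsto (fun y : ℝ => c * Real.exp (2 * Real.pi * δ * y))
        Filter.atTop Filter.atTop :=
      (Real.tendsto_exp_atTop.comp h1).const_mul_atTop hc
    exact h2.eventually_gt_atTop C
  obtain ⟨y, hy, hy2, hy3, hy4⟩ := (e1.and (e2.and (e3.and e4))).exists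
  -- the three points
  let τ : ℍ := UpperHalfPlane.mk ((y : ℂ) * Complex.I) (by simpa using hy)
  have hτ : (τ : ℂ) = (y : ℂ) * Complex.I := rfl
  have him2 : (((N : ℂ) * τ)).im = (N : ℝ) * y := by
    rw [hτ]; simp
  have him : ((((a : ℂ) * τ + b) / d)).im = (a : ℝ) * y / d := by
    rw [hτ]; simp
  let σ₂ : ℍ := UpperHalfPlane.mk ((N : ℂ) * τ) (by rw [him2]; positivity)
  let σ : ℍ := UpperHalfPlane.mk (((a : ℂ) * τ + b) / d) (by rw [him]; positivity)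
  let σ₁ : ℍ := UpperHalfPlane.mk ((N : ℂ) * ((g • τ : ℍ) : ℂ))
    (by
      have : 0 < ((g • τ : ℍ) : ℂ).im := (g • τ).im_pos
      simpa using mul_pos hNR this)
  have hJ1 : J σ₁ = J σ := hH J hinv τ σ₁ σ rfl rfl
  have hJ2 : J σ₁ = J σ₂ := h τ σ₁ σ₂ rfl rfl
  have hσim : σ.im = (a : ℝ) * y / d := him
  have hσ₂im : σ₂.im = (N : ℝ) * y := him2
  have hlow := (hBC σ₂ (by rw [hσ₂im]; exact hy3)).1
  have hupp := (hBC σ (by rw [hσim]; exact hy2)).2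
  rw [← hJ2, hJ1] at hlow
  have hchain : c * Real.exp (2 * Real.pi * σ₂.im) ≤ C * Real.exp (2 * Real.pi * σ.im) :=
    hlow.trans hupp
  rw [hσim, hσ₂im] at hchain
  have hsplit : Real.exp (2 * Real.pi * ((N : ℝ) * y))
      = Real.exp (2 * Real.pi * δ * y) * Real.exp (2 * Real.pi * ((a : ℝ) * y / d)) := by
    rw [← Real.exp_add]; congr 1; rw [hδdef]; ring
  rw [hsplit, ← mul_assoc] at hchain
  have hfin : c * Real.exp (2 * Real.pi * δ * y) ≤ C :=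
    le_of_mul_le_mul_right hchain (Real.exp_pos _)
  linarith

/-- The growth hypothesis follows from `J τ * exp (2 π i τ) → 1` as `Im τ → ∞`
(i.e. from a `q`-expansion `q⁻¹ + O(1)`). -/
theorem hasJGrowth_of_tendsto (J : ℍ → ℂ)
    (h : Filter.Tendsto (fun τ : ℍ => J τ * Complex.exp (2 * Real.pi * Complex.I * τ))
      UpperHalfPlane.atImInfty (nhds 1)) : HasJGrowth J := by
  have h1 : ∀ᶠ τ : ℍ in UpperHalfPlane.atImInfty,
      ‖J τ * Complex.exp (2 * Real.pi * Complex.I * τ) - 1‖ < 1 / 2 := by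
    have := (Metric.tendsto_nhds.mp h) (1 / 2) (by norm_num)
    simpa [dist_eq_norm] using this
  obtain ⟨B, hB⟩ := (UpperHalfPlane.atImInfty_mem _).mp h1
  refine ⟨B, 1 / 2, 3 / 2, by norm_num, fun τ hτ => ?_⟩
  have h2 : ‖J τ * Complex.exp (2 * Real.pi * Complex.I * τ) - 1‖ < 1 / 2 := hB τ hτ
  have hq : ‖Complex.exp (2 * Real.pi * Complex.I * τ)‖ = Real.exp (-(2 * Real.pi * τ.im)) := by
    rw [Complex.norm_exp]
    congr 1
    have : (2 * (Real.pi : ℂ) * Complex.I * (τ : ℂ)).re = -(2 * Real.pi * (τ : ℂ).im) := by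
      simp [Complex.mul_re]
    rw [this]; rfl
  have h3 : ‖J τ * Complex.exp (2 * Real.pi * Complex.I * τ)‖
      = ‖J τ‖ * Real.exp (-(2 * Real.pi * τ.im)) := by
    rw [norm_mul, hq]
  have h4 : ‖J τ‖ = ‖J τ * Complex.exp (2 * Real.pi * Complex.I * τ)‖
      * Real.exp (2 * Real.pi * τ.im) := by
    rw [h3, mul_assoc, ← Real.exp_add, neg_add_cancel, Real.exp_zero, mul_one]
  have h5 : ‖J τ * Complex.exp (2 * Real.pi * Complex.I * τ)‖ ≤ 3 / 2 := by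
    have := norm_le_insert' (J τ * Complex.exp (2 * Real.pi * Complex.I * τ)) 1
    rw [norm_one] at this
    linarith
  have h6 : 1 / 2 ≤ ‖J τ * Complex.exp (2 * Real.pi * Complex.I * τ)‖ := by
    have := norm_sub_norm_le (1 : ℂ) (1 - J τ * Complex.exp (2 * Real.pi * Complex.I * τ))
    rw [norm_one, sub_sub_cancel, norm_sub_rev] at this
    linarith
  have hpos : 0 < Real.exp (2 * Real.pi * τ.im) := Real.exp_pos _
  constructor
  · rw [h4]; exact mul_le_mul_of_nonneg_right h6 hpos.le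
  · rw [h4]; exact mul_le_mul_of_nonneg_right h5 hpos.le

/-- Coset form of **E5**: the function `τ ↦ J (N * (g⁻¹ • τ))` determines the left coset
`g Γ₀(N)`. -/
theorem coset_eq_of_forall_eq (J : ℍ → ℂ)
    (hinv : ∀ (δ : SL(2, ℤ)) (τ : ℍ), J (δ • τ) = J τ) (hgrowth : HasJGrowth J)
    (N : ℕ) (hN : 0 < N) (g h : SL(2, ℤ))
    (H : ∀ τ σ₁ σ₂ : ℍ, (σ₁ : ℂ) = (N : ℂ) * ((g⁻¹ • τ : ℍ) : ℂ) →
      (σ₂ : ℂ) = (N : ℂ) * ((h⁻¹ • τ : ℍ) : ℂ) → J σ₁ = J σ₂) :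
    (g : SL(2, ℤ) ⧸ CongruenceSubgroup.Gamma0 N) = (h : SL(2, ℤ) ⧸ CongruenceSubgroup.Gamma0 N) := by
  rw [QuotientGroup.eq]
  apply mem_Gamma0_of_forall_eq J hinv hgrowth N hN
  intro τ σ₁ σ₂ h1 h2
  apply H (h • τ) σ₁ σ₂
  · rw [h1, mul_smul]
  · rw [h2, inv_smul_smul]

/-- Right-coset form of **E5**: if `J (N * (g • τ)) = J (N * (h • τ))` for all `τ`
then `g * h⁻¹ ∈ Γ₀(N)`. -/
theorem mul_inv_mem_Gamma0_of_forall_eq (J : ℍ → ℂ)
    (hinv : ∀ (δ : SL(2, ℤ)) (τ : ℍ), J (δ • τ) = J τ) (hgrowth : HasJGrowth J)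
    (N : ℕ) (hN : 0 < N) (g h : SL(2, ℤ))
    (H : ∀ τ σ₁ σ₂ : ℍ, (σ₁ : ℂ) = (N : ℂ) * ((g • τ : ℍ) : ℂ) →
      (σ₂ : ℂ) = (N : ℂ) * ((h • τ : ℍ) : ℂ) → J σ₁ = J σ₂) :
    g * h⁻¹ ∈ CongruenceSubgroup.Gamma0 N := by
  apply mem_Gamma0_of_forall_eq J hinv hgrowth N hN
  intro τ σ₁ σ₂ h1 h2
  apply H (h⁻¹ • τ) σ₁ σ₂
  · rw [h1, mul_smul]
  · rw [h2, smul_inv_smul]

/-- Conversely, for `g ∈ Γ₀(N)` and `SL(2,ℤ)`-invariant `J`: `J (N * (g • τ)) = J (N * τ)`. -/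
theorem eq_of_mem_Gamma0 (J : ℍ → ℂ)
    (hinv : ∀ (δ : SL(2, ℤ)) (τ : ℍ), J (δ • τ) = J τ)
    (N : ℕ) (hN : 0 < N) (g : SL(2, ℤ)) (hg : g ∈ CongruenceSubgroup.Gamma0 N)
    (τ σ₁ σ₂ : ℍ) (h1 : (σ₁ : ℂ) = (N : ℂ) * ((g • τ : ℍ) : ℂ)) (h2 : (σ₂ : ℂ) = (N : ℂ) * τ) :
    J σ₁ = J σ₂ := by
  obtain ⟨a, b, d, ha, had, hbd, hH⟩ := exists_hermite_invariant N hN g
  have hdvd : (N : ℤ) ∣ g 1 0 :=
    (ZMod.intCast_zmod_eq_zero_iff_dvd _ _).mp (CongruenceSubgroup.Gamma0_mem.mp hg)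
  have haN : a = N := by
    rw [ha]
    exact Nat.gcd_eq_right (Int.natCast_dvd.mp hdvd)
  have hd1 : d = 1 := by
    rw [haN] at had
    exact Nat.eq_of_mul_eq_mul_left hN (had.trans (mul_one N).symm)
  have hb0 : b = 0 := by omega
  have h3 : (σ₂ : ℂ) = ((a : ℂ) * τ + b) / d := by
    rw [h2, haN, hd1, hb0]; simp
  exact hH J hinv τ σ₁ σ₂ h1 h3

end Fermat.Agent.Lib.helper319
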