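import Mathlib

/-!
# Sharp Siegel lemma over ℚ in Plücker-height form

For a linearly independent family `b : Fin r → Fin n → ℚ` (`0 < r`) there is a nonzero vector `x`
in the `ℚ`-span of `b` with
`Height.mulHeight x ^ r ≤ r ^ r * Height.mulHeight (Plücker vector of b)`,
where the Plücker vector is `s ↦ det (b i (s j))`, `s : Fin r → Fin n`.

Proof: Smith normal form gives an integer frame `V` of the span which is part of a `ℤ`-basis of
`ℤ^n`, so its maximal minors are coprime; pigeonhole in `ℤ^r` modulo the row lattice of a maximal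
minor; Cramer's rule.
-/

namespace Fermat.Agent.Lib.helper3263

open Matrix

/-- Integer `r`-th root: for `1 ≤ M` and `0 < r` there is `q` with `q ^ r ≤ M < (q + 1) ^ r`. -/
theorem exists_pow_le_lt_succ_pow (r M : ℕ) (hr : 0 < r) (hM : 1 ≤ M) :
    ∃ q : ℕ, 1 ≤ q ∧ q ^ r ≤ M ∧ M < (q + 1) ^ r := by
  have hex : ∃ q : ℕ, M < (q + 1) ^ r :=
    ⟨M, lt_of_lt_of_le (Nat.lt_succ_self M) (Nat.le_self_pow hr.ne' _)⟩
  classical
  have hspec := Nat.find_spec hex
  have hmin := fun k => Nat.find_min hex (m := k)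
  rcases Nat.eq_zero_or_pos (Nat.find hex) with h0 | hpos
  · rw [h0] at hspec
    simp at hspec
    omega
  · refine ⟨Nat.find hex, hpos, ?_, hspec⟩
    have := hmin (Nat.find hex - 1) (by omega)
    rw [Nat.sub_add_cancel hpos] at this
    exact not_lt.mp this

/-- Expansion of the determinant of a product `V * R` of an `r × n` and an `n × r` matrix as a
combination of the maximal minors of `V`. -/
theorem det_mul_eq_sum_minors {S : Type*} [CommRing S] {r n : ℕ} (V : Matrix (Fin r) (Fin n) S)
    (R : Matrix (Fin n) (Fin r) S) :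
    (V * R).det = ∑ s : Fin r → Fin n, (∏ j, R (s j) j) * (V.submatrix id s).det := by
  have h1 : (V * R).det = Matrix.detRowAlternating (fun j : Fin r => ∑ k : Fin n,
      R k j • (fun i : Fin r => V i k)) := by
    rw [← Matrix.det_transpose]
    change Matrix.det _ = Matrix.det _
    congr 1
    ext j i
    simp [Matrix.mul_apply, mul_comm]
  have h2 := (Matrix.detRowAlternating (R := S) (n := Fin r)).toMultilinearMap.map_sum
    (fun (j : Fin r) (k : Fin n) => R k j • (fun i : Fin r => V i k))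
  rw [h1]
  refine h2.trans (Finset.sum_congr rfl fun s _ => ?_)
  rw [AlternatingMap.coe_multilinearMap, AlternatingMap.map_smul_univ, smul_eq_mul]
  congr 1
  rw [← Matrix.det_transpose]
  rfl

/-- If an integer `r × n` matrix has an integer right inverse, its maximal minors are coprime. -/
theorem gcd_minors_eq_one {r n : ℕ} (V : Matrix (Fin r) (Fin n) ℤ)
    (R : Matrix (Fin n) (Fin r) ℤ) (h : V * R = 1) :
    (Finset.univ : Finset (Fin r → Fin n)).gcd (fun s => (V.submatrix id s).det) = 1 := by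
  have hdvd : (Finset.univ : Finset (Fin r → Fin n)).gcd (fun s => (V.submatrix id s).det) ∣ 1 := by
    have h1 : (V * R).det = 1 := by rw [h, Matrix.det_one]
    rw [← h1, det_mul_eq_sum_minors]
    exact Finset.dvd_sum fun s _ => Dvd.dvd.mul_left (Finset.gcd_dvd (Finset.mem_univ s)) _
  rw [← Finset.normalize_gcd]
  exact normalize_eq_one.mpr (isUnit_of_dvd_one hdvd)

/-- The multiplicative height of a nonzero integer vector is at most the maximum of the
absolute values of its entries. -/
theorem mulHeight_intCast_le {ι : Type*} [Fintype ι] [Nonempty ι] (x : ι → ℤ) (hx : x ≠ 0)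
    (B : ℝ) (hB : ∀ i, ((|x i| : ℤ) : ℝ) ≤ B) :
    Height.mulHeight (fun i => (x i : ℚ)) ≤ B := by
  classical
  obtain ⟨x', hx', hgcd⟩ := Finset.extract_gcd x (Finset.univ_nonempty (α := ι))
  have hg0 : (Finset.univ : Finset ι).gcd x ≠ 0 := by
    intro h0
    apply hx
    funext i
    exact Finset.gcd_eq_zero_iff.mp h0 i (Finset.mem_univ i)
  have hfun : (fun i => (x i : ℚ)) =
      (((Finset.univ : Finset ι).gcd x : ℤ) : ℚ) • (((↑) : ℤ → ℚ) ∘ x') := by
    funext i
    rw [hx' i (Finset.mem_univ i)]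
    simp
  rw [hfun, Height.mulHeight_smul_eq_mulHeight _ (Int.cast_ne_zero.mpr hg0),
    Rat.mulHeight_eq_max_abs_of_gcd_eq_one hgcd]
  obtain ⟨i, hi⟩ := exists_eq_ciSup_of_finite (f := fun i => |x' i|)
  rw [← hi]
  refine le_trans ?_ (hB i)
  have : |x' i| ≤ |x i| := by
    rw [hx' i (Finset.mem_univ i), abs_mul]
    exact le_mul_of_one_le_left (abs_nonneg _) (Int.one_le_abs hg0)
  exact_mod_cast this

/-- Pigeonhole in `ℤ^r` modulo the row lattice of `A`: if `|det A| < (q + 1) ^ r`, some nonzero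
vector of the row lattice has all coordinates of absolute value at most `q`. -/
theorem exists_vecMul_small {r : ℕ} (A : Matrix (Fin r) (Fin r) ℤ) (q : ℕ)
    (hA0 : A.det ≠ 0) (hA : A.det.natAbs < (q + 1) ^ r) :
    ∃ c : Fin r → ℤ, c ᵥ* A ≠ 0 ∧ ∀ j, |(c ᵥ* A) j| ≤ q := by
  classical
  have hli : LinearIndependent ℤ (fun i => A i) :=
    Matrix.linearIndependent_rows_of_det_ne_zero hA0
  set N : Submodule ℤ (Fin r → ℤ) := Submodule.span ℤ (Set.range fun i => A i) with hN
  let bN : Module.Basis (Fin r) ℤ N := Module.Basis.span hli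
  have hcard : Nat.card ((Fin r → ℤ) ⧸ N) = A.det.natAbs := by
    rw [← Submodule.natAbs_det_basis_change (Pi.basisFun ℤ (Fin r)) N bN]
    congr 1
    rw [Module.Basis.det_apply, ← Matrix.det_transpose]
    congr 1
    ext i j
    simp only [Matrix.transpose_apply, Module.Basis.toMatrix_apply, Function.comp_apply,
      Pi.basisFun_repr, bN]
    exact congrFun (Module.Basis.coe_span_apply hli i) j
  have hfin : Finite ((Fin r → ℤ) ⧸ N) :=
    Nat.finite_of_card_ne_zero (by rw [hcard]; exact Int.natAbs_ne_zero.mpr hA0)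
  let f : (Fin r → Fin (q + 1)) → (Fin r → ℤ) ⧸ N :=
    fun u => Submodule.Quotient.mk (fun j => ((u j : ℕ) : ℤ))
  have hlt : Nat.card ((Fin r → ℤ) ⧸ N) < Nat.card (Fin r → Fin (q + 1)) := by
    rw [hcard]
    simpa using hA
  have hninj : ¬ Function.Injective f := fun hinj =>
    absurd (Nat.card_le_card_of_injective f hinj) (not_le.mpr hlt)
  obtain ⟨u, u', heq, hne⟩ := Function.not_injective_iff.mp hninj
  have hmem : (fun j => ((u j : ℕ) : ℤ)) - (fun j => ((u' j : ℕ) : ℤ)) ∈ N :=
    (Submodule.Quotient.eq N).mp heq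
  obtain ⟨c, hc⟩ := (Submodule.mem_span_range_iff_exists_fun ℤ).mp hmem
  have hcA : c ᵥ* A = (fun j => ((u j : ℕ) : ℤ)) - (fun j => ((u' j : ℕ) : ℤ)) := by
    rw [← hc]
    ext j
    simp [Matrix.vecMul, dotProduct, Finset.sum_apply]
  refine ⟨c, ?_, ?_⟩
  · rw [hcA]
    intro h0
    apply hne
    funext j
    have := congrFun h0 j
    simp only [Pi.sub_apply, Pi.zero_apply, sub_eq_zero] at this
    exact Fin.ext (by exact_mod_cast this)
  · intro j
    rw [hcA]
    simp only [Pi.sub_apply]
    have h1 := (u j).isLt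
    have h2 := (u' j).isLt
    rw [abs_le]
    constructor <;> omega

/-- Cramer's rule bound: if the minor at `s₀` is maximal in absolute value (and nonzero), a
combination of the rows whose coordinates at `s₀` are bounded by `q` has all coordinates bounded
by `r * q`. -/
theorem abs_vecMul_le_of_maximal_minor {r n : ℕ} (V : Matrix (Fin r) (Fin n) ℤ)
    (s₀ : Fin r → Fin n) (h0 : (V.submatrix id s₀).det ≠ 0)
    (hmax : ∀ s : Fin r → Fin n, |(V.submatrix id s).det| ≤ |(V.submatrix id s₀).det|)
    (c : Fin r → ℤ) (q : ℤ) (hq : ∀ j, |(c ᵥ* V) (s₀ j)| ≤ q) (k : Fin n) :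
    |(c ᵥ* V) k| ≤ r * q := by
  classical
  set A := V.submatrix id s₀ with hA
  have hcr : ∀ j, (V.submatrix id (Function.update s₀ j k)).det =
      Matrix.cramer A (fun i => V i k) j := by
    intro j
    rw [Matrix.cramer_apply]
    congr 1
    ext i j'
    simp only [Matrix.submatrix_apply, id, Matrix.updateCol_apply, Function.update_apply, hA]
    split_ifs <;> rfl
  have hy : (fun j => (c ᵥ* V) (s₀ j)) = c ᵥ* A := by
    ext j
    simp [Matrix.vecMul, dotProduct, hA]
  have key : A.det * (c ᵥ* V) k =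
      ∑ j, (c ᵥ* V) (s₀ j) * (V.submatrix id (Function.update s₀ j k)).det := by
    calc A.det * (c ᵥ* V) k
        = (c ᵥ* (A.det • (1 : Matrix (Fin r) (Fin r) ℤ))) ⬝ᵥ (fun i => V i k) := by
          rw [Matrix.vecMul_smul, Matrix.vecMul_one, smul_dotProduct]
          rfl
      _ = (c ᵥ* A) ⬝ᵥ (A.adjugate *ᵥ (fun i => V i k)) := by
          rw [← Matrix.mul_adjugate, ← Matrix.vecMul_vecMul, Matrix.dotProduct_mulVec]
      _ = ∑ j, (c ᵥ* V) (s₀ j) * (V.submatrix id (Function.update s₀ j k)).det := by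
          rw [← Matrix.cramer_eq_adjugate_mulVec, ← hy]
          simp only [dotProduct, hcr]
  have hpos : 0 < |A.det| := abs_pos.mpr h0
  have hle : |A.det| * |(c ᵥ* V) k| ≤ |A.det| * (r * q) := by
    rw [← abs_mul, key]
    calc |∑ j, (c ᵥ* V) (s₀ j) * (V.submatrix id (Function.update s₀ j k)).det|
        ≤ ∑ j, |(c ᵥ* V) (s₀ j) * (V.submatrix id (Function.update s₀ j k)).det| :=
          Finset.abs_sum_le_sum_abs _ _
      _ ≤ ∑ _j : Fin r, q * |A.det| := by
          refine Finset.sum_le_sum fun j _ => ?_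
          rw [abs_mul]
          exact mul_le_mul (hq j) (hmax _) (abs_nonneg _) (le_trans (abs_nonneg _) (hq j))
      _ = |A.det| * (r * q) := by
          simp only [Finset.sum_const, Finset.card_univ, Fintype.card_fin, nsmul_eq_mul]
          ring
  exact le_of_mul_le_mul_left hle hpos

/-- Smith normal form: the `ℚ`-span of a linearly independent family `b` of `r` vectors of `ℚ^n`
contains an integer frame `V` (`r` integer vectors) that has an integer right inverse, i.e. is
part of a `ℤ`-basis of `ℤ^n`. -/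
theorem exists_primitive_frame {r n : ℕ} (b : Fin r → Fin n → ℚ) (hb : LinearIndependent ℚ b) :
    ∃ (V : Matrix (Fin r) (Fin n) ℤ) (R : Matrix (Fin n) (Fin r) ℤ), V * R = 1 ∧
      ∀ i, (fun k => (V i k : ℚ)) ∈ Submodule.span ℚ (Set.range b) := by
  classical
  -- clear denominators
  obtain ⟨d, hd⟩ := IsLocalization.exist_integer_multiples_of_finite (nonZeroDivisors ℤ)
    (fun p : Fin r × Fin n => b p.1 p.2)
  have hd0 : (d : ℤ) ≠ 0 := nonZeroDivisors.coe_ne_zero d
  choose z hz using hd
  let bt : Fin r → Fin n → ℤ := fun i k => z (i, k)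
  have hbt : ∀ i k, (bt i k : ℚ) = (d : ℤ) * b i k := by
    intro i k
    have := hz (i, k)
    simpa [bt, zsmul_eq_mul] using this
  have hli : LinearIndependent ℤ bt := by
    rw [Fintype.linearIndependent_iff]
    intro g hg i
    have hbq := Fintype.linearIndependent_iff.mp hb (fun i => (g i : ℚ) * ((d : ℤ) : ℚ)) ?_ i
    · have : (g i : ℚ) = 0 := by
        rcases mul_eq_zero.mp hbq with h | h
        · exact h
        · exact absurd (by exact_mod_cast h) hd0
      exact_mod_cast this
    · funext k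
      have := congrFun hg k
      simp only [Finset.sum_apply, Pi.smul_apply, smul_eq_mul, Pi.zero_apply] at this ⊢
      have h2 : ((∑ i, g i * bt i k : ℤ) : ℚ) = 0 := by rw [this]; simp
      rw [← h2]
      push_cast
      refine Finset.sum_congr rfl fun i _ => ?_
      rw [hbt]
      ring
  set L : Submodule ℤ (Fin n → ℤ) := Submodule.span ℤ (Set.range bt) with hL
  let bL : Module.Basis (Fin r) ℤ L := Module.Basis.span hli
  -- elements of `L` lie in the rational span
  have hLspan : ∀ y ∈ L, (fun k => (y k : ℚ)) ∈ Submodule.span ℚ (Set.range b) := by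
    intro y hy
    induction hy using Submodule.span_induction with
    | mem y hy =>
      obtain ⟨i, rfl⟩ := hy
      have : (fun k => (bt i k : ℚ)) = ((d : ℤ) : ℚ) • b i := by
        funext k
        simp [hbt]
      rw [this]
      exact Submodule.smul_mem _ _ (Submodule.subset_span ⟨i, rfl⟩)
    | zero =>
      have : (fun k : Fin n => (((0 : Fin n → ℤ) k : ℤ) : ℚ)) = 0 := by
        funext k
        simp
      rw [this]
      exact Submodule.zero_mem _
    | add y y' _ _ h h' =>
      have : (fun k => (((y + y') k : ℤ) : ℚ)) = (fun k => (y k : ℚ)) + (fun k => (y' k : ℚ)) := by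
        funext k
        simp
      rw [this]
      exact Submodule.add_mem _ h h'
    | smul a y _ h =>
      have : (fun k => (((a • y) k : ℤ) : ℚ)) = (a : ℚ) • (fun k => (y k : ℚ)) := by
        funext k
        simp
      rw [this]
      exact Submodule.smul_mem _ _ h
  obtain ⟨m, snf⟩ := Submodule.smithNormalForm (Pi.basisFun ℤ (Fin n)) L
  have hm : m = r := by
    have h1 := Module.finrank_eq_card_basis bL
    have h2 := Module.finrank_eq_card_basis snf.bN
    simpa using h2.symm.trans h1
  subst hm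
  refine ⟨Matrix.of fun i k => snf.bM (snf.f i) k,
    Matrix.of fun k i' => (snf.bM.toMatrix (Pi.basisFun ℤ (Fin n))) (snf.f i') k, ?_, ?_⟩
  · ext i i'
    have h1 := congrFun (congrFun
      (Module.Basis.toMatrix_mul_toMatrix_flip snf.bM (Pi.basisFun ℤ (Fin n))) (snf.f i')) (snf.f i)
    rw [Matrix.mul_apply] at h1
    rw [Matrix.mul_apply, Matrix.one_apply]
    rw [Matrix.one_apply] at h1
    simp only [Matrix.of_apply]
    simp only [Module.Basis.toMatrix_apply, Pi.basisFun_repr] at h1 ⊢
    rw [show (∑ x, snf.bM (snf.f i) x * snf.bM.repr ((Pi.basisFun ℤ (Fin n)) x) (snf.f i')) =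
      ∑ x, snf.bM.repr ((Pi.basisFun ℤ (Fin n)) x) (snf.f i') * snf.bM (snf.f i) x from
      Finset.sum_congr rfl fun x _ => mul_comm _ _, h1]
    by_cases hii : i = i'
    · subst hii
      simp
    · rw [if_neg hii, if_neg]
      exact fun h => hii (snf.f.injective h).symm
  · intro i
    have ha : snf.a i ≠ 0 := by
      intro h0
      have h1 := snf.snf i
      rw [h0, zero_smul] at h1
      exact snf.bN.ne_zero i (Subtype.ext h1)
    have hmem := hLspan _ (snf.bN i).2
    rw [snf.snf i] at hmem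
    have : (fun k => (((snf.a i • snf.bM (snf.f i)) k : ℤ) : ℚ)) =
        (snf.a i : ℚ) • (fun k => (snf.bM (snf.f i) k : ℚ)) := by
      funext k
      simp
    rw [this] at hmem
    exact (Submodule.smul_mem_iff _ (Int.cast_ne_zero.mpr ha)).mp hmem

/-- **Sharp Siegel lemma over `ℚ`, integer form.** If `b` is a linearly independent family of
`r ≥ 1` vectors of `ℚ^n`, its span contains a nonzero integer vector `x` all of whose coordinates
satisfy `|x k| ^ r ≤ r ^ r * H`, where `H` is the multiplicative height of the Plücker vector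
`s ↦ det (b i (s j))` (`s : Fin r → Fin n`). -/
theorem sharp_siegel_int (n r : ℕ) (hr : 0 < r) (b : Fin r → Fin n → ℚ)
    (hb : LinearIndependent ℚ b) :
    ∃ x : Fin n → ℤ, x ≠ 0 ∧ (fun k => (x k : ℚ)) ∈ Submodule.span ℚ (Set.range b) ∧
      ∀ k, ((|x k| : ℤ) : ℝ) ^ r ≤ (r : ℝ) ^ r *
        Height.mulHeight (fun s : Fin r → Fin n => (Matrix.of fun i j => b i (s j)).det) := by
  classical
  obtain ⟨V, R, hVR, hVspan⟩ := exists_primitive_frame b hb
  have hgcd := gcd_minors_eq_one V R hVR
  set p : (Fin r → Fin n) → ℤ := fun s => (V.submatrix id s).det with hp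
  have hne : Nonempty (Fin r → Fin n) := by
    by_contra hemp
    rw [not_nonempty_iff] at hemp
    rw [Finset.univ_eq_empty, Finset.gcd_empty] at hgcd
    exact zero_ne_one hgcd
  have hp0 : p ≠ 0 := by
    intro h0
    rw [Finset.gcd_eq_zero_iff.mpr (fun s _ => congrFun h0 s)] at hgcd
    exact zero_ne_one hgcd
  have hH := Rat.mulHeight_eq_max_abs_of_gcd_eq_one hgcd
  have hS : ∀ i, ∃ c : Fin r → ℚ, ∑ j, c j • b j = fun k => (V i k : ℚ) := fun i =>
    (Submodule.mem_span_range_iff_exists_fun ℚ).mp (hVspan i)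
  choose S hS using hS
  set pb : (Fin r → Fin n) → ℚ := fun s => (Matrix.of fun i j => b i (s j)).det with hpb
  have hdet : ∀ s, (p s : ℚ) = (Matrix.of S).det * pb s := by
    intro s
    simp only [hp, hpb]
    rw [Int.cast_det, ← Matrix.det_mul]
    congr 1
    ext i j
    have := congrFun (hS i) (s j)
    simp only [Finset.sum_apply, Pi.smul_apply, smul_eq_mul] at this
    simp [Matrix.mul_apply, this]
  have hS0 : (Matrix.of S).det ≠ 0 := by
    intro h0
    apply hp0
    funext s
    have := hdet s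
    rw [h0, zero_mul] at this
    exact_mod_cast this
  have hheight : Height.mulHeight pb = ((⨆ s, |p s| : ℤ) : ℝ) := by
    rw [← hH]
    have : ((↑) : ℤ → ℚ) ∘ p = (Matrix.of S).det • pb := by
      funext s
      simp [hdet s]
    rw [this, Height.mulHeight_smul_eq_mulHeight _ hS0]
  obtain ⟨s₀, hs₀⟩ := exists_eq_ciSup_of_finite (f := fun s => |p s|)
  have hmax : ∀ s, |p s| ≤ |p s₀| := by
    intro s
    rw [hs₀]
    exact le_ciSup (f := fun s => |p s|) (Finite.bddAbove_range _) s
  have hps₀ : p s₀ ≠ 0 := by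
    intro h0
    apply hp0
    funext s
    have := hmax s
    rw [h0, abs_zero] at this
    exact abs_eq_zero.mp (le_antisymm this (abs_nonneg _))
  have hM1 : 1 ≤ (p s₀).natAbs := Nat.one_le_iff_ne_zero.mpr (Int.natAbs_ne_zero.mpr hps₀)
  obtain ⟨q, hq1, hqle, hqlt⟩ := exists_pow_le_lt_succ_pow r (p s₀).natAbs hr hM1
  obtain ⟨c, hc0, hcq⟩ := exists_vecMul_small (V.submatrix id s₀) q hps₀ hqlt
  have hcV : ∀ j, (c ᵥ* V.submatrix id s₀) j = (c ᵥ* V) (s₀ j) := by
    intro j
    simp [Matrix.vecMul, dotProduct]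
  refine ⟨c ᵥ* V, ?_, ?_, ?_⟩
  · intro h0
    apply hc0
    funext j
    rw [hcV, h0]
    rfl
  · have : (fun k => ((c ᵥ* V) k : ℚ)) = ∑ i, (c i : ℚ) • (fun k => (V i k : ℚ)) := by
      funext k
      simp [Matrix.vecMul, dotProduct, Finset.sum_apply]
    rw [this]
    exact Submodule.sum_mem _ fun i _ => Submodule.smul_mem _ _ (hVspan i)
  · intro k
    have hk := abs_vecMul_le_of_maximal_minor V s₀ hps₀ hmax c q
      (fun j => by rw [← hcV]; exact hcq j) k
    rw [hheight, ← hs₀]
    have h1 : ((|(c ᵥ* V) k| : ℤ) : ℝ) ≤ (r : ℝ) * q := by exact_mod_cast hk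
    have h2 : (q : ℝ) ^ r ≤ ((|p s₀| : ℤ) : ℝ) := by
      have : ((q ^ r : ℕ) : ℤ) ≤ |p s₀| := by
        rw [Int.abs_eq_natAbs]
        exact_mod_cast hqle
      exact_mod_cast this
    calc ((|(c ᵥ* V) k| : ℤ) : ℝ) ^ r ≤ ((r : ℝ) * q) ^ r :=
          pow_le_pow_left₀ (by positivity) h1 r
      _ = (r : ℝ) ^ r * (q : ℝ) ^ r := mul_pow _ _ _
      _ ≤ (r : ℝ) ^ r * ((|p s₀| : ℤ) : ℝ) := mul_le_mul_of_nonneg_left h2 (by positivity)

/-- **Sharp Siegel lemma over `ℚ` in Plücker-height form**, explicit constant `r ^ r`. -/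
theorem sharp_siegel_explicit (n r : ℕ) (hr : 0 < r) (b : Fin r → Fin n → ℚ)
    (hb : LinearIndependent ℚ b) :
    ∃ x : Fin n → ℚ, x ≠ 0 ∧ x ∈ Submodule.span ℚ (Set.range b) ∧
      Height.mulHeight x ^ r ≤ (r : ℝ) ^ r *
        Height.mulHeight (fun s : Fin r → Fin n => (Matrix.of fun i j => b i (s j)).det) := by
  obtain ⟨x, hx0, hxmem, hxb⟩ := sharp_siegel_int n r hr b hb
  have hne : Nonempty (Fin n) := by
    by_contra h
    rw [not_nonempty_iff] at h
    exact hx0 (Subsingleton.elim _ _)
  refine ⟨fun k => (x k : ℚ), ?_, hxmem, ?_⟩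
  · intro h0
    apply hx0
    funext k
    have := congrFun h0 k
    simp only [Pi.zero_apply] at this ⊢
    exact_mod_cast this
  · obtain ⟨k₀, hk₀⟩ := exists_eq_ciSup_of_finite (f := fun k => |x k|)
    have hle : Height.mulHeight (fun k => (x k : ℚ)) ≤ ((|x k₀| : ℤ) : ℝ) :=
      mulHeight_intCast_le x hx0 _ (fun k => by
        have : |x k| ≤ |x k₀| := by
          rw [hk₀]
          exact le_ciSup (f := fun k => |x k|) (Finite.bddAbove_range _) k
        exact_mod_cast this)
    exact le_trans (pow_le_pow_left₀ (Height.mulHeight_pos _).le hle r) (hxb k₀)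

/-- **Sharp Siegel lemma over `ℚ` in Plücker-height form** (exponent exactly `1 / r`). -/
theorem sharp_siegel (n r : ℕ) (hr : 0 < r) :
    ∃ C : ℝ, ∀ (b : Fin r → Fin n → ℚ), LinearIndependent ℚ b →
      ∃ x : Fin n → ℚ, x ≠ 0 ∧ x ∈ Submodule.span ℚ (Set.range b) ∧
        Height.mulHeight x ^ r ≤ C *
          Height.mulHeight (fun s : Fin r → Fin n => (Matrix.of fun i j => b i (s j)).det) :=
  ⟨(r : ℝ) ^ r, fun b hb => sharp_siegel_explicit n r hr b hb⟩

/-- Logarithmic form of the sharp Siegel lemma: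
`r * logHeight x ≤ logHeight (Plücker vector) + r * log r`. -/
theorem sharp_siegel_log (n r : ℕ) (hr : 0 < r) (b : Fin r → Fin n → ℚ)
    (hb : LinearIndependent ℚ b) :
    ∃ x : Fin n → ℚ, x ≠ 0 ∧ x ∈ Submodule.span ℚ (Set.range b) ∧
      (r : ℝ) * Height.logHeight x ≤
        Height.logHeight (fun s : Fin r → Fin n => (Matrix.of fun i j => b i (s j)).det) +
          r * Real.log r := by
  obtain ⟨x, hx0, hxmem, hxb⟩ := sharp_siegel_explicit n r hr b hb
  refine ⟨x, hx0, hxmem, ?_⟩
  have hr0 : (0 : ℝ) < r := by exact_mod_cast hr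
  have h1 := Real.log_le_log (pow_pos (Height.mulHeight_pos x) r) hxb
  rw [Real.log_pow, Real.log_mul (pow_pos hr0 r).ne' (Height.mulHeight_pos _).ne',
    Real.log_pow] at h1
  rw [Height.logHeight_eq_log_mulHeight, Height.logHeight_eq_log_mulHeight]
  linarith

end Fermat.Agent.Lib.helper3263
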