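/-
General node-depth law ("NodeVal") for torsion points near a node, on Mathlib's
`WeierstrassCurve.Affine.Point`, for an arbitrary valuation `v` on a field `K`:
NO assumption `v 2 = 1` and NO assumption `v p = 1`.

Setting (`BShape W e B be`): in `ξ = x - e` the `x`-only group law of `W` reads
`ξ₊ ξ₋ (ξ₁ - ξ₂)² = (ξ₁ξ₂ - be)²`, `ψ₂² = ξ (4ξ² + B ξ + 4 be)`
(e.g. `y² + a₁xy = x³ + a₂x² + a₄x` with `e = 0`, `B = a₁² + 4a₂`, `be = a₄`;
or `η² = ξ(ξ² + al ξ + be)` with `B = 4 al`).  If `v B = 1`, `v be < 1`, `be ≠ 0` and `T ≠ 0`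
is a point of odd prime order `p` with `v ξ(T) < 1`, then
`v be < v ξ(T)` and `v ξ(T) ^ p = v be ^ (2j)` for some integer `j`.

Main results: `inE0_add` (the set `E₀ = {O} ∪ {1 ≤ v ξ}` is closed under addition),
`near_multiples`, `nodeVal`, `nodeVal_some`.
-/
import Mathlib
import Fermat.Agent.S05.helper1745_XOnly

set_option autoImplicit false

namespace Fermat.Agent.Lib.helper3266

open WeierstrassCurve WeierstrassCurve.Affine

section Core

variable {Γ : Type*} [AddCommGroup Γ] [LinearOrder Γ] [IsOrderedAddMonoid Γ]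

/-- One step of the node-depth recursion (pure ordered-group arithmetic). -/
theorem core_step (N θ u a a' a'' d w : Γ)
    (hθ : 0 < θ) (haN : a < N) (ha''N : a'' < N)
    (hmin : θ ≤ a) (hmin' : θ ≤ a') (hmin'' : θ ≤ a'')
    (hd : a ≤ d ∨ θ ≤ d) (hd2 : θ < a → d = θ)
    (hw : a + θ ≤ w ∨ N ≤ w) (hw1 : a + θ < N → w = a + θ) (hw2 : N < a + θ → w = N)
    (hP : a'' + a' + 2 • d = 2 • w)
    (hprev : (u < N ∧ a' = u) ∨ (N < u ∧ a' = 2 • N - u))
    (hcur : (u + θ < N ∧ a = u + θ) ∨ (N < u + θ ∧ a = 2 • N - (u + θ))) :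
    (u + θ + θ < N ∧ a'' = u + θ + θ) ∨ (N < u + θ + θ ∧ a'' = 2 • N - (u + θ + θ)) := by
  grind

/-- The duplication step. -/
theorem core_dbl (N θ a₂ δ : Γ) (ha₂ : a₂ < N)
    (hδ : 2 • θ ≤ δ ∨ N ≤ δ) (hδ1 : 2 • θ < N → δ = 2 • θ) (hδ2 : N < 2 • θ → δ = N)
    (hD : a₂ + 2 • θ = 2 • δ) :
    (θ + θ < N ∧ a₂ = θ + θ) ∨ (N < θ + θ ∧ a₂ = 2 • N - (θ + θ)) := by
  grind

/-- **Abstract node-depth law** (minimal-generator form).  `a m` is the depth of `m • T'`
for `1 ≤ m ≤ p - 1`, `θ = a 1` is minimal, `N` is the depth of the node. -/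
theorem core (p : ℕ) (N θ : Γ) (a d w : ℕ → Γ) (δ : Γ)
    (hθ : 0 < θ)
    (hlt : ∀ m, 1 ≤ m → m + 1 ≤ p → a m < N)
    (hmin : ∀ m, 1 ≤ m → m + 1 ≤ p → θ ≤ a m)
    (h1 : a 1 = θ)
    (hd : ∀ m, 2 ≤ m → m + 2 ≤ p →
      (a m ≤ d m ∨ θ ≤ d m) ∧ (θ < a m → d m = θ))
    (hw : ∀ m, 2 ≤ m → m + 2 ≤ p →
      (a m + θ ≤ w m ∨ N ≤ w m) ∧ (a m + θ < N → w m = a m + θ) ∧ (N < a m + θ → w m = N))
    (hP : ∀ m, 2 ≤ m → m + 2 ≤ p → a (m + 1) + a (m - 1) + 2 • d m = 2 • w m)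
    (hδ : (2 • θ ≤ δ ∨ N ≤ δ) ∧ (2 • θ < N → δ = 2 • θ) ∧ (N < 2 • θ → δ = N))
    (hD : a 2 + 2 • θ = 2 • δ) :
    ∀ m, 1 ≤ m → m + 1 ≤ p →
      (m • θ < N ∧ a m = m • θ) ∨ (N < m • θ ∧ a m = 2 • N - m • θ) := by
  intro m
  induction m using Nat.strong_induction_on with
  | _ m ih =>
    intro hm1 hmp
    match m, ih, hm1, hmp with
    | 0, _, hm1, _ => omega
    | 1, _, _, hmp =>
      left
      rw [one_smul]
      exact ⟨h1 ▸ hlt 1 le_rfl hmp, h1⟩
    | 2, _, _, hmp =>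
      have h := core_dbl N θ (a 2) δ (hlt 2 (by omega) hmp) hδ.1 hδ.2.1 hδ.2.2 hD
      rw [two_smul]
      exact h
    | k + 3, ih, _, hmp =>
      have hprev := ih (k + 1) (by omega) (by omega) (by omega)
      have hcur := ih (k + 2) (by omega) (by omega) (by omega)
      have e1 : (k + 2) • θ = (k + 1) • θ + θ := by rw [succ_nsmul]
      have e2 : (k + 3) • θ = (k + 1) • θ + θ + θ := by rw [succ_nsmul, succ_nsmul]
      rw [e1] at hcur
      rw [e2]
      have hP' := hP (k + 2) (by omega) (by omega)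
      have e3 : k + 2 - 1 = k + 1 := by omega
      have e4 : k + 2 + 1 = k + 3 := by omega
      rw [e3, e4] at hP'
      exact core_step N θ ((k + 1) • θ) (a (k + 2)) (a (k + 1)) (a (k + 3)) (d (k + 2)) (w (k + 2))
        hθ (hlt _ (by omega) (by omega)) (hlt _ (by omega) hmp)
        (hmin _ (by omega) (by omega)) (hmin _ (by omega) (by omega)) (hmin _ (by omega) hmp)
        (hd _ (by omega) (by omega)).1 (hd _ (by omega) (by omega)).2
        (hw _ (by omega) (by omega)).1 (hw _ (by omega) (by omega)).2.1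
        (hw _ (by omega) (by omega)).2.2 hP' hprev hcur

/-- Consequence: `p • θ = 2 • N` and `p • a m ∈ 2ℕ • N`. -/
theorem core_final (p : ℕ) (hp : 3 ≤ p) (N θ : Γ) (a : ℕ → Γ)
    (hθ : 0 < θ) (hsym : a (p - 1) = θ)
    (H : ∀ m, 1 ≤ m → m + 1 ≤ p →
      (m • θ < N ∧ a m = m • θ) ∨ (N < m • θ ∧ a m = 2 • N - m • θ)) :
    ∀ m, 1 ≤ m → m + 1 ≤ p → ∃ j : ℕ, p • a m = (2 * j) • N := by
  have hpθ : p • θ = 2 • N := by
    have h := H (p - 1) (by omega) (by omega)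
    have e : p • θ = (p - 1) • θ + θ := by
      conv_lhs => rw [show p = (p - 1) + 1 by omega]
      rw [succ_nsmul]
    have e' : (p - 1) • θ = (p - 2) • θ + θ := by
      conv_lhs => rw [show p - 1 = (p - 2) + 1 by omega]
      rw [succ_nsmul]
    have hpos : 0 < (p - 2) • θ := nsmul_pos hθ (by omega)
    rw [hsym] at h
    grind
  intro m hm1 hmp
  rcases H m hm1 hmp with ⟨_, h⟩ | ⟨_, h⟩
  · refine ⟨m, ?_⟩
    rw [h, smul_comm, hpθ, mul_smul, smul_comm]
  · refine ⟨p - m, ?_⟩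
    rw [h, smul_sub, smul_comm p m θ, hpθ]
    have : (2 * (p - m)) • N + m • (2 • N) = p • (2 • N) := by
      rw [mul_smul, ← smul_comm (p - m) 2 N, ← add_smul]
      congr 1; omega
    rw [← this, add_sub_cancel_right]

end Core

section Ord

variable {K : Type*} [Field K] {Γ₀ : Type*} [LinearOrderedCommGroupWithZero Γ₀]
  (v : Valuation K Γ₀)

open Classical in
/-- Additive order `-log v x` of `x` in `Additive Γ₀ˣ` (junk value `0` at `x = 0`). -/
noncomputable def ordv (x : K) : Additive Γ₀ˣ :=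
  if h : x = 0 then 0 else
    Additive.ofMul (Units.mk0 (v x) ((Valuation.ne_zero_iff v).mpr h))⁻¹

variable {v}

theorem ordv_mul {x y : K} (hx : x ≠ 0) (hy : y ≠ 0) :
    ordv v (x * y) = ordv v x + ordv v y := by
  unfold ordv
  rw [dif_neg hx, dif_neg hy, dif_neg (mul_ne_zero hx hy), ← ofMul_mul, ← mul_inv]
  congr 2
  ext
  simp

theorem ordv_sq {x : K} (hx : x ≠ 0) : ordv v (x ^ 2) = 2 • ordv v x := by
  rw [pow_two, ordv_mul hx hx, two_nsmul]

theorem ordv_le_iff {x y : K} (hx : x ≠ 0) (hy : y ≠ 0) :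
    ordv v x ≤ ordv v y ↔ v y ≤ v x := by
  unfold ordv
  rw [dif_neg hx, dif_neg hy, Additive.ofMul_le, inv_le_inv_iff, ← Units.val_le_val]
  simp

theorem ordv_lt_iff {x y : K} (hx : x ≠ 0) (hy : y ≠ 0) :
    ordv v x < ordv v y ↔ v y < v x := by
  rw [← not_le, ← not_le, ordv_le_iff hy hx]

theorem ordv_eq_iff {x y : K} (hx : x ≠ 0) (hy : y ≠ 0) :
    ordv v x = ordv v y ↔ v x = v y := by
  rw [le_antisymm_iff, ordv_le_iff hx hy, ordv_le_iff hy hx, le_antisymm_iff, and_comm]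

theorem ordv_one : ordv v (1 : K) = 0 := by
  unfold ordv
  rw [dif_neg one_ne_zero]
  have : Units.mk0 (v (1 : K)) ((Valuation.ne_zero_iff v).mpr one_ne_zero) = 1 := by
    ext; simp
  rw [this]; rfl

theorem ordv_pos_iff {x : K} (hx : x ≠ 0) : 0 < ordv v x ↔ v x < 1 := by
  rw [← ordv_one (v := v), ordv_lt_iff one_ne_zero hx, Valuation.map_one]

theorem ordv_sub_ge {x y : K} (hx : x ≠ 0) (hy : y ≠ 0) (hxy : x - y ≠ 0) :
    ordv v x ≤ ordv v (x - y) ∨ ordv v y ≤ ordv v (x - y) := by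
  rcases le_total (v x) (v y) with h | h
  · have h1 : v (x - y) ≤ v y := (Valuation.map_sub v x y).trans (max_le h le_rfl)
    exact Or.inr ((ordv_le_iff hy hxy).mpr h1)
  · have h1 : v (x - y) ≤ v x := (Valuation.map_sub v x y).trans (max_le le_rfl h)
    exact Or.inl ((ordv_le_iff hx hxy).mpr h1)

theorem ordv_sub_eq_left {x y : K} (hx : x ≠ 0) (hy : y ≠ 0) (h : ordv v x < ordv v y) :
    ordv v (x - y) = ordv v x := by
  have hv : v y < v x := (ordv_lt_iff hx hy).mp h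
  have h1 : v (x - y) = v x := Valuation.map_sub_eq_of_lt_left v hv
  have hxy : x - y ≠ 0 := by
    intro h0
    rw [h0, Valuation.map_zero] at h1
    exact (Valuation.ne_zero_iff v).mpr hx h1.symm
  exact (ordv_eq_iff hxy hx).mpr h1

theorem ordv_sub_eq_right {x y : K} (hx : x ≠ 0) (hy : y ≠ 0) (h : ordv v y < ordv v x) :
    ordv v (x - y) = ordv v y := by
  have hv : v x < v y := (ordv_lt_iff hy hx).mp h
  have h1 : v (x - y) = v y := Valuation.map_sub_eq_of_lt_right v hv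
  have hxy : x - y ≠ 0 := by
    intro h0
    rw [h0, Valuation.map_zero] at h1
    exact (Valuation.ne_zero_iff v).mpr hy h1.symm
  exact (ordv_eq_iff hxy hy).mpr h1

/-- Back from additive to multiplicative notation. -/
theorem pow_eq_zpow_of_ordv {x y : K} (hx : x ≠ 0) (hy : y ≠ 0) {p j : ℕ}
    (h : p • ordv v x = (2 * j) • ordv v y) : v x ^ p = v y ^ (2 * (j : ℤ)) := by
  unfold ordv at h
  rw [dif_neg hx, dif_neg hy, ← ofMul_pow, ← ofMul_pow] at h
  have h' := Additive.ofMul.injective h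
  rw [inv_pow, inv_pow, inv_inj] at h'
  have h'' := congrArg Units.val h'
  rw [Units.val_pow_eq_pow_val, Units.val_pow_eq_pow_val] at h''
  simp only [Units.val_mk0] at h''
  rw [h'']
  rw [show (2 * (j : ℤ)) = ((2 * j : ℕ) : ℤ) by push_cast; ring, zpow_natCast]

end Ord

section Curve

variable {K : Type*} [Field K]

/-- `b`-form of a Weierstrass curve with a marked point `x = e` on the `2`-division cubic:
in `ξ = x - e` the `x`-only group law reads
`ξ₊ ξ₋ (ξ₁-ξ₂)² = (ξ₁ξ₂ - be)²`, `ψ₂² = ξ (4ξ² + B ξ + 4 be)`.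
Examples: `y² + a₁xy = x³ + a₂x² + a₄x` (`e = 0`, `B = a₁² + 4a₂`, `be = a₄`), or
`η² = ξ(ξ² + al ξ + be)` (`B = 4 al`). No assumption on the characteristic. -/
structure BShape (W : WeierstrassCurve K) (e B be : K) : Prop where
  hb2 : W.b₂ = B - 12 * e
  hb4 : W.b₄ = 6 * e ^ 2 - B * e + 2 * be
  hb6 : W.b₆ = -4 * e ^ 3 + B * e ^ 2 - 4 * be * e
  hb8 : W.b₈ = 3 * e ^ 4 - B * e ^ 3 + 6 * be * e ^ 2 - be ^ 2

/-- If `2 ≠ 0`, the `b₈` condition is automatic. -/
theorem BShape.of_two_ne {W : WeierstrassCurve K} {e B be : K} (h2 : (2 : K) ≠ 0)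
    (hb2 : W.b₂ = B - 12 * e) (hb4 : W.b₄ = 6 * e ^ 2 - B * e + 2 * be)
    (hb6 : W.b₆ = -4 * e ^ 3 + B * e ^ 2 - 4 * be * e) : BShape W e B be := by
  refine ⟨hb2, hb4, hb6, ?_⟩
  have h4 : (4 : K) ≠ 0 := by
    have : (4 : K) = 2 * 2 := by norm_num
    rw [this]; exact mul_ne_zero h2 h2
  have hrel := W.b_relation
  rw [hb2, hb4, hb6] at hrel
  apply mul_left_cancel₀ h4
  linear_combination hrel

variable {W : WeierstrassCurve K} {e B be : K}

/-- The shifted `x`-coordinate `ξ = x - e` of a point (`0` at infinity). -/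
def xiOf (e : K) : W.toAffine.Point → K
  | .zero => 0
  | .some x _ _ => x - e

@[simp] theorem xiOf_some (x y : K) (h : W.toAffine.Nonsingular x y) :
    xiOf e (Point.some x y h) = x - e := rfl

theorem xiOf_neg (P : W.toAffine.Point) : xiOf e (-P) = xiOf e P := by
  cases P with
  | zero => rfl
  | some x y h => rfl

variable [DecidableEq K]

/-- Product and sum formulas for `ξ(P ± Q)`. -/
theorem xi_add_sub (hS : BShape W e B be) {P Q : W.toAffine.Point} (hP : P ≠ 0) (hQ : Q ≠ 0)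
    (hPQ : P ≠ Q) (hPQ' : P ≠ -Q) :
    P + Q ≠ 0 ∧ P - Q ≠ 0 ∧ xiOf e P ≠ xiOf e Q ∧
    xiOf e (P + Q) * xiOf e (P - Q) * (xiOf e P - xiOf e Q) ^ 2 =
      (xiOf e P * xiOf e Q - be) ^ 2 ∧
    (xiOf e (P + Q) + xiOf e (P - Q)) * (xiOf e P - xiOf e Q) ^ 2 =
      2 * (xiOf e P + xiOf e Q) * (xiOf e P * xiOf e Q + be) + B * xiOf e P * xiOf e Q := by
  cases P with
  | zero => exact absurd rfl hP
  | some x₁ y₁ h₁ =>
    cases Q with
    | zero => exact absurd rfl hQ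
    | some x₂ y₂ h₂ =>
      have hx : x₁ ≠ x₂ := by
        intro h
        rcases Point.X_eq_iff.mp h with h' | h'
        · exact hPQ h'
        · exact hPQ' h'
      obtain ⟨Xp, Yp, Xm, Ym, hp, hm, hadd, hsub, hprod, hsum⟩ :=
        Fermat.Agent.S05.helper1745.exists_add_sub_some (W := W.toAffine) h₁ h₂ hx
      rw [hadd, hsub]
      refine ⟨Point.some_ne_zero _, Point.some_ne_zero _, ?_, ?_, ?_⟩
      · simp only [xiOf_some]
        intro h; exact hx (sub_left_injective h)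
      · simp only [xiOf_some]
        rw [hS.hb8, hS.hb4, hS.hb6] at hprod
        rw [hS.hb2, hS.hb4, hS.hb6] at hsum
        linear_combination hprod - e * hsum
      · simp only [xiOf_some]
        rw [hS.hb2, hS.hb4, hS.hb6] at hsum
        linear_combination hsum

/-- Duplication formula for `ξ(2P)`. -/
theorem xi_dbl (hS : BShape W e B be) {P : W.toAffine.Point} (hP : P ≠ 0) (h2 : P + P ≠ 0) :
    xiOf e (P + P) * (xiOf e P * (4 * xiOf e P ^ 2 + B * xiOf e P + 4 * be)) =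
      (xiOf e P ^ 2 - be) ^ 2 ∧
    xiOf e P * (4 * xiOf e P ^ 2 + B * xiOf e P + 4 * be) ≠ 0 := by
  cases P with
  | zero => exact absurd rfl hP
  | some x y h =>
    have hy : y ≠ W.toAffine.negY x y := by
      intro hy
      exact h2 (Point.add_self_of_Y_eq hy)
    obtain ⟨X, Y, h', hadd, hdup, hne⟩ :=
      Fermat.Agent.S05.helper1745.exists_add_self_some (W := W.toAffine) h hy
    have hcub : 4 * x ^ 3 + W.b₂ * x ^ 2 + 2 * W.b₄ * x + W.b₆ =
        (x - e) * (4 * (x - e) ^ 2 + B * (x - e) + 4 * be) := by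
      rw [hS.hb2, hS.hb4, hS.hb6]; ring
    rw [hadd]
    simp only [xiOf_some]
    refine ⟨?_, ?_⟩
    · rw [hcub, hS.hb8, hS.hb4, hS.hb6] at hdup
      linear_combination hdup
    · rw [← hcub]; exact hne

/-- If the `2`-division cubic vanishes at `P`, then `2P = 0`. -/
theorem xi_dbl_zero (hS : BShape W e B be) {P : W.toAffine.Point}
    (h0 : xiOf e P * (4 * xiOf e P ^ 2 + B * xiOf e P + 4 * be) = 0) : P + P = 0 := by
  cases P with
  | zero => exact add_zero _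
  | some x y h =>
    simp only [xiOf_some] at h0
    apply Fermat.Agent.S05.helper1745.add_self_eq_zero_of_cubic_eq_zero (W := W.toAffine) h
    rw [hS.hb2, hS.hb4, hS.hb6]
    linear_combination h0

end Curve

section Val

variable {K : Type*} [Field K] {Γ₀ : Type*} [LinearOrderedCommGroupWithZero Γ₀]
  (v : Valuation K Γ₀)

theorem v_two_le : v (2 : K) ≤ 1 := by
  have : (2 : K) = 1 + 1 := by norm_num
  rw [this]; exact v.map_add_le (le_of_eq v.map_one) (le_of_eq v.map_one)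

theorem v_four_le : v (4 : K) ≤ 1 := by
  have : (4 : K) = 2 + 2 := by norm_num
  rw [this]; exact v.map_add_le (v_two_le v) (v_two_le v)

variable {v}

theorem vle_mul {x y : K} (hx : v x ≤ 1) (hy : v y ≤ 1) : v (x * y) ≤ 1 := by
  rw [map_mul]; exact mul_le_one' hx hy

theorem vle_add {x y : K} (hx : v x ≤ 1) (hy : v y ≤ 1) : v (x + y) ≤ 1 :=
  v.map_add_le hx hy

theorem vle_sub {x y : K} (hx : v x ≤ 1) (hy : v y ≤ 1) : v (x - y) ≤ 1 :=
  v.map_sub_le hx hy

theorem vle_pow {x : K} (hx : v x ≤ 1) (n : ℕ) : v (x ^ n) ≤ 1 := by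
  rw [map_pow]; exact pow_le_one' hx n

theorem vle_inv {x : K} (hx : 1 ≤ v x) : v x⁻¹ ≤ 1 := by
  rw [map_inv₀]
  exact inv_le_one_of_one_le₀ hx

/-- A root of a monic quadratic with integral coefficients is integral. -/
theorem le_one_of_add_mul {r r' : K} (h1 : v (r + r') ≤ 1) (h2 : v (r * r') ≤ 1) : v r ≤ 1 := by
  by_contra h
  rw [not_le] at h
  have hr' : v r' < 1 := by
    by_contra h'
    rw [not_lt] at h'
    rw [map_mul] at h2
    have : 1 < v r * v r' := by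
      rw [mul_comm]
      calc 1 < v r := h
        _ = 1 * v r := (one_mul _).symm
        _ ≤ v r' * v r := mul_le_mul_left h' _
    exact absurd h2 (not_le.mpr this)
  have : v (r + r') = v r := Valuation.map_add_eq_of_lt_left v (hr'.trans h)
  rw [this] at h1
  exact absurd h1 (not_le.mpr h)

theorem one_le_of_inv_le {x : K} (hx : x ≠ 0) (h : v x⁻¹ ≤ 1) : 1 ≤ v x := by
  rw [map_inv₀] at h
  have hv : v x ≠ 0 := (Valuation.ne_zero_iff v).mpr hx
  by_contra h'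
  rw [not_le] at h'
  have : 1 < (v x)⁻¹ := (one_lt_inv₀ (zero_lt_iff.mpr hv)).mpr h'
  exact absurd h (not_le.mpr this)

theorem tau_prod {ξ₁ ξ₂ ξp ξm be : K} (h1 : ξ₁ ≠ 0) (h2 : ξ₂ ≠ 0) (hp : ξp ≠ 0)
    (hm : ξm ≠ 0) (hprod : ξp * ξm * (ξ₁ - ξ₂) ^ 2 = (ξ₁ * ξ₂ - be) ^ 2) :
    ξp⁻¹ * ξm⁻¹ * (1 - be * ξ₁⁻¹ * ξ₂⁻¹) ^ 2 = (ξ₁⁻¹ - ξ₂⁻¹) ^ 2 := by
  field_simp
  linear_combination (-1 : K) * hprod

theorem tau_sum {ξ₁ ξ₂ ξp ξm be B : K} (h1 : ξ₁ ≠ 0) (h2 : ξ₂ ≠ 0) (hp : ξp ≠ 0)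
    (hm : ξm ≠ 0) (hprod : ξp * ξm * (ξ₁ - ξ₂) ^ 2 = (ξ₁ * ξ₂ - be) ^ 2)
    (hsum : (ξp + ξm) * (ξ₁ - ξ₂) ^ 2 = 2 * (ξ₁ + ξ₂) * (ξ₁ * ξ₂ + be) + B * ξ₁ * ξ₂) :
    (ξp⁻¹ + ξm⁻¹) * (1 - be * ξ₁⁻¹ * ξ₂⁻¹) ^ 2 =
      2 * (ξ₁⁻¹ + ξ₂⁻¹) * (1 + be * ξ₁⁻¹ * ξ₂⁻¹) + B * ξ₁⁻¹ * ξ₂⁻¹ := by
  field_simp
  linear_combination (-(ξp + ξm)) * hprod + ξp * ξm * hsum

theorem tau_dbl {ξ X be B : K} (h : ξ ≠ 0) (hX : X ≠ 0)
    (hd : X * (ξ * (4 * ξ ^ 2 + B * ξ + 4 * be)) = (ξ ^ 2 - be) ^ 2) :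
    X⁻¹ * (1 - be * ξ⁻¹ ^ 2) ^ 2 = 4 * ξ⁻¹ + B * ξ⁻¹ ^ 2 + 4 * be * ξ⁻¹ ^ 3 := by
  field_simp
  linear_combination (-1 : K) * hd

variable [DecidableEq K] {W : WeierstrassCurve K} {e B be : K}

variable (v) in
/-- `E₀`: the point at infinity together with the points with `1 ≤ v ξ`
(the points not reducing to the node `ξ = 0`). -/
def InE0 (e : K) (P : W.toAffine.Point) : Prop := P = 0 ∨ 1 ≤ v (xiOf e P)

omit [DecidableEq K] in
theorem inE0_zero : InE0 v e (0 : W.toAffine.Point) := Or.inl rfl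

theorem inE0_neg {P : W.toAffine.Point} (h : InE0 v e P) : InE0 v e (-P) := by
  rcases h with rfl | h
  · left; exact neg_zero
  · right; rwa [xiOf_neg]

/-- **`E₀` is closed under addition** (any residue characteristic). -/
theorem inE0_add (hS : BShape W e B be) (hB : v B ≤ 1) (hbe : v be < 1)
    {P Q : W.toAffine.Point} (hP : InE0 v e P) (hQ : InE0 v e Q) : InE0 v e (P + Q) := by
  rcases hP with rfl | hP
  · rwa [zero_add]
  rcases hQ with rfl | hQ
  · rw [add_zero]; exact Or.inr hP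
  by_cases hP0 : P = 0
  · subst hP0; rw [zero_add]; exact Or.inr hQ
  by_cases hQ0 : Q = 0
  · subst hQ0; rw [add_zero]; exact Or.inr hP
  by_cases h1 : P = -Q
  · left; rw [h1]; exact neg_add_cancel Q
  have hξ1 : xiOf e P ≠ 0 := by
    intro h; rw [h, Valuation.map_zero] at hP; exact absurd hP (not_le.mpr zero_lt_one)
  have hξ2 : xiOf e Q ≠ 0 := by
    intro h; rw [h, Valuation.map_zero] at hQ; exact absurd hQ (not_le.mpr zero_lt_one)
  have hτ1 : v (xiOf e P)⁻¹ ≤ 1 := vle_inv hP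
  have hτ2 : v (xiOf e Q)⁻¹ ≤ 1 := vle_inv hQ
  have h2' := v_two_le v
  have h4' := v_four_le v
  by_cases h2 : P = Q
  · subst h2
    by_cases h3 : P + P = 0
    · exact Or.inl h3
    right
    obtain ⟨hd, hne⟩ := xi_dbl hS hP0 h3
    have hu : v (1 - be * (xiOf e P)⁻¹ ^ 2) = 1 := by
      apply Valuation.map_one_sub_of_lt
      rw [map_mul]
      exact mul_lt_one_of_lt_of_le hbe (vle_pow hτ1 2)
    have hnum : v ((xiOf e P) ^ 2 - be) ≠ 0 := by
      rw [Valuation.ne_zero_iff]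
      intro h0
      have : v ((xiOf e P) ^ 2 - be) = v ((xiOf e P) ^ 2) := by
        apply Valuation.map_sub_eq_of_lt_left
        rw [map_pow]
        exact lt_of_lt_of_le hbe (one_le_pow₀ hP)
      rw [h0, Valuation.map_zero, map_pow] at this
      exact absurd this.symm (pow_ne_zero 2 ((Valuation.ne_zero_iff v).mpr hξ1))
    have hX : xiOf e (P + P) ≠ 0 := by
      intro h0
      rw [h0, zero_mul] at hd
      have h5 := congrArg v hd
      rw [Valuation.map_zero, map_pow] at h5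
      exact pow_ne_zero 2 hnum h5.symm
    have ht := tau_dbl hξ1 hX hd
    have hle : v ((xiOf e (P + P))⁻¹ * (1 - be * (xiOf e P)⁻¹ ^ 2) ^ 2) ≤ 1 := by
      rw [ht]
      exact vle_add (vle_add (vle_mul h4' hτ1) (vle_mul hB (vle_pow hτ1 2)))
        (vle_mul (vle_mul h4' hbe.le) (vle_pow hτ1 3))
    rw [map_mul, map_pow, hu, one_pow, mul_one] at hle
    exact one_le_of_inv_le hX hle
  · right
    obtain ⟨-, -, -, hprod, hsum⟩ := xi_add_sub hS hP0 hQ0 h2 h1
    have hu : v (1 - be * (xiOf e P)⁻¹ * (xiOf e Q)⁻¹) = 1 := by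
      apply Valuation.map_one_sub_of_lt
      rw [map_mul, map_mul]
      exact mul_lt_one_of_lt_of_le (mul_lt_one_of_lt_of_le hbe hτ1) hτ2
    have hD : v (xiOf e P * xiOf e Q - be) ≠ 0 := by
      have : v (xiOf e P * xiOf e Q - be) = v (xiOf e P * xiOf e Q) := by
        apply Valuation.map_sub_eq_of_lt_left
        rw [map_mul]
        exact lt_of_lt_of_le hbe (one_le_mul_of_one_le_of_one_le hP hQ)
      rw [this]
      exact (Valuation.ne_zero_iff v).mpr (mul_ne_zero hξ1 hξ2)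
    have hpm : xiOf e (P + Q) * xiOf e (P - Q) ≠ 0 := by
      intro h0
      rw [h0, zero_mul] at hprod
      have := congrArg v hprod
      rw [Valuation.map_zero, map_pow] at this
      exact pow_ne_zero 2 hD this.symm
    have hXp : xiOf e (P + Q) ≠ 0 := left_ne_zero_of_mul hpm
    have hXm : xiOf e (P - Q) ≠ 0 := right_ne_zero_of_mul hpm
    have ht1 := tau_prod hξ1 hξ2 hXp hXm hprod
    have ht2 := tau_sum hξ1 hξ2 hXp hXm hprod hsum
    have hle1 : v ((xiOf e (P + Q))⁻¹ * (xiOf e (P - Q))⁻¹ *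
        (1 - be * (xiOf e P)⁻¹ * (xiOf e Q)⁻¹) ^ 2) ≤ 1 := by
      rw [ht1]
      exact vle_pow (vle_sub hτ1 hτ2) 2
    have hle2 : v (((xiOf e (P + Q))⁻¹ + (xiOf e (P - Q))⁻¹) *
        (1 - be * (xiOf e P)⁻¹ * (xiOf e Q)⁻¹) ^ 2) ≤ 1 := by
      rw [ht2]
      exact vle_add (vle_mul (vle_mul h2' (vle_add hτ1 hτ2))
        (vle_add (le_of_eq v.map_one) (vle_mul (vle_mul hbe.le hτ1) hτ2)))
        (vle_mul (vle_mul hB hτ1) hτ2)
    rw [map_mul, map_pow, hu, one_pow, mul_one] at hle1 hle2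
    exact one_le_of_inv_le hXp (le_one_of_add_mul hle2 hle1)

theorem inE0_nsmul (hS : BShape W e B be) (hB : v B ≤ 1) (hbe : v be < 1)
    {P : W.toAffine.Point} (hP : InE0 v e P) (n : ℕ) : InE0 v e (n • P) := by
  induction n with
  | zero => rw [zero_nsmul]; exact inE0_zero
  | succ n ih => rw [succ_nsmul]; exact inE0_add hS hB hbe ih hP

end Val
section Main

variable {K : Type*} [Field K] [DecidableEq K] {Γ₀ : Type*} [LinearOrderedCommGroupWithZero Γ₀]
  {v : Valuation K Γ₀} {W : WeierstrassCurve K} {e B be : K}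

/-- A point at depth `≥ N` (i.e. `v ξ ≤ v be`) doubles into `E₀`. -/
theorem inE0_dbl_of_le (hS : BShape W e B be) (hB : v B ≤ 1) (hbe : v be < 1) (hbe0 : be ≠ 0)
    {P : W.toAffine.Point} (hP : P ≠ 0) (hξ0 : xiOf e P ≠ 0) (hξ : v (xiOf e P) ≤ v be) :
    InE0 v e (P + P) := by
  by_cases h3 : P + P = 0
  · exact Or.inl h3
  right
  obtain ⟨hd, hne⟩ := xi_dbl hS hP h3
  have hq0 : 4 * xiOf e P ^ 2 + B * xiOf e P + 4 * be ≠ 0 := right_ne_zero_of_mul hne
  have hξ1 : v (xiOf e P) ≤ 1 := hξ.trans hbe.le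
  -- `v q ≤ v be`
  have hq : v (4 * xiOf e P ^ 2 + B * xiOf e P + 4 * be) ≤ v be := by
    refine v.map_add_le (v.map_add_le ?_ ?_) ?_
    · rw [map_mul, map_pow, pow_two]
      calc v 4 * (v (xiOf e P) * v (xiOf e P)) ≤ 1 * (1 * v (xiOf e P)) :=
            mul_le_mul' (v_four_le v) (mul_le_mul' hξ1 le_rfl)
        _ = v (xiOf e P) := by rw [one_mul, one_mul]
        _ ≤ v be := hξ
    · rw [map_mul]
      calc v B * v (xiOf e P) ≤ 1 * v (xiOf e P) := mul_le_mul' hB le_rfl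
        _ = v (xiOf e P) := one_mul _
        _ ≤ v be := hξ
    · rw [map_mul]
      calc v 4 * v be ≤ 1 * v be := mul_le_mul' (v_four_le v) le_rfl
        _ = v be := one_mul _
  have hsq0 : xiOf e P ^ 2 ≠ 0 := pow_ne_zero 2 hξ0
  -- additive bookkeeping
  have hN : 0 < ordv v be := (ordv_pos_iff hbe0).mpr hbe
  have ho : ordv v be ≤ ordv v (xiOf e P) := (ordv_le_iff hbe0 hξ0).mpr hξ
  have hoq : ordv v be ≤ ordv v (4 * xiOf e P ^ 2 + B * xiOf e P + 4 * be) :=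
    (ordv_le_iff hbe0 hq0).mpr hq
  have h2o : ordv v (xiOf e P ^ 2) = 2 • ordv v (xiOf e P) := ordv_sq hξ0
  have hnum : ordv v (xiOf e P ^ 2 - be) = ordv v be := by
    apply ordv_sub_eq_right hsq0 hbe0
    rw [h2o]
    grind
  have hnum0 : xiOf e P ^ 2 - be ≠ 0 := by
    intro h0
    have h1 : xiOf e P ^ 2 = be := sub_eq_zero.mp h0
    have h2 : ordv v (xiOf e P ^ 2) = ordv v be := by rw [h1]
    rw [h2o] at h2
    grind
  have hX : xiOf e (P + P) ≠ 0 := by
    intro h0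
    rw [h0, zero_mul] at hd
    exact pow_ne_zero 2 hnum0 hd.symm
  have hE := congrArg (ordv v) hd
  rw [ordv_mul hX hne, ordv_mul hξ0 hq0, ordv_sq hnum0, hnum] at hE
  have hfin : ordv v (xiOf e (P + P)) ≤ 0 := by grind
  rw [← ordv_one (v := v), ordv_le_iff hX one_ne_zero, Valuation.map_one] at hfin
  exact hfin

/-- **All nonzero multiples of a near-node point of odd prime order are near the node**,
strictly inside the region `v be < v ξ < 1`. -/
theorem near_multiples (hS : BShape W e B be) (hB : v B ≤ 1) (hbe : v be < 1) (hbe0 : be ≠ 0)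
    {p : ℕ} (hp : p.Prime) (hp2 : p ≠ 2) {T : W.toAffine.Point} (hT0 : T ≠ 0)
    (hT : v (xiOf e T) < 1) (hpT : p • T = 0) (k : ℕ) (hk : ¬ p ∣ k) :
    k • T ≠ 0 ∧ xiOf e (k • T) ≠ 0 ∧ v be < v (xiOf e (k • T)) ∧ v (xiOf e (k • T)) < 1 := by
  have : Fact p.Prime := ⟨hp⟩
  have hord : addOrderOf T = p := addOrderOf_eq_prime hpT hT0
  have hne : ∀ k, ¬ p ∣ k → k • T ≠ 0 := by
    intro k hk h
    exact hk (hord ▸ addOrderOf_dvd_of_nsmul_eq_zero h)
  have hnear : ∀ k, ¬ p ∣ k → v (xiOf e (k • T)) < 1 := by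
    intro k hk
    by_contra hge
    rw [not_lt] at hge
    have hE : InE0 v e (k • T) := Or.inr hge
    have hcop : Nat.Coprime k p := ((Nat.Prime.coprime_iff_not_dvd hp).mpr hk).symm
    obtain ⟨j, -, hj⟩ := Nat.exists_mul_mod_eq_one_of_coprime hcop hp.one_lt
    have hT' : j • (k • T) = T := by
      rw [← mul_nsmul, ← Nat.div_add_mod (k * j) p, hj, add_nsmul, mul_nsmul, hpT, smul_zero,
        zero_add, one_nsmul]
    have h := inE0_nsmul hS hB hbe hE j
    rw [hT'] at h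
    rcases h with h | h
    · exact hT0 h
    · exact absurd hT (not_lt.mpr h)
  have h2k : ∀ k, ¬ p ∣ k → ¬ p ∣ 2 * k := by
    intro k hk h
    rcases (Nat.Prime.dvd_mul hp).mp h with h | h
    · exact hp2 ((Nat.prime_dvd_prime_iff_eq hp Nat.prime_two).mp h)
    · exact hk h
  have hξ0 : xiOf e (k • T) ≠ 0 := by
    intro h0
    have h := xi_dbl_zero hS (P := k • T) (B := B) (be := be) (by rw [h0, zero_mul])
    rw [← two_nsmul, ← mul_nsmul'] at h
    exact hne (2 * k) (h2k k hk) h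
  refine ⟨hne k hk, hξ0, ?_, hnear k hk⟩
  by_contra hle
  rw [not_lt] at hle
  have h := inE0_dbl_of_le hS hB hbe hbe0 (hne k hk) hξ0 hle
  rw [← two_nsmul, ← mul_nsmul'] at h
  rcases h with h | h
  · exact hne (2 * k) (h2k k hk) h
  · exact absurd (hnear (2 * k) (h2k k hk)) (not_lt.mpr h)

end Main
section Final

variable {K : Type*} [Field K] [DecidableEq K] {Γ₀ : Type*} [LinearOrderedCommGroupWithZero Γ₀]
  {v : Valuation K Γ₀} {W : WeierstrassCurve K} {e B be : K}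

omit [DecidableEq K] in
/-- `v (4ξ² + Bξ + 4be) = v ξ` for `v be < v ξ < 1`, `v B = 1`. -/
theorem v_quad_eq (hB : v B = 1) {ξ : K} (hξ0 : ξ ≠ 0) (hξ : v ξ < 1) (hbe : v be < v ξ) :
    v (4 * ξ ^ 2 + B * ξ + 4 * be) = v ξ := by
  have hBξ : v (B * ξ) = v ξ := by rw [map_mul, hB, one_mul]
  have h1 : v (4 * ξ ^ 2) < v (B * ξ) := by
    rw [hBξ, map_mul]
    have hsq : v (ξ ^ 2) < v ξ := by
      rw [← ordv_lt_iff hξ0 (pow_ne_zero 2 hξ0), ordv_sq hξ0]
      have := (ordv_pos_iff hξ0).mpr hξ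
      grind
    calc v 4 * v (ξ ^ 2) ≤ 1 * v (ξ ^ 2) := mul_le_mul' (v_four_le v) le_rfl
      _ = v (ξ ^ 2) := one_mul _
      _ < v ξ := hsq
  have h2 : v (4 * ξ ^ 2 + B * ξ) = v ξ := by
    rw [Valuation.map_add_eq_of_lt_right v h1, hBξ]
  have h3 : v (4 * be) < v (4 * ξ ^ 2 + B * ξ) := by
    rw [h2, map_mul]
    calc v 4 * v be ≤ 1 * v be := mul_le_mul' (v_four_le v) le_rfl
      _ = v be := one_mul _
      _ < v ξ := hbe
  rw [Valuation.map_add_eq_of_lt_left v h3, h2]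

/-- **General NodeVal** (no assumption on `v 2` or `v p`): a point `T ≠ 0` of odd prime
order `p` near the node (`v ξ(T) < 1`) satisfies `v be < v ξ(T)` and
`v ξ(T) ^ p = v be ^ (2j)` for some integer `j`. -/
theorem nodeVal (hS : BShape W e B be) (hB : v B = 1) (hbe : v be < 1) (hbe0 : be ≠ 0)
    {p : ℕ} (hp : p.Prime) (hp2 : p ≠ 2) {T : W.toAffine.Point} (hT0 : T ≠ 0)
    (hT : v (xiOf e T) < 1) (hpT : p • T = 0) :
    v be < v (xiOf e T) ∧ ∃ j : ℤ, v (xiOf e T) ^ p = v be ^ (2 * j) := by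
  have hB' : v B ≤ 1 := hB.le
  have M := fun k hk => near_multiples hS hB' hbe hbe0 hp hp2 hT0 hT hpT k hk
  have hp3 : 3 ≤ p := by
    have := hp.two_le
    omega
  have hndvd : ∀ m, 1 ≤ m → m + 1 ≤ p → ¬ p ∣ m := fun m h1 h2 h => by
    have := Nat.le_of_dvd (by omega) h
    omega
  have hM1 := M 1 (hndvd 1 le_rfl (by omega))
  rw [one_nsmul] at hM1
  refine ⟨hM1.2.2.1, ?_⟩
  -- a generator `T' = k₀ • T` with `v ξ(T')` maximal
  obtain ⟨k₀, hk₀mem, hk₀max⟩ := Finset.exists_max_image (Finset.Icc 1 (p - 1))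
    (fun k => v (xiOf e (k • T))) ⟨1, Finset.mem_Icc.mpr ⟨le_rfl, by omega⟩⟩
  rw [Finset.mem_Icc] at hk₀mem
  have hk₀ : ¬ p ∣ k₀ := hndvd k₀ hk₀mem.1 (by omega)
  have hmk : ∀ m, 1 ≤ m → m + 1 ≤ p → ¬ p ∣ m * k₀ := fun m h1 h2 h => by
    rcases (Nat.Prime.dvd_mul hp).mp h with h | h
    · exact hndvd m h1 h2 h
    · exact hk₀ h
  obtain ⟨T', hT'⟩ : ∃ T', T' = k₀ • T := ⟨_, rfl⟩
  have hsm : ∀ m : ℕ, m • T' = (m * k₀) • T := fun m => by rw [hT', mul_nsmul']
  have hpT' : p • T' = 0 := by rw [hT', smul_comm, hpT, smul_zero]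
  obtain ⟨x, hx⟩ : ∃ x : ℕ → K, ∀ m, x m = xiOf e (m • T') := ⟨fun m => xiOf e (m • T'), fun _ => rfl⟩
  have hx1 : x 1 = xiOf e T' := by rw [hx, one_nsmul]
  have F : ∀ m, 1 ≤ m → m + 1 ≤ p →
      m • T' ≠ 0 ∧ x m ≠ 0 ∧ v be < v (x m) ∧ v (x m) < 1 := fun m h1 h2 => by
    have := M (m * k₀) (hmk m h1 h2)
    rw [← hsm, ← hx] at this
    exact this
  have hmax : ∀ m, 1 ≤ m → m + 1 ≤ p → v (x m) ≤ v (x 1) := by
    intro m h1 h2
    have hmod : (m * k₀) • T = ((m * k₀) % p) • T := by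
      conv_lhs => rw [← Nat.div_add_mod (m * k₀) p, add_nsmul, mul_nsmul, hpT, smul_zero, zero_add]
    have hmem : (m * k₀) % p ∈ Finset.Icc 1 (p - 1) := by
      rw [Finset.mem_Icc]
      have h0 : (m * k₀) % p ≠ 0 := fun h => hmk m h1 h2 (Nat.dvd_of_mod_eq_zero h)
      have h' : (m * k₀) % p < p := Nat.mod_lt _ hp.pos
      omega
    have := hk₀max _ hmem
    rw [hx, hx, hsm m, hmod, one_nsmul, hT']
    exact this
  have F1 := F 1 le_rfl (by omega)
  have hT'0 : T' ≠ 0 := by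
    have := F1.1
    rwa [one_nsmul] at this
  -- the product formula along the multiples of `T'`
  have key : ∀ m, 2 ≤ m → m + 2 ≤ p →
      x m ≠ x 1 ∧ x (m + 1) * x (m - 1) * (x m - x 1) ^ 2 = (x m * x 1 - be) ^ 2 := by
    intro m h1 h2
    have hP0 := (F m (by omega) (by omega)).1
    have hdec : m • T' = (m - 1) • T' + T' := by
      rw [← succ_nsmul]
      congr 1
      omega
    have hne1 : m • T' ≠ T' := by
      intro h
      rw [hdec] at h
      exact (F (m - 1) (by omega) (by omega)).1 (add_eq_right.mp h)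
    have hne2 : m • T' ≠ -T' := by
      intro h
      have : (m + 1) • T' = 0 := by rw [succ_nsmul, h, neg_add_cancel]
      exact (F (m + 1) (by omega) (by omega)).1 this
    obtain ⟨-, -, hne, hprod, -⟩ := xi_add_sub hS hP0 hT'0 hne1 hne2
    have e1 : m • T' + T' = (m + 1) • T' := (succ_nsmul T' m).symm
    have e2 : m • T' - T' = (m - 1) • T' := by rw [hdec, add_sub_cancel_right]
    rw [e1, e2, ← hx, ← hx, ← hx, ← hx1] at hprod
    rw [← hx, ← hx1] at hne
    exact ⟨hne, hprod⟩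
  -- duplication at `T'`
  have F2 := F 2 (by omega) (by omega)
  have h2T' : T' + T' ≠ 0 := by
    have := F2.1
    rwa [two_nsmul] at this
  obtain ⟨hdbl, hdne⟩ := xi_dbl hS hT'0 h2T'
  rw [← two_nsmul, ← hx, ← hx1] at hdbl
  rw [← hx1] at hdne
  have hq0 : 4 * x 1 ^ 2 + B * x 1 + 4 * be ≠ 0 := right_ne_zero_of_mul hdne
  have hq : ordv v (4 * x 1 ^ 2 + B * x 1 + 4 * be) = ordv v (x 1) :=
    (ordv_eq_iff hq0 F1.2.1).mpr (v_quad_eq hB F1.2.1 F1.2.2.2 F1.2.2.1)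
  have hδ0 : x 1 ^ 2 - be ≠ 0 := by
    intro h0
    rw [h0] at hdbl
    have : x 2 * (x 1 * (4 * x 1 ^ 2 + B * x 1 + 4 * be)) ≠ 0 := mul_ne_zero F2.2.1 hdne
    exact this (by rw [hdbl]; ring)
  have hsq0 : x 1 ^ 2 ≠ 0 := pow_ne_zero 2 F1.2.1
  -- the abstract core
  have Hcore := core p (ordv v be) (ordv v (x 1)) (fun m => ordv v (x m))
    (fun m => ordv v (x m - x 1)) (fun m => ordv v (x m * x 1 - be)) (ordv v (x 1 ^ 2 - be))
    ((ordv_pos_iff F1.2.1).mpr F1.2.2.2)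
    (fun m h1 h2 => (ordv_lt_iff (F m h1 h2).2.1 hbe0).mpr (F m h1 h2).2.2.1)
    (fun m h1 h2 => (ordv_le_iff F1.2.1 (F m h1 h2).2.1).mpr (hmax m h1 h2))
    rfl
    (fun m h1 h2 => by
      have hm := (F m (by omega) (by omega)).2.1
      have hk := key m h1 h2
      exact ⟨ordv_sub_ge hm F1.2.1 (sub_ne_zero.mpr hk.1), fun h => ordv_sub_eq_right hm F1.2.1 h⟩)
    (fun m h1 h2 => by
      have hm := (F m (by omega) (by omega)).2.1
      have hk := key m h1 h2
      have hmul : x m * x 1 ≠ 0 := mul_ne_zero hm F1.2.1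
      have hne0 : x m * x 1 - be ≠ 0 := by
        intro h0
        have hl : x (m + 1) * x (m - 1) * (x m - x 1) ^ 2 ≠ 0 :=
          mul_ne_zero (mul_ne_zero (F (m + 1) (by omega) (by omega)).2.1
            (F (m - 1) (by omega) (by omega)).2.1) (pow_ne_zero 2 (sub_ne_zero.mpr hk.1))
        rw [hk.2, h0] at hl
        exact hl (by ring)
      have hom : ordv v (x m * x 1) = ordv v (x m) + ordv v (x 1) := ordv_mul hm F1.2.1
      refine ⟨?_, ?_, ?_⟩
      · have := ordv_sub_ge (v := v) hmul hbe0 hne0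
        rwa [hom] at this
      · intro h
        have := ordv_sub_eq_left (v := v) hmul hbe0 (by rw [hom]; exact h)
        rwa [hom] at this
      · intro h
        exact ordv_sub_eq_right hmul hbe0 (by rw [hom]; exact h))
    (fun m h1 h2 => by
      have hm := (F m (by omega) (by omega)).2.1
      have hk := key m h1 h2
      have hd0 : x m - x 1 ≠ 0 := sub_ne_zero.mpr hk.1
      have hp1 := (F (m + 1) (by omega) (by omega)).2.1
      have hm1 := (F (m - 1) (by omega) (by omega)).2.1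
      have hne0 : x m * x 1 - be ≠ 0 := by
        intro h0
        have hl : x (m + 1) * x (m - 1) * (x m - x 1) ^ 2 ≠ 0 :=
          mul_ne_zero (mul_ne_zero hp1 hm1) (pow_ne_zero 2 hd0)
        rw [hk.2, h0] at hl
        exact hl (by ring)
      have := congrArg (ordv v) hk.2
      rw [ordv_mul (mul_ne_zero hp1 hm1) (pow_ne_zero 2 hd0), ordv_mul hp1 hm1, ordv_sq hd0,
        ordv_sq hne0] at this
      exact this)
    (by
      have hom : ordv v (x 1 ^ 2) = 2 • ordv v (x 1) := ordv_sq F1.2.1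
      refine ⟨?_, ?_, ?_⟩
      · have := ordv_sub_ge (v := v) hsq0 hbe0 hδ0
        rwa [hom] at this
      · intro h
        have := ordv_sub_eq_left (v := v) hsq0 hbe0 (by rw [hom]; exact h)
        rwa [hom] at this
      · intro h
        exact ordv_sub_eq_right hsq0 hbe0 (by rw [hom]; exact h))
    (by
      have := congrArg (ordv v) hdbl
      rw [ordv_mul F2.2.1 hdne, ordv_mul F1.2.1 hq0, hq, ordv_sq hδ0, ← two_nsmul] at this
      exact this)
  -- symmetry `(p - 1) • T' = -T'`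
  have hsym : ordv v (x (p - 1)) = ordv v (x 1) := by
    have h1 : (p - 1) • T' = -T' := by
      apply eq_neg_of_add_eq_zero_left
      rw [← succ_nsmul, show p - 1 + 1 = p by omega, hpT']
    rw [hx (p - 1), h1, xiOf_neg, ← hx1]
  have Hfin := core_final p hp3 (ordv v be) (ordv v (x 1)) (fun m => ordv v (x m))
    ((ordv_pos_iff F1.2.1).mpr F1.2.2.2) hsym Hcore
  -- `T` is a multiple of `T'`
  have hcop : Nat.Coprime k₀ p := ((Nat.Prime.coprime_iff_not_dvd hp).mpr hk₀).symm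
  obtain ⟨j, hjlt, hj⟩ := Nat.exists_mul_mod_eq_one_of_coprime hcop hp.one_lt
  have hj0 : j ≠ 0 := by
    intro h
    rw [h, mul_zero, Nat.zero_mod] at hj
    exact absurd hj (by norm_num)
  have hTj : j • T' = T := by
    rw [hT', ← mul_nsmul, ← Nat.div_add_mod (k₀ * j) p, hj, add_nsmul, mul_nsmul, hpT, smul_zero,
      zero_add, one_nsmul]
  obtain ⟨i, hi⟩ := Hfin j (by omega) (by omega)
  have hxj : x j = xiOf e T := by rw [hx, hTj]
  simp only [hxj] at hi
  exact ⟨i, pow_eq_zpow_of_ordv hM1.2.1 hbe0 hi⟩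

/-- `nodeVal` for an explicit affine point. -/
theorem nodeVal_some (hS : BShape W e B be) (hB : v B = 1) (hbe : v be < 1) (hbe0 : be ≠ 0)
    {p : ℕ} (hp : p.Prime) (hp2 : p ≠ 2) (x y : K) (h : W.toAffine.Nonsingular x y)
    (hx : v (x - e) < 1) (hP : p • (Point.some x y h : W.toAffine.Point) = 0) :
    v be < v (x - e) ∧ ∃ j : ℤ, v (x - e) ^ p = v be ^ (2 * j) :=
  nodeVal hS hB hbe hbe0 hp hp2 (Point.some_ne_zero h) hx hP

end Final

end Fermat.Agent.Lib.helper3266
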