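import Mathlib
import Fermat.Prelude.Thm_Algebra_finite_maximalSpectrum_and_bijective_localization_of_module_finite
import Fermat.Prelude.Thm_IsLocalRing_isAdicComplete_of_module_finite

/-!
# Finite extensions of complete discrete valuation rings

Statement-agnostic brick (needed by every "attach a Galois representation over a finite
extension `𝒪''` of `𝒪'`" statement: the existential tuple of the frozen S30 / S35 shape).

Let `𝒪` be a complete discrete valuation ring (in the sense `IsAdicComplete (maximalIdeal 𝒪) 𝒪`),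
`K` its fraction field and `L / K` a finite separable extension.  Then the integral closure
`integralClosure 𝒪 L` is again a complete discrete valuation ring, module-finite over `𝒪`, the
structure map is a local homomorphism, the residue field is finite if that of `𝒪` is, and its
fraction field is `L`.

The two non-formal inputs are proved in the Prelude:
* a finite algebra over a complete Noetherian local ring is the product of its localisations at
  its (finitely many) maximal ideals;
* a local finite algebra over a complete Noetherian local ring is complete for its own maximal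
  ideal.
-/

set_option autoImplicit false
set_option linter.style.haveILetI false

namespace Fermat.Agent.Lib.helper3283

open IsLocalRing

/-- A domain that is a finite algebra over a complete Noetherian local ring is local. -/
theorem isLocalRing_of_finite_of_isDomain (𝒪 : Type) [CommRing 𝒪] [IsLocalRing 𝒪]
    [IsNoetherianRing 𝒪] [IsAdicComplete (maximalIdeal 𝒪) 𝒪]
    (A : Type) [CommRing A] [IsDomain A] [Algebra 𝒪 A] [Module.Finite 𝒪 A] :
    IsLocalRing A := by
  classical
  obtain ⟨-, hbij, -, -⟩ :=
    Algebra.finite_maximalSpectrum_and_bijective_localization_of_module_finite (𝒪 := 𝒪) A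
  -- any two maximal ideals coincide
  have key : ∀ I J : MaximalSpectrum A, I = J := by
    intro I J
    by_contra hIJ
    obtain ⟨a, ha⟩ := hbij.2 (Pi.single I 1)
    have haI : algebraMap A (Localization.AtPrime I.asIdeal) a = 1 := by
      have := congrFun ha I
      simpa using this
    have haJ : algebraMap A (Localization.AtPrime J.asIdeal) a = 0 := by
      have := congrFun ha J
      simpa [Pi.single_apply, Ne.symm hIJ] using this
    have hmul : a * (1 - a) = 0 := by
      apply hbij.1
      rw [map_mul, map_sub, map_one, ha, map_zero]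
      funext M
      by_cases hM : M = I
      · subst hM; simp
      · simp [hM]
    rcases mul_eq_zero.mp hmul with h0 | h1
    · rw [h0, map_zero] at haI
      exact zero_ne_one haI
    · have : a = 1 := (sub_eq_zero.mp h1).symm
      rw [this, map_one] at haJ
      exact one_ne_zero haJ
  obtain ⟨M, hM⟩ := Ideal.exists_maximal A
  refine IsLocalRing.of_unique_max_ideal ⟨M, hM, fun N hN => ?_⟩
  have := key ⟨N, hN⟩ ⟨M, hM⟩
  exact congrArg MaximalSpectrum.asIdeal this

section IntegralClosure

/-- The integral closure of a complete DVR in a finite separable extension of its fraction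
field is module-finite. -/
theorem integralClosure_finite (𝒪 : Type) [CommRing 𝒪] [IsDomain 𝒪] [IsDiscreteValuationRing 𝒪]
    (K : Type) [Field K] [Algebra 𝒪 K] [IsFractionRing 𝒪 K]
    (L : Type) [Field L] [Algebra K L] [Algebra 𝒪 L] [IsScalarTower 𝒪 K L]
    [FiniteDimensional K L] [Algebra.IsSeparable K L] :
    Module.Finite 𝒪 (integralClosure 𝒪 L) :=
  IsIntegralClosure.finite 𝒪 K L (integralClosure 𝒪 L)

/-- `𝒪 → L` is injective. -/
theorem algebraMap_injective_field (𝒪 : Type) [CommRing 𝒪] [IsDomain 𝒪]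
    (K : Type) [Field K] [Algebra 𝒪 K] [IsFractionRing 𝒪 K]
    (L : Type) [Field L] [Algebra K L] [Algebra 𝒪 L] [IsScalarTower 𝒪 K L] :
    Function.Injective (algebraMap 𝒪 L) := by
  rw [IsScalarTower.algebraMap_eq 𝒪 K L]
  exact (algebraMap K L).injective.comp (IsFractionRing.injective 𝒪 K)

/-- `𝒪 → integralClosure 𝒪 L` is injective. -/
theorem algebraMap_injective_integralClosure (𝒪 : Type) [CommRing 𝒪] [IsDomain 𝒪]
    (K : Type) [Field K] [Algebra 𝒪 K] [IsFractionRing 𝒪 K]
    (L : Type) [Field L] [Algebra K L] [Algebra 𝒪 L] [IsScalarTower 𝒪 K L] :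
    Function.Injective (algebraMap 𝒪 (integralClosure 𝒪 L)) := by
  intro a b hab
  apply algebraMap_injective_field 𝒪 K L
  have := congrArg (algebraMap (integralClosure 𝒪 L) L) hab
  simpa [← IsScalarTower.algebraMap_apply] using this

/-- The integral closure of a complete DVR in a finite separable extension is a local ring. -/
theorem integralClosure_isLocalRing (𝒪 : Type) [CommRing 𝒪] [IsDomain 𝒪]
    [IsDiscreteValuationRing 𝒪] [IsAdicComplete (maximalIdeal 𝒪) 𝒪]
    (K : Type) [Field K] [Algebra 𝒪 K] [IsFractionRing 𝒪 K]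
    (L : Type) [Field L] [Algebra K L] [Algebra 𝒪 L] [IsScalarTower 𝒪 K L]
    [FiniteDimensional K L] [Algebra.IsSeparable K L] :
    IsLocalRing (integralClosure 𝒪 L) := by
  have := integralClosure_finite 𝒪 K L
  exact isLocalRing_of_finite_of_isDomain 𝒪 (integralClosure 𝒪 L)

/-- The integral closure of a DVR in an extension of its fraction field is not a field. -/
theorem integralClosure_not_isField (𝒪 : Type) [CommRing 𝒪] [IsDomain 𝒪]
    [IsDiscreteValuationRing 𝒪]
    (K : Type) [Field K] [Algebra 𝒪 K] [IsFractionRing 𝒪 K]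
    (L : Type) [Field L] [Algebra K L] [Algebra 𝒪 L] [IsScalarTower 𝒪 K L] :
    ¬ IsField (integralClosure 𝒪 L) := by
  intro h
  exact IsDiscreteValuationRing.not_isField 𝒪
    (isField_of_isIntegral_of_isField (algebraMap_injective_integralClosure 𝒪 K L) h)

/-- The integral closure of a complete DVR in a finite separable extension is a DVR. -/
theorem integralClosure_isDiscreteValuationRing (𝒪 : Type) [CommRing 𝒪] [IsDomain 𝒪]
    [IsDiscreteValuationRing 𝒪] [IsAdicComplete (maximalIdeal 𝒪) 𝒪]
    (K : Type) [Field K] [Algebra 𝒪 K] [IsFractionRing 𝒪 K]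
    (L : Type) [Field L] [Algebra K L] [Algebra 𝒪 L] [IsScalarTower 𝒪 K L]
    [FiniteDimensional K L] [Algebra.IsSeparable K L] :
    IsDiscreteValuationRing (integralClosure 𝒪 L) := by
  haveI := integralClosure_isLocalRing 𝒪 K L
  have hded : IsDedekindDomain (integralClosure 𝒪 L) := integralClosure.isDedekindDomain 𝒪 K L
  have htfae := (IsDiscreteValuationRing.TFAE (integralClosure 𝒪 L)
    (integralClosure_not_isField 𝒪 K L)).out 0 2
  exact htfae.mpr hded

/-- The structure map into the integral closure is a local homomorphism. -/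
theorem integralClosure_isLocalHom (𝒪 : Type) [CommRing 𝒪] [IsDomain 𝒪]
    (K : Type) [Field K] [Algebra 𝒪 K] [IsFractionRing 𝒪 K]
    (L : Type) [Field L] [Algebra K L] [Algebra 𝒪 L] [IsScalarTower 𝒪 K L] :
    IsLocalHom (algebraMap 𝒪 (integralClosure 𝒪 L)) := by
  have hint : Algebra.IsIntegral 𝒪 (integralClosure 𝒪 L) := inferInstance
  exact RingHom.IsIntegral.isLocalHom (algebraMap_isIntegral_iff.mpr hint)
    (algebraMap_injective_integralClosure 𝒪 K L)

/-- The integral closure of a complete DVR in a finite separable extension is complete for its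
own maximal ideal. -/
theorem integralClosure_isAdicComplete (𝒪 : Type) [CommRing 𝒪] [IsDomain 𝒪]
    [IsDiscreteValuationRing 𝒪] [IsAdicComplete (maximalIdeal 𝒪) 𝒪]
    (K : Type) [Field K] [Algebra 𝒪 K] [IsFractionRing 𝒪 K]
    (L : Type) [Field L] [Algebra K L] [Algebra 𝒪 L] [IsScalarTower 𝒪 K L]
    [FiniteDimensional K L] [Algebra.IsSeparable K L] :
    letI := integralClosure_isLocalRing 𝒪 K L
    IsAdicComplete (maximalIdeal (integralClosure 𝒪 L)) (integralClosure 𝒪 L) := by
  letI := integralClosure_isLocalRing 𝒪 K L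
  haveI := integralClosure_finite 𝒪 K L
  haveI := integralClosure_isLocalHom 𝒪 K L
  exact IsLocalRing.isAdicComplete_of_module_finite (𝒪 := 𝒪) (T := integralClosure 𝒪 L)

/-- The fraction field of the integral closure is `L`. -/
theorem integralClosure_isFractionRing (𝒪 : Type) [CommRing 𝒪] [IsDomain 𝒪]
    (K : Type) [Field K] [Algebra 𝒪 K] [IsFractionRing 𝒪 K]
    (L : Type) [Field L] [Algebra K L] [Algebra 𝒪 L] [IsScalarTower 𝒪 K L]
    [FiniteDimensional K L] :
    IsFractionRing (integralClosure 𝒪 L) L :=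
  integralClosure.isFractionRing_of_finite_extension K L

end IntegralClosure

/-- A local ring that is module-finite over a local ring with finite residue field, through a
local homomorphism, has finite residue field. -/
theorem finite_residueField_of_finite (𝒪 : Type) [CommRing 𝒪] [IsLocalRing 𝒪]
    [Finite (ResidueField 𝒪)]
    (A : Type) [CommRing A] [IsLocalRing A] [Algebra 𝒪 A] [Module.Finite 𝒪 A]
    [IsLocalHom (algebraMap 𝒪 A)] : Finite (ResidueField A) := by
  classical
  obtain ⟨n, f, hf⟩ := Module.Finite.exists_fin' 𝒪 A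
  -- the map `(Fin n → 𝒪) → A → A ⧸ 𝔪_A` only depends on the residues of the coordinates
  let g : (Fin n → ResidueField 𝒪) → ResidueField A := fun c =>
    residue A (f fun i => Quotient.out (c i))
  refine Finite.of_surjective g ?_
  intro x
  obtain ⟨a, rfl⟩ := residue_surjective x
  obtain ⟨c, rfl⟩ := hf a
  refine ⟨fun i => residue 𝒪 (c i), ?_⟩
  change residue A (f fun i => Quotient.out (residue 𝒪 (c i))) = residue A (f c)
  rw [← sub_eq_zero, ← map_sub, ← map_sub, residue_eq_zero_iff]
  set d : Fin n → 𝒪 := (fun i => Quotient.out (residue 𝒪 (c i))) - c with hd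
  have hd_mem : ∀ i, d i ∈ maximalIdeal 𝒪 := by
    intro i
    rw [← residue_eq_zero_iff]
    simp only [hd, Pi.sub_apply, map_sub]
    rw [sub_eq_zero]
    exact Quotient.out_eq (residue 𝒪 (c i))
  have hsum : d = ∑ i, d i • (Pi.single i (1 : 𝒪) : Fin n → 𝒪) := by
    funext j
    simp [Finset.sum_apply, Pi.single_apply]
  rw [hsum, map_sum]
  refine Ideal.sum_mem _ fun i _ => ?_
  rw [map_smul, Algebra.smul_def]
  refine Ideal.mul_mem_right _ _ ?_
  exact map_nonunit (algebraMap 𝒪 A) (d i) (hd_mem i)

/-- **Finite extensions of complete DVRs.**  For a complete discrete valuation ring `𝒪` of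
characteristic zero with finite residue field, with fraction field `K`, and a finite extension
`L / K`, there is a complete discrete valuation ring `𝒪''` of characteristic zero with finite
residue field, module-finite over `𝒪` through an injective local homomorphism, whose fraction
field is `L`.  (The existential tuple is exactly the one of the frozen statements S30 / S35,
extended by the three data linking `𝒪''` to `L`.) -/
theorem exists_completeDVR_extension (𝒪 : Type) [CommRing 𝒪] [IsDomain 𝒪]
    [IsDiscreteValuationRing 𝒪] [IsAdicComplete (maximalIdeal 𝒪) 𝒪]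
    [Finite (ResidueField 𝒪)] [CharZero 𝒪]
    (K : Type) [Field K] [Algebra 𝒪 K] [IsFractionRing 𝒪 K]
    (L : Type) [Field L] [Algebra K L] [Algebra 𝒪 L] [IsScalarTower 𝒪 K L]
    [FiniteDimensional K L] :
    ∃ (𝒪'' : Type) (_ : CommRing 𝒪'') (_ : IsDomain 𝒪'') (_ : IsDiscreteValuationRing 𝒪'')
      (_ : IsAdicComplete (maximalIdeal 𝒪'') 𝒪'') (_ : Finite (ResidueField 𝒪''))
      (_ : CharZero 𝒪'') (_ : Algebra 𝒪 𝒪'') (_ : Module.Finite 𝒪 𝒪'')
      (_ : IsLocalHom (algebraMap 𝒪 𝒪'')) (_ : Algebra 𝒪'' L) (_ : IsScalarTower 𝒪 𝒪'' L)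
      (_ : IsFractionRing 𝒪'' L),
      Function.Injective (algebraMap 𝒪 𝒪'') := by
  haveI : CharZero K := charZero_of_injective_algebraMap (IsFractionRing.injective 𝒪 K)
  haveI : Algebra.IsSeparable K L := inferInstance
  haveI hdvr := integralClosure_isDiscreteValuationRing 𝒪 K L
  haveI hfin := integralClosure_finite 𝒪 K L
  haveI hloc := integralClosure_isLocalHom 𝒪 K L
  have hinj := algebraMap_injective_integralClosure 𝒪 K L
  have hcomplete : IsAdicComplete (maximalIdeal (integralClosure 𝒪 L)) (integralClosure 𝒪 L) :=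
    IsLocalRing.isAdicComplete_of_module_finite (𝒪 := 𝒪) (T := integralClosure 𝒪 L)
  exact ⟨integralClosure 𝒪 L, inferInstance, inferInstance, hdvr, hcomplete,
    finite_residueField_of_finite 𝒪 (integralClosure 𝒪 L),
    charZero_of_injective_algebraMap hinj, inferInstance, hfin, hloc, inferInstance,
    inferInstance, integralClosure_isFractionRing 𝒪 K L, hinj⟩

/-- In a DVR, every nonzero element divides a power of any nonzero non-unit. -/
theorem dvd_pow_of_mem_maximalIdeal (𝒪 : Type) [CommRing 𝒪] [IsDomain 𝒪]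
    [IsDiscreteValuationRing 𝒪] (π : 𝒪) (hπm : π ∈ maximalIdeal 𝒪) (c : 𝒪) (hc : c ≠ 0) :
    ∃ m : ℕ, c ∣ π ^ m := by
  obtain ⟨ϖ, hϖ⟩ := IsDiscreteValuationRing.exists_irreducible 𝒪
  obtain ⟨m, u, rfl⟩ := IsDiscreteValuationRing.eq_unit_mul_pow_irreducible hc hϖ
  have hdvd : ϖ ∣ π := by
    have h := (IsDiscreteValuationRing.irreducible_iff_uniformizer ϖ).mp hϖ
    rw [h] at hπm
    exact Ideal.mem_span_singleton.mp hπm
  refine ⟨m, ?_⟩
  obtain ⟨d, hd⟩ := pow_dvd_pow_of_dvd hdvd m
  refine ⟨d * ((u⁻¹ : 𝒪ˣ) : 𝒪), ?_⟩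
  rw [hd]
  have : (u : 𝒪) * ((u⁻¹ : 𝒪ˣ) : 𝒪) = 1 := by simp
  calc ϖ ^ m * d = ϖ ^ m * d * ((u : 𝒪) * ((u⁻¹ : 𝒪ˣ) : 𝒪)) := by rw [this, mul_one]
    _ = (u : 𝒪) * ϖ ^ m * (d * ((u⁻¹ : 𝒪ˣ) : 𝒪)) := by ring

/-- **Finite extensions of complete DVRs inside a big field.**  Let `𝒪` be a complete DVR of
characteristic zero with finite residue field, `K` its fraction field, `Ω ⊇ K` any field
(e.g. an algebraic closure of `K`), `s` a finite set of elements of `Ω` algebraic over `K` and
`π` a nonzero non-unit of `𝒪`.  Then there is a complete DVR `𝒪''` (characteristic zero, finite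
residue field, module-finite over `𝒪` through an injective local homomorphism) embedded in `Ω`
compatibly with `𝒪 → Ω`, such that every element of `s` becomes an element of `𝒪''` after
multiplication by a power of `π`. -/
theorem exists_completeDVR_extension_of_finset (𝒪 : Type) [CommRing 𝒪] [IsDomain 𝒪]
    [IsDiscreteValuationRing 𝒪] [IsAdicComplete (maximalIdeal 𝒪) 𝒪]
    [Finite (ResidueField 𝒪)] [CharZero 𝒪]
    (K : Type) [Field K] [Algebra 𝒪 K] [IsFractionRing 𝒪 K]
    (Ω : Type) [Field Ω] [Algebra K Ω] [Algebra 𝒪 Ω] [IsScalarTower 𝒪 K Ω]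
    (s : Finset Ω) (hs : ∀ x ∈ s, IsIntegral K x)
    (π : 𝒪) (hπm : π ∈ maximalIdeal 𝒪) :
    ∃ (𝒪'' : Type) (_ : CommRing 𝒪'') (_ : IsDomain 𝒪'') (_ : IsDiscreteValuationRing 𝒪'')
      (_ : IsAdicComplete (maximalIdeal 𝒪'') 𝒪'') (_ : Finite (ResidueField 𝒪''))
      (_ : CharZero 𝒪'') (_ : Algebra 𝒪 𝒪'') (_ : Module.Finite 𝒪 𝒪'')
      (_ : IsLocalHom (algebraMap 𝒪 𝒪'')) (_ : Algebra 𝒪'' Ω) (_ : IsScalarTower 𝒪 𝒪'' Ω),
      Function.Injective (algebraMap 𝒪 𝒪'') ∧ Function.Injective (algebraMap 𝒪'' Ω) ∧
      ∀ x ∈ s, ∃ (n : ℕ) (a : 𝒪''), algebraMap 𝒪 Ω π ^ n * x = algebraMap 𝒪'' Ω a := by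
  classical
  let L : IntermediateField K Ω := IntermediateField.adjoin K (s : Set Ω)
  haveI : FiniteDimensional K L :=
    IntermediateField.finiteDimensional_adjoin (fun x hx => hs x (by simpa using hx))
  haveI : CharZero K := charZero_of_injective_algebraMap (IsFractionRing.injective 𝒪 K)
  haveI : Algebra.IsSeparable K L := inferInstance
  haveI hdvr := integralClosure_isDiscreteValuationRing 𝒪 K L
  haveI hfin := integralClosure_finite 𝒪 K L
  haveI hloc := integralClosure_isLocalHom 𝒪 K L
  have hinj := algebraMap_injective_integralClosure 𝒪 K L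
  have hcomplete : IsAdicComplete (maximalIdeal (integralClosure 𝒪 L)) (integralClosure 𝒪 L) :=
    IsLocalRing.isAdicComplete_of_module_finite (𝒪 := 𝒪) (T := integralClosure 𝒪 L)
  letI alg : Algebra (integralClosure 𝒪 L) Ω :=
    ((algebraMap L Ω).comp (algebraMap (integralClosure 𝒪 L) L)).toAlgebra
  have halg : ∀ a : integralClosure 𝒪 L, algebraMap (integralClosure 𝒪 L) Ω a = ((a : L) : Ω) :=
    fun a => rfl
  haveI tower : IsScalarTower 𝒪 (integralClosure 𝒪 L) Ω :=
    IsScalarTower.of_algebraMap_eq fun c => by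
      rw [halg]
      rfl
  refine ⟨integralClosure 𝒪 L, inferInstance, inferInstance, hdvr, hcomplete,
    finite_residueField_of_finite 𝒪 (integralClosure 𝒪 L),
    charZero_of_injective_algebraMap hinj, inferInstance, hfin, hloc, alg, tower, hinj, ?_, ?_⟩
  · intro a b hab
    rw [halg, halg] at hab
    exact Subtype.ext (Subtype.ext hab)
  · intro x hx
    have hxL : x ∈ L := IntermediateField.subset_adjoin K (s : Set Ω) (by simpa using hx)
    have halgL : Algebra.IsAlgebraic 𝒪 L :=
      (IsFractionRing.comap_isAlgebraic_iff (A := 𝒪) (K := K) (C := L)).mpr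
        (Algebra.IsAlgebraic.of_finite K L)
    obtain ⟨c, hc0, hcint⟩ :=
      (halgL.isAlgebraic (⟨x, hxL⟩ : L)).exists_integral_multiple
    obtain ⟨m, d, hd⟩ := dvd_pow_of_mem_maximalIdeal 𝒪 π hπm c hc0
    refine ⟨m, ⟨algebraMap 𝒪 L d * (c • (⟨x, hxL⟩ : L)), ?_⟩, ?_⟩
    · exact (integralClosure 𝒪 L).mul_mem ((integralClosure 𝒪 L).algebraMap_mem d) hcint
    · rw [halg]
      have h1 : ((algebraMap 𝒪 L d : L) : Ω) = algebraMap 𝒪 Ω d := rfl
      have h2 : ((c • (⟨x, hxL⟩ : L) : L) : Ω) = algebraMap 𝒪 Ω c * x := by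
        rw [Algebra.smul_def]
        rfl
      show algebraMap 𝒪 Ω π ^ m * x
        = ((algebraMap 𝒪 L d * (c • (⟨x, hxL⟩ : L)) : L) : Ω)
      rw [IntermediateField.coe_mul, h1, h2, ← map_pow, hd, map_mul]
      ring

end Fermat.Agent.Lib.helper3283
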