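import Mathlib

/-!
# Height upper bounds from integral dependence

`K` is any field with an admissible family of absolute values (`Height.AdmissibleAbsValues K`).
If `w` is a root of a monic polynomial whose coefficient of `T ^ j` is the value at `u` of a
polynomial of degree at most `a * (n - j)`, then `|w|_v ≤ C_v * M_v * max(|u|_v, 1) ^ a` at every
place, with `C_v = 1` at the nonarchimedean places, and hence
`H(w) ≤ C ^ totalWeight K * H(coefficients) * H(u) ^ a`.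
-/

namespace Fermat.Agent.Lib.helper3318

open Finset

/-! ### Two elementary inequalities -/

theorem sum_pow_mul_pow_succ_eq (ρ t : ℝ) (n : ℕ) :
    ∑ j ∈ range (n + 1), ρ ^ (n + 1 - j) * t ^ j =
      ρ * ∑ j ∈ range n, ρ ^ (n - j) * t ^ j + ρ * t ^ n := by
  rw [sum_range_succ, mul_sum]
  congr 1
  · refine sum_congr rfl fun j hj ↦ ?_
    rw [Nat.succ_sub (mem_range.mp hj).le, pow_succ]
    ring
  · rw [Nat.add_sub_cancel_left, pow_one]

theorem sum_pow_mul_pow_le {ρ t : ℝ} (hρ : 0 ≤ ρ) (h : 2 * ρ ≤ t) (n : ℕ) :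
    ∑ j ∈ range n, ρ ^ (n - j) * t ^ j ≤ t ^ n := by
  have ht : 0 ≤ t := by linarith
  induction n with
  | zero => simp
  | succ n ih =>
    rw [sum_pow_mul_pow_succ_eq, pow_succ]
    nlinarith [mul_le_mul_of_nonneg_left ih hρ, pow_nonneg ht n,
      mul_nonneg (sub_nonneg.mpr h) (pow_nonneg ht n)]

theorem sum_pow_mul_pow_lt {ρ t : ℝ} (hρ : 0 ≤ ρ) (h : 2 * ρ < t) {n : ℕ} (hn : n ≠ 0) :
    ∑ j ∈ range n, ρ ^ (n - j) * t ^ j < t ^ n := by
  obtain ⟨k, rfl⟩ := Nat.exists_eq_succ_of_ne_zero hn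
  have ht : 0 < t := by linarith
  have ih := sum_pow_mul_pow_le hρ h.le k
  rw [Nat.succ_eq_add_one, sum_pow_mul_pow_succ_eq, pow_succ]
  nlinarith [mul_le_mul_of_nonneg_left ih hρ, pow_pos ht k,
    mul_pos (sub_pos.mpr h) (pow_pos ht k)]

theorem cast_mul_add_one_le_pow (a d : ℕ) : ((a * d : ℕ) : ℝ) + 1 ≤ ((a : ℝ) + 1) ^ d := by
  have ha : (0 : ℝ) ≤ a := Nat.cast_nonneg a
  have h1 := one_add_mul_le_pow (show (-2 : ℝ) ≤ a by linarith) d
  push_cast
  rw [add_comm (a : ℝ) 1]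
  linarith

/-! ### Local root bounds -/

section LocalRoot

variable {K : Type*} [Field K]

/-- **Local root bound.** If `w ^ n + ∑ j < n, c j * w ^ j = 0` and `v (c j) ≤ ρ ^ (n - j)`
for all `j < n`, then `v w ≤ 2 * ρ`. -/
theorem abv_le_two_mul_of_monic_root (v : AbsoluteValue K ℝ) {n : ℕ} {c : ℕ → K} {w : K}
    (hw : w ^ n + ∑ j ∈ range n, c j * w ^ j = 0) {ρ : ℝ} (hρ : 0 ≤ ρ)
    (hc : ∀ j < n, v (c j) ≤ ρ ^ (n - j)) : v w ≤ 2 * ρ := by
  by_contra! hlt
  have hn : n ≠ 0 := by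
    rintro rfl
    simp at hw
  have h1 : v w ^ n = v (∑ j ∈ range n, c j * w ^ j) := by
    rw [← map_pow, eq_neg_of_add_eq_zero_left hw, v.map_neg]
  have h2 : v (∑ j ∈ range n, c j * w ^ j) ≤ ∑ j ∈ range n, ρ ^ (n - j) * v w ^ j := by
    refine (v.sum_le _ _).trans (sum_le_sum fun j hj ↦ ?_)
    rw [map_mul, map_pow]
    exact mul_le_mul_of_nonneg_right (hc j (mem_range.mp hj)) (pow_nonneg (v.nonneg w) j)
  have h3 := sum_pow_mul_pow_lt hρ hlt hn
  linarith

/-- **Local root bound, nonarchimedean case.** If `w ^ n + ∑ j < n, c j * w ^ j = 0` and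
`v (c j) ≤ ρ ^ (n - j)` for all `j < n`, then `v w ≤ ρ`. -/
theorem abv_le_of_monic_root_of_isNonarchimedean {v : AbsoluteValue K ℝ}
    (hv : IsNonarchimedean v) {n : ℕ} {c : ℕ → K} {w : K}
    (hw : w ^ n + ∑ j ∈ range n, c j * w ^ j = 0) {ρ : ℝ} (hρ : 0 ≤ ρ)
    (hc : ∀ j < n, v (c j) ≤ ρ ^ (n - j)) : v w ≤ ρ := by
  by_contra! hlt
  have hn : n ≠ 0 := by
    rintro rfl
    simp at hw
  have h1 : v w ^ n = v (∑ j ∈ range n, c j * w ^ j) := by
    rw [← map_pow, eq_neg_of_add_eq_zero_left hw, v.map_neg]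
  obtain ⟨b, hb, hle⟩ :=
    hv.finset_image_add_of_nonempty (fun j ↦ c j * w ^ j) (nonempty_range_iff.mpr hn)
  have hb' := mem_range.mp hb
  rw [map_mul, map_pow] at hle
  have h4 : ρ ^ (n - b) < v w ^ (n - b) := pow_lt_pow_left₀ hlt hρ (by omega)
  have h5 : v w ^ n = v w ^ (n - b) * v w ^ b := by
    rw [← pow_add]
    congr 1
    omega
  have hpos : 0 < v w ^ b := pow_pos (hρ.trans_lt hlt) b
  nlinarith [mul_le_mul_of_nonneg_right (hc b hb') hpos.le, mul_lt_mul_of_pos_right h4 hpos]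

/-- **Local bound from a multiplication table.** If `x * W i = ∑ l, c i l * W l` for a nonzero
tuple `W` and all `v (c i l) ≤ B`, then `v x ≤ card σ * B`. -/
theorem abv_le_of_mul_table {σ : Type*} [Fintype σ] (v : AbsoluteValue K ℝ) {W : σ → K}
    (hW : W ≠ 0) {x : K} {c : σ → σ → K} (h : ∀ i, x * W i = ∑ l, c i l * W l) {B : ℝ}
    (hB : ∀ i l, v (c i l) ≤ B) : v x ≤ Fintype.card σ * B := by
  obtain ⟨i₁, hi₁⟩ := Function.ne_iff.mp hW
  have : Nonempty σ := ⟨i₁⟩
  obtain ⟨i₀, hi₀⟩ := exists_eq_ciSup_of_finite (f := fun i ↦ v (W i))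
  have hle : ∀ l, v (W l) ≤ v (W i₀) := fun l ↦
    le_of_le_of_eq (Finite.le_ciSup_of_le (f := fun i ↦ v (W i)) l le_rfl) hi₀.symm
  have hS : 0 < v (W i₀) := (v.pos (by simpa using hi₁)).trans_le (hle i₁)
  have h1 : v x * v (W i₀) ≤ Fintype.card σ * B * v (W i₀) := by
    rw [← map_mul, h i₀]
    refine (v.sum_le _ _).trans ?_
    calc ∑ l, v (c i₀ l * W l) ≤ ∑ _l : σ, B * v (W i₀) := sum_le_sum fun l _ ↦ by
          rw [map_mul]
          exact mul_le_mul (hB i₀ l) (hle l) (v.nonneg _) ((v.nonneg _).trans (hB i₀ l))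
      _ = Fintype.card σ * B * v (W i₀) := by
          rw [sum_const, card_univ, nsmul_eq_mul]
          ring
  exact le_of_mul_le_mul_right h1 hS

/-- **Local bound from a multiplication table, nonarchimedean case**: `v x ≤ B`. -/
theorem abv_le_of_mul_table_of_isNonarchimedean {σ : Type*} [Fintype σ]
    {v : AbsoluteValue K ℝ} (hv : IsNonarchimedean v) {W : σ → K}
    (hW : W ≠ 0) {x : K} {c : σ → σ → K} (h : ∀ i, x * W i = ∑ l, c i l * W l) {B : ℝ}
    (hB : ∀ i l, v (c i l) ≤ B) : v x ≤ B := by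
  obtain ⟨i₁, hi₁⟩ := Function.ne_iff.mp hW
  have : Nonempty σ := ⟨i₁⟩
  obtain ⟨i₀, hi₀⟩ := exists_eq_ciSup_of_finite (f := fun i ↦ v (W i))
  have hle : ∀ l, v (W l) ≤ v (W i₀) := fun l ↦
    le_of_le_of_eq (Finite.le_ciSup_of_le (f := fun i ↦ v (W i)) l le_rfl) hi₀.symm
  have hS : 0 < v (W i₀) := (v.pos (by simpa using hi₁)).trans_le (hle i₁)
  obtain ⟨l, -, hl⟩ := hv.finset_image_add_of_nonempty (fun l ↦ c i₀ l * W l) univ_nonempty
  have h1 : v x * v (W i₀) ≤ B * v (W i₀) := by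
    rw [← map_mul, h i₀]
    refine hl.trans ?_
    rw [map_mul]
    exact mul_le_mul (hB i₀ l) (hle l) (v.nonneg _) ((v.nonneg _).trans (hB i₀ l))
  exact le_of_mul_le_mul_right h1 hS

end LocalRoot

/-! ### From local bounds to heights -/

section LocalGlobal

open Height AdmissibleAbsValues Function

variable {K : Type*} [Field K] [AdmissibleAbsValues K]

theorem hasFiniteMulSupport_iSup_abv {ι : Type*} [Finite ι] {x : ι → K} (hx : x ≠ 0) :
    (fun v : nonarchAbsVal (K := K) ↦ ⨆ i, v.val (x i)).HasFiniteMulSupport := by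
  obtain ⟨i₀, hi₀⟩ : ∃ j, x j ≠ 0 := Function.ne_iff.mp hx
  have : Nonempty ι := ⟨i₀⟩
  have : Nonempty {j // x j ≠ 0} := ⟨⟨i₀, hi₀⟩⟩
  have key : (fun v : nonarchAbsVal (K := K) ↦ ⨆ i, v.val (x i)) =
      fun v : nonarchAbsVal (K := K) ↦ ⨆ i : {j // x j ≠ 0}, v.val (x i) := by
    funext v
    refine le_antisymm (ciSup_le fun j ↦ ?_)
      (ciSup_le fun j ↦ Finite.le_ciSup_of_le j.1 le_rfl)
    rcases eq_or_ne (x j) 0 with h | h
    · rw [h, v.val.map_zero]
      exact Real.iSup_nonneg fun i ↦ v.val.nonneg _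
    · exact Finite.le_ciSup_of_le ⟨j, h⟩ le_rfl
  rw [key]
  exact HasFiniteMulSupport.iSup fun j ↦ hasFiniteMulSupport j.2

theorem hasFiniteMulSupport_max_abv_one (x : K) :
    (fun v : nonarchAbsVal (K := K) ↦ max (v.val x) 1).HasFiniteMulSupport := by
  rcases eq_or_ne x 0 with rfl | hx
  · simp [HasFiniteMulSupport]
  · exact (hasFiniteMulSupport hx).max hasFiniteMulSupport_fun_one

/-- **Local-to-global principle.** If `F v ≤ C * G v` at the archimedean places and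
`F v ≤ G v` at the nonarchimedean places, then the product of the `F v` over all places
is at most `C ^ totalWeight K` times the product of the `G v`. -/
theorem prod_le_of_local_le (F G : AbsoluteValue K ℝ → ℝ) (C : ℝ) (hF : ∀ v, 0 ≤ F v)
    (hFfin : (fun v : nonarchAbsVal (K := K) ↦ F v.val).HasFiniteMulSupport)
    (hGfin : (fun v : nonarchAbsVal (K := K) ↦ G v.val).HasFiniteMulSupport)
    (harch : ∀ v ∈ archAbsVal (K := K), F v ≤ C * G v)
    (hnonarch : ∀ v ∈ nonarchAbsVal (K := K), F v ≤ G v) :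
    (archAbsVal.map F).prod * ∏ᶠ v : nonarchAbsVal (K := K), F v.val ≤
      C ^ totalWeight K * ((archAbsVal.map G).prod * ∏ᶠ v : nonarchAbsVal (K := K), G v.val) := by
  have h0 : 0 ≤ (archAbsVal.map F).prod := Multiset.prod_map_nonneg fun v _ ↦ hF v
  have h1 : (archAbsVal.map F).prod ≤ C ^ totalWeight K * (archAbsVal.map G).prod := by
    rw [totalWeight, ← Multiset.prod_replicate, ← Multiset.map_const', ← Multiset.prod_map_mul]
    exact Multiset.prod_map_le_prod_map₀ _ _ (fun v _ ↦ hF v) harch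
  have h2 : ∏ᶠ v : nonarchAbsVal (K := K), F v.val ≤ ∏ᶠ v : nonarchAbsVal (K := K), G v.val :=
    finprod_le_finprod hFfin (fun v ↦ hF v.val) hGfin fun v ↦ hnonarch v.val v.prop
  calc (archAbsVal.map F).prod * ∏ᶠ v : nonarchAbsVal (K := K), F v.val
      ≤ (C ^ totalWeight K * (archAbsVal.map G).prod) *
          ∏ᶠ v : nonarchAbsVal (K := K), G v.val :=
        mul_le_mul h1 h2 (finprod_nonneg fun v ↦ hF v.val) (h0.trans h1)
    _ = _ := by ring

/-- **Local-to-global principle for tuples.** If at every place the sup of `x` is bounded by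
`C_v * sup (m) * sup (z) ^ a`, with `C_v = C` at the archimedean places and `C_v = 1` at the
nonarchimedean ones, then `mulHeight x ≤ C ^ totalWeight K * mulHeight m * mulHeight z ^ a`. -/
theorem mulHeight_le_of_local_le {κ μ ν : Type*} [Finite κ] [Finite μ] [Finite ν]
    (a : ℕ) {C : ℝ} (hC : 1 ≤ C) (x : κ → K) {m : μ → K} {z : ν → K} (hm : m ≠ 0) (hz : z ≠ 0)
    (harch : ∀ v ∈ archAbsVal (K := K), ∀ i,
      v (x i) ≤ C * ((⨆ l, v (m l)) * (⨆ k, v (z k)) ^ a))
    (hnonarch : ∀ v ∈ nonarchAbsVal (K := K), ∀ i,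
      v (x i) ≤ (⨆ l, v (m l)) * (⨆ k, v (z k)) ^ a) :
    mulHeight x ≤ C ^ totalWeight K * mulHeight m * mulHeight z ^ a := by
  rcases eq_or_ne x 0 with rfl | hx
  · rw [mulHeight_zero]
    have h1 : (1 : ℝ) ≤ C ^ totalWeight K := one_le_pow₀ hC
    have h2 := one_le_mulHeight m
    have h3 : (1 : ℝ) ≤ mulHeight z ^ a := one_le_pow₀ (one_le_mulHeight z)
    calc (1 : ℝ) = 1 * 1 * 1 := by ring
      _ ≤ C ^ totalWeight K * mulHeight m * mulHeight z ^ a := by gcongr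
  have : Nonempty κ := (Function.ne_iff.mp hx).nonempty
  have hM := hasFiniteMulSupport_iSup_abv hm
  have hZ := hasFiniteMulSupport_iSup_abv hz
  have key := prod_le_of_local_le (K := K) (fun v ↦ ⨆ i, v (x i))
    (fun v ↦ (⨆ l, v (m l)) * (⨆ k, v (z k)) ^ a) C
    (fun v ↦ Real.iSup_nonneg fun i ↦ v.nonneg _)
    (hasFiniteMulSupport_iSup_abv hx) (hM.fun_mul (hZ.fun_pow a))
    (fun v hv ↦ ciSup_le fun i ↦ harch v hv i)
    (fun v hv ↦ ciSup_le fun i ↦ hnonarch v hv i)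
  rw [mulHeight_eq hx, mulHeight_eq hm, mulHeight_eq hz]
  refine key.trans (le_of_eq ?_)
  rw [Multiset.prod_map_mul, Multiset.prod_map_pow, finprod_mul_distrib hM (hZ.fun_pow a),
    ← finprod_pow hZ]
  ring

/-- The product over all places of a product of powers of local sup-norms of nonzero tuples
is the product of the corresponding powers of their heights. -/
theorem prod_iSup_abv_pow_eq {α : Type*} [Fintype α] {ι : α → Type*} [∀ a, Finite (ι a)]
    (x : ∀ a, ι a → K) (hx : ∀ a, x a ≠ 0) (e : α → ℕ) :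
    (archAbsVal.map fun v : AbsoluteValue K ℝ ↦ ∏ a, (⨆ i, v (x a i)) ^ e a).prod *
        ∏ᶠ v : nonarchAbsVal (K := K), ∏ a, (⨆ i, v.val (x a i)) ^ e a =
      ∏ a, mulHeight (x a) ^ e a := by
  rw [Multiset.prod_map_prod,
    finprod_prod_comm _ _ (fun a _ ↦ (hasFiniteMulSupport_iSup_abv (hx a)).fun_pow (e a)),
    ← Finset.prod_mul_distrib]
  refine Finset.prod_congr rfl fun a _ ↦ ?_
  rw [mulHeight_eq (hx a), mul_pow, Multiset.prod_map_pow,
    finprod_pow (hasFiniteMulSupport_iSup_abv (hx a))]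

/-- **Local-to-global principle for several tuples.** If at every place
`∏ a, ‖x a‖_v ^ e a ≤ C_v * ∏ b, ‖y b‖_v ^ f b` for nonzero tuples `x a`, `y b` (sup-norms),
with `C_v = C` at the archimedean places and `C_v = 1` at the nonarchimedean ones, then
`∏ a, mulHeight (x a) ^ e a ≤ C ^ totalWeight K * ∏ b, mulHeight (y b) ^ f b`. -/
theorem prod_mulHeight_le_of_local_le {α β : Type*} [Fintype α] [Fintype β] {ι : α → Type*}
    {κ : β → Type*} [∀ a, Finite (ι a)] [∀ b, Finite (κ b)] (x : ∀ a, ι a → K)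
    (y : ∀ b, κ b → K) (hx : ∀ a, x a ≠ 0) (hy : ∀ b, y b ≠ 0) (e : α → ℕ) (f : β → ℕ) (C : ℝ)
    (harch : ∀ v ∈ archAbsVal (K := K),
      ∏ a, (⨆ i, v (x a i)) ^ e a ≤ C * ∏ b, (⨆ k, v (y b k)) ^ f b)
    (hnonarch : ∀ v ∈ nonarchAbsVal (K := K),
      ∏ a, (⨆ i, v (x a i)) ^ e a ≤ ∏ b, (⨆ k, v (y b k)) ^ f b) :
    ∏ a, mulHeight (x a) ^ e a ≤ C ^ totalWeight K * ∏ b, mulHeight (y b) ^ f b := by
  have key := prod_le_of_local_le (K := K) (fun v ↦ ∏ a, (⨆ i, v (x a i)) ^ e a)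
    (fun v ↦ ∏ b, (⨆ k, v (y b k)) ^ f b) C
    (fun v ↦ Finset.prod_nonneg fun a _ ↦ pow_nonneg (Real.iSup_nonneg fun i ↦ v.nonneg _) _)
    (HasFiniteMulSupport.prod
      (fun a ↦ (hasFiniteMulSupport_iSup_abv (hx a)).fun_pow (e a)) Finset.univ)
    (HasFiniteMulSupport.prod
      (fun b ↦ (hasFiniteMulSupport_iSup_abv (hy b)).fun_pow (f b)) Finset.univ)
    harch hnonarch
  rwa [prod_iSup_abv_pow_eq x hx e, prod_iSup_abv_pow_eq y hy f] at key

/-- Logarithmic form of `prod_mulHeight_le_of_local_le`: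
`∑ a, e a * logHeight (x a) ≤ totalWeight K * log C + ∑ b, f b * logHeight (y b)`. -/
theorem sum_logHeight_le_of_local_le {α β : Type*} [Fintype α] [Fintype β] {ι : α → Type*}
    {κ : β → Type*} [∀ a, Finite (ι a)] [∀ b, Finite (κ b)] (x : ∀ a, ι a → K)
    (y : ∀ b, κ b → K) (hx : ∀ a, x a ≠ 0) (hy : ∀ b, y b ≠ 0) (e : α → ℕ) (f : β → ℕ) {C : ℝ}
    (hC : 0 < C)
    (harch : ∀ v ∈ archAbsVal (K := K),
      ∏ a, (⨆ i, v (x a i)) ^ e a ≤ C * ∏ b, (⨆ k, v (y b k)) ^ f b)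
    (hnonarch : ∀ v ∈ nonarchAbsVal (K := K),
      ∏ a, (⨆ i, v (x a i)) ^ e a ≤ ∏ b, (⨆ k, v (y b k)) ^ f b) :
    ∑ a, (e a : ℝ) * logHeight (x a) ≤
      totalWeight K * Real.log C + ∑ b, (f b : ℝ) * logHeight (y b) := by
  have key := prod_mulHeight_le_of_local_le x y hx hy e f C harch hnonarch
  have h1 : 0 < ∏ a, mulHeight (x a) ^ e a :=
    Finset.prod_pos fun a _ ↦ pow_pos (mulHeight_pos _) _
  have h2 : 0 < ∏ b, mulHeight (y b) ^ f b :=
    Finset.prod_pos fun b _ ↦ pow_pos (mulHeight_pos _) _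
  have h3 := Real.log_le_log h1 key
  rw [Real.log_mul (pow_pos hC _).ne' h2.ne', Real.log_pow,
    Real.log_prod (fun a _ ↦ (pow_pos (mulHeight_pos _) _).ne'),
    Real.log_prod (fun b _ ↦ (pow_pos (mulHeight_pos _) _).ne')] at h3
  simpa only [Real.log_pow, logHeight_eq_log_mulHeight] using h3

end LocalGlobal

/-! ### Monic equations with polynomial coefficients: local bounds -/

section PolyLocal

variable {K : Type*} [Field K]

theorem abv_coeff_mul_pow_le (v : AbsoluteValue K ℝ) {p : Polynomial K} {N : ℕ} {M : ℝ}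
    (hM : ∀ k, v (p.coeff k) ≤ M) (u : K) {k : ℕ} (hk : k ≤ N) :
    v (p.coeff k * u ^ k) ≤ M * max (v u) 1 ^ N := by
  have hM0 : 0 ≤ M := (v.nonneg _).trans (hM 0)
  rw [map_mul, map_pow]
  have h1 : v u ^ k ≤ max (v u) 1 ^ k := pow_le_pow_left₀ (v.nonneg u) (le_max_left _ _) k
  have h2 : max (v u) 1 ^ k ≤ max (v u) 1 ^ N := pow_le_pow_right₀ (le_max_right _ _) hk
  exact mul_le_mul (hM k) (h1.trans h2) (pow_nonneg (v.nonneg u) k) hM0

/-- Value of a polynomial of degree at most `N` with coefficients of size at most `M`. -/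
theorem abv_eval_le (v : AbsoluteValue K ℝ) {p : Polynomial K} {N : ℕ} (hN : p.natDegree ≤ N)
    {M : ℝ} (hM : ∀ k, v (p.coeff k) ≤ M) (u : K) :
    v (p.eval u) ≤ (N + 1) * (M * max (v u) 1 ^ N) := by
  rw [Polynomial.eval_eq_sum_range' (Nat.lt_succ_of_le hN)]
  refine (v.sum_le _ _).trans ?_
  refine (sum_le_sum fun k hk ↦
    abv_coeff_mul_pow_le v hM u (Nat.lt_succ_iff.mp (mem_range.mp hk))).trans (le_of_eq ?_)
  rw [sum_const, card_range, nsmul_eq_mul]
  push_cast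
  ring

/-- Value of a polynomial of degree at most `N` with coefficients of size at most `M`,
nonarchimedean case. -/
theorem abv_eval_le_of_isNonarchimedean {v : AbsoluteValue K ℝ} (hv : IsNonarchimedean v)
    {p : Polynomial K} {N : ℕ} (hN : p.natDegree ≤ N) {M : ℝ} (hM : ∀ k, v (p.coeff k) ≤ M)
    (u : K) : v (p.eval u) ≤ M * max (v u) 1 ^ N := by
  rw [Polynomial.eval_eq_sum_range' (Nat.lt_succ_of_le hN)]
  obtain ⟨b, hb, hle⟩ := hv.finset_image_add_of_nonempty (fun k ↦ p.coeff k * u ^ k)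
    (nonempty_range_iff.mpr (Nat.succ_ne_zero N))
  exact hle.trans (abv_coeff_mul_pow_le v hM u (Nat.lt_succ_iff.mp (mem_range.mp hb)))

theorem abv_eval_le_pow (v : AbsoluteValue K ℝ) {a d : ℕ} (hd : d ≠ 0) {p : Polynomial K}
    (hp : p.natDegree ≤ a * d) {M : ℝ} (hM1 : 1 ≤ M) (hM : ∀ k, v (p.coeff k) ≤ M) (u : K) :
    v (p.eval u) ≤ ((a + 1) * (M * max (v u) 1 ^ a)) ^ d := by
  have h := abv_eval_le v hp hM u
  have ha : (0 : ℝ) ≤ a := Nat.cast_nonneg a
  have hB := cast_mul_add_one_le_pow a d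
  have hMd : M ≤ M ^ d := le_self_pow₀ hM1 hd
  have hZ : (0 : ℝ) ≤ max (v u) 1 ^ (a * d) := by positivity
  rw [mul_pow, mul_pow, ← pow_mul]
  refine h.trans ?_
  have h3 : M * max (v u) 1 ^ (a * d) ≤ M ^ d * max (v u) 1 ^ (a * d) :=
    mul_le_mul_of_nonneg_right hMd hZ
  exact mul_le_mul hB h3 (mul_nonneg (by linarith) hZ) (by positivity)

theorem abv_eval_le_pow_of_isNonarchimedean {v : AbsoluteValue K ℝ} (hv : IsNonarchimedean v)
    {a d : ℕ} (hd : d ≠ 0) {p : Polynomial K} (hp : p.natDegree ≤ a * d) {M : ℝ} (hM1 : 1 ≤ M)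
    (hM : ∀ k, v (p.coeff k) ≤ M) (u : K) :
    v (p.eval u) ≤ (M * max (v u) 1 ^ a) ^ d := by
  have h := abv_eval_le_of_isNonarchimedean hv hp hM u
  have hMd : M ≤ M ^ d := le_self_pow₀ hM1 hd
  have hZ : (0 : ℝ) ≤ max (v u) 1 ^ (a * d) := by positivity
  rw [mul_pow, ← pow_mul]
  exact h.trans (mul_le_mul_of_nonneg_right hMd hZ)

/-- **Local bound for a root of a monic equation with polynomial coefficients.**
If `w ^ n + ∑ j < n, (p j)(u) * w ^ j = 0`, `deg (p j) ≤ a * (n - j)` and all coefficients of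
the `p j` have size at most `M` (with `1 ≤ M`), then `v w ≤ 2 * (a + 1) * M * max (v u) 1 ^ a`. -/
theorem abv_le_of_monic_equation (v : AbsoluteValue K ℝ) {a n : ℕ} {p : ℕ → Polynomial K}
    {u w : K} (hdeg : ∀ j < n, (p j).natDegree ≤ a * (n - j))
    (hw : w ^ n + ∑ j ∈ range n, (p j).eval u * w ^ j = 0) {M : ℝ} (hM1 : 1 ≤ M)
    (hM : ∀ j < n, ∀ k, v ((p j).coeff k) ≤ M) :
    v w ≤ 2 * (a + 1) * (M * max (v u) 1 ^ a) := by
  have ha : (0 : ℝ) ≤ a := Nat.cast_nonneg a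
  have hρ : (0 : ℝ) ≤ (a + 1) * (M * max (v u) 1 ^ a) :=
    mul_nonneg (by linarith) (mul_nonneg (by linarith) (by positivity))
  have h := abv_le_two_mul_of_monic_root v (c := fun j ↦ (p j).eval u) hw hρ
    (fun j hj ↦ abv_eval_le_pow v (by omega) (hdeg j hj) hM1 (hM j hj) u)
  linarith

/-- **Local bound for a root of a monic equation with polynomial coefficients,
nonarchimedean case**: `v w ≤ M * max (v u) 1 ^ a`. -/
theorem abv_le_of_monic_equation_of_isNonarchimedean {v : AbsoluteValue K ℝ}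
    (hv : IsNonarchimedean v) {a n : ℕ} {p : ℕ → Polynomial K}
    {u w : K} (hdeg : ∀ j < n, (p j).natDegree ≤ a * (n - j))
    (hw : w ^ n + ∑ j ∈ range n, (p j).eval u * w ^ j = 0) {M : ℝ} (hM1 : 1 ≤ M)
    (hM : ∀ j < n, ∀ k, v ((p j).coeff k) ≤ M) :
    v w ≤ M * max (v u) 1 ^ a := by
  have hρ : (0 : ℝ) ≤ M * max (v u) 1 ^ a := mul_nonneg (by linarith) (by positivity)
  exact abv_le_of_monic_root_of_isNonarchimedean hv (c := fun j ↦ (p j).eval u) hw hρ
    (fun j hj ↦ abv_eval_le_pow_of_isNonarchimedean hv (by omega) (hdeg j hj) hM1 (hM j hj) u)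

theorem iSup_abv_pair (v : AbsoluteValue K ℝ) (u : K) :
    ⨆ k, v (![u, 1] k) = max (v u) 1 := by
  refine le_antisymm (ciSup_le fun k ↦ ?_) (max_le ?_ ?_)
  · fin_cases k
    · exact le_max_left _ _
    · simp
  · exact Finite.le_ciSup_of_le (0 : Fin 2) (by simp)
  · exact Finite.le_ciSup_of_le (1 : Fin 2) (by simp)

end PolyLocal

/-! ### Monic equations with polynomial coefficients: height bounds -/

section PolyGlobal

open Height AdmissibleAbsValues

variable {K : Type*} [Field K] [AdmissibleAbsValues K]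

/-- **Height bound from integral dependence (general tuple form).**
Let `y : ι → K` be a tuple each of whose entries is `1` or a root of a monic equation
`y i ^ n i + ∑ j < n i, (p i j)(u) * y i ^ j = 0` with `deg (p i j) ≤ a * (n i - j)`.
Let `m` be a tuple containing `1` and all nonzero coefficients of the `p i j`. Then
`mulHeight y ≤ (2 * (a + 1)) ^ totalWeight K * mulHeight m * mulHeight₁ u ^ a`. -/
theorem mulHeight_le_of_one_or_monic_equations {ι μ : Type*} [Finite ι] [Finite μ] (a : ℕ)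
    (n : ι → ℕ) (p : ι → ℕ → Polynomial K) (m : μ → K)
    (hdeg : ∀ i, ∀ j < n i, (p i j).natDegree ≤ a * (n i - j))
    (hm1 : ∃ l, m l = 1)
    (hm : ∀ i, ∀ j < n i, ∀ k, (p i j).coeff k = 0 ∨ ∃ l, m l = (p i j).coeff k)
    (u : K) (y : ι → K)
    (hy : ∀ i, y i = 1 ∨ y i ^ n i + ∑ j ∈ range (n i), (p i j).eval u * y i ^ j = 0) :
    mulHeight y ≤ (2 * (a + 1)) ^ totalWeight K * mulHeight m * mulHeight₁ u ^ a := by
  obtain ⟨l₁, hl₁⟩ := hm1
  have hm0 : m ≠ 0 := fun h ↦ by simp [h] at hl₁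
  have hz0 : ![u, 1] ≠ 0 := by simp
  have ha : (0 : ℝ) ≤ a := Nat.cast_nonneg a
  have hM1 (v : AbsoluteValue K ℝ) : 1 ≤ ⨆ l, v (m l) :=
    Finite.le_ciSup_of_le l₁ (by rw [hl₁, map_one])
  have hMc (v : AbsoluteValue K ℝ) (i : ι) (j : ℕ) (hj : j < n i) (k : ℕ) :
      v ((p i j).coeff k) ≤ ⨆ l, v (m l) := by
    rcases hm i j hj k with h | ⟨l, hl⟩
    · rw [h, map_zero]
      exact zero_le_one.trans (hM1 v)
    · rw [← hl]
      exact Finite.le_ciSup_of_le l le_rfl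
  have hone (v : AbsoluteValue K ℝ) : 1 ≤ (⨆ l, v (m l)) * max (v u) 1 ^ a :=
    one_le_mul_of_one_le_of_one_le (hM1 v) (one_le_pow₀ (le_max_right _ _))
  rw [mulHeight₁_eq_mulHeight]
  refine mulHeight_le_of_local_le a (C := 2 * (a + 1)) (by linarith) y hm0 hz0 ?_ ?_
  · intro v _ i
    rw [iSup_abv_pair]
    rcases hy i with h | h
    · rw [h, map_one]
      have := hone v
      nlinarith
    · exact abv_le_of_monic_equation v (hdeg i) h (hM1 v) (hMc v i)
  · intro v hv i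
    rw [iSup_abv_pair]
    rcases hy i with h | h
    · rw [h, map_one]
      exact hone v
    · exact abv_le_of_monic_equation_of_isNonarchimedean (isNonarchimedean v hv) (hdeg i) h
        (hM1 v) (hMc v i)

/-- **Height bound from integral dependence (projective family form).** Every entry of `y`
is a root of a monic equation with coefficients `(p i j)(u)`, `deg (p i j) ≤ a * (n i - j)`. -/
theorem mulHeight_le_of_monic_equations {ι μ : Type*} [Finite ι] [Finite μ] (a : ℕ)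
    (n : ι → ℕ) (p : ι → ℕ → Polynomial K) (m : μ → K)
    (hdeg : ∀ i, ∀ j < n i, (p i j).natDegree ≤ a * (n i - j))
    (hm1 : ∃ l, m l = 1)
    (hm : ∀ i, ∀ j < n i, ∀ k, (p i j).coeff k = 0 ∨ ∃ l, m l = (p i j).coeff k)
    (u : K) (y : ι → K)
    (hy : ∀ i, y i ^ n i + ∑ j ∈ range (n i), (p i j).eval u * y i ^ j = 0) :
    mulHeight y ≤ (2 * (a + 1)) ^ totalWeight K * mulHeight m * mulHeight₁ u ^ a :=
  mulHeight_le_of_one_or_monic_equations a n p m hdeg hm1 hm u y fun i ↦ Or.inr (hy i)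

/-- **Height bound from integral dependence (affine point form).** Every `x i` is a root of a
monic equation with coefficients `(p i j)(u)`, `deg (p i j) ≤ a * (n i - j)`; the conclusion
bounds the height of the point `(1, x 0, …, x (r - 1))`. -/
theorem mulHeight_cons_one_le_of_monic_equations {r : ℕ} {μ : Type*} [Finite μ] (a : ℕ)
    (n : Fin r → ℕ) (p : Fin r → ℕ → Polynomial K) (m : μ → K)
    (hdeg : ∀ i, ∀ j < n i, (p i j).natDegree ≤ a * (n i - j))
    (hm1 : ∃ l, m l = 1)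
    (hm : ∀ i, ∀ j < n i, ∀ k, (p i j).coeff k = 0 ∨ ∃ l, m l = (p i j).coeff k)
    (u : K) (x : Fin r → K)
    (hx : ∀ i, x i ^ n i + ∑ j ∈ range (n i), (p i j).eval u * x i ^ j = 0) :
    mulHeight (Matrix.vecCons 1 x) ≤
      (2 * (a + 1)) ^ totalWeight K * mulHeight m * mulHeight₁ u ^ a := by
  refine mulHeight_le_of_one_or_monic_equations a (Fin.cases 0 n) (Fin.cases (fun _ ↦ 0) p) m
    ?_ hm1 ?_ u (Matrix.vecCons 1 x) ?_
  · intro i
    refine Fin.cases ?_ (fun i ↦ ?_) i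
    · intro j hj
      simp at hj
    · simpa using hdeg i
  · intro i
    refine Fin.cases ?_ (fun i ↦ ?_) i
    · intro j hj
      simp at hj
    · simpa using hm i
  · intro i
    refine Fin.cases ?_ (fun i ↦ ?_) i
    · left
      simp
    · right
      simpa using hx i

/-- **Height bound from integral dependence (one element).** -/
theorem mulHeight₁_le_of_monic_equation {μ : Type*} [Finite μ] (a n : ℕ)
    (p : ℕ → Polynomial K) (m : μ → K)
    (hdeg : ∀ j < n, (p j).natDegree ≤ a * (n - j))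
    (hm1 : ∃ l, m l = 1)
    (hm : ∀ j < n, ∀ k, (p j).coeff k = 0 ∨ ∃ l, m l = (p j).coeff k)
    (u w : K) (hw : w ^ n + ∑ j ∈ range n, (p j).eval u * w ^ j = 0) :
    mulHeight₁ w ≤ (2 * (a + 1)) ^ totalWeight K * mulHeight m * mulHeight₁ u ^ a := by
  rw [mulHeight₁_eq_mulHeight w]
  refine mulHeight_le_of_one_or_monic_equations a (fun _ ↦ n) (fun _ ↦ p) m (fun _ ↦ hdeg) hm1
    (fun _ ↦ hm) u ![w, 1] ?_
  intro i
  fin_cases i
  · right
    simpa using hw
  · left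
    simp

/-- **Height bound from integral dependence (product form; the shape used for curves).**
If `ψ ≠ 0` and every product `c i ^ b * ψ s` is a root of a monic equation with coefficients
`(p i s j)(u)`, `deg (p i s j) ≤ a * (n i s - j)`, then
`mulHeight c ^ b ≤ (2 * (a + 1)) ^ totalWeight K * mulHeight m * mulHeight₁ u ^ a`.
With `c = Matrix.vecCons 1 c'` this bounds the height of the affine point `c'`. -/
theorem mulHeight_pow_le_of_monic_equations_mul {ι σ μ : Type*} [Finite ι] [Finite σ] [Finite μ]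
    (a b : ℕ) (n : ι → σ → ℕ) (p : ι → σ → ℕ → Polynomial K) (m : μ → K)
    (hdeg : ∀ i s, ∀ j < n i s, (p i s j).natDegree ≤ a * (n i s - j))
    (hm1 : ∃ l, m l = 1)
    (hm : ∀ i s, ∀ j < n i s, ∀ k, (p i s j).coeff k = 0 ∨ ∃ l, m l = (p i s j).coeff k)
    (u : K) (c : ι → K) (ψ : σ → K) (hψ : ψ ≠ 0)
    (hy : ∀ i s, (c i ^ b * ψ s) ^ n i s +
      ∑ j ∈ range (n i s), (p i s j).eval u * (c i ^ b * ψ s) ^ j = 0) :
    mulHeight c ^ b ≤ (2 * (a + 1)) ^ totalWeight K * mulHeight m * mulHeight₁ u ^ a := by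
  have key := mulHeight_le_of_monic_equations a (fun q : ι × σ ↦ n q.1 q.2)
    (fun q : ι × σ ↦ p q.1 q.2) m (fun q ↦ hdeg q.1 q.2) hm1 (fun q ↦ hm q.1 q.2) u
    (fun q : ι × σ ↦ (c ^ b) q.1 * ψ q.2) (fun q ↦ by simpa using hy q.1 q.2)
  rcases eq_or_ne (c ^ b) 0 with h0 | h0
  · have h1 : mulHeight c ^ b = 1 := by rw [← mulHeight_pow, h0, mulHeight_zero]
    rw [h1]
    have := one_le_mulHeight (fun q : ι × σ ↦ (c ^ b) q.1 * ψ q.2)
    exact this.trans key
  · rw [mulHeight_fun_mul_eq h0 hψ, mulHeight_pow] at key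
    have h1 : mulHeight c ^ b ≤ mulHeight c ^ b * mulHeight ψ :=
      le_mul_of_one_le_right (by positivity) (one_le_mulHeight ψ)
    exact h1.trans key

/-! ### Logarithmic forms -/

theorem log_le_of_le_pow_mul_mul_pow {X C M U : ℝ} {t a : ℕ} (hX : 0 < X) (hC : 0 < C)
    (hM : 0 < M) (hU : 0 < U) (h : X ≤ C ^ t * M * U ^ a) :
    Real.log X ≤ t * Real.log C + Real.log M + a * Real.log U := by
  have h1 := Real.log_le_log hX h
  rwa [Real.log_mul (by positivity) (by positivity), Real.log_mul (by positivity) (by positivity),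
    Real.log_pow, Real.log_pow] at h1

theorem two_mul_add_one_pos (a : ℕ) : (0 : ℝ) < 2 * ((a : ℝ) + 1) := by positivity

/-- Logarithmic form of `mulHeight_le_of_one_or_monic_equations`. -/
theorem logHeight_le_of_one_or_monic_equations {ι μ : Type*} [Finite ι] [Finite μ] (a : ℕ)
    (n : ι → ℕ) (p : ι → ℕ → Polynomial K) (m : μ → K)
    (hdeg : ∀ i, ∀ j < n i, (p i j).natDegree ≤ a * (n i - j))
    (hm1 : ∃ l, m l = 1)
    (hm : ∀ i, ∀ j < n i, ∀ k, (p i j).coeff k = 0 ∨ ∃ l, m l = (p i j).coeff k)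
    (u : K) (y : ι → K)
    (hy : ∀ i, y i = 1 ∨ y i ^ n i + ∑ j ∈ range (n i), (p i j).eval u * y i ^ j = 0) :
    logHeight y ≤
      totalWeight K * Real.log (2 * (a + 1)) + logHeight m + a * logHeight₁ u :=
  log_le_of_le_pow_mul_mul_pow (mulHeight_pos y) (two_mul_add_one_pos a) (mulHeight_pos m)
    (mulHeight₁_pos u) (mulHeight_le_of_one_or_monic_equations a n p m hdeg hm1 hm u y hy)

/-- Logarithmic form of `mulHeight_le_of_monic_equations`. -/
theorem logHeight_le_of_monic_equations {ι μ : Type*} [Finite ι] [Finite μ] (a : ℕ)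
    (n : ι → ℕ) (p : ι → ℕ → Polynomial K) (m : μ → K)
    (hdeg : ∀ i, ∀ j < n i, (p i j).natDegree ≤ a * (n i - j))
    (hm1 : ∃ l, m l = 1)
    (hm : ∀ i, ∀ j < n i, ∀ k, (p i j).coeff k = 0 ∨ ∃ l, m l = (p i j).coeff k)
    (u : K) (y : ι → K)
    (hy : ∀ i, y i ^ n i + ∑ j ∈ range (n i), (p i j).eval u * y i ^ j = 0) :
    logHeight y ≤
      totalWeight K * Real.log (2 * (a + 1)) + logHeight m + a * logHeight₁ u :=
  log_le_of_le_pow_mul_mul_pow (mulHeight_pos y) (two_mul_add_one_pos a) (mulHeight_pos m)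
    (mulHeight₁_pos u) (mulHeight_le_of_monic_equations a n p m hdeg hm1 hm u y hy)

/-- Logarithmic form of `mulHeight_cons_one_le_of_monic_equations`. -/
theorem logHeight_cons_one_le_of_monic_equations {r : ℕ} {μ : Type*} [Finite μ] (a : ℕ)
    (n : Fin r → ℕ) (p : Fin r → ℕ → Polynomial K) (m : μ → K)
    (hdeg : ∀ i, ∀ j < n i, (p i j).natDegree ≤ a * (n i - j))
    (hm1 : ∃ l, m l = 1)
    (hm : ∀ i, ∀ j < n i, ∀ k, (p i j).coeff k = 0 ∨ ∃ l, m l = (p i j).coeff k)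
    (u : K) (x : Fin r → K)
    (hx : ∀ i, x i ^ n i + ∑ j ∈ range (n i), (p i j).eval u * x i ^ j = 0) :
    logHeight (Matrix.vecCons 1 x) ≤
      totalWeight K * Real.log (2 * (a + 1)) + logHeight m + a * logHeight₁ u :=
  log_le_of_le_pow_mul_mul_pow (mulHeight_pos _) (two_mul_add_one_pos a) (mulHeight_pos m)
    (mulHeight₁_pos u) (mulHeight_cons_one_le_of_monic_equations a n p m hdeg hm1 hm u x hx)

/-- Logarithmic form of `mulHeight₁_le_of_monic_equation`. -/
theorem logHeight₁_le_of_monic_equation {μ : Type*} [Finite μ] (a n : ℕ)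
    (p : ℕ → Polynomial K) (m : μ → K)
    (hdeg : ∀ j < n, (p j).natDegree ≤ a * (n - j))
    (hm1 : ∃ l, m l = 1)
    (hm : ∀ j < n, ∀ k, (p j).coeff k = 0 ∨ ∃ l, m l = (p j).coeff k)
    (u w : K) (hw : w ^ n + ∑ j ∈ range n, (p j).eval u * w ^ j = 0) :
    logHeight₁ w ≤
      totalWeight K * Real.log (2 * (a + 1)) + logHeight m + a * logHeight₁ u :=
  log_le_of_le_pow_mul_mul_pow (mulHeight₁_pos w) (two_mul_add_one_pos a) (mulHeight_pos m)
    (mulHeight₁_pos u) (mulHeight₁_le_of_monic_equation a n p m hdeg hm1 hm u w hw)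

/-- Logarithmic form of `mulHeight_pow_le_of_monic_equations_mul`:
`b * h(c) ≤ a * h(u) + totalWeight K * log (2 * (a + 1)) + h(m)`. -/
theorem mul_logHeight_le_of_monic_equations_mul {ι σ μ : Type*} [Finite ι] [Finite σ] [Finite μ]
    (a b : ℕ) (n : ι → σ → ℕ) (p : ι → σ → ℕ → Polynomial K) (m : μ → K)
    (hdeg : ∀ i s, ∀ j < n i s, (p i s j).natDegree ≤ a * (n i s - j))
    (hm1 : ∃ l, m l = 1)
    (hm : ∀ i s, ∀ j < n i s, ∀ k, (p i s j).coeff k = 0 ∨ ∃ l, m l = (p i s j).coeff k)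
    (u : K) (c : ι → K) (ψ : σ → K) (hψ : ψ ≠ 0)
    (hy : ∀ i s, (c i ^ b * ψ s) ^ n i s +
      ∑ j ∈ range (n i s), (p i s j).eval u * (c i ^ b * ψ s) ^ j = 0) :
    b * logHeight c ≤
      totalWeight K * Real.log (2 * (a + 1)) + logHeight m + a * logHeight₁ u := by
  have h := log_le_of_le_pow_mul_mul_pow (pow_pos (mulHeight_pos c) b) (two_mul_add_one_pos a)
    (mulHeight_pos m) (mulHeight₁_pos u)
    (mulHeight_pow_le_of_monic_equations_mul a b n p m hdeg hm1 hm u c ψ hψ hy)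
  rwa [Real.log_pow] at h

/-! ### Multiplication tables with polynomial entries -/

/-- **Height bound from a multiplication table (finite module form of integral dependence).**
Let `W : σ → K` be a nonzero tuple and `x : ι → K` a tuple each of whose entries is `1` or
satisfies `x e * W i = ∑ l, (q e i l)(y) * W l` for all `i`, where `deg (q e i l) ≤ A`.
Let `m` be a tuple containing `1` and all nonzero coefficients of the `q e i l`. Then
`mulHeight x ≤ (card σ * (A + 1)) ^ totalWeight K * mulHeight m * mulHeight₁ y ^ A`. -/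
theorem mulHeight_le_of_one_or_mul_table {ι σ μ : Type*} [Finite ι] [Fintype σ] [Finite μ]
    (A : ℕ) (q : ι → σ → σ → Polynomial K) (m : μ → K)
    (hdeg : ∀ e i l, (q e i l).natDegree ≤ A)
    (hm1 : ∃ j, m j = 1)
    (hm : ∀ e i l k, (q e i l).coeff k = 0 ∨ ∃ j, m j = (q e i l).coeff k)
    (y : K) (W : σ → K) (hW : W ≠ 0) (x : ι → K)
    (hx : ∀ e, x e = 1 ∨ ∀ i, x e * W i = ∑ l, (q e i l).eval y * W l) :
    mulHeight x ≤
      (Fintype.card σ * (A + 1)) ^ totalWeight K * mulHeight m * mulHeight₁ y ^ A := by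
  obtain ⟨l₁, hl₁⟩ := hm1
  have hm0 : m ≠ 0 := fun h ↦ by simp [h] at hl₁
  have hz0 : ![y, 1] ≠ 0 := by simp
  have hA : (0 : ℝ) ≤ A := Nat.cast_nonneg A
  have hσ : (1 : ℝ) ≤ Fintype.card σ := by
    have : Nonempty σ := (Function.ne_iff.mp hW).nonempty
    exact_mod_cast Fintype.card_pos
  have hC : (1 : ℝ) ≤ Fintype.card σ * (A + 1) := by nlinarith
  have hM1 (v : AbsoluteValue K ℝ) : 1 ≤ ⨆ l, v (m l) :=
    Finite.le_ciSup_of_le l₁ (by rw [hl₁, map_one])
  have hMc (v : AbsoluteValue K ℝ) (e : ι) (i l : σ) (k : ℕ) :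
      v ((q e i l).coeff k) ≤ ⨆ l, v (m l) := by
    rcases hm e i l k with h | ⟨j, hj⟩
    · rw [h, map_zero]
      exact zero_le_one.trans (hM1 v)
    · rw [← hj]
      exact Finite.le_ciSup_of_le j le_rfl
  have hone (v : AbsoluteValue K ℝ) : 1 ≤ (⨆ l, v (m l)) * max (v y) 1 ^ A :=
    one_le_mul_of_one_le_of_one_le (hM1 v) (one_le_pow₀ (le_max_right _ _))
  rw [mulHeight₁_eq_mulHeight]
  refine mulHeight_le_of_local_le A hC x hm0 hz0 ?_ ?_
  · intro v _ e
    rw [iSup_abv_pair]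
    rcases hx e with h | h
    · rw [h, map_one]
      have := hone v
      nlinarith
    · have h1 := abv_le_of_mul_table v hW h
        (fun i l ↦ abv_eval_le v (hdeg e i l) (hMc v e i l) y)
      rwa [← mul_assoc] at h1
  · intro v hv e
    rw [iSup_abv_pair]
    rcases hx e with h | h
    · rw [h, map_one]
      exact hone v
    · exact abv_le_of_mul_table_of_isNonarchimedean (isNonarchimedean v hv) hW h
        (fun i l ↦ abv_eval_le_of_isNonarchimedean (isNonarchimedean v hv) (hdeg e i l)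
          (hMc v e i l) y)

/-- Logarithmic form of `mulHeight_le_of_one_or_mul_table`. -/
theorem logHeight_le_of_one_or_mul_table {ι σ μ : Type*} [Finite ι] [Fintype σ] [Finite μ]
    (A : ℕ) (q : ι → σ → σ → Polynomial K) (m : μ → K)
    (hdeg : ∀ e i l, (q e i l).natDegree ≤ A)
    (hm1 : ∃ j, m j = 1)
    (hm : ∀ e i l k, (q e i l).coeff k = 0 ∨ ∃ j, m j = (q e i l).coeff k)
    (y : K) (W : σ → K) (hW : W ≠ 0) (x : ι → K)
    (hx : ∀ e, x e = 1 ∨ ∀ i, x e * W i = ∑ l, (q e i l).eval y * W l) :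
    logHeight x ≤
      totalWeight K * Real.log (Fintype.card σ * (A + 1)) + logHeight m + A * logHeight₁ y := by
  have hσ : (0 : ℝ) < Fintype.card σ := by
    have : Nonempty σ := (Function.ne_iff.mp hW).nonempty
    exact_mod_cast Fintype.card_pos
  exact log_le_of_le_pow_mul_mul_pow (mulHeight_pos x) (by positivity) (mulHeight_pos m)
    (mulHeight₁_pos y) (mulHeight_le_of_one_or_mul_table A q m hdeg hm1 hm y W hW x hx)

end PolyGlobal

/-! ### Several variables: local bounds -/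

section MvLocal

variable {K : Type*} [Field K] {τ : Type*}

theorem prod_pow_le_of_totalDegree_le {p : MvPolynomial τ K} {N : ℕ} (hN : p.totalDegree ≤ N)
    {Z : ℝ} (hZ1 : 1 ≤ Z) {d : τ →₀ ℕ} (hd : d ∈ p.support) :
    ∏ i ∈ d.support, Z ^ d i ≤ Z ^ N := by
  rw [prod_pow_eq_pow_sum]
  exact pow_le_pow_right₀ hZ1 ((MvPolynomial.le_totalDegree hd).trans hN)

theorem prod_pow_le_of_isHomogeneous {p : MvPolynomial τ K} {N : ℕ} (hp : p.IsHomogeneous N)
    (Z : ℝ) {d : τ →₀ ℕ} (hd : d ∈ p.support) :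
    ∏ i ∈ d.support, Z ^ d i ≤ Z ^ N := by
  rw [prod_pow_eq_pow_sum, ← hp.degree_eq_sum_deg_support hd]

theorem abv_coeff_mul_monomial_le (v : AbsoluteValue K ℝ) {p : MvPolynomial τ K} {N : ℕ} {M : ℝ}
    (hM : ∀ d, v (p.coeff d) ≤ M) {y : τ → K} {Z : ℝ} (hZ : ∀ t, v (y t) ≤ Z)
    {d : τ →₀ ℕ} (hd : ∏ i ∈ d.support, Z ^ d i ≤ Z ^ N) :
    v (p.coeff d * ∏ i ∈ d.support, y i ^ d i) ≤ M * Z ^ N := by
  have hM0 : 0 ≤ M := (v.nonneg _).trans (hM 0)
  rw [map_mul, map_prod]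
  have h1 : ∏ i ∈ d.support, v (y i ^ d i) ≤ ∏ i ∈ d.support, Z ^ d i := by
    refine prod_le_prod (fun i _ ↦ v.nonneg _) fun i _ ↦ ?_
    rw [map_pow]
    exact pow_le_pow_left₀ (v.nonneg _) (hZ i) _
  exact mul_le_mul (hM d) (h1.trans hd) (prod_nonneg fun i _ ↦ v.nonneg _) hM0

/-- Value of a multivariate polynomial: `v (p(y)) ≤ #monomials * M * Z ^ N`. -/
theorem abv_mvEval_le (v : AbsoluteValue K ℝ) {p : MvPolynomial τ K} {N : ℕ} {M : ℝ}
    (hM : ∀ d, v (p.coeff d) ≤ M) {y : τ → K} {Z : ℝ} (hZ : ∀ t, v (y t) ≤ Z)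
    (hmono : ∀ d ∈ p.support, ∏ i ∈ d.support, Z ^ d i ≤ Z ^ N) :
    v (MvPolynomial.eval y p) ≤ p.support.card * (M * Z ^ N) := by
  rw [MvPolynomial.eval_eq]
  refine (v.sum_le _ _).trans ?_
  refine (sum_le_sum fun d hd ↦
    abv_coeff_mul_monomial_le v hM hZ (hmono d hd)).trans (le_of_eq ?_)
  rw [sum_const, nsmul_eq_mul]

/-- Value of a multivariate polynomial, nonarchimedean case: `v (p(y)) ≤ M * Z ^ N`. -/
theorem abv_mvEval_le_of_isNonarchimedean {v : AbsoluteValue K ℝ} (hv : IsNonarchimedean v)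
    {p : MvPolynomial τ K} {N : ℕ} {M : ℝ}
    (hM : ∀ d, v (p.coeff d) ≤ M) {y : τ → K} {Z : ℝ} (hZ0 : 0 ≤ Z) (hZ : ∀ t, v (y t) ≤ Z)
    (hmono : ∀ d ∈ p.support, ∏ i ∈ d.support, Z ^ d i ≤ Z ^ N) :
    v (MvPolynomial.eval y p) ≤ M * Z ^ N := by
  have hM0 : 0 ≤ M := (v.nonneg _).trans (hM 0)
  rcases eq_or_ne p 0 with rfl | hp0
  · simpa using mul_nonneg hM0 (pow_nonneg hZ0 N)
  rw [MvPolynomial.eval_eq]
  obtain ⟨d, hd, hle⟩ := hv.finset_image_add_of_nonempty
    (fun d ↦ p.coeff d * ∏ i ∈ d.support, y i ^ d i) (MvPolynomial.support_nonempty.mpr hp0)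
  exact hle.trans (abv_coeff_mul_monomial_le v hM hZ (hmono d hd))

/-- A polynomial of total degree at most `N` in the variables `τ` has at most
`(N + 1) ^ card τ` monomials. -/
theorem card_support_le_pow [Finite τ] {p : MvPolynomial τ K} {N : ℕ}
    (hN : p.totalDegree ≤ N) : p.support.card ≤ (N + 1) ^ Nat.card τ := by
  classical
  cases nonempty_fintype τ
  have hle : ∀ d ∈ p.support, ∀ i, d i ≤ N := by
    intro d hd i
    have h1 : d i ≤ ∑ i ∈ d.support, d i := by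
      by_cases hi : i ∈ d.support
      · exact single_le_sum (f := fun i ↦ d i) (fun _ _ ↦ Nat.zero_le _) hi
      · simp [Finsupp.notMem_support_iff.mp hi]
    exact h1.trans ((MvPolynomial.le_totalDegree hd).trans hN)
  have key := card_le_card_of_injOn (s := p.support)
    (t := (univ : Finset (τ → Fin (N + 1))))
    (fun d i ↦ (⟨min (d i) N, by omega⟩ : Fin (N + 1))) (fun _ _ ↦ by simp) (by
      intro d hd d' hd' h
      ext i
      have h2 := congrFun h i
      simp only [Fin.mk.injEq] at h2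
      have hd1 := hle d (by simpa using hd) i
      have hd2 := hle d' (by simpa using hd') i
      rwa [min_eq_left hd1, min_eq_left hd2] at h2)
  simpa [Nat.card_eq_fintype_card] using key

theorem abv_mvEval_le_pow [Finite τ] (v : AbsoluteValue K ℝ) {a d : ℕ} (hd : d ≠ 0)
    {p : MvPolynomial τ K} (hp : p.totalDegree ≤ a * d) {M : ℝ} (hM1 : 1 ≤ M)
    (hM : ∀ e, v (p.coeff e) ≤ M) {y : τ → K} {Z : ℝ} (hZ0 : 0 ≤ Z) (hZ : ∀ t, v (y t) ≤ Z)
    (hmono : ∀ e ∈ p.support, ∏ i ∈ e.support, Z ^ e i ≤ Z ^ (a * d)) :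
    v (MvPolynomial.eval y p) ≤ (((a : ℝ) + 1) ^ Nat.card τ * (M * Z ^ a)) ^ d := by
  have h := abv_mvEval_le v hM hZ hmono
  have ha : (0 : ℝ) ≤ a := Nat.cast_nonneg a
  have hcard : (p.support.card : ℝ) ≤ (((a : ℝ) + 1) ^ Nat.card τ) ^ d := by
    have h1 : p.support.card ≤ (a * d + 1) ^ Nat.card τ := card_support_le_pow hp
    have h2 := cast_mul_add_one_le_pow a d
    calc (p.support.card : ℝ) ≤ (((a * d : ℕ) : ℝ) + 1) ^ Nat.card τ := by exact_mod_cast h1
      _ ≤ (((a : ℝ) + 1) ^ d) ^ Nat.card τ := pow_le_pow_left₀ (by positivity) h2 _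
      _ = (((a : ℝ) + 1) ^ Nat.card τ) ^ d := by rw [← pow_mul, ← pow_mul, mul_comm]
  have hMd : M ≤ M ^ d := le_self_pow₀ hM1 hd
  have hZ' : (0 : ℝ) ≤ Z ^ (a * d) := pow_nonneg hZ0 _
  rw [mul_pow, mul_pow, ← pow_mul Z]
  refine h.trans ?_
  have h3 : M * Z ^ (a * d) ≤ M ^ d * Z ^ (a * d) := mul_le_mul_of_nonneg_right hMd hZ'
  exact mul_le_mul hcard h3 (mul_nonneg (by linarith) hZ') (by positivity)

theorem abv_mvEval_le_pow_of_isNonarchimedean {v : AbsoluteValue K ℝ}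
    (hv : IsNonarchimedean v) {a d : ℕ} (hd : d ≠ 0)
    {p : MvPolynomial τ K} {M : ℝ} (hM1 : 1 ≤ M)
    (hM : ∀ e, v (p.coeff e) ≤ M) {y : τ → K} {Z : ℝ} (hZ0 : 0 ≤ Z) (hZ : ∀ t, v (y t) ≤ Z)
    (hmono : ∀ e ∈ p.support, ∏ i ∈ e.support, Z ^ e i ≤ Z ^ (a * d)) :
    v (MvPolynomial.eval y p) ≤ (M * Z ^ a) ^ d := by
  have h := abv_mvEval_le_of_isNonarchimedean hv hM hZ0 hZ hmono
  have hMd : M ≤ M ^ d := le_self_pow₀ hM1 hd
  have hZ' : (0 : ℝ) ≤ Z ^ (a * d) := pow_nonneg hZ0 _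
  rw [mul_pow, ← pow_mul]
  exact h.trans (mul_le_mul_of_nonneg_right hMd hZ')

/-- **Local bound for a root of a monic equation with multivariate polynomial coefficients.**
`hmono` holds if `1 ≤ Z` (see `prod_pow_le_of_totalDegree_le`) or if the `p j` are homogeneous
of degree `a * (n - j)` (see `prod_pow_le_of_isHomogeneous`). -/
theorem abv_le_of_monic_mvEquation [Finite τ] (v : AbsoluteValue K ℝ) {a n : ℕ}
    {p : ℕ → MvPolynomial τ K} {y : τ → K} {w : K}
    (hdeg : ∀ j < n, (p j).totalDegree ≤ a * (n - j))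
    (hw : w ^ n + ∑ j ∈ range n, MvPolynomial.eval y (p j) * w ^ j = 0) {M : ℝ} (hM1 : 1 ≤ M)
    (hM : ∀ j < n, ∀ e, v ((p j).coeff e) ≤ M) {Z : ℝ} (hZ0 : 0 ≤ Z) (hZ : ∀ t, v (y t) ≤ Z)
    (hmono : ∀ j < n, ∀ e ∈ (p j).support, ∏ i ∈ e.support, Z ^ e i ≤ Z ^ (a * (n - j))) :
    v w ≤ 2 * ((a : ℝ) + 1) ^ Nat.card τ * (M * Z ^ a) := by
  have ha : (0 : ℝ) ≤ a := Nat.cast_nonneg a
  have hρ : (0 : ℝ) ≤ ((a : ℝ) + 1) ^ Nat.card τ * (M * Z ^ a) :=
    mul_nonneg (by positivity) (mul_nonneg (by linarith) (pow_nonneg hZ0 _))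
  have h := abv_le_two_mul_of_monic_root v (c := fun j ↦ MvPolynomial.eval y (p j)) hw hρ
    (fun j hj ↦ abv_mvEval_le_pow v (by omega) (hdeg j hj) hM1 (hM j hj) hZ0 hZ (hmono j hj))
  linarith

/-- **Local bound for a root of a monic equation with multivariate polynomial coefficients,
nonarchimedean case.** -/
theorem abv_le_of_monic_mvEquation_of_isNonarchimedean {v : AbsoluteValue K ℝ}
    (hv : IsNonarchimedean v) {a n : ℕ}
    {p : ℕ → MvPolynomial τ K} {y : τ → K} {w : K}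
    (hw : w ^ n + ∑ j ∈ range n, MvPolynomial.eval y (p j) * w ^ j = 0) {M : ℝ} (hM1 : 1 ≤ M)
    (hM : ∀ j < n, ∀ e, v ((p j).coeff e) ≤ M) {Z : ℝ} (hZ0 : 0 ≤ Z) (hZ : ∀ t, v (y t) ≤ Z)
    (hmono : ∀ j < n, ∀ e ∈ (p j).support, ∏ i ∈ e.support, Z ^ e i ≤ Z ^ (a * (n - j))) :
    v w ≤ M * Z ^ a := by
  have hρ : (0 : ℝ) ≤ M * Z ^ a := mul_nonneg (by linarith) (pow_nonneg hZ0 _)
  exact abv_le_of_monic_root_of_isNonarchimedean hv
    (c := fun j ↦ MvPolynomial.eval y (p j)) hw hρ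
    (fun j hj ↦ abv_mvEval_le_pow_of_isNonarchimedean hv (by omega) hM1 (hM j hj) hZ0 hZ
      (hmono j hj))

end MvLocal

/-! ### Several variables: height bounds -/

section MvGlobal

open Height AdmissibleAbsValues

variable {K : Type*} [Field K] [AdmissibleAbsValues K]

/-- **Height bound from integral dependence, several variables (affine form).**
Each entry of `x` is `1` or a root of a monic equation
`x i ^ n i + ∑ j < n i, (p i j)(y) * x i ^ j = 0` with `totalDegree (p i j) ≤ a * (n i - j)`.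
`m` is a tuple containing `1` and all nonzero coefficients; `z` is a tuple containing `1` and
all the `y t` (for instance `Matrix.vecCons 1 y`). Then
`mulHeight x ≤ (2 * (a + 1) ^ card τ) ^ totalWeight K * mulHeight m * mulHeight z ^ a`. -/
theorem mulHeight_le_of_one_or_monic_mvEquations {ι τ μ ν : Type*} [Finite ι] [Finite τ]
    [Finite μ] [Finite ν] (a : ℕ) (n : ι → ℕ) (p : ι → ℕ → MvPolynomial τ K) (m : μ → K)
    (hdeg : ∀ i, ∀ j < n i, (p i j).totalDegree ≤ a * (n i - j))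
    (hm1 : ∃ l, m l = 1)
    (hm : ∀ i, ∀ j < n i, ∀ e, (p i j).coeff e = 0 ∨ ∃ l, m l = (p i j).coeff e)
    (y : τ → K) (z : ν → K) (hz1 : ∃ k, z k = 1) (hzy : ∀ t, ∃ k, z k = y t) (x : ι → K)
    (hx : ∀ i, x i = 1 ∨
      x i ^ n i + ∑ j ∈ range (n i), MvPolynomial.eval y (p i j) * x i ^ j = 0) :
    mulHeight x ≤
      (2 * ((a : ℝ) + 1) ^ Nat.card τ) ^ totalWeight K * mulHeight m * mulHeight z ^ a := by
  obtain ⟨l₁, hl₁⟩ := hm1
  obtain ⟨k₁, hk₁⟩ := hz1
  have hm0 : m ≠ 0 := fun h ↦ by simp [h] at hl₁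
  have hz0 : z ≠ 0 := fun h ↦ by simp [h] at hk₁
  have ha : (0 : ℝ) ≤ a := Nat.cast_nonneg a
  have hC1 : (1 : ℝ) ≤ ((a : ℝ) + 1) ^ Nat.card τ := one_le_pow₀ (by linarith)
  have hM1 (v : AbsoluteValue K ℝ) : 1 ≤ ⨆ l, v (m l) :=
    Finite.le_ciSup_of_le l₁ (by rw [hl₁, map_one])
  have hZ1 (v : AbsoluteValue K ℝ) : 1 ≤ ⨆ k, v (z k) :=
    Finite.le_ciSup_of_le k₁ (by rw [hk₁, map_one])
  have hZ (v : AbsoluteValue K ℝ) (t : τ) : v (y t) ≤ ⨆ k, v (z k) := by
    obtain ⟨k, hk⟩ := hzy t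
    rw [← hk]
    exact Finite.le_ciSup_of_le k le_rfl
  have hMc (v : AbsoluteValue K ℝ) (i : ι) (j : ℕ) (hj : j < n i) (e : τ →₀ ℕ) :
      v ((p i j).coeff e) ≤ ⨆ l, v (m l) := by
    rcases hm i j hj e with h | ⟨l, hl⟩
    · rw [h, map_zero]
      exact zero_le_one.trans (hM1 v)
    · rw [← hl]
      exact Finite.le_ciSup_of_le l le_rfl
  have hone (v : AbsoluteValue K ℝ) : 1 ≤ (⨆ l, v (m l)) * (⨆ k, v (z k)) ^ a :=
    one_le_mul_of_one_le_of_one_le (hM1 v) (one_le_pow₀ (hZ1 v))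
  refine mulHeight_le_of_local_le a (C := 2 * ((a : ℝ) + 1) ^ Nat.card τ) (by linarith) x
    hm0 hz0 ?_ ?_
  · intro v _ i
    rcases hx i with h | h
    · rw [h, map_one]
      have := hone v
      nlinarith
    · exact abv_le_of_monic_mvEquation v (hdeg i) h (hM1 v) (hMc v i)
        (zero_le_one.trans (hZ1 v)) (hZ v)
        (fun j hj e he ↦ prod_pow_le_of_totalDegree_le (hdeg i j hj) (hZ1 v) he)
  · intro v hv i
    rcases hx i with h | h
    · rw [h, map_one]
      exact hone v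
    · exact abv_le_of_monic_mvEquation_of_isNonarchimedean (isNonarchimedean v hv) h (hM1 v)
        (hMc v i) (zero_le_one.trans (hZ1 v)) (hZ v)
        (fun j hj e he ↦ prod_pow_le_of_totalDegree_le (hdeg i j hj) (hZ1 v) he)

/-- **Height bound from integral dependence, homogeneous (projective) form.**
Each entry of `x` is a root of a monic equation
`x i ^ n i + ∑ j < n i, (p i j)(y) * x i ^ j = 0` with `p i j` homogeneous of degree
`a * (n i - j)`, and `y ≠ 0`. Then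
`mulHeight x ≤ (2 * (a + 1) ^ card τ) ^ totalWeight K * mulHeight m * mulHeight y ^ a`. -/
theorem mulHeight_le_of_monic_homogeneous_equations {ι τ μ : Type*} [Finite ι] [Finite τ]
    [Finite μ] (a : ℕ) (n : ι → ℕ) (p : ι → ℕ → MvPolynomial τ K) (m : μ → K)
    (hdeg : ∀ i, ∀ j < n i, (p i j).IsHomogeneous (a * (n i - j)))
    (hm1 : ∃ l, m l = 1)
    (hm : ∀ i, ∀ j < n i, ∀ e, (p i j).coeff e = 0 ∨ ∃ l, m l = (p i j).coeff e)
    (y : τ → K) (hy : y ≠ 0) (x : ι → K)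
    (hx : ∀ i, x i ^ n i + ∑ j ∈ range (n i), MvPolynomial.eval y (p i j) * x i ^ j = 0) :
    mulHeight x ≤
      (2 * ((a : ℝ) + 1) ^ Nat.card τ) ^ totalWeight K * mulHeight m * mulHeight y ^ a := by
  obtain ⟨l₁, hl₁⟩ := hm1
  have hm0 : m ≠ 0 := fun h ↦ by simp [h] at hl₁
  have ha : (0 : ℝ) ≤ a := Nat.cast_nonneg a
  have hC1 : (1 : ℝ) ≤ ((a : ℝ) + 1) ^ Nat.card τ := one_le_pow₀ (by linarith)
  have hM1 (v : AbsoluteValue K ℝ) : 1 ≤ ⨆ l, v (m l) :=
    Finite.le_ciSup_of_le l₁ (by rw [hl₁, map_one])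
  have hZ0 (v : AbsoluteValue K ℝ) : 0 ≤ ⨆ t, v (y t) := Real.iSup_nonneg fun t ↦ v.nonneg _
  have hZ (v : AbsoluteValue K ℝ) (t : τ) : v (y t) ≤ ⨆ t, v (y t) :=
    Finite.le_ciSup_of_le t le_rfl
  have hMc (v : AbsoluteValue K ℝ) (i : ι) (j : ℕ) (hj : j < n i) (e : τ →₀ ℕ) :
      v ((p i j).coeff e) ≤ ⨆ l, v (m l) := by
    rcases hm i j hj e with h | ⟨l, hl⟩
    · rw [h, map_zero]
      exact zero_le_one.trans (hM1 v)
    · rw [← hl]
      exact Finite.le_ciSup_of_le l le_rfl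
  refine mulHeight_le_of_local_le a (C := 2 * ((a : ℝ) + 1) ^ Nat.card τ) (by linarith) x
    hm0 hy ?_ ?_
  · intro v _ i
    exact abv_le_of_monic_mvEquation v (fun j hj ↦ (hdeg i j hj).totalDegree_le) (hx i) (hM1 v)
      (hMc v i) (hZ0 v) (hZ v) (fun j hj e he ↦ prod_pow_le_of_isHomogeneous (hdeg i j hj) _ he)
  · intro v hv i
    exact abv_le_of_monic_mvEquation_of_isNonarchimedean (isNonarchimedean v hv) (hx i) (hM1 v)
      (hMc v i) (hZ0 v) (hZ v) (fun j hj e he ↦ prod_pow_le_of_isHomogeneous (hdeg i j hj) _ he)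

/-- **Height bound from a multiplication table, several variables (affine form).**
Each entry of `x` is `1` or satisfies `x e * W i = ∑ l, (q e i l)(y) * W l` for all `i`,
with `totalDegree (q e i l) ≤ A` and `W ≠ 0`. Then
`mulHeight x ≤ (card σ * (A + 1) ^ card τ) ^ totalWeight K * mulHeight m * mulHeight z ^ A`. -/
theorem mulHeight_le_of_one_or_mul_mvTable {ι σ τ μ ν : Type*} [Finite ι] [Fintype σ]
    [Finite τ] [Finite μ] [Finite ν] (A : ℕ) (q : ι → σ → σ → MvPolynomial τ K) (m : μ → K)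
    (hdeg : ∀ e i l, (q e i l).totalDegree ≤ A)
    (hm1 : ∃ j, m j = 1)
    (hm : ∀ e i l d, (q e i l).coeff d = 0 ∨ ∃ j, m j = (q e i l).coeff d)
    (y : τ → K) (z : ν → K) (hz1 : ∃ k, z k = 1) (hzy : ∀ t, ∃ k, z k = y t)
    (W : σ → K) (hW : W ≠ 0) (x : ι → K)
    (hx : ∀ e, x e = 1 ∨ ∀ i, x e * W i = ∑ l, MvPolynomial.eval y (q e i l) * W l) :
    mulHeight x ≤ (Fintype.card σ * ((A : ℝ) + 1) ^ Nat.card τ) ^ totalWeight K *
      mulHeight m * mulHeight z ^ A := by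
  obtain ⟨l₁, hl₁⟩ := hm1
  obtain ⟨k₁, hk₁⟩ := hz1
  have hm0 : m ≠ 0 := fun h ↦ by simp [h] at hl₁
  have hz0 : z ≠ 0 := fun h ↦ by simp [h] at hk₁
  have hA : (0 : ℝ) ≤ A := Nat.cast_nonneg A
  have hC1 : (1 : ℝ) ≤ ((A : ℝ) + 1) ^ Nat.card τ := one_le_pow₀ (by linarith)
  have hσ : (1 : ℝ) ≤ Fintype.card σ := by
    have : Nonempty σ := (Function.ne_iff.mp hW).nonempty
    exact_mod_cast Fintype.card_pos
  have hC : (1 : ℝ) ≤ Fintype.card σ * ((A : ℝ) + 1) ^ Nat.card τ := by nlinarith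
  have hM1 (v : AbsoluteValue K ℝ) : 1 ≤ ⨆ l, v (m l) :=
    Finite.le_ciSup_of_le l₁ (by rw [hl₁, map_one])
  have hZ1 (v : AbsoluteValue K ℝ) : 1 ≤ ⨆ k, v (z k) :=
    Finite.le_ciSup_of_le k₁ (by rw [hk₁, map_one])
  have hZ (v : AbsoluteValue K ℝ) (t : τ) : v (y t) ≤ ⨆ k, v (z k) := by
    obtain ⟨k, hk⟩ := hzy t
    rw [← hk]
    exact Finite.le_ciSup_of_le k le_rfl
  have hMc (v : AbsoluteValue K ℝ) (e : ι) (i l : σ) (d : τ →₀ ℕ) :
      v ((q e i l).coeff d) ≤ ⨆ l, v (m l) := by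
    rcases hm e i l d with h | ⟨j, hj⟩
    · rw [h, map_zero]
      exact zero_le_one.trans (hM1 v)
    · rw [← hj]
      exact Finite.le_ciSup_of_le j le_rfl
  have hone (v : AbsoluteValue K ℝ) : 1 ≤ (⨆ l, v (m l)) * (⨆ k, v (z k)) ^ A :=
    one_le_mul_of_one_le_of_one_le (hM1 v) (one_le_pow₀ (hZ1 v))
  have hB (v : AbsoluteValue K ℝ) (e : ι) (i l : σ) :
      v (MvPolynomial.eval y (q e i l)) ≤
        ((A : ℝ) + 1) ^ Nat.card τ * ((⨆ l, v (m l)) * (⨆ k, v (z k)) ^ A) := by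
    have h1 := abv_mvEval_le v (hMc v e i l) (hZ v)
      (fun d hd ↦ prod_pow_le_of_totalDegree_le (hdeg e i l) (hZ1 v) hd)
    have h2 : ((q e i l).support.card : ℝ) ≤ ((A : ℝ) + 1) ^ Nat.card τ := by
      exact_mod_cast card_support_le_pow (hdeg e i l)
    exact h1.trans (mul_le_mul_of_nonneg_right h2 (zero_le_one.trans (hone v)))
  refine mulHeight_le_of_local_le A hC x hm0 hz0 ?_ ?_
  · intro v _ e
    rcases hx e with h | h
    · rw [h, map_one]
      have := hone v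
      nlinarith
    · have h1 := abv_le_of_mul_table v hW h (fun i l ↦ hB v e i l)
      rwa [← mul_assoc] at h1
  · intro v hv e
    rcases hx e with h | h
    · rw [h, map_one]
      exact hone v
    · exact abv_le_of_mul_table_of_isNonarchimedean (isNonarchimedean v hv) hW h
        (fun i l ↦ abv_mvEval_le_of_isNonarchimedean (isNonarchimedean v hv) (hMc v e i l)
          (zero_le_one.trans (hZ1 v)) (hZ v)
          (fun d hd ↦ prod_pow_le_of_totalDegree_le (hdeg e i l) (hZ1 v) hd))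

/-- **Height bound from a multiplication table, homogeneous (projective) form.**
`x e * W i = ∑ l, (q e i l)(y) * W l` with `q e i l` homogeneous of degree `A`, `W ≠ 0`,
`y ≠ 0`. Then
`mulHeight x ≤ (card σ * (A + 1) ^ card τ) ^ totalWeight K * mulHeight m * mulHeight y ^ A`. -/
theorem mulHeight_le_of_mul_homogeneous_table {ι σ τ μ : Type*} [Finite ι] [Fintype σ]
    [Finite τ] [Finite μ] (A : ℕ) (q : ι → σ → σ → MvPolynomial τ K) (m : μ → K)
    (hdeg : ∀ e i l, (q e i l).IsHomogeneous A)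
    (hm0 : m ≠ 0)
    (hm : ∀ e i l d, (q e i l).coeff d = 0 ∨ ∃ j, m j = (q e i l).coeff d)
    (y : τ → K) (hy : y ≠ 0) (W : σ → K) (hW : W ≠ 0) (x : ι → K)
    (hx : ∀ e i, x e * W i = ∑ l, MvPolynomial.eval y (q e i l) * W l) :
    mulHeight x ≤ (Fintype.card σ * ((A : ℝ) + 1) ^ Nat.card τ) ^ totalWeight K *
      mulHeight m * mulHeight y ^ A := by
  have hA : (0 : ℝ) ≤ A := Nat.cast_nonneg A
  have hC1 : (1 : ℝ) ≤ ((A : ℝ) + 1) ^ Nat.card τ := one_le_pow₀ (by linarith)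
  have hσ : (1 : ℝ) ≤ Fintype.card σ := by
    have : Nonempty σ := (Function.ne_iff.mp hW).nonempty
    exact_mod_cast Fintype.card_pos
  have hC : (1 : ℝ) ≤ Fintype.card σ * ((A : ℝ) + 1) ^ Nat.card τ := by nlinarith
  have hM0 (v : AbsoluteValue K ℝ) : 0 ≤ ⨆ l, v (m l) := Real.iSup_nonneg fun l ↦ v.nonneg _
  have hZ0 (v : AbsoluteValue K ℝ) : 0 ≤ ⨆ t, v (y t) := Real.iSup_nonneg fun t ↦ v.nonneg _
  have hZ (v : AbsoluteValue K ℝ) (t : τ) : v (y t) ≤ ⨆ t, v (y t) :=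
    Finite.le_ciSup_of_le t le_rfl
  have hMc (v : AbsoluteValue K ℝ) (e : ι) (i l : σ) (d : τ →₀ ℕ) :
      v ((q e i l).coeff d) ≤ ⨆ l, v (m l) := by
    rcases hm e i l d with h | ⟨j, hj⟩
    · rw [h, map_zero]
      exact hM0 v
    · rw [← hj]
      exact Finite.le_ciSup_of_le j le_rfl
  have hB (v : AbsoluteValue K ℝ) (e : ι) (i l : σ) :
      v (MvPolynomial.eval y (q e i l)) ≤
        ((A : ℝ) + 1) ^ Nat.card τ * ((⨆ l, v (m l)) * (⨆ t, v (y t)) ^ A) := by
    have h1 := abv_mvEval_le v (hMc v e i l) (hZ v)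
      (fun d hd ↦ prod_pow_le_of_isHomogeneous (hdeg e i l) _ hd)
    have h2 : ((q e i l).support.card : ℝ) ≤ ((A : ℝ) + 1) ^ Nat.card τ := by
      exact_mod_cast card_support_le_pow (hdeg e i l).totalDegree_le
    exact h1.trans (mul_le_mul_of_nonneg_right h2
      (mul_nonneg (hM0 v) (pow_nonneg (hZ0 v) _)))
  refine mulHeight_le_of_local_le A hC x hm0 hy ?_ ?_
  · intro v _ e
    have h1 := abv_le_of_mul_table v hW (hx e) (fun i l ↦ hB v e i l)
    rwa [← mul_assoc] at h1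
  · intro v hv e
    exact abv_le_of_mul_table_of_isNonarchimedean (isNonarchimedean v hv) hW (hx e)
      (fun i l ↦ abv_mvEval_le_of_isNonarchimedean (isNonarchimedean v hv) (hMc v e i l)
        (hZ0 v) (hZ v) (fun d hd ↦ prod_pow_le_of_isHomogeneous (hdeg e i l) _ hd))

/-- Logarithmic form of `mulHeight_le_of_one_or_monic_mvEquations`. -/
theorem logHeight_le_of_one_or_monic_mvEquations {ι τ μ ν : Type*} [Finite ι] [Finite τ]
    [Finite μ] [Finite ν] (a : ℕ) (n : ι → ℕ) (p : ι → ℕ → MvPolynomial τ K) (m : μ → K)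
    (hdeg : ∀ i, ∀ j < n i, (p i j).totalDegree ≤ a * (n i - j))
    (hm1 : ∃ l, m l = 1)
    (hm : ∀ i, ∀ j < n i, ∀ e, (p i j).coeff e = 0 ∨ ∃ l, m l = (p i j).coeff e)
    (y : τ → K) (z : ν → K) (hz1 : ∃ k, z k = 1) (hzy : ∀ t, ∃ k, z k = y t) (x : ι → K)
    (hx : ∀ i, x i = 1 ∨
      x i ^ n i + ∑ j ∈ range (n i), MvPolynomial.eval y (p i j) * x i ^ j = 0) :
    logHeight x ≤ totalWeight K * Real.log (2 * ((a : ℝ) + 1) ^ Nat.card τ) + logHeight m +
      a * logHeight z :=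
  log_le_of_le_pow_mul_mul_pow (mulHeight_pos x) (by positivity) (mulHeight_pos m)
    (mulHeight_pos z)
    (mulHeight_le_of_one_or_monic_mvEquations a n p m hdeg hm1 hm y z hz1 hzy x hx)

/-- Logarithmic form of `mulHeight_le_of_monic_homogeneous_equations`. -/
theorem logHeight_le_of_monic_homogeneous_equations {ι τ μ : Type*} [Finite ι] [Finite τ]
    [Finite μ] (a : ℕ) (n : ι → ℕ) (p : ι → ℕ → MvPolynomial τ K) (m : μ → K)
    (hdeg : ∀ i, ∀ j < n i, (p i j).IsHomogeneous (a * (n i - j)))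
    (hm1 : ∃ l, m l = 1)
    (hm : ∀ i, ∀ j < n i, ∀ e, (p i j).coeff e = 0 ∨ ∃ l, m l = (p i j).coeff e)
    (y : τ → K) (hy : y ≠ 0) (x : ι → K)
    (hx : ∀ i, x i ^ n i + ∑ j ∈ range (n i), MvPolynomial.eval y (p i j) * x i ^ j = 0) :
    logHeight x ≤ totalWeight K * Real.log (2 * ((a : ℝ) + 1) ^ Nat.card τ) + logHeight m +
      a * logHeight y :=
  log_le_of_le_pow_mul_mul_pow (mulHeight_pos x) (by positivity) (mulHeight_pos m)
    (mulHeight_pos y)
    (mulHeight_le_of_monic_homogeneous_equations a n p m hdeg hm1 hm y hy x hx)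

/-- Logarithmic form of `mulHeight_le_of_one_or_mul_mvTable`. -/
theorem logHeight_le_of_one_or_mul_mvTable {ι σ τ μ ν : Type*} [Finite ι] [Fintype σ]
    [Finite τ] [Finite μ] [Finite ν] (A : ℕ) (q : ι → σ → σ → MvPolynomial τ K) (m : μ → K)
    (hdeg : ∀ e i l, (q e i l).totalDegree ≤ A)
    (hm1 : ∃ j, m j = 1)
    (hm : ∀ e i l d, (q e i l).coeff d = 0 ∨ ∃ j, m j = (q e i l).coeff d)
    (y : τ → K) (z : ν → K) (hz1 : ∃ k, z k = 1) (hzy : ∀ t, ∃ k, z k = y t)
    (W : σ → K) (hW : W ≠ 0) (x : ι → K)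
    (hx : ∀ e, x e = 1 ∨ ∀ i, x e * W i = ∑ l, MvPolynomial.eval y (q e i l) * W l) :
    logHeight x ≤
      totalWeight K * Real.log (Fintype.card σ * ((A : ℝ) + 1) ^ Nat.card τ) + logHeight m +
        A * logHeight z := by
  have hσ : (0 : ℝ) < Fintype.card σ := by
    have : Nonempty σ := (Function.ne_iff.mp hW).nonempty
    exact_mod_cast Fintype.card_pos
  exact log_le_of_le_pow_mul_mul_pow (mulHeight_pos x) (by positivity) (mulHeight_pos m)
    (mulHeight_pos z)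
    (mulHeight_le_of_one_or_mul_mvTable A q m hdeg hm1 hm y z hz1 hzy W hW x hx)

/-- Logarithmic form of `mulHeight_le_of_mul_homogeneous_table`. -/
theorem logHeight_le_of_mul_homogeneous_table {ι σ τ μ : Type*} [Finite ι] [Fintype σ]
    [Finite τ] [Finite μ] (A : ℕ) (q : ι → σ → σ → MvPolynomial τ K) (m : μ → K)
    (hdeg : ∀ e i l, (q e i l).IsHomogeneous A)
    (hm0 : m ≠ 0)
    (hm : ∀ e i l d, (q e i l).coeff d = 0 ∨ ∃ j, m j = (q e i l).coeff d)
    (y : τ → K) (hy : y ≠ 0) (W : σ → K) (hW : W ≠ 0) (x : ι → K)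
    (hx : ∀ e i, x e * W i = ∑ l, MvPolynomial.eval y (q e i l) * W l) :
    logHeight x ≤
      totalWeight K * Real.log (Fintype.card σ * ((A : ℝ) + 1) ^ Nat.card τ) + logHeight m +
        A * logHeight y := by
  have hσ : (0 : ℝ) < Fintype.card σ := by
    have : Nonempty σ := (Function.ne_iff.mp hW).nonempty
    exact_mod_cast Fintype.card_pos
  exact log_le_of_le_pow_mul_mul_pow (mulHeight_pos x) (by positivity) (mulHeight_pos m)
    (mulHeight_pos y)
    (mulHeight_le_of_mul_homogeneous_table A q m hdeg hm0 hm y hy W hW x hx)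

/-! ### A monic bivariate polynomial -/

omit [AdmissibleAbsValues K] in
theorem monic_eval₂_evalRingHom_eq {P : Polynomial (Polynomial K)} (hP : P.Monic) (u w : K) :
    P.eval₂ (Polynomial.evalRingHom u) w =
      w ^ P.natDegree + ∑ j ∈ range P.natDegree, (P.coeff j).eval u * w ^ j := by
  rw [Polynomial.eval₂_eq_sum_range, sum_range_succ, hP.coeff_natDegree]
  simp [add_comm]

/-- **Height bound for a root of a monic bivariate polynomial** `P ∈ K[U][T]`, monic in `T`,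
with `deg_U (coeff_j P) ≤ a * (deg_T P - j)`: if `P(u, w) = 0` then
`h(w) ≤ a * h(u) + totalWeight K * log (2 * (a + 1)) + h(m)`. -/
theorem logHeight₁_le_of_monic_bivariate {μ : Type*} [Finite μ] (a : ℕ)
    (P : Polynomial (Polynomial K)) (hP : P.Monic) (m : μ → K)
    (hdeg : ∀ j < P.natDegree, (P.coeff j).natDegree ≤ a * (P.natDegree - j))
    (hm1 : ∃ l, m l = 1)
    (hm : ∀ j < P.natDegree, ∀ k, (P.coeff j).coeff k = 0 ∨ ∃ l, m l = (P.coeff j).coeff k)
    (u w : K) (hw : P.eval₂ (Polynomial.evalRingHom u) w = 0) :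
    logHeight₁ w ≤
      totalWeight K * Real.log (2 * (a + 1)) + logHeight m + a * logHeight₁ u :=
  logHeight₁_le_of_monic_equation a P.natDegree (fun j ↦ P.coeff j) m hdeg hm1 hm u w
    (by rw [← monic_eval₂_evalRingHom_eq hP]; exact hw)

end MvGlobal

/-! ### From `IsIntegral` to monic equations and local bounds -/

section Integral

universe u

theorem exists_monic_mvEquation_of_isIntegral {k A : Type*} [CommRing k] [CommRing A]
    [Algebra k A] {τ : Type*} (g : τ → A) {r : A}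
    (hr : IsIntegral (Algebra.adjoin k (Set.range g)) r) :
    ∃ (n : ℕ) (p : ℕ → MvPolynomial τ k),
      r ^ n + ∑ j ∈ range n, MvPolynomial.aeval g (p j) * r ^ j = 0 := by
  obtain ⟨P, hP, hPr⟩ := hr
  have hmem : ∀ j, ∃ q : MvPolynomial τ k, MvPolynomial.aeval g q = (P.coeff j : A) := by
    intro j
    have h : (P.coeff j : A) ∈ (MvPolynomial.aeval (R := k) g).range := by
      rw [← Algebra.adjoin_range_eq_range_aeval]
      exact (P.coeff j).2
    exact h
  choose p hp using hmem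
  refine ⟨P.natDegree, p, ?_⟩
  rw [Polynomial.eval₂_eq_sum_range, sum_range_succ, hP.coeff_natDegree, map_one, one_mul,
    add_comm] at hPr
  rw [← hPr]
  congr 1
  refine sum_congr rfl fun j _ ↦ ?_
  rw [hp j]
  rfl

theorem algHom_monic_mvEquation {k A L : Type*} [CommRing k] [CommRing A] [Algebra k A]
    [CommRing L] [Algebra k L] {τ : Type*} (φ : A →ₐ[k] L) (g : τ → A) {r : A} {n : ℕ}
    {p : ℕ → MvPolynomial τ k}
    (h : r ^ n + ∑ j ∈ range n, MvPolynomial.aeval g (p j) * r ^ j = 0) :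
    φ r ^ n + ∑ j ∈ range n,
      MvPolynomial.eval (fun t ↦ φ (g t)) (MvPolynomial.map (algebraMap k L) (p j)) * φ r ^ j
        = 0 := by
  have h2 := congrArg φ h
  rw [map_add, map_pow, map_sum, map_zero] at h2
  rw [← h2]
  congr 1
  refine sum_congr rfl fun j _ ↦ ?_
  rw [map_mul, map_pow, MvPolynomial.eval_map, ← MvPolynomial.aeval_def,
    ← MvPolynomial.comp_aeval g φ]
  rfl

theorem totalDegree_map_le' {k L : Type*} [CommSemiring k] [CommSemiring L] {τ : Type*}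
    (f : k →+* L) (p : MvPolynomial τ k) :
    (MvPolynomial.map f p).totalDegree ≤ p.totalDegree :=
  Finset.sup_mono (MvPolynomial.support_map_subset f p)

/-- **Integral elements are locally bounded.** If `r` is integral over `K[g]`, there are a
degree `a` and a finite set `s` of elements of `K` (the coefficients of an integral equation)
such that for every `K`-algebra homomorphism `φ : A →ₐ[K] L` to a field and every absolute value
`v` on `L`: `v (φ r) ≤ 2 * (a + 1) ^ card τ * M * Z ^ a`, and `v (φ r) ≤ M * Z ^ a` if `v` is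
nonarchimedean, where `M ≥ 1` bounds `v` on `s` and `Z ≥ 1` bounds the `v (φ (g t))`. -/
theorem exists_abv_le_of_isIntegral {K A : Type*} [Field K] [CommRing A] [Algebra K A]
    {τ : Type*} [Finite τ] (g : τ → A) {r : A}
    (hr : IsIntegral (Algebra.adjoin K (Set.range g)) r) :
    ∃ (a : ℕ) (s : Finset K), ∀ (L : Type u) [Field L] [Algebra K L] (φ : A →ₐ[K] L)
      (v : AbsoluteValue L ℝ) (M Z : ℝ), 1 ≤ M → (∀ c ∈ s, v (algebraMap K L c) ≤ M) → 1 ≤ Z →
      (∀ t, v (φ (g t)) ≤ Z) →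
        v (φ r) ≤ 2 * ((a : ℝ) + 1) ^ Nat.card τ * (M * Z ^ a) ∧
          (IsNonarchimedean v → v (φ r) ≤ M * Z ^ a) := by
  classical
  obtain ⟨n, p, hp⟩ := exists_monic_mvEquation_of_isIntegral g hr
  refine ⟨(range n).sup fun j ↦ (p j).totalDegree, (range n).biUnion fun j ↦ (p j).coeffs, ?_⟩
  intro L _ _ φ v M Z hM1 hM hZ1 hZ
  have heq := algHom_monic_mvEquation φ g hp
  have hdeg : ∀ j < n, (MvPolynomial.map (algebraMap K L) (p j)).totalDegree ≤
      ((range n).sup fun j ↦ (p j).totalDegree) * (n - j) := by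
    intro j hj
    have h1 : (p j).totalDegree ≤ (range n).sup fun j ↦ (p j).totalDegree :=
      Finset.le_sup (f := fun j ↦ (p j).totalDegree) (mem_range.mpr hj)
    have h2 : 1 ≤ n - j := by omega
    calc (MvPolynomial.map (algebraMap K L) (p j)).totalDegree ≤ (p j).totalDegree :=
          totalDegree_map_le' _ _
      _ ≤ ((range n).sup fun j ↦ (p j).totalDegree) * 1 := by rw [mul_one]; exact h1
      _ ≤ _ := Nat.mul_le_mul_left _ h2
  have hMc : ∀ j < n, ∀ e, v ((MvPolynomial.map (algebraMap K L) (p j)).coeff e) ≤ M := by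
    intro j hj e
    rw [MvPolynomial.coeff_map]
    by_cases h0 : (p j).coeff e = 0
    · rw [h0, map_zero, map_zero]
      linarith
    · refine hM _ (mem_biUnion.mpr ⟨j, mem_range.mpr hj, ?_⟩)
      exact MvPolynomial.mem_coeffs_iff.mpr ⟨e, MvPolynomial.mem_support_iff.mpr h0, rfl⟩
  have hmono : ∀ j < n, ∀ e ∈ (MvPolynomial.map (algebraMap K L) (p j)).support,
      ∏ i ∈ e.support, Z ^ e i ≤ Z ^ (((range n).sup fun j ↦ (p j).totalDegree) * (n - j)) :=
    fun j hj e he ↦ prod_pow_le_of_totalDegree_le (hdeg j hj) hZ1 he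
  exact ⟨abv_le_of_monic_mvEquation v hdeg heq hM1 hMc (by linarith) hZ hmono,
    fun hv ↦ abv_le_of_monic_mvEquation_of_isNonarchimedean hv heq hM1 hMc (by linarith) hZ
      hmono⟩

end Integral

end Fermat.Agent.Lib.helper3318
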