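import Mathlib
import Fermat.Prelude.Thm_IsLocalRing_isAdicComplete_of_module_finite
import Fermat.Prelude.Thm_Algebra_finite_maximalSpectrum_and_bijective_localization_of_module_finite

/-!
# Finite extensions of an abstract complete discrete valuation ring

`O` is a complete discrete valuation ring (in the sense of the frozen statements S30 / S35:
`IsDiscreteValuationRing` + `IsAdicComplete (maximalIdeal O) O`), `K` a fraction field of `O`,
`L` a finite separable field extension of `K` and `B := integralClosure O L`.

We prove that `B` is again a complete discrete valuation ring, module-finite over `O`, with a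
local and injective structure map, with finite residue field when `O` has one, and we package the
result in exactly the existential shape of the conclusions of S30 / S35.
-/

set_option autoImplicit false
set_option linter.unusedSectionVars false

namespace Fermat.Agent.Lib.helper3465

open IsLocalRing

/-- A domain which is module-finite over a complete noetherian local ring is local. -/
theorem isLocalRing_of_finite_of_isDomain
    (O : Type) [CommRing O] [IsLocalRing O] [IsNoetherianRing O]
    [IsAdicComplete (maximalIdeal O) O]
    (A : Type) [CommRing A] [IsDomain A] [Algebra O A] [Module.Finite O A] :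
    IsLocalRing A := by
  classical
  obtain ⟨-, hbij, -, -⟩ :=
    Algebra.finite_maximalSpectrum_and_bijective_localization_of_module_finite (𝒪 := O) A
  obtain ⟨m, hm⟩ := Ideal.exists_maximal A
  refine IsLocalRing.of_unique_max_ideal ⟨m, hm, fun m' hm' => ?_⟩
  by_contra hne
  let I : MaximalSpectrum A := ⟨m, hm⟩
  let I' : MaximalSpectrum A := ⟨m', hm'⟩
  have hII' : I' ≠ I := fun h => hne (congrArg MaximalSpectrum.asIdeal h)
  obtain ⟨a, ha⟩ := hbij.2 (Pi.single I 1)
  obtain ⟨b, hb⟩ := hbij.2 (Pi.single I' 1)
  have hab : a * b = 0 := by
    apply hbij.1
    rw [map_mul, ha, hb, map_zero]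
    funext J
    by_cases hJ : J = I
    · subst hJ
      simp [Pi.single_eq_of_ne hII'.symm]
    · simp [Pi.single_eq_of_ne hJ]
  have ha0 : a ≠ 0 := by
    rintro rfl
    rw [map_zero] at ha
    have := congrFun ha I
    simp at this
  have hb0 : b ≠ 0 := by
    rintro rfl
    rw [map_zero] at hb
    have := congrFun hb I'
    simp at this
  exact (mul_ne_zero ha0 hb0) hab


/-- A local homomorphism of local rings maps the maximal ideal into the maximal ideal; in
particular a residue characteristic `p` of the source is one of the target. -/
theorem natCast_mem_maximalIdeal_of_isLocalHom {A B : Type*} [CommRing A] [IsLocalRing A]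
    [CommRing B] [IsLocalRing B] (f : A →+* B) [IsLocalHom f] (p : ℕ)
    (hp : (p : A) ∈ maximalIdeal A) : (p : B) ∈ maximalIdeal B := by
  have h := map_nonunit f (p : A) hp
  rwa [map_natCast] at h

section IntegralClosure

variable (O : Type) [CommRing O] [IsDomain O] [IsDiscreteValuationRing O]
variable (K : Type) [Field K] [Algebra O K] [IsFractionRing O K]
variable (L : Type) [Field L] [Algebra K L] [Algebra O L] [IsScalarTower O K L]
  [FiniteDimensional K L] [Algebra.IsSeparable K L]

include K in
/-- The integral closure of a DVR in a finite separable extension of its fraction field is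
module-finite. -/
theorem finite_integralClosure : Module.Finite O (integralClosure O L) :=
  IsIntegralClosure.finite O K L (integralClosure O L)

include K in
theorem isDedekindDomain_integralClosure : IsDedekindDomain (integralClosure O L) :=
  integralClosure.isDedekindDomain O K L

include K in
theorem isFractionRing_integralClosure : IsFractionRing (integralClosure O L) L :=
  integralClosure.isFractionRing_of_finite_extension K L

include K in
theorem injective_algebraMap_integralClosure :
    Function.Injective (algebraMap O (integralClosure O L)) := by
  have h : Function.Injective (algebraMap O L) := by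
    rw [IsScalarTower.algebraMap_eq O K L]
    exact (algebraMap K L).injective.comp (IsFractionRing.injective O K)
  intro x y hxy
  apply h
  have := congrArg (algebraMap (integralClosure O L) L) hxy
  simpa [← IsScalarTower.algebraMap_apply] using this

include K in
theorem not_isField_integralClosure : ¬ IsField (integralClosure O L) := fun hF =>
  IsDiscreteValuationRing.not_isField O
    (isField_of_isIntegral_of_isField (injective_algebraMap_integralClosure O K L) hF)

variable [IsAdicComplete (maximalIdeal O) O]

include K in
theorem isLocalRing_integralClosure : IsLocalRing (integralClosure O L) :=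
  haveI := finite_integralClosure O K L
  isLocalRing_of_finite_of_isDomain O (integralClosure O L)

include K in
theorem isDiscreteValuationRing_integralClosure :
    IsDiscreteValuationRing (integralClosure O L) := by
  have := finite_integralClosure O K L
  have := isLocalRing_integralClosure O K L
  have hD := isDedekindDomain_integralClosure O K L
  exact ((IsDiscreteValuationRing.TFAE (integralClosure O L)
    (not_isField_integralClosure O K L)).out 0 2).mpr hD

include K in
theorem isLocalHom_algebraMap_integralClosure :
    IsLocalHom (algebraMap O (integralClosure O L)) := by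
  have : FaithfulSMul O (integralClosure O L) :=
    (faithfulSMul_iff_algebraMap_injective _ _).mpr (injective_algebraMap_integralClosure O K L)
  infer_instance

include K in
/-- Completeness of the integral closure, for the local ring structure found by instance
resolution. -/
theorem isAdicComplete_integralClosure [IsLocalRing (integralClosure O L)] :
    IsAdicComplete (maximalIdeal (integralClosure O L)) (integralClosure O L) := by
  have := finite_integralClosure O K L
  have := isLocalHom_algebraMap_integralClosure O K L
  exact IsLocalRing.isAdicComplete_of_module_finite (𝒪 := O)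

include K in
theorem finite_residueField_integralClosure [Finite (ResidueField O)]
    [IsLocalRing (integralClosure O L)] :
    Finite (ResidueField (integralClosure O L)) := by
  have := finite_integralClosure O K L
  have := isLocalHom_algebraMap_integralClosure O K L
  have : Module.Finite (ResidueField O) (ResidueField (integralClosure O L)) := inferInstance
  exact Module.finite_of_finite (ResidueField O)

end IntegralClosure

section Package

variable (O : Type) [CommRing O] [IsDomain O] [IsDiscreteValuationRing O]
  [IsAdicComplete (maximalIdeal O) O] [Finite (ResidueField O)] [CharZero O]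
variable (K : Type) [Field K] [Algebra O K] [IsFractionRing O K]
variable (L : Type) [Field L] [Algebra K L] [FiniteDimensional K L]

include O in
theorem charZero_of_isFractionRing : CharZero K :=
  charZero_of_injective_algebraMap (IsFractionRing.injective O K)

/-- **Finite extensions of a complete DVR**, packaged in the existential shape of the frozen
statements S30 / S35 (the first ten binders are verbatim those of the frozen conclusions), with
the extra data tying `O2` to the field `L`: `O2` is the integral closure of `O` in `L`. -/
theorem exists_dvr_ext [Algebra O L] [IsScalarTower O K L] :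
    ∃ (O2 : Type) (_ : CommRing O2) (_ : IsDomain O2) (_ : IsDiscreteValuationRing O2)
      (_ : IsAdicComplete (maximalIdeal O2) O2) (_ : Finite (ResidueField O2)) (_ : CharZero O2)
      (_ : Algebra O O2) (_ : Module.Finite O O2) (_ : IsLocalHom (algebraMap O O2))
      (_ : Algebra O2 L) (_ : IsFractionRing O2 L) (_ : IsScalarTower O O2 L)
      (_ : IsIntegralClosure O2 O L),
      Function.Injective (algebraMap O O2) := by
  have hK : CharZero K := charZero_of_isFractionRing O K
  have hsep : Algebra.IsSeparable K L := inferInstance
  have hDVR := isDiscreteValuationRing_integralClosure O K L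
  have hinj := injective_algebraMap_integralClosure O K L
  exact ⟨integralClosure O L, inferInstance, inferInstance, hDVR,
    isAdicComplete_integralClosure O K L, finite_residueField_integralClosure O K L,
    charZero_of_injective_algebraMap hinj, inferInstance, finite_integralClosure O K L,
    isLocalHom_algebraMap_integralClosure O K L, inferInstance,
    isFractionRing_integralClosure O K L, inferInstance, inferInstance, hinj⟩

/-- `exists_dvr_ext` without an `O`-algebra structure on `L`: compatibility of the structure maps
is stated as an equation. -/
theorem exists_dvr_ext' :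
    ∃ (O2 : Type) (_ : CommRing O2) (_ : IsDomain O2) (_ : IsDiscreteValuationRing O2)
      (_ : IsAdicComplete (maximalIdeal O2) O2) (_ : Finite (ResidueField O2)) (_ : CharZero O2)
      (_ : Algebra O O2) (_ : Module.Finite O O2) (_ : IsLocalHom (algebraMap O O2))
      (_ : Algebra O2 L) (_ : IsFractionRing O2 L),
      Function.Injective (algebraMap O O2) ∧
      (∀ x : O, algebraMap O2 L (algebraMap O O2 x) = algebraMap K L (algebraMap O K x)) ∧
      (∀ y : L, y ∈ Set.range (algebraMap O2 L) ↔
        ((algebraMap K L).comp (algebraMap O K)).IsIntegralElem y) := by
  let _ : Algebra O L := ((algebraMap K L).comp (algebraMap O K)).toAlgebra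
  have : IsScalarTower O K L := IsScalarTower.of_algebraMap_eq fun x => rfl
  obtain ⟨O2, i1, i2, i3, i4, i5, i6, i7, i8, i9, i10, i11, i12, i13, hinj⟩ := exists_dvr_ext O K L
  refine ⟨O2, i1, i2, i3, i4, i5, i6, i7, i8, i9, i10, i11, hinj, fun x => ?_, fun y => ?_⟩
  · rw [← IsScalarTower.algebraMap_apply O O2 L]
    rfl
  · exact (IsIntegralClosure.isIntegral_iff (A := O2) (R := O) (B := L)).symm

/-- Variant of `exists_dvr_ext` for a finite subset `s` of an algebraic extension `Ω` of `K`
(for instance `Ω = AlgebraicClosure K`): the complete DVR `O2` is the ring of `O`-integral
elements of the finite extension `L = K(s)`. -/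
theorem exists_dvr_ext_of_finite (Ω : Type) [Field Ω] [Algebra K Ω] [Algebra.IsAlgebraic K Ω]
    [Algebra O Ω] [IsScalarTower O K Ω] (s : Set Ω) (hs : s.Finite) :
    ∃ (O2 : Type) (_ : CommRing O2) (_ : IsDomain O2) (_ : IsDiscreteValuationRing O2)
      (_ : IsAdicComplete (maximalIdeal O2) O2) (_ : Finite (ResidueField O2)) (_ : CharZero O2)
      (_ : Algebra O O2) (_ : Module.Finite O O2) (_ : IsLocalHom (algebraMap O O2))
      (_ : Algebra O2 Ω) (_ : IsScalarTower O O2 Ω),
      Function.Injective (algebraMap O O2) ∧ Function.Injective (algebraMap O2 Ω) ∧
      ∃ L : IntermediateField K Ω, FiniteDimensional K L ∧ s ⊆ L ∧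
        (∀ x : Ω, x ∈ Set.range (algebraMap O2 Ω) ↔ x ∈ L ∧ IsIntegral O x) ∧
        (∀ x ∈ L, ∃ a b : O2, b ≠ 0 ∧ x * algebraMap O2 Ω b = algebraMap O2 Ω a) := by
  classical
  let L : IntermediateField K Ω := IntermediateField.adjoin K s
  have hsfin : Finite s := hs
  have htL : IsScalarTower O L Ω := IsScalarTower.of_algebraMap_eq fun x => rfl
  have hfin : FiniteDimensional K L :=
    IntermediateField.finiteDimensional_adjoin (fun x _ => Algebra.IsIntegral.isIntegral x)
  have hK : CharZero K := charZero_of_isFractionRing O K
  have hsep : Algebra.IsSeparable K L := inferInstance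
  have hDVR := isDiscreteValuationRing_integralClosure O K L
  have hinj := injective_algebraMap_integralClosure O K L
  have hfrac := isFractionRing_integralClosure O K L
  let alg : Algebra (integralClosure O L) Ω :=
    ((algebraMap L Ω).comp (algebraMap (integralClosure O L) L)).toAlgebra
  have halg : ∀ b : integralClosure O L, algebraMap (integralClosure O L) Ω b = ((b : L) : Ω) :=
    fun b => rfl
  have htower : IsScalarTower O (integralClosure O L) Ω :=
    IsScalarTower.of_algebraMap_eq fun x => by
      rw [halg]
      rfl
  refine ⟨integralClosure O L, inferInstance, inferInstance, hDVR,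
    isAdicComplete_integralClosure O K L, finite_residueField_integralClosure O K L,
    charZero_of_injective_algebraMap hinj, inferInstance, finite_integralClosure O K L,
    isLocalHom_algebraMap_integralClosure O K L, alg, htower, hinj, ?_, L, hfin,
    IntermediateField.subset_adjoin K s, ?_, ?_⟩
  · intro a b hab
    rw [halg, halg] at hab
    exact Subtype.ext (Subtype.ext hab)
  · intro x
    constructor
    · rintro ⟨b, rfl⟩
      rw [halg]
      refine ⟨(b : L).2, ?_⟩
      have hb : IsIntegral O (b : L) := b.2
      exact hb.map (IsScalarTower.toAlgHom O L Ω)
    · rintro ⟨hxL, hx⟩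
      have hx' : IsIntegral O (⟨x, hxL⟩ : L) := by
        have : IsIntegral O (algebraMap L Ω ⟨x, hxL⟩) := hx
        exact (isIntegral_algebraMap_iff (algebraMap L Ω).injective).mp this
      exact ⟨⟨⟨x, hxL⟩, hx'⟩, rfl⟩
  · intro x hxL
    obtain ⟨a, b, hb, hab⟩ := IsFractionRing.div_surjective (A := integralClosure O L)
      (⟨x, hxL⟩ : L)
    refine ⟨a, b, nonZeroDivisors.ne_zero hb, ?_⟩
    have hb0 : algebraMap (integralClosure O L) L b ≠ 0 := by
      intro h0
      exact nonZeroDivisors.ne_zero hb
        ((injective_iff_map_eq_zero _).mp (IsFractionRing.injective (integralClosure O L) L) b h0)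
    rw [div_eq_iff hb0] at hab
    rw [halg, halg]
    have := congrArg (algebraMap L Ω) hab
    simpa using this.symm

end Package

end Fermat.Agent.Lib.helper3465
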