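import Mathlib
import Fermat.Agent.Lib.helper54_Frobenius

/-!
# Minkowski: `Gal(ℚ̄/ℚ)` is topologically generated by inertia groups (helper3505)

Main result: `Fermat.Agent.Lib.helper3505.minkowski`.
An open subgroup `H` of `Gal(ℚ̄/ℚ)` which contains the inertia subgroup
`A.inertiaSubgroupIn ℚ` of every valuation subring `A` of `ℚ̄` lying over a prime number
is the whole group.  Equivalently: every number field `≠ ℚ` is ramified at some prime
(Minkowski), transported to the absolute Galois group.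

Ingredients:
* `exists_inertia_ne_one`: finite level.  A Galois number field `K ≠ ℚ` has a maximal ideal `P`
  of its ring of integers and `1 ≠ σ ∈ Gal(K/ℚ)` acting trivially modulo `P`.
* `exists_inertia_lift`: abstract lifting of inertia elements along a closed normal subgroup of
  a profinite group acting on a ring.
* `mem_inertiaSubgroupIn_of`, `conj_mem_inertiaSubgroupIn`: elementary facts on
  `ValuationSubring.inertiaSubgroupIn`.
-/

set_option autoImplicit false

namespace Fermat.Agent.Lib.helper3505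

open scoped NumberField Pointwise
open Fermat.Agent.Lib.helper54

/-! ### Finite level: a nontrivial inertia element -/

/-- A Galois number field `K ≠ ℚ` has a maximal ideal `P` of its ring of integers `𝒪` and a
nontrivial `σ ∈ Gal(K/ℚ)` which acts trivially on `𝒪 ⧸ P`. -/
theorem exists_inertia_ne_one {K 𝒪 : Type*} [Field K] [NumberField K] [CommRing 𝒪] [Algebra 𝒪 K]
    [IsIntegralClosure 𝒪 ℤ K] [IsGalois ℚ K] (H : Module.finrank ℚ K ≠ 1) :
    ∃ (P : Ideal 𝒪) (_ : P.IsMaximal) (σ : Gal(K/ℚ)), σ ≠ 1 ∧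
      ∀ x : 𝒪, ∃ y ∈ P, algebraMap 𝒪 K y = σ (algebraMap 𝒪 K x) - algebraMap 𝒪 K x := by
  have := (IsIntegralClosure.algebraMap_injective 𝒪 ℤ K).isDomain
  have := IsIntegralClosure.isDedekindDomain ℤ ℚ K 𝒪
  have := IsIntegralClosure.isFractionRing_of_finite_extension ℤ ℚ K 𝒪
  have := IsIntegralClosure.finite ℤ ℚ K 𝒪
  have := CharZero.of_module (R := 𝒪) K
  let : MulSemiringAction Gal(K/ℚ) 𝒪 := IsIntegralClosure.MulSemiringAction ℤ ℚ K 𝒪
  have := IsGaloisGroup.of_isFractionRing Gal(K/ℚ) ℤ 𝒪 ℚ K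
  obtain ⟨P, hPmax, hP'⟩ := NumberField.exists_not_isUnramifiedAt_int (𝒪 := 𝒪) H
  have h1 : P.ramificationIdx ℤ ≠ 1 := by rwa [Ne, Ideal.ramificationIdx_eq_one_iff]
  have h2 : Nat.card (P.inertia Gal(K/ℚ)) ≠ 1 := by
    rw [Ideal.card_inertia_eq_ramificationIdxIn (P.under ℤ) P,
      Ideal.ramificationIdxIn_eq_ramificationIdx (P.under ℤ) P Gal(K/ℚ)]
    exact h1
  have h3 : ∃ σ ∈ P.inertia Gal(K/ℚ), σ ≠ 1 := by
    by_contra hcon
    push Not at hcon
    apply h2
    have : P.inertia Gal(K/ℚ) = ⊥ := (Subgroup.eq_bot_iff_forall _).mpr hcon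
    rw [this]; simp
  obtain ⟨σ, hσ, hσ1⟩ := h3
  refine ⟨P, hPmax, σ, hσ1, fun x => ⟨σ • x - x, hσ x, ?_⟩⟩
  rw [map_sub]
  congr 1
  exact algebraMap_galRestrict_apply ℤ σ x

/-- `exists_inertia_ne_one` for arbitrary `ℚ`- and `ℤ`-algebra structures on `K`
(convenient for intermediate fields, whose algebra instances are not the canonical ones). -/
theorem exists_inertia_ne_one' {K 𝒪 : Type*} [Field K] [CharZero K] [iQ : Algebra ℚ K]
    [FiniteDimensional ℚ K] [IsGalois ℚ K] [CommRing 𝒪] [Algebra 𝒪 K] [iZ : Algebra ℤ K]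
    [IsIntegralClosure 𝒪 ℤ K] (H : Module.finrank ℚ K ≠ 1) :
    ∃ (P : Ideal 𝒪) (_ : P.IsMaximal) (σ : K ≃ₐ[ℚ] K), σ ≠ 1 ∧
      ∀ x : 𝒪, ∃ y ∈ P, algebraMap 𝒪 K y = σ (algebraMap 𝒪 K x) - algebraMap 𝒪 K x := by
  obtain rfl : iQ = DivisionRing.toRatAlgebra := Subsingleton.elim _ _
  obtain rfl : iZ = Ring.toIntAlgebra K := Subsingleton.elim _ _
  have : NumberField K := { to_charZero := inferInstance, to_finiteDimensional := inferInstance }
  exact exists_inertia_ne_one H

/-! ### Lifting inertia elements through a profinite group -/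

/-- Let `G` be a profinite group acting continuously on a (discrete) ring `B`, `N` a closed normal
subgroup and `𝔓` a prime of `B`.  If `g ∈ G` acts trivially modulo `𝔓` on the `N`-invariants of
`B`, then the coset `g N` contains an element `τ` of the inertia group of `𝔓`:
`τ` stabilises `𝔓` and acts trivially on `B ⧸ 𝔓`. -/
theorem exists_inertia_lift {G : Type*} {B : Type*} [Group G] [CommRing B] [MulSemiringAction G B]
    [TopologicalSpace G] [IsTopologicalGroup G] [CompactSpace G] [TotallyDisconnectedSpace G]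
    [TopologicalSpace B] [DiscreteTopology B] [ContinuousSMul G B]
    (N : Subgroup G) [hNn : N.Normal] (hN : IsClosed (N : Set G))
    (𝔓 : Ideal B) [𝔓.IsPrime] (g : G)
    (hg : ∀ b : B, (∀ n : N, n • b = b) → g • b - b ∈ 𝔓) :
    ∃ τ : G, g⁻¹ * τ ∈ N ∧ τ • 𝔓 = 𝔓 ∧ ∀ b : B, τ • b - b ∈ 𝔓 := by
  classical
  let A := FixedPoints.subalgebra ℤ B N
  have hinv : Algebra.IsInvariant A B N := ⟨fun x h ↦ ⟨⟨x, h⟩, rfl⟩⟩
  have hcomp : CompactSpace N := isCompact_iff_compactSpace.mp hN.isCompact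
  -- `h • b` is `N`-fixed if `b` is
  have hfix : ∀ (h : G) (b : B), (∀ n : N, n • b = b) → ∀ n : N, n • (h • b) = h • b := by
    intro h b hb n
    have h1 : (h⁻¹ * (n : G) * h) ∈ N := by
      have := hNn.conj_mem (n : G) n.2 h⁻¹
      simpa using this
    have h2 : (h⁻¹ * (n : G) * h) • b = b := hb ⟨_, h1⟩
    calc n • (h • b) = ((n : G) * h) • b := by rw [mul_smul]; rfl
      _ = (h * (h⁻¹ * (n : G) * h)) • b := by congr 1; group
      _ = h • ((h⁻¹ * (n : G) * h) • b) := mul_smul _ _ _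
      _ = h • b := by rw [h2]
  -- step 1: the primes `g • 𝔓` and `𝔓` agree on `A`
  have hunder : (g • 𝔓).under A = 𝔓.under A := by
    ext a
    simp only [Ideal.under, Ideal.mem_comap]
    rw [Ideal.mem_pointwise_smul_iff_inv_smul_mem]
    have h1 := hg (g⁻¹ • (a : B)) (hfix g⁻¹ a a.2)
    rw [smul_inv_smul] at h1
    constructor
    · intro h; have := 𝔓.add_mem h1 h; simpa using this
    · intro h; have := 𝔓.sub_mem h h1; simpa using this
  obtain ⟨n1, hn1⟩ := Algebra.IsInvariant.exists_smul_of_under_eq_of_profinite (A := A) (G := N)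
    (g • 𝔓) 𝔓 hunder
  have hτ1 : ((n1 : G) * g) • 𝔓 = 𝔓 := by
    rw [mul_smul]; exact hn1.symm
  -- step 2: the automorphism of `B ⧸ 𝔓` induced by `n1 * g` is `A ⧸ P`-linear
  let φ0 : (B ⧸ 𝔓) ≃ₐ[ℤ ⧸ 𝔓.under ℤ] (B ⧸ 𝔓) :=
    Ideal.Quotient.stabilizerHom 𝔓 (𝔓.under ℤ) G ⟨(n1 : G) * g, hτ1⟩
  have hφ0 : ∀ b : B, φ0 (Ideal.Quotient.mk 𝔓 b) = Ideal.Quotient.mk 𝔓 (((n1 : G) * g) • b) :=
    fun b => Ideal.Quotient.stabilizerHom_apply 𝔓 (𝔓.under ℤ) G ⟨(n1 : G) * g, hτ1⟩ b
  let φ : (B ⧸ 𝔓) ≃ₐ[A ⧸ 𝔓.under A] (B ⧸ 𝔓) :=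
    AlgEquiv.ofRingEquiv (f := φ0.toRingEquiv) (by
      intro x
      obtain ⟨a, rfl⟩ := Ideal.Quotient.mk_surjective x
      rw [Ideal.Quotient.algebraMap_mk_of_liesOver]
      change φ0 _ = _
      rw [hφ0, Ideal.Quotient.eq]
      have h1 : ((n1 : G) * g) • (algebraMap A B a) = g • (a : B) := by
        rw [mul_smul]
        exact hfix g a a.2 n1
      rw [h1]
      exact hg a a.2)
  have hφ : ∀ b : B, φ (Ideal.Quotient.mk 𝔓 b) = Ideal.Quotient.mk 𝔓 (((n1 : G) * g) • b) := hφ0
  -- step 3: correct by an element of `N` inducing the same automorphism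
  obtain ⟨⟨n2, hn2⟩, hn2φ⟩ :=
    Ideal.Quotient.stabilizerHom_surjective_of_profinite (G := N) (𝔓.under A) 𝔓 φ
  have hn2' : (n2 : G) • 𝔓 = 𝔓 := hn2
  refine ⟨(n1 : G) * g * (n2 : G)⁻¹, ?_, ?_, ?_⟩
  · have h1 : g⁻¹ * (n1 : G) * g ∈ N := by
      have := hNn.conj_mem (n1 : G) n1.2 g⁻¹
      simpa using this
    have h2 : g⁻¹ * ((n1 : G) * g * (n2 : G)⁻¹) = (g⁻¹ * (n1 : G) * g) * (n2 : G)⁻¹ := by group
    rw [h2]
    exact N.mul_mem h1 (N.inv_mem n2.2)
  · rw [mul_smul, inv_smul_eq_iff.mpr hn2'.symm, hτ1]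
  · intro b
    have h1 := congrArg (fun f => f (Ideal.Quotient.mk 𝔓 ((n2 : G)⁻¹ • b))) hn2φ
    beta_reduce at h1
    rw [hφ, Ideal.Quotient.stabilizerHom_apply] at h1
    have h2 : Ideal.Quotient.mk 𝔓 ((n2 : G) • ((n2 : G)⁻¹ • b)) =
        Ideal.Quotient.mk 𝔓 (((n1 : G) * g) • ((n2 : G)⁻¹ • b)) := h1
    rw [smul_inv_smul, ← mul_smul] at h2
    exact Ideal.Quotient.eq.mp h2.symm

/-! ### Inertia subgroups of valuation subrings -/

section Inertia

variable {K L : Type*} [Field K] [Field L] [Algebra K L]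

/-- Membership in `inertiaSubgroupIn` from stabilising `A` and acting trivially modulo the
maximal ideal. -/
theorem mem_inertiaSubgroupIn_of (A : ValuationSubring L) (τ : L ≃ₐ[K] L)
    (hdec : τ ∈ A.decompositionSubgroup K) (h : ∀ x ∈ A, τ x - x ∈ A.nonunits) :
    τ ∈ A.inertiaSubgroupIn K := by
  refine ⟨⟨τ, hdec⟩, ?_, rfl⟩
  change (⟨τ, hdec⟩ : A.decompositionSubgroup K) ∈ A.inertiaSubgroup K
  rw [ValuationSubring.inertiaSubgroup, MonoidHom.mem_ker]
  ext xbar
  obtain ⟨x, rfl⟩ := IsLocalRing.residue_surjective xbar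
  change (⟨τ, hdec⟩ : A.decompositionSubgroup K) • IsLocalRing.residue A x = IsLocalRing.residue A x
  rw [← IsLocalRing.ResidueField.residue_smul, ← sub_eq_zero, ← map_sub,
    IsLocalRing.residue_eq_zero_iff, ← ValuationSubring.coe_mem_nonunits_iff]
  exact h x.1 x.2

/-- Elements of `inertiaSubgroupIn` stabilise `A` and act trivially modulo the maximal ideal. -/
theorem sub_mem_nonunits_of_mem_inertiaSubgroupIn (A : ValuationSubring L) (τ : L ≃ₐ[K] L)
    (hτ : τ ∈ A.inertiaSubgroupIn K) :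
    τ ∈ A.decompositionSubgroup K ∧ ∀ x ∈ A, τ x - x ∈ A.nonunits := by
  obtain ⟨⟨τ', hdec⟩, hin, rfl⟩ := hτ
  refine ⟨hdec, fun x hx => ?_⟩
  have hker : MulSemiringAction.toRingAut (A.decompositionSubgroup K) (IsLocalRing.ResidueField A)
      ⟨τ', hdec⟩ = 1 := hin
  have h1 : (⟨τ', hdec⟩ : A.decompositionSubgroup K) • IsLocalRing.residue A ⟨x, hx⟩
      = IsLocalRing.residue A ⟨x, hx⟩ := by
    have := congrArg
      (fun f : RingAut (IsLocalRing.ResidueField A) => f (IsLocalRing.residue A ⟨x, hx⟩)) hker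
    simpa using this
  rw [← IsLocalRing.ResidueField.residue_smul, ← sub_eq_zero, ← map_sub,
    IsLocalRing.residue_eq_zero_iff, ← ValuationSubring.coe_mem_nonunits_iff] at h1
  exact h1

/-- Galois conjugation maps non-units to non-units of the conjugate valuation subring. -/
theorem apply_mem_nonunits_smul (A : ValuationSubring L) (g : L ≃ₐ[K] L) {z : L}
    (hz : z ∈ A.nonunits) : g z ∈ (g • A).nonunits := by
  rw [ValuationSubring.mem_nonunits_iff_or] at hz ⊢
  rcases hz with rfl | hz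
  · left; simp
  · right
    intro h
    apply hz
    rw [← map_inv₀] at h
    obtain ⟨y, hy, hyz⟩ := (ValuationSubring.mem_smul_pointwise_iff_exists g _ A).mp h
    have : y = z⁻¹ := g.injective hyz
    rwa [← this]

/-- Inertia subgroups are permuted by conjugation. -/
theorem conj_mem_inertiaSubgroupIn (A : ValuationSubring L) (g τ : L ≃ₐ[K] L)
    (hτ : τ ∈ A.inertiaSubgroupIn K) : g * τ * g⁻¹ ∈ (g • A).inertiaSubgroupIn K := by
  obtain ⟨hdec, hin⟩ := sub_mem_nonunits_of_mem_inertiaSubgroupIn A τ hτ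
  have hdec' : τ • A = A := hdec
  apply mem_inertiaSubgroupIn_of
  · rw [MulAction.mem_stabilizer_iff, mul_smul, mul_smul, inv_smul_smul, hdec']
  · intro x hx
    obtain ⟨y, hy, rfl⟩ := (ValuationSubring.mem_smul_pointwise_iff_exists g x A).mp hx
    have h1 : (g * τ * g⁻¹) (g • y) - g • y = g (τ y - y) := by
      simp [AlgEquiv.smul_def, AlgEquiv.mul_apply]
    rw [h1]
    exact apply_mem_nonunits_smul A g (hin y hy)

end Inertia

/-! ### The ring of all algebraic integers -/

attribute [local instance] isAlgebraic_Qbar isAlgClosure_Qbar isGalois_Qbar isIntegral_Qbar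

local notation "Qb" => AlgebraicClosure ℚ
local notation "GQ" => (AlgebraicClosure ℚ ≃ₐ[ℚ] AlgebraicClosure ℚ)
local notation "Zb" => integralClosure ℤ (AlgebraicClosure ℚ)

/-- Every maximal ideal of the ring of algebraic integers is cut out by a valuation subring. -/
theorem exists_valuationSubring_of_isMaximal (𝔓 : Ideal Zb) [h𝔓 : 𝔓.IsMaximal] :
    ∃ A : ValuationSubring Qb, primeOfValuationSubring A = 𝔓 := by
  let e : ((integralClosure ℤ Qb).toSubring) →+* Zb :=
    { toFun := fun x => ⟨x.1, x.2⟩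
      map_one' := rfl
      map_mul' := fun _ _ => rfl
      map_zero' := rfl
      map_add' := fun _ _ => rfl }
  have hI : 𝔓.comap e ≠ ⊤ := by
    intro h
    have h1 : (1 : (integralClosure ℤ Qb).toSubring) ∈ 𝔓.comap e := by rw [h]; trivial
    rw [Ideal.mem_comap, map_one] at h1
    exact (Ideal.ne_top_iff_one _).mp h𝔓.ne_top h1
  obtain ⟨A, -, hA⟩ := Ideal.image_subset_nonunits_valuationSubring _ hI
  refine ⟨A, ?_⟩
  symm
  apply h𝔓.eq_of_le (Ideal.IsPrime.ne_top inferInstance)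
  intro z hz
  rw [mem_primeOfValuationSubring]
  exact hA ⟨⟨z.1, z.2⟩, hz, rfl⟩

/-- The ring of algebraic integers is integral over `ℤ` (for the canonical `ℤ`-algebra
structure of a ring). -/
theorem isIntegral_int_Zbar : @Algebra.IsIntegral ℤ Zb _ _ (Ring.toIntAlgebra Zb) := by
  refine @Algebra.IsIntegral.mk _ _ _ _ (Ring.toIntAlgebra Zb) (fun x => ?_)
  have h : IsIntegral ℤ x := integralClosure.isIntegral x
  have e : (algebraMap ℤ Zb) = @algebraMap ℤ Zb _ _ (Ring.toIntAlgebra Zb) := Subsingleton.elim _ _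
  unfold IsIntegral at h ⊢
  rw [← e]
  exact h

/-- Every maximal ideal of the ring of algebraic integers contains a prime number. -/
theorem exists_prime_natCast_mem (𝔓 : Ideal Zb) [h𝔓 : 𝔓.IsMaximal] :
    ∃ q : ℕ, q.Prime ∧ ((q : ℕ) : Zb) ∈ 𝔓 := by
  obtain ⟨p, hp : _ = Ideal.span _⟩ := IsPrincipalIdealRing.principal (𝔓.under ℤ)
  have hint := isIntegral_int_Zbar
  have hp0 : p ≠ 0 := fun hp0 ↦ Ideal.IsMaximal.ne_bot_of_isIntegral_int 𝔓
    (Ideal.eq_bot_of_comap_eq_bot (hp.trans (by aesop)))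
  have hprime : Prime p := by rw [← Ideal.span_singleton_prime hp0, ← hp]; infer_instance
  refine ⟨p.natAbs, Int.prime_iff_natAbs_prime.mp hprime, ?_⟩
  have h1 : ((p : ℤ) : Zb) ∈ 𝔓 := by
    have : p ∈ 𝔓.under ℤ := by rw [hp]; exact Ideal.mem_span_singleton_self p
    simpa [Ideal.under] using this
  rcases Int.natAbs_eq p with h | h
  · rw [h] at h1; simpa using h1
  · rw [h] at h1; simpa using h1

/-- Integrality over `ℤ` is insensitive to the `ℤ`-algebra structures and transfers along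
injective ring homomorphisms. -/
theorem isIntegral_int_map_iff {S T : Type*} [CommRing S] [CommRing T] (i1 : Algebra ℤ S)
    (i2 : Algebra ℤ T) (φ : S →+* T) (hφ : Function.Injective φ) (x : S) :
    @IsIntegral ℤ T _ _ i2 (φ x) ↔ @IsIntegral ℤ S _ _ i1 x := by
  unfold IsIntegral RingHom.IsIntegralElem
  have e : (@algebraMap ℤ T _ _ i2) = φ.comp (@algebraMap ℤ S _ _ i1) := Subsingleton.elim _ _
  constructor
  · rintro ⟨p, hp, h⟩
    refine ⟨p, hp, hφ ?_⟩
    rw [Polynomial.hom_eval₂, ← e, h, map_zero]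
  · rintro ⟨p, hp, h⟩
    refine ⟨p, hp, ?_⟩
    rw [e, ← Polynomial.hom_eval₂, h, map_zero]

/-- The Galois action on the (discrete) ring of algebraic integers is continuous. -/
theorem continuousSMul_Zbar [TopologicalSpace Zb] [DiscreteTopology Zb] :
    ContinuousSMul GQ Zb := by
  rw [continuousSMul_iff_stabilizer_isOpen]
  intro z
  have : (MulAction.stabilizer GQ z : Set GQ) = MulAction.stabilizer GQ (z : Qb) := by
    ext g
    simp [Subtype.ext_iff]
  rw [this]
  exact stabilizer_isOpen_of_isIntegral _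

/-- **Minkowski, normal case**: an open normal subgroup of `Gal(ℚ̄/ℚ)` containing all inertia
subgroups is everything. -/
theorem eq_top_of_normal_of_inertia_le (N : Subgroup GQ) [hNn : N.Normal]
    (hN : IsOpen (N : Set GQ))
    (hI : ∀ q : ℕ, q.Prime → ∀ A : ValuationSubring Qb, A.LiesOverPrime q →
      A.inertiaSubgroupIn ℚ ≤ N) : N = ⊤ := by
  classical
  by_contra hne
  have hNc : IsClosed (N : Set GQ) := N.isClosed_of_isOpen hN
  let K : IntermediateField ℚ Qb := IntermediateField.fixedField N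
  have hfix : K.fixingSubgroup = N := InfiniteGalois.fixingSubgroup_fixedField ⟨N, hNc⟩
  have hfin : FiniteDimensional ℚ K :=
    (InfiniteGalois.isOpen_iff_finite K).mp (by rw [hfix]; exact hN)
  have hgal : IsGalois ℚ K := (InfiniteGalois.normal_iff_isGalois K).mp (by rw [hfix]; exact hNn)
  have hrank : Module.finrank ℚ K ≠ 1 := by
    intro h
    apply hne
    rw [← hfix, IntermediateField.finrank_eq_one_iff.mp h, IntermediateField.fixingSubgroup_bot]
  have hKmem : ∀ x : Qb, x ∈ K ↔ ∀ n : N, (n : GQ) x = x := fun x => by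
    simp [K, IntermediateField.mem_fixedField_iff]
  let : TopologicalSpace Zb := ⊥
  have : DiscreteTopology Zb := ⟨rfl⟩
  have : ContinuousSMul GQ Zb := continuousSMul_Zbar
  -- the ring of integers of `K`, as the ring of `N`-invariant algebraic integers
  let 𝒪 : Subalgebra ℤ Zb := FixedPoints.subalgebra ℤ Zb N
  let f : 𝒪 →+* K :=
    { toFun := fun z => ⟨((z : Zb) : Qb), (hKmem _).mpr (fun n => congrArg Subtype.val (z.2 n))⟩
      map_one' := rfl
      map_mul' := fun _ _ => rfl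
      map_zero' := rfl
      map_add' := fun _ _ => rfl }
  let : Algebra 𝒪 K := f.toAlgebra
  have hic : IsIntegralClosure 𝒪 ℤ K := by
    refine ⟨?_, ?_⟩
    · intro z z' h
      apply Subtype.ext
      apply Subtype.ext
      exact congrArg (fun k : K => (k : Qb)) h
    · intro x
      constructor
      · intro hx
        have hx' : IsIntegral ℤ (x : Qb) :=
          (isIntegral_int_map_iff _ _ (algebraMap K Qb) (algebraMap K Qb).injective x).mpr hx
        exact ⟨⟨⟨(x : Qb), hx'⟩, fun n => Subtype.ext ((hKmem _).mp x.2 n)⟩, Subtype.ext rfl⟩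
      · rintro ⟨y, rfl⟩
        exact (isIntegral_int_map_iff _ _ (algebraMap K Qb) (algebraMap K Qb).injective _).mp
          (y : Zb).2
  obtain ⟨P, hPmax, σ, hσ1, hσ⟩ := exists_inertia_ne_one' (K := K) (𝒪 := 𝒪) hrank
  -- a maximal ideal of the ring of all algebraic integers above `P`
  have hint : Algebra.IsIntegral 𝒪 Zb := Algebra.IsIntegral.tower_top ℤ
  obtain ⟨𝔓, h𝔓max, h𝔓P⟩ := Ideal.exists_ideal_over_maximal_of_isIntegral (S := Zb) P (by
    rw [(RingHom.injective_iff_ker_eq_bot _).mp Subtype.val_injective]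
    exact bot_le)
  -- lift `σ` to the absolute Galois group
  obtain ⟨τ0, hτ0⟩ := AlgEquiv.restrictNormalHom_surjective (F := ℚ) (K₁ := K) Qb σ
  have hτ0x : ∀ x : K, ((σ x : K) : Qb) = τ0 (x : Qb) := by
    intro x
    rw [← hτ0]
    exact AlgEquiv.restrictNormal_commutes τ0 K x
  obtain ⟨τ, hτN, hτ𝔓, hτb⟩ := exists_inertia_lift N hNc 𝔓 τ0 (by
    intro b hb
    obtain ⟨y, hyP, hy⟩ := hσ ⟨b, hb⟩
    have hy𝔓 : (y : Zb) ∈ 𝔓 := by rw [← h𝔓P] at hyP; exact hyP
    have h1 : τ0 • b - b = (y : Zb) := by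
      apply Subtype.ext
      have h2 := congrArg (fun k : K => (k : Qb)) hy
      have h4 := hτ0x (algebraMap 𝒪 K ⟨b, hb⟩)
      have h3 : (((y : Zb) : Qb)) = τ0 (b : Qb) - (b : Qb) :=
        calc (((y : Zb) : Qb)) = ((σ (algebraMap 𝒪 K ⟨b, hb⟩) : K) : Qb) -
              ((algebraMap 𝒪 K ⟨b, hb⟩ : K) : Qb) := h2
          _ = τ0 (b : Qb) - (b : Qb) := by rw [h4]; rfl
      rw [h3]
      rfl
    rw [h1]
    exact hy𝔓)
  -- the valuation subring and the prime number below `𝔓`
  obtain ⟨A, hA⟩ := exists_valuationSubring_of_isMaximal 𝔓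
  obtain ⟨q, hq, hq𝔓⟩ := exists_prime_natCast_mem 𝔓
  have hAq : A.LiesOverPrime q := by
    rw [← hA, mem_primeOfValuationSubring] at hq𝔓
    simpa [ValuationSubring.LiesOverPrime] using hq𝔓
  have hτdec : τ ∈ A.decompositionSubgroup ℚ :=
    mem_decompositionSubgroup_of_smul_prime_eq hq A hAq τ (by rw [hA]; exact hτ𝔓)
  have hmem : ∀ c : Zb, A.valuation (τ (c : Qb) - (c : Qb)) < 1 := by
    intro c
    have h1 := hτb c
    rw [← hA, mem_primeOfValuationSubring] at h1
    exact h1
  have hτin : τ ∈ A.inertiaSubgroupIn ℚ := by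
    apply mem_inertiaSubgroupIn_of A τ hτdec
    intro x hx
    obtain ⟨a, b, hb, hab⟩ := exists_frac_of_mem_valuationSubring hq A hAq x hx
    have hb1 : A.valuation (b : Qb) = 1 := by
      have h1 : A.valuation (b : Qb) ≤ 1 :=
        (A.valuation_le_one_iff _).mpr (mem_valuationSubring_of_isIntegral A _ b.2)
      have h2 : ¬ A.valuation (b : Qb) < 1 := by
        intro h
        apply hb
        rw [mem_primeOfValuationSubring]
        exact h
      exact le_antisymm h1 (not_lt.mp h2)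
    have hτb1 : A.valuation (τ (b : Qb)) = 1 := by
      have h1 : τ (b : Qb) = (b : Qb) + (τ (b : Qb) - (b : Qb)) := by ring
      rw [h1, Valuation.map_add_eq_of_lt_left, hb1]
      rw [hb1]
      exact hmem b
    have hx1 : A.valuation x ≤ 1 := (A.valuation_le_one_iff x).mpr hx
    have key : (τ x - x) * τ (b : Qb) = (τ (a : Qb) - a) - x * (τ (b : Qb) - b) := by
      have h1 : τ x * τ (b : Qb) = τ (a : Qb) := by rw [← map_mul, hab]
      linear_combination h1 - hab
    have h5 : A.valuation (τ x - x) = A.valuation ((τ x - x) * τ (b : Qb)) := by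
      rw [map_mul, hτb1, mul_one]
    change A.valuation (τ x - x) < 1
    rw [h5, key]
    refine lt_of_le_of_lt (Valuation.map_sub _ _ _) (max_lt (hmem a) ?_)
    rw [map_mul]
    calc A.valuation x * A.valuation (τ (b : Qb) - b) ≤ 1 * A.valuation (τ (b : Qb) - b) :=
          mul_le_mul' hx1 le_rfl
      _ = A.valuation (τ (b : Qb) - b) := one_mul _
      _ < 1 := hmem b
  have hτN' : τ ∈ N := hI q hq A hAq hτin
  have hτ0N : τ0 ∈ N := by
    have := N.mul_mem hτN' (N.inv_mem hτN)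
    simpa using this
  apply hσ1
  ext x
  rw [hτ0x]
  exact (hKmem _).mp x.2 ⟨τ0, hτ0N⟩

/-- **Minkowski for the absolute Galois group**: an open subgroup of `Gal(ℚ̄/ℚ)` which contains
the inertia subgroups of all valuation subrings of `ℚ̄` lying over prime numbers is the whole
group. -/
theorem minkowski (H : Subgroup GQ) (hH : IsOpen (H : Set GQ))
    (hI : ∀ q : ℕ, q.Prime → ∀ A : ValuationSubring Qb, A.LiesOverPrime q →
      A.inertiaSubgroupIn ℚ ≤ H) : H = ⊤ := by
  -- the normal core of `H` is open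
  obtain ⟨U, hU⟩ := ProfiniteGrp.exist_openNormalSubgroup_sub_open_nhds_of_one hH (one_mem H)
  have hUle : (U : Subgroup GQ) ≤ H.normalCore := Subgroup.normal_le_normalCore.mpr hU
  have hopen : IsOpen (H.normalCore : Set GQ) := Subgroup.isOpen_mono hUle U.isOpen
  have htop : H.normalCore = ⊤ := eq_top_of_normal_of_inertia_le H.normalCore hopen (by
    intro q hq A hA τ hτ
    show ∀ g : GQ, g * τ * g⁻¹ ∈ H
    intro g
    refine hI q hq (g • A) ?_ (conj_mem_inertiaSubgroupIn A g τ hτ)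
    have h1 := apply_mem_nonunits_smul (K := ℚ) A g hA
    rw [map_natCast] at h1
    exact h1)
  rw [eq_top_iff, ← htop]
  exact Subgroup.normalCore_le H

end Fermat.Agent.Lib.helper3505
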