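import Mathlib

/-!
# Heights and finite extensions of number fields (helper3588)

`mulHeight_algebraMap`: for number fields `L / K` and a tuple `x : ι → K`,
`Height.mulHeight (algebraMap K L ∘ x) = Height.mulHeight x ^ [L : K]`.
-/

set_option autoImplicit false

namespace Fermat.Agent.Lib.helper3588

open NumberField Height Module

section InfinitePart

variable {K : Type*} [Field K] [NumberField K]

/-- A product over complex embeddings regroups as a product over infinite places with
multiplicities. -/
theorem prod_embedding_eq_prod_infinitePlace {M : Type*} [CommMonoid M]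
    (f : InfinitePlace K → M) :
    ∏ φ : K →+* ℂ, f (InfinitePlace.mk φ) = ∏ w : InfinitePlace K, f w ^ w.mult := by
  classical
  rw [← Finset.prod_fiberwise (Finset.univ : Finset (K →+* ℂ)) InfinitePlace.mk
    (fun φ => f (InfinitePlace.mk φ))]
  refine Finset.prod_congr rfl fun w _ => ?_
  rw [Finset.prod_congr rfl (g := fun _ => f w) (fun φ hφ => by
    rw [(Finset.mem_filter.mp hφ).2]), Finset.prod_const, InfinitePlace.card_filter_mk_eq]

variable {L : Type*} [Field L] [NumberField L] [Algebra K L]

variable (L) in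
open Classical in
/-- Every complex embedding of `K` has exactly `[L : K]` extensions to `L`. -/
theorem card_filter_comp_algebraMap_eq (φ : K →+* ℂ) :
    (Finset.univ.filter fun ψ : L →+* ℂ => ψ.comp (algebraMap K L) = φ).card = finrank K L := by
  let _ : Algebra K ℂ := φ.toAlgebra
  have hsep : Algebra.IsSeparable K L := inferInstance
  rw [← AlgHom.card K L ℂ, ← Fintype.card_subtype]
  refine Fintype.card_congr
    { toFun := fun ψ => { (ψ.1 : L →+* ℂ) with
        commutes' := fun r => RingHom.congr_fun ψ.2 r }
      invFun := fun f => ⟨f.toRingHom, by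
        ext r
        exact f.commutes r⟩
      left_inv := fun ψ => by ext; rfl
      right_inv := fun f => by ext; rfl }

/-- The archimedean part of the height over `L` of a tuple from `K`. -/
theorem prod_infinitePlace_algebraMap {ι : Type*} (x : ι → K) :
    ∏ w : InfinitePlace L, (⨆ i, w (algebraMap K L (x i))) ^ w.mult
      = (∏ v : InfinitePlace K, (⨆ i, v (x i)) ^ v.mult) ^ finrank K L := by
  classical
  rw [← prod_embedding_eq_prod_infinitePlace (fun w : InfinitePlace L =>
      ⨆ i, w (algebraMap K L (x i))),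
    ← prod_embedding_eq_prod_infinitePlace (fun v : InfinitePlace K => ⨆ i, v (x i)),
    ← Finset.prod_pow]
  rw [← Finset.prod_fiberwise (Finset.univ : Finset (L →+* ℂ))
    (fun ψ : L →+* ℂ => ψ.comp (algebraMap K L))
    (fun ψ => ⨆ i, (InfinitePlace.mk ψ) (algebraMap K L (x i)))]
  refine Finset.prod_congr rfl fun φ _ => ?_
  rw [Finset.prod_congr rfl (g := fun _ => ⨆ i, (InfinitePlace.mk φ) (x i)) (fun ψ hψ => by
    rw [← (Finset.mem_filter.mp hψ).2]
    rfl), Finset.prod_const, card_filter_comp_algebraMap_eq]

end InfinitePart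

section FinitePart

variable {K : Type*} [Field K] [NumberField K] {L : Type*} [Field L] [NumberField L] [Algebra K L]

omit [NumberField K] [NumberField L] in
theorem coe_algebraMap_ringOfIntegers (a : 𝓞 K) :
    ((algebraMap (𝓞 K) (𝓞 L) a : 𝓞 L) : L) = algebraMap K L (a : K) := rfl

theorem absNorm_span_range_algebraMap {ι : Type*} (x : ι → 𝓞 K) :
    Ideal.absNorm (Ideal.span (Set.range fun i => algebraMap (𝓞 K) (𝓞 L) (x i)))
      = Ideal.absNorm (Ideal.span (Set.range x)) ^ finrank K L := by
  have h1 : Ideal.span (Set.range fun i => algebraMap (𝓞 K) (𝓞 L) (x i))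
      = (Ideal.span (Set.range x)).map (algebraMap (𝓞 K) (𝓞 L)) := by
    rw [Ideal.map_span, ← Set.range_comp]
    rfl
  rw [h1, Ideal.absNorm_algebraMap, IsFractionRing.finrank_eq (𝓞 K) K (𝓞 L) L]

/-- The non-archimedean part of the height over `L` of an integral tuple from `K`. -/
theorem finprod_finitePlace_algebraMap {ι : Type*} [Finite ι] {x : ι → 𝓞 K} (hx : x ≠ 0) :
    ∏ᶠ w : FinitePlace L, ⨆ i, w (algebraMap K L (x i : K))
      = (∏ᶠ v : FinitePlace K, ⨆ i, v (x i : K)) ^ finrank K L := by
  have hK := absNorm_mul_finprod_finitePlace_eq_one hx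
  have hy : (fun i => algebraMap (𝓞 K) (𝓞 L) (x i)) ≠ 0 := by
    obtain ⟨i, hi⟩ := Function.ne_iff.mp hx
    refine Function.ne_iff.mpr ⟨i, ?_⟩
    simpa using hi
  have hL := absNorm_mul_finprod_finitePlace_eq_one hy
  rw [absNorm_span_range_algebraMap] at hL
  simp only [coe_algebraMap_ringOfIntegers] at hL
  set N : ℝ := ((Ideal.absNorm (Ideal.span (Set.range x)) : ℕ) : ℝ) with hN
  set PK : ℝ := ∏ᶠ v : FinitePlace K, ⨆ i, v (x i : K) with hPK
  set PL : ℝ := ∏ᶠ w : FinitePlace L, ⨆ i, w (algebraMap K L (x i : K)) with hPL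
  have hN0 : N ≠ 0 := left_ne_zero_of_mul_eq_one hK
  have h1 : N ^ finrank K L * PK ^ finrank K L = 1 := by
    rw [← mul_pow, hK, one_pow]
  have h2 : N ^ finrank K L * PL = 1 := by
    rw [← hL]
    push_cast
    rfl
  exact mul_left_cancel₀ (pow_ne_zero _ hN0) (h2.trans h1.symm)

end FinitePart

section Main

variable (K L : Type*) [Field K] [NumberField K] [Field L] [NumberField L] [Algebra K L]

/-- Height of an integral tuple under a finite extension of number fields. -/
theorem mulHeight_algebraMap_integer {ι : Type*} [Finite ι] (a : ι → 𝓞 K) :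
    Height.mulHeight (fun i => algebraMap K L (a i : K))
      = Height.mulHeight (fun i => (a i : K)) ^ finrank K L := by
  rcases eq_or_ne a 0 with rfl | ha
  · have h0 : (fun i : ι => ((0 : ι → 𝓞 K) i : K)) = 0 := by funext i; simp
    have h1 : (fun i : ι => algebraMap K L (((0 : ι → 𝓞 K) i : 𝓞 K) : K)) = 0 := by
      funext i; simp
    rw [h0, h1, Height.mulHeight_zero, Height.mulHeight_zero, one_pow]
  have hK : (fun i => (a i : K)) ≠ 0 := by
    obtain ⟨i, hi⟩ := Function.ne_iff.mp ha
    refine Function.ne_iff.mpr ⟨i, ?_⟩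
    simpa using hi
  have hL : (fun i => algebraMap K L (a i : K)) ≠ 0 := by
    obtain ⟨i, hi⟩ := Function.ne_iff.mp hK
    refine Function.ne_iff.mpr ⟨i, ?_⟩
    simpa using hi
  rw [NumberField.mulHeight_eq hL, NumberField.mulHeight_eq hK, mul_pow,
    prod_infinitePlace_algebraMap, finprod_finitePlace_algebraMap ha]

/-- **Extension formula for heights**: the height over `L` of a tuple from `K` is the
`[L : K]`-th power of its height over `K`. -/
theorem mulHeight_algebraMap {ι : Type*} [Finite ι] (x : ι → K) :
    Height.mulHeight (fun i => algebraMap K L (x i)) = Height.mulHeight x ^ finrank K L := by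
  obtain ⟨b, hb⟩ := IsLocalization.exist_integer_multiples_of_finite (nonZeroDivisors (𝓞 K)) x
  choose a ha using hb
  have hb0 : ((b : 𝓞 K) : K) ≠ 0 := by
    have := nonZeroDivisors.ne_zero b.2
    simp [this]
  have hx : (fun i => (a i : K)) = ((b : 𝓞 K) : K) • x := by
    funext i
    rw [Pi.smul_apply, smul_eq_mul]
    have := ha i
    rw [Algebra.smul_def] at this
    exact this
  have hxL : (fun i => algebraMap K L (a i : K))
      = (algebraMap K L ((b : 𝓞 K) : K)) • fun i => algebraMap K L (x i) := by
    funext i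
    rw [Pi.smul_apply, smul_eq_mul, ← map_mul]
    exact congrArg (algebraMap K L) (congrFun hx i)
  have h := mulHeight_algebraMap_integer K L a
  rw [hx, hxL, Height.mulHeight_smul_eq_mulHeight _ hb0,
    Height.mulHeight_smul_eq_mulHeight _ (by simp [hb0])] at h
  exact h

/-- Logarithmic form of `mulHeight_algebraMap`. -/
theorem logHeight_algebraMap {ι : Type*} [Finite ι] (x : ι → K) :
    Height.logHeight (fun i => algebraMap K L (x i)) = finrank K L * Height.logHeight x := by
  rw [Height.logHeight_eq_log_mulHeight, Height.logHeight_eq_log_mulHeight,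
    mulHeight_algebraMap, Real.log_pow]

/-- Extension formula for the height of a field element. -/
theorem mulHeight₁_algebraMap (x : K) :
    Height.mulHeight₁ (algebraMap K L x) = Height.mulHeight₁ x ^ finrank K L := by
  rw [Height.mulHeight₁_eq_mulHeight, Height.mulHeight₁_eq_mulHeight, ← mulHeight_algebraMap K L]
  congr 1
  funext i
  fin_cases i <;> simp

/-- Logarithmic form of `mulHeight₁_algebraMap`. -/
theorem logHeight₁_algebraMap (x : K) :
    Height.logHeight₁ (algebraMap K L x) = finrank K L * Height.logHeight₁ x := by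
  rw [Height.logHeight₁_eq_log_mulHeight₁, Height.logHeight₁_eq_log_mulHeight₁,
    mulHeight₁_algebraMap, Real.log_pow]

end Main

/-! ## Part E2: the constants of Mathlib's height bounds under field extension -/

section Bound

open Height.AdmissibleAbsValues MvPolynomial

variable {K : Type*} [Field K] [NumberField K] {L : Type*} [Field L] [NumberField L] [Algebra K L]

/-- Products over complex embeddings of `L` of a function of the restriction to `K`. -/
theorem prod_embedding_comp_algebraMap {M : Type*} [CommMonoid M] (F : (K →+* ℂ) → M) :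
    ∏ ψ : L →+* ℂ, F (ψ.comp (algebraMap K L)) = (∏ φ : K →+* ℂ, F φ) ^ finrank K L := by
  classical
  rw [← Finset.prod_pow, ← Finset.prod_fiberwise (Finset.univ : Finset (L →+* ℂ))
    (fun ψ : L →+* ℂ => ψ.comp (algebraMap K L)) (fun ψ => F (ψ.comp (algebraMap K L)))]
  refine Finset.prod_congr rfl fun φ _ => ?_
  rw [Finset.prod_congr rfl (g := fun _ => F φ) (fun ψ hψ => by
    rw [(Finset.mem_filter.mp hψ).2]), Finset.prod_const, card_filter_comp_algebraMap_eq]

/-- General form of the archimedean part: a product over the archimedean absolute values of `L`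
of a quantity depending only on the restriction to `K`. -/
theorem prod_archAbsVal_algebraMap {M : Type*} [CommMonoid M] (gK : AbsoluteValue K ℝ → M)
    (gL : AbsoluteValue L ℝ → M)
    (h : ∀ ψ : L →+* ℂ, gL (NumberField.place ψ)
      = gK (NumberField.place (ψ.comp (algebraMap K L)))) :
    ((archAbsVal (K := L)).map gL).prod = ((archAbsVal (K := K)).map gK).prod ^ finrank K L := by
  rw [NumberField.prod_archAbsVal_eq, NumberField.prod_archAbsVal_eq,
    ← prod_embedding_eq_prod_infinitePlace (fun w : InfinitePlace L => gL w.val),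
    ← prod_embedding_eq_prod_infinitePlace (fun v : InfinitePlace K => gK v.val),
    ← prod_embedding_comp_algebraMap (L := L) (fun φ : K →+* ℂ => gK (InfinitePlace.mk φ).val)]
  exact Finset.prod_congr rfl fun ψ _ => h ψ

/-- The non-archimedean part of the height over `L` of an arbitrary nonzero tuple from `K`. -/
theorem finprod_nonarchAbsVal_algebraMap {ι : Type*} [Finite ι] {y : ι → K} (hy : y ≠ 0) :
    ∏ᶠ w : nonarchAbsVal (K := L), ⨆ i, w.val (algebraMap K L (y i))
      = (∏ᶠ v : nonarchAbsVal (K := K), ⨆ i, v.val (y i)) ^ finrank K L := by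
  have hyL : (fun i => algebraMap K L (y i)) ≠ 0 := by
    obtain ⟨i, hi⟩ := Function.ne_iff.mp hy
    exact Function.ne_iff.mpr ⟨i, by simpa using hi⟩
  have hE := mulHeight_algebraMap K L y
  rw [Height.mulHeight_eq hyL, Height.mulHeight_eq hy, mul_pow] at hE
  have hA : ((archAbsVal (K := L)).map fun w => ⨆ i, w (algebraMap K L (y i))).prod
      = ((archAbsVal (K := K)).map fun v => ⨆ i, v (y i)).prod ^ finrank K L :=
    prod_archAbsVal_algebraMap (fun v => ⨆ i, v (y i)) (fun w => ⨆ i, w (algebraMap K L (y i)))
      (fun ψ => rfl)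
  rw [hA] at hE
  have hpos : ((archAbsVal (K := K)).map fun v => ⨆ i, v (y i)).prod ≠ 0 := by
    have h1 := Height.mulHeight_pos y
    rw [Height.mulHeight_eq hy] at h1
    exact left_ne_zero_of_mul h1.ne'
  exact mul_left_cancel₀ (pow_ne_zero _ hpos) hE

/-- A supremum of `max (sup) 1` over a nonempty finite family is a single supremum over an
`Option`-indexed family. -/
theorem iSup_max_one_eq_iSup_option {ι' : Type*} [Finite ι'] [Nonempty ι'] {β : ι' → Type*}
    [∀ j, Finite (β j)] (a : (j : ι') → β j → ℝ) :
    ⨆ j, max (⨆ s, a j s) 1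
      = ⨆ i : Option (Σ j, β j), i.elim 1 (fun x => a x.1 x.2) := by
  have hR : (1 : ℝ) ≤ ⨆ i : Option (Σ j, β j), i.elim 1 (fun x => a x.1 x.2) :=
    Finite.le_ciSup_of_le (none : Option (Σ j, β j)) le_rfl
  apply le_antisymm
  · refine ciSup_le fun j => max_le ?_ hR
    refine Real.iSup_le (fun s => ?_) (zero_le_one.trans hR)
    exact Finite.le_ciSup_of_le (some ⟨j, s⟩ : Option (Σ j, β j)) le_rfl
  · refine ciSup_le fun i => ?_
    rcases i with _ | ⟨j, s⟩
    · exact Finite.le_ciSup_of_le (Classical.arbitrary ι') (le_max_right _ _)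
    · refine Finite.le_ciSup_of_le j (le_max_of_le_left ?_)
      exact Finite.le_ciSup_of_le s le_rfl

/-- The tuple consisting of `1` and all the (support) coefficients of a family of polynomials. -/
noncomputable def coeffTuple {ι ι' : Type*} (p : ι' → MvPolynomial ι K) :
    Option (Σ j, (p j).support) → K :=
  fun i => i.elim 1 (fun x => coeff x.2.1 (p x.1))

theorem coeffTuple_ne_zero {ι ι' : Type*} (p : ι' → MvPolynomial ι K) : coeffTuple p ≠ 0 :=
  Function.ne_iff.mpr ⟨none, by simp [coeffTuple]⟩

omit [NumberField K] in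
theorem iSup_coeffTuple {ι ι' : Type*} [Finite ι'] [Nonempty ι'] (p : ι' → MvPolynomial ι K)
    (v : AbsoluteValue K ℝ) :
    ⨆ j, max (⨆ s : (p j).support, v (coeff s.1 (p j))) 1 = ⨆ i, v (coeffTuple p i) := by
  rw [iSup_max_one_eq_iSup_option (fun j (s : (p j).support) => v (coeff s.1 (p j)))]
  refine iSup_congr fun i => ?_
  rcases i with _ | ⟨j, s⟩ <;> simp [coeffTuple]

omit [NumberField K] [NumberField L] in
theorem iSup_coeffTuple_map {ι ι' : Type*} [Finite ι'] [Nonempty ι'] (p : ι' → MvPolynomial ι K)
    (w : AbsoluteValue L ℝ) :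
    ⨆ j, max (⨆ s : (MvPolynomial.map (algebraMap K L) (p j)).support,
        w (coeff s.1 (MvPolynomial.map (algebraMap K L) (p j)))) 1
      = ⨆ i, w (algebraMap K L (coeffTuple p i)) := by
  have key : ∀ (S T : Finset (ι →₀ ℕ)) (_ : S = T) (f : (ι →₀ ℕ) → ℝ),
      ⨆ s : S, f s.1 = ⨆ s : T, f s.1 := by
    intro S T h f
    subst h
    rfl
  have h1 : ∀ j, ⨆ s : (MvPolynomial.map (algebraMap K L) (p j)).support,
        w (coeff s.1 (MvPolynomial.map (algebraMap K L) (p j)))
      = ⨆ s : (p j).support, w (algebraMap K L (coeff s.1 (p j))) := by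
    intro j
    rw [key _ _ (MvPolynomial.support_map_of_injective (p j) (algebraMap K L).injective)
      (fun s => w (coeff s (MvPolynomial.map (algebraMap K L) (p j))))]
    simp [coeff_map]
  simp only [h1]
  rw [iSup_max_one_eq_iSup_option
    (fun j (s : (p j).support) => w (algebraMap K L (coeff s.1 (p j))))]
  refine iSup_congr fun i => ?_
  rcases i with _ | ⟨j, s⟩ <;> simp [coeffTuple]

omit [NumberField K] [NumberField L] in
theorem sum_coeff_map {ι : Type*} (p : MvPolynomial ι K) (w : AbsoluteValue L ℝ) :
    (AddMonoidAlgebra.coeff (MvPolynomial.map (algebraMap K L) p)).sum (fun _ c => w c)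
      = (AddMonoidAlgebra.coeff p).sum (fun _ c => w (algebraMap K L c)) := by
  have hs : (MvPolynomial.map (algebraMap K L) p).support = p.support :=
    MvPolynomial.support_map_of_injective p (algebraMap K L).injective
  show ∑ s ∈ (MvPolynomial.map (algebraMap K L) p).support,
      w (coeff s (MvPolynomial.map (algebraMap K L) p))
     = ∑ s ∈ p.support, w (algebraMap K L (coeff s p))
  rw [hs]
  simp [coeff_map]

/-- **Extension formula for the constant `Height.mulHeightBound`** of Mathlib's height bounds
`Height.mulHeight_eval_le` and `Height.mulHeight_eval_ge`. -/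
theorem mulHeightBound_map_algebraMap {ι ι' : Type*} [Finite ι'] (p : ι' → MvPolynomial ι K) :
    Height.mulHeightBound (fun j => MvPolynomial.map (algebraMap K L) (p j))
      = Height.mulHeightBound p ^ finrank K L := by
  have hA : ((archAbsVal (K := L)).map fun w =>
        ⨆ j, (AddMonoidAlgebra.coeff (MvPolynomial.map (algebraMap K L) (p j))).sum
          (fun _ c => w c)).prod
      = ((archAbsVal (K := K)).map fun v =>
        ⨆ j, (AddMonoidAlgebra.coeff (p j)).sum (fun _ c => v c)).prod ^ finrank K L := by
    refine prod_archAbsVal_algebraMap _ _ fun ψ => ?_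
    refine iSup_congr fun j => ?_
    rw [sum_coeff_map]
    rfl
  rw [Height.mulHeightBound_eq, Height.mulHeightBound_eq, mul_pow, hA]
  rcases isEmpty_or_nonempty ι' with hι | hι
  · have h0 : ((archAbsVal (K := K)).map fun v =>
        ⨆ j, (AddMonoidAlgebra.coeff (p j)).sum (fun _ c => v c)).prod = 0 := by
      have hcard : 0 < Multiset.card (archAbsVal (K := K)) := NumberField.totalWeight_pos K
      obtain ⟨v, hv⟩ := Multiset.card_pos_iff_exists_mem.mp hcard
      refine Multiset.prod_eq_zero (Multiset.mem_map.mpr ⟨v, hv, ?_⟩)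
      exact Real.iSup_of_isEmpty _
    have hd : finrank K L ≠ 0 := (Module.finrank_pos).ne'
    rw [h0, zero_pow hd, zero_mul, zero_mul]
  · congr 1
    have hL : ∀ w : nonarchAbsVal (K := L),
        ⨆ j, max (⨆ s : (MvPolynomial.map (algebraMap K L) (p j)).support,
          w.val (coeff s.1 (MvPolynomial.map (algebraMap K L) (p j)))) 1
        = ⨆ i, w.val (algebraMap K L (coeffTuple p i)) := fun w => iSup_coeffTuple_map p w.val
    have hK : ∀ v : nonarchAbsVal (K := K),
        ⨆ j, max (⨆ s : (p j).support, v.val (coeff s.1 (p j))) 1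
        = ⨆ i, v.val (coeffTuple p i) := fun v => iSup_coeffTuple p v.val
    simp only [hL, hK]
    exact finprod_nonarchAbsVal_algebraMap (coeffTuple_ne_zero p)

end Bound

end Fermat.Agent.Lib.helper3588
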