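import Mathlib

/-!
# Regular charts over a non-discrete valuation ring (helper3747, S37/S18-VALCHART)

`A` is a valuation ring whose fraction field `L` is algebraically closed (for instance the
valuation ring of `AlgebraicClosure ℚ` above a prime `l`), `B` is an `A`-algebra which is a domain
(a semilocal chart of an integral model of a curve), `P = m_A B` is the ideal of the special fibre.

Under the hypotheses `GoodChart A B` (special fibre integral with principal ideals, `P` in the
Jacobson radical, value group of the Gauss valuation equal to that of `A`, quotients `B / b` finite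
over `A`) we prove, with no uniformiser, no noetherian hypothesis and no localisation:

* `exists_section`: every non-unit `b ∉ P` vanishes at an `A`-point `x : B →ₐ[A] A`;
* `ker_eq_span`: the kernel of a section is principal, generated by `s - x s` for every lift `s`
  of a uniformiser of the closed point of `x`;
* `section_bijOn`: `x ↦ x s` is a bijection from the sections through a closed point onto `m_A`;
* `exists_factorization`: `span {b} = ∏ ker x` over a finite multiset of sections;
* `span_mk_eq_prod`: `span {b mod P} = ∏ (closed point of x)`: conservation of number.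
-/

set_option linter.unusedSectionVars false

namespace Fermat.Agent.Lib.helper3747

open IsLocalRing Polynomial

section Basic

variable (A : Type*) [CommRing A] [IsDomain A] [ValuationRing A]
variable (B : Type*) [CommRing B] [IsDomain B] [Algebra A B]

/-- The ideal of the special fibre: `m_A B`. -/
def specialIdeal : Ideal B := (maximalIdeal A).map (algebraMap A B)

variable {A B}

theorem algebraMap_mem_specialIdeal {a : A} (ha : a ∈ maximalIdeal A) :
    algebraMap A B a ∈ specialIdeal A B :=
  Ideal.mem_map_of_mem _ ha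

theorem smul_mem_specialIdeal {a : A} (ha : a ∈ maximalIdeal A) (b : B) :
    a • b ∈ specialIdeal A B := by
  rw [Algebra.smul_def]
  exact Ideal.mul_mem_right _ _ (algebraMap_mem_specialIdeal ha)

/-- Elements of `m_A B` are of the form `a • b` with `a ∈ m_A`: finitely many elements of a
valuation ring have a common divisor among them. -/
theorem mem_specialIdeal_iff {w : B} :
    w ∈ specialIdeal A B ↔ ∃ a ∈ maximalIdeal A, ∃ b : B, w = a • b := by
  constructor
  · intro hw
    unfold specialIdeal at hw
    rw [Ideal.map] at hw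
    induction hw using Submodule.span_induction with
    | mem x hx =>
      obtain ⟨a, ha, rfl⟩ := hx
      exact ⟨a, ha, 1, by rw [Algebra.smul_def, mul_one]⟩
    | zero => exact ⟨0, zero_mem _, 0, by simp⟩
    | add x y _ _ hx hy =>
      obtain ⟨a₁, ha₁, b₁, rfl⟩ := hx
      obtain ⟨a₂, ha₂, b₂, rfl⟩ := hy
      rcases ValuationRing.dvd_total a₁ a₂ with ⟨c, rfl⟩ | ⟨c, rfl⟩
      · exact ⟨a₁, ha₁, b₁ + c • b₂, by rw [smul_add, mul_smul]⟩
      · exact ⟨a₂, ha₂, c • b₁ + b₂, by rw [smul_add, mul_smul]⟩
    | smul r x _ hx =>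
      obtain ⟨a, ha, b, rfl⟩ := hx
      exact ⟨a, ha, r * b, by rw [smul_eq_mul, mul_smul_comm]⟩
  · rintro ⟨a, ha, b, rfl⟩
    exact smul_mem_specialIdeal ha b

end Basic

/-! ### Absolutely integrally closed base rings -/

section MonicSplit

/-- Every monic polynomial over `A` is a product of linear factors (`A` is "absolutely integrally
closed"). This is how the algebraic closedness of `Frac A` is used. -/
def MonicSplit (A : Type*) [CommRing A] : Prop := ∀ p : A[X], p.Monic → p.Splits

/-- An integrally closed domain with algebraically closed fraction field satisfies `MonicSplit`. -/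
theorem monicSplit_of_isAlgClosed (A : Type*) [CommRing A] [IsDomain A] [IsIntegrallyClosed A]
    (L : Type*) [Field L] [Algebra A L] [IsFractionRing A L] [IsAlgClosed L] : MonicSplit A := by
  intro p hp
  refine Splits.of_splits_map_of_injective (i := algebraMap A L) (IsFractionRing.injective A L)
    (IsAlgClosed.splits _) ?_
  intro r hr
  have hp0 : p.map (algebraMap A L) ≠ 0 := (hp.map _).ne_zero
  have hroot : eval r (p.map (algebraMap A L)) = 0 := (mem_roots hp0).mp hr
  have hint : IsIntegral A r := ⟨p, hp, by rwa [eval_map] at hroot⟩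
  obtain ⟨y, hy⟩ := IsIntegrallyClosed.isIntegral_iff.mp hint
  exact ⟨y, hy⟩

/-- A domain which is integral over `A` and contains `A` is equal to `A`. -/
theorem surjective_algebraMap_of_isIntegral {A : Type*} [CommRing A] [IsDomain A]
    (hA : MonicSplit A) (D : Type*) [CommRing D] [IsDomain D] [Algebra A D]
    [Algebra.IsIntegral A D] : Function.Surjective (algebraMap A D) := by
  intro d
  obtain ⟨p, hp, hpd⟩ := Algebra.IsIntegral.isIntegral (R := A) d
  have hsplit := hA p hp
  have hprod := hsplit.eq_prod_roots_of_monic hp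
  have h0 : aeval d p = 0 := hpd
  rw [hprod, map_multiset_prod, Multiset.map_map] at h0
  obtain ⟨a, -, ha⟩ := Multiset.mem_map.mp (Multiset.prod_eq_zero_iff.mp h0)
  refine ⟨a, ?_⟩
  simp only [Function.comp_apply, map_sub, aeval_X, aeval_C] at ha
  exact (sub_eq_zero.mp ha).symm

end MonicSplit

/-! ### Counting prime factors in a product -/

section Count

/-- In a domain, the exact power of a prime `π` dividing a product `∏ g i` of elements each of
which is either associated to `π` or prime to `π` is the number of factors associated to `π`. -/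
theorem pow_dvd_prod_iff {R ι : Type*} [CommRing R] [IsDomain R] {π : R} (hπ : Prime π)
    (g : ι → R) (p : ι → Prop) [DecidablePred p] (M : Multiset ι)
    (h1 : ∀ i ∈ M, p i → Associated π (g i)) (h2 : ∀ i ∈ M, ¬ p i → ¬ π ∣ g i) (k : ℕ) :
    π ^ k ∣ (M.map g).prod ↔ k ≤ (M.filter p).card := by
  induction M using Multiset.induction_on generalizing k with
  | empty =>
    rw [Multiset.map_zero, Multiset.prod_zero, Multiset.filter_zero, Multiset.card_zero,
      Nat.le_zero, ← isUnit_iff_dvd_one]
    constructor
    · intro hu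
      by_contra hk
      exact hπ.not_isUnit ((isUnit_pow_iff hk).mp hu)
    · rintro rfl
      rw [pow_zero]
      exact isUnit_one
  | cons i M ih =>
    have h1' : ∀ j ∈ M, p j → Associated π (g j) := fun j hj =>
      h1 j (Multiset.mem_cons_of_mem hj)
    have h2' : ∀ j ∈ M, ¬ p j → ¬ π ∣ g j := fun j hj =>
      h2 j (Multiset.mem_cons_of_mem hj)
    rw [Multiset.map_cons, Multiset.prod_cons]
    by_cases hp : p i
    · rw [Multiset.filter_cons_of_pos _ hp, Multiset.card_cons]
      obtain ⟨u, hu⟩ := h1 i (Multiset.mem_cons_self i M) hp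
      cases k with
      | zero => simp
      | succ k =>
        rw [← hu, pow_succ', mul_assoc, mul_dvd_mul_iff_left hπ.ne_zero, Units.dvd_mul_left,
          ih h1' h2' k, Nat.succ_le_succ_iff]
    · rw [Multiset.filter_cons_of_neg _ hp, ← ih h1' h2' k]
      exact ⟨hπ.pow_dvd_of_dvd_mul_left k (h2 i (Multiset.mem_cons_self i M) hp),
        fun hd => Dvd.dvd.mul_left hd _⟩

end Count

/-! ### Good charts -/

section Chart

variable (A : Type*) [CommRing A] [IsDomain A] [ValuationRing A]
variable (B : Type*) [CommRing B] [IsDomain B] [Algebra A B]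

/-- A regular semilocal chart of a relative curve over the valuation ring `A`. -/
structure GoodChart : Prop where
  /-- `B` is flat (torsion-free) over `A`. -/
  inj : Function.Injective (algebraMap A B)
  /-- the special fibre is integral -/
  prime : (specialIdeal A B).IsPrime
  /-- the special fibre is a principal ideal ring (normal and semilocal) -/
  pid : IsPrincipalIdealRing (B ⧸ specialIdeal A B)
  /-- the special fibre is contained in the Jacobson radical -/
  unit : ∀ b : B, IsUnit (Ideal.Quotient.mk (specialIdeal A B) b) → IsUnit b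
  /-- the value group of the Gauss valuation is that of `A` -/
  prim : ∀ w : B, w ≠ 0 → ∃ (c : A) (w' : B), w' ∉ specialIdeal A B ∧ w = c • w'
  /-- divisors that do not contain the special fibre are finite over `A` -/
  fin : ∀ b : B, b ∉ specialIdeal A B → Module.Finite A (B ⧸ Ideal.span {b})

variable {A B}

theorem GoodChart.smul_left_cancel (h : GoodChart A B) {c : A} (hc : c ≠ 0) {v w : B}
    (hvw : c • v = c • w) : v = w := by
  rw [Algebra.smul_def, Algebra.smul_def] at hvw
  exact mul_left_cancel₀ ((map_ne_zero_iff _ h.inj).mpr hc) hvw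

theorem GoodChart.zero_notMem {b : B} (hb : b ∉ specialIdeal A B) : b ≠ 0 := by
  rintro rfl
  exact hb (zero_mem _)

/-- (V1) For `b ∉ P` the quotient `B / b` has no `A`-torsion. -/
theorem GoodChart.mem_span_of_smul_mem (h : GoodChart A B) {b : B} (hb : b ∉ specialIdeal A B)
    {c : A} (hc : c ≠ 0) {w : B} (hw : c • w ∈ Ideal.span {b}) : w ∈ Ideal.span {b} := by
  have := h.prime
  obtain ⟨v, hv⟩ := Ideal.mem_span_singleton.mp hw
  by_cases hv0 : v = 0
  · have : c • w = c • (0 : B) := by rw [hv, hv0, mul_zero, smul_zero]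
    rw [h.smul_left_cancel hc this]
    exact zero_mem _
  obtain ⟨d, v', hv', rfl⟩ := h.prim v hv0
  have hbv' : b * v' ∉ specialIdeal A B := fun hmem =>
    (Ideal.IsPrime.mem_or_mem ‹_› hmem).elim hb hv'
  rcases ValuationRing.dvd_total c d with ⟨e, rfl⟩ | ⟨e, rfl⟩
  · have : c • w = c • (b * (e • v')) := by
      rw [hv, mul_smul_comm, mul_smul_comm, mul_smul]
    rw [h.smul_left_cancel hc this]
    exact Ideal.mul_mem_right _ _ (Ideal.mem_span_singleton_self b)
  · have hd : d ≠ 0 := fun hd => hc (by rw [hd, zero_mul])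
    have : d • (e • w) = d • (b * v') := by
      rw [← mul_smul, hv, mul_smul_comm]
    have hew : e • w = b * v' := h.smul_left_cancel hd this
    have he : IsUnit e := by
      by_contra he
      exact hbv' (hew ▸ smul_mem_specialIdeal ((IsLocalRing.mem_maximalIdeal e).mpr he) w)
    obtain ⟨u, rfl⟩ := he
    have : w = b * ((↑u⁻¹ : A) • v') := by
      rw [mul_smul_comm, ← hew, ← mul_smul, Units.inv_mul, one_smul]
    rw [this]
    exact Ideal.mul_mem_right _ _ (Ideal.mem_span_singleton_self b)

/-- (V2) Every non-unit `b ∉ P` vanishes at some `A`-valued point of the chart. -/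
theorem GoodChart.exists_section (h : GoodChart A B) (hA : MonicSplit A) {b : B}
    (hb : b ∉ specialIdeal A B) (hu : ¬ IsUnit b) : ∃ x : B →ₐ[A] A, x b = 0 := by
  classical
  let S : Submonoid B := (nonZeroDivisors A).map (algebraMap A B)
  have hdisj : Disjoint ((Ideal.span {b} : Ideal B) : Set B) (S : Set B) := by
    rw [Set.disjoint_left]
    rintro z hz ⟨c, hc, rfl⟩
    have hc0 : c ≠ 0 := nonZeroDivisors.ne_zero hc
    have h1 : c • (1 : B) ∈ Ideal.span {b} := by
      rw [Algebra.smul_def, mul_one]; exact hz
    have h2 := h.mem_span_of_smul_mem hb hc0 h1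
    exact hu (Ideal.span_singleton_eq_top.mp ((Ideal.eq_top_iff_one _).mpr h2))
  obtain ⟨𝔭, hprime, hle, hdisj'⟩ := Ideal.exists_le_prime_disjoint _ S hdisj
  have := hprime
  have := h.fin b hb
  have : Module.Finite A (B ⧸ 𝔭) :=
    Module.Finite.of_surjective (Ideal.Quotient.factorₐ A hle).toLinearMap
      (Ideal.Quotient.factor_surjective hle)
  have : Algebra.IsIntegral A (B ⧸ 𝔭) := Algebra.IsIntegral.of_finite A (B ⧸ 𝔭)
  have hinj : Function.Injective (algebraMap A (B ⧸ 𝔭)) := by
    rw [injective_iff_map_eq_zero]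
    intro a ha
    by_contra ha0
    have hmem : algebraMap A B a ∈ 𝔭 := by
      rw [← Ideal.Quotient.eq_zero_iff_mem]; exact ha
    exact Set.disjoint_left.mp hdisj' hmem ⟨a, mem_nonZeroDivisors_of_ne_zero ha0, rfl⟩
  have hsurj := surjective_algebraMap_of_isIntegral hA (B ⧸ 𝔭)
  let e : A ≃ₐ[A] (B ⧸ 𝔭) := AlgEquiv.ofBijective (Algebra.ofId A (B ⧸ 𝔭)) ⟨hinj, hsurj⟩
  refine ⟨(e.symm : (B ⧸ 𝔭) →ₐ[A] A).comp (Ideal.Quotient.mkₐ A 𝔭), ?_⟩
  have hb0 : (Ideal.Quotient.mkₐ A 𝔭) b = 0 :=
    Ideal.Quotient.eq_zero_iff_mem.mpr (hle (Ideal.mem_span_singleton_self b))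
  rw [AlgHom.comp_apply, hb0]
  exact map_zero _

/-! ### Sections and their closed points -/

/-- The closed point of the special fibre through which the section `x` passes. -/
def closedIdeal (x : B →ₐ[A] A) : Ideal B := (maximalIdeal A).comap (x : B →+* A)

theorem mem_closedIdeal {x : B →ₐ[A] A} {b : B} : b ∈ closedIdeal x ↔ x b ∈ maximalIdeal A :=
  Iff.rfl

theorem specialIdeal_le_closedIdeal (x : B →ₐ[A] A) : specialIdeal A B ≤ closedIdeal x := by
  refine Ideal.map_le_iff_le_comap.mpr fun a ha => ?_
  rw [Ideal.mem_comap, mem_closedIdeal, AlgHom.commutes]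
  exact ha

theorem ker_le_closedIdeal (x : B →ₐ[A] A) : RingHom.ker (x : B →+* A) ≤ closedIdeal x := by
  intro b hb
  rw [mem_closedIdeal]
  have : x b = 0 := hb
  rw [this]
  exact zero_mem _

theorem sub_algebraMap_mem_ker (x : B →ₐ[A] A) (b : B) :
    b - algebraMap A B (x b) ∈ RingHom.ker (x : B →+* A) := by
  rw [RingHom.mem_ker]
  change x (b - algebraMap A B (x b)) = 0
  rw [map_sub, AlgHom.commutes]
  exact sub_self _

theorem closedIdeal_ne_top (x : B →ₐ[A] A) : closedIdeal x ≠ ⊤ := by
  intro htop
  have h1 : (1 : B) ∈ closedIdeal x := htop ▸ Submodule.mem_top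
  rw [mem_closedIdeal, map_one] at h1
  exact (Ideal.ne_top_iff_one _).mp (IsLocalRing.maximalIdeal.isMaximal A).ne_top h1

theorem closedIdeal_eq_sup (x : B →ₐ[A] A) :
    closedIdeal x = RingHom.ker (x : B →+* A) ⊔ specialIdeal A B := by
  apply le_antisymm
  · intro b hb
    have : b = (b - algebraMap A B (x b)) + algebraMap A B (x b) := by ring
    rw [this]
    exact Ideal.add_mem _ (Ideal.mem_sup_left (sub_algebraMap_mem_ker x b))
      (Ideal.mem_sup_right (algebraMap_mem_specialIdeal hb))
  · exact sup_le (ker_le_closedIdeal x) (specialIdeal_le_closedIdeal x)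

instance closedIdeal_isMaximal (x : B →ₐ[A] A) : (closedIdeal x).IsMaximal := by
  have hsurj : Function.Surjective (x : B →+* A) := fun a => ⟨algebraMap A B a, x.commutes a⟩
  exact Ideal.comap_isMaximal_of_surjective (x : B →+* A) hsurj

instance ker_isPrime (x : B →ₐ[A] A) : (RingHom.ker (x : B →+* A)).IsPrime :=
  RingHom.ker_isPrime _

/-- Two sections with comparable kernels are equal. -/
theorem section_eq_of_ker_le {x y : B →ₐ[A] A}
    (hxy : RingHom.ker (x : B →+* A) ≤ RingHom.ker (y : B →+* A)) : x = y := by
  ext b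
  have h1 : y (b - algebraMap A B (x b)) = 0 := hxy (sub_algebraMap_mem_ker x b)
  rw [map_sub, AlgHom.commutes, sub_eq_zero] at h1
  exact h1.symm

theorem isUnit_apply_of_isUnit (x : B →ₐ[A] A) {b : B} (hb : IsUnit b) : IsUnit (x b) :=
  hb.map x

theorem notMem_closedIdeal_of_isUnit (x : B →ₐ[A] A) {b : B} (hb : IsUnit b) :
    b ∉ closedIdeal x := fun hmem =>
  (IsLocalRing.mem_maximalIdeal _).mp (mem_closedIdeal.mp hmem) (hb.map x)

/-- (V3) The kernel of a section is principal: it is generated by `s - x s` for every lift `s` of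
a uniformiser of the closed point of `x`. -/
theorem GoodChart.ker_eq_span (h : GoodChart A B) (x : B →ₐ[A] A) {s : B}
    (hs : s ∉ specialIdeal A B) (hsup : Ideal.span {s} ⊔ specialIdeal A B = closedIdeal x) :
    RingHom.ker (x : B →+* A) = Ideal.span {s - algebraMap A B (x s)} := by
  set g : B := s - algebraMap A B (x s) with hg_def
  have hxs : x s ∈ maximalIdeal A := by
    have : s ∈ closedIdeal x := hsup ▸ Ideal.mem_sup_left (Ideal.mem_span_singleton_self s)
    exact this
  have hg : g ∉ specialIdeal A B := by
    intro hmem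
    apply hs
    have : s = g + algebraMap A B (x s) := by rw [hg_def]; ring
    rw [this]
    exact Ideal.add_mem _ hmem (algebraMap_mem_specialIdeal hxs)
  have hgker : g ∈ RingHom.ker (x : B →+* A) := sub_algebraMap_mem_ker x s
  have := h.fin g hg
  -- Nakayama: `B / g` is generated by `1` as an `A`-module
  have hle : (⊤ : Submodule A (B ⧸ Ideal.span {g})) ≤
      Submodule.span A {(1 : B ⧸ Ideal.span {g})} ⊔
        (maximalIdeal A) • (⊤ : Submodule A (B ⧸ Ideal.span {g})) := by
    intro c _
    obtain ⟨b, rfl⟩ := Ideal.Quotient.mk_surjective c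
    have hb : b - algebraMap A B (x b) ∈ Ideal.span {s} ⊔ specialIdeal A B := by
      rw [hsup]; exact ker_le_closedIdeal x (sub_algebraMap_mem_ker x b)
    obtain ⟨y, hy, z, hz, hyz⟩ := Submodule.mem_sup.mp hb
    obtain ⟨r, rfl⟩ := Ideal.mem_span_singleton'.mp hy
    obtain ⟨a, ha, b', rfl⟩ := mem_specialIdeal_iff.mp hz
    have hb_eq : b = (x b) • (1 : B) + (r * g + ((x s) • r + a • b')) := by
      have h1 : r * s = r * g + (x s) • r := by
        rw [hg_def, Algebra.smul_def]; ring
      have h2 : b = algebraMap A B (x b) + (r * s + a • b') := by rw [hyz]; ring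
      rw [Algebra.smul_def, mul_one, ← add_assoc (r * g), ← h1]
      exact h2
    have hmk : (Ideal.Quotient.mk (Ideal.span {g}) b) =
        (x b) • (1 : B ⧸ Ideal.span {g}) +
          ((x s) • (Ideal.Quotient.mk (Ideal.span {g}) r) +
            a • (Ideal.Quotient.mk (Ideal.span {g}) b')) := by
      have hrg : Ideal.Quotient.mk (Ideal.span {g}) (r * g) = 0 :=
        Ideal.Quotient.eq_zero_iff_mem.mpr
          (Ideal.mul_mem_left _ _ (Ideal.mem_span_singleton_self g))
      conv_lhs => rw [hb_eq]
      simp only [map_add, hrg, zero_add]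
      rfl
    rw [hmk]
    refine Submodule.add_mem _ (Submodule.mem_sup_left ?_) (Submodule.mem_sup_right ?_)
    · exact Submodule.smul_mem _ _ (Submodule.subset_span rfl)
    · exact Submodule.add_mem _ (Submodule.smul_mem_smul hxs Submodule.mem_top)
        (Submodule.smul_mem_smul ha Submodule.mem_top)
  have hjac : maximalIdeal A ≤ (⊥ : Ideal A).jacobson :=
    le_of_eq (IsLocalRing.jacobson_eq_maximalIdeal ⊥ bot_ne_top).symm
  have htop : (⊤ : Submodule A (B ⧸ Ideal.span {g})) ≤
      Submodule.span A {(1 : B ⧸ Ideal.span {g})} :=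
    Submodule.le_of_le_smul_of_le_jacobson_bot Module.Finite.fg_top hjac hle
  apply le_antisymm
  · intro b hb
    have hxb : x b = 0 := hb
    obtain ⟨a, ha⟩ := Submodule.mem_span_singleton.mp
      (htop (Submodule.mem_top : Ideal.Quotient.mk (Ideal.span {g}) b ∈ _))
    have hmem : b - algebraMap A B a ∈ Ideal.span {g} := by
      rw [← Ideal.Quotient.eq_zero_iff_mem, map_sub, ← ha, Algebra.algebraMap_eq_smul_one]
      exact sub_eq_zero.mpr rfl
    obtain ⟨w, hw⟩ := Ideal.mem_span_singleton'.mp hmem
    have hxg : x g = 0 := hgker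
    have ha0 : a = 0 := by
      have := congrArg x hw
      rw [map_mul, hxg, mul_zero, map_sub, hxb, AlgHom.commutes, zero_sub] at this
      exact neg_eq_zero.mp this.symm
    rw [ha0, map_zero, sub_zero] at hmem
    exact hmem
  · exact (Ideal.span_singleton_le_iff_mem _).mpr hgker

/-- The generator `s - x s` of the kernel of a section is a prime element. -/
theorem GoodChart.prime_sub (h : GoodChart A B) (x : B →ₐ[A] A) {s : B}
    (hs : s ∉ specialIdeal A B) (hsup : Ideal.span {s} ⊔ specialIdeal A B = closedIdeal x) :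
    Prime (s - algebraMap A B (x s)) := by
  have hxs : x s ∈ maximalIdeal A :=
    (hsup ▸ Ideal.mem_sup_left (Ideal.mem_span_singleton_self s) : s ∈ closedIdeal x)
  have hne : s - algebraMap A B (x s) ≠ 0 := by
    intro h0
    apply hs
    rw [sub_eq_zero.mp h0]
    exact algebraMap_mem_specialIdeal hxs
  rw [← Ideal.span_singleton_prime hne, ← h.ker_eq_span x hs hsup]
  infer_instance

/-- Every ideal containing the special fibre is generated by one element modulo the special
fibre. -/
theorem GoodChart.exists_sup_eq (h : GoodChart A B) (I : Ideal B)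
    (hI : specialIdeal A B ≤ I) : ∃ s : B, Ideal.span {s} ⊔ specialIdeal A B = I := by
  have := h.pid
  obtain ⟨σ, hσ⟩ := (IsPrincipalIdealRing.principal
    (I.map (Ideal.Quotient.mk (specialIdeal A B)))).principal
  obtain ⟨s, rfl⟩ := Ideal.Quotient.mk_surjective σ
  refine ⟨s, ?_⟩
  have hsurj : Function.Surjective (Ideal.Quotient.mk (specialIdeal A B)) :=
    Ideal.Quotient.mk_surjective
  have hker : Ideal.comap (Ideal.Quotient.mk (specialIdeal A B)) ⊥ = specialIdeal A B := by
    rw [← RingHom.ker_eq_comap_bot, Ideal.mk_ker]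
  have h1 := Ideal.comap_map_of_surjective _ hsurj I
  have h2 := Ideal.comap_map_of_surjective _ hsurj (Ideal.span {s})
  rw [hker] at h1 h2
  rw [← h2, Ideal.map_span, Set.image_singleton, ← sup_eq_left.mpr hI, ← h1, hσ]

/-- Every closed point of a good chart has a uniformiser: the closed point of a section is
generated by one element modulo the special fibre. -/
theorem GoodChart.exists_uniformizer (h : GoodChart A B) (x : B →ₐ[A] A) :
    ∃ s : B, Ideal.span {s} ⊔ specialIdeal A B = closedIdeal x :=
  h.exists_sup_eq _ (specialIdeal_le_closedIdeal x)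

/-- A uniformiser of a closed point which is not the whole special fibre is not in `P`. -/
theorem notMem_specialIdeal_of_sup_eq {x : B →ₐ[A] A} {s b : B}
    (hsup : Ideal.span {s} ⊔ specialIdeal A B = closedIdeal x)
    (hb : b ∉ specialIdeal A B) (hxb : b ∈ closedIdeal x) : s ∉ specialIdeal A B := by
  intro hs
  apply hb
  have : Ideal.span {s} ⊔ specialIdeal A B = specialIdeal A B :=
    sup_eq_right.mpr ((Ideal.span_singleton_le_iff_mem _).mpr hs)
  rw [← this, hsup]
  exact hxb

/-- (V4, residue-disc coordinate) Let `n` be a closed point with uniformiser `s`. Then `x ↦ x s`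
is a bijection from the sections through `n` onto the maximal ideal of `A`. -/
theorem GoodChart.section_bijOn (h : GoodChart A B) (hA : MonicSplit A) {n : Ideal B}
    (hn : n.IsMaximal) {s : B} (hs : s ∉ specialIdeal A B)
    (hsn : Ideal.span {s} ⊔ specialIdeal A B = n) :
    Set.BijOn (fun x : B →ₐ[A] A => x s) {x | closedIdeal x = n} (maximalIdeal A : Set A) := by
  have hsmem : s ∈ n := hsn ▸ Ideal.mem_sup_left (Ideal.mem_span_singleton_self s)
  have hPn : specialIdeal A B ≤ n := hsn ▸ le_sup_right
  refine ⟨?_, ?_, ?_⟩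
  · intro x hx
    have hx' : closedIdeal x = n := hx
    exact (hx' ▸ hsmem : s ∈ closedIdeal x)
  · intro x hx y hy hxy
    have hx' : closedIdeal x = n := hx
    have hy' : closedIdeal y = n := hy
    have hxy' : x s = y s := hxy
    apply section_eq_of_ker_le
    rw [h.ker_eq_span x hs (hsn.trans hx'.symm), h.ker_eq_span y hs (hsn.trans hy'.symm), hxy']
  · intro a ha
    have hg : s - algebraMap A B a ∉ specialIdeal A B := by
      intro hmem
      apply hs
      have : s = (s - algebraMap A B a) + algebraMap A B a := by ring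
      rw [this]
      exact Ideal.add_mem _ hmem (algebraMap_mem_specialIdeal ha)
    have hgn : s - algebraMap A B a ∈ n :=
      Ideal.sub_mem _ hsmem (hPn (algebraMap_mem_specialIdeal ha))
    have hu : ¬ IsUnit (s - algebraMap A B a) := fun hu =>
      hn.ne_top (Ideal.eq_top_of_isUnit_mem _ hgn hu)
    obtain ⟨x, hx⟩ := h.exists_section hA hg hu
    have hxs : x s = a := by
      rw [map_sub, AlgHom.commutes, sub_eq_zero] at hx
      exact hx
    refine ⟨x, ?_, hxs⟩
    have hle : n ≤ closedIdeal x := by
      rw [← hsn]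
      refine sup_le ((Ideal.span_singleton_le_iff_mem _).mpr ?_) (specialIdeal_le_closedIdeal x)
      rw [mem_closedIdeal, hxs]
      exact ha
    exact (hn.eq_of_le (closedIdeal_ne_top x) hle).symm

/-! ### Factorisation into sections and conservation of number -/

/-- (V5) The divisor of an element `b ∉ P` is a finite sum of sections:
`span {b} = ∏ ker x` over a finite multiset of `A`-valued points. -/
theorem GoodChart.exists_factorization (h : GoodChart A B) (hA : MonicSplit A) {b : B}
    (hb : b ∉ specialIdeal A B) :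
    ∃ M : Multiset (B →ₐ[A] A),
      Ideal.span {b} = (M.map fun x : B →ₐ[A] A => RingHom.ker (x : B →+* A)).prod := by
  have := h.prime
  have := h.pid
  suffices H : ∀ c : B ⧸ specialIdeal A B, ∀ b : B, Ideal.Quotient.mk (specialIdeal A B) b = c →
      b ∉ specialIdeal A B → ∃ M : Multiset (B →ₐ[A] A),
        Ideal.span {b} = (M.map fun x : B →ₐ[A] A => RingHom.ker (x : B →+* A)).prod from
    H _ b rfl hb
  intro c
  refine (wellFounded_dvdNotUnit (α := B ⧸ specialIdeal A B)).induction
    (C := fun c => ∀ b : B, Ideal.Quotient.mk (specialIdeal A B) b = c →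
      b ∉ specialIdeal A B → ∃ M : Multiset (B →ₐ[A] A),
        Ideal.span {b} = (M.map fun x : B →ₐ[A] A => RingHom.ker (x : B →+* A)).prod) c ?_
  · intro c ih b hbc hb
    by_cases hu : IsUnit b
    · exact ⟨0, by rw [Multiset.map_zero, Multiset.prod_zero, Ideal.one_eq_top,
        Ideal.span_singleton_eq_top.mpr hu]⟩
    obtain ⟨x, hx⟩ := h.exists_section hA hb hu
    obtain ⟨s, hsup⟩ := h.exists_uniformizer x
    have hxb : b ∈ closedIdeal x := ker_le_closedIdeal x hx
    have hs : s ∉ specialIdeal A B := notMem_specialIdeal_of_sup_eq hsup hb hxb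
    have hker := h.ker_eq_span x hs hsup
    set g : B := s - algebraMap A B (x s) with hg_def
    have hbg : b ∈ Ideal.span {g} := hker ▸ hx
    obtain ⟨b₁, hb₁⟩ := Ideal.mem_span_singleton.mp hbg
    have hb₁P : b₁ ∉ specialIdeal A B := fun hmem => hb (hb₁ ▸ Ideal.mul_mem_left _ _ hmem)
    have hgu : ¬ IsUnit (Ideal.Quotient.mk (specialIdeal A B) g) := by
      intro hgu
      have hgker : g ∈ RingHom.ker (x : B →+* A) := sub_algebraMap_mem_ker x s
      exact notMem_closedIdeal_of_isUnit x (h.unit g hgu) (ker_le_closedIdeal x hgker)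
    have hdvd : DvdNotUnit (Ideal.Quotient.mk (specialIdeal A B) b₁) c := by
      refine ⟨?_, Ideal.Quotient.mk (specialIdeal A B) g, hgu, ?_⟩
      · rwa [Ne, Ideal.Quotient.eq_zero_iff_mem]
      · rw [← hbc, hb₁, map_mul, mul_comm]
    obtain ⟨M₁, hM₁⟩ := ih _ hdvd b₁ rfl hb₁P
    refine ⟨x ::ₘ M₁, ?_⟩
    rw [Multiset.map_cons, Multiset.prod_cons, ← hM₁, hker, hb₁,
      Ideal.span_singleton_mul_span_singleton]

/-- The image in the special fibre of the kernel of a section is its closed point. -/
theorem map_ker_eq_map_closedIdeal (x : B →ₐ[A] A) :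
    (RingHom.ker (x : B →+* A)).map (Ideal.Quotient.mk (specialIdeal A B)) =
      (closedIdeal x).map (Ideal.Quotient.mk (specialIdeal A B)) := by
  rw [closedIdeal_eq_sup, Ideal.map_sup, Ideal.map_quotient_self, sup_bot_eq]

/-- (V6, conservation of number) If `span {b} = ∏ ker x` then the divisor of the reduction of `b`
is the sum of the closed points of the sections: `span {b mod P} = ∏ (closed point of x)`. -/
theorem span_mk_eq_prod {b : B} {M : Multiset (B →ₐ[A] A)}
    (hM : Ideal.span {b} = (M.map fun x : B →ₐ[A] A => RingHom.ker (x : B →+* A)).prod) :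
    Ideal.span {Ideal.Quotient.mk (specialIdeal A B) b} =
      (M.map fun x : B →ₐ[A] A =>
        (closedIdeal x).map (Ideal.Quotient.mk (specialIdeal A B))).prod := by
  have h1 : Ideal.span {Ideal.Quotient.mk (specialIdeal A B) b} =
      (Ideal.span {b}).map (Ideal.Quotient.mk (specialIdeal A B)) := by
    rw [Ideal.map_span, Set.image_singleton]
  rw [h1, hM, ← Ideal.mapHom_apply, map_multiset_prod, Multiset.map_map]
  congr 1
  refine Multiset.map_congr rfl fun x _ => ?_
  simp only [Function.comp_apply, Ideal.mapHom_apply]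
  exact map_ker_eq_map_closedIdeal x

/-! ### Canonical local equations -/

/-- Every maximal ideal of a good chart contains the special fibre. -/
theorem GoodChart.specialIdeal_le_of_isMaximal (h : GoodChart A B) {n : Ideal B}
    (hn : n.IsMaximal) : specialIdeal A B ≤ n := by
  by_contra hle
  have htop : n ⊔ specialIdeal A B = ⊤ := by
    by_contra hne
    exact hle (le_sup_right.trans (hn.eq_of_le hne le_sup_left).ge)
  obtain ⟨m, hm, p, hp, hmp⟩ := Submodule.mem_sup.mp
    ((Ideal.eq_top_iff_one _).mp htop)
  have hmk : Ideal.Quotient.mk (specialIdeal A B) m = 1 := by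
    rw [← map_one (Ideal.Quotient.mk (specialIdeal A B)), ← hmp, map_add,
      Ideal.Quotient.eq_zero_iff_mem.mpr hp, add_zero]
  exact hn.ne_top (Ideal.eq_top_of_isUnit_mem _ hm (h.unit m (hmk ▸ isUnit_one)))

open Classical in
/-- A chosen generator modulo the special fibre of an ideal `n ⊇ P` (`0` if `n` does not contain
`P`): a uniformiser of the closed point `n`. -/
noncomputable def GoodChart.unif (h : GoodChart A B) (n : Ideal B) : B :=
  if hn : specialIdeal A B ≤ n then Classical.choose (h.exists_sup_eq n hn) else 0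

theorem GoodChart.span_unif_sup (h : GoodChart A B) {n : Ideal B} (hn : specialIdeal A B ≤ n) :
    Ideal.span {h.unif n} ⊔ specialIdeal A B = n := by
  unfold GoodChart.unif
  rw [dif_pos hn]
  exact Classical.choose_spec (h.exists_sup_eq n hn)

theorem GoodChart.unif_mem (h : GoodChart A B) {n : Ideal B} (hn : specialIdeal A B ≤ n) :
    h.unif n ∈ n := by
  have h1 : h.unif n ∈ Ideal.span {h.unif n} ⊔ specialIdeal A B :=
    Ideal.mem_sup_left (Ideal.mem_span_singleton_self _)
  rwa [h.span_unif_sup hn] at h1

theorem GoodChart.unif_notMem (h : GoodChart A B) {n : Ideal B} (hn : specialIdeal A B < n) :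
    h.unif n ∉ specialIdeal A B := by
  intro hs
  have h1 := h.span_unif_sup hn.le
  rw [sup_eq_right.mpr ((Ideal.span_singleton_le_iff_mem _).mpr hs)] at h1
  exact hn.ne h1

/-- The canonical local equation of the section `x`: `s - x s` for the chosen uniformiser `s` of
the closed point of `x`. -/
noncomputable def GoodChart.gen (h : GoodChart A B) (x : B →ₐ[A] A) : B :=
  h.unif (closedIdeal x) - algebraMap A B (x (h.unif (closedIdeal x)))

theorem GoodChart.apply_unif_mem (h : GoodChart A B) (x : B →ₐ[A] A) :
    x (h.unif (closedIdeal x)) ∈ maximalIdeal A :=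
  h.unif_mem (specialIdeal_le_closedIdeal x)

theorem GoodChart.apply_gen (h : GoodChart A B) (x : B →ₐ[A] A) : x (h.gen x) = 0 :=
  sub_algebraMap_mem_ker x _

/-- The reduction of the canonical local equation is the chosen uniformiser of the closed point. -/
theorem GoodChart.mk_gen (h : GoodChart A B) (x : B →ₐ[A] A) :
    Ideal.Quotient.mk (specialIdeal A B) (h.gen x) =
      Ideal.Quotient.mk (specialIdeal A B) (h.unif (closedIdeal x)) := by
  unfold GoodChart.gen
  rw [map_sub, Ideal.Quotient.eq_zero_iff_mem.mpr
    (algebraMap_mem_specialIdeal (h.apply_unif_mem x)), sub_zero]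

/-- Local equations of two sections through the same closed point are congruent modulo the
special fibre: their quotient reduces to `1`. -/
theorem GoodChart.gen_sub_gen_mem (h : GoodChart A B) {x y : B →ₐ[A] A}
    (hxy : closedIdeal x = closedIdeal y) : h.gen x - h.gen y ∈ specialIdeal A B := by
  rw [← Ideal.Quotient.eq_zero_iff_mem, map_sub, h.mk_gen, h.mk_gen, hxy, sub_self]

theorem closedIdeal_ne_specialIdeal_of_mem {x : B →ₐ[A] A} {b : B}
    (hb : b ∉ specialIdeal A B) (hxb : b ∈ closedIdeal x) :
    closedIdeal x ≠ specialIdeal A B := fun heq => hb (heq ▸ hxb)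

theorem specialIdeal_lt_closedIdeal {x : B →ₐ[A] A} (hx : closedIdeal x ≠ specialIdeal A B) :
    specialIdeal A B < closedIdeal x :=
  lt_of_le_of_ne (specialIdeal_le_closedIdeal x) (Ne.symm hx)

theorem GoodChart.gen_notMem (h : GoodChart A B) {x : B →ₐ[A] A}
    (hx : closedIdeal x ≠ specialIdeal A B) : h.gen x ∉ specialIdeal A B := by
  intro hmem
  apply h.unif_notMem (specialIdeal_lt_closedIdeal hx)
  rw [← Ideal.Quotient.eq_zero_iff_mem, ← h.mk_gen]
  exact Ideal.Quotient.eq_zero_iff_mem.mpr hmem

/-- The kernel of a section through a closed point (not the generic point of the special fibre)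
is generated by its canonical local equation. -/
theorem GoodChart.ker_eq_span_gen (h : GoodChart A B) {x : B →ₐ[A] A}
    (hx : closedIdeal x ≠ specialIdeal A B) :
    RingHom.ker (x : B →+* A) = Ideal.span {h.gen x} :=
  h.ker_eq_span x (h.unif_notMem (specialIdeal_lt_closedIdeal hx))
    (h.span_unif_sup (specialIdeal_le_closedIdeal x))

theorem GoodChart.prime_gen (h : GoodChart A B) {x : B →ₐ[A] A}
    (hx : closedIdeal x ≠ specialIdeal A B) : Prime (h.gen x) :=
  h.prime_sub x (h.unif_notMem (specialIdeal_lt_closedIdeal hx))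
    (h.span_unif_sup (specialIdeal_le_closedIdeal x))

/-- The local equation of `y` does not vanish at a different section `x`. -/
theorem GoodChart.apply_gen_ne_zero (h : GoodChart A B) {x y : B →ₐ[A] A}
    (hy : closedIdeal y ≠ specialIdeal A B) (hxy : x ≠ y) : x (h.gen y) ≠ 0 := by
  intro h0
  apply hxy
  symm
  apply section_eq_of_ker_le
  rw [h.ker_eq_span_gen hy, Ideal.span_singleton_le_iff_mem]
  exact h0

theorem GoodChart.not_gen_dvd_gen (h : GoodChart A B) {x y : B →ₐ[A] A}
    (hy : closedIdeal y ≠ specialIdeal A B)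
    (hxy : x ≠ y) : ¬ h.gen x ∣ h.gen y := by
  rintro ⟨w, hw⟩
  apply h.apply_gen_ne_zero hy hxy
  rw [hw, map_mul, h.apply_gen, zero_mul]

/-- The local equation of `y` is a unit at every section through a different closed point. -/
theorem GoodChart.isUnit_apply_gen (h : GoodChart A B) {x y : B →ₐ[A] A}
    (hxy : closedIdeal x ≠ closedIdeal y) : IsUnit (x (h.gen y)) := by
  by_contra hu
  apply hxy
  have hmem : h.gen y ∈ closedIdeal x := (IsLocalRing.mem_maximalIdeal _).mpr hu
  have hunif : h.unif (closedIdeal y) ∈ closedIdeal x := by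
    have hker : Ideal.Quotient.mk (specialIdeal A B) (h.unif (closedIdeal y) - h.gen y) = 0 := by
      rw [map_sub, h.mk_gen, sub_self]
    have := Ideal.add_mem _ hmem
      (specialIdeal_le_closedIdeal x (Ideal.Quotient.eq_zero_iff_mem.mp hker))
    rwa [add_sub_cancel] at this
  have hle : closedIdeal y ≤ closedIdeal x := by
    rw [← h.span_unif_sup (specialIdeal_le_closedIdeal y)]
    exact sup_le ((Ideal.span_singleton_le_iff_mem _).mpr hunif) (specialIdeal_le_closedIdeal x)
  exact ((closedIdeal_isMaximal y).eq_of_le (closedIdeal_ne_top x) hle).symm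

/-- Through every closed point of the chart (a maximal ideal other than `P`) there is a section. -/
theorem GoodChart.exists_section_through (h : GoodChart A B) (hA : MonicSplit A) {n : Ideal B}
    (hn : n.IsMaximal) (hPn : n ≠ specialIdeal A B) : ∃ x : B →ₐ[A] A, closedIdeal x = n := by
  have hle := h.specialIdeal_le_of_isMaximal hn
  have hlt : specialIdeal A B < n := lt_of_le_of_ne hle (Ne.symm hPn)
  obtain ⟨x, hx, -⟩ := (h.section_bijOn hA hn (h.unif_notMem hlt) (h.span_unif_sup hle)).surjOn
    (zero_mem (maximalIdeal A))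
  exact ⟨x, hx⟩

/-! ### Multiplicities -/

theorem ker_of_mem_factorization {b : B} {M : Multiset (B →ₐ[A] A)}
    (hM : Ideal.span {b} = (M.map fun x : B →ₐ[A] A => RingHom.ker (x : B →+* A)).prod)
    {y : B →ₐ[A] A} (hy : y ∈ M) : y b = 0 := by
  have h1 : Ideal.span {b} ≤ RingHom.ker (y : B →+* A) := by
    rw [hM]
    exact Ideal.multiset_prod_le_inf.trans (Multiset.inf_le (Multiset.mem_map_of_mem _ hy))
  exact h1 (Ideal.mem_span_singleton_self b)

theorem closedIdeal_ne_of_mem_factorization {b : B} (hb : b ∉ specialIdeal A B)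
    {M : Multiset (B →ₐ[A] A)}
    (hM : Ideal.span {b} = (M.map fun x : B →ₐ[A] A => RingHom.ker (x : B →+* A)).prod)
    {y : B →ₐ[A] A} (hy : y ∈ M) : closedIdeal y ≠ specialIdeal A B :=
  closedIdeal_ne_specialIdeal_of_mem hb (ker_le_closedIdeal y (ker_of_mem_factorization hM hy))

/-- Element form of the factorisation: `b` is associated to the product of the canonical local
equations of its zeros. -/
theorem GoodChart.associated_prod_gen (h : GoodChart A B) {b : B} (hb : b ∉ specialIdeal A B)
    {M : Multiset (B →ₐ[A] A)}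
    (hM : Ideal.span {b} = (M.map fun x : B →ₐ[A] A => RingHom.ker (x : B →+* A)).prod) :
    Associated b (M.map h.gen).prod := by
  rw [← Ideal.span_singleton_eq_span_singleton, hM, ← Ideal.multiset_prod_span_singleton,
    Multiset.map_map]
  congr 1
  refine Multiset.map_congr rfl fun y hy => ?_
  exact h.ker_eq_span_gen (closedIdeal_ne_of_mem_factorization hb hM hy)

/-- (V5, element form) every `b ∉ P` is a unit times a product of canonical local equations. -/
theorem GoodChart.exists_eq_unit_mul_prod (h : GoodChart A B) (hA : MonicSplit A) {b : B}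
    (hb : b ∉ specialIdeal A B) :
    ∃ (M : Multiset (B →ₐ[A] A)) (u : Bˣ),
      Ideal.span {b} = (M.map fun x : B →ₐ[A] A => RingHom.ker (x : B →+* A)).prod ∧
      b = u * (M.map h.gen).prod := by
  obtain ⟨M, hM⟩ := h.exists_factorization hA hb
  obtain ⟨u, hu⟩ := (h.associated_prod_gen hb hM).symm
  exact ⟨M, u, hM, by rw [← hu, mul_comm]⟩

open Classical in
/-- The multiplicity of a section `x` in the divisor of `b`: `b ∈ (ker x) ^ k ↔ k ≤ count x M`. -/
theorem GoodChart.mem_ker_pow_iff (h : GoodChart A B) {b : B} (hb : b ∉ specialIdeal A B)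
    {M : Multiset (B →ₐ[A] A)}
    (hM : Ideal.span {b} = (M.map fun x : B →ₐ[A] A => RingHom.ker (x : B →+* A)).prod)
    (x : B →ₐ[A] A) (k : ℕ) :
    b ∈ RingHom.ker (x : B →+* A) ^ k ↔ k ≤ M.count x := by
  by_cases hxb : x b = 0
  · have hx : closedIdeal x ≠ specialIdeal A B :=
      closedIdeal_ne_specialIdeal_of_mem hb (ker_le_closedIdeal x hxb)
    rw [h.ker_eq_span_gen hx, Ideal.span_singleton_pow, Ideal.mem_span_singleton,
      (h.associated_prod_gen hb hM).dvd_iff_dvd_right, Multiset.count_eq_card_filter_eq]
    refine pow_dvd_prod_iff (h.prime_gen hx) h.gen (fun y => x = y) M ?_ ?_ k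
    · intro y _ hxy
      rw [hxy]
    · intro y hy hxy
      exact h.not_gen_dvd_gen (closedIdeal_ne_of_mem_factorization hb hM hy) hxy
  · have hcount : M.count x = 0 :=
      Multiset.count_eq_zero_of_notMem fun hmem => hxb (ker_of_mem_factorization hM hmem)
    rw [hcount, Nat.le_zero]
    constructor
    · intro hmem
      by_contra hk
      exact hxb (Ideal.pow_le_self hk hmem)
    · rintro rfl
      rw [pow_zero, Ideal.one_eq_top]
      exact Submodule.mem_top

/-- The multiset of zeros of `b` is unique. -/
theorem GoodChart.factorization_unique (h : GoodChart A B) {b : B} (hb : b ∉ specialIdeal A B)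
    {M M' : Multiset (B →ₐ[A] A)}
    (hM : Ideal.span {b} = (M.map fun x : B →ₐ[A] A => RingHom.ker (x : B →+* A)).prod)
    (hM' : Ideal.span {b} = (M'.map fun x : B →ₐ[A] A => RingHom.ker (x : B →+* A)).prod) :
    M = M' := by
  classical
  ext x
  apply le_antisymm
  · exact (h.mem_ker_pow_iff hb hM' x _).mp ((h.mem_ker_pow_iff hb hM x _).mpr le_rfl)
  · exact (h.mem_ker_pow_iff hb hM x _).mp ((h.mem_ker_pow_iff hb hM' x _).mpr le_rfl)

open Classical in
/-- (V6, counting form of the conservation of number) The order of vanishing of the reduction of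
`b` at a closed point `n` is the number of zeros of `b`, counted with multiplicity, in the residue
disc of `n`. -/
theorem GoodChart.mk_mem_pow_iff (h : GoodChart A B) {b : B}
    {M : Multiset (B →ₐ[A] A)}
    (hM : Ideal.span {b} = (M.map fun x : B →ₐ[A] A => RingHom.ker (x : B →+* A)).prod)
    {n : Ideal B} (hn : n.IsMaximal) (hPn : n ≠ specialIdeal A B) (k : ℕ) :
    Ideal.Quotient.mk (specialIdeal A B) b ∈ (n.map (Ideal.Quotient.mk (specialIdeal A B))) ^ k ↔
      k ≤ (M.filter fun y => closedIdeal y = n).card := by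
  have := h.prime
  have hle := h.specialIdeal_le_of_isMaximal hn
  have hlt : specialIdeal A B < n := lt_of_le_of_ne hle (Ne.symm hPn)
  have hsurj : Function.Surjective (Ideal.Quotient.mk (specialIdeal A B)) :=
    Ideal.Quotient.mk_surjective
  -- the closed point is generated by the reduction of its uniformiser
  have hmap : ∀ I : Ideal B, specialIdeal A B ≤ I →
      I.map (Ideal.Quotient.mk (specialIdeal A B)) =
        Ideal.span {Ideal.Quotient.mk (specialIdeal A B) (h.unif I)} := by
    intro I hI
    conv_lhs => rw [← h.span_unif_sup hI]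
    rw [Ideal.map_sup, Ideal.map_quotient_self, sup_bot_eq, Ideal.map_span, Set.image_singleton]
  have hcomap : ∀ I : Ideal B, specialIdeal A B ≤ I →
      (I.map (Ideal.Quotient.mk (specialIdeal A B))).comap
        (Ideal.Quotient.mk (specialIdeal A B)) = I := by
    intro I hI
    rw [Ideal.comap_map_of_surjective _ hsurj, ← RingHom.ker_eq_comap_bot, Ideal.mk_ker,
      sup_eq_left.mpr hI]
  have hπ0 : Ideal.Quotient.mk (specialIdeal A B) (h.unif n) ≠ 0 := by
    rw [Ne, Ideal.Quotient.eq_zero_iff_mem]
    exact h.unif_notMem hlt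
  have hπ : Prime (Ideal.Quotient.mk (specialIdeal A B) (h.unif n)) := by
    rw [← Ideal.span_singleton_prime hπ0, ← hmap n hle]
    have : (n.map (Ideal.Quotient.mk (specialIdeal A B))).IsMaximal :=
      Ideal.IsMaximal.map_of_surjective_of_ker_le hsurj (by rw [Ideal.mk_ker]; exact hle)
    exact this.isPrime
  have hassoc : Associated (Ideal.Quotient.mk (specialIdeal A B) b)
      (M.map fun y => Ideal.Quotient.mk (specialIdeal A B) (h.unif (closedIdeal y))).prod := by
    rw [← Ideal.span_singleton_eq_span_singleton, span_mk_eq_prod hM,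
      ← Ideal.multiset_prod_span_singleton, Multiset.map_map]
    congr 1
    exact Multiset.map_congr rfl fun y _ => hmap _ (specialIdeal_le_closedIdeal y)
  rw [hmap n hle, Ideal.span_singleton_pow, Ideal.mem_span_singleton,
    hassoc.dvd_iff_dvd_right]
  refine pow_dvd_prod_iff hπ (fun y => Ideal.Quotient.mk (specialIdeal A B)
    (h.unif (closedIdeal y))) (fun y => closedIdeal y = n) M ?_ ?_ k
  · intro y _ hy
    rw [hy]
  · intro y _ hy hdvd
    apply hy
    have h1 : (closedIdeal y).map (Ideal.Quotient.mk (specialIdeal A B)) ≤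
        n.map (Ideal.Quotient.mk (specialIdeal A B)) := by
      rw [hmap _ (specialIdeal_le_closedIdeal y), hmap n hle]
      exact Ideal.span_singleton_le_span_singleton.mpr hdvd
    have h2 := Ideal.comap_mono (f := Ideal.Quotient.mk (specialIdeal A B)) h1
    rw [hcomap _ (specialIdeal_le_closedIdeal y), hcomap n hle] at h2
    exact (closedIdeal_isMaximal y).eq_of_le hn.ne_top h2

/-- (V6, corollary) Two elements whose zeros have the same distribution among the closed points
have associated reductions: the reduction of `b / c` is a unit of the special fibre of the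
chart. -/
theorem associated_mk_of_map_closedIdeal_eq {b c : B} {Mb Mc : Multiset (B →ₐ[A] A)}
    (hMb : Ideal.span {b} = (Mb.map fun x : B →ₐ[A] A => RingHom.ker (x : B →+* A)).prod)
    (hMc : Ideal.span {c} = (Mc.map fun x : B →ₐ[A] A => RingHom.ker (x : B →+* A)).prod)
    (heq : Mb.map closedIdeal = Mc.map closedIdeal) (hP : (specialIdeal A B).IsPrime) :
    Associated (Ideal.Quotient.mk (specialIdeal A B) b)
      (Ideal.Quotient.mk (specialIdeal A B) c) := by
  have h1 : ∀ M : Multiset (B →ₐ[A] A),
      (M.map fun x : B →ₐ[A] A =>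
        (closedIdeal x).map (Ideal.Quotient.mk (specialIdeal A B))).prod =
      ((M.map closedIdeal).map
        fun I : Ideal B => I.map (Ideal.Quotient.mk (specialIdeal A B))).prod := by
    intro M
    rw [Multiset.map_map]
    rfl
  rw [← Ideal.span_singleton_eq_span_singleton, span_mk_eq_prod hMb, span_mk_eq_prod hMc,
    h1, h1, heq]

open Classical in
/-- Elementwise form of "the local ring of the generic fibre at a section is a discrete valuation
ring with uniformiser the local equation": every nonzero `f` is `gen x ^ k * w` with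
`w` not vanishing at `x`. -/
theorem GoodChart.exists_eq_pow_mul (h : GoodChart A B) (hA : MonicSplit A) (x : B →ₐ[A] A)
    {f : B} (hf : f ≠ 0) : ∃ (k : ℕ) (w : B), x w ≠ 0 ∧ f = h.gen x ^ k * w := by
  obtain ⟨c, f', hf', rfl⟩ := h.prim f hf
  have hc : c ≠ 0 := by
    rintro rfl
    exact hf (zero_smul _ _)
  obtain ⟨M, u, hM, hu⟩ := h.exists_eq_unit_mul_prod hA hf'
  have hsplit : (M.map h.gen).prod =
      h.gen x ^ M.count x * ((M.filter fun y => ¬ y = x).map h.gen).prod := by
    have hfe : M.filter (fun y => y = x) = Multiset.replicate (M.count x) x :=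
      Multiset.filter_eq' M x
    conv_lhs => rw [← Multiset.filter_add_not (fun y => y = x) M]
    rw [Multiset.map_add, Multiset.prod_add, hfe, Multiset.map_replicate,
      Multiset.prod_replicate]
  refine ⟨M.count x, c • ((u : B) * ((M.filter fun y => ¬ y = x).map h.gen).prod), ?_, ?_⟩
  · rw [map_smul, smul_eq_mul, map_mul, map_multiset_prod, Multiset.map_map]
    refine mul_ne_zero hc (mul_ne_zero (isUnit_apply_of_isUnit x u.isUnit).ne_zero ?_)
    apply Multiset.prod_ne_zero
    intro h0
    obtain ⟨y, hy, hy0⟩ := Multiset.mem_map.mp h0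
    obtain ⟨hyM, hyx⟩ := Multiset.mem_filter.mp hy
    exact h.apply_gen_ne_zero (closedIdeal_ne_of_mem_factorization hf' hM hyM)
      (fun hxy => hyx hxy.symm) hy0
  · rw [hu, hsplit, mul_smul_comm]
    congr 1
    ring

/-- The exponent in `GoodChart.exists_eq_pow_mul` is unique. -/
theorem GoodChart.pow_mul_unique (h : GoodChart A B) {x : B →ₐ[A] A}
    (hx : closedIdeal x ≠ specialIdeal A B) {k k' : ℕ} {w w' : B} (hw : x w ≠ 0)
    (hw' : x w' ≠ 0) (heq : h.gen x ^ k * w = h.gen x ^ k' * w') : k = k' := by
  have hg0 : h.gen x ≠ 0 := (h.prime_gen hx).ne_zero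
  have key : ∀ {k k' : ℕ} {w w' : B}, x w ≠ 0 → h.gen x ^ k * w = h.gen x ^ k' * w' →
      k' ≤ k := by
    intro k k' w w' hw heq
    by_contra hlt
    rw [not_le] at hlt
    obtain ⟨d, rfl⟩ := Nat.exists_eq_add_of_lt hlt
    rw [show k + d + 1 = k + (d + 1) by ring, pow_add, mul_assoc] at heq
    have := mul_left_cancel₀ (pow_ne_zero k hg0) heq
    apply hw
    rw [this, map_mul, map_pow, h.apply_gen, pow_succ, mul_zero, zero_mul]
  exact le_antisymm (key hw' heq.symm) (key hw heq)

end Chart

end Fermat.Agent.Lib.helper3747
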