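import Mathlib

/-!
# Level-one input: zero sets of `E₄`, `E₆` and of the generic level-one forms

(helper380) Part A: every level-one modular form is an isobaric polynomial in `E₄`, `E₆`,
in the form of a scaling statement.
-/

open UpperHalfPlane ModularForm EisensteinSeries Complex
open scoped MatrixGroups Topology

namespace Fermat.Agent.Lib.helper380

/-- `Scales τ τ' μ`: the values of `E₄`, `E₆` at `τ'` are those at `τ` scaled by `μ^2`, `μ^3`. -/
def Scales (τ τ' : ℍ) (μ : ℂ) : Prop :=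
  E₄ τ' = μ ^ 2 * E₄ τ ∧ E₆ τ' = μ ^ 3 * E₆ τ

/-- The monomial `E₄^a E₆^b` as a modular form of weight `k = 4a + 6b`. -/
noncomputable def mono (a b : ℕ) (k : ℤ) (h : (a : ℤ) * 4 + (b : ℤ) * 6 = k) :
    ModularForm 𝒮ℒ k :=
  ModularForm.mcast h ((E₄.pow a).mul (E₆.pow b))

lemma mono_apply (a b : ℕ) (k : ℤ) (h : (a : ℤ) * 4 + (b : ℤ) * 6 = k) (z : ℍ) :
    mono a b k h z = E₄ z ^ a * E₆ z ^ b := by
  simp [mono, ModularForm.mcast_apply, ModularForm.coe_pow]

lemma mono_coeff_zero (a b : ℕ) (k : ℤ) (h : (a : ℤ) * 4 + (b : ℤ) * 6 = k) :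
    (qExpansion 1 (mono a b k h)).coeff 0 = 1 := by
  have h4 : (qExpansion 1 E₄).coeff 0 = 1 := E_qExpansion_coeff_zero _ ⟨2, rfl⟩
  have h6 : (qExpansion 1 E₆).coeff 0 = 1 := E_qExpansion_coeff_zero _ ⟨3, rfl⟩
  rw [mono, ModularForm.qExpansion_mcast,
    ModularForm.qExpansion_mul one_pos one_mem_strictPeriods_SL,
    ModularForm.qExpansion_pow one_pos one_mem_strictPeriods_SL,
    ModularForm.qExpansion_pow one_pos one_mem_strictPeriods_SL]
  simp only [PowerSeries.coeff_zero_eq_constantCoeff, map_mul, map_pow] at h4 h6 ⊢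
  simp [h4, h6]

lemma discriminant_scales {τ τ' : ℍ} {μ : ℂ} (h : Scales τ τ' μ) :
    ModularForm.discriminant τ' = μ ^ 6 * ModularForm.discriminant τ := by
  rw [discriminant_eq_E₄_cube_sub_E₆_sq, discriminant_eq_E₄_cube_sub_E₆_sq, h.1, h.2]
  ring

/-- Every level-one modular form of weight `2m` scales by `μ^m` along `Scales τ τ' μ`. -/
theorem scaling_apply {τ τ' : ℍ} {μ : ℂ} (h : Scales τ τ' μ) :
    ∀ (m : ℕ) (k : ℤ), k = 2 * (m : ℤ) → ∀ f : ModularForm 𝒮ℒ k, f τ' = μ ^ m * f τ := by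
  intro m
  induction m using Nat.strong_induction_on with
  | _ m ih =>
    intro k hk f
    rcases Nat.lt_or_ge m 2 with hm | hm
    · interval_cases m
      · -- weight 0: constants
        have hk' : k = 0 := by simpa using hk
        subst hk'
        obtain ⟨c, hc⟩ := ModularFormClass.levelOne_weight_zero_const f
        simp [hc]
      · -- weight 2: zero
        have hk' : k = 2 := by simpa using hk
        subst hk'
        have hf : f = 0 := rank_zero_iff_forall_zero.mp levelOne_weight_two_rank_zero f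
        simp [hf]
    · -- weight ≥ 4
      obtain ⟨a, b, hab⟩ : ∃ a b : ℕ, 2 * a + 3 * b = m := by
        rcases Nat.even_or_odd' m with ⟨c, rfl | rfl⟩
        · exact ⟨c, 0, by ring⟩
        · exact ⟨c - 1, 1, by omega⟩
      have hkab : (a : ℤ) * 4 + (b : ℤ) * 6 = k := by rw [hk, ← hab]; push_cast; ring
      obtain ⟨s, hs⟩ := sub_smul_isCuspForm f (mono a b k hkab) (mono_coeff_zero a b k hkab)
      have key : ∀ z : ℍ, f z = (qExpansion 1 f).coeff 0 * (E₄ z ^ a * E₆ z ^ b)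
          + ModularForm.discriminant z * CuspForm.discriminantEquiv s z := by
        intro z
        have h1 : s z = f z - (qExpansion 1 f).coeff 0 * mono a b k hkab z := by
          have := DFunLike.congr_fun hs z
          simpa using this
        rw [CuspForm.discriminantEquiv_apply, h1, mono_apply]
        field_simp [discriminant_ne_zero z]
        ring
      have ht' : ModularForm.discriminant τ' * CuspForm.discriminantEquiv s τ'
          = μ ^ m * (ModularForm.discriminant τ * CuspForm.discriminantEquiv s τ) := by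
        rcases Nat.lt_or_ge m 6 with hm6 | hm6
        · have hneg : k - 12 < 0 := by omega
          have := ModularFormClass.levelOne_neg_weight_eq_zero hneg (CuspForm.discriminantEquiv s)
          simp [this]
        · have := ih (m - 6) (by omega) (k - 12) (by omega) (CuspForm.discriminantEquiv s)
          rw [this, discriminant_scales h]
          have hm' : m = (m - 6) + 6 := by omega
          conv_rhs => rw [hm', pow_add]
          ring
      rw [key τ', key τ, ht', h.1, h.2, ← hab]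
      ring

/-! ## Part B: a lattice is determined by its Eisenstein sums -/

open PeriodPair in
lemma weierstrassPExcept_zero_eventuallyEq (L L' : PeriodPair)
    (h : ∀ n, 3 ≤ n → L.G n = L'.G n) :
    ℘[L - (0 : ℂ)] =ᶠ[𝓝 (0 : ℂ)] ℘[L' - (0 : ℂ)] := by
  have h1 := L.hasFPowerSeriesAt_weierstrassPExcept 0
  have h2 := L'.hasFPowerSeriesAt_weierstrassPExcept 0
  have hser : (FormalMultilinearSeries.ofScalars (𝕜 := ℂ) ℂ fun i : ℕ ↦
      if i = 0 then ℘[L - (0 : ℂ)] 0 else (i + 1) * L.sumInvPow 0 (i + 2)) =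
      (FormalMultilinearSeries.ofScalars (𝕜 := ℂ) ℂ fun i : ℕ ↦
      if i = 0 then ℘[L' - (0 : ℂ)] 0 else (i + 1) * L'.sumInvPow 0 (i + 2)) := by
    congr 1
    funext i
    by_cases hi : i = 0
    · simp [hi]
    · simp only [hi, if_false, sumInvPow_zero]
      rw [h (i + 2) (by omega)]
  rw [hser] at h1
  filter_upwards [h1.eventually_hasSum_sub, h2.eventually_hasSum_sub] with z hz1 hz2
  exact hz1.unique hz2

open PeriodPair in
lemma lattice_le_of_G_eq (L L' : PeriodPair)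
    (h : ∀ n, 3 ≤ n → L.G n = L'.G n) : (L.lattice : Set ℂ) ⊆ L'.lattice := by
  intro l hl
  by_contra hl'
  have hl0 : l ≠ 0 := by
    rintro rfl
    exact hl' (zero_mem _)
  -- the open connected set on which both functions are analytic
  set U : Set ℂ := ((L.lattice : Set ℂ) ∪ L'.lattice)ᶜ ∪ {0} with hU
  have hUc : Uᶜ ⊆ (L.lattice : Set ℂ) ∪ L'.lattice := by
    intro z hz
    by_contra hz'
    exact hz (Or.inl hz')
  have hcount : ((L.lattice : Set ℂ) ∪ L'.lattice).Countable :=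
    Set.Countable.union (countable_of_Lindelof_of_discrete (X := L.lattice))
      (countable_of_Lindelof_of_discrete (X := L'.lattice))
  have hUconn : IsPreconnected U := by
    have : U = (((L.lattice : Set ℂ) ∪ L'.lattice) \ {0})ᶜ := by
      ext z
      simp only [hU, Set.mem_union, Set.mem_compl_iff, Set.mem_singleton_iff, Set.mem_sdiff]
      tauto
    rw [this]
    exact (Set.Countable.isConnected_compl_of_one_lt_rank (by simp)
      (hcount.mono Set.sdiff_subset)).isPreconnected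
  have hUL : U ⊆ ((L.lattice : Set ℂ) \ {0})ᶜ := by
    intro z hz hz'
    rcases hz with hz | hz
    · exact hz (Or.inl hz'.1)
    · exact hz'.2 hz
  have hUL' : U ⊆ ((L'.lattice : Set ℂ) \ {0})ᶜ := by
    intro z hz hz'
    rcases hz with hz | hz
    · exact hz (Or.inr hz'.1)
    · exact hz'.2 hz
  have heq : Set.EqOn ℘[L - (0 : ℂ)] ℘[L' - (0 : ℂ)] U :=
    ((L.analyticOnNhd_weierstrassPExcept 0).mono hUL).eqOn_of_preconnected_of_eventuallyEq
      ((L'.analyticOnNhd_weierstrassPExcept 0).mono hUL') hUconn (Or.inr rfl)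
      (weierstrassPExcept_zero_eventuallyEq L L' h)
  -- near `l`, `℘[L]` agrees with an analytic function
  have hP : ∀ z, ℘[L] z = ℘[L - (0 : ℂ)] z + (1 / z ^ 2 - 1 / (0 : ℂ) ^ 2) := by
    intro z
    have := L.weierstrassPExcept_add (0 : L.lattice) z
    simpa using this.symm
  have han : AnalyticAt ℂ (fun z ↦ ℘[L' - (0 : ℂ)] z + (1 / z ^ 2 - 1 / (0 : ℂ) ^ 2)) l := by
    have h1 : AnalyticAt ℂ ℘[L' - (0 : ℂ)] l :=
      L'.analyticOnNhd_weierstrassPExcept 0 l (fun hh ↦ hl' hh.1)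
    have h2 : AnalyticAt ℂ (fun z : ℂ ↦ 1 / z ^ 2 - 1 / (0 : ℂ) ^ 2) l := by
      fun_prop (disch := simpa using hl0)
    exact h1.add h2
  have hnhds : ∀ᶠ z in 𝓝[≠] l, z ∈ U := by
    have hopen : IsOpen ((L.lattice : Set ℂ) \ {l} ∪ L'.lattice)ᶜ :=
      ((L.isClosed_of_subset_lattice Set.sdiff_subset).union L'.isClosed_lattice).isOpen_compl
    have hmem : l ∈ ((L.lattice : Set ℂ) \ {l} ∪ L'.lattice)ᶜ := by
      rintro (hh | hh)
      · exact hh.2 rfl
      · exact hl' hh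
    filter_upwards [nhdsWithin_le_nhds (hopen.mem_nhds hmem), self_mem_nhdsWithin] with z hz hzl
    left
    rintro (hh | hh)
    · exact hz (Or.inl ⟨hh, hzl⟩)
    · exact hz (Or.inr hh)
  have hcongr : ℘[L] =ᶠ[𝓝[≠] l] (fun z ↦ ℘[L' - (0 : ℂ)] z + (1 / z ^ 2 - 1 / (0 : ℂ) ^ 2)) := by
    filter_upwards [hnhds] with z hz
    rw [hP z, heq hz]
  have hord := L.order_weierstrassP l hl
  rw [meromorphicOrderAt_congr hcongr] at hord
  have := han.meromorphicOrderAt_nonneg
  rw [hord] at this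
  exact absurd this (by decide)

open PeriodPair in
/-- A lattice is determined by its Eisenstein sums `G n`, `n ≥ 3`. -/
theorem lattice_eq_of_G_eq (L L' : PeriodPair)
    (h : ∀ n, 3 ≤ n → L.G n = L'.G n) : L.lattice = L'.lattice :=
  SetLike.coe_injective <| Set.Subset.antisymm (lattice_le_of_G_eq L L' h)
    (lattice_le_of_G_eq L' L fun n hn ↦ (h n hn).symm)

/-! ### Period pairs attached to points of the upper half plane -/

/-- The period pair `(lam * τ, lam)` for `lam ≠ 0`. -/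
noncomputable def ppOf (lam : ℂ) (hlam : lam ≠ 0) (τ : ℍ) : PeriodPair where
  ω₁ := lam * τ
  ω₂ := lam
  indep := by
    rw [LinearIndependent.pair_iff]
    intro s t hst
    have h1 : lam * ((s : ℂ) * τ + t) = 0 := by
      simp only [Complex.real_smul] at hst
      linear_combination hst
    have h2 : (s : ℂ) * τ + t = 0 := by
      rcases mul_eq_zero.mp h1 with h | h
      · exact absurd h hlam
      · exact h
    have h3 := congrArg Complex.im h2
    simp only [Complex.add_im, Complex.mul_im, Complex.ofReal_re, Complex.ofReal_im,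
      zero_mul, add_zero, Complex.zero_im, UpperHalfPlane.coe_im] at h3
    have hs : s = 0 := by
      rcases mul_eq_zero.mp h3 with h | h
      · exact h
      · exact absurd h τ.im_ne_zero
    subst hs
    have h4 := congrArg Complex.re h2
    simp at h4
    exact ⟨rfl, h4⟩

@[simp] lemma ppOf_ω₁ (lam : ℂ) (hlam : lam ≠ 0) (τ : ℍ) : (ppOf lam hlam τ).ω₁ = lam * τ := rfl
@[simp] lemma ppOf_ω₂ (lam : ℂ) (hlam : lam ≠ 0) (τ : ℍ) : (ppOf lam hlam τ).ω₂ = lam := rfl

/-- The Eisenstein sum `G n` of the lattice `lam • (ℤ τ + ℤ)` in terms of the Eisenstein series. -/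
lemma G_ppOf (lam : ℂ) (hlam : lam ≠ 0) (τ : ℍ) {n : ℕ} (hn : 3 ≤ n) :
    (ppOf lam hlam τ).G n = (lam ^ n)⁻¹ * (2 * riemannZeta n * E hn τ) := by
  set L := ppOf lam hlam τ with hL
  have h1 : L.G n = ∑' x : ℤ × ℤ, (((x.1 : ℂ) * (lam * τ) + x.2 * lam) ^ n)⁻¹ := by
    rw [PeriodPair.G, ← L.latticeEquivProd.symm.toEquiv.tsum_eq]
    refine tsum_congr fun x ↦ ?_
    simp [PeriodPair.latticeEquiv_symm_apply, hL]
  have h2 : ∀ x : ℤ × ℤ, (((x.1 : ℂ) * (lam * τ) + x.2 * lam) ^ n)⁻¹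
      = (lam ^ n)⁻¹ * eisSummand n ![x.1, x.2] τ := by
    intro x
    simp only [eisSummand, Matrix.cons_val_zero, Matrix.cons_val_one, zpow_neg, zpow_natCast]
    rw [← mul_inv, ← mul_pow]
    ring_nf
  rw [h1, tsum_congr h2, tsum_mul_left]
  congr 1
  have h3 : ∑' x : ℤ × ℤ, eisSummand n ![x.1, x.2] τ = ∑' v : Fin 2 → ℤ, eisSummand n v τ := by
    rw [← (finTwoArrowEquiv ℤ).symm.tsum_eq]
    rfl
  rw [h3, tsum_eisSummand_eq_riemannZeta_mul_eisensteinSeries hn τ]
  have h4 : E hn τ = (1 / 2 : ℂ) * eisensteinSeries (N := 1) 0 n τ := by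
    rw [show E hn τ = (1 / 2 : ℂ) • eisensteinSeriesSIF (N := 1) 0 n τ from rfl,
      eisensteinSeriesSIF_apply 0 n τ, smul_eq_mul]
  rw [h4]
  ring

/-- Two points of `ℍ` whose scaled lattices coincide are `SL(2,ℤ)`-equivalent. -/
lemma exists_smul_eq_of_lattice_eq {τ τ' : ℍ} {lam : ℂ} (hlam : lam ≠ 0)
    (hL : (ppOf 1 one_ne_zero τ').lattice = (ppOf lam hlam τ).lattice) :
    ∃ γ : SL(2, ℤ), γ • τ = τ' := by
  -- `τ'` and `1` are in the lattice of `(lam τ, lam)`
  have hτ' : (τ' : ℂ) ∈ (ppOf lam hlam τ).lattice := by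
    rw [← hL]
    simpa using (ppOf 1 one_ne_zero τ').ω₁_mem_lattice
  have h1 : (1 : ℂ) ∈ (ppOf lam hlam τ).lattice := by
    rw [← hL]
    simpa using (ppOf 1 one_ne_zero τ').ω₂_mem_lattice
  have hlτ : lam * (τ : ℂ) ∈ (ppOf 1 one_ne_zero τ').lattice := by
    rw [hL]
    simpa using (ppOf lam hlam τ).ω₁_mem_lattice
  have hl : lam ∈ (ppOf 1 one_ne_zero τ').lattice := by
    rw [hL]
    simpa using (ppOf lam hlam τ).ω₂_mem_lattice
  obtain ⟨a, b, hab⟩ := PeriodPair.mem_lattice.mp hτ'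
  obtain ⟨c, d, hcd⟩ := PeriodPair.mem_lattice.mp h1
  obtain ⟨p, q, hpq⟩ := PeriodPair.mem_lattice.mp hlτ
  obtain ⟨r, s, hrs⟩ := PeriodPair.mem_lattice.mp hl
  simp only [ppOf_ω₁, ppOf_ω₂, one_mul, mul_one] at hab hcd hpq hrs
  -- the two integer matrices are inverse to each other
  have key : ∀ x y : ℤ, (x : ℂ) * τ' + y = 0 → x = 0 ∧ y = 0 := by
    intro x y hxy
    have h3 := congrArg Complex.im hxy
    simp only [Complex.add_im, Complex.mul_im, Complex.intCast_re, Complex.intCast_im,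
      zero_mul, add_zero, Complex.zero_im, UpperHalfPlane.coe_im] at h3
    have hx : x = 0 := by
      rcases mul_eq_zero.mp h3 with h | h
      · exact_mod_cast h
      · exact absurd h τ'.im_ne_zero
    subst hx
    have h4 := congrArg Complex.re hxy
    simp at h4
    exact ⟨rfl, by exact_mod_cast h4⟩
  have e1 : ((a * p + b * r - 1 : ℤ) : ℂ) * τ' + ((a * q + b * s : ℤ) : ℂ) = 0 := by
    push_cast
    linear_combination (a : ℂ) * hpq + (b : ℂ) * hrs + hab
  have e2 : ((c * p + d * r : ℤ) : ℂ) * τ' + ((c * q + d * s - 1 : ℤ) : ℂ) = 0 := by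
    push_cast
    linear_combination (c : ℂ) * hpq + (d : ℂ) * hrs + hcd
  obtain ⟨f1, f2⟩ := key _ _ e1
  obtain ⟨f3, f4⟩ := key _ _ e2
  have hdet : (a * d - b * c) * (p * s - q * r) = 1 := by
    have : (a * d - b * c) * (p * s - q * r)
        = (a * p + b * r) * (c * q + d * s) - (a * q + b * s) * (c * p + d * r) := by ring
    rw [this, f2, f3]
    have f1' : a * p + b * r = 1 := by linarith
    have f4' : c * q + d * s = 1 := by linarith
    rw [f1', f4']
    ring
  -- the denominator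
  have hden : (c : ℂ) * τ + d ≠ 0 := by
    intro h0
    have : (1 : ℂ) = lam * ((c : ℂ) * τ + d) := by rw [← hcd]; ring
    rw [h0, mul_zero] at this
    exact one_ne_zero this
  have hτ'eq : (τ' : ℂ) * ((c : ℂ) * τ + d) = (a : ℂ) * τ + b := by
    have h5 : lam * ((c : ℂ) * τ + d) = 1 := by rw [← hcd]; ring
    have h6 : (τ' : ℂ) = lam * ((a : ℂ) * τ + b) := by rw [← hab]; ring
    have hlam' : lam = ((c : ℂ) * τ + d)⁻¹ := eq_inv_of_mul_eq_one_left h5
    rw [h6, hlam']
    field_simp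
  -- sign of the determinant
  have him : τ'.im * Complex.normSq ((c : ℂ) * τ + d) = ((a * d - b * c : ℤ) : ℝ) * τ.im := by
    have h7 := congrArg (fun w : ℂ ↦ (w * (starRingEnd ℂ) ((c : ℂ) * τ + d)).im) hτ'eq
    beta_reduce at h7
    rw [mul_assoc, Complex.mul_conj] at h7
    have h8 : ((τ' : ℂ) * (Complex.normSq ((c : ℂ) * τ + d) : ℂ)).im
        = τ'.im * Complex.normSq ((c : ℂ) * τ + d) := by
      simp [Complex.mul_im]
    have h9 : ((((a : ℂ) * τ + b)) * (starRingEnd ℂ) ((c : ℂ) * τ + d)).im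
        = ((a * d - b * c : ℤ) : ℝ) * τ.im := by
      simp [Complex.mul_im, Complex.mul_re]
      ring
    rw [← h8, h7, h9]
  have hpos : (0 : ℝ) < ((a * d - b * c : ℤ) : ℝ) := by
    have h8 : 0 < τ'.im * Complex.normSq ((c : ℂ) * τ + d) :=
      mul_pos τ'.im_pos (Complex.normSq_pos.mpr hden)
    rw [him] at h8
    exact (pos_iff_pos_of_mul_pos h8).mpr τ.im_pos
  have hdet1 : a * d - b * c = 1 := by
    have hpos' : 0 < a * d - b * c := by exact_mod_cast hpos
    rcases Int.eq_one_or_neg_one_of_mul_eq_one hdet with h | h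
    · exact h
    · omega
  let γ : SL(2, ℤ) := ⟨!![a, b; c, d], by rw [Matrix.det_fin_two_of]; exact hdet1⟩
  refine ⟨γ, ?_⟩
  apply UpperHalfPlane.ext
  rw [UpperHalfPlane.coe_specialLinearGroup_apply]
  have h00 : γ 0 0 = a := rfl
  have h01 : γ 0 1 = b := rfl
  have h10 : γ 1 0 = c := rfl
  have h11 : γ 1 1 = d := rfl
  rw [h00, h01, h10, h11, div_eq_iff]
  · simpa using hτ'eq.symm
  · simpa using hden

/-- **Lattice rigidity**: if `E₄`, `E₆` at `τ'` are the `μ²`, `μ³`-scalings of their values at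
`τ` (`μ ≠ 0`), then `τ'` is in the `SL(2,ℤ)`-orbit of `τ`. -/
theorem exists_smul_eq_of_scales {τ τ' : ℍ} {μ : ℂ} (hμ : μ ≠ 0) (h : Scales τ τ' μ) :
    ∃ γ : SL(2, ℤ), γ • τ = τ' := by
  obtain ⟨lam, hlam2⟩ := IsAlgClosed.exists_pow_nat_eq μ⁻¹ (n := 2) (by norm_num)
  have hlam : lam ≠ 0 := by
    rintro rfl
    simp at hlam2
    exact hμ hlam2.symm
  refine exists_smul_eq_of_lattice_eq hlam (lattice_eq_of_G_eq _ _ fun n hn ↦ ?_)
  rcases Nat.even_or_odd n with hev | hodd
  · obtain ⟨m, rfl⟩ := hev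
    rw [G_ppOf 1 one_ne_zero τ' hn, G_ppOf lam hlam τ hn]
    have hsc := scaling_apply h m ((m + m : ℕ) : ℤ) (by push_cast; ring) (E hn)
    rw [hsc]
    have hl : (lam ^ (m + m))⁻¹ = μ ^ m := by
      rw [← two_mul, pow_mul, hlam2, inv_pow, inv_inv]
    rw [hl]
    simp
    ring
  · rw [PeriodPair.G_eq_zero_of_odd _ n hodd, PeriodPair.G_eq_zero_of_odd _ n hodd]

/-! ## Part C: zero sets of `E₄`, `E₆` and of the generic level-one forms -/

/-- Transformation law of a level-one modular form under `SL(2,ℤ)`. -/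
lemma levelOne_smul {k : ℤ} (f : ModularForm 𝒮ℒ k) (g : SL(2, ℤ)) (z : ℍ) :
    f (g • z) = (((g 1 0 : ℤ) : ℂ) * z + ((g 1 1 : ℤ) : ℂ)) ^ k * f z := by
  have := SlashInvariantForm.slash_action_eqn' (Γ := 𝒮ℒ) f
    (γ := Matrix.SpecialLinearGroup.mapGL ℝ g) (MonoidHom.mem_range.mpr ⟨g, rfl⟩) z
  have h2 : (Matrix.SpecialLinearGroup.mapGL ℝ g) • z = g • z := rfl
  rw [h2] at this
  rw [this]
  simp

/-- `E₆` vanishes at `i`. -/
lemma E₆_I : E₆ UpperHalfPlane.I = 0 := by
  have hS : ModularGroup.S • UpperHalfPlane.I = UpperHalfPlane.I := by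
    rw [UpperHalfPlane.modular_S_smul, UpperHalfPlane.ext_iff]
    simp
  have h := levelOne_smul E₆ ModularGroup.S UpperHalfPlane.I
  rw [hS] at h
  have h2 : (((ModularGroup.S 1 0 : ℤ) : ℂ) * (UpperHalfPlane.I : ℂ)
      + ((ModularGroup.S 1 1 : ℤ) : ℂ)) ^ (6 : ℤ) = -1 := by
    simp [ModularGroup.S]
  rw [h2] at h
  have : (2 : ℂ) * E₆ UpperHalfPlane.I = 0 := by linear_combination h
  simpa using this

/-- The elliptic point `ρ = (-1 + √3 i)/2` of order 3. -/
noncomputable def ellRho : ℍ := ⟨⟨-1 / 2, Real.sqrt 3 / 2⟩, by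
  show (0 : ℝ) < Real.sqrt 3 / 2
  positivity⟩

lemma ellRho_sq_add : ((ellRho : ℍ) : ℂ) ^ 2 + (ellRho : ℂ) + 1 = 0 := by
  have h3 : Real.sqrt 3 * Real.sqrt 3 = 3 := Real.mul_self_sqrt (by norm_num)
  apply Complex.ext
  · simp [ellRho, pow_two, Complex.mul_re]
    nlinarith [h3]
  · simp [ellRho, pow_two, Complex.mul_im]
    ring

lemma ST_smul_ellRho : (ModularGroup.S * ModularGroup.T) • ellRho = ellRho := by
  apply UpperHalfPlane.ext
  rw [UpperHalfPlane.coe_specialLinearGroup_apply]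
  have h00 : (ModularGroup.S * ModularGroup.T) 0 0 = 0 := by decide
  have h01 : (ModularGroup.S * ModularGroup.T) 0 1 = -1 := by decide
  have h10 : (ModularGroup.S * ModularGroup.T) 1 0 = 1 := by decide
  have h11 : (ModularGroup.S * ModularGroup.T) 1 1 = 1 := by decide
  rw [h00, h01, h10, h11]
  have hne : ((ellRho : ℍ) : ℂ) + 1 ≠ 0 := by
    intro h
    have := congrArg Complex.im h
    simp [ellRho] at this
  have hw := ellRho_sq_add
  simp only [algebraMap_int_eq, Int.coe_castRingHom, Int.cast_zero, Complex.ofReal_zero,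
    zero_mul, Int.cast_neg, Int.cast_one, Complex.ofReal_neg, Complex.ofReal_one, zero_add,
    one_mul]
  rw [div_eq_iff hne]
  linear_combination (-1 : ℂ) * hw

/-- `E₄` vanishes at `ρ`. -/
lemma E₄_ellRho : E₄ ellRho = 0 := by
  have h := levelOne_smul E₄ (ModularGroup.S * ModularGroup.T) ellRho
  rw [ST_smul_ellRho] at h
  have h10 : (ModularGroup.S * ModularGroup.T) 1 0 = 1 := by decide
  have h11 : (ModularGroup.S * ModularGroup.T) 1 1 = 1 := by decide
  rw [h10, h11] at h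
  have hw := ellRho_sq_add
  have h4 : (((1 : ℤ) : ℂ) * (ellRho : ℂ) + ((1 : ℤ) : ℂ)) ^ (4 : ℤ) = (ellRho : ℂ) ^ 2 := by
    have : (((1 : ℤ) : ℂ) * (ellRho : ℂ) + ((1 : ℤ) : ℂ)) ^ (4 : ℤ)
        = ((ellRho : ℂ) + 1) ^ 4 := by
      norm_cast
      simp
    rw [this]
    linear_combination ((ellRho : ℂ) ^ 2 + 3 * (ellRho : ℂ) + 1) * hw
  rw [h4] at h
  have hne : (1 : ℂ) - (ellRho : ℂ) ^ 2 ≠ 0 := by
    have : (1 : ℂ) - (ellRho : ℂ) ^ 2 = 2 + (ellRho : ℂ) := by linear_combination (-1 : ℂ) * hw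
    rw [this]
    intro h0
    have := congrArg Complex.im h0
    simp [ellRho] at this
  have : (1 - (ellRho : ℂ) ^ 2) * E₄ ellRho = 0 := by linear_combination h
  rcases mul_eq_zero.mp this with h0 | h0
  · exact absurd h0 hne
  · exact h0

lemma E₄_ne_zero_of_E₆_eq_zero {t : ℍ} (h : E₆ t = 0) : E₄ t ≠ 0 := by
  intro h4
  have := discriminant_ne_zero t
  rw [discriminant_eq_E₄_cube_sub_E₆_sq, h, h4] at this
  simp at this

lemma E₆_ne_zero_of_E₄_eq_zero {t : ℍ} (h : E₄ t = 0) : E₆ t ≠ 0 := by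
  intro h6
  have := discriminant_ne_zero t
  rw [discriminant_eq_E₄_cube_sub_E₆_sq, h, h6] at this
  simp at this

/-- The zero set of `E₆` is the `SL(2,ℤ)`-orbit of `i`. -/
theorem exists_smul_I_of_E₆_eq_zero {t : ℍ} (h : E₆ t = 0) :
    ∃ γ : SL(2, ℤ), γ • UpperHalfPlane.I = t := by
  have h4 := E₄_ne_zero_of_E₆_eq_zero h
  have h4I := E₄_ne_zero_of_E₆_eq_zero E₆_I
  obtain ⟨μ, hμ⟩ := IsAlgClosed.exists_pow_nat_eq (E₄ t / E₄ UpperHalfPlane.I) (n := 2)
    (by norm_num)
  have hμ0 : μ ≠ 0 := by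
    intro h0
    rw [h0] at hμ
    have : E₄ t / E₄ UpperHalfPlane.I = 0 := by rw [← hμ]; ring
    exact (div_ne_zero h4 h4I) this
  refine exists_smul_eq_of_scales hμ0 ⟨?_, ?_⟩
  · rw [hμ]; field_simp
  · rw [h, E₆_I]; simp

/-- The zero set of `E₄` is the `SL(2,ℤ)`-orbit of `ρ`. -/
theorem exists_smul_ellRho_of_E₄_eq_zero {t : ℍ} (h : E₄ t = 0) :
    ∃ γ : SL(2, ℤ), γ • ellRho = t := by
  have h6 := E₆_ne_zero_of_E₄_eq_zero h
  have h6ρ := E₆_ne_zero_of_E₄_eq_zero E₄_ellRho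
  obtain ⟨μ, hμ⟩ := IsAlgClosed.exists_pow_nat_eq (E₆ t / E₆ ellRho) (n := 3) (by norm_num)
  have hμ0 : μ ≠ 0 := by
    intro h0
    rw [h0] at hμ
    have : E₆ t / E₆ ellRho = 0 := by rw [← hμ]; ring
    exact (div_ne_zero h6 h6ρ) this
  refine exists_smul_eq_of_scales hμ0 ⟨?_, ?_⟩
  · rw [h, E₄_ellRho]; simp
  · rw [hμ]; field_simp

/-- **Injectivity of `j`** (generic form): if `E₄ t0, E₆ t0 ≠ 0` and `t` has the same
`j`-invariant as `t0`, then `t` is in the `SL(2,ℤ)`-orbit of `t0`. -/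
theorem exists_smul_of_generic {t0 t : ℍ} (h4 : E₄ t0 ≠ 0) (h6 : E₆ t0 ≠ 0)
    (h : E₄ t0 ^ 3 * E₆ t ^ 2 = E₆ t0 ^ 2 * E₄ t ^ 3) : ∃ γ : SL(2, ℤ), γ • t0 = t := by
  have h4t : E₄ t ≠ 0 := by
    intro h0
    have h6t := E₆_ne_zero_of_E₄_eq_zero h0
    rw [h0] at h
    simp at h
    rcases h with h | h
    · exact h4 h
    · exact h6t h
  have h6t : E₆ t ≠ 0 := by
    intro h0
    rw [h0] at h
    simp at h
    rcases h with h | h
    · exact h6 h
    · exact h4t h
  refine exists_smul_eq_of_scales (μ := (E₆ t / E₆ t0) / (E₄ t / E₄ t0)) (div_ne_zero (div_ne_zero h6t h6) (div_ne_zero h4t h4)) ⟨?_, ?_⟩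
  · field_simp
    linear_combination (-1 : ℂ) * h
  · field_simp
    linear_combination (-1 : ℂ) * h

end Fermat.Agent.Lib.helper380
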