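/-
helper3810 — Lib brick (Mathlib only, spec-independent).

FINITE EXTENSIONS OF A COMPLETE DISCRETE VALUATION RING.

Let `O` be a complete DVR (`IsAdicComplete (maximalIdeal O) O`) of characteristic zero with
finite residue field, `K` its fraction field and `L` a finite field extension of `K`.
Then `O₂ := integralClosure O L` is again a complete DVR of characteristic zero with finite
residue field, it is finite over `O`, `algebraMap O O₂` is an injective local homomorphism and
`L` is the fraction field of `O₂`.

This is exactly the existential prefix
  `∃ (O'' : Type) (_ : CommRing O'') (_ : IsDomain O'') (_ : IsDiscreteValuationRing O'')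
     (_ : IsAdicComplete (maximalIdeal O'') O'') (_ : Finite (ResidueField O'')) (_ : CharZero O'')
     (_ : Algebra O' O'') (_ : Module.Finite O' O'') (_ : IsLocalHom (algebraMap O' O'')),
     Function.Injective (algebraMap O' O'') ∧ …`
of the frozen statements S30, S35 and S36 (coefficients in a finite extension), see
`exists_finiteExt_dvr`.

Ingredients proved here (all general, reusable):
* `isPrecomplete_of_finite`: a finite module over an `I`-adically precomplete ring is
  `I`-adically precomplete;
* `isPrecomplete_of_pow_le`: adic precompleteness only depends on the ideal up to powers;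
* `exists_pos_pow_isIdempotentElem`: idempotent powers in finite monoids;
* `isLocalRing_of_isAdicComplete_of_finite_quotient`: a domain which is `I`-adically complete
  with finite `B ⧸ I` is local (Hensel lifting of idempotents).
-/
import Mathlib

set_option autoImplicit false

namespace Fermat.Agent.Lib.helper3810

open IsLocalRing

set_option linter.unusedSectionVars false
set_option linter.style.haveILetI false

/-! ### Precompleteness of finite modules -/

section Precomplete

variable {R : Type*} [CommRing R] (I : Ideal R) (M : Type*) [AddCommGroup M] [Module R M]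

/-- A finite module over a ring that is `I`-adically precomplete is `I`-adically precomplete. -/
theorem isPrecomplete_of_finite [IsPrecomplete I R] [Module.Finite R M] : IsPrecomplete I M := by
  rw [← AdicCompletion.of_surjective_iff]
  intro y
  obtain ⟨z, rfl⟩ := AdicCompletion.ofTensorProduct_surjective_of_finite I M y
  induction z using TensorProduct.induction_on with
  | zero => exact ⟨0, by simp⟩
  | tmul r x =>
    obtain ⟨s, rfl⟩ := AdicCompletion.of_surjective I R r
    refine ⟨s • x, ?_⟩
    rw [AdicCompletion.ofTensorProduct_tmul]
    ext n
    simp only [map_smul, AdicCompletion.val_smul_apply, AdicCompletion.of_apply]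
    rfl
  | add a b ha hb =>
    obtain ⟨a', ha'⟩ := ha
    obtain ⟨b', hb'⟩ := hb
    exact ⟨a' + b', by rw [map_add, map_add, ha', hb']⟩

/-- A finite module over a Noetherian ring `R` that is `I`-adically complete is `I`-adically
complete, provided `I` lies in the Jacobson radical (automatic, see
`isAdicComplete_of_finite`). -/
theorem isAdicComplete_of_finite [IsNoetherianRing R] [IsAdicComplete I R] [Module.Finite R M] :
    IsAdicComplete I M := by
  haveI : IsHausdorff I M := IsHausdorff.of_le_jacobson I M (IsAdicComplete.le_jacobson_bot I)
  haveI : IsPrecomplete I M := isPrecomplete_of_finite I M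
  exact {}

end Precomplete

/-! ### Changing the ideal -/

section ChangeIdeal

variable {R : Type*} [CommRing R] {I J : Ideal R} (M : Type*) [AddCommGroup M] [Module R M]

/-- If `J ^ e ≤ I ≤ J` (with `0 < e`) then `I`-adic precompleteness implies `J`-adic
precompleteness. -/
theorem isPrecomplete_of_pow_le (e : ℕ) (he : 0 < e) (h1 : J ^ e ≤ I) (h2 : I ≤ J)
    [IsPrecomplete I M] : IsPrecomplete J M := by
  refine ⟨fun f hf => ?_⟩
  have hg : ∀ {m n : ℕ}, m ≤ n →
      f (e * m) ≡ f (e * n) [SMOD (I ^ m • ⊤ : Submodule R M)] := by
    intro m n hmn
    have h3 := hf (Nat.mul_le_mul_left e hmn)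
    refine SModEq.mono ?_ h3
    rw [pow_mul]
    exact Submodule.smul_mono_left (Ideal.pow_right_mono h1 m)
  obtain ⟨L, hL⟩ := IsPrecomplete.prec ‹IsPrecomplete I M› (f := fun k => f (e * k)) hg
  refine ⟨L, fun n => ?_⟩
  have h3 : f n ≡ f (e * n) [SMOD (J ^ n • ⊤ : Submodule R M)] :=
    hf (Nat.le_mul_of_pos_left n he)
  have h4 : f (e * n) ≡ L [SMOD (J ^ n • ⊤ : Submodule R M)] :=
    SModEq.mono (Submodule.smul_mono_left (Ideal.pow_right_mono h2 n)) (hL n)
  exact h3.trans h4

end ChangeIdeal

/-! ### Locality from completeness -/

/-- In a finite monoid every element has a positive power that is idempotent. -/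
theorem exists_pos_pow_isIdempotentElem {C : Type*} [Monoid C] [Finite C] (x : C) :
    ∃ m : ℕ, 0 < m ∧ IsIdempotentElem (x ^ m) := by
  obtain ⟨i, j, hij, h⟩ := Finite.exists_ne_map_eq_of_infinite (fun n : ℕ => x ^ n)
  wlog hlt : i < j generalizing i j
  · exact this j i (Ne.symm hij) h.symm (lt_of_le_of_ne (not_lt.mp hlt) (Ne.symm hij))
  obtain ⟨d, rfl⟩ : ∃ d, j = i + d := ⟨j - i, by omega⟩
  have hd : 0 < d := by omega
  have step : ∀ n, i ≤ n → x ^ (n + d) = x ^ n := by
    intro n hn
    obtain ⟨k, rfl⟩ : ∃ k, n = k + i := ⟨n - i, by omega⟩
    rw [add_assoc, pow_add, ← h, ← pow_add]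
  have steps : ∀ k n, i ≤ n → x ^ (n + k * d) = x ^ n := by
    intro k
    induction k with
    | zero => intro n _; simp
    | succ k ih =>
      intro n hn
      rw [add_mul, one_mul, ← add_assoc, step _ (by omega), ih n hn]
  refine ⟨(i + 1) * d, Nat.mul_pos (Nat.succ_pos i) hd, ?_⟩
  have hle : i ≤ (i + 1) * d := by nlinarith
  rw [IsIdempotentElem, ← pow_add]
  exact steps (i + 1) _ hle

section Local

open Polynomial

/-- A domain that is `I`-adically complete with `B ⧸ I` finite is a local ring
(idempotents of `B ⧸ I` lift to `B` by Hensel, and a domain has only trivial idempotents). -/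
theorem isLocalRing_of_isAdicComplete_of_finite_quotient {B : Type*} [CommRing B] [IsDomain B]
    (I : Ideal B) [IsAdicComplete I B] [Finite (B ⧸ I)] : IsLocalRing B := by
  have hjac : I ≤ Ideal.jacobson ⊥ := IsAdicComplete.le_jacobson_bot I
  refine IsLocalRing.of_isUnit_or_isUnit_one_sub_self fun a => ?_
  obtain ⟨m, hm0, hm⟩ := exists_pos_pow_isIdempotentElem (Ideal.Quotient.mk I a)
  have hmI : a ^ m * a ^ m - a ^ m ∈ I := by
    rw [← Ideal.Quotient.eq_zero_iff_mem, map_sub, map_mul, map_pow, sub_eq_zero]
    exact hm
  have hmonic : (X ^ 2 - X : B[X]).Monic := by monicity!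
  have hev : eval (a ^ m) (X ^ 2 - X : B[X]) ∈ I := by
    simpa [pow_two] using hmI
  have hder : IsUnit (Ideal.Quotient.mk I (eval (a ^ m) (derivative (X ^ 2 - X : B[X])))) := by
    have h1 : eval (a ^ m) (derivative (X ^ 2 - X : B[X])) = 2 * a ^ m - 1 := by
      simp
      left; norm_num
    rw [h1]
    refine IsUnit.of_mul_eq_one (Ideal.Quotient.mk I (2 * a ^ m - 1)) ?_
    rw [← map_mul, ← map_one (Ideal.Quotient.mk I), Ideal.Quotient.eq]
    have : (2 * a ^ m - 1) * (2 * a ^ m - 1) - 1 = 4 * (a ^ m * a ^ m - a ^ m) := by ring
    rw [this]
    exact I.mul_mem_left _ hmI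
  obtain ⟨e, he, hea⟩ := HenselianRing.is_henselian (I := I) (X ^ 2 - X : B[X]) hmonic (a ^ m)
    hev hder
  have he' : e * (e - 1) = 0 := by
    have := he
    simp only [IsRoot, eval_sub, eval_pow, eval_X] at this
    rw [← this]; ring
  rcases mul_eq_zero.mp he' with h0 | h1
  · -- `a ^ m ∈ I`, so `1 - a` is a unit
    right
    have ham : a ^ m ∈ I := by
      have : a ^ m = -(e - a ^ m) := by rw [h0]; ring
      rw [this]; exact I.neg_mem hea
    have hu : IsUnit (1 - a ^ m) := by
      have := Ideal.mem_jacobson_bot.mp (hjac ham) (-1)
      have h2 : a ^ m * -1 + 1 = 1 - a ^ m := by ring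
      rwa [h2] at this
    rw [← mul_neg_geom_sum a m] at hu
    exact isUnit_of_mul_isUnit_left hu
  · -- `a ^ m ≡ 1`, so `a` is a unit
    left
    have ham : a ^ m - 1 ∈ I := by
      have : a ^ m - 1 = -(e - a ^ m) := by
        have : e = 1 := by linear_combination h1
        rw [this]; ring
      rw [this]; exact I.neg_mem hea
    have hu : IsUnit (a ^ m) := by
      have := Ideal.mem_jacobson_bot.mp (hjac ham) 1
      have h2 : (a ^ m - 1) * 1 + 1 = a ^ m := by ring
      rwa [h2] at this
    exact (isUnit_pow_iff (Nat.pos_iff_ne_zero.mp hm0)).mp hu

end Local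

/-! ### The integral closure of a complete DVR in a finite extension -/

section Main

variable (O : Type*) [CommRing O] [IsDomain O] [IsDiscreteValuationRing O]
  [IsAdicComplete (maximalIdeal O) O] [Finite (ResidueField O)] [CharZero O]
  (K : Type*) [Field K] [Algebra O K] [IsFractionRing O K]
  (L : Type*) [Field L] [Algebra K L] [FiniteDimensional K L] [Algebra O L] [IsScalarTower O K L]

include O K in
theorem finExt_charZero_field : CharZero L := by
  haveI : CharZero K := charZero_of_injective_algebraMap (IsFractionRing.injective O K)
  exact charZero_of_injective_algebraMap (algebraMap K L).injective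

include K in
theorem finExt_algebraMap_injective : Function.Injective (algebraMap O L) := by
  rw [IsScalarTower.algebraMap_eq O K L]
  exact (algebraMap K L).injective.comp (IsFractionRing.injective O K)

include K in
/-- `O → integralClosure O L` is injective. -/
theorem finExt_injective : Function.Injective (algebraMap O (integralClosure O L)) := by
  have h := finExt_algebraMap_injective O K L
  intro x y hxy
  apply h
  have := congrArg (algebraMap (integralClosure O L) L) hxy
  simpa [← IsScalarTower.algebraMap_apply] using this

include K in
theorem finExt_charZero : CharZero (integralClosure O L) :=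
  charZero_of_injective_algebraMap (finExt_injective O K L)

include K in
/-- The integral closure is a finite `O`-module. -/
theorem finExt_finite : Module.Finite O (integralClosure O L) := by
  haveI : CharZero K := charZero_of_injective_algebraMap (IsFractionRing.injective O K)
  exact IsIntegralClosure.finite O K L (integralClosure O L)

include K in
theorem finExt_isDedekindDomain : IsDedekindDomain (integralClosure O L) := by
  haveI : CharZero K := charZero_of_injective_algebraMap (IsFractionRing.injective O K)
  exact IsIntegralClosure.isDedekindDomain O K L (integralClosure O L)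

include K in
/-- `L` is the fraction field of the integral closure. -/
theorem finExt_isFractionRing : IsFractionRing (integralClosure O L) L :=
  integralClosure.isFractionRing_of_finite_extension K L

/-- The ideal of the integral closure generated by the maximal ideal of `O`. -/
noncomputable abbrev finExtIdeal : Ideal (integralClosure O L) :=
  (maximalIdeal O).map (algebraMap O (integralClosure O L))

include K in
theorem finExt_isAdicComplete_map : IsAdicComplete (finExtIdeal O L) (integralClosure O L) := by
  haveI := finExt_finite O K L
  haveI : IsAdicComplete (maximalIdeal O) (integralClosure O L) := isAdicComplete_of_finite _ _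
  exact (IsAdicComplete.map_algebraMap_iff (maximalIdeal O) (integralClosure O L)).mpr this

include K in
theorem finExt_finite_quotient : Finite (integralClosure O L ⧸ finExtIdeal O L) := by
  haveI := finExt_finite O K L
  haveI : Finite (O ⧸ maximalIdeal O) := inferInstanceAs (Finite (ResidueField O))
  haveI : Finite (integralClosure O L ⧸ (⊤ : Submodule O (integralClosure O L))) := by
    infer_instance
  have h1 : Finite (integralClosure O L ⧸
      (maximalIdeal O • (⊤ : Submodule O (integralClosure O L)))) :=
    Submodule.finite_quotient_smul (maximalIdeal O) (Module.Finite.fg_top)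
  have hle : maximalIdeal O • (⊤ : Submodule O (integralClosure O L)) ≤
      LinearMap.ker (Ideal.Quotient.mkₐ O (finExtIdeal O L)).toLinearMap := by
    rw [Ideal.smul_top_eq_map]
    intro x hx
    simpa [Ideal.Quotient.eq_zero_iff_mem] using hx
  exact Finite.of_surjective
    (Submodule.liftQ _ (Ideal.Quotient.mkₐ O (finExtIdeal O L)).toLinearMap hle)
    (fun y => by
      obtain ⟨x, rfl⟩ := Ideal.Quotient.mk_surjective y
      exact ⟨Submodule.Quotient.mk x, by simp⟩)

include K in
/-- The integral closure of a complete DVR in a finite extension is local. -/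
theorem finExt_isLocalRing : IsLocalRing (integralClosure O L) := by
  haveI := finExt_isAdicComplete_map O K L
  haveI := finExt_finite_quotient O K L
  exact isLocalRing_of_isAdicComplete_of_finite_quotient (finExtIdeal O L)

include K in
theorem finExtIdeal_ne_top : finExtIdeal O L ≠ ⊤ := by
  haveI := finExt_isLocalRing O K L
  haveI := finExt_isAdicComplete_map O K L
  intro h
  have hj := IsAdicComplete.le_jacobson_bot (finExtIdeal O L)
  rw [h] at hj
  have h1 : (1 : integralClosure O L) ∈ Ideal.jacobson (⊥ : Ideal (integralClosure O L)) :=
    hj trivial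
  have h2 := Ideal.mem_jacobson_bot.mp h1 (-1)
  simp at h2

include K in
theorem finExtIdeal_ne_bot : finExtIdeal O L ≠ ⊥ := by
  obtain ⟨ϖ, hϖ⟩ := IsDiscreteValuationRing.exists_irreducible O
  intro h
  have h1 : algebraMap O (integralClosure O L) ϖ ∈ finExtIdeal O L :=
    Ideal.mem_map_of_mem _ ((IsLocalRing.mem_maximalIdeal ϖ).mpr hϖ.not_isUnit)
  rw [h, Ideal.mem_bot] at h1
  exact hϖ.ne_zero (finExt_injective O K L (h1.trans (map_zero _).symm))

include K in
theorem finExt_not_isField : ¬ IsField (integralClosure O L) := by
  intro hF
  obtain ⟨ϖ, hϖ⟩ := IsDiscreteValuationRing.exists_irreducible O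
  have h0 : algebraMap O (integralClosure O L) ϖ ≠ 0 := fun h =>
    hϖ.ne_zero (finExt_injective O K L (h.trans (map_zero _).symm))
  obtain ⟨b, hb⟩ := hF.mul_inv_cancel h0
  have h1 : algebraMap O (integralClosure O L) ϖ ∈ finExtIdeal O L :=
    Ideal.mem_map_of_mem _ ((IsLocalRing.mem_maximalIdeal ϖ).mpr hϖ.not_isUnit)
  exact finExtIdeal_ne_top O K L
    ((Ideal.eq_top_iff_one _).mpr (hb ▸ Ideal.mul_mem_right b _ h1))

include K in
/-- The integral closure of a complete DVR in a finite extension is a DVR. -/
theorem finExt_isDiscreteValuationRing : IsDiscreteValuationRing (integralClosure O L) := by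
  haveI := finExt_isLocalRing O K L
  haveI := finExt_isDedekindDomain O K L
  have h := (IsDiscreteValuationRing.TFAE (integralClosure O L) (finExt_not_isField O K L)).out 0 2
  exact h.mpr ‹IsDedekindDomain (integralClosure O L)›

include K in
theorem finExtIdeal_le_maximalIdeal [IsLocalRing (integralClosure O L)] :
    finExtIdeal O L ≤ maximalIdeal (integralClosure O L) :=
  IsLocalRing.le_maximalIdeal (finExtIdeal_ne_top O K L)

include K in
theorem exists_maximalIdeal_pow_le_finExtIdeal [IsLocalRing (integralClosure O L)] :
    ∃ e : ℕ, 0 < e ∧ maximalIdeal (integralClosure O L) ^ e ≤ finExtIdeal O L := by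
  haveI := finExt_isDedekindDomain O K L
  have h := (tfae_of_isNoetherianRing_of_isLocalRing_of_isDomain (integralClosure O L)).out 2 6
  obtain ⟨n, hn⟩ := h.mp ‹IsDedekindDomain (integralClosure O L)› (finExtIdeal O L)
    (finExtIdeal_ne_bot O K L)
  refine ⟨n, Nat.pos_of_ne_zero fun h0 => finExtIdeal_ne_top O K L ?_, hn.ge⟩
  rw [hn, h0, pow_zero, Ideal.one_eq_top]

include K in
/-- The integral closure of a complete DVR in a finite extension is complete for its
maximal-adic topology. -/
theorem finExt_isAdicComplete [IsLocalRing (integralClosure O L)] :
    IsAdicComplete (maximalIdeal (integralClosure O L)) (integralClosure O L) := by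
  haveI := finExt_isDedekindDomain O K L
  haveI := finExt_isAdicComplete_map O K L
  obtain ⟨e, he, hle⟩ := exists_maximalIdeal_pow_le_finExtIdeal O K L
  haveI : IsPrecomplete (maximalIdeal (integralClosure O L)) (integralClosure O L) :=
    isPrecomplete_of_pow_le (I := finExtIdeal O L) (integralClosure O L) e he hle
      (finExtIdeal_le_maximalIdeal O K L)
  haveI : IsHausdorff (maximalIdeal (integralClosure O L)) (integralClosure O L) := inferInstance
  exact {}

include K in
/-- The residue field of the integral closure is finite. -/
theorem finExt_finite_residueField [IsLocalRing (integralClosure O L)] :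
    Finite (ResidueField (integralClosure O L)) := by
  haveI := finExt_finite_quotient O K L
  have hle := finExtIdeal_le_maximalIdeal O K L
  exact Finite.of_surjective (Ideal.Quotient.factor hle) (Ideal.Quotient.factor_surjective hle)

include K in
/-- `O → integralClosure O L` is a local homomorphism. -/
theorem finExt_isLocalHom : IsLocalHom (algebraMap O (integralClosure O L)) := by
  haveI := finExt_isLocalRing O K L
  refine ⟨fun x hx => ?_⟩
  by_contra hnu
  have h1 : algebraMap O (integralClosure O L) x ∈ finExtIdeal O L :=
    Ideal.mem_map_of_mem _ ((IsLocalRing.mem_maximalIdeal x).mpr hnu)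
  exact (IsLocalRing.mem_maximalIdeal _).mp (finExtIdeal_le_maximalIdeal O K L h1) hx

end Main

/-! ### The packaged statement (shape of the frozen S30 / S35 / S36 existential) -/

/-- **Finite extension of a complete DVR.** For a complete DVR `O` of characteristic zero with
finite residue field, fraction field `K`, and a finite extension `L / K`, there is a complete
DVR `O''` (namely `integralClosure O L`) of characteristic zero with finite residue field, finite
over `O` via an injective local homomorphism, with fraction field `L`. The first ten components
and the injectivity are verbatim the existential prefix of the frozen statements S30/S35/S36. -/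
theorem exists_finiteExt_dvr (O : Type) [CommRing O] [IsDomain O] [IsDiscreteValuationRing O]
    [IsAdicComplete (maximalIdeal O) O] [Finite (ResidueField O)] [CharZero O]
    (K : Type*) [Field K] [Algebra O K] [IsFractionRing O K]
    (L : Type) [Field L] [Algebra K L] [FiniteDimensional K L] [Algebra O L]
    [IsScalarTower O K L] :
    ∃ (O'' : Type) (_ : CommRing O'') (_ : IsDomain O'') (_ : IsDiscreteValuationRing O'')
      (_ : IsAdicComplete (IsLocalRing.maximalIdeal O'') O'')
      (_ : Finite (IsLocalRing.ResidueField O''))
      (_ : CharZero O'') (_ : Algebra O O'') (_ : Module.Finite O O'')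
      (_ : IsLocalHom (algebraMap O O'')),
      Function.Injective (algebraMap O O'') ∧
      ∃ (_ : Algebra O'' L) (_ : IsScalarTower O O'' L),
        IsFractionRing O'' L ∧ IsIntegralClosure O'' O L := by
  letI hdvr := finExt_isDiscreteValuationRing O K L
  exact ⟨integralClosure O L, inferInstance, inferInstance, hdvr,
    finExt_isAdicComplete O K L, finExt_finite_residueField O K L, finExt_charZero O K L,
    inferInstance, finExt_finite O K L, finExt_isLocalHom O K L, finExt_injective O K L,
    inferInstance, inferInstance, finExt_isFractionRing O K L, inferInstance⟩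

end Fermat.Agent.Lib.helper3810
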