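import Fermat.Agent.Lib.helper54_Frobenius
import Fermat.Prelude.Def_FLTPrelim_Ramification

/-!
# Places of `ℚ̄` over a prime: conjugacy, inertia, valuations of rationals (helper954)

Statement-agnostic plumbing for valuation subrings `A` of `ℚ̄ = AlgebraicClosure ℚ` lying over a
prime `ℓ` (`A.LiesOverPrime ℓ`), built on the `ℤ̄`-dictionary of `Lib/helper54_Frobenius`.

* `mem_inertiaSubgroupIn_of`, `apply_sub_mem_nonunits_of_mem_inertia`,
  `mem_decomposition_of_mem_inertia`: pointwise description of `A.inertiaSubgroupIn K`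
  (any field extension `L/K`).
* `conj_mem_inertiaSubgroupIn`: `σ ∈ I_A → τ σ τ⁻¹ ∈ I_{τ A}` (any `L/K`).
* `exists_smul_eq`: two valuation subrings of `ℚ̄` over the same prime are conjugate under
  `Gal(ℚ̄/ℚ)`.
* `inertia_le_of_normal`: if a normal subgroup of `Gal(ℚ̄/ℚ)` contains the inertia group of one
  place over `ℓ`, it contains the inertia groups of all places over `ℓ`.
* `exists_zpow_valuation_rat`, `valuation_rat_le_of_lt_one`: the valuation of a nonzero rational
  is an integral power of the valuation of `ℓ`.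
* `exists_rat_of_fixed`: an element of `ℚ̄` fixed by `Gal(ℚ̄/ℚ)` is rational.
-/

set_option autoImplicit false

namespace Fermat.Agent.Lib.helper954

open scoped Pointwise
open Fermat.Agent.Lib.helper54

/-! ### Inertia groups of a valuation subring, any extension `L/K` -/

section general

variable {K L : Type*} [Field K] [Field L] [Algebra K L]

theorem mem_decomposition_of_mem_inertia {A : ValuationSubring L} {σ : L ≃ₐ[K] L}
    (hσ : σ ∈ A.inertiaSubgroupIn K) : σ ∈ A.decompositionSubgroup K := by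
  obtain ⟨τ, -, rfl⟩ := hσ
  exact τ.2

/-- Inertia elements act trivially modulo the maximal ideal. -/
theorem apply_sub_mem_nonunits_of_mem_inertia {A : ValuationSubring L} {σ : L ≃ₐ[K] L}
    (hσ : σ ∈ A.inertiaSubgroupIn K) {x : L} (hx : x ∈ A) : σ x - x ∈ A.nonunits := by
  obtain ⟨τ, hτ, rfl⟩ := hσ
  have h1 : MulSemiringAction.toRingAut (A.decompositionSubgroup K)
      (IsLocalRing.ResidueField A) τ = 1 := hτ
  have h2 : τ • (IsLocalRing.residue A ⟨x, hx⟩) = IsLocalRing.residue A ⟨x, hx⟩ := by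
    have := congrArg (fun f => f (IsLocalRing.residue A ⟨x, hx⟩)) h1
    simpa using this
  rw [← IsLocalRing.ResidueField.residue_smul] at h2
  have h3 : (τ • (⟨x, hx⟩ : A)) - ⟨x, hx⟩ ∈ IsLocalRing.maximalIdeal A := by
    rw [← Ideal.Quotient.eq]; exact h2
  exact (ValuationSubring.coe_mem_nonunits_iff (A := A)).2 h3

/-- A decomposition-group element acting trivially modulo the maximal ideal is in the inertia
group. -/
theorem mem_inertiaSubgroupIn_of (A : ValuationSubring L) (σ : L ≃ₐ[K] L)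
    (hdec : σ ∈ A.decompositionSubgroup K) (h : ∀ x ∈ A, σ x - x ∈ A.nonunits) :
    σ ∈ A.inertiaSubgroupIn K := by
  refine ⟨⟨σ, hdec⟩, ?_, rfl⟩
  change MulSemiringAction.toRingAut (A.decompositionSubgroup K)
      (IsLocalRing.ResidueField A) ⟨σ, hdec⟩ = 1
  ext z
  obtain ⟨a, rfl⟩ := IsLocalRing.residue_surjective z
  change (⟨σ, hdec⟩ : A.decompositionSubgroup K) • IsLocalRing.residue A a
    = IsLocalRing.residue A a
  rw [← IsLocalRing.ResidueField.residue_smul]
  apply (Ideal.Quotient.eq).2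
  apply (ValuationSubring.coe_mem_nonunits_iff (A := A)).1
  exact h a.1 a.2

/-- The image of a nonunit of `A` under `τ` is a nonunit of `τ • A`. -/
theorem apply_mem_nonunits_smul (τ : L ≃ₐ[K] L) {A : ValuationSubring L} {z : L}
    (hz : z ∈ A.nonunits) : τ z ∈ (τ • A).nonunits := by
  rw [ValuationSubring.mem_nonunits_iff_or] at hz ⊢
  rcases hz with rfl | hz
  · left; exact map_zero τ
  · right
    intro hmem
    apply hz
    rw [← map_inv₀] at hmem
    exact (ValuationSubring.smul_mem_pointwise_smul_iff (g := τ)).1 hmem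

/-- Conjugation of inertia: `σ ∈ I_A → τ σ τ⁻¹ ∈ I_{τ • A}`. -/
theorem conj_mem_inertiaSubgroupIn {A : ValuationSubring L} {σ : L ≃ₐ[K] L}
    (hσ : σ ∈ A.inertiaSubgroupIn K) (τ : L ≃ₐ[K] L) :
    τ * σ * τ⁻¹ ∈ (τ • A).inertiaSubgroupIn K := by
  have hdec : σ • A = A := mem_decomposition_of_mem_inertia hσ
  apply mem_inertiaSubgroupIn_of
  · change (τ * σ * τ⁻¹) • (τ • A) = τ • A
    rw [mul_smul, mul_smul, inv_smul_smul, hdec]
  · intro y hy
    rw [ValuationSubring.mem_smul_pointwise_iff_exists] at hy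
    obtain ⟨x, hx, rfl⟩ := hy
    have h1 := apply_sub_mem_nonunits_of_mem_inertia hσ hx
    have h2 : (τ * σ * τ⁻¹) (τ • x) - τ • x = τ (σ x - x) := by
      have e1 : (τ * σ * τ⁻¹) (τ • x) = τ (σ x) := by
        change τ (σ (τ⁻¹ (τ x))) = τ (σ x)
        rw [show τ⁻¹ (τ x) = x from τ.symm_apply_apply x]
      rw [e1, map_sub]
      rfl
    rw [h2]
    exact apply_mem_nonunits_smul τ h1

end general

/-! ### Places of `ℚ̄` -/

attribute [local instance] isAlgebraic_Qbar isAlgClosure_Qbar isGalois_Qbar isIntegral_Qbar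

local notation "Qb" => AlgebraicClosure ℚ
local notation "GQ" => (AlgebraicClosure ℚ ≃ₐ[ℚ] AlgebraicClosure ℚ)
local notation "Zb" => integralClosure ℤ (AlgebraicClosure ℚ)

/-- The prime of `ℤ̄` cut out by a valuation subring over `ℓ` lies over `(ℓ)`. -/
theorem under_primeOfValuationSubring {ℓ : ℕ} (hℓ : ℓ.Prime) (A : ValuationSubring Qb)
    (hA : A.LiesOverPrime ℓ) :
    (primeOfValuationSubring A).under ℤ = Ideal.span {(ℓ : ℤ)} := by
  ext m
  rw [Ideal.mem_span_singleton, Ideal.under_def, Ideal.mem_comap]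
  have hcast : algebraMap ℤ Zb m = ((m : ℤ) : Zb) := by simp
  rw [hcast]
  constructor
  · intro hm
    by_contra hdvd
    exact intCast_not_mem_primeOfValuationSubring hℓ A hA m hdvd hm
  · rintro ⟨k, rfl⟩
    have h1 := (primeOfValuationSubring A).mul_mem_right ((k : ℤ) : Zb)
      (natCast_mem_primeOfValuationSubring A hA)
    have h2 : (((ℓ : ℤ) * k : ℤ) : Zb) = ((ℓ : ℕ) : Zb) * ((k : ℤ) : Zb) := by push_cast; rfl
    rw [h2]
    exact h1

/-- The primes of `ℤ̄` cut out by two valuation subrings over the same prime are conjugate. -/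
theorem exists_smul_prime_eq {ℓ : ℕ} (hℓ : ℓ.Prime) (A A' : ValuationSubring Qb)
    (hA : A.LiesOverPrime ℓ) (hA' : A'.LiesOverPrime ℓ) :
    ∃ τ : GQ, primeOfValuationSubring A' = τ • primeOfValuationSubring A := by
  let : TopologicalSpace Zb := ⊥
  have : DiscreteTopology Zb := ⟨rfl⟩
  have : ContinuousSMul GQ Zb := by
    rw [continuousSMul_iff_stabilizer_isOpen]
    intro z
    have : (MulAction.stabilizer GQ z : Set GQ) = MulAction.stabilizer GQ (z : Qb) := by
      ext g
      simp [Subtype.ext_iff]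
    rw [this]
    exact stabilizer_isOpen_of_isIntegral _
  have := isInvariant_Zbar
  exact Algebra.IsInvariant.exists_smul_of_under_eq_of_profinite (A := ℤ) (G := GQ)
    (primeOfValuationSubring A) (primeOfValuationSubring A')
    (by rw [under_primeOfValuationSubring hℓ A hA, under_primeOfValuationSubring hℓ A' hA'])

/-- If `τ` carries the prime of `A` to the prime of `A'`, it maps `A` into `A'`. -/
theorem map_mem_of_smul_prime_eq' {ℓ : ℕ} (hℓ : ℓ.Prime) (A A' : ValuationSubring Qb)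
    (hA : A.LiesOverPrime ℓ) (τ : GQ)
    (hτ : primeOfValuationSubring A' = τ • primeOfValuationSubring A) (x : Qb) (hx : x ∈ A) :
    τ x ∈ A' := by
  obtain ⟨a, b, hb, hab⟩ := exists_frac_of_mem_valuationSubring hℓ A hA x hx
  have hτb : τ • b ∉ primeOfValuationSubring A' := by
    intro h
    rw [hτ, Ideal.smul_mem_pointwise_smul_iff] at h
    exact hb h
  have h1 : τ x * ((τ • b : Zb) : Qb) = ((τ • a : Zb) : Qb) := by
    have := congrArg τ hab
    rwa [map_mul] at this
  have hτaA : ((τ • a : Zb) : Qb) ∈ A' := mem_valuationSubring_of_isIntegral A' _ (τ • a).2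
  rw [mem_primeOfValuationSubring, ValuationSubring.mem_nonunits_iff_or] at hτb
  push Not at hτb
  obtain ⟨hne, hunit⟩ := hτb
  have h2 : τ x = ((τ • a : Zb) : Qb) * (((τ • b : Zb) : Qb))⁻¹ := by
    rw [← h1, mul_assoc, mul_inv_cancel₀ hne, mul_one]
  rw [h2]
  exact A'.mul_mem _ _ hτaA hunit

/-- **Conjugacy of places**: two valuation subrings of `ℚ̄` lying over the same prime are
conjugate under `Gal(ℚ̄/ℚ)`. -/
theorem exists_smul_eq {ℓ : ℕ} (hℓ : ℓ.Prime) (A A' : ValuationSubring Qb)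
    (hA : A.LiesOverPrime ℓ) (hA' : A'.LiesOverPrime ℓ) : ∃ τ : GQ, τ • A = A' := by
  obtain ⟨τ, hτ⟩ := exists_smul_prime_eq hℓ A A' hA hA'
  have hτ' : primeOfValuationSubring A = τ⁻¹ • primeOfValuationSubring A' := by
    rw [hτ, inv_smul_smul]
  refine ⟨τ, le_antisymm ?_ ?_⟩
  · intro y hy
    rw [ValuationSubring.mem_pointwise_smul_iff_inv_smul_mem] at hy
    have := map_mem_of_smul_prime_eq' hℓ A A' hA τ hτ _ hy
    simpa using this
  · intro y hy
    rw [ValuationSubring.mem_pointwise_smul_iff_inv_smul_mem]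
    exact map_mem_of_smul_prime_eq' hℓ A' A hA' τ⁻¹ hτ' y hy

/-- If a normal subgroup of `Gal(ℚ̄/ℚ)` contains the inertia group of one place over `ℓ`, it
contains the inertia group of every place over `ℓ`. -/
theorem inertia_le_of_normal (H : Subgroup GQ) [hH : H.Normal] {ℓ : ℕ} (hℓ : ℓ.Prime)
    (A A' : ValuationSubring Qb) (hA : A.LiesOverPrime ℓ) (hA' : A'.LiesOverPrime ℓ)
    (h : A.inertiaSubgroupIn ℚ ≤ H) : A'.inertiaSubgroupIn ℚ ≤ H := by
  obtain ⟨τ, rfl⟩ := exists_smul_eq hℓ A A' hA hA'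
  intro σ hσ
  have h1 := conj_mem_inertiaSubgroupIn hσ τ⁻¹
  rw [inv_smul_smul, inv_inv] at h1
  have h2 := hH.conj_mem _ (h h1) τ
  have h3 : τ * (τ⁻¹ * σ * τ) * τ⁻¹ = σ := by group
  rwa [h3] at h2

/-! ### Valuations of rational numbers -/

/-- A natural number prime to `ℓ` is a unit of every valuation subring over `ℓ`. -/
theorem valuation_natCast_eq_one {ℓ : ℕ} (hℓ : ℓ.Prime) (A : ValuationSubring Qb)
    (hA : A.LiesOverPrime ℓ) {n : ℕ} (hn : ¬ ℓ ∣ n) : A.valuation (n : Qb) = 1 := by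
  have hle : A.valuation (n : Qb) ≤ 1 :=
    (A.valuation_le_one_iff _).2 (natCast_mem A n)
  refine le_antisymm hle (not_lt.mp fun hlt => ?_)
  have hnn : ¬ (ℓ : ℤ) ∣ (n : ℤ) := fun h => hn (by exact_mod_cast h)
  apply intCast_not_mem_primeOfValuationSubring hℓ A hA (n : ℤ) hnn
  rw [mem_primeOfValuationSubring, ValuationSubring.mem_nonunits_iff]
  have : ((((n : ℤ) : Zb)) : Qb) = (n : Qb) := by simp
  rw [this]
  exact hlt

theorem exists_pow_valuation_natCast {ℓ : ℕ} (hℓ : ℓ.Prime) (A : ValuationSubring Qb)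
    (hA : A.LiesOverPrime ℓ) {n : ℕ} (hn : n ≠ 0) :
    ∃ k : ℕ, A.valuation (n : Qb) = A.valuation (ℓ : Qb) ^ k := by
  obtain ⟨k, n', hn', rfl⟩ := Nat.exists_eq_pow_mul_and_not_dvd hn ℓ hℓ.ne_one
  refine ⟨k, ?_⟩
  push_cast
  rw [map_mul, map_pow, valuation_natCast_eq_one hℓ A hA hn', mul_one]

/-- The valuation of a nonzero rational number is an integral power of the valuation of `ℓ`. -/
theorem exists_zpow_valuation_rat {ℓ : ℕ} (hℓ : ℓ.Prime) (A : ValuationSubring Qb)
    (hA : A.LiesOverPrime ℓ) {q : ℚ} (hq : q ≠ 0) :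
    ∃ j : ℤ, A.valuation (algebraMap ℚ Qb q) = A.valuation (ℓ : Qb) ^ j := by
  have hnum : q.num.natAbs ≠ 0 := Int.natAbs_ne_zero.mpr (Rat.num_ne_zero.mpr hq)
  obtain ⟨k₁, hk₁⟩ := exists_pow_valuation_natCast hℓ A hA hnum
  obtain ⟨k₂, hk₂⟩ := exists_pow_valuation_natCast hℓ A hA q.den_ne_zero
  have hvℓ : A.valuation (ℓ : Qb) ≠ 0 :=
    (Valuation.ne_zero_iff _).mpr (Nat.cast_ne_zero.mpr hℓ.ne_zero)
  have hvnum : A.valuation ((q.num : ℤ) : Qb) = A.valuation ((q.num.natAbs : ℕ) : Qb) := by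
    rcases Int.natAbs_eq q.num with h | h
    · conv_lhs => rw [h]
      simp
    · conv_lhs => rw [h]
      simp
  refine ⟨(k₁ : ℤ) - k₂, ?_⟩
  have hq' : algebraMap ℚ Qb q = ((q.num : ℤ) : Qb) / ((q.den : ℕ) : Qb) := by
    conv_lhs => rw [← Rat.num_div_den q]
    simp
  rw [hq', map_div₀, hvnum, hk₁, hk₂, zpow_sub₀ hvℓ, zpow_natCast, zpow_natCast]

/-- A nonzero rational number which is a nonunit at a place over `ℓ` has valuation at most that
of `ℓ`. -/
theorem valuation_rat_le_of_lt_one {ℓ : ℕ} (hℓ : ℓ.Prime) (A : ValuationSubring Qb)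
    (hA : A.LiesOverPrime ℓ) {q : ℚ} (hq : q ≠ 0)
    (hlt : A.valuation (algebraMap ℚ Qb q) < 1) :
    A.valuation (algebraMap ℚ Qb q) ≤ A.valuation (ℓ : Qb) := by
  obtain ⟨j, hj⟩ := exists_zpow_valuation_rat hℓ A hA hq
  have hℓlt : A.valuation (ℓ : Qb) < 1 := (ValuationSubring.mem_nonunits_iff (A := A)).1 hA
  have hpos : 0 < A.valuation (ℓ : Qb) :=
    zero_lt_iff.mpr ((Valuation.ne_zero_iff _).mpr (Nat.cast_ne_zero.mpr hℓ.ne_zero))
  rw [hj] at hlt ⊢
  have hj1 : 1 ≤ j := by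
    by_contra hcon
    have hj0 : j ≤ 0 := by omega
    exact absurd hlt (not_lt.mpr (one_le_zpow_of_nonpos₀ hpos hℓlt.le hj0))
  calc A.valuation (ℓ : Qb) ^ j ≤ A.valuation (ℓ : Qb) ^ (1 : ℤ) :=
        zpow_le_zpow_right_of_le_one₀ hpos hℓlt.le hj1
    _ = A.valuation (ℓ : Qb) := zpow_one _

/-! ### Galois-fixed elements -/

/-- An element of `ℚ̄` fixed by every element of `Gal(ℚ̄/ℚ)` is rational. -/
theorem exists_rat_of_fixed (x : Qb) (h : ∀ σ : GQ, σ x = x) :
    ∃ q : ℚ, algebraMap ℚ Qb q = x := by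
  have h1 : x ∈ Set.range (algebraMap ℚ Qb) := by
    rw [InfiniteGalois.mem_range_algebraMap_iff_fixed]
    exact h
  exact h1

end Fermat.Agent.Lib.helper954
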