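import Mathlib
import Fermat.Prelude.Def_FLTPrelim_Ramification
import Fermat.Prelude.Def_EllipticCurve_FrobeniusTrace
import Fermat.Agent.Lib.helper954_QbarPlaces

/-!
# The residue field of a place of `ℚ̄` over `ℓ` is an algebraic closure of `𝔽_ℓ` (helper3858)

Statement-agnostic brick (backup of board row 840).  For a valuation subring `A` of a field `L`
with residue field `k := IsLocalRing.ResidueField A`:

* `charP_residueField`            : `A.LiesOverPrime ℓ`, `ℓ` prime  ⟹ `CharP k ℓ`;
* `isAlgClosed_residueField`      : `L` algebraically closed ⟹ `k` algebraically closed;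
* `exists_pow_eq_self_residueField` : `L` algebraic over `ℚ` ⟹ `∀ x : k, ∃ n > 0, x ^ ℓ ^ n = x`;
* `isAlgebraic_residueField`      : hence `k` is algebraic over `ZMod ℓ` (any algebra structure);
* `perfectRing_residueField`      : `k` is perfect;
* coefficient forms of the prelude's inertia / Frobenius conditions;
* reduction is injective on roots of unity of order prime to `ℓ`, and every nonzero element of
  the residue field is the residue of such a root of unity (Teichmüller representatives).
-/

set_option autoImplicit false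

namespace Fermat.Agent.Lib.helper3858

open Polynomial IsLocalRing
open scoped Pointwise

section generic

variable {L : Type*} [Field L]

/-- The natural number `ℓ` lies in the maximal ideal of a valuation subring over `ℓ`. -/
theorem natCast_mem_maximalIdeal (A : ValuationSubring L) {l : ℕ} (hA : A.LiesOverPrime l) :
    (l : A) ∈ maximalIdeal A := by
  have h1 : ((l : A) : L) = (l : L) := by simp
  rw [← ValuationSubring.coe_mem_nonunits_iff, h1]
  exact hA

/-- `ℓ = 0` in the residue field of a valuation subring over `ℓ`. -/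
theorem natCast_residueField_eq_zero (A : ValuationSubring L) {l : ℕ} (hA : A.LiesOverPrime l) :
    (l : ResidueField A) = 0 := by
  rw [← map_natCast (residue A)]
  exact (residue_eq_zero_iff _).mpr (natCast_mem_maximalIdeal A hA)

/-- **(K1)** The residue field of a valuation subring over a prime `ℓ` has characteristic `ℓ`. -/
theorem charP_residueField (A : ValuationSubring L) {l : ℕ} (hl : l.Prime)
    (hA : A.LiesOverPrime l) : CharP (ResidueField A) l :=
  (CharP.charP_iff_prime_eq_zero hl).mpr (natCast_residueField_eq_zero A hA)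

/-- Elements of `L` integral over a valuation subring lie in it. -/
theorem mem_of_isIntegral (A : ValuationSubring L) {x : L} (hx : IsIntegral A x) : x ∈ A := by
  obtain ⟨y, hy⟩ := IsIntegrallyClosed.isIntegral_iff.mp hx
  rw [← hy]
  exact y.2

/-- **(K2)** The residue field of a valuation subring of an algebraically closed field is
algebraically closed. -/
theorem isAlgClosed_residueField [IsAlgClosed L] (A : ValuationSubring L) :
    IsAlgClosed (ResidueField A) := by
  refine IsAlgClosed.of_exists_root _ ?_
  intro p hpm hpirr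
  have hlift : p ∈ Polynomial.lifts (residue A) := by
    rw [Polynomial.mem_lifts]
    exact Polynomial.map_surjective _ (residue_surjective) p
  obtain ⟨P, hP, hdeg, hPm⟩ := Polynomial.lifts_and_degree_eq_and_monic hlift hpm
  have hdeg' : (P.map (algebraMap A L)).degree ≠ 0 := by
    rw [Polynomial.degree_map_eq_of_injective (FaithfulSMul.algebraMap_injective A L), hdeg]
    exact Polynomial.degree_ne_of_natDegree_ne (Irreducible.natDegree_pos hpirr).ne'
  obtain ⟨x, hx⟩ := IsAlgClosed.exists_root _ hdeg'
  have hx' : aeval x P = 0 := by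
    rwa [Polynomial.IsRoot.def, Polynomial.eval_map_algebraMap] at hx
  have hxA : x ∈ A := mem_of_isIntegral A ⟨P, hPm, hx'⟩
  refine ⟨residue A ⟨x, hxA⟩, ?_⟩
  rw [← hP, Polynomial.eval_map, Polynomial.eval₂_at_apply]
  have h0 : Polynomial.eval (⟨x, hxA⟩ : A) P = 0 := by
    apply FaithfulSMul.algebraMap_injective A L
    rw [← Polynomial.aeval_algebraMap_apply_eq_algebraMap_eval, map_zero]
    exact hx'
  rw [h0, map_zero]

/-- An element of a field of characteristic `ℓ` that is algebraic over the prime field is
fixed by a positive power of the Frobenius. -/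
theorem exists_pow_eq_self_of_isAlgebraic {k : Type*} [Field k] {l : ℕ} [Fact l.Prime]
    [CharP k l] [Algebra (ZMod l) k] {x : k} (hx : IsAlgebraic (ZMod l) x) :
    ∃ n, 0 < n ∧ x ^ (l ^ n) = x := by
  have hint : IsIntegral (ZMod l) x := hx.isIntegral
  let F := IntermediateField.adjoin (ZMod l) {x}
  have : FiniteDimensional (ZMod l) F := IntermediateField.adjoin.finiteDimensional hint
  have : Finite F := Module.finite_of_finite (ZMod l)
  have : Fintype F := Fintype.ofFinite F
  obtain ⟨n, -, hn⟩ := FiniteField.card F l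
  refine ⟨n, n.pos, ?_⟩
  have h1 := FiniteField.pow_card (⟨x, IntermediateField.mem_adjoin_simple_self _ x⟩ : F)
  rw [hn] at h1
  exact congrArg Subtype.val h1

/-- **(K3)** Every element of the residue field of a valuation subring over `ℓ` of a field
algebraic over `ℚ` is fixed by a positive power of the Frobenius. -/
theorem exists_pow_eq_self_residueField [CharZero L] [Algebra.IsAlgebraic ℚ L]
    (A : ValuationSubring L) {l : ℕ} (hl : l.Prime) (hA : A.LiesOverPrime l)
    (x : ResidueField A) : ∃ n, 0 < n ∧ x ^ (l ^ n) = x := by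
  have : Fact l.Prime := ⟨hl⟩
  have := charP_residueField A hl hA
  let := ZMod.algebra (ResidueField A) l
  obtain ⟨a, rfl⟩ := residue_surjective x
  apply exists_pow_eq_self_of_isAlgebraic
  have halg : IsAlgebraic ℤ (a : L) :=
    (IsFractionRing.isAlgebraic_iff ℤ ℚ L).mpr (Algebra.IsAlgebraic.isAlgebraic _)
  obtain ⟨p, hp0, hpx⟩ := halg
  have hpx' : aeval (a : L) p.primPart = 0 := by
    have h1 := p.eq_C_content_mul_primPart
    rw [h1, map_mul, aeval_C] at hpx
    rcases mul_eq_zero.mp hpx with h | h
    · exfalso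
      have hc : p.content ≠ 0 := by rwa [Ne, content_eq_zero_iff]
      apply hc
      have hinj : Function.Injective (algebraMap ℤ L) := (algebraMap ℤ L).injective_int
      exact hinj (by rw [h, map_zero])
    · exact h
  refine ⟨p.primPart.map (Int.castRingHom (ZMod l)), ?_, ?_⟩
  · intro h0
    have hall : ∀ i, (l : ℤ) ∣ p.primPart.coeff i := by
      intro i
      have h2 := congrArg (fun q => q.coeff i) h0
      simp only [coeff_map, coeff_zero, eq_intCast] at h2
      exact (ZMod.intCast_zmod_eq_zero_iff_dvd _ _).mp h2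
    have h1 : C (l : ℤ) ∣ p.primPart := (C_dvd_iff_dvd_coeff _ _).mpr hall
    exact (Nat.prime_iff_prime_int.mp hl).not_isUnit (p.isPrimitive_primPart _ h1)
  · rw [aeval_def, eval₂_map]
    have hcomp : (algebraMap (ZMod l) (ResidueField A)).comp (Int.castRingHom (ZMod l)) =
        (residue A).comp (Int.castRingHom A) := RingHom.ext_int _ _
    rw [hcomp, ← hom_eval₂]
    have h0 : eval₂ (Int.castRingHom A) a p.primPart = 0 := by
      apply Subtype.ext
      have h3 := hom_eval₂ p.primPart (Int.castRingHom A) A.subtype a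
      have hcomp' : A.subtype.comp (Int.castRingHom A) = algebraMap ℤ L := RingHom.ext_int _ _
      rw [hcomp'] at h3
      change A.subtype (eval₂ (Int.castRingHom A) a p.primPart) = ((0 : A) : L)
      rw [h3]
      exact hpx'
    rw [h0, map_zero]

/-- **(K3′)** The residue field is algebraic over `ZMod ℓ`, for any `ZMod ℓ`-algebra structure
on it. -/
theorem isAlgebraic_residueField [CharZero L] [Algebra.IsAlgebraic ℚ L]
    (A : ValuationSubring L) {l : ℕ} (hl : l.Prime) (hA : A.LiesOverPrime l)
    [Algebra (ZMod l) (ResidueField A)] : Algebra.IsAlgebraic (ZMod l) (ResidueField A) := by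
  have : Fact l.Prime := ⟨hl⟩
  refine ⟨fun x => ?_⟩
  obtain ⟨n, hn, hx⟩ := exists_pow_eq_self_residueField A hl hA x
  have hlt : 1 < l ^ n := Nat.one_lt_pow hn.ne' hl.one_lt
  refine ⟨X ^ (l ^ n) - X, FiniteField.X_pow_card_sub_X_ne_zero (ZMod l) hlt, ?_⟩
  simp [hx]

/-- **(K4)** The residue field of a valuation subring over `ℓ` of an algebraically closed field
is perfect. -/
theorem perfectRing_residueField [IsAlgClosed L] (A : ValuationSubring L) {l : ℕ}
    (hl : l.Prime) (hA : A.LiesOverPrime l) :
    ∃ (_ : ExpChar (ResidueField A) l), PerfectRing (ResidueField A) l := by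
  have : Fact l.Prime := ⟨hl⟩
  have := charP_residueField A hl hA
  have := isAlgClosed_residueField A
  exact ⟨inferInstance, inferInstance⟩

/-- Every element of the residue field of a valuation subring over `ℓ` of an algebraically
closed field is an `ℓ`-th power. -/
theorem exists_pow_eq_residueField [IsAlgClosed L] (A : ValuationSubring L) {l : ℕ}
    (hl : l.Prime) (x : ResidueField A) : ∃ y : ResidueField A, y ^ l = x := by
  have := isAlgClosed_residueField A
  exact IsAlgClosed.exists_pow_nat_eq x hl.pos

end generic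

/-! ### (K5) Coefficient forms of the inertia and Frobenius conditions -/

section galois

variable {K L : Type*} [Field K] [Field L] [Algebra K L]

/-- Elements of the decomposition group map `A` into itself. -/
theorem apply_mem_of_mem_decompositionSubgroup {A : ValuationSubring L} {σ : L ≃ₐ[K] L}
    (hσ : σ ∈ A.decompositionSubgroup K) {a : L} (ha : a ∈ A) : σ a ∈ A := by
  have h1 : σ • A = A := hσ
  have h2 : σ • a ∈ σ • A := (ValuationSubring.smul_mem_pointwise_smul_iff (g := σ)).2 ha
  rw [h1] at h2
  exact h2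

/-- The action of the decomposition group on the residue field, in coefficient form. -/
theorem smul_residue_eq {A : ValuationSubring L} {σ : L ≃ₐ[K] L}
    (hσ : σ ∈ A.decompositionSubgroup K) {a : L} (ha : a ∈ A) :
    (⟨σ, hσ⟩ : A.decompositionSubgroup K) • residue A ⟨a, ha⟩ =
      residue A ⟨σ a, apply_mem_of_mem_decompositionSubgroup hσ ha⟩ := by
  rw [← IsLocalRing.ResidueField.residue_smul]
  rfl

/-- Inertia elements map `A` into itself. -/
theorem apply_mem_of_mem_inertiaSubgroupIn {A : ValuationSubring L} {τ : L ≃ₐ[K] L}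
    (hτ : τ ∈ A.inertiaSubgroupIn K) {a : L} (ha : a ∈ A) : τ a ∈ A :=
  apply_mem_of_mem_decompositionSubgroup
    (Fermat.Agent.Lib.helper954.mem_decomposition_of_mem_inertia hτ) ha

/-- **(K5a)** Inertia elements act trivially on residues. -/
theorem residue_apply_of_mem_inertiaSubgroupIn {A : ValuationSubring L} {τ : L ≃ₐ[K] L}
    (hτ : τ ∈ A.inertiaSubgroupIn K) {a : L} (ha : a ∈ A) (h : τ a ∈ A) :
    residue A ⟨τ a, h⟩ = residue A ⟨a, ha⟩ := by
  have h1 := Fermat.Agent.Lib.helper954.apply_sub_mem_nonunits_of_mem_inertia hτ ha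
  rw [← sub_eq_zero, ← map_sub, residue_eq_zero_iff]
  exact (ValuationSubring.coe_mem_nonunits_iff (A := A)).1 h1

/-- Converse of (K5a): a decomposition-group element acting trivially on residues is in the
inertia group. -/
theorem mem_inertiaSubgroupIn_of_residue {A : ValuationSubring L} {σ : L ≃ₐ[K] L}
    (hσ : σ ∈ A.decompositionSubgroup K)
    (h : ∀ (a : L) (ha : a ∈ A),
      residue A ⟨σ a, apply_mem_of_mem_decompositionSubgroup hσ ha⟩ = residue A ⟨a, ha⟩) :
    σ ∈ A.inertiaSubgroupIn K := by
  refine Fermat.Agent.Lib.helper954.mem_inertiaSubgroupIn_of A σ hσ ?_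
  intro a ha
  have h1 := h a ha
  rw [← sub_eq_zero, ← map_sub, residue_eq_zero_iff] at h1
  exact (ValuationSubring.coe_mem_nonunits_iff (A := A)).2 h1

/-- Frobenius elements map `A` into itself. -/
theorem apply_mem_of_isFrobeniusAt {A : ValuationSubring L} {σ : L ≃ₐ[K] L} {q : ℕ}
    (hσ : A.IsFrobeniusAt σ q) {a : L} (ha : a ∈ A) : σ a ∈ A :=
  apply_mem_of_mem_decompositionSubgroup hσ.mem_decompositionSubgroup ha

/-- **(K5b)** A Frobenius element at `A` acts as the `q`-th power on residues. -/
theorem residue_apply_of_isFrobeniusAt {A : ValuationSubring L} {σ : L ≃ₐ[K] L} {q : ℕ}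
    (hσ : A.IsFrobeniusAt σ q) {a : L} (ha : a ∈ A) (h : σ a ∈ A) :
    residue A ⟨σ a, h⟩ = residue A ⟨a, ha⟩ ^ q := by
  rw [← hσ.smul_residue_eq (residue A ⟨a, ha⟩), smul_residue_eq hσ.mem_decompositionSubgroup ha]

/-- (K5b), difference form: `σ a - a ^ q` is a nonunit of `A`. -/
theorem apply_sub_pow_mem_nonunits_of_isFrobeniusAt {A : ValuationSubring L} {σ : L ≃ₐ[K] L}
    {q : ℕ} (hσ : A.IsFrobeniusAt σ q) {a : L} (ha : a ∈ A) : σ a - a ^ q ∈ A.nonunits := by
  have h1 := residue_apply_of_isFrobeniusAt hσ ha (apply_mem_of_isFrobeniusAt hσ ha)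
  rw [← map_pow, ← sub_eq_zero, ← map_sub, residue_eq_zero_iff] at h1
  exact (ValuationSubring.coe_mem_nonunits_iff (A := A)).2 h1

/-- Converse of (K5b): a decomposition-group element acting as the `q`-th power on residues is
a Frobenius element. -/
theorem isFrobeniusAt_of_residue {A : ValuationSubring L} {σ : L ≃ₐ[K] L} {q : ℕ}
    (hσ : σ ∈ A.decompositionSubgroup K)
    (h : ∀ (a : L) (ha : a ∈ A),
      residue A ⟨σ a, apply_mem_of_mem_decompositionSubgroup hσ ha⟩ = residue A ⟨a, ha⟩ ^ q) :
    A.IsFrobeniusAt σ q := by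
  refine ⟨hσ, fun x => ?_⟩
  obtain ⟨a, rfl⟩ := residue_surjective x
  exact (smul_residue_eq hσ a.2).trans (h a.1 a.2)

/-- A Frobenius element times an inertia element is a Frobenius element. -/
theorem isFrobeniusAt_mul_of_mem_inertiaSubgroupIn {A : ValuationSubring L} {σ τ : L ≃ₐ[K] L}
    {q : ℕ} (hσ : A.IsFrobeniusAt σ q) (hτ : τ ∈ A.inertiaSubgroupIn K) :
    A.IsFrobeniusAt (σ * τ) q := by
  have hτd := Fermat.Agent.Lib.helper954.mem_decomposition_of_mem_inertia hτ
  have hd : σ * τ ∈ A.decompositionSubgroup K :=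
    (A.decompositionSubgroup K).mul_mem hσ.mem_decompositionSubgroup hτd
  refine isFrobeniusAt_of_residue hd ?_
  intro a ha
  have h1 : τ a ∈ A := apply_mem_of_mem_decompositionSubgroup hτd ha
  have h2 := residue_apply_of_isFrobeniusAt hσ h1 (apply_mem_of_isFrobeniusAt hσ h1)
  have h3 := residue_apply_of_mem_inertiaSubgroupIn hτ ha h1
  rw [h3] at h2
  exact h2

/-- An inertia element times a Frobenius element is a Frobenius element. -/
theorem isFrobeniusAt_mul_of_mem_inertiaSubgroupIn' {A : ValuationSubring L} {σ τ : L ≃ₐ[K] L}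
    {q : ℕ} (hσ : A.IsFrobeniusAt σ q) (hτ : τ ∈ A.inertiaSubgroupIn K) :
    A.IsFrobeniusAt (τ * σ) q := by
  have hτd := Fermat.Agent.Lib.helper954.mem_decomposition_of_mem_inertia hτ
  have hd : τ * σ ∈ A.decompositionSubgroup K :=
    (A.decompositionSubgroup K).mul_mem hτd hσ.mem_decompositionSubgroup
  refine isFrobeniusAt_of_residue hd ?_
  intro a ha
  have h1 : σ a ∈ A := apply_mem_of_isFrobeniusAt hσ ha
  have h2 := residue_apply_of_isFrobeniusAt hσ ha h1
  have h3 := residue_apply_of_mem_inertiaSubgroupIn hτ h1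
    (apply_mem_of_mem_decompositionSubgroup hτd h1)
  exact h3.trans h2

/-- Two Frobenius elements at `A` for a prime power exponent `q` (more generally any `q` for
which `x ↦ x ^ q` is injective on the residue field) differ by an inertia element. -/
theorem inv_mul_mem_inertiaSubgroupIn_of_isFrobeniusAt {A : ValuationSubring L}
    {σ σ' : L ≃ₐ[K] L} {q : ℕ} (hσ : A.IsFrobeniusAt σ q) (hσ' : A.IsFrobeniusAt σ' q)
    (hinj : Function.Injective (fun x : ResidueField A => x ^ q)) :
    σ⁻¹ * σ' ∈ A.inertiaSubgroupIn K := by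
  have hd : σ⁻¹ * σ' ∈ A.decompositionSubgroup K :=
    (A.decompositionSubgroup K).mul_mem
      ((A.decompositionSubgroup K).inv_mem hσ.mem_decompositionSubgroup)
      hσ'.mem_decompositionSubgroup
  refine mem_inertiaSubgroupIn_of_residue hd ?_
  intro a ha
  apply hinj
  have hb : (σ⁻¹ * σ') a ∈ A := apply_mem_of_mem_decompositionSubgroup hd ha
  have h1 := residue_apply_of_isFrobeniusAt hσ hb (apply_mem_of_isFrobeniusAt hσ hb)
  have h2 := residue_apply_of_isFrobeniusAt hσ' ha (apply_mem_of_isFrobeniusAt hσ' ha)
  have h3 : σ ((σ⁻¹ * σ') a) = σ' a := by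
    change σ (σ⁻¹ (σ' a)) = σ' a
    exact σ.apply_symm_apply (σ' a)
  show residue A ⟨(σ⁻¹ * σ') a, _⟩ ^ q = residue A ⟨a, ha⟩ ^ q
  rw [← h1, ← h2]
  congr 2

end galois

end Fermat.Agent.Lib.helper3858
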