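import Mathlib
import Fermat.Agent.Lib.helper3858_ResidueQbar

/-!
# Roots of unity and the residue field of a valuation subring (helper3858)

For a valuation subring `A` of a field `L` lying over a prime `ℓ`, with residue field `k`:

* `mem_of_pow_eq_one`                 : roots of unity of `L` lie in `A`;
* `residue_eq_one_of_pow_prime_pow_eq_one` : `ℓ`-power roots of unity reduce to `1`;
* `eq_one_of_residue_eq_one`, `eq_of_residue_eq` : reduction is injective on roots of unity of
  order prime to `ℓ`;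
* `exists_pow_eq_one_residue_eq`      : (`L` algebraically closed of characteristic `0`) every
  `m`-th root of unity of `k`, `ℓ ∤ m`, is the residue of a unique `m`-th root of unity of `A`;
* `exists_root_of_unity_residue_eq`   : (`L` moreover algebraic over `ℚ`) every nonzero element
  of `k` is the residue of a root of unity of order prime to `ℓ` (Teichmüller representatives).
-/

set_option autoImplicit false

namespace Fermat.Agent.Lib.helper3858

open Polynomial IsLocalRing

variable {L : Type*} [Field L]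

/-- Roots of unity lie in every valuation subring. -/
theorem mem_of_pow_eq_one (A : ValuationSubring L) {ζ : L} {m : ℕ} (hm : m ≠ 0)
    (hζ : ζ ^ m = 1) : ζ ∈ A := by
  apply mem_of_isIntegral A
  refine ⟨X ^ m - 1, monic_X_pow_sub_C 1 hm, ?_⟩
  simp [hζ]

/-- `ℓ`-power roots of unity reduce to `1`. -/
theorem residue_eq_one_of_pow_prime_pow_eq_one (A : ValuationSubring L) {l : ℕ} (hl : l.Prime)
    (hA : A.LiesOverPrime l) (ζ : A) (n : ℕ) (hζ : ζ ^ (l ^ n) = 1) : residue A ζ = 1 := by
  have : Fact l.Prime := ⟨hl⟩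
  have := charP_residueField A hl hA
  have h1 : (residue A ζ - 1) ^ (l ^ n) = 0 := by
    rw [sub_pow_char_pow, ← map_pow, hζ, map_one, one_pow, sub_self]
  exact sub_eq_zero.mp (pow_eq_zero_iff (pow_ne_zero _ hl.ne_zero) |>.mp h1)

/-- **(X1)** A root of unity of order prime to `ℓ` that reduces to `1` is `1`. -/
theorem eq_one_of_residue_eq_one (A : ValuationSubring L) {l : ℕ} (hl : l.Prime)
    (hA : A.LiesOverPrime l) {m : ℕ} (hm : ¬ l ∣ m) (ζ : A) (hζ : ζ ^ m = 1)
    (hres : residue A ζ = 1) : ζ = 1 := by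
  have := charP_residueField A hl hA
  by_contra hne
  have h1 : (∑ i ∈ Finset.range m, ζ ^ i) * (ζ - 1) = 0 := by
    rw [geom_sum_mul, hζ, sub_self]
  have h2 : ∑ i ∈ Finset.range m, ζ ^ i = 0 := by
    rcases mul_eq_zero.mp h1 with h | h
    · exact h
    · exact absurd (sub_eq_zero.mp h) hne
  have h3 := congrArg (residue A) h2
  rw [map_sum, map_zero] at h3
  simp only [map_pow, hres, one_pow, Finset.sum_const, Finset.card_range, nsmul_eq_mul,
    mul_one] at h3
  exact hm ((CharP.cast_eq_zero_iff (ResidueField A) l m).mp h3)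

/-- **(X1′)** Reduction is injective on the `m`-th roots of unity of `A`, `ℓ ∤ m`. -/
theorem eq_of_residue_eq (A : ValuationSubring L) {l : ℕ} (hl : l.Prime)
    (hA : A.LiesOverPrime l) {m : ℕ} (hm : ¬ l ∣ m) (ζ ζ' : A) (hζ : ζ ^ m = 1)
    (hζ' : ζ' ^ m = 1) (hres : residue A ζ = residue A ζ') : ζ = ζ' := by
  have hm0 : m ≠ 0 := fun h => hm (h ▸ dvd_zero l)
  obtain ⟨j, rfl⟩ : ∃ j, m = j + 1 := ⟨m - 1, by omega⟩
  have h1 : (ζ * ζ' ^ j) ^ (j + 1) = 1 := by
    rw [mul_pow, hζ, one_mul, ← pow_mul, mul_comm, pow_mul, hζ', one_pow]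
  have h2 : residue A (ζ * ζ' ^ j) = 1 := by
    rw [map_mul, map_pow, hres, ← pow_succ', ← map_pow, hζ', map_one]
  have h3 := eq_one_of_residue_eq_one A hl hA hm _ h1 h2
  calc ζ = ζ * (ζ' ^ j * ζ') := by rw [← pow_succ, hζ', mul_one]
    _ = (ζ * ζ' ^ j) * ζ' := by ring
    _ = ζ' := by rw [h3, one_mul]

/-- **(X2)** Over an algebraically closed field of characteristic `0`: every `m`-th root of
unity of the residue field, `ℓ ∤ m`, is the residue of an `m`-th root of unity of `A`. -/
theorem exists_pow_eq_one_residue_eq [IsAlgClosed L] [CharZero L] (A : ValuationSubring L)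
    {l : ℕ} (hl : l.Prime) (hA : A.LiesOverPrime l) {m : ℕ} (hm : ¬ l ∣ m)
    {x : ResidueField A} (hx : x ^ m = 1) : ∃ ζ : A, ζ ^ m = 1 ∧ residue A ζ = x := by
  classical
  have hm0 : m ≠ 0 := fun h => hm (h ▸ dvd_zero l)
  have hmpos : 0 < m := Nat.pos_of_ne_zero hm0
  have : NeZero (m : L) := ⟨Nat.cast_ne_zero.mpr hm0⟩
  obtain ⟨ζ₀, hζ₀⟩ := HasEnoughRootsOfUnity.exists_primitiveRoot L m
  have hcard : (nthRootsFinset m (1 : L)).card = m := hζ₀.card_nthRootsFinset
  -- the residues of the `m`-th roots of unity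
  let f : {z : L // z ∈ nthRootsFinset m (1 : L)} → ResidueField A := fun z =>
    residue A ⟨z.1, mem_of_pow_eq_one A hm0 ((mem_nthRootsFinset hmpos 1).mp z.2)⟩
  have hf : Function.Injective f := by
    intro z z' h
    have hz := (mem_nthRootsFinset hmpos (1 : L)).mp z.2
    have hz' := (mem_nthRootsFinset hmpos (1 : L)).mp z'.2
    have h1 := eq_of_residue_eq A hl hA hm
      ⟨z.1, mem_of_pow_eq_one A hm0 hz⟩ ⟨z'.1, mem_of_pow_eq_one A hm0 hz'⟩
      (Subtype.ext hz) (Subtype.ext hz') h
    exact Subtype.ext (congrArg (fun a : A => (a : L)) h1)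
  let T : Finset (ResidueField A) := (nthRootsFinset m (1 : L)).attach.image f
  have hTcard : T.card = m := by
    rw [Finset.card_image_of_injective _ hf, Finset.card_attach, hcard]
  have hTsub : T ⊆ nthRootsFinset m (1 : ResidueField A) := by
    intro y hy
    obtain ⟨z, -, rfl⟩ := Finset.mem_image.mp hy
    rw [mem_nthRootsFinset hmpos]
    have hz := (mem_nthRootsFinset hmpos (1 : L)).mp z.2
    change residue A _ ^ m = 1
    rw [← map_pow]
    have : (⟨z.1, mem_of_pow_eq_one A hm0 hz⟩ : A) ^ m = 1 := Subtype.ext hz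
    rw [this, map_one]
  have hle : (nthRootsFinset m (1 : ResidueField A)).card ≤ T.card := by
    rw [hTcard, nthRootsFinset_def]
    exact (Multiset.toFinset_card_le _).trans (card_nthRoots m 1)
  have hTeq : T = nthRootsFinset m (1 : ResidueField A) := Finset.eq_of_subset_of_card_le hTsub hle
  have hxT : x ∈ T := by
    rw [hTeq, mem_nthRootsFinset hmpos]
    exact hx
  obtain ⟨z, -, rfl⟩ := Finset.mem_image.mp hxT
  have hz := (mem_nthRootsFinset hmpos (1 : L)).mp z.2
  exact ⟨⟨z.1, mem_of_pow_eq_one A hm0 hz⟩, Subtype.ext hz, rfl⟩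

/-- **(X2′) Teichmüller representatives**: for a valuation subring over `ℓ` of an algebraically
closed field algebraic over `ℚ`, every nonzero element of the residue field is the residue of
a root of unity of order prime to `ℓ`. -/
theorem exists_root_of_unity_residue_eq [IsAlgClosed L] [CharZero L] [Algebra.IsAlgebraic ℚ L]
    (A : ValuationSubring L) {l : ℕ} (hl : l.Prime) (hA : A.LiesOverPrime l)
    {x : ResidueField A} (hx : x ≠ 0) :
    ∃ (m : ℕ) (ζ : A), ¬ l ∣ m ∧ ζ ^ m = 1 ∧ residue A ζ = x := by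
  obtain ⟨n, hn, hxn⟩ := exists_pow_eq_self_residueField A hl hA x
  have hpos : 0 < l ^ n := pow_pos hl.pos n
  have hm : ¬ l ∣ l ^ n - 1 := by
    intro hdvd
    have h1 : l ∣ l ^ n := dvd_pow_self l hn.ne'
    have h2 : l ∣ l ^ n - (l ^ n - 1) := Nat.dvd_sub h1 hdvd
    have h3 : l ^ n - (l ^ n - 1) = 1 := by omega
    rw [h3] at h2
    exact hl.one_lt.ne' (Nat.dvd_one.mp h2)
  have hx1 : x ^ (l ^ n - 1) = 1 := by
    have h4 : x ^ (l ^ n - 1) * x = x := by
      rw [← pow_succ, Nat.sub_add_cancel hpos, hxn]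
    exact mul_right_cancel₀ hx (h4.trans (one_mul x).symm)
  obtain ⟨ζ, hζ, hres⟩ := exists_pow_eq_one_residue_eq A hl hA hm hx1
  exact ⟨l ^ n - 1, ζ, hm, hζ, hres⟩

end Fermat.Agent.Lib.helper3858
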