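/-
helper386 — shared library module (S24 / S28 / S20 ...): analytic ↔ formal bridge for the
`q`-expansions of `E₄` and of the modular discriminant.

Main results (all sorry-free, Mathlib + Prelude `Def_ModularCurve_X0` only):
* `hasSum_eulerFun`   : for `‖q‖ < 1`, `∑ (etaProd.coeff m) q^m = ∏' (1 - q^(n+1))`
                        (the Prelude's formal Euler product `ModularCurve.etaProd` converges to the
                        analytic Euler product).
* `HasEval`, `HasEval.mul`, `HasEval.pow` : evaluation of convergent power series is multiplicative.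
* `deltaSeries`       : `X * etaProd ^ 24 : ℤ⟦X⟧`.
* `qExpansion_discriminant` : `qExpansion 1 Δ = deltaSeries.map (Int.castRingHom ℂ)`.
* `qExpansion_E4`     : `qExpansion 1 E₄ = eisenstein4.map (Int.castRingHom ℂ)`.
* `hasSum_discriminant`, `hasSum_E4` : the corresponding convergent expansions on `ℍ`.
* `jqModC_mul_deltaSeries` : the formal identity `j · Δ = E₄³` in `LaurentSeries K`.
-/
import Mathlib
import Fermat.Prelude.Def_ModularCurve_JqCoeff

set_option autoImplicit false

open scoped PowerSeries.WithPiTopology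
open UpperHalfPlane ModularForm Complex Filter Topology

namespace Fermat.Agent.Lib.helper386

/-- Partial products of the Euler product as integer polynomials. -/
noncomputable def etaPoly (K : ℕ) : Polynomial ℤ :=
  ∏ n ∈ Finset.range K, (1 - Polynomial.X ^ (n + 1))

lemma coeff_etaPoly_eventually (m : ℕ) :
    ∀ᶠ K in atTop, (etaPoly K).coeff m = PowerSeries.coeff m ModularCurve.etaProd := by
  have h1 : ∀ K, ((etaPoly K : Polynomial ℤ) : PowerSeries ℤ) =
      ∏ n ∈ Finset.range K, (1 - PowerSeries.X ^ (n + 1)) := by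
    intro K
    have := map_prod (Polynomial.coeToPowerSeries.ringHom (R := ℤ))
      (fun n : ℕ => (1 - Polynomial.X ^ (n + 1) : Polynomial ℤ)) (Finset.range K)
    rw [etaPoly]
    refine this.trans (Finset.prod_congr rfl fun n _ => ?_)
    simp
  have h2 := (PowerSeries.WithPiTopology.multipliable_one_sub_X_pow ℤ).hasProd.tendsto_prod_nat
  have h3 := ((PowerSeries.WithPiTopology.continuous_coeff ℤ m).tendsto _).comp h2
  rw [nhds_discrete, tendsto_pure] at h3
  filter_upwards [h3] with K hK
  rw [← Polynomial.coeff_coe, h1]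
  exact hK

/-- The Euler function `∏ (1 - q^(n+1))`. -/
noncomputable def eulerFun (q : ℂ) : ℂ := ∏' n : ℕ, (1 - q ^ (n + 1))

lemma tendsto_iteratedDeriv_eulerFun (m : ℕ) :
    TendstoLocallyUniformlyOn
      (fun K q => ((Polynomial.derivative^[m]) ((etaPoly K).map (Int.castRingHom ℂ))).eval q)
      (iteratedDeriv m eulerFun) atTop (Metric.ball (0:ℂ) 1) := by
  induction m with
  | zero =>
    have := multipliableLocallyUniformlyOn_one_sub_pow.hasProdLocallyUniformlyOn.tendstoLocallyUniformlyOn_finsetRange
    simp only [Function.iterate_zero, id, iteratedDeriv_zero]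
    convert this using 2 with K q
    · simp [etaPoly, Polynomial.eval_prod, Polynomial.map_prod]
    · rfl
  | succ m ih =>
    have := ih.deriv (Eventually.of_forall fun K => (Polynomial.differentiable _).differentiableOn)
      Metric.isOpen_ball
    rw [iteratedDeriv_succ]
    convert this using 1
    funext K q
    simp [Function.iterate_succ_apply', Polynomial.deriv]

lemma iteratedDeriv_eulerFun_zero (m : ℕ) :
    iteratedDeriv m eulerFun 0 =
      (m.factorial : ℂ) * ((PowerSeries.coeff m ModularCurve.etaProd : ℤ) : ℂ) := by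
  have h1 := (tendsto_iteratedDeriv_eulerFun m).tendsto_at (Metric.mem_ball_self one_pos)
  have h2 : ∀ᶠ K in atTop,
      ((Polynomial.derivative^[m]) ((etaPoly K).map (Int.castRingHom ℂ))).eval 0 =
        (m.factorial : ℂ) * ((PowerSeries.coeff m ModularCurve.etaProd : ℤ) : ℂ) := by
    filter_upwards [coeff_etaPoly_eventually m] with K hK
    rw [← Polynomial.coeff_zero_eq_eval_zero, Polynomial.coeff_iterate_derivative, zero_add,
      Nat.descFactorial_self, Polynomial.coeff_map, hK]
    simp
  exact tendsto_nhds_unique h1 (tendsto_const_nhds.congr' (h2.mono fun K hK => hK.symm))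

lemma hasSum_eulerFun {q : ℂ} (hq : ‖q‖ < 1) :
    HasSum (fun m : ℕ => ((PowerSeries.coeff m ModularCurve.etaProd : ℤ) : ℂ) * q ^ m)
      (eulerFun q) := by
  have := Complex.hasSum_taylorSeries_on_ball differentiableOn_tprod_one_sub_pow (z := q)
    (by simpa using hq)
  have key : ∀ m : ℕ, iteratedDeriv m (fun q : ℂ => ∏' n : ℕ, (1 - q ^ (n + 1))) 0 =
      (m.factorial : ℂ) * ((PowerSeries.coeff m ModularCurve.etaProd : ℤ) : ℂ) :=
    iteratedDeriv_eulerFun_zero
  have hfun : (fun n : ℕ => ((n.factorial : ℂ))⁻¹ • (q - 0) ^ n •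
      iteratedDeriv n (fun q : ℂ => ∏' n : ℕ, (1 - q ^ (n + 1))) 0) =
      fun m : ℕ => ((PowerSeries.coeff m ModularCurve.etaProd : ℤ) : ℂ) * q ^ m := by
    funext m
    rw [key]
    have hm : (m.factorial : ℂ) ≠ 0 := by exact_mod_cast m.factorial_ne_zero
    simp only [sub_zero, smul_eq_mul]
    field_simp
  rw [hfun] at this
  exact this

/-- `p` evaluates to `v` at `q`: the power series `∑ pₘ qᵐ` converges to `v`. -/
def HasEval (p : PowerSeries ℂ) (q v : ℂ) : Prop :=
  HasSum (fun m : ℕ => PowerSeries.coeff m p * q ^ m) v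

lemma HasEval.mul {p p' : PowerSeries ℂ} {q v v' : ℂ} (h : HasEval p q v) (h' : HasEval p' q v') :
    HasEval (p * p') q (v * v') := by
  have hs : Summable fun m : ℕ => ‖PowerSeries.coeff m p * q ^ m‖ :=
    summable_norm_iff.mpr h.summable
  have hs' : Summable fun m : ℕ => ‖PowerSeries.coeff m p' * q ^ m‖ :=
    summable_norm_iff.mpr h'.summable
  have key := tsum_mul_tsum_eq_tsum_sum_antidiagonal_of_summable_norm hs hs'
  have hsum := (summable_norm_sum_mul_antidiagonal_of_summable_norm hs hs').of_norm
  have hfun : (fun n : ℕ => ∑ kl ∈ Finset.HasAntidiagonal.antidiagonal n,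
      (PowerSeries.coeff kl.1 p * q ^ kl.1) * (PowerSeries.coeff kl.2 p' * q ^ kl.2)) =
      fun n : ℕ => PowerSeries.coeff n (p * p') * q ^ n := by
    funext n
    rw [PowerSeries.coeff_mul, Finset.sum_mul]
    refine Finset.sum_congr rfl fun kl hkl => ?_
    rw [← Finset.HasAntidiagonal.mem_antidiagonal.mp hkl, pow_add]
    ring
  unfold HasEval
  rw [← hfun, ← h.tsum_eq, ← h'.tsum_eq, key]
  exact hsum.hasSum

lemma hasEval_one (q : ℂ) : HasEval 1 q 1 := by
  unfold HasEval
  convert hasSum_ite_eq (0 : ℕ) (1 : ℂ) using 2 with m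
  rw [PowerSeries.coeff_one]
  split_ifs with h <;> simp [h]

lemma hasEval_X (q : ℂ) : HasEval PowerSeries.X q q := by
  unfold HasEval
  convert hasSum_ite_eq (1 : ℕ) q using 2 with m
  rw [PowerSeries.coeff_X]
  split_ifs with h <;> simp [h]

lemma HasEval.pow {p : PowerSeries ℂ} {q v : ℂ} (h : HasEval p q v) (n : ℕ) :
    HasEval (p ^ n) q (v ^ n) := by
  induction n with
  | zero => simpa using hasEval_one q
  | succ n ih => simpa [pow_succ] using ih.mul h

/-- The formal Euler product evaluates to the analytic one. -/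
lemma hasEval_etaProd {q : ℂ} (hq : ‖q‖ < 1) :
    HasEval (ModularCurve.etaProd.map (Int.castRingHom ℂ)) q (eulerFun q) := by
  unfold HasEval
  simpa using hasSum_eulerFun hq

/-- The formal discriminant series `X * etaProd ^ 24` over `ℤ`. -/
noncomputable def deltaSeries : PowerSeries ℤ := PowerSeries.X * ModularCurve.etaProd ^ 24

lemma hasEval_deltaSeries {q : ℂ} (hq : ‖q‖ < 1) :
    HasEval (deltaSeries.map (Int.castRingHom ℂ)) q (q * eulerFun q ^ 24) := by
  have h := (hasEval_X q).mul ((hasEval_etaProd hq).pow 24)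
  simpa [deltaSeries] using h

/-- **P1b**: the `q`-expansion of the modular discriminant is the formal series
`X * ∏ (1 - X^n)^24` (with integer coefficients). -/
theorem qExpansion_discriminant :
    qExpansion 1 discriminant = deltaSeries.map (Int.castRingHom ℂ) := by
  ext m
  refine (ModularFormClass.qExpansion_coeff_unique (f := CuspForm.discriminant) one_pos
    one_mem_strictPeriods_SL
    (c := fun m => PowerSeries.coeff m (deltaSeries.map (Int.castRingHom ℂ))) ?_ m).symm
  intro τ
  have hq : ‖Function.Periodic.qParam 1 (τ : ℂ)‖ < 1 := by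
    exact_mod_cast UpperHalfPlane.norm_qParam_lt_one 1 τ
  have h := hasEval_deltaSeries hq
  have hΔ : CuspForm.discriminant τ =
      Function.Periodic.qParam 1 (τ : ℂ) * eulerFun (Function.Periodic.qParam 1 (τ : ℂ)) ^ 24 := by
    show discriminant τ = _
    rw [discriminant_eq_q_prod, eulerFun, ← (multipliable_one_sub_pow hq).tprod_pow]
  rw [hΔ]
  simpa [HasEval, smul_eq_mul] using h

theorem qExpansion_discriminant_coeff (m : ℕ) :
    PowerSeries.coeff m (qExpansion 1 discriminant) = ((PowerSeries.coeff m deltaSeries : ℤ) : ℂ) := by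
  rw [qExpansion_discriminant]; simp

/-- **P1a**: the `q`-expansion of `E₄` is the Prelude's formal series `eisenstein4`. -/
theorem qExpansion_E4 :
    qExpansion 1 E₄ = ModularCurve.eisenstein4.map (Int.castRingHom ℂ) := by
  ext m
  rw [EisensteinSeries.E_qExpansion_coeff (by norm_num : 3 ≤ 4) ⟨2, rfl⟩ m, PowerSeries.coeff_map,
    ModularCurve.eisenstein4, PowerSeries.coeff_mk]
  have hb : bernoulli 4 = -1 / 30 := by decide +kernel
  split_ifs with h
  · simp
  · rw [hb, ArithmeticFunction.sigma_apply, eq_intCast]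
    push_cast
    ring

theorem qExpansion_E4_coeff (m : ℕ) :
    PowerSeries.coeff m (qExpansion 1 E₄) = ((PowerSeries.coeff m ModularCurve.eisenstein4 : ℤ) : ℂ) := by
  rw [qExpansion_E4]; simp

/-- Convergent expansion of `Δ` on the upper half plane with the formal integer coefficients. -/
theorem hasSum_discriminant (τ : ℍ) :
    HasSum (fun m : ℕ => ((PowerSeries.coeff m deltaSeries : ℤ) : ℂ) *
      Function.Periodic.qParam 1 (τ : ℂ) ^ m) (discriminant τ) := by
  have h := ModularForm.hasSum_qExpansion (f := CuspForm.discriminant) one_pos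
    one_mem_strictPeriods_SL τ
  have h2 : ∀ m : ℕ, PowerSeries.coeff m (qExpansion 1 (CuspForm.discriminant : ℍ → ℂ)) =
      ((PowerSeries.coeff m deltaSeries : ℤ) : ℂ) := qExpansion_discriminant_coeff
  simp only [h2] at h
  exact h

/-- Convergent expansion of `E₄` on the upper half plane with the formal integer coefficients. -/
theorem hasSum_E4 (τ : ℍ) :
    HasSum (fun m : ℕ => ((PowerSeries.coeff m ModularCurve.eisenstein4 : ℤ) : ℂ) *
      Function.Periodic.qParam 1 (τ : ℂ) ^ m) (E₄ τ) := by
  have h := ModularForm.hasSum_qExpansion (f := E₄) one_pos one_mem_strictPeriods_SL τ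
  simp only [qExpansion_E4_coeff] at h
  exact h

lemma deltaSeries_eq : deltaSeries = PowerSeries.X * ModularCurve.dedekindEtaUnit := rfl

lemma coeff_zero_deltaSeries : PowerSeries.coeff 0 deltaSeries = 0 := by
  simp [deltaSeries]

lemma coeff_one_deltaSeries : PowerSeries.coeff 1 deltaSeries = 1 := by
  rw [deltaSeries_eq, PowerSeries.coeff_succ_X_mul, PowerSeries.coeff_zero_eq_constantCoeff]
  exact ModularCurve.constantCoeff_dedekindEtaUnit

/-- The formal identity `j · Δ = E₄³` for the Prelude's formal `j` over any commutative ring. -/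
theorem jqModC_mul_deltaSeries (K : Type*) [CommRing K] :
    ModularCurve.jqModC K *
        HahnSeries.ofPowerSeries ℤ K (deltaSeries.map (Int.castRingHom K)) =
      HahnSeries.ofPowerSeries ℤ K ((ModularCurve.eisenstein4 ^ 3).map (Int.castRingHom K)) := by
  have h1 : (ModularCurve.jNum * deltaSeries : PowerSeries ℤ) =
      PowerSeries.X * ModularCurve.eisenstein4 ^ 3 := by
    rw [ModularCurve.jNum, deltaSeries_eq]
    calc ModularCurve.eisenstein4 ^ 3 * ModularCurve.dedekindEtaUnitInv *
          (PowerSeries.X * ModularCurve.dedekindEtaUnit)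
        = PowerSeries.X * ModularCurve.eisenstein4 ^ 3 *
          (ModularCurve.dedekindEtaUnit * ModularCurve.dedekindEtaUnitInv) := by ring
      _ = PowerSeries.X * ModularCurve.eisenstein4 ^ 3 := by
          rw [ModularCurve.dedekindEtaUnit_mul_inv, mul_one]
  rw [ModularCurve.jqModC, mul_assoc, ← map_mul, ← map_mul, h1, map_mul, map_mul,
    PowerSeries.map_X, HahnSeries.ofPowerSeries_X, ← mul_assoc, HahnSeries.single_mul_single]
  simp

/-- The same identity for the Prelude's rational `jq`. -/
theorem jq_mul_deltaSeries :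
    ModularCurve.jq * HahnSeries.ofPowerSeries ℤ ℚ (deltaSeries.map (Int.castRingHom ℚ)) =
      HahnSeries.ofPowerSeries ℤ ℚ ((ModularCurve.eisenstein4 ^ 3).map (Int.castRingHom ℚ)) :=
  jqModC_mul_deltaSeries ℚ

end Fermat.Agent.Lib.helper386
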