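/-
helper386 — shared library module (S28 P2 / route E step E3; also S24 C4-type statements):
LEVEL-ONE INTEGRAL BASIS.

If `f` is a level-one modular form of weight `12 M` whose `q`-expansion coefficients lie in a
subring `O ⊆ ℂ`, then `f = ∑_{b ≤ M} c_b • E₄^(3(M-b)) Δ^b` with all `c_b ∈ O`; equivalently
`f / Δ^M = P(j)` with `P ∈ O[X]`, `deg P ≤ M`, `j = E₄³/Δ`.
-/
import Fermat.Agent.Lib.helper386_QExpBridge

set_option autoImplicit false

open UpperHalfPlane ModularForm
open scoped MatrixGroups Manifold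

namespace Fermat.Agent.Lib.helper386

/-- The discriminant as a level-one modular form of weight 12. -/
noncomputable def deltaForm : ModularForm 𝒮ℒ 12 :=
  ModularFormClass.modularForm CuspForm.discriminant

@[simp] lemma deltaForm_apply (z : ℍ) : deltaForm z = discriminant z := rfl

lemma qExpansion_deltaForm :
    qExpansion 1 deltaForm = deltaSeries.map (Int.castRingHom ℂ) :=
  qExpansion_discriminant

/-- `E₄^(3(M-b)) Δ^b` as a modular form of weight `12 M` (zero if `M < b`). -/
noncomputable def basisForm (M b : ℕ) : ModularForm 𝒮ℒ (12 * (M : ℤ)) :=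
  if h : b ≤ M then
    ModularForm.mcast (by push_cast [Nat.cast_sub h]; ring)
      ((E₄.pow (3 * (M - b))).mul (deltaForm.pow b))
  else 0

lemma basisForm_apply {M b : ℕ} (h : b ≤ M) (z : ℍ) :
    basisForm M b z = E₄ z ^ (3 * (M - b)) * discriminant z ^ b := by
  rw [basisForm, dif_pos h, ModularForm.mcast_apply, ModularForm.coe_mul, Pi.mul_apply,
    ModularForm.coe_pow, ModularForm.coe_pow]
  rfl

/-- The formal `q`-expansion of `basisForm M b`. -/
noncomputable def basisSeries (M b : ℕ) : PowerSeries ℤ :=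
  ModularCurve.eisenstein4 ^ (3 * (M - b)) * deltaSeries ^ b

lemma qExpansion_basisForm {M b : ℕ} (h : b ≤ M) :
    qExpansion 1 (basisForm M b) = (basisSeries M b).map (Int.castRingHom ℂ) := by
  rw [basisForm, dif_pos h, ModularForm.qExpansion_mcast,
    ModularForm.qExpansion_mul one_pos one_mem_strictPeriods_SL,
    ModularForm.qExpansion_pow one_pos one_mem_strictPeriods_SL,
    ModularForm.qExpansion_pow one_pos one_mem_strictPeriods_SL, qExpansion_E4,
    qExpansion_deltaForm, basisSeries, map_mul, map_pow, map_pow]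

lemma basisSeries_eq (M b : ℕ) :
    basisSeries M b = PowerSeries.X ^ b *
      (ModularCurve.eisenstein4 ^ (3 * (M - b)) * ModularCurve.dedekindEtaUnit ^ b) := by
  rw [basisSeries, deltaSeries_eq, mul_pow]
  ring

lemma coeff_basisSeries_of_lt {M b n : ℕ} (hn : n < b) :
    PowerSeries.coeff n (basisSeries M b) = 0 := by
  rw [basisSeries_eq, PowerSeries.coeff_X_pow_mul', if_neg (by omega)]

lemma coeff_basisSeries_self (M b : ℕ) :
    PowerSeries.coeff b (basisSeries M b) = 1 := by
  rw [basisSeries_eq, PowerSeries.coeff_X_pow_mul', if_pos le_rfl, Nat.sub_self,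
    PowerSeries.coeff_zero_eq_constantCoeff, map_mul, map_pow, map_pow,
    ModularCurve.constantCoeff_eisenstein4, ModularCurve.constantCoeff_dedekindEtaUnit]
  simp

private lemma triangular_aux (O : Subring ℂ) (M : ℕ) :
    ∀ r : ℕ, r ≤ M + 1 → ∀ f : ModularForm 𝒮ℒ (12 * (M : ℤ)),
      (∀ n, PowerSeries.coeff n (qExpansion 1 f) ∈ O) →
      (∀ n, n + r < M + 1 → PowerSeries.coeff n (qExpansion 1 f) = 0) →
      ∃ c : ℕ → O, f = ∑ b ∈ Finset.range (M + 1), (c b : ℂ) • basisForm M b := by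
  intro r
  induction r with
  | zero =>
    intro _ f _ hvan
    have hord : ((M + 1 : ℕ) : ℕ∞) ≤ (qExpansion 1 f).order :=
      PowerSeries.nat_le_order _ _ fun i hi => hvan i (by omega)
    have hM : (12 * (M : ℤ)).toNat / 12 = M := by omega
    have hf0 : f = 0 := by
      apply ModularForm.sturm_bound_levelOne
      rw [hM]
      exact lt_of_lt_of_le (by exact_mod_cast Nat.lt_succ_self M) hord
    exact ⟨0, by simp [hf0]⟩
  | succ r ih =>
    intro hr f hO hvan
    have hsM : M - r ≤ M := Nat.sub_le M r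
    set s := M - r with hs
    set a : ℂ := PowerSeries.coeff s (qExpansion 1 f) with ha
    have haO : a ∈ O := hO s
    set f' : ModularForm 𝒮ℒ (12 * (M : ℤ)) := f - a • basisForm M s with hf'
    have hq : qExpansion 1 f' = qExpansion 1 f - a • qExpansion 1 (basisForm M s) := by
      have h1 : (f' : ℍ → ℂ) = (f : ℍ → ℂ) - ((a • basisForm M s : ModularForm 𝒮ℒ (12 * (M : ℤ))) : ℍ → ℂ) := rfl
      rw [h1, ModularForm.qExpansion_sub one_pos one_mem_strictPeriods_SL f (a • basisForm M s)]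
      have h2 : ((a • basisForm M s : ModularForm 𝒮ℒ (12 * (M : ℤ))) : ℍ → ℂ) =
          a • (basisForm M s : ℍ → ℂ) := rfl
      rw [h2, ModularForm.qExpansion_smul one_pos one_mem_strictPeriods_SL a (basisForm M s)]
    have hcoeff : ∀ n, PowerSeries.coeff n (qExpansion 1 f') =
        PowerSeries.coeff n (qExpansion 1 f) -
          a * ((PowerSeries.coeff n (basisSeries M s) : ℤ) : ℂ) := by
      intro n
      rw [hq, qExpansion_basisForm hsM]
      simp
    obtain ⟨c', hc'⟩ := ih (by omega) f'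
      (fun n => by
        rw [hcoeff]
        exact O.sub_mem (hO n) (O.mul_mem haO (intCast_mem O _)))
      (fun n hn => by
        rw [hcoeff]
        rcases Nat.lt_or_ge n s with hlt | hge
        · rw [hvan n (by omega), coeff_basisSeries_of_lt hlt]
          simp
        · have hns : n = s := by omega
          rw [hns, coeff_basisSeries_self]
          simp [ha])
    refine ⟨fun b => c' b + if b = s then ⟨a, haO⟩ else 0, ?_⟩
    have hfe : f = f' + a • basisForm M s := by rw [hf']; abel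
    rw [hfe, hc']
    have hsum : ∑ b ∈ Finset.range (M + 1),
        (((c' b + if b = s then (⟨a, haO⟩ : O) else 0 : O) : ℂ)) • basisForm M b =
        ∑ b ∈ Finset.range (M + 1), (c' b : ℂ) • basisForm M b +
          ∑ b ∈ Finset.range (M + 1), (if b = s then a else 0) • basisForm M b := by
      rw [← Finset.sum_add_distrib]
      refine Finset.sum_congr rfl fun b _ => ?_
      rw [← add_smul]
      congr 1
      split_ifs <;> simp
    rw [hsum]
    congr 1
    rw [Finset.sum_eq_single s]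
    · simp
    · intro b _ hb
      simp [hb]
    · intro hnot
      exact absurd (Finset.mem_range.mpr (by omega)) hnot

/-- **P2 (level-one integral basis).** A level-one modular form of weight `12 M` whose
`q`-expansion coefficients lie in a subring `O` of `ℂ` is an `O`-linear combination of the forms
`E₄^(3(M-b)) Δ^b`, `0 ≤ b ≤ M`. -/
theorem exists_basisForm_coeffs (O : Subring ℂ) (M : ℕ) (f : ModularForm 𝒮ℒ (12 * (M : ℤ)))
    (hf : ∀ n, PowerSeries.coeff n (qExpansion 1 f) ∈ O) :
    ∃ c : ℕ → O, f = ∑ b ∈ Finset.range (M + 1), (c b : ℂ) • basisForm M b :=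
  triangular_aux O M (M + 1) le_rfl f hf (fun n hn => by omega)

private lemma sum_mf_apply {ι : Type*} (s : Finset ι) {k : ℤ} (g : ι → ModularForm 𝒮ℒ k) (z : ℍ) :
    (∑ b ∈ s, g b) z = ∑ b ∈ s, g b z := by
  classical
  induction s using Finset.induction_on with
  | empty => simp
  | insert a s ha ih => rw [Finset.sum_insert ha, Finset.sum_insert ha, ← ih]; rfl

/-- Pointwise form of `exists_basisForm_coeffs`. -/
theorem exists_coeffs_apply (O : Subring ℂ) (M : ℕ) (f : ModularForm 𝒮ℒ (12 * (M : ℤ)))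
    (hf : ∀ n, PowerSeries.coeff n (qExpansion 1 f) ∈ O) :
    ∃ c : ℕ → O, ∀ z : ℍ, f z = ∑ b ∈ Finset.range (M + 1),
      (c b : ℂ) * (E₄ z ^ (3 * (M - b)) * discriminant z ^ b) := by
  obtain ⟨c, hc⟩ := exists_basisForm_coeffs O M f hf
  refine ⟨c, fun z => ?_⟩
  have h : f z = (∑ b ∈ Finset.range (M + 1), (c b : ℂ) • basisForm M b) z :=
    congrArg (fun g : ModularForm 𝒮ℒ (12 * (M : ℤ)) => g z) hc
  rw [h, sum_mf_apply]
  refine Finset.sum_congr rfl fun b hb => ?_
  rw [← basisForm_apply (Nat.lt_succ_iff.mp (Finset.mem_range.mp hb))]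
  rfl

/-- Formal form of `exists_basisForm_coeffs`: the `q`-expansion of `f` is the corresponding
`O`-combination of the integer series `E₄^(3(M-b)) Δ^b`. -/
theorem exists_coeffs_qExpansion (O : Subring ℂ) (M : ℕ) (f : ModularForm 𝒮ℒ (12 * (M : ℤ)))
    (hf : ∀ n, PowerSeries.coeff n (qExpansion 1 f) ∈ O) :
    ∃ c : ℕ → O, (∀ z : ℍ, f z = ∑ b ∈ Finset.range (M + 1),
        (c b : ℂ) * (E₄ z ^ (3 * (M - b)) * discriminant z ^ b)) ∧
      ∀ n, PowerSeries.coeff n (qExpansion 1 f) = ∑ b ∈ Finset.range (M + 1),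
        (c b : ℂ) * ((PowerSeries.coeff n (basisSeries M b) : ℤ) : ℂ) := by
  obtain ⟨c, hc⟩ := exists_coeffs_apply O M f hf
  refine ⟨c, hc, ?_⟩
  have hsum : ∀ τ : ℍ, HasSum (fun n : ℕ => (∑ b ∈ Finset.range (M + 1),
      (c b : ℂ) * ((PowerSeries.coeff n (basisSeries M b) : ℤ) : ℂ)) •
        Function.Periodic.qParam 1 (τ : ℂ) ^ n) (f τ) := by
    intro τ
    rw [hc τ]
    have h1 : ∀ b ∈ Finset.range (M + 1), HasSum (fun n : ℕ =>
        ((c b : ℂ) * ((PowerSeries.coeff n (basisSeries M b) : ℤ) : ℂ)) *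
          Function.Periodic.qParam 1 (τ : ℂ) ^ n)
        ((c b : ℂ) * (E₄ τ ^ (3 * (M - b)) * discriminant τ ^ b)) := by
      intro b hb
      have hbM : b ≤ M := Nat.lt_succ_iff.mp (Finset.mem_range.mp hb)
      have h2 := ModularForm.hasSum_qExpansion (f := basisForm M b) one_pos
        one_mem_strictPeriods_SL τ
      rw [qExpansion_basisForm hbM, basisForm_apply hbM] at h2
      have h3 := h2.mul_left (c b : ℂ)
      simp only [PowerSeries.coeff_map, eq_intCast] at h3
      have hfun : (fun n : ℕ => ((c b : ℂ) * ((PowerSeries.coeff n (basisSeries M b) : ℤ) : ℂ)) *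
          Function.Periodic.qParam 1 (τ : ℂ) ^ n) = fun i : ℕ => (c b : ℂ) *
          (((PowerSeries.coeff i (basisSeries M b) : ℤ) : ℂ) *
            Function.Periodic.qParam 1 (τ : ℂ) ^ i) := by
        funext n
        rw [mul_assoc]
      rw [hfun]
      exact h3
    have h4 := hasSum_sum h1
    have hfun2 : (fun n : ℕ => (∑ b ∈ Finset.range (M + 1),
        (c b : ℂ) * ((PowerSeries.coeff n (basisSeries M b) : ℤ) : ℂ)) •
          Function.Periodic.qParam 1 (τ : ℂ) ^ n) = fun n : ℕ => ∑ b ∈ Finset.range (M + 1),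
        ((c b : ℂ) * ((PowerSeries.coeff n (basisSeries M b) : ℤ) : ℂ)) *
          Function.Periodic.qParam 1 (τ : ℂ) ^ n := by
      funext n
      rw [smul_eq_mul, Finset.sum_mul]
    rw [hfun2]
    exact h4
  intro n
  exact (ModularFormClass.qExpansion_coeff_unique one_pos one_mem_strictPeriods_SL hsum n).symm

/-- **P2, polynomial form.** A level-one modular form `f` of weight `12 M` with `q`-expansion
coefficients in a subring `O ⊆ ℂ` satisfies `f = Δ^M · P(j)` for a polynomial `P ∈ O[X]` of degree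
at most `M`, where `j = E₄³/Δ`. -/
theorem exists_polynomial_j (O : Subring ℂ) (M : ℕ) (f : ModularForm 𝒮ℒ (12 * (M : ℤ)))
    (hf : ∀ n, PowerSeries.coeff n (qExpansion 1 f) ∈ O) :
    ∃ P : Polynomial O, P.natDegree ≤ M ∧ ∀ z : ℍ,
      f z = discriminant z ^ M * (P.map O.subtype).eval (E₄ z ^ 3 / discriminant z) := by
  obtain ⟨c, hc⟩ := exists_coeffs_apply O M f hf
  refine ⟨∑ b ∈ Finset.range (M + 1), Polynomial.C (c b) * Polynomial.X ^ (M - b), ?_, fun z => ?_⟩
  · refine Polynomial.natDegree_sum_le_of_forall_le _ _ fun b _ => ?_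
    exact (Polynomial.natDegree_C_mul_X_pow_le _ _).trans (Nat.sub_le M b)
  · rw [hc z, Polynomial.map_sum, Polynomial.eval_finsetSum, Finset.mul_sum]
    refine Finset.sum_congr rfl fun b hb => ?_
    have hbM : b ≤ M := Nat.lt_succ_iff.mp (Finset.mem_range.mp hb)
    have hΔ : discriminant z ≠ 0 := discriminant_ne_zero z
    simp only [Polynomial.map_mul, Polynomial.map_C, Polynomial.map_pow, Polynomial.map_X,
      Polynomial.eval_mul, Polynomial.eval_C, Polynomial.eval_pow, Polynomial.eval_X,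
      Subring.coe_subtype]
    have hM : discriminant z ^ M = discriminant z ^ (M - b) * discriminant z ^ b := by
      rw [← pow_add, Nat.sub_add_cancel hbM]
    rw [hM, div_pow, ← pow_mul]
    field_simp

/-- **P2 over a coefficient ring.** If `φ : R →+* ℂ` is a ring hom and all `q`-expansion
coefficients of the level-one form `f` of weight `12 M` lie in the range of `φ`, then there are
`c_b ∈ R` with `f = ∑_b φ(c_b) E₄^(3(M-b)) Δ^b`, and the `q`-expansion of `f` is the image under `φ`
of the formal series `∑_b c_b · eisenstein4^(3(M-b)) · deltaSeries^b ∈ R⟦X⟧`.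
(Use with `R = ℤ`, `ℚ`, `ℤ[ζ_N, 1/N]`, ...) -/
theorem exists_coeffs_of_ringHom {R : Type*} [CommRing R] (φ : R →+* ℂ) (M : ℕ)
    (f : ModularForm 𝒮ℒ (12 * (M : ℤ)))
    (hf : ∀ n, PowerSeries.coeff n (qExpansion 1 f) ∈ φ.range) :
    ∃ c : ℕ → R, (∀ z : ℍ, f z = ∑ b ∈ Finset.range (M + 1),
        φ (c b) * (E₄ z ^ (3 * (M - b)) * discriminant z ^ b)) ∧
      qExpansion 1 f = PowerSeries.map φ (∑ b ∈ Finset.range (M + 1),
        PowerSeries.C (c b) * (basisSeries M b).map (Int.castRingHom R)) := by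
  obtain ⟨c₀, hc₀, hq₀⟩ := exists_coeffs_qExpansion φ.range M f hf
  choose c hc using fun b => (c₀ b).2
  refine ⟨c, fun z => ?_, ?_⟩
  · rw [hc₀ z]
    exact Finset.sum_congr rfl fun b _ => by rw [hc b]
  · ext n
    rw [hq₀ n, PowerSeries.coeff_map, map_sum, map_sum]
    refine Finset.sum_congr rfl fun b _ => ?_
    rw [PowerSeries.coeff_C_mul, PowerSeries.coeff_map, map_mul, hc b, eq_intCast, map_intCast]

/-- A holomorphic function on `ℍ` which is slash-invariant of weight `k` under `SL(2, ℤ)` and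
bounded at `i∞` is a level-one modular form. -/
noncomputable def ofSlashInvariant (k : ℤ) (g : ℍ → ℂ) (hg : MDifferentiable 𝓘(ℂ) 𝓘(ℂ) g)
    (hinv : ∀ γ : SL(2, ℤ), g ∣[k] γ = g) (hbdd : IsBoundedAtImInfty g) : ModularForm 𝒮ℒ k where
  toFun := g
  slash_action_eq' := fun _ ⟨γ, hγ⟩ => hγ ▸ hinv γ
  holo' := hg
  bdd_at_cusps' {c} hc := by
    rw [OnePoint.isBoundedAt_iff_forall_SL2Z hc]
    intro γ _
    rw [hinv γ]
    exact hbdd

@[simp] lemma ofSlashInvariant_apply (k : ℤ) (g : ℍ → ℂ) (hg : MDifferentiable 𝓘(ℂ) 𝓘(ℂ) g)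
    (hinv : ∀ γ : SL(2, ℤ), g ∣[k] γ = g) (hbdd : IsBoundedAtImInfty g) (z : ℍ) :
    ofSlashInvariant k g hg hinv hbdd z = g z := rfl

/-- `Δ^M · F` is slash-invariant of weight `12 M` when `F` is `SL(2, ℤ)`-invariant. -/
lemma discriminant_pow_mul_slash (F : ℍ → ℂ) (hinv : ∀ (γ : SL(2, ℤ)) (τ : ℍ), F (γ • τ) = F τ)
    (M : ℕ) (γ : SL(2, ℤ)) :
    (fun τ => discriminant τ ^ M * F τ) ∣[12 * (M : ℤ)] γ = fun τ => discriminant τ ^ M * F τ := by
  funext τ
  have hΔ : discriminant (γ • τ) * UpperHalfPlane.denom γ τ ^ (-(12 : ℤ)) = discriminant τ := by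
    have h := congrFun (CuspForm.discriminant.slash_action_eq' (γ : GL (Fin 2) ℝ) ⟨γ, rfl⟩) τ
    rw [← ModularForm.SL_slash, ModularForm.SL_slash_apply] at h
    exact h
  rw [ModularForm.SL_slash_apply, hinv γ τ]
  have hpow : UpperHalfPlane.denom γ τ ^ (-(12 * (M : ℤ))) =
      (UpperHalfPlane.denom γ τ ^ (-(12 : ℤ))) ^ M := by
    rw [← zpow_natCast, ← zpow_mul]
    congr 1
  rw [hpow]
  calc discriminant (γ • τ) ^ M * F τ * (UpperHalfPlane.denom γ τ ^ (-(12 : ℤ))) ^ M
      = (discriminant (γ • τ) * UpperHalfPlane.denom γ τ ^ (-(12 : ℤ))) ^ M * F τ := by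
        rw [mul_pow]; ring
    _ = discriminant τ ^ M * F τ := by rw [hΔ]

/-- **P2 for invariant functions** (subring version of "an `SL(2, ℤ)`-invariant holomorphic
function with a finite-order pole at `i∞` is a polynomial in `j`"): if `F` is holomorphic and
`SL(2, ℤ)`-invariant, `Δ^M F` is bounded at `i∞` and has `q`-expansion coefficients in the subring
`O ⊆ ℂ`, then `F = P(j)` with `P ∈ O[X]` of degree `≤ M`. -/
theorem exists_polynomial_of_invariant (O : Subring ℂ) (F : ℍ → ℂ)
    (hF : MDifferentiable 𝓘(ℂ) 𝓘(ℂ) F)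
    (hinv : ∀ (γ : SL(2, ℤ)) (τ : ℍ), F (γ • τ) = F τ) (M : ℕ)
    (hbdd : IsBoundedAtImInfty (fun τ => discriminant τ ^ M * F τ))
    (hO : ∀ n, PowerSeries.coeff n (qExpansion 1 (fun τ => discriminant τ ^ M * F τ)) ∈ O) :
    ∃ P : Polynomial O, P.natDegree ≤ M ∧
      ∀ τ : ℍ, F τ = (P.map O.subtype).eval (E₄ τ ^ 3 / discriminant τ) := by
  have hhol : MDifferentiable 𝓘(ℂ) 𝓘(ℂ) (fun τ => discriminant τ ^ M * F τ) :=
    (CuspForm.discriminant.holo'.pow M).mul hF
  obtain ⟨P, hP, hPf⟩ := exists_polynomial_j O M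
    (ofSlashInvariant (12 * (M : ℤ)) _ hhol (discriminant_pow_mul_slash F hinv M) hbdd) hO
  refine ⟨P, hP, fun τ => ?_⟩
  have h := hPf τ
  rw [ofSlashInvariant_apply] at h
  exact mul_left_cancel₀ (pow_ne_zero M (discriminant_ne_zero τ)) h

end Fermat.Agent.Lib.helper386
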