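import Fermat.Agent.S28.helper4768_DegSturm
import Fermat.Agent.Lib.helper1356_Gamma0Index

/-!
# Four modular identities at levels 2 and 3, as identities of formal integer `q`-series
(helper3874; input of the Hauptmodul package `helper3874_Hauptmodul`)

With `E = eisenstein4`, `Δ = DeltaZ = X * etaProd ^ 24` in `ℤ⟦X⟧` and `f(q^d) = expand d f`:

* `sturm2a` : `E³ Δ Δ(q²) = (Δ + 256 Δ(q²))³`
* `sturm2b` : `E(q²)³ Δ Δ(q²) = (Δ + 16 Δ(q²))³`
* `sturm3a` : `(Δ² + 196830 Δ Δ(q³) + 387420489 Δ(q³)²)² = Δ Δ(q³) (E³ - 756 Δ - 19131876 Δ(q³))²`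
* `sturm3b` : `(Δ² + 270 Δ Δ(q³) + 729 Δ(q³)²)² = Δ Δ(q³) (E(q³)³ - 36 Δ - 756 Δ(q³))²`

Proof: both sides are `q`-expansions of modular forms of weight `36` on `Γ₀(2)` (resp. `48` on
`Γ₀(3)`), so by the Sturm bound (landed S28 module `helper4768_DegSturm`) it suffices to compare
the coefficients of `q^n`, `n ≤ 9` (resp. `n ≤ 16`); this is a kernel-checked computation with
truncated coefficient lists.
-/

set_option autoImplicit false

open PowerSeries ModularCurve

namespace Fermat.Agent.Lib.helper3874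

/-! ## Truncated coefficient lists -/

/-- `n`-th coefficient of the product of two coefficient lists. -/
def lconv (a b : List ℤ) (n : ℕ) : ℤ :=
  ((List.range (n + 1)).map fun i => a.getD i 0 * b.getD (n - i) 0).sum

/-- Truncated product of coefficient lists. -/
def lmul (B : ℕ) (a b : List ℤ) : List ℤ := (List.range B).map (lconv a b)

/-- Truncated sum of coefficient lists. -/
def ladd (B : ℕ) (a b : List ℤ) : List ℤ := (List.range B).map fun n => a.getD n 0 + b.getD n 0

/-- Truncated difference of coefficient lists. -/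
def lsub (B : ℕ) (a b : List ℤ) : List ℤ := (List.range B).map fun n => a.getD n 0 - b.getD n 0

/-- Truncated scalar multiple of a coefficient list. -/
def lsmul (B : ℕ) (c : ℤ) (a : List ℤ) : List ℤ := (List.range B).map fun n => c * a.getD n 0

/-- Truncated substitution `q ↦ q^d`. -/
def lexpand (B d : ℕ) (a : List ℤ) : List ℤ :=
  (List.range B).map fun n => if d ∣ n then a.getD (n / d) 0 else 0

/-- Truncated multiplication by `q`. -/
def lshift (B : ℕ) (a : List ℤ) : List ℤ :=
  (List.range B).map fun n => if n = 0 then 0 else a.getD (n - 1) 0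

/-- The coefficient list of `1`. -/
def lone (B : ℕ) : List ℤ := (List.range B).map fun n => if n = 0 then 1 else 0

/-- Truncated power of a coefficient list. -/
def lpow (B : ℕ) (a : List ℤ) : ℕ → List ℤ
  | 0 => lone B
  | k + 1 => lmul B (lpow B a k) a

/-- The coefficient list of `1 - q^(m+1)`. -/
def lfactor (B m : ℕ) : List ℤ :=
  (List.range B).map fun n => if n = 0 then 1 else if n = m + 1 then -1 else 0

/-- The coefficient list of `∏_{k < m} (1 - q^(k+1))`. -/
def letaPart (B : ℕ) : ℕ → List ℤ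
  | 0 => lone B
  | m + 1 => lmul B (letaPart B m) (lfactor B m)

/-- The list `l` gives the first `B` coefficients of `s`. -/
def Agree (B : ℕ) (s : PowerSeries ℤ) (l : List ℤ) : Prop := ∀ n < B, coeff n s = l.getD n 0

theorem getD_map_range (f : ℕ → ℤ) {B n : ℕ} (h : n < B) :
    ((List.range B).map f).getD n 0 = f n := by
  simp [List.getD_eq_getElem?_getD, h]

theorem list_sum_map_range (f : ℕ → ℤ) (n : ℕ) :
    ((List.range n).map f).sum = ∑ i ∈ Finset.range n, f i := by
  induction n with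
  | zero => simp
  | succ n ih =>
    rw [List.range_succ, List.map_append, List.sum_append, ih, Finset.sum_range_succ]; simp

theorem Agree.mul {B : ℕ} {s t : PowerSeries ℤ} {l m : List ℤ} (hs : Agree B s l)
    (ht : Agree B t m) : Agree B (s * t) (lmul B l m) := by
  intro n hn
  rw [lmul, getD_map_range _ hn, lconv, list_sum_map_range, coeff_mul,
    Finset.Nat.sum_antidiagonal_eq_sum_range_succ (fun i j => coeff i s * coeff j t)]
  refine Finset.sum_congr rfl fun i hi => ?_
  have hi' : i < n + 1 := Finset.mem_range.mp hi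
  rw [hs i (by omega), ht (n - i) (by omega)]

theorem Agree.add {B : ℕ} {s t : PowerSeries ℤ} {l m : List ℤ} (hs : Agree B s l)
    (ht : Agree B t m) : Agree B (s + t) (ladd B l m) := by
  intro n hn
  rw [ladd, getD_map_range _ hn, map_add, hs n hn, ht n hn]

theorem Agree.sub {B : ℕ} {s t : PowerSeries ℤ} {l m : List ℤ} (hs : Agree B s l)
    (ht : Agree B t m) : Agree B (s - t) (lsub B l m) := by
  intro n hn
  rw [lsub, getD_map_range _ hn, map_sub, hs n hn, ht n hn]

theorem Agree.smul {B : ℕ} {s : PowerSeries ℤ} {l : List ℤ} (c : ℤ) (hs : Agree B s l) :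
    Agree B (PowerSeries.C c * s) (lsmul B c l) := by
  intro n hn
  rw [lsmul, getD_map_range _ hn, ← hs n hn, coeff_C_mul]

theorem Agree.expand {B : ℕ} {s : PowerSeries ℤ} {l : List ℤ} (d : ℕ) (hd : d ≠ 0)
    (hs : Agree B s l) : Agree B (PowerSeries.expand d hd s) (lexpand B d l) := by
  intro n hn
  rw [lexpand, getD_map_range _ hn]
  split_ifs with h
  · obtain ⟨k, rfl⟩ := h
    rw [PowerSeries.coeff_expand_mul, Nat.mul_div_cancel_left _ (Nat.pos_of_ne_zero hd)]
    exact hs k (lt_of_le_of_lt (Nat.le_mul_of_pos_left k (Nat.pos_of_ne_zero hd)) hn)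
  · exact PowerSeries.coeff_expand_of_not_dvd d hd s h

theorem Agree.X_mul {B : ℕ} {s : PowerSeries ℤ} {l : List ℤ} (hs : Agree B s l) :
    Agree B (PowerSeries.X * s) (lshift B l) := by
  intro n hn
  rw [lshift, getD_map_range _ hn]
  rcases n with _ | n
  · simp
  · rw [if_neg (Nat.succ_ne_zero n), PowerSeries.coeff_succ_X_mul]
    exact hs n (by omega)

theorem Agree.mono {B B' : ℕ} {s : PowerSeries ℤ} {l : List ℤ} (hs : Agree B s l) (h : B' ≤ B) :
    Agree B' s l := fun n hn => hs n (lt_of_lt_of_le hn h)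

theorem Agree.congr {B : ℕ} {s : PowerSeries ℤ} {l l' : List ℤ} (hs : Agree B s l) (h : l = l') :
    Agree B s l' := h ▸ hs

theorem agree_one (B : ℕ) : Agree B 1 (lone B) := by
  intro n hn
  rw [lone, getD_map_range _ hn, PowerSeries.coeff_one]

theorem Agree.pow {B : ℕ} {s : PowerSeries ℤ} {l : List ℤ} (hs : Agree B s l) (k : ℕ) :
    Agree B (s ^ k) (lpow B l k) := by
  induction k with
  | zero => rw [pow_zero]; exact agree_one B
  | succ k ih => rw [pow_succ]; exact ih.mul hs

theorem agree_factor (B m : ℕ) : Agree B (1 - PowerSeries.X ^ (m + 1)) (lfactor B m) := by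
  intro n hn
  rw [lfactor, getD_map_range _ hn, map_sub, PowerSeries.coeff_one, PowerSeries.coeff_X_pow]
  rcases n with _ | n
  · simp
  · by_cases h : n = m
    · simp [h]
    · simp [h]

theorem agree_etaPart (B m : ℕ) :
    Agree B (∏ k ∈ Finset.range m, ((1 : PowerSeries ℤ) - PowerSeries.X ^ (k + 1)))
      (letaPart B m) := by
  induction m with
  | zero => rw [Finset.prod_range_zero]; exact agree_one B
  | succ m ih => rw [Finset.prod_range_succ]; exact ih.mul (agree_factor B m)

/-! ## The eta product: truncation of the infinite product -/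

theorem coeff_prod_range_eq {n B : ℕ} (hn : n < B) (m : ℕ) (hm : B ≤ m) :
    coeff n (∏ k ∈ Finset.range m, ((1 : PowerSeries ℤ) - PowerSeries.X ^ (k + 1))) =
      coeff n (∏ k ∈ Finset.range B, ((1 : PowerSeries ℤ) - PowerSeries.X ^ (k + 1))) := by
  induction m, hm using Nat.le_induction with
  | base => rfl
  | succ m hm ih =>
    rw [Finset.prod_range_succ, mul_sub, mul_one, map_sub, ih, PowerSeries.coeff_mul_X_pow',
      if_neg (by omega), sub_zero]

open scoped PowerSeries.WithPiTopology in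
theorem coeff_etaProd_eq {n B : ℕ} (hn : n < B) :
    coeff n etaProd =
      coeff n (∏ k ∈ Finset.range B, ((1 : PowerSeries ℤ) - PowerSeries.X ^ (k + 1))) := by
  have hmul := PowerSeries.WithPiTopology.multipliable_one_sub_X_pow ℤ
  have htend := hmul.hasProd.tendsto_prod_nat
  have hc := ((PowerSeries.WithPiTopology.continuous_coeff (R := ℤ) n).tendsto _).comp htend
  have hev : ∀ᶠ m in Filter.atTop,
      coeff n (∏ k ∈ Finset.range B, ((1 : PowerSeries ℤ) - PowerSeries.X ^ (k + 1))) =
        coeff n (∏ k ∈ Finset.range m, ((1 : PowerSeries ℤ) - PowerSeries.X ^ (k + 1))) :=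
    Filter.eventually_atTop.mpr ⟨B, fun m hm => (coeff_prod_range_eq hn m hm).symm⟩
  exact tendsto_nhds_unique hc (tendsto_const_nhds.congr' hev)

theorem agree_etaProd (B : ℕ) : Agree B etaProd (letaPart B B) := by
  intro n hn
  rw [coeff_etaProd_eq hn]
  exact agree_etaPart B B n hn

/-! ## The Eisenstein series -/

/-- `σ₃(n)` computed with lists. -/
def lsigma3 (n : ℕ) : ℤ :=
  (((List.range (n + 1)).filter fun d => d ∣ n).map fun (d : ℕ) => (d : ℤ) ^ 3).sum

/-- The coefficient list of `E₄`. -/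
def lE4 (B : ℕ) : List ℤ := (List.range B).map fun n => if n = 0 then 1 else 240 * lsigma3 n

theorem sum_divisors_eq_lsigma3 {n : ℕ} (hn : n ≠ 0) :
    ∑ d ∈ n.divisors, (d : ℤ) ^ 3 = lsigma3 n := by
  have h1 : n.divisors = ((List.range (n + 1)).filter fun d => d ∣ n).toFinset := by
    ext d
    simp only [Nat.mem_divisors, List.mem_toFinset, List.mem_filter, List.mem_range,
      decide_eq_true_eq]
    constructor
    · rintro ⟨hd, -⟩
      exact ⟨Nat.lt_succ_of_le (Nat.le_of_dvd (Nat.pos_of_ne_zero hn) hd), hd⟩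
    · rintro ⟨-, hd⟩
      exact ⟨hd, hn⟩
  rw [h1, List.sum_toFinset _ ((List.nodup_range).filter _), lsigma3]

theorem agree_E4 (B : ℕ) : Agree B eisenstein4 (lE4 B) := by
  intro n hn
  rw [lE4, getD_map_range _ hn, eisenstein4, PowerSeries.coeff_mk]
  split_ifs with h
  · rfl
  · rw [sum_divisors_eq_lsigma3 h]

/-! ## The discriminant -/

/-- The formal discriminant `Δ = q ∏ (1 - qⁿ)²⁴` with integer coefficients. -/
noncomputable def DeltaZ : PowerSeries ℤ := PowerSeries.X * etaProd ^ 24

theorem Agree.eq_zero {B : ℕ} {s : PowerSeries ℤ} {l : List ℤ} (h : Agree B s l)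
    (hl : l = List.replicate B 0) : ∀ n < B, coeff n s = 0 := by
  intro n hn
  rw [h n hn, hl, List.getD_eq_getElem?_getD, List.getElem?_replicate]
  simp [hn]

/-! ## Coefficient tables (the first 17 coefficients) -/

/-- `∏ (1 - qⁿ)`. -/
def tEta : List ℤ := [1, -1, -1, 0, 0, 1, 0, 1, 0, 0, 0, 0, -1, 0, 0, -1, 0]

/-- `Δ`. -/
def tDelta : List ℤ := [0, 1, -24, 252, -1472, 4830, -6048, -16744, 84480, -113643, -115920,
  534612, -370944, -577738, 401856, 1217160, 987136]

/-- `Δ(q²)`. -/
def tDelta2 : List ℤ := [0, 0, 1, 0, -24, 0, 252, 0, -1472, 0, 4830, 0, -6048, 0, -16744, 0, 84480]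

/-- `Δ(q³)`. -/
def tDelta3 : List ℤ := [0, 0, 0, 1, 0, 0, -24, 0, 0, 252, 0, 0, -1472, 0, 0, 4830, 0]

/-- `E₄`. -/
def tE4 : List ℤ := [1, 240, 2160, 6720, 17520, 30240, 60480, 82560, 140400, 181680, 272160,
  319680, 490560, 527520, 743040, 846720, 1123440]

/-- `E₄(q²)`. -/
def tE4_2 : List ℤ := [1, 0, 240, 0, 2160, 0, 6720, 0, 17520, 0, 30240, 0, 60480, 0, 82560, 0,
  140400]

/-- `E₄(q³)`. -/
def tE4_3 : List ℤ := [1, 0, 0, 240, 0, 0, 2160, 0, 0, 6720, 0, 0, 17520, 0, 0, 30240, 0]

theorem agree_tEta : Agree 17 etaProd tEta :=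
  (agree_etaProd 17).congr (by decide +kernel)

theorem agree_tDelta : Agree 17 DeltaZ tDelta :=
  (agree_tEta.pow 24).X_mul.congr (by decide +kernel)

theorem agree_tDelta2 : Agree 17 (PowerSeries.expand 2 two_ne_zero DeltaZ) tDelta2 :=
  (agree_tDelta.expand 2 two_ne_zero).congr (by decide +kernel)

theorem agree_tDelta3 : Agree 17 (PowerSeries.expand 3 three_ne_zero DeltaZ) tDelta3 :=
  (agree_tDelta.expand 3 three_ne_zero).congr (by decide +kernel)

theorem agree_tE4 : Agree 17 eisenstein4 tE4 :=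
  (agree_E4 17).congr (by decide +kernel)

theorem agree_tE4_2 : Agree 17 (PowerSeries.expand 2 two_ne_zero eisenstein4) tE4_2 :=
  (agree_tE4.expand 2 two_ne_zero).congr (by decide +kernel)

theorem agree_tE4_3 : Agree 17 (PowerSeries.expand 3 three_ne_zero eisenstein4) tE4_3 :=
  (agree_tE4.expand 3 three_ne_zero).congr (by decide +kernel)

/-! ## The Sturm bound for integer series -/

open Fermat.Agent.S28.helper4768 in
theorem map_DeltaZ : DeltaZ.map (Int.castRingHom ℚ) = DeltaQ := by
  rw [DeltaZ, DeltaQ, map_mul, PowerSeries.map_X]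

open Fermat.Agent.S28.helper4768 in
theorem eq_zero_of_sturm (N : ℕ) [NeZero N] (k : ℤ) {s : PowerSeries ℤ}
    (h : IsQExp N k (s.map (Int.castRingHom ℚ)))
    (hc : ∀ n : ℕ, n ≤ (k * (CongruenceSubgroup.Gamma0 N).index).toNat / 12 → coeff n s = 0) :
    s = 0 := by
  have h0 := h.eq_zero_of_coeff (fun n hn => by rw [PowerSeries.coeff_map, hc n hn, map_zero])
  exact PowerSeries.map_injective _ Int.cast_injective (by rw [h0, map_zero])

theorem index_Gamma0_two : (CongruenceSubgroup.Gamma0 2).index = 3 := by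
  rw [Fermat.Agent.Lib.helper1356.index_Gamma0 2 two_ne_zero]
  have h := Fermat.Agent.Lib.helper1356.dedekindPsi_mul_prime_of_not_dvd (M := 1) (p := 2)
    Nat.prime_two one_ne_zero (by norm_num)
  rw [dedekindPsi_one] at h
  simpa using h

theorem index_Gamma0_three : (CongruenceSubgroup.Gamma0 3).index = 4 := by
  rw [Fermat.Agent.Lib.helper1356.index_Gamma0 3 three_ne_zero]
  have h := Fermat.Agent.Lib.helper1356.dedekindPsi_mul_prime_of_not_dvd (M := 1) (p := 3)
    Nat.prime_three one_ne_zero (by norm_num)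
  rw [dedekindPsi_one] at h
  simpa using h

/-! ## The four identities -/

section Identities

open Fermat.Agent.S28.helper4768

theorem map_eisenstein4 : eisenstein4.map (Int.castRingHom ℚ) = E4Q := rfl

theorem isQExp_sub {N : ℕ} {k : ℤ} {s s' : PowerSeries ℚ} (h : IsQExp N k s)
    (h' : IsQExp N k s') : IsQExp N k (s - s') := by
  rw [sub_eq_add_neg]
  exact h.add h'.neg

/-- `E₄³ Δ Δ(q²) = (Δ + 256 Δ(q²))³`. -/
theorem sturm2a :
    eisenstein4 ^ 3 * DeltaZ * PowerSeries.expand 2 two_ne_zero DeltaZ =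
      (DeltaZ + 256 * PowerSeries.expand 2 two_ne_zero DeltaZ) ^ 3 := by
  have hC : (256 : PowerSeries ℤ) = PowerSeries.C 256 := (map_ofNat PowerSeries.C 256).symm
  rw [hC, ← sub_eq_zero]
  refine eq_zero_of_sturm 2 36 ?_ ?_
  · have hE : IsQExp 2 4 E4Q := isQExp_E4 2
    have hD : IsQExp 2 12 DeltaQ := isQExp_Delta 2
    have hD2 : IsQExp 2 12 (PowerSeries.expand 2 two_ne_zero DeltaQ) :=
      isQExp_Delta_expand (dvd_refl 2) two_ne_zero
    simp only [map_sub, map_mul, map_pow, map_add, PowerSeries.map_C, PowerSeries.map_expand,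
      map_DeltaZ, map_eisenstein4]
    exact isQExp_sub ((((hE.pow 3).mul hD).mul hD2).cast (by norm_num))
      (((hD.add (hD2.C_mul _)).pow 3).cast (by norm_num))
  · intro n hn
    rw [index_Gamma0_two] at hn
    have hn' : n < 17 := by
      norm_num at hn
      omega
    exact Agree.eq_zero ((((agree_tE4.pow 3).mul agree_tDelta).mul agree_tDelta2).sub
      ((agree_tDelta.add (agree_tDelta2.smul 256)).pow 3)) (by decide +kernel) n hn'

/-- `E₄(q²)³ Δ Δ(q²) = (Δ + 16 Δ(q²))³`. -/
theorem sturm2b :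
    PowerSeries.expand 2 two_ne_zero eisenstein4 ^ 3 * DeltaZ *
        PowerSeries.expand 2 two_ne_zero DeltaZ =
      (DeltaZ + 16 * PowerSeries.expand 2 two_ne_zero DeltaZ) ^ 3 := by
  have hC : (16 : PowerSeries ℤ) = PowerSeries.C 16 := (map_ofNat PowerSeries.C 16).symm
  rw [hC, ← sub_eq_zero]
  refine eq_zero_of_sturm 2 36 ?_ ?_
  · have hE : IsQExp 2 4 (PowerSeries.expand 2 two_ne_zero E4Q) :=
      isQExp_E4_expand (dvd_refl 2) two_ne_zero
    have hD : IsQExp 2 12 DeltaQ := isQExp_Delta 2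
    have hD2 : IsQExp 2 12 (PowerSeries.expand 2 two_ne_zero DeltaQ) :=
      isQExp_Delta_expand (dvd_refl 2) two_ne_zero
    simp only [map_sub, map_mul, map_pow, map_add, PowerSeries.map_C, PowerSeries.map_expand,
      map_DeltaZ, map_eisenstein4]
    exact isQExp_sub ((((hE.pow 3).mul hD).mul hD2).cast (by norm_num))
      (((hD.add (hD2.C_mul _)).pow 3).cast (by norm_num))
  · intro n hn
    rw [index_Gamma0_two] at hn
    have hn' : n < 17 := by
      norm_num at hn
      omega
    exact Agree.eq_zero ((((agree_tE4_2.pow 3).mul agree_tDelta).mul agree_tDelta2).sub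
      ((agree_tDelta.add (agree_tDelta2.smul 16)).pow 3)) (by decide +kernel) n hn'

/-- `(Δ² + 196830 Δ Δ(q³) + 387420489 Δ(q³)²)² = Δ Δ(q³) (E₄³ - 756 Δ - 19131876 Δ(q³))²`. -/
theorem sturm3a :
    (DeltaZ ^ 2 + 196830 * (DeltaZ * PowerSeries.expand 3 three_ne_zero DeltaZ) +
        387420489 * PowerSeries.expand 3 three_ne_zero DeltaZ ^ 2) ^ 2 =
      DeltaZ * PowerSeries.expand 3 three_ne_zero DeltaZ *
        (eisenstein4 ^ 3 - 756 * DeltaZ -
          19131876 * PowerSeries.expand 3 three_ne_zero DeltaZ) ^ 2 := by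
  have hC1 : (196830 : PowerSeries ℤ) = PowerSeries.C 196830 :=
    (map_ofNat PowerSeries.C 196830).symm
  have hC2 : (387420489 : PowerSeries ℤ) = PowerSeries.C 387420489 :=
    (map_ofNat PowerSeries.C 387420489).symm
  have hC3 : (756 : PowerSeries ℤ) = PowerSeries.C 756 := (map_ofNat PowerSeries.C 756).symm
  have hC4 : (19131876 : PowerSeries ℤ) = PowerSeries.C 19131876 :=
    (map_ofNat PowerSeries.C 19131876).symm
  rw [hC1, hC2, hC3, hC4, ← sub_eq_zero]
  refine eq_zero_of_sturm 3 48 ?_ ?_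
  · have hE : IsQExp 3 4 E4Q := isQExp_E4 3
    have hD : IsQExp 3 12 DeltaQ := isQExp_Delta 3
    have hD3 : IsQExp 3 12 (PowerSeries.expand 3 three_ne_zero DeltaQ) :=
      isQExp_Delta_expand (dvd_refl 3) three_ne_zero
    simp only [map_sub, map_mul, map_pow, map_add, PowerSeries.map_C, PowerSeries.map_expand,
      map_DeltaZ, map_eisenstein4]
    have hA : IsQExp 3 24 (DeltaQ ^ 2 +
        PowerSeries.C 196830 * (DeltaQ * PowerSeries.expand 3 three_ne_zero DeltaQ) +
        PowerSeries.C 387420489 * PowerSeries.expand 3 three_ne_zero DeltaQ ^ 2) :=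
      (((hD.pow 2).cast (by norm_num)).add (((hD.mul hD3).C_mul _).cast (by norm_num))).add
        (((hD3.pow 2).C_mul _).cast (by norm_num))
    have hB : IsQExp 3 12 (E4Q ^ 3 - PowerSeries.C 756 * DeltaQ -
        PowerSeries.C 19131876 * PowerSeries.expand 3 three_ne_zero DeltaQ) :=
      isQExp_sub (isQExp_sub ((hE.pow 3).cast (by norm_num)) (hD.C_mul _))
        (hD3.C_mul _)
    exact isQExp_sub ((hA.pow 2).cast (by norm_num))
      (((hD.mul hD3).mul (hB.pow 2)).cast (by norm_num))
  · intro n hn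
    rw [index_Gamma0_three] at hn
    have hn' : n < 17 := by
      norm_num at hn
      omega
    exact Agree.eq_zero
      ((((((agree_tDelta.pow 2).add ((agree_tDelta.mul agree_tDelta3).smul 196830)).add
        ((agree_tDelta3.pow 2).smul 387420489)).pow 2)).sub
      ((agree_tDelta.mul agree_tDelta3).mul
        ((((agree_tE4.pow 3).sub (agree_tDelta.smul 756)).sub
          (agree_tDelta3.smul 19131876)).pow 2))) (by decide +kernel) n hn'

/-- `(Δ² + 270 Δ Δ(q³) + 729 Δ(q³)²)² = Δ Δ(q³) (E₄(q³)³ - 36 Δ - 756 Δ(q³))²`. -/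
theorem sturm3b :
    (DeltaZ ^ 2 + 270 * (DeltaZ * PowerSeries.expand 3 three_ne_zero DeltaZ) +
        729 * PowerSeries.expand 3 three_ne_zero DeltaZ ^ 2) ^ 2 =
      DeltaZ * PowerSeries.expand 3 three_ne_zero DeltaZ *
        (PowerSeries.expand 3 three_ne_zero eisenstein4 ^ 3 - 36 * DeltaZ -
          756 * PowerSeries.expand 3 three_ne_zero DeltaZ) ^ 2 := by
  have hC1 : (270 : PowerSeries ℤ) = PowerSeries.C 270 := (map_ofNat PowerSeries.C 270).symm
  have hC2 : (729 : PowerSeries ℤ) = PowerSeries.C 729 := (map_ofNat PowerSeries.C 729).symm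
  have hC3 : (36 : PowerSeries ℤ) = PowerSeries.C 36 := (map_ofNat PowerSeries.C 36).symm
  have hC4 : (756 : PowerSeries ℤ) = PowerSeries.C 756 := (map_ofNat PowerSeries.C 756).symm
  rw [hC1, hC2, hC3, hC4, ← sub_eq_zero]
  refine eq_zero_of_sturm 3 48 ?_ ?_
  · have hE : IsQExp 3 4 (PowerSeries.expand 3 three_ne_zero E4Q) :=
      isQExp_E4_expand (dvd_refl 3) three_ne_zero
    have hD : IsQExp 3 12 DeltaQ := isQExp_Delta 3
    have hD3 : IsQExp 3 12 (PowerSeries.expand 3 three_ne_zero DeltaQ) :=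
      isQExp_Delta_expand (dvd_refl 3) three_ne_zero
    simp only [map_sub, map_mul, map_pow, map_add, PowerSeries.map_C, PowerSeries.map_expand,
      map_DeltaZ, map_eisenstein4]
    have hA : IsQExp 3 24 (DeltaQ ^ 2 +
        PowerSeries.C 270 * (DeltaQ * PowerSeries.expand 3 three_ne_zero DeltaQ) +
        PowerSeries.C 729 * PowerSeries.expand 3 three_ne_zero DeltaQ ^ 2) :=
      (((hD.pow 2).cast (by norm_num)).add (((hD.mul hD3).C_mul _).cast (by norm_num))).add
        (((hD3.pow 2).C_mul _).cast (by norm_num))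
    have hB : IsQExp 3 12 (PowerSeries.expand 3 three_ne_zero E4Q ^ 3 - PowerSeries.C 36 * DeltaQ -
        PowerSeries.C 756 * PowerSeries.expand 3 three_ne_zero DeltaQ) :=
      isQExp_sub (isQExp_sub ((hE.pow 3).cast (by norm_num)) (hD.C_mul _))
        (hD3.C_mul _)
    exact isQExp_sub ((hA.pow 2).cast (by norm_num))
      (((hD.mul hD3).mul (hB.pow 2)).cast (by norm_num))
  · intro n hn
    rw [index_Gamma0_three] at hn
    have hn' : n < 17 := by
      norm_num at hn
      omega
    exact Agree.eq_zero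
      ((((((agree_tDelta.pow 2).add ((agree_tDelta.mul agree_tDelta3).smul 270)).add
        ((agree_tDelta3.pow 2).smul 729)).pow 2)).sub
      ((agree_tDelta.mul agree_tDelta3).mul
        ((((agree_tE4_3.pow 3).sub (agree_tDelta.smul 36)).sub
          (agree_tDelta3.smul 756)).pow 2))) (by decide +kernel) n hn'

end Identities

end Fermat.Agent.Lib.helper3874
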