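/-
Lib brick (helper4066): the TRACE-KERNEL LEMMA for adic Galois representations.

Let `A` be a local ring and `ρ : GaloisRepAdic A` (rank 2) whose residual representation is
absolutely irreducible.  Then

* `span_range_eq_top` : the `A`-span of `ρ(G_ℚ)` is all of `End_A(V)` (Burnside + Nakayama);
* `eq_zero_of_trace_mul_eq_zero` : the trace pairing against `ρ(G_ℚ)` is non-degenerate;
* `eq_of_trace_mul_eq`, `eq_one_of_trace_mul_eq` : if `tr ρ(τ h) = tr ρ(τ' h)` for all `h`
  then `ρ τ = ρ τ'`; in particular `tr ρ(τ h) = tr ρ(h)` for all `h` forces `ρ τ = 1`;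
* `eq_one_of_trace_mul_sub_mem_pow` : the same knowing the trace identity only modulo every power
  of the maximal ideal (`A` Noetherian; Krull);
* `isUnramifiedAt_of_trace`, `isUnramifiedAt_of_trace_mem_pow` : the resulting criterion for
  `GaloisRepAdic.IsUnramifiedAt`.

Statement-agnostic; intended for the Hecke–Galois datum rows (S30–S34), where the trace identity
comes from `charpoly_frob` + Chebotarev + an Eichler–Shimura/Kummer argument.
-/
import Mathlib
import Fermat.Prelude.Def_GaloisRep_Adic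
import Fermat.Agent.S53.helper3173_Burnside

set_option autoImplicit false

namespace Fermat.Agent.Lib.helper4066

open scoped TensorProduct

/-- The absolute Galois group of `ℚ` (abbreviation local to this file). -/
local notation "Γℚ" => (AlgebraicClosure ℚ ≃ₐ[ℚ] AlgebraicClosure ℚ)

section Matrix

variable {A : Type*} [CommRing A]

/-- A `2 × 2` matrix all of whose entries lie in an ideal `I` lies in `I • ⊤`. -/
theorem matrix_mem_smul_top (I : Ideal A) (Y : Matrix (Fin 2) (Fin 2) A)
    (hY : ∀ i j, Y i j ∈ I) : Y ∈ I • (⊤ : Submodule A (Matrix (Fin 2) (Fin 2) A)) := by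
  have h : Y = ∑ i : Fin 2, ∑ j : Fin 2, Y i j • Matrix.single i j (1 : A) := by
    ext a b
    simp only [Fin.sum_univ_two]
    fin_cases a <;> fin_cases b <;> simp
  rw [h]
  refine Submodule.sum_mem _ fun i _ => Submodule.sum_mem _ fun j _ => ?_
  exact Submodule.smul_mem_smul (hY i j) Submodule.mem_top

/-- Non-degeneracy of the trace form on `M₂(A)`. -/
theorem matrix_eq_zero_of_trace_mul (D : Matrix (Fin 2) (Fin 2) A)
    (h : ∀ X : Matrix (Fin 2) (Fin 2) A, (D * X).trace = 0) : D = 0 := by
  ext i j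
  have := h (Matrix.single j i (1 : A))
  rw [Matrix.trace_mul_single] at this
  simpa using this

end Matrix

section Adic

variable {A : Type} [CommRing A] [IsLocalRing A]

/-- **Burnside + Nakayama.**  If the residual representation of `ρ` is absolutely irreducible,
the `A`-span of the image of `ρ` is the whole endomorphism algebra. -/
theorem span_range_eq_top (ρ : GaloisRepAdic A) (habs : ρ.residual.IsAbsolutelyIrreducible) :
    Submodule.span A (Set.range ρ.ρ) = ⊤ := by
  classical
  let k := IsLocalRing.ResidueField A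
  let b : Module.Basis (Fin 2) A ρ.V := Module.finBasisOfFinrankEq A ρ.V ρ.finrank_eq
  let bk : Module.Basis (Fin 2) k (k ⊗[A] ρ.V) := Algebra.TensorProduct.basis k b
  let M : Γℚ → Matrix (Fin 2) (Fin 2) A := fun σ => LinearMap.toMatrix b b (ρ.ρ σ)
  -- matrices of the residual representation
  have hres : ∀ σ : Γℚ, LinearMap.toMatrix bk bk (ρ.residual.ρ σ) =
      (M σ).map (algebraMap A k) := fun σ => LinearMap.toMatrix_baseChange k (ρ.ρ σ) b b
  -- the span of the matrices is everything, by Nakayama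
  have hN : Submodule.span A (Set.range M) = ⊤ := by
    rw [eq_top_iff]
    refine Submodule.le_of_le_smul_of_le_jacobson_bot (I := IsLocalRing.maximalIdeal A)
      (Module.Finite.fg_top) (IsLocalRing.maximalIdeal_le_jacobson ⊥) ?_
    intro X _
    obtain ⟨c, hc⟩ := Fermat.Agent.S53.helper3173.exists_finsupp_toMatrix_eq ρ.residual habs bk
      (X.map (algebraMap A k))
    -- lift the coefficients
    have hsurj : Function.Surjective (algebraMap A k) := IsLocalRing.residue_surjective
    choose lift hlift using hsurj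
    let S : Matrix (Fin 2) (Fin 2) A := ∑ σ ∈ c.support, lift (c σ) • M σ
    have hS : S ∈ Submodule.span A (Set.range M) :=
      Submodule.sum_mem _ fun σ _ => Submodule.smul_mem _ _ (Submodule.subset_span ⟨σ, rfl⟩)
    have hSmap : S.map (algebraMap A k) = X.map (algebraMap A k) := by
      rw [← hc, Finsupp.sum]
      ext i j
      simp only [S, Matrix.map_apply, Matrix.sum_apply, Matrix.smul_apply, smul_eq_mul, map_sum,
        map_mul, hlift]
      refine Finset.sum_congr rfl fun σ _ => ?_
      have h1 := congrFun (congrFun (hres σ) i) j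
      rw [Matrix.map_apply] at h1
      exact congrArg (fun z => c σ * z) h1.symm
    have hY : X - S ∈ IsLocalRing.maximalIdeal A •
        (⊤ : Submodule A (Matrix (Fin 2) (Fin 2) A)) := by
      refine matrix_mem_smul_top _ _ fun i j => ?_
      have h1 := congrFun (congrFun hSmap i) j
      simp only [Matrix.map_apply] at h1
      rw [Matrix.sub_apply, ← IsLocalRing.residue_eq_zero_iff, map_sub, sub_eq_zero]
      exact h1.symm
    have hX : X = S + (X - S) := by abel
    rw [hX]
    exact Submodule.add_mem_sup hS hY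
  -- transfer back to endomorphisms
  have h2 := congrArg (Submodule.map (LinearMap.toMatrix b b).symm.toLinearMap) hN
  rw [Submodule.map_span, Submodule.map_top, LinearMap.range_eq_top.mpr
    (LinearMap.toMatrix b b).symm.surjective, ← Set.range_comp] at h2
  rw [← h2]
  congr 1
  ext x
  simp [M, Function.comp]

/-- Every endomorphism of `ρ.V` is a finite `A`-linear combination of the `ρ σ`. -/
theorem exists_finsupp_eq (ρ : GaloisRepAdic A) (habs : ρ.residual.IsAbsolutelyIrreducible)
    (T : Module.End A ρ.V) : ∃ c : Γℚ →₀ A, (c.sum fun σ a => a • ρ.ρ σ) = T := by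
  have hT : T ∈ Submodule.span A (Set.range ρ.ρ) := by
    rw [span_range_eq_top ρ habs]; exact Submodule.mem_top
  exact Finsupp.mem_span_range_iff_exists_finsupp.mp hT

/-- Non-degeneracy of the trace form on `End_A(V)`, `V` free of rank 2. -/
theorem end_eq_zero_of_trace_mul (ρ : GaloisRepAdic A) (D : Module.End A ρ.V)
    (h : ∀ X : Module.End A ρ.V, LinearMap.trace A ρ.V (D * X) = 0) : D = 0 := by
  classical
  let b : Module.Basis (Fin 2) A ρ.V := Module.finBasisOfFinrankEq A ρ.V ρ.finrank_eq
  have hD : LinearMap.toMatrix b b D = 0 := by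
    refine matrix_eq_zero_of_trace_mul _ fun X => ?_
    have := h (Matrix.toLin b b X)
    rw [LinearMap.trace_eq_matrix_trace A b, Module.End.mul_eq_comp,
      LinearMap.toMatrix_comp b b b, LinearMap.toMatrix_toLin] at this
    exact this
  exact (LinearMap.toMatrix b b).injective (by rw [hD, map_zero])

/-- **Trace-kernel lemma, linear form.**  If `tr (D ∘ ρ σ) = 0` for all `σ` and the residual
representation is absolutely irreducible, then `D = 0`. -/
theorem eq_zero_of_trace_mul_eq_zero (ρ : GaloisRepAdic A)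
    (habs : ρ.residual.IsAbsolutelyIrreducible) (D : Module.End A ρ.V)
    (h : ∀ σ : Γℚ, LinearMap.trace A ρ.V (D * ρ.ρ σ) = 0) : D = 0 := by
  refine end_eq_zero_of_trace_mul ρ D fun X => ?_
  have hX : X ∈ Submodule.span A (Set.range ρ.ρ) := by
    rw [span_range_eq_top ρ habs]; exact Submodule.mem_top
  induction hX using Submodule.span_induction with
  | mem x hx => obtain ⟨σ, rfl⟩ := hx; exact h σ
  | zero => simp
  | add x y _ _ hx hy => rw [mul_add, map_add, hx, hy, add_zero]
  | smul a x _ hx => rw [mul_smul_comm, map_smul, hx, smul_zero]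

/-- **Trace-kernel lemma.**  If `tr ρ(τ h) = tr ρ(τ' h)` for all `h` and the residual
representation is absolutely irreducible, then `ρ τ = ρ τ'`. -/
theorem eq_of_trace_mul_eq (ρ : GaloisRepAdic A) (habs : ρ.residual.IsAbsolutelyIrreducible)
    (τ τ' : Γℚ) (h : ∀ σ : Γℚ, ρ.trace (τ * σ) = ρ.trace (τ' * σ)) : ρ.ρ τ = ρ.ρ τ' := by
  rw [← sub_eq_zero]
  refine eq_zero_of_trace_mul_eq_zero ρ habs _ fun σ => ?_
  have := h σ
  unfold GaloisRepAdic.trace at this
  rw [ρ.ρ.map_mul, ρ.ρ.map_mul] at this
  rw [sub_mul, map_sub, this, sub_self]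

/-- **Trace-kernel lemma.**  If `tr ρ(τ h) = tr ρ(h)` for all `h` and the residual
representation is absolutely irreducible, then `ρ τ = 1`. -/
theorem eq_one_of_trace_mul_eq (ρ : GaloisRepAdic A) (habs : ρ.residual.IsAbsolutelyIrreducible)
    (τ : Γℚ) (h : ∀ σ : Γℚ, ρ.trace (τ * σ) = ρ.trace σ) : ρ.ρ τ = 1 := by
  rw [← map_one ρ.ρ]
  exact eq_of_trace_mul_eq ρ habs τ 1 fun σ => by rw [h σ, one_mul]

/-- **Trace-kernel lemma modulo all powers of the maximal ideal** (Krull's intersection theorem):
if `tr ρ(τ h) ≡ tr ρ(τ' h)` modulo `𝔪ⁿ` for all `n` and all `h`, then `ρ τ = ρ τ'`. -/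
theorem eq_of_trace_mul_sub_mem_pow [IsNoetherianRing A] (ρ : GaloisRepAdic A)
    (habs : ρ.residual.IsAbsolutelyIrreducible) (τ τ' : Γℚ)
    (h : ∀ (n : ℕ) (σ : Γℚ),
      ρ.trace (τ * σ) - ρ.trace (τ' * σ) ∈ IsLocalRing.maximalIdeal A ^ n) :
    ρ.ρ τ = ρ.ρ τ' := by
  refine eq_of_trace_mul_eq ρ habs τ τ' fun σ => ?_
  have hmem : ρ.trace (τ * σ) - ρ.trace (τ' * σ) ∈ ⨅ n, IsLocalRing.maximalIdeal A ^ n :=
    (Ideal.mem_iInf).mpr fun n => h n σ
  rw [Ideal.iInf_pow_eq_bot_of_isLocalRing _ (IsLocalRing.maximalIdeal.isMaximal A).ne_top,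
    Ideal.mem_bot, sub_eq_zero] at hmem
  exact hmem

/-- If `tr ρ(τ h) ≡ tr ρ(h)` modulo `𝔪ⁿ` for all `n` and all `h`, then `ρ τ = 1`. -/
theorem eq_one_of_trace_mul_sub_mem_pow [IsNoetherianRing A] (ρ : GaloisRepAdic A)
    (habs : ρ.residual.IsAbsolutelyIrreducible) (τ : Γℚ)
    (h : ∀ (n : ℕ) (σ : Γℚ), ρ.trace (τ * σ) - ρ.trace σ ∈ IsLocalRing.maximalIdeal A ^ n) :
    ρ.ρ τ = 1 := by
  rw [← map_one ρ.ρ]
  exact eq_of_trace_mul_sub_mem_pow ρ habs τ 1 fun n σ => by rw [one_mul]; exact h n σ

/-- Criterion for unramifiedness at `q` through traces: it suffices that translation by inertia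
does not change any trace. -/
theorem isUnramifiedAt_of_trace (ρ : GaloisRepAdic A) (habs : ρ.residual.IsAbsolutelyIrreducible)
    (q : ℕ)
    (h : ∀ P : ValuationSubring (AlgebraicClosure ℚ), P.LiesOverPrime q →
      ∀ τ ∈ P.inertiaSubgroupIn ℚ, ∀ σ : Γℚ, ρ.trace (τ * σ) = ρ.trace σ) :
    ρ.IsUnramifiedAt q :=
  fun P hP τ hτ => eq_one_of_trace_mul_eq ρ habs τ (h P hP τ hτ)

/-- Criterion for unramifiedness at `q` through traces modulo all powers of the maximal ideal. -/
theorem isUnramifiedAt_of_trace_mem_pow [IsNoetherianRing A] (ρ : GaloisRepAdic A)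
    (habs : ρ.residual.IsAbsolutelyIrreducible) (q : ℕ)
    (h : ∀ P : ValuationSubring (AlgebraicClosure ℚ), P.LiesOverPrime q →
      ∀ τ ∈ P.inertiaSubgroupIn ℚ, ∀ (n : ℕ) (σ : Γℚ),
        ρ.trace (τ * σ) - ρ.trace σ ∈ IsLocalRing.maximalIdeal A ^ n) :
    ρ.IsUnramifiedAt q :=
  fun P hP τ hτ => eq_one_of_trace_mul_sub_mem_pow ρ habs τ (h P hP τ hτ)

end Adic

end Fermat.Agent.Lib.helper4066
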