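/-
Lib brick (helper4066): traces of adic Galois representations and Hecke–Galois data.

* `trace_eq_neg_charpoly_coeff_one` : for a rank-2 adic representation, `tr ρ(σ)` is minus the
  linear coefficient of the characteristic polynomial;
* `trace_mul_mem_of_forall_mem` : an endomorphism with image in `I • V` has all traces
  `tr (F ∘ E)` in `I`;
* `exists_level_trace` : **continuity of the trace**: for every `n` there is a finite extension
  `L/ℚ` such that `tr ρ(σ) ≡ tr ρ(σ') mod 𝔪ⁿ` whenever `σ`, `σ'` agree on `L`;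
* `HeckeGaloisRepDatum`-level: `datum_trace_frob` (`tr ρ(Frob_ℓ) = π(T_ℓ)`),
  `datum_det_frob` (`det ρ(Frob_ℓ) = ℓ`);
* `datum_isUnramifiedAt_of_reciprocity` : **formal reduction of "ρ is unramified at q"** (S31) to a
  reciprocity statement about Hecke operators: it suffices that for every `n`, every finite `L/ℚ`,
  every inertia element `τ` at `q` and every `h`, there are primes `ℓ, ℓ'` (outside `S`, prime to
  `N`) with Frobenius elements agreeing with `h`, resp. `τ h`, on `L` and with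
  `π(T_ℓ) ≡ π(T_ℓ') mod 𝔪_Tⁿ`.
-/
import Mathlib
import Fermat.Prelude.Def_CuspForm_HeckeGaloisRepDatum
import Fermat.Agent.Lib.helper4066_TraceKernel

set_option autoImplicit false

namespace Fermat.Agent.Lib.helper4066

open scoped TensorProduct
open Polynomial

/-- The absolute Galois group of `ℚ` (abbreviation local to this file). -/
local notation "Γℚ" => (AlgebraicClosure ℚ ≃ₐ[ℚ] AlgebraicClosure ℚ)

section Adic

variable {A : Type} [CommRing A] [IsLocalRing A]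

/-- For a rank-2 adic representation, the trace is minus the linear coefficient of the
characteristic polynomial. -/
theorem trace_eq_neg_charpoly_coeff_one (ρ : GaloisRepAdic A) (σ : Γℚ) :
    ρ.trace σ = -(LinearMap.charpoly (ρ.ρ σ)).coeff 1 := by
  classical
  let b : Module.Basis (Fin 2) A ρ.V := Module.finBasisOfFinrankEq A ρ.V ρ.finrank_eq
  unfold GaloisRepAdic.trace
  rw [LinearMap.trace_eq_matrix_trace A b, ← LinearMap.charpoly_toMatrix (ρ.ρ σ) b,
    Matrix.trace_eq_neg_charpoly_coeff]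
  simp

/-- If the characteristic polynomial of `ρ σ` is `X² - t X + d`, then `tr ρ(σ) = t`. -/
theorem trace_eq_of_charpoly (ρ : GaloisRepAdic A) (σ : Γℚ) (t d : A)
    (h : LinearMap.charpoly (ρ.ρ σ) = X ^ 2 - C t * X + C d) : ρ.trace σ = t := by
  rw [trace_eq_neg_charpoly_coeff_one, h]
  simp [coeff_X_pow, coeff_C]

/-- An endomorphism `E` with image in `I • V` has `tr (F ∘ E) ∈ I` for every `F`. -/
theorem trace_mul_mem_of_forall_mem (ρ : GaloisRepAdic A) (I : Ideal A) (E F : Module.End A ρ.V)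
    (hE : ∀ v, E v ∈ I • (⊤ : Submodule A ρ.V)) : LinearMap.trace A ρ.V (F * E) ∈ I := by
  classical
  let b : Module.Basis (Fin 2) A ρ.V := Module.finBasisOfFinrankEq A ρ.V ρ.finrank_eq
  have hrepr : ∀ v ∈ I • (⊤ : Submodule A ρ.V), ∀ i, b.repr v i ∈ I := by
    intro v hv i
    refine Submodule.smul_induction_on (p := fun v => b.repr v i ∈ I) hv ?_ ?_
    · intro a ha w _
      rw [map_smul, Finsupp.smul_apply, smul_eq_mul]
      exact I.mul_mem_right _ ha
    · intro x y hx hy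
      rw [map_add, Finsupp.add_apply]
      exact I.add_mem hx hy
  rw [LinearMap.trace_eq_matrix_trace A b, Module.End.mul_eq_comp, LinearMap.toMatrix_comp b b b,
    Matrix.trace]
  refine Ideal.sum_mem _ fun i _ => ?_
  rw [Matrix.diag_apply, Matrix.mul_apply]
  refine Ideal.sum_mem _ fun j _ => I.mul_mem_left _ ?_
  rw [LinearMap.toMatrix_apply]
  exact hrepr _ (hE _) _

/-- **Continuity of the trace.**  For every `n` there is a finite extension `L/ℚ` such that the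
traces of `σ` and `σ'` are congruent modulo `𝔪ⁿ` whenever `σ` and `σ'` agree on `L`. -/
theorem exists_level_trace (ρ : GaloisRepAdic A) (n : ℕ) :
    ∃ L : IntermediateField ℚ (AlgebraicClosure ℚ), FiniteDimensional ℚ L ∧
      ∀ σ σ' : Γℚ, (∀ x ∈ L, σ x = σ' x) →
        ρ.trace σ - ρ.trace σ' ∈ IsLocalRing.maximalIdeal A ^ n := by
  obtain ⟨L, hL, h1⟩ := ρ.isAdicContinuous n
  refine ⟨L, hL, fun σ σ' hσ => ?_⟩
  have hδ : ∀ x ∈ L, (σ'⁻¹ * σ) x = x := by
    intro x hx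
    rw [AlgEquiv.mul_apply, hσ x hx]
    exact σ'.symm_apply_apply x
  have h2 := h1 (σ'⁻¹ * σ) hδ
  have hdecomp : ρ.ρ σ - ρ.ρ σ' = ρ.ρ σ' * (ρ.ρ (σ'⁻¹ * σ) - 1) := by
    rw [mul_sub, mul_one, ← map_mul, mul_inv_cancel_left]
  unfold GaloisRepAdic.trace
  rw [← map_sub, hdecomp]
  refine trace_mul_mem_of_forall_mem ρ _ _ _ fun v => ?_
  simpa [LinearMap.sub_apply] using h2 v

end Adic

section Datum

variable {N : ℕ} [NeZero N] {S : Set ℕ}
  {𝒪 : Type} [CommRing 𝒪] [IsDomain 𝒪] [IsDiscreteValuationRing 𝒪]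
  [IsAdicComplete (IsLocalRing.maximalIdeal 𝒪) 𝒪]
  {θ : CuspForm.heckeAlgebra N 2 S →+* IsLocalRing.ResidueField 𝒪}
  {T : Type} [CommRing T] [IsLocalRing T] [IsNoetherianRing T]
  [IsAdicComplete (IsLocalRing.maximalIdeal T) T] [Algebra 𝒪 T] [IsLocalHom (algebraMap 𝒪 T)]
  [Module.Finite 𝒪 T] [Module.Free 𝒪 T]

/-- In a Hecke–Galois datum, the trace of a Frobenius element at `ℓ` is `π(T_ℓ)`. -/
theorem datum_trace_frob (H : CuspForm.HeckeGaloisRepDatum N S 𝒪 θ T) {ℓ : ℕ} (hℓ : ℓ.Prime)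
    (hℓN : ¬ ℓ ∣ N) (hℓS : ℓ ∉ S) (B : ValuationSubring (AlgebraicClosure ℚ))
    (hB : B.LiesOverPrime ℓ) (σ : Γℚ) (hσ : B.IsFrobeniusAt σ ℓ) :
    H.ρ.trace σ = H.π (CuspForm.heckeAlgebra.T hℓ hℓN hℓS) :=
  trace_eq_of_charpoly H.ρ σ _ _ (H.charpoly_frob ℓ hℓ hℓN hℓS B hB σ hσ)

/-- **Formal reduction of unramifiedness at `q` to a Hecke reciprocity statement.** -/
theorem datum_isUnramifiedAt_of_reciprocity (H : CuspForm.HeckeGaloisRepDatum N S 𝒪 θ T) (q : ℕ)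
    (hrec : ∀ (n : ℕ) (L : IntermediateField ℚ (AlgebraicClosure ℚ)), FiniteDimensional ℚ L →
      ∀ P : ValuationSubring (AlgebraicClosure ℚ), P.LiesOverPrime q →
      ∀ τ ∈ P.inertiaSubgroupIn ℚ, ∀ h : Γℚ,
        ∃ (ℓ ℓ' : ℕ) (hℓ : ℓ.Prime) (hℓN : ¬ ℓ ∣ N) (hℓS : ℓ ∉ S)
          (hℓ' : ℓ'.Prime) (hℓ'N : ¬ ℓ' ∣ N) (hℓ'S : ℓ' ∉ S)
          (B B' : ValuationSubring (AlgebraicClosure ℚ)) (s s' : Γℚ),
          B.LiesOverPrime ℓ ∧ B'.LiesOverPrime ℓ' ∧ B.IsFrobeniusAt s ℓ ∧ B'.IsFrobeniusAt s' ℓ' ∧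
          (∀ x ∈ L, s x = h x) ∧ (∀ x ∈ L, s' x = (τ * h) x) ∧
          H.π (CuspForm.heckeAlgebra.T hℓ' hℓ'N hℓ'S) - H.π (CuspForm.heckeAlgebra.T hℓ hℓN hℓS)
            ∈ IsLocalRing.maximalIdeal T ^ n) :
    H.ρ.IsUnramifiedAt q := by
  refine isUnramifiedAt_of_trace_mem_pow H.ρ H.residual_absIrr q fun P hP τ hτ n h => ?_
  obtain ⟨L, hL, hlev⟩ := exists_level_trace H.ρ n
  obtain ⟨ℓ, ℓ', hℓ, hℓN, hℓS, hℓ', hℓ'N, hℓ'S, B, B', s, s', hB, hB', hs, hs', hsL, hs'L, hT⟩ :=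
    hrec n L hL P hP τ hτ h
  have e1 : H.ρ.trace (τ * h) - H.ρ.trace s' ∈ IsLocalRing.maximalIdeal T ^ n :=
    hlev _ _ fun x hx => (hs'L x hx).symm
  have e3 : H.ρ.trace s - H.ρ.trace h ∈ IsLocalRing.maximalIdeal T ^ n :=
    hlev _ _ fun x hx => hsL x hx
  have e2 : H.ρ.trace s' - H.ρ.trace s ∈ IsLocalRing.maximalIdeal T ^ n := by
    rw [datum_trace_frob H hℓ hℓN hℓS B hB s hs, datum_trace_frob H hℓ' hℓ'N hℓ'S B' hB' s' hs']
    exact hT
  have hsum : H.ρ.trace (τ * h) - H.ρ.trace h =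
      (H.ρ.trace (τ * h) - H.ρ.trace s') + (H.ρ.trace s' - H.ρ.trace s) +
        (H.ρ.trace s - H.ρ.trace h) := by ring
  rw [hsum]
  exact Ideal.add_mem _ (Ideal.add_mem _ e1 e2) e3

end Datum

end Fermat.Agent.Lib.helper4066
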