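/-
helper4252 — finite extensions of complete discrete valuation rings (Mathlib only).

Main results (namespace `Fermat.Agent.Lib.helper4252`):

* `isPrecomplete_of_surjective`, `isPrecomplete_pi`, `isPrecomplete_of_finite`,
  `isAdicComplete_of_pow`: generalities on adic completeness.
* `isLocalRing_of_isAdicComplete_of_isArtinianRing`: a domain complete with respect to an ideal
  with Artinian quotient is local (idempotent lifting through Hensel's lemma).
* `isAdicComplete_of_finite`, `isAdicComplete_map_of_finite`, `isLocalRing_of_finite_of_isDomain`: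
  finite algebras over a complete Noetherian local ring.
* `isDiscreteValuationRing_of_finite`, `isAdicComplete_maximalIdeal_of_finite`,
  `finite_residueField_of_finite`: a Dedekind domain finite and faithful over a complete DVR is a
  complete DVR (with finite residue field if the base has one).
* `exists_completeDVR_integralClosure`: the integral closure of a complete DVR `𝒪` of
  characteristic zero in a finite extension `L` of its fraction field is a complete DVR, finite
  over `𝒪`, with fraction field `L` (the shape asked for by the frozen statement S30).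
-/
import Mathlib

set_option autoImplicit false

namespace Fermat.Agent.Lib.helper4252

open IsLocalRing Polynomial

section Precomplete

variable {R : Type*} [CommRing R] (I : Ideal R)

/-- Precompleteness passes to quotients (images under surjective linear maps). -/
theorem isPrecomplete_of_surjective {M N : Type*} [AddCommGroup M] [Module R M]
    [AddCommGroup N] [Module R N] [IsPrecomplete I M] (g : M →ₗ[R] N)
    (hg : Function.Surjective g) : IsPrecomplete I N := by
  rw [← AdicCompletion.of_surjective_iff]
  intro y
  obtain ⟨z, rfl⟩ := AdicCompletion.map_surjective I hg y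
  obtain ⟨m, rfl⟩ := AdicCompletion.of_surjective I M z
  exact ⟨g m, (AdicCompletion.map_of I g m).symm⟩

theorem mem_pow_smul_top_pi {ι : Type*} [Finite ι] {M : ι → Type*} [∀ i, AddCommGroup (M i)]
    [∀ i, Module R (M i)] (n : ℕ) (x : ∀ i, M i) :
    x ∈ (I ^ n • ⊤ : Submodule R (∀ i, M i)) ↔ ∀ i, x i ∈ (I ^ n • ⊤ : Submodule R (M i)) := by
  classical
  cases nonempty_fintype ι
  constructor
  · intro hx i
    have : (LinearMap.proj i : (∀ i, M i) →ₗ[R] M i) x ∈
        Submodule.map (LinearMap.proj i : (∀ i, M i) →ₗ[R] M i) (I ^ n • ⊤) :=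
      Submodule.mem_map_of_mem hx
    rw [Submodule.map_smul''] at this
    exact (smul_mono_right _ le_top : _ ≤ (I ^ n • ⊤ : Submodule R _)) this
  · intro hx
    have hsum : x = ∑ i, (LinearMap.single R M i) (x i) := by
      ext j
      simp [Finset.sum_apply]
    rw [hsum]
    refine Submodule.sum_mem _ fun i _ => ?_
    have : (LinearMap.single R M i) (x i) ∈
        Submodule.map (LinearMap.single R M i) (I ^ n • ⊤ : Submodule R (M i)) :=
      Submodule.mem_map_of_mem (hx i)
    rw [Submodule.map_smul''] at this
    exact (smul_mono_right _ le_top : _ ≤ (I ^ n • ⊤ : Submodule R _)) this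

/-- A finite product of precomplete modules is precomplete. -/
theorem isPrecomplete_pi {ι : Type*} [Finite ι] {M : ι → Type*} [∀ i, AddCommGroup (M i)]
    [∀ i, Module R (M i)] [∀ i, IsPrecomplete I (M i)] : IsPrecomplete I (∀ i, M i) := by
  refine ⟨fun f hf => ?_⟩
  have hc : ∀ i, ∃ L : M i, ∀ n, f n i ≡ L [SMOD (I ^ n • ⊤ : Submodule R (M i))] := by
    intro i
    refine IsPrecomplete.prec (inferInstance : IsPrecomplete I (M i)) (f := fun n => f n i) ?_
    intro m n hmn
    have h := hf hmn
    rw [SModEq.sub_mem] at h ⊢
    exact (mem_pow_smul_top_pi I m _).1 h i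
  choose L hL using hc
  refine ⟨L, fun n => ?_⟩
  rw [SModEq.sub_mem]
  refine (mem_pow_smul_top_pi I n _).2 fun i => ?_
  have := hL i n
  rw [SModEq.sub_mem] at this
  exact this

/-- A finite module over a precomplete ring is precomplete. -/
theorem isPrecomplete_of_finite (M : Type*) [AddCommGroup M] [Module R M] [IsPrecomplete I R]
    [Module.Finite R M] : IsPrecomplete I M := by
  obtain ⟨n, f, hf⟩ := Module.Finite.exists_fin' R M
  have : IsPrecomplete I (Fin n → R) := isPrecomplete_pi I
  exact isPrecomplete_of_surjective I f hf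

/-- Completeness for `I ^ e` (`e ≠ 0`) implies completeness for `I`. -/
theorem isAdicComplete_of_pow {M : Type*} [AddCommGroup M] [Module R M] {e : ℕ} (he : e ≠ 0)
    (h : IsAdicComplete (I ^ e) M) : IsAdicComplete I M := by
  have hle : ∀ n : ℕ, n ≤ e * n := fun n => Nat.le_mul_of_pos_left n (Nat.pos_of_ne_zero he)
  have hmono : ∀ n : ℕ, ((I ^ e) ^ n • ⊤ : Submodule R M) ≤ I ^ n • ⊤ := by
    intro n
    rw [← pow_mul]
    exact Submodule.smul_mono_left (Ideal.pow_le_pow_right (hle n))
  have hmono' : ∀ n : ℕ, (I ^ (e * n) • ⊤ : Submodule R M) ≤ (I ^ e) ^ n • ⊤ := by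
    intro n
    rw [← pow_mul]
  refine { haus' := ?_, prec' := ?_ }
  · intro x hx
    refine h.toIsHausdorff.haus x fun n => ?_
    rw [SModEq.zero]
    have := hx (e * n)
    rw [SModEq.zero] at this
    exact hmono' n this
  · intro f hf
    obtain ⟨L, hL⟩ := h.toIsPrecomplete.prec (f := fun n => f (e * n)) (by
      intro m n hmn
      have := hf (Nat.mul_le_mul_left e hmn)
      rw [SModEq.sub_mem] at this ⊢
      have h2 : (I ^ (e * m) • ⊤ : Submodule R M) ≤ (I ^ e) ^ m • ⊤ := hmono' m
      exact h2 (Submodule.smul_mono_left (Ideal.pow_le_pow_right (le_refl _)) this))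
    refine ⟨L, fun n => ?_⟩
    have h1 : f n ≡ f (e * n) [SMOD (I ^ n • ⊤ : Submodule R M)] := hf (hle n)
    have h2 : f (e * n) ≡ L [SMOD (I ^ n • ⊤ : Submodule R M)] := by
      have := hL n
      rw [SModEq.sub_mem] at this ⊢
      exact hmono n this
    exact h1.trans h2

end Precomplete

/-- A domain that is complete with respect to an ideal `J` with Artinian quotient is local. -/
theorem isLocalRing_of_isAdicComplete_of_isArtinianRing {B : Type*} [CommRing B] [IsDomain B]
    (J : Ideal B) [IsAdicComplete J B] [IsArtinianRing (B ⧸ J)] : IsLocalRing B := by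
  have hJ : ∀ m : Ideal B, m.IsMaximal → J ≤ m := fun m hm =>
    (IsAdicComplete.le_jacobson_bot J).trans (sInf_le ⟨bot_le, hm⟩)
  obtain ⟨m₀, hm₀⟩ := Ideal.exists_maximal B
  refine IsLocalRing.of_unique_max_ideal ⟨m₀, hm₀, ?_⟩
  -- uniqueness
  suffices H : ∀ m₁ m₂ : Ideal B, m₁.IsMaximal → m₂.IsMaximal → m₁ ≤ m₂ from
    fun m hm => (hm.eq_of_le hm₀.ne_top (H m m₀ hm hm₀))
  intro m₁ m₂ hm₁ hm₂
  by_contra hne
  obtain ⟨x, hx₁, hx₂⟩ := Set.not_subset.1 hne
  -- the chain of ideals generated by the powers of `x` in `B ⧸ J` stabilizes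
  let q : B →+* B ⧸ J := Ideal.Quotient.mk J
  let f : ℕ →o (Ideal (B ⧸ J))ᵒᵈ :=
    { toFun := fun n => OrderDual.toDual (Ideal.span {q x ^ n})
      monotone' := by
        intro n m hnm
        show Ideal.span {q x ^ m} ≤ Ideal.span {q x ^ n}
        rw [Ideal.span_singleton_le_span_singleton]
        exact pow_dvd_pow _ hnm }
  obtain ⟨N, hN⟩ := IsArtinian.monotone_stabilizes f
  have h1 : (Ideal.span {q x ^ (N + 1)} : Ideal (B ⧸ J)) = Ideal.span {q x ^ (2 * (N + 1))} := by
    have e1 : f N = f (N + 1) := hN (N + 1) (Nat.le_succ N)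
    have e2 : f N = f (2 * (N + 1)) := hN (2 * (N + 1)) (by omega)
    exact OrderDual.ofDual.injective (e1.symm.trans e2)
  have h2 : q x ^ (N + 1) ∈ (Ideal.span {q x ^ (2 * (N + 1))} : Ideal (B ⧸ J)) := by
    rw [← h1]; exact Ideal.mem_span_singleton_self _
  obtain ⟨c', hc'⟩ := Ideal.mem_span_singleton'.1 h2
  obtain ⟨c, rfl⟩ := Ideal.Quotient.mk_surjective c'
  -- `x ^ n - c * x ^ (2 n) ∈ J`
  have h3 : c * x ^ (2 * (N + 1)) - x ^ (N + 1) ∈ J := by
    rw [← Ideal.Quotient.eq]
    simpa [q] using hc'
  set a₀ : B := c * x ^ (N + 1) with ha₀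
  have h4 : a₀ ^ 2 - a₀ ∈ J := by
    have : a₀ ^ 2 - a₀ = c * (c * x ^ (2 * (N + 1)) - x ^ (N + 1)) := by
      rw [ha₀]; ring
    rw [this]
    exact J.mul_mem_left _ h3
  -- Hensel's lemma for `X ^ 2 - X`
  have : HenselianRing B J := IsAdicComplete.henselianRing B J
  have hmonic : (X ^ 2 - X : B[X]).Monic := by
    apply Polynomial.monic_X_pow_sub
    simp
  have hev : (X ^ 2 - X : B[X]).eval a₀ ∈ J := by simpa using h4
  have hder : IsUnit (Ideal.Quotient.mk J ((derivative (X ^ 2 - X : B[X])).eval a₀)) := by
    have hd : (derivative (X ^ 2 - X : B[X])).eval a₀ = 2 * a₀ - 1 := by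
      simp
      exact Or.inl one_add_one_eq_two
    rw [hd]
    refine IsUnit.of_mul_eq_one (Ideal.Quotient.mk J (2 * a₀ - 1)) ?_
    rw [← map_mul, ← map_one (Ideal.Quotient.mk J), Ideal.Quotient.eq]
    have : (2 * a₀ - 1) * (2 * a₀ - 1) - 1 = 4 * (a₀ ^ 2 - a₀) := by ring
    rw [this]
    exact J.mul_mem_left _ h4
  obtain ⟨a, ha, haJ⟩ := HenselianRing.is_henselian (I := J) _ hmonic a₀ hev hder
  have ha' : a * (a - 1) = 0 := by
    have : (X ^ 2 - X : B[X]).eval a = 0 := ha
    simp at this
    linear_combination this
  rcases mul_eq_zero.1 ha' with h0 | h1'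
  · -- `a = 0`, so `a₀ ∈ J ⊆ m₂`, hence `x ∈ m₂`
    have ha₀J : a₀ ∈ J := by
      rw [h0, zero_sub] at haJ
      exact (Ideal.neg_mem_iff J).1 haJ
    have hxm₂ : x ^ (N + 1) ∈ m₂ := by
      have e : x ^ (N + 1) = a₀ * x ^ (N + 1) - (c * x ^ (2 * (N + 1)) - x ^ (N + 1)) := by
        rw [ha₀]; ring
      rw [e]
      exact m₂.sub_mem (m₂.mul_mem_right _ (hJ m₂ hm₂ ha₀J)) (hJ m₂ hm₂ h3)
    exact hx₂ (hm₂.isPrime.mem_of_pow_mem _ hxm₂)
  · -- `a = 1`, so `1 - a₀ ∈ J ⊆ m₁`, and `a₀ ∈ m₁`
    have ha1 : a = 1 := sub_eq_zero.1 h1'
    rw [ha1] at haJ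
    have h1m : (1 : B) ∈ m₁ := by
      have e : (1 : B) = (1 - a₀) + a₀ := by ring
      rw [e]
      refine m₁.add_mem (hJ m₁ hm₁ haJ) ?_
      rw [ha₀, pow_succ]
      exact m₁.mul_mem_left _ (m₁.mul_mem_left _ hx₁)
    exact hm₁.ne_top ((Ideal.eq_top_iff_one _).2 h1m)

section FiniteOverComplete

variable (A : Type*) [CommRing A] [IsLocalRing A] [IsNoetherianRing A]
  [IsAdicComplete (maximalIdeal A) A]
  (B : Type*) [CommRing B] [Algebra A B] [Module.Finite A B]

/-- A finite module over a complete Noetherian local ring is complete. -/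
theorem isAdicComplete_of_finite (M : Type*) [AddCommGroup M] [Module A M] [Module.Finite A M] :
    IsAdicComplete (maximalIdeal A) M :=
  { toIsHausdorff := inferInstance
    toIsPrecomplete := isPrecomplete_of_finite (maximalIdeal A) M }

/-- A finite algebra over a complete Noetherian local ring is complete with respect to the
extension of the maximal ideal. -/
theorem isAdicComplete_map_of_finite :
    IsAdicComplete ((maximalIdeal A).map (algebraMap A B)) B :=
  (IsAdicComplete.map_algebraMap_iff (maximalIdeal A) B).2 (isAdicComplete_of_finite A B)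

omit [IsAdicComplete (maximalIdeal A) A] in
theorem isArtinianRing_quotient_map_of_finite :
    IsArtinianRing (B ⧸ (maximalIdeal A).map (algebraMap A B)) := by
  have : IsArtinianRing (A ⧸ maximalIdeal A) := inferInstanceAs (IsArtinianRing (ResidueField A))
  exact IsArtinianRing.of_finite (A ⧸ maximalIdeal A) _

include A in
/-- A domain which is a finite algebra over a complete Noetherian local ring is local. -/
theorem isLocalRing_of_finite_of_isDomain [IsDomain B] : IsLocalRing B := by
  have := isAdicComplete_map_of_finite A B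
  have := isArtinianRing_quotient_map_of_finite A B
  exact isLocalRing_of_isAdicComplete_of_isArtinianRing ((maximalIdeal A).map (algebraMap A B))

end FiniteOverComplete

section DVR

variable (A : Type*) [CommRing A] [IsDomain A] [IsDiscreteValuationRing A]
  [IsAdicComplete (maximalIdeal A) A]
  (B : Type*) [CommRing B] [IsDomain B] [Algebra A B] [Module.Finite A B] [FaithfulSMul A B]

include A in
/-- A Dedekind domain which is a finite faithful algebra over a complete discrete valuation
ring is a discrete valuation ring. -/
theorem isDiscreteValuationRing_of_finite [IsDedekindDomain B] : IsDiscreteValuationRing B := by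
  have hloc : IsLocalRing B := isLocalRing_of_finite_of_isDomain A B
  have hint : Algebra.IsIntegral A B := Algebra.IsIntegral.of_finite A B
  have hnf : ¬ IsField B := fun hB =>
    IsDiscreteValuationRing.not_isField A
      (isField_of_isIntegral_of_isField (FaithfulSMul.algebraMap_injective A B) hB)
  have h02 := (IsDiscreteValuationRing.TFAE B hnf).out 0 2
  exact h02.2 inferInstance

include A in
/-- The maximal-ideal-adic completeness of a discrete valuation ring that is finite over a
complete discrete valuation ring. -/
theorem isAdicComplete_maximalIdeal_of_finite [IsDiscreteValuationRing B] :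
    IsAdicComplete (maximalIdeal B) B := by
  have hc : IsAdicComplete ((maximalIdeal A).map (algebraMap A B)) B :=
    isAdicComplete_map_of_finite A B
  have hJ : (maximalIdeal A).map (algebraMap A B) ≠ ⊥ := by
    rw [Ne, Ideal.map_eq_bot_iff_of_injective (FaithfulSMul.algebraMap_injective A B)]
    exact IsDiscreteValuationRing.not_a_field A
  have h06 := (IsDiscreteValuationRing.TFAE B (IsDiscreteValuationRing.not_isField B)).out 0 6
  obtain ⟨e, he⟩ := h06.1 inferInstance _ hJ
  rw [he] at hc
  have he0 : e ≠ 0 := by
    rintro rfl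
    rw [pow_zero, Ideal.one_eq_top] at hc
    have := IsAdicComplete.subsingleton B hc
    exact not_subsingleton B this
  exact isAdicComplete_of_pow (maximalIdeal B) he0 hc

omit [IsAdicComplete (maximalIdeal A) A] [IsDomain B] in
/-- Finiteness of the residue field is inherited by finite extensions. -/
theorem finite_residueField_of_finite [IsLocalRing B] [Finite (ResidueField A)] :
    Finite (ResidueField B) := by
  have hfin : Finite (A ⧸ maximalIdeal A) := inferInstanceAs (Finite (ResidueField A))
  have h2 : Finite (B ⧸ (maximalIdeal A).map (algebraMap A B)) :=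
    Module.finite_of_finite (A ⧸ maximalIdeal A)
  have hint : Algebra.IsIntegral A B := Algebra.IsIntegral.of_finite A B
  have hlh : IsLocalHom (algebraMap A B) := Algebra.IsIntegral.isLocalHom A B
  have hle : (maximalIdeal A).map (algebraMap A B) ≤ maximalIdeal B := by
    rw [Ideal.map_le_iff_le_comap]
    intro a ha
    exact map_nonunit (algebraMap A B) a ha
  exact Finite.of_surjective (Ideal.Quotient.factor hle) (Ideal.Quotient.factor_surjective hle)

end DVR

section IntegralClosure

variable (A : Type*) [CommRing A] [IsDomain A] [IsDiscreteValuationRing A]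
  [IsAdicComplete (maximalIdeal A) A]
  (K : Type*) [Field K] [Algebra A K] [IsFractionRing A K]
  (L : Type*) [Field L] [Algebra K L] [Algebra A L] [IsScalarTower A K L]
  [FiniteDimensional K L] [Algebra.IsSeparable K L]

omit [IsDomain A] [IsDiscreteValuationRing A] [IsAdicComplete (maximalIdeal A) A]
  [FiniteDimensional K L] [Algebra.IsSeparable K L] in
include K in
theorem algebraMap_injective_of_isFractionRing : Function.Injective (algebraMap A L) := by
  rw [IsScalarTower.algebraMap_eq A K L]
  exact (algebraMap K L).injective.comp (IsFractionRing.injective A K)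

omit [IsAdicComplete (maximalIdeal A) A] in
include K in
theorem finite_integralClosure : Module.Finite A (integralClosure A L) :=
  IsIntegralClosure.finite A K L (integralClosure A L)

omit [IsDomain A] [IsDiscreteValuationRing A] [IsAdicComplete (maximalIdeal A) A]
  [FiniteDimensional K L] [Algebra.IsSeparable K L] in
include K in
theorem algebraMap_integralClosure_injective :
    Function.Injective (algebraMap A (integralClosure A L)) := by
  intro a b hab
  apply algebraMap_injective_of_isFractionRing A K L
  have := congrArg (algebraMap (integralClosure A L) L) hab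
  simpa only [← IsScalarTower.algebraMap_apply] using this

include K in
/-- The integral closure of a complete DVR in a finite separable extension of its fraction field
is a DVR. -/
theorem isDiscreteValuationRing_integralClosure :
    IsDiscreteValuationRing (integralClosure A L) := by
  have hfin : Module.Finite A (integralClosure A L) := finite_integralClosure A K L
  have hfaith : FaithfulSMul A (integralClosure A L) :=
    (faithfulSMul_iff_algebraMap_injective A _).2 (algebraMap_integralClosure_injective A K L)
  have hded : IsDedekindDomain (integralClosure A L) := integralClosure.isDedekindDomain A K L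
  exact isDiscreteValuationRing_of_finite A (integralClosure A L)

end IntegralClosure

/-- **Finite extensions of complete DVRs.**  Let `𝒪` be a complete discrete valuation ring of
characteristic zero with fraction field `K`, and `L` a finite extension of `K`.  Then the integral
closure of `𝒪` in `L` is a complete discrete valuation ring of characteristic zero, finite over
`𝒪` (with local injective structure map) and with fraction field `L`; its residue field is finite
when that of `𝒪` is. -/
theorem exists_completeDVR_integralClosure (𝒪 : Type*) [CommRing 𝒪] [IsDomain 𝒪]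
    [IsDiscreteValuationRing 𝒪] [IsAdicComplete (maximalIdeal 𝒪) 𝒪] [CharZero 𝒪]
    (K : Type*) [Field K] [Algebra 𝒪 K] [IsFractionRing 𝒪 K]
    (L : Type*) [Field L] [Algebra K L] [Algebra 𝒪 L] [IsScalarTower 𝒪 K L]
    [FiniteDimensional K L] :
    ∃ (_ : IsDiscreteValuationRing (integralClosure 𝒪 L))
      (_ : IsAdicComplete (maximalIdeal (integralClosure 𝒪 L)) (integralClosure 𝒪 L))
      (_ : CharZero (integralClosure 𝒪 L)) (_ : Module.Finite 𝒪 (integralClosure 𝒪 L))
      (_ : IsLocalHom (algebraMap 𝒪 (integralClosure 𝒪 L)))
      (_ : IsFractionRing (integralClosure 𝒪 L) L),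
      Function.Injective (algebraMap 𝒪 (integralClosure 𝒪 L)) ∧
      (Finite (ResidueField 𝒪) → Finite (ResidueField (integralClosure 𝒪 L))) := by
  have hK : CharZero K := charZero_of_injective_algebraMap (IsFractionRing.injective 𝒪 K)
  have hsep : Algebra.IsSeparable K L := inferInstance
  have hinj : Function.Injective (algebraMap 𝒪 (integralClosure 𝒪 L)) :=
    algebraMap_integralClosure_injective 𝒪 K L
  have hfin : Module.Finite 𝒪 (integralClosure 𝒪 L) := finite_integralClosure 𝒪 K L
  have hfaith : FaithfulSMul 𝒪 (integralClosure 𝒪 L) :=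
    (faithfulSMul_iff_algebraMap_injective 𝒪 _).2 hinj
  have hdvr : IsDiscreteValuationRing (integralClosure 𝒪 L) :=
    isDiscreteValuationRing_integralClosure 𝒪 K L
  have hint : Algebra.IsIntegral 𝒪 (integralClosure 𝒪 L) := Algebra.IsIntegral.of_finite 𝒪 _
  refine ⟨hdvr, isAdicComplete_maximalIdeal_of_finite 𝒪 (integralClosure 𝒪 L),
    charZero_of_injective_algebraMap hinj, hfin, Algebra.IsIntegral.isLocalHom 𝒪 _,
    integralClosure.isFractionRing_of_finite_extension K L, hinj, fun _ => ?_⟩
  exact finite_residueField_of_finite 𝒪 (integralClosure 𝒪 L)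

end Fermat.Agent.Lib.helper4252
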