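import Mathlib

/-!
# The pole of `E₆ / E₄` modulo `8` along the Hasse invariant  (helper4273)

Pure commutative algebra, Mathlib only.

Let `O` be an integrally closed domain in which `2` is neither zero nor a unit, and let
`A = O[a₁, a₃]`, `e₄ = a₁⁴ - 24 a₁ a₃`, `e₆ = a₁⁶ - 36 a₁³ a₃ + 216 a₃²`
(these are `c₄`, `-c₆` of the Weierstrass cubic `y² + a₁ x y + a₃ y = x³`; one has
`e₄³ - e₆² = 1728 a₃³ (a₁³ - 27 a₃)`).

Main result `hassePole`: no field `Ω ⊇ A` contains elements `g`, `x` integral over `A` with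
`g * e₄ - ν * e₆ = 8 * x`  (`ν` prime to `2`).

Intended use (S16, upper bound at `ℓ = 2`, `p ≡ 7 mod 8`): a weight-2 form `G` on `Γ₀(p)` with
`G ≡ 1 mod 8` would give `g := G` and `x := (G E₄ - E₆)/8`, both integral over the ring of
level-one forms `O[E₄, E₆, Δ]`, which maps to `A` by `E₄ ↦ e₄`, `E₆ ↦ e₆`, `Δ ↦ a₃³(a₁³ - 27 a₃)`.
-/

namespace Fermat.Agent.Lib.helper4273

open Polynomial

section KeyLemma

variable {R S : Type*} [CommRing R] [IsDomain R] [IsIntegrallyClosed R]
  [CommRing S] [IsDomain S] [Algebra R S] [Module.IsTorsionFree R S]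

/-- Over an integrally closed domain `R`: if `s • u` and `t • u` are integral and `t` is a
non-zero-divisor modulo every power of `s`, then `u` is integral. -/
theorem isIntegral_of_smul_of_smul {s t : R} (hs : s ≠ 0) (ht : t ≠ 0)
    (hcop : ∀ (j : ℕ) (α β : R), α * t ^ j = β * s ^ j → s ^ j ∣ α)
    {u : S} (hsu : IsIntegral R (s • u)) (htu : IsIntegral R (t • u)) : IsIntegral R u := by
  have h1 : minpoly R (t • s • u) = (minpoly R (s • u)).scaleRoots t :=
    IsIntegrallyClosed.minpoly_smul ht hsu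
  have h2 : minpoly R (s • t • u) = (minpoly R (t • u)).scaleRoots s :=
    IsIntegrallyClosed.minpoly_smul hs htu
  have h3 : (minpoly R (s • u)).scaleRoots t = (minpoly R (t • u)).scaleRoots s := by
    rw [← h1, ← h2, smul_comm]
  set f := minpoly R (s • u) with hf
  set h := minpoly R (t • u) with hh
  have hd : f.natDegree = h.natDegree := by
    have := congrArg natDegree h3
    simpa [natDegree_scaleRoots] using this
  have hc : ∀ i, s ^ (f.natDegree - i) ∣ f.coeff i := by
    intro i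
    have := congrArg (fun p => p.coeff i) h3
    simp only [coeff_scaleRoots] at this
    rw [← hd] at this
    exact hcop _ _ _ this
  choose c hc' using hc
  have hfm : f.Monic := minpoly.monic hsu
  let f' : R[X] := ∑ i ∈ Finset.range (f.natDegree + 1), monomial i (c i)
  have hdeg : f'.natDegree ≤ f.natDegree := by
    refine natDegree_sum_le_of_forall_le _ _ fun i hi => ?_
    exact (natDegree_monomial_le _).trans (Nat.lt_succ_iff.mp (Finset.mem_range.mp hi))
  have hcd : c f.natDegree = 1 := by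
    have := hc' f.natDegree
    rw [Nat.sub_self, pow_zero, one_mul] at this
    rw [← this]; exact hfm.coeff_natDegree
  have hmon : f'.Monic := by
    refine monic_of_natDegree_le_of_coeff_eq_one f.natDegree hdeg ?_
    simp only [f', finsetSum_coeff, coeff_monomial]
    rw [Finset.sum_eq_single f.natDegree]
    · simp [hcd]
    · intro b _ hb; simp [hb]
    · intro hb; exact absurd (Finset.mem_range.mpr (Nat.lt_succ_self _)) hb
  have hs' : algebraMap R S s ≠ 0 := by
    have : Function.Injective (algebraMap R S) := FaithfulSMul.algebraMap_injective R S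
    exact (map_ne_zero_iff _ this).mpr hs
  have hroot : aeval (s • u) f = 0 := minpoly.aeval R (s • u)
  have key : (algebraMap R S s) ^ f.natDegree * aeval u f' = 0 := by
    rw [← hroot, aeval_eq_sum_range (p := f), map_sum, Finset.mul_sum]
    refine Finset.sum_congr rfl fun i hi => ?_
    have hi' : i ≤ f.natDegree := Nat.lt_succ_iff.mp (Finset.mem_range.mp hi)
    rw [aeval_monomial, hc' i, Algebra.smul_def, Algebra.smul_def, map_mul, map_pow, mul_pow]
    have : (algebraMap R S s) ^ f.natDegree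
        = (algebraMap R S s) ^ (f.natDegree - i) * (algebraMap R S s) ^ i := by
      rw [← pow_add, Nat.sub_add_cancel hi']
    rw [this]; ring
  have hzero : aeval u f' = 0 := by
    rcases mul_eq_zero.mp key with h0 | h0
    · exact absurd h0 (pow_ne_zero _ hs')
    · exact h0
  exact ⟨f', hmon, by simpa [aeval_def] using hzero⟩

end KeyLemma

section Main

open MvPolynomial

/-- The base ring `O[a₁, a₃]`. -/
abbrev HRing (O : Type*) [CommRing O] := MvPolynomial (Fin 2) O

variable {O : Type*} [CommRing O]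

/-- `a₁` (weight 1; the Hasse invariant modulo 2). -/
noncomputable def a1 : HRing O := MvPolynomial.X 0
/-- `a₃` (weight 3). -/
noncomputable def a3 : HRing O := MvPolynomial.X 1
/-- `c₄` of `y² + a₁ x y + a₃ y = x³`. -/
noncomputable def e4 : HRing O := a1 ^ 4 - 24 * a1 * a3
/-- `-c₆` of `y² + a₁ x y + a₃ y = x³`. -/
noncomputable def e6 : HRing O := a1 ^ 6 - 36 * a1 ^ 3 * a3 + 216 * a3 ^ 2
/-- The discriminant of `y² + a₁ x y + a₃ y = x³`. -/
noncomputable def eDelta : HRing O := a3 ^ 3 * (a1 ^ 3 - 27 * a3)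

theorem e4_cube_sub_e6_sq : (e4 : HRing O) ^ 3 - e6 ^ 2 = 1728 * eDelta := by
  unfold e4 e6 eDelta; ring

/-- Polynomial rings in finitely many variables over an integrally closed domain are
integrally closed. -/
theorem isIntegrallyClosed_mvPolynomial_fin [IsDomain O] [IsIntegrallyClosed O] (n : ℕ) :
    IsIntegrallyClosed (MvPolynomial (Fin n) O) := by
  induction n with
  | zero => exact IsIntegrallyClosed.of_equiv (MvPolynomial.isEmptyAlgEquiv O (Fin 0)).symm.toRingEquiv
  | succ n ih =>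
    have := ih
    exact IsIntegrallyClosed.of_equiv (MvPolynomial.finSuccEquiv O n).symm.toRingEquiv

/-- A variable is a non-zero-divisor modulo every constant. -/
theorem C_dvd_of_mul_X_pow_eq {σ : Type*} (i : σ) (k : ℕ) (n : O) (α β : MvPolynomial σ O)
    (h : α * (MvPolynomial.X i) ^ k = β * MvPolynomial.C n) : MvPolynomial.C n ∣ α := by
  rw [MvPolynomial.C_dvd_iff_dvd_coeff]
  intro m
  have := congrArg (MvPolynomial.coeff (m + Finsupp.single i k)) h
  rw [MvPolynomial.X_pow_eq_monomial, MvPolynomial.coeff_mul_monomial, mul_one, mul_comm β,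
    MvPolynomial.coeff_C_mul] at this
  exact ⟨_, this⟩

/-- **The pole of `E₆/E₄` mod 8.**  Let `O` be an integrally closed domain in which `2` is neither
zero nor a unit, `ν ∈ O` prime to `2`. No field containing `O[a₁, a₃]` contains elements `g`, `x`
integral over `O[a₁, a₃]` with `g * e₄ - ν * e₆ = 8 * x`. -/
theorem hassePole [IsDomain O] [IsIntegrallyClosed O] (h2 : (2 : O) ≠ 0) (h2u : ¬ IsUnit (2 : O))
    {ν : O} (hν : IsCoprime ν 2)
    {Ω : Type*} [Field Ω] [Algebra (HRing O) Ω] [FaithfulSMul (HRing O) Ω]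
    {g x : Ω} (hg : IsIntegral (HRing O) g) (hx : IsIntegral (HRing O) x)
    (h : g * algebraMap (HRing O) Ω e4 - algebraMap (HRing O) Ω (MvPolynomial.C ν * e6) = 8 * x) :
    False := by
  classical
  have : IsIntegrallyClosed (HRing O) := isIntegrallyClosed_mvPolynomial_fin 2
  have hinj : Function.Injective (algebraMap (HRing O) Ω) := FaithfulSMul.algebraMap_injective _ _
  set φ := algebraMap (HRing O) Ω with hφ
  set A1 : Ω := φ a1 with hA1
  set A3 : Ω := φ a3 with hA3
  set Nν : Ω := φ (MvPolynomial.C ν) with hNν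
  -- numerals
  have hC2 : (2 : HRing O) = MvPolynomial.C (2 : O) := (map_ofNat MvPolynomial.C 2).symm
  have h2A : (2 : HRing O) ≠ 0 := by
    rw [hC2]; exact fun h0 => h2 (MvPolynomial.C_injective (Fin 2) O (h0.trans (map_zero _).symm))
  have h2Ω : (2 : Ω) ≠ 0 := by
    have : φ 2 ≠ 0 := (map_ne_zero_iff _ hinj).mpr h2A
    rwa [map_ofNat] at this
  have h4Ω : (4 : Ω) ≠ 0 := by
    have : (4 : Ω) = 2 * 2 := by norm_num
    rw [this]; exact mul_ne_zero h2Ω h2Ω
  have h8Ω : (8 : Ω) ≠ 0 := by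
    have : (8 : Ω) = 2 * 4 := by norm_num
    rw [this]; exact mul_ne_zero h2Ω h4Ω
  have h4A : (4 : HRing O) ≠ 0 := by
    intro h0; apply h4Ω; have := congrArg φ h0; rwa [map_ofNat, map_zero] at this
  have h8A : (8 : HRing O) ≠ 0 := by
    intro h0; apply h8Ω; have := congrArg φ h0; rwa [map_ofNat, map_zero] at this
  have ha1 : (a1 : HRing O) ≠ 0 := MvPolynomial.X_ne_zero _
  -- the relation in coordinates
  have hrel : g * (A1 ^ 4 - 24 * A1 * A3) - Nν * (A1 ^ 6 - 36 * A1 ^ 3 * A3 + 216 * A3 ^ 2)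
      = 8 * x := by
    have := h
    simp only [e4, e6, map_sub, map_add, map_mul, map_pow, map_ofNat] at this
    exact this
  have iA1 : IsIntegral (HRing O) A1 := isIntegral_algebraMap
  have iA3 : IsIntegral (HRing O) A3 := isIntegral_algebraMap
  have iN : IsIntegral (HRing O) Nν := isIntegral_algebraMap
  have inum : ∀ n : ℕ, IsIntegral (HRing O) (n : Ω) := fun n => by
    have : (n : Ω) = φ (n : HRing O) := by simp
    rw [this]; exact isIntegral_algebraMap
  -- step 1: u
  set u : Ω := (A1 * g - Nν * A1 ^ 3 + 36 * Nν * A3) / 8 with hu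
  have hu8 : (8 : HRing O) • u = A1 * g - Nν * A1 ^ 3 + 36 * Nν * A3 := by
    rw [Algebra.smul_def, ← hφ, map_ofNat, hu]; field_simp
  have hua : (a1 ^ 3 : HRing O) • u = x + 3 * A1 * A3 * g + 27 * Nν * A3 ^ 2 := by
    rw [Algebra.smul_def, ← hφ, map_pow, ← hA1, hu]; field_simp; linear_combination hrel
  have i36 : IsIntegral (HRing O) (36 : Ω) := by simpa using inum 36
  have i3 : IsIntegral (HRing O) (3 : Ω) := by simpa using inum 3
  have i27 : IsIntegral (HRing O) (27 : Ω) := by simpa using inum 27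
  have i2 : IsIntegral (HRing O) (2 : Ω) := by simpa using inum 2
  have i9 : IsIntegral (HRing O) (9 : Ω) := by simpa using inum 9
  have iu : IsIntegral (HRing O) u := by
    refine isIntegral_of_smul_of_smul (s := (8 : HRing O)) (t := a1 ^ 3) h8A (pow_ne_zero _ ha1)
      ?_ ?_ ?_
    · intro j α β hαβ
      have h8C : (8 : HRing O) ^ j = MvPolynomial.C ((8 : O) ^ j) := by rw [map_pow, map_ofNat]
      rw [h8C] at hαβ ⊢
      rw [← pow_mul] at hαβ
      exact C_dvd_of_mul_X_pow_eq (0 : Fin 2) (3 * j) _ α β hαβ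
    · rw [hu8]
      exact ((iA1.mul hg).sub (iN.mul (iA1.pow 3))).add ((i36.mul iN).mul iA3)
    · rw [hua]
      exact (hx.add (((i3.mul iA1).mul iA3).mul hg)).add ((i27.mul iN).mul (iA3.pow 2))
  -- step 2: c
  set c : Ω := (g - Nν * A1 ^ 2) / 4 with hc
  have hc4 : (4 : HRing O) • c = g - Nν * A1 ^ 2 := by
    rw [Algebra.smul_def, ← hφ, map_ofNat, hc]; field_simp
  have hca : (a1 : HRing O) • c = 2 * u - 9 * Nν * A3 := by
    rw [Algebra.smul_def, ← hφ, ← hA1, hc, hu]; field_simp; ring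
  have ic : IsIntegral (HRing O) c := by
    refine isIntegral_of_smul_of_smul (s := (4 : HRing O)) (t := a1) h4A ha1 ?_ ?_ ?_
    · intro j α β hαβ
      have h4C : (4 : HRing O) ^ j = MvPolynomial.C ((4 : O) ^ j) := by rw [map_pow, map_ofNat]
      rw [h4C] at hαβ ⊢
      exact C_dvd_of_mul_X_pow_eq (0 : Fin 2) j _ α β hαβ
    · rw [hc4]; exact hg.sub (iN.mul (iA1.pow 2))
    · rw [hca]; exact (i2.mul iu).sub ((i9.mul iN).mul iA3)
  -- step 3: 9 ν a₃ ∈ (2, a₁)
  have hfin : φ (MvPolynomial.C (9 * ν) * a3) = φ 2 * u - φ a1 * c := by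
    have e1 : φ (MvPolynomial.C (9 * ν) * a3) = 9 * Nν * A3 := by
      rw [map_mul, MvPolynomial.C_mul, map_mul, map_ofNat MvPolynomial.C, map_ofNat φ]
    rw [e1, map_ofNat φ, ← hA1, hc, hu]; field_simp; ring
  -- a maximal ideal of `O` containing 2
  obtain ⟨𝔪, h𝔪, h2𝔪⟩ := Ideal.exists_le_maximal (Ideal.span {(2 : O)})
    (by rw [Ne, Ideal.span_singleton_eq_top]; exact h2u)
  have h2mem : (2 : O) ∈ 𝔪 := h2𝔪 (Ideal.mem_span_singleton_self 2)
  have h9ν : (9 * ν : O) ∉ 𝔪 := by
    intro hmem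
    obtain ⟨a, b, hab⟩ := hν
    have hνm : ν ∈ 𝔪 := by
      have : ν = 9 * ν - 2 * (4 * ν) := by ring
      rw [this]; exact 𝔪.sub_mem hmem (𝔪.mul_mem_right _ h2mem)
    have : (1 : O) ∈ 𝔪 := by
      rw [← hab]; exact 𝔪.add_mem (𝔪.mul_mem_left _ hνm) (𝔪.mul_mem_left _ h2mem)
    exact h𝔪.ne_top ((Ideal.eq_top_iff_one _).mpr this)
  have := h𝔪
  let _ : Field (O ⧸ 𝔪) := Ideal.Quotient.field 𝔪
  let ψ : HRing O →+* Polynomial (O ⧸ 𝔪) :=
    MvPolynomial.eval₂Hom ((Polynomial.C).comp (Ideal.Quotient.mk 𝔪)) ![0, Polynomial.X]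
  have hψ2 : ψ 2 = 0 := by
    have : ψ (MvPolynomial.C (2 : O)) = 0 := by
      simp only [ψ, MvPolynomial.coe_eval₂Hom, MvPolynomial.eval₂_C, RingHom.comp_apply]
      rw [Ideal.Quotient.eq_zero_iff_mem.mpr h2mem, map_zero]
    rwa [← hC2] at this
  have hψa1 : ψ a1 = 0 := by
    simp [ψ, a1]
  have hψ9 : ψ (MvPolynomial.C (9 * ν) * a3) ≠ 0 := by
    have : ψ (MvPolynomial.C (9 * ν) * a3)
        = Polynomial.C (Ideal.Quotient.mk 𝔪 (9 * ν)) * Polynomial.X := by
      simp [ψ, a3]
    rw [this]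
    refine mul_ne_zero ?_ Polynomial.X_ne_zero
    rw [Ne, Polynomial.C_eq_zero, Ideal.Quotient.eq_zero_iff_mem]
    exact h9ν
  -- lying over
  let B := integralClosure (HRing O) Ω
  have hBinj : Function.Injective (algebraMap (HRing O) B) := by
    intro a b hab
    apply hinj
    exact congrArg Subtype.val hab
  have hPprime : (RingHom.ker ψ).IsPrime := RingHom.ker_isPrime ψ
  obtain ⟨Q, hQ, hQP⟩ := Ideal.exists_ideal_over_prime_of_isIntegral_of_isDomain (S := B)
    (RingHom.ker ψ) (by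
      rw [(RingHom.injective_iff_ker_eq_bot _).mp hBinj]; exact bot_le)
  have mem2 : algebraMap (HRing O) B 2 ∈ Q := by
    have : (2 : HRing O) ∈ Q.comap (algebraMap (HRing O) B) := by rw [hQP]; exact hψ2
    exact this
  have mema1 : algebraMap (HRing O) B a1 ∈ Q := by
    have : (a1 : HRing O) ∈ Q.comap (algebraMap (HRing O) B) := by rw [hQP]; exact hψa1
    exact this
  let ub : B := ⟨u, iu⟩
  let cb : B := ⟨c, ic⟩
  have hB : algebraMap (HRing O) B (MvPolynomial.C (9 * ν) * a3)
      = algebraMap (HRing O) B 2 * ub - algebraMap (HRing O) B a1 * cb := by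
    apply Subtype.ext
    exact hfin
  have : (MvPolynomial.C (9 * ν) * a3 : HRing O) ∈ Q.comap (algebraMap (HRing O) B) := by
    show algebraMap (HRing O) B (MvPolynomial.C (9 * ν) * a3) ∈ Q
    rw [hB]
    exact Q.sub_mem (Q.mul_mem_right _ mem2) (Q.mul_mem_right _ mema1)
  rw [hQP] at this
  exact hψ9 this

/-- **Polynomial form of `hassePole`.** There are no monic polynomials `P` (of positive degree),
`Q` over `O[a₁, a₃]` such that `x = (e₄ g - ν e₆)/8` is a root of `Q` whenever `g` is a root of `P`,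
the latter expressed by the identity `e₄^d P((8Y + ν e₆)/e₄) = 8^d Q(Y)`, `d = deg P`.
(For `P = ∏ (Y - G_γ)` and `Q = ∏ (Y - (G_γ E₄ - ν E₆)/8)` the identity holds by construction.) -/
theorem hassePole_poly [IsDomain O] [IsIntegrallyClosed O] (h2 : (2 : O) ≠ 0)
    (h2u : ¬ IsUnit (2 : O)) {ν : O} (hν : IsCoprime ν 2)
    {P Q : Polynomial (HRing O)} (hP : P.Monic) (hPd : P.natDegree ≠ 0) (hQ : Q.Monic)
    (hPQ : (P.scaleRoots e4).comp
        (Polynomial.C 8 * Polynomial.X + Polynomial.C (MvPolynomial.C ν * e6))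
      = Polynomial.C (8 ^ P.natDegree) * Q) : False := by
  classical
  let K := FractionRing (HRing O)
  let Ω := AlgebraicClosure K
  have hinj : Function.Injective (algebraMap (HRing O) Ω) := by
    rw [IsScalarTower.algebraMap_eq (HRing O) K Ω]
    exact (algebraMap K Ω).injective.comp (IsFractionRing.injective (HRing O) K)
  have : FaithfulSMul (HRing O) Ω := (faithfulSMul_iff_algebraMap_injective _ _).mpr hinj
  set φ := algebraMap (HRing O) Ω with hφ
  -- `8 ≠ 0` in `Ω`
  have hC2 : (2 : HRing O) = MvPolynomial.C (2 : O) := (map_ofNat MvPolynomial.C 2).symm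
  have h2A : (2 : HRing O) ≠ 0 := by
    rw [hC2]; exact fun h0 => h2 (MvPolynomial.C_injective (Fin 2) O (h0.trans (map_zero _).symm))
  have h2Ω : (2 : Ω) ≠ 0 := by
    have : φ 2 ≠ 0 := (map_ne_zero_iff _ hinj).mpr h2A
    rwa [map_ofNat] at this
  have h8Ω : (8 : Ω) ≠ 0 := by
    have : (8 : Ω) = 2 * (2 * 2) := by norm_num
    rw [this]; exact mul_ne_zero h2Ω (mul_ne_zero h2Ω h2Ω)
  -- a root of `P`
  have hdeg : (P.map φ).degree ≠ 0 := by
    rw [hP.degree_map, Polynomial.degree_eq_natDegree hP.ne_zero]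
    exact_mod_cast hPd
  obtain ⟨g, hg⟩ := IsAlgClosed.exists_root (P.map φ) hdeg
  have hgP : Polynomial.aeval g P = 0 := by
    rw [Polynomial.aeval_def, ← Polynomial.eval_map]; exact hg
  have ig : IsIntegral (HRing O) g := ⟨P, hP, by rw [← Polynomial.aeval_def]; exact hgP⟩
  set x : Ω := (g * φ e4 - φ (MvPolynomial.C ν * e6)) / 8 with hx
  have hrel : g * φ e4 - φ (MvPolynomial.C ν * e6) = 8 * x := by
    rw [mul_comm 8 x]; exact ((eq_div_iff h8Ω).mp hx).symm
  have hxQ : Polynomial.aeval x Q = 0 := by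
    have h1 := congrArg (Polynomial.aeval x) hPQ
    have hR : Polynomial.aeval x (Polynomial.C (8 ^ P.natDegree) * Q)
        = algebraMap (HRing O) Ω (8 ^ P.natDegree) * Polynomial.aeval x Q := by
      rw [map_mul, Polynomial.aeval_C]
    rw [Polynomial.aeval_comp, hR] at h1
    have h2' : Polynomial.aeval x
        (Polynomial.C 8 * Polynomial.X + Polynomial.C (MvPolynomial.C ν * e6) :
          Polynomial (HRing O)) = φ e4 * g := by
      rw [map_add, map_mul, Polynomial.aeval_C, Polynomial.aeval_C, Polynomial.aeval_X, ← hφ,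
        map_ofNat φ]
      linear_combination -hrel
    rw [h2', Polynomial.scaleRoots_aeval_eq_zero hgP] at h1
    have h8d : algebraMap (HRing O) Ω (8 ^ P.natDegree) ≠ 0 := by
      rw [← hφ, map_pow, map_ofNat φ]; exact pow_ne_zero _ h8Ω
    exact (mul_eq_zero.mp h1.symm).resolve_left h8d
  have ix : IsIntegral (HRing O) x := ⟨Q, hQ, by rw [← Polynomial.aeval_def]; exact hxQ⟩
  exact hassePole h2 h2u hν ig ix hrel

/-- `hassePole` over `ℤ[a₁, a₃]` with an odd multiplier. -/
theorem hassePole_int {N : ℤ} (hN : Odd N)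
    {Ω : Type*} [Field Ω] [Algebra (HRing ℤ) Ω] [FaithfulSMul (HRing ℤ) Ω]
    {g x : Ω} (hg : IsIntegral (HRing ℤ) g) (hx : IsIntegral (HRing ℤ) x)
    (h : g * algebraMap (HRing ℤ) Ω e4 - algebraMap (HRing ℤ) Ω (MvPolynomial.C N * e6) = 8 * x) :
    False := by
  refine hassePole (O := ℤ) (by norm_num) ?_ ?_ hg hx h
  · rw [Int.isUnit_iff]; omega
  · obtain ⟨k, rfl⟩ := hN
    exact ⟨1, -k, by ring⟩

/-- Polynomial form over `ℤ[a₁, a₃]` with an odd multiplier. -/
theorem hassePole_poly_int {N : ℤ} (hN : Odd N)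
    {P Q : Polynomial (HRing ℤ)} (hP : P.Monic) (hPd : P.natDegree ≠ 0) (hQ : Q.Monic)
    (hPQ : (P.scaleRoots e4).comp
        (Polynomial.C 8 * Polynomial.X + Polynomial.C (MvPolynomial.C N * e6))
      = Polynomial.C (8 ^ P.natDegree) * Q) : False := by
  refine hassePole_poly (O := ℤ) (by norm_num) ?_ ?_ hP hPd hQ hPQ
  · rw [Int.isUnit_iff]; omega
  · obtain ⟨k, rfl⟩ := hN
    exact ⟨1, -k, by ring⟩

end Main

end Fermat.Agent.Lib.helper4273
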