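import Mathlib

namespace Fermat.Agent.Lib.helper430

section GroupLemma

variable {E : Type*} [CommGroup E]

/-- Counting lemma: if a commutative group `E` is generated by a finite family `g`, and a family
`h` (at least as large) is independent modulo `p`-th powers, then every element of `E` is a
product of powers of the `h i` times a `p`-th power. -/
theorem exists_prod_zpow_mul_pow (p : ℕ) [hp : Fact p.Prime] {ι κ : Type*} [Fintype ι] [Fintype κ]
    (g : ι → E) (hg : ∀ x : E, ∃ n : ι → ℤ, x = ∏ i, g i ^ n i)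
    (h : κ → E) (hcard : Fintype.card ι ≤ Fintype.card κ)
    (hind : ∀ e : κ → ℤ, (∃ v : E, ∏ i, h i ^ e i = v ^ p) → ∀ i, (p : ℤ) ∣ e i) (x : E) :
    ∃ (e : κ → ℤ) (v : E), x = (∏ i, h i ^ e i) * v ^ p := by
  classical
  let N : Subgroup E := (powMonoidHom p : E →* E).range
  have hN : ∀ y : E, y ∈ N ↔ ∃ v : E, v ^ p = y := fun y => by
    simp [N, MonoidHom.mem_range]
  let F : (ι → ZMod p) → E ⧸ N := fun n => QuotientGroup.mk (∏ i, g i ^ (n i).val)
  let G : (κ → ZMod p) → E ⧸ N := fun e => QuotientGroup.mk (∏ i, h i ^ (e i).val)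
  have hF : Function.Surjective F := by
    intro q
    obtain ⟨y, rfl⟩ := QuotientGroup.mk_surjective q
    obtain ⟨n, rfl⟩ := hg y
    refine ⟨fun i => (n i : ZMod p), ?_⟩
    simp only [F]
    rw [QuotientGroup.eq, hN]
    refine ⟨∏ i, g i ^ (n i / p), ?_⟩
    rw [← Finset.prod_pow, ← Finset.prod_inv_distrib, ← Finset.prod_mul_distrib]
    refine Finset.prod_congr rfl fun i _ => ?_
    rw [← zpow_natCast (g i) ((n i : ZMod p).val), ZMod.val_intCast, ← zpow_natCast, ← zpow_mul,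
      ← zpow_neg, ← zpow_add]
    congr 1
    have := Int.emod_add_mul_ediv (n i) p
    linarith
  have hG : Function.Injective G := by
    intro e e' hee
    simp only [G] at hee
    rw [QuotientGroup.eq, hN] at hee
    obtain ⟨v, hv⟩ := hee
    have key := hind (fun i => ((e' i).val : ℤ) - ((e i).val : ℤ)) ⟨v, by
      rw [hv, ← Finset.prod_inv_distrib, ← Finset.prod_mul_distrib]
      refine Finset.prod_congr rfl fun i _ => ?_
      rw [zpow_sub, zpow_natCast, zpow_natCast, mul_comm]⟩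
    funext i
    have h1 := key i
    have h2 : ((((e' i).val : ℤ) - ((e i).val : ℤ) : ℤ) : ZMod p) = 0 :=
      (ZMod.intCast_zmod_eq_zero_iff_dvd _ p).mpr h1
    have : NeZero p := ⟨hp.out.ne_zero⟩
    simp only [Int.cast_sub, Int.cast_natCast, ZMod.natCast_zmod_val] at h2
    exact (sub_eq_zero.mp h2).symm
  have hp0 : NeZero p := ⟨hp.out.ne_zero⟩
  have hcard2 : Fintype.card (ι → ZMod p) ≤ Fintype.card (κ → ZMod p) := by
    simp only [Fintype.card_pi, Finset.prod_const, Finset.card_univ, ZMod.card]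
    exact Nat.pow_le_pow_right hp.out.pos hcard
  have : Finite (E ⧸ N) := Finite.of_surjective F hF
  have : Fintype (E ⧸ N) := Fintype.ofFinite _
  have hGs : Function.Surjective G := by
    have h1 : Fintype.card (E ⧸ N) ≤ Fintype.card (ι → ZMod p) :=
      Fintype.card_le_of_surjective F hF
    have h2 : Fintype.card (κ → ZMod p) ≤ Fintype.card (E ⧸ N) :=
      Fintype.card_le_of_injective G hG
    exact ((Fintype.bijective_iff_injective_and_card G).mpr ⟨hG, by omega⟩).2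
  obtain ⟨e, he⟩ := hGs (QuotientGroup.mk x)
  simp only [G] at he
  rw [QuotientGroup.eq, hN] at he
  obtain ⟨v, hv⟩ := he
  refine ⟨fun i => ((e i).val : ℤ), v, ?_⟩
  rw [hv]
  simp only [zpow_natCast]
  group

end GroupLemma
set_option linter.unusedSectionVars false
open NumberField
section Cong

variable {R : Type*} [CommRing R]

/-- The subgroup of units of `R` congruent to a rational integer modulo `m`, for `m ∣ p`. -/
def congIntSubgroup (p : ℕ) [hp : Fact p.Prime] (m : R) (hm : m ∣ (p : R)) : Subgroup Rˣ where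
  carrier := {u | ∃ n : ℤ, m ∣ (u : R) - n}
  one_mem' := ⟨1, by simp⟩
  mul_mem' := by
    rintro u v ⟨a, ha⟩ ⟨b, hb⟩
    refine ⟨a * b, ?_⟩
    have : ((u * v : Rˣ) : R) - ((a * b : ℤ) : R) = (u - a) * v + a * (v - b) := by
      push_cast; ring
    rw [this]
    exact dvd_add (dvd_mul_of_dvd_left ha _) (dvd_mul_of_dvd_right hb _)
  inv_mem' := by
    rintro u ⟨a, ha⟩
    by_cases hpa : (p : ℤ) ∣ a
    · -- then `m ∣ u`, so `m` is a unit
      have h1 : m ∣ (a : R) := by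
        obtain ⟨t, rfl⟩ := hpa
        push_cast
        exact dvd_mul_of_dvd_left hm _
      have h2 : m ∣ (u : R) := by
        have := dvd_add ha h1
        simpa using this
      have h3 : m ∣ 1 := by
        have := dvd_mul_of_dvd_left h2 ((u⁻¹ : Rˣ) : R)
        simpa using this
      exact ⟨0, dvd_trans h3 (one_dvd _)⟩
    · have hcop : IsCoprime (p : ℤ) a :=
        (Prime.coprime_iff_not_dvd (Nat.prime_iff_prime_int.mp hp.out)).mpr hpa
      obtain ⟨s, t, hst⟩ := hcop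
      refine ⟨t, ?_⟩
      have hst' : (s : R) * p + t * a = 1 := by
        have := congrArg (fun z : ℤ => (z : R)) hst
        simpa using this
      have : ((u⁻¹ : Rˣ) : R) - (t : R) = ((u⁻¹ : Rˣ) : R) * (s * p - t * (u - a)) := by
        have hu : ((u⁻¹ : Rˣ) : R) * u = 1 := by simp
        linear_combination (-((u⁻¹ : Rˣ) : R)) * hst' + (t : R) * hu
      rw [this]
      exact dvd_mul_of_dvd_right (dvd_sub (dvd_mul_of_dvd_right hm _)
        (dvd_mul_of_dvd_right ha _)) _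

theorem mem_congIntSubgroup (p : ℕ) [hp : Fact p.Prime] (m : R) (hm : m ∣ (p : R)) (u : Rˣ) :
    u ∈ congIntSubgroup p m hm ↔ ∃ n : ℤ, m ∣ (u : R) - n := Iff.rfl

theorem congIntSubgroup_mono (p : ℕ) [hp : Fact p.Prime] {m m' : R} (hm : m ∣ (p : R))
    (hm' : m' ∣ (p : R)) (h : m ∣ m') : congIntSubgroup p m' hm' ≤ congIntSubgroup p m hm := by
  rintro u ⟨n, hn⟩
  exact ⟨n, dvd_trans h hn⟩

end Cong

section Cyclo

open IsCyclotomicExtension.Rat

variable (p : ℕ) [hp : Fact p.Prime] {K : Type*} [Field K] [NumberField K]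
  [hK : IsCyclotomicExtension {p} ℚ K] {ζ : K} (hζ : IsPrimitiveRoot ζ p)

/-- Every algebraic integer of `ℚ(ζ_p)` is congruent to a rational integer modulo `ζ - 1`. -/
theorem exists_int_sub_dvd (x : 𝓞 K) : ∃ n : ℤ, (hζ.toInteger - 1) ∣ x - n := by
  obtain ⟨f, rfl⟩ := hζ.integralPowerBasis.exists_eq_aeval' x
  refine ⟨f.eval 1, ?_⟩
  have h1 : (Polynomial.X - Polynomial.C (1 : ℤ)) ∣ f - Polynomial.C (f.eval 1) :=
    Polynomial.X_sub_C_dvd_sub_C_eval
  have h2 := map_dvd (Polynomial.aeval (R := ℤ) hζ.integralPowerBasis.gen) h1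
  simpa [hζ.integralPowerBasis_gen] using h2

omit [NumberField K] hK in
theorem natCast_dvd_zeta_sub_one_pow : (p : 𝓞 K) ∣ (hζ.toInteger - 1) ^ (p - 1) :=
  (associated_zeta_sub_one_pow_prime p hζ).symm.dvd

omit [NumberField K] hK in
theorem zeta_sub_one_pow_dvd_natCast {j : ℕ} (hj : j ≤ p - 1) :
    (hζ.toInteger - 1) ^ j ∣ (p : 𝓞 K) :=
  dvd_trans (pow_dvd_pow _ hj) (associated_zeta_sub_one_pow_prime p hζ).dvd

include hζ in
/-- `p`-th powers are congruent to rational integers modulo `p`. -/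
theorem exists_int_pow_sub_dvd (x : 𝓞 K) : ∃ n : ℤ, (p : 𝓞 K) ∣ x ^ p - n := by
  obtain ⟨n, y, hy⟩ := exists_int_sub_dvd p hζ x
  obtain ⟨r, hr⟩ := exists_add_pow_prime_eq hp.out (n : 𝓞 K) ((hζ.toInteger - 1) * y)
  refine ⟨n ^ p, ?_⟩
  have hx : x = n + (hζ.toInteger - 1) * y := by rw [← hy]; ring
  have h1 : (p : 𝓞 K) ∣ ((hζ.toInteger - 1) * y) ^ p := by
    rw [mul_pow]
    exact dvd_mul_of_dvd_left (dvd_trans (natCast_dvd_zeta_sub_one_pow p hζ)
      (pow_dvd_pow _ (Nat.sub_le p 1))) _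
  have : x ^ p - ((n ^ p : ℤ) : 𝓞 K) = ((hζ.toInteger - 1) * y) ^ p +
      p * (n * ((hζ.toInteger - 1) * y) * r) := by
    rw [hx, hr]; push_cast; ring
  rw [this]
  exact dvd_add h1 (dvd_mul_right _ _)

include hζ in
theorem pow_mem_congIntSubgroup (v : (𝓞 K)ˣ) :
    v ^ p ∈ congIntSubgroup p (p : 𝓞 K) dvd_rfl := by
  obtain ⟨n, hn⟩ := exists_int_pow_sub_dvd p hζ (v : 𝓞 K)
  exact ⟨n, by simpa using hn⟩

end Cyclo

section Levels

open IsCyclotomicExtension.Rat

variable (p : ℕ) [hp : Fact p.Prime] {K : Type*} [Field K] [NumberField K]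
  [hK : IsCyclotomicExtension {p} ℚ K] {ζ : K} (hζ : IsPrimitiveRoot ζ p)

/-- `HasLevel p hζ h k`: `h ≡ c (1 + a π ^ k)` modulo `π ^ (k + 1)` for rational integers `c`, `a`
with `p ∤ a`, where `π = ζ - 1`. -/
def HasLevel (h : 𝓞 K) (k : ℕ) : Prop :=
  ∃ c a : ℤ, ¬ (p : ℤ) ∣ a ∧
    (hζ.toInteger - 1) ^ (k + 1) ∣ h - c * (1 + a * (hζ.toInteger - 1) ^ k)

theorem hasLevel_pow_aux {h : 𝓞 K} {k : ℕ} (hk : 1 ≤ k) {c a : ℤ}
    (hlev : (hζ.toInteger - 1) ^ (k + 1) ∣ h - c * (1 + a * (hζ.toInteger - 1) ^ k)) (r : ℕ) :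
    (hζ.toInteger - 1) ^ (k + 1) ∣
      h ^ r - (c : 𝓞 K) ^ r * (1 + r * a * (hζ.toInteger - 1) ^ k) := by
  induction r with
  | zero => simp
  | succ r ih =>
    have h2k : (hζ.toInteger - 1) ^ (k + 1) ∣ (hζ.toInteger - 1) ^ (2 * k) :=
      pow_dvd_pow _ (by omega)
    have : h ^ (r + 1) - (c : 𝓞 K) ^ (r + 1) *
          (1 + ((r + 1 : ℕ) : 𝓞 K) * a * (hζ.toInteger - 1) ^ k) =
        (h ^ r - (c : 𝓞 K) ^ r * (1 + r * a * (hζ.toInteger - 1) ^ k)) * h +
          (c : 𝓞 K) ^ r * (1 + r * a * (hζ.toInteger - 1) ^ k) *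
            (h - c * (1 + a * (hζ.toInteger - 1) ^ k)) +
          (c : 𝓞 K) ^ (r + 1) * r * (a : 𝓞 K) ^ 2 * (hζ.toInteger - 1) ^ (2 * k) := by
      push_cast; ring
    rw [this]
    exact dvd_add (dvd_add (dvd_mul_of_dvd_left ih _) (dvd_mul_of_dvd_right hlev _))
      (dvd_mul_of_dvd_right h2k _)

/-- A unit of level `k ≤ p - 2` has no nontrivial power (modulo `p`-th powers) which is
congruent to a rational integer modulo `π ^ (k + 1)`. -/
theorem dvd_of_zpow_mem_congIntSubgroup {h : (𝓞 K)ˣ} {k : ℕ} (hk1 : 1 ≤ k) (hk2 : k + 2 ≤ p)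
    (hlev : HasLevel p hζ (h : 𝓞 K) k) {e : ℤ}
    (he : h ^ e ∈ congIntSubgroup p ((hζ.toInteger - 1) ^ (k + 1))
      (zeta_sub_one_pow_dvd_natCast p hζ (by omega))) :
    (p : ℤ) ∣ e := by
  obtain ⟨c, a, ha, hca⟩ := hlev
  have hπprime : Prime (hζ.toInteger - 1) := hζ.zeta_sub_one_prime'
  have hpint : Prime (p : ℤ) := Nat.prime_iff_prime_int.mp hp.out
  have hppos : (0 : ℤ) < p := by exact_mod_cast hp.out.pos
  -- decompose `e = r + p * (e / p)`
  have hr0 : 0 ≤ e % (p : ℤ) := Int.emod_nonneg _ hppos.ne'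
  have hrp : e % (p : ℤ) < p := Int.emod_lt_of_pos _ hppos
  obtain ⟨r, hre⟩ : ∃ r : ℕ, (r : ℤ) = e % p := ⟨(e % p).toNat, Int.toNat_of_nonneg hr0⟩
  have he' : e = r + p * (e / p) := by rw [hre]; exact (Int.emod_add_mul_ediv e p).symm
  have hdvd : (hζ.toInteger - 1) ^ (k + 1) ∣ (p : 𝓞 K) :=
    zeta_sub_one_pow_dvd_natCast p hζ (by omega)
  have hmem : h ^ r ∈ congIntSubgroup p ((hζ.toInteger - 1) ^ (k + 1)) hdvd := by
    have h1 : (h ^ (e / p)) ^ p ∈ congIntSubgroup p ((hζ.toInteger - 1) ^ (k + 1)) hdvd :=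
      congIntSubgroup_mono p hdvd dvd_rfl hdvd (pow_mem_congIntSubgroup p hζ _)
    have h2 : h ^ r = h ^ e * ((h ^ (e / p)) ^ p)⁻¹ := by
      rw [← zpow_natCast (h ^ (e / p)) p, ← zpow_mul, ← zpow_neg, ← zpow_add, ← zpow_natCast h r]
      congr 1
      linarith [mul_comm (e / (p : ℤ)) (p : ℤ)]
    rw [h2]
    exact Subgroup.mul_mem _ he (Subgroup.inv_mem _ h1)
  obtain ⟨n, hn⟩ := hmem
  have hB := hasLevel_pow_aux p hζ hk1 hca r
  have h3 : (hζ.toInteger - 1) ^ (k + 1) ∣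
      (c : 𝓞 K) ^ r * (1 + r * a * (hζ.toInteger - 1) ^ k) - n := by
    have := dvd_sub hn hB
    convert this using 1
    push_cast; ring
  have h4 : (hζ.toInteger - 1) ∣ ((c ^ r - n : ℤ) : 𝓞 K) := by
    have h5 : (hζ.toInteger - 1) ∣ (c : 𝓞 K) ^ r * (1 + r * a * (hζ.toInteger - 1) ^ k) - n :=
      dvd_trans (dvd_pow_self _ (by omega)) h3
    have h6 : (hζ.toInteger - 1) ∣ (c : 𝓞 K) ^ r * (r * a * (hζ.toInteger - 1) ^ k) :=
      dvd_mul_of_dvd_right (dvd_mul_of_dvd_right (dvd_pow_self _ (by omega)) _) _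
    have := dvd_sub h5 h6
    convert this using 1
    push_cast; ring
  have h7 : (p : ℤ) ∣ c ^ r - n := (zeta_sub_one_dvd_intCast_iff' p hζ).mp h4
  have h8 : (hζ.toInteger - 1) ^ (k + 1) ∣ ((c ^ r - n : ℤ) : 𝓞 K) := by
    obtain ⟨t, ht⟩ := h7
    rw [ht]
    push_cast
    exact dvd_mul_of_dvd_left hdvd _
  have h9 : (hζ.toInteger - 1) ^ (k + 1) ∣
      ((c ^ r * r * a : ℤ) : 𝓞 K) * (hζ.toInteger - 1) ^ k := by
    have := dvd_sub h3 h8
    convert this using 1
    push_cast; ring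
  have h10 : (hζ.toInteger - 1) ∣ ((c ^ r * r * a : ℤ) : 𝓞 K) := by
    rw [pow_succ'] at h9
    exact (mul_dvd_mul_iff_right (pow_ne_zero k hπprime.ne_zero)).mp h9
  have h11 : (p : ℤ) ∣ c ^ r * r * a := (zeta_sub_one_dvd_intCast_iff' p hζ).mp h10
  have hc : ¬ (p : ℤ) ∣ c := by
    intro hpc
    have hc1 : (hζ.toInteger - 1) ∣ (c : 𝓞 K) := (zeta_sub_one_dvd_intCast_iff' p hζ).mpr hpc
    have hc2 : (hζ.toInteger - 1) ∣ (h : 𝓞 K) := by
      have h5 : (hζ.toInteger - 1) ∣ (h : 𝓞 K) - c * (1 + a * (hζ.toInteger - 1) ^ k) :=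
        dvd_trans (dvd_pow_self _ (by omega)) hca
      have := dvd_add h5 (dvd_mul_of_dvd_left hc1 (1 + a * (hζ.toInteger - 1) ^ k))
      simpa using this
    exact hπprime.not_isUnit (isUnit_of_dvd_unit hc2 h.isUnit)
  rcases hpint.dvd_or_dvd h11 with h12 | h12
  · rcases hpint.dvd_or_dvd h12 with h13 | h13
    · exact absurd (hpint.dvd_of_dvd_pow h13) hc
    · have hr0' : (r : ℤ) = 0 := by
        by_contra hne
        have := Int.le_of_dvd (by omega) h13
        omega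
      rw [he', hr0']
      simp
  · exact absurd h12 ha

end Levels

section Main

open IsCyclotomicExtension.Rat

variable (p : ℕ) [hp : Fact p.Prime] {K : Type*} [Field K] [NumberField K]
  [hK : IsCyclotomicExtension {p} ℚ K] {ζ : K} (hζ : IsPrimitiveRoot ζ p)

/-- Units with strictly increasing levels `≤ p - 2` are independent modulo units congruent to
rational integers modulo `p`. -/
theorem dvd_of_prod_zpow_mem {d : ℕ} (h : Fin d → (𝓞 K)ˣ) (k : Fin d → ℕ)
    (hk : StrictMono k) (hk1 : ∀ i, 1 ≤ k i) (hk2 : ∀ i, k i + 2 ≤ p)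
    (hlev : ∀ i, HasLevel p hζ (h i : 𝓞 K) (k i)) (e : Fin d → ℤ)
    (he : ∏ i, h i ^ e i ∈ congIntSubgroup p (p : 𝓞 K) dvd_rfl) : ∀ i, (p : ℤ) ∣ e i := by
  suffices H : ∀ n : ℕ, ∀ i : Fin d, i.val < n → (p : ℤ) ∣ e i from
    fun i => H (i.val + 1) i (Nat.lt_succ_self _)
  intro n
  induction n with
  | zero => intro i hi; exact absurd hi (Nat.not_lt_zero _)
  | succ n ih =>
    intro i hi
    by_cases hin : i.val < n
    · exact ih i hin
    · have hlt : ∀ j : Fin d, j < i → (p : ℤ) ∣ e j := fun j hj =>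
        ih j (by have : j.val < i.val := hj; omega)
      have hdvd : (hζ.toInteger - 1) ^ (k i + 1) ∣ (p : 𝓞 K) :=
        zeta_sub_one_pow_dvd_natCast p hζ (by have := hk2 i; omega)
      apply dvd_of_zpow_mem_congIntSubgroup p hζ (hk1 i) (hk2 i) (hlev i)
      have hprod : h i ^ e i =
          (∏ j, h j ^ e j) * (∏ j ∈ Finset.univ.erase i, h j ^ e j)⁻¹ := by
        rw [← Finset.mul_prod_erase Finset.univ (fun j => h j ^ e j) (Finset.mem_univ i)]
        simp
      rw [hprod]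
      refine Subgroup.mul_mem _ (congIntSubgroup_mono p hdvd dvd_rfl hdvd he)
        (Subgroup.inv_mem _ (Subgroup.prod_mem _ ?_))
      intro j hj
      have hji : j ≠ i := Finset.ne_of_mem_erase hj
      rcases lt_or_gt_of_ne hji with hj' | hj'
      · obtain ⟨q, hq⟩ := hlt j hj'
        rw [hq, mul_comm, zpow_mul, zpow_natCast]
        exact congIntSubgroup_mono p hdvd dvd_rfl hdvd (pow_mem_congIntSubgroup p hζ _)
      · obtain ⟨c, a, -, hca⟩ := hlev j
        have hkij : k i + 1 ≤ k j := hk hj'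
        have hmemj : h j ∈ congIntSubgroup p ((hζ.toInteger - 1) ^ (k i + 1)) hdvd := by
          refine ⟨c, ?_⟩
          have h1 : (hζ.toInteger - 1) ^ (k i + 1) ∣
              (h j : 𝓞 K) - c * (1 + a * (hζ.toInteger - 1) ^ k j) :=
            dvd_trans (pow_dvd_pow _ (by omega)) hca
          have h2 : (hζ.toInteger - 1) ^ (k i + 1) ∣
              (c : 𝓞 K) * (a * (hζ.toInteger - 1) ^ k j) :=
            dvd_mul_of_dvd_right (dvd_mul_of_dvd_right (pow_dvd_pow _ hkij) _) _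
          have := dvd_add h1 h2
          convert this using 1
          ring
        exact Subgroup.zpow_mem _ hmemj _

/-- **Kummer's lemma** for the prime `p`, given a system of `(p - 1) / 2` units of `ℤ[ζ_p]` with
strictly increasing levels in `[1, p - 2]`: a unit congruent to a rational integer modulo `p`
is a `p`-th power. -/
theorem kummer_of_levels (hp2 : p ≠ 2) {d : ℕ} (hd : (p - 1) / 2 ≤ d)
    (h : Fin d → (𝓞 K)ˣ) (k : Fin d → ℕ)
    (hk : StrictMono k) (hk1 : ∀ i, 1 ≤ k i) (hk2 : ∀ i, k i + 2 ≤ p)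
    (hlev : ∀ i, HasLevel p hζ (h i : 𝓞 K) (k i))
    (u : (𝓞 K)ˣ) (n : ℤ) (hu : (p : 𝓞 K) ∣ (u : 𝓞 K) - n) : ∃ v : (𝓞 K)ˣ, u = v ^ p := by
  classical
  obtain ⟨t, ht⟩ := (inferInstance : IsCyclic (Units.torsion K)).exists_zpow_surjective
  let g : Option (Fin (Units.rank K)) → (𝓞 K)ˣ :=
    fun o => o.elim (t : (𝓞 K)ˣ) (Units.fundSystem K)
  have hg : ∀ x : (𝓞 K)ˣ, ∃ m : Option (Fin (Units.rank K)) → ℤ, x = ∏ i, g i ^ m i := by
    intro x
    obtain ⟨⟨τ, f⟩, hx, -⟩ := Units.exist_unique_eq_mul_prod K x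
    obtain ⟨a, ha⟩ := ht τ
    refine ⟨fun o => o.elim a f, ?_⟩
    rw [Fintype.prod_option]
    simp only [g, Option.elim_none, Option.elim_some]
    rw [hx]
    simp [← ha]
  have hcard : Fintype.card (Option (Fin (Units.rank K))) ≤ Fintype.card (Fin d) := by
    rw [Fintype.card_option, Fintype.card_fin, Fintype.card_fin]
    have h1 : Units.rank K = Fintype.card (InfinitePlace K) - 1 := rfl
    have h2 := InfinitePlace.card_eq_nrRealPlaces_add_nrComplexPlaces K
    have h5 : 3 ≤ p := by have := hp.out.two_le; omega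
    have h3 := nrRealPlaces_eq_zero K (n := p) (by omega)
    have h4 := nrComplexPlaces_eq_totient_div_two p K
    rw [Nat.totient_prime hp.out] at h4
    omega
  have hind : ∀ e : Fin d → ℤ, (∃ v : (𝓞 K)ˣ, ∏ i, h i ^ e i = v ^ p) →
      ∀ i, (p : ℤ) ∣ e i := by
    rintro e ⟨v, hv⟩
    exact dvd_of_prod_zpow_mem p hζ h k hk hk1 hk2 hlev e (hv ▸ pow_mem_congIntSubgroup p hζ v)
  obtain ⟨e, v, hev⟩ := exists_prod_zpow_mul_pow p g hg h hcard hind u
  have hmem : ∏ i, h i ^ e i ∈ congIntSubgroup p (p : 𝓞 K) dvd_rfl := by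
    have : ∏ i, h i ^ e i = u * (v ^ p)⁻¹ := by rw [hev]; simp
    rw [this]
    exact Subgroup.mul_mem _ ⟨n, hu⟩ (Subgroup.inv_mem _ (pow_mem_congIntSubgroup p hζ v))
  have hdiv := dvd_of_prod_zpow_mem p hζ h k hk hk1 hk2 hlev e hmem
  choose f hf using hdiv
  refine ⟨(∏ i, h i ^ f i) * v, ?_⟩
  rw [hev, mul_pow, ← Finset.prod_pow]
  congr 1
  refine Finset.prod_congr rfl fun i _ => ?_
  rw [hf i, mul_comm, zpow_mul, zpow_natCast]

end Main

end Fermat.Agent.Lib.helper430
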