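import Fermat.Agent.Lib.helper430_KummerLevels

namespace Fermat.Agent.Lib.helper430

open NumberField

section P5

variable {K : Type*} [Field K] [NumberField K] [IsCyclotomicExtension {5} ℚ K]

/-- **Kummer's lemma** for `p = 5`: a unit of the ring of integers of `ℚ(ζ_5)` which is
congruent to a rational integer modulo `5` is a `5`-th power. -/
theorem kummer_five (u : (𝓞 K)ˣ) (n : ℤ) (hu : (5 : 𝓞 K) ∣ (u : 𝓞 K) - n) :
    ∃ v : (𝓞 K)ˣ, u = v ^ 5 := by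
  have : Fact (Nat.Prime 5) := ⟨by norm_num⟩
  have hζ := IsCyclotomicExtension.zeta_spec 5 ℚ K
  obtain ⟨z, hz⟩ : ∃ z : 𝓞 K, z = hζ.toInteger := ⟨_, rfl⟩
  have hΦ : 1 + z + z ^ 2 + z ^ 3 + z ^ 4 = 0 := by
    have := hζ.toInteger_isPrimitiveRoot.geom_sum_eq_zero (by norm_num)
    rw [← hz] at this
    simpa [Finset.sum_range_succ] using this
  have e0 : ((1) * z) * ((-1) + (-1) * z + (-1) * z ^ 2 + (-1) * z ^ 3) = 1 := by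
    linear_combination ((-1)) * hΦ
  have e1 : ((1) + (1) * z ^ 2 + (1) * z ^ 3) * ((1) * z ^ 2 + (1) * z ^ 3) = 1 := by
    linear_combination ((-1) + (1) * z + (1) * z ^ 2) * hΦ
  have l0 : HasLevel 5 hζ ((Units.mkOfMulEqOne _ _ e0 : (𝓞 K)ˣ) : 𝓞 K) 1 := by
    refine ⟨1, 1, by norm_num, 0, ?_⟩
    rw [Units.val_mkOfMulEqOne, ← hz]
    push_cast
    linear_combination (0) * hΦ
  have l1 : HasLevel 5 hζ ((Units.mkOfMulEqOne _ _ e1 : (𝓞 K)ˣ) : 𝓞 K) 2 := by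
    refine ⟨-2, -2, by norm_num, (3) + (2) * z + (1) * z ^ 2, ?_⟩
    rw [Units.val_mkOfMulEqOne, ← hz]
    push_cast
    linear_combination ((2) + (-1) * z) * hΦ
  refine kummer_of_levels 5 hζ (by norm_num) (d := 2) (by norm_num)
    ![Units.mkOfMulEqOne _ _ e0, Units.mkOfMulEqOne _ _ e1] ![1, 2] ?_ ?_ ?_ ?_ u n (by exact_mod_cast hu)
  · intro i j hij
    fin_cases i <;> fin_cases j <;> simp at hij ⊢
  · intro i
    fin_cases i <;> simp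
  · intro i
    fin_cases i <;> simp
  · intro i
    fin_cases i
    exacts [l0, l1]

end P5

section P7

variable {K : Type*} [Field K] [NumberField K] [IsCyclotomicExtension {7} ℚ K]

/-- **Kummer's lemma** for `p = 7`: a unit of the ring of integers of `ℚ(ζ_7)` which is
congruent to a rational integer modulo `7` is a `7`-th power. -/
theorem kummer_seven (u : (𝓞 K)ˣ) (n : ℤ) (hu : (7 : 𝓞 K) ∣ (u : 𝓞 K) - n) :
    ∃ v : (𝓞 K)ˣ, u = v ^ 7 := by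
  have : Fact (Nat.Prime 7) := ⟨by norm_num⟩
  have hζ := IsCyclotomicExtension.zeta_spec 7 ℚ K
  obtain ⟨z, hz⟩ : ∃ z : 𝓞 K, z = hζ.toInteger := ⟨_, rfl⟩
  have hΦ : 1 + z + z ^ 2 + z ^ 3 + z ^ 4 + z ^ 5 + z ^ 6 = 0 := by
    have := hζ.toInteger_isPrimitiveRoot.geom_sum_eq_zero (by norm_num)
    rw [← hz] at this
    simpa [Finset.sum_range_succ] using this
  have e0 : ((1) * z) * ((-1) + (-1) * z + (-1) * z ^ 2 + (-1) * z ^ 3 + (-1) * z ^ 4 + (-1) * z ^ 5) = 1 := by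
    linear_combination ((-1)) * hΦ
  have e1 : ((-6) + (-5) * z ^ 2 + (-2) * z ^ 3 + (-2) * z ^ 4 + (-5) * z ^ 5) * ((1) * z ^ 2 + (3) * z ^ 3 + (3) * z ^ 4 + (1) * z ^ 5) = 1 := by
    linear_combination ((-1) + (1) * z + (-6) * z ^ 2 + (-12) * z ^ 3 + (-5) * z ^ 4) * hΦ
  have e2 : ((2) * z ^ 2 + (3) * z ^ 3 + (3) * z ^ 4 + (2) * z ^ 5) * ((3) + (-1) * z ^ 2 + (2) * z ^ 3 + (2) * z ^ 4 + (-1) * z ^ 5) = 1 := by
    linear_combination ((-1) + (1) * z + (6) * z ^ 2 + (3) * z ^ 3 + (-2) * z ^ 4) * hΦ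
  have l0 : HasLevel 7 hζ ((Units.mkOfMulEqOne _ _ e0 : (𝓞 K)ˣ) : 𝓞 K) 1 := by
    refine ⟨1, 1, by norm_num, 0, ?_⟩
    rw [Units.val_mkOfMulEqOne, ← hz]
    push_cast
    linear_combination (0) * hΦ
  have l1 : HasLevel 7 hζ ((Units.mkOfMulEqOne _ _ e1 : (𝓞 K)ˣ) : 𝓞 K) 2 := by
    refine ⟨1, -3, by norm_num, (-2) + (-2) * z + (-1) * z ^ 2 + (1) * z ^ 5, ?_⟩
    rw [Units.val_mkOfMulEqOne, ← hz]
    push_cast
    linear_combination ((-6) + (4) * z + (-1) * z ^ 2) * hΦ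
  have l2 : HasLevel 7 hζ ((Units.mkOfMulEqOne _ _ e2 : (𝓞 K)ˣ) : 𝓞 K) 4 := by
    refine ⟨3, 2, by norm_num, (4) + (-1) * z + (-6) * z ^ 2 + (-8) * z ^ 3 + (-6) * z ^ 4 + (-2) * z ^ 5, ?_⟩
    rw [Units.val_mkOfMulEqOne, ← hz]
    push_cast
    linear_combination ((-5) + (8) * z + (2) * z ^ 2 + (-6) * z ^ 3 + (2) * z ^ 4) * hΦ
  refine kummer_of_levels 7 hζ (by norm_num) (d := 3) (by norm_num)
    ![Units.mkOfMulEqOne _ _ e0, Units.mkOfMulEqOne _ _ e1, Units.mkOfMulEqOne _ _ e2] ![1, 2, 4] ?_ ?_ ?_ ?_ u n (by exact_mod_cast hu)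
  · intro i j hij
    fin_cases i <;> fin_cases j <;> simp at hij ⊢
  · intro i
    fin_cases i <;> simp
  · intro i
    fin_cases i <;> simp
  · intro i
    fin_cases i
    exacts [l0, l1, l2]

end P7

section P11

variable {K : Type*} [Field K] [NumberField K] [IsCyclotomicExtension {11} ℚ K]

/-- **Kummer's lemma** for `p = 11`: a unit of the ring of integers of `ℚ(ζ_11)` which is
congruent to a rational integer modulo `11` is a `11`-th power. -/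
theorem kummer_eleven (u : (𝓞 K)ˣ) (n : ℤ) (hu : (11 : 𝓞 K) ∣ (u : 𝓞 K) - n) :
    ∃ v : (𝓞 K)ˣ, u = v ^ 11 := by
  have : Fact (Nat.Prime 11) := ⟨by norm_num⟩
  have hζ := IsCyclotomicExtension.zeta_spec 11 ℚ K
  obtain ⟨z, hz⟩ : ∃ z : 𝓞 K, z = hζ.toInteger := ⟨_, rfl⟩
  have hΦ : 1 + z + z ^ 2 + z ^ 3 + z ^ 4 + z ^ 5 + z ^ 6 + z ^ 7 + z ^ 8 + z ^ 9 + z ^ 10 = 0 := by
    have := hζ.toInteger_isPrimitiveRoot.geom_sum_eq_zero (by norm_num)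
    rw [← hz] at this
    simpa [Finset.sum_range_succ] using this
  have e0 : ((1) * z) * ((-1) + (-1) * z + (-1) * z ^ 2 + (-1) * z ^ 3 + (-1) * z ^ 4 + (-1) * z ^ 5 + (-1) * z ^ 6 + (-1) * z ^ 7 + (-1) * z ^ 8 + (-1) * z ^ 9) = 1 := by
    linear_combination ((-1)) * hΦ
  have e1 : ((2) + (-3) * z ^ 2 + (-4) * z ^ 3 + (-4) * z ^ 4 + (-4) * z ^ 5 + (-4) * z ^ 6 + (-4) * z ^ 7 + (-4) * z ^ 8 + (-3) * z ^ 9) * ((55) + (50) * z ^ 2 + (9) * z ^ 3 + (38) * z ^ 4 + (23) * z ^ 5 + (23) * z ^ 6 + (38) * z ^ 7 + (9) * z ^ 8 + (50) * z ^ 9) = 1 := by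
    linear_combination ((109) + (-109) * z + (-65) * z ^ 2 + (-137) * z ^ 3 + (-92) * z ^ 4 + (-107) * z ^ 5 + (-123) * z ^ 6 + (-77) * z ^ 7 + (-150) * z ^ 8) * hΦ
  have e2 : ((30) + (-72) * z ^ 2 + (-148) * z ^ 3 + (-200) * z ^ 4 + (-223) * z ^ 5 + (-223) * z ^ 6 + (-200) * z ^ 7 + (-148) * z ^ 8 + (-72) * z ^ 9) * ((145) + (91) * z ^ 2 + (74) * z ^ 3 + (41) * z ^ 4 + (76) * z ^ 5 + (76) * z ^ 6 + (41) * z ^ 7 + (74) * z ^ 8 + (91) * z ^ 9) = 1 := by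
    linear_combination ((4349) + (-4349) * z + (-7710) * z ^ 2 + (-11530) * z ^ 3 + (-15082) * z ^ 4 + (-14529) * z ^ 5 + (-13308) * z ^ 6 + (-12244) * z ^ 7 + (-6552) * z ^ 8) * hΦ
  have e3 : ((-12) + (35) * z ^ 2 + (87) * z ^ 3 + (141) * z ^ 4 + (176) * z ^ 5 + (176) * z ^ 6 + (141) * z ^ 7 + (87) * z ^ 8 + (35) * z ^ 9) * ((-58) + (-54) * z ^ 2 + (-6) * z ^ 3 + (-45) * z ^ 4 + (-22) * z ^ 5 + (-22) * z ^ 6 + (-45) * z ^ 7 + (-6) * z ^ 8 + (-54) * z ^ 9) = 1 := by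
    linear_combination ((695) + (-695) * z + (-1382) * z ^ 2 + (-3592) * z ^ 3 + (-4554) * z ^ 4 + (-5324) * z ^ 5 + (-4803) * z ^ 6 + (-3018) * z ^ 7 + (-1890) * z ^ 8) * hΦ
  have e4 : ((-16) + (87) * z ^ 2 + (298) * z ^ 3 + (589) * z ^ 4 + (806) * z ^ 5 + (806) * z ^ 6 + (589) * z ^ 7 + (298) * z ^ 8 + (87) * z ^ 9) * ((-83) + (47) * z ^ 2 + (-58) * z ^ 3 + (-40) * z ^ 4 + (13) * z ^ 5 + (13) * z ^ 6 + (-40) * z ^ 7 + (-58) * z ^ 8 + (47) * z ^ 9) = 1 := by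
    linear_combination ((1327) + (-1327) * z + (-7973) * z ^ 2 + (-15833) * z ^ 3 + (-20352) * z ^ 4 + (-13988) * z ^ 5 + (-2041) * z ^ 6 + (4871) * z ^ 7 + (4089) * z ^ 8) * hΦ
  have l0 : HasLevel 11 hζ ((Units.mkOfMulEqOne _ _ e0 : (𝓞 K)ˣ) : 𝓞 K) 1 := by
    refine ⟨1, 1, by norm_num, 0, ?_⟩
    rw [Units.val_mkOfMulEqOne, ← hz]
    push_cast
    linear_combination (0) * hΦ
  have l1 : HasLevel 11 hζ ((Units.mkOfMulEqOne _ _ e1 : (𝓞 K)ˣ) : 𝓞 K) 2 := by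
    refine ⟨5, -5, by norm_num, (-18) + (-14) * z + (-13) * z ^ 2 + (-14) * z ^ 3 + (-16) * z ^ 4 + (-18) * z ^ 5 + (-19) * z ^ 6 + (-18) * z ^ 7 + (-14) * z ^ 8 + (-7) * z ^ 9, ?_⟩
    rw [Units.val_mkOfMulEqOne, ← hz]
    push_cast
    linear_combination ((4) + (-14) * z + (7) * z ^ 2) * hΦ
  have l2 : HasLevel 11 hζ ((Units.mkOfMulEqOne _ _ e2 : (𝓞 K)ˣ) : 𝓞 K) 4 := by
    refine ⟨-2, 3, by norm_num, (-525) + (-332) * z + (502) * z ^ 2 + (1711) * z ^ 3 + (2920) * z ^ 4 + (3754) * z ^ 5 + (3947) * z ^ 6 + (3428) * z ^ 7 + (2355) * z ^ 8 + (1073) * z ^ 9, ?_⟩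
    rw [Units.val_mkOfMulEqOne, ← hz]
    push_cast
    linear_combination ((-487) + (2756) * z + (-5393) * z ^ 2 + (4083) * z ^ 3 + (-1073) * z ^ 4) * hΦ
  have l3 : HasLevel 11 hζ ((Units.mkOfMulEqOne _ _ e3 : (𝓞 K)ˣ) : 𝓞 K) 6 := by
    refine ⟨-3, 2, by norm_num, (417) + (2378) * z + (5255) * z ^ 2 + (8132) * z ^ 3 + (10093) * z ^ 4 + (10516) * z ^ 5 + (9270) * z ^ 6 + (6753) * z ^ 7 + (3763) * z ^ 8 + (1246) * z ^ 9, ?_⟩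
    rw [Units.val_mkOfMulEqOne, ← hz]
    push_cast
    linear_combination ((414) + (-991) * z + (-1932) * z ^ 2 + (9166) * z ^ 3 + (-11537) * z ^ 4 + (6205) * z ^ 5 + (-1246) * z ^ 6) * hΦ
  have l4 : HasLevel 11 hζ ((Units.mkOfMulEqOne _ _ e4 : (𝓞 K)ˣ) : 𝓞 K) 8 := by
    refine ⟨2, -4, by norm_num, (-27522) + (-67885) * z + (-108248) * z ^ 2 + (-135762) * z ^ 3 + (-141697) * z ^ 4 + (-124207) * z ^ 5 + (-88871) * z ^ 6 + (-46891) * z ^ 7 + (-11555) * z ^ 8 + (5935) * z ^ 9, ?_⟩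
    rw [Units.val_mkOfMulEqOne, ← hz]
    push_cast
    linear_combination ((-27532) + (207281) * z + (-667513) * z ^ 2 + (1194072) * z ^ 3 + (-1287358) * z ^ 4 + (852136) * z ^ 5 + (-335734) * z ^ 6 + (70905) * z ^ 7 + (-5935) * z ^ 8) * hΦ
  refine kummer_of_levels 11 hζ (by norm_num) (d := 5) (by norm_num)
    ![Units.mkOfMulEqOne _ _ e0, Units.mkOfMulEqOne _ _ e1, Units.mkOfMulEqOne _ _ e2, Units.mkOfMulEqOne _ _ e3, Units.mkOfMulEqOne _ _ e4] ![1, 2, 4, 6, 8] ?_ ?_ ?_ ?_ u n (by exact_mod_cast hu)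
  · intro i j hij
    fin_cases i <;> fin_cases j <;> simp at hij ⊢
  · intro i
    fin_cases i <;> simp
  · intro i
    fin_cases i <;> simp
  · intro i
    fin_cases i
    exacts [l0, l1, l2, l3, l4]

end P11

section P13

variable {K : Type*} [Field K] [NumberField K] [IsCyclotomicExtension {13} ℚ K]

/-- **Kummer's lemma** for `p = 13`: a unit of the ring of integers of `ℚ(ζ_13)` which is
congruent to a rational integer modulo `13` is a `13`-th power. -/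
theorem kummer_thirteen (u : (𝓞 K)ˣ) (n : ℤ) (hu : (13 : 𝓞 K) ∣ (u : 𝓞 K) - n) :
    ∃ v : (𝓞 K)ˣ, u = v ^ 13 := by
  have : Fact (Nat.Prime 13) := ⟨by norm_num⟩
  have hζ := IsCyclotomicExtension.zeta_spec 13 ℚ K
  obtain ⟨z, hz⟩ : ∃ z : 𝓞 K, z = hζ.toInteger := ⟨_, rfl⟩
  have hΦ : 1 + z + z ^ 2 + z ^ 3 + z ^ 4 + z ^ 5 + z ^ 6 + z ^ 7 + z ^ 8 + z ^ 9 + z ^ 10 + z ^ 11 + z ^ 12 = 0 := by
    have := hζ.toInteger_isPrimitiveRoot.geom_sum_eq_zero (by norm_num)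
    rw [← hz] at this
    simpa [Finset.sum_range_succ] using this
  have e0 : ((1) * z) * ((-1) + (-1) * z + (-1) * z ^ 2 + (-1) * z ^ 3 + (-1) * z ^ 4 + (-1) * z ^ 5 + (-1) * z ^ 6 + (-1) * z ^ 7 + (-1) * z ^ 8 + (-1) * z ^ 9 + (-1) * z ^ 10 + (-1) * z ^ 11) = 1 := by
    linear_combination ((-1)) * hΦ
  have e1 : ((2) + (-3) * z ^ 2 + (-4) * z ^ 3 + (-4) * z ^ 4 + (-4) * z ^ 5 + (-4) * z ^ 6 + (-4) * z ^ 7 + (-4) * z ^ 8 + (-4) * z ^ 9 + (-4) * z ^ 10 + (-3) * z ^ 11) * ((91) + (85) * z ^ 2 + (11) * z ^ 3 + (70) * z ^ 4 + (29) * z ^ 5 + (50) * z ^ 6 + (50) * z ^ 7 + (29) * z ^ 8 + (70) * z ^ 9 + (11) * z ^ 10 + (85) * z ^ 11) = 1 := by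
    linear_combination ((181) + (-181) * z + (-103) * z ^ 2 + (-239) * z ^ 3 + (-137) * z ^ 4 + (-200) * z ^ 5 + (-179) * z ^ 6 + (-157) * z ^ 7 + (-221) * z ^ 8 + (-118) * z ^ 9 + (-255) * z ^ 10) * hΦ
  have e2 : ((-96) + (-149) * z ^ 2 + (15) * z ^ 3 + (-69) * z ^ 4 + (-98) * z ^ 5 + (-34) * z ^ 6 + (-34) * z ^ 7 + (-98) * z ^ 8 + (-69) * z ^ 9 + (15) * z ^ 10 + (-149) * z ^ 11) * ((72) + (-178) * z ^ 2 + (-378) * z ^ 3 + (-530) * z ^ 4 + (-613) * z ^ 5 + (-644) * z ^ 6 + (-644) * z ^ 7 + (-613) * z ^ 8 + (-530) * z ^ 9 + (-378) * z ^ 10 + (-178) * z ^ 11) = 1 := by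
    linear_combination ((-6913) + (6913) * z + (6360) * z ^ 2 + (31008) * z ^ 3 + (35066) * z ^ 4 + (33010) * z ^ 5 + (39514) * z ^ 6 + (41331) * z ^ 7 + (31930) * z ^ 8 + (27130) * z ^ 9 + (26522) * z ^ 10) * hΦ
  have e3 : ((41) + (-7) * z ^ 2 + (33) * z ^ 3 + (20) * z ^ 4 + (-21) * z ^ 5 + (30) * z ^ 6 + (30) * z ^ 7 + (-21) * z ^ 8 + (20) * z ^ 9 + (33) * z ^ 10 + (-7) * z ^ 11) * ((-14) + (45) * z ^ 2 + (124) * z ^ 3 + (228) * z ^ 4 + (330) * z ^ 5 + (394) * z ^ 6 + (394) * z ^ 7 + (330) * z ^ 8 + (228) * z ^ 9 + (124) * z ^ 10 + (45) * z ^ 11) = 1 := by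
    linear_combination ((-575) + (575) * z + (1943) * z ^ 2 + (2679) * z ^ 3 + (4131) * z ^ 4 + (5688) * z ^ 5 + (4689) * z ^ 6 + (3353) * z ^ 7 + (2779) * z ^ 8 + (932) * z ^ 9 + (-315) * z ^ 10) * hΦ
  have e4 : ((-11575) + (-10908) * z ^ 2 + (-1308) * z ^ 3 + (-9038) * z ^ 4 + (-3619) * z ^ 5 + (-6414) * z ^ 6 + (-6414) * z ^ 7 + (-3619) * z ^ 8 + (-9038) * z ^ 9 + (-1308) * z ^ 10 + (-10908) * z ^ 11) * ((-513) + (-257) * z ^ 2 + (-392) * z ^ 3 + (61) * z ^ 4 + (-479) * z ^ 5 + (-115) * z ^ 6 + (-115) * z ^ 7 + (-479) * z ^ 8 + (61) * z ^ 9 + (-392) * z ^ 10 + (-257) * z ^ 11) = 1 := by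
    linear_combination ((5937974) + (-5937974) * z + (8570579) * z ^ 2 + (-3362175) * z ^ 3 + (1525371) * z ^ 4 + (5279289) * z ^ 5 + (-5221443) * z ^ 6 + (7448009) * z ^ 7 + (-2441978) * z ^ 8 + (1808736) * z ^ 9 + (2803356) * z ^ 10) * hΦ
  have e5 : ((-928) + (264) * z ^ 2 + (-869) * z ^ 3 + (-357) * z ^ 4 + (383) * z ^ 5 + (-677) * z ^ 6 + (-677) * z ^ 7 + (383) * z ^ 8 + (-357) * z ^ 9 + (-869) * z ^ 10 + (264) * z ^ 11) * ((1311) + (1252) * z ^ 2 + (119) * z ^ 3 + (1060) * z ^ 4 + (383) * z ^ 5 + (740) * z ^ 6 + (740) * z ^ 7 + (383) * z ^ 8 + (1060) * z ^ 9 + (119) * z ^ 10 + (1252) * z ^ 11) = 1 := by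
    linear_combination ((-1216609) + (1216609) * z + (-815752) * z ^ 2 + (-433939) * z ^ 3 + (128512) * z ^ 4 + (211296) * z ^ 5 + (-934919) * z ^ 6 + (-112460) * z ^ 7 + (786037) * z ^ 8 + (-1387100) * z ^ 9 + (330528) * z ^ 10) * hΦ
  have l0 : HasLevel 13 hζ ((Units.mkOfMulEqOne _ _ e0 : (𝓞 K)ˣ) : 𝓞 K) 1 := by
    refine ⟨1, 1, by norm_num, 0, ?_⟩
    rw [Units.val_mkOfMulEqOne, ← hz]
    push_cast
    linear_combination (0) * hΦ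
  have l1 : HasLevel 13 hζ ((Units.mkOfMulEqOne _ _ e1 : (𝓞 K)ˣ) : 𝓞 K) 2 := by
    refine ⟨3, -6, by norm_num, (-9) + (-4) * z + (-3) * z ^ 2 + (-5) * z ^ 3 + (-9) * z ^ 4 + (-14) * z ^ 5 + (-19) * z ^ 6 + (-23) * z ^ 7 + (-25) * z ^ 8 + (-24) * z ^ 9 + (-19) * z ^ 10 + (-10) * z ^ 11, ?_⟩
    rw [Units.val_mkOfMulEqOne, ← hz]
    push_cast
    linear_combination ((8) + (-21) * z + (10) * z ^ 2) * hΦ
  have l2 : HasLevel 13 hζ ((Units.mkOfMulEqOne _ _ e2 : (𝓞 K)ˣ) : 𝓞 K) 4 := by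
    refine ⟨1, -3, by norm_num, (7) + (-1) * z ^ 2 + (3) * z ^ 3 + (-3) * z ^ 4 + (-9) * z ^ 5 + (-5) * z ^ 6 + (-6) * z ^ 7 + (-13) * z ^ 8 + (-3) * z ^ 9 + (-3) * z ^ 10, ?_⟩
    rw [Units.val_mkOfMulEqOne, ← hz]
    push_cast
    linear_combination ((-87) + (40) * z + (-15) * z ^ 2 + (3) * z ^ 3) * hΦ
  have l3 : HasLevel 13 hζ ((Units.mkOfMulEqOne _ _ e3 : (𝓞 K)ˣ) : 𝓞 K) 6 := by
    refine ⟨-5, -2, by norm_num, (17) + (-7) * z + (-57) * z ^ 2 + (-118) * z ^ 3 + (-179) * z ^ 4 + (-229) * z ^ 5 + (-253) * z ^ 6 + (-246) * z ^ 7 + (-212) * z ^ 8 + (-156) * z ^ 9 + (-90) * z ^ 10 + (-34) * z ^ 11, ?_⟩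
    rw [Units.val_mkOfMulEqOne, ← hz]
    push_cast
    linear_combination ((53) + (-119) * z + (258) * z ^ 2 + (-420) * z ^ 3 + (388) * z ^ 4 + (-182) * z ^ 5 + (34) * z ^ 6) * hΦ
  have l4 : HasLevel 13 hζ ((Units.mkOfMulEqOne _ _ e4 : (𝓞 K)ˣ) : 𝓞 K) 8 := by
    refine ⟨3, 5, by norm_num, (-41) + (-194) * z + (-377) * z ^ 2 + (-560) * z ^ 3 + (-713) * z ^ 4 + (-769) * z ^ 5 + (-766) * z ^ 6 + (-637) * z ^ 7 + (-492) * z ^ 8 + (-277) * z ^ 9 + (-132) * z ^ 10 + (-3) * z ^ 11, ?_⟩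
    rw [Units.val_mkOfMulEqOne, ← hz]
    push_cast
    linear_combination ((-11634) + (11929) * z + (-11730) * z ^ 2 + (10260) * z ^ 3 + (-7028) * z ^ 4 + (3302) * z ^ 5 + (-908) * z ^ 6 + (102) * z ^ 7 + (3) * z ^ 8) * hΦ
  have l5 : HasLevel 13 hζ ((Units.mkOfMulEqOne _ _ e5 : (𝓞 K)ˣ) : 𝓞 K) 10 := by
    refine ⟨5, 4, by norm_num, (-27705) + (-63678) * z + (-99651) * z ^ 2 + (-127376) * z ^ 3 + (-140513) * z ^ 4 + (-136052) * z ^ 5 + (-115006) * z ^ 6 + (-82206) * z ^ 7 + (-45170) * z ^ 8 + (-12370) * z ^ 9 + (8676) * z ^ 10 + (13137) * z ^ 11, ?_⟩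
    rw [Units.val_mkOfMulEqOne, ← hz]
    push_cast
    linear_combination ((-28658) + (269935) * z + (-1164881) * z ^ 2 + (2962955) * z ^ 3 + (-4899870) * z ^ 4 + (5498238) * z ^ 5 + (-4237509) * z ^ 6 + (2214254) * z ^ 7 + (-750560) * z ^ 8 + (148968) * z ^ 9 + (-13137) * z ^ 10) * hΦ
  refine kummer_of_levels 13 hζ (by norm_num) (d := 6) (by norm_num)
    ![Units.mkOfMulEqOne _ _ e0, Units.mkOfMulEqOne _ _ e1, Units.mkOfMulEqOne _ _ e2, Units.mkOfMulEqOne _ _ e3, Units.mkOfMulEqOne _ _ e4, Units.mkOfMulEqOne _ _ e5] ![1, 2, 4, 6, 8, 10] ?_ ?_ ?_ ?_ u n (by exact_mod_cast hu)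
  · intro i j hij
    fin_cases i <;> fin_cases j <;> simp at hij ⊢
  · intro i
    fin_cases i <;> simp
  · intro i
    fin_cases i <;> simp
  · intro i
    fin_cases i
    exacts [l0, l1, l2, l3, l4, l5]

end P13

end Fermat.Agent.Lib.helper430
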