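import Mathlib

/-!
# Newton-polygon bound for roots of large valuation (helper4453)

`newton_bound`: if a polynomial `f` over a valued field has coefficients of valuation `≤ 1`
and `S` is a finite set of roots of `f`, each of valuation `> 1`, then
`v f.leadingCoeff * ∏ t ∈ S, v t ≤ 1`.
-/

set_option autoImplicit false

namespace Fermat.Agent.Lib.helper4453

open Polynomial

variable {K : Type*} [Field K] {Γ₀ : Type*} [LinearOrderedCommGroupWithZero Γ₀]

/-- Division of an integral polynomial by `X - t` with `1 < v t`: the quotient times `t`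
is again integral. -/
theorem exists_factor_of_root (v : Valuation K Γ₀) (f : K[X]) (hf : ∀ i, v (f.coeff i) ≤ 1)
    (t : K) (ht : 1 < v t) (hroot : f.eval t = 0) :
    ∃ h : K[X], f = (X - C t) * h ∧ ∀ i, v (t * h.coeff i) ≤ 1 := by
  have hdvd : (X - C t) ∣ f := dvd_iff_isRoot.mpr hroot
  obtain ⟨h, hh⟩ := hdvd
  refine ⟨h, hh, ?_⟩
  have ht0 : t ≠ 0 := by
    rintro rfl
    simp at ht
  have hvt : v t ≠ 0 := by simpa using ht0
  -- coefficient recursion: f_i = h_{i-1} - t h_i
  have hc0 : f.coeff 0 = - (t * h.coeff 0) := by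
    rw [hh]; simp [mul_coeff_zero]
  have hcs : ∀ i, f.coeff (i + 1) = h.coeff i - t * h.coeff (i + 1) := by
    intro i
    rw [hh, sub_mul, coeff_sub, coeff_X_mul, coeff_C_mul]
  intro i
  induction i with
  | zero =>
    have : t * h.coeff 0 = - f.coeff 0 := by rw [hc0]; ring
    rw [this, Valuation.map_neg]; exact hf 0
  | succ i ih =>
    have h1 : t * h.coeff (i + 1) = h.coeff i - f.coeff (i + 1) := by rw [hcs i]; ring
    rw [h1]
    refine le_trans (Valuation.map_sub v _ _) (max_le ?_ (hf _))
    -- v (h_i) = v (t h_i) / v t ≤ v (t h_i) ≤ 1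
    have h2 : v (h.coeff i) * v t ≤ 1 := by
      rw [mul_comm, ← Valuation.map_mul]; exact ih
    calc v (h.coeff i) = v (h.coeff i) * 1 := (mul_one _).symm
      _ ≤ v (h.coeff i) * v t := by gcongr
      _ ≤ 1 := h2

/-- **Newton-polygon bound.** If `f` has integral coefficients and `S` is a finite set of roots
of `f`, all of valuation `> 1`, then `v (leadingCoeff f) * ∏ t ∈ S, v t ≤ 1`. -/
theorem newton_bound (v : Valuation K Γ₀) (S : Finset K) :
    ∀ (f : K[X]), (∀ i, v (f.coeff i) ≤ 1) → (∀ t ∈ S, f.eval t = 0 ∧ 1 < v t) →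
      v f.leadingCoeff * ∏ t ∈ S, v t ≤ 1 := by
  classical
  induction S using Finset.induction_on with
  | empty =>
    intro f hf _
    simpa using hf f.natDegree
  | insert a S ha ih =>
    intro f hf hS
    obtain ⟨hroot, hta⟩ := hS a (Finset.mem_insert_self a S)
    obtain ⟨h, hh, hint⟩ := exists_factor_of_root v f hf a hta hroot
    have ha0 : a ≠ 0 := by
      rintro rfl
      simp at hta
    -- apply induction to `C a * h`
    have hf' : ∀ i, v ((C a * h).coeff i) ≤ 1 := by
      intro i; rw [coeff_C_mul]; exact hint i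
    have hS' : ∀ t ∈ S, (C a * h).eval t = 0 ∧ 1 < v t := by
      intro t ht
      obtain ⟨hr, hv⟩ := hS t (Finset.mem_insert_of_mem ht)
      refine ⟨?_, hv⟩
      have hne : t ≠ a := fun h => ha (h ▸ ht)
      rw [hh, eval_mul, eval_sub, eval_X, eval_C] at hr
      have : h.eval t = 0 := by
        rcases mul_eq_zero.mp hr with h1 | h1
        · exact absurd (sub_eq_zero.mp h1) hne
        · exact h1
      rw [eval_mul, this, mul_zero]
    have key := ih (C a * h) hf' hS'
    have hlead : f.leadingCoeff = h.leadingCoeff := by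
      rw [hh, leadingCoeff_mul, leadingCoeff_X_sub_C, one_mul]
    have hlead' : (C a * h).leadingCoeff = a * h.leadingCoeff := by
      rw [leadingCoeff_mul, leadingCoeff_C]
    rw [hlead', Valuation.map_mul] at key
    rw [Finset.prod_insert ha, hlead]
    calc v h.leadingCoeff * (v a * ∏ t ∈ S, v t)
        = v a * v h.leadingCoeff * ∏ t ∈ S, v t := by
          rw [← mul_assoc, mul_comm (v h.leadingCoeff)]
      _ ≤ 1 := key

/-! ### Valuations of rational numbers above a prime -/

/-- A natural number has valuation `≤ 1` for any valuation. -/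
theorem val_natCast_le_one (v : Valuation K Γ₀) (n : ℕ) : v (n : K) ≤ 1 := by
  induction n with
  | zero => simp
  | succ i ih =>
    push_cast
    exact le_trans (Valuation.map_add v _ _) (max_le ih (by simp))

/-- An integer has valuation `≤ 1` for any valuation. -/
theorem val_intCast_le_one (v : Valuation K Γ₀) (n : ℤ) : v (n : K) ≤ 1 := by
  obtain ⟨k, rfl | rfl⟩ := Int.eq_nat_or_neg n
  · rw [Int.cast_natCast]; exact val_natCast_le_one v k
  · rw [Int.cast_neg, Int.cast_natCast, Valuation.map_neg]; exact val_natCast_le_one v k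

/-- If `v p < 1` for a prime `p`, an integer prime to `p` has valuation `1`. -/
theorem val_intCast_eq_one_of_not_dvd (v : Valuation K Γ₀) {p : ℕ} (hp : p.Prime)
    (hvp : v (p : K) < 1) {m : ℤ} (hm : ¬ (p : ℤ) ∣ m) : v (m : K) = 1 := by
  refine le_antisymm (val_intCast_le_one v m) ?_
  by_contra hlt
  push Not at hlt
  have hcop : IsCoprime (p : ℤ) m :=
    (Nat.prime_iff_prime_int.mp hp).coprime_iff_not_dvd.mpr hm
  obtain ⟨a, b, hab⟩ := hcop
  have h1 : v ((a : K) * (p : K) + (b : K) * (m : K)) = 1 := by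
    have : ((a : K) * (p : K) + (b : K) * (m : K)) = 1 := by exact_mod_cast congrArg (Int.cast : ℤ → K) hab
    rw [this, map_one]
  have h2 : v ((a : K) * (p : K) + (b : K) * (m : K)) < 1 := by
    refine lt_of_le_of_lt (Valuation.map_add v _ _) (max_lt ?_ ?_)
    · rw [Valuation.map_mul]
      calc v (a : K) * v (p : K) ≤ 1 * v (p : K) := by gcongr; exact val_intCast_le_one v a
        _ = v (p : K) := one_mul _
        _ < 1 := hvp
    · rw [Valuation.map_mul]
      calc v (b : K) * v (m : K) ≤ 1 * v (m : K) := by gcongr; exact val_intCast_le_one v b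
        _ = v (m : K) := one_mul _
        _ < 1 := hlt
  exact absurd h1 (ne_of_lt h2)

/-- If `v p < 1` for a prime `p`, an integer of valuation `< 1` has valuation `≤ v p`. -/
theorem val_intCast_le_of_lt_one (v : Valuation K Γ₀) {p : ℕ} (hp : p.Prime)
    (hvp : v (p : K) < 1) {m : ℤ} (hm : v (m : K) < 1) : v (m : K) ≤ v (p : K) := by
  have hdvd : (p : ℤ) ∣ m := by
    by_contra h
    exact absurd (val_intCast_eq_one_of_not_dvd v hp hvp h) (ne_of_lt hm)
  obtain ⟨k, rfl⟩ := hdvd
  push_cast
  rw [Valuation.map_mul]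
  calc v (p : K) * v (k : K) ≤ v (p : K) * 1 := by gcongr; exact val_intCast_le_one v k
    _ = v (p : K) := mul_one _

/-- **Rational numbers above `p`, small case.** If `v p < 1` and a rational `c` has `v c < 1`
then `v c ≤ v p`. -/
theorem val_ratCast_le_of_lt_one [CharZero K] (v : Valuation K Γ₀) {p : ℕ} (hp : p.Prime)
    (hvp : v (p : K) < 1) (c : ℚ) (hc : v (c : K) < 1) : v (c : K) ≤ v (p : K) := by
  have hden : (c.den : K) ≠ 0 := by exact_mod_cast c.den_ne_zero
  have hcast : (c : K) = (c.num : K) / (c.den : K) := by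
    conv_lhs => rw [← Rat.num_div_den c]
    push_cast; rfl
  have hvden0 : v (c.den : K) ≠ 0 := by simp [hden]
  by_cases hd : (p : ℤ) ∣ (c.den : ℤ)
  · -- then `p ∤ num`, so `v c = 1 / v den ≥ 1`: contradiction
    exfalso
    have hn : ¬ (p : ℤ) ∣ c.num := by
      intro h
      have h1 : p ∣ c.num.natAbs := Int.natCast_dvd.mp h
      have h2 : p ∣ c.den := Int.natCast_dvd_natCast.mp hd
      have h3 : p ∣ 1 := by
        have := Nat.dvd_gcd h1 h2
        rwa [Nat.Coprime.gcd_eq_one c.reduced] at this
      exact hp.one_lt.ne' (Nat.dvd_one.mp h3)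
    have hvn : v (c.num : K) = 1 := val_intCast_eq_one_of_not_dvd v hp hvp hn
    rw [hcast, map_div₀, hvn] at hc
    have hvd : v (c.den : K) ≤ 1 := by
      have := val_intCast_le_one v (c.den : ℤ)
      simpa using this
    have : (1 : Γ₀) ≤ 1 / v (c.den : K) := by
      rw [le_div_iff₀ (zero_lt_iff.mpr hvden0), one_mul]; exact hvd
    exact absurd hc (not_lt.mpr this)
  · have hvd : v (c.den : K) = 1 := by
      have := val_intCast_eq_one_of_not_dvd v hp hvp hd
      simpa using this
    rw [hcast, map_div₀, hvd, div_one] at hc ⊢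
    exact val_intCast_le_of_lt_one v hp hvp hc

/-- **Rational numbers above `p`, large case.** If `v p < 1` and a rational `c` has `1 < v c`
then `1 ≤ v c * v p`. -/
theorem one_le_val_ratCast_mul [CharZero K] (v : Valuation K Γ₀) {p : ℕ} (hp : p.Prime)
    (hvp : v (p : K) < 1) (c : ℚ) (hc : 1 < v (c : K)) : 1 ≤ v (c : K) * v (p : K) := by
  have hc0 : (c : K) ≠ 0 := by
    rintro h
    rw [h, map_zero] at hc
    exact absurd hc (by simp)
  have hvc0 : v (c : K) ≠ 0 := by simpa using hc0
  have hinv : v ((c⁻¹ : ℚ) : K) < 1 := by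
    push_cast
    rw [map_inv₀]
    exact inv_lt_one_of_one_lt₀ hc
  have h := val_ratCast_le_of_lt_one v hp hvp c⁻¹ hinv
  push_cast at h
  rw [map_inv₀] at h
  calc (1 : Γ₀) = v (c : K) * (v (c : K))⁻¹ := (mul_inv_cancel₀ hvc0).symm
    _ ≤ v (c : K) * v (p : K) := by gcongr

end Fermat.Agent.Lib.helper4453
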