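import Mathlib

/-!
# Integrality over a polynomial ring: the `S2` lemma

`helper450`: commutative-algebra core for the "supersingular" cases of S16.
-/

namespace Fermat.Agent.Lib.helper450

open Polynomial

section S2

variable {R Ω : Type*} [CommRing R] [IsDomain R] [IsIntegrallyClosed R]
  [Field Ω] [Algebra R Ω] [FaithfulSMul R Ω]

attribute [local instance] FractionRing.liftAlgebra

omit [IsIntegrallyClosed R] in
/-- Scaling the argument scales the roots of the minimal polynomial over the fraction field. -/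
theorem minpoly_fractionRing_mul {s : R} (hs : s ≠ 0) {y : Ω}
    (hy : IsIntegral (FractionRing R) y) :
    minpoly (FractionRing R) (algebraMap R Ω s * y)
      = scaleRoots (minpoly (FractionRing R) y) (algebraMap R (FractionRing R) s) := by
  set K := FractionRing R
  have hsK : algebraMap R K s ≠ 0 := by
    simpa using (IsFractionRing.injective R K).ne hs
  have hsΩ : algebraMap R Ω s = algebraMap K Ω (algebraMap R K s) :=
    IsScalarTower.algebraMap_apply R K Ω s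
  symm
  refine minpoly.unique K _ ?_ ?_ ?_
  · exact (monic_scaleRoots_iff _).2 (minpoly.monic hy)
  · rw [hsΩ]
    exact scaleRoots_aeval_eq_zero (minpoly.aeval K y)
  · intro q hq hq0
    rw [degree_scaleRoots]
    have h1 : aeval y (scaleRoots q (algebraMap R K s)⁻¹) = 0 := by
      have := scaleRoots_aeval_eq_zero (A := Ω) (r := (algebraMap R K s)⁻¹) hq0
      rw [hsΩ, ← mul_assoc, ← map_mul, inv_mul_cancel₀ hsK, map_one, one_mul] at this
      exact this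
    have h2 := minpoly.min K y ((monic_scaleRoots_iff _).2 hq) h1
    rwa [degree_scaleRoots] at h2

/-- **The `S2` lemma.** Let `R` be an integrally closed domain, `π` a prime of `R` and `h ∈ R`
not divisible by `π`. If `π ^ a * y` and `h * y` are integral over `R`, so is `y`. -/
theorem isIntegral_of_prime_pow_mul_of_mul {π h : R} (hπ : Prime π) (hh : ¬ π ∣ h) (a : ℕ)
    {y : Ω} (h1 : IsIntegral R (algebraMap R Ω (π ^ a) * y))
    (h2 : IsIntegral R (algebraMap R Ω h * y)) : IsIntegral R y := by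
  set K := FractionRing R
  have hinj : Function.Injective (algebraMap R K) := IsFractionRing.injective R K
  have hh0 : h ≠ 0 := fun h0 => hh (h0 ▸ dvd_zero π)
  have hπa : π ^ a ≠ 0 := pow_ne_zero _ hπ.ne_zero
  have hhΩ : algebraMap R Ω h ≠ 0 := by
    simpa using (FaithfulSMul.algebraMap_injective R Ω).ne hh0
  -- `y` is algebraic over `K`
  have hyK : IsIntegral K y := by
    have h3 : IsIntegral K (algebraMap R Ω h * y) := h2.tower_top
    have h4 : IsIntegral K ((algebraMap R Ω h)⁻¹) := by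
      have : IsIntegral K (algebraMap R Ω h) := by
        rw [IsScalarTower.algebraMap_apply R K Ω]; exact isIntegral_algebraMap
      exact this.inv
    have := h4.mul h3
    rwa [← mul_assoc, inv_mul_cancel₀ hhΩ, one_mul] at this
  set m := minpoly K y with hm
  set d := m.natDegree
  have e1 := minpoly_fractionRing_mul (Ω := Ω) hπa hyK
  have e2 := minpoly_fractionRing_mul (Ω := Ω) hh0 hyK
  rw [minpoly.isIntegrallyClosed_eq_field_fractions' K h1] at e1
  rw [minpoly.isIntegrallyClosed_eq_field_fractions' K h2] at e2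
  set P := minpoly R (algebraMap R Ω (π ^ a) * y)
  set Q := minpoly R (algebraMap R Ω h * y)
  have c1 : ∀ i, algebraMap R K (P.coeff i) = m.coeff i * algebraMap R K (π ^ a) ^ (d - i) := by
    intro i
    have := congrArg (fun p => p.coeff i) e1
    simpa [coeff_map, coeff_scaleRoots] using this
  have c2 : ∀ i, algebraMap R K (Q.coeff i) = m.coeff i * algebraMap R K h ^ (d - i) := by
    intro i
    have := congrArg (fun p => p.coeff i) e2
    simpa [coeff_map, coeff_scaleRoots] using this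
  -- the coefficients of `m` lie in `R`
  have key : ∀ i, m.coeff i ∈ Set.range (algebraMap R K) := by
    intro i
    have e3 : P.coeff i * h ^ (d - i) = Q.coeff i * (π ^ a) ^ (d - i) := by
      apply hinj
      rw [map_mul, map_mul, map_pow, map_pow, c1, c2]
      ring
    have hdvd : (π ^ a) ^ (d - i) ∣ P.coeff i := by
      rw [← pow_mul]
      refine hπ.pow_dvd_of_dvd_mul_right (b := h ^ (d - i)) _
        (fun hc => hh (hπ.dvd_of_dvd_pow hc)) ?_
      rw [e3, pow_mul]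
      exact dvd_mul_left _ _
    obtain ⟨r, hr⟩ := hdvd
    refine ⟨r, ?_⟩
    have h5 := c1 i
    rw [hr, map_mul, map_pow] at h5
    have h6 : algebraMap R K (π ^ a) ^ (d - i) ≠ 0 :=
      pow_ne_zero _ (by simpa using hinj.ne hπa)
    have h7 : algebraMap R K (π ^ a) ^ (d - i) * algebraMap R K r
        = algebraMap R K (π ^ a) ^ (d - i) * m.coeff i := by rw [h5]; ring
    exact mul_left_cancel₀ h6 h7
  have hlift : m ∈ lifts (algebraMap R K) := (lifts_iff_coeff_lifts m).2 key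
  obtain ⟨M, hM, -, hMmonic⟩ := lifts_and_natDegree_eq_and_monic hlift (minpoly.monic hyK)
  refine ⟨M, hMmonic, ?_⟩
  have : aeval y (M.map (algebraMap R K)) = 0 := by rw [hM]; exact minpoly.aeval K y
  rwa [aeval_map_algebraMap] at this

end S2

section IntAway

/-- The subalgebra of elements of `Ω` integral over `ℤ_(l)[X]`: those `x` for which `N * x` is
integral over `ℤ[X]` for some natural number `N` prime to `l`. -/
def intAway (Ω : Type*) [Field Ω] [Algebra ℤ[X] Ω] (l : ℕ) : Subalgebra ℤ[X] Ω where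
  carrier := {x | ∃ N : ℕ, N.Coprime l ∧ IsIntegral ℤ[X] ((N : Ω) * x)}
  mul_mem' := by
    rintro x y ⟨N, hN, hx⟩ ⟨M, hM, hy⟩
    refine ⟨N * M, Nat.Coprime.mul_left hN hM, ?_⟩
    have e : ((N * M : ℕ) : Ω) * (x * y) = (N : Ω) * x * ((M : Ω) * y) := by push_cast; ring
    rw [e]; exact hx.mul hy
  add_mem' := by
    rintro x y ⟨N, hN, hx⟩ ⟨M, hM, hy⟩
    refine ⟨N * M, Nat.Coprime.mul_left hN hM, ?_⟩
    have hMi : IsIntegral ℤ[X] (M : Ω) := by
      rw [← map_natCast (algebraMap ℤ[X] Ω)]; exact isIntegral_algebraMap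
    have hNi : IsIntegral ℤ[X] (N : Ω) := by
      rw [← map_natCast (algebraMap ℤ[X] Ω)]; exact isIntegral_algebraMap
    have e : ((N * M : ℕ) : Ω) * (x + y)
        = (M : Ω) * ((N : Ω) * x) + (N : Ω) * ((M : Ω) * y) := by push_cast; ring
    rw [e]; exact (hMi.mul hx).add (hNi.mul hy)
  algebraMap_mem' := fun r =>
    ⟨1, Nat.coprime_one_left _, by simpa using isIntegral_algebraMap⟩

variable {Ω : Type*} [Field Ω] [Algebra ℤ[X] Ω]

theorem mem_intAway {l : ℕ} {x : Ω} :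
    x ∈ intAway Ω l ↔ ∃ N : ℕ, N.Coprime l ∧ IsIntegral ℤ[X] ((N : Ω) * x) := Iff.rfl

theorem mem_intAway_of_isIntegral {l : ℕ} {x : Ω} (hx : IsIntegral ℤ[X] x) : x ∈ intAway Ω l :=
  ⟨1, Nat.coprime_one_left _, by simpa using hx⟩

theorem isIntegral_natCast_polyInt (N : ℕ) : IsIntegral ℤ[X] (N : Ω) := by
  rw [← map_natCast (algebraMap ℤ[X] Ω)]; exact isIntegral_algebraMap

theorem isIntegral_intCast_polyInt (N : ℤ) : IsIntegral ℤ[X] (N : Ω) := by
  rw [← map_intCast (algebraMap ℤ[X] Ω)]; exact isIntegral_algebraMap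

theorem algebraMap_C_natCast_polyInt (l : ℕ) : algebraMap ℤ[X] Ω (C (l : ℤ)) = (l : Ω) := by
  simp

variable [FaithfulSMul ℤ[X] Ω]

/-- The `S2` lemma for `intAway`. -/
theorem mem_intAway_of_pow_mul_of_mul {l : ℕ} (hl : l.Prime) {h : ℤ[X]} {i : ℕ}
    (hh : ¬ (l : ℤ) ∣ h.coeff i) (a : ℕ) {y : Ω}
    (h1 : (l : Ω) ^ a * y ∈ intAway Ω l) (h2 : algebraMap ℤ[X] Ω h * y ∈ intAway Ω l) :
    y ∈ intAway Ω l := by
  obtain ⟨N, hN, i1⟩ := h1
  obtain ⟨M, hM, i2⟩ := h2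
  refine ⟨N * M, Nat.Coprime.mul_left hN hM, ?_⟩
  have hπ : Prime (C (l : ℤ)) := prime_C_iff.2 (Nat.prime_iff_prime_int.1 hl)
  have hh' : ¬ C (l : ℤ) ∣ h := fun hc => hh ((C_dvd_iff_dvd_coeff _ _).1 hc i)
  refine isIntegral_of_prime_pow_mul_of_mul hπ hh' a ?_ ?_
  · have e : algebraMap ℤ[X] Ω (C (l : ℤ) ^ a) * (((N * M : ℕ) : Ω) * y)
        = (M : Ω) * ((N : Ω) * ((l : Ω) ^ a * y)) := by
      rw [map_pow, algebraMap_C_natCast_polyInt]; push_cast; ring
    rw [e]; exact (isIntegral_natCast_polyInt M).mul i1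
  · have e : algebraMap ℤ[X] Ω h * (((N * M : ℕ) : Ω) * y)
        = (N : Ω) * ((M : Ω) * (algebraMap ℤ[X] Ω h * y)) := by push_cast; ring
    rw [e]; exact (isIntegral_natCast_polyInt N).mul i2

/-- `1 ∉ (l, X)` in the integral closure of `ℤ[X]`. -/
theorem natCast_mul_add_X_mul_ne_one_of_isIntegral {l : ℕ} (hl : l.Prime) {a b : Ω}
    (ha : IsIntegral ℤ[X] a) (hb : IsIntegral ℤ[X] b) :
    (l : Ω) * a + algebraMap ℤ[X] Ω X * b ≠ 1 := by
  intro hab
  have : Fact l.Prime := ⟨hl⟩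
  let O := integralClosure ℤ[X] Ω
  let φ : ℤ[X] →+* ZMod l := eval₂RingHom (Int.castRingHom (ZMod l)) 0
  have hφ : Function.Surjective φ := by
    intro z
    obtain ⟨n, rfl⟩ := ZMod.intCast_surjective z
    exact ⟨C n, by simp [φ]⟩
  have : (RingHom.ker φ).IsMaximal := RingHom.ker_isMaximal_of_surjective φ hφ
  have hinj : Function.Injective (algebraMap ℤ[X] O) := by
    intro x y hxy
    apply FaithfulSMul.algebraMap_injective ℤ[X] Ω
    exact congrArg Subtype.val hxy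
  have hker : RingHom.ker (algebraMap ℤ[X] O) ≤ RingHom.ker φ := by
    rw [(RingHom.injective_iff_ker_eq_bot _).1 hinj]; exact bot_le
  obtain ⟨Q, hQmax, hQ⟩ :=
    Ideal.exists_ideal_over_maximal_of_isIntegral (S := O) (RingHom.ker φ) hker
  have hl' : algebraMap ℤ[X] O (C (l : ℤ)) ∈ Q := by
    have : C (l : ℤ) ∈ RingHom.ker φ := by simp [RingHom.mem_ker, φ]
    rw [← hQ] at this; exact this
  have hX : algebraMap ℤ[X] O X ∈ Q := by
    have : (X : ℤ[X]) ∈ RingHom.ker φ := by simp [RingHom.mem_ker, φ]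
    rw [← hQ] at this; exact this
  have h1 : (1 : O) ∈ Q := by
    have e : (1 : O) = algebraMap ℤ[X] O (C (l : ℤ)) * ⟨a, ha⟩ + algebraMap ℤ[X] O X * ⟨b, hb⟩ := by
      apply Subtype.ext
      push_cast
      rw [algebraMap_C_natCast_polyInt l, hab]
    rw [e]; exact Q.add_mem (Q.mul_mem_right _ hl') (Q.mul_mem_right _ hX)
  exact hQmax.ne_top ((Ideal.eq_top_iff_one _).2 h1)

/-- `1 ∉ (l, X)` in `intAway Ω l`. -/
theorem natCast_mul_add_X_mul_ne_one {l : ℕ} (hl : l.Prime) {a b : Ω}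
    (ha : a ∈ intAway Ω l) (hb : b ∈ intAway Ω l) :
    (l : Ω) * a + algebraMap ℤ[X] Ω X * b ≠ 1 := by
  intro hab
  obtain ⟨N, hN, ia⟩ := ha
  obtain ⟨M, hM, ib⟩ := hb
  have hNM : (N * M).Coprime l := Nat.Coprime.mul_left hN hM
  have hco : IsCoprime ((N * M : ℕ) : ℤ) (l : ℤ) := Nat.isCoprime_iff_coprime.2 hNM
  obtain ⟨u, v, huv⟩ := hco
  have huv' : (u : Ω) * ((N : Ω) * (M : Ω)) + (v : Ω) * (l : Ω) = 1 := by
    have := congrArg (Int.cast : ℤ → Ω) huv
    push_cast at this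
    exact this
  refine natCast_mul_add_X_mul_ne_one_of_isIntegral hl
    (a := (u : Ω) * (M : Ω) * ((N : Ω) * a) + (v : Ω))
    (b := (u : Ω) * (N : Ω) * ((M : Ω) * b)) ?_ ?_ ?_
  · exact (((isIntegral_intCast_polyInt u).mul (isIntegral_natCast_polyInt M)).mul ia).add
      (isIntegral_intCast_polyInt v)
  · exact ((isIntegral_intCast_polyInt u).mul (isIntegral_natCast_polyInt N)).mul ib
  · linear_combination (u : Ω) * (N : Ω) * (M : Ω) * hab + huv'

/-- **No weight-two form is `1` modulo `8`** (algebraic core). In any field `Ω ⊇ ℤ[X]`, with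
`t` the image of `X`, there are no `g`, `k` integral over `ℤ_(2)[t]` such that
`g * (t ^ 4 - 24 * t) = t ^ 6 - 36 * t ^ 3 + 216 + 8 * k`. -/
theorem no_solution_two {g k : Ω} (hg : g ∈ intAway Ω 2) (hk : k ∈ intAway Ω 2) :
    g * (algebraMap ℤ[X] Ω X ^ 4 - 24 * algebraMap ℤ[X] Ω X)
      ≠ algebraMap ℤ[X] Ω X ^ 6 - 36 * algebraMap ℤ[X] Ω X ^ 3 + 216 + 8 * k := by
  intro h
  have : CharZero Ω := charZero_of_injective_algebraMap (FaithfulSMul.algebraMap_injective ℤ[X] Ω)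
  set t : Ω := algebraMap ℤ[X] Ω X with ht
  have htO : t ∈ intAway Ω 2 := Subalgebra.algebraMap_mem _ _
  have ht0 : t ≠ 0 := by
    rw [ht]
    simp
  have h2 : Nat.Prime 2 := Nat.prime_two
  -- step 1
  have e1 : 8 * ((k + 27) / t) = g * (t ^ 3 - 24) - t ^ 5 + 36 * t ^ 2 := by
    rw [← mul_div_assoc, div_eq_iff ht0]; linear_combination (-1 : Ω) * h
  have hy1 : (k + 27) / t ∈ intAway Ω 2 := by
    refine mem_intAway_of_pow_mul_of_mul h2 (h := X) (i := 1) (by simp) 3 ?_ ?_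
    · have e : ((2 : ℕ) : Ω) ^ 3 * ((k + 27) / t) = g * (t ^ 3 - 24) - t ^ 5 + 36 * t ^ 2 := by
        rw [← e1]; push_cast; ring
      rw [e]
      have h24 : (24 : Ω) ∈ intAway Ω 2 := by simp
      have h36 : (36 : Ω) ∈ intAway Ω 2 := by simp
      exact add_mem (sub_mem (mul_mem hg (sub_mem (pow_mem htO 3) h24)) (pow_mem htO 5))
        (mul_mem h36 (pow_mem htO 2))
    · have e : algebraMap ℤ[X] Ω X * ((k + 27) / t) = k + 27 := by
        rw [← ht]; field_simp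
      rw [e]
      exact add_mem hk (by simp)
  set y1 := (k + 27) / t with hy1def
  -- step 2
  have e2 : 8 * ((y1 + 3 * g) / t ^ 2) = g * t - t ^ 3 + 36 := by
    rw [← mul_div_assoc, div_eq_iff (pow_ne_zero 2 ht0)]; linear_combination e1
  have hy2 : (y1 + 3 * g) / t ^ 2 ∈ intAway Ω 2 := by
    refine mem_intAway_of_pow_mul_of_mul h2 (h := X ^ 2) (i := 2) (by simp) 3 ?_ ?_
    · have e : ((2 : ℕ) : Ω) ^ 3 * ((y1 + 3 * g) / t ^ 2) = g * t - t ^ 3 + 36 := by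
        rw [← e2]; push_cast; ring
      rw [e]
      have h36 : (36 : Ω) ∈ intAway Ω 2 := by simp
      exact add_mem (sub_mem (mul_mem hg htO) (pow_mem htO 3)) h36
    · have e : algebraMap ℤ[X] Ω (X ^ 2) * ((y1 + 3 * g) / t ^ 2) = y1 + 3 * g := by
        rw [map_pow, ← ht]; field_simp
      rw [e]
      exact add_mem hy1 (mul_mem (by simp) hg)
  set y2 := (y1 + 3 * g) / t ^ 2 with hy2def
  -- step 3
  have e3 : t * ((g - t ^ 2) / 4) = 2 * y2 - 9 := by
    linear_combination (-1 / 4 : Ω) * e2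
  have hy3 : (g - t ^ 2) / 4 ∈ intAway Ω 2 := by
    refine mem_intAway_of_pow_mul_of_mul h2 (h := X) (i := 1) (by simp) 2 ?_ ?_
    · have e : ((2 : ℕ) : Ω) ^ 2 * ((g - t ^ 2) / 4) = g - t ^ 2 := by
        push_cast; ring
      rw [e]
      exact sub_mem hg (pow_mem htO 2)
    · rw [← ht, e3]
      exact sub_mem (mul_mem (by simp) hy2) (by simp)
  set y3 := (g - t ^ 2) / 4 with hy3def
  -- conclusion
  refine natCast_mul_add_X_mul_ne_one h2 (a := y2 - 4) (b := -y3)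
    (sub_mem hy2 (by simp)) (neg_mem hy3) ?_
  rw [← ht]; push_cast; linear_combination (-1 : Ω) * e3

/-- **No weight-two form is `1` modulo `9`** (algebraic core). In any field `Ω ⊇ ℤ[X]`, with
`u` the image of `X`, `e₄ = 16 (u ^ 2 + 3)`, `e₆ = 64 u ^ 3 + 288 u`, `δ = 16 (u ^ 2 + 4)`
(so that `e₄ ^ 3 - e₆ ^ 2 = 1728 δ`), there are no `g`, `k`, `ψ` integral over `ℤ_(3)[u]` with
`g * e₄ = e₆ + 3 * k` and `k ^ 3 - k * e₄ ^ 3 - δ * e₆ = 3 * ψ`. -/
theorem no_solution_three {g k ψ : Ω} (hg : g ∈ intAway Ω 3) (hk : k ∈ intAway Ω 3)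
    (hψ : ψ ∈ intAway Ω 3)
    (h1 : g * (16 * (algebraMap ℤ[X] Ω X ^ 2 + 3))
      = 64 * algebraMap ℤ[X] Ω X ^ 3 + 288 * algebraMap ℤ[X] Ω X + 3 * k) :
    k ^ 3 - k * (16 * (algebraMap ℤ[X] Ω X ^ 2 + 3)) ^ 3
        - 16 * (algebraMap ℤ[X] Ω X ^ 2 + 4)
          * (64 * algebraMap ℤ[X] Ω X ^ 3 + 288 * algebraMap ℤ[X] Ω X)
      ≠ 3 * ψ := by
  intro h2
  have : CharZero Ω := charZero_of_injective_algebraMap (FaithfulSMul.algebraMap_injective ℤ[X] Ω)
  set u : Ω := algebraMap ℤ[X] Ω X with hu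
  have huO : u ∈ intAway Ω 3 := Subalgebra.algebraMap_mem _ _
  have h3 : Nat.Prime 3 := Nat.prime_three
  -- step 1
  have e1 : 16 * u ^ 2 * ((g - 4 * u) / 3) = k + 96 * u - 16 * g := by
    linear_combination (1 / 3 : Ω) * h1
  have hy1 : (g - 4 * u) / 3 ∈ intAway Ω 3 := by
    refine mem_intAway_of_pow_mul_of_mul h3 (h := C 16 * X ^ 2) (i := 2) ?_ 1 ?_ ?_
    · simp only [coeff_C_mul, coeff_X_pow, if_true]
      norm_num
    · have e : ((3 : ℕ) : Ω) ^ 1 * ((g - 4 * u) / 3) = g - 4 * u := by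
        push_cast; ring
      rw [e]
      exact sub_mem hg (mul_mem (by simp) huO)
    · have e : algebraMap ℤ[X] Ω (C 16 * X ^ 2) * ((g - 4 * u) / 3) = k + 96 * u - 16 * g := by
        have hC : algebraMap ℤ[X] Ω (C (16 : ℤ)) = 16 := by
          have h16 : (C (16 : ℤ) : ℤ[X]) = 16 := by simp
          rw [h16]; exact map_ofNat (algebraMap ℤ[X] Ω) 16
        rw [← e1, map_mul, map_pow, ← hu, hC]
      rw [e]
      exact sub_mem (add_mem hk (mul_mem (by simp) huO)) (mul_mem (by simp) hg)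
  set y1 := (g - 4 * u) / 3 with hy1def
  have hk' : k = 16 * (u ^ 2 + 3) * y1 - 32 * u := by
    have e0 : 3 * y1 = g - 4 * u := by rw [hy1def]; ring
    linear_combination (-1 : Ω) * e1 + (-16 : Ω) * e0
  subst hk'
  -- step 2
  have hm : ∀ (c : ℤ) (i j : ℕ), (c : Ω) * u ^ i * y1 ^ j ∈ intAway Ω 3 := fun c i j =>
    mul_mem (mul_mem (intCast_mem _ c) (pow_mem huO i)) (pow_mem hy1 j)
  have hW : (((-21845 : ℤ) : Ω) * u ^ 8 * y1 ^ 1 +
      ((43691 : ℤ) : Ω) * u ^ 7 * y1 ^ 0 +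
      ((1365 : ℤ) : Ω) * u ^ 6 * y1 ^ 3 +
      ((-262144 : ℤ) : Ω) * u ^ 6 * y1 ^ 1 +
      ((-8192 : ℤ) : Ω) * u ^ 5 * y1 ^ 2 +
      ((392875 : ℤ) : Ω) * u ^ 5 * y1 ^ 0 +
      ((12288 : ℤ) : Ω) * u ^ 4 * y1 ^ 3 +
      ((-1163264 : ℤ) : Ω) * u ^ 4 * y1 ^ 1 +
      ((-49152 : ℤ) : Ω) * u ^ 3 * y1 ^ 2 +
      ((1165824 : ℤ) : Ω) * u ^ 3 * y1 ^ 0 +
      ((36864 : ℤ) : Ω) * u ^ 2 * y1 ^ 3 +
      ((-2310144 : ℤ) : Ω) * u ^ 2 * y1 ^ 1 +
      ((-73728 : ℤ) : Ω) * u ^ 1 * y1 ^ 2 +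
      ((1173504 : ℤ) : Ω) * u ^ 1 * y1 ^ 0 +
      ((36864 : ℤ) : Ω) * u ^ 0 * y1 ^ 3 +
      ((-1769472 : ℤ) : Ω) * u ^ 0 * y1 ^ 1) ∈ intAway Ω 3 :=
    add_mem (add_mem (add_mem (add_mem (add_mem (add_mem (add_mem (add_mem (add_mem (add_mem (add_mem (add_mem (add_mem (add_mem (add_mem (hm (-21845) 8 1)
      (hm 43691 7 0))
      (hm 1365 6 3))
      (hm (-262144) 6 1))
      (hm (-8192) 5 2))
      (hm 392875 5 0))
      (hm 12288 4 3))
      (hm (-1163264) 4 1))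
      (hm (-49152) 3 2))
      (hm 1165824 3 0))
      (hm 36864 2 3))
      (hm (-2310144) 2 1))
      (hm (-73728) 1 2))
      (hm 1173504 1 0))
      (hm 36864 0 3))
      (hm (-1769472) 0 1)
  have e2 : u ^ 5 * ((u * y1 ^ 3 - u ^ 3 * y1 - u ^ 2 - 1) / 3) = ψ -
      (((-21845 : ℤ) : Ω) * u ^ 8 * y1 ^ 1 +
      ((43691 : ℤ) : Ω) * u ^ 7 * y1 ^ 0 +
      ((1365 : ℤ) : Ω) * u ^ 6 * y1 ^ 3 +
      ((-262144 : ℤ) : Ω) * u ^ 6 * y1 ^ 1 +
      ((-8192 : ℤ) : Ω) * u ^ 5 * y1 ^ 2 +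
      ((392875 : ℤ) : Ω) * u ^ 5 * y1 ^ 0 +
      ((12288 : ℤ) : Ω) * u ^ 4 * y1 ^ 3 +
      ((-1163264 : ℤ) : Ω) * u ^ 4 * y1 ^ 1 +
      ((-49152 : ℤ) : Ω) * u ^ 3 * y1 ^ 2 +
      ((1165824 : ℤ) : Ω) * u ^ 3 * y1 ^ 0 +
      ((36864 : ℤ) : Ω) * u ^ 2 * y1 ^ 3 +
      ((-2310144 : ℤ) : Ω) * u ^ 2 * y1 ^ 1 +
      ((-73728 : ℤ) : Ω) * u ^ 1 * y1 ^ 2 +
      ((1173504 : ℤ) : Ω) * u ^ 1 * y1 ^ 0 +
      ((36864 : ℤ) : Ω) * u ^ 0 * y1 ^ 3 +
      ((-1769472 : ℤ) : Ω) * u ^ 0 * y1 ^ 1) := by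
    push_cast
    linear_combination (1 / 3 : Ω) * h2
  have hy2 : (u * y1 ^ 3 - u ^ 3 * y1 - u ^ 2 - 1) / 3 ∈ intAway Ω 3 := by
    refine mem_intAway_of_pow_mul_of_mul h3 (h := X ^ 5) (i := 5) (by simp) 1 ?_ ?_
    · have e : ((3 : ℕ) : Ω) ^ 1 * ((u * y1 ^ 3 - u ^ 3 * y1 - u ^ 2 - 1) / 3)
          = u * y1 ^ 3 - u ^ 3 * y1 - u ^ 2 - 1 := by
        push_cast; ring
      rw [e]
      exact sub_mem (sub_mem (sub_mem (mul_mem huO (pow_mem hy1 3))
        (mul_mem (pow_mem huO 3) hy1)) (pow_mem huO 2)) (one_mem _)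
    · rw [map_pow, ← hu, e2]
      exact sub_mem hψ hW
  set y2 := (u * y1 ^ 3 - u ^ 3 * y1 - u ^ 2 - 1) / 3 with hy2def
  -- conclusion
  refine natCast_mul_add_X_mul_ne_one h3 (a := -y2) (b := y1 ^ 3 - u ^ 2 * y1 - u)
    (neg_mem hy2) (sub_mem (sub_mem (pow_mem hy1 3) (mul_mem (pow_mem huO 2) hy1)) huO) ?_
  rw [← hu, hy2def]; push_cast; ring

end IntAway

end Fermat.Agent.Lib.helper450
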