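import Mathlib

/-!
# Abstract graded freeness over a two-generator graded ring (regular-sequence argument)

Author: helper460.  Everything lives in `Fermat.Agent.Lib.helper460`.

Setting: a field `K`, a commutative `K`-algebra `A`, two `ℤ`-indexed families of `K`-submodules
`R k` ("the base ring", think `M_k(SL₂(ℤ))`) and `M k` ("the module", think `M_k(Γ)`) of `A`,
and two elements `e4 ∈ R 4`, `e6 ∈ R 6` such that

* `R k = 0` for `k < 0`, `R 0 = K·1`, `R k = e4 R (k-4) + e6 R (k-6)` for `k ≠ 0`,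
* `M k = 0` for `k < 0`, `M k` finite dimensional,
* `(e4, e6)` is a regular sequence on `M`: `e4 a = e6 b` ⟹ `a = e6 h`, `b = e4 h`.

Then lifts `b k j` of bases of `M k / (e4 M (k-4) + e6 M (k-6))` form a free basis of `M`
over `R`: every `f ∈ M k` is a unique combination `∑ P i * F i` with `P i ∈ R (k - deg i)`.
-/

set_option autoImplicit false

namespace Fermat.Agent.Lib.helper460

open Module

section Abstract

variable {K A : Type*} [Field K] [CommRing A] [Algebra K A]

/-- The decomposable part `e4 M (k-4) + e6 M (k-6)` in degree `k`. -/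
def Idec (M : ℤ → Submodule K A) (e4 e6 : A) (k : ℤ) : Submodule K A :=
  (M (k - 4)).map (LinearMap.mulLeft K e4) ⊔ (M (k - 6)).map (LinearMap.mulLeft K e6)

lemma mem_Idec {M : ℤ → Submodule K A} {e4 e6 : A} {k : ℤ} {x : A} :
    x ∈ Idec M e4 e6 k ↔ ∃ a ∈ M (k - 4), ∃ b ∈ M (k - 6), x = e4 * a + e6 * b := by
  unfold Idec
  rw [Submodule.mem_sup]
  constructor
  · rintro ⟨y, hy, z, hz, rfl⟩
    obtain ⟨a, ha, rfl⟩ := Submodule.mem_map.mp hy
    obtain ⟨b, hb, rfl⟩ := Submodule.mem_map.mp hz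
    exact ⟨a, ha, b, hb, rfl⟩
  · rintro ⟨a, ha, b, hb, rfl⟩
    exact ⟨e4 * a, Submodule.mem_map.mpr ⟨a, ha, rfl⟩, e6 * b,
      Submodule.mem_map.mpr ⟨b, hb, rfl⟩, rfl⟩

/-- The hypotheses on the graded ring `R`, the graded module `M` and the regular sequence. -/
structure GradedSetup (R M : ℤ → Submodule K A) (e4 e6 : A) : Prop where
  R_neg : ∀ k, k < 0 → R k = ⊥
  R_zero : ∀ r ∈ R 0, ∃ c : K, r = c • (1 : A)
  R_gen : ∀ k, k ≠ 0 → ∀ r ∈ R k, ∃ a ∈ R (k - 4), ∃ b ∈ R (k - 6), r = e4 * a + e6 * b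
  e4_mem : e4 ∈ R 4
  e6_mem : e6 ∈ R 6
  R_mul : ∀ i j, ∀ r ∈ R i, ∀ s ∈ R j, r * s ∈ R (i + j)
  RM_mul : ∀ i j, ∀ r ∈ R i, ∀ m ∈ M j, r * m ∈ M (i + j)
  one_mem : (1 : A) ∈ R 0
  M_neg : ∀ k, k < 0 → M k = ⊥
  div : ∀ k, ∀ a ∈ M (k - 4), ∀ b ∈ M (k - 6), e4 * a = e6 * b →
    ∃ h ∈ M (k - 10), a = e6 * h ∧ b = e4 * h

variable {R M : ℤ → Submodule K A} {e4 e6 : A}

/-- Existence of lifts of bases of the indecomposables. -/
lemma exists_genData (hfin : ∀ k, Module.Finite K (M k))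
    (hI : ∀ k, Idec M e4 e6 k ≤ M k) :
    ∃ (d : ℤ → ℕ) (b : (k : ℤ) → Fin (d k) → A),
      (∀ k, LinearIndependent K (b k)) ∧
      (∀ k, Disjoint (Submodule.span K (Set.range (b k))) (Idec M e4 e6 k)) ∧
      (∀ k, Submodule.span K (Set.range (b k)) ⊔ Idec M e4 e6 k = M k) := by
  have key : ∀ k, ∃ (n : ℕ) (b : Fin n → A), LinearIndependent K b ∧
      Disjoint (Submodule.span K (Set.range b)) (Idec M e4 e6 k) ∧
      Submodule.span K (Set.range b) ⊔ Idec M e4 e6 k = M k := by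
    intro k
    obtain ⟨C', hC'⟩ := Submodule.exists_isCompl (Idec M e4 e6 k)
    set C := C' ⊓ M k with hC
    have hCle : C ≤ M k := inf_le_right
    have := hfin k
    have : Module.Finite K C := Submodule.finiteDimensional_of_le hCle
    let bC := Module.finBasis K C
    refine ⟨finrank K C, fun j => (bC j : A), ?_, ?_, ?_⟩
    · have := bC.linearIndependent
      exact this.map' C.subtype (Submodule.ker_subtype C)
    · have hspan : Submodule.span K (Set.range fun j => (bC j : A)) = C := by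
        have h1 : (Set.range fun j => (bC j : A)) = C.subtype '' (Set.range bC) := by
          rw [← Set.range_comp]; rfl
        rw [h1, ← Submodule.map_span, bC.span_eq, Submodule.map_top, Submodule.range_subtype]
      rw [hspan]
      exact (hC'.disjoint.symm.mono_left inf_le_left)
    · have hspan : Submodule.span K (Set.range fun j => (bC j : A)) = C := by
        have h1 : (Set.range fun j => (bC j : A)) = C.subtype '' (Set.range bC) := by
          rw [← Set.range_comp]; rfl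
        rw [h1, ← Submodule.map_span, bC.span_eq, Submodule.map_top, Submodule.range_subtype]
      rw [hspan, hC, sup_comm]
      rw [← sup_inf_assoc_of_le C' (hI k), hC'.sup_eq_top, top_inf_eq]
  choose d b h1 h2 h3 using key
  exact ⟨d, b, h1, h2, h3⟩

/-! ### The free-basis theorem for given generator data -/

section Gen

variable (R) (d : ℤ → ℕ) (b : (k : ℤ) → Fin (d k) → A)

/-- The generator attached to an index. -/
def genF (i : Σ k : ℤ, Fin (d k)) : A := b i.1 i.2

/-- Evaluation `P ↦ ∑ P i * F i`. -/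
noncomputable def ev : ((Σ k : ℤ, Fin (d k)) →₀ A) →ₗ[A] A :=
  Finsupp.linearCombination A (genF d b)

/-- Coefficient families of total degree `k`: `P i ∈ R (k - deg i)`. -/
def Coef (k : ℤ) : Submodule K ((Σ k : ℤ, Fin (d k)) →₀ A) where
  carrier := {P | ∀ i, P i ∈ R (k - i.1)}
  add_mem' {P Q} hP hQ i := by
    rw [Finsupp.add_apply]; exact Submodule.add_mem _ (hP i) (hQ i)
  zero_mem' i := by rw [Finsupp.zero_apply]; exact Submodule.zero_mem _
  smul_mem' c P hP i := by
    rw [Finsupp.smul_apply]; exact Submodule.smul_mem _ _ (hP i)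

variable {R d b}

lemma mem_Coef {k : ℤ} {P : (Σ k : ℤ, Fin (d k)) →₀ A} :
    P ∈ Coef R d k ↔ ∀ i, P i ∈ R (k - i.1) := Iff.rfl

lemma Coef_cast {k k' : ℤ} (h : k = k') {P : (Σ k : ℤ, Fin (d k)) →₀ A}
    (hP : P ∈ Coef R d k) : P ∈ Coef R d k' := h ▸ hP

lemma single_mem_Coef {k : ℤ} (i : Σ k : ℤ, Fin (d k)) {r : A} (hr : r ∈ R (k - i.1)) :
    Finsupp.single i r ∈ Coef R d k := by
  intro i'
  rw [Finsupp.single_apply]
  split_ifs with h
  · subst h; exact hr
  · exact Submodule.zero_mem _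

/-- The embedding of the degree-`k` "constant" coefficients. -/
noncomputable def emb (d : ℤ → ℕ) (k : ℤ) (c : Fin (d k) → K) : (Σ k : ℤ, Fin (d k)) →₀ A :=
  ∑ j, Finsupp.single (⟨k, j⟩ : Σ k : ℤ, Fin (d k)) (c j • (1 : A))

lemma emb_zero (k : ℤ) : emb (A := A) d k (0 : Fin (d k) → K) = 0 := by
  simp [emb]

lemma emb_add (k : ℤ) (c c' : Fin (d k) → K) :
    emb (A := A) d k (c + c') = emb d k c + emb d k c' := by
  simp [emb, add_smul, Finsupp.single_add, Finset.sum_add_distrib]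

lemma emb_pi_single (k : ℤ) (j : Fin (d k)) (c : K) :
    emb (A := A) d k (Pi.single j c) = Finsupp.single ⟨k, j⟩ (c • (1 : A)) := by
  unfold emb
  rw [Finset.sum_eq_single j]
  · simp
  · intro j' _ hj'
    simp [Pi.single_eq_of_ne hj']
  · intro h; exact absurd (Finset.mem_univ j) h

lemma ev_emb (k : ℤ) (c : Fin (d k) → K) : ev d b (emb d k c) = ∑ j, c j • b k j := by
  unfold emb ev
  rw [map_sum]
  refine Finset.sum_congr rfl fun j _ => ?_
  rw [Finsupp.linearCombination_single]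
  simp [genF]

lemma ev_single (i : Σ k : ℤ, Fin (d k)) (r : A) :
    ev d b (Finsupp.single i r) = r * b i.1 i.2 := by
  unfold ev
  rw [Finsupp.linearCombination_single]
  simp [genF]

variable (hS : GradedSetup R M e4 e6)
include hS

lemma emb_mem_Coef (k : ℤ) (c : Fin (d k) → K) : emb (A := A) d k c ∈ Coef R d k := by
  unfold emb
  refine Submodule.sum_mem _ fun j _ => single_mem_Coef _ ?_
  have : (1 : A) ∈ R (k - k) := by rw [sub_self]; exact hS.one_mem
  exact Submodule.smul_mem _ _ this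

lemma smul_mem_Coef {i j k : ℤ} (hk : i + j = k) {r : A} (hr : r ∈ R i)
    {P : (Σ k : ℤ, Fin (d k)) →₀ A} (hP : P ∈ Coef R d j) : r • P ∈ Coef R d k := by
  intro i'
  rw [Finsupp.smul_apply, smul_eq_mul]
  have := hS.R_mul i (j - i'.1) r hr (P i') (hP i')
  have h2 : i + (j - i'.1) = k - i'.1 := by omega
  rwa [h2] at this

variable (hsup : ∀ k, Submodule.span K (Set.range (b k)) ⊔ Idec M e4 e6 k = M k)
include hsup

omit hS in
lemma gen_mem (i : Σ k : ℤ, Fin (d k)) : b i.1 i.2 ∈ M i.1 := by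
  rw [← hsup i.1]
  exact Submodule.mem_sup_left (Submodule.subset_span ⟨i.2, rfl⟩)

lemma ev_mem {k : ℤ} {P : (Σ k : ℤ, Fin (d k)) →₀ A} (hP : P ∈ Coef R d k) :
    ev d b P ∈ M k := by
  unfold ev
  rw [Finsupp.linearCombination_apply]
  refine Submodule.sum_mem _ fun i _ => ?_
  have := hS.RM_mul (k - i.1) i.1 (P i) (hP i) (b i.1 i.2) (gen_mem hsup i)
  rw [sub_add_cancel] at this
  simpa [genF] using this

/-- **Generation.** -/
theorem exists_Coef_ev_eq (k : ℤ) {f : A} (hf : f ∈ M k) :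
    ∃ P ∈ Coef R d k, ev d b P = f := by
  suffices H : ∀ n : ℕ, ∀ k : ℤ, k < n → ∀ f ∈ M k, ∃ P ∈ Coef R d k, ev d b P = f by
    exact H (k.toNat + 1) k (by omega) f hf
  intro n
  induction n with
  | zero =>
    intro k hk f hf
    rw [hS.M_neg k (by simpa using hk)] at hf
    rw [(Submodule.mem_bot K).mp hf]
    exact ⟨0, Submodule.zero_mem _, map_zero _⟩
  | succ n ih =>
    intro k hk f hf
    rw [← hsup k] at hf
    obtain ⟨c, hc, x, hx, rfl⟩ := Submodule.mem_sup.mp hf
    obtain ⟨a, ha, b', hb', rfl⟩ := mem_Idec.mp hx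
    obtain ⟨Pa, hPa, rfl⟩ := ih (k - 4) (by push_cast at hk; omega) a ha
    obtain ⟨Pb, hPb, rfl⟩ := ih (k - 6) (by push_cast at hk; omega) b' hb'
    obtain ⟨cf, rfl⟩ := (Submodule.mem_span_range_iff_exists_fun K).mp hc
    refine ⟨emb d k cf + (e4 • Pa + e6 • Pb), ?_, ?_⟩
    · exact Submodule.add_mem _ (emb_mem_Coef hS k cf)
        (Submodule.add_mem _ (smul_mem_Coef hS (by ring) hS.e4_mem hPa)
          (smul_mem_Coef hS (by ring) hS.e6_mem hPb))
    · rw [map_add, map_add, map_smul, map_smul, ev_emb, smul_eq_mul, smul_eq_mul]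

omit hsup in
/-- Decomposition of a coefficient family. -/
lemma Coef_decomp (k : ℤ) {P : (Σ k : ℤ, Fin (d k)) →₀ A} (hP : P ∈ Coef R d k) :
    ∃ Pa ∈ Coef R d (k - 4), ∃ Pb ∈ Coef R d (k - 6), ∃ c : Fin (d k) → K,
      P = e4 • Pa + e6 • Pb + emb d k c := by
  have hP' : P = ∑ i ∈ P.support, Finsupp.single i (P i) := by
    conv_lhs => rw [← Finsupp.sum_single P]
    rfl
  rw [hP']
  refine Finset.sum_induction _
    (fun Q => ∃ Pa ∈ Coef R d (k - 4), ∃ Pb ∈ Coef R d (k - 6), ∃ c : Fin (d k) → K,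
      Q = e4 • Pa + e6 • Pb + emb d k c) ?_ ?_ ?_
  · rintro _ _ ⟨Pa, hPa, Pb, hPb, c, rfl⟩ ⟨Pa', hPa', Pb', hPb', c', rfl⟩
    refine ⟨Pa + Pa', Submodule.add_mem _ hPa hPa', Pb + Pb', Submodule.add_mem _ hPb hPb',
      c + c', ?_⟩
    rw [emb_add, smul_add, smul_add]
    abel
  · exact ⟨0, Submodule.zero_mem _, 0, Submodule.zero_mem _, 0, by simp [emb_zero]⟩
  · intro i _
    have hr := hP i
    obtain ⟨k', j⟩ := i
    by_cases hk : k' = k
    · subst hk
      simp only [sub_self] at hr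
      obtain ⟨c, hc⟩ := hS.R_zero _ hr
      refine ⟨0, Submodule.zero_mem _, 0, Submodule.zero_mem _, Pi.single j c, ?_⟩
      rw [emb_pi_single, hc]
      simp
    · have hne : k - k' ≠ 0 := by omega
      obtain ⟨a, ha, b', hb', hab⟩ := hS.R_gen _ hne _ hr
      refine ⟨Finsupp.single ⟨k', j⟩ a, single_mem_Coef _ ?_,
        Finsupp.single ⟨k', j⟩ b', single_mem_Coef _ ?_, 0, ?_⟩
      · have : k - 4 - k' = k - k' - 4 := by ring
        rw [this]; exact ha
      · have : k - 6 - k' = k - k' - 6 := by ring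
        rw [this]; exact hb'
      · rw [emb_zero, add_zero, hab, Finsupp.smul_single, Finsupp.smul_single,
          ← Finsupp.single_add]
        simp

variable (hli : ∀ k, LinearIndependent K (b k))
include hli

omit hS in
lemma deg_nonneg (hMneg : ∀ k, k < 0 → M k = ⊥) (i : Σ k : ℤ, Fin (d k)) : 0 ≤ i.1 := by
  by_contra hneg
  have h1 := gen_mem hsup i
  rw [hMneg i.1 (by omega)] at h1
  exact (hli i.1).ne_zero i.2 ((Submodule.mem_bot K).mp h1)

omit hS in
lemma deg_even (hModd : ∀ k, Odd k → M k = ⊥) (i : Σ k : ℤ, Fin (d k)) : Even i.1 := by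
  by_contra hodd
  have h1 := gen_mem hsup i
  rw [hModd i.1 (Int.not_even_iff_odd.mp hodd)] at h1
  exact (hli i.1).ne_zero i.2 ((Submodule.mem_bot K).mp h1)

omit hS hsup in
lemma emb_eq_zero_of_ev {k : ℤ} {c : Fin (d k) → K} (h : ev d b (emb d k c) = 0) : c = 0 := by
  rw [ev_emb] at h
  funext j
  exact Fintype.linearIndependent_iff.mp (hli k) c h j

variable (hdisj : ∀ k, Disjoint (Submodule.span K (Set.range (b k))) (Idec M e4 e6 k))
include hdisj

/-- **Uniqueness.** -/
theorem eq_zero_of_ev_eq_zero (k : ℤ) {P : (Σ k : ℤ, Fin (d k)) →₀ A} (hP : P ∈ Coef R d k)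
    (h0 : ev d b P = 0) : P = 0 := by
  suffices H : ∀ n : ℕ, ∀ k : ℤ, k < n → ∀ P ∈ Coef R d k, ev d b P = 0 → P = 0 by
    exact H (k.toNat + 1) k (by omega) P hP h0
  intro n
  induction n with
  | zero =>
    intro k hk P hP _
    ext i
    have h1 := hP i
    have hi := deg_nonneg hsup hli hS.M_neg i
    rw [hS.R_neg _ (by push_cast at hk; omega)] at h1
    simpa using (Submodule.mem_bot K).mp h1
  | succ n ih =>
    intro k hk P hP h0
    obtain ⟨Pa, hPa, Pb, hPb, c, rfl⟩ := Coef_decomp hS k hP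
    rw [map_add, map_add, map_smul, map_smul, smul_eq_mul, smul_eq_mul] at h0
    -- the constant part vanishes
    have hc1 : ev d b (emb d k c) ∈ Submodule.span K (Set.range (b k)) := by
      rw [ev_emb]
      exact Submodule.sum_mem _ fun j _ =>
        Submodule.smul_mem _ _ (Submodule.subset_span ⟨j, rfl⟩)
    have hc2 : ev d b (emb d k c) ∈ Idec M e4 e6 k := by
      have : ev d b (emb d k c) = -(e4 * ev d b Pa + e6 * ev d b Pb) := by
        linear_combination h0
      rw [this]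
      exact Submodule.neg_mem _ (mem_Idec.mpr ⟨_, ev_mem hS hsup hPa, _, ev_mem hS hsup hPb, rfl⟩)
    have hc3 : ev d b (emb d k c) = 0 := by
      have := (hdisj k).le_bot (Submodule.mem_inf.mpr ⟨hc1, hc2⟩)
      exact (Submodule.mem_bot K).mp this
    have hc : c = 0 := emb_eq_zero_of_ev hli hc3
    subst hc
    rw [emb_zero, map_zero, add_zero] at h0
    rw [emb_zero, add_zero]
    -- regular sequence
    have hreg : e4 * ev d b Pa = e6 * (-(ev d b Pb)) := by linear_combination h0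
    obtain ⟨h, hh, h1, h2⟩ := hS.div k _ (ev_mem hS hsup hPa) _
      (Submodule.neg_mem _ (ev_mem hS hsup hPb)) hreg
    obtain ⟨Ph, hPh, rfl⟩ := exists_Coef_ev_eq hS hsup (k - 10) hh
    have e1 : Pa - e6 • Ph = 0 := by
      refine ih (k - 4) (by push_cast at hk; omega) _
        (Submodule.sub_mem _ hPa (smul_mem_Coef hS (by ring) hS.e6_mem hPh)) ?_
      rw [map_sub, map_smul, smul_eq_mul, h1, sub_self]
    have e2 : Pb + e4 • Ph = 0 := by
      refine ih (k - 6) (by push_cast at hk; omega) _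
        (Submodule.add_mem _ hPb (smul_mem_Coef hS (by ring) hS.e4_mem hPh)) ?_
      rw [map_add, map_smul, smul_eq_mul, ← h2]
      ring
    rw [sub_eq_zero.mp e1, eq_neg_of_add_eq_zero_left e2, smul_neg, smul_smul, smul_smul,
      mul_comm e4 e6, add_neg_cancel]

/-- **Counting.** Under the growth hypotheses, any finite set of generators has at most `μ`
elements. -/
theorem card_le_of_growth (hMfin : ∀ k, Module.Finite K (M k))
    (hRfin : ∀ k, Module.Finite K (R k)) (hModd : ∀ k, Odd k → M k = ⊥)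
    (hRdim : ∀ n : ℤ, 0 ≤ n → Even n → n < 12 * ((finrank K (R n) : ℤ) + 1))
    (μ : ℕ) (hMdim : ∀ m : ℕ, finrank K (M (12 * (m : ℤ))) ≤ μ * m + 1)
    (S : Finset (Σ k : ℤ, Fin (d k))) : S.card ≤ μ := by
  classical
  by_contra hlt
  push Not at hlt
  set W : ℕ := S.sup (fun i => i.1.toNat) with hW
  have hWle : ∀ i ∈ S, i.1 ≤ (W : ℤ) := by
    intro i hi
    have h1 : i.1.toNat ≤ W := Finset.le_sup (f := fun i : Σ k : ℤ, Fin (d k) => i.1.toNat) hi
    have h2 := deg_nonneg hsup hli hS.M_neg i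
    omega
  set m : ℕ := S.card * (W + 11) + 2 with hm
  have := hMfin (12 * (m : ℤ))
  have hRfin' : ∀ i : S, Module.Finite K (R (12 * (m : ℤ) - i.1.1)) := fun i => hRfin _
  -- the evaluation map on `S`-supported coefficient families
  let Ψ₀ : ((i : S) → R (12 * (m : ℤ) - i.1.1)) →ₗ[K] A :=
    ∑ i : S, (LinearMap.mulRight K (b i.1.1 i.1.2)) ∘ₗ (R (12 * (m : ℤ) - i.1.1)).subtype ∘ₗ
      (LinearMap.proj i)
  have hΨ₀ : ∀ p, Ψ₀ p = ∑ i : S, (p i : A) * b i.1.1 i.1.2 := by
    intro p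
    simp [Ψ₀, LinearMap.sum_apply]
  -- the corresponding finsupp
  let toP : ((i : S) → R (12 * (m : ℤ) - i.1.1)) → ((Σ k : ℤ, Fin (d k)) →₀ A) :=
    fun p => ∑ i : S, Finsupp.single i.1 (p i : A)
  have htoP_mem : ∀ p, toP p ∈ Coef R d (12 * (m : ℤ)) := fun p =>
    Submodule.sum_mem _ fun i _ => single_mem_Coef _ (p i).2
  have hev : ∀ p, ev d b (toP p) = Ψ₀ p := by
    intro p
    rw [hΨ₀]
    simp only [toP, map_sum, ev_single]
  have htoP_apply : ∀ p (i₀ : S), toP p i₀.1 = (p i₀ : A) := by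
    intro p i₀
    simp only [toP, Finsupp.finsetSum_apply]
    rw [Finset.sum_eq_single i₀]
    · simp
    · intro i _ hne
      rw [Finsupp.single_apply, if_neg]
      exact fun h => hne (Subtype.ext h)
    · intro h; exact absurd (Finset.mem_univ i₀) h
  have hΨmem : ∀ p, Ψ₀ p ∈ M (12 * (m : ℤ)) := fun p => by
    rw [← hev]; exact ev_mem hS hsup (htoP_mem p)
  let Ψ : ((i : S) → R (12 * (m : ℤ) - i.1.1)) →ₗ[K] M (12 * (m : ℤ)) :=
    LinearMap.codRestrict _ Ψ₀ hΨmem
  have hΨinj : Function.Injective Ψ := by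
    rw [← LinearMap.ker_eq_bot, LinearMap.ker_eq_bot']
    intro p hp
    have h0 : Ψ₀ p = 0 := congrArg Subtype.val hp
    have hP0 := eq_zero_of_ev_eq_zero hS hsup hli hdisj _ (htoP_mem p) ((hev p).trans h0)
    funext i₀
    have := htoP_apply p i₀
    rw [hP0] at this
    exact Subtype.ext (by simpa using this.symm)
  have hrank := LinearMap.finrank_le_finrank_of_injective hΨinj
  rw [Module.finrank_pi_fintype] at hrank
  have hterm : ∀ i : S, (12 * (m : ℤ) - W - 11) ≤ 12 * (finrank K (R (12 * (m : ℤ) - i.1.1)) : ℤ) := by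
    intro i
    have h1 := hWle i.1 i.2
    have h2 := deg_nonneg hsup hli hS.M_neg i.1
    have h3 := deg_even hsup hli hModd i.1
    have hmW : (W : ℤ) ≤ m := by
      have : W ≤ S.card * (W + 11) := by
        have hc : 1 ≤ S.card := by omega
        calc W ≤ 1 * (W + 11) := by omega
          _ ≤ S.card * (W + 11) := Nat.mul_le_mul_right _ hc
      have : W ≤ m := by omega
      exact_mod_cast this
    have h4 := hRdim (12 * (m : ℤ) - i.1.1) (by omega)
      (by
        obtain ⟨t, ht⟩ := h3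
        exact ⟨6 * m - t, by omega⟩)
    omega
  have hsum : (S.card : ℤ) * (12 * (m : ℤ) - W - 11) ≤
      12 * ∑ i : S, (finrank K (R (12 * (m : ℤ) - i.1.1)) : ℤ) := by
    have h := Finset.card_nsmul_le_sum (Finset.univ : Finset S)
      (fun i => 12 * (finrank K (R (12 * (m : ℤ) - i.1.1)) : ℤ)) (12 * (m : ℤ) - W - 11)
      (fun i _ => hterm i)
    rw [Finset.card_univ, Fintype.card_coe, nsmul_eq_mul, ← Finset.mul_sum] at h
    exact h
  have hle : ∑ i : S, (finrank K (R (12 * (m : ℤ) - i.1.1)) : ℤ) ≤ (μ : ℤ) * m + 1 := by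
    have := hrank.trans (hMdim m)
    exact_mod_cast this
  have hs : (μ : ℤ) + 1 ≤ S.card := by exact_mod_cast hlt
  have hmz : (m : ℤ) = S.card * ((W : ℤ) + 11) + 2 := by
    rw [hm]; push_cast; ring
  have hs0 : (0 : ℤ) ≤ S.card := by positivity
  have hW0 : (0 : ℤ) ≤ W := by positivity
  have hm0 : (0 : ℤ) ≤ m := by positivity
  nlinarith [mul_nonneg hs0 hW0, mul_nonneg hm0 (sub_nonneg.mpr hs)]

end Gen

/-- **Abstract free-basis theorem.** -/
theorem exists_free_basis (hS : GradedSetup R M e4 e6)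
    (hMfin : ∀ k, Module.Finite K (M k))
    (hRfin : ∀ k, Module.Finite K (R k)) (hModd : ∀ k, Odd k → M k = ⊥)
    (hRdim : ∀ n : ℤ, 0 ≤ n → Even n → n < 12 * ((finrank K (R n) : ℤ) + 1))
    (μ : ℕ) (hMdim : ∀ m : ℕ, finrank K (M (12 * (m : ℤ))) ≤ μ * m + 1) :
    ∃ (n : ℕ) (deg : Fin n → ℤ) (F : Fin n → A), n ≤ μ ∧ (∀ j, 0 ≤ deg j) ∧
      (∀ j, Even (deg j)) ∧ (∀ j, F j ∈ M (deg j)) ∧
      (∀ k, ∀ f ∈ M k, ∃ P : Fin n → A, (∀ j, P j ∈ R (k - deg j)) ∧ f = ∑ j, P j * F j) ∧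
      (∀ k, ∀ P : Fin n → A, (∀ j, P j ∈ R (k - deg j)) → ∑ j, P j * F j = 0 → P = 0) := by
  classical
  have hI : ∀ k, Idec M e4 e6 k ≤ M k := by
    intro k x hx
    obtain ⟨a, ha, b, hb, rfl⟩ := mem_Idec.mp hx
    have h1 := hS.RM_mul 4 (k - 4) e4 hS.e4_mem a ha
    have h2 := hS.RM_mul 6 (k - 6) e6 hS.e6_mem b hb
    rw [show (4 : ℤ) + (k - 4) = k by ring] at h1
    rw [show (6 : ℤ) + (k - 6) = k by ring] at h2
    exact Submodule.add_mem _ h1 h2
  obtain ⟨d, b, hli, hdisj, hsup⟩ := exists_genData hMfin hI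
  have hcard := card_le_of_growth hS hsup hli hdisj hMfin hRfin hModd hRdim μ hMdim
  let _ : Fintype (Σ k : ℤ, Fin (d k)) := fintypeOfFinsetCardLe μ hcard
  have hcard' : Fintype.card (Σ k : ℤ, Fin (d k)) ≤ μ := hcard Finset.univ
  let e := Fintype.equivFin (Σ k : ℤ, Fin (d k))
  refine ⟨Fintype.card (Σ k : ℤ, Fin (d k)), fun j => (e.symm j).1,
    fun j => genF d b (e.symm j), hcard', fun j => deg_nonneg hsup hli hS.M_neg _,
    fun j => deg_even hsup hli hModd _, fun j => gen_mem hsup _, ?_, ?_⟩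
  · intro k f hf
    obtain ⟨P, hP, rfl⟩ := exists_Coef_ev_eq hS hsup k hf
    refine ⟨fun j => P (e.symm j), fun j => hP _, ?_⟩
    unfold ev
    rw [Finsupp.linearCombination_apply, Finsupp.sum_fintype _ _ (fun i => by simp)]
    rw [← Equiv.sum_comp e.symm]
    simp
  · intro k P hP h0
    let P₀ : (Σ k : ℤ, Fin (d k)) →₀ A := Finsupp.equivFunOnFinite.symm (fun i => P (e i))
    have hP₀ : ∀ i, P₀ i = P (e i) := fun i => by
      simp [P₀]
    have hmem : P₀ ∈ Coef R d k := by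
      intro i
      rw [hP₀]
      have := hP (e i)
      simpa using this
    have hev : ev d b P₀ = 0 := by
      unfold ev
      rw [Finsupp.linearCombination_apply, Finsupp.sum_fintype _ _ (fun i => by simp)]
      rw [← h0, ← Equiv.sum_comp e]
      refine Finset.sum_congr rfl fun i _ => ?_
      simp [hP₀]
    have hzero := eq_zero_of_ev_eq_zero hS hsup hli hdisj k hmem hev
    funext j
    have := hP₀ (e.symm j)
    rw [hzero] at this
    simpa using this.symm

end Abstract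

end Fermat.Agent.Lib.helper460
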