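import Mathlib
import Fermat.Prelude.Thm_ModularForm_sturm_bound_of_isArithmetic
import Fermat.Prelude.Thm_CongruenceSubgroup_one_mem_strictPeriods_Gamma0
import Fermat.Agent.Lib.helper460_GradedFree

/-!
# Freeness of `M_*(Γ₀(N))` over `M_*(SL₂(ℤ)) = ℂ[E₄, E₆]` (function level)

Author: helper460.  Everything lives in `Fermat.Agent.Lib.helper460`.
-/

set_option autoImplicit false

open UpperHalfPlane ModularForm EisensteinSeries
open scoped MatrixGroups ModularForm Manifold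

namespace Fermat.Agent.Lib.helper460

/-! ## Part 1: the function-level graded pieces -/

section Mfun

variable (𝒢 : Subgroup (GL (Fin 2) ℝ)) [𝒢.HasDetOne] (k : ℤ)

/-- Coercion of modular forms to functions, as a linear map. -/
def coeLin : ModularForm 𝒢 k →ₗ[ℂ] (ℍ → ℂ) where
  toFun f := ⇑f
  map_add' _ _ := rfl
  map_smul' _ _ := rfl

@[simp] lemma coeLin_apply (f : ModularForm 𝒢 k) : coeLin 𝒢 k f = ⇑f := rfl

lemma coeLin_injective : Function.Injective (coeLin 𝒢 k) :=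
  fun _ _ h => DFunLike.coe_injective h

/-- The functions `ℍ → ℂ` underlying modular forms of weight `k` and level `𝒢`. -/
def Mfun : Submodule ℂ (ℍ → ℂ) := LinearMap.range (coeLin 𝒢 k)

variable {𝒢 k}

lemma mem_Mfun {f : ℍ → ℂ} : f ∈ Mfun 𝒢 k ↔ ∃ F : ModularForm 𝒢 k, ⇑F = f := Iff.rfl

lemma coe_mem_Mfun (F : ModularForm 𝒢 k) : ⇑F ∈ Mfun 𝒢 k := ⟨F, rfl⟩

lemma Mfun_cast {k k' : ℤ} (h : k = k') {f : ℍ → ℂ} (hf : f ∈ Mfun 𝒢 k) : f ∈ Mfun 𝒢 k' :=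
  h ▸ hf

lemma Mfun_mul {k₁ k₂ : ℤ} {f g : ℍ → ℂ} (hf : f ∈ Mfun 𝒢 k₁) (hg : g ∈ Mfun 𝒢 k₂) :
    f * g ∈ Mfun 𝒢 (k₁ + k₂) := by
  obtain ⟨F, rfl⟩ := mem_Mfun.mp hf
  obtain ⟨G, rfl⟩ := mem_Mfun.mp hg
  exact ⟨F.mul G, rfl⟩

lemma Mfun_mul' {k₁ k₂ k₃ : ℤ} {f g : ℍ → ℂ} (hf : f ∈ Mfun 𝒢 k₁) (hg : g ∈ Mfun 𝒢 k₂)
    (h : k₁ + k₂ = k₃) : f * g ∈ Mfun 𝒢 k₃ :=
  Mfun_cast h (Mfun_mul hf hg)

/-- Restriction of the level. -/
lemma Mfun_of_le {𝒢' : Subgroup (GL (Fin 2) ℝ)} [𝒢'.HasDetOne] (h : 𝒢 ≤ 𝒢') {k : ℤ}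
    {f : ℍ → ℂ} (hf : f ∈ Mfun 𝒢' k) : f ∈ Mfun 𝒢 k := by
  obtain ⟨F, rfl⟩ := mem_Mfun.mp hf
  exact ⟨{ toFun := F
           slash_action_eq' := fun γ hγ => F.slash_action_eq' γ (h hγ)
           holo' := F.holo'
           bdd_at_cusps' := fun hc => F.bdd_at_cusps' (hc.mono h) }, rfl⟩

lemma Mfun_eq_bot_of_neg [𝒢.IsArithmetic] {k : ℤ} (hk : k < 0) : Mfun 𝒢 k = ⊥ := by
  rw [eq_bot_iff]
  intro f hf
  obtain ⟨F, rfl⟩ := mem_Mfun.mp hf
  rw [ModularForm.isZero_of_neg_weight hk F]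
  simp

lemma Mfun_eq_bot_of_odd (h1 : -1 ∈ 𝒢) {k : ℤ} (hk : Odd k) : Mfun 𝒢 k = ⊥ := by
  rw [eq_bot_iff]
  intro f hf
  obtain ⟨F, rfl⟩ := mem_Mfun.mp hf
  rw [ModularForm.eq_zero_of_neg_one_mem h1 hk F]
  simp

/-- `Mfun 𝒢 k` is linearly equivalent to `ModularForm 𝒢 k`. -/
noncomputable def MfunEquiv (𝒢 : Subgroup (GL (Fin 2) ℝ)) [𝒢.HasDetOne] (k : ℤ) :
    ModularForm 𝒢 k ≃ₗ[ℂ] Mfun 𝒢 k :=
  LinearEquiv.ofInjective (coeLin 𝒢 k) (coeLin_injective 𝒢 k)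

end Mfun

/-! ## Part 2: level one -/

section LevelOne

lemma E4_mem : ⇑E₄ ∈ Mfun 𝒮ℒ 4 := coe_mem_Mfun E₄
lemma E6_mem : ⇑E₆ ∈ Mfun 𝒮ℒ 6 := coe_mem_Mfun E₆

lemma one_mem_Mfun (𝒢 : Subgroup (GL (Fin 2) ℝ)) [𝒢.HasDetOne] : (1 : ℍ → ℂ) ∈ Mfun 𝒢 0 :=
  ⟨1, by simp⟩

lemma Mfun_levelOne_zero {f : ℍ → ℂ} (hf : f ∈ Mfun 𝒮ℒ 0) : ∃ c : ℂ, f = c • (1 : ℍ → ℂ) := by
  obtain ⟨F, rfl⟩ := mem_Mfun.mp hf
  obtain ⟨c, hc⟩ := ModularFormClass.levelOne_weight_zero_const F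
  refine ⟨c, ?_⟩
  rw [hc]
  ext z
  simp

lemma E4_coeff_zero : (qExpansion 1 E₄).coeff 0 = 1 := E_qExpansion_coeff_zero _ ⟨2, rfl⟩
lemma E6_coeff_zero : (qExpansion 1 E₆).coeff 0 = 1 := E_qExpansion_coeff_zero _ ⟨3, rfl⟩
lemma E4_constantCoeff : PowerSeries.constantCoeff (qExpansion 1 E₄) = 1 := by
  simpa using E4_coeff_zero
lemma E6_constantCoeff : PowerSeries.constantCoeff (qExpansion 1 E₆) = 1 := by
  simpa using E6_coeff_zero

/-- A level-one form minus its constant term times a normalised form is `Δ` times a form. -/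
lemma levelOne_sub_const {k : ℤ} (F G : ModularForm 𝒮ℒ k) (hG : (qExpansion 1 G).coeff 0 = 1) :
    ∃ g : ModularForm 𝒮ℒ (k - 12),
      ∀ z, F z = (qExpansion 1 F).coeff 0 * G z + ModularForm.discriminant z * g z := by
  set c := (qExpansion 1 F).coeff 0 with hc
  let H : ModularForm 𝒮ℒ k := F - c • G
  have h2 : (⇑(c • G) : ℍ → ℂ) = c • ⇑G := rfl
  have hHfun : (⇑H : ℍ → ℂ) = ⇑F - ⇑(c • G) := rfl
  have h0 : (qExpansion 1 H).coeff 0 = 0 := by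
    rw [hHfun, ModularForm.qExpansion_sub one_pos one_mem_strictPeriods_SL F (c • G), h2,
      ModularForm.qExpansion_smul one_pos one_mem_strictPeriods_SL c G, map_sub,
      PowerSeries.coeff_smul, hG, smul_eq_mul, mul_one, hc, sub_self]
  refine ⟨CuspForm.discriminantEquiv (toCuspForm H h0), fun z => ?_⟩
  rw [discriminant_mul_discriminantEquiv_apply]
  have : (toCuspForm H h0) z = F z - c * G z := rfl
  rw [this]; ring

/-- Every level-one form of nonzero weight lies in `E₄ R + E₆ R`. -/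
theorem levelOne_gen {k : ℤ} (hk : k ≠ 0) {f : ℍ → ℂ} (hf : f ∈ Mfun 𝒮ℒ k) :
    ∃ a ∈ Mfun 𝒮ℒ (k - 4), ∃ b ∈ Mfun 𝒮ℒ (k - 6), f = ⇑E₄ * a + ⇑E₆ * b := by
  obtain ⟨F, rfl⟩ := mem_Mfun.mp hf
  have hzero : F = 0 → ∃ a ∈ Mfun 𝒮ℒ (k - 4), ∃ b ∈ Mfun 𝒮ℒ (k - 6),
      (⇑F : ℍ → ℂ) = ⇑E₄ * a + ⇑E₆ * b := by
    rintro rfl
    exact ⟨0, Submodule.zero_mem _, 0, Submodule.zero_mem _, by simp⟩
  rcases lt_or_ge k 0 with hneg | hnn
  · exact hzero (ModularForm.isZero_of_neg_weight hneg F)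
  rcases Int.even_or_odd k with hev | hodd
  swap
  · exact hzero (levelOne_odd_weight_eq_zero hodd F)
  obtain ⟨m, hm⟩ := hev
  have hm1 : 1 ≤ m := by omega
  rcases eq_or_lt_of_le hm1 with hm1 | hm2
  · -- weight two
    have hk2 : k = 2 := by omega
    subst hk2
    exact hzero (rank_zero_iff_forall_zero.mp levelOne_weight_two_rank_zero F)
  -- weight `k ≥ 4`, even
  rcases Int.even_or_odd m with ⟨n, hn⟩ | ⟨n, hn⟩
  · -- `k = 4 * n`, `n ≥ 1`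
    have hn1 : 1 ≤ n := by omega
    obtain ⟨j, rfl⟩ : ∃ j : ℕ, n = j + 1 := ⟨(n - 1).toNat, by omega⟩
    let P : ModularForm 𝒮ℒ (k - 4) := ModularForm.mcast (by omega) (E₄.pow j)
    let G : ModularForm 𝒮ℒ k := ModularForm.mcast (by omega) (E₄.mul P)
    have hG : (qExpansion 1 G).coeff 0 = 1 := by
      have : qExpansion 1 G = qExpansion 1 E₄ * (qExpansion 1 E₄) ^ j := by
        rw [← ModularForm.qExpansion_pow one_pos one_mem_strictPeriods_SL,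
          ← ModularForm.qExpansion_mul one_pos one_mem_strictPeriods_SL]
        rfl
      rw [this]
      simp [E4_constantCoeff]
    obtain ⟨g, hg⟩ := levelOne_sub_const F G hG
    refine ⟨(qExpansion 1 F).coeff 0 • ⇑P + (1 / 1728 : ℂ) • (⇑E₄ * ⇑E₄ * ⇑g), ?_,
      (-1 / 1728 : ℂ) • (⇑E₆ * ⇑g), ?_, ?_⟩
    · refine Submodule.add_mem _ (Submodule.smul_mem _ _ (coe_mem_Mfun P))
        (Submodule.smul_mem _ _ ?_)
      exact Mfun_mul' (Mfun_mul E4_mem E4_mem) (coe_mem_Mfun g) (by omega)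
    · exact Submodule.smul_mem _ _ (Mfun_mul' E6_mem (coe_mem_Mfun g) (by omega))
    · ext z
      rw [hg z, discriminant_eq_E₄_cube_sub_E₆_sq]
      have hGz : G z = E₄ z * P z := rfl
      simp only [hGz, Pi.add_apply, Pi.mul_apply, Pi.smul_apply, smul_eq_mul]
      ring
  · -- `k = 4 * n + 2`, `n ≥ 1`
    have hn1 : 1 ≤ n := by omega
    obtain ⟨j, rfl⟩ : ∃ j : ℕ, n = j + 1 := ⟨(n - 1).toNat, by omega⟩
    let P : ModularForm 𝒮ℒ (k - 6) := ModularForm.mcast (by omega) (E₄.pow j)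
    let G : ModularForm 𝒮ℒ k := ModularForm.mcast (by omega) (E₆.mul P)
    have hG : (qExpansion 1 G).coeff 0 = 1 := by
      have : qExpansion 1 G = qExpansion 1 E₆ * (qExpansion 1 E₄) ^ j := by
        rw [← ModularForm.qExpansion_pow one_pos one_mem_strictPeriods_SL,
          ← ModularForm.qExpansion_mul one_pos one_mem_strictPeriods_SL]
        rfl
      rw [this]
      simp [E4_constantCoeff, E6_constantCoeff]
    obtain ⟨g, hg⟩ := levelOne_sub_const F G hG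
    refine ⟨(1 / 1728 : ℂ) • (⇑E₄ * ⇑E₄ * ⇑g), ?_,
      (qExpansion 1 F).coeff 0 • ⇑P + (-1 / 1728 : ℂ) • (⇑E₆ * ⇑g), ?_, ?_⟩
    · exact Submodule.smul_mem _ _
        (Mfun_mul' (Mfun_mul E4_mem E4_mem) (coe_mem_Mfun g) (by omega))
    · refine Submodule.add_mem _ (Submodule.smul_mem _ _ (coe_mem_Mfun P))
        (Submodule.smul_mem _ _ ?_)
      exact Mfun_mul' E6_mem (coe_mem_Mfun g) (by omega)
    · ext z
      rw [hg z, discriminant_eq_E₄_cube_sub_E₆_sq]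
      have hGz : G z = E₆ z * P z := rfl
      simp only [hGz, Pi.add_apply, Pi.mul_apply, Pi.smul_apply, smul_eq_mul]
      ring

end LevelOne

/-! ## Part 3: division lemmas -/

section Division

open Filter Topology Asymptotics

local notation "Δ" => ModularForm.discriminant

/-- A level-one modular form tends to its constant `q`-coefficient at `i∞`. -/
lemma tendsto_levelOne_atImInfty {k : ℤ} (F : ModularForm 𝒮ℒ k) :
    Tendsto (⇑F) atImInfty (𝓝 ((qExpansion 1 F).coeff 0)) := by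
  have han := ModularFormClass.analyticAt_cuspFunction_zero F one_pos one_mem_strictPeriods_SL
  have hper := SlashInvariantFormClass.periodic_comp_ofComplex F one_mem_strictPeriods_SL
  have h1 : (qExpansion 1 F).coeff 0 = cuspFunction 1 F 0 := by simp [qExpansion_coeff]
  have h2 : (cuspFunction 1 F ∘ fun τ : ℍ => Function.Periodic.qParam 1 τ) = F := by
    funext τ
    simpa using eq_cuspFunction τ one_ne_zero hper
  rw [h1]
  have := han.continuousAt.tendsto.comp (qParam_tendsto_atImInfty one_pos)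
  rwa [h2] at this

lemma tendsto_E4 : Tendsto (⇑E₄) atImInfty (𝓝 1) := by
  simpa [E4_coeff_zero] using tendsto_levelOne_atImInfty E₄

lemma tendsto_E6 : Tendsto (⇑E₆) atImInfty (𝓝 1) := by
  simpa [E6_coeff_zero] using tendsto_levelOne_atImInfty E₆

variable {𝒢 : Subgroup (GL (Fin 2) ℝ)} [𝒢.IsArithmetic]

/-- Slash action of `SL(2, ℤ)` on a quotient by `Δ`. -/
lemma div_discriminant_slash (k : ℤ) (f : ℍ → ℂ) (γ : SL(2, ℤ)) :
    (fun z => f z / Δ z) ∣[k - 12] γ = fun z => (f ∣[k] γ) z / Δ z := by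
  have hγ : (γ : GL (Fin 2) ℝ) ∈ 𝒮ℒ := ⟨γ, rfl⟩
  change (f / ⇑CuspForm.discriminant) ∣[k - 12] γ = (f ∣[k] γ) / ⇑CuspForm.discriminant
  rw [div_slash_SL2]
  congr 1
  rw [SL_slash]
  exact SlashInvariantForm.slash_action_eqn _ _ hγ

/-- **Division by `Δ` at level `𝒢`.** -/
theorem exists_eq_discriminant_mul (h𝒢 : 𝒢 ≤ 𝒮ℒ) {k : ℤ} (F : ModularForm 𝒢 k)
    (hbdd : ∀ γ : SL(2, ℤ), IsBoundedAtImInfty (fun z => ((⇑F : ℍ → ℂ) ∣[k] γ) z / Δ z)) :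
    ∃ G : ModularForm 𝒢 (k - 12), ∀ z, F z = Δ z * G z := by
  refine ⟨{ toFun := fun z => F z / Δ z
            slash_action_eq' := ?_
            holo' := ?_
            bdd_at_cusps' := ?_ }, fun z => ?_⟩
  · intro γ hγ
    obtain ⟨g, rfl⟩ := h𝒢 hγ
    have key : (fun z => F z / Δ z) ∣[k - 12] (Matrix.SpecialLinearGroup.mapGL ℝ g) =
        fun z => ((⇑F : ℍ → ℂ) ∣[k] g) z / Δ z := div_discriminant_slash k (⇑F) g
    have h2 : (⇑F : ℍ → ℂ) ∣[k] g = ⇑F := SlashInvariantForm.slash_action_eqn F _ hγ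
    rw [h2] at key
    exact key
  · exact F.holo'.div CuspForm.discriminant.holo' discriminant_ne_zero
  · intro c hc
    rw [Subgroup.IsArithmetic.isCusp_iff_isCusp_SL2Z] at hc
    rw [OnePoint.isBoundedAt_iff_forall_SL2Z hc]
    intro γ _
    have := div_discriminant_slash k (⇑F) γ
    change IsBoundedAtImInfty ((fun z => F z / Δ z) ∣[k - 12] γ)
    rw [this]
    exact hbdd γ
  · change F z = Δ z * (F z / Δ z)
    rw [mul_div_cancel₀ _ (discriminant_ne_zero z)]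

variable [𝒢.HasDetOne]

/-- **Regular sequence lemma**: if `E₄ a = E₆ b` with `a ∈ M_{k-4}(𝒢)`, `b ∈ M_{k-6}(𝒢)` then
`a = E₆ h`, `b = E₄ h` for some `h ∈ M_{k-10}(𝒢)`. -/
theorem exists_of_E4_mul_eq_E6_mul (h𝒢 : 𝒢 ≤ 𝒮ℒ) {k : ℤ} {a b : ℍ → ℂ}
    (ha : a ∈ Mfun 𝒢 (k - 4)) (hb : b ∈ Mfun 𝒢 (k - 6)) (hab : ⇑E₄ * a = ⇑E₆ * b) :
    ∃ h ∈ Mfun 𝒢 (k - 10), a = ⇑E₆ * h ∧ b = ⇑E₄ * h := by
  obtain ⟨A, rfl⟩ := mem_Mfun.mp ha
  obtain ⟨B, rfl⟩ := mem_Mfun.mp hb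
  have hE4 : ⇑E₄ ∈ Mfun 𝒢 4 := Mfun_of_le h𝒢 E4_mem
  have hE6 : ⇑E₆ ∈ Mfun 𝒢 6 := Mfun_of_le h𝒢 E6_mem
  have hNum : (⇑E₄ * ⇑E₄ * ⇑B - ⇑E₆ * ⇑A) ∈ Mfun 𝒢 (k + 2) :=
    Submodule.sub_mem _ (Mfun_mul' (Mfun_mul hE4 hE4) (coe_mem_Mfun B) (by omega))
      (Mfun_mul' hE6 (coe_mem_Mfun A) (by omega))
  obtain ⟨Num, hNumeq⟩ := mem_Mfun.mp hNum
  have habz : ∀ z, E₄ z * A z = E₆ z * B z := fun z => congrFun hab z
  have hNumz : ∀ z, Num z = E₄ z * E₄ z * B z - E₆ z * A z := fun z => congrFun hNumeq z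
  have hid1 : ∀ z, E₆ z * Num z = 1728 * Δ z * A z := by
    intro z
    rw [hNumz, discriminant_eq_E₄_cube_sub_E₆_sq]
    linear_combination (-(E₄ z) ^ 2) * habz z
  have hid2 : ∀ z, E₄ z * Num z = 1728 * Δ z * B z := by
    intro z
    rw [hNumz, discriminant_eq_E₄_cube_sub_E₆_sq]
    linear_combination (-(E₆ z)) * habz z
  -- boundedness of the translates of `Num / Δ`
  have hbdd : ∀ γ : SL(2, ℤ),
      IsBoundedAtImInfty (fun z => ((⇑Num : ℍ → ℂ) ∣[k + 2] γ) z / Δ z) := by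
    intro γ
    have hγ : (γ : GL (Fin 2) ℝ) ∈ 𝒮ℒ := ⟨γ, rfl⟩
    have hfun : ⇑E₆ * ⇑Num = ⇑CuspForm.discriminant * ((1728 : ℂ) • ⇑A) := by
      ext z
      simp only [Pi.mul_apply, Pi.smul_apply, smul_eq_mul]
      rw [hid1 z]
      change 1728 * Δ z * A z = Δ z * (1728 * A z)
      ring
    have hw : (6 : ℤ) + (k + 2) = 12 + (k - 4) := by ring
    have hsl : (⇑E₆ * ⇑Num : ℍ → ℂ) ∣[(6 : ℤ) + (k + 2)] γ =
        (⇑CuspForm.discriminant * ((1728 : ℂ) • ⇑A) : ℍ → ℂ) ∣[(6 : ℤ) + (k + 2)] γ := by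
      rw [hfun]
    rw [mul_slash_SL2, hw, mul_slash_SL2] at hsl
    have hE6sl : (⇑E₆ : ℍ → ℂ) ∣[(6 : ℤ)] γ = ⇑E₆ := SlashInvariantForm.slash_action_eqn E₆ _ hγ
    have hDsl : (⇑CuspForm.discriminant : ℍ → ℂ) ∣[(12 : ℤ)] γ = ⇑CuspForm.discriminant :=
      SlashInvariantForm.slash_action_eqn CuspForm.discriminant _ hγ
    rw [hE6sl, hDsl] at hsl
    have hslz : ∀ z, E₆ z * ((⇑Num : ℍ → ℂ) ∣[k + 2] γ) z =
        Δ z * (((1728 : ℂ) • ⇑A : ℍ → ℂ) ∣[k - 4] γ) z := fun z => congrFun hsl z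
    have hAb : IsBoundedAtImInfty (((1728 : ℂ) • ⇑A : ℍ → ℂ) ∣[k - 4] γ) :=
      ModularFormClass.bdd_at_infty_slash ((1728 : ℂ) • A) γ
    have hE6inv : IsBoundedAtImInfty (fun z => (E₆ z)⁻¹) := by
      have := (tendsto_E6.inv₀ one_ne_zero)
      exact this.isBigO_one ℝ
    have hev : ∀ᶠ z in atImInfty, E₆ z ≠ 0 := tendsto_E6.eventually_ne one_ne_zero
    have hprod : IsBoundedAtImInfty
        (fun z => (((1728 : ℂ) • ⇑A : ℍ → ℂ) ∣[k - 4] γ) z * (E₆ z)⁻¹) := hAb.mul hE6inv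
    refine hprod.congr' ?_ EventuallyEq.rfl
    filter_upwards [hev] with z hz
    have h1 := hslz z
    have hD := discriminant_ne_zero z
    field_simp
    linear_combination -h1
  obtain ⟨H, hH⟩ := exists_eq_discriminant_mul h𝒢 Num hbdd
  refine ⟨(1 / 1728 : ℂ) • ⇑H, Submodule.smul_mem _ _ (Mfun_cast (by ring) (coe_mem_Mfun H)),
    ?_, ?_⟩
  · ext z
    have h1 := hid1 z
    rw [hH z] at h1
    have hD := discriminant_ne_zero z
    simp only [Pi.mul_apply, Pi.smul_apply, smul_eq_mul]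
    have : Δ z * (1728 * A z - E₆ z * H z) = 0 := by linear_combination -h1
    have := (mul_eq_zero.mp this).resolve_left hD
    linear_combination (1 / 1728 : ℂ) * this
  · ext z
    have h1 := hid2 z
    rw [hH z] at h1
    have hD := discriminant_ne_zero z
    simp only [Pi.mul_apply, Pi.smul_apply, smul_eq_mul]
    have : Δ z * (1728 * B z - E₄ z * H z) = 0 := by linear_combination -h1
    have := (mul_eq_zero.mp this).resolve_left hD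
    linear_combination (1 / 1728 : ℂ) * this

end Division

/-! ## Part 4: dimension bounds -/

section Dimension

open Module

variable {𝒢 : Subgroup (GL (Fin 2) ℝ)} [𝒢.IsArithmetic] [𝒢.HasDetOne]

/-- Finite-dimensionality and the Sturm dimension bound. -/
theorem finite_and_finrank_le (h1 : (1 : ℝ) ∈ 𝒢.strictPeriods) (k : ℤ) :
    Module.Finite ℂ (ModularForm 𝒢 k) ∧
      finrank ℂ (ModularForm 𝒢 k) ≤ (k * 𝒢.relIndex 𝒮ℒ).toNat / 12 + 1 := by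
  set B : ℕ := (k * 𝒢.relIndex 𝒮ℒ).toNat / 12 with hB
  let L : ModularForm 𝒢 k →ₗ[ℂ] (Fin (B + 1) → ℂ) :=
    { toFun := fun f n => (qExpansion 1 f).coeff n
      map_add' := fun f g => by
        funext n
        have : (⇑(f + g) : ℍ → ℂ) = ⇑f + ⇑g := rfl
        rw [this, ModularForm.qExpansion_add one_pos h1 f g]
        simp
      map_smul' := fun c f => by
        funext n
        have : (⇑(c • f) : ℍ → ℂ) = c • ⇑f := rfl
        rw [this, ModularForm.qExpansion_smul one_pos h1 c f]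
        simp }
  have hL : Function.Injective L := by
    rw [← LinearMap.ker_eq_bot, LinearMap.ker_eq_bot']
    intro f hf
    refine ModularForm.sturm_bound_of_isArithmetic h1 ?_
    have h2 : ((B + 1 : ℕ) : ℕ∞) ≤ (qExpansion 1 f).order := by
      refine PowerSeries.nat_le_order _ _ fun i hi => ?_
      exact congrFun hf ⟨i, hi⟩
    refine lt_of_lt_of_le ?_ h2
    exact_mod_cast Nat.lt_succ_self B
  refine ⟨Module.Finite.of_injective L hL, ?_⟩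
  have := LinearMap.finrank_le_finrank_of_injective hL
  simpa using this

lemma Mfun_finite (h1 : (1 : ℝ) ∈ 𝒢.strictPeriods) (k : ℤ) : Module.Finite ℂ (Mfun 𝒢 k) := by
  have := (finite_and_finrank_le h1 k).1
  exact Module.Finite.equiv (MfunEquiv 𝒢 k)

omit [𝒢.IsArithmetic] in
lemma finrank_Mfun (k : ℤ) : finrank ℂ (Mfun 𝒢 k) = finrank ℂ (ModularForm 𝒢 k) :=
  (MfunEquiv 𝒢 k).finrank_eq.symm

lemma levelOne_Mfun_finite (k : ℤ) : Module.Finite ℂ (Mfun 𝒮ℒ k) :=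
  Module.Finite.equiv (MfunEquiv 𝒮ℒ k)

lemma levelOne_finrank_lower {n : ℤ} (hn : 0 ≤ n) (he : Even n) :
    n < 12 * ((finrank ℂ (Mfun 𝒮ℒ n) : ℤ) + 1) := by
  lift n to ℕ using hn
  have he' : Even n := by exact_mod_cast he
  have hr := dimension_level_one n he'
  rw [finrank_Mfun]
  have hfin : (n / 12 : ℕ) ≤ finrank ℂ (ModularForm 𝒮ℒ (n : ℤ)) := by
    split_ifs at hr with h
    · have : finrank ℂ (ModularForm 𝒮ℒ (n : ℤ)) = n / 12 :=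
        Module.finrank_eq_of_rank_eq (by rw [hr])
      omega
    · have : finrank ℂ (ModularForm 𝒮ℒ (n : ℤ)) = n / 12 + 1 :=
        Module.finrank_eq_of_rank_eq (by rw [hr])
      omega
  have : (n : ℤ) < 12 * (((n / 12 : ℕ) : ℤ) + 1) := by omega
  have h2 : ((n / 12 : ℕ) : ℤ) ≤ (finrank ℂ (ModularForm 𝒮ℒ (n : ℤ)) : ℤ) := by
    exact_mod_cast hfin
  linarith

end Dimension

/-! ## Part 5: the free-basis theorem -/

section Main

open Module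

variable (𝒢 : Subgroup (GL (Fin 2) ℝ)) [𝒢.IsArithmetic] [𝒢.HasDetOne]

/-- The graded setup for `R = M_*(SL₂(ℤ))`, `M = M_*(𝒢)`, `e4 = E₄`, `e6 = E₆`. -/
theorem gradedSetup (h𝒢 : 𝒢 ≤ 𝒮ℒ) :
    GradedSetup (K := ℂ) (A := ℍ → ℂ) (Mfun 𝒮ℒ) (Mfun 𝒢) (⇑E₄) (⇑E₆) where
  R_neg _ hk := Mfun_eq_bot_of_neg hk
  R_zero _ hr := Mfun_levelOne_zero hr
  R_gen _ hk _ hr := levelOne_gen hk hr
  e4_mem := E4_mem
  e6_mem := E6_mem
  R_mul _ _ _ hr _ hs := Mfun_mul hr hs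
  RM_mul _ _ _ hr _ hm := Mfun_mul (Mfun_of_le h𝒢 hr) hm
  one_mem := one_mem_Mfun _
  M_neg _ hk := Mfun_eq_bot_of_neg hk
  div _ _ ha _ hb hab := exists_of_E4_mul_eq_E6_mul h𝒢 ha hb hab

/-- **Freeness of `M_*(𝒢)` over `M_*(SL₂(ℤ))`, function level.** -/
theorem exists_free_generators_fun (h𝒢 : 𝒢 ≤ 𝒮ℒ) (hneg : -1 ∈ 𝒢)
    (h1 : (1 : ℝ) ∈ 𝒢.strictPeriods) :
    ∃ (n : ℕ) (deg : Fin n → ℤ) (F : Fin n → ℍ → ℂ), n ≤ 𝒢.relIndex 𝒮ℒ ∧ (∀ j, 0 ≤ deg j) ∧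
      (∀ j, Even (deg j)) ∧ (∀ j, F j ∈ Mfun 𝒢 (deg j)) ∧
      (∀ k, ∀ f ∈ Mfun 𝒢 k, ∃ P : Fin n → ℍ → ℂ, (∀ j, P j ∈ Mfun 𝒮ℒ (k - deg j)) ∧
        f = ∑ j, P j * F j) ∧
      (∀ k, ∀ P : Fin n → ℍ → ℂ, (∀ j, P j ∈ Mfun 𝒮ℒ (k - deg j)) →
        ∑ j, P j * F j = 0 → P = 0) := by
  refine exists_free_basis (gradedSetup 𝒢 h𝒢) (Mfun_finite h1) levelOne_Mfun_finite
    (fun k hk => Mfun_eq_bot_of_odd hneg hk) (fun n hn he => levelOne_finrank_lower hn he)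
    (𝒢.relIndex 𝒮ℒ) ?_
  intro m
  rw [finrank_Mfun]
  refine (finite_and_finrank_le h1 _).2.trans ?_
  have : (12 * (m : ℤ) * (𝒢.relIndex 𝒮ℒ : ℤ)).toNat = 12 * (𝒢.relIndex 𝒮ℒ * m) := by
    have : 12 * (m : ℤ) * (𝒢.relIndex 𝒮ℒ : ℤ) = ((12 * (𝒢.relIndex 𝒮ℒ * m) : ℕ) : ℤ) := by
      push_cast; ring
    rw [this, Int.toNat_natCast]
  rw [this, Nat.mul_div_cancel_left _ (by norm_num : 0 < 12)]

/-- **Freeness of `M_*(𝒢)` over `M_*(SL₂(ℤ))`, bundled form.** -/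
theorem exists_free_generators (h𝒢 : 𝒢 ≤ 𝒮ℒ) (hneg : -1 ∈ 𝒢)
    (h1 : (1 : ℝ) ∈ 𝒢.strictPeriods) :
    ∃ (n : ℕ) (k : Fin n → ℤ) (F : (j : Fin n) → ModularForm 𝒢 (k j)),
      n ≤ 𝒢.relIndex 𝒮ℒ ∧ (∀ j, 0 ≤ k j) ∧ (∀ j, Even (k j)) ∧
      (∀ (w : ℤ) (f : ModularForm 𝒢 w), ∃ P : (j : Fin n) → ModularForm 𝒮ℒ (w - k j),
        ∀ z, f z = ∑ j, P j z * F j z) ∧
      (∀ (w : ℤ) (P : (j : Fin n) → ModularForm 𝒮ℒ (w - k j)),
        (∀ z, ∑ j, P j z * F j z = 0) → ∀ j, P j = 0) := by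
  obtain ⟨n, deg, F, hn, hdeg, heven, hF, hgen, huniq⟩ :=
    exists_free_generators_fun 𝒢 h𝒢 hneg h1
  choose F' hF' using fun j => mem_Mfun.mp (hF j)
  refine ⟨n, deg, F', hn, hdeg, heven, ?_, ?_⟩
  · intro w f
    obtain ⟨P, hP, hf⟩ := hgen w f (coe_mem_Mfun f)
    choose P' hP' using fun j => mem_Mfun.mp (hP j)
    refine ⟨P', fun z => ?_⟩
    have := congrFun hf z
    rw [this, Finset.sum_apply]
    refine Finset.sum_congr rfl fun j _ => ?_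
    rw [Pi.mul_apply, ← hP' j, ← hF' j]
  · intro w P h0 j
    have := huniq w (fun j => ⇑(P j)) (fun j => coe_mem_Mfun (P j)) (by
      funext z
      rw [Finset.sum_apply]
      have := h0 z
      simpa [hF'] using this)
    exact DFunLike.coe_injective (congrFun this j)

end Main

/-! ## Part 6: specialisation to `Γ₀(N)` -/

section Gamma0

open CongruenceSubgroup Matrix.SpecialLinearGroup

lemma neg_one_mem_Gamma0_map (N : ℕ) :
    (-1 : GL (Fin 2) ℝ) ∈ ((Gamma0 N : Subgroup SL(2, ℤ)) : Subgroup (GL (Fin 2) ℝ)) := by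
  have h1 : (-1 : SL(2, ℤ)) ∈ Gamma0 N := by
    rw [Gamma0_mem]
    simp
  refine Subgroup.mem_map.mpr ⟨-1, h1, ?_⟩
  ext i j
  simp [mapGL]

lemma relIndex_map_mapGL (Γ : Subgroup SL(2, ℤ)) :
    (Γ : Subgroup (GL (Fin 2) ℝ)).relIndex 𝒮ℒ = Γ.index := by
  rw [MonoidHom.range_eq_map, ← Subgroup.relIndex_comap,
    Subgroup.comap_map_eq_self_of_injective mapGL_injective, Subgroup.relIndex_top_right]

/-- **Freeness of `M_*(Γ₀(N))` over `M_*(SL₂(ℤ)) = ℂ[E₄, E₆]`.**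
There are `n ≤ [SL₂(ℤ) : Γ₀(N)]` forms `F j` of even weights `k j ≥ 0` such that every modular
form `f` of weight `w` on `Γ₀(N)` is a unique combination `∑ P j * F j` with level-one
coefficients `P j` of weight `w - k j`. -/
theorem exists_free_generators_Gamma0 (N : ℕ) [NeZero N] :
    ∃ (n : ℕ) (k : Fin n → ℤ) (F : (j : Fin n) → ModularForm (Gamma0 N) (k j)),
      n ≤ (Gamma0 N).index ∧ (∀ j, 0 ≤ k j) ∧ (∀ j, Even (k j)) ∧
      (∀ (w : ℤ) (f : ModularForm (Gamma0 N) w),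
        ∃ P : (j : Fin n) → ModularForm 𝒮ℒ (w - k j), ∀ z, f z = ∑ j, P j z * F j z) ∧
      (∀ (w : ℤ) (P : (j : Fin n) → ModularForm 𝒮ℒ (w - k j)),
        (∀ z, ∑ j, P j z * F j z = 0) → ∀ j, P j = 0) := by
  have h := exists_free_generators ((Gamma0 N : Subgroup SL(2, ℤ)) : Subgroup (GL (Fin 2) ℝ))
    (Subgroup.map_le_range _ _) (neg_one_mem_Gamma0_map N)
    (CongruenceSubgroup.one_mem_strictPeriods_Gamma0 N)
  rw [relIndex_map_mapGL] at h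
  exact h

end Gamma0

end Fermat.Agent.Lib.helper460
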