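import Fermat.Agent.Lib.helper4714_IgusaIntegral

/-!
# Functions regular on both charts reduce to constants (board #1685, the `k`-level end of (H3))

* `isIntegral_of_isIntegral_both` : in a field `E ⊇ k`, if `t` is transcendental over `k` and
  `x` is integral over `k[t]` and over `k[t⁻¹]`, then `x` is integral (algebraic) over `k`
  (the minimal polynomial of `x` over `k(t)` has coefficients in `k[t] ∩ k[t⁻¹] = k`).
* `exists_eq_C_of_isIntegral` : an element of `k((q))` algebraic over `k` is a constant.
* `exists_eq_C_of_isIntegral_jq_both` : `x ∈ k((q))` integral over `k[j̄]` and over `k[1/j̄]` is a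
  constant.
* `exists_gaussRho_eq_C`, `exists_const_gaussRho_sub_eq_zero` **(H3)** : if `b` is integral over
  `A[j]`, `b'` integral over `A[1/j]` (both in the Gauss ring) and `b`, `b'` have the same
  reduction, then this reduction is a constant; if `π` is surjective, `b - a` reduces to `0`
  for some `a : A`.
-/

set_option autoImplicit false

noncomputable section

namespace Fermat.Agent.Lib.helper4714

open Polynomial ModularCurve IntermediateField
open Fermat.Agent.Lib.helper28
open scoped IntermediateField.algebraAdjoinAdjoin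

section Both

variable {k E : Type*} [Field k] [Field E] [Algebra k E]

/-- `k[X] → k[s]`, onto the subalgebra generated by `s`. -/
def toAdjoin (s : E) : k[X] →+* ↥(Algebra.adjoin k ({s} : Set E)) :=
  (aeval (⟨s, Algebra.subset_adjoin rfl⟩ : ↥(Algebra.adjoin k ({s} : Set E)))).toRingHom

theorem coe_toAdjoin (s : E) (Q : k[X]) :
    ((toAdjoin s Q : ↥(Algebra.adjoin k ({s} : Set E))) : E) = aeval s Q :=
  (Polynomial.aeval_algHom_apply (Algebra.adjoin k ({s} : Set E)).val
    (⟨s, Algebra.subset_adjoin rfl⟩ : ↥(Algebra.adjoin k ({s} : Set E))) Q).symm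

theorem toAdjoin_surjective (s : E) : Function.Surjective (toAdjoin (k := k) s) := by
  rintro ⟨z, hz⟩
  have hz' := hz
  rw [Algebra.adjoin_singleton_eq_range_aeval] at hz'
  obtain ⟨Q, hQ⟩ := hz'
  exact ⟨Q, Subtype.ext ((coe_toAdjoin s Q).trans hQ)⟩

theorem toAdjoin_injective {s : E} (hs : Function.Injective (aeval (R := k) s)) :
    Function.Injective (toAdjoin (k := k) s) := by
  intro P Q h
  apply hs
  rw [← coe_toAdjoin, ← coe_toAdjoin, h]

/-- For `s` transcendental over `k`, the ring `k[s]` is integrally closed. -/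
theorem isIntegrallyClosed_adjoin_singleton {s : E}
    (hs : Function.Injective (aeval (R := k) s)) :
    IsIntegrallyClosed ↥(Algebra.adjoin k ({s} : Set E)) :=
  IsIntegrallyClosed.of_equiv
    (RingEquiv.ofBijective (toAdjoin (k := k) s) ⟨toAdjoin_injective hs, toAdjoin_surjective s⟩)

/-- The coefficients of the minimal polynomial over `k(s)` of an element integral over `k[s]`
lie in `k[s]` (`s` transcendental). -/
theorem coeff_minpoly_mem_adjoin {s x : E} (hs : Function.Injective (aeval (R := k) s))
    (hx : IsIntegral (Algebra.adjoin k ({s} : Set E)) x) (i : ℕ) :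
    (((minpoly k⟮s⟯ x).coeff i : k⟮s⟯) : E) ∈ Algebra.adjoin k ({s} : Set E) := by
  have := isIntegrallyClosed_adjoin_singleton hs
  rw [minpoly.isIntegrallyClosed_eq_field_fractions' k⟮s⟯ hx, coeff_map]
  exact ((minpoly (Algebra.adjoin k ({s} : Set E)) x).coeff i).2

theorem adjoin_simple_inv (t : E) : k⟮t⁻¹⟯ = k⟮t⟯ := by
  apply le_antisymm
  · rw [adjoin_simple_le_iff]
    exact inv_mem (mem_adjoin_simple_self k t)
  · rw [adjoin_simple_le_iff]
    have h := inv_mem (mem_adjoin_simple_self k t⁻¹)
    rwa [inv_inv] at h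

theorem coe_coeff_minpoly_congr {F₁ F₂ : IntermediateField k E} (h : F₁ = F₂) (x : E) (i : ℕ) :
    (((minpoly F₁ x).coeff i : F₁) : E) = (((minpoly F₂ x).coeff i : F₂) : E) := by
  subst h; rfl

theorem natDegree_reflect_le_self (Q : k[X]) : (reflect Q.natDegree Q).natDegree ≤ Q.natDegree := by
  rw [natDegree_le_iff_coeff_eq_zero]
  intro N hN
  rw [coeff_reflect, revAt_eq_self_of_lt hN, coeff_eq_zero_of_natDegree_lt hN]

/-- `P(t⁻¹) = (reflect P)(t) * t⁻¹ ^ deg P`. -/
theorem aeval_inv_eq {t : E} (ht0 : t ≠ 0) (Q : k[X]) :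
    aeval t⁻¹ Q = aeval t (reflect Q.natDegree Q) * t⁻¹ ^ Q.natDegree := by
  have : Invertible t⁻¹ := invertibleOfNonzero (inv_ne_zero ht0)
  have h := eval₂_reflect_mul_pow (algebraMap k E) t⁻¹ Q.natDegree Q le_rfl
  rw [invOf_eq_inv, inv_inv] at h
  rw [aeval_def, aeval_def, h]

/-- `k[t] ∩ k[t⁻¹] = k` for `t` transcendental. -/
theorem exists_eq_algebraMap_of_mem_adjoin_of_mem_adjoin_inv {t : E}
    (ht : Function.Injective (aeval (R := k) t)) (ht0 : t ≠ 0) {z : E}
    (h1 : z ∈ Algebra.adjoin k ({t} : Set E)) (h2 : z ∈ Algebra.adjoin k ({t⁻¹} : Set E)) :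
    ∃ c : k, z = algebraMap k E c := by
  rw [Algebra.adjoin_singleton_eq_range_aeval] at h1 h2
  obtain ⟨P, rfl⟩ := h1
  obtain ⟨Q, hQ⟩ := h2
  have hQ' : aeval t⁻¹ Q = aeval t P := hQ
  have hPQ : P * X ^ Q.natDegree = reflect Q.natDegree Q := by
    apply ht
    rw [map_mul, map_pow, aeval_X, ← hQ', aeval_inv_eq ht0, mul_assoc, ← mul_pow,
      inv_mul_cancel₀ ht0, one_pow, mul_one]
  by_cases hP : P = 0
  · exact ⟨0, by rw [hP, map_zero, map_zero]⟩
  · have hdeg : (P * X ^ Q.natDegree).natDegree = P.natDegree + Q.natDegree :=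
      natDegree_mul_X_pow _ hP
    have hle := natDegree_reflect_le_self Q
    rw [← hPQ, hdeg] at hle
    have hP0 : P.natDegree = 0 := by omega
    obtain ⟨c, hc⟩ := natDegree_eq_zero.mp hP0
    refine ⟨c, ?_⟩
    rw [← hc]
    show aeval t (C c) = algebraMap k E c
    rw [aeval_C]

theorem aeval_inv_injective {t : E} (ht : Function.Injective (aeval (R := k) t)) (ht0 : t ≠ 0) :
    Function.Injective (aeval (R := k) t⁻¹) := by
  rw [injective_iff_map_eq_zero]
  intro Q hQ
  rw [aeval_inv_eq ht0] at hQ
  have h1 : aeval t (reflect Q.natDegree Q) = 0 :=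
    (mul_eq_zero.mp hQ).resolve_right (pow_ne_zero _ (inv_ne_zero ht0))
  have h2 : reflect Q.natDegree Q = 0 := ht (by rw [h1, map_zero])
  exact (reflect_eq_zero_iff).mp h2

/-- **Regular on both charts ⟹ algebraic over the constants.** If `t` is transcendental over `k`
and `x` is integral over `k[t]` and over `k[t⁻¹]`, then `x` is integral over `k`. -/
theorem isIntegral_of_isIntegral_both {t x : E} (ht : Function.Injective (aeval (R := k) t))
    (h1 : (evAtK (K := k) t).IsIntegralElem x) (h2 : (evAtK (K := k) t⁻¹).IsIntegralElem x) :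
    IsIntegral k x := by
  have ht0 : t ≠ 0 := by
    rintro rfl
    have h0 : aeval (0 : E) (X : k[X]) = aeval (0 : E) (0 : k[X]) := by simp
    exact X_ne_zero (ht h0)
  have ht' := aeval_inv_injective ht ht0
  have hx1 := isIntegral_adjoin_of_isIntegralElem_evAtK h1
  have hx2 := isIntegral_adjoin_of_isIntegralElem_evAtK h2
  have hc : ∀ i, ∃ c : k, (((minpoly k⟮t⟯ x).coeff i : k⟮t⟯) : E) = algebraMap k E c := fun i =>
    exists_eq_algebraMap_of_mem_adjoin_of_mem_adjoin_inv ht ht0
      (coeff_minpoly_mem_adjoin ht hx1 i)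
      (by rw [← coe_coeff_minpoly_congr (adjoin_simple_inv t) x i]
          exact coeff_minpoly_mem_adjoin ht' hx2 i)
  have hxF : IsIntegral k⟮t⟯ x := hx1.tower_top
  have hlift : minpoly k⟮t⟯ x ∈ lifts (algebraMap k k⟮t⟯) := by
    rw [lifts_iff_coeff_lifts]
    intro i
    obtain ⟨c, hc⟩ := hc i
    exact ⟨c, Subtype.ext hc.symm⟩
  obtain ⟨p, hp, -, hpm⟩ := lifts_and_natDegree_eq_and_monic hlift (minpoly.monic hxF)
  refine ⟨p, hpm, ?_⟩
  have h := minpoly.aeval k⟮t⟯ x
  rw [← hp, aeval_map_algebraMap] at h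
  exact h

end Both

section Constants

variable {k : Type*} [Field k]

/-- A power series with zero constant coefficient which is algebraic over `k` is zero. -/
theorem eq_zero_of_isIntegral_of_constantCoeff_eq_zero {y : PowerSeries k} (hy : IsIntegral k y)
    (h0 : PowerSeries.constantCoeff y = 0) : y = 0 := by
  by_contra hne
  have hp := minpoly.aeval k y
  have h1 : (minpoly k y).coeff 0 = 0 := by
    have h2 := congrArg PowerSeries.constantCoeff hp
    rw [aeval_def, hom_eval₂, map_zero, h0] at h2
    have h3 : (PowerSeries.constantCoeff (R := k)).comp (algebraMap k (PowerSeries k)) =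
        RingHom.id k := by
      ext c; simp
    rw [h3, eval₂_id, ← coeff_zero_eq_eval_zero] at h2
    exact h2
  obtain ⟨r, hr⟩ := X_dvd_iff.mpr h1
  have hrne : r ≠ 0 := by
    rintro rfl
    rw [mul_zero] at hr
    exact minpoly.ne_zero hy hr
  have hr0 : aeval y r = 0 := by
    rw [hr, map_mul, aeval_X] at hp
    exact (mul_eq_zero.mp hp).resolve_left hne
  have hdeg := natDegree_le_natDegree (minpoly.degree_le_of_ne_zero k y hrne hr0)
  rw [hr, natDegree_X_mul hrne] at hdeg
  omega

/-- **The constants are algebraically closed in `k((q))`.** -/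
theorem exists_eq_C_of_isIntegral {x : LaurentSeries k} (hx : IsIntegral k x) :
    ∃ c : k, x = HahnSeries.C c := by
  have hcomp : (algebraMap (PowerSeries k) (LaurentSeries k)).comp
      (algebraMap k (PowerSeries k)) = algebraMap k (LaurentSeries k) :=
    RingHom.ext fun c => by
      rw [RingHom.comp_apply, LaurentSeries.coe_algebraMap]
      exact (HahnSeries.algebraMap_apply' (Γ := ℤ) (R := k) (S := k) c).symm
  have hinj : Function.Injective (algebraMap (PowerSeries k) (LaurentSeries k)) :=
    IsFractionRing.injective (PowerSeries k) (LaurentSeries k)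
  obtain ⟨p, hp, hroot⟩ := hx
  have h1 : IsIntegral (PowerSeries k) x :=
    ⟨p.map (algebraMap k (PowerSeries k)), hp.map _, by rw [eval₂_map, hcomp]; exact hroot⟩
  obtain ⟨y, rfl⟩ := IsIntegrallyClosed.isIntegral_iff.mp h1
  have hy : IsIntegral k y := by
    refine ⟨p, hp, hinj ?_⟩
    rw [hom_eval₂, hcomp, map_zero]
    exact hroot
  have hz : IsIntegral k (y - algebraMap k (PowerSeries k) (PowerSeries.constantCoeff y)) :=
    hy.sub isIntegral_algebraMap
  have hz0 : PowerSeries.constantCoeff
      (y - algebraMap k (PowerSeries k) (PowerSeries.constantCoeff y)) = 0 := by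
    simp
  have h2 := eq_zero_of_isIntegral_of_constantCoeff_eq_zero hz hz0
  have hyc : y = algebraMap k (PowerSeries k) (PowerSeries.constantCoeff y) := sub_eq_zero.mp h2
  refine ⟨PowerSeries.constantCoeff y, ?_⟩
  conv_lhs => rw [hyc]
  rw [← RingHom.comp_apply, hcomp, algebraMap_laurentSeries_eq_single, HahnSeries.C_apply]

/-- **(H3), `k`-level**: an element of `k((q))` integral over `k[j̄]` and over `k[1/j̄]` is a
constant. -/
theorem exists_eq_C_of_isIntegral_jq_both {x : LaurentSeries k}
    (h1 : (evAtK (K := k) (jqModC k)).IsIntegralElem x)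
    (h2 : (evAtK (K := k) (jqModC k)⁻¹).IsIntegralElem x) : ∃ c : k, x = HahnSeries.C c :=
  exists_eq_C_of_isIntegral
    (isIntegral_of_isIntegral_both (Fermat.Agent.S28.helper3292.aeval_jqModC_injective k) h1 h2)

end Constants

section H3

open Fermat.Agent.S18

variable {L : Type*} [Field L] (A : ValuationSubring L) {k : Type*} [Field k] (π : A →+* k)

/-- **(H3)** If `b` is integral over `A[j]`, `b'` integral over `A[1/j]`, both in the Gauss ring,
with the same reduction, then this reduction is a constant. -/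
theorem exists_gaussRho_eq_C {b b' : LaurentSeries L} (hb : b ∈ helper8991.gaussRing A π)
    (hb' : b' ∈ helper8991.gaussRing A π) (hint : (evAt A (jqModC L)).IsIntegralElem b)
    (hint' : (evAt A (jqModC L)⁻¹).IsIntegralElem b')
    (heq : helper8991.gaussRho A π ⟨b, hb⟩ = helper8991.gaussRho A π ⟨b', hb'⟩) :
    ∃ c : k, helper8991.gaussRho A π ⟨b, hb⟩ = HahnSeries.C c := by
  have h1 := isIntegralElem_gaussRho_jq A π hb hint
  have h2 := isIntegralElem_gaussRho_jq_inv A π hb' hint'
  rw [← heq] at h2
  exact exists_eq_C_of_isIntegral_jq_both h1 h2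

/-- **(H3)**, kernel form: if moreover `π` is surjective, then `b - a` has zero reduction for some
constant `a : A`. -/
theorem exists_const_gaussRho_sub_eq_zero (hπ : Function.Surjective π) {b b' : LaurentSeries L}
    (hb : b ∈ helper8991.gaussRing A π) (hb' : b' ∈ helper8991.gaussRing A π)
    (hint : (evAt A (jqModC L)).IsIntegralElem b)
    (hint' : (evAt A (jqModC L)⁻¹).IsIntegralElem b')
    (heq : helper8991.gaussRho A π ⟨b, hb⟩ = helper8991.gaussRho A π ⟨b', hb'⟩) :
    ∃ a : A, helper8991.gaussRho A π (⟨b, hb⟩ - constG A π a) = 0 := by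
  obtain ⟨c, hc⟩ := exists_gaussRho_eq_C A π hb hb' hint hint' heq
  obtain ⟨a, rfl⟩ := hπ c
  refine ⟨a, ?_⟩
  rw [map_sub, hc, gaussRho_constG, helper8991.C_eq_algebraMap, sub_self]

end H3

end Fermat.Agent.Lib.helper4714
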