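import Fermat.Agent.Lib.helper28_IgusaCharts
import Fermat.Agent.S18.helper8991_GaussInst

/-!
# Integrality over `K[h]` versus `O[h]`, and reduction of integral elements (board #1685)

Complements of the Igusa kernel lemma of `Lib/helper28_Igusa*` (items (M5), (M6) of its list),
in the same vocabulary (`helper28.evAt`, `helper28.KLAt`, `helper28.iotaO/redO`,
`helper8991.gaussRing/gaussRho`).

* `evAtK h : K[X] →+* E` is `P ↦ P(h)`; "integral over `K[h]`" is `(evAtK h).IsIntegralElem`.
* `exists_smul_isIntegralElem` : integral over `K[h]` ⟹ `c y` integral over `O[h]` for some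
  nonzero `c : O` (clearing denominators over a valuation ring).
* `isIntegralElem_of_klAt` **(M5)** : on a chart with the kernel lemma, an element of the class
  which is integral over `K[h]` is integral over `O[h]`.
* `normalRep_primitive_of_isIntegralElem_iotaO`, `exists_gauss_of_isIntegralElem_iotaO`
  **(GI⁺)** : an element of the `K(j)`-span of the `b i` which is integral over `O((q))` — in
  particular integral over ANY chart `O[ι H]`, `H : O((q))` — is Gauss-integral.
* `isIntegralElem_gaussRho` **(M6)** : if `y` is integral over `A[h]` (`h`, `y` in the Gauss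
  ring) then the reduction of `y` is integral over `k[h̄]`.
-/

set_option autoImplicit false

noncomputable section

namespace Fermat.Agent.Lib.helper4714

open Polynomial ModularCurve
open Fermat.Agent.Lib.helper28

/-! ## (M5) clearing denominators -/

section M5

variable {K E : Type*} [Field K] [Field E] [Algebra K E] (O : ValuationSubring K)

/-- `P ↦ P(h)`, `K[X] → E`. -/
def evAtK (h : E) : K[X] →+* E := (aeval h : K[X] →ₐ[K] E).toRingHom

theorem evAtK_apply (h : E) (P : K[X]) : evAtK h P = aeval h P := rfl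

@[simp] theorem evAtK_C (h : E) (c : K) : evAtK h (C c) = algebraMap K E c := by
  rw [evAtK_apply, aeval_C]

@[simp] theorem evAtK_X (h : E) : evAtK (K := K) h X = h := by
  rw [evAtK_apply, aeval_X]

theorem evAt_eq_comp (h : E) : evAt O h = (evAtK h).comp (mapRingHom O.subtype) :=
  RingHom.ext fun P => by
    rw [RingHom.comp_apply, coe_mapRingHom, evAtK_apply, evAt_eq_aeval]

/-- Integral over `O[h]` implies integral over `K[h]`. -/
theorem isIntegralElem_evAtK_of_evAt {h y : E} (hy : (evAt O h).IsIntegralElem y) :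
    (evAtK (K := K) h).IsIntegralElem y := by
  obtain ⟨p, hp, hroot⟩ := hy
  refine ⟨p.map (mapRingHom O.subtype), hp.map _, ?_⟩
  rw [eval₂_map, ← evAt_eq_comp]
  exact hroot

/-- A finite family of polynomials over `K` has a common nonzero denominator in `O`. -/
theorem exists_common_denominator_poly {I : Type*} [Fintype I] (R : I → K[X]) :
    ∃ c : O, c ≠ 0 ∧ ∀ i, C (c : K) * R i ∈ lifts O.subtype := by
  classical
  set S : Finset K := insert 1 (Finset.univ.biUnion (fun i => (R i).coeffs)) with hS
  obtain ⟨s₀, -, hmax⟩ := S.exists_max_image (fun s => O.valuation s)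
    ⟨1, Finset.mem_insert_self _ _⟩
  have h1 : 1 ≤ O.valuation s₀ := by
    simpa using hmax 1 (Finset.mem_insert_self _ _)
  have hs₀ : s₀ ≠ 0 := by
    rintro rfl
    rw [map_zero] at h1
    exact absurd h1 (not_le.mpr zero_lt_one)
  have hcO : s₀⁻¹ ∈ O := by
    rw [← O.valuation_le_one_iff, map_inv₀]
    exact inv_le_one_of_one_le₀ h1
  refine ⟨⟨s₀⁻¹, hcO⟩, fun h => inv_ne_zero hs₀ (congrArg Subtype.val h), fun i => ?_⟩
  rw [lifts_iff_coeff_lifts]
  intro m
  rw [coeff_C_mul]
  refine ⟨⟨s₀⁻¹ * (R i).coeff m, ?_⟩, rfl⟩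
  by_cases h0 : (R i).coeff m = 0
  · rw [h0, mul_zero]; exact O.zero_mem
  · have hmem : (R i).coeff m ∈ S :=
      Finset.mem_insert_of_mem
        (Finset.mem_biUnion.mpr ⟨i, Finset.mem_univ i, Polynomial.coeff_mem_coeffs h0⟩)
    rw [← O.valuation_le_one_iff, map_mul, map_inv₀, mul_comm]
    exact mul_inv_le_one_of_le₀ (hmax _ hmem) zero_le

/-- **Clearing denominators**: an element integral over `K[h]` becomes integral over `O[h]`
after multiplication by a nonzero constant of `O`. -/
theorem exists_smul_isIntegralElem {h y : E} (hy : (evAtK (K := K) h).IsIntegralElem y) :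
    ∃ c : O, c ≠ 0 ∧ (evAt O h).IsIntegralElem (algebraMap K E (c : K) * y) := by
  obtain ⟨p, hp, hroot⟩ := hy
  obtain ⟨c, hc0, hc⟩ :=
    exists_common_denominator_poly O (fun i : Fin p.natDegree => p.coeff i)
  refine ⟨c, hc0, ?_⟩
  have hmonic : (p.scaleRoots (C (c : K))).Monic := (monic_scaleRoots_iff _).mpr hp
  have hlift : p.scaleRoots (C (c : K)) ∈ lifts (mapRingHom O.subtype) := by
    rw [lifts_iff_coeff_lifts]
    intro i
    rw [coeff_scaleRoots]
    rcases lt_trichotomy i p.natDegree with hi | hi | hi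
    · obtain ⟨r, hr⟩ := (mem_lifts _).mp (hc ⟨i, hi⟩)
      refine ⟨r * C c ^ (p.natDegree - i - 1), ?_⟩
      have hsub : p.natDegree - i = (p.natDegree - i - 1) + 1 := by omega
      rw [coe_mapRingHom, Polynomial.map_mul, Polynomial.map_pow, Polynomial.map_C, hr, hsub,
        pow_succ]
      show C (c : K) * p.coeff i * C (c : K) ^ (p.natDegree - i - 1 + 1 - 1) = _
      rw [Nat.add_sub_cancel]
      ring
    · subst hi
      rw [hp.coeff_natDegree, Nat.sub_self, pow_zero, mul_one]
      exact ⟨1, by simp⟩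
    · rw [coeff_eq_zero_of_natDegree_lt hi, zero_mul]
      exact ⟨0, by simp⟩
  obtain ⟨P', hP', -, hP'monic⟩ := lifts_and_natDegree_eq_and_monic hlift hmonic
  refine ⟨P', hP'monic, ?_⟩
  rw [evAt_eq_comp, ← eval₂_map, hP']
  have h1 := scaleRoots_eval₂_eq_zero (evAtK (K := K) h) (s := C (c : K)) hroot
  rwa [evAtK_C] at h1

/-- **(M5)**: on a chart `O[h]` with the kernel lemma on the class `𝒞`, an element of `𝒞`
integral over `K[h]` is integral over `O[h]`. -/
theorem isIntegralElem_of_klAt {h : E} {𝒞 : Set E} (hKL : KLAt O h 𝒞) {y : E} (hy : y ∈ 𝒞)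
    (hint : (evAtK (K := K) h).IsIntegralElem y) : (evAt O h).IsIntegralElem y := by
  obtain ⟨c, hc0, hc⟩ := exists_smul_isIntegralElem O hint
  exact hKL y hy c hc0 hc

/-- (M5) as an equivalence. -/
theorem isIntegralElem_evAt_iff_of_klAt {h : E} {𝒞 : Set E} (hKL : KLAt O h 𝒞) {y : E}
    (hy : y ∈ 𝒞) : (evAt O h).IsIntegralElem y ↔ (evAtK (K := K) h).IsIntegralElem y :=
  ⟨isIntegralElem_evAtK_of_evAt O, isIntegralElem_of_klAt O hKL hy⟩

/-- Integral over the subalgebra `K[h]` implies `(evAtK h).IsIntegralElem`. -/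
theorem isIntegralElem_evAtK_of_isIntegral_adjoin {h y : E}
    (hy : IsIntegral (Algebra.adjoin K ({h} : Set E)) y) :
    (evAtK (K := K) h).IsIntegralElem y := by
  obtain ⟨p, hp, hroot⟩ := hy
  set φ : K[X] →+* ↥(Algebra.adjoin K ({h} : Set E)) :=
    (aeval (⟨h, Algebra.subset_adjoin rfl⟩ : ↥(Algebra.adjoin K ({h} : Set E)))).toRingHom
    with hφdef
  have hval : ∀ Q : K[X], ((φ Q : ↥(Algebra.adjoin K ({h} : Set E))) : E) = aeval h Q := fun Q =>
    (Polynomial.aeval_algHom_apply (Algebra.adjoin K ({h} : Set E)).val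
      (⟨h, Algebra.subset_adjoin rfl⟩ : ↥(Algebra.adjoin K ({h} : Set E))) Q).symm
  have hφ : Function.Surjective φ := by
    rintro ⟨z, hz⟩
    have hz' := hz
    rw [Algebra.adjoin_singleton_eq_range_aeval] at hz'
    obtain ⟨Q, hQ⟩ := hz'
    exact ⟨Q, Subtype.ext ((hval Q).trans hQ)⟩
  have hlift : p ∈ lifts φ := by
    rw [lifts_iff_coeff_lifts]
    intro i
    exact hφ _
  obtain ⟨P, hPp, -, hPmonic⟩ := lifts_and_natDegree_eq_and_monic hlift hp
  refine ⟨P, hPmonic, ?_⟩
  have hcomp : (algebraMap ↥(Algebra.adjoin K ({h} : Set E)) E).comp φ = evAtK h :=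
    RingHom.ext fun Q => hval Q
  rw [← hcomp, ← eval₂_map, hPp]
  exact hroot

/-- `(evAtK h).IsIntegralElem` implies integral over the subalgebra `K[h]`. -/
theorem isIntegral_adjoin_of_isIntegralElem_evAtK {h y : E}
    (hy : (evAtK (K := K) h).IsIntegralElem y) :
    IsIntegral (Algebra.adjoin K ({h} : Set E)) y := by
  obtain ⟨p, hp, hroot⟩ := hy
  set φ : K[X] →+* ↥(Algebra.adjoin K ({h} : Set E)) :=
    (aeval (⟨h, Algebra.subset_adjoin rfl⟩ : ↥(Algebra.adjoin K ({h} : Set E)))).toRingHom
    with hφdef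
  have hval : ∀ Q : K[X], ((φ Q : ↥(Algebra.adjoin K ({h} : Set E))) : E) = aeval h Q := fun Q =>
    (Polynomial.aeval_algHom_apply (Algebra.adjoin K ({h} : Set E)).val
      (⟨h, Algebra.subset_adjoin rfl⟩ : ↥(Algebra.adjoin K ({h} : Set E))) Q).symm
  have hcomp : (algebraMap ↥(Algebra.adjoin K ({h} : Set E)) E).comp φ = evAtK h :=
    RingHom.ext fun Q => hval Q
  refine ⟨p.map φ, hp.map _, ?_⟩
  rw [eval₂_map, hcomp]
  exact hroot

end M5

/-! ## (GI⁺) integral over `O((q))` implies Gauss-integral -/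

section GIplus

variable {K : Type*} [Field K] {O : ValuationSubring K} {n : ℕ} {b : Fin n → LaurentSeries ℤ}

/-- **(GI⁺)** In a normal representation of an element integral over `O((q))` the denominator
is primitive. -/
theorem normalRep_primitive_of_isIntegralElem_iotaO (hind : Indep O b) {f : LaurentSeries K}
    {Q : O[X]} {P : Fin n → O[X]} (h : NormalRep O b f Q P)
    (hint : (iotaO O).IsIntegralElem f) : Q.map (IsLocalRing.residue O) ≠ 0 := by
  obtain ⟨hQ0, hrel, hprim⟩ := h
  intro hQres
  obtain ⟨G, hG, hroot⟩ := hint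
  have h1 : eval₂ (iotaO O) (iotaO O (evO O Q) * f) (G.scaleRoots (evO O Q)) = 0 :=
    scaleRoots_eval₂_eq_zero (iotaO O) hroot
  rw [← evK_apply, hrel, ← iotaO_numO, eval₂_at_apply] at h1
  have h2 : eval (numO O b P) (G.scaleRoots (evO O Q)) = 0 :=
    iotaO_injective O (by rw [h1, map_zero])
  have h3 : eval₂ (redO O) (redO O (numO O b P)) (G.scaleRoots (evO O Q)) = 0 := by
    rw [eval₂_at_apply, h2, map_zero]
  rw [eval₂_eq_sum_range, natDegree_scaleRoots, Finset.sum_range_succ] at h3
  have hQ0' : redO O (evO O Q) = 0 := by rw [redO_evO, hQres, map_zero]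
  have h4 : ∀ i ∈ Finset.range G.natDegree,
      redO O ((G.scaleRoots (evO O Q)).coeff i) * redO O (numO O b P) ^ i = 0 := by
    intro i hi
    rw [coeff_scaleRoots, map_mul, map_pow, hQ0',
      zero_pow (Nat.sub_ne_zero_of_lt (Finset.mem_range.mp hi)), mul_zero, zero_mul]
  rw [Finset.sum_eq_zero h4, zero_add, coeff_scaleRoots, Nat.sub_self, pow_zero, mul_one,
    coeff_natDegree, hG.leadingCoeff, map_one, one_mul] at h3
  have h5 : redO O (numO O b P) = 0 := eq_zero_of_pow_eq_zero h3
  rcases hprim with hq | ⟨i, hi⟩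
  · exact hq hQres
  · exact hi (map_residue_eq_zero_of_redO_numO hind h5 i)

/-- Integral over a chart `O[ι H]` (`H` with `O`-integral expansion) implies integral over
`O((q))`. -/
theorem isIntegralElem_iotaO_of_evAt {H : LaurentSeries O} {y : LaurentSeries K}
    (hint : (evAt O (iotaO O H)).IsIntegralElem y) : (iotaO O).IsIntegralElem y := by
  obtain ⟨p, hp, hroot⟩ := hint
  set φ : O[X] →+* LaurentSeries O := (aeval H : O[X] →ₐ[O] LaurentSeries O).toRingHom with hφ
  have hcomp : evAt O (iotaO O H) = (iotaO O).comp φ := by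
    refine Polynomial.ringHom_ext (fun c => ?_) ?_
    · rw [evAt_C, RingHom.comp_apply]
      show _ = iotaO O (aeval H (C c))
      rw [aeval_C]
      exact (Fermat.Agent.S28.helper3292.coeffMap_algebraMap' O.subtype c).symm
    · rw [evAt_X, RingHom.comp_apply]
      show _ = iotaO O (aeval H X)
      rw [aeval_X]
  refine ⟨p.map φ, hp.map _, ?_⟩
  rw [eval₂_map, ← hcomp]
  exact hroot

/-- **(GI⁺)**, Gauss form: an element of the `K(j)`-span of the `b i` which is integral over
`O((q))` is Gauss-integral. -/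
theorem exists_gauss_of_isIntegralElem_iotaO (hind : Indep O b) {y : LaurentSeries K}
    (hrep : HasRep b y) (hint : (iotaO O).IsIntegralElem y) :
    ∃ a s : LaurentSeries O, redO O s ≠ 0 ∧ y * iotaO O s = iotaO O a := by
  obtain ⟨Q, P, hQP⟩ := exists_normalRep (O := O) hrep
  have hQres := normalRep_primitive_of_isIntegralElem_iotaO hind hQP hint
  refine ⟨numO O b P, evO O Q, ?_, ?_⟩
  · rw [redO_evO]
    exact fun h => hQres ((evk_eq_zero_iff O _).mp h)
  · rw [iotaO_numO, ← hQP.2.1, evK_apply]
    ring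

/-- **(GI⁺)** on any chart `O[ι H]`. -/
theorem exists_gauss_of_isIntegralElem_evAt (hind : Indep O b) {y : LaurentSeries K}
    (hrep : HasRep b y) {H : LaurentSeries O}
    (hint : (evAt O (iotaO O H)).IsIntegralElem y) :
    ∃ a s : LaurentSeries O, redO O s ≠ 0 ∧ y * iotaO O s = iotaO O a :=
  exists_gauss_of_isIntegralElem_iotaO hind hrep (isIntegralElem_iotaO_of_evAt hint)

end GIplus

/-! ## (M6) reduction of integral elements -/

section M6

open Fermat.Agent.S18

variable {L : Type*} [Field L] (A : ValuationSubring L) {k : Type*} [Field k] (π : A →+* k)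

theorem algebraMap_mem_gaussRing (a : A) :
    algebraMap L (LaurentSeries L) (a : L) ∈ helper8991.gaussRing A π := by
  have h := helper8991.inc_mem_gaussRing A π (HahnSeries.C a)
  rwa [helper8991.inc_C, helper8991.C_eq_algebraMap] at h

/-- The constants of `A` inside the Gauss ring. -/
def constG : A →+* ↥(helper8991.gaussRing A π) :=
  ((algebraMap L (LaurentSeries L)).comp A.subtype).codRestrict (helper8991.gaussRing A π)
    (fun a => algebraMap_mem_gaussRing A π a)

theorem coe_constG (a : A) :
    ((constG A π a : ↥(helper8991.gaussRing A π)) : LaurentSeries L) =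
      algebraMap L (LaurentSeries L) (a : L) := rfl

theorem gaussRho_constG (a : A) :
    helper8991.gaussRho A π (constG A π a) = algebraMap k (LaurentSeries k) (π a) := by
  have h1 : constG A π a =
      ⟨helper8991.inc A (HahnSeries.C a), helper8991.inc_mem_gaussRing A π _⟩ := by
    apply Subtype.ext
    show algebraMap L (LaurentSeries L) (a : L) = helper8991.inc A (HahnSeries.C a)
    rw [helper8991.inc_C, helper8991.C_eq_algebraMap]
  rw [h1, helper8991.gaussRho_inc, helper8991.red_C, helper8991.C_eq_algebraMap]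

/-- **(M6)** If `y` is integral over the chart `A[h]`, `h` and `y` in the Gauss ring, then the
reduction of `y` is integral over `k[h̄]`. -/
theorem isIntegralElem_gaussRho {h y : LaurentSeries L} (hh : h ∈ helper8991.gaussRing A π)
    (hy : y ∈ helper8991.gaussRing A π) (hint : (evAt A h).IsIntegralElem y) :
    (evAtK (K := k) (helper8991.gaussRho A π ⟨h, hh⟩)).IsIntegralElem
      (helper8991.gaussRho A π ⟨y, hy⟩) := by
  set φ : A[X] →+* ↥(helper8991.gaussRing A π) := eval₂RingHom (constG A π) ⟨h, hh⟩ with hφ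
  have hcomp : (helper8991.gaussRing A π).subtype.comp φ = evAt A h := by
    refine Polynomial.ringHom_ext (fun c => ?_) ?_
    · rw [RingHom.comp_apply, hφ, coe_eval₂RingHom, eval₂_C, evAt_C]
      rfl
    · rw [RingHom.comp_apply, hφ, coe_eval₂RingHom, eval₂_X, evAt_X]
      rfl
  obtain ⟨p, hp, hroot⟩ := hint
  have h1 : eval₂ φ ⟨y, hy⟩ p = 0 := by
    apply Subtype.ext
    have h0 := hom_eval₂ p φ (helper8991.gaussRing A π).subtype ⟨y, hy⟩
    rw [hcomp] at h0
    exact h0.trans hroot
  have h2 := congrArg (helper8991.gaussRho A π) h1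
  rw [hom_eval₂, map_zero] at h2
  have hψ : (helper8991.gaussRho A π).comp φ =
      (evAtK (K := k) (helper8991.gaussRho A π ⟨h, hh⟩)).comp (mapRingHom π) := by
    refine Polynomial.ringHom_ext (fun c => ?_) ?_
    · rw [RingHom.comp_apply, hφ, coe_eval₂RingHom, eval₂_C, gaussRho_constG,
        RingHom.comp_apply, coe_mapRingHom, Polynomial.map_C, evAtK_C]
    · rw [RingHom.comp_apply, hφ, coe_eval₂RingHom, eval₂_X, RingHom.comp_apply,
        coe_mapRingHom, Polynomial.map_X, evAtK_X]
  refine ⟨p.map (mapRingHom π), hp.map _, ?_⟩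
  rw [eval₂_map, ← hψ]
  exact h2

/-- **(M6)** for elements with `A`-integral expansions. -/
theorem isIntegralElem_red_of_inc {H X : LaurentSeries A}
    (hint : (evAt A (helper8991.inc A H)).IsIntegralElem (helper8991.inc A X)) :
    (evAtK (K := k) (helper8991.red A π H)).IsIntegralElem (helper8991.red A π X) := by
  have h := isIntegralElem_gaussRho A π (helper8991.inc_mem_gaussRing A π H)
    (helper8991.inc_mem_gaussRing A π X) hint
  rwa [helper8991.gaussRho_inc, helper8991.gaussRho_inc] at h

/-- The reduction of `j`. -/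
theorem gaussRho_jqModC (hj : jqModC L ∈ helper8991.gaussRing A π) :
    helper8991.gaussRho A π ⟨jqModC L, hj⟩ = jqModC k := by
  have h1 : (⟨jqModC L, hj⟩ : ↥(helper8991.gaussRing A π)) =
      ⟨helper8991.inc A (jqModC A), helper8991.inc_mem_gaussRing A π _⟩ :=
    Subtype.ext (coeffMap_jqModC _).symm
  rw [h1, helper8991.gaussRho_inc]
  exact coeffMap_jqModC _

theorem jqModC_mem_gaussRing : jqModC L ∈ helper8991.gaussRing A π := by
  have h := helper8991.inc_mem_gaussRing A π (jqModC A)
  rwa [show helper8991.inc A (jqModC A) = jqModC L from coeffMap_jqModC _] at h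

/-- **(M6), chart `A[j]`**: the reduction of an element integral over `A[j]` is integral over
`k[j̄]`. -/
theorem isIntegralElem_gaussRho_jq {y : LaurentSeries L} (hy : y ∈ helper8991.gaussRing A π)
    (hint : (evAt A (jqModC L)).IsIntegralElem y) :
    (evAtK (K := k) (jqModC k)).IsIntegralElem (helper8991.gaussRho A π ⟨y, hy⟩) := by
  have h := isIntegralElem_gaussRho A π (jqModC_mem_gaussRing A π) hy hint
  rwa [gaussRho_jqModC] at h

theorem jqModC_inv_eq_inc :
    (jqModC L)⁻¹ = helper8991.inc A (Fermat.Agent.S28.helper3292.jInvSeries A) := by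
  symm
  apply eq_inv_of_mul_eq_one_left
  have h := congrArg (helper8991.inc A) (Fermat.Agent.S28.helper3292.jInvSeries_mul_jqModC A)
  rwa [map_mul, map_one, show helper8991.inc A (jqModC A) = jqModC L from coeffMap_jqModC _] at h

theorem jqModC_inv_mem_gaussRing : (jqModC L)⁻¹ ∈ helper8991.gaussRing A π := by
  rw [jqModC_inv_eq_inc A]
  exact helper8991.inc_mem_gaussRing A π _

/-- The reduction of `1/j`. -/
theorem gaussRho_jqModC_inv (hj : (jqModC L)⁻¹ ∈ helper8991.gaussRing A π) :
    helper8991.gaussRho A π ⟨(jqModC L)⁻¹, hj⟩ = (jqModC k)⁻¹ := by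
  have h1 : (⟨(jqModC L)⁻¹, hj⟩ : ↥(helper8991.gaussRing A π)) =
      ⟨helper8991.inc A (Fermat.Agent.S28.helper3292.jInvSeries A),
        helper8991.inc_mem_gaussRing A π _⟩ :=
    Subtype.ext (jqModC_inv_eq_inc A)
  rw [h1, helper8991.gaussRho_inc]
  apply eq_inv_of_mul_eq_one_left
  have h := congrArg (helper8991.red A π) (Fermat.Agent.S28.helper3292.jInvSeries_mul_jqModC A)
  rwa [map_mul, map_one,
    show helper8991.red A π (jqModC A) = jqModC k from coeffMap_jqModC _] at h

/-- **(M6), chart `A[1/j]`**: the reduction of an element integral over `A[1/j]` is integral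
over `k[1/j̄]`. -/
theorem isIntegralElem_gaussRho_jq_inv {y : LaurentSeries L}
    (hy : y ∈ helper8991.gaussRing A π) (hint : (evAt A (jqModC L)⁻¹).IsIntegralElem y) :
    (evAtK (K := k) (jqModC k)⁻¹).IsIntegralElem (helper8991.gaussRho A π ⟨y, hy⟩) := by
  have h := isIntegralElem_gaussRho A π (jqModC_inv_mem_gaussRing A π) hy hint
  rwa [gaussRho_jqModC_inv] at h

end M6

end Fermat.Agent.Lib.helper4714
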