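import Mathlib

/-!
# The `p`-adic Tate module of an abelian group  (helper4786, leaf S30-TATE, board #1000)

Mathlib-only, geometry-free, spec-independent.  For an arbitrary abelian group `A` and a prime
`p`:

* `ptors A p n : AddSubgroup A` : the `p ^ n`-torsion `{a | p ^ n • a = 0}`;
* `tateModule A p : AddSubgroup (ℕ → A)` : compatible systems `x n ∈ A[p ^ n]`,
  `p • x (n + 1) = x n`, with `Module ℤ_[p]` (`tateModule.smul_apply`);
* `tateProj A p n : tateModule A p →+ ptors A p n`;
* `tateEnd A p : AddMonoid.End A →+* Module.End ℤ_[p] (tateModule A p)` (functoriality), and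
  the derived `tateRep A p G : G →* Module.End ℤ_[p] (tateModule A p)` for a
  `DistribMulAction G A`, `tateRingHom A p R : R →+* Module.End ℤ_[p] (tateModule A p)` for a
  `Module R A`; they commute when the actions on `A` commute (`tateRep_commute_tateRingHom`);
* transfer lemmas: `tateEnd_eq_zero_of_forall`, `tateRep_eq_one_of_forall` (trivial action on
  the `p`-power torsion), `tateRep_sub_mem_of_forall` (finite-level triviality, in the shape
  of `GaloisActionIsAdicContinuous`), `tateRep_quadratic` (quadratic relation on the torsion);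
* without any hypothesis: `tateModule.apply_eq_zero_iff_mem_maximalIdeal`
  (kernel of the `n`-th projection is `p ^ n • T`), no `p`-torsion, `p`-adically separated;
* under `hcard : ∀ n, Nat.card (ptors A p n) = p ^ (n * r)`:
  `tateProj_surjective`, `exists_tateModule_linearEquiv`
  (`(Fin r → ℤ_[p]) ≃ₗ[ℤ_[p]] tateModule A p`), `tateModule_free`, `tateModule_finite`,
  `tateModule_finrank`, `tateEnd_eq_zero_iff`.
-/

set_option autoImplicit false
set_option linter.unusedSectionVars false

namespace Fermat.Agent.Lib.helper4786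

noncomputable section

variable (A : Type*) [AddCommGroup A] (p : ℕ)

/-- The `p ^ n`-torsion subgroup `A[p ^ n]`, in the vocabulary `p ^ n • a = 0` (`ℕ`-smul). -/
def ptors (n : ℕ) : AddSubgroup A where
  carrier := {a | p ^ n • a = 0}
  zero_mem' := by simp
  add_mem' := by
    intro a b ha hb
    change p ^ n • (a + b) = 0
    rw [nsmul_add, show p ^ n • a = 0 from ha, show p ^ n • b = 0 from hb, add_zero]
  neg_mem' := by
    intro a ha
    change p ^ n • (-a) = 0
    rw [smul_neg, show p ^ n • a = 0 from ha, neg_zero]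

variable {A p} in
theorem mem_ptors {n : ℕ} {a : A} : a ∈ ptors A p n ↔ p ^ n • a = 0 := Iff.rfl

/-- The `p`-adic Tate module of an abelian group `A`: compatible systems `x n ∈ A[p ^ n]` with
`p • x (n + 1) = x n`. -/
def tateModule : AddSubgroup (ℕ → A) where
  carrier := {x | (∀ n, p ^ n • x n = 0) ∧ ∀ n, p • x (n + 1) = x n}
  zero_mem' := ⟨fun n => by simp, fun n => by simp⟩
  add_mem' := by
    rintro x y ⟨hx1, hx2⟩ ⟨hy1, hy2⟩
    refine ⟨fun n => ?_, fun n => ?_⟩
    · rw [Pi.add_apply, nsmul_add, hx1, hy1, add_zero]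
    · rw [Pi.add_apply, nsmul_add, hx2, hy2, Pi.add_apply]
  neg_mem' := by
    rintro x ⟨hx1, hx2⟩
    refine ⟨fun n => ?_, fun n => ?_⟩
    · rw [Pi.neg_apply, smul_neg, hx1, neg_zero]
    · rw [Pi.neg_apply, smul_neg, hx2, Pi.neg_apply]

variable {A p}

theorem mem_tateModule {x : ℕ → A} :
    x ∈ tateModule A p ↔ (∀ n, p ^ n • x n = 0) ∧ ∀ n, p • x (n + 1) = x n := Iff.rfl

theorem tateModule.pow_smul_apply (x : tateModule A p) (n : ℕ) : p ^ n • x.1 n = 0 := x.2.1 n

theorem tateModule.smul_apply_succ (x : tateModule A p) (n : ℕ) : p • x.1 (n + 1) = x.1 n :=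
  x.2.2 n

theorem tateModule.pow_smul_apply_add (x : tateModule A p) (n k : ℕ) :
    p ^ k • x.1 (n + k) = x.1 n := by
  induction k with
  | zero => simp
  | succ k ih =>
    rw [pow_succ, mul_smul, ← add_assoc, tateModule.smul_apply_succ, ih]

@[ext]
theorem tateModule.ext {x y : tateModule A p} (h : ∀ n, x.1 n = y.1 n) : x = y :=
  Subtype.ext (funext h)

/-- natural multiples of a `p ^ n`-torsion element only depend on the multiplier mod `p ^ n`. -/
theorem nsmul_congr_of_cast_eq {a : A} {n : ℕ} (ha : p ^ n • a = 0) {k m : ℕ}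
    (h : (k : ZMod (p ^ n)) = (m : ZMod (p ^ n))) : k • a = m • a := by
  have key : ∀ j : ℕ, j • a = (j % p ^ n) • a := by
    intro j
    conv_lhs => rw [← Nat.mod_add_div j (p ^ n)]
    rw [add_smul, mul_comm, mul_smul, ha, smul_zero, add_zero]
  rw [key k, key m, (ZMod.natCast_eq_natCast_iff' k m (p ^ n)).mp h]

section Padic

variable [Fact p.Prime]

theorem toZModPow_eq_appr (z : ℤ_[p]) (n : ℕ) :
    PadicInt.toZModPow n z = ((z.appr n : ℕ) : ZMod (p ^ n)) := rfl

theorem appr_succ_cast (z : ℤ_[p]) (n : ℕ) :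
    ((z.appr (n + 1) : ℕ) : ZMod (p ^ n)) = ((z.appr n : ℕ) : ZMod (p ^ n)) := by
  have h := PadicInt.cast_toZModPow n (n + 1) (Nat.le_succ n) z
  rw [toZModPow_eq_appr, toZModPow_eq_appr, ZMod.cast_natCast (pow_dvd_pow p (Nat.le_succ n))] at h
  exact h

instance tateModule.instSMul : SMul ℤ_[p] (tateModule A p) where
  smul z x := ⟨fun n => z.appr n • x.1 n, by
    refine ⟨fun n => ?_, fun n => ?_⟩
    · rw [smul_comm, tateModule.pow_smul_apply, smul_zero]
    · rw [smul_comm, tateModule.smul_apply_succ]
      exact nsmul_congr_of_cast_eq (tateModule.pow_smul_apply x n) (appr_succ_cast z n)⟩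

theorem tateModule.smul_apply (z : ℤ_[p]) (x : tateModule A p) (n : ℕ) :
    (z • x).1 n = z.appr n • x.1 n := rfl

instance tateModule.instModule : Module ℤ_[p] (tateModule A p) where
  one_smul x := by
    ext n
    rw [tateModule.smul_apply]
    conv_rhs => rw [← one_smul ℕ (x.1 n)]
    refine nsmul_congr_of_cast_eq (tateModule.pow_smul_apply x n) ?_
    rw [← toZModPow_eq_appr, map_one, Nat.cast_one]
  mul_smul z w x := by
    ext n
    rw [tateModule.smul_apply, tateModule.smul_apply, tateModule.smul_apply, ← mul_smul]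
    refine nsmul_congr_of_cast_eq (tateModule.pow_smul_apply x n) ?_
    rw [← toZModPow_eq_appr, map_mul, Nat.cast_mul, toZModPow_eq_appr, toZModPow_eq_appr]
  smul_zero z := by
    ext n
    rw [tateModule.smul_apply]
    exact smul_zero _
  smul_add z x y := by
    ext n
    rw [tateModule.smul_apply]
    exact smul_add _ _ _
  add_smul z w x := by
    ext n
    rw [tateModule.smul_apply]
    change _ = z.appr n • x.1 n + w.appr n • x.1 n
    rw [← add_smul]
    refine nsmul_congr_of_cast_eq (tateModule.pow_smul_apply x n) ?_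
    rw [← toZModPow_eq_appr, map_add, Nat.cast_add, toZModPow_eq_appr, toZModPow_eq_appr]
  zero_smul x := by
    ext n
    rw [tateModule.smul_apply]
    change _ = (0 : A)
    rw [← zero_smul ℕ (x.1 n)]
    refine nsmul_congr_of_cast_eq (tateModule.pow_smul_apply x n) ?_
    rw [← toZModPow_eq_appr, map_zero, Nat.cast_zero]


theorem tateModule.natCast_smul_apply (k : ℕ) (x : tateModule A p) (n : ℕ) :
    ((k : ℤ_[p]) • x).1 n = k • x.1 n := by
  rw [Nat.cast_smul_eq_nsmul]
  rfl

theorem tateModule.coe_nsmul_apply (k : ℕ) (x : tateModule A p) (n : ℕ) :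
    (k • x).1 n = k • x.1 n := rfl

theorem tateModule.coe_sum_apply {ι : Type*} (s : Finset ι) (f : ι → tateModule A p) (n : ℕ) :
    (∑ i ∈ s, f i).1 n = ∑ i ∈ s, (f i).1 n := by
  classical
  induction s using Finset.induction_on with
  | empty => simp
  | insert a s ha ih =>
    rw [Finset.sum_insert ha, Finset.sum_insert ha, ← ih]
    rfl

variable (A p) in
/-- The projection `T_p(A) → A[p ^ n]`. -/
def tateProj (n : ℕ) : tateModule A p →+ ptors A p n where
  toFun x := ⟨x.1 n, tateModule.pow_smul_apply x n⟩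
  map_zero' := rfl
  map_add' _ _ := rfl

@[simp]
theorem coe_tateProj (n : ℕ) (x : tateModule A p) : (tateProj A p n x : A) = x.1 n := rfl

variable (p) in
/-- Functoriality of the Tate module in additive endomorphisms of `A`. -/
def tateMap (f : A →+ A) : tateModule A p →ₗ[ℤ_[p]] tateModule A p where
  toFun x := ⟨fun n => f (x.1 n), by
    refine ⟨fun n => ?_, fun n => ?_⟩
    · rw [← map_nsmul, tateModule.pow_smul_apply, map_zero]
    · rw [← map_nsmul, tateModule.smul_apply_succ]⟩
  map_add' x y := by
    ext n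
    exact map_add f _ _
  map_smul' z x := by
    ext n
    exact map_nsmul f _ _

@[simp]
theorem tateMap_apply (f : A →+ A) (x : tateModule A p) (n : ℕ) :
    (tateMap p f x).1 n = f (x.1 n) := rfl

theorem coe_tateProj_tateMap (f : A →+ A) (x : tateModule A p) (n : ℕ) :
    (tateProj A p n (tateMap p f x) : A) = f (tateProj A p n x : A) := rfl

variable (A p) in
/-- The Tate module functor on endomorphisms, as a ring homomorphism
`End(A) → End_{ℤ_p}(T_p A)`. -/
def tateEnd : AddMonoid.End A →+* Module.End ℤ_[p] (tateModule A p) where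
  toFun f := tateMap p f
  map_one' := by
    ext x n
    rfl
  map_mul' f g := by
    ext x n
    rfl
  map_zero' := by
    ext x n
    rfl
  map_add' f g := by
    ext x n
    rfl

@[simp]
theorem tateEnd_apply_apply (f : AddMonoid.End A) (x : tateModule A p) (n : ℕ) :
    (tateEnd A p f x).1 n = f (x.1 n) := rfl

/-- An endomorphism killing the `p`-power torsion of `A` acts as zero on the Tate module. -/
theorem tateEnd_eq_zero_of_forall (f : AddMonoid.End A)
    (hf : ∀ a : A, (∃ n : ℕ, p ^ n • a = 0) → f a = 0) : tateEnd A p f = 0 := by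
  ext x n
  exact hf _ ⟨n, tateModule.pow_smul_apply x n⟩

/-- An endomorphism fixing the `p`-power torsion of `A` acts as the identity on the Tate
module. -/
theorem tateEnd_eq_one_of_forall (f : AddMonoid.End A)
    (hf : ∀ a : A, (∃ n : ℕ, p ^ n • a = 0) → f a = a) : tateEnd A p f = 1 := by
  ext x n
  exact hf _ ⟨n, tateModule.pow_smul_apply x n⟩

/-- Shift of a compatible system whose `n`-th term vanishes. -/
theorem tateModule.exists_eq_pow_smul_of_apply_eq_zero (x : tateModule A p) (n : ℕ)
    (hx : x.1 n = 0) : ∃ y : tateModule A p, x = (p : ℤ_[p]) ^ n • y := by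
  refine ⟨⟨fun k => x.1 (n + k), ⟨fun k => ?_, fun k => ?_⟩⟩, ?_⟩
  · have h := tateModule.pow_smul_apply_add x n k
    rw [hx] at h
    exact h
  · exact tateModule.smul_apply_succ x (n + k)
  · ext k
    rw [← Nat.cast_pow, tateModule.natCast_smul_apply]
    change x.1 k = p ^ n • x.1 (n + k)
    rw [add_comm, tateModule.pow_smul_apply_add]

theorem tateModule.pow_smul_apply_self (y : tateModule A p) (n : ℕ) :
    (((p : ℤ_[p]) ^ n • y : tateModule A p)).1 n = 0 := by
  rw [← Nat.cast_pow, tateModule.natCast_smul_apply, tateModule.pow_smul_apply]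

/-- The kernel of the projection to level `n` is `p ^ n • T`. -/
theorem tateModule.apply_eq_zero_iff (x : tateModule A p) (n : ℕ) :
    x.1 n = 0 ↔ ∃ y : tateModule A p, x = (p : ℤ_[p]) ^ n • y := by
  constructor
  · exact tateModule.exists_eq_pow_smul_of_apply_eq_zero x n
  · rintro ⟨y, rfl⟩
    exact tateModule.pow_smul_apply_self y n

theorem tateModule.apply_eq_zero_iff_mem (x : tateModule A p) (n : ℕ) :
    x.1 n = 0 ↔
      x ∈ (Ideal.span {(p : ℤ_[p])} ^ n) • (⊤ : Submodule ℤ_[p] (tateModule A p)) := by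
  rw [tateModule.apply_eq_zero_iff, Ideal.span_singleton_pow, Submodule.ideal_span_singleton_smul,
    Submodule.mem_smul_pointwise_iff_exists]
  constructor
  · rintro ⟨y, rfl⟩
    exact ⟨y, Submodule.mem_top, rfl⟩
  · rintro ⟨y, -, rfl⟩
    exact ⟨y, rfl⟩

theorem tateModule.apply_eq_zero_iff_mem_maximalIdeal (x : tateModule A p) (n : ℕ) :
    x.1 n = 0 ↔
      x ∈ (IsLocalRing.maximalIdeal ℤ_[p] ^ n) • (⊤ : Submodule ℤ_[p] (tateModule A p)) := by
  rw [PadicInt.maximalIdeal_eq_span_p]
  exact tateModule.apply_eq_zero_iff_mem x n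

/-- Finite-level triviality: an endomorphism which is the identity on `A[p ^ n]` is congruent
to the identity on `T_p(A)` modulo `p ^ n` (the shape of `GaloisActionIsAdicContinuous`). -/
theorem tateEnd_sub_mem_of_forall (f : AddMonoid.End A) (n : ℕ)
    (hf : ∀ a : A, p ^ n • a = 0 → f a = a) (x : tateModule A p) :
    tateEnd A p f x - x ∈
      (IsLocalRing.maximalIdeal ℤ_[p] ^ n) • (⊤ : Submodule ℤ_[p] (tateModule A p)) := by
  rw [← tateModule.apply_eq_zero_iff_mem_maximalIdeal]
  change f (x.1 n) - x.1 n = 0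
  rw [hf _ (tateModule.pow_smul_apply x n), sub_self]

/-- The Tate module has no `p`-torsion. -/
theorem tateModule.eq_zero_of_p_smul_eq_zero (x : tateModule A p)
    (hx : (p : ℤ_[p]) • x = 0) : x = 0 := by
  ext n
  have h : (((p : ℤ_[p]) • x : tateModule A p)).1 (n + 1) = (0 : tateModule A p).1 (n + 1) := by
    rw [hx]
  rw [tateModule.natCast_smul_apply, tateModule.smul_apply_succ] at h
  exact h

/-- The Tate module is `p`-adically separated. -/
theorem tateModule.eq_zero_of_forall_mem (x : tateModule A p)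
    (hx : ∀ n : ℕ, x ∈
      (IsLocalRing.maximalIdeal ℤ_[p] ^ n) • (⊤ : Submodule ℤ_[p] (tateModule A p))) : x = 0 := by
  ext n
  exact (tateModule.apply_eq_zero_iff_mem_maximalIdeal x n).mpr (hx n)


/-! ## Structure under the cardinality hypothesis `#A[p ^ n] = p ^ (n * r)` -/

variable (A p) in
/-- Multiplication by `p` from `A[p ^ (n + 1)]` to `A[p ^ n]`. -/
def ptorsSucc (n : ℕ) : ptors A p (n + 1) →+ ptors A p n where
  toFun c := ⟨p • c.1, by
    have hc : p ^ (n + 1) • (c : A) = 0 := c.2
    change p ^ n • p • (c : A) = 0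
    rw [← mul_smul, ← pow_succ]
    exact hc⟩
  map_zero' := by
    ext
    exact smul_zero _
  map_add' a b := by
    ext
    exact smul_add _ _ _

@[simp]
theorem coe_ptorsSucc (n : ℕ) (c : ptors A p (n + 1)) : (ptorsSucc A p n c : A) = p • (c : A) :=
  rfl

section Card

variable {r : ℕ} (hcard : ∀ n : ℕ, Nat.card (ptors A p n) = p ^ (n * r))

include hcard

theorem finite_ptors (n : ℕ) : Finite (ptors A p n) :=
  Nat.finite_of_card_ne_zero (by
    rw [hcard n]
    exact (pow_pos (Fact.out : p.Prime).pos _).ne')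

theorem ptorsSucc_surjective (n : ℕ) : Function.Surjective (ptorsSucc A p n) := by
  have := finite_ptors hcard (n + 1)
  have := finite_ptors hcard n
  have := finite_ptors hcard 1
  apply AddMonoidHom.surjective_of_card_ker_le_div
  rw [hcard, hcard]
  have h1 : Nat.card (ptorsSucc A p n).ker ≤ Nat.card (ptors A p 1) := by
    refine Nat.card_le_card_of_injective
      (fun c => (⟨(c.1 : A), ?_⟩ : ptors A p 1)) ?_
    · have hc : ptorsSucc A p n c.1 = 0 := c.2
      have hc' : p • (c.1 : A) = 0 := congrArg Subtype.val hc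
      change p ^ 1 • (c.1 : A) = 0
      rw [pow_one]
      exact hc'
    · intro c d h
      have h' : (c.1 : A) = (d.1 : A) := congrArg (fun z : ptors A p 1 => (z : A)) h
      exact Subtype.ext (Subtype.ext h')
  rw [hcard 1, one_mul] at h1
  have h2 : p ^ ((n + 1) * r) / p ^ (n * r) = p ^ r := by
    rw [add_mul, one_mul, pow_add, Nat.mul_div_cancel_left _ (pow_pos (Fact.out : p.Prime).pos _)]
  rw [h2]
  exact h1

/-- Every `p ^ n`-torsion element is the `n`-th term of a compatible system. -/
theorem exists_tateModule_apply_eq (n : ℕ) (a : A) (ha : p ^ n • a = 0) :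
    ∃ x : tateModule A p, x.1 n = a := by
  have hs : ∀ (k : ℕ) (b : A), p ^ k • b = 0 → ∃ c : A, p ^ (k + 1) • c = 0 ∧ p • c = b := by
    intro k b hb
    obtain ⟨c, hc⟩ := ptorsSucc_surjective hcard k ⟨b, hb⟩
    exact ⟨c.1, c.2, congrArg Subtype.val hc⟩
  choose! g hg1 hg2 using hs
  let y : ℕ → A := fun k => Nat.rec a (fun k b => g (n + k) b) k
  have hys : ∀ k, y (k + 1) = g (n + k) (y k) := fun k => rfl
  have hy1 : ∀ k, p ^ (n + k) • y k = 0 := by
    intro k
    induction k with
    | zero => exact ha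
    | succ k ih =>
      rw [hys, ← add_assoc]
      exact hg1 _ _ ih
  have hy2 : ∀ k, p • y (k + 1) = y k := fun k => by
    rw [hys]
    exact hg2 _ _ (hy1 k)
  have hy3 : ∀ k, p ^ k • y k = a := by
    intro k
    induction k with
    | zero => exact one_smul _ _
    | succ k ih => rw [pow_succ, mul_smul, hy2, ih]
  refine ⟨⟨fun m => p ^ n • y m, ⟨fun m => ?_, fun m => ?_⟩⟩, hy3 n⟩
  · rw [← mul_smul, ← pow_add, add_comm]
    exact hy1 m
  · rw [smul_comm, hy2]

theorem tateProj_surjective (n : ℕ) : Function.Surjective (tateProj A p n) := by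
  rintro ⟨a, ha⟩
  obtain ⟨x, hx⟩ := exists_tateModule_apply_eq hcard n a ha
  exact ⟨x, Subtype.ext hx⟩

/-- Under the cardinality hypothesis, the Tate module functor is faithful on the `p`-power
torsion. -/
theorem tateEnd_eq_zero_iff (f : AddMonoid.End A) :
    tateEnd A p f = 0 ↔ ∀ a : A, (∃ n : ℕ, p ^ n • a = 0) → f a = 0 := by
  refine ⟨fun h a ha => ?_, tateEnd_eq_zero_of_forall f⟩
  obtain ⟨n, hn⟩ := ha
  obtain ⟨x, rfl⟩ := exists_tateModule_apply_eq hcard n a hn
  have h' : (tateEnd A p f x).1 n = (0 : tateModule A p).1 n := by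
    rw [h]
    rfl
  exact h'

end Card

/-- A finite abelian group killed by `p` of order `p ^ r` has `r` generators. -/
theorem exists_nat_basis_of_card {r : ℕ} {V : Type*} [AddCommGroup V]
    (hV : ∀ v : V, p • v = 0) (hc : Nat.card V = p ^ r) :
    ∃ b : Fin r → V, ∀ v : V, ∃ d : Fin r → ℕ, v = ∑ i, d i • b i := by
  have inst : Module (ZMod p) V := AddCommGroup.zmodModule hV
  have hfin : Finite V := Nat.finite_of_card_ne_zero (by
    rw [hc]
    exact (pow_pos (Fact.out : p.Prime).pos _).ne')
  have hmf : Module.Finite (ZMod p) V := Module.Finite.of_finite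
  have hfr : Module.finrank (ZMod p) V = r := by
    have h : Nat.card V = Nat.card (ZMod p) ^ Module.finrank (ZMod p) V :=
      Module.natCard_eq_pow_finrank
    rw [hc, Nat.card_zmod] at h
    exact (Nat.pow_right_injective (Fact.out : p.Prime).two_le h).symm
  let b : Module.Basis (Fin r) (ZMod p) V := Module.finBasisOfFinrankEq (ZMod p) V hfr
  refine ⟨fun i => b i, fun v => ⟨fun i => (b.repr v i).val, ?_⟩⟩
  conv_lhs => rw [← b.sum_repr v]
  refine Finset.sum_congr rfl fun i _ => ?_
  conv_lhs => rw [← ZMod.natCast_zmod_val (b.repr v i)]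
  exact Nat.cast_smul_eq_nsmul (ZMod p) _ _

/-! ## A basis -/

/-- The level-`n` combination map with coefficients in `ZMod (p ^ n)`. -/
def levelComb {r : ℕ} (X : Fin r → tateModule A p) (n : ℕ) (c : Fin r → ZMod (p ^ n)) :
    ptors A p n :=
  ⟨∑ i, (c i).val • (X i).1 n, by
    change p ^ n • ∑ i, (c i).val • (X i).1 n = 0
    rw [Finset.smul_sum]
    refine Finset.sum_eq_zero fun i _ => ?_
    rw [smul_comm, tateModule.pow_smul_apply, smul_zero]⟩

theorem coe_levelComb {r : ℕ} (X : Fin r → tateModule A p) (n : ℕ) (c : Fin r → ZMod (p ^ n)) :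
    (levelComb X n c : A) = ∑ i, (c i).val • (X i).1 n := rfl

theorem val_natCast_nsmul (x : tateModule A p) (n k : ℕ) :
    ((k : ZMod (p ^ n))).val • x.1 n = k • x.1 n := by
  have : NeZero (p ^ n) := ⟨pow_ne_zero _ (Fact.out : p.Prime).ne_zero⟩
  exact nsmul_congr_of_cast_eq (tateModule.pow_smul_apply x n) (ZMod.natCast_zmod_val _)

theorem coe_levelComb_natCast {r : ℕ} (X : Fin r → tateModule A p) (n : ℕ) (c : Fin r → ℕ) :
    (levelComb X n (fun i => (c i : ZMod (p ^ n))) : A) = ∑ i, c i • (X i).1 n := by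
  rw [coe_levelComb]
  exact Finset.sum_congr rfl fun i _ => val_natCast_nsmul (X i) n (c i)

section Basis

variable {r : ℕ} (hcard : ∀ n : ℕ, Nat.card (ptors A p n) = p ^ (n * r))

include hcard

theorem exists_lift_basis : ∃ X : Fin r → tateModule A p,
    ∀ a : A, p • a = 0 → ∃ d : Fin r → ℕ, a = ∑ i, d i • (X i).1 1 := by
  have hV : ∀ v : ptors A p 1, p • v = 0 := fun v => Subtype.ext (by
    have hv : p ^ 1 • (v : A) = 0 := v.2
    rw [pow_one] at hv
    exact hv)
  have hc1 : Nat.card (ptors A p 1) = p ^ r := by rw [hcard 1, one_mul]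
  obtain ⟨b, hb⟩ := exists_nat_basis_of_card hV hc1
  have hX : ∀ i, ∃ x : tateModule A p, x.1 1 = (b i : A) := fun i =>
    exists_tateModule_apply_eq hcard 1 (b i : A) (b i).2
  choose X hX using hX
  refine ⟨X, fun a ha => ?_⟩
  have ha' : a ∈ ptors A p 1 := by
    change p ^ 1 • a = 0
    rw [pow_one]
    exact ha
  obtain ⟨d, hd⟩ := hb ⟨a, ha'⟩
  refine ⟨d, ?_⟩
  have h2 : a = ((∑ i, d i • b i : ptors A p 1) : A) := by
    rw [← hd]
  rw [h2, ← AddSubgroup.subtype_apply, map_sum]
  refine Finset.sum_congr rfl fun i _ => ?_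
  rw [hX i, map_nsmul, AddSubgroup.subtype_apply]

theorem exists_nat_comb (X : Fin r → tateModule A p)
    (hX : ∀ a : A, p • a = 0 → ∃ d : Fin r → ℕ, a = ∑ i, d i • (X i).1 1) (n : ℕ) :
    ∀ a : A, p ^ n • a = 0 → ∃ c : Fin r → ℕ, a = ∑ i, c i • (X i).1 n := by
  induction n with
  | zero =>
    intro a ha
    rw [pow_zero, one_smul] at ha
    refine ⟨fun _ => 0, ?_⟩
    rw [ha]
    simp
  | succ n ih =>
    intro a ha
    have hpa : p ^ n • (p • a) = 0 := by
      rw [← mul_smul, ← pow_succ]
      exact ha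
    obtain ⟨c, hc⟩ := ih (p • a) hpa
    have ha' : p • (a - ∑ i, c i • (X i).1 (n + 1)) = 0 := by
      rw [smul_sub, Finset.smul_sum, hc, sub_eq_zero]
      refine Finset.sum_congr rfl fun i _ => ?_
      rw [smul_comm, tateModule.smul_apply_succ]
    obtain ⟨d, hd⟩ := hX _ ha'
    refine ⟨fun i => c i + d i * p ^ n, ?_⟩
    have h1 : ∀ i, (X i).1 1 = p ^ n • (X i).1 (n + 1) := fun i => by
      rw [add_comm n 1, tateModule.pow_smul_apply_add]
    rw [sub_eq_iff_eq_add] at hd
    rw [hd, ← Finset.sum_add_distrib]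
    refine Finset.sum_congr rfl fun i _ => ?_
    rw [add_smul, mul_smul, h1 i, add_comm]

theorem levelComb_bijective (X : Fin r → tateModule A p)
    (hX : ∀ a : A, p • a = 0 → ∃ d : Fin r → ℕ, a = ∑ i, d i • (X i).1 1) (n : ℕ) :
    Function.Bijective (levelComb X n) := by
  have hp : p.Prime := Fact.out
  have : NeZero (p ^ n) := ⟨pow_ne_zero _ hp.ne_zero⟩
  have hsurj : Function.Surjective (levelComb X n) := by
    rintro ⟨a, ha⟩
    obtain ⟨c, hc⟩ := exists_nat_comb hcard X hX n a ha
    refine ⟨fun i => (c i : ZMod (p ^ n)), Subtype.ext ?_⟩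
    exact (coe_levelComb_natCast X n c).trans hc.symm
  refine hsurj.bijective_of_nat_card_le ?_
  rw [hcard n, Nat.card_fun, Nat.card_zmod, Nat.card_fin, pow_mul]

end Basis

/-! ## Freeness -/

theorem sum_smul_apply {r : ℕ} (X : Fin r → tateModule A p) (z : Fin r → ℤ_[p]) (n : ℕ) :
    (∑ i, z i • X i : tateModule A p).1 n =
      (levelComb X n (fun i => PadicInt.toZModPow n (z i)) : A) := by
  have : NeZero (p ^ n) := ⟨pow_ne_zero _ (Fact.out : p.Prime).ne_zero⟩
  rw [tateModule.coe_sum_apply, coe_levelComb]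
  refine Finset.sum_congr rfl fun i _ => ?_
  rw [tateModule.smul_apply]
  refine nsmul_congr_of_cast_eq (tateModule.pow_smul_apply (X i) n) ?_
  rw [ZMod.natCast_zmod_val, toZModPow_eq_appr]

section Free

variable {r : ℕ} (hcard : ∀ n : ℕ, Nat.card (ptors A p n) = p ^ (n * r))

include hcard

theorem sum_smul_bijective (X : Fin r → tateModule A p)
    (hX : ∀ a : A, p • a = 0 → ∃ d : Fin r → ℕ, a = ∑ i, d i • (X i).1 1) :
    Function.Bijective (fun z : Fin r → ℤ_[p] => ∑ i, z i • X i) := by
  have hp : p.Prime := Fact.out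
  constructor
  · intro z w h
    funext i
    rw [← PadicInt.ext_of_toZModPow]
    intro n
    have h1 : levelComb X n (fun i => PadicInt.toZModPow n (z i)) =
        levelComb X n (fun i => PadicInt.toZModPow n (w i)) := by
      apply Subtype.ext
      rw [← sum_smul_apply, ← sum_smul_apply]
      exact congrArg (fun y : tateModule A p => y.1 n) h
    exact congrFun ((levelComb_bijective hcard X hX n).1 h1) i
  · intro t
    have hc : ∀ n, ∃ c : Fin r → ZMod (p ^ n), levelComb X n c = tateProj A p n t :=
      fun n => (levelComb_bijective hcard X hX n).2 _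
    choose c hc using hc
    have hc' : ∀ n, ∑ i, (c n i).val • (X i).1 n = t.1 n := fun n => by
      have h := congrArg (fun v : ptors A p n => (v : A)) (hc n)
      exact h
    have hcompat : ∀ n i, ((c (n + 1) i).val : ZMod (p ^ n)) = c n i := by
      intro n i
      have h1 : levelComb X n (fun i => ((c (n + 1) i).val : ZMod (p ^ n))) =
          levelComb X n (c n) := by
        apply Subtype.ext
        rw [coe_levelComb_natCast]
        change _ = ∑ i, (c n i).val • (X i).1 n
        rw [hc' n, ← tateModule.smul_apply_succ t n, ← hc' (n + 1), Finset.smul_sum]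
        refine Finset.sum_congr rfl fun i _ => ?_
        rw [smul_comm, tateModule.smul_apply_succ]
      exact congrFun ((levelComb_bijective hcard X hX n).1 h1) i
    let f : Fin r → ℕ → ℤ := fun i n => ((c n i).val : ℤ)
    have hf : ∀ i n, (p : ℤ) ^ n ∣ f i (n + 1) - f i n := by
      intro i n
      have hn : NeZero (p ^ n) := ⟨pow_ne_zero _ hp.ne_zero⟩
      have h3 : ((f i n : ℤ) : ZMod (p ^ n)) = ((f i (n + 1) : ℤ) : ZMod (p ^ n)) := by
        change (((c n i).val : ℤ) : ZMod (p ^ n)) = (((c (n + 1) i).val : ℤ) : ZMod (p ^ n))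
        rw [Int.cast_natCast, Int.cast_natCast, hcompat n i, ZMod.natCast_zmod_val]
      have h4 := (ZMod.intCast_eq_intCast_iff_dvd_sub _ _ _).mp h3
      rw [Nat.cast_pow] at h4
      exact h4
    let z : Fin r → ℤ_[p] := fun i =>
      PadicInt.ofIntSeq (f i) (PadicInt.isCauSeq_padicNorm_of_pow_dvd_sub (f i) p (hf i))
    have hz : ∀ i n, PadicInt.toZModPow n (z i) = c n i := by
      intro i n
      have hn : NeZero (p ^ n) := ⟨pow_ne_zero _ hp.ne_zero⟩
      have h := PadicInt.toZModPow_ofIntSeq_of_pow_dvd_sub (f i) p (hf i) n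
      change PadicInt.toZModPow n (z i) = (((c n i).val : ℤ) : ZMod (p ^ n)) at h
      rw [h, Int.cast_natCast, ZMod.natCast_zmod_val]
    refine ⟨z, ?_⟩
    apply tateModule.ext
    intro n
    change (∑ i, z i • X i : tateModule A p).1 n = t.1 n
    rw [sum_smul_apply]
    have h5 : (fun i => PadicInt.toZModPow n (z i)) = c n := funext fun i => hz i n
    rw [h5, hc n]
    rfl

/-- **Structure of the Tate module.** If `#A[p ^ n] = p ^ (n * r)` for all `n`, then `T_p(A)` is
a free `ℤ_p`-module of rank `r`. -/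
theorem exists_tateModule_linearEquiv :
    Nonempty ((Fin r → ℤ_[p]) ≃ₗ[ℤ_[p]] tateModule A p) := by
  obtain ⟨X, hX⟩ := exists_lift_basis hcard
  have hbij := sum_smul_bijective hcard X hX
  refine ⟨LinearEquiv.ofBijective (Fintype.linearCombination ℤ_[p] X) ?_⟩
  have h : ⇑(Fintype.linearCombination ℤ_[p] X) = fun z : Fin r → ℤ_[p] => ∑ i, z i • X i := by
    funext z
    exact Fintype.linearCombination_apply ℤ_[p] X z
  rw [h]
  exact hbij

theorem tateModule_free : Module.Free ℤ_[p] (tateModule A p) := by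
  obtain ⟨e⟩ := exists_tateModule_linearEquiv hcard
  exact Module.Free.of_equiv e

theorem tateModule_finite : Module.Finite ℤ_[p] (tateModule A p) := by
  obtain ⟨e⟩ := exists_tateModule_linearEquiv hcard
  exact Module.Finite.equiv e

theorem tateModule_finrank : Module.finrank ℤ_[p] (tateModule A p) = r := by
  obtain ⟨e⟩ := exists_tateModule_linearEquiv hcard
  rw [← e.finrank_eq, Module.finrank_fin_fun]

end Free

/-! ## Actions: representations of a group and of a coefficient ring on the Tate module -/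

section Actions

variable (A p)

/-- The representation on `T_p(A)` induced by a distributive action on `A`. -/
def tateRep (G : Type*) [Monoid G] [DistribMulAction G A] :
    G →* Module.End ℤ_[p] (tateModule A p) :=
  (tateEnd A p).toMonoidHom.comp (DistribMulAction.toAddMonoidEnd G A)

/-- The ring action on `T_p(A)` induced by a module structure on `A` (e.g. Hecke operators). -/
def tateRingHom (R : Type*) [Semiring R] [Module R A] :
    R →+* Module.End ℤ_[p] (tateModule A p) :=
  (tateEnd A p).comp (Module.toAddMonoidEnd R A)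

variable {A p}

@[simp]
theorem tateRep_apply_apply {G : Type*} [Monoid G] [DistribMulAction G A] (g : G)
    (x : tateModule A p) (n : ℕ) : (tateRep A p G g x).1 n = g • x.1 n := rfl

@[simp]
theorem tateRingHom_apply_apply {R : Type*} [Semiring R] [Module R A] (a : R)
    (x : tateModule A p) (n : ℕ) : (tateRingHom A p R a x).1 n = a • x.1 n := rfl

theorem tateModule.natCast_end_apply (k : ℕ) (x : tateModule A p) (n : ℕ) :
    ((k : Module.End ℤ_[p] (tateModule A p)) x).1 n = k • x.1 n := by
  rw [Module.End.natCast_apply]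
  rfl

theorem tateRep_commute_tateRingHom {G : Type*} [Monoid G] [DistribMulAction G A]
    {R : Type*} [Semiring R] [Module R A] [SMulCommClass G R A] (g : G) (a : R) :
    Commute (tateRep A p G g) (tateRingHom A p R a) := by
  change tateRep A p G g * tateRingHom A p R a = tateRingHom A p R a * tateRep A p G g
  ext x n
  exact smul_comm g a (x.1 n)

theorem tateRingHom_commute {R : Type*} [CommSemiring R] [Module R A] (a b : R) :
    Commute (tateRingHom A p R a) (tateRingHom A p R b) := by
  change tateRingHom A p R a * tateRingHom A p R b = tateRingHom A p R b * tateRingHom A p R a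
  rw [← map_mul, ← map_mul, mul_comm]

/-- Trivial action on the `p`-power torsion gives the trivial action on the Tate module
(the shape of `UnramifiedOutside` / `IsUnramifiedAt`). -/
theorem tateRep_eq_one_of_forall {G : Type*} [Monoid G] [DistribMulAction G A] (g : G)
    (hg : ∀ a : A, (∃ n : ℕ, p ^ n • a = 0) → g • a = a) : tateRep A p G g = 1 := by
  ext x n
  exact hg _ ⟨n, tateModule.pow_smul_apply x n⟩

/-- Finite-level triviality (the shape of `GaloisActionIsAdicContinuous`). -/
theorem tateRep_sub_mem_of_forall {G : Type*} [Monoid G] [DistribMulAction G A] (g : G) (n : ℕ)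
    (hg : ∀ a : A, p ^ n • a = 0 → g • a = a) (x : tateModule A p) :
    tateRep A p G g x - x ∈
      (IsLocalRing.maximalIdeal ℤ_[p] ^ n) • (⊤ : Submodule ℤ_[p] (tateModule A p)) :=
  tateEnd_sub_mem_of_forall (DistribMulAction.toAddMonoidEnd G A g) n hg x

/-- A quadratic relation on the `p`-power torsion (the shape of `FrobeniusQuadratic`) passes to
the Tate module. -/
theorem tateRep_quadratic {G : Type*} [Monoid G] [DistribMulAction G A]
    {R : Type*} [Semiring R] [Module R A] (g : G) (T : R) (ℓ : ℕ)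
    (h : ∀ a : A, (∃ n : ℕ, p ^ n • a = 0) → g • g • a - T • (g • a) + ℓ • a = 0) :
    tateRep A p G g * tateRep A p G g - tateRingHom A p R T * tateRep A p G g
      + (ℓ : Module.End ℤ_[p] (tateModule A p)) = 0 := by
  ext x n
  have h1 := h (x.1 n) ⟨n, tateModule.pow_smul_apply x n⟩
  have h2 : ((tateRep A p G g * tateRep A p G g - tateRingHom A p R T * tateRep A p G g
      + (ℓ : Module.End ℤ_[p] (tateModule A p))) x).1 n
      = g • g • x.1 n - T • (g • x.1 n) + ℓ • x.1 n := by
    rw [LinearMap.add_apply, LinearMap.sub_apply]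
    change (_ - _ : A) + ((ℓ : Module.End ℤ_[p] (tateModule A p)) x).1 n = _
    rw [tateModule.natCast_end_apply]
    rfl
  rw [h2, h1]
  rfl

end Actions

/-- The hypothesis of the structure theorems in subtype form. -/
theorem card_ptors_eq (A : Type*) [AddCommGroup A] (p n : ℕ) :
    Nat.card (ptors A p n) = Nat.card {a : A // p ^ n • a = 0} := rfl

end Padic

end

end Fermat.Agent.Lib.helper4786
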