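import Mathlib

/-!
# Entire functions of polynomial growth are polynomials (helper5074)

Mathlib-only brick (S27 E1 chain-connectedness: symmetric functions of the sheets of a
clopen piece are holomorphic off a finite set, locally bounded near it, of polynomial growth,
hence polynomials).

* `exists_polynomial_of_entire_of_growth` : `f` entire, `‖f z‖ ≤ C * ‖z‖ ^ n` for `R ≤ ‖z‖`
  ⟹ `f = P.eval` with `P.natDegree ≤ n`.
* `exists_polynomial_of_differentiableOn_compl_finite` : the same for `f` holomorphic on the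
  complement of a finite set `S`, bounded near every point of `S` (removable singularities).
-/

set_option autoImplicit false

namespace Fermat.Agent.Lib.helper5074

open Complex Metric Set Filter Topology Polynomial

/-- Cauchy estimate at the origin: under polynomial growth of order `n`, all Taylor
coefficients of index `> n` vanish. -/
theorem iteratedDeriv_eq_zero_of_growth {f : ℂ → ℂ} (hf : Differentiable ℂ f)
    {C R : ℝ} {n : ℕ} (hg : ∀ z : ℂ, R ≤ ‖z‖ → ‖f z‖ ≤ C * ‖z‖ ^ n)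
    {m : ℕ} (hm : n < m) : iteratedDeriv m f 0 = 0 := by
  have hbound : ∀ᶠ ρ : ℝ in atTop,
      ‖iteratedDeriv m f 0‖ ≤ (m.factorial * |C|) / ρ := by
    filter_upwards [eventually_ge_atTop (max R 1)] with ρ hρ
    have hρR : R ≤ ρ := le_trans (le_max_left _ _) hρ
    have hρ1 : (1 : ℝ) ≤ ρ := le_trans (le_max_right _ _) hρ
    have hρ0 : 0 < ρ := lt_of_lt_of_le one_pos hρ1
    have hsph : ∀ z ∈ sphere (0 : ℂ) ρ, ‖f z‖ ≤ |C| * ρ ^ n := by
      intro z hz
      have hzn : ‖z‖ = ρ := by simpa using hz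
      calc ‖f z‖ ≤ C * ‖z‖ ^ n := hg z (by rw [hzn]; exact hρR)
        _ ≤ |C| * ρ ^ n := by
          rw [hzn]
          exact mul_le_mul_of_nonneg_right (le_abs_self C) (by positivity)
    have h1 := norm_iteratedDeriv_le_of_forall_mem_sphere_norm_le (c := (0 : ℂ)) m hρ0
      hf.diffContOnCl hsph
    refine h1.trans ?_
    have hpow : ρ ^ (n + 1) ≤ ρ ^ m := pow_le_pow_right₀ hρ1 hm
    rw [div_le_div_iff₀ (by positivity) hρ0]
    have hC : 0 ≤ (m.factorial : ℝ) * |C| := by positivity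
    calc (m.factorial : ℝ) * (|C| * ρ ^ n) * ρ
        = (m.factorial * |C|) * ρ ^ (n + 1) := by ring
      _ ≤ (m.factorial * |C|) * ρ ^ m := mul_le_mul_of_nonneg_left hpow hC
  have hlim : Tendsto (fun ρ : ℝ => (m.factorial * |C|) / ρ) atTop (𝓝 0) :=
    tendsto_const_nhds.div_atTop tendsto_id
  have h0 : ‖iteratedDeriv m f 0‖ ≤ 0 := ge_of_tendsto hlim hbound
  exact norm_le_zero_iff.mp h0

/-- **Liouville with polynomial growth.** An entire function with `‖f z‖ ≤ C * ‖z‖ ^ n`
outside a ball is a polynomial of degree at most `n`. -/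
theorem exists_polynomial_of_entire_of_growth {f : ℂ → ℂ} (hf : Differentiable ℂ f)
    {C R : ℝ} {n : ℕ} (hg : ∀ z : ℂ, R ≤ ‖z‖ → ‖f z‖ ≤ C * ‖z‖ ^ n) :
    ∃ P : Polynomial ℂ, P.natDegree ≤ n ∧ ∀ z, f z = P.eval z := by
  refine ⟨∑ k ∈ Finset.range (n + 1),
      Polynomial.C ((k.factorial : ℂ)⁻¹ * iteratedDeriv k f 0) * Polynomial.X ^ k, ?_, ?_⟩
  · refine Polynomial.natDegree_sum_le_of_forall_le _ _ ?_
    intro k hk
    exact (Polynomial.natDegree_C_mul_X_pow_le _ _).trans
      (Nat.lt_succ_iff.mp (Finset.mem_range.mp hk))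
  · intro z
    have ht := Complex.taylorSeries_eq_of_entire' (c := 0) (z := z) hf
    rw [tsum_eq_sum (s := Finset.range (n + 1))] at ht
    · rw [← ht, Polynomial.eval_finsetSum]
      refine Finset.sum_congr rfl ?_
      intro k _
      simp [sub_zero]
    · intro k hk
      have hk' : n < k := by
        by_contra h
        exact hk (Finset.mem_range.mpr (Nat.lt_succ_of_le (not_lt.mp h)))
      rw [iteratedDeriv_eq_zero_of_growth hf hg hk']
      simp

/-- **Removable singularities + polynomial growth.** A function holomorphic on the complement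
of a finite set `S`, bounded near every point of `S`, and with `‖f z‖ ≤ C * ‖z‖ ^ n` for
`R ≤ ‖z‖`, agrees off `S` with a polynomial of degree at most `n`. -/
theorem exists_polynomial_of_differentiableOn_compl_finite {f : ℂ → ℂ} {S : Set ℂ}
    (hS : S.Finite) (hf : DifferentiableOn ℂ f Sᶜ)
    (hb : ∀ s ∈ S, ∃ r > 0, ∃ M : ℝ, ∀ z, z ∉ S → dist z s < r → ‖f z‖ ≤ M)
    {C R : ℝ} {n : ℕ} (hg : ∀ z : ℂ, z ∉ S → R ≤ ‖z‖ → ‖f z‖ ≤ C * ‖z‖ ^ n) :
    ∃ P : Polynomial ℂ, P.natDegree ≤ n ∧ ∀ z, z ∉ S → f z = P.eval z := by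
  classical
  set g : ℂ → ℂ := fun z => if z ∈ S then limUnder (𝓝[≠] z) f else f z with hgdef
  have hgf : ∀ z, z ∉ S → g z = f z := fun z hz => by simp [hgdef, hz]
  have hScl : IsClosed S := hS.isClosed
  have hgdiff : Differentiable ℂ g := by
    intro c
    by_cases hc : c ∈ S
    · obtain ⟨r, hr, M, hM⟩ := hb c hc
      have hS' : IsClosed (S \ {c}) := (hS.subset sdiff_subset).isClosed
      have hU : ball c r ∩ (S \ {c})ᶜ ∈ 𝓝 c :=
        inter_mem (ball_mem_nhds c hr) (hS'.isOpen_compl.mem_nhds (by simp))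
      have hsub : (ball c r ∩ (S \ {c})ᶜ) \ {c} ⊆ Sᶜ := by
        rintro z ⟨⟨_, hz2⟩, hz3⟩ hzS
        exact hz2 ⟨hzS, hz3⟩
      have hd : DifferentiableOn ℂ f ((ball c r ∩ (S \ {c})ᶜ) \ {c}) := hf.mono hsub
      have hbdd : BddAbove (norm ∘ f '' ((ball c r ∩ (S \ {c})ᶜ) \ {c})) := by
        refine ⟨M, ?_⟩
        rintro _ ⟨z, hz, rfl⟩
        exact hM z (hsub hz) (mem_ball.mp hz.1.1)
      have hupd := Complex.differentiableOn_update_limUnder_of_bddAbove hU hd hbdd
      have heq : g =ᶠ[𝓝 c] Function.update f c (limUnder (𝓝[≠] c) f) := by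
        filter_upwards [hU] with z hz
        by_cases hzc : z = c
        · subst hzc
          simp [hgdef, hc]
        · have hzS : z ∉ S := fun h => hz.2 ⟨h, hzc⟩
          rw [hgf z hzS, Function.update_of_ne hzc]
      exact (hupd.differentiableAt hU).congr_of_eventuallyEq heq
    · have hU : Sᶜ ∈ 𝓝 c := hScl.isOpen_compl.mem_nhds hc
      have heq : g =ᶠ[𝓝 c] f := by
        filter_upwards [hU] with z hz using hgf z hz
      exact (hf.differentiableAt hU).congr_of_eventuallyEq heq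
  obtain ⟨B, hB⟩ := (isBounded_iff_forall_norm_le.mp hS.isBounded)
  have hg' : ∀ z : ℂ, max R (B + 1) ≤ ‖z‖ → ‖g z‖ ≤ C * ‖z‖ ^ n := by
    intro z hz
    have hzS : z ∉ S := by
      intro h
      have h1 := hB z h
      have h2 : B + 1 ≤ ‖z‖ := le_trans (le_max_right _ _) hz
      linarith
    rw [hgf z hzS]
    exact hg z hzS (le_trans (le_max_left _ _) hz)
  obtain ⟨P, hP, hPe⟩ := exists_polynomial_of_entire_of_growth hgdiff hg'
  exact ⟨P, hP, fun z hz => by rw [← hgf z hz, hPe z]⟩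

/-- Handiest form: a single global bound `‖f z‖ ≤ C * (1 + ‖z‖) ^ n` off the finite set `S`
(it gives both the local boundedness near `S` and the growth at infinity). -/
theorem exists_polynomial_of_norm_le_one_add_pow {f : ℂ → ℂ} {S : Set ℂ}
    (hS : S.Finite) (hf : DifferentiableOn ℂ f Sᶜ) {C : ℝ} {n : ℕ}
    (hg : ∀ z : ℂ, z ∉ S → ‖f z‖ ≤ C * (1 + ‖z‖) ^ n) :
    ∃ P : Polynomial ℂ, P.natDegree ≤ n ∧ ∀ z, z ∉ S → f z = P.eval z := by
  refine exists_polynomial_of_differentiableOn_compl_finite (C := |C| * 2 ^ n) (R := 1)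
    hS hf ?_ ?_
  · intro s _
    refine ⟨1, one_pos, |C| * (2 + ‖s‖) ^ n, ?_⟩
    intro z hz hd
    have h1 : ‖z‖ ≤ ‖s‖ + 1 := by
      have h2 : ‖z - s‖ < 1 := by simpa [dist_eq_norm] using hd
      have h3 : ‖z‖ ≤ ‖z - s‖ + ‖s‖ := by
        simpa using norm_add_le (z - s) s
      linarith
    calc ‖f z‖ ≤ C * (1 + ‖z‖) ^ n := hg z hz
      _ ≤ |C| * (1 + ‖z‖) ^ n :=
        mul_le_mul_of_nonneg_right (le_abs_self C) (by positivity)
      _ ≤ |C| * (2 + ‖s‖) ^ n := by
        refine mul_le_mul_of_nonneg_left ?_ (abs_nonneg C)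
        exact pow_le_pow_left₀ (by positivity) (by linarith) n
  · intro z hz h1
    calc ‖f z‖ ≤ C * (1 + ‖z‖) ^ n := hg z hz
      _ ≤ |C| * (1 + ‖z‖) ^ n :=
        mul_le_mul_of_nonneg_right (le_abs_self C) (by positivity)
      _ ≤ |C| * (2 * ‖z‖) ^ n := by
        refine mul_le_mul_of_nonneg_left ?_ (abs_nonneg C)
        exact pow_le_pow_left₀ (by positivity) (by linarith) n
      _ = |C| * 2 ^ n * ‖z‖ ^ n := by rw [mul_pow]; ring

end Fermat.Agent.Lib.helper5074
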