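import Mathlib

/-!
# Finite extensions of complete discrete valuation rings (helper5323)

Let `A` be a complete discrete valuation ring with fraction field `K`, `L / K` a finite
separable field extension and `C` the integral closure of `A` in `L`.  Then `C` is again a
complete discrete valuation ring, finite (and free) over `A`, the structure map is local and
injective, `L` is the fraction field of `C`, and the residue field of `C` is finite as soon as
the residue field of `A` is.

Mathlib only; no hypotheses.
-/

namespace Fermat.Agent.Lib.helper5323

open Polynomial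

section Idempotents

variable {B : Type*} [CommRing B]

/-- Idempotents lift along an ideal for which the ring is adically complete. -/
theorem exists_isIdempotentElem_sub_mem (I : Ideal B) [IsAdicComplete I B]
    (a₀ : B) (h : a₀ * a₀ - a₀ ∈ I) : ∃ a : B, IsIdempotentElem a ∧ a - a₀ ∈ I := by
  have hmonic : (X ^ 2 - X : B[X]).Monic := by
    nontriviality B
    exact monic_X_pow_sub (by simp)
  have heval : (X ^ 2 - X : B[X]).eval a₀ = a₀ * a₀ - a₀ := by simp [pow_two]
  have hder : (derivative (X ^ 2 - X : B[X])).eval a₀ = 2 * a₀ - 1 := by
    simp
    ring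
  have hunit : IsUnit (Ideal.Quotient.mk I ((derivative (X ^ 2 - X : B[X])).eval a₀)) := by
    rw [hder]
    refine IsUnit.of_mul_eq_one (Ideal.Quotient.mk I (2 * a₀ - 1)) ?_
    rw [← map_mul, ← map_one (Ideal.Quotient.mk I), Ideal.Quotient.eq]
    have : (2 * a₀ - 1) * (2 * a₀ - 1) - 1 = 4 * (a₀ * a₀ - a₀) := by ring
    rw [this]
    exact I.mul_mem_left _ h
  obtain ⟨a, ha, haa⟩ := HenselianRing.is_henselian (I := I) (X ^ 2 - X : B[X]) hmonic a₀
    (by rw [heval]; exact h) hunit
  refine ⟨a, ?_, haa⟩
  have : a * a - a = 0 := by
    have := ha
    rw [IsRoot.def] at this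
    simpa [pow_two] using this
  exact sub_eq_zero.mp this

/-- A domain which is complete along an ideal with artinian quotient is a local ring. -/
theorem isLocalRing_of_isAdicComplete_of_isArtinianRing [IsDomain B] (I : Ideal B)
    [IsAdicComplete I B] [IsArtinianRing (B ⧸ I)] : IsLocalRing B := by
  have hjac : I ≤ Ideal.jacobson ⊥ := IsAdicComplete.le_jacobson_bot I
  have hloc : IsLocalHom (Ideal.Quotient.mk I) := isLocalHom_of_le_jacobson_bot I hjac
  refine IsLocalRing.of_isUnit_or_isUnit_one_sub_self fun x => ?_
  -- the descending chain of ideals `(x̄ ^ n)` of `B ⧸ I` stabilises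
  let xb : B ⧸ I := Ideal.Quotient.mk I x
  let f : ℕ →o (Ideal (B ⧸ I))ᵒᵈ :=
    ⟨fun n => OrderDual.toDual (Ideal.span {xb ^ n}), fun m n hmn => by
      change Ideal.span {xb ^ n} ≤ Ideal.span {xb ^ m}
      rw [Ideal.span_singleton_le_span_singleton]
      exact pow_dvd_pow xb hmn⟩
  obtain ⟨n, hn⟩ := IsArtinian.monotone_stabilizes f
  have h2 : Ideal.span {xb ^ (n + 1)} = Ideal.span {xb ^ (n + 1 + (n + 1))} := by
    have h1 := hn (n + 1) (by omega)
    have h3 := hn (n + 1 + (n + 1)) (by omega)
    exact congrArg OrderDual.ofDual (h1.symm.trans h3)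
  have hmem : xb ^ (n + 1) ∈ Ideal.span {xb ^ (n + 1 + (n + 1))} := by
    rw [← h2]; exact Ideal.subset_span rfl
  obtain ⟨cb, hcb⟩ := Ideal.mem_span_singleton'.mp hmem
  obtain ⟨c, rfl⟩ := Ideal.Quotient.mk_surjective cb
  -- `e₀ = c * x ^ (n + 1)` is idempotent modulo `I`
  have hidem : (c * x ^ (n + 1)) * (c * x ^ (n + 1)) - c * x ^ (n + 1) ∈ I := by
    rw [← Ideal.Quotient.eq_zero_iff_mem]
    simp only [map_sub, map_mul, map_pow]
    change Ideal.Quotient.mk I c * xb ^ (n + 1) * (Ideal.Quotient.mk I c * xb ^ (n + 1))
      - Ideal.Quotient.mk I c * xb ^ (n + 1) = 0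
    have : Ideal.Quotient.mk I c * xb ^ (n + 1) * (Ideal.Quotient.mk I c * xb ^ (n + 1))
        = Ideal.Quotient.mk I c * (Ideal.Quotient.mk I c * xb ^ (n + 1 + (n + 1))) := by ring
    rw [this, hcb, sub_self]
  obtain ⟨e, he, hee⟩ := exists_isIdempotentElem_sub_mem I (c * x ^ (n + 1)) hidem
  rcases (IsIdempotentElem.iff_eq_zero_or_one).mp he with rfl | rfl
  · -- `x̄` is nilpotent, so `1 - x` is a unit
    right
    have h0 : Ideal.Quotient.mk I c * xb ^ (n + 1) = 0 := by
      have := (Ideal.Quotient.eq_zero_iff_mem (I := I)).mpr hee
      simpa [xb] using this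
    have hxn : xb ^ (n + 1) = 0 := by
      have : xb ^ (n + 1) = (Ideal.Quotient.mk I c * xb ^ (n + 1)) * xb ^ (n + 1) := by
        rw [mul_assoc, ← pow_add, hcb]
      rw [this, h0, zero_mul]
    have hnil : IsNilpotent xb := ⟨n + 1, hxn⟩
    have hu : IsUnit (Ideal.Quotient.mk I (1 - x)) := by
      rw [map_sub, map_one]
      exact hnil.isUnit_one_sub
    exact hloc.map_nonunit _ hu
  · -- `x̄` is a unit, so `x` is a unit
    left
    have h1 : Ideal.Quotient.mk I c * xb ^ (n + 1) = 1 := by
      have := (Ideal.Quotient.eq (I := I)).mpr hee
      simpa [xb] using this.symm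
    have hu : IsUnit xb := by
      have : xb * (Ideal.Quotient.mk I c * xb ^ n) = 1 := by
        rw [← h1]; ring
      exact IsUnit.of_mul_eq_one _ this
    exact hloc.map_nonunit _ hu

end Idempotents

section FiniteComplete

universe u

variable {R : Type u} [CommRing R] [IsNoetherianRing R] (I : Ideal R) [IsAdicComplete I R]
  (M : Type u) [AddCommGroup M] [Module R M] [Module.Finite R M]

/-- A finite module over a noetherian adically complete ring is adically complete. -/
theorem isAdicComplete_of_finite : IsAdicComplete I M := by
  have hH : IsHausdorff I M :=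
    IsHausdorff.of_le_jacobson I M (IsAdicComplete.le_jacobson_bot I)
  have hP : IsPrecomplete I M := by
    rw [← AdicCompletion.of_surjective_iff]
    intro y
    obtain ⟨t, rfl⟩ :=
      (AdicCompletion.ofTensorProduct_bijective_of_finite_of_isNoetherian I M).2 y
    induction t using TensorProduct.induction_on with
    | zero => exact ⟨0, by simp⟩
    | tmul r x =>
      obtain ⟨a, rfl⟩ := AdicCompletion.of_surjective I R r
      refine ⟨a • x, ?_⟩
      rw [AdicCompletion.ofTensorProduct_tmul, map_smul]
      ext n
      rw [AdicCompletion.smul_eval]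
      rfl
    | add t₁ t₂ h₁ h₂ =>
      obtain ⟨x₁, h₁⟩ := h₁
      obtain ⟨x₂, h₂⟩ := h₂
      exact ⟨x₁ + x₂, by rw [map_add, map_add, h₁, h₂]⟩
  exact { hH, hP with }

end FiniteComplete

section Transfer

variable {R : Type*} [CommRing R] {M : Type*} [AddCommGroup M] [Module R M]

/-- Adic completeness only depends on the adic topology: if `J ≤ I` and `I ^ e ≤ J`, then
`J`-adic completeness implies `I`-adic completeness. -/
theorem isAdicComplete_of_le_of_pow_le {I J : Ideal R} (hJI : J ≤ I) {e : ℕ} (he : I ^ e ≤ J)
    [hJ : IsAdicComplete J M] : IsAdicComplete I M := by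
  have hpow : ∀ n, I ^ ((e + 1) * n) ≤ J ^ n := fun n => by
    rw [pow_mul]
    exact Ideal.pow_right_mono ((Ideal.pow_le_pow_right (Nat.le_succ e)).trans he) n
  have hsmul : ∀ {P Q : Ideal R}, P ≤ Q → (P • ⊤ : Submodule R M) ≤ Q • ⊤ :=
    fun h => Submodule.smul_mono_left h
  refine { haus' := ?_, prec' := ?_ }
  · intro x hx
    refine IsHausdorff.haus hJ.toIsHausdorff x fun n => ?_
    exact (hx ((e + 1) * n)).mono (hsmul (hpow n))
  · intro f hf
    obtain ⟨L, hL⟩ := IsPrecomplete.prec hJ.toIsPrecomplete (f := fun k => f ((e + 1) * k))
      (fun {k l} hkl => (hf (Nat.mul_le_mul_left (e + 1) hkl)).mono (hsmul (hpow k)))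
    refine ⟨L, fun n => ?_⟩
    have h1 : f n ≡ f ((e + 1) * n) [SMOD (I ^ n • ⊤ : Submodule R M)] :=
      hf (Nat.le_mul_of_pos_left n (Nat.succ_pos e))
    have h2 : f ((e + 1) * n) ≡ L [SMOD (I ^ n • ⊤ : Submodule R M)] :=
      (hL n).mono (hsmul (Ideal.pow_right_mono hJI n))
    exact h1.trans h2

end Transfer

section Extension

open IsLocalRing

set_option linter.unusedSectionVars false

universe u v

variable (A : Type u) [CommRing A] [IsDomain A] [IsDiscreteValuationRing A]
  [IsAdicComplete (maximalIdeal A) A]
  (K : Type v) [Field K] [Algebra A K] [IsFractionRing A K]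
  (L : Type u) [Field L] [Algebra K L] [Algebra A L] [IsScalarTower A K L]
  [FiniteDimensional K L] [Algebra.IsSeparable K L]
  (C : Type u) [CommRing C] [IsDomain C] [Algebra A C] [Algebra C L] [IsScalarTower A C L]
  [IsIntegralClosure C A L]

include A K L

/-- The integral closure is a finite module. -/
theorem moduleFinite_of_isIntegralClosure : Module.Finite A C :=
  IsIntegralClosure.finite A K L C

/-- The integral closure is complete along the extension of the maximal ideal. -/
theorem isAdicComplete_map_of_isIntegralClosure :
    IsAdicComplete ((maximalIdeal A).map (algebraMap A C)) C := by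
  have := moduleFinite_of_isIntegralClosure A K L C
  have h : IsAdicComplete (maximalIdeal A) C := isAdicComplete_of_finite (maximalIdeal A) C
  exact (IsAdicComplete.map_algebraMap_iff (maximalIdeal A) C).mpr h

/-- The special fibre of the integral closure is artinian. -/
theorem isArtinianRing_quotient_of_isIntegralClosure :
    IsArtinianRing (C ⧸ (maximalIdeal A).map (algebraMap A C)) := by
  have := moduleFinite_of_isIntegralClosure A K L C
  let _ := Ideal.Quotient.field (maximalIdeal A)
  have : Module.Finite (A ⧸ maximalIdeal A) (C ⧸ (maximalIdeal A).map (algebraMap A C)) :=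
    Module.Finite.of_restrictScalars_finite A _ _
  exact IsArtinianRing.of_finite (A ⧸ maximalIdeal A) _

/-- The integral closure of a complete discrete valuation ring in a finite separable extension
of its fraction field is a local ring. -/
theorem isLocalRing_of_isIntegralClosure : IsLocalRing C := by
  have := isAdicComplete_map_of_isIntegralClosure A K L C
  have := isArtinianRing_quotient_of_isIntegralClosure A K L C
  exact isLocalRing_of_isAdicComplete_of_isArtinianRing ((maximalIdeal A).map (algebraMap A C))

theorem algebraMap_injective_of_isIntegralClosure : Function.Injective (algebraMap A C) := by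
  have h1 : Function.Injective (algebraMap A L) := by
    rw [IsScalarTower.algebraMap_eq A K L]
    exact (algebraMap K L).injective.comp (IsFractionRing.injective A K)
  rw [IsScalarTower.algebraMap_eq A C L] at h1
  exact Function.Injective.of_comp h1

/-- The extended maximal ideal is contained in the maximal ideal of the integral closure. -/
theorem map_maximalIdeal_le_of_isIntegralClosure [IsLocalRing C] :
    (maximalIdeal A).map (algebraMap A C) ≤ maximalIdeal C := by
  have hc := isAdicComplete_map_of_isIntegralClosure A K L C
  refine le_maximalIdeal fun htop => ?_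
  rw [htop] at hc
  have := hc.subsingleton
  exact not_subsingleton C this

/-- Some power of the maximal ideal of the integral closure is contained in the extended
maximal ideal. -/
theorem exists_maximalIdeal_pow_le_of_isIntegralClosure [IsLocalRing C] :
    ∃ e : ℕ, maximalIdeal C ^ e ≤ (maximalIdeal A).map (algebraMap A C) := by
  have := isArtinianRing_quotient_of_isIntegralClosure A K L C
  exact exists_maximalIdeal_pow_le_of_isArtinianRing_quotient _

/-- The integral closure of a complete discrete valuation ring in a finite separable extension
of its fraction field is complete for its own maximal-adic topology. -/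
theorem isAdicComplete_of_isIntegralClosure [IsLocalRing C] :
    IsAdicComplete (maximalIdeal C) C := by
  have hc := isAdicComplete_map_of_isIntegralClosure A K L C
  obtain ⟨e, he⟩ := exists_maximalIdeal_pow_le_of_isIntegralClosure A K L C
  exact isAdicComplete_of_le_of_pow_le (map_maximalIdeal_le_of_isIntegralClosure A K L C) he

/-- The structure map to the integral closure is a local homomorphism. -/
theorem isLocalHom_algebraMap_of_isIntegralClosure [IsLocalRing C] :
    IsLocalHom (algebraMap A C) := by
  refine ⟨fun a ha => ?_⟩
  by_contra hna
  have h1 : a ∈ maximalIdeal A := (mem_maximalIdeal a).mpr hna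
  have h2 : algebraMap A C a ∈ maximalIdeal C :=
    map_maximalIdeal_le_of_isIntegralClosure A K L C (Ideal.mem_map_of_mem _ h1)
  exact (mem_maximalIdeal _).mp h2 ha

/-- The integral closure of a complete discrete valuation ring in a finite separable extension
of its fraction field is a discrete valuation ring. -/
theorem isDiscreteValuationRing_of_isIntegralClosure : IsDiscreteValuationRing C := by
  have hloc : IsLocalRing C := isLocalRing_of_isIntegralClosure A K L C
  have hded : IsDedekindDomain C := IsIntegralClosure.isDedekindDomain A K L C
  have hint : Algebra.IsIntegral A C := IsIntegralClosure.isIntegral_algebra A L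
  have hnf : ¬ IsField C := fun hC =>
    IsDiscreteValuationRing.not_isField A
      (isField_of_isIntegral_of_isField (algebraMap_injective_of_isIntegralClosure A K L C) hC)
  exact ((IsDiscreteValuationRing.TFAE C hnf).out 0 2).mpr hded

/-- The residue field of the integral closure is finite if the residue field of the base is. -/
theorem finite_residueField_of_isIntegralClosure [IsLocalRing C]
    [hfin : Finite (ResidueField A)] : Finite (ResidueField C) := by
  have := moduleFinite_of_isIntegralClosure A K L C
  have := isLocalHom_algebraMap_of_isIntegralClosure A K L C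
  exact ResidueField.finite_of_finite (R := A) (S := C) hfin

/-- `L` is the fraction field of the integral closure. -/
theorem isFractionRing_of_isIntegralClosure : IsFractionRing C L :=
  IsIntegralClosure.isFractionRing_of_finite_extension A K L C

/-- The integral closure has characteristic zero if the base has. -/
theorem charZero_of_isIntegralClosure [CharZero A] : CharZero C :=
  charZero_of_injective_algebraMap (algebraMap_injective_of_isIntegralClosure A K L C)

end Extension

section Packaged

open IsLocalRing

universe u v

/-- **Finite extensions of complete discrete valuation rings**, concrete form: for a complete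
discrete valuation ring `A` of characteristic zero with fraction field `K` and a finite extension
`L / K`, the subalgebra `integralClosure A L` is a complete discrete valuation ring, finite over
`A` via a local injective homomorphism, with fraction field `L`, of characteristic zero, and with
finite residue field if `A` has finite residue field. -/
theorem integralClosure_completeDVR (A : Type u) [CommRing A] [IsDomain A]
    [IsDiscreteValuationRing A] [IsAdicComplete (maximalIdeal A) A] [CharZero A]
    (K : Type v) [Field K] [Algebra A K] [IsFractionRing A K]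
    (L : Type u) [Field L] [Algebra K L] [Algebra A L] [IsScalarTower A K L]
    [FiniteDimensional K L] :
    ∃ (_ : IsDiscreteValuationRing (integralClosure A L))
      (_ : IsAdicComplete (maximalIdeal (integralClosure A L)) (integralClosure A L)),
      CharZero (integralClosure A L) ∧ Module.Finite A (integralClosure A L) ∧
      IsLocalHom (algebraMap A (integralClosure A L)) ∧
      Function.Injective (algebraMap A (integralClosure A L)) ∧
      IsFractionRing (integralClosure A L) L ∧
      (Finite (ResidueField A) → Finite (ResidueField (integralClosure A L))) := by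
  have hK : CharZero K := charZero_of_injective_algebraMap (IsFractionRing.injective A K)
  have hsep : Algebra.IsSeparable K L := inferInstance
  have hdvr : IsDiscreteValuationRing (integralClosure A L) :=
    isDiscreteValuationRing_of_isIntegralClosure A K L (integralClosure A L)
  refine ⟨hdvr, isAdicComplete_of_isIntegralClosure A K L (integralClosure A L),
    charZero_of_isIntegralClosure A K L (integralClosure A L),
    moduleFinite_of_isIntegralClosure A K L (integralClosure A L),
    isLocalHom_algebraMap_of_isIntegralClosure A K L (integralClosure A L),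
    algebraMap_injective_of_isIntegralClosure A K L (integralClosure A L),
    isFractionRing_of_isIntegralClosure A K L (integralClosure A L), fun hfin => ?_⟩
  exact finite_residueField_of_isIntegralClosure A K L (integralClosure A L)

/-- **Finite extensions of complete discrete valuation rings**, existential form in the exact
shape in which the frozen statements quantify over coefficient rings (`𝒪''` finite over `𝒪'`):
every finite extension `L` of the fraction field of a complete discrete valuation ring `𝒪`
(characteristic zero, finite residue field) is the fraction field of a complete discrete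
valuation ring `𝒪''` which is finite over `𝒪` via a local injective homomorphism. -/
theorem exists_completeDVR_extension
    (𝒪 : Type) [CommRing 𝒪] [IsDomain 𝒪] [IsDiscreteValuationRing 𝒪]
    [IsAdicComplete (maximalIdeal 𝒪) 𝒪] [Finite (ResidueField 𝒪)] [CharZero 𝒪]
    (K : Type) [Field K] [Algebra 𝒪 K] [IsFractionRing 𝒪 K]
    (L : Type) [Field L] [Algebra K L] [Algebra 𝒪 L] [IsScalarTower 𝒪 K L]
    [FiniteDimensional K L] :
    ∃ (𝒪'' : Type) (_ : CommRing 𝒪'') (_ : IsDomain 𝒪'') (_ : IsDiscreteValuationRing 𝒪'')
      (_ : IsAdicComplete (maximalIdeal 𝒪'') 𝒪'')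
      (_ : Finite (ResidueField 𝒪'')) (_ : CharZero 𝒪'')
      (_ : Algebra 𝒪 𝒪'') (_ : Module.Finite 𝒪 𝒪'') (_ : IsLocalHom (algebraMap 𝒪 𝒪''))
      (_ : Algebra 𝒪'' L) (_ : IsScalarTower 𝒪 𝒪'' L) (_ : IsFractionRing 𝒪'' L),
      Function.Injective (algebraMap 𝒪 𝒪'') := by
  obtain ⟨hdvr, hcomp, hchar, hfin, hloc, hinj, hfrac, hres⟩ :=
    integralClosure_completeDVR 𝒪 K L
  exact ⟨integralClosure 𝒪 L, inferInstance, inferInstance, hdvr, hcomp, hres inferInstance,
    hchar, inferInstance, hfin, hloc, inferInstance, inferInstance, hfrac, hinj⟩

/-- A local homomorphism of local rings preserves the residue characteristic: if the natural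
number `p` lies in the maximal ideal of `𝒪`, it lies in the maximal ideal of `𝒪''`. -/
theorem natCast_mem_maximalIdeal_of_isLocalHom {𝒪 𝒪'' : Type*} [CommRing 𝒪] [CommRing 𝒪'']
    [IsLocalRing 𝒪] [IsLocalRing 𝒪''] [Algebra 𝒪 𝒪''] [IsLocalHom (algebraMap 𝒪 𝒪'')] (p : ℕ)
    (hp : (p : 𝒪) ∈ maximalIdeal 𝒪) : (p : 𝒪'') ∈ maximalIdeal 𝒪'' := by
  have := ((mem_maximalIdeal _).mp hp)
  rw [mem_maximalIdeal, mem_nonunits_iff]
  intro hu
  apply this
  have h2 : IsUnit (algebraMap 𝒪 𝒪'' (p : 𝒪)) := by rwa [map_natCast]
  exact (isUnit_map_iff (algebraMap 𝒪 𝒪'') _).mp h2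

end Packaged

end Fermat.Agent.Lib.helper5323
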