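/-
helper5415 — LIB-DVREXT: a finite extension of a complete DVR is a complete DVR.

Setting: `O` a complete discrete valuation ring (exactly the binder list of the frozen
statements S30/S35: `IsDomain`, `IsDiscreteValuationRing`, `IsAdicComplete (maximalIdeal O) O`,
`Finite (ResidueField O)`, `CharZero`), `K` its fraction field, `E/K` a finite field extension,
`B := integralClosure O E`.  Then `B` is a complete discrete valuation ring with finite residue
field, of characteristic zero, module-finite over `O`, the structure map `O → B` is an injective
local homomorphism and `E` is the fraction field of `B`.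

Inputs: Mathlib + the two proved Prelude lemmas
`Algebra.finite_maximalSpectrum_and_bijective_localization_of_module_finite` and
`IsLocalRing.isAdicComplete_of_module_finite`.
-/
import Mathlib
import Fermat.Prelude.Thm_Algebra_finite_maximalSpectrum_and_bijective_localization_of_module_finite
import Fermat.Prelude.Thm_IsLocalRing_isAdicComplete_of_module_finite

set_option autoImplicit false

namespace Fermat.Agent.Lib.helper5415

open IsLocalRing

/-- A domain which is module-finite over a complete Noetherian local ring is local. -/
theorem isLocalRing_of_finite_of_isDomain (O : Type) [CommRing O] [IsLocalRing O]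
    [IsNoetherianRing O] [IsAdicComplete (maximalIdeal O) O]
    (A : Type) [CommRing A] [IsDomain A] [Algebra O A] [Module.Finite O A] :
    IsLocalRing A := by
  obtain ⟨-, hbij, -, -⟩ :=
    Algebra.finite_maximalSpectrum_and_bijective_localization_of_module_finite (𝒪 := O) A
  classical
  have hsub : ∀ I J : MaximalSpectrum A, I = J := by
    intro I J
    by_contra hIJ
    obtain ⟨e, he⟩ := hbij.2 (Pi.single I 1)
    have he0 : e * (1 - e) = 0 := by
      apply hbij.1
      rw [map_mul, map_sub, map_one, he, map_zero]
      funext L
      by_cases hL : L = I
      · subst hL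
        simp
      · simp [Pi.single_eq_of_ne hL]
    rcases mul_eq_zero.mp he0 with h | h
    · have h1 := congrFun he I
      rw [h, map_zero] at h1
      simp at h1
    · have h1 := congrFun he J
      have h2 : e = 1 := (sub_eq_zero.mp h).symm
      rw [h2, map_one] at h1
      simp [Pi.single_eq_of_ne (Ne.symm hIJ)] at h1
  obtain ⟨M, hM⟩ := Ideal.exists_maximal A
  refine IsLocalRing.of_unique_max_ideal ⟨M, hM, fun M' hM' => ?_⟩
  exact congrArg MaximalSpectrum.asIdeal (hsub ⟨M', hM'⟩ ⟨M, hM⟩)

theorem charZero_fractionField (O : Type) [CommRing O] [IsDomain O] [CharZero O]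
    (K : Type) [Field K] [Algebra O K] [IsFractionRing O K] : CharZero K :=
  charZero_of_injective_algebraMap (IsFractionRing.injective O K)

/-- (D1) the integral closure is module-finite. -/
theorem integralClosure_finite (O : Type) [CommRing O] [IsDomain O] [IsDiscreteValuationRing O]
    [IsAdicComplete (maximalIdeal O) O] [CharZero O]
    (K : Type) [Field K] [Algebra O K] [IsFractionRing O K]
    (E : Type) [Field E] [Algebra K E] [Algebra O E] [IsScalarTower O K E]
    [FiniteDimensional K E] :
    Module.Finite O (integralClosure O E) := by
  have : CharZero K := charZero_fractionField O K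
  exact IsIntegralClosure.finite O K E (integralClosure O E)

theorem algebraMap_integralClosure_injective (O : Type) [CommRing O]
    (K : Type) [Field K] [Algebra O K] [IsFractionRing O K]
    (E : Type) [Field E] [Algebra K E] [Algebra O E] [IsScalarTower O K E] :
    Function.Injective (algebraMap O (integralClosure O E)) := by
  intro x y hxy
  have h1 : algebraMap O E x = algebraMap O E y := congrArg Subtype.val hxy
  rw [IsScalarTower.algebraMap_apply O K E, IsScalarTower.algebraMap_apply O K E] at h1
  exact IsFractionRing.injective O K ((algebraMap K E).injective h1)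

/-- (D7) the structure map is a local homomorphism. -/
theorem isLocalHom_algebraMap_integralClosure (O : Type) [CommRing O]
    (K : Type) [Field K] [Algebra O K] [IsFractionRing O K]
    (E : Type) [Field E] [Algebra K E] [Algebra O E] [IsScalarTower O K E] :
    IsLocalHom (algebraMap O (integralClosure O E)) := by
  have hint : Algebra.IsIntegral O (integralClosure O E) := inferInstance
  exact (algebraMap_isIntegral_iff.mpr hint).isLocalHom
    (algebraMap_integralClosure_injective O K E)

/-- (D2) the integral closure is local. -/
theorem isLocalRing_integralClosure (O : Type) [CommRing O] [IsDomain O] [IsDiscreteValuationRing O]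
    [IsAdicComplete (maximalIdeal O) O] [CharZero O]
    (K : Type) [Field K] [Algebra O K] [IsFractionRing O K]
    (E : Type) [Field E] [Algebra K E] [Algebra O E] [IsScalarTower O K E]
    [FiniteDimensional K E] :
    IsLocalRing (integralClosure O E) := by
  have := integralClosure_finite O K E
  exact isLocalRing_of_finite_of_isDomain O (integralClosure O E)

theorem isDedekindDomain_integralClosure (O : Type) [CommRing O] [IsDomain O] [IsDiscreteValuationRing O]
    [IsAdicComplete (maximalIdeal O) O] [CharZero O]
    (K : Type) [Field K] [Algebra O K] [IsFractionRing O K]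
    (E : Type) [Field E] [Algebra K E] [Algebra O E] [IsScalarTower O K E]
    [FiniteDimensional K E] :
    IsDedekindDomain (integralClosure O E) := by
  have : CharZero K := charZero_fractionField O K
  exact integralClosure.isDedekindDomain O K E

theorem not_isField_integralClosure (O : Type) [CommRing O] [IsDomain O]
    [IsDiscreteValuationRing O]
    (K : Type) [Field K] [Algebra O K] [IsFractionRing O K]
    (E : Type) [Field E] [Algebra K E] [Algebra O E] [IsScalarTower O K E] :
    ¬ IsField (integralClosure O E) := by
  intro hF
  exact IsDiscreteValuationRing.not_isField O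
    (isField_of_isIntegral_of_isField (algebraMap_integralClosure_injective O K E) hF)

/-- (D3) the integral closure is a discrete valuation ring. -/
theorem isDiscreteValuationRing_integralClosure (O : Type) [CommRing O] [IsDomain O] [IsDiscreteValuationRing O]
    [IsAdicComplete (maximalIdeal O) O] [CharZero O]
    (K : Type) [Field K] [Algebra O K] [IsFractionRing O K]
    (E : Type) [Field E] [Algebra K E] [Algebra O E] [IsScalarTower O K E]
    [FiniteDimensional K E] :
    IsDiscreteValuationRing (integralClosure O E) := by
  have := isLocalRing_integralClosure O K E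
  have hD := isDedekindDomain_integralClosure O K E
  exact ((IsDiscreteValuationRing.TFAE (integralClosure O E)
    (not_isField_integralClosure O K E)).out 0 2).mpr hD

/-- (D4) the integral closure is complete for its maximal ideal (for whatever `IsLocalRing`
instance is in scope; `isLocalRing_integralClosure` or the one coming from
`isDiscreteValuationRing_integralClosure`). -/
theorem isAdicComplete_integralClosure (O : Type) [CommRing O] [IsDomain O] [IsDiscreteValuationRing O]
    [IsAdicComplete (maximalIdeal O) O] [CharZero O]
    (K : Type) [Field K] [Algebra O K] [IsFractionRing O K]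
    (E : Type) [Field E] [Algebra K E] [Algebra O E] [IsScalarTower O K E]
    [FiniteDimensional K E]
    [IsLocalRing (integralClosure O E)] :
    IsAdicComplete (maximalIdeal (integralClosure O E)) (integralClosure O E) := by
  have := integralClosure_finite O K E
  have := isLocalHom_algebraMap_integralClosure O K E
  exact IsLocalRing.isAdicComplete_of_module_finite (𝒪 := O)

/-- (D5) the residue field of the integral closure is finite. -/
theorem finite_residueField_integralClosure (O : Type) [CommRing O] [IsDomain O] [IsDiscreteValuationRing O]
    [IsAdicComplete (maximalIdeal O) O] [CharZero O]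
    (K : Type) [Field K] [Algebra O K] [IsFractionRing O K]
    (E : Type) [Field E] [Algebra K E] [Algebra O E] [IsScalarTower O K E]
    [FiniteDimensional K E]
    [Finite (ResidueField O)] [IsLocalRing (integralClosure O E)] :
    Finite (ResidueField (integralClosure O E)) := by
  have := integralClosure_finite O K E
  have := isLocalHom_algebraMap_integralClosure O K E
  exact IsLocalRing.ResidueField.finite_of_finite (R := O) inferInstance

/-- (D6) characteristic zero. -/
theorem charZero_integralClosure (O : Type) [CommRing O] [CharZero O]
    (K : Type) [Field K] [Algebra O K] [IsFractionRing O K]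
    (E : Type) [Field E] [Algebra K E] [Algebra O E] [IsScalarTower O K E] :
    CharZero (integralClosure O E) :=
  charZero_of_injective_algebraMap (algebraMap_integralClosure_injective O K E)

/-- (D8) `E` is the fraction field of the integral closure. -/
theorem isFractionRing_integralClosure (O : Type) [CommRing O] [IsDomain O]
    (K : Type) [Field K] [Algebra O K] [IsFractionRing O K]
    (E : Type) [Field E] [Algebra K E] [Algebra O E] [IsScalarTower O K E]
    [FiniteDimensional K E] : IsFractionRing (integralClosure O E) E :=
  integralClosure.isFractionRing_of_finite_extension K E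

/-- The package in the shape of the existential prefix of the frozen statements S30/S35:
a complete DVR `O₂` finite over `O`, together with an embedding `O₂ → E` identifying `E` with
its fraction field and such that the elements of `E` integral over `O` are exactly those
coming from `O₂`. -/
theorem exists_dvr_extension (O : Type) [CommRing O] [IsDomain O] [IsDiscreteValuationRing O]
    [IsAdicComplete (maximalIdeal O) O] [CharZero O]
    (K : Type) [Field K] [Algebra O K] [IsFractionRing O K]
    (E : Type) [Field E] [Algebra K E] [Algebra O E] [IsScalarTower O K E]
    [FiniteDimensional K E]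
    [Finite (ResidueField O)] :
    ∃ (O₂ : Type) (_ : CommRing O₂) (_ : IsDomain O₂) (_ : IsDiscreteValuationRing O₂)
      (_ : IsAdicComplete (maximalIdeal O₂) O₂) (_ : Finite (ResidueField O₂)) (_ : CharZero O₂)
      (_ : Algebra O O₂) (_ : Module.Finite O O₂) (_ : IsLocalHom (algebraMap O O₂))
      (_ : Algebra O₂ E) (_ : IsScalarTower O O₂ E) (_ : IsFractionRing O₂ E),
      Function.Injective (algebraMap O O₂) ∧ Function.Injective (algebraMap O₂ E) ∧
        ∀ x : E, IsIntegral O x ↔ ∃ y : O₂, algebraMap O₂ E y = x := by
  have hdvr := isDiscreteValuationRing_integralClosure O K E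
  refine ⟨integralClosure O E, inferInstance, inferInstance, hdvr,
    isAdicComplete_integralClosure O K E, finite_residueField_integralClosure O K E,
    charZero_integralClosure O K E, inferInstance, integralClosure_finite O K E,
    isLocalHom_algebraMap_integralClosure O K E, inferInstance, inferInstance,
    isFractionRing_integralClosure O K E, algebraMap_integralClosure_injective O K E,
    Subtype.val_injective, fun x => ⟨fun hx => ⟨⟨x, hx⟩, rfl⟩, ?_⟩⟩
  rintro ⟨y, rfl⟩
  exact y.2

/-- Consumer form: `L/K` any algebraic extension (e.g. an algebraic closure of `K = Frac O`),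
`s` a finite set of elements of `L`.  There is a complete DVR `O₂`, finite over `O`, embedded in
`L` compatibly with `O`, which contains every element of `s` that is integral over `O`, and
whose fraction field contains all of `s`. -/
theorem exists_dvr_extension_of_finset (O : Type) [CommRing O] [IsDomain O]
    [IsDiscreteValuationRing O] [IsAdicComplete (maximalIdeal O) O] [CharZero O]
    [Finite (ResidueField O)]
    (K : Type) [Field K] [Algebra O K] [IsFractionRing O K]
    (L : Type) [Field L] [Algebra K L] [Algebra O L] [IsScalarTower O K L]
    [Algebra.IsAlgebraic K L] (s : Finset L) :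
    ∃ (O₂ : Type) (_ : CommRing O₂) (_ : IsDomain O₂) (_ : IsDiscreteValuationRing O₂)
      (_ : IsAdicComplete (maximalIdeal O₂) O₂) (_ : Finite (ResidueField O₂)) (_ : CharZero O₂)
      (_ : Algebra O O₂) (_ : Module.Finite O O₂) (_ : IsLocalHom (algebraMap O O₂))
      (_ : Algebra O₂ L) (_ : IsScalarTower O O₂ L),
      Function.Injective (algebraMap O O₂) ∧ Function.Injective (algebraMap O₂ L) ∧
        (∀ x ∈ s, IsIntegral O x → ∃ y : O₂, algebraMap O₂ L y = x) ∧
        (∀ x ∈ s, ∃ y z : O₂, z ≠ 0 ∧ x * algebraMap O₂ L z = algebraMap O₂ L y) := by
  let F : IntermediateField K L := IntermediateField.adjoin K (s : Set L)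
  have hfd : FiniteDimensional K F :=
    IntermediateField.finiteDimensional_adjoin (fun x _ => Algebra.IsIntegral.isIntegral x)
  have htFL : IsScalarTower O F L := IsScalarTower.of_algebraMap_eq (fun _ => rfl)
  obtain ⟨O₂, i1, i2, i3, i4, i5, i6, i7, i8, i9, i10, i11, i12, h1, h2, h3⟩ :=
    exists_dvr_extension O K F
  let _ : Algebra O₂ L := ((algebraMap F L).comp (algebraMap O₂ F)).toAlgebra
  have hmap : ∀ y : O₂, algebraMap O₂ L y = algebraMap F L (algebraMap O₂ F y) := fun _ => rfl
  have htower : IsScalarTower O O₂ L := by
    refine IsScalarTower.of_algebraMap_eq fun x => ?_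
    rw [hmap, ← IsScalarTower.algebraMap_apply O O₂ F, ← IsScalarTower.algebraMap_apply O F L]
  refine ⟨O₂, i1, i2, i3, i4, i5, i6, i7, i8, i9, inferInstance, htower, h1, ?_, ?_, ?_⟩
  · exact (algebraMap F L).injective.comp h2
  · intro x hx hint
    have hxF : x ∈ F := IntermediateField.subset_adjoin K _ (Finset.mem_coe.mpr hx)
    have hint' : IsIntegral O (⟨x, hxF⟩ : F) :=
      (isIntegral_algebraMap_iff (algebraMap F L).injective).mp hint
    obtain ⟨y, hy⟩ := (h3 ⟨x, hxF⟩).mp hint'
    exact ⟨y, by rw [hmap, hy]; rfl⟩
  · intro x hx
    have hxF : x ∈ F := IntermediateField.subset_adjoin K _ (Finset.mem_coe.mpr hx)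
    obtain ⟨⟨y, z⟩, hyz⟩ := IsLocalization.surj (nonZeroDivisors O₂) (⟨x, hxF⟩ : F)
    refine ⟨y, z, nonZeroDivisors.ne_zero z.2, ?_⟩
    have := congrArg (algebraMap F L) hyz
    rw [map_mul] at this
    rw [hmap, hmap]
    exact this

end Fermat.Agent.Lib.helper5415
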