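import Mathlib
import Fermat.Agent.Lib.helper54_Frobenius

set_option autoImplicit false
set_option linter.unusedSectionVars false

namespace Fermat.Agent.Lib.helper54

open Polynomial
open scoped Pointwise NumberField

attribute [local instance] isAlgebraic_Qbar isAlgClosure_Qbar isGalois_Qbar isIntegral_Qbar

local notation "Qb" => AlgebraicClosure ℚ
local notation "GQ" => (AlgebraicClosure ℚ ≃ₐ[ℚ] AlgebraicClosure ℚ)
local notation "Zb" => integralClosure ℤ (AlgebraicClosure ℚ)

/-- Finite subextensions of `ℚ̄` are number fields. -/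
theorem numberField_intermediate (L : IntermediateField ℚ Qb) [FiniteDimensional ℚ L] :
    NumberField L :=
  { to_charZero := inferInstance, to_finiteDimensional := inferInstance }

attribute [local instance] numberField_intermediate

section Setup

variable (L : IntermediateField ℚ Qb) [FiniteDimensional ℚ L]

/-- The inclusion of the ring of integers of a finite subextension into `ℤ̄`. -/
noncomputable def oLToZbar : 𝓞 L →+* Zb where
  toFun a := ⟨algebraMap L Qb (a : L), by
    have h := NumberField.RingOfIntegers.isIntegral_coe a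
    exact h.map (IsScalarTower.toAlgHom ℤ L Qb)⟩
  map_one' := by ext; simp
  map_mul' a b := by ext; simp
  map_zero' := by ext; simp
  map_add' a b := by ext; simp

theorem coe_oLToZbar (a : 𝓞 L) : ((oLToZbar L a : Zb) : Qb) = algebraMap L Qb (a : L) := rfl

theorem oLToZbar_injective : Function.Injective (oLToZbar L) := by
  intro a b h
  have h1 := congrArg (fun z : Zb => (z : Qb)) h
  simp only [coe_oLToZbar] at h1
  exact NumberField.RingOfIntegers.ext ((algebraMap L Qb).injective h1)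

/-- `ℤ̄` as an algebra over the ring of integers of a finite subextension. -/
@[reducible] noncomputable def algebraOLZbar : Algebra (𝓞 L) Zb := (oLToZbar L).toAlgebra

attribute [local instance] algebraOLZbar

theorem algebraMap_oL_zbar (a : 𝓞 L) : algebraMap (𝓞 L) Zb a = oLToZbar L a := rfl

/-- Compatibility of the Galois actions with restriction. -/
theorem oLToZbar_restrict_smul [IsGalois ℚ L] (g : GQ) (a : 𝓞 L) :
    oLToZbar L ((AlgEquiv.restrictNormalHom L g) • a) = g • oLToZbar L a := by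
  apply Subtype.ext
  show algebraMap L Qb (((AlgEquiv.restrictNormalHom L g) • a : 𝓞 L) : L) = g (algebraMap L Qb (a : L))
  rw [← AlgEquiv.restrictNormal_commutes]
  rfl

/-- An element of `ℤ̄` fixed by the fixing subgroup of `L` comes from `𝓞 L`. -/
theorem exists_oLToZbar_eq_of_fixed [IsGalois ℚ L] (b : Zb)
    (hb : ∀ h : GQ, h ∈ L.fixingSubgroup → h • b = b) : ∃ a : 𝓞 L, oLToZbar L a = b := by
  have h1 : (b : Qb) ∈ IntermediateField.fixedField L.fixingSubgroup := by
    rw [IntermediateField.mem_fixedField_iff]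
    intro h hh
    exact congrArg Subtype.val (hb h hh)
  rw [InfiniteGalois.fixedField_fixingSubgroup] at h1
  have h2 : IsIntegral ℤ (⟨(b : Qb), h1⟩ : L) := by
    have h3 : IsIntegral ℤ (algebraMap L Qb ⟨(b : Qb), h1⟩) := b.2
    exact (isIntegral_algHom_iff (IsScalarTower.toAlgHom ℤ L Qb) (algebraMap L Qb).injective).mp h3
  exact ⟨⟨⟨(b : Qb), h1⟩, h2⟩, Subtype.ext rfl⟩

end Setup

section Lift

variable (L : IntermediateField ℚ Qb) [FiniteDimensional ℚ L]

/-- The prime of `𝓞 L` cut out by a valuation subring of `ℚ̄`. -/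
noncomputable def primeOL (A : ValuationSubring Qb) : Ideal (𝓞 L) :=
  (primeOfValuationSubring A).comap (oLToZbar L)

instance primeOL_isPrime (A : ValuationSubring Qb) : (primeOL L A).IsPrime :=
  Ideal.comap_isPrime _ _

theorem mem_primeOL (A : ValuationSubring Qb) (a : 𝓞 L) :
    a ∈ primeOL L A ↔ algebraMap L Qb (a : L) ∈ A.nonunits := by
  rw [primeOL, Ideal.mem_comap, mem_primeOfValuationSubring, coe_oLToZbar]

/-- Elementwise criterion for membership in the inertia subgroup. -/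
theorem mem_inertiaSubgroupIn_of_forall_sub_mem {ℓ : ℕ} (hℓ : ℓ.Prime) (A : ValuationSubring Qb)
    (hA : A.LiesOverPrime ℓ) (σ : GQ)
    (hσq : σ • primeOfValuationSubring A = primeOfValuationSubring A)
    (hσ : ∀ b : Zb, σ • b - b ∈ primeOfValuationSubring A) : σ ∈ A.inertiaSubgroupIn ℚ := by
  have hσA := mem_decompositionSubgroup_of_smul_prime_eq hℓ A hA σ hσq
  refine ⟨⟨σ, hσA⟩, ?_, rfl⟩
  rw [SetLike.mem_coe, ValuationSubring.inertiaSubgroup, MonoidHom.mem_ker]
  ext xbar
  obtain ⟨x, rfl⟩ := IsLocalRing.residue_surjective xbar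
  obtain ⟨a, b, hb, hab⟩ := exists_frac_of_mem_valuationSubring hℓ A hA x.1 x.2
  show (⟨σ, hσA⟩ : A.decompositionSubgroup ℚ) • IsLocalRing.residue A x = IsLocalRing.residue A x
  rw [← IsLocalRing.ResidueField.residue_smul]
  have e1 : x * zbarToValuationSubring A b = zbarToValuationSubring A a := Subtype.ext hab
  have e2 : ((⟨σ, hσA⟩ : A.decompositionSubgroup ℚ) • x) * zbarToValuationSubring A (σ • b) =
      zbarToValuationSubring A (σ • a) := by
    apply Subtype.ext
    show σ (x : Qb) * σ (b : Qb) = σ (a : Qb)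
    rw [← map_mul, hab]
  have e3 : ∀ c : Zb, IsLocalRing.residue A (zbarToValuationSubring A (σ • c)) =
      IsLocalRing.residue A (zbarToValuationSubring A c) := by
    intro c
    rw [← sub_eq_zero, ← map_sub, ← map_sub, IsLocalRing.residue_eq_zero_iff]
    exact hσ c
  have e4 : IsLocalRing.residue A (zbarToValuationSubring A b) ≠ 0 := by
    rw [Ne, IsLocalRing.residue_eq_zero_iff]
    exact hb
  have e5 := congrArg (IsLocalRing.residue A) e2
  rw [map_mul, e3, e3, ← e1, map_mul] at e5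
  exact mul_right_cancel₀ e4 e5

variable [IsGalois ℚ L]

/-- Elements of the fixing subgroup restrict trivially. -/
theorem restrictNormalHom_eq_one_of_mem_fixingSubgroup (h : GQ) (hh : h ∈ L.fixingSubgroup) :
    AlgEquiv.restrictNormalHom L h = 1 := by
  ext x
  exact (AlgEquiv.restrictNormal_commutes h L x).trans (hh x)

theorem mem_fixingSubgroup_of_restrictNormalHom_eq_one (h : GQ)
    (hh : AlgEquiv.restrictNormalHom L h = 1) : h ∈ L.fixingSubgroup := by
  intro x
  have h1 := AlgEquiv.restrictNormal_commutes h L x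
  have h2 : h.restrictNormal L x = x := congrArg (fun f : L ≃ₐ[ℚ] L => f x) hh
  rw [h2] at h1
  exact h1.symm

end Lift

section Lift2

variable (L : IntermediateField ℚ Qb) [FiniteDimensional ℚ L] [IsGalois ℚ L]

attribute [local instance] algebraOLZbar

theorem smul_oLToZbar_of_mem_fixingSubgroup (h : GQ) (hh : h ∈ L.fixingSubgroup) (a : 𝓞 L) :
    h • oLToZbar L a = oLToZbar L a := by
  rw [← oLToZbar_restrict_smul, restrictNormalHom_eq_one_of_mem_fixingSubgroup L h hh, one_smul]

/-- The action of `Gal(ℚ̄/ℚ)` on the discrete ring `ℤ̄` is continuous. -/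
theorem continuousSMul_zbar :
    @ContinuousSMul GQ Zb _ _ ⊥ := by
  let : TopologicalSpace Zb := ⊥
  have : DiscreteTopology Zb := ⟨rfl⟩
  rw [continuousSMul_iff_stabilizer_isOpen]
  intro z
  have : (MulAction.stabilizer GQ z : Set GQ) = MulAction.stabilizer GQ (z : Qb) := by
    ext g
    simp [Subtype.ext_iff]
  rw [this]
  exact stabilizer_isOpen_of_isIntegral _

/-- **Lifting of decomposition elements.** -/
theorem exists_smul_prime_eq_restrict_eq (A : ValuationSubring Qb)
    (γ : L ≃ₐ[ℚ] L) (hγ : γ • primeOL L A = primeOL L A) :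
    ∃ g : GQ, g • primeOfValuationSubring A = primeOfValuationSubring A ∧
      AlgEquiv.restrictNormalHom L g = γ := by
  classical
  obtain ⟨g0, hg0⟩ := AlgEquiv.restrictNormalHom_surjective (F := ℚ) (K₁ := L) Qb γ
  set q := primeOfValuationSubring A with hq
  let : TopologicalSpace Zb := ⊥
  have : DiscreteTopology Zb := ⟨rfl⟩
  have : ContinuousSMul GQ Zb := continuousSMul_zbar
  have : CompactSpace L.fixingSubgroup :=
    isCompact_iff_compactSpace.mp (IntermediateField.fixingSubgroup_isClosed L).isCompact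
  have : SMulCommClass L.fixingSubgroup (𝓞 L) Zb := by
    refine ⟨fun h a b => ?_⟩
    rw [Algebra.smul_def, Algebra.smul_def, Subgroup.smul_def, Subgroup.smul_def, smul_mul',
      algebraMap_oL_zbar, smul_oLToZbar_of_mem_fixingSubgroup L h.1 h.2]
  have : Algebra.IsInvariant (𝓞 L) Zb L.fixingSubgroup := by
    refine ⟨fun b hb => ?_⟩
    exact exists_oLToZbar_eq_of_fixed L b (fun h hh => hb ⟨h, hh⟩)
  have hunder : (g0 • q).under (𝓞 L) = q.under (𝓞 L) := by
    ext a
    rw [Ideal.under_def, Ideal.under_def, Ideal.mem_comap, Ideal.mem_comap,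
      Ideal.mem_pointwise_smul_iff_inv_smul_mem, algebraMap_oL_zbar,
      ← oLToZbar_restrict_smul, map_inv, hg0]
    show γ⁻¹ • a ∈ primeOL L A ↔ a ∈ primeOL L A
    rw [← Ideal.mem_pointwise_smul_iff_inv_smul_mem, hγ]
  obtain ⟨h, hh⟩ := Algebra.IsInvariant.exists_smul_of_under_eq_of_profinite
    (A := 𝓞 L) (B := Zb) (G := L.fixingSubgroup) (g0 • q) q hunder
  refine ⟨h.1 * g0, ?_, ?_⟩
  · rw [mul_smul]
    exact hh.symm
  · rw [map_mul, restrictNormalHom_eq_one_of_mem_fixingSubgroup L h.1 h.2, one_mul, hg0]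

end Lift2

section Lift3

variable (L : IntermediateField ℚ Qb) [FiniteDimensional ℚ L] [IsGalois ℚ L]

attribute [local instance] algebraOLZbar

/-- **Lifting of inertia elements**: every element of the inertia group of the prime of `𝓞 L`
cut out by `A` is the restriction of an element of the inertia group of `A`. -/
theorem exists_mem_inertiaSubgroupIn_restrict_eq {ℓ : ℕ} (hℓ : ℓ.Prime) (A : ValuationSubring Qb)
    (hA : A.LiesOverPrime ℓ) (γ : L ≃ₐ[ℚ] L) (hγ : ∀ a : 𝓞 L, γ • a - a ∈ primeOL L A) :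
    ∃ g : GQ, g ∈ A.inertiaSubgroupIn ℚ ∧ AlgEquiv.restrictNormalHom L g = γ := by
  classical
  have hγP : γ • primeOL L A = primeOL L A := by
    ext a
    rw [Ideal.mem_pointwise_smul_iff_inv_smul_mem]
    have h1 := hγ (γ⁻¹ • a)
    rw [smul_inv_smul] at h1
    constructor
    · intro h2
      have := (primeOL L A).add_mem h1 h2
      simpa using this
    · intro h2
      have := (primeOL L A).sub_mem h2 h1
      simpa using this
  obtain ⟨g1, hg1q, hg1⟩ := exists_smul_prime_eq_restrict_eq L A γ hγP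
  set q := primeOfValuationSubring A with hq
  let : TopologicalSpace Zb := ⊥
  have : DiscreteTopology Zb := ⟨rfl⟩
  have : ContinuousSMul GQ Zb := continuousSMul_zbar
  have : CompactSpace L.fixingSubgroup :=
    isCompact_iff_compactSpace.mp (IntermediateField.fixingSubgroup_isClosed L).isCompact
  have : SMulCommClass L.fixingSubgroup (𝓞 L) Zb := by
    refine ⟨fun h a b => ?_⟩
    rw [Algebra.smul_def, Algebra.smul_def, Subgroup.smul_def, Subgroup.smul_def, smul_mul',
      algebraMap_oL_zbar, smul_oLToZbar_of_mem_fixingSubgroup L h.1 h.2]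
  have : Algebra.IsInvariant (𝓞 L) Zb L.fixingSubgroup := by
    refine ⟨fun b hb => ?_⟩
    exact exists_oLToZbar_eq_of_fixed L b (fun h hh => hb ⟨h, hh⟩)
  have : q.LiesOver (primeOL L A) := ⟨rfl⟩
  let φ0 : (Zb ⧸ q) ≃ₐ[ℤ ⧸ q.under ℤ] (Zb ⧸ q) :=
    Ideal.Quotient.stabilizerHom q (q.under ℤ) GQ ⟨g1, hg1q⟩
  have hφ0 : ∀ b : Zb, φ0 (Ideal.Quotient.mk q b) = Ideal.Quotient.mk q (g1 • b) := fun b => rfl
  let φ : (Zb ⧸ q) ≃ₐ[𝓞 L ⧸ primeOL L A] (Zb ⧸ q) := AlgEquiv.ofRingEquiv (f := φ0.toRingEquiv) (by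
    intro r
    obtain ⟨a, rfl⟩ := Ideal.Quotient.mk_surjective r
    rw [Ideal.Quotient.algebraMap_mk_of_liesOver]
    show φ0 (Ideal.Quotient.mk q (algebraMap (𝓞 L) Zb a)) = _
    rw [hφ0, Ideal.Quotient.eq, algebraMap_oL_zbar, ← oLToZbar_restrict_smul, hg1, ← map_sub]
    exact hγ a)
  have hφ : ∀ b : Zb, φ (Ideal.Quotient.mk q b) = Ideal.Quotient.mk q (g1 • b) := fun b => rfl
  obtain ⟨⟨h2, hh2⟩, hσ⟩ := Ideal.Quotient.stabilizerHom_surjective_of_profinite
    (G := L.fixingSubgroup) (primeOL L A) q φ.symm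
  refine ⟨h2.1 * g1, mem_inertiaSubgroupIn_of_forall_sub_mem hℓ A hA _ ?_ ?_, ?_⟩
  · rw [mul_smul, hg1q]
    exact hh2
  · intro b
    have h3 := congrArg (fun f => f (Ideal.Quotient.mk q (g1 • b))) hσ
    have h4 : φ.symm (Ideal.Quotient.mk q (g1 • b)) = Ideal.Quotient.mk q b := by
      rw [← hφ, AlgEquiv.symm_apply_apply]
    have h5 : Ideal.Quotient.mk q (h2.1 • (g1 • b)) = Ideal.Quotient.mk q b := h3.trans h4
    rw [mul_smul, ← Ideal.Quotient.eq]
    exact h5
  · rw [map_mul, restrictNormalHom_eq_one_of_mem_fixingSubgroup L h2.1 h2.2, one_mul, hg1]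

end Lift3


section Exists

variable (L : IntermediateField ℚ Qb) [FiniteDimensional ℚ L]

attribute [local instance] algebraOLZbar

theorem natCast_mem_primeOL {ℓ : ℕ} (A : ValuationSubring Qb) (hA : A.LiesOverPrime ℓ) :
    ((ℓ : ℕ) : 𝓞 L) ∈ primeOL L A := by
  rw [mem_primeOL]
  have : algebraMap L Qb (((ℓ : ℕ) : 𝓞 L) : L) = (ℓ : Qb) := by simp
  rw [this]
  exact hA

theorem primeOL_ne_bot {ℓ : ℕ} (hℓ : ℓ.Prime) (A : ValuationSubring Qb) (hA : A.LiesOverPrime ℓ) :
    primeOL L A ≠ ⊥ := by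
  intro h
  have h1 := natCast_mem_primeOL L A hA
  rw [h, Ideal.mem_bot] at h1
  have h2 : ((ℓ : ℕ) : 𝓞 L) ≠ 0 := Nat.cast_ne_zero.mpr hℓ.ne_zero
  exact h2 h1

/-- A prime number lying in the prime cut out by a valuation subring over `ℓ` equals `ℓ`. -/
theorem eq_of_natCast_mem_primeOL {ℓ p : ℕ} (hℓ : ℓ.Prime) (hp : p.Prime)
    (A : ValuationSubring Qb) (hA : A.LiesOverPrime ℓ) (hpA : ((p : ℕ) : 𝓞 L) ∈ primeOL L A) :
    p = ℓ := by
  by_contra hne
  have hcop : Nat.Coprime p ℓ := (Nat.coprime_primes hp hℓ).mpr hne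
  have hcop' : IsCoprime (p : ℤ) (ℓ : ℤ) := Nat.isCoprime_iff_coprime.mpr hcop
  obtain ⟨s, t, hst⟩ := hcop'
  have h1 : (1 : 𝓞 L) ∈ primeOL L A := by
    have h2 := (primeOL L A).add_mem
      ((primeOL L A).mul_mem_left (s : 𝓞 L) hpA)
      ((primeOL L A).mul_mem_left (t : 𝓞 L) (natCast_mem_primeOL L A hA))
    have h3 : ((s : 𝓞 L) * ((p : ℕ) : 𝓞 L) + (t : 𝓞 L) * ((ℓ : ℕ) : 𝓞 L)) = 1 := by
      have := congrArg (Int.cast : ℤ → 𝓞 L) hst
      push_cast at this
      exact this
    rwa [h3] at h2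
  exact (Ideal.ne_top_iff_one _).mp (Ideal.IsPrime.ne_top inferInstance) h1

theorem isIntegral_oL_zbar : Algebra.IsIntegral (𝓞 L) Zb := by
  refine ⟨fun z => ?_⟩
  have h1 : IsIntegral ℤ z := by
    have h2 : IsIntegral ℤ (z : Qb) := z.2
    exact (isIntegral_algHom_iff (integralClosure ℤ Qb).val Subtype.val_injective).mp h2
  exact h1.tower_top

/-- **Every nonzero prime of `𝓞 L` is cut out by a valuation subring of `ℚ̄`.** -/
theorem exists_valuationSubring_primeOL_eq (P : Ideal (𝓞 L)) [P.IsPrime] (hP : P ≠ ⊥) :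
    ∃ (ℓ : ℕ) (A : ValuationSubring Qb), ℓ.Prime ∧ A.LiesOverPrime ℓ ∧ primeOL L A = P := by
  classical
  have : Algebra.IsIntegral (𝓞 L) Zb := isIntegral_oL_zbar L
  have hker : RingHom.ker (algebraMap (𝓞 L) Zb) ≤ P := by
    intro a ha
    rw [RingHom.mem_ker, algebraMap_oL_zbar] at ha
    have : a = 0 := oLToZbar_injective L (by rw [ha, map_zero])
    rw [this]
    exact P.zero_mem
  obtain ⟨Q, hQprime, hQ⟩ := Ideal.exists_ideal_over_prime_of_isIntegral_of_isDomain P (S := Zb) hker
  obtain ⟨B, hB1, hB2⟩ := Ideal.image_subset_nonunits_valuationSubring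
    (A := (integralClosure ℤ Qb).toSubring) Q hQprime.ne_top
  have hPmax : P.IsMaximal := Ideal.IsPrime.isMaximal inferInstance hP
  have hle : P ≤ primeOL L B := by
    intro a ha
    rw [mem_primeOL]
    have h1 : algebraMap (𝓞 L) Zb a ∈ Q := by
      rw [← hQ] at ha
      exact ha
    exact hB2 ⟨_, h1, rfl⟩
  have heq : primeOL L B = P := (hPmax.eq_of_le (Ideal.IsPrime.ne_top inferInstance) hle).symm
  -- the residue characteristic
  have hex : ∃ n : ℕ, 0 < n ∧ ((n : ℕ) : 𝓞 L) ∈ P := by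
    refine ⟨Ideal.absNorm P, ?_, Ideal.absNorm_mem P⟩
    exact Nat.pos_of_ne_zero (fun h => hP (Ideal.absNorm_eq_zero_iff.mp h))
  set n := Nat.find hex with hn
  obtain ⟨hnpos, hnP⟩ := Nat.find_spec hex
  have hmin : ∀ m : ℕ, 0 < m → ((m : ℕ) : 𝓞 L) ∈ P → n ≤ m := fun m h1 h2 =>
    Nat.find_min' hex ⟨h1, h2⟩
  have hnprime : n.Prime := by
    rw [Nat.prime_def_lt]
    refine ⟨?_, ?_⟩
    · by_contra h
      have h1 : n = 1 := by omega
      have h2 : ((1 : ℕ) : 𝓞 L) ∈ P := h1 ▸ hnP
      rw [Nat.cast_one] at h2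
      exact (Ideal.ne_top_iff_one _).mp (Ideal.IsPrime.ne_top inferInstance) h2
    · intro m hm hdvd
      obtain ⟨k, hk⟩ := hdvd
      have hmpos : 0 < m := Nat.pos_of_ne_zero (by rintro rfl; omega)
      have hkpos : 0 < k := Nat.pos_of_ne_zero (by rintro rfl; omega)
      have h3 : ((m : ℕ) : 𝓞 L) * ((k : ℕ) : 𝓞 L) ∈ P := by
        rw [← Nat.cast_mul, ← hk]
        exact hnP
      rcases Ideal.IsPrime.mem_or_mem inferInstance h3 with h4 | h4
      · have := hmin m hmpos h4
        omega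
      · have h5 := hmin k hkpos h4
        have h6 : k ≤ n := Nat.le_of_dvd hnpos ⟨m, by rw [hk, mul_comm]⟩
        have h7 : k = n := le_antisymm h6 h5
        rw [h7] at hk
        have : n * 1 = n * m := by rw [mul_one, mul_comm]; exact hk
        exact (Nat.eq_of_mul_eq_mul_left hnpos this).symm
  refine ⟨n, B, hnprime, ?_, heq⟩
  have h8 : ((n : ℕ) : 𝓞 L) ∈ primeOL L B := heq ▸ hnP
  rw [mem_primeOL] at h8
  have h9 : algebraMap L Qb (((n : ℕ) : 𝓞 L) : L) = (n : Qb) := by simp
  rw [h9] at h8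
  exact h8

/-- Variant: a prime of `𝓞 L` containing the prime number `p` is cut out by a valuation subring
over `p`. -/
theorem exists_valuationSubring_primeOL_eq_of_mem {p : ℕ} (hp : p.Prime) (P : Ideal (𝓞 L))
    [P.IsPrime] (hpP : ((p : ℕ) : 𝓞 L) ∈ P) :
    ∃ A : ValuationSubring Qb, A.LiesOverPrime p ∧ primeOL L A = P := by
  have hP : P ≠ ⊥ := by
    intro h
    rw [h, Ideal.mem_bot] at hpP
    exact (Nat.cast_ne_zero.mpr hp.ne_zero : ((p : ℕ) : 𝓞 L) ≠ 0) hpP
  obtain ⟨ℓ, A, hℓ, hA, hAP⟩ := exists_valuationSubring_primeOL_eq L P hP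
  have : p = ℓ := eq_of_natCast_mem_primeOL L hℓ hp A hA (hAP ▸ hpP)
  subst this
  exact ⟨A, hA, hAP⟩

end Exists

section Lift4

variable (L : IntermediateField ℚ Qb) [FiniteDimensional ℚ L] [IsGalois ℚ L]

/-- **Lifting of decomposition elements**, elementwise form: an automorphism of `L` mapping the
prime of `𝓞 L` cut out by `A` into itself is the restriction of an element of the decomposition
group of `A`. -/
theorem exists_mem_decompositionSubgroup_restrict_eq {ℓ : ℕ} (hℓ : ℓ.Prime)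
    (A : ValuationSubring Qb) (hA : A.LiesOverPrime ℓ) (γ : L ≃ₐ[ℚ] L)
    (hγ : ∀ a : 𝓞 L, a ∈ primeOL L A → γ • a ∈ primeOL L A) :
    ∃ g : GQ, g ∈ A.decompositionSubgroup ℚ ∧ AlgEquiv.restrictNormalHom L g = γ := by
  classical
  have hle : ∀ k : ℕ, ∀ a : 𝓞 L, a ∈ primeOL L A → (γ ^ k) • a ∈ primeOL L A := by
    intro k
    induction k with
    | zero => intro a ha; simpa using ha
    | succ k ih =>
      intro a ha
      rw [pow_succ, mul_smul]
      exact ih _ (hγ a ha)
  have hfin : Finite (L ≃ₐ[ℚ] L) := inferInstance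
  obtain ⟨n, hnpos, hn⟩ := isOfFinOrder_iff_pow_eq_one.mp (isOfFinOrder_of_finite γ)
  have hγP : γ • primeOL L A = primeOL L A := by
    apply le_antisymm
    · intro a ha
      rw [Ideal.mem_pointwise_smul_iff_inv_smul_mem] at ha
      have := hγ _ ha
      rwa [smul_inv_smul] at this
    · intro a ha
      rw [Ideal.mem_pointwise_smul_iff_inv_smul_mem]
      have h1 : γ⁻¹ = γ ^ (n - 1) := by
        rw [inv_eq_iff_mul_eq_one, ← pow_succ', Nat.sub_add_cancel hnpos, hn]
      rw [h1]
      exact hle _ a ha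
  obtain ⟨g, hg, hgγ⟩ := exists_smul_prime_eq_restrict_eq L A γ hγP
  exact ⟨g, mem_decompositionSubgroup_of_smul_prime_eq hℓ A hA g hg, hgγ⟩

end Lift4

end Fermat.Agent.Lib.helper54
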