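import Mathlib
import Fermat.Agent.Lib.helper54_LocalSplit

/-!
# Unramified / split local statements for valuation subrings of `ℚ̄` (helper54)
-/

set_option autoImplicit false
set_option linter.unusedSectionVars false

namespace Fermat.Agent.Lib.helper54

open Polynomial IsDedekindDomain
open scoped Pointwise NumberField

attribute [local instance] isAlgebraic_Qbar isAlgClosure_Qbar isGalois_Qbar isIntegral_Qbar
attribute [local instance] numberField_intermediate

local notation "Qb" => AlgebraicClosure ℚ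
local notation "GQ" => (AlgebraicClosure ℚ ≃ₐ[ℚ] AlgebraicClosure ℚ)
local notation "Zb" => integralClosure ℤ (AlgebraicClosure ℚ)

section Frac

variable (L : IntermediateField ℚ Qb) [FiniteDimensional ℚ L]

theorem intCast_not_mem_primeOL {ℓ : ℕ} (hℓ : ℓ.Prime) (A : ValuationSubring Qb)
    (hA : A.LiesOverPrime ℓ) (m : ℤ) (hm : ¬ (ℓ : ℤ) ∣ m) : ((m : ℤ) : 𝓞 L) ∉ primeOL L A := by
  rw [mem_primeOL]
  have h1 := intCast_not_mem_primeOfValuationSubring hℓ A hA m hm
  rw [mem_primeOfValuationSubring] at h1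
  have h2 : algebraMap L Qb (((m : ℤ) : 𝓞 L) : L) = (((m : ℤ) : Zb) : Qb) := by simp
  rw [h2]
  exact h1

/-- Elements of `L` lying in `A` are fractions of elements of `𝓞 L` with denominator outside
the prime cut out by `A`. -/
theorem exists_frac_oL_of_mem {ℓ : ℕ} (hℓ : ℓ.Prime) (A : ValuationSubring Qb)
    (hA : A.LiesOverPrime ℓ) (x : L) (hx : algebraMap L Qb x ∈ A) :
    ∃ a b : 𝓞 L, b ∉ primeOL L A ∧ x * (b : L) = (a : L) := by
  -- a primitive integer polynomial killing `x`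
  have halg : IsAlgebraic ℤ x := by
    have h1 : IsAlgebraic ℚ x := Algebra.IsAlgebraic.isAlgebraic x
    exact (IsFractionRing.isAlgebraic_iff ℤ ℚ L).mpr h1
  obtain ⟨p, hp0, hpx⟩ := halg
  have hprim : p.primPart.IsPrimitive := p.isPrimitive_primPart
  have hpx' : aeval x p.primPart = 0 := by
    have h1 := p.eq_C_content_mul_primPart
    rw [h1, map_mul, aeval_C] at hpx
    rcases mul_eq_zero.mp hpx with h | h
    · exfalso
      have hc : p.content ≠ 0 := by rwa [Ne, content_eq_zero_iff]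
      apply hc
      have hinj : Function.Injective (algebraMap ℤ L) := (algebraMap ℤ L).injective_int
      exact hinj (by rw [h, map_zero])
    · exact h
  have hcoeff : ∃ i, ¬ (ℓ : ℤ) ∣ p.primPart.coeff i := by
    by_contra hall
    push Not at hall
    have h1 : C (ℓ : ℤ) ∣ p.primPart := (C_dvd_iff_dvd_coeff _ _).mpr hall
    have h2 := hprim _ h1
    exact (Nat.prime_iff_prime_int.mp hℓ).not_isUnit h2
  obtain ⟨i, hi⟩ := hcoeff
  set P : (𝓞 L)[X] := p.primPart.map (algebraMap ℤ (𝓞 L)) with hP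
  have hPx : aeval x P = 0 := by
    rw [hP, aeval_map_algebraMap]
    exact hpx'
  have hPi : P.coeff i ∉ primeOL L A := by
    rw [hP, coeff_map]
    exact intCast_not_mem_primeOL L hℓ A hA _ hi
  have hcl : ∀ y : L, IsIntegral (𝓞 L) y → ∃ r : 𝓞 L, algebraMap (𝓞 L) L r = y := by
    intro y hy
    exact IsIntegrallyClosed.isIntegral_iff.mp hy
  obtain ⟨a, b, hb, h | h⟩ := exists_frac_of_aeval_eq_zero hcl (primeOL L A) x
    P.natDegree P le_rfl hPx ⟨i, hPi⟩
  · exact ⟨a, b, hb, h⟩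
  · refine ⟨b, a, ?_, h⟩
    intro ha
    apply hb
    rw [mem_primeOL] at ha ⊢
    have h4 : algebraMap L Qb (b : L) = algebraMap L Qb x * algebraMap L Qb (a : L) := by
      rw [← map_mul]
      exact congrArg _ h.symm
    rw [h4]
    have h5 : ((⟨algebraMap L Qb x, hx⟩ : A) *
        ⟨algebraMap L Qb (a : L), A.nonunits_le ha⟩) ∈ IsLocalRing.maximalIdeal A :=
      Ideal.mul_mem_left _ _ (ValuationSubring.coe_mem_nonunits_iff.mp ha)
    exact ValuationSubring.coe_mem_nonunits_iff.mpr h5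

end Frac


section Bridge

variable (L : IntermediateField ℚ Qb) [FiniteDimensional ℚ L]

/-- **Dedekind bridge.**  With `P` the prime of `𝓞 L` cut out by `A` and `e` its ramification
index over `ℓ`: there is `s ∉ P` such that `c * s ^ N ∈ ℓ ^ N 𝓞 L` for every `c ∈ P ^ (e N)`. -/
theorem exists_bridge {ℓ : ℕ} (hℓ : ℓ.Prime) (A : ValuationSubring Qb) (hA : A.LiesOverPrime ℓ) :
    ∃ (e : ℕ) (s : 𝓞 L), 0 < e ∧ s ∉ primeOL L A ∧ ((ℓ : ℕ) : 𝓞 L) ∈ primeOL L A ^ e ∧
      ((ℓ : ℕ) : 𝓞 L) ∉ primeOL L A ^ (e + 1) ∧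
      ∀ (N : ℕ) (c : 𝓞 L), c ∈ primeOL L A ^ (e * N) →
        ∃ t : 𝓞 L, c * s ^ N = ((ℓ : ℕ) : 𝓞 L) ^ N * t := by
  classical
  set P := primeOL L A with hP
  set I : Ideal (𝓞 L) := Ideal.span {((ℓ : ℕ) : 𝓞 L)} with hI
  have hℓ0 : ((ℓ : ℕ) : 𝓞 L) ≠ 0 := Nat.cast_ne_zero.mpr hℓ.ne_zero
  have hI0 : I ≠ 0 := by
    rw [hI, Ne, Ideal.zero_eq_bot, Ideal.span_singleton_eq_bot]
    exact hℓ0
  have hPu : ¬ IsUnit P := by
    rw [Ideal.isUnit_iff]
    exact Ideal.IsPrime.ne_top inferInstance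
  have hfin : FiniteMultiplicity P I := FiniteMultiplicity.of_not_isUnit hPu hI0
  obtain ⟨J, hJ, hPJ⟩ := hfin.exists_eq_pow_mul_and_not_dvd
  set e := multiplicity P I with he
  have hIP : I ≤ P := by
    rw [hI, Ideal.span_singleton_le_iff_mem]
    exact natCast_mem_primeOL L A hA
  have hepos : 0 < e := by
    rw [Nat.pos_iff_ne_zero]
    intro h0
    rw [h0, pow_zero, one_mul] at hJ
    exact hPJ (hJ ▸ Ideal.dvd_iff_le.mpr hIP)
  have hJP : ¬ J ≤ P := fun h => hPJ (Ideal.dvd_iff_le.mpr h)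
  obtain ⟨s, hsJ, hsP⟩ := SetLike.not_le_iff_exists.mp hJP
  have hPe0 : P ^ e ≠ 0 := by
    intro h
    rw [h, zero_mul] at hJ
    exact hI0 hJ
  refine ⟨e, s, hepos, hsP, ?_, ?_, ?_⟩
  · have h1 : I ≤ P ^ e := by
      rw [hJ]
      exact Ideal.mul_le_left (I := P ^ e) (J := J)
    exact h1 (Ideal.subset_span rfl)
  · intro hmem
    have h1 : I ≤ P ^ (e + 1) := by
      rw [hI, Ideal.span_singleton_le_iff_mem]
      exact hmem
    have h2 : P ^ (e + 1) ∣ I := Ideal.dvd_iff_le.mpr h1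
    rw [hJ, pow_succ] at h2
    exact hPJ ((mul_dvd_mul_iff_left hPe0).mp h2)
  · intro N c hc
    have h1 : c * s ^ N ∈ P ^ (e * N) * J ^ N :=
      Ideal.mul_mem_mul hc (Ideal.pow_mem_pow hsJ N)
    have h2 : P ^ (e * N) * J ^ N = Ideal.span {((ℓ : ℕ) : 𝓞 L) ^ N} := by
      rw [pow_mul, ← mul_pow, ← hJ, hI, Ideal.span_singleton_pow]
    rw [h2, Ideal.mem_span_singleton'] at h1
    obtain ⟨t, ht⟩ := h1
    exact ⟨t, by rw [← ht, mul_comm]⟩

variable [IsGalois ℚ L]

/-- **Unramifiedness.**  If the inertia group of `A` acts trivially on `L`, then `ℓ` is a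
uniformizer at the prime of `𝓞 L` cut out by `A`. -/
theorem natCast_not_mem_primeOL_sq {ℓ : ℕ} (hℓ : ℓ.Prime) (A : ValuationSubring Qb)
    (hA : A.LiesOverPrime ℓ) (hI : A.inertiaSubgroupIn ℚ ≤ L.fixingSubgroup) :
    ((ℓ : ℕ) : 𝓞 L) ∉ primeOL L A ^ 2 := by
  classical
  set P := primeOL L A with hP
  set p : Ideal ℤ := Ideal.span {(ℓ : ℤ)} with hp
  have hpmax : p.IsMaximal :=
    PrincipalIdealRing.isMaximal_of_irreducible (Nat.prime_iff_prime_int.mp hℓ).irreducible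
  have hunder : p = P.under ℤ := by
    have hle : p ≤ P.under ℤ := by
      rw [hp, Ideal.span_singleton_le_iff_mem, Ideal.under_def, Ideal.mem_comap]
      have := natCast_mem_primeOL L A hA
      simpa using this
    have hne : P.under ℤ ≠ ⊤ := by
      have : (P.under ℤ).IsPrime := inferInstance
      exact this.ne_top
    exact hpmax.eq_of_le hne hle
  have : P.LiesOver p := ⟨hunder⟩
  have hℓ0 : ((ℓ : ℕ) : 𝓞 L) ≠ 0 := Nat.cast_ne_zero.mpr hℓ.ne_zero
  have hmapeq : Ideal.map (algebraMap ℤ (𝓞 L)) p = Ideal.span {((ℓ : ℕ) : 𝓞 L)} := by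
    rw [hp, Ideal.map_span, Set.image_singleton]
    simp
  have hmap : Ideal.map (algebraMap ℤ (𝓞 L)) p ≠ ⊥ := by
    rw [hmapeq, Ne, Ideal.span_singleton_eq_bot]
    exact hℓ0
  have hpprime : p.IsPrime := hpmax.isPrime
  have hperf : PerfectField p.ResidueField := inferInstance
  have hcard := Ideal.card_inertia_eq_ramificationIdxIn (G := L ≃ₐ[ℚ] L) p P
  rw [Ideal.ramificationIdxIn_eq_ramificationIdx p P (L ≃ₐ[ℚ] L),
    Ideal.IsDedekindDomain.ramificationIdx_eq_multiplicity p P hmap] at hcard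
  have hbot : P.inertia (L ≃ₐ[ℚ] L) = ⊥ := by
    rw [eq_bot_iff]
    intro γ hγ
    rw [Subgroup.mem_bot]
    obtain ⟨g, hg, hgγ⟩ := exists_mem_inertiaSubgroupIn_restrict_eq L hℓ A hA γ hγ
    rw [← hgγ]
    exact restrictNormalHom_eq_one_of_mem_fixingSubgroup L g (hI hg)
  rw [hbot, Subgroup.card_bot] at hcard
  have hPu : ¬ IsUnit P := by
    rw [Ideal.isUnit_iff]
    exact Ideal.IsPrime.ne_top inferInstance
  have hfin : FiniteMultiplicity P (Ideal.map (algebraMap ℤ (𝓞 L)) p) :=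
    FiniteMultiplicity.of_not_isUnit hPu hmap
  intro hmem
  have h1 : P ^ 2 ∣ Ideal.map (algebraMap ℤ (𝓞 L)) p := by
    rw [Ideal.dvd_iff_le, hmapeq, Ideal.span_singleton_le_iff_mem]
    exact hmem
  have h2 := hfin.le_multiplicity_of_pow_dvd h1
  omega

end Bridge


section Val

variable (L : IntermediateField ℚ Qb) [FiniteDimensional ℚ L]

theorem valuation_natCast_lt_one {ℓ : ℕ} (A : ValuationSubring Qb) (hA : A.LiesOverPrime ℓ) :
    A.valuation ((ℓ : ℕ) : Qb) < 1 :=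
  A.mem_nonunits_iff.mp hA

theorem valuation_natCast_ne_zero {ℓ : ℕ} (hℓ : ℓ.Prime) (A : ValuationSubring Qb) :
    A.valuation ((ℓ : ℕ) : Qb) ≠ 0 := by
  rw [Ne, map_eq_zero]
  exact Nat.cast_ne_zero.mpr hℓ.ne_zero

theorem valuation_oL_le_one (A : ValuationSubring Qb) (a : 𝓞 L) :
    A.valuation (algebraMap L Qb (a : L)) ≤ 1 := by
  rw [A.valuation_le_one_iff]
  exact mem_valuationSubring_of_isIntegral A _ (oLToZbar L a).2

theorem valuation_oL_lt_one_iff (A : ValuationSubring Qb) (a : 𝓞 L) :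
    A.valuation (algebraMap L Qb (a : L)) < 1 ↔ a ∈ primeOL L A := by
  rw [mem_primeOL, A.mem_nonunits_iff]

theorem valuation_oL_eq_one_iff (A : ValuationSubring Qb) (a : 𝓞 L) :
    A.valuation (algebraMap L Qb (a : L)) = 1 ↔ a ∉ primeOL L A := by
  rw [← valuation_oL_lt_one_iff, not_lt]
  exact ⟨fun h => h.ge, fun h => le_antisymm (valuation_oL_le_one L A a) h⟩

theorem valuation_intCast_eq_one {ℓ : ℕ} (hℓ : ℓ.Prime) (A : ValuationSubring Qb)
    (hA : A.LiesOverPrime ℓ) (m : ℤ) (hm : ¬ (ℓ : ℤ) ∣ m) : A.valuation ((m : ℤ) : Qb) = 1 := by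
  have h1 := intCast_not_mem_primeOfValuationSubring hℓ A hA m hm
  rw [mem_primeOfValuationSubring, A.mem_nonunits_iff, not_lt] at h1
  have h2 : A.valuation ((((m : ℤ) : Zb) : Qb)) ≤ 1 := by
    rw [A.valuation_le_one_iff]
    exact mem_valuationSubring_of_isIntegral A _ ((m : ℤ) : Zb).2
  have h3 : ((((m : ℤ) : Zb) : Qb)) = ((m : ℤ) : Qb) := by simp
  rw [h3] at h1 h2
  exact le_antisymm h2 h1

/-- **Boundedness**: a nonzero element of `𝓞 L` has valuation bigger than a power of `v(ℓ)`. -/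
theorem exists_pow_lt_valuation {ℓ : ℕ} (hℓ : ℓ.Prime) (A : ValuationSubring Qb)
    (hA : A.LiesOverPrime ℓ) (c : 𝓞 L) (hc : c ≠ 0) :
    ∃ k : ℕ, A.valuation ((ℓ : ℕ) : Qb) ^ k < A.valuation (algebraMap L Qb (c : L)) := by
  have hN0 : Ideal.absNorm (Ideal.span {c}) ≠ 0 := by
    rw [Ne, Ideal.absNorm_eq_zero_iff, Ideal.span_singleton_eq_bot]
    exact hc
  have hmem := Ideal.absNorm_mem (Ideal.span {c})
  rw [Ideal.mem_span_singleton'] at hmem
  obtain ⟨w, hw⟩ := hmem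
  obtain ⟨m, u, hu, hNu⟩ := Nat.exists_eq_pow_mul_and_not_dvd hN0 ℓ hℓ.ne_one
  refine ⟨m + 1, ?_⟩
  have h1 : algebraMap L Qb (w : L) * algebraMap L Qb (c : L) = ((ℓ : ℕ) : Qb) ^ m * ((u : ℕ) : Qb) := by
    have h2 := congrArg (fun z : 𝓞 L => algebraMap L Qb (z : L)) hw
    simp only [hNu] at h2
    rw [← map_mul]
    convert h2 using 1
    · simp
    · simp
  have h3 : A.valuation ((u : ℕ) : Qb) = 1 := by
    have := valuation_intCast_eq_one hℓ A hA (u : ℤ) (by exact_mod_cast hu)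
    simpa using this
  have h4 := congrArg A.valuation h1
  rw [map_mul, map_mul, map_pow, h3, mul_one] at h4
  have h5 : A.valuation ((ℓ : ℕ) : Qb) ^ m ≤ A.valuation (algebraMap L Qb (c : L)) := by
    rw [← h4]
    exact mul_le_of_le_one_left' (valuation_oL_le_one L A w)
  refine lt_of_lt_of_le ?_ h5
  rw [pow_succ]
  have h6 : A.valuation ((ℓ : ℕ) : Qb) ^ m ≠ 0 := pow_ne_zero _ (valuation_natCast_ne_zero hℓ A)
  calc A.valuation ((ℓ : ℕ) : Qb) ^ m * A.valuation ((ℓ : ℕ) : Qb)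
      < A.valuation ((ℓ : ℕ) : Qb) ^ m * 1 :=
        mul_lt_mul_of_pos_left (valuation_natCast_lt_one A hA) (zero_lt_iff.mpr h6)
    _ = A.valuation ((ℓ : ℕ) : Qb) ^ m := mul_one _

end Val


section Unramified

variable (L : IntermediateField ℚ Qb) [FiniteDimensional ℚ L] [IsGalois ℚ L]

/-- Unramified case, integral elements: the valuation of a nonzero element of `𝓞 L` is a power
of the valuation of `ℓ`. -/
theorem exists_valuation_oL_eq_pow {ℓ : ℕ} (hℓ : ℓ.Prime) (A : ValuationSubring Qb)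
    (hA : A.LiesOverPrime ℓ) (hI : A.inertiaSubgroupIn ℚ ≤ L.fixingSubgroup) (c : 𝓞 L)
    (hc : c ≠ 0) :
    ∃ n : ℕ, A.valuation (algebraMap L Qb (c : L)) = A.valuation ((ℓ : ℕ) : Qb) ^ n := by
  obtain ⟨e, s, hepos, hsP, hℓe, hℓe1, hbr⟩ := exists_bridge L hℓ A hA
  have he1 : e = 1 := by
    by_contra hne
    have h2 : 2 ≤ e := by omega
    exact natCast_not_mem_primeOL_sq L hℓ A hA hI (Ideal.pow_le_pow_right h2 hℓe)
  subst he1
  obtain ⟨k, hk⟩ := exists_pow_lt_valuation L hℓ A hA c hc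
  induction k generalizing c with
  | zero =>
    exfalso
    rw [pow_zero] at hk
    exact absurd (valuation_oL_le_one L A c) (not_le.mpr hk)
  | succ k ih =>
    by_cases hcP : c ∈ primeOL L A
    · obtain ⟨t, ht⟩ := hbr 1 c (by simpa using hcP)
      rw [pow_one, pow_one] at ht
      have hs0 : s ≠ 0 := by
        rintro rfl
        exact hsP (Ideal.zero_mem _)
      have ht0 : t ≠ 0 := by
        rintro rfl
        rw [mul_zero] at ht
        exact (mul_ne_zero hc hs0) ht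
      have hs1 : A.valuation (algebraMap L Qb (s : L)) = 1 :=
        (valuation_oL_eq_one_iff L A s).mpr hsP
      have h1 : A.valuation (algebraMap L Qb (c : L)) =
          A.valuation ((ℓ : ℕ) : Qb) * A.valuation (algebraMap L Qb (t : L)) := by
        have h2 := congrArg (fun z : 𝓞 L => A.valuation (algebraMap L Qb (z : L))) ht
        simp only [map_mul, hs1, mul_one] at h2
        have h3 : algebraMap L Qb (((ℓ : ℕ) : 𝓞 L) : L) = ((ℓ : ℕ) : Qb) := by simp
        rw [h2, h3]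
      have h2 : A.valuation ((ℓ : ℕ) : Qb) ^ k < A.valuation (algebraMap L Qb (t : L)) := by
        rw [h1, pow_succ'] at hk
        exact lt_of_mul_lt_mul_left hk zero_le
      obtain ⟨n, hn⟩ := ih t ht0 h2
      exact ⟨n + 1, by rw [h1, hn, pow_succ']⟩
    · exact ⟨0, by rw [pow_zero]; exact (valuation_oL_eq_one_iff L A c).mpr hcP⟩

/-- **(T1) Unramified case.**  If the inertia group of `A` acts trivially on the finite Galois
extension `L`, then the valuation of every nonzero element of `L` is an integral power of the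
valuation of `ℓ`. -/
theorem exists_zpow_valuation_eq {ℓ : ℕ} (hℓ : ℓ.Prime) (A : ValuationSubring Qb)
    (hA : A.LiesOverPrime ℓ) (hI : A.inertiaSubgroupIn ℚ ≤ L.fixingSubgroup) (x : Qb)
    (hxL : x ∈ L) (hx0 : x ≠ 0) :
    ∃ n : ℤ, A.valuation x = A.valuation ((ℓ : ℕ) : Qb) ^ n := by
  obtain ⟨a, b, hb, hab⟩ := IsFractionRing.div_surjective (A := 𝓞 L) (⟨x, hxL⟩ : L)
  have hb0 : b ≠ 0 := nonZeroDivisors.ne_zero hb
  have ha0 : a ≠ 0 := by
    rintro rfl
    rw [map_zero, zero_div] at hab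
    exact hx0 (congrArg Subtype.val hab.symm)
  obtain ⟨na, hna⟩ := exists_valuation_oL_eq_pow L hℓ A hA hI a ha0
  obtain ⟨nb, hnb⟩ := exists_valuation_oL_eq_pow L hℓ A hA hI b hb0
  refine ⟨(na : ℤ) - nb, ?_⟩
  have h1 : x = algebraMap L Qb (a : L) / algebraMap L Qb (b : L) := by
    rw [← map_div₀]
    exact (congrArg (algebraMap L Qb) hab).symm
  rw [h1, map_div₀, hna, hnb, zpow_sub₀ (valuation_natCast_ne_zero hℓ A), zpow_natCast,
    zpow_natCast]

/-- **(T1)**, unit form: some `x * ℓ ^ n` is a unit of `A`. -/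
theorem exists_zpow_valuation_mul_eq_one {ℓ : ℕ} (hℓ : ℓ.Prime) (A : ValuationSubring Qb)
    (hA : A.LiesOverPrime ℓ) (hI : A.inertiaSubgroupIn ℚ ≤ L.fixingSubgroup) (x : Qb)
    (hxL : x ∈ L) (hx0 : x ≠ 0) :
    ∃ n : ℤ, A.valuation (x * ((ℓ : ℕ) : Qb) ^ n) = 1 := by
  obtain ⟨n, hn⟩ := exists_zpow_valuation_eq L hℓ A hA hI x hxL hx0
  refine ⟨-n, ?_⟩
  rw [map_mul, map_zpow₀, hn, ← zpow_add₀ (valuation_natCast_ne_zero hℓ A), add_neg_cancel,
    zpow_zero]

end Unramified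

section Dict

variable (L : IntermediateField ℚ Qb) [FiniteDimensional ℚ L]

/-- The height-one prime of `𝓞 L` cut out by a valuation subring of `ℚ̄` over `ℓ`. -/
noncomputable def heightOneOL {ℓ : ℕ} (hℓ : ℓ.Prime) (A : ValuationSubring Qb)
    (hA : A.LiesOverPrime ℓ) : HeightOneSpectrum (𝓞 L) :=
  ⟨primeOL L A, primeOL_isPrime L A, primeOL_ne_bot L hℓ A hA⟩

theorem heightOneOL_asIdeal {ℓ : ℕ} (hℓ : ℓ.Prime) (A : ValuationSubring Qb)
    (hA : A.LiesOverPrime ℓ) : (heightOneOL L hℓ A hA).asIdeal = primeOL L A := rfl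

theorem heightOneOL_valuation_oL_eq_one {ℓ : ℕ} (hℓ : ℓ.Prime) (A : ValuationSubring Qb)
    (hA : A.LiesOverPrime ℓ) (b : 𝓞 L) (hb : b ∉ primeOL L A) :
    (heightOneOL L hℓ A hA).valuation L (b : L) = 1 := by
  have h1 := (heightOneOL L hℓ A hA).valuation_le_one (K := L) b
  have h2 := ((heightOneOL L hℓ A hA).valuation_lt_one_iff_mem (K := L) b).not.mpr hb
  exact le_antisymm h1 (not_lt.mp h2)

/-- **Dictionary**: an element of `L` is integral for the adic valuation at the prime cut out by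
`A` iff it lies in `A`. -/
theorem heightOneOL_valuation_le_one_iff {ℓ : ℕ} (hℓ : ℓ.Prime) (A : ValuationSubring Qb)
    (hA : A.LiesOverPrime ℓ) (x : L) :
    (heightOneOL L hℓ A hA).valuation L x ≤ 1 ↔ A.valuation (algebraMap L Qb x) ≤ 1 := by
  constructor
  · intro h
    by_contra hcon
    rw [not_le] at hcon
    have hx0 : x ≠ 0 := by
      rintro rfl
      rw [map_zero, map_zero] at hcon
      exact absurd hcon (not_lt.mpr zero_le)
    have hinv : A.valuation (algebraMap L Qb x⁻¹) < 1 := by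
      rw [map_inv₀, map_inv₀]
      exact inv_lt_one_of_one_lt₀ hcon
    obtain ⟨a, b, hb, hab⟩ := exists_frac_oL_of_mem L hℓ A hA x⁻¹
      ((A.valuation_le_one_iff _).mp hinv.le)
    have haP : a ∈ primeOL L A := by
      rw [← valuation_oL_lt_one_iff, ← hab, map_mul, map_mul]
      exact lt_of_le_of_lt (mul_le_of_le_one_right' (valuation_oL_le_one L A b)) hinv
    have h1 := ((heightOneOL L hℓ A hA).valuation_lt_one_iff_mem (K := L) a).mpr haP
    have h2 := congrArg ((heightOneOL L hℓ A hA).valuation L) hab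
    rw [map_mul, heightOneOL_valuation_oL_eq_one L hℓ A hA b hb, mul_one, map_inv₀] at h2
    have h3 : (heightOneOL L hℓ A hA).valuation L (a : L) < 1 := h1
    rw [← h2] at h3
    have hne : (heightOneOL L hℓ A hA).valuation L x ≠ 0 := by
      rw [Ne, map_eq_zero]
      exact hx0
    have h4 := (inv_lt_one₀ (zero_lt_iff.mpr hne)).mp h3
    exact absurd h (not_le.mpr h4)
  · intro h
    obtain ⟨a, b, hb, hab⟩ := exists_frac_oL_of_mem L hℓ A hA x ((A.valuation_le_one_iff _).mp h)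
    have h2 := congrArg ((heightOneOL L hℓ A hA).valuation L) hab
    rw [map_mul, heightOneOL_valuation_oL_eq_one L hℓ A hA b hb, mul_one] at h2
    rw [h2]
    exact (heightOneOL L hℓ A hA).valuation_le_one (K := L) a

theorem heightOneOL_valuation_lt_one_iff {ℓ : ℕ} (hℓ : ℓ.Prime) (A : ValuationSubring Qb)
    (hA : A.LiesOverPrime ℓ) (x : L) :
    (heightOneOL L hℓ A hA).valuation L x < 1 ↔ A.valuation (algebraMap L Qb x) < 1 := by
  by_cases hx0 : x = 0
  · subst hx0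
    simp
  have h := heightOneOL_valuation_le_one_iff L hℓ A hA x⁻¹
  rw [map_inv₀, map_inv₀, map_inv₀] at h
  have hne : (heightOneOL L hℓ A hA).valuation L x ≠ 0 := by
    rw [Ne, map_eq_zero]
    exact hx0
  have hne' : A.valuation (algebraMap L Qb x) ≠ 0 := by
    rw [Ne, map_eq_zero, map_eq_zero]
    exact hx0
  rw [inv_le_one₀ (zero_lt_iff.mpr hne), inv_le_one₀ (zero_lt_iff.mpr hne')] at h
  constructor
  · intro h1
    by_contra h2
    rw [not_lt] at h2
    exact absurd (h.mpr h2) (not_le.mpr h1)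
  · intro h1
    by_contra h2
    rw [not_lt] at h2
    exact absurd (h.mp h2) (not_le.mpr h1)

theorem heightOneOL_valuation_eq_one_iff {ℓ : ℕ} (hℓ : ℓ.Prime) (A : ValuationSubring Qb)
    (hA : A.LiesOverPrime ℓ) (x : L) :
    (heightOneOL L hℓ A hA).valuation L x = 1 ↔ A.valuation (algebraMap L Qb x) = 1 := by
  have h1 := heightOneOL_valuation_le_one_iff L hℓ A hA x
  have h2 := heightOneOL_valuation_lt_one_iff L hℓ A hA x
  constructor
  · intro h
    exact le_antisymm (h1.mp h.le) (not_lt.mp (fun h3 => absurd (h2.mpr h3) (not_lt.mpr h.ge)))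
  · intro h
    exact le_antisymm (h1.mpr h.le) (not_lt.mp (fun h3 => absurd (h2.mp h3) (not_lt.mpr h.ge)))

/-- An element of `𝓞 L` whose valuation at `A` is at most that of `ℓ ^ N` lies in the `N`-th
power of the prime cut out by `A`. -/
theorem mem_primeOL_pow_of_valuation_le {ℓ : ℕ} (hℓ : ℓ.Prime) (A : ValuationSubring Qb)
    (hA : A.LiesOverPrime ℓ) (z : 𝓞 L) (N : ℕ)
    (h : A.valuation (algebraMap L Qb (z : L)) ≤ A.valuation ((ℓ : ℕ) : Qb) ^ N) :
    z ∈ primeOL L A ^ N := by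
  have hℓ0 : ((ℓ : ℕ) : L) ≠ 0 := Nat.cast_ne_zero.mpr hℓ.ne_zero
  have hx : A.valuation (algebraMap L Qb ((z : L) / ((ℓ : ℕ) : L) ^ N)) ≤ 1 := by
    rw [map_div₀, map_div₀, map_pow, map_pow, map_natCast]
    exact div_le_one_of_le₀ h zero_le
  obtain ⟨a, b, hb, hab⟩ := exists_frac_oL_of_mem L hℓ A hA _ ((A.valuation_le_one_iff _).mp hx)
  have h1 : (b * z : 𝓞 L) = ((ℓ : ℕ) : 𝓞 L) ^ N * a := by
    apply NumberField.RingOfIntegers.ext
    have e1 : ((b * z : 𝓞 L) : L) = (b : L) * (z : L) := by simp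
    have e2 : ((((ℓ : ℕ) : 𝓞 L) ^ N * a : 𝓞 L) : L) = ((ℓ : ℕ) : L) ^ N * (a : L) := by simp
    rw [e1, e2, ← hab]
    field_simp
  have h2 : b * z ∈ primeOL L A ^ N := by
    rw [h1]
    exact Ideal.mul_mem_right _ _ (Ideal.pow_mem_pow (natCast_mem_primeOL L A hA) N)
  exact (Ideal.IsPrime.mul_mem_pow (primeOL L A) h2).resolve_left hb

/-- Conversely, with `e` the ramification index: elements of `P ^ (e N)` have valuation at most
that of `ℓ ^ N`. -/
theorem exists_ramification_valuation_le {ℓ : ℕ} (hℓ : ℓ.Prime) (A : ValuationSubring Qb)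
    (hA : A.LiesOverPrime ℓ) :
    ∃ e : ℕ, 0 < e ∧ ∀ (N : ℕ) (c : 𝓞 L), c ∈ primeOL L A ^ (e * N) →
      A.valuation (algebraMap L Qb (c : L)) ≤ A.valuation ((ℓ : ℕ) : Qb) ^ N := by
  obtain ⟨e, s, hepos, hsP, -, -, hbr⟩ := exists_bridge L hℓ A hA
  refine ⟨e, hepos, fun N c hc => ?_⟩
  obtain ⟨t, ht⟩ := hbr N c hc
  have hs1 : A.valuation (algebraMap L Qb (s : L)) = 1 :=
    (valuation_oL_eq_one_iff L A s).mpr hsP
  have h2 := congrArg (fun z : 𝓞 L => A.valuation (algebraMap L Qb (z : L))) ht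
  simp only [map_mul, map_pow, hs1, one_pow, mul_one] at h2
  rw [h2]
  have h3 : algebraMap L Qb (((ℓ : ℕ) : 𝓞 L) : L) = ((ℓ : ℕ) : Qb) := by simp
  rw [h3]
  exact mul_le_of_le_one_right' (valuation_oL_le_one L A t)

end Dict


section UnramifiedCor

variable (K L : IntermediateField ℚ Qb) [FiniteDimensional ℚ K] [FiniteDimensional ℚ L]
  [IsGalois ℚ L]

/-- **(T1), number-field form.**  If the inertia group of `A` acts trivially on `L` and
`x ∈ K` is a `p`-th power of an element `θ` of `L`, then the order of `x` at the prime of `𝓞 K`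
cut out by `A` is divisible by `p`. -/
theorem exists_heightOneOL_valuation_eq_exp_mul {ℓ : ℕ} (hℓ : ℓ.Prime) (A : ValuationSubring Qb)
    (hA : A.LiesOverPrime ℓ) (hI : A.inertiaSubgroupIn ℚ ≤ L.fixingSubgroup) (p : ℕ) (x : K)
    (hx0 : x ≠ 0) (θ : Qb) (hθL : θ ∈ L) (hθ : θ ^ p = algebraMap K Qb x) :
    ∃ k : ℤ, (heightOneOL K hℓ A hA).valuation K x = WithZero.exp ((p : ℤ) * k) := by
  set w := heightOneOL K hℓ A hA with hw
  have hwx : w.valuation K x ≠ 0 := by
    rw [Ne, map_eq_zero]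
    exact hx0
  by_cases hp0 : p = 0
  · subst hp0
    rw [pow_zero] at hθ
    have hx1 : x = 1 := by
      apply (algebraMap K Qb).injective
      rw [← hθ, map_one]
    refine ⟨0, ?_⟩
    rw [hx1, map_one]
    simp
  have hθ0 : θ ≠ 0 := by
    rintro rfl
    rw [zero_pow hp0] at hθ
    apply hx0
    apply (algebraMap K Qb).injective
    rw [← hθ, map_zero]
  obtain ⟨n, hn⟩ := exists_zpow_valuation_eq L hℓ A hA hI θ hθL hθ0
  have hℓK : (((ℓ : ℕ) : K)) ≠ 0 := Nat.cast_ne_zero.mpr hℓ.ne_zero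
  set y : K := x * (((ℓ : ℕ) : K) ^ (n * (p : ℤ)))⁻¹ with hy
  have hy1 : A.valuation (algebraMap K Qb y) = 1 := by
    rw [hy, map_mul, map_inv₀, map_zpow₀, map_natCast, ← hθ, map_mul, map_pow, hn, map_inv₀,
      map_zpow₀, ← zpow_natCast, ← zpow_mul]
    exact mul_inv_cancel₀ (zpow_ne_zero _ (valuation_natCast_ne_zero hℓ A))
  have hy2 := (heightOneOL_valuation_eq_one_iff K hℓ A hA y).mpr hy1
  rw [← hw, hy, map_mul, map_inv₀, map_zpow₀] at hy2
  have hwℓ : w.valuation K (((ℓ : ℕ) : K)) ≠ 0 := by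
    rw [Ne, map_eq_zero]
    exact hℓK
  have h3 : w.valuation K x = w.valuation K (((ℓ : ℕ) : K)) ^ (n * (p : ℤ)) :=
    (mul_inv_eq_one₀ (zpow_ne_zero _ hwℓ)).mp hy2
  refine ⟨n * WithZero.log (w.valuation K (((ℓ : ℕ) : K))), ?_⟩
  rw [h3, ← WithZero.exp_log hwℓ, ← WithZero.exp_zsmul, WithZero.log_exp]
  congr 1
  rw [smul_eq_mul]
  ring

end UnramifiedCor

end Fermat.Agent.Lib.helper54
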