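import Mathlib

set_option autoImplicit false

/-!
# The `x`-only binary ladder on a Weierstrass curve (helper5856)

For a Weierstrass curve with `b`-invariants `b₂ b₄ b₆ b₈` we define, over any commutative
ring, projective `x`-coordinates `lad n = (Xₙ, Zₙ)` of `n • P` for `P = (x, y)`:
doubling `dbl` and differential addition `dad` (difference `P`).  Main results:

* `lad_spec`: over a field, for `P = some x y h`, `lad n = c • xRep (n • P)` with `c ≠ 0`;
* `nsmul_eq_zero_iff`: `n • P = 0 ↔ (lad n).2 = 0`;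
* `nsmul_some_X`: `n • P = some X Y _ → X * (lad n).2 = (lad n).1`;
* `ladP`: the polynomial ladder (`x := X`), with exact degrees and leading coefficients
  `(n², 1)` and `(n² - 1, n²)` (`ladP_isLC`), compatible with evaluation (`ladP_eval`).
-/

namespace Fermat.Agent.Lib.helper5856

open Polynomial

section Defs

variable {R : Type*} [CommRing R]

/-- Projective `x`-only doubling: `(X : Z) ↦ (φ₂ : ψ₂²)`. -/
def dbl (b₂ b₄ b₆ b₈ : R) (p : R × R) : R × R :=
  (p.1 ^ 4 - b₄ * p.1 ^ 2 * p.2 ^ 2 - 2 * b₆ * p.1 * p.2 ^ 3 - b₈ * p.2 ^ 4,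
   4 * p.1 ^ 3 * p.2 + b₂ * p.1 ^ 2 * p.2 ^ 2 + 2 * b₄ * p.1 * p.2 ^ 3 + b₆ * p.2 ^ 4)

/-- Projective `x`-only differential addition: from `x(Q) = p`, `x(Q') = q` and
`x(Q - Q') = (x : 1)` compute `x(Q + Q')`. -/
def dad (b₂ b₄ b₆ x : R) (p q : R × R) : R × R :=
  ((p.1 * q.2 + q.1 * p.2) * (2 * p.1 * q.1 + b₄ * p.2 * q.2) + b₂ * p.1 * q.1 * p.2 * q.2
      + b₆ * p.2 ^ 2 * q.2 ^ 2 - x * (p.1 * q.2 - q.1 * p.2) ^ 2,
   (p.1 * q.2 - q.1 * p.2) ^ 2)

/-- The binary ladder: `lad n = (Xₙ, Zₙ)`, projective `x`-coordinate of `n • (x, y)`. -/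
def lad (b₂ b₄ b₆ b₈ x : R) : ℕ → R × R
  | 0 => (1, 0)
  | 1 => (x, 1)
  | (n + 2) =>
    if _h : (n + 2) % 2 = 0 then dbl b₂ b₄ b₆ b₈ (lad b₂ b₄ b₆ b₈ x ((n + 2) / 2))
    else dad b₂ b₄ b₆ x (lad b₂ b₄ b₆ b₈ x ((n + 2) / 2 + 1)) (lad b₂ b₄ b₆ b₈ x ((n + 2) / 2))
  decreasing_by all_goals omega

variable (b₂ b₄ b₆ b₈ x : R)

@[simp] theorem lad_zero : lad b₂ b₄ b₆ b₈ x 0 = (1, 0) := by rw [lad]

@[simp] theorem lad_one : lad b₂ b₄ b₆ b₈ x 1 = (x, 1) := by rw [lad]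

theorem lad_even {k : ℕ} (hk : 1 ≤ k) :
    lad b₂ b₄ b₆ b₈ x (2 * k) = dbl b₂ b₄ b₆ b₈ (lad b₂ b₄ b₆ b₈ x k) := by
  obtain ⟨m, rfl⟩ : ∃ m, k = m + 1 := ⟨k - 1, by omega⟩
  have h2 : 2 * (m + 1) = 2 * m + 2 := by ring
  have h0 : (2 * m + 2) % 2 = 0 := by omega
  have h1 : (2 * m + 2) / 2 = m + 1 := by omega
  rw [h2, lad, dif_pos h0, h1]

theorem lad_odd {k : ℕ} (hk : 1 ≤ k) :
    lad b₂ b₄ b₆ b₈ x (2 * k + 1) =
      dad b₂ b₄ b₆ x (lad b₂ b₄ b₆ b₈ x (k + 1)) (lad b₂ b₄ b₆ b₈ x k) := by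
  obtain ⟨m, rfl⟩ : ∃ m, k = m + 1 := ⟨k - 1, by omega⟩
  have h2 : 2 * (m + 1) + 1 = (2 * m + 1) + 2 := by ring
  have h0 : ¬ ((2 * m + 1) + 2) % 2 = 0 := by omega
  have h1 : ((2 * m + 1) + 2) / 2 = m + 1 := by omega
  rw [h2, lad, dif_neg h0, h1]

/-- Strong induction principle adapted to the ladder. -/
theorem lad_induction {motive : ℕ → Prop} (h0 : motive 0) (h1 : motive 1)
    (heven : ∀ k, 1 ≤ k → motive k → motive (2 * k))
    (hodd : ∀ k, 1 ≤ k → motive k → motive (k + 1) → motive (2 * k + 1)) :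
    ∀ n, motive n := by
  intro n
  induction n using Nat.strong_induction_on with
  | _ n ih =>
    rcases Nat.lt_or_ge n 2 with hn | hn
    · interval_cases n
      · exact h0
      · exact h1
    · rcases Nat.even_or_odd' n with ⟨k, rfl | rfl⟩
      · exact heven k (by omega) (ih k (by omega))
      · exact hodd k (by omega) (ih k (by omega)) (ih (k + 1) (by omega))

section Map

variable {S : Type*} [CommRing S] (f : R →+* S)

theorem map_dbl (p : R × R) :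
    dbl (f b₂) (f b₄) (f b₆) (f b₈) (f p.1, f p.2) =
      (f (dbl b₂ b₄ b₆ b₈ p).1, f (dbl b₂ b₄ b₆ b₈ p).2) := by
  simp [dbl, map_ofNat]

theorem map_dad (p q : R × R) :
    dad (f b₂) (f b₄) (f b₆) (f x) (f p.1, f p.2) (f q.1, f q.2) =
      (f (dad b₂ b₄ b₆ x p q).1, f (dad b₂ b₄ b₆ x p q).2) := by
  simp [dad, map_ofNat]

/-- The ladder commutes with ring homomorphisms. -/
theorem map_lad (n : ℕ) :
    lad (f b₂) (f b₄) (f b₆) (f b₈) (f x) n =
      (f (lad b₂ b₄ b₆ b₈ x n).1, f (lad b₂ b₄ b₆ b₈ x n).2) := by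
  induction n using lad_induction with
  | h0 => simp
  | h1 => simp
  | heven k hk ih => rw [lad_even _ _ _ _ _ hk, lad_even _ _ _ _ _ hk, ih, map_dbl]
  | hodd k hk ih ih' =>
    rw [lad_odd _ _ _ _ _ hk, lad_odd _ _ _ _ _ hk, ih, ih', map_dad]

end Map

end Defs

section Field

open WeierstrassCurve WeierstrassCurve.Affine

variable {F : Type*} [Field F] {W : Affine F}

/-- `ψ₂² = (2y + a₁x + a₃)² = 4x³ + b₂x² + 2b₄x + b₆` on the curve. -/
theorem sq_sub_negY {x y : F} (h : W.Equation x y) :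
    (y - W.negY x y) ^ 2 = 4 * x ^ 3 + W.b₂ * x ^ 2 + 2 * W.b₄ * x + W.b₆ := by
  rw [equation_iff] at h
  simp only [negY, WeierstrassCurve.b₂, WeierstrassCurve.b₄, WeierstrassCurve.b₆]
  linear_combination 4 * h

/-- At a point with `y = negY x y` (a `2`-torsion point), `φ₂(x)` is the square of `∂W/∂x`. -/
theorem phi_two_of_eq_negY {x y : F} (h : W.Equation x y) (hy : y = W.negY x y) :
    x ^ 4 - W.b₄ * x ^ 2 - 2 * W.b₆ * x - W.b₈ =
      (3 * x ^ 2 + 2 * W.a₂ * x + W.a₄ - W.a₁ * y) ^ 2 := by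
  rw [equation_iff] at h
  have hψ : 2 * y + W.a₁ * x + W.a₃ = 0 := by
    simp only [negY] at hy
    linear_combination hy
  simp only [WeierstrassCurve.b₄, WeierstrassCurve.b₆, WeierstrassCurve.b₈]
  linear_combination (W.a₁ * (3 * x ^ 2 + 2 * W.a₂ * x + W.a₄ - W.a₁ * y)
      - (W.a₂ + 2 * x) * (2 * y + W.a₁ * x + W.a₃)) * hψ + (W.a₁ ^ 2 + 4 * W.a₂ + 8 * x) * h

/-- At a nonsingular point with `y = negY x y`, `φ₂(x) ≠ 0`. -/
theorem phi_two_ne_zero_of_eq_negY {x y : F} (h : W.Nonsingular x y) (hy : y = W.negY x y) :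
    x ^ 4 - W.b₄ * x ^ 2 - 2 * W.b₆ * x - W.b₈ ≠ 0 := by
  rw [phi_two_of_eq_negY h.1 hy]
  have h2 := (nonsingular_iff x y).1 h
  rcases h2.2 with h3 | h3
  · intro h0
    apply h3
    have := pow_eq_zero_iff (two_ne_zero) |>.1 h0
    linear_combination -this
  · exact absurd hy h3

/-- Projective `x`-coordinate of a point: `(1 : 0)` at infinity, `(x : 1)` otherwise. -/
def xRep : W.Point → F × F
  | .zero => (1, 0)
  | .some x _ _ => (x, 1)

@[simp] theorem xRep_zero : xRep (0 : W.Point) = (1, 0) := rfl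

@[simp] theorem xRep_some {x y : F} (h : W.Nonsingular x y) : xRep (Point.some x y h) = (x, 1) :=
  rfl

variable [DecidableEq F]

/-- Sum of the `x`-coordinates of `P + Q` and `P - Q`. -/
theorem addX_add_addX_negY {x₁ y₁ x₂ y₂ : F} (h₁ : W.Equation x₁ y₁) (h₂ : W.Equation x₂ y₂)
    (hx : x₁ ≠ x₂) :
    (W.addX x₁ x₂ (W.slope x₁ x₂ y₁ y₂) + W.addX x₁ x₂ (W.slope x₁ x₂ y₁ (W.negY x₂ y₂))) *
        (x₁ - x₂) ^ 2 =
      2 * x₁ * x₂ * (x₁ + x₂) + W.b₂ * x₁ * x₂ + W.b₄ * (x₁ + x₂) + W.b₆ := by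
  rw [equation_iff] at h₁ h₂
  have hd : x₁ - x₂ ≠ 0 := sub_ne_zero.mpr hx
  rw [slope_of_X_ne hx, slope_of_X_ne hx]
  simp only [addX, negY, WeierstrassCurve.b₂, WeierstrassCurve.b₄, WeierstrassCurve.b₆]
  field_simp
  linear_combination 2 * h₁ + 2 * h₂

/-- The `x`-coordinate of `2P`. -/
theorem addX_self_mul {x y : F} (h : W.Equation x y) (hy : y ≠ W.negY x y) :
    W.addX x x (W.slope x x y y) * (4 * x ^ 3 + W.b₂ * x ^ 2 + 2 * W.b₄ * x + W.b₆) =
      x ^ 4 - W.b₄ * x ^ 2 - 2 * W.b₆ * x - W.b₈ := by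
  rw [← sq_sub_negY h]
  have hd : y - W.negY x y ≠ 0 := sub_ne_zero.mpr hy
  rw [slope_of_Y_ne rfl hy]
  generalize hψ : y - W.negY x y = ψ at hd ⊢
  generalize hn : 3 * x ^ 2 + 2 * W.a₂ * x + W.a₄ - W.a₁ * y = n
  have key : W.addX x x (n / ψ) * ψ ^ 2 = n ^ 2 + W.a₁ * n * ψ - (W.a₂ + 2 * x) * ψ ^ 2 := by
    simp only [addX]
    field_simp
    ring
  rw [key, ← hψ, ← hn]
  rw [equation_iff] at h
  simp only [negY, WeierstrassCurve.b₄, WeierstrassCurve.b₆, WeierstrassCurve.b₈]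
  linear_combination (-W.a₁^2 - 4 * W.a₂ - 8 * x) * h

/-- **Correctness of the ladder**: `lad n` is a nonzero multiple of the projective
`x`-coordinate of `n • P`, for every affine point `P = (x, y)`. -/
theorem lad_spec {x y : F} (h : W.Nonsingular x y) (n : ℕ) :
    ∃ c : F, c ≠ 0 ∧ lad W.b₂ W.b₄ W.b₆ W.b₈ x n =
      (c * (xRep (n • Point.some x y h)).1, c * (xRep (n • Point.some x y h)).2) := by
  induction n using lad_induction with
  | h0 => exact ⟨1, one_ne_zero, by simp⟩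
  | h1 => exact ⟨1, one_ne_zero, by simp⟩
  | heven k hk ih =>
    obtain ⟨c, hc, hl⟩ := ih
    rw [lad_even _ _ _ _ _ hk, hl]
    have h2 : (2 * k) • Point.some x y h = k • Point.some x y h + k • Point.some x y h := by
      rw [two_mul, add_nsmul]
    rw [h2]
    generalize k • Point.some x y h = Q
    rcases Q with _ | ⟨u, w, hw⟩
    · refine ⟨c ^ 4, pow_ne_zero 4 hc, ?_⟩
      rw [← Point.zero_def, add_zero]
      simp only [dbl, xRep_zero, Prod.mk.injEq]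
      constructor <;> ring
    · by_cases hy : w = W.negY u w
      · refine ⟨c ^ 4 * (u ^ 4 - W.b₄ * u ^ 2 - 2 * W.b₆ * u - W.b₈),
          mul_ne_zero (pow_ne_zero 4 hc) (phi_two_ne_zero_of_eq_negY hw hy), ?_⟩
        rw [Point.add_self_of_Y_eq hy]
        have hψ : 4 * u ^ 3 + W.b₂ * u ^ 2 + 2 * W.b₄ * u + W.b₆ = 0 := by
          rw [← sq_sub_negY hw.1, sub_eq_zero.2 hy]; ring
        simp only [dbl, xRep_zero, xRep_some, Prod.mk.injEq]
        constructor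
        · ring
        · linear_combination c ^ 4 * hψ
      · refine ⟨c ^ 4 * (4 * u ^ 3 + W.b₂ * u ^ 2 + 2 * W.b₄ * u + W.b₆),
          mul_ne_zero (pow_ne_zero 4 hc) ?_, ?_⟩
        · rw [← sq_sub_negY hw.1]
          exact pow_ne_zero 2 (sub_ne_zero.2 hy)
        · rw [Point.add_self_of_Y_ne hy]
          have hd := addX_self_mul hw.1 hy
          simp only [dbl, xRep_some, Prod.mk.injEq]
          constructor
          · linear_combination -c ^ 4 * hd
          · ring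
  | hodd k hk ih ih' =>
    obtain ⟨c₂, hc₂, hl₂⟩ := ih
    obtain ⟨c₁, hc₁, hl₁⟩ := ih'
    rw [lad_odd _ _ _ _ _ hk, hl₁, hl₂]
    have hQ : (k + 1) • Point.some x y h = k • Point.some x y h + Point.some x y h :=
      succ_nsmul _ k
    have hsum : (2 * k + 1) • Point.some x y h =
        (k + 1) • Point.some x y h + k • Point.some x y h := by
      rw [← add_nsmul]; congr 1; ring
    rw [hsum]
    generalize (k + 1) • Point.some x y h = Q at hQ ⊢
    generalize k • Point.some x y h = Q' at hQ ⊢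
    rcases Q' with _ | ⟨u₂, w₂, h₂⟩
    · -- `k • P = 0`, so `(k + 1) • P = P`
      rw [← Point.zero_def, zero_add] at hQ
      subst hQ
      refine ⟨c₁ ^ 2 * c₂ ^ 2, mul_ne_zero (pow_ne_zero 2 hc₁) (pow_ne_zero 2 hc₂), ?_⟩
      rw [← Point.zero_def, add_zero]
      simp only [dad, xRep_zero, xRep_some, Prod.mk.injEq]
      constructor <;> ring
    · rcases Q with _ | ⟨u₁, w₁, h₁⟩
      · -- `(k + 1) • P = 0`, so `k • P = -P`
        rw [← Point.zero_def] at hQ ⊢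
        have hneg : Point.some u₂ w₂ h₂ = -Point.some x y h := eq_neg_of_add_eq_zero_left hQ.symm
        rw [Point.neg_some] at hneg
        have hu : u₂ = x := (Point.some.inj hneg).1
        refine ⟨c₁ ^ 2 * c₂ ^ 2, mul_ne_zero (pow_ne_zero 2 hc₁) (pow_ne_zero 2 hc₂), ?_⟩
        rw [zero_add]
        simp only [dad, xRep_zero, xRep_some, Prod.mk.injEq]
        subst hu
        constructor <;> ring
      · by_cases hx : u₁ = u₂
        · subst hx
          rcases Y_eq_of_X_eq h₁.1 h₂.1 rfl with hw | hw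
          · exfalso
            subst hw
            have : Point.some x y h = 0 := by
              have := hQ
              exact (add_eq_left.1 this.symm)
            exact Point.some_ne_zero h this
          · have hne : w₁ ≠ w₂ := by
              rintro rfl
              have : Point.some x y h = 0 := add_eq_left.1 hQ.symm
              exact Point.some_ne_zero h this
            have hψ : 4 * u₁ ^ 3 + W.b₂ * u₁ ^ 2 + 2 * W.b₄ * u₁ + W.b₆ ≠ 0 := by
              rw [← sq_sub_negY h₁.1]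
              refine pow_ne_zero 2 (sub_ne_zero.2 ?_)
              rw [hw, negY_negY]
              rw [hw] at hne
              exact hne
            refine ⟨c₁ ^ 2 * c₂ ^ 2 * (4 * u₁ ^ 3 + W.b₂ * u₁ ^ 2 + 2 * W.b₄ * u₁ + W.b₆),
              mul_ne_zero (mul_ne_zero (pow_ne_zero 2 hc₁) (pow_ne_zero 2 hc₂)) hψ, ?_⟩
            rw [Point.add_of_Y_eq rfl hw]
            simp only [dad, xRep_zero, xRep_some, Prod.mk.injEq]
            constructor <;> ring
        · -- generic case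
          have hsub : Point.some u₁ w₁ h₁ - Point.some u₂ w₂ h₂ = Point.some x y h := by
            rw [hQ]; abel
          rw [sub_eq_add_neg, Point.neg_some, Point.add_of_X_ne hx] at hsub
          have hxm : W.addX u₁ u₂ (W.slope u₁ u₂ w₁ (W.negY u₂ w₂)) = x := (Point.some.inj hsub).1
          have hS := addX_add_addX_negY h₁.1 h₂.1 hx
          rw [hxm] at hS
          refine ⟨c₁ ^ 2 * c₂ ^ 2 * (u₁ - u₂) ^ 2,
            mul_ne_zero (mul_ne_zero (pow_ne_zero 2 hc₁) (pow_ne_zero 2 hc₂))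
              (pow_ne_zero 2 (sub_ne_zero.2 hx)), ?_⟩
          rw [Point.add_of_X_ne hx]
          simp only [dad, xRep_some, Prod.mk.injEq]
          constructor
          · linear_combination -c₁ ^ 2 * c₂ ^ 2 * hS
          · ring

/-- `n • P = 0` iff the `Z`-coordinate of the ladder vanishes. -/
theorem nsmul_eq_zero_iff {x y : F} (h : W.Nonsingular x y) (n : ℕ) :
    n • Point.some x y h = 0 ↔ (lad W.b₂ W.b₄ W.b₆ W.b₈ x n).2 = 0 := by
  obtain ⟨c, hc, hl⟩ := lad_spec h n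
  rw [hl]
  generalize n • Point.some x y h = Q
  rcases Q with _ | ⟨u, w, hw⟩
  · simp [← Point.zero_def]
  · simp [hc, Point.some_ne_zero]

/-- If `n • P` is the affine point `(X, Y)` then `X * Zₙ = Xₙ`. -/
theorem nsmul_some_X {x y : F} (h : W.Nonsingular x y) (n : ℕ) {X Y : F}
    {h' : W.Nonsingular X Y} (hn : n • Point.some x y h = Point.some X Y h') :
    X * (lad W.b₂ W.b₄ W.b₆ W.b₈ x n).2 = (lad W.b₂ W.b₄ W.b₆ W.b₈ x n).1 := by
  obtain ⟨c, hc, hl⟩ := lad_spec h n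
  rw [hl, hn]
  simp only [xRep_some]
  ring

/-- The two ladder coordinates never vanish simultaneously at an affine point. -/
theorem lad_ne_zero {x y : F} (h : W.Nonsingular x y) (n : ℕ) :
    (lad W.b₂ W.b₄ W.b₆ W.b₈ x n).1 ≠ 0 ∨ (lad W.b₂ W.b₄ W.b₆ W.b₈ x n).2 ≠ 0 := by
  obtain ⟨c, hc, hl⟩ := lad_spec h n
  rw [hl]
  generalize n • Point.some x y h = Q
  rcases Q with _ | ⟨u, w, hw⟩
  · left; simpa [xRep] using hc
  · right; simpa [xRep] using hc

end Field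

/-! ### The polynomial ladder and its degrees -/

section Poly

variable {R : Type*} [CommRing R]

/-- `IsLC p d a`: `p` has degree at most `d` and its coefficient of degree `d` is `a`. -/
def IsLC (p : R[X]) (d : ℕ) (a : R) : Prop := p.natDegree ≤ d ∧ p.coeff d = a

theorem IsLC.mul {p q : R[X]} {d e : ℕ} {a b : R} (hp : IsLC p d a) (hq : IsLC q e b) :
    IsLC (p * q) (d + e) (a * b) :=
  ⟨natDegree_mul_le_of_le hp.1 hq.1, by
    rw [coeff_mul_add_eq_of_natDegree_le hp.1 hq.1, hp.2, hq.2]⟩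

theorem IsLC.pow {p : R[X]} {d : ℕ} {a : R} (hp : IsLC p d a) (k : ℕ) :
    IsLC (p ^ k) (k * d) (a ^ k) :=
  ⟨natDegree_pow_le_of_le k hp.1, by rw [coeff_pow_of_natDegree_le hp.1, hp.2]⟩

theorem IsLC.add {p q : R[X]} {d : ℕ} {a b : R} (hp : IsLC p d a) (hq : IsLC q d b) :
    IsLC (p + q) d (a + b) :=
  ⟨natDegree_add_le_of_degree_le hp.1 hq.1, by rw [coeff_add, hp.2, hq.2]⟩

theorem IsLC.sub {p q : R[X]} {d : ℕ} {a b : R} (hp : IsLC p d a) (hq : IsLC q d b) :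
    IsLC (p - q) d (a - b) :=
  ⟨(natDegree_sub_le_of_le hp.1 hq.1).trans (max_self d).le, by rw [coeff_sub, hp.2, hq.2]⟩

theorem IsLC.lift {p : R[X]} {d e : ℕ} {a : R} (hp : IsLC p d a) (hde : d < e) : IsLC p e 0 :=
  ⟨hp.1.trans hde.le, coeff_eq_zero_of_natDegree_lt (lt_of_le_of_lt hp.1 hde)⟩

theorem IsLC.congr {p : R[X]} {d e : ℕ} {a b : R} (hp : IsLC p d a) (hde : d = e)
    (hab : a = b) : IsLC p e b := by
  subst hde hab; exact hp

theorem isLC_C (a : R) : IsLC (C a) 0 a := ⟨(natDegree_C a).le, coeff_C_zero⟩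

theorem isLC_X : IsLC (X : R[X]) 1 1 := ⟨natDegree_X_le, coeff_X_one⟩

theorem isLC_ofNat (n : ℕ) [n.AtLeastTwo] : IsLC (OfNat.ofNat n : R[X]) 0 (OfNat.ofNat n) :=
  ⟨by simp, by simp⟩

theorem isLC_one : IsLC (1 : R[X]) 0 1 := ⟨by simp, by simp⟩

theorem isLC_zero (d : ℕ) : IsLC (0 : R[X]) d 0 := ⟨by simp, by simp⟩

theorem IsLC.derivative {p : R[X]} {d : ℕ} {a : R} (hp : IsLC p d a) :
    IsLC (derivative p) (d - 1) ((d : R) * a) := by
  rcases Nat.eq_zero_or_pos d with rfl | hd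
  · have : p = C (p.coeff 0) := eq_C_of_natDegree_le_zero hp.1
    rw [this]
    simp [IsLC]
  · refine ⟨(natDegree_derivative_le p).trans (Nat.sub_le_sub_right hp.1 1), ?_⟩
    rw [coeff_derivative, Nat.sub_add_cancel hd, hp.2]
    have : ((d - 1 : ℕ) : R) + 1 = (d : R) := by
      rw [← Nat.cast_add_one, Nat.sub_add_cancel hd]
    rw [this, mul_comm]

theorem IsLC.ne_zero {p : R[X]} {d : ℕ} {a : R} (hp : IsLC p d a) (ha : a ≠ 0) : p ≠ 0 := by
  rintro rfl
  exact ha (by simpa using hp.2.symm)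

theorem IsLC.natDegree_eq {p : R[X]} {d : ℕ} {a : R} (hp : IsLC p d a) (ha : a ≠ 0) :
    p.natDegree = d :=
  le_antisymm hp.1 (le_natDegree_of_ne_zero (by rw [hp.2]; exact ha))

theorem IsLC.leadingCoeff_eq {p : R[X]} {d : ℕ} {a : R} (hp : IsLC p d a) (ha : a ≠ 0) :
    p.leadingCoeff = a := by
  rw [leadingCoeff, hp.natDegree_eq ha, hp.2]

variable (b₂ b₄ b₆ b₈ : R)

/-- The polynomial ladder: `ladP n = (Xₙ, Zₙ)` as polynomials in `x`. -/
noncomputable def ladP (n : ℕ) : R[X] × R[X] := lad (C b₂) (C b₄) (C b₆) (C b₈) X n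

/-- Evaluating the polynomial ladder gives the ladder. -/
theorem ladP_eval (x : R) (n : ℕ) :
    lad b₂ b₄ b₆ b₈ x n = ((ladP b₂ b₄ b₆ b₈ n).1.eval x, (ladP b₂ b₄ b₆ b₈ n).2.eval x) := by
  have := map_lad (C b₂) (C b₄) (C b₆) (C b₈) (X : R[X]) (evalRingHom x) n
  simpa [ladP] using this

/-- The polynomial ladder commutes with ring homomorphisms. -/
theorem ladP_map {S : Type*} [CommRing S] (f : R →+* S) (n : ℕ) :
    ladP (f b₂) (f b₄) (f b₆) (f b₈) n =
      ((ladP b₂ b₄ b₆ b₈ n).1.map f, (ladP b₂ b₄ b₆ b₈ n).2.map f) := by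
  have := map_lad (C b₂) (C b₄) (C b₆) (C b₈) (X : R[X]) (mapRingHom f) n
  simpa [ladP] using this

theorem ladP_even {k : ℕ} (hk : 1 ≤ k) :
    ladP b₂ b₄ b₆ b₈ (2 * k) = dbl (C b₂) (C b₄) (C b₆) (C b₈) (ladP b₂ b₄ b₆ b₈ k) :=
  lad_even _ _ _ _ _ hk

theorem ladP_odd {k : ℕ} (hk : 1 ≤ k) :
    ladP b₂ b₄ b₆ b₈ (2 * k + 1) =
      dad (C b₂) (C b₄) (C b₆) X (ladP b₂ b₄ b₆ b₈ (k + 1)) (ladP b₂ b₄ b₆ b₈ k) :=
  lad_odd _ _ _ _ _ hk

/-- **Degrees of the ladder polynomials**: `Xₙ` has degree `n²` and leading coefficient `1`;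
`Zₙ` has degree `n² - 1` and leading coefficient `n²`. -/
theorem ladP_isLC (n : ℕ) :
    IsLC (ladP b₂ b₄ b₆ b₈ n).1 (n ^ 2) 1 ∧
      IsLC (ladP b₂ b₄ b₆ b₈ n).2 (n ^ 2 - 1) ((n : R) ^ 2) := by
  induction n using lad_induction with
  | h0 => simp [ladP, IsLC]
  | h1 => simp [ladP, IsLC, natDegree_X_le]
  | heven k hk ih =>
    obtain ⟨hX, hZ⟩ := ih
    have hd : 1 ≤ k ^ 2 := Nat.one_le_pow _ _ hk
    have e2 : (2 * k) ^ 2 = 4 * k ^ 2 := by ring
    have c2 : ((2 * k : ℕ) : R) = 2 * (k : R) := by push_cast; ring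
    rw [ladP_even _ _ _ _ hk, e2, c2]
    simp only [dbl]
    generalize (ladP b₂ b₄ b₆ b₈ k).1 = Xk at hX ⊢
    generalize (ladP b₂ b₄ b₆ b₈ k).2 = Zk at hZ ⊢
    generalize k ^ 2 = d at hX hZ hd
    constructor
    · have t1 := hX.pow 4
      have t2 := (((isLC_C b₄).mul (hX.pow 2)).mul (hZ.pow 2)).lift (e := 4 * d) (by omega)
      have t3 := ((((isLC_ofNat 2).mul (isLC_C b₆)).mul hX).mul (hZ.pow 3)).lift
        (e := 4 * d) (by omega)
      have t4 := ((isLC_C b₈).mul (hZ.pow 4)).lift (e := 4 * d) (by omega)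
      exact (((t1.sub t2).sub t3).sub t4).congr rfl (by ring)
    · have s1 := ((isLC_ofNat 4).mul (hX.pow 3)).mul hZ
      have s2 := (((isLC_C b₂).mul (hX.pow 2)).mul (hZ.pow 2)).lift
        (e := 0 + 3 * d + (d - 1)) (by omega)
      have s3 := ((((isLC_ofNat 2).mul (isLC_C b₄)).mul hX).mul (hZ.pow 3)).lift
        (e := 0 + 3 * d + (d - 1)) (by omega)
      have s4 := ((isLC_C b₆).mul (hZ.pow 4)).lift (e := 0 + 3 * d + (d - 1)) (by omega)
      exact (((s1.add s2).add s3).add s4).congr (by omega) (by ring)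
  | hodd k hk ih ih' =>
    obtain ⟨hX₂, hZ₂⟩ := ih
    obtain ⟨hX₁, hZ₁⟩ := ih'
    have hd : 1 ≤ k ^ 2 := Nat.one_le_pow _ _ hk
    have e1 : (k + 1) ^ 2 = k ^ 2 + 2 * k + 1 := by ring
    have e2 : (2 * k + 1) ^ 2 = 4 * k ^ 2 + 4 * k + 1 := by ring
    have c1 : ((k + 1 : ℕ) : R) = (k : R) + 1 := by push_cast; ring
    have c2 : ((2 * k + 1 : ℕ) : R) = 2 * (k : R) + 1 := by push_cast; ring
    rw [ladP_odd _ _ _ _ hk, e2, c2]
    rw [e1, c1] at hZ₁
    rw [e1] at hX₁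
    simp only [dad]
    generalize (ladP b₂ b₄ b₆ b₈ k).1 = X₂ at hX₂ ⊢
    generalize (ladP b₂ b₄ b₆ b₈ k).2 = Z₂ at hZ₂ ⊢
    generalize (ladP b₂ b₄ b₆ b₈ (k + 1)).1 = X₁ at hX₁ ⊢
    generalize (ladP b₂ b₄ b₆ b₈ (k + 1)).2 = Z₁ at hZ₁ ⊢
    generalize k ^ 2 = d at hX₁ hZ₁ hX₂ hZ₂ hd
    -- common degree `m = 2d + 2k` of `X₁ Z₂` and `X₂ Z₁`
    have hA := (hX₁.mul hZ₂).congr (e := 2 * d + 2 * k) (by omega) rfl
    have hB := (hX₂.mul hZ₁).congr (e := 2 * d + 2 * k) (by omega) rfl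
    have hD := (hA.sub hB).pow 2
    constructor
    · have u1 := hA.add hB
      have u2 := ((isLC_ofNat 2).mul hX₁).mul hX₂
      have u2' := (((isLC_C b₄).mul hZ₁).mul hZ₂).lift (e := 0 + (d + 2 * k + 1) + d) (by omega)
      have u3 := u1.mul (u2.add u2')
      have u4 := (((((isLC_C b₂).mul hX₁).mul hX₂).mul hZ₁).mul hZ₂).lift
        (e := 2 * d + 2 * k + (0 + (d + 2 * k + 1) + d)) (by omega)
      have u5 := (((isLC_C b₆).mul (hZ₁.pow 2)).mul (hZ₂.pow 2)).lift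
        (e := 2 * d + 2 * k + (0 + (d + 2 * k + 1) + d)) (by omega)
      have u6 := (isLC_X.mul hD).congr (e := 2 * d + 2 * k + (0 + (d + 2 * k + 1) + d))
        (by omega) rfl
      exact (((u3.add u4).add u5).sub u6).congr (by omega) (by ring)
    · exact hD.congr (by omega) (by ring)

theorem ladP_fst_monic (n : ℕ) : (ladP b₂ b₄ b₆ b₈ n).1.Monic ∨ Subsingleton R := by
  rcases subsingleton_or_nontrivial R with h | h
  · exact Or.inr h
  · left
    have h1 := (ladP_isLC b₂ b₄ b₆ b₈ n).1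
    rw [Monic, h1.leadingCoeff_eq one_ne_zero]

end Poly

end Fermat.Agent.Lib.helper5856
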