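import Fermat.Agent.Lib.helper5856_Ladder

set_option autoImplicit false

/-!
# The `n`-torsion of an elliptic curve over an algebraically closed field has `n²` points

`card_torsion`: for `F` algebraically closed, `W` an elliptic curve over `F` and `n` invertible
in `F`, `{P : W.Point | n • P = 0}` has exactly `n ^ 2` elements.

Proof: with `f = Xₙ`, `g = Zₙ` the ladder polynomials (`x(n • P) = f(x)/g(x)`, `deg f = n²`,
`f` monic, `deg g = n² - 1`, leading coefficient `n²`), the polynomial `f' g - f g'` is nonzero,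
so for all but finitely many `c` the polynomial `f - c g` is separable of degree `n²`.  For such
a `c` which is the abscissa of a point `Q` with `Q ≠ -Q`, the fibre `{P | n • P = Q}` is in
bijection with the roots of `f - c g`, and it is a coset of the `n`-torsion.
-/

namespace Fermat.Agent.Lib.helper5856

open Polynomial WeierstrassCurve WeierstrassCurve.Affine

section Card

variable {F : Type*} [Field F] (W : Affine F)

/-- The numerator `Xₙ` of multiplication by `n` on `x`-coordinates. -/
noncomputable def mulX (n : ℕ) : F[X] := (ladP W.b₂ W.b₄ W.b₆ W.b₈ n).1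

/-- The denominator `Zₙ` of multiplication by `n` on `x`-coordinates. -/
noncomputable def mulZ (n : ℕ) : F[X] := (ladP W.b₂ W.b₄ W.b₆ W.b₈ n).2

theorem mulX_isLC (n : ℕ) : IsLC (mulX W n) (n ^ 2) 1 := (ladP_isLC _ _ _ _ n).1

theorem mulZ_isLC (n : ℕ) : IsLC (mulZ W n) (n ^ 2 - 1) ((n : F) ^ 2) := (ladP_isLC _ _ _ _ n).2

variable {W}

section Dec

variable [DecidableEq F]

theorem nsmul_eq_zero_iff_eval {x y : F} (h : W.Nonsingular x y) (n : ℕ) :
    n • Point.some x y h = 0 ↔ (mulZ W n).eval x = 0 := by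
  rw [nsmul_eq_zero_iff h n, ladP_eval]
  rfl

theorem nsmul_some_eval {x y : F} (h : W.Nonsingular x y) (n : ℕ) {X Y : F}
    {h' : W.Nonsingular X Y} (hn : n • Point.some x y h = Point.some X Y h') :
    X * (mulZ W n).eval x = (mulX W n).eval x := by
  have := nsmul_some_X h n hn
  rw [ladP_eval] at this
  exact this

theorem mulX_mulZ_eval_ne_zero {x y : F} (h : W.Nonsingular x y) (n : ℕ) :
    (mulX W n).eval x ≠ 0 ∨ (mulZ W n).eval x ≠ 0 := by
  have := lad_ne_zero h n
  rw [ladP_eval] at this
  exact this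

end Dec

/-- Over an algebraically closed field every `x` is the abscissa of a point of the curve. -/
theorem exists_equation [IsAlgClosed F] (x : F) : ∃ y, W.Equation x y := by
  obtain ⟨y, hy⟩ := IsAlgClosed.exists_root
    (C (1 : F) * X ^ 2 + C (W.a₁ * x + W.a₃) * X + C (-(x ^ 3 + W.a₂ * x ^ 2 + W.a₄ * x + W.a₆)))
    (by rw [degree_quadratic one_ne_zero]; norm_num)
  refine ⟨y, ?_⟩
  rw [equation_iff]
  simp only [IsRoot, eval_add, eval_mul, eval_C, eval_pow, eval_X] at hy
  linear_combination hy

theorem exists_nonsingular [IsAlgClosed F] [W.IsElliptic] (x : F) : ∃ y, W.Nonsingular x y := by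
  obtain ⟨y, hy⟩ := exists_equation (W := W) x
  exact ⟨y, equation_iff_nonsingular.1 hy⟩

/-- The Wronskian `f' g - f g'` of the ladder polynomials. -/
noncomputable def wron (W : Affine F) (n : ℕ) : F[X] :=
  derivative (mulX W n) * mulZ W n - mulX W n * derivative (mulZ W n)

theorem wron_ne_zero (n : ℕ) (hn : (n : F) ≠ 0) (hn2 : 2 ≤ n) : wron W n ≠ 0 := by
  have hf := mulX_isLC W n
  have hg := mulZ_isLC W n
  have hd : 4 ≤ n ^ 2 := by nlinarith
  generalize n ^ 2 = d at hf hg hd
  have h1 := hf.derivative.mul hg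
  have h2 := (hf.mul hg.derivative).congr (e := d - 1 + (d - 1)) (by omega) rfl
  have h3 := h1.sub h2
  refine h3.ne_zero ?_
  have hc : ((d - 1 : ℕ) : F) = (d : F) - 1 := by
    rw [Nat.cast_sub (by omega)]; simp
  rw [hc]
  have : (d : F) * 1 * (n : F) ^ 2 - 1 * (((d : F) - 1) * (n : F) ^ 2) = (n : F) ^ 2 := by ring
  rw [this]
  exact pow_ne_zero 2 hn

/-- The fibre polynomial `f - c g`, whose roots are the abscissas of the `P` with
`x(n • P) = c`. -/
noncomputable def fibPoly (W : Affine F) (n : ℕ) (c : F) : F[X] := mulX W n - C c * mulZ W n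

theorem fibPoly_isLC (n : ℕ) (hn : 1 ≤ n) (c : F) : IsLC (fibPoly W n c) (n ^ 2) 1 := by
  have hf := mulX_isLC W n
  have hg := ((isLC_C c).mul (mulZ_isLC W n)).lift (e := n ^ 2)
    (by have : 1 ≤ n ^ 2 := Nat.one_le_pow _ _ hn; omega)
  exact (hf.sub hg).congr rfl (by ring)

theorem fibPoly_natDegree (n : ℕ) (hn : 1 ≤ n) (c : F) : (fibPoly W n c).natDegree = n ^ 2 :=
  (fibPoly_isLC n hn c).natDegree_eq one_ne_zero

theorem fibPoly_ne_zero (n : ℕ) (hn : 1 ≤ n) (c : F) : fibPoly W n c ≠ 0 :=
  (fibPoly_isLC n hn c).ne_zero one_ne_zero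

/-- `ψ₂²` as a polynomial in `x`. -/
noncomputable def psi2P (W : Affine F) : F[X] :=
  C 4 * X ^ 3 + C W.b₂ * X ^ 2 + C (2 * W.b₄) * X + C W.b₆

theorem psi2P_eval (x : F) :
    (psi2P W).eval x = 4 * x ^ 3 + W.b₂ * x ^ 2 + 2 * W.b₄ * x + W.b₆ := by
  simp [psi2P]

theorem psi2P_ne_zero [W.IsElliptic] : psi2P W ≠ 0 := by
  intro h
  have h3 : (psi2P W).coeff 3 = 0 := by rw [h]; simp
  have h2 : (psi2P W).coeff 2 = 0 := by rw [h]; simp
  have h1 : (psi2P W).coeff 1 = 0 := by rw [h]; simp
  have h0 : (psi2P W).coeff 0 = 0 := by rw [h]; simp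
  simp only [psi2P, coeff_add, coeff_C_mul, coeff_X_pow, coeff_X, coeff_C] at h3 h2 h1 h0
  norm_num at h3 h2 h1 h0
  have hΔ : W.Δ = 0 := by
    simp only [WeierstrassCurve.Δ]
    rw [h2, h0]
    linear_combination (-W.b₄ ^ 3 * 2) * h3
  exact W.isUnit_Δ.ne_zero hΔ

section Count

variable [IsAlgClosed F] [DecidableEq F] [W.IsElliptic]

/-- The finitely many values `c` for which `f - c g` may fail to be separable. -/
noncomputable def badSet (W : Affine F) (n : ℕ) : Finset F :=
  (wron W n).roots.toFinset.image (fun a => (mulX W n).eval a / (mulZ W n).eval a)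

theorem fibPoly_separable (n : ℕ) (hn : (n : F) ≠ 0) (hn2 : 2 ≤ n) {c : F}
    (hc : c ∉ badSet W n) : (fibPoly W n c).Separable := by
  rw [separable_def, isCoprime_iff_aeval_ne_zero_of_isAlgClosed F F]
  intro a
  by_contra hcon
  push Not at hcon
  obtain ⟨h1, h2⟩ := hcon
  simp only [fibPoly, coe_aeval_eq_eval, eval_sub, eval_mul, eval_C, derivative_sub,
    derivative_mul, derivative_C, zero_mul, zero_add] at h1 h2
  have hw : (wron W n).eval a = 0 := by
    simp only [wron, eval_sub, eval_mul]
    linear_combination (mulZ W n).eval a * h2 - (derivative (mulZ W n)).eval a * h1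
  obtain ⟨y, hy⟩ := exists_nonsingular (W := W) a
  have hg : (mulZ W n).eval a ≠ 0 := by
    intro hg0
    rcases mulX_mulZ_eval_ne_zero hy n with h | h
    · apply h; linear_combination h1 + c * hg0
    · exact h hg0
  apply hc
  rw [badSet, Finset.mem_image]
  refine ⟨a, ?_, ?_⟩
  · rw [Multiset.mem_toFinset, mem_roots (wron_ne_zero n hn hn2)]; exact hw
  · field_simp; linear_combination h1

/-- The `x`-coordinate of a point, with junk value `0` at infinity. -/
def xc : W.Point → F
  | .zero => 0
  | .some x _ _ => x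

omit [IsAlgClosed F] [DecidableEq F] [W.IsElliptic] in
@[simp] theorem xc_some {x y : F} (h : W.Nonsingular x y) : xc (Point.some x y h) = x := rfl

/-- For a generic point `Q` with `Q ≠ -Q`, the fibre of multiplication by `n` over `Q` has
exactly `n²` elements. -/
theorem ncard_fiber (n : ℕ) (hn : (n : F) ≠ 0) (hn2 : 2 ≤ n) {c d : F} (hQ : W.Nonsingular c d)
    (hd : d ≠ W.negY c d) (hc : c ∉ badSet W n) :
    {P : W.Point | n • P = Point.some c d hQ}.ncard = n ^ 2 := by
  have hsep := fibPoly_separable n hn hn2 hc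
  have hne : fibPoly W n c ≠ 0 := fibPoly_ne_zero n (by omega) c
  have hcard : (fibPoly W n c).roots.toFinset.card = n ^ 2 := by
    rw [Multiset.toFinset_card_of_nodup (nodup_roots hsep), IsAlgClosed.card_roots_eq_natDegree,
      fibPoly_natDegree n (by omega)]
  have hinj : Set.InjOn (xc (W := W)) {P : W.Point | n • P = Point.some c d hQ} := by
    intro P₁ hP₁ P₂ hP₂ hx
    simp only [Set.mem_ofPred_eq] at hP₁ hP₂
    rcases P₁ with _ | ⟨x₁, y₁, h₁⟩
    · exfalso
      rw [← Point.zero_def, smul_zero] at hP₁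
      exact Point.some_ne_zero hQ hP₁.symm
    rcases P₂ with _ | ⟨x₂, y₂, h₂⟩
    · exfalso
      rw [← Point.zero_def, smul_zero] at hP₂
      exact Point.some_ne_zero hQ hP₂.symm
    simp only [xc_some] at hx
    subst hx
    rcases Y_eq_of_X_eq h₁.1 h₂.1 rfl with hy | hy
    · subst hy; rfl
    · exfalso
      have hneg : Point.some x₁ y₁ h₁ = -Point.some x₁ y₂ h₂ := by
        rw [Point.neg_some]; congr 1
      rw [hneg, neg_nsmul, hP₂, Point.neg_some] at hP₁
      exact hd (Point.some.inj hP₁).2.symm
  rw [← hcard, ← Set.ncard_coe_finset, ← Set.InjOn.ncard_image hinj]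
  congr 1
  ext a
  simp only [Set.mem_image, Set.mem_ofPred_eq, Finset.mem_coe, Multiset.mem_toFinset,
    mem_roots hne, IsRoot]
  constructor
  · rintro ⟨P, hP, rfl⟩
    rcases P with _ | ⟨x, y, h⟩
    · exfalso
      rw [← Point.zero_def, smul_zero] at hP
      exact Point.some_ne_zero hQ hP.symm
    · have := nsmul_some_eval h n hP
      simp only [xc_some, fibPoly, eval_sub, eval_mul, eval_C]
      linear_combination -this
  · intro ha
    simp only [fibPoly, eval_sub, eval_mul, eval_C] at ha
    obtain ⟨y, hy⟩ := exists_nonsingular (W := W) a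
    have hg : (mulZ W n).eval a ≠ 0 := by
      intro hg0
      rcases mulX_mulZ_eval_ne_zero hy n with h | h
      · apply h; linear_combination ha + c * hg0
      · exact h hg0
    have hnP : n • Point.some a y hy ≠ 0 := fun h0 => hg ((nsmul_eq_zero_iff_eval hy n).1 h0)
    rcases hP : n • Point.some a y hy with _ | ⟨X, Y, h'⟩
    · exact absurd (hP.trans Point.zero_def.symm) hnP
    · have hX := nsmul_some_eval hy n hP
      have hXc : X = c := by
        apply mul_right_cancel₀ hg
        linear_combination hX + ha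
      subst hXc
      rcases Y_eq_of_X_eq h'.1 hQ.1 rfl with hY | hY
      · subst hY
        exact ⟨Point.some a y hy, hP, rfl⟩
      · refine ⟨-Point.some a y hy, ?_, ?_⟩
        · rw [neg_nsmul, hP, Point.neg_some]
          congr 1
          rw [hY, negY_negY]
        · rw [Point.neg_some]; rfl

/-- **The `n`-torsion of an elliptic curve over an algebraically closed field in which `n` is
invertible has exactly `n²` points.** -/
theorem ncard_torsion (n : ℕ) (hn : (n : F) ≠ 0) : {P : W.Point | n • P = 0}.ncard = n ^ 2 := by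
  rcases Nat.lt_or_ge n 2 with hlt | hn2
  · have h1 : n = 1 := by
      rcases Nat.eq_zero_or_pos n with rfl | hpos
      · simp at hn
      · omega
    subst h1
    simp
  · obtain ⟨c, hc⟩ := Infinite.exists_notMem_finset (badSet W n ∪ (psi2P W).roots.toFinset)
    rw [Finset.mem_union, not_or, Multiset.mem_toFinset, mem_roots psi2P_ne_zero, IsRoot,
      psi2P_eval] at hc
    obtain ⟨d, hQ⟩ := exists_nonsingular (W := W) c
    have hd : d ≠ W.negY c d := by
      intro h
      apply hc.2
      rw [← sq_sub_negY hQ.1, sub_eq_zero.2 h]; ring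
    have hfib := ncard_fiber n hn hn2 hQ hd hc.1
    have hpos : 0 < {P : W.Point | n • P = Point.some c d hQ}.ncard := by
      rw [hfib]; positivity
    obtain ⟨P₀, hP₀⟩ := (Set.ncard_pos (Set.finite_of_ncard_pos hpos)).1 hpos
    simp only [Set.mem_ofPred_eq] at hP₀
    have himg : (fun T => T + P₀) '' {P : W.Point | n • P = 0} =
        {P : W.Point | n • P = Point.some c d hQ} := by
      ext P
      simp only [Set.mem_image, Set.mem_ofPred_eq]
      constructor
      · rintro ⟨T, hT, rfl⟩
        rw [nsmul_add, hT, zero_add, hP₀]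
      · intro hP
        exact ⟨P - P₀, by rw [nsmul_sub, hP, hP₀, sub_self], by abel⟩
    rw [← hfib, ← himg, Set.ncard_image_of_injective _ (add_left_injective P₀)]

/-- `ncard_torsion` in terms of `Submodule.torsionBy`. -/
theorem card_torsionBy (n : ℕ) (hn : (n : F) ≠ 0) :
    Nat.card (Submodule.torsionBy ℤ W.Point (n : ℤ)) = n ^ 2 := by
  have h : ((Submodule.torsionBy ℤ W.Point (n : ℤ) : Submodule ℤ W.Point) : Set W.Point) =
      {P : W.Point | n • P = 0} := by
    ext P
    simp
  rw [← SetLike.coe_sort_coe, Nat.card_coe_set_eq, h, ncard_torsion n hn]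

end Count

end Card

end Fermat.Agent.Lib.helper5856
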