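/-
Finite extensions of complete discrete valuation rings (helper5957).

Imports: Mathlib + two proved Prelude lemmas (`IsAdicComplete.of_module_finite`,
`IsLocalRing.isAdicComplete_of_module_finite`).  No other dependency.

Setting: `O` a complete DVR (`IsAdicComplete (maximalIdeal O) O`), `K = Frac O`, `L / K` a finite
separable extension, `B := integralClosure O L`.

* `exists_isIdempotentElem_sub_mem` : idempotents lift along an ideal `I` for which the ring is
  `I`-adically complete (Hensel's lemma for `X ^ 2 - X`).
* `isLocalRing_of_isAdicComplete_of_isArtinianRing` : a domain that is `I`-adically complete with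
  `B ⧸ I` Artinian is a local ring.
* `isLocalRing_of_finite` : a domain that is module-finite over a complete Noetherian local ring
  is a local ring.
* `isDiscreteValuationRing_integralClosure`, `isAdicComplete_integralClosure`,
  `finite_integralClosure`, `isLocalHom_algebraMap_integralClosure`,
  `isFractionRing_integralClosure`, `finite_residueField_integralClosure` : `B` is a complete DVR,
  module-finite over `O` along a local homomorphism, with fraction field `L` and finite residue
  field (when `O` has one).
* `exists_completeDVR_extension` : the packaged existential, in the shape of the `𝒪''` tail of the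
  frozen statement S30 (complete DVR, finite residue field, characteristic zero, module-finite,
  local hom, injective), with fraction field the prescribed finite extension `L`.

Everything specialises to `O = ℤ_[p]`, `K = ℚ_[p]` (all instances are found by Mathlib), see
`padic_isDiscreteValuationRing_integralClosure` etc.
-/
import Mathlib
import Fermat.Prelude.Thm_IsAdicComplete_of_module_finite
import Fermat.Prelude.Thm_IsLocalRing_isAdicComplete_of_module_finite

set_option autoImplicit false

namespace Fermat.Agent.Lib.helper5957

open Polynomial IsLocalRing

/-- Idempotents lift along an ideal for which the ring is adically complete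
(Hensel's lemma for `X ^ 2 - X`). -/
theorem exists_isIdempotentElem_sub_mem {B : Type*} [CommRing B] (I : Ideal B)
    [IsAdicComplete I B] (a₀ : B) (h : a₀ * a₀ - a₀ ∈ I) :
    ∃ a : B, IsIdempotentElem a ∧ a - a₀ ∈ I := by
  have hmonic : (X ^ 2 - X : B[X]).Monic := by
    nontriviality B
    apply Polynomial.monic_X_pow_sub
    simp
  have heval : (X ^ 2 - X : B[X]).eval a₀ ∈ I := by
    simpa [pow_two] using h
  have hunit : IsUnit (Ideal.Quotient.mk I ((X ^ 2 - X : B[X]).derivative.eval a₀)) := by
    have hd : (X ^ 2 - X : B[X]).derivative.eval a₀ = 2 * a₀ - 1 := by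
      simp
      ring
    rw [hd]
    refine IsUnit.of_mul_eq_one (Ideal.Quotient.mk I (2 * a₀ - 1)) ?_
    rw [← map_mul, ← map_one (Ideal.Quotient.mk I), Ideal.Quotient.eq]
    have : (2 * a₀ - 1) * (2 * a₀ - 1) - 1 = 4 * (a₀ * a₀ - a₀) := by ring
    rw [this]
    exact I.mul_mem_left _ h
  obtain ⟨a, ha, haI⟩ := HenselianRing.is_henselian (I := I) _ hmonic a₀ heval hunit
  refine ⟨a, ?_, haI⟩
  have : a ^ 2 - a = 0 := by simpa [Polynomial.IsRoot] using ha
  rw [IsIdempotentElem]
  linear_combination this

/-- A domain `B` that is `I`-adically complete with `B ⧸ I` Artinian is a local ring. -/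
theorem isLocalRing_of_isAdicComplete_of_isArtinianRing {B : Type*} [CommRing B] [IsDomain B]
    (I : Ideal B) [IsAdicComplete I B] [IsArtinianRing (B ⧸ I)] : IsLocalRing B := by
  classical
  set J := I.radical with hJ
  have hIJ : I ≤ J := Ideal.le_radical
  have : IsReduced (B ⧸ J) :=
    (Ideal.isRadical_iff_quotient_reduced J).mp (Ideal.radical_isRadical I)
  have : IsArtinianRing (B ⧸ J) := (Ideal.Quotient.factor_surjective hIJ).isArtinianRing
  -- `B ⧸ J` has at most one maximal ideal: otherwise it has a nontrivial idempotent,
  -- which lifts to `B ⧸ I` (nil kernel) and then to `B` (completeness).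
  have hsub : ∀ m₁ m₂ : MaximalSpectrum (B ⧸ J), m₁ = m₂ := by
    intro m₁ m₂
    by_contra hne
    let φ := IsArtinianRing.equivPi (B ⧸ J)
    let e : B ⧸ J := φ.symm (Pi.single m₁ 1)
    have he : IsIdempotentElem e := by
      have h1 : IsIdempotentElem
          (Pi.single m₁ 1 : ∀ m : MaximalSpectrum (B ⧸ J), (B ⧸ J) ⧸ m.asIdeal) := by
        rw [IsIdempotentElem, ← Pi.single_mul, mul_one]
      exact h1.map φ.symm
    have hker : ∀ x ∈ RingHom.ker (Ideal.Quotient.factor hIJ), IsNilpotent x := by
      intro x hx
      obtain ⟨b, rfl⟩ := Ideal.Quotient.mk_surjective x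
      rw [RingHom.mem_ker, Ideal.Quotient.factor_mk, Ideal.Quotient.eq_zero_iff_mem] at hx
      obtain ⟨n, hn⟩ := hx
      exact ⟨n, by rw [← map_pow, Ideal.Quotient.eq_zero_iff_mem]; exact hn⟩
    obtain ⟨e₁, he₁, he₁e⟩ := exists_isIdempotentElem_eq_of_ker_isNilpotent
      (Ideal.Quotient.factor hIJ) hker e
      (RingHom.mem_range.mpr (Ideal.Quotient.factor_surjective hIJ e)) he
    obtain ⟨a₀, rfl⟩ := Ideal.Quotient.mk_surjective e₁
    have ha₀ : a₀ * a₀ - a₀ ∈ I := by
      rw [← Ideal.Quotient.eq, map_mul]
      exact he₁
    obtain ⟨a, ha, haI⟩ := exists_isIdempotentElem_sub_mem I a₀ ha₀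
    have hae : Ideal.Quotient.mk J a = e := by
      rw [← he₁e, Ideal.Quotient.factor_mk, Ideal.Quotient.eq]
      exact hIJ haI
    rcases IsIdempotentElem.iff_eq_zero_or_one.mp ha with h0 | h1
    · -- `e = 0`, but its `m₁`-component is `1`
      have : φ e m₁ = 0 := by rw [← hae, h0, map_zero, map_zero]; rfl
      have h' : φ e m₁ = 1 := by simp [e]
      rw [h'] at this
      have hm := m₁.isMaximal.ne_top
      exact hm ((Ideal.Quotient.subsingleton_iff).mp (subsingleton_of_zero_eq_one this.symm))
    · -- `e = 1`, but its `m₂`-component is `0`
      have : φ e m₂ = 1 := by rw [← hae, h1, map_one, map_one]; rfl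
      have h' : φ e m₂ = 0 := by simp [e, Ne.symm hne]
      rw [h'] at this
      have hm := m₂.isMaximal.ne_top
      exact hm ((Ideal.Quotient.subsingleton_iff).mp (subsingleton_of_zero_eq_one this))
  -- every maximal ideal of `B` contains `J`
  have hJle : ∀ M : Ideal B, M.IsMaximal → J ≤ M := by
    intro M hM
    have hIM : I ≤ M := (IsAdicComplete.le_jacobson_bot I).trans (sInf_le ⟨bot_le, hM⟩)
    exact (hM.isPrime.radical_le_iff).mpr hIM
  obtain ⟨M, hM⟩ := Ideal.exists_maximal B
  refine IsLocalRing.of_unique_max_ideal ⟨M, hM, fun M' hM' => ?_⟩
  have h1 : (M.map (Ideal.Quotient.mk J)).IsMaximal :=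
    Ideal.IsMaximal.map_of_surjective_of_ker_le Ideal.Quotient.mk_surjective
      (by simpa using hJle M hM)
  have h2 : (M'.map (Ideal.Quotient.mk J)).IsMaximal :=
    Ideal.IsMaximal.map_of_surjective_of_ker_le Ideal.Quotient.mk_surjective
      (by simpa using hJle M' hM')
  have heq : M'.map (Ideal.Quotient.mk J) = M.map (Ideal.Quotient.mk J) :=
    congrArg MaximalSpectrum.asIdeal (hsub ⟨_, h2⟩ ⟨_, h1⟩)
  have hc : ∀ N : Ideal B, J ≤ N →
      (N.map (Ideal.Quotient.mk J)).comap (Ideal.Quotient.mk J) = N := by
    intro N hN
    rw [Ideal.comap_map_of_surjective _ Ideal.Quotient.mk_surjective, ← RingHom.ker_eq_comap_bot,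
      Ideal.mk_ker, sup_eq_left.mpr hN]
  rw [← hc M' (hJle M' hM'), heq, hc M (hJle M hM)]

/-- A domain that is module-finite over a complete Noetherian local ring is a local ring. -/
theorem isLocalRing_of_finite (O : Type*) [CommRing O] [IsNoetherianRing O] [IsLocalRing O]
    [IsAdicComplete (maximalIdeal O) O] (B : Type*) [CommRing B] [IsDomain B] [Algebra O B]
    [Module.Finite O B] : IsLocalRing B := by
  have h1 : IsAdicComplete (maximalIdeal O) B :=
    IsAdicComplete.of_module_finite (maximalIdeal O) B
  have h2 : IsAdicComplete ((maximalIdeal O).map (algebraMap O B)) B :=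
    (IsAdicComplete.map_algebraMap_iff _ _).mpr h1
  let _ := Ideal.Quotient.field (maximalIdeal O)
  have h3 : Module.Finite (O ⧸ maximalIdeal O) (B ⧸ (maximalIdeal O).map (algebraMap O B)) :=
    Module.Finite.of_restrictScalars_finite O _ _
  have h4 : IsArtinianRing (B ⧸ (maximalIdeal O).map (algebraMap O B)) :=
    IsArtinianRing.of_finite (O ⧸ maximalIdeal O) _
  exact isLocalRing_of_isAdicComplete_of_isArtinianRing ((maximalIdeal O).map (algebraMap O B))

/-- `O → integralClosure O L` is injective when `O → K → L` is a tower with `K = Frac O`. -/
theorem injective_algebraMap_integralClosure (O : Type*) [CommRing O]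
    (K : Type*) [Field K] [Algebra O K] [IsFractionRing O K]
    (L : Type*) [Field L] [Algebra K L] [Algebra O L] [IsScalarTower O K L] :
    Function.Injective (algebraMap O (integralClosure O L)) := by
  have h : Function.Injective (algebraMap O L) := by
    rw [IsScalarTower.algebraMap_eq O K L]
    exact (algebraMap K L).injective.comp (IsFractionRing.injective O K)
  intro x y hxy
  apply h
  have := congrArg (algebraMap (integralClosure O L) L) hxy
  simpa using this

section IntegralClosure

variable (O : Type*) [CommRing O] [IsDomain O] [IsDiscreteValuationRing O]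
  (K : Type*) [Field K] [Algebra O K] [IsFractionRing O K]
  (L : Type*) [Field L] [Algebra K L] [Algebra O L] [IsScalarTower O K L]
  [FiniteDimensional K L] [Algebra.IsSeparable K L]

include K in
/-- The integral closure of a DVR in a finite separable extension of its fraction field
is module-finite. -/
theorem finite_integralClosure : Module.Finite O (integralClosure O L) :=
  IsIntegralClosure.finite O K L (integralClosure O L)

include K in
theorem isDedekindDomain_integralClosure : IsDedekindDomain (integralClosure O L) :=
  integralClosure.isDedekindDomain O K L

include K in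
omit [FiniteDimensional K L] [Algebra.IsSeparable K L] in
theorem not_isField_integralClosure : ¬ IsField (integralClosure O L) := by
  intro h
  exact IsDiscreteValuationRing.not_isField O
    (isField_of_isIntegral_of_isField (injective_algebraMap_integralClosure O K L) h)

include K in
omit [IsDomain O] [IsDiscreteValuationRing O] [FiniteDimensional K L]
  [Algebra.IsSeparable K L] in
theorem faithfulSMul_integralClosure : FaithfulSMul O (integralClosure O L) :=
  (faithfulSMul_iff_algebraMap_injective _ _).mpr (injective_algebraMap_integralClosure O K L)

include K in
omit [IsDomain O] [IsDiscreteValuationRing O] [FiniteDimensional K L]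
  [Algebra.IsSeparable K L] in
/-- `O → integralClosure O L` is a local homomorphism. -/
theorem isLocalHom_algebraMap_integralClosure :
    IsLocalHom (algebraMap O (integralClosure O L)) := by
  have := faithfulSMul_integralClosure O K L
  infer_instance

include K in
omit [IsDiscreteValuationRing O] [Algebra.IsSeparable K L] in
theorem isFractionRing_integralClosure : IsFractionRing (integralClosure O L) L :=
  integralClosure.isFractionRing_of_finite_extension K L

variable [IsAdicComplete (maximalIdeal O) O]

include K in
/-- The integral closure of a complete DVR in a finite separable extension of its fraction field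
is a local ring. -/
theorem isLocalRing_integralClosure : IsLocalRing (integralClosure O L) := by
  have := finite_integralClosure O K L
  exact isLocalRing_of_finite O (integralClosure O L)

include K in
/-- The integral closure of a complete DVR in a finite separable extension of its fraction field
is a DVR. -/
theorem isDiscreteValuationRing_integralClosure :
    IsDiscreteValuationRing (integralClosure O L) := by
  have := finite_integralClosure O K L
  have := isLocalRing_integralClosure O K L
  have := isDedekindDomain_integralClosure O K L
  exact ((IsDiscreteValuationRing.TFAE (integralClosure O L)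
    (not_isField_integralClosure O K L)).out 0 2).mpr this

include K in
/-- The integral closure of a complete DVR in a finite separable extension of its fraction field
is complete with respect to its own maximal ideal. -/
theorem isAdicComplete_integralClosure [IsLocalRing (integralClosure O L)] :
    IsAdicComplete (maximalIdeal (integralClosure O L)) (integralClosure O L) := by
  have := finite_integralClosure O K L
  have := isLocalHom_algebraMap_integralClosure O K L
  exact IsLocalRing.isAdicComplete_of_module_finite (𝒪 := O)

include K in
omit [IsAdicComplete (maximalIdeal O) O] in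
/-- The residue field of the integral closure is finite when the residue field of `O` is. -/
theorem finite_residueField_integralClosure [IsLocalRing (integralClosure O L)]
    [Finite (ResidueField O)] : Finite (ResidueField (integralClosure O L)) := by
  have := finite_integralClosure O K L
  have := isLocalHom_algebraMap_integralClosure O K L
  exact IsLocalRing.ResidueField.finite_of_finite (R := O) inferInstance

end IntegralClosure

/-- **Finite extension of a complete DVR** (packaged; the shape of the `𝒪''` tail of the frozen
statement S30).  `O` a complete DVR of characteristic zero with finite residue field,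
`K = Frac O`, `L / K` a finite extension: there is a complete DVR `O'` with finite residue field,
module-finite (and integral) over `O` along a local injective homomorphism, with fraction field
`L`, containing every element of `L` integral over `O`. -/
theorem exists_completeDVR_extension.{u, v, w} (O : Type u) [CommRing O] [IsDomain O]
    [IsDiscreteValuationRing O] [IsAdicComplete (maximalIdeal O) O] [Finite (ResidueField O)]
    [CharZero O] (K : Type w) [Field K] [Algebra O K] [IsFractionRing O K]
    (L : Type v) [Field L] [Algebra K L] [Algebra O L] [IsScalarTower O K L]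
    [FiniteDimensional K L] :
    ∃ (O' : Type v) (_ : CommRing O') (_ : IsDomain O') (_ : IsDiscreteValuationRing O')
      (_ : IsAdicComplete (maximalIdeal O') O') (_ : Finite (ResidueField O')) (_ : CharZero O')
      (_ : Algebra O O') (_ : Module.Finite O O') (_ : IsLocalHom (algebraMap O O'))
      (_ : Algebra O' L) (_ : IsScalarTower O O' L) (_ : IsFractionRing O' L),
      Function.Injective (algebraMap O O') ∧ Algebra.IsIntegral O O' ∧
        ∀ x : L, IsIntegral O x → ∃ y : O', algebraMap O' L y = x := by
  have hK : CharZero K := charZero_of_injective_algebraMap (IsFractionRing.injective O K)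
  have hsep : Algebra.IsSeparable K L := inferInstance
  have hdvr := isDiscreteValuationRing_integralClosure O K L
  have hinj := injective_algebraMap_integralClosure O K L
  refine ⟨integralClosure O L, inferInstance, inferInstance, hdvr,
    isAdicComplete_integralClosure O K L, finite_residueField_integralClosure O K L,
    charZero_of_injective_algebraMap hinj, inferInstance, finite_integralClosure O K L,
    isLocalHom_algebraMap_integralClosure O K L, inferInstance, inferInstance,
    isFractionRing_integralClosure O K L, hinj, inferInstance, ?_⟩
  intro x hx
  exact ⟨⟨x, hx⟩, rfl⟩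

/-! ### The `p`-adic case -/

section Padic

variable (p : ℕ) [Fact p.Prime] (L : Type*) [Field L] [Algebra ℚ_[p] L] [Algebra ℤ_[p] L]
  [IsScalarTower ℤ_[p] ℚ_[p] L] [FiniteDimensional ℚ_[p] L]

/-- The ring of integers of a finite extension of `ℚ_[p]` is a DVR. -/
theorem padic_isDiscreteValuationRing_integralClosure :
    IsDiscreteValuationRing (integralClosure ℤ_[p] L) :=
  isDiscreteValuationRing_integralClosure ℤ_[p] ℚ_[p] L

/-- The ring of integers of a finite extension of `ℚ_[p]` is a finite `ℤ_[p]`-module. -/
theorem padic_finite_integralClosure : Module.Finite ℤ_[p] (integralClosure ℤ_[p] L) :=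
  finite_integralClosure ℤ_[p] ℚ_[p] L

/-- The ring of integers of a finite extension of `ℚ_[p]` is complete. -/
theorem padic_isAdicComplete_integralClosure [IsLocalRing (integralClosure ℤ_[p] L)] :
    IsAdicComplete (maximalIdeal (integralClosure ℤ_[p] L)) (integralClosure ℤ_[p] L) :=
  isAdicComplete_integralClosure ℤ_[p] ℚ_[p] L

/-- The ring of integers of a finite extension of `ℚ_[p]` has finite residue field. -/
theorem padic_finite_residueField_integralClosure [IsLocalRing (integralClosure ℤ_[p] L)] :
    Finite (ResidueField (integralClosure ℤ_[p] L)) :=
  finite_residueField_integralClosure ℤ_[p] ℚ_[p] L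

end Padic

end Fermat.Agent.Lib.helper5957
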