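import Mathlib

/-!
# Extending a reduction homomorphism to an integral closure (helper618)

Abstract algebra core (Mathlib only, no modular objects).

Setting: `B` an integrally closed domain, `ℓ : B` a prime element of finite multiplicity,
`L` a field containing `B` in which any `n + 1` elements are `B`-linearly dependent,
`C ⊆ L` a `B`-subalgebra of integral elements with a ring hom `ρ₀ : C →+* Ω` to a field,
killing `ℓ`, with `ρ₀ b = 0 → ℓ ∣ b` on `B`, and `w₁, …, wₙ ∈ C` whose reductions are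
independent "modulo `ℓ`" (`ρ₀ (∑ bᵢ wᵢ) = 0 → ℓ ∣ bᵢ`).

Conclusion (`exists_reduction_hom`): `ρ₀` extends to the whole integral closure `A` of `B`
in `L`, and the kernel of the extension is exactly `ℓ • A`.
`exists_reduction_hom_of_tower` transports this to the integral closure of `B` in any
subfield `F ⊆ L`.
-/

namespace Fermat.Agent.Lib.helper618

open Polynomial

section LemmaK

variable {B L : Type*} [CommRing B] [IsDomain B] [IsIntegrallyClosed B]
  [Field L] [Algebra B L] [FaithfulSMul B L]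

/-- Over an integrally closed domain, the minimal polynomial of `r • x` is obtained from the one
of `x` by scaling the roots. -/
theorem minpoly_smul_eq_scaleRoots {x : L} (hx : IsIntegral B x) {r : B} (hr : r ≠ 0) :
    minpoly B (r • x) = (minpoly B x).scaleRoots r := by
  have hrx : IsIntegral B (r • x) := hx.smul r
  have h1 : minpoly B (r • x) ∣ (minpoly B x).scaleRoots r := by
    apply minpoly.isIntegrallyClosed_dvd hrx
    have := scaleRoots_aeval_eq_zero (p := minpoly B x) (r := r) (a := x) (minpoly.aeval B x)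
    rwa [← Algebra.smul_def] at this
  have hq : (C r * X : B[X]).natDegree = 1 := natDegree_C_mul_X r hr
  have h2 : minpoly B x ∣ (minpoly B (r • x)).comp (C r * X) := by
    apply minpoly.isIntegrallyClosed_dvd hx
    rw [aeval_comp]
    have : aeval x (C r * X : B[X]) = r • x := by
      simp [Algebra.smul_def]
    rw [this, minpoly.aeval]
  have hne : (minpoly B (r • x)).comp (C r * X) ≠ 0 := by
    intro h0
    rw [comp_eq_zero_iff] at h0
    rcases h0 with h0 | ⟨-, h0⟩
    · exact minpoly.ne_zero hrx h0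
    · have := congrArg natDegree h0
      rw [hq, natDegree_C] at this
      exact one_ne_zero this
  have h3 : (minpoly B x).natDegree ≤ (minpoly B (r • x)).natDegree := by
    have := natDegree_le_of_dvd h2 hne
    rwa [natDegree_comp, hq, mul_one] at this
  have hm : ((minpoly B x).scaleRoots r).Monic :=
    (monic_scaleRoots_iff r).mpr (minpoly.monic hx)
  exact (eq_of_monic_of_dvd_of_natDegree_le (minpoly.monic hrx) hm h1
    (by rw [natDegree_scaleRoots]; exact h3)).symm

/-- If `ℓ • y` and `s • y` are integral over an integrally closed domain `B`, with `ℓ` prime and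
`ℓ ∤ s`, then `y` is integral over `B`. -/
theorem isIntegral_of_smul_of_smul {ℓ s : B} (hℓ : Prime ℓ) (hs : ¬ ℓ ∣ s) {y : L}
    (h1 : IsIntegral B (ℓ • y)) (h2 : IsIntegral B (s • y)) : IsIntegral B y := by
  have hℓ0 : ℓ ≠ 0 := hℓ.ne_zero
  have hs0 : s ≠ 0 := fun h => hs (h ▸ dvd_zero ℓ)
  set P := minpoly B (ℓ • y) with hP
  set Q := minpoly B (s • y) with hQ
  have hPm : P.Monic := minpoly.monic h1
  have e : P.scaleRoots s = Q.scaleRoots ℓ := by
    rw [hP, hQ, ← minpoly_smul_eq_scaleRoots h1 hs0, ← minpoly_smul_eq_scaleRoots h2 hℓ0,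
      smul_comm]
  have hdeg : Q.natDegree = P.natDegree := by
    have := congrArg natDegree e
    rw [natDegree_scaleRoots, natDegree_scaleRoots] at this
    exact this.symm
  set d := P.natDegree with hd
  have hdvd : ∀ i, ∃ u, P.coeff i = ℓ ^ (d - i) * u := by
    intro i
    have := congrArg (fun p => p.coeff i) e
    simp only [coeff_scaleRoots, hdeg] at this
    have h3 : ℓ ^ (d - i) ∣ P.coeff i * s ^ (d - i) := ⟨Q.coeff i, by rw [this]; ring⟩
    exact hℓ.pow_dvd_of_dvd_mul_right _ (fun h => hs (hℓ.dvd_of_dvd_pow h)) h3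
  choose u hu using hdvd
  have hud : u d = 1 := by
    have := hu d
    rw [Nat.sub_self, pow_zero, one_mul] at this
    rw [← this]
    exact hPm.coeff_natDegree
  let U : B[X] := ∑ i ∈ Finset.range (d + 1), C (u i) * X ^ i
  have hUdeg : U.natDegree ≤ d := by
    apply natDegree_sum_le_of_forall_le
    intro i hi
    exact (natDegree_C_mul_X_pow_le _ _).trans (Nat.lt_succ_iff.mp (Finset.mem_range.mp hi))
  have hUcoeff : U.coeff d = 1 := by
    simp only [U, finsetSum_coeff, coeff_C_mul_X_pow]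
    rw [Finset.sum_eq_single d]
    · simp [hud]
    · intro b _ hb
      simp [hb.symm]
    · intro h
      simp at h
  have hUm : U.Monic := monic_of_natDegree_le_of_coeff_eq_one d hUdeg hUcoeff
  refine ⟨U, hUm, ?_⟩
  have hroot : aeval (ℓ • y) P = 0 := minpoly.aeval B (ℓ • y)
  rw [aeval_eq_sum_range, ← hd] at hroot
  have key : ℓ ^ d • aeval y U = 0 := by
    rw [← hroot]
    simp only [U, map_sum, Finset.smul_sum]
    apply Finset.sum_congr rfl
    intro i hi
    have hi' : i ≤ d := Nat.lt_succ_iff.mp (Finset.mem_range.mp hi)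
    rw [hu i]
    simp only [map_mul, map_pow, aeval_C, aeval_X, Algebra.smul_def]
    have : (algebraMap B L ℓ) ^ d = (algebraMap B L ℓ) ^ (d - i) * (algebraMap B L ℓ) ^ i := by
      rw [← pow_add, Nat.sub_add_cancel hi']
    rw [this]
    ring
  rcases smul_eq_zero.mp key with h | h
  · exact absurd h (pow_ne_zero _ hℓ0)
  · exact h

end LemmaK

section Graph

variable {B L Ω : Type*} [CommRing B] [Field L] [Algebra B L] [Field Ω]

/-- `ρ₀` kills every element of `C` of the form `ℓ • y` with `y` integral over `B`. -/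
theorem map_eq_zero_of_eq_smul {ℓ : B} {C : Subalgebra B L} (ρ₀ : C →+* Ω)
    (hℓ0 : ρ₀ (algebraMap B C ℓ) = 0) (c : C) {y : L} (hy : IsIntegral B y)
    (hc : (c : L) = ℓ • y) : ρ₀ c = 0 := by
  obtain ⟨p, hpm, hp⟩ := hy
  have hq : aeval (c : L) (p.scaleRoots ℓ) = 0 := by
    rw [hc, Algebra.smul_def]
    exact scaleRoots_aeval_eq_zero hp
  have hq' : aeval c (p.scaleRoots ℓ) = 0 := by
    apply Subtype.ext
    rw [← Subalgebra.aeval_coe C c (p.scaleRoots ℓ), hq]
    rfl
  have h3 := congrArg ρ₀ hq'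
  rw [map_zero, aeval_def, hom_eval₂, eval₂_eq_sum_range, natDegree_scaleRoots,
    Finset.sum_range_succ, Finset.sum_eq_zero, zero_add] at h3
  · have : (p.scaleRoots ℓ).coeff p.natDegree = 1 := by
      rw [coeff_scaleRoots_natDegree]; exact hpm
    rw [this, map_one, one_mul] at h3
    exact eq_zero_of_pow_eq_zero h3
  · intro i hi
    have hi' : i < p.natDegree := Finset.mem_range.mp hi
    rw [coeff_scaleRoots]
    have : p.natDegree - i = (p.natDegree - i - 1) + 1 := by omega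
    rw [this, pow_succ, ← mul_assoc]
    simp only [RingHom.comp_apply, map_mul, hℓ0, mul_zero, zero_mul]

/-- The graph of the extended reduction map: `z = ρ₀ (s • a) / ρ₀ s` for some `s ∉ ℓ B` with
`s • a ∈ C`. -/
def RedGraph (ℓ : B) (C : Subalgebra B L) (ρ₀ : C →+* Ω) (a : L) (z : Ω) : Prop :=
  ∃ (s : B) (h : s • a ∈ C), ¬ ℓ ∣ s ∧ z * ρ₀ (algebraMap B C s) = ρ₀ ⟨s • a, h⟩

variable {ℓ : B} {C : Subalgebra B L} {ρ₀ : C →+* Ω}

theorem RedGraph.unique (hker : ∀ b : B, ρ₀ (algebraMap B C b) = 0 → ℓ ∣ b) {a : L} {z z' : Ω}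
    (h : RedGraph ℓ C ρ₀ a z) (h' : RedGraph ℓ C ρ₀ a z') : z = z' := by
  obtain ⟨s, hs, hsℓ, e⟩ := h
  obtain ⟨s', hs', hsℓ', e'⟩ := h'
  have hne : ρ₀ (algebraMap B C s) ≠ 0 := fun h0 => hsℓ (hker s h0)
  have hne' : ρ₀ (algebraMap B C s') ≠ 0 := fun h0 => hsℓ' (hker s' h0)
  have key : (⟨s • a, hs⟩ : C) * algebraMap B C s' = ⟨s' • a, hs'⟩ * algebraMap B C s := by
    apply Subtype.ext
    simp only [Subalgebra.coe_mul, Subalgebra.coe_algebraMap, Algebra.smul_def]
    ring
  have := congrArg ρ₀ key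
  rw [map_mul, map_mul, ← e, ← e'] at this
  have h2 : z * (ρ₀ (algebraMap B C s) * ρ₀ (algebraMap B C s')) =
      z' * (ρ₀ (algebraMap B C s) * ρ₀ (algebraMap B C s')) := by
    linear_combination this
  exact mul_right_cancel₀ (mul_ne_zero hne hne') h2

theorem RedGraph.of_mem (hℓ : Prime ℓ) (c : C) : RedGraph ℓ C ρ₀ (c : L) (ρ₀ c) := by
  refine ⟨1, by rw [one_smul]; exact c.2, hℓ.not_dvd_one, ?_⟩
  rw [map_one, map_one, mul_one]
  congr 1
  apply Subtype.ext
  simp

theorem RedGraph.mul (hℓ : Prime ℓ) {a a' : L} {z z' : Ω}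
    (h : RedGraph ℓ C ρ₀ a z) (h' : RedGraph ℓ C ρ₀ a' z') :
    RedGraph ℓ C ρ₀ (a * a') (z * z') := by
  obtain ⟨s, hs, hsℓ, e⟩ := h
  obtain ⟨s', hs', hsℓ', e'⟩ := h'
  have hmem : (s * s') • (a * a') ∈ C := by
    have := C.mul_mem hs hs'
    rwa [smul_mul_smul_comm] at this
  refine ⟨s * s', hmem, fun hd => (hℓ.dvd_or_dvd hd).elim hsℓ hsℓ', ?_⟩
  have key : (⟨(s * s') • (a * a'), hmem⟩ : C) = ⟨s • a, hs⟩ * ⟨s' • a', hs'⟩ := by
    apply Subtype.ext
    simp only [Subalgebra.coe_mul, smul_mul_smul_comm]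
  rw [key, map_mul, map_mul, map_mul, ← e, ← e']
  ring

theorem RedGraph.add (hℓ : Prime ℓ) {a a' : L} {z z' : Ω}
    (h : RedGraph ℓ C ρ₀ a z) (h' : RedGraph ℓ C ρ₀ a' z') :
    RedGraph ℓ C ρ₀ (a + a') (z + z') := by
  obtain ⟨s, hs, hsℓ, e⟩ := h
  obtain ⟨s', hs', hsℓ', e'⟩ := h'
  have hmem : (s * s') • (a + a') ∈ C := by
    have := C.add_mem (C.smul_mem hs s') (C.smul_mem hs' s)
    have e2 : (s * s') • (a + a') = s' • s • a + s • s' • a' := by
      simp only [Algebra.smul_def, map_mul]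
      ring
    rwa [e2]
  refine ⟨s * s', hmem, fun hd => (hℓ.dvd_or_dvd hd).elim hsℓ hsℓ', ?_⟩
  have key : (⟨(s * s') • (a + a'), hmem⟩ : C) =
      algebraMap B C s' * ⟨s • a, hs⟩ + algebraMap B C s * ⟨s' • a', hs'⟩ := by
    apply Subtype.ext
    simp only [Subalgebra.coe_mul, Subalgebra.coe_add, Subalgebra.coe_algebraMap,
      Algebra.smul_def, map_mul]
    ring
  rw [key, map_add, map_mul, map_mul, map_mul, map_mul, ← e, ← e']
  ring

end Graph

section Sum

variable {B L : Type*} [CommRing B] [Field L] [Algebra B L]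

variable {n : ℕ} {C : Subalgebra B L} {w : Fin n → C}

theorem coe_sum_algebraMap_mul (β : Fin n → B) :
    ((∑ i, algebraMap B C (β i) * w i : C) : L) = ∑ i, β i • (w i : L) := by
  rw [AddSubmonoidClass.coe_finsetSum]
  apply Finset.sum_congr rfl
  intro i _
  simp [Algebra.smul_def]

theorem sum_smul_mem (β : Fin n → B) : ∑ i, β i • (w i : L) ∈ C := by
  rw [← coe_sum_algebraMap_mul β]
  exact SetLike.coe_mem _

end Sum

section Descent

variable {B L Ω : Type*} [CommRing B] [IsDomain B] [Field L] [Algebra B L] [FaithfulSMul B L]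
  [Field Ω]

variable {ℓ : B} {n : ℕ} {C : Subalgebra B L} {ρ₀ : C →+* Ω} {w : Fin n → C}

/-- One descent step: if `(ℓ * d) • a` is a `B`-combination of the `w i` (with `a` integral),
then all coefficients are divisible by `ℓ` and `d • a` is the combination with the divided
coefficients. -/
theorem exists_descent (hℓ : Prime ℓ) (hℓ0 : ρ₀ (algebraMap B C ℓ) = 0)
    (hind : ∀ b : Fin n → B, ρ₀ (∑ i, algebraMap B C (b i) * w i) = 0 → ∀ i, ℓ ∣ b i)
    (β : Fin n → B) (d : B) {a : L} (ha : IsIntegral B a)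
    (h : (ℓ * d) • a = ∑ i, β i • (w i : L)) :
    ∃ β' : Fin n → B, (∀ i, β i = ℓ * β' i) ∧ d • a = ∑ i, β' i • (w i : L) := by
  have h0 : ρ₀ (∑ i, algebraMap B C (β i) * w i) = 0 := by
    apply map_eq_zero_of_eq_smul ρ₀ hℓ0 _ (ha.smul d)
    rw [coe_sum_algebraMap_mul, ← h, mul_smul]
  have hdvd := hind β h0
  choose β' hβ' using hdvd
  refine ⟨β', hβ', ?_⟩
  have h2 : ℓ • (d • a) = ℓ • ∑ i, β' i • (w i : L) := by
    rw [← mul_smul, h, Finset.smul_sum]
    apply Finset.sum_congr rfl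
    intro i _
    rw [hβ' i, mul_smul]
  exact smul_right_injective L hℓ.ne_zero h2

theorem pow_dvd_of_sum_eq_zero (hℓ : Prime ℓ) (hℓ0 : ρ₀ (algebraMap B C ℓ) = 0)
    (hind : ∀ b : Fin n → B, ρ₀ (∑ i, algebraMap B C (b i) * w i) = 0 → ∀ i, ℓ ∣ b i)
    (k : ℕ) : ∀ β : Fin n → B, ∑ i, β i • (w i : L) = 0 → ∀ i, ℓ ^ k ∣ β i := by
  induction k with
  | zero => intro β _ i; simp
  | succ k ih =>
    intro β hβ i
    obtain ⟨β', hβ', h'⟩ := exists_descent hℓ hℓ0 hind β 0 (isIntegral_zero (R := B) (B := L))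
      (by rw [smul_zero, hβ])
    rw [smul_zero] at h'
    obtain ⟨c, hc⟩ := ih β' h'.symm i
    exact ⟨c, by rw [hβ' i, hc]; ring⟩

theorem eq_zero_of_sum_eq_zero (hℓ : Prime ℓ) (hfin : ∀ b : B, b ≠ 0 → ∃ k : ℕ, ¬ ℓ ^ k ∣ b)
    (hℓ0 : ρ₀ (algebraMap B C ℓ) = 0)
    (hind : ∀ b : Fin n → B, ρ₀ (∑ i, algebraMap B C (b i) * w i) = 0 → ∀ i, ℓ ∣ b i)
    (β : Fin n → B) (hβ : ∑ i, β i • (w i : L) = 0) (i : Fin n) : β i = 0 := by
  by_contra hne
  obtain ⟨k, hk⟩ := hfin _ hne
  exact hk (pow_dvd_of_sum_eq_zero hℓ hℓ0 hind k β hβ i)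

theorem descent_aux (hℓ : Prime ℓ) (hℓ0 : ρ₀ (algebraMap B C ℓ) = 0)
    (hind : ∀ b : Fin n → B, ρ₀ (∑ i, algebraMap B C (b i) * w i) = 0 → ∀ i, ℓ ∣ b i)
    {a : L} (ha : IsIntegral B a) (k : ℕ) :
    ∀ (d : B) (β : Fin n → B), ¬ ℓ ^ k ∣ d → d • a = ∑ i, β i • (w i : L) →
      ∃ (s : B) (β' : Fin n → B), ¬ ℓ ∣ s ∧ s • a = ∑ i, β' i • (w i : L) := by
  induction k with
  | zero => intro d β hd; simp at hd
  | succ k ih =>
    intro d β hd h
    by_cases hℓd : ℓ ∣ d
    · obtain ⟨d₁, rfl⟩ := hℓd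
      obtain ⟨β', -, h'⟩ := exists_descent hℓ hℓ0 hind β d₁ ha h
      refine ih d₁ β' (fun hdvd => hd ?_) h'
      rw [pow_succ, mul_comm]
      exact mul_dvd_mul_left ℓ hdvd
    · exact ⟨d, β, hℓd, h⟩

/-- Every integral element of `L` has a multiple by some `s ∉ ℓ B` in the `B`-span of the `w i`. -/
theorem exists_smul_eq_sum (hℓ : Prime ℓ) (hfin : ∀ b : B, b ≠ 0 → ∃ k : ℕ, ¬ ℓ ^ k ∣ b)
    (hdim : ∀ v : Fin (n + 1) → L, ∃ b : Fin (n + 1) → B, b ≠ 0 ∧ ∑ i, b i • v i = 0)
    (hℓ0 : ρ₀ (algebraMap B C ℓ) = 0)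
    (hind : ∀ b : Fin n → B, ρ₀ (∑ i, algebraMap B C (b i) * w i) = 0 → ∀ i, ℓ ∣ b i)
    {a : L} (ha : IsIntegral B a) :
    ∃ (s : B) (β : Fin n → B), ¬ ℓ ∣ s ∧ s • a = ∑ i, β i • (w i : L) := by
  obtain ⟨b, hb, hsum⟩ := hdim (Fin.cons a (fun i => (w i : L)))
  rw [Fin.sum_univ_succ] at hsum
  simp only [Fin.cons_zero, Fin.cons_succ] at hsum
  have hrel : b 0 • a = ∑ i, (-b i.succ) • (w i : L) := by
    rw [eq_neg_of_add_eq_zero_left hsum, ← Finset.sum_neg_distrib]
    apply Finset.sum_congr rfl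
    intro i _
    rw [neg_smul]
  have hb0 : b 0 ≠ 0 := by
    intro h0
    apply hb
    rw [h0, zero_smul, zero_add] at hsum
    funext i
    refine Fin.cases h0 (fun j => ?_) i
    exact eq_zero_of_sum_eq_zero hℓ hfin hℓ0 hind (fun i => b i.succ) hsum j
  obtain ⟨k, hk⟩ := hfin _ hb0
  exact descent_aux hℓ hℓ0 hind ha k (b 0) _ hk hrel

end Descent

section Main

variable {B L Ω : Type*} [CommRing B] [IsDomain B] [IsIntegrallyClosed B]
  [Field L] [Algebra B L] [FaithfulSMul B L] [Field Ω]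

/-- **Extension of a reduction homomorphism to the integral closure.**
`B` integrally closed domain, `ℓ` prime of finite multiplicity, `L ⊇ B` a field of `B`-rank `≤ n`,
`C ≤ integralClosure B L` a subalgebra with a ring hom `ρ₀ : C →+* Ω` killing `ℓ` and reflecting
divisibility by `ℓ` on `B`, and `w : Fin n → C` independent modulo `ℓ`. Then `ρ₀` extends to
the integral closure of `B` in `L`, with kernel exactly `ℓ • integralClosure B L`. -/
theorem exists_reduction_hom (ℓ : B) (hℓ : Prime ℓ)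
    (hfin : ∀ b : B, b ≠ 0 → ∃ k : ℕ, ¬ ℓ ^ k ∣ b) (n : ℕ)
    (hdim : ∀ v : Fin (n + 1) → L, ∃ b : Fin (n + 1) → B, b ≠ 0 ∧ ∑ i, b i • v i = 0)
    (C : Subalgebra B L) (hC : C ≤ integralClosure B L) (ρ₀ : C →+* Ω)
    (hℓ0 : ρ₀ (algebraMap B C ℓ) = 0)
    (hker : ∀ b : B, ρ₀ (algebraMap B C b) = 0 → ℓ ∣ b)
    (w : Fin n → C)
    (hind : ∀ b : Fin n → B, ρ₀ (∑ i, algebraMap B C (b i) * w i) = 0 → ∀ i, ℓ ∣ b i) :
    ∃ ρ : integralClosure B L →+* Ω,
      (∀ c : C, ρ (Subalgebra.inclusion hC c) = ρ₀ c) ∧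
      ∀ a, ρ a = 0 ↔ ∃ a', a = algebraMap B (integralClosure B L) ℓ * a' := by
  have hstar : ∀ a : integralClosure B L,
      ∃ (s : B) (β : Fin n → B), ¬ ℓ ∣ s ∧ s • (a : L) = ∑ i, β i • (w i : L) :=
    fun a => exists_smul_eq_sum hℓ hfin hdim hℓ0 hind a.2
  have htotal : ∀ a : integralClosure B L, ∃ z, RedGraph ℓ C ρ₀ (a : L) z := by
    intro a
    obtain ⟨s, β, hs, e⟩ := hstar a
    have hmem : s • (a : L) ∈ C := by rw [e]; exact sum_smul_mem β
    refine ⟨ρ₀ ⟨s • (a : L), hmem⟩ / ρ₀ (algebraMap B C s), s, hmem, hs, ?_⟩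
    exact div_mul_cancel₀ _ (fun h0 => hs (hker s h0))
  choose f hf using htotal
  have hf_eq : ∀ (a : integralClosure B L) (z : Ω), RedGraph ℓ C ρ₀ (a : L) z → f a = z :=
    fun a z hz => RedGraph.unique hker (hf a) hz
  let ρ : integralClosure B L →+* Ω :=
    { toFun := f
      map_one' := by
        apply hf_eq
        have := RedGraph.of_mem (ρ₀ := ρ₀) hℓ (1 : C)
        rwa [map_one] at this
      map_mul' := fun a b => hf_eq _ _ (RedGraph.mul hℓ (hf a) (hf b))
      map_zero' := by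
        apply hf_eq
        have := RedGraph.of_mem (ρ₀ := ρ₀) hℓ (0 : C)
        rwa [map_zero] at this
      map_add' := fun a b => hf_eq _ _ (RedGraph.add hℓ (hf a) (hf b)) }
  have hρ : ∀ a, ρ a = f a := fun a => rfl
  have hext : ∀ c : C, ρ (Subalgebra.inclusion hC c) = ρ₀ c := by
    intro c
    rw [hρ]
    apply hf_eq
    exact RedGraph.of_mem hℓ c
  refine ⟨ρ, hext, fun a => ⟨fun h0 => ?_, ?_⟩⟩
  · -- kernel ⊆ ℓ A
    obtain ⟨s, β, hs, e⟩ := hstar a
    have hmem : s • (a : L) ∈ C := by rw [e]; exact sum_smul_mem β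
    have hz : ρ₀ ⟨s • (a : L), hmem⟩ = 0 := by
      have hg : RedGraph ℓ C ρ₀ (a : L) (ρ₀ ⟨s • (a : L), hmem⟩ / ρ₀ (algebraMap B C s)) :=
        ⟨s, hmem, hs, div_mul_cancel₀ _ (fun h0 => hs (hker s h0))⟩
      have := hf_eq a _ hg
      rw [← hρ, h0] at this
      have hne : ρ₀ (algebraMap B C s) ≠ 0 := fun h0 => hs (hker s h0)
      rw [eq_comm, div_eq_zero_iff] at this
      exact this.resolve_right hne
    have hz' : ρ₀ (∑ i, algebraMap B C (β i) * w i) = 0 := by
      rw [← hz]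
      congr 1
      apply Subtype.ext
      rw [coe_sum_algebraMap_mul]
      exact e.symm
    have hdvd := hind β hz'
    choose β' hβ' using hdvd
    set c : L := ∑ i, β' i • (w i : L) with hc
    have hcint : IsIntegral B c := by
      apply IsIntegral.sum
      intro i _
      exact (hC (w i).2).smul _
    have hsc : s • (a : L) = ℓ • c := by
      rw [e, hc, Finset.smul_sum]
      apply Finset.sum_congr rfl
      intro i _
      rw [hβ' i, mul_smul]
    have hℓL : algebraMap B L ℓ ≠ 0 := by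
      rw [Ne, FaithfulSMul.algebraMap_eq_zero_iff]
      exact hℓ.ne_zero
    set y : L := (algebraMap B L ℓ)⁻¹ * (a : L) with hy
    have hy1 : ℓ • y = (a : L) := by
      rw [hy, Algebra.smul_def, mul_inv_cancel_left₀ hℓL]
    have hy2 : s • y = c := by
      rw [hy, ← mul_smul_comm, hsc, Algebra.smul_def, inv_mul_cancel_left₀ hℓL]
    have hyint : IsIntegral B y :=
      isIntegral_of_smul_of_smul hℓ hs (by rw [hy1]; exact a.2) (by rw [hy2]; exact hcint)
    refine ⟨⟨y, hyint⟩, ?_⟩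
    apply Subtype.ext
    rw [Subalgebra.coe_mul, Subalgebra.coe_algebraMap, ← Algebra.smul_def]
    exact hy1.symm
  · rintro ⟨a', rfl⟩
    rw [map_mul]
    have : algebraMap B (integralClosure B L) ℓ = Subalgebra.inclusion hC (algebraMap B C ℓ) :=
      ((Subalgebra.inclusion hC).commutes ℓ).symm
    rw [this, hext, hℓ0, zero_mul]

/-- Version of `exists_reduction_hom` for the integral closure of `B` in a subfield `F ⊆ L`
(for instance `F` a function field and `L` a finite extension where the independent family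
`w` lives): the integral closure of `B` in `F` carries a ring hom to `Ω`, compatible with `ρ₀`,
whose kernel is exactly `ℓ • integralClosure B F`. -/
theorem exists_reduction_hom_of_tower {F : Type*} [Field F] [Algebra B F] [Algebra F L]
    [IsScalarTower B F L] (ℓ : B) (hℓ : Prime ℓ)
    (hfin : ∀ b : B, b ≠ 0 → ∃ k : ℕ, ¬ ℓ ^ k ∣ b) (n : ℕ)
    (hdim : ∀ v : Fin (n + 1) → L, ∃ b : Fin (n + 1) → B, b ≠ 0 ∧ ∑ i, b i • v i = 0)
    (C : Subalgebra B L) (hC : C ≤ integralClosure B L) (ρ₀ : C →+* Ω)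
    (hℓ0 : ρ₀ (algebraMap B C ℓ) = 0)
    (hker : ∀ b : B, ρ₀ (algebraMap B C b) = 0 → ℓ ∣ b)
    (w : Fin n → C)
    (hind : ∀ b : Fin n → B, ρ₀ (∑ i, algebraMap B C (b i) * w i) = 0 → ∀ i, ℓ ∣ b i) :
    ∃ ρ : integralClosure B F →+* Ω,
      (∀ (x : integralClosure B F) (c : C), algebraMap F L (x : F) = (c : L) → ρ x = ρ₀ c) ∧
      ∀ a, ρ a = 0 ↔ ∃ a', a = algebraMap B (integralClosure B F) ℓ * a' := by
  obtain ⟨ρ, hext, hkerρ⟩ := exists_reduction_hom ℓ hℓ hfin n hdim C hC ρ₀ hℓ0 hker w hind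
  let φ : integralClosure B F →ₐ[B] integralClosure B L :=
    (IsScalarTower.toAlgHom B F L).mapIntegralClosure
  have hφ : ∀ x : integralClosure B F, ((φ x : integralClosure B L) : L) = algebraMap F L x :=
    fun x => rfl
  refine ⟨ρ.comp (φ : integralClosure B F →+* integralClosure B L), ?_, fun a => ⟨fun h0 => ?_, ?_⟩⟩
  · intro x c hxc
    rw [RingHom.comp_apply, ← hext c]
    congr 1
    apply Subtype.ext
    exact hxc
  · obtain ⟨a', ha'⟩ := (hkerρ (φ a)).mp h0
    have ha'' : algebraMap F L (a : F) = algebraMap B L ℓ * (a' : L) := by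
      have := congrArg (fun t : integralClosure B L => (t : L)) ha'
      simpa [hφ] using this
    have hℓL : algebraMap B L ℓ ≠ 0 := by
      rw [Ne, FaithfulSMul.algebraMap_eq_zero_iff]
      exact hℓ.ne_zero
    have hℓF : algebraMap B F ℓ ≠ 0 := by
      intro h
      apply hℓL
      rw [IsScalarTower.algebraMap_apply B F L, h, map_zero]
    set y : F := (algebraMap B F ℓ)⁻¹ * (a : F) with hy
    have hyL : algebraMap F L y = (a' : L) := by
      rw [hy, map_mul, map_inv₀, ha'', ← IsScalarTower.algebraMap_apply B F L,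
        inv_mul_cancel_left₀ hℓL]
    have hyint : IsIntegral B y := by
      have h1 : IsIntegral B (IsScalarTower.toAlgHom B F L y) := by
        rw [IsScalarTower.coe_toAlgHom', hyL]
        exact a'.2
      exact (isIntegral_algHom_iff (IsScalarTower.toAlgHom B F L)
        (algebraMap F L).injective).mp h1
    refine ⟨⟨y, hyint⟩, ?_⟩
    apply Subtype.ext
    rw [Subalgebra.coe_mul, Subalgebra.coe_algebraMap]
    show (a : F) = algebraMap B F ℓ * y
    rw [hy, mul_inv_cancel_left₀ hℓF]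
  · rintro ⟨a', rfl⟩
    rw [RingHom.comp_apply]
    apply (hkerρ _).mpr
    exact ⟨φ a', by rw [← φ.commutes ℓ]; exact map_mul φ _ _⟩

end Main

section Finrank

/-- The rank hypothesis `hdim` of `exists_reduction_hom` follows from a bound on the degree of
`L` over the fraction field of `B`. -/
theorem exists_dependence_of_finrank_le {B K L : Type*} [CommRing B] [IsDomain B] [Field K]
    [Algebra B K] [IsFractionRing B K] [Field L] [Algebra B L] [Algebra K L]
    [IsScalarTower B K L] [FiniteDimensional K L] {n : ℕ} (h : Module.finrank K L ≤ n)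
    (v : Fin (n + 1) → L) : ∃ b : Fin (n + 1) → B, b ≠ 0 ∧ ∑ i, b i • v i = 0 := by
  have hnot : ¬ LinearIndependent K v := fun hli => by
    have := hli.fintype_card_le_finrank
    rw [Fintype.card_fin] at this
    omega
  obtain ⟨g, hg, i₀, hi₀⟩ := Fintype.not_linearIndependent_iff.mp hnot
  obtain ⟨d, hd⟩ := IsLocalization.exist_integer_multiples_of_finite (nonZeroDivisors B) g
  choose b hb using hd
  refine ⟨b, fun h0 => ?_, ?_⟩
  · have h1 := hb i₀
    rw [h0, Pi.zero_apply, map_zero, eq_comm, Algebra.smul_def, mul_eq_zero] at h1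
    rcases h1 with h1 | h1
    · rw [map_eq_zero_iff _ (IsFractionRing.injective B K)] at h1
      exact nonZeroDivisors.coe_ne_zero d h1
    · exact hi₀ h1
  · have h2 : ∀ i, b i • v i = (d : B) • (g i • v i) := by
      intro i
      rw [← algebraMap_smul K (b i) (v i), hb i, smul_assoc]
    rw [Finset.sum_congr rfl (fun i _ => h2 i), ← Finset.smul_sum, hg, smul_zero]

end Finrank

end Fermat.Agent.Lib.helper618
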