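import Mathlib
import Fermat.Prelude.Def_FLTPrelim_FreyPackage
import Fermat.Prelude.Def_FLTPrelim_GaloisRep

set_option autoImplicit false
open WeierstrassCurve WeierstrassCurve.Affine WeierstrassCurve.Affine.Point

namespace Fermat.Agent.Lib.helper651

section
variable {F : Type*} [Field F] {K : Type*} [Field K] [DecidableEq K] [Algebra F K]
  [Algebra.IsAlgebraic F K]

/-- Stabilisers of points of a Weierstrass curve over an algebraic extension are open
in the Krull topology. -/
theorem isOpen_stabilizer_point (W : Affine F) (P : (W⁄K).Point) :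
    IsOpen {σ : K ≃ₐ[F] K | σ • P = P} := by
  have key : ((MulAction.stabilizer (K ≃ₐ[F] K) P : Subgroup (K ≃ₐ[F] K)) : Set (K ≃ₐ[F] K))
      = {σ : K ≃ₐ[F] K | σ • P = P} := by
    ext σ; simp [MulAction.mem_stabilizer_iff]
  rw [← key]
  rcases P with _ | ⟨x, y, h⟩
  · have : (MulAction.stabilizer (K ≃ₐ[F] K) (Point.zero : (W⁄K).Point)) = ⊤ := by
      ext σ; simp only [MulAction.mem_stabilizer_iff, Subgroup.mem_top, iff_true]; rfl
    rw [this]; exact isOpen_univ
  · have hfin : FiniteDimensional F (IntermediateField.adjoin F ({x, y} : Set K)) :=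
      IntermediateField.finiteDimensional_adjoin (fun z _ => (Algebra.IsAlgebraic.isAlgebraic z).isIntegral)
    have hopen := IntermediateField.fixingSubgroup_isOpen (IntermediateField.adjoin F ({x, y} : Set K))
    refine Subgroup.isOpen_mono (H₁ := (IntermediateField.adjoin F ({x, y} : Set K)).fixingSubgroup) ?_ hopen
    intro σ hσ
    rw [IntermediateField.mem_fixingSubgroup_iff] at hσ
    have hx : σ x = x := hσ x (IntermediateField.subset_adjoin F _ (by simp))
    have hy : σ y = y := hσ y (IntermediateField.subset_adjoin F _ (by simp))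
    rw [MulAction.mem_stabilizer_iff, algEquiv_smul_def]
    simp [Point.map, hx, hy]

/-- Stabilisers of torsion points are open (ingredient `open_stab` of S13-type skeletons). -/
theorem isOpen_stabilizer_torsion (W : Affine F) (n : ℕ)
    (x : Submodule.torsionBy ℤ (W⁄K).Point n) :
    IsOpen {σ : K ≃ₐ[F] K | σ • x = x} := by
  have : {σ : K ≃ₐ[F] K | σ • x = x} = {σ : K ≃ₐ[F] K | σ • (x : (W⁄K).Point) = x} := by
    ext σ
    simp only [Set.mem_ofPred_eq]
    constructor
    · intro h; exact congrArg Subtype.val h
    · intro h; exact Subtype.ext h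
  rw [this]
  exact isOpen_stabilizer_point W _

end

/-- The exact shape of field `open_stab` of the S13 skeleton. -/
theorem frey_open_stab (P : FreyPackage)
    (x : Submodule.torsionBy ℤ ((P.freyCurve)⁄(AlgebraicClosure ℚ)).Point P.p) :
    IsOpen {σ : AlgebraicClosure ℚ ≃ₐ[ℚ] AlgebraicClosure ℚ | σ • x = x} := by
  have : Algebra.IsAlgebraic ℚ (AlgebraicClosure ℚ) := by
    have h : (DivisionRing.toRatAlgebra : Algebra ℚ (AlgebraicClosure ℚ)) =
        AlgebraicClosure.instAlgebra ℚ := Subsingleton.elim _ _
    rw [h]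
    infer_instance
  exact isOpen_stabilizer_torsion _ _ x

end Fermat.Agent.Lib.helper651
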