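import Mathlib
import Fermat.Agent.S18.helper410_TraceLattice
import Fermat.Agent.S16.helper903_DeuringCore
import Fermat.Agent.S18.helper3791_DualNormal

/-!
# S18-GRDUAL / DN: normal special fibre by trace duality

`C` an integrally closed noetherian domain, `π : C` prime with `C ⧸ (π)` a PID, `K = Frac C`,
`F / K` finite separable, `R = integralClosure C F`.  If some `K`-basis of `F` of integral
elements has discriminant prime to `π` (étale at `π`) and the trace dual of `R` is tame along a
divisor `G` which is squarefree modulo `π`, then `R ⧸ π R` is integrally closed in its total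
ring of fractions.  Elementwise consumer form: `IdemLift`.
-/

set_option autoImplicit false
set_option linter.unusedSectionVars false
set_option linter.style.haveILetI false

open scoped nonZeroDivisors

namespace Fermat.Agent.Lib.helper6629

section Cramer

variable {C K F : Type*} [CommRing C] [IsDomain C] [IsIntegrallyClosed C]
  [Field K] [Field F] [Algebra C K] [IsFractionRing C K] [Algebra K F] [Algebra C F]
  [IsScalarTower C K F] [FiniteDimensional K F]

/-- Cramer's rule for the trace form: if `b` is a `K`-basis of `F` of integral elements with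
discriminant `d`, then `d * y` is integral for every `y` whose traces against `b` lie in `C`. -/
theorem isIntegral_discr_mul_of_trace_mem {ι : Type*} [Fintype ι] [DecidableEq ι]
    (b : Module.Basis ι K F) (hb : ∀ i, IsIntegral C (b i)) (d : C)
    (hd : Algebra.discr K b = algebraMap C K d) (y : F)
    (hy : ∀ i, Algebra.trace K F (y * b i) ∈ (algebraMap C K).range) :
    IsIntegral C (algebraMap C F d * y) := by
  classical
  set G := Algebra.traceMatrix K b with hG
  set w : ι → K := fun i => Algebra.trace K F (y * b i) with hw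
  have hGw : G.mulVec (b.equivFun y) = w := Algebra.traceMatrix_of_basis_mulVec b y
  have hcr : G.cramer w = G.det • b.equivFun y := by
    rw [Matrix.cramer_eq_adjugate_mulVec, ← hGw, Matrix.mulVec_mulVec, Matrix.adjugate_mul,
      Matrix.smul_mulVec, Matrix.one_mulVec]
  -- entries of `G` and of `w` come from `C`
  have hGC : ∀ i j, ∃ c : C, algebraMap C K c = G i j := by
    intro i j
    rw [hG, Algebra.traceMatrix_apply, Algebra.traceForm_apply]
    exact IsIntegrallyClosed.isIntegral_iff.mp (Algebra.isIntegral_trace ((hb i).mul (hb j)))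
  choose GC hGC' using hGC
  have hwC : ∀ i, ∃ c : C, algebraMap C K c = w i := fun i => hy i
  choose wC hwC' using hwC
  have hcoef : ∀ i, ∃ e : C, algebraMap C K e = algebraMap C K d * b.repr y i := by
    intro i
    refine ⟨(Matrix.updateCol (Matrix.of GC) i wC).det, ?_⟩
    have h1 : G.cramer w i = (G.updateCol i w).det := Matrix.cramer_apply G w i
    have h2 : G.updateCol i w = (algebraMap C K).mapMatrix (Matrix.updateCol (Matrix.of GC) i wC) := by
      ext k l
      simp only [RingHom.mapMatrix_apply, Matrix.map_apply, Matrix.updateCol_apply, Matrix.of_apply]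
      split_ifs
      · exact (hwC' k).symm
      · exact (hGC' k l).symm
    rw [RingHom.map_det, ← h2, ← h1, hcr, Pi.smul_apply, smul_eq_mul, ← hd]
    rfl
  choose e he using hcoef
  have hsum : algebraMap C F d * y = ∑ i, e i • b i := by
    conv_lhs => rw [← b.sum_repr y]
    rw [Finset.mul_sum]
    refine Finset.sum_congr rfl (fun i _ => ?_)
    rw [← algebraMap_smul K (e i) (b i), he i, mul_smul, algebraMap_smul]
    exact (Algebra.smul_def _ _).symm
  rw [hsum]
  exact IsIntegral.sum _ (fun i _ => (hb i).smul (e i))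

end Cramer

section Main

variable {C K F : Type*} [CommRing C] [IsDomain C] [IsIntegrallyClosed C] [IsNoetherianRing C]
  [Field K] [Field F] [Algebra C K] [IsFractionRing C K] [Algebra K F] [Algebra C F]
  [IsScalarTower C K F] [FiniteDimensional K F] [Algebra.IsSeparable K F]
  {D Λ : Type*} [CommRing D] [IsDomain D] [IsPrincipalIdealRing D] [CommRing Λ] [Algebra D Λ]

/-- Reduction data: `D = C ⧸ (π)` and `Λ = R ⧸ π R` for `R = integralClosure C F`, presented by
surjections with the expected kernels. -/
structure RedData (π : C) (φ : C →+* D) (ψ : integralClosure C F →+* Λ) : Prop where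
  prime : Prime π
  φ_surj : Function.Surjective φ
  φ_ker : ∀ a : C, φ a = 0 ↔ π ∣ a
  ψ_surj : Function.Surjective ψ
  ψ_ker : ∀ x : integralClosure C F, ψ x = 0 ↔ ∃ y : integralClosure C F, x = π • y
  compat : ∀ a : C, ψ (algebraMap C (integralClosure C F) a) = algebraMap D Λ (φ a)

namespace RedData

variable {π : C} {φ : C →+* D} {ψ : integralClosure C F →+* Λ}

omit [IsIntegrallyClosed C] [IsNoetherianRing C] [FiniteDimensional K F] [Algebra.IsSeparable K F]
  [IsDomain D] [IsPrincipalIdealRing D] in
theorem algebraMap_injective (K : Type*) [Field K] [Algebra C K] [IsFractionRing C K]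
    [Algebra K F] [IsScalarTower C K F] : Function.Injective (algebraMap C F) := by
  rw [IsScalarTower.algebraMap_eq C K F]
  exact (algebraMap K F).injective.comp (IsFractionRing.injective C K)

omit [IsDomain C] [IsIntegrallyClosed C] [IsNoetherianRing C] [IsDomain D]
  [IsPrincipalIdealRing D] in
theorem psi_smul (h : RedData (F := F) π φ ψ) (a : C) (x : integralClosure C F) :
    ψ (a • x) = φ a • ψ x := by
  rw [Algebra.smul_def, map_mul, h.compat, Algebra.smul_def]

omit [IsDomain C] [IsIntegrallyClosed C] [IsNoetherianRing C] [IsDomain D]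
  [IsPrincipalIdealRing D] in
theorem psi_sum_smul (h : RedData (F := F) π φ ψ) {ι : Type*} [Fintype ι] (a : ι → C)
    (l : ι → integralClosure C F) : ψ (∑ i, a i • l i) = ∑ i, φ (a i) • ψ (l i) := by
  rw [map_sum]
  exact Finset.sum_congr rfl (fun i _ => h.psi_smul (a i) (l i))

omit [IsNoetherianRing C] [FiniteDimensional K F] [Algebra.IsSeparable K F] [IsDomain D]
  [IsPrincipalIdealRing D] in
include K in
/-- `R ⧸ π R` has no `C ⧸ (π)`-torsion. -/
theorem map_eq_zero_of_smul (h : RedData (F := F) π φ ψ) {c : C} (hc : ¬ π ∣ c)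
    {x : integralClosure C F} (hx : ψ (c • x) = 0) : ψ x = 0 := by
  have hinj : Function.Injective (algebraMap C F) := algebraMap_injective K
  haveI : FaithfulSMul C F := (faithfulSMul_iff_algebraMap_injective C F).mpr hinj
  obtain ⟨z, hz⟩ := (h.ψ_ker _).mp hx
  have hF : algebraMap C F c * (x : F) = algebraMap C F π ^ 1 * (z : F) := by
    have := congrArg (fun t : integralClosure C F => (t : F)) hz
    simpa [Algebra.smul_def] using this
  obtain ⟨w, hw, hxw⟩ := Fermat.Agent.S16.helper903.isIntegral_div_prime_pow h.prime hc 1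
    x.2 z.2 hF
  refine (h.ψ_ker x).mpr ⟨⟨w, hw⟩, Subtype.ext ?_⟩
  simpa [Algebra.smul_def] using hxw

include K in
theorem isTorsionFree (h : RedData (F := F) π φ ψ) : Module.IsTorsionFree D Λ := by
  refine Module.IsTorsionFree.of_smul_eq_zero (fun r m hrm => ?_)
  obtain ⟨c, rfl⟩ := h.φ_surj r
  obtain ⟨x, rfl⟩ := h.ψ_surj m
  by_cases hc : π ∣ c
  · exact Or.inl ((h.φ_ker c).mpr hc)
  · right
    rw [← h.psi_smul] at hrm
    exact h.map_eq_zero_of_smul (K := K) hc hrm

include K in
theorem finite (h : RedData (F := F) π φ ψ) : Module.Finite D Λ := by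
  classical
  have hfin : Module.Finite C (integralClosure C F) :=
    IsIntegralClosure.finite C K F (integralClosure C F)
  obtain ⟨S, hS⟩ := hfin.fg_top
  have key : ∀ x ∈ Submodule.span C (S : Set (integralClosure C F)),
      ψ x ∈ Submodule.span D ((S.image ψ : Finset Λ) : Set Λ) := by
    intro x hx
    induction hx using Submodule.span_induction with
    | mem y hy => exact Submodule.subset_span (Finset.mem_image_of_mem ψ hy)
    | zero => simp
    | add y z _ _ hy hz => rw [map_add]; exact Submodule.add_mem _ hy hz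
    | smul a y _ hy => rw [h.psi_smul]; exact Submodule.smul_mem _ _ hy
  refine ⟨⟨S.image ψ, eq_top_iff.mpr (fun m _ => ?_)⟩⟩
  obtain ⟨x, rfl⟩ := h.ψ_surj m
  exact key x (by rw [hS]; trivial)

include K in
/-- Nakayama: a lift `l` of a `D`-basis of `Λ` generates `R` up to some `s ≡ 1 mod π`. -/
theorem exists_smul_eq_sum (h : RedData (F := F) π φ ψ) {ι : Type*} [Fintype ι]
    (lam : Module.Basis ι D Λ) (l : ι → integralClosure C F) (hl : ∀ i, ψ (l i) = lam i) :
    ∃ s : C, φ s = 1 ∧ ∀ x : integralClosure C F, ∃ a : ι → C, s • x = ∑ i, a i • l i := by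
  classical
  have hfin : Module.Finite C (integralClosure C F) :=
    IsIntegralClosure.finite C K F (integralClosure C F)
  set N : Submodule C (integralClosure C F) := Submodule.span C (Set.range l) with hN
  have hle : (⊤ : Submodule C (integralClosure C F ⧸ N)) ≤
      Ideal.span {π} • (⊤ : Submodule C (integralClosure C F ⧸ N)) := by
    intro q _
    obtain ⟨x, rfl⟩ := N.mkQ_surjective q
    have hchoose : ∀ i, ∃ a : C, φ a = lam.repr (ψ x) i := fun i => h.φ_surj _
    choose a ha using hchoose
    have h0 : ψ (x - ∑ i, a i • l i) = 0 := by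
      rw [map_sub, h.psi_sum_smul, sub_eq_zero]
      conv_lhs => rw [← lam.sum_repr (ψ x)]
      exact Finset.sum_congr rfl (fun i _ => by rw [ha i, hl i])
    obtain ⟨y, hy⟩ := (h.ψ_ker _).mp h0
    have hx : x = π • y + ∑ i, a i • l i := by rw [← hy]; ring
    have hsumN : ∑ i, a i • l i ∈ N :=
      Submodule.sum_mem _ (fun i _ => Submodule.smul_mem _ _ (Submodule.subset_span ⟨i, rfl⟩))
    have hz : N.mkQ (∑ i, a i • l i) = 0 := (Submodule.Quotient.mk_eq_zero N).mpr hsumN
    have : N.mkQ x = π • N.mkQ y := by
      rw [hx, map_add, map_smul, hz, add_zero]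
    rw [this]
    exact Submodule.smul_mem_smul (Ideal.mem_span_singleton_self π) Submodule.mem_top
  obtain ⟨s, hs1, hs⟩ := Submodule.exists_sub_one_mem_and_smul_eq_zero_of_fg_of_le_smul
    (Ideal.span {π}) (⊤ : Submodule C (integralClosure C F ⧸ N)) Module.Finite.fg_top hle
  refine ⟨s, ?_, fun x => ?_⟩
  · have : φ (s - 1) = 0 := (h.φ_ker _).mpr (Ideal.mem_span_singleton.mp hs1)
    rw [map_sub, map_one, sub_eq_zero] at this
    exact this
  · have h1 : N.mkQ (s • x) = 0 := by
      rw [map_smul]; exact hs _ Submodule.mem_top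
    have h2 : s • x ∈ N := (Submodule.Quotient.mk_eq_zero N).mp h1
    obtain ⟨a, ha⟩ := (Submodule.mem_span_range_iff_exists_fun C).mp h2
    exact ⟨a, ha.symm⟩

include K in
/-- A lift of a `D`-basis of `Λ` is `K`-linearly independent in `F`. -/
theorem linearIndependent_lift (h : RedData (F := F) π φ ψ) {ι : Type*} [Fintype ι]
    (lam : Module.Basis ι D Λ) (l : ι → integralClosure C F) (hl : ∀ i, ψ (l i) = lam i) :
    LinearIndependent K (fun i => ((l i : integralClosure C F) : F)) := by
  classical
  have hinj : Function.Injective (algebraMap C F) := algebraMap_injective K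
  have hπ0 : π ≠ 0 := h.prime.ne_zero
  have hπF : algebraMap C F π ≠ 0 := fun h0 => hπ0 (hinj (by rw [h0, map_zero]))
  -- independence modulo `π`
  have h1 : ∀ a : ι → C, ψ (∑ i, a i • l i) = 0 → ∀ i, π ∣ a i := by
    intro a ha i
    rw [h.psi_sum_smul] at ha
    simp only [hl] at ha
    have := Fintype.linearIndependent_iff.mp lam.linearIndependent (fun i => φ (a i)) ha i
    exact (h.φ_ker _).mp this
  have hcoe : ∀ a : ι → C, ((∑ i, a i • l i : integralClosure C F) : F)
      = ∑ i, a i • ((l i : integralClosure C F) : F) := by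
    intro a
    rw [← Subalgebra.coe_val, map_sum]
    exact Finset.sum_congr rfl (fun i _ => by rw [map_smul])
  have h2 : ∀ (k : ℕ) (a : ι → C), ∑ i, a i • ((l i : integralClosure C F) : F) = 0 →
      ∀ i, π ^ k ∣ a i := by
    intro k
    induction k with
    | zero => intro a _ i; simp
    | succ k ih =>
      intro a ha i
      have hR : (∑ i, a i • l i : integralClosure C F) = 0 := Subtype.ext (by rw [hcoe, ha]; rfl)
      have hdiv : ∀ i, π ∣ a i := h1 a (by rw [hR, map_zero])
      choose a' ha' using hdiv
      have ha'0 : ∑ i, a' i • ((l i : integralClosure C F) : F) = 0 := by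
        have : algebraMap C F π * ∑ i, a' i • ((l i : integralClosure C F) : F) = 0 := by
          rw [Finset.mul_sum, ← ha]
          refine Finset.sum_congr rfl (fun i _ => ?_)
          rw [ha' i, mul_smul, Algebra.smul_def π]
        exact (mul_eq_zero.mp this).resolve_left hπF
      rw [ha' i, pow_succ']
      exact mul_dvd_mul_left π (ih a' ha'0 i)
  have h3 : ∀ a : ι → C, ∑ i, a i • ((l i : integralClosure C F) : F) = 0 → ∀ i, a i = 0 := by
    intro a ha i
    by_contra hne
    obtain ⟨n, a', hna', hai⟩ := WfDvdMonoid.max_power_factor hne h.prime.irreducible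
    have := h2 (n + 1) a ha i
    rw [hai, pow_succ] at this
    exact hna' ((mul_dvd_mul_iff_left (pow_ne_zero n hπ0)).mp this)
  exact (LinearIndependent.iff_fractionRing C K).mp (Fintype.linearIndependent_iff.mpr h3)

omit [IsDomain C] [IsIntegrallyClosed C] [IsNoetherianRing C] in
theorem coe_sum_smul {ι : Type*} [Fintype ι] (a : ι → C) (l : ι → integralClosure C F) :
    ((∑ i, a i • l i : integralClosure C F) : F) = ∑ i, a i • ((l i : integralClosure C F) : F) := by
  rw [← Subalgebra.coe_val, map_sum]
  exact Finset.sum_congr rfl (fun i _ => by rw [map_smul])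

include K in
/-- The lift of a `D`-basis of `Λ` spans `F` over `K`. -/
theorem span_lift (_h : RedData (F := F) π φ ψ) {ι : Type*} [Fintype ι]
    (l : ι → integralClosure C F) (s : C) (hs1 : φ s = 1)
    (hs : ∀ x : integralClosure C F, ∃ a : ι → C, s • x = ∑ i, a i • l i) :
    ⊤ ≤ Submodule.span K (Set.range fun i => ((l i : integralClosure C F) : F)) := by
  intro z _
  have hs0 : s ≠ 0 := by
    rintro rfl
    rw [map_zero] at hs1
    exact zero_ne_one hs1
  have hinjK : Function.Injective (algebraMap C K) := IsFractionRing.injective C K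
  have halgCK : Algebra.IsAlgebraic C K := IsLocalization.isAlgebraic K (nonZeroDivisors C)
  have halgCF : Algebra.IsAlgebraic C F := Algebra.IsAlgebraic.trans C K F
  obtain ⟨c, hc0, hcz⟩ := (Algebra.IsAlgebraic.isAlgebraic (R := C) z).exists_integral_multiple
  obtain ⟨a, ha⟩ := hs ⟨c • z, hcz⟩
  have haF : algebraMap C F s * (c • z) = ∑ i, a i • ((l i : integralClosure C F) : F) := by
    rw [← coe_sum_smul, ← ha]
    simp [Algebra.smul_def]
  have hsK : algebraMap C K s ≠ 0 := fun h0 => hs0 (hinjK (by rw [h0, map_zero]))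
  have hcK : algebraMap C K c ≠ 0 := fun h0 => hc0 (hinjK (by rw [h0, map_zero]))
  have hz : z = ∑ i, ((algebraMap C K s * algebraMap C K c)⁻¹ * algebraMap C K (a i)) •
      ((l i : integralClosure C F) : F) := by
    have h1 : (algebraMap C K s * algebraMap C K c) • z
        = ∑ i, a i • ((l i : integralClosure C F) : F) := by
      rw [← haF, mul_smul, algebraMap_smul, algebraMap_smul, Algebra.smul_def s]
    calc z = (algebraMap C K s * algebraMap C K c)⁻¹ • ((algebraMap C K s * algebraMap C K c) • z) := by
          rw [smul_smul, inv_mul_cancel₀ (mul_ne_zero hsK hcK), one_smul]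
      _ = _ := by
          rw [h1, Finset.smul_sum]
          refine Finset.sum_congr rfl (fun i _ => ?_)
          rw [mul_smul, algebraMap_smul]
  rw [hz]
  exact Submodule.sum_mem _ (fun i _ => Submodule.smul_mem _ _ (Submodule.subset_span ⟨i, rfl⟩))

include K in
/-- Compatibility of the trace with reduction modulo `π`. -/
theorem trace_psi (h : RedData (F := F) π φ ψ) {ι : Type*} [Fintype ι] [DecidableEq ι]
    (lam : Module.Basis ι D Λ) (l : ι → integralClosure C F) (hl : ∀ i, ψ (l i) = lam i)
    (s : C) (hs1 : φ s = 1)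
    (hs : ∀ x : integralClosure C F, ∃ a : ι → C, s • x = ∑ i, a i • l i)
    (x : integralClosure C F) (t : C) (ht : Algebra.trace K F (x : F) = algebraMap C K t) :
    Algebra.trace D Λ (ψ x) = φ t := by
  have hs0 : s ≠ 0 := by
    rintro rfl
    rw [map_zero] at hs1
    exact zero_ne_one hs1
  have hinjK : Function.Injective (algebraMap C K) := IsFractionRing.injective C K
  have hsK : algebraMap C K s ≠ 0 := fun h0 => hs0 (hinjK (by rw [h0, map_zero]))
  let lK : Module.Basis ι K F := Module.Basis.mk (h.linearIndependent_lift (K := K) lam l hl)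
    (h.span_lift (K := K) l s hs1 hs)
  have hlK : ∀ i, lK i = ((l i : integralClosure C F) : F) := fun i => by
    simp [lK]
  have hch : ∀ i, ∃ a : ι → C, s • (x * l i) = ∑ j, a j • l j := fun i => hs _
  choose a ha using hch
  -- upstairs
  have hup : ∀ i, lK.repr ((x : F) * lK i) i = (algebraMap C K s)⁻¹ * algebraMap C K (a i i) := by
    intro i
    have h1 : (x : F) * lK i = ∑ j, ((algebraMap C K s)⁻¹ * algebraMap C K (a i j)) • lK j := by
      have h2 : algebraMap C K s • ((x : F) * lK i) = ∑ j, a i j • lK j := by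
        have := congrArg (fun t : integralClosure C F => (t : F)) (ha i)
        simp only [coe_sum_smul] at this
        rw [algebraMap_smul, hlK]
        simp only [hlK]
        rw [← this]
        simp [Algebra.smul_def]
      calc (x : F) * lK i = (algebraMap C K s)⁻¹ • (algebraMap C K s • ((x : F) * lK i)) := by
            rw [smul_smul, inv_mul_cancel₀ hsK, one_smul]
        _ = _ := by
            rw [h2, Finset.smul_sum]
            refine Finset.sum_congr rfl (fun j _ => ?_)
            rw [mul_smul, algebraMap_smul]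
    rw [h1, Module.Basis.repr_sum_self]
  have htr : algebraMap C K s * Algebra.trace K F (x : F) = algebraMap C K (∑ i, a i i) := by
    rw [Algebra.trace_eq_matrix_trace lK, Matrix.trace, Finset.mul_sum, map_sum]
    refine Finset.sum_congr rfl (fun i _ => ?_)
    rw [Matrix.diag_apply, Algebra.leftMulMatrix_eq_repr_mul, hup i, ← mul_assoc,
      mul_inv_cancel₀ hsK, one_mul]
  have hst : s * t = ∑ i, a i i := by
    apply hinjK
    rw [map_mul, ← ht, htr]
  -- downstairs
  have hdown : ∀ i, lam.repr (ψ x * lam i) i = φ (a i i) := by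
    intro i
    have h1 : ψ x * lam i = ∑ j, φ (a i j) • lam j := by
      have := congrArg ψ (ha i)
      rw [h.psi_smul, hs1, one_smul, map_mul, hl, h.psi_sum_smul] at this
      rw [this]
      exact Finset.sum_congr rfl (fun j _ => by rw [hl])
    rw [h1, Module.Basis.repr_sum_self]
  rw [Algebra.trace_eq_matrix_trace lam, Matrix.trace]
  have : φ t = ∑ i, φ (a i i) := by
    rw [← map_sum, ← hst, map_mul, hs1, one_mul]
  rw [this]
  refine Finset.sum_congr rfl (fun i _ => ?_)
  rw [Matrix.diag_apply, Algebra.leftMulMatrix_eq_repr_mul, hdown i]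

variable {κ E : Type*} [Field κ] [Algebra D κ] [IsFractionRing D κ]
  [CommRing E] [Algebra κ E] [Algebra D E] [Algebra Λ E] [IsScalarTower D κ E]
  [IsScalarTower D Λ E] [IsLocalization (Algebra.algebraMapSubmonoid Λ D⁰) E]

include K κ in
/-- **Normality of the special fibre.**  Every element of `E = Λ ⊗ Frac D` which is integral
over `D` is the class of an element of `R = integralClosure C F`. -/
theorem mem_range_of_isIntegral (h : RedData (F := F) π φ ψ)
    {ιb : Type*} [Fintype ιb] [DecidableEq ιb] (b : Module.Basis ιb K F)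
    (hb : ∀ i, IsIntegral C (b i)) (d : C) (hd : Algebra.discr K b = algebraMap C K d)
    (hπd : ¬ π ∣ d) (G : C) (hπG : ¬ π ∣ G) (hGrad : (Ideal.span {φ G}).IsRadical)
    (htame : ∀ y : F,
      (∀ x : F, IsIntegral C x → Algebra.trace K F (y * x) ∈ (algebraMap C K).range) →
      ∃ (r m : ℕ) (ρ : F), 0 < r ∧ IsIntegral C ρ ∧
        algebraMap C F π ^ m * (algebraMap C F G * y) ^ r = algebraMap C F G * ρ)
    (ξ : E) (hξ : IsIntegral D ξ) :
    ∃ x : integralClosure C F, algebraMap Λ E (ψ x) = ξ := by
  classical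
  have hinjF : Function.Injective (algebraMap C F) := algebraMap_injective K
  have hinjK : Function.Injective (algebraMap C K) := IsFractionRing.injective C K
  have hinjκ : Function.Injective (algebraMap D κ) := IsFractionRing.injective D κ
  haveI : FaithfulSMul C F := (faithfulSMul_iff_algebraMap_injective C F).mpr hinjF
  have hTF : Module.IsTorsionFree D Λ := h.isTorsionFree (K := K)
  have hfin : Module.Finite D Λ := h.finite (K := K)
  have hfree : Module.Free D Λ := Module.free_of_finite_type_torsion_free'
  let ι := Module.Free.ChooseBasisIndex D Λ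
  let lam : Module.Basis ι D Λ := Module.Free.chooseBasis D Λ
  have hlift : ∀ i, ∃ x, ψ x = lam i := fun i => h.ψ_surj _
  choose l hl using hlift
  obtain ⟨s, hs1, hs⟩ := h.exists_smul_eq_sum (K := K) lam l hl
  let lK : Module.Basis ι K F := Module.Basis.mk (h.linearIndependent_lift (K := K) lam l hl)
    (h.span_lift (K := K) l s hs1 hs)
  have hlK : ∀ i, lK i = ((l i : integralClosure C F) : F) := fun i => by simp [lK]
  -- the trace-dual basis upstairs
  have hB : (Algebra.traceForm K F).Nondegenerate := traceForm_nondegenerate K F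
  let lD : Module.Basis ι K F := (Algebra.traceForm K F).dualBasis hB lK
  have hlD : ∀ i j, Algebra.trace K F (lD j * lK i) = if i = j then 1 else 0 := by
    intro i j
    have := LinearMap.BilinForm.apply_dualBasis_left hB lK j i
    rw [Algebra.traceForm_apply] at this
    exact this
  set yy : ι → F := fun j => algebraMap C F s * lD j with hyydef
  have hyy : ∀ j (x : F), IsIntegral C x →
      Algebra.trace K F (yy j * x) ∈ (algebraMap C K).range := by
    intro j x hx
    obtain ⟨a, ha⟩ := hs ⟨x, hx⟩
    have haF : algebraMap C F s * x = ∑ i, a i • lK i := by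
      have := congrArg (fun t : integralClosure C F => (t : F)) ha
      simp only [coe_sum_smul] at this
      simp only [hlK]
      rw [← this]
      simp [Algebra.smul_def]
    refine ⟨a j, ?_⟩
    have hprod : yy j * x = ∑ i, algebraMap C K (a i) • (lD j * lK i) := by
      calc yy j * x = lD j * (algebraMap C F s * x) := by simp only [hyydef]; ring
        _ = _ := by
          rw [haF, Finset.mul_sum]
          refine Finset.sum_congr rfl (fun i _ => ?_)
          rw [mul_smul_comm, algebraMap_smul]
    rw [hprod, map_sum]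
    simp only [map_smul, hlD, smul_eq_mul, mul_ite, mul_one, mul_zero, Finset.sum_ite_eq',
      Finset.mem_univ, if_true]
  -- étale: `d` kills the trace dual modulo `R`
  have hint : ∀ j, IsIntegral C (algebraMap C F d * yy j) := fun j =>
    isIntegral_discr_mul_of_trace_mem b hb d hd (yy j) (fun i => hyy j (b i) (hb i))
  let w : ι → integralClosure C F := fun j => ⟨algebraMap C F d * yy j, hint j⟩
  have hφd : φ d ≠ 0 := fun h0 => hπd ((h.φ_ker d).mp h0)
  have hφG : φ G ≠ 0 := fun h0 => hπG ((h.φ_ker G).mp h0)
  have hdκ : algebraMap D κ (φ d) ≠ 0 := fun h0 => hφd (hinjκ (by rw [h0, map_zero]))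
  set z : ι → E := fun j => (algebraMap D κ (φ d))⁻¹ • algebraMap Λ E (ψ (w j)) with hzdef
  -- compatibility of traces
  have htrE : ∀ (x : integralClosure C F) (t : C),
      Algebra.trace K F (x : F) = algebraMap C K t →
      Algebra.trace κ E (algebraMap Λ E (ψ x)) = algebraMap D κ (φ t) := by
    intro x t ht
    rw [Algebra.trace_localization D D⁰, h.trace_psi (K := K) lam l hl s hs1 hs x t ht]
  have hdual : ∀ i j, Algebra.trace κ E (algebraMap Λ E (lam i) * z j)
      = if i = j then 1 else 0 := by
    intro i j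
    have h1 : algebraMap Λ E (lam i) * z j
        = (algebraMap D κ (φ d))⁻¹ • algebraMap Λ E (ψ (l i * w j)) := by
      simp only [hzdef]
      rw [mul_smul_comm, ← hl i, ← map_mul, ← map_mul]
    have h2 : Algebra.trace K F ((l i * w j : integralClosure C F) : F)
        = algebraMap C K (d * s * if i = j then 1 else 0) := by
      have h3 : ((l i * w j : integralClosure C F) : F)
          = algebraMap C K (d * s) • (lD j * lK i) := by
        rw [algebraMap_smul, Algebra.smul_def, hlK]
        simp only [w, hyydef, MulMemClass.coe_mul, map_mul]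
        ring
      rw [h3, map_smul, hlD, smul_eq_mul, map_mul (algebraMap C K) (d * s)]
      split_ifs <;> simp
    rw [h1, map_smul, htrE _ _ h2, smul_eq_mul]
    split_ifs
    · rw [mul_one, map_mul, hs1, mul_one, inv_mul_cancel₀ hdκ]
    · simp
  -- the order `O = Λ ⊆ E`
  set O : Subalgebra D E := (IsScalarTower.toAlgHom D Λ E).range with hOdef
  have hOfin : Module.Finite D O :=
    Module.Finite.of_surjective (IsScalarTower.toAlgHom D Λ E).rangeRestrict.toLinearMap
      (IsScalarTower.toAlgHom D Λ E).rangeRestrict_surjective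
  have hOfg : O.toSubmodule.FG := Module.Finite.iff_fg.mp hOfin
  have hspanO : ∀ e : E, ∃ c : D, c ≠ 0 ∧ c • e ∈ O := by
    intro e
    obtain ⟨⟨x, m⟩, hxm⟩ := IsLocalization.surj (Algebra.algebraMapSubmonoid Λ D⁰) e
    obtain ⟨c, hc, hcm⟩ := m.2
    refine ⟨c, nonZeroDivisors.ne_zero hc, ⟨x, ?_⟩⟩
    simp only at hxm
    show algebraMap Λ E x = c • e
    rw [← hxm, ← hcm, Algebra.smul_def, IsScalarTower.algebraMap_apply D Λ E, mul_comm]
  -- tameness downstairs and the nilpotent-trace criterion
  have hu : ∀ j, ∃ u : D, Algebra.trace κ E (ξ * z j) = algebraMap D κ u := by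
    intro j
    obtain ⟨r, m, ρ, hr, hρ, hrel⟩ := htame (yy j) (hyy j)
    have hGF : algebraMap C F G ≠ 0 := fun h0 =>
      hπG (by rw [hinjF (by rw [h0, map_zero] : algebraMap C F G = algebraMap C F 0)]
              exact dvd_zero π)
    have hπF : algebraMap C F π ≠ 0 := fun h0 =>
      h.prime.ne_zero (hinjF (by rw [h0, map_zero]))
    set ρ' : F := algebraMap C F G ^ (r - 1) * yy j ^ r with hρ'
    have hGρ' : (algebraMap C F G * yy j) ^ r = algebraMap C F G * ρ' := by
      rw [hρ', mul_pow, ← mul_assoc, ← pow_succ', Nat.sub_add_cancel hr]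
    have h1 : algebraMap C F π ^ m * ρ' = ρ := by
      apply mul_left_cancel₀ hGF
      rw [← hrel, hGρ']
      ring
    have h2 : IsIntegral C (algebraMap C F (d ^ r) * ρ') := by
      have : algebraMap C F (d ^ r) * ρ'
          = algebraMap C F G ^ (r - 1) * (algebraMap C F d * yy j) ^ r := by
        rw [hρ', map_pow]; ring
      rw [this]
      exact (isIntegral_algebraMap.pow _).mul ((hint j).pow r)
    have hρ'int : IsIntegral C ρ' := by
      obtain ⟨w', hw', hw'eq⟩ := Fermat.Agent.S16.helper903.isIntegral_div_prime_pow h.prime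
        (fun hdvd => hπd (h.prime.dvd_of_dvd_pow hdvd)) m hρ h2
        (by rw [← h1]; ring : algebraMap C F (d ^ r) * ρ
          = algebraMap C F π ^ m * (algebraMap C F (d ^ r) * ρ'))
      have : ρ' = w' := by
        apply mul_left_cancel₀ (pow_ne_zero m hπF)
        rw [h1, hw'eq]
      rw [this]; exact hw'
    have hR : w j ^ r * algebraMap C (integralClosure C F) (G ^ (r - 1))
        = algebraMap C (integralClosure C F) (d ^ r) * ⟨ρ', hρ'int⟩ := by
      apply Subtype.ext
      simp only [w, MulMemClass.coe_mul, SubmonoidClass.coe_pow]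
      rw [show ((algebraMap C (integralClosure C F) (G ^ (r - 1)) : integralClosure C F) : F)
            = algebraMap C F G ^ (r - 1) by rw [← map_pow]; rfl,
          show ((algebraMap C (integralClosure C F) (d ^ r) : integralClosure C F) : F)
            = algebraMap C F d ^ r by rw [← map_pow]; rfl, hρ']
      ring
    have hE : algebraMap D E (φ G) ^ (r - 1) * z j ^ r
        = algebraMap Λ E (ψ ⟨ρ', hρ'int⟩) := by
      have hRE := congrArg (fun t => algebraMap Λ E (ψ t)) hR
      simp only [map_mul, map_pow, h.compat, ← IsScalarTower.algebraMap_apply D Λ E] at hRE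
      have hdE : algebraMap D E (φ d) = algebraMap κ E (algebraMap D κ (φ d)) :=
        IsScalarTower.algebraMap_apply D κ E _
      simp only [hzdef]
      rw [smul_pow, mul_smul_comm, mul_comm, hRE, hdE, ← map_pow, ← Algebra.smul_def,
        smul_smul, inv_pow, inv_mul_cancel₀ (pow_ne_zero r hdκ), one_smul]
    exact Fermat.Agent.S18.helper410.trace_mul_mem_of_pow_mem_order (K := κ) O hOfg hspanO
      (φ G) hφG hGrad (z j) r hr (by rw [hE]; exact ⟨_, rfl⟩) ξ hξ
  choose u hu using hu
  -- coordinates of `ξ`
  let bE : Module.Basis ι κ E := lam.localizationLocalization κ D⁰ E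
  have hbE : ∀ i, bE i = algebraMap Λ E (lam i) := fun i =>
    Module.Basis.localizationLocalization_apply κ D⁰ E lam i
  have hcoord : ∀ j, bE.repr ξ j = algebraMap D κ (u j) := by
    intro j
    rw [← hu j]
    conv_rhs => rw [← bE.sum_repr ξ]
    rw [Finset.sum_mul, map_sum]
    simp only [smul_mul_assoc, map_smul, hbE, hdual, smul_eq_mul, mul_ite, mul_one, mul_zero,
      Finset.sum_ite_eq', Finset.mem_univ, if_true]
  have hch : ∀ j, ∃ a : C, φ a = u j := fun j => h.φ_surj _
  choose a ha using hch
  refine ⟨∑ j, a j • l j, ?_⟩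
  rw [h.psi_sum_smul, map_sum]
  conv_rhs => rw [← bE.sum_repr ξ]
  refine Finset.sum_congr rfl (fun j _ => ?_)
  rw [hcoord j, hbE j, ha j, hl j, Algebra.smul_def, map_mul,
    ← IsScalarTower.algebraMap_apply D Λ E, IsScalarTower.algebraMap_apply D κ E,
    ← Algebra.smul_def]

include K κ in
/-- `Λ` embeds into `E = Λ ⊗ Frac D`. -/
theorem injective_algebraMap (h : RedData (F := F) π φ ψ) :
    Function.Injective (algebraMap Λ E) := by
  classical
  have hTF : Module.IsTorsionFree D Λ := h.isTorsionFree (K := K)
  have hfin : Module.Finite D Λ := h.finite (K := K)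
  have hfree : Module.Free D Λ := Module.free_of_finite_type_torsion_free'
  let lam := Module.Free.chooseBasis D Λ
  let bE := lam.localizationLocalization κ D⁰ E
  rw [injective_iff_map_eq_zero]
  intro v hv
  apply lam.repr.injective
  ext i
  have h1 := Module.Basis.localizationLocalization_repr_algebraMap κ D⁰ E lam v i
  rw [hv, map_zero, Finsupp.zero_apply] at h1
  rw [map_zero, Finsupp.zero_apply]
  exact (IsFractionRing.injective D κ) (by rw [← h1, map_zero])

omit [IsDomain C] [IsIntegrallyClosed C] [IsNoetherianRing C] [IsDomain D]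
  [IsPrincipalIdealRing D] in
/-- A monic relation gives integrality. -/
theorem isIntegral_of_relation {D E : Type*} [CommRing D] [CommRing E] [Algebra D E] (ξ : E)
    (n : ℕ) (c : Fin n → D)
    (hrel : ξ ^ n + ∑ i : Fin n, algebraMap D E (c i) * ξ ^ (i : ℕ) = 0) : IsIntegral D ξ := by
  refine ⟨Polynomial.X ^ n + ∑ i : Fin n, Polynomial.C (c i) * Polynomial.X ^ (i : ℕ),
    Polynomial.monic_X_pow_add (Polynomial.degree_sum_fin_lt c), ?_⟩
  rw [← hrel]
  simp [Polynomial.eval₂_add, Polynomial.eval₂_finsetSum]

include K κ E in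
/-- **Integral lifting** (elementwise form of the normality of the special fibre): if `a ∈ R`,
`c ∉ (π)` and `a / c` satisfies a monic equation over `C` modulo `π R`, then `a ∈ c R + π R`. -/
theorem intLift (h : RedData (F := F) π φ ψ)
    {ιb : Type*} [Fintype ιb] [DecidableEq ιb] (b : Module.Basis ιb K F)
    (hb : ∀ i, IsIntegral C (b i)) (d : C) (hd : Algebra.discr K b = algebraMap C K d)
    (hπd : ¬ π ∣ d) (G : C) (hπG : ¬ π ∣ G) (hGrad : (Ideal.span {φ G}).IsRadical)
    (htame : ∀ y : F,
      (∀ x : F, IsIntegral C x → Algebra.trace K F (y * x) ∈ (algebraMap C K).range) →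
      ∃ (r m : ℕ) (ρ : F), 0 < r ∧ IsIntegral C ρ ∧
        algebraMap C F π ^ m * (algebraMap C F G * y) ^ r = algebraMap C F G * ρ)
    (a : F) (ha : IsIntegral C a) (c : C) (hc : ¬ π ∣ c)
    (hrel : ∃ (n : ℕ) (e : Fin n → C) (y : F), IsIntegral C y ∧
      a ^ n + ∑ i : Fin n, algebraMap C F (e i * c ^ (n - (i : ℕ))) * a ^ (i : ℕ)
        = algebraMap C F π * y) :
    ∃ r y : F, IsIntegral C r ∧ IsIntegral C y ∧
      algebraMap C F c * r - a = algebraMap C F π * y := by
  obtain ⟨n, e, y, hy, hrel⟩ := hrel
  have hinjκ : Function.Injective (algebraMap D κ) := IsFractionRing.injective D κ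
  have hφc : φ c ≠ 0 := fun h0 => hc ((h.φ_ker c).mp h0)
  have hcκ : algebraMap D κ (φ c) ≠ 0 := fun h0 => hφc (hinjκ (by rw [h0, map_zero]))
  have hφπ : φ π = 0 := (h.φ_ker π).mpr dvd_rfl
  set aR : integralClosure C F := ⟨a, ha⟩ with haR
  set yR : integralClosure C F := ⟨y, hy⟩ with hyR
  have hR : aR ^ n + ∑ i : Fin n,
      algebraMap C (integralClosure C F) (e i * c ^ (n - (i : ℕ))) * aR ^ (i : ℕ) = π • yR := by
    apply Subtype.ext
    rw [Algebra.smul_def]
    simp only [haR, hyR, Subalgebra.coe_add, Subalgebra.coe_pow, MulMemClass.coe_mul,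
      AddSubmonoidClass.coe_finsetSum]
    exact hrel
  have hE : algebraMap Λ E (ψ aR) ^ n + ∑ i : Fin n,
      algebraMap D E (φ (e i) * φ c ^ (n - (i : ℕ))) * algebraMap Λ E (ψ aR) ^ (i : ℕ) = 0 := by
    have := congrArg (fun t => algebraMap Λ E (ψ t)) hR
    simp only [map_add, map_sum, map_mul, map_pow, h.compat, h.psi_smul, hφπ, zero_smul,
      ← IsScalarTower.algebraMap_apply D Λ E] at this
    simpa [map_mul, map_pow] using this
  set ξ : E := (algebraMap D κ (φ c))⁻¹ • algebraMap Λ E (ψ aR) with hξdef
  have hξint : IsIntegral D ξ := by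
    refine isIntegral_of_relation ξ n (fun i => φ (e i)) ?_
    have hterm : ∀ i : Fin n, algebraMap D E (φ (e i)) * ξ ^ (i : ℕ)
        = ((algebraMap D κ (φ c))⁻¹) ^ n • (algebraMap D E (φ (e i) * φ c ^ (n - (i : ℕ))) *
            algebraMap Λ E (ψ aR) ^ (i : ℕ)) := by
      intro i
      have hi : (i : ℕ) ≤ n := i.2.le
      have hsplit : ((algebraMap D κ (φ c))⁻¹) ^ (i : ℕ)
          = ((algebraMap D κ (φ c))⁻¹) ^ n * algebraMap D κ (φ c) ^ (n - (i : ℕ)) := by
        rw [inv_pow, inv_pow]
        field_simp
        rw [← pow_add, Nat.add_sub_cancel' hi]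
      have hpow : algebraMap D E (φ (e i) * φ c ^ (n - (i : ℕ))) *
            algebraMap Λ E (ψ aR) ^ (i : ℕ)
          = algebraMap D κ (φ c) ^ (n - (i : ℕ)) •
            (algebraMap D E (φ (e i)) * algebraMap Λ E (ψ aR) ^ (i : ℕ)) := by
        rw [map_mul, map_pow, IsScalarTower.algebraMap_apply D κ E (φ c),
          ← map_pow (algebraMap κ E), Algebra.smul_def]
        ring
      rw [hpow, smul_smul, ← hsplit, hξdef, smul_pow, mul_smul_comm]
    rw [hξdef, smul_pow]
    simp only [← hξdef, hterm]
    rw [← Finset.smul_sum, ← smul_add, hE, smul_zero]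
  obtain ⟨x, hx⟩ := h.mem_range_of_isIntegral (K := K) (κ := κ) b hb d hd hπd G hπG hGrad htame
    ξ hξint
  have hzero : algebraMap Λ E (ψ (c • x - aR)) = 0 := by
    rw [map_sub, map_sub, h.psi_smul, Algebra.smul_def, map_mul,
      ← IsScalarTower.algebraMap_apply D Λ E, hx, hξdef, IsScalarTower.algebraMap_apply D κ E,
      ← Algebra.smul_def, smul_smul, mul_inv_cancel₀ hcκ, one_smul, sub_self]
  have hψ0 : ψ (c • x - aR) = 0 :=
    h.injective_algebraMap (K := K) (κ := κ) (E := E) (by rw [hzero, map_zero])
  obtain ⟨y', hy'⟩ := (h.ψ_ker _).mp hψ0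
  refine ⟨x, y', x.2, y'.2, ?_⟩
  have := congrArg (fun t : integralClosure C F => (t : F)) hy'
  simpa [Algebra.smul_def, haR] using this

end RedData

end Main

section Concrete

variable {C K F : Type*} [CommRing C] [IsDomain C] [IsIntegrallyClosed C] [IsNoetherianRing C]
  [Field K] [Field F] [Algebra C K] [IsFractionRing C K] [Algebra K F] [Algebra C F]
  [IsScalarTower C K F] [FiniteDimensional K F] [Algebra.IsSeparable K F]

omit [IsDomain C] [IsIntegrallyClosed C] [IsNoetherianRing C] in
/-- The quotients `C ⧸ (π)` and `R ⧸ π R` form reduction data. -/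
theorem redData_quotient (π : C) (hπ : Prime π) :
    RedData (F := F) π (Ideal.Quotient.mk (Ideal.span {π}))
      (Ideal.Quotient.mk ((Ideal.span {π}).map (algebraMap C (integralClosure C F)))) where
  prime := hπ
  φ_surj := Ideal.Quotient.mk_surjective
  φ_ker a := by rw [Ideal.Quotient.eq_zero_iff_mem, Ideal.mem_span_singleton]
  ψ_surj := Ideal.Quotient.mk_surjective
  ψ_ker x := by
    rw [Ideal.Quotient.eq_zero_iff_mem, Ideal.map_span, Set.image_singleton,
      Ideal.mem_span_singleton']
    constructor
    · rintro ⟨y, hy⟩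
      exact ⟨y, by rw [← hy, Algebra.smul_def, mul_comm]⟩
    · rintro ⟨y, hy⟩
      exact ⟨y, by rw [hy, Algebra.smul_def, mul_comm]⟩
  compat _ := rfl

set_option synthInstance.maxHeartbeats 400000 in
set_option maxHeartbeats 1000000 in
/-- **S18-GRDUAL / DN, integral lifting on a chart.**  `C` integrally closed noetherian domain,
`π` prime with `C ⧸ (π)` a PID, `F / Frac C` finite separable.  If `F` is étale at `π`
(discriminant form) and the trace dual of `R = integralClosure C F` is tame along `G`
(`G` squarefree modulo `π`), then `R ⧸ π R` is integrally closed in its total fraction ring. -/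
theorem intLift_of_etale_of_tame (π : C) (hπ : Prime π)
    [IsPrincipalIdealRing (C ⧸ Ideal.span {π})]
    {ιb : Type*} [Fintype ιb] [DecidableEq ιb] (b : Module.Basis ιb K F)
    (hb : ∀ i, IsIntegral C (b i)) (d : C) (hd : Algebra.discr K b = algebraMap C K d)
    (hπd : ¬ π ∣ d) (G : C) (hπG : ¬ π ∣ G)
    (hGrad : (Ideal.span {Ideal.Quotient.mk (Ideal.span {π}) G}).IsRadical)
    (htame : ∀ y : F,
      (∀ x : F, IsIntegral C x → Algebra.trace K F (y * x) ∈ (algebraMap C K).range) →
      ∃ (r m : ℕ) (ρ : F), 0 < r ∧ IsIntegral C ρ ∧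
        algebraMap C F π ^ m * (algebraMap C F G * y) ^ r = algebraMap C F G * ρ)
    (a : F) (ha : IsIntegral C a) (c : C) (hc : ¬ π ∣ c)
    (hrel : ∃ (n : ℕ) (e : Fin n → C) (y : F), IsIntegral C y ∧
      a ^ n + ∑ i : Fin n, algebraMap C F (e i * c ^ (n - (i : ℕ))) * a ^ (i : ℕ)
        = algebraMap C F π * y) :
    ∃ r y : F, IsIntegral C r ∧ IsIntegral C y ∧
      algebraMap C F c * r - a = algebraMap C F π * y := by
  haveI : (Ideal.span {π}).IsPrime := (Ideal.span_singleton_prime hπ.ne_zero).mpr hπ
  exact (redData_quotient (F := F) π hπ).intLift (K := K)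
    (κ := FractionRing (C ⧸ Ideal.span {π}))
    (E := Localization (Algebra.algebraMapSubmonoid
      (integralClosure C F ⧸ (Ideal.span {π}).map (algebraMap C (integralClosure C F)))
      (C ⧸ Ideal.span {π})⁰))
    b hb d hd hπd G hπG hGrad htame a ha c hc hrel

include K in
/-- The same in `helper3791`'s elementwise interface `IdemLift` (idempotents of the total
fraction ring of the special fibre lift). -/
theorem idemLift_of_etale_of_tame (π : C) (hπ : Prime π)
    [IsPrincipalIdealRing (C ⧸ Ideal.span {π})]
    {ιb : Type*} [Fintype ιb] [DecidableEq ιb] (b : Module.Basis ιb K F)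
    (hb : ∀ i, IsIntegral C (b i)) (d : C) (hd : Algebra.discr K b = algebraMap C K d)
    (hπd : ¬ π ∣ d) (G : C) (hπG : ¬ π ∣ G)
    (hGrad : (Ideal.span {Ideal.Quotient.mk (Ideal.span {π}) G}).IsRadical)
    (htame : ∀ y : F,
      (∀ x : F, IsIntegral C x → Algebra.trace K F (y * x) ∈ (algebraMap C K).range) →
      ∃ (r m : ℕ) (ρ : F), 0 < r ∧ IsIntegral C ρ ∧
        algebraMap C F π ^ m * (algebraMap C F G * y) ^ r = algebraMap C F G * ρ) :
    Fermat.Agent.S18.helper3791.IdemLift C F π := by
  intro a ha c hc hrel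
  obtain ⟨y, hy, hrel⟩ := hrel
  refine intLift_of_etale_of_tame (K := K) π hπ b hb d hd hπd G hπG hGrad htame a ha c hc
    ⟨2, ![0, -1], y, hy, ?_⟩
  rw [Fin.sum_univ_two, ← hrel]
  simp
  ring

include K in
/-- **One component through every closed point of the special fibre** (`helper3578.OneComponent`
unfolded; `hone0` / `hone1` of `helper2128.eq_of_mem_minimalPrimes_of_cech`), from étaleness
at `π` and tameness of the trace dual. -/
theorem oneComponent_of_etale_of_tame (π : C) (hπ : Prime π)
    [IsPrincipalIdealRing (C ⧸ Ideal.span {π})]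
    {ιb : Type*} [Fintype ιb] [DecidableEq ιb] (b : Module.Basis ιb K F)
    (hb : ∀ i, IsIntegral C (b i)) (d : C) (hd : Algebra.discr K b = algebraMap C K d)
    (hπd : ¬ π ∣ d) (G : C) (hπG : ¬ π ∣ G)
    (hGrad : (Ideal.span {Ideal.Quotient.mk (Ideal.span {π}) G}).IsRadical)
    (htame : ∀ y : F,
      (∀ x : F, IsIntegral C x → Algebra.trace K F (y * x) ∈ (algebraMap C K).range) →
      ∃ (r m : ℕ) (ρ : F), 0 < r ∧ IsIntegral C ρ ∧
        algebraMap C F π ^ m * (algebraMap C F G * y) ^ r = algebraMap C F G * ρ) :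
    ∀ Q ∈ (Ideal.span {algebraMap C ↥(integralClosure C F) π}).minimalPrimes,
    ∀ Q' ∈ (Ideal.span {algebraMap C ↥(integralClosure C F) π}).minimalPrimes,
      Q ⊔ Q' ≠ ⊤ → Q = Q' :=
  Fermat.Agent.S18.helper3791.oneComponent_of_idemLift (K := K) π hπ
    (idemLift_of_etale_of_tame (K := K) π hπ b hb d hd hπd G hπG hGrad htame)

include K in
/-- **DN in the canonical surface** (`helper98` #328 / `helper3791` #364): `(c)` étale at `lam`
in discriminant form (VERT-ABS), `(a')` the tame bound for the trace dual (DN-A,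
`helper1148.dualBound`), `G` squarefree modulo `lam`. -/
theorem oneComponent_of_dualNormal (lam : C) (hlam : Prime lam)
    [IsPrincipalIdealRing (C ⧸ Ideal.span {lam})]
    (hc : ∃ (ι : Type) (_ : Fintype ι) (_ : DecidableEq ι) (c : Module.Basis ι K F) (d : C),
      (∀ i, IsIntegral C (c i)) ∧ Algebra.discr K c = algebraMap C K d ∧ ¬ lam ∣ d)
    (G : C) (hG : Squarefree (Ideal.Quotient.mk (Ideal.span {lam}) G)) (M : ℕ) (hM : 0 < M)
    (ha : ∀ x : F,
      (∀ r : F, IsIntegral C r → Algebra.trace K F (x * r) ∈ (algebraMap C K).range) →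
      IsIntegral C (x ^ M * algebraMap C F G ^ (M - 1))) :
    ∀ Q ∈ (Ideal.span {algebraMap C ↥(integralClosure C F) lam}).minimalPrimes,
    ∀ Q' ∈ (Ideal.span {algebraMap C ↥(integralClosure C F) lam}).minimalPrimes,
      Q ⊔ Q' ≠ ⊤ → Q = Q' := by
  obtain ⟨ι, hfin, hdec, c, d, hci, hcd, hld⟩ := hc
  haveI : (Ideal.span {lam}).IsPrime := (Ideal.span_singleton_prime hlam.ne_zero).mpr hlam
  have hlamG : ¬ lam ∣ G := by
    intro hdvd
    have h0 : Ideal.Quotient.mk (Ideal.span {lam}) G = 0 :=
      Ideal.Quotient.eq_zero_iff_mem.mpr (Ideal.mem_span_singleton.mpr hdvd)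
    rw [h0] at hG
    exact not_squarefree_zero hG
  have hGrad : (Ideal.span {Ideal.Quotient.mk (Ideal.span {lam}) G}).IsRadical :=
    isRadical_iff_span_singleton.mp hG.isRadical
  refine oneComponent_of_etale_of_tame (K := K) lam hlam c hci d hcd hld G hlamG hGrad ?_
  intro y hy
  refine ⟨M, 0, y ^ M * algebraMap C F G ^ (M - 1), hM, ha y hy, ?_⟩
  rw [pow_zero, one_mul, mul_pow]
  conv_lhs => rw [← Nat.sub_add_cancel hM, pow_succ]
  rw [Nat.sub_add_cancel hM]
  ring

end Concrete

end Fermat.Agent.Lib.helper6629
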