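import Mathlib
import Fermat.Prelude.Def_GaloisRep_Adic
import Fermat.Agent.S53.helper3173_Burnside

/-!
# The trace-kernel lemma for residually absolutely irreducible `GaloisRepAdic`

Let `T` be a local ring and `ρ : GaloisRepAdic T` with absolutely irreducible residual
representation.  Then

* `span_range_eq_top` : the `T`-span of `ρ(G_ℚ)` is all of `End_T(V)` (Burnside + Nakayama);
* `eq_zero_of_trace_mul_eq_zero` : the trace form `(f, x) ↦ tr (f * x)` on `End_T(V)` has trivial
  kernel;
* `eq_one_of_trace_mul_eq` : if `tr ρ(g τ) = tr ρ(g)` for all `g`, then `ρ(τ) = 1`;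
* `eq_one_of_trace_mul_sub_mem_pow` : the same with congruences modulo all powers of the
  maximal ideal (`T` noetherian);
* `isUnramifiedAt_of_trace`, `isUnramifiedAt_of_trace_mem_pow` : the corresponding criteria for
  `GaloisRepAdic.IsUnramifiedAt`.

These are the formal "equal traces ⇒ trivial on inertia" steps used for statements such as S31.
-/

set_option autoImplicit false

namespace Fermat.Agent.Lib.helper6767

open scoped TensorProduct

local notation "GQ" => (AlgebraicClosure ℚ ≃ₐ[ℚ] AlgebraicClosure ℚ)

section Generic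

variable {T : Type} [CommRing T] [IsLocalRing T]
variable {V : Type} [AddCommGroup V] [Module T V] [Module.Free T V] [Module.Finite T V]

/-- An endomorphism of a finite free module over a local ring whose base change to the residue
field vanishes lies in `𝔪 • End`. -/
theorem mem_smul_top_of_baseChange_eq_zero (g : Module.End T V)
    (hg : g.baseChange (IsLocalRing.ResidueField T) = 0) :
    g ∈ IsLocalRing.maximalIdeal T • (⊤ : Submodule T (Module.End T V)) := by
  classical
  set b := Module.Free.chooseBasis T V with hb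
  have hM : (LinearMap.toMatrix b b g).map (algebraMap T (IsLocalRing.ResidueField T)) = 0 := by
    rw [← LinearMap.toMatrix_baseChange, hg, map_zero]
  have hentry : ∀ i j, LinearMap.toMatrix b b g i j ∈ IsLocalRing.maximalIdeal T := by
    intro i j
    have h := congrFun (congrFun hM i) j
    rw [Matrix.map_apply, Matrix.zero_apply, IsLocalRing.ResidueField.algebraMap_eq,
      IsLocalRing.residue_eq_zero_iff] at h
    exact h
  have hg' : g = ∑ i, ∑ j, LinearMap.toMatrix b b g i j •
      (LinearMap.toMatrix b b).symm (Matrix.single i j (1 : T)) := by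
    apply (LinearMap.toMatrix b b).injective
    rw [map_sum]
    conv_lhs => rw [Matrix.matrix_eq_sum_single (LinearMap.toMatrix b b g)]
    refine Finset.sum_congr rfl fun i _ => ?_
    rw [map_sum]
    refine Finset.sum_congr rfl fun j _ => ?_
    rw [map_smul, LinearEquiv.apply_symm_apply, Matrix.smul_single, smul_eq_mul, mul_one]
  rw [hg']
  refine Submodule.sum_mem _ fun i _ => Submodule.sum_mem _ fun j _ => ?_
  exact Submodule.smul_mem_smul (hentry i j) Submodule.mem_top

/-- The trace form on the endomorphism ring of a finite free module has trivial kernel. -/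
theorem eq_zero_of_trace_mul_eq_zero {R : Type} [CommRing R] {W : Type} [AddCommGroup W]
    [Module R W] [Module.Free R W] [Module.Finite R W] (x : Module.End R W)
    (h : ∀ f : Module.End R W, LinearMap.trace R W (f * x) = 0) : x = 0 := by
  classical
  set b := Module.Free.chooseBasis R W with hb
  apply (LinearMap.toMatrix b b).injective
  rw [map_zero]
  refine Matrix.ext_iff_trace_mul_left.mpr fun M => ?_
  have h1 := h ((LinearMap.toMatrix b b).symm M)
  rw [LinearMap.trace_eq_matrix_trace R b, LinearMap.toMatrix_mul,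
    LinearEquiv.apply_symm_apply] at h1
  rw [h1, Matrix.mul_zero, Matrix.trace_zero]

end Generic

section Rep

variable {T : Type} [CommRing T] [IsLocalRing T]

/-- **Burnside + Nakayama**: if the residual representation is absolutely irreducible, the
`T`-span of the image of `ρ` is the whole endomorphism ring. -/
theorem span_range_eq_top (ρ : GaloisRepAdic T) (habs : ρ.residual.IsAbsolutelyIrreducible) :
    Submodule.span T (Set.range ρ.ρ) = ⊤ := by
  classical
  set k := IsLocalRing.ResidueField T with hk
  set U : Submodule T (Module.End T ρ.V) := Submodule.span T (Set.range ρ.ρ) with hU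
  -- the reduction map on endomorphisms
  let β : Module.End T ρ.V →ₗ[T] Module.End k (k ⊗[T] ρ.V) :=
    LinearMap.baseChangeHom T k ρ.V ρ.V
  have hβ : ∀ f : Module.End T ρ.V, β f = f.baseChange k := fun f => rfl
  have hburn : Submodule.span k (Set.range ρ.residual.ρ) = ⊤ :=
    Fermat.Agent.S53.helper3173.span_range_eq_top ρ.residual habs
  -- every element of the `k`-span of the residual image lifts to `U`
  have hlift : ∀ y ∈ Submodule.span k (Set.range ρ.residual.ρ), ∃ u ∈ U, β u = y := by
    intro y hy
    induction hy using Submodule.span_induction with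
    | mem y hy =>
      obtain ⟨σ, rfl⟩ := hy
      exact ⟨ρ.ρ σ, Submodule.subset_span ⟨σ, rfl⟩, rfl⟩
    | zero => exact ⟨0, U.zero_mem, map_zero β⟩
    | add y z _ _ hy hz =>
      obtain ⟨u, hu, rfl⟩ := hy
      obtain ⟨v, hv, rfl⟩ := hz
      exact ⟨u + v, U.add_mem hu hv, map_add β u v⟩
    | smul c y _ hy =>
      obtain ⟨u, hu, rfl⟩ := hy
      obtain ⟨t, rfl⟩ := IsLocalRing.residue_surjective c
      refine ⟨t • u, U.smul_mem t hu, ?_⟩
      rw [map_smul]
      exact (algebraMap_smul k t (β u)).symm
  have hfg : (⊤ : Submodule T (Module.End T ρ.V)).FG := Module.Finite.fg_top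
  have hjac : IsLocalRing.maximalIdeal T ≤ Ideal.jacobson (⊥ : Ideal T) := by
    rw [IsLocalRing.jacobson_eq_maximalIdeal ⊥ bot_ne_top]
  refine top_le_iff.mp (Submodule.le_of_le_smul_of_le_jacobson_bot hfg hjac ?_)
  intro f _
  obtain ⟨u, hu, huf⟩ := hlift (β f) (by rw [hburn]; exact Submodule.mem_top)
  have hker : f - u ∈ IsLocalRing.maximalIdeal T • (⊤ : Submodule T (Module.End T ρ.V)) := by
    apply mem_smul_top_of_baseChange_eq_zero
    rw [← hβ, map_sub, huf, sub_self]
  have : f = u + (f - u) := by abel
  rw [this]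
  exact Submodule.add_mem_sup hu hker

/-- **Trace-kernel lemma.**  If `ρ` is residually absolutely irreducible and
`tr ρ(g τ) = tr ρ(g)` for every `g`, then `ρ(τ) = 1`. -/
theorem eq_one_of_trace_mul_eq (ρ : GaloisRepAdic T) (habs : ρ.residual.IsAbsolutelyIrreducible)
    (τ : GQ) (h : ∀ g : GQ, ρ.trace (g * τ) = ρ.trace g) : ρ.ρ τ = 1 := by
  have hx : ρ.ρ τ - 1 = 0 := by
    apply eq_zero_of_trace_mul_eq_zero
    intro f
    have hf : f ∈ Submodule.span T (Set.range ρ.ρ) := by
      rw [span_range_eq_top ρ habs]; exact Submodule.mem_top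
    induction hf using Submodule.span_induction with
    | mem f hf =>
      obtain ⟨g, rfl⟩ := hf
      have := h g
      simp only [GaloisRepAdic.trace, map_mul] at this
      rw [mul_sub, mul_one, map_sub, this, sub_self]
    | zero => rw [zero_mul, map_zero]
    | add f f' _ _ hf hf' => rw [add_mul, map_add, hf, hf', add_zero]
    | smul c f _ hf => rw [smul_mul_assoc, map_smul, hf, smul_zero]
  exact sub_eq_zero.mp hx

/-- Variant with the inertia element on the left. -/
theorem eq_one_of_trace_mul_eq' (ρ : GaloisRepAdic T) (habs : ρ.residual.IsAbsolutelyIrreducible)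
    (τ : GQ) (h : ∀ g : GQ, ρ.trace (τ * g) = ρ.trace g) : ρ.ρ τ = 1 := by
  refine eq_one_of_trace_mul_eq ρ habs τ fun g => ?_
  have := h g
  simp only [GaloisRepAdic.trace, map_mul] at this ⊢
  rw [LinearMap.trace_mul_comm]
  exact this

/-- **Trace-kernel lemma, adic form.**  If `T` is noetherian, `ρ` is residually absolutely
irreducible and `tr ρ(g τ) ≡ tr ρ(g)` modulo every power of the maximal ideal, then
`ρ(τ) = 1`. -/
theorem eq_one_of_trace_mul_sub_mem_pow [IsNoetherianRing T] (ρ : GaloisRepAdic T)
    (habs : ρ.residual.IsAbsolutelyIrreducible) (τ : GQ)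
    (h : ∀ (n : ℕ) (g : GQ), ρ.trace (g * τ) - ρ.trace g ∈ IsLocalRing.maximalIdeal T ^ n) :
    ρ.ρ τ = 1 := by
  refine eq_one_of_trace_mul_eq ρ habs τ fun g => ?_
  have hmem : ρ.trace (g * τ) - ρ.trace g ∈ ⨅ n : ℕ, IsLocalRing.maximalIdeal T ^ n :=
    (Submodule.mem_iInf _).mpr fun n => h n g
  rw [Ideal.iInf_pow_eq_bot_of_isLocalRing _ (IsLocalRing.maximalIdeal.isMaximal T).ne_top,
    Ideal.mem_bot] at hmem
  exact sub_eq_zero.mp hmem

/-- Unramifiedness criterion: the trace function is invariant under right translation by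
inertia at `q`. -/
theorem isUnramifiedAt_of_trace (ρ : GaloisRepAdic T) (habs : ρ.residual.IsAbsolutelyIrreducible)
    (q : ℕ)
    (h : ∀ P : ValuationSubring (AlgebraicClosure ℚ), P.LiesOverPrime q →
      ∀ τ ∈ P.inertiaSubgroupIn ℚ, ∀ g : GQ, ρ.trace (g * τ) = ρ.trace g) :
    ρ.IsUnramifiedAt q :=
  fun P hP τ hτ => eq_one_of_trace_mul_eq ρ habs τ (h P hP τ hτ)

/-- Unramifiedness criterion, adic form. -/
theorem isUnramifiedAt_of_trace_mem_pow [IsNoetherianRing T] (ρ : GaloisRepAdic T)
    (habs : ρ.residual.IsAbsolutelyIrreducible) (q : ℕ)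
    (h : ∀ P : ValuationSubring (AlgebraicClosure ℚ), P.LiesOverPrime q →
      ∀ τ ∈ P.inertiaSubgroupIn ℚ, ∀ (n : ℕ) (g : GQ),
        ρ.trace (g * τ) - ρ.trace g ∈ IsLocalRing.maximalIdeal T ^ n) :
    ρ.IsUnramifiedAt q :=
  fun P hP τ hτ => eq_one_of_trace_mul_sub_mem_pow ρ habs τ (h P hP τ hτ)

end Rep

end Fermat.Agent.Lib.helper6767
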