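import Mathlib
import Fermat.Prelude.Def_EllipticCurve_FrobeniusTrace
import Fermat.Prelude.Def_AlgebraicCurve_DivisorClassGroup
import Fermat.Agent.Lib.helper54_Frobenius

/-!
# The residue field of a place of `ℚ̄` over a prime `ℓ` (helper6879)

For a valuation subring `A` of `ℚ̄ = AlgebraicClosure ℚ` lying over a prime `ℓ`, with
residue field `k = IsLocalRing.ResidueField A`:

* `charP_residueField` : `CharP k ℓ`;
* `isAlgClosed_residueField` : `k` is algebraically closed (any algebraically closed `L`);
* `exists_pow_prime_pow_eq` : every `x : k` satisfies `x ^ (ℓ ^ n) = x` for some `n > 0`,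
  `isAlgebraic_zmod_residueField` : `k` is algebraic over `ZMod ℓ`;
* `perfectRing_residueField`, `frobenius_bijective_residueField`;
* `isFrobeniusAt_iff` : elementwise characterisation of Frobenius elements;
* number-field layers: for a finite subextension `K` of `ℚ̄/ℚ`, `A ∩ K` is a discrete
  valuation ring with finite residue field (`isDiscreteValuationRing_comap`,
  `finite_residueField_comap`), and finite subsets of `ℚ̄` lie in such a `K`.
-/

set_option autoImplicit false
set_option linter.style.haveILetI false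

namespace Fermat.Agent.Lib.helper6879

open Polynomial
open scoped Pointwise

/-! ### Generalities on residue fields of valuation subrings -/

section General

variable {L : Type*} [Field L]

/-- A field in which the prime `ℓ` vanishes has characteristic `ℓ`. -/
theorem charP_of_natCast_eq_zero {k : Type*} [Field k] {ℓ : ℕ} (hℓ : ℓ.Prime)
    (h : (ℓ : k) = 0) : CharP k ℓ := by
  obtain ⟨p, hp⟩ := CharP.exists k
  have hdvd : p ∣ ℓ := (CharP.cast_eq_zero_iff k p ℓ).mp h
  rcases (Nat.dvd_prime hℓ).mp hdvd with h1 | h1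
  · exact absurd h1 (CharP.char_ne_one k p)
  · exact h1 ▸ hp

/-- The residue field of a valuation subring over `ℓ` has characteristic `ℓ`. -/
theorem charP_residueField {ℓ : ℕ} (hℓ : ℓ.Prime) (A : ValuationSubring L)
    (hA : A.LiesOverPrime ℓ) : CharP (IsLocalRing.ResidueField A) ℓ := by
  apply charP_of_natCast_eq_zero hℓ
  have h1 : ((ℓ : A) : L) ∈ A.nonunits := by
    have : ((ℓ : A) : L) = (ℓ : L) := by simp
    rw [this]
    exact hA
  have h2 : (ℓ : A) ∈ IsLocalRing.maximalIdeal A :=
    ValuationSubring.coe_mem_nonunits_iff.mp h1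
  have h3 : IsLocalRing.residue A (ℓ : A) = 0 := (IsLocalRing.residue_eq_zero_iff _).mpr h2
  rwa [map_natCast] at h3

/-- The residue field of a valuation subring of an algebraically closed field is
algebraically closed. -/
theorem isAlgClosed_residueField [IsAlgClosed L] (A : ValuationSubring L) :
    IsAlgClosed (IsLocalRing.ResidueField A) := by
  apply IsAlgClosed.of_exists_root
  intro p hp hirr
  obtain ⟨P, hPmap, hPdeg, hPmonic⟩ :=
    Polynomial.lifts_and_natDegree_eq_and_monic
      ((Polynomial.mem_lifts p).mpr (Polynomial.map_surjective _ IsLocalRing.residue_surjective p))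
      hp
  have hdeg : (P.map (algebraMap A L)).degree ≠ 0 := by
    apply Polynomial.degree_ne_of_natDegree_ne
    rw [hPmonic.natDegree_map, hPdeg]
    exact hirr.natDegree_pos.ne'
  obtain ⟨x, hx⟩ := IsAlgClosed.exists_root (P.map (algebraMap A L)) hdeg
  have hint : IsIntegral A x := ⟨P, hPmonic, by rwa [← Polynomial.eval_map]⟩
  obtain ⟨y, hy⟩ := IsIntegrallyClosed.isIntegral_iff.mp hint
  refine ⟨IsLocalRing.residue A y, ?_⟩
  have h0 : P.eval y = 0 := by
    have hinj : Function.Injective (algebraMap A L) := Subtype.val_injective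
    apply hinj
    rw [map_zero, ← Polynomial.eval₂_at_apply, Polynomial.eval₂_eq_eval_map, hy]
    exact hx
  rw [← hPmap, Polynomial.eval_map, Polynomial.eval₂_at_apply, h0, map_zero]

/-- In a field of characteristic `ℓ`, an element integral over `ℤ` lies in a finite
subfield: `x ^ (ℓ ^ n) = x` for some `n > 0`. -/
theorem exists_pow_prime_pow_eq_of_isIntegral_int {k : Type*} [Field k] {ℓ : ℕ}
    [Fact ℓ.Prime] [CharP k ℓ] (x : k) (hx : IsIntegral ℤ x) :
    ∃ n : ℕ, 0 < n ∧ x ^ (ℓ ^ n) = x := by
  letI := ZMod.algebra k ℓ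
  have hx' : IsIntegral (ZMod ℓ) x := hx.tower_top
  let F := IntermediateField.adjoin (ZMod ℓ) {x}
  haveI : FiniteDimensional (ZMod ℓ) F := IntermediateField.adjoin.finiteDimensional hx'
  haveI : Finite F := Module.finite_of_finite (ZMod ℓ)
  letI : Fintype F := Fintype.ofFinite F
  haveI : CharP F ℓ := charP_of_injective_algebraMap (algebraMap (ZMod ℓ) F).injective ℓ
  obtain ⟨n, -, hn⟩ := FiniteField.card F ℓ
  have hxF : x ∈ F := IntermediateField.mem_adjoin_simple_self (ZMod ℓ) x
  have h1 := FiniteField.pow_card (⟨x, hxF⟩ : F)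
  rw [hn] at h1
  exact ⟨n, n.pos, congrArg Subtype.val h1⟩

/-- The set of elements with `x ^ (ℓ ^ n) = x` for some `n > 0` is stable under products
and inverses. -/
theorem exists_pow_prime_pow_eq_mul {k : Type*} [Field k] {ℓ : ℕ} {x y : k}
    (hx : ∃ n : ℕ, 0 < n ∧ x ^ (ℓ ^ n) = x) (hy : ∃ n : ℕ, 0 < n ∧ y ^ (ℓ ^ n) = y) :
    ∃ n : ℕ, 0 < n ∧ (x * y) ^ (ℓ ^ n) = x * y := by
  obtain ⟨n, hn, hxn⟩ := hx
  obtain ⟨m, hm, hym⟩ := hy
  have key : ∀ (z : k) (a : ℕ), z ^ (ℓ ^ a) = z → ∀ b : ℕ, z ^ (ℓ ^ (a * b)) = z := by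
    intro z a hz b
    induction b with
    | zero => simp
    | succ b ih => rw [Nat.mul_succ, pow_add, pow_mul, ih, hz]
  refine ⟨n * m, Nat.mul_pos hn hm, ?_⟩
  rw [mul_pow, key x n hxn m, mul_comm n m, key y m hym n]

theorem exists_pow_prime_pow_eq_inv {k : Type*} [Field k] {ℓ : ℕ} {x : k}
    (hx : ∃ n : ℕ, 0 < n ∧ x ^ (ℓ ^ n) = x) : ∃ n : ℕ, 0 < n ∧ x⁻¹ ^ (ℓ ^ n) = x⁻¹ := by
  obtain ⟨n, hn, hxn⟩ := hx
  exact ⟨n, hn, by rw [inv_pow, hxn]⟩

/-- A field of characteristic `ℓ` all of whose elements lie in finite subfields is algebraic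
over `ZMod ℓ`. -/
theorem isAlgebraic_zmod_of_pow_eq {k : Type*} [Field k] {ℓ : ℕ} [Fact ℓ.Prime] [CharP k ℓ]
    (h : ∀ x : k, ∃ n : ℕ, 0 < n ∧ x ^ (ℓ ^ n) = x) :
    letI := ZMod.algebra k ℓ
    Algebra.IsAlgebraic (ZMod ℓ) k := by
  letI := ZMod.algebra k ℓ
  refine ⟨fun x => ?_⟩
  obtain ⟨n, hn, hx⟩ := h x
  have h1 : 1 < ℓ ^ n := Nat.one_lt_pow hn.ne' (Fact.out : ℓ.Prime).one_lt
  exact ⟨X ^ (ℓ ^ n) - X, FiniteField.X_pow_card_sub_X_ne_zero (ZMod ℓ) h1, by simp [hx]⟩

/-- Elementwise characterisation of Frobenius elements: `σ` is a Frobenius at `A` for `q`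
iff it stabilises `A` and `σ x ≡ x ^ q` modulo the maximal ideal. -/
theorem isFrobeniusAt_iff {K : Type*} [Field K] [Algebra K L] (A : ValuationSubring L)
    (σ : L ≃ₐ[K] L) (q : ℕ) :
    A.IsFrobeniusAt σ q ↔
      σ ∈ A.decompositionSubgroup K ∧ ∀ x ∈ A, σ x - x ^ q ∈ A.nonunits := by
  constructor
  · rintro ⟨hσ, h⟩
    refine ⟨hσ, fun x hx => ?_⟩
    have h1 := h (IsLocalRing.residue A ⟨x, hx⟩)
    rw [← IsLocalRing.ResidueField.residue_smul, ← map_pow, ← sub_eq_zero, ← map_sub,
      IsLocalRing.residue_eq_zero_iff] at h1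
    exact (ValuationSubring.coe_mem_nonunits_iff (A := A)).2 h1
  · rintro ⟨hσ, h⟩
    refine ⟨hσ, fun xbar => ?_⟩
    obtain ⟨x, rfl⟩ := IsLocalRing.residue_surjective xbar
    rw [← IsLocalRing.ResidueField.residue_smul, ← map_pow, ← sub_eq_zero, ← map_sub,
      IsLocalRing.residue_eq_zero_iff]
    exact (ValuationSubring.coe_mem_nonunits_iff (A := A)).1 (h x.1 x.2)

/-- A Frobenius element maps `A` into itself. -/
theorem IsFrobeniusAt_map_mem {K : Type*} [Field K] [Algebra K L] {A : ValuationSubring L}
    {σ : L ≃ₐ[K] L} {q : ℕ} (h : A.IsFrobeniusAt σ q) {x : L} (hx : x ∈ A) : σ x ∈ A := by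
  have h1 : σ • A = A := h.mem_decompositionSubgroup
  have h2 : σ x ∈ σ • A := by
    rw [ValuationSubring.mem_pointwise_smul_iff_inv_smul_mem]
    simpa using hx
  rwa [h1] at h2

/-- Residue form of the Frobenius property: `residue (σ a) = (residue a) ^ q`. -/
theorem IsFrobeniusAt_residue {K : Type*} [Field K] [Algebra K L] {A : ValuationSubring L}
    {σ : L ≃ₐ[K] L} {q : ℕ} (h : A.IsFrobeniusAt σ q) (a : A) :
    IsLocalRing.residue A ⟨σ a, IsFrobeniusAt_map_mem h a.2⟩ = IsLocalRing.residue A a ^ q := by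
  have h1 := ((isFrobeniusAt_iff A σ q).1 h).2 a.1 a.2
  rw [← map_pow, ← sub_eq_zero, ← map_sub, IsLocalRing.residue_eq_zero_iff]
  exact (ValuationSubring.coe_mem_nonunits_iff (A := A)).1 h1

/-- An element of the decomposition group maps `A` into itself. -/
theorem map_mem_of_mem_decompositionSubgroup {K : Type*} [Field K] [Algebra K L]
    {A : ValuationSubring L} {σ : L ≃ₐ[K] L} (h : σ ∈ A.decompositionSubgroup K) {x : L}
    (hx : x ∈ A) : σ x ∈ A := by
  have h1 : σ • A = A := h
  have h2 : σ x ∈ σ • A := by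
    rw [ValuationSubring.mem_pointwise_smul_iff_inv_smul_mem]
    simpa using hx
  rwa [h1] at h2

/-- The inertia group is contained in the decomposition group. -/
theorem mem_decompositionSubgroup_of_mem_inertiaSubgroupIn {K : Type*} [Field K] [Algebra K L]
    {A : ValuationSubring L} {τ : L ≃ₐ[K] L} (h : τ ∈ A.inertiaSubgroupIn K) :
    τ ∈ A.decompositionSubgroup K := by
  obtain ⟨τ', -, rfl⟩ := h
  exact τ'.2

/-- Residue form of the inertia property: `residue (τ a) = residue a`. -/
theorem inertia_residue {K : Type*} [Field K] [Algebra K L] {A : ValuationSubring L}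
    {τ : L ≃ₐ[K] L} (h : τ ∈ A.inertiaSubgroupIn K) (a : A) :
    IsLocalRing.residue A ⟨τ a, map_mem_of_mem_decompositionSubgroup
      (mem_decompositionSubgroup_of_mem_inertiaSubgroupIn h) a.2⟩ = IsLocalRing.residue A a := by
  obtain ⟨τ', hτ', rfl⟩ := h
  have hker : MulSemiringAction.toRingAut (A.decompositionSubgroup K)
      (IsLocalRing.ResidueField A) τ' = 1 := hτ'
  have h1 : τ' • IsLocalRing.residue A a = IsLocalRing.residue A a := by
    have := congrArg (fun f : RingAut (IsLocalRing.ResidueField A) => f (IsLocalRing.residue A a))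
      hker
    simpa using this
  rw [← IsLocalRing.ResidueField.residue_smul] at h1
  exact h1

end General

/-! ### Valuation subrings of `ℚ̄` -/

section Qbar

open Fermat.Agent.Lib.helper54

local notation "Qb" => AlgebraicClosure ℚ
local notation "Zb" => integralClosure ℤ (AlgebraicClosure ℚ)

/-- Every element of the residue field of a place of `ℚ̄` over `ℓ` lies in a finite subfield. -/
theorem exists_pow_prime_pow_eq {ℓ : ℕ} (hℓ : ℓ.Prime) (A : ValuationSubring Qb)
    (hA : A.LiesOverPrime ℓ) (x : IsLocalRing.ResidueField A) :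
    ∃ n : ℕ, 0 < n ∧ x ^ (ℓ ^ n) = x := by
  haveI : Fact ℓ.Prime := ⟨hℓ⟩
  haveI := charP_residueField hℓ A hA
  obtain ⟨a, rfl⟩ := IsLocalRing.residue_surjective x
  obtain ⟨c, b, hb, hab⟩ := exists_frac_of_mem_valuationSubring hℓ A hA a.1 a.2
  -- the residue of an algebraic integer is integral over `ℤ`
  have hint : ∀ z : Zb, IsIntegral ℤ (IsLocalRing.residue A (zbarToValuationSubring A z)) := by
    intro z
    have hz : IsIntegral ℤ z := (integralClosure.isIntegral z)
    exact map_isIntegral_int ((IsLocalRing.residue A).comp (zbarToValuationSubring A)) hz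
  have hb' : IsLocalRing.residue A (zbarToValuationSubring A b) ≠ 0 := by
    rw [Ne, IsLocalRing.residue_eq_zero_iff]
    exact hb
  have hprod : IsLocalRing.residue A a * IsLocalRing.residue A (zbarToValuationSubring A b)
      = IsLocalRing.residue A (zbarToValuationSubring A c) := by
    rw [← map_mul]
    congr 1
    exact Subtype.ext hab
  have hx : IsLocalRing.residue A a = IsLocalRing.residue A (zbarToValuationSubring A c) *
      (IsLocalRing.residue A (zbarToValuationSubring A b))⁻¹ := by
    rw [← hprod, mul_assoc, mul_inv_cancel₀ hb', mul_one]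
  rw [hx]
  exact exists_pow_prime_pow_eq_mul
    (exists_pow_prime_pow_eq_of_isIntegral_int _ (hint c))
    (exists_pow_prime_pow_eq_inv (exists_pow_prime_pow_eq_of_isIntegral_int _ (hint b)))

/-- The residue field of a place of `ℚ̄` over `ℓ` is algebraic over `ZMod ℓ`; together with
`isAlgClosed_residueField` it is an algebraic closure of `𝔽_ℓ`. -/
theorem isAlgebraic_zmod_residueField {ℓ : ℕ} [Fact ℓ.Prime] (A : ValuationSubring Qb)
    (hA : A.LiesOverPrime ℓ) [CharP (IsLocalRing.ResidueField A) ℓ] :
    letI := ZMod.algebra (IsLocalRing.ResidueField A) ℓ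
    Algebra.IsAlgebraic (ZMod ℓ) (IsLocalRing.ResidueField A) :=
  isAlgebraic_zmod_of_pow_eq (exists_pow_prime_pow_eq Fact.out A hA)

/-- The residue field of a place of `ℚ̄` over `ℓ` is an algebraic closure of `ZMod ℓ`. -/
theorem isAlgClosure_zmod_residueField {ℓ : ℕ} [Fact ℓ.Prime] (A : ValuationSubring Qb)
    (hA : A.LiesOverPrime ℓ) [CharP (IsLocalRing.ResidueField A) ℓ] :
    letI := ZMod.algebra (IsLocalRing.ResidueField A) ℓ
    IsAlgClosure (ZMod ℓ) (IsLocalRing.ResidueField A) := by
  letI := ZMod.algebra (IsLocalRing.ResidueField A) ℓ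
  exact ⟨isAlgClosed_residueField A, isAlgebraic_zmod_residueField A hA⟩

/-- The residue field of a place of `ℚ̄` over `ℓ` is perfect: `x ↦ x ^ ℓ` is bijective. -/
theorem perfectRing_residueField {ℓ : ℕ} (hℓ : ℓ.Prime) (A : ValuationSubring Qb)
    (hA : A.LiesOverPrime ℓ) : PerfectRing (IsLocalRing.ResidueField A) ℓ := by
  haveI : Fact ℓ.Prime := ⟨hℓ⟩
  haveI := charP_residueField hℓ A hA
  haveI := isAlgClosed_residueField A
  infer_instance

theorem pow_prime_bijective_residueField {ℓ : ℕ} (hℓ : ℓ.Prime) (A : ValuationSubring Qb)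
    (hA : A.LiesOverPrime ℓ) :
    Function.Bijective (fun x : IsLocalRing.ResidueField A => x ^ ℓ) :=
  (perfectRing_residueField hℓ A hA).bijective_frobenius

end Qbar

/-! ### Number-field layers -/

section NumberField

open NumberField IsDedekindDomain Fermat.Agent.Lib.helper54

variable {K : Type*} [Field K] [NumberField K]

/-- The inclusion of the ring of integers into a valuation subring. -/
noncomputable def ringOfIntegersTo (O : ValuationSubring K) : 𝓞 K →+* O where
  toFun z := ⟨(z : K), mem_valuationSubring_of_isIntegral O (z : K) z.2⟩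
  map_one' := rfl
  map_mul' _ _ := rfl
  map_zero' := rfl
  map_add' _ _ := rfl

omit [NumberField K] in
@[simp] theorem coe_ringOfIntegersTo (O : ValuationSubring K) (z : 𝓞 K) :
    ((ringOfIntegersTo O z : O) : K) = (z : K) := rfl

/-- The prime of the ring of integers cut out by a valuation subring. -/
noncomputable def primeOf (O : ValuationSubring K) : Ideal (𝓞 K) :=
  (IsLocalRing.maximalIdeal O).comap (ringOfIntegersTo O)

instance primeOf_isPrime (O : ValuationSubring K) : (primeOf O).IsPrime :=
  Ideal.comap_isPrime _ _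

omit [NumberField K] in
theorem mem_primeOf (O : ValuationSubring K) (z : 𝓞 K) :
    z ∈ primeOf O ↔ (z : K) ∈ O.nonunits := by
  rw [primeOf, Ideal.mem_comap, ← ValuationSubring.coe_mem_nonunits_iff, coe_ringOfIntegersTo]

theorem primeOf_ne_bot (O : ValuationSubring K) (hO : O ≠ ⊤) : primeOf O ≠ ⊥ := by
  intro hbot
  apply hO
  refine SetLike.ext fun x => ⟨fun _ => ValuationSubring.mem_top x, fun _ => ?_⟩
  obtain ⟨a, b, hb, rfl⟩ := IsFractionRing.div_surjective (A := 𝓞 K) x
  have hb0 : b ≠ 0 := nonZeroDivisors.ne_zero hb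
  have hbP : b ∉ primeOf O := by rw [hbot]; exact hb0
  have hbu : IsUnit (ringOfIntegersTo O b) := by
    by_contra h
    exact hbP ((IsLocalRing.mem_maximalIdeal _).mpr h)
  obtain ⟨u, hu⟩ := hbu
  have hinv : (algebraMap (𝓞 K) K b)⁻¹ = ((u⁻¹ : Oˣ) : O) := by
    have h1 : ((u : O) : K) = algebraMap (𝓞 K) K b := by rw [hu]; rfl
    have h2 : ((u : O) : K) * (((u⁻¹ : Oˣ) : O) : K) = 1 := by
      rw [← MulMemClass.coe_mul, Units.mul_inv]; rfl
    rw [← h1]
    exact inv_eq_of_mul_eq_one_right h2
  rw [div_eq_mul_inv, hinv]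
  exact mul_mem (mem_valuationSubring_of_isIntegral O _ a.2) (SetLike.coe_mem _)

/-- The height-one prime attached to a proper valuation subring of a number field. -/
noncomputable def heightOneOf (O : ValuationSubring K) (hO : O ≠ ⊤) : HeightOneSpectrum (𝓞 K) :=
  ⟨primeOf O, inferInstance, primeOf_ne_bot O hO⟩

@[simp] theorem heightOneOf_asIdeal (O : ValuationSubring K) (hO : O ≠ ⊤) :
    (heightOneOf O hO).asIdeal = primeOf O := rfl

omit [NumberField K] in
/-- An integer outside the prime cut out by `O` has its inverse in `O`. -/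
theorem inv_mem_of_not_mem_primeOf (O : ValuationSubring K) {s : 𝓞 K} (hs : s ∉ primeOf O) :
    (algebraMap (𝓞 K) K s)⁻¹ ∈ O := by
  have hsu : IsUnit (ringOfIntegersTo O s) := by
    by_contra h
    exact hs ((IsLocalRing.mem_maximalIdeal _).mpr h)
  obtain ⟨u, hu⟩ := hsu
  have h1 : ((u : O) : K) = algebraMap (𝓞 K) K s := by rw [hu]; rfl
  have h2 : ((u : O) : K) * (((u⁻¹ : Oˣ) : O) : K) = 1 := by
    rw [← MulMemClass.coe_mul, Units.mul_inv]; rfl
  rw [← h1, inv_eq_of_mul_eq_one_right h2]
  exact SetLike.coe_mem _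

/-- A proper valuation subring of a number field is the localisation of the ring of integers
at a nonzero prime. -/
theorem valuationSubringAtPrime_eq (O : ValuationSubring K) (hO : O ≠ ⊤) :
    HeightOneSpectrum.valuationSubringAtPrime K (heightOneOf O hO) = O := by
  apply ValuationSubring.eq_of_le_of_ne_top _ _ hO
  rintro x ⟨a, s, hs, rfl⟩
  exact mul_mem (mem_valuationSubring_of_isIntegral O _ a.2) (inv_mem_of_not_mem_primeOf O hs)

/-- A proper valuation subring of a number field is the valuation subring of the adic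
valuation of a nonzero prime of the ring of integers. -/
theorem valuation_valuationSubring_eq (O : ValuationSubring K) (hO : O ≠ ⊤) :
    ((heightOneOf O hO).valuation K).valuationSubring = O := by
  rw [← HeightOneSpectrum.valuationSubringAtPrime_eq_valuationSubring]
  exact valuationSubringAtPrime_eq O hO

/-- **A proper valuation subring of a number field is a discrete valuation ring.** -/
theorem isDiscreteValuationRing_of_ne_top (O : ValuationSubring K) (hO : O ≠ ⊤) :
    IsDiscreteValuationRing O := by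
  have hPID : IsPrincipalIdealRing O := by
    have h := valuationSubringAtPrime_eq O hO
    have : IsPrincipalIdealRing (HeightOneSpectrum.valuationSubringAtPrime K (heightOneOf O hO)) :=
      inferInstance
    rwa [h] at this
  exact
    { not_a_field' := by
        rw [ne_eq, ← IsLocalRing.isField_iff_maximalIdeal_eq]
        exact ValuationSubring.not_isField_of_ne_top K hO }

/-- The residue map restricted to the ring of integers. -/
noncomputable def residueOfInt (O : ValuationSubring K) : 𝓞 K →+* IsLocalRing.ResidueField O :=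
  (IsLocalRing.residue O).comp (ringOfIntegersTo O)

omit [NumberField K] in
theorem residueOfInt_eq_zero_iff (O : ValuationSubring K) (z : 𝓞 K) :
    residueOfInt O z = 0 ↔ z ∈ primeOf O := by
  rw [residueOfInt, RingHom.comp_apply, IsLocalRing.residue_eq_zero_iff, primeOf, Ideal.mem_comap]

/-- Every residue class of a proper valuation subring of a number field is represented by an
algebraic integer. -/
theorem residueOfInt_surjective (O : ValuationSubring K) (hO : O ≠ ⊤) :
    Function.Surjective (residueOfInt O) := by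
  intro xbar
  obtain ⟨x, rfl⟩ := IsLocalRing.residue_surjective xbar
  have hx : (x : K) ∈ HeightOneSpectrum.valuationSubringAtPrime K (heightOneOf O hO) := by
    rw [valuationSubringAtPrime_eq O hO]; exact x.2
  obtain ⟨a, s, hs, hxas⟩ := hx
  have hs' : s ∉ primeOf O := hs
  haveI : (primeOf O).IsMaximal := (heightOneOf O hO).isMaximal
  obtain ⟨e, he⟩ := Ideal.Quotient.exists_inv (I := primeOf O)
    (a := Ideal.Quotient.mk (primeOf O) s) (by rwa [Ne, Ideal.Quotient.eq_zero_iff_mem])
  obtain ⟨e, rfl⟩ := Ideal.Quotient.mk_surjective e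
  have hse : residueOfInt O s * residueOfInt O e = 1 := by
    rw [← map_mul, ← sub_eq_zero, ← map_one (residueOfInt O), ← map_sub,
      residueOfInt_eq_zero_iff, ← Ideal.Quotient.eq, map_mul, he, map_one]
  have hxs : IsLocalRing.residue O x * residueOfInt O s = residueOfInt O a := by
    rw [residueOfInt, RingHom.comp_apply, RingHom.comp_apply, ← map_mul]
    congr 1
    apply Subtype.ext
    have hs0 : algebraMap (𝓞 K) K s ≠ 0 := by
      intro h0
      apply hs'
      have : s = 0 := (FaithfulSMul.algebraMap_injective (𝓞 K) K) (by rw [h0, map_zero])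
      rw [this]; exact Ideal.zero_mem _
    rw [MulMemClass.coe_mul, coe_ringOfIntegersTo, coe_ringOfIntegersTo, hxas]
    show algebraMap (𝓞 K) K a * (algebraMap (𝓞 K) K s)⁻¹ * algebraMap (𝓞 K) K s = _
    rw [inv_mul_cancel_right₀ hs0]
  refine ⟨a * e, ?_⟩
  rw [map_mul, ← hxs, mul_assoc, hse, mul_one]

/-- The residue field of a proper valuation subring of a number field is finite. -/
theorem finite_residueField_of_ne_top (O : ValuationSubring K) (hO : O ≠ ⊤) :
    Finite (IsLocalRing.ResidueField O) := by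
  haveI : Finite (𝓞 K ⧸ primeOf O) := Ideal.finiteQuotientOfFreeOfNeBot _ (primeOf_ne_bot O hO)
  have hker : ∀ z ∈ primeOf O, residueOfInt O z = 0 := fun z hz =>
    (residueOfInt_eq_zero_iff O z).mpr hz
  refine Finite.of_surjective (Ideal.Quotient.lift (primeOf O) (residueOfInt O) hker) ?_
  intro y
  obtain ⟨z, rfl⟩ := residueOfInt_surjective O hO y
  exact ⟨Ideal.Quotient.mk _ z, by simp⟩

end NumberField

/-! ### The layers `A ∩ K` of a place of `ℚ̄` -/

section Layers

open Fermat.Agent.Lib.helper54

local notation "Qb" => AlgebraicClosure ℚ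

/-- Nonunits of a comap: `x` is a nonunit of `A ∩ K` iff its image is a nonunit of `A`. -/
theorem mem_nonunits_comap {K L : Type*} [Field K] [Field L] (A : ValuationSubring L)
    (f : K →+* L) (x : K) : x ∈ (A.comap f).nonunits ↔ f x ∈ A.nonunits := by
  rw [ValuationSubring.mem_nonunits_iff_or, ValuationSubring.mem_nonunits_iff_or,
    ValuationSubring.mem_comap, map_inv₀, map_eq_zero]

/-- The comap of a valuation subring over `ℓ` lies over `ℓ`. -/
theorem liesOverPrime_comap {K L : Type*} [Field K] [Field L] (A : ValuationSubring L)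
    (f : K →+* L) {ℓ : ℕ} (hA : A.LiesOverPrime ℓ) : (A.comap f).LiesOverPrime ℓ := by
  show (ℓ : K) ∈ (A.comap f).nonunits
  rw [mem_nonunits_comap, map_natCast]
  exact hA

/-- A valuation subring over a prime `ℓ` of a field of characteristic zero is proper. -/
theorem ne_top_of_liesOverPrime {K : Type*} [Field K] [CharZero K] (O : ValuationSubring K)
    {ℓ : ℕ} (hℓ : ℓ ≠ 0) (hO : O.LiesOverPrime ℓ) : O ≠ ⊤ := by
  rintro rfl
  have h : (ℓ : K) ∈ (⊤ : ValuationSubring K).nonunits := hO
  rw [ValuationSubring.mem_nonunits_iff_or] at h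
  rcases h with h | h
  · exact hℓ (by exact_mod_cast h)
  · exact h (ValuationSubring.mem_top _)

variable (A : ValuationSubring Qb) (K : IntermediateField ℚ Qb)

/-- The layer `A ∩ K` of a valuation subring of `ℚ̄` in a subfield `K`. -/
noncomputable abbrev layer : ValuationSubring K := A.comap (algebraMap K Qb)

theorem mem_layer (x : K) : x ∈ layer A K ↔ (x : Qb) ∈ A := Iff.rfl

theorem mem_nonunits_layer (x : K) : x ∈ (layer A K).nonunits ↔ (x : Qb) ∈ A.nonunits :=
  mem_nonunits_comap A _ x

theorem layer_liesOverPrime {ℓ : ℕ} (hA : A.LiesOverPrime ℓ) : (layer A K).LiesOverPrime ℓ :=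
  liesOverPrime_comap A _ hA

theorem layer_ne_top {ℓ : ℕ} (hℓ : ℓ ≠ 0) (hA : A.LiesOverPrime ℓ) : layer A K ≠ ⊤ :=
  ne_top_of_liesOverPrime _ hℓ (layer_liesOverPrime A K hA)

/-- **`A ∩ K` is a discrete valuation ring** for every number field `K ⊆ ℚ̄` and every place
`A` of `ℚ̄` over a prime `ℓ`. -/
theorem isDiscreteValuationRing_layer [FiniteDimensional ℚ K] {ℓ : ℕ} (hℓ : ℓ ≠ 0)
    (hA : A.LiesOverPrime ℓ) : IsDiscreteValuationRing (layer A K) := by
  haveI : NumberField K := {}
  exact isDiscreteValuationRing_of_ne_top _ (layer_ne_top A K hℓ hA)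

/-- The residue field of `A ∩ K` is finite. -/
theorem finite_residueField_layer [FiniteDimensional ℚ K] {ℓ : ℕ} (hℓ : ℓ ≠ 0)
    (hA : A.LiesOverPrime ℓ) : Finite (IsLocalRing.ResidueField (layer A K)) := by
  haveI : NumberField K := {}
  exact finite_residueField_of_ne_top _ (layer_ne_top A K hℓ hA)

/-- The residue field of `A ∩ K` has characteristic `ℓ`. -/
theorem charP_residueField_layer {ℓ : ℕ} (hℓ : ℓ.Prime) (hA : A.LiesOverPrime ℓ) :
    CharP (IsLocalRing.ResidueField (layer A K)) ℓ :=
  charP_residueField hℓ _ (layer_liesOverPrime A K hA)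

/-- The inclusion `A ∩ K → A`. -/
noncomputable def layerInclusion : layer A K →+* A where
  toFun x := ⟨((x : K) : Qb), x.2⟩
  map_one' := rfl
  map_mul' _ _ := rfl
  map_zero' := rfl
  map_add' _ _ := rfl

@[simp] theorem coe_layerInclusion (x : layer A K) :
    ((layerInclusion A K x : A) : Qb) = ((x : K) : Qb) := rfl

theorem layerInclusion_injective : Function.Injective (layerInclusion A K) := by
  intro x y h
  apply Subtype.ext
  apply Subtype.ext
  exact congrArg (fun z : A => (z : Qb)) h

instance isLocalHom_layerInclusion : IsLocalHom (layerInclusion A K) where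
  map_nonunit x hx := by
    by_contra h
    have h1 : x ∈ IsLocalRing.maximalIdeal (layer A K) := (IsLocalRing.mem_maximalIdeal _).mpr h
    have h2 : ((x : K)) ∈ (layer A K).nonunits := ValuationSubring.coe_mem_nonunits_iff.mpr h1
    rw [mem_nonunits_layer] at h2
    have h3 : layerInclusion A K x ∈ IsLocalRing.maximalIdeal A :=
      ValuationSubring.coe_mem_nonunits_iff.mp h2
    exact (IsLocalRing.mem_maximalIdeal _).mp h3 hx

/-- The induced embedding of residue fields `(A ∩ K)/𝔪 → A/𝔪`. -/
noncomputable def layerResidueMap :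
    IsLocalRing.ResidueField (layer A K) →+* IsLocalRing.ResidueField A :=
  IsLocalRing.ResidueField.map (layerInclusion A K)

@[simp] theorem layerResidueMap_residue (x : layer A K) :
    layerResidueMap A K (IsLocalRing.residue _ x) = IsLocalRing.residue A (layerInclusion A K x) :=
  IsLocalRing.ResidueField.map_residue _ _

theorem layerResidueMap_injective : Function.Injective (layerResidueMap A K) :=
  (layerResidueMap A K).injective

/-- Every finite set of algebraic numbers lies in a number field `K ⊆ ℚ̄`. -/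
theorem exists_finiteDimensional_of_finset (S : Finset Qb) :
    ∃ K : IntermediateField ℚ Qb, FiniteDimensional ℚ K ∧ ∀ x ∈ S, x ∈ K := by
  refine ⟨IntermediateField.adjoin ℚ (S : Set Qb), ?_, fun x hx =>
    IntermediateField.subset_adjoin ℚ _ (Finset.mem_coe.mpr hx)⟩
  have h := IntermediateField.finiteDimensional_adjoin (K := ℚ) (S := (S : Set Qb))
    (fun x _ => (isAlgebraic_Qbar.isAlgebraic x).isIntegral)
  convert h

/-- Every element of `A` lies in a layer `A ∩ K`, `K` a number field. -/
theorem exists_layer_of_finset (S : Finset Qb) (hS : ∀ x ∈ S, x ∈ A) :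
    ∃ K : IntermediateField ℚ Qb, FiniteDimensional ℚ K ∧
      ∀ x ∈ S, ∃ hx : x ∈ K, (⟨x, hx⟩ : K) ∈ layer A K := by
  obtain ⟨K, hK, hSK⟩ := exists_finiteDimensional_of_finset S
  exact ⟨K, hK, fun x hx => ⟨hSK x hx, hS x hx⟩⟩

end Layers

end Fermat.Agent.Lib.helper6879
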