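import Mathlib

/-!
# Lifting approximate points of a finite flat group scheme killed by `p`

`helper6909`: the convolution-algebra proof of Fontaine's lifting property for Hopf algebras
killed by a prime `p` (findings #2978): no complete-intersection presentation, no differentials,
no divided powers.  Part 1: abstract filtered-ring lemmas (fixed points, rigidity and extraction
of `p`-th roots of elements congruent to one).
-/

set_option autoImplicit false
set_option linter.unusedSectionVars false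

namespace Fermat.Agent.Lib.helper6909

open Polynomial

/-- The integer polynomial identity behind everything:
`(1 + X)^p = 1 + X^p + p X (1 + X R)`. -/
theorem exists_one_add_pow_prime {p : ℕ} (hp : p.Prime) :
    ∃ R : ℤ[X], (1 + X : ℤ[X]) ^ p = 1 + X ^ p + (p : ℤ[X]) * X * (1 + X * R) := by
  obtain ⟨r, hr⟩ := exists_add_pow_prime_eq hp (1 : ℤ[X]) X
  have h1 : r.coeff 0 = 1 := by
    have h := congrArg (fun q : ℤ[X] => q.coeff 1) hr
    simp only [one_pow, mul_one] at h
    have hc : ((1 + X : ℤ[X]) ^ p).coeff 1 = (p : ℤ) := by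
      simp [Polynomial.coeff_one_add_X_pow]
    have hX : ((X : ℤ[X]) ^ p).coeff 1 = 0 := by
      rw [Polynomial.coeff_X_pow]; simp [hp.ne_one.symm]
    have hpr : ((p : ℤ[X]) * X * r).coeff 1 = (p : ℤ) * r.coeff 0 := by
      rw [mul_assoc, ← Polynomial.C_eq_natCast, Polynomial.coeff_C_mul, Polynomial.coeff_X_mul]
    rw [hc, Polynomial.coeff_add, Polynomial.coeff_add, hX, hpr] at h
    simp only [Polynomial.coeff_one, one_ne_zero, if_false, zero_add] at h
    have hp0 : (p : ℤ) ≠ 0 := by exact_mod_cast hp.ne_zero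
    have : (p : ℤ) * 1 = (p : ℤ) * r.coeff 0 := by rw [mul_one]; exact h
    exact (mul_left_cancel₀ hp0 this).symm
  refine ⟨r.divX, ?_⟩
  have hr' : r = 1 + X * r.divX := by
    conv_lhs => rw [← Polynomial.divX_mul_X_add r, h1]
    simp [add_comm, mul_comm]
  rw [hr, one_pow, mul_one, ← hr']

/-- Evaluated form of `exists_one_add_pow_prime` in an arbitrary commutative ring. -/
theorem one_add_pow_prime_eq {p : ℕ} (R : ℤ[X])
    (hR : (1 + X : ℤ[X]) ^ p = 1 + X ^ p + (p : ℤ[X]) * X * (1 + X * R))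
    {A : Type*} [CommRing A] (y : A) :
    (1 + y) ^ p = 1 + y ^ p + (p : A) * y * (1 + y * aeval y R) := by
  have h := congrArg (aeval y) hR
  simpa using h


section Abstract

variable {A : Type*} [CommRing A]

/-- A separated, complete filtration `F` of a commutative ring by ideals, with `F 0 = ⊤` and
`F n * 𝔫 ≤ F (n + 1)` for an auxiliary ideal `𝔫`. -/
structure IsFiltComplete (F : ℕ → Ideal A) (𝔫 : Ideal A) : Prop where
  top : F 0 = ⊤
  mul_le : ∀ n, F n * 𝔫 ≤ F (n + 1)
  sep : ∀ x : A, (∀ n, x ∈ F n) → x = 0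
  complete : ∀ x : ℕ → A, (∀ k, x (k + 1) - x k ∈ F k) → ∃ L, ∀ k, x k - L ∈ F k

variable {F : ℕ → Ideal A} {𝔫 : Ideal A}

/-- Banach fixed point for maps that contract by the ideal `𝔫`. -/
theorem IsFiltComplete.exists_fixed (h : IsFiltComplete F 𝔫) (Φ : A → A)
    (hΦ : ∀ t t', ∃ q ∈ 𝔫, Φ t - Φ t' = (t - t') * q) : ∃ t, Φ t = t := by
  obtain ⟨x, hx0, hx⟩ : ∃ x : ℕ → A, x 0 = 0 ∧ ∀ k, x (k + 1) = Φ (x k) :=
    ⟨fun k => Φ^[k] 0, rfl, fun k => Function.iterate_succ_apply' Φ k 0⟩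
  have hstep : ∀ k, x (k + 1) - x k ∈ F k := by
    intro k
    induction k with
    | zero => rw [h.top]; trivial
    | succ k ih =>
      obtain ⟨q, hq, hqe⟩ := hΦ (x (k + 1)) (x k)
      have e : x (k + 1 + 1) - x (k + 1) = (x (k + 1) - x k) * q := by
        rw [← hqe, hx (k + 1), ← hx k]
      rw [e]
      exact h.mul_le k (Ideal.mul_mem_mul ih hq)
  obtain ⟨L, hL⟩ := h.complete x hstep
  refine ⟨L, ?_⟩
  have key : ∀ n, Φ L - L ∈ F n := by
    intro n
    cases n with
    | zero => rw [h.top]; trivial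
    | succ k =>
      obtain ⟨q, hq, hqe⟩ := hΦ L (x k)
      have h1 : Φ L - Φ (x k) ∈ F (k + 1) := by
        rw [hqe]
        have h0 : L - x k ∈ F k := by
          have := (F k).neg_mem (hL k); simpa using this
        exact h.mul_le k (Ideal.mul_mem_mul h0 hq)
      have h2 : x (k + 1) - L ∈ F (k + 1) := hL (k + 1)
      have h3 : Φ L - L = (Φ L - Φ (x k)) + (x (k + 1) - L) := by rw [hx k]; ring
      rw [h3]; exact (F (k + 1)).add_mem h1 h2
  exact sub_eq_zero.mp (h.sep _ key)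

theorem IsFiltComplete.eq_zero_of_mul_one_add (h : IsFiltComplete F 𝔫) {d z : A} (hz : z ∈ 𝔫)
    (hd : d * (1 + z) = 0) : d = 0 := by
  have hd' : d = -(d * z) := by linear_combination hd
  apply h.sep
  intro n
  induction n with
  | zero => rw [h.top]; trivial
  | succ n ih =>
    rw [hd']
    exact (F (n + 1)).neg_mem (h.mul_le n (Ideal.mul_mem_mul ih hz))

private theorem pow_prime_split {p : ℕ} (hp : p.Prime) (a : A) : a ^ p = a * a ^ (p - 1) := by
  rw [← pow_succ']; congr 1; have := hp.pos; omega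

/-- Extraction of a `p`-th root: if `a ^ (p - 1) = p * a₀` with `a, a₀ ∈ 𝔫`, every element
`1 + p a w` has an inverse `p`-th root of the form `1 + a t`. -/
theorem IsFiltComplete.exists_root (h : IsFiltComplete F 𝔫) {p : ℕ} (hp : p.Prime)
    {a a₀ : A} (ha : a ∈ 𝔫) (ha₀ : a₀ ∈ 𝔫) (hpa : a ^ (p - 1) = p * a₀) (w : A) :
    ∃ t, (1 + p * a * w) * (1 + a * t) ^ p = 1 := by
  obtain ⟨R, hR⟩ := exists_one_add_pow_prime hp
  obtain ⟨Ψ, hΨd⟩ : ∃ Ψ : A → A, ∀ t, Ψ t = t + a₀ * t ^ p + a * (t ^ 2 * aeval (a * t) R) :=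
    ⟨_, fun _ => rfl⟩
  have hap : a ^ p = a * (p * a₀) := by rw [pow_prime_split hp, hpa]
  have hΨ : ∀ t, (1 + a * t) ^ p = 1 + p * a * Ψ t := by
    intro t
    rw [one_add_pow_prime_eq R hR (a * t), mul_pow, hap, hΨd]
    ring
  obtain ⟨Φ, hΦd⟩ : ∃ Φ : A → A, ∀ t,
      Φ t = -w - a₀ * t ^ p - a * (t ^ 2 * aeval (a * t) R) - p * a * w * Ψ t :=
    ⟨_, fun _ => rfl⟩
  have hLipPow : ∀ t t' : A, ∃ q, t ^ p - t' ^ p = (t - t') * q :=
    fun t t' => sub_dvd_pow_sub_pow t t' p
  have hLipR : ∀ t t' : A,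
      ∃ q, t ^ 2 * aeval (a * t) R - t' ^ 2 * aeval (a * t') R = (t - t') * q := by
    intro t t'
    obtain ⟨q, hq⟩ : (a * t - a * t') ∣ aeval (a * t) R - aeval (a * t') R := by
      rw [← Polynomial.eval_map_algebraMap, ← Polynomial.eval_map_algebraMap]
      exact Polynomial.sub_dvd_eval_sub _ _ _
    refine ⟨(t + t') * aeval (a * t) R + t' ^ 2 * a * q, ?_⟩
    linear_combination t' ^ 2 * hq
  have hLipΨ : ∀ t t' : A, ∃ q, Ψ t - Ψ t' = (t - t') * q := by
    intro t t'
    obtain ⟨q1, hq1⟩ := hLipPow t t'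
    obtain ⟨q2, hq2⟩ := hLipR t t'
    refine ⟨1 + a₀ * q1 + a * q2, ?_⟩
    rw [hΨd, hΨd]; linear_combination a₀ * hq1 + a * hq2
  have hΦ : ∀ t t', ∃ q ∈ 𝔫, Φ t - Φ t' = (t - t') * q := by
    intro t t'
    obtain ⟨q1, hq1⟩ := hLipPow t t'
    obtain ⟨q2, hq2⟩ := hLipR t t'
    obtain ⟨q3, hq3⟩ := hLipΨ t t'
    refine ⟨-(a₀ * q1) - a * q2 - a * (p * w * q3), ?_, ?_⟩
    · exact 𝔫.sub_mem (𝔫.sub_mem (𝔫.neg_mem (𝔫.mul_mem_right _ ha₀)) (𝔫.mul_mem_right _ ha))
        (𝔫.mul_mem_right _ ha)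
    · rw [hΦd, hΦd]; linear_combination (-a₀) * hq1 - a * hq2 - p * a * w * hq3
  obtain ⟨t, ht⟩ := h.exists_fixed Φ hΦ
  refine ⟨t, ?_⟩
  rw [hΨ t]
  have h0 : w + Ψ t + p * a * w * Ψ t = 0 := by
    have h1 := ht
    rw [hΦd] at h1
    rw [hΨd] at h1 ⊢
    linear_combination -h1
  linear_combination p * a * h0

/-- Rigidity: an element `1 + a d` whose `p`-th power is one is one. -/
theorem IsFiltComplete.eq_zero_of_one_add_pow (h : IsFiltComplete F 𝔫) {p : ℕ} (hp : p.Prime)
    {a a₀ : A} (ha : a ∈ 𝔫) (ha₀ : a₀ ∈ 𝔫) (hpa : a ^ (p - 1) = p * a₀)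
    (htf : ∀ x : A, (p : A) * a * x = 0 → x = 0) {d : A} (hd : (1 + a * d) ^ p = 1) :
    d = 0 := by
  obtain ⟨R, hR⟩ := exists_one_add_pow_prime hp
  have hap : a ^ p = a * (p * a₀) := by rw [pow_prime_split hp, hpa]
  have h1 := one_add_pow_prime_eq R hR (a * d)
  rw [hd, mul_pow, hap, pow_prime_split hp d] at h1
  have h2 : (p : A) * a * (d * (1 + (a₀ * d ^ (p - 1) + a * (d * aeval (a * d) R)))) = 0 := by
    linear_combination -h1
  exact h.eq_zero_of_mul_one_add
    (𝔫.add_mem (𝔫.mul_mem_right _ ha₀) (𝔫.mul_mem_right _ ha)) (htf _ h2)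

/-- Two `p`-th roots of one that are congruent modulo `a` are equal. -/
theorem IsFiltComplete.eq_of_pow_eq_one (h : IsFiltComplete F 𝔫) {p : ℕ} (hp : p.Prime)
    {a a₀ : A} (ha : a ∈ 𝔫) (ha₀ : a₀ ∈ 𝔫) (hpa : a ^ (p - 1) = p * a₀)
    (htf : ∀ x : A, (p : A) * a * x = 0 → x = 0) {u v d₀ : A} (hu : u ^ p = 1)
    (hv : v ^ p = 1) (huv : u - v = a * d₀) : u = v := by
  have hv1 : v * v ^ (p - 1) = 1 := by rw [← pow_prime_split hp]; exact hv
  have hu' : u = v * (1 + a * (v ^ (p - 1) * d₀)) := by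
    linear_combination huv - a * d₀ * hv1
  have h1 : (1 + a * (v ^ (p - 1) * d₀)) ^ p = 1 := by
    have h2 := congrArg (· ^ p) hu'
    simp only [mul_pow, hu, hv, one_mul] at h2
    exact h2.symm
  have hz := h.eq_zero_of_one_add_pow hp ha ha₀ hpa htf h1
  rw [hu', hz]; ring

end Abstract

section Adic

variable {S : Type*} [CommRing S]

theorem exists_limit_adic (𝔪 : Ideal S) [IsAdicComplete 𝔪 S] (y : ℕ → S)
    (hy : ∀ m n, m ≤ n → y n - y m ∈ 𝔪 ^ m) : ∃ L : S, ∀ n, y n - L ∈ 𝔪 ^ n := by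
  have e : ∀ k, (𝔪 ^ k • ⊤ : Submodule S S) = 𝔪 ^ k := fun k => by
    rw [smul_eq_mul, Ideal.mul_top]
  obtain ⟨L, hL⟩ := IsPrecomplete.prec' (I := 𝔪) y (fun {m n} hmn => by
    rw [SModEq.sub_mem, e]
    have h1 := (𝔪 ^ m).neg_mem (hy m n hmn)
    rwa [neg_sub] at h1)
  exact ⟨L, fun n => by have h2 := hL n; rwa [SModEq.sub_mem, e] at h2⟩

theorem eq_zero_of_forall_mem_pow (𝔪 : Ideal S) [IsAdicComplete 𝔪 S] (s : S)
    (hs : ∀ n, s ∈ 𝔪 ^ n) : s = 0 := by
  have e : ∀ k, (𝔪 ^ k • ⊤ : Submodule S S) = 𝔪 ^ k := fun k => by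
    rw [smul_eq_mul, Ideal.mul_top]
  apply IsHausdorff.haus (inferInstance : IsHausdorff 𝔪 S)
  intro n
  rw [SModEq.zero, e]
  exact hs n

end Adic

section Conv

open Coalgebra TensorProduct WithConv

variable {O C S : Type*} [CommRing O] [AddCommGroup C] [Module O C] [Coalgebra O C]
  [IsCocomm O C] [CommRing S] [Algebra O S]

/-- The ideal of the convolution ring `Hom_O(C, S)` of the maps with values in `I`. -/
def mapsInto (I : Ideal S) : Ideal (WithConv (C →ₗ[O] S)) where
  carrier := {f | ∀ x, f.ofConv x ∈ I}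
  add_mem' := fun {f g} hf hg x => by
    simp only [WithConv.ofConv_add, LinearMap.add_apply]; exact I.add_mem (hf x) (hg x)
  zero_mem' := fun x => by simp
  smul_mem' := fun c f hf x => by
    rw [smul_eq_mul, (ℛ O x).convMul_apply]
    exact I.sum_mem fun i _ => I.mul_mem_left _ (hf _)

theorem mem_mapsInto {I : Ideal S} {f : WithConv (C →ₗ[O] S)} :
    f ∈ mapsInto I ↔ ∀ x, f.ofConv x ∈ I := Iff.rfl

theorem mapsInto_mono {I J : Ideal S} (h : I ≤ J) :
    (mapsInto I : Ideal (WithConv (C →ₗ[O] S))) ≤ mapsInto J := fun _ hf x => h (hf x)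

theorem mapsInto_mul_le (I J : Ideal S) :
    (mapsInto I : Ideal (WithConv (C →ₗ[O] S))) * mapsInto J ≤ mapsInto (I * J) := by
  rw [Ideal.mul_le]
  intro f hf g hg x
  rw [(ℛ O x).convMul_apply]
  exact Ideal.sum_mem _ fun i _ => Ideal.mul_mem_mul (hf _) (hg _)

theorem algebraMap_mem_mapsInto {I : Ideal S} {s : S} (hs : s ∈ I) :
    algebraMap S (WithConv (C →ₗ[O] S)) s ∈ mapsInto I := by
  intro x
  have : (algebraMap S (WithConv (C →ₗ[O] S)) s).ofConv x
      = s • algebraMap O S (counit (R := O) x) := LinearMap.convAlgebraMap_apply s x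
  rw [this, smul_eq_mul]
  exact I.mul_mem_right _ hs

theorem mapsInto_bot_eq {f : WithConv (C →ₗ[O] S)} (hf : f ∈ mapsInto (⊥ : Ideal S)) :
    f = 0 := by
  apply WithConv.ext; ext x
  simpa using hf x

/-- `p a`-torsion-freeness passes to the convolution ring. -/
theorem mul_eq_zero_conv {c : S} (hc : ∀ x : S, c * x = 0 → x = 0)
    {f : WithConv (C →ₗ[O] S)} (hf : algebraMap S (WithConv (C →ₗ[O] S)) c * f = 0) :
    f = 0 := by
  apply WithConv.ext; ext x
  rw [← Algebra.smul_def] at hf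
  have h1 := congrArg (fun q : WithConv (C →ₗ[O] S) => q.ofConv x) hf
  simp only [WithConv.ofConv_smul, LinearMap.smul_apply, smul_eq_mul, WithConv.ofConv_zero,
    LinearMap.zero_apply] at h1
  simpa using hc _ h1

/-- Post-composition with an algebra homomorphism commutes with convolution powers. -/
theorem algHom_comp_pow {S' : Type*} [CommRing S'] [Algebra O S'] (φ : S →ₐ[O] S')
    (f : WithConv (C →ₗ[O] S)) (n : ℕ) :
    (toConv (φ.toLinearMap ∘ₗ (f ^ n).ofConv) : WithConv (C →ₗ[O] S'))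
      = toConv (φ.toLinearMap ∘ₗ f.ofConv) ^ n := by
  induction n with
  | zero =>
    rw [pow_zero, pow_zero]
    apply WithConv.ofConv_injective
    ext c
    have e1 : (1 : WithConv (C →ₗ[O] S)).ofConv c = algebraMap O S (counit (R := O) c) :=
      LinearMap.convOne_apply c
    have e2 : (1 : WithConv (C →ₗ[O] S')).ofConv c = algebraMap O S' (counit (R := O) c) :=
      LinearMap.convOne_apply c
    rw [WithConv.ofConv_toConv, LinearMap.comp_apply, e1, e2, AlgHom.toLinearMap_apply,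
      AlgHom.commutes]
  | succ n ih =>
    rw [pow_succ, pow_succ, ← ih]
    apply WithConv.ofConv_injective
    exact LinearMap.algHom_comp_convMul_distrib φ (f ^ n) f

/-- Convolution powers can be computed after an injective algebra homomorphism. -/
theorem pow_eq_one_of_algHom_comp {S' : Type*} [CommRing S'] [Algebra O S'] (φ : S →ₐ[O] S')
    (hφ : Function.Injective φ) (f : WithConv (C →ₗ[O] S)) (n : ℕ)
    (h : (toConv (φ.toLinearMap ∘ₗ f.ofConv) : WithConv (C →ₗ[O] S')) ^ n = 1) : f ^ n = 1 := by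
  rw [← algHom_comp_pow] at h
  apply WithConv.ofConv_injective
  ext c
  apply hφ
  have h1 := congrArg (fun q : WithConv (C →ₗ[O] S') => q.ofConv c) h
  have e1 : (1 : WithConv (C →ₗ[O] S)).ofConv c = algebraMap O S (counit (R := O) c) :=
    LinearMap.convOne_apply c
  have e2 : (1 : WithConv (C →ₗ[O] S')).ofConv c = algebraMap O S' (counit (R := O) c) :=
    LinearMap.convOne_apply c
  simp only [LinearMap.comp_apply, AlgHom.toLinearMap_apply] at h1
  rw [h1, e1, e2, AlgHom.commutes]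

section Free

variable [Module.Free O C] [Module.Finite O C]

theorem mem_mapsInto_of_basis {ι : Type*} (b : Module.Basis ι O C) {I : Ideal S}
    {f : WithConv (C →ₗ[O] S)} (h : ∀ i, f.ofConv (b i) ∈ I) : f ∈ mapsInto I := by
  intro x
  have hx : x ∈ Submodule.span O (Set.range b) := by rw [b.span_eq]; trivial
  induction hx using Submodule.span_induction with
  | mem y hy => obtain ⟨i, rfl⟩ := hy; exact h i
  | zero => simp
  | add y z _ _ hy hz => rw [map_add]; exact I.add_mem hy hz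
  | smul c y _ hy => rw [map_smul, Algebra.smul_def]; exact I.mul_mem_left _ hy

/-- Division by a generator: a map with values in `(c)` is `c` times a map. -/
theorem exists_eq_algebraMap_mul {c : S} {f : WithConv (C →ₗ[O] S)}
    (hf : f ∈ mapsInto (Ideal.span {c})) :
    ∃ f' : WithConv (C →ₗ[O] S), f = algebraMap S (WithConv (C →ₗ[O] S)) c * f' := by
  classical
  let b := Module.Free.chooseBasis O C
  have hb : ∀ i, ∃ s, f.ofConv (b i) = c * s := fun i => by
    have h1 := hf (b i)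
    rw [Ideal.mem_span_singleton'] at h1
    obtain ⟨s, hs⟩ := h1
    exact ⟨s, by rw [← hs, mul_comm]⟩
  choose s hs using hb
  refine ⟨toConv (b.constr S s), ?_⟩
  apply WithConv.ext
  apply b.ext
  intro i
  rw [hs i, ← Algebra.smul_def]
  simp

theorem isFiltComplete_mapsInto (𝔪 : Ideal S) [IsAdicComplete 𝔪 S] :
    IsFiltComplete (fun n => (mapsInto (𝔪 ^ n) : Ideal (WithConv (C →ₗ[O] S))))
      (mapsInto 𝔪) where
  top := by
    ext f
    simp [mem_mapsInto]
  mul_le := fun n => by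
    rw [pow_succ]; exact mapsInto_mul_le _ _
  sep := fun f hf => by
    apply WithConv.ext; ext x
    simp only [WithConv.ofConv_zero, LinearMap.zero_apply]
    exact eq_zero_of_forall_mem_pow 𝔪 _ fun n => hf n x
  complete := fun x hx => by
    classical
    let b := Module.Free.chooseBasis O C
    have hcauchy : ∀ m n, m ≤ n → x n - x m ∈ mapsInto (𝔪 ^ m) := by
      intro m n hmn
      induction n, hmn using Nat.le_induction with
      | base => simp
      | succ n hmn ih =>
        have h1 : x (n + 1) - x m = (x (n + 1) - x n) + (x n - x m) := by ring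
        rw [h1]
        exact Ideal.add_mem _ (mapsInto_mono (Ideal.pow_le_pow_right hmn) (hx n)) ih
    have hL : ∀ i, ∃ L : S, ∀ n, (x n).ofConv (b i) - L ∈ 𝔪 ^ n := fun i =>
      exists_limit_adic 𝔪 (fun n => (x n).ofConv (b i)) fun m n hmn => by
        have h1 := mem_mapsInto.mp (hcauchy m n hmn) (b i)
        simpa using h1
    choose L hL using hL
    refine ⟨toConv (b.constr S L), fun k => ?_⟩
    apply mem_mapsInto_of_basis b
    intro i
    simpa using hL i k

end Free

end Conv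

section Hopf

open Coalgebra TensorProduct WithConv

variable {O H S : Type*} [CommRing O] [CommRing H] [Bialgebra O H] [IsCocomm O H]
  [CommRing S] [Algebra O S]

/-- Composition with an approximately multiplicative map approximately respects convolution. -/
theorem comp_mul_sub_mem {T : Type*} [CommRing T] [Algebra O T] (I : Ideal S) (g : T →ₗ[O] S)
    (hg : ∀ x y, g (x * y) - g x * g y ∈ I) (f₁ f₂ : WithConv (H →ₗ[O] T)) :
    (toConv (g ∘ₗ (f₁ * f₂).ofConv) - toConv (g ∘ₗ f₁.ofConv) * toConv (g ∘ₗ f₂.ofConv) :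
      WithConv (H →ₗ[O] S)) ∈ mapsInto I := by
  intro x
  simp only [WithConv.ofConv_sub, LinearMap.sub_apply, LinearMap.comp_apply]
  rw [(ℛ O x).convMul_apply, (ℛ O x).convMul_apply, map_sum, ← Finset.sum_sub_distrib]
  exact I.sum_mem fun i _ => hg _ _

/-- Composition with an approximately multiplicative map approximately respects convolution
powers. -/
theorem comp_pow_sub_mem {T : Type*} [CommRing T] [Algebra O T] (I : Ideal S) (g : T →ₗ[O] S)
    (hg1 : g 1 - 1 ∈ I)
    (hg : ∀ x y, g (x * y) - g x * g y ∈ I) (f : WithConv (H →ₗ[O] T)) (n : ℕ) :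
    (toConv (g ∘ₗ (f ^ n).ofConv) - toConv (g ∘ₗ f.ofConv) ^ n : WithConv (H →ₗ[O] S))
      ∈ mapsInto I := by
  induction n with
  | zero =>
    intro x
    have h1 : (toConv (g ∘ₗ (f ^ 0).ofConv) - toConv (g ∘ₗ f.ofConv) ^ 0 :
        WithConv (H →ₗ[O] S)).ofConv x = counit (R := O) x • (g 1 - 1) := by
      simp only [pow_zero, WithConv.ofConv_sub, LinearMap.sub_apply, LinearMap.comp_apply]
      have e1 : (1 : WithConv (H →ₗ[O] T)).ofConv x = algebraMap O T (counit (R := O) x) :=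
        LinearMap.convOne_apply x
      have e2 : (1 : WithConv (H →ₗ[O] S)).ofConv x = algebraMap O S (counit (R := O) x) :=
        LinearMap.convOne_apply x
      rw [e1, e2, Algebra.algebraMap_eq_smul_one, map_smul, smul_sub,
        Algebra.algebraMap_eq_smul_one]
    rw [h1, Algebra.smul_def]
    exact I.mul_mem_left _ hg1
  | succ n ih =>
    have h1 := comp_mul_sub_mem I g hg (f ^ n) f
    have h2 : (toConv (g ∘ₗ (f ^ n).ofConv) - toConv (g ∘ₗ f.ofConv) ^ n) *
        toConv (g ∘ₗ f.ofConv) ∈ mapsInto I := Ideal.mul_mem_right _ _ ih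
    have h3 := Ideal.add_mem _ h1 h2
    have e : toConv (g ∘ₗ (f ^ (n + 1)).ofConv) - toConv (g ∘ₗ f.ofConv) ^ (n + 1)
        = (toConv (g ∘ₗ (f ^ n * f).ofConv) -
            toConv (g ∘ₗ (f ^ n).ofConv) * toConv (g ∘ₗ f.ofConv)) +
          (toConv (g ∘ₗ (f ^ n).ofConv) - toConv (g ∘ₗ f.ofConv) ^ n) *
            toConv (g ∘ₗ f.ofConv) := by
      rw [pow_succ, pow_succ]; ring
    rw [e]; exact h3

/-- If the Hopf algebra is killed by `p`, an approximately multiplicative map has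
`p`-th convolution power approximately one. -/
theorem pow_sub_one_mem (I : Ideal S) (g : H →ₗ[O] S) (hg1 : g 1 - 1 ∈ I)
    (hg : ∀ x y, g (x * y) - g x * g y ∈ I) {p : ℕ}
    (hkill : (toConv (LinearMap.id : H →ₗ[O] H)) ^ p = 1) :
    (toConv g : WithConv (H →ₗ[O] S)) ^ p - 1 ∈ mapsInto I := by
  have h1 := comp_pow_sub_mem I g hg1 hg (toConv (LinearMap.id : H →ₗ[O] H)) p
  have h0 := comp_pow_sub_mem I g hg1 hg (toConv (LinearMap.id : H →ₗ[O] H)) 0
  rw [hkill] at h1
  rw [pow_zero, pow_zero] at h0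
  simp only [LinearMap.comp_id] at h1 h0
  have h2 := Ideal.sub_mem _ h0 h1
  have e : (toConv g : WithConv (H →ₗ[O] S)) ^ p - 1
      = (toConv (g ∘ₗ (1 : WithConv (H →ₗ[O] H)).ofConv) - 1) -
        (toConv (g ∘ₗ (1 : WithConv (H →ₗ[O] H)).ofConv) - toConv g ^ p) := by ring
  rw [e]; exact h2

/-- Pull-back of a map along the multiplication `H ⊗ H → H`. -/
noncomputable def mulPull (f : WithConv (H →ₗ[O] S)) : WithConv (H ⊗[O] H →ₗ[O] S) :=
  toConv (f.ofConv ∘ₗ LinearMap.mul' O H)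

theorem mulPull_apply (f : WithConv (H →ₗ[O] S)) (x y : H) :
    (mulPull f).ofConv (x ⊗ₜ[O] y) = f.ofConv (x * y) := rfl

theorem mulPull_mul (f f' : WithConv (H →ₗ[O] S)) :
    mulPull (f * f') = mulPull f * mulPull f' := by
  apply WithConv.ext
  exact LinearMap.convMul_comp_coalgHom_distrib f f' (Bialgebra.mulCoalgHom O H)

theorem mulPull_one : mulPull (1 : WithConv (H →ₗ[O] S)) = 1 := by
  apply WithConv.ext
  ext x y
  have e1 : (1 : WithConv (H →ₗ[O] S)).ofConv (x * y) = algebraMap O S (counit (R := O) (x * y)) :=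
    LinearMap.convOne_apply _
  have e2 : (1 : WithConv (H ⊗[O] H →ₗ[O] S)).ofConv (x ⊗ₜ[O] y)
      = algebraMap O S (counit (R := O) (x ⊗ₜ[O] y)) := LinearMap.convOne_apply _
  simp only [TensorProduct.AlgebraTensorModule.curry_apply, TensorProduct.curry_apply,
    LinearMap.coe_restrictScalars]
  rw [mulPull_apply, e1, e2, Bialgebra.counit_mul, TensorProduct.counit_tmul,
    smul_eq_mul, mul_comm]

theorem mulPull_pow (f : WithConv (H →ₗ[O] S)) (n : ℕ) : mulPull (f ^ n) = mulPull f ^ n := by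
  induction n with
  | zero => rw [pow_zero, pow_zero, mulPull_one]
  | succ n ih => rw [pow_succ, pow_succ, mulPull_mul, ih]

/-- The external product `x ⊗ y ↦ f x * f' y`. -/
noncomputable def boxTimes (f f' : WithConv (H →ₗ[O] S)) : WithConv (H ⊗[O] H →ₗ[O] S) :=
  toConv (LinearMap.mul' O S ∘ₗ TensorProduct.map f.ofConv f'.ofConv)

theorem boxTimes_apply (f f' : WithConv (H →ₗ[O] S)) (x y : H) :
    (boxTimes f f').ofConv (x ⊗ₜ[O] y) = f.ofConv x * f'.ofConv y := rfl

theorem boxTimes_mul (f f' h h' : WithConv (H →ₗ[O] S)) :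
    boxTimes f f' * boxTimes h h' = boxTimes (f * h) (f' * h') := by
  apply WithConv.ext
  ext x y
  simp only [TensorProduct.AlgebraTensorModule.curry_apply, TensorProduct.curry_apply,
    LinearMap.coe_restrictScalars]
  rw [((ℛ O x).tmul (ℛ O y)).convMul_apply, boxTimes_apply, (ℛ O x).convMul_apply,
    (ℛ O y).convMul_apply, Finset.sum_mul_sum]
  simp only [Coalgebra.Repr.tmul_index, Coalgebra.Repr.tmul_left, Coalgebra.Repr.tmul_right,
    boxTimes_apply]
  rw [Finset.sum_product]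
  refine Finset.sum_congr rfl fun i _ => Finset.sum_congr rfl fun j _ => ?_
  ring

theorem boxTimes_one : boxTimes (1 : WithConv (H →ₗ[O] S)) 1 = 1 := by
  apply WithConv.ext
  ext x y
  have e1 : ∀ z : H, (1 : WithConv (H →ₗ[O] S)).ofConv z = algebraMap O S (counit (R := O) z) :=
    fun z => LinearMap.convOne_apply _
  have e2 : (1 : WithConv (H ⊗[O] H →ₗ[O] S)).ofConv (x ⊗ₜ[O] y)
      = algebraMap O S (counit (R := O) (x ⊗ₜ[O] y)) := LinearMap.convOne_apply _
  simp only [TensorProduct.AlgebraTensorModule.curry_apply, TensorProduct.curry_apply,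
    LinearMap.coe_restrictScalars]
  rw [boxTimes_apply, e1, e1, e2, TensorProduct.counit_tmul, smul_eq_mul, map_mul,
    mul_comm]

theorem boxTimes_pow (f f' : WithConv (H →ₗ[O] S)) (n : ℕ) :
    boxTimes f f' ^ n = boxTimes (f ^ n) (f' ^ n) := by
  induction n with
  | zero => rw [pow_zero, pow_zero, pow_zero, boxTimes_one]
  | succ n ih => rw [pow_succ, pow_succ, pow_succ, ih, boxTimes_mul]

/-- Evaluation at `1` is multiplicative on the convolution ring. -/
theorem ofConv_mul_apply_one (f f' : WithConv (H →ₗ[O] S)) :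
    (f * f').ofConv 1 = f.ofConv 1 * f'.ofConv 1 := by
  have h := LinearMap.convMul_apply f f' (1 : H)
  rw [Bialgebra.comul_one] at h
  exact h

theorem ofConv_one_apply_one : (1 : WithConv (H →ₗ[O] S)).ofConv 1 = 1 := by
  have e : (1 : WithConv (H →ₗ[O] S)).ofConv (1 : H) = algebraMap O S (counit (R := O) (1 : H)) :=
    LinearMap.convOne_apply _
  rw [e, Bialgebra.counit_one, map_one]

theorem ofConv_pow_apply_one (f : WithConv (H →ₗ[O] S)) (n : ℕ) :
    (f ^ n).ofConv 1 = f.ofConv 1 ^ n := by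
  induction n with
  | zero => rw [pow_zero, pow_zero, ofConv_one_apply_one]
  | succ n ih => rw [pow_succ, pow_succ, ofConv_mul_apply_one, ih]

section Main

variable [Module.Free O H] [Module.Finite O H]

/-- **Lifting lemma, general form**: `H` is a finite free commutative cocommutative bialgebra
over `O`, `S` is an `O`-algebra complete for an ideal `𝔪`, and `a, a₀ ∈ 𝔪` satisfy
`a ^ (p - 1) = p * a₀` (for a valuation ring: `v(a) > v(p)/(p - 1)`).  Then every `O`-linear map
`g : H → S` that is unital and multiplicative modulo `p a`, and whose `p`-th convolution power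
is the unit modulo `p a`, is congruent modulo `a` to an `O`-algebra homomorphism of `p`-th
convolution power one. -/
theorem exists_algHom_lift_of_pow {p : ℕ} (hp : p.Prime)
    (𝔪 : Ideal S) [IsAdicComplete 𝔪 S] {a a₀ : S} (ha : a ∈ 𝔪) (ha₀ : a₀ ∈ 𝔪)
    (hpa : a ^ (p - 1) = p * a₀) (htf : ∀ x : S, (p : S) * a * x = 0 → x = 0)
    (g : H →ₗ[O] S) (hg1 : g 1 - 1 ∈ Ideal.span {(p : S) * a})
    (hg : ∀ x y, g (x * y) - g x * g y ∈ Ideal.span {(p : S) * a})
    (hgp : (toConv g : WithConv (H →ₗ[O] S)) ^ p - 1 ∈ mapsInto (Ideal.span {(p : S) * a})) :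
    ∃ χ : H →ₐ[O] S, (toConv χ.toLinearMap : WithConv (H →ₗ[O] S)) ^ p = 1 ∧
      ∀ x, χ x - g x ∈ Ideal.span {a} := by
  have hB := isFiltComplete_mapsInto (O := O) (C := H) 𝔪
  have hB₂ := isFiltComplete_mapsInto (O := O) (C := H ⊗[O] H) 𝔪
  obtain ⟨aB, haBd⟩ : ∃ aB : WithConv (H →ₗ[O] S), aB = algebraMap S _ a := ⟨_, rfl⟩
  obtain ⟨a₀B, ha₀Bd⟩ : ∃ a₀B : WithConv (H →ₗ[O] S), a₀B = algebraMap S _ a₀ := ⟨_, rfl⟩
  have haB : aB ∈ mapsInto 𝔪 := haBd ▸ algebraMap_mem_mapsInto ha
  have ha₀B : a₀B ∈ mapsInto 𝔪 := ha₀Bd ▸ algebraMap_mem_mapsInto ha₀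
  have hpaB : aB ^ (p - 1) = (p : WithConv (H →ₗ[O] S)) * a₀B := by
    rw [haBd, ha₀Bd, ← map_pow, hpa, map_mul, map_natCast]
  -- step 1: the `p`-th power of `g` is `1 + p a w`
  obtain ⟨w, hw⟩ := exists_eq_algebraMap_mul hgp
  have hw' : (toConv g : WithConv (H →ₗ[O] S)) ^ p = 1 + p * aB * w := by
    rw [map_mul, map_natCast, ← haBd] at hw; linear_combination hw
  -- step 2: correct `g` by a `p`-th root
  obtain ⟨t, ht⟩ := hB.exists_root hp haB ha₀B hpaB w
  obtain ⟨χB, hχBd⟩ : ∃ χB : WithConv (H →ₗ[O] S), χB = toConv g * (1 + aB * t) := ⟨_, rfl⟩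
  have hχp : χB ^ p = 1 := by rw [hχBd, mul_pow, hw']; exact ht
  have hδ : χB - toConv g ∈ mapsInto (Ideal.span {a}) := by
    have e : χB - toConv g = aB * (toConv g * t) := by rw [hχBd]; ring
    rw [e, haBd]
    exact Ideal.mul_mem_right _ _ (algebraMap_mem_mapsInto (Ideal.mem_span_singleton_self a))
  have hδx : ∀ x, χB.ofConv x - g x ∈ Ideal.span {a} := fun x => by simpa using hδ x
  have hle : Ideal.span {(p : S) * a} ≤ Ideal.span {a} := by
    rw [Ideal.span_singleton_le_span_singleton]; exact Dvd.intro_left _ rfl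
  have htfB : ∀ f : WithConv (H →ₗ[O] S),
      (p : WithConv (H →ₗ[O] S)) * aB * f = 0 → f = 0 := by
    intro f hf
    apply mul_eq_zero_conv (c := (p : S) * a) htf
    rw [map_mul, map_natCast, ← haBd]; exact hf
  -- step 3: unital
  have hone : χB.ofConv 1 = 1 := by
    obtain ⟨c, hc⟩ : ∃ c, χB.ofConv 1 - 1 = a * c := by
      have h2 : χB.ofConv 1 - 1 ∈ Ideal.span {a} := by
        have h3 := Ideal.add_mem _ (hδx 1) (hle hg1)
        have e : χB.ofConv 1 - 1 = (χB.ofConv 1 - g 1) + (g 1 - 1) := by ring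
        rw [e]; exact h3
      rw [Ideal.mem_span_singleton'] at h2
      obtain ⟨c, hc⟩ := h2
      exact ⟨c, by rw [← hc, mul_comm]⟩
    have hs : χB.ofConv 1 ^ p = 1 := by
      rw [← ofConv_pow_apply_one, hχp, ofConv_one_apply_one]
    have key : algebraMap S (WithConv (H →ₗ[O] S)) (χB.ofConv 1) = 1 := by
      refine hB.eq_of_pow_eq_one hp haB ha₀B hpaB htfB (d₀ := algebraMap S _ c) ?_ (one_pow p) ?_
      · rw [← map_pow, hs, map_one]
      · rw [haBd, ← map_mul, ← hc, map_sub (algebraMap S _), map_one (algebraMap S _)]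
    have h4 : (algebraMap S (WithConv (H →ₗ[O] S)) (χB.ofConv 1)).ofConv 1
        = (1 : WithConv (H →ₗ[O] S)).ofConv 1 :=
      congrArg (fun q : WithConv (H →ₗ[O] S) => q.ofConv 1) key
    rw [ofConv_one_apply_one] at h4
    have e : (algebraMap S (WithConv (H →ₗ[O] S)) (χB.ofConv 1)).ofConv 1 = χB.ofConv 1 := by
      have h5 := LinearMap.convAlgebraMap_apply (R := O) (C := H) (A := S) (χB.ofConv 1) (1 : H)
      rw [h5, Bialgebra.counit_one, map_one (algebraMap O S), smul_eq_mul, mul_one]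
    rw [e] at h4; exact h4
  -- step 4: multiplicative
  have hmul : ∀ x y, χB.ofConv (x * y) = χB.ofConv x * χB.ofConv y := by
    have huv : mulPull χB - boxTimes χB χB ∈ mapsInto (Ideal.span {a}) := by
      intro z
      induction z using TensorProduct.induction_on with
      | zero => simp
      | tmul x y =>
        rw [WithConv.ofConv_sub, LinearMap.sub_apply, mulPull_apply, boxTimes_apply]
        have e : χB.ofConv (x * y) - χB.ofConv x * χB.ofConv y
            = (g (x * y) - g x * g y) + (χB.ofConv (x * y) - g (x * y))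
              - (χB.ofConv x - g x) * χB.ofConv y - g x * (χB.ofConv y - g y) := by ring
        rw [e]
        exact Ideal.sub_mem _ (Ideal.sub_mem _ (Ideal.add_mem _ (hle (hg x y)) (hδx _))
          (Ideal.mul_mem_right _ _ (hδx x))) (Ideal.mul_mem_left _ _ (hδx y))
      | add z z' hz hz' => rw [map_add]; exact Ideal.add_mem _ hz hz'
    obtain ⟨d₀, hd₀⟩ := exists_eq_algebraMap_mul huv
    have htfB₂ : ∀ f : WithConv (H ⊗[O] H →ₗ[O] S),
        (p : WithConv (H ⊗[O] H →ₗ[O] S)) * algebraMap S _ a * f = 0 → f = 0 := by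
      intro f hf
      apply mul_eq_zero_conv (c := (p : S) * a) htf
      rw [map_mul, map_natCast]; exact hf
    have huv' : mulPull χB = boxTimes χB χB :=
      hB₂.eq_of_pow_eq_one hp (algebraMap_mem_mapsInto ha) (algebraMap_mem_mapsInto ha₀)
        (by rw [← map_pow, hpa, map_mul, map_natCast]) htfB₂
        (by rw [← mulPull_pow, hχp, mulPull_one])
        (by rw [boxTimes_pow, hχp, boxTimes_one]) hd₀
    intro x y
    have h6 : (mulPull χB).ofConv (x ⊗ₜ[O] y) = (boxTimes χB χB).ofConv (x ⊗ₜ[O] y) :=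
      congrArg (fun q : WithConv (H ⊗[O] H →ₗ[O] S) => q.ofConv (x ⊗ₜ[O] y)) huv'
    rw [mulPull_apply, boxTimes_apply] at h6
    exact h6
  exact ⟨AlgHom.ofLinearMap χB.ofConv hone hmul, hχp, fun x => hδx x⟩

/-- **Lifting lemma** (Fontaine's lifting property for Hopf algebras killed by `p`, by
convolution).  `H` is a finite free commutative cocommutative bialgebra over `O` killed by `p`
(the `p`-th convolution power of the identity is the unit), `S` is an `O`-algebra complete for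
an ideal `𝔪`, and `a, a₀ ∈ 𝔪` satisfy `a ^ (p - 1) = p * a₀` (for a valuation ring:
`v(a) > v(p)/(p - 1)`).  Then every `O`-linear map `g : H → S` that is unital and multiplicative
modulo `p a` is congruent modulo `a` to an `O`-algebra homomorphism. -/
theorem exists_algHom_lift {p : ℕ} (hp : p.Prime)
    (hkill : (toConv (LinearMap.id : H →ₗ[O] H)) ^ p = 1)
    (𝔪 : Ideal S) [IsAdicComplete 𝔪 S] {a a₀ : S} (ha : a ∈ 𝔪) (ha₀ : a₀ ∈ 𝔪)
    (hpa : a ^ (p - 1) = p * a₀) (htf : ∀ x : S, (p : S) * a * x = 0 → x = 0)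
    (g : H →ₗ[O] S) (hg1 : g 1 - 1 ∈ Ideal.span {(p : S) * a})
    (hg : ∀ x y, g (x * y) - g x * g y ∈ Ideal.span {(p : S) * a}) :
    ∃ χ : H →ₐ[O] S, ∀ x, χ x - g x ∈ Ideal.span {a} := by
  obtain ⟨χ, -, hχ⟩ := exists_algHom_lift_of_pow hp 𝔪 ha ha₀ hpa htf g hg1 hg
    (pow_sub_one_mem (Ideal.span {(p : S) * a}) g hg1 hg hkill)
  exact ⟨χ, hχ⟩

/-- An algebra homomorphism out of a Hopf algebra killed by `p` has `p`-th convolution
power one. -/
theorem algHom_pow_eq_one (χ : H →ₐ[O] S) {p : ℕ}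
    (hkill : (toConv (LinearMap.id : H →ₗ[O] H)) ^ p = 1) :
    (toConv χ.toLinearMap : WithConv (H →ₗ[O] S)) ^ p = 1 := by
  have h := pow_sub_one_mem (⊥ : Ideal S) χ.toLinearMap (by simp) (by intro x y; simp) hkill
  exact sub_eq_zero.mp (mapsInto_bot_eq h)

/-- **Rigidity, general form**: two algebra homomorphisms `H → S` of `p`-th convolution power
one which are congruent modulo `a` are equal. -/
theorem algHom_eq_of_sub_mem_of_pow {p : ℕ} (hp : p.Prime)
    (𝔪 : Ideal S) [IsAdicComplete 𝔪 S] {a a₀ : S} (ha : a ∈ 𝔪) (ha₀ : a₀ ∈ 𝔪)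
    (hpa : a ^ (p - 1) = p * a₀) (htf : ∀ x : S, (p : S) * a * x = 0 → x = 0)
    (χ χ' : H →ₐ[O] S) (hχ : (toConv χ.toLinearMap : WithConv (H →ₗ[O] S)) ^ p = 1)
    (hχ' : (toConv χ'.toLinearMap : WithConv (H →ₗ[O] S)) ^ p = 1)
    (h : ∀ x, χ x - χ' x ∈ Ideal.span {a}) : χ = χ' := by
  have hB := isFiltComplete_mapsInto (O := O) (C := H) 𝔪
  have hsub : (toConv χ.toLinearMap : WithConv (H →ₗ[O] S)) - toConv χ'.toLinearMap
      ∈ mapsInto (Ideal.span {a}) := fun x => by simpa using h x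
  obtain ⟨d₀, hd₀⟩ := exists_eq_algebraMap_mul hsub
  have htfB : ∀ f : WithConv (H →ₗ[O] S),
      (p : WithConv (H →ₗ[O] S)) * algebraMap S _ a * f = 0 → f = 0 := by
    intro f hf
    apply mul_eq_zero_conv (c := (p : S) * a) htf
    rw [map_mul, map_natCast]; exact hf
  have key := hB.eq_of_pow_eq_one hp (algebraMap_mem_mapsInto ha) (algebraMap_mem_mapsInto ha₀)
    (by rw [← map_pow, hpa, map_mul, map_natCast]) htfB hχ hχ' hd₀
  exact AlgHom.toLinearMap_injective (WithConv.toConv_injective key)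

/-- **Rigidity** (injectivity of reduction on points): two algebra homomorphisms `H → S`
congruent modulo `a` are equal. -/
theorem algHom_eq_of_sub_mem {p : ℕ} (hp : p.Prime)
    (hkill : (toConv (LinearMap.id : H →ₗ[O] H)) ^ p = 1)
    (𝔪 : Ideal S) [IsAdicComplete 𝔪 S] {a a₀ : S} (ha : a ∈ 𝔪) (ha₀ : a₀ ∈ 𝔪)
    (hpa : a ^ (p - 1) = p * a₀) (htf : ∀ x : S, (p : S) * a * x = 0 → x = 0)
    (χ χ' : H →ₐ[O] S) (h : ∀ x, χ x - χ' x ∈ Ideal.span {a}) : χ = χ' :=
  algHom_eq_of_sub_mem_of_pow hp 𝔪 ha ha₀ hpa htf χ χ' (algHom_pow_eq_one χ hkill)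
    (algHom_pow_eq_one χ' hkill) h

end Main

end Hopf

end Fermat.Agent.Lib.helper6909
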