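import Mathlib

set_option autoImplicit false

/-!
# A universal property of `SL(2, ℤ)` modulo `±1`

`PSL(2, ℤ)` is the free product of a cyclic group of order two (generated by `S`) and a cyclic
group of order three (generated by `S * T`).  We prove this in the form of a universal property:
for every group `K` and elements `s u : K` with `s ^ 2 = 1` and `u ^ 3 = 1` there is a group
homomorphism `ψ : SL(2, ℤ) →* K` with `ψ S = s` and `ψ (S * T) = u`.

The proof is the ping-pong lemma (`Monoid.CoprodI.lift_injective_of_ping_pong`) for the action on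
the upper half plane, with the ping-pong sets `{re > 0}` and `{re < 0}`.
-/

namespace Fermat.Agent.Lib.helper690

open scoped MatrixGroups Pointwise
open UpperHalfPlane ModularGroup

/-- the hom from the cyclic group of order `n` determined by an element of order dividing `n`. -/
noncomputable def zmodHom (n : ℕ) {K : Type*} [Group K] (k : K) (hk : k ^ n = 1) :
    Multiplicative (ZMod n) →* K :=
  AddMonoidHom.toMultiplicativeLeft (ZMod.lift n ⟨zmultiplesHom (Additive K) (Additive.ofMul k), by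
    show (n : ℤ) • Additive.ofMul k = 0
    rw [natCast_zsmul, ← ofMul_pow, hk]; rfl⟩)

theorem zmodHom_ofAdd_intCast (n : ℕ) {K : Type*} [Group K] (k : K) (hk : k ^ n = 1) (m : ℤ) :
    zmodHom n k hk (Multiplicative.ofAdd (m : ZMod n)) = k ^ m := by
  show Additive.toMul (ZMod.lift n _ (m : ZMod n)) = k ^ m
  rw [ZMod.lift_coe]
  show Additive.toMul (m • Additive.ofMul k) = k ^ m
  rw [← ofMul_zpow]; rfl

theorem zmodHom_ofAdd_one (n : ℕ) {K : Type*} [Group K] (k : K) (hk : k ^ n = 1) :
    zmodHom n k hk (Multiplicative.ofAdd (1 : ZMod n)) = k := by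
  have := zmodHom_ofAdd_intCast n k hk 1
  simpa using this

/-! ## The two elements of `Equiv.Perm ℍ` -/

theorem S_mul_S : S * S = (-1 : SL(2, ℤ)) := by decide

theorem ST_cube : (S * T) ^ 3 = (-1 : SL(2, ℤ)) := by decide

theorem toPermHom_neg_one : MulAction.toPermHom SL(2, ℤ) ℍ (-1) = 1 := by
  refine Equiv.ext fun z => ?_
  show (-1 : SL(2, ℤ)) • z = z
  rw [SL_neg_smul, one_smul]

/-- the permutation of `ℍ` induced by `S`. -/
noncomputable def sPerm : Equiv.Perm ℍ := MulAction.toPermHom SL(2, ℤ) ℍ S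

/-- the permutation of `ℍ` induced by `S * T`. -/
noncomputable def uPerm : Equiv.Perm ℍ := MulAction.toPermHom SL(2, ℤ) ℍ (S * T)

theorem sPerm_sq : sPerm ^ 2 = 1 := by
  rw [sPerm, ← map_pow, pow_two, S_mul_S, toPermHom_neg_one]

theorem uPerm_cube : uPerm ^ 3 = 1 := by
  rw [uPerm, ← map_pow, ST_cube, toPermHom_neg_one]

theorem uPerm_sq : uPerm ^ 2 = MulAction.toPermHom SL(2, ℤ) ℍ (S * T)⁻¹ := by
  rw [map_inv, eq_inv_iff_mul_eq_one, ← uPerm, ← pow_succ, uPerm_cube]

theorem re_S_smul (z : ℍ) : (S • z).re = -z.re / Complex.normSq (z : ℂ) := by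
  rw [modular_S_smul]
  show ((-(z : ℂ))⁻¹).re = _
  rw [Complex.inv_re, Complex.normSq_neg]
  simp

theorem re_S_smul_pos {z : ℍ} (hz : z.re < 0) : 0 < (S • z).re := by
  rw [re_S_smul]
  exact div_pos (by linarith) z.normSq_pos

theorem re_S_smul_neg {z : ℍ} (hz : 0 < z.re) : (S • z).re < 0 := by
  rw [re_S_smul]
  exact div_neg_of_neg_of_pos (by linarith) z.normSq_pos

theorem re_ST_smul_neg {z : ℍ} (hz : 0 < z.re) : ((S * T) • z).re < 0 := by
  rw [mul_smul]
  apply re_S_smul_neg
  rw [re_T_smul]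
  linarith

theorem re_ST_inv_smul_neg {z : ℍ} (hz : 0 < z.re) : ((S * T)⁻¹ • z).re < 0 := by
  rw [mul_inv_rev, mul_smul, re_T_inv_smul, S_inv, SL_neg_smul]
  have := re_S_smul_neg hz
  linarith

/-! ## Ping-pong -/

/-- orders of the two cyclic factors. -/
def ord (b : Bool) : ℕ := bif b then 3 else 2

/-- the two generators. -/
noncomputable def gen (b : Bool) : Equiv.Perm ℍ := bif b then uPerm else sPerm

theorem gen_pow_ord (b : Bool) : gen b ^ ord b = 1 := by
  cases b
  · exact sPerm_sq
  · exact uPerm_cube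

/-- the two cyclic factors. -/
abbrev Fac (b : Bool) : Type := Multiplicative (ZMod (ord b))

/-- the maps of the cyclic factors to `Equiv.Perm ℍ`. -/
noncomputable def facHom (b : Bool) : Fac b →* Equiv.Perm ℍ :=
  zmodHom (ord b) (gen b) (gen_pow_ord b)

/-- the ping-pong sets. -/
def pp (b : Bool) : Set ℍ := bif b then {z | z.re < 0} else {z | 0 < z.re}

theorem facHom_false_apply (h : Fac false) (hh : h ≠ 1) : facHom false h = sPerm := by
  have hm : ∀ m : ZMod 2, m = 0 ∨ m = 1 := by decide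
  rcases hm (Multiplicative.toAdd h) with h0 | h1
  · exact absurd (toAdd_eq_zero.mp h0) hh
  · have h2 : h = Multiplicative.ofAdd (1 : ZMod 2) := by rw [← h1]; rfl
    rw [h2]
    exact zmodHom_ofAdd_one 2 sPerm sPerm_sq

theorem facHom_true_apply (h : Fac true) (hh : h ≠ 1) :
    facHom true h = uPerm ∨ facHom true h = uPerm ^ 2 := by
  have hm : ∀ m : ZMod 3, m = 0 ∨ m = 1 ∨ m = 2 := by decide
  rcases hm (Multiplicative.toAdd h) with h0 | h1 | h1
  · exact absurd (toAdd_eq_zero.mp h0) hh
  · have h2 : h = Multiplicative.ofAdd (1 : ZMod 3) := by rw [← h1]; rfl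
    rw [h2]
    exact Or.inl (zmodHom_ofAdd_one 3 uPerm uPerm_cube)
  · have h2 : h = Multiplicative.ofAdd (2 : ZMod 3) := by rw [← h1]; rfl
    rw [h2]
    have h3 : zmodHom 3 uPerm uPerm_cube (Multiplicative.ofAdd (2 : ZMod 3)) = uPerm ^ 2 := by
      simpa using zmodHom_ofAdd_intCast 3 uPerm uPerm_cube 2
    exact Or.inr h3

theorem lift_facHom_injective : Function.Injective (Monoid.CoprodI.lift facHom) := by
  refine Monoid.CoprodI.lift_injective_of_ping_pong facHom (Or.inr ⟨true, ?_⟩) pp ?_ ?_ ?_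
  · show 3 ≤ Cardinal.mk (Multiplicative (ZMod 3))
    rw [Cardinal.mk_fintype, Fintype.card_multiplicative, ZMod.card]
    norm_num
  · intro b
    cases b
    · exact ⟨⟨Complex.mk 1 1, by simp⟩, by show (0 : ℝ) < 1; norm_num⟩
    · exact ⟨⟨Complex.mk (-1) 1, by simp⟩, by show (-1 : ℝ) < 0; norm_num⟩
  · intro i j hij
    cases i <;> cases j
    · exact absurd rfl hij
    · show Disjoint {z : ℍ | 0 < z.re} {z : ℍ | z.re < 0}
      rw [Set.disjoint_left]
      intro z (h1 : 0 < z.re) (h2 : z.re < 0)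
      linarith
    · show Disjoint {z : ℍ | z.re < 0} {z : ℍ | 0 < z.re}
      rw [Set.disjoint_left]
      intro z (h1 : z.re < 0) (h2 : 0 < z.re)
      linarith
    · exact absurd rfl hij
  · intro i j hij
    cases i <;> cases j
    · exact absurd rfl hij
    · intro h hh
      rw [facHom_false_apply h hh]
      rintro _ ⟨z, (hz : z.re < 0), rfl⟩
      exact re_S_smul_pos hz
    · intro h hh
      rcases facHom_true_apply h hh with h1 | h1
      · rw [h1]
        rintro _ ⟨z, (hz : 0 < z.re), rfl⟩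
        exact re_ST_smul_neg hz
      · rw [h1, uPerm_sq]
        rintro _ ⟨z, (hz : 0 < z.re), rfl⟩
        exact re_ST_inv_smul_neg hz
    · exact absurd rfl hij

/-! ## The universal property -/

/-- the action homomorphism `SL(2, ℤ) →* Equiv.Perm ℍ`. -/
noncomputable def actHom : SL(2, ℤ) →* Equiv.Perm ℍ := MulAction.toPermHom SL(2, ℤ) ℍ

theorem actHom_S : actHom S
    = Monoid.CoprodI.lift facHom (Monoid.CoprodI.of (i := false) (Multiplicative.ofAdd 1)) := by
  rw [Monoid.CoprodI.lift_of]
  exact (zmodHom_ofAdd_one 2 sPerm sPerm_sq).symm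

theorem actHom_ST : actHom (S * T)
    = Monoid.CoprodI.lift facHom (Monoid.CoprodI.of (i := true) (Multiplicative.ofAdd 1)) := by
  rw [Monoid.CoprodI.lift_of]
  exact (zmodHom_ofAdd_one 3 uPerm uPerm_cube).symm

theorem range_actHom_le : actHom.range ≤ (Monoid.CoprodI.lift facHom).range := by
  rw [MonoidHom.range_eq_map, ← SpecialLinearGroup.SL2Z_generators, MonoidHom.map_closure,
    Subgroup.closure_le]
  rintro _ ⟨g, hg, rfl⟩
  rcases hg with rfl | rfl
  · exact ⟨_, actHom_S.symm⟩
  · have h1 : actHom T = (actHom S)⁻¹ * actHom (S * T) := by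
      rw [← map_inv, ← map_mul]
      congr 1
      group
    show actHom T ∈ (Monoid.CoprodI.lift facHom).range
    rw [h1]
    exact mul_mem (inv_mem ⟨_, actHom_S.symm⟩) ⟨_, actHom_ST.symm⟩

/-- the homomorphism from `SL(2, ℤ)` to the free product `C₂ * C₃`. -/
noncomputable def toCoprod : SL(2, ℤ) →* Monoid.CoprodI Fac :=
  (MonoidHom.ofInjective lift_facHom_injective).symm.toMonoidHom.comp
    (actHom.codRestrict (Monoid.CoprodI.lift facHom).range
      (fun g => range_actHom_le ⟨g, rfl⟩))

theorem lift_toCoprod (g : SL(2, ℤ)) : Monoid.CoprodI.lift facHom (toCoprod g) = actHom g :=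
  MonoidHom.apply_ofInjective_symm lift_facHom_injective _

theorem toCoprod_S :
    toCoprod S = Monoid.CoprodI.of (i := false) (Multiplicative.ofAdd 1) :=
  lift_facHom_injective (by rw [lift_toCoprod, actHom_S])

theorem toCoprod_ST :
    toCoprod (S * T) = Monoid.CoprodI.of (i := true) (Multiplicative.ofAdd 1) :=
  lift_facHom_injective (by rw [lift_toCoprod, actHom_ST])

/-- **Universal property of `SL(2, ℤ)` modulo `±1`** (`PSL(2, ℤ) ≅ C₂ * C₃`): for every group `K`
and `s u : K` with `s ^ 2 = 1`, `u ^ 3 = 1` there is a homomorphism `SL(2, ℤ) →* K` sending `S` to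
`s` and `S * T` to `u`. -/
theorem exists_monoidHom_of_sq_cube {K : Type*} [Group K] (s u : K) (hs : s ^ 2 = 1)
    (hu : u ^ 3 = 1) :
    ∃ ψ : SL(2, ℤ) →* K, ψ S = s ∧ ψ (S * T) = u := by
  let k : Bool → K := fun b => bif b then u else s
  have hk : ∀ b, k b ^ ord b = 1 := by
    intro b
    cases b
    · exact hs
    · exact hu
  refine ⟨(Monoid.CoprodI.lift (fun b => zmodHom (ord b) (k b) (hk b))).comp toCoprod, ?_, ?_⟩
  · rw [MonoidHom.comp_apply, toCoprod_S, Monoid.CoprodI.lift_of]
    exact zmodHom_ofAdd_one 2 s hs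
  · rw [MonoidHom.comp_apply, toCoprod_ST, Monoid.CoprodI.lift_of]
    exact zmodHom_ofAdd_one 3 u hu

end Fermat.Agent.Lib.helper690
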