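import Mathlib

/-!
# Commuting local projectors (abstract core of the Atkin–Lehner main lemma)

`exists_decomp_of_list` (operator form): `a i`, `c i`, `π i` linear endomorphisms of a module `V`
indexed by `i`, such that operators with different indices commute, `a i`, `c i` are idempotent,
`a i ∘ c i = c i`, `π i ∘ c i = c i`, and `a i v = v → π i v = v → c i v = v`.
If `a i v = v` for all `i` in a duplicate-free list `l` and `∏_{i ∈ l} (1 - π i)` kills `v`,
then `v = ∑_{i ∈ l} w i` with `c i (w i) = w i` and `a j (w i) = w i` for all `j ∈ l`.

`exists_decomp_of_subgroups` (group form): a finite group `G` acting linearly on a vector space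
`V` over a field of characteristic zero, subgroups `H i`, `P i` such that `H i ⊔ P i` and
`H j ⊔ P j` commute elementwise for `i ≠ j`.  If `v` is fixed by all `H i` (`i ∈ l`) and
`∏_{i ∈ l} (1 - avg (P i))` kills `v`, then `v = ∑_{i ∈ l} w i` with `w i` fixed by `P i` and by
all `H j`, `j ∈ l`.
-/

set_option autoImplicit false

namespace Fermat.Agent.Lib.helper7095

section Operator

variable {k V ι : Type*} [CommRing k] [AddCommGroup V] [Module k V]

/-- Operator form of the commuting-projector lemma. -/
theorem exists_decomp_of_list (a c π : ι → Module.End k V)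
    (ha : ∀ i, a i * a i = a i) (hc : ∀ i, c i * c i = c i)
    (hac : ∀ i, a i * c i = c i) (hπc : ∀ i, π i * c i = c i)
    (hloc : ∀ i (v : V), a i v = v → π i v = v → c i v = v)
    (haa : ∀ i j, i ≠ j → Commute (a i) (a j))
    (hac' : ∀ i j, i ≠ j → Commute (a i) (c j))
    (haπ : ∀ i j, i ≠ j → Commute (a i) (π j))
    (hcπ : ∀ i j, i ≠ j → Commute (c i) (π j))
    (l : List ι) (hl : l.Nodup) (v : V) (hv : ∀ i ∈ l, a i v = v)
    (h0 : (l.map fun i => 1 - π i).prod v = 0) :
    ∃ w : ι → V, v = (l.map w).sum ∧
      ∀ i ∈ l, c i (w i) = w i ∧ ∀ j ∈ l, a j (w i) = w i := by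
  classical
  induction l generalizing v with
  | nil =>
    refine ⟨fun _ => 0, ?_, by simp⟩
    simpa using h0
  | cons i l ih =>
    have hil : i ∉ l := (List.nodup_cons.mp hl).1
    have hl' : l.Nodup := (List.nodup_cons.mp hl).2
    have hne : ∀ j ∈ l, i ≠ j := fun j hj h => hil (h ▸ hj)
    have hvi : a i v = v := hv i (by simp)
    -- commutation of `a i` and `c i` with the product over `l`
    have comm_a : Commute (a i) (l.map fun j => 1 - π j).prod := by
      apply Commute.list_prod_right
      intro x hx
      obtain ⟨j, hj, rfl⟩ := List.mem_map.mp hx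
      exact (Commute.one_right _).sub_right (haπ i j (hne j hj))
    have comm_c : Commute (c i) (l.map fun j => 1 - π j).prod := by
      apply Commute.list_prod_right
      intro x hx
      obtain ⟨j, hj, rfl⟩ := List.mem_map.mp hx
      exact (Commute.one_right _).sub_right (hcπ i j (hne j hj))
    set Q : Module.End k V := (l.map fun j => 1 - π j).prod with hQ
    set v1 : V := v - c i v with hv1
    set u' : V := Q v with hu'
    -- `(1 - π i) u' = 0`
    have h0' : u' - π i u' = 0 := by
      have : (1 - π i) (Q v) = 0 := by
        simpa [List.map_cons, List.prod_cons] using h0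
      simpa using this
    have hπu' : π i u' = u' := (sub_eq_zero.mp h0').symm
    have hau' : a i u' = u' := by
      have := congrArg (fun T : Module.End k V => T v) comm_a.eq
      simp only [Module.End.mul_apply] at this
      rw [hu', this, hvi]
    have hcu' : c i (Q v) = Q (c i v) := by
      have := congrArg (fun T : Module.End k V => T v) comm_c.eq
      simpa only [Module.End.mul_apply] using this
    -- `u := Q v1 = u' - c i u'` vanishes
    have hu : Q v1 = 0 := by
      have e1 : Q v1 = u' - c i u' := by
        rw [hv1, map_sub, hcu']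
      have hcc : c i (c i u') = c i u' := by
        have := congrArg (fun T : Module.End k V => T u') (hc i)
        simpa only [Module.End.mul_apply] using this
      have hacu : a i (c i u') = c i u' := by
        have := congrArg (fun T : Module.End k V => T u') (hac i)
        simpa only [Module.End.mul_apply] using this
      have hπcu : π i (c i u') = c i u' := by
        have := congrArg (fun T : Module.End k V => T u') (hπc i)
        simpa only [Module.End.mul_apply] using this
      have h1 : a i (u' - c i u') = u' - c i u' := by rw [map_sub, hau', hacu]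
      have h2 : π i (u' - c i u') = u' - c i u' := by rw [map_sub, hπu', hπcu]
      have h3 := hloc i _ h1 h2
      rw [map_sub, hcc, sub_self] at h3
      rw [e1, ← h3]
    -- `v1` is fixed by `a j`, `j ∈ l`, and by `a i`
    have hv1a : ∀ j ∈ l, a j v1 = v1 := by
      intro j hj
      have hvj : a j v = v := hv j (List.mem_cons_of_mem _ hj)
      have := congrArg (fun T : Module.End k V => T v) (hac' j i (hne j hj).symm).eq
      simp only [Module.End.mul_apply] at this
      rw [hv1, map_sub, hvj, this, hvj]
    have hv1i : a i v1 = v1 := by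
      have := congrArg (fun T : Module.End k V => T v) (hac i)
      simp only [Module.End.mul_apply] at this
      rw [hv1, map_sub, hvi, this]
    obtain ⟨w', hw'sum, hw'⟩ := ih hl' v1 hv1a hu
    refine ⟨fun j => if j = i then c i v else a i (w' j), ?_, ?_⟩
    · have hsum : (l.map fun j => if j = i then c i v else a i (w' j)).sum
          = a i (l.map w').sum := by
        rw [map_list_sum, List.map_map]
        congr 1
        apply List.map_congr_left
        intro j hj
        simp [(hne j hj).symm]
      rw [List.map_cons, List.sum_cons, if_pos rfl, hsum, ← hw'sum, hv1i, hv1]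
      abel
    · intro j hj
      rcases List.mem_cons.mp hj with rfl | hj
      · simp only [if_true]
        refine ⟨?_, ?_⟩
        · have := congrArg (fun T : Module.End k V => T v) (hc j)
          simpa only [Module.End.mul_apply] using this
        · intro m hm
          rcases List.mem_cons.mp hm with rfl | hm
          · have := congrArg (fun T : Module.End k V => T v) (hac m)
            simpa only [Module.End.mul_apply] using this
          · have hvm : a m v = v := hv m (List.mem_cons_of_mem _ hm)
            have := congrArg (fun T : Module.End k V => T v) (hac' m j (hne m hm).symm).eq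
            simp only [Module.End.mul_apply] at this
            rw [this, hvm]
      · have hji : j ≠ i := (hne j hj).symm
        simp only [if_neg hji]
        obtain ⟨hcw, haw⟩ := hw' j hj
        refine ⟨?_, ?_⟩
        · have := congrArg (fun T : Module.End k V => T (w' j)) (hac' i j (hne j hj)).eq
          simp only [Module.End.mul_apply] at this
          rw [← this, hcw]
        · intro m hm
          rcases List.mem_cons.mp hm with rfl | hm
          · have := congrArg (fun T : Module.End k V => T (w' j)) (ha m)
            simpa only [Module.End.mul_apply] using this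
          · have := congrArg (fun T : Module.End k V => T (w' j))
              (haa m i (hne m hm).symm).eq
            simp only [Module.End.mul_apply] at this
            rw [this, haw m hm]

end Operator

section Group

variable (k : Type*) {G V : Type*} [Field k] [CharZero k] [Group G] [Finite G]
  [AddCommGroup V] [Module k V] [DistribMulAction G V] [SMulCommClass G k V]

open Classical in
/-- The averaging operator over a subgroup `X` of a finite group acting linearly on `V`. -/
noncomputable def avg (X : Subgroup G) : Module.End k V :=
  letI := Fintype.ofFinite X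
  (Nat.card X : k)⁻¹ • ∑ x : X, DistribSMul.toLinearMap k V (x : G)

variable {k}

omit [CharZero k] in
open Classical in
theorem avg_apply (X : Subgroup G) (v : V) :
    avg k X v = letI := Fintype.ofFinite X; (Nat.card X : k)⁻¹ • ∑ x : X, (x : G) • v := by
  simp [avg, LinearMap.sum_apply, DistribSMul.toLinearMap_apply]

theorem natCard_subgroup_ne_zero (X : Subgroup G) : (Nat.card X : k) ≠ 0 := by
  have : 0 < Nat.card X := Nat.card_pos
  exact_mod_cast this.ne'

omit [CharZero k] in
/-- `avg X v` is fixed by `X`. -/
theorem smul_avg (X : Subgroup G) {x : G} (hx : x ∈ X) (v : V) :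
    x • avg k X v = avg k X v := by
  classical
  let _ := Fintype.ofFinite X
  rw [avg_apply, smul_comm, Finset.smul_sum]
  congr 1
  refine Fintype.sum_equiv (Equiv.mulLeft (⟨x, hx⟩ : X)) _ _ fun y => ?_
  simp [mul_smul]

omit [CharZero k] in
/-- `avg X` does not see the action of `X`. -/
theorem avg_smul (X : Subgroup G) {x : G} (hx : x ∈ X) (v : V) :
    avg k X (x • v) = avg k X v := by
  classical
  let _ := Fintype.ofFinite X
  rw [avg_apply, avg_apply]
  congr 1
  refine Fintype.sum_equiv (Equiv.mulRight (⟨x, hx⟩ : X)) _ _ fun y => ?_
  simp [mul_smul]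

/-- A vector fixed by `X` is fixed by `avg X`. -/
theorem avg_eq_self_of_fixed (X : Subgroup G) {v : V} (h : ∀ x ∈ X, x • v = v) :
    avg k X v = v := by
  classical
  let _ := Fintype.ofFinite X
  rw [avg_apply]
  have : ∑ x : X, (x : G) • v = (Nat.card X : k) • v := by
    rw [Finset.sum_congr rfl fun (x : X) _ => h (x : G) x.2, Finset.sum_const, Finset.card_univ,
      Nat.card_eq_fintype_card, Nat.cast_smul_eq_nsmul]
  rw [this, smul_smul, inv_mul_cancel₀ (natCard_subgroup_ne_zero X), one_smul]

theorem fixed_of_avg_eq_self (X : Subgroup G) {v : V} (h : avg k X v = v) :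
    ∀ x ∈ X, x • v = v := by
  intro x hx
  rw [← h, smul_avg X hx]

theorem avg_eq_self_iff (X : Subgroup G) {v : V} :
    avg k X v = v ↔ ∀ x ∈ X, x • v = v :=
  ⟨fixed_of_avg_eq_self X, avg_eq_self_of_fixed X⟩

theorem avg_mul_avg_of_le {X Y : Subgroup G} (h : X ≤ Y) :
    (avg k X : Module.End k V) * avg k Y = avg k Y := by
  ext v
  rw [Module.End.mul_apply]
  exact avg_eq_self_of_fixed X fun x hx => smul_avg Y (h hx) v

theorem avg_mul_self (X : Subgroup G) : (avg k X : Module.End k V) * avg k X = avg k X :=
  avg_mul_avg_of_le le_rfl

omit [Finite G] in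
/-- A vector fixed by `H` and by `P` is fixed by `H ⊔ P`. -/
theorem fixed_sup {H P : Subgroup G} {v : V} (hH : ∀ x ∈ H, x • v = v)
    (hP : ∀ x ∈ P, x • v = v) : ∀ x ∈ H ⊔ P, x • v = v := by
  have h1 : H ≤ MulAction.stabilizer G v := fun x hx => MulAction.mem_stabilizer_iff.mpr (hH x hx)
  have h2 : P ≤ MulAction.stabilizer G v := fun x hx => MulAction.mem_stabilizer_iff.mpr (hP x hx)
  intro x hx
  exact MulAction.mem_stabilizer_iff.mp (sup_le h1 h2 hx)

omit [CharZero k] [Finite G] in
theorem commute_toLinearMap {x y : G} (h : Commute x y) :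
    Commute (DistribSMul.toLinearMap k V x) (DistribSMul.toLinearMap k V y) := by
  ext v
  simp only [Module.End.mul_apply, DistribSMul.toLinearMap_apply]
  rw [← mul_smul, ← mul_smul, h.eq]

omit [CharZero k] in
/-- Averaging operators over elementwise commuting subgroups commute. -/
theorem commute_avg {X Y : Subgroup G} (h : ∀ x ∈ X, ∀ y ∈ Y, Commute x y) :
    Commute (avg k X : Module.End k V) (avg k Y) := by
  classical
  unfold avg
  refine Commute.smul_left (Commute.smul_right ?_ _) _
  refine Commute.sum_left _ _ _ fun x _ => ?_
  refine Commute.sum_right _ _ _ fun y _ => ?_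
  exact commute_toLinearMap (h x x.2 y y.2)

/-- **Commuting local projectors, group form.**  Let a finite group `G` act linearly on `V`, and
let `H i`, `P i` be subgroups such that `H i ⊔ P i` and `H j ⊔ P j` commute elementwise for
`i ≠ j`.  If `v` is fixed by all `H i` (`i ∈ l`) and is killed by the composition of the
operators `1 - avg (P i)` (`i ∈ l`), then `v = ∑_{i ∈ l} w i` where `w i` is fixed by
`H i ⊔ P i` and by all `H j` (`j ∈ l`). -/
theorem exists_decomp_of_subgroups {ι : Type*} (H P : ι → Subgroup G)
    (hcomm : ∀ i j, i ≠ j → ∀ x ∈ H i ⊔ P i, ∀ y ∈ H j ⊔ P j, Commute x y)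
    (l : List ι) (hl : l.Nodup) (v : V) (hv : ∀ i ∈ l, ∀ x ∈ H i, x • v = v)
    (h0 : ((l.map fun i => (1 : Module.End k V) - avg k (P i)).prod : Module.End k V) v = 0) :
    ∃ w : ι → V, v = (l.map w).sum ∧
      ∀ i ∈ l, (∀ x ∈ H i ⊔ P i, x • w i = w i) ∧ ∀ j ∈ l, ∀ x ∈ H j, x • w i = w i := by
  have hHK : ∀ i, H i ≤ H i ⊔ P i := fun i => le_sup_left
  have hPK : ∀ i, P i ≤ H i ⊔ P i := fun i => le_sup_right
  obtain ⟨w, hw, hw'⟩ := exists_decomp_of_list (k := k) (V := V)
    (fun i => avg k (H i)) (fun i => avg k (H i ⊔ P i)) (fun i => avg k (P i))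
    (fun i => avg_mul_self _) (fun i => avg_mul_self _)
    (fun i => avg_mul_avg_of_le (hHK i)) (fun i => avg_mul_avg_of_le (hPK i))
    (fun i v h1 h2 => avg_eq_self_of_fixed _
      (fixed_sup (fixed_of_avg_eq_self _ h1) (fixed_of_avg_eq_self _ h2)))
    (fun i j hij => commute_avg fun x hx y hy => hcomm i j hij x (hHK i hx) y (hHK j hy))
    (fun i j hij => commute_avg fun x hx y hy => hcomm i j hij x (hHK i hx) y hy)
    (fun i j hij => commute_avg fun x hx y hy => hcomm i j hij x (hHK i hx) y (hPK j hy))
    (fun i j hij => commute_avg fun x hx y hy => hcomm i j hij x hx y (hPK j hy))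
    l hl v (fun i hi => avg_eq_self_of_fixed _ (hv i hi)) h0
  refine ⟨w, hw, fun i hi => ⟨fixed_of_avg_eq_self _ (hw' i hi).1, fun j hj =>
    fixed_of_avg_eq_self _ ((hw' i hi).2 j hj)⟩⟩

end Group

end Fermat.Agent.Lib.helper7095
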