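import Fermat.Agent.S14.helper2850_ZetaLemma

/-!
# Generator-Chebotarev, analytic part (helper74)

A linear-combination form of the zeta lemma of `helper2850_ZetaLemma`: if finitely many number
fields `F i` and natural weights `a i`, `b i` satisfy
`∑ a i * #{ideals of 𝓞 (F i) of norm ℓ} ≤ ∑ b i * #{ideals of 𝓞 (F i) of norm ℓ}`
for every rational prime `ℓ` outside a finite set, then `∑ a i ≤ ∑ b i`.

(Each field has "`log (1/(s-1))` worth" of degree-one primes; only the simple pole of the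
Dedekind zeta functions is used.)
-/

set_option autoImplicit false
set_option maxHeartbeats 400000

namespace Fermat.Agent.Lib.helper74

open NumberField Ideal Filter Topology
open Fermat.Agent.S14.helper2850

noncomputable section

universe u v

/-- **Zeta lemma, linear-combination form.** -/
theorem zeta_family_le {ι : Type v} (S : Finset ι) (F : ι → Type u) [∀ i, Field (F i)]
    [∀ i, NumberField (F i)] (a b : ι → ℕ) (T : Finset ℕ)
    (hyp : ∀ ℓ : ℕ, ℓ.Prime → ℓ ∉ T →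
        ∑ i ∈ S, a i * Nat.card {I : Ideal (𝓞 (F i)) // absNorm I = ℓ} ≤
        ∑ i ∈ S, b i * Nat.card {I : Ideal (𝓞 (F i)) // absNorm I = ℓ}) :
    ∑ i ∈ S, a i ≤ ∑ i ∈ S, b i := by
  classical
  by_contra hlt
  push Not at hlt
  choose C hC hupper using fun i => Zr_upper (F i) T
  -- the key inequality for every `s > 1`
  have key : ∀ s : ℝ, 1 < s → ∏ i ∈ S, Zr (F i) s ^ a i ≤
      (∏ i ∈ S, C i ^ a i) * ∏ i ∈ S, Zr (F i) s ^ b i := by
    intro s hs
    choose L hL hZ using fun i => hupper i s hs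
    set Λ : Finset ℕ := S.biUnion L with hΛ
    have hΛp : ∀ ℓ ∈ Λ, ℓ.Prime ∧ ℓ ∉ T := by
      intro ℓ hℓ
      obtain ⟨i, -, hi⟩ := Finset.mem_biUnion.mp hℓ
      exact hL i ℓ hi
    set Sm : ι → ℝ := fun i => ∑ I ∈ idealsNormIn (F i) Λ, wt (F i) s I with hSm
    have h1 : ∀ i ∈ S, Zr (F i) s ≤ C i * Real.exp (Sm i) := by
      intro i hi
      refine (hZ i).trans (mul_le_mul_of_nonneg_left (Real.exp_le_exp.mpr ?_) (hC i).le)
      refine Finset.sum_le_sum_of_subset_of_nonneg (fun I hI => ?_) (fun I _ _ => wt_nonneg s I)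
      rw [mem_idealsNormIn] at hI ⊢
      exact Finset.mem_biUnion.mpr ⟨i, hi, hI⟩
    have h2 : ∀ i, Real.exp (Sm i) ≤ Zr (F i) s := fun i =>
      exp_sum_le_Zr (F i) hs _ (fun I hI =>
        prime_of_mem_idealsNormIn (F i) (fun ℓ hℓ => (hΛp ℓ hℓ).1) hI)
    have h3 : ∑ i ∈ S, (a i : ℝ) * Sm i ≤ ∑ i ∈ S, (b i : ℝ) * Sm i := by
      simp only [hSm, sum_idealsNormIn, Finset.mul_sum]
      rw [Finset.sum_comm, Finset.sum_comm (s := S)]
      refine Finset.sum_le_sum fun ℓ hℓ => ?_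
      have h' : (∑ i ∈ S, (a i : ℝ) * (Nat.card {I : Ideal (𝓞 (F i)) // absNorm I = ℓ} : ℝ)) ≤
          ∑ i ∈ S, (b i : ℝ) * (Nat.card {I : Ideal (𝓞 (F i)) // absNorm I = ℓ} : ℝ) := by
        exact_mod_cast hyp ℓ (hΛp ℓ hℓ).1 (hΛp ℓ hℓ).2
      have h'' := mul_le_mul_of_nonneg_right h' (Real.rpow_nonneg (Nat.cast_nonneg ℓ) (-s))
      rw [Finset.sum_mul, Finset.sum_mul] at h''
      refine le_trans (le_of_eq ?_) (h''.trans (le_of_eq ?_))
      · exact Finset.sum_congr rfl fun i _ => by ring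
      · exact Finset.sum_congr rfl fun i _ => by ring
    have hC0 : 0 ≤ ∏ i ∈ S, C i ^ a i := Finset.prod_nonneg fun i _ => pow_nonneg (hC i).le _
    calc ∏ i ∈ S, Zr (F i) s ^ a i ≤ ∏ i ∈ S, (C i * Real.exp (Sm i)) ^ a i :=
          Finset.prod_le_prod (fun i _ => pow_nonneg (Zr_nonneg _ _) _)
            (fun i hi => pow_le_pow_left₀ (Zr_nonneg _ _) (h1 i hi) _)
      _ = (∏ i ∈ S, C i ^ a i) * Real.exp (∑ i ∈ S, (a i : ℝ) * Sm i) := by
          rw [Real.exp_sum, ← Finset.prod_mul_distrib]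
          refine Finset.prod_congr rfl fun i _ => ?_
          rw [mul_pow, ← Real.exp_nat_mul]
      _ ≤ (∏ i ∈ S, C i ^ a i) * Real.exp (∑ i ∈ S, (b i : ℝ) * Sm i) :=
          mul_le_mul_of_nonneg_left (Real.exp_le_exp.mpr h3) hC0
      _ = (∏ i ∈ S, C i ^ a i) * ∏ i ∈ S, Real.exp (Sm i) ^ b i := by
          rw [Real.exp_sum]
          congr 1
          refine Finset.prod_congr rfl fun i _ => ?_
          rw [← Real.exp_nat_mul]
      _ ≤ (∏ i ∈ S, C i ^ a i) * ∏ i ∈ S, Zr (F i) s ^ b i :=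
          mul_le_mul_of_nonneg_left (Finset.prod_le_prod (fun i _ => pow_nonneg (Real.exp_pos _).le _)
            (fun i _ => pow_le_pow_left₀ (Real.exp_pos _).le (h2 i) _)) hC0
  -- pass to the limit `s → 1⁺`
  set A := ∑ i ∈ S, a i with hA
  set B := ∑ i ∈ S, b i with hB
  set C0 := ∏ i ∈ S, C i ^ a i with hC0def
  have hlim1 : Tendsto (fun s : ℝ => ∏ i ∈ S, ((s - 1) * Zr (F i) s) ^ a i) (𝓝[>] 1)
      (𝓝 (∏ i ∈ S, dedekindZeta_residue (F i) ^ a i)) :=
    tendsto_finsetProd _ fun i _ => (tendsto_Zr (F i)).pow (a i)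
  have hlim0 : Tendsto (fun s : ℝ => (s - 1) ^ (A - B)) (𝓝[>] 1) (𝓝 0) := by
    have : Tendsto (fun s : ℝ => (s - 1) ^ (A - B)) (𝓝 1) (𝓝 ((1 - 1 : ℝ) ^ (A - B))) :=
      ((continuous_id.sub continuous_const).pow (A - B)).tendsto 1
    rw [sub_self, zero_pow (by omega)] at this
    exact tendsto_nhdsWithin_of_tendsto_nhds this
  have hlimb : Tendsto (fun s : ℝ => ∏ i ∈ S, ((s - 1) * Zr (F i) s) ^ b i) (𝓝[>] 1)
      (𝓝 (∏ i ∈ S, dedekindZeta_residue (F i) ^ b i)) :=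
    tendsto_finsetProd _ fun i _ => (tendsto_Zr (F i)).pow (b i)
  have hlim2 : Tendsto (fun s : ℝ => C0 * ((s - 1) ^ (A - B) *
      ∏ i ∈ S, ((s - 1) * Zr (F i) s) ^ b i)) (𝓝[>] 1)
      (𝓝 (C0 * (0 * ∏ i ∈ S, dedekindZeta_residue (F i) ^ b i))) :=
    (hlim0.mul hlimb).const_mul _
  have hle : (fun s : ℝ => ∏ i ∈ S, ((s - 1) * Zr (F i) s) ^ a i) ≤ᶠ[𝓝[>] 1]
      (fun s : ℝ => C0 * ((s - 1) ^ (A - B) * ∏ i ∈ S, ((s - 1) * Zr (F i) s) ^ b i)) := by
    filter_upwards [self_mem_nhdsWithin] with s hs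
    have hs' : (1 : ℝ) < s := hs
    have hpos : 0 < s - 1 := by linarith
    have e1 : ∏ i ∈ S, ((s - 1) * Zr (F i) s) ^ a i = (s - 1) ^ A * ∏ i ∈ S, Zr (F i) s ^ a i := by
      simp_rw [mul_pow]
      rw [Finset.prod_mul_distrib, Finset.prod_pow_eq_pow_sum]
    have e2 : ∏ i ∈ S, ((s - 1) * Zr (F i) s) ^ b i = (s - 1) ^ B * ∏ i ∈ S, Zr (F i) s ^ b i := by
      simp_rw [mul_pow]
      rw [Finset.prod_mul_distrib, Finset.prod_pow_eq_pow_sum]
    have e3 : (s - 1) ^ A = (s - 1) ^ (A - B) * (s - 1) ^ B := by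
      rw [← pow_add]
      congr 1
      omega
    rw [e1, e2]
    calc (s - 1) ^ A * ∏ i ∈ S, Zr (F i) s ^ a i
          ≤ (s - 1) ^ A * (C0 * ∏ i ∈ S, Zr (F i) s ^ b i) :=
          mul_le_mul_of_nonneg_left (key s hs') (pow_nonneg hpos.le _)
      _ = C0 * ((s - 1) ^ (A - B) * ((s - 1) ^ B * ∏ i ∈ S, Zr (F i) s ^ b i)) := by
          rw [e3]; ring
  have hfinal := le_of_tendsto_of_tendsto hlim1 hlim2 hle
  have hpos : 0 < ∏ i ∈ S, dedekindZeta_residue (F i) ^ a i :=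
    Finset.prod_pos fun i _ => pow_pos (dedekindZeta_residue_pos (F i)) _
  rw [zero_mul, mul_zero] at hfinal
  linarith

end

end Fermat.Agent.Lib.helper74
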