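import Fermat.Agent.Lib.helper74_GenChebAnalytic

/-!
# Generator-Chebotarev for number fields Galois over `ℚ` (helper74)

Let `L/ℚ` be a finite Galois extension of number fields, `σ ∈ Gal(L/ℚ)` and `T` a finite set of
primes.  Then there are a prime `ℓ ∉ T`, a prime `𝔏` of `𝓞 L` above `ℓ` and `τ ∈ Gal(L/ℚ)` which is
THE Frobenius at `𝔏` (`τ x ≡ x ^ ℓ mod 𝔏`, unique with this property) and generates the same
cyclic subgroup as `σ` (`τ = σ ^ k`, `σ = τ ^ m`): `exists_frob_generator`.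

This is the Frobenius density theorem in existence form.  No L-functions, no class field theory:
only the simple pole of the Dedekind zeta functions of the fixed fields of the subgroups
`⟨σ ^ d⟩`, `d ∣ ord σ` (via `zeta_family_le`), the counting identity
`#{g : g τ g⁻¹ ∈ H} = #H * #{primes of norm ℓ of L^H}` (`card_conj_mem`) and Möbius inversion on
the cyclic group `⟨σ⟩` (`sum_moebius_indicator`).
-/

set_option autoImplicit false
set_option maxHeartbeats 400000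
set_option linter.unusedSectionVars false

namespace Fermat.Agent.Lib.helper74

open NumberField
open scoped Pointwise

/-! ### Möbius inversion on a cyclic group -/


theorem sum_divisors_moebius (m : ℕ) :
    ∑ d ∈ m.divisors, (ArithmeticFunction.moebius d : ℤ) = if m = 1 then 1 else 0 := by
  rw [← ArithmeticFunction.coe_mul_zeta_apply, ArithmeticFunction.moebius_mul_coe_zeta,
    ArithmeticFunction.one_apply]

variable {G : Type*} [Group G]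

/-- for `d ∣ orderOf σ`, `σ ^ k ∈ zpowers (σ ^ d) ↔ d ∣ k`. -/
theorem pow_mem_zpowers_pow_iff (σ : G) {d : ℕ} (hd : d ∣ orderOf σ) (k : ℕ) :
    σ ^ k ∈ Subgroup.zpowers (σ ^ d) ↔ d ∣ k := by
  constructor
  · rintro ⟨z, hz⟩
    have hz' : σ ^ ((d : ℤ) * z) = σ ^ (k : ℤ) := by
      rw [zpow_mul, zpow_natCast, zpow_natCast]
      exact hz
    have h1 : σ ^ ((k : ℤ) - d * z) = 1 := by
      rw [zpow_sub, hz', mul_inv_cancel]
    have h2 : (orderOf σ : ℤ) ∣ (k : ℤ) - d * z := orderOf_dvd_iff_zpow_eq_one.mpr h1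
    have h3 : (d : ℤ) ∣ (k : ℤ) - d * z := (Int.natCast_dvd_natCast.mpr hd).trans h2
    have h4 : (d : ℤ) ∣ (k : ℤ) := by
      have := dvd_add h3 (dvd_mul_right (d : ℤ) z)
      simpa using this
    exact Int.natCast_dvd_natCast.mp h4
  · rintro ⟨j, rfl⟩
    exact ⟨j, by simp [pow_mul]⟩

theorem sum_moebius_indicator (σ : G) (hσ : 0 < orderOf σ) (k : ℕ) :
    ∑ d ∈ (orderOf σ).divisors, (ArithmeticFunction.moebius d : ℤ) *
        (if σ ^ k ∈ Subgroup.zpowers (σ ^ d) then 1 else 0)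
      = if Nat.Coprime (orderOf σ) k then 1 else 0 := by
  classical
  have h1 : ∀ d ∈ (orderOf σ).divisors, (ArithmeticFunction.moebius d : ℤ) *
      (if σ ^ k ∈ Subgroup.zpowers (σ ^ d) then 1 else 0) =
        if d ∣ k then (ArithmeticFunction.moebius d : ℤ) else 0 := by
    intro d hd
    have := pow_mem_zpowers_pow_iff σ (Nat.dvd_of_mem_divisors hd) k
    by_cases hdk : d ∣ k
    · rw [if_pos (this.mpr hdk), if_pos hdk, mul_one]
    · rw [if_neg (fun h => hdk (this.mp h)), if_neg hdk, mul_zero]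
  rw [Finset.sum_congr rfl h1, ← Finset.sum_filter]
  have h2 : (orderOf σ).divisors.filter (fun d => d ∣ k) = (Nat.gcd (orderOf σ) k).divisors := by
    ext d
    simp only [Finset.mem_filter, Nat.mem_divisors, Nat.dvd_gcd_iff]
    constructor
    · rintro ⟨⟨h1, h2⟩, h3⟩
      exact ⟨⟨h1, h3⟩, Nat.gcd_ne_zero_left hσ.ne'⟩
    · rintro ⟨⟨h1, h3⟩, _⟩
      exact ⟨⟨h1, hσ.ne'⟩, h3⟩
  rw [h2, sum_divisors_moebius]

/-! ### Primes of the fixed fields and the counting identity -/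


section General

variable {R : Type*} [CommRing R]

/-- A proper ideal containing the prime number `ℓ` lies over `(ℓ)`. -/
theorem absNorm_under_eq_of_mem {ℓ : ℕ} (hℓ : ℓ.Prime) (Q : Ideal R) (hQ : Q ≠ ⊤)
    (hmem : (ℓ : R) ∈ Q) : Ideal.absNorm (Ideal.under ℤ Q) = ℓ := by
  have h1 : (Ideal.absNorm (Ideal.under ℤ Q) : ℤ) ∣ (ℓ : ℤ) := by
    rw [← Int.cast_mem_ideal_iff (I := Q)]
    simpa using hmem
  have h2 : Ideal.absNorm (Ideal.under ℤ Q) ∣ ℓ := Int.natCast_dvd_natCast.mp h1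
  rcases (Nat.dvd_prime hℓ).mp h2 with h | h
  · exfalso
    apply hQ
    rw [Ideal.eq_top_iff_one]
    have : ((1 : ℤ) : R) ∈ Q := by
      rw [Int.cast_mem_ideal_iff, h]
      simp
    simpa using this
  · exact h

theorem under_int_eq_span {ℓ : ℕ} (hℓ : ℓ.Prime) (Q : Ideal R) (hQ : Q ≠ ⊤)
    (hmem : (ℓ : R) ∈ Q) : Ideal.under ℤ Q = Ideal.span {(ℓ : ℤ)} := by
  rw [← absNorm_under_eq_of_mem hℓ Q hQ hmem, Int.ideal_span_absNorm_eq_self]

end General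

section NF

variable {L : Type*} [Field L] [NumberField L]

theorem prime_dvd_absNorm {ℓ : ℕ} (hℓ : ℓ.Prime) (Q : Ideal (𝓞 L)) (hQ : Q ≠ ⊤)
    (hmem : (ℓ : 𝓞 L) ∈ Q) : ℓ ∣ Ideal.absNorm Q := by
  have := Int.absNorm_under_dvd_absNorm Q
  rwa [absNorm_under_eq_of_mem hℓ Q hQ hmem] at this

variable [IsGalois ℚ L]

/-- The bad primes for a finite family of integers of `L`: the primes dividing the norm of a
nonzero difference of two conjugates. -/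
noncomputable def badSet {κ : Type*} [Fintype κ] (θ : κ → 𝓞 L) : Finset ℕ :=
  open scoped Classical in
  (Finset.univ : Finset ((L ≃ₐ[ℚ] L) × (L ≃ₐ[ℚ] L) × κ)).biUnion fun x =>
    if x.1 • θ x.2.2 = x.2.1 • θ x.2.2 then ∅
    else (Algebra.norm ℤ (x.1 • θ x.2.2 - x.2.1 • θ x.2.2)).natAbs.primeFactors

/-- **Separation**: outside the bad set, two conjugates of `θ j` that are congruent modulo a prime
above `ℓ` are equal. -/
theorem smul_eq_of_sub_mem {κ : Type*} [Fintype κ] (θ : κ → 𝓞 L) {ℓ : ℕ} (hℓ : ℓ.Prime)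
    (hbad : ℓ ∉ badSet θ) (Q : Ideal (𝓞 L)) (hQ : Q ≠ ⊤) (hmem : (ℓ : 𝓞 L) ∈ Q)
    (g g' : L ≃ₐ[ℚ] L) (j : κ) (h : g • θ j - g' • θ j ∈ Q) : g • θ j = g' • θ j := by
  classical
  by_contra hne
  apply hbad
  rw [badSet, Finset.mem_biUnion]
  refine ⟨(g, g', j), Finset.mem_univ _, ?_⟩
  rw [if_neg hne]
  have hd : g • θ j - g' • θ j ≠ 0 := sub_ne_zero.mpr hne
  have hn : Algebra.norm ℤ (g • θ j - g' • θ j) ≠ 0 := by
    rwa [Ne, Algebra.norm_eq_zero_iff]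
  rw [Nat.mem_primeFactors]
  refine ⟨hℓ, ?_, Int.natAbs_ne_zero.mpr hn⟩
  have h1 : (Ideal.absNorm Q : ℤ) ∣ Algebra.norm ℤ (g • θ j - g' • θ j) :=
    Ideal.absNorm_dvd_norm_of_mem h
  have h2 : (ℓ : ℤ) ∣ Algebra.norm ℤ (g • θ j - g' • θ j) :=
    (Int.natCast_dvd_natCast.mpr (prime_dvd_absNorm hℓ Q hQ hmem)).trans h1
  exact Int.natCast_dvd.mp h2


variable (L)

/-- The fixed field of a subgroup of `Gal(L/ℚ)`. -/
abbrev fixF (H : Subgroup (L ≃ₐ[ℚ] L)) : IntermediateField ℚ L := FixedPoints.intermediateField H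

variable {L}

theorem smul_algebraMap_fixF (H : Subgroup (L ≃ₐ[ℚ] L)) {h : L ≃ₐ[ℚ] L} (hh : h ∈ H)
    (x : 𝓞 (fixF L H)) :
    h • algebraMap (𝓞 (fixF L H)) (𝓞 L) x = algebraMap (𝓞 (fixF L H)) (𝓞 L) x := by
  apply RingOfIntegers.ext
  exact x.1.2 ⟨h, hh⟩

theorem under_smul_of_mem (H : Subgroup (L ≃ₐ[ℚ] L)) {h : L ≃ₐ[ℚ] L} (hh : h ∈ H)
    (Q : Ideal (𝓞 L)) : (h • Q).under (𝓞 (fixF L H)) = Q.under (𝓞 (fixF L H)) := by
  ext x
  simp only [Ideal.under, Ideal.mem_comap]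
  rw [Ideal.mem_pointwise_smul_iff_inv_smul_mem, smul_algebraMap_fixF H (H.inv_mem hh)]

/-- The integral basis of the fixed field, viewed in `𝓞 L`. -/
noncomputable def thetaH (H : Subgroup (L ≃ₐ[ℚ] L)) :
    Module.Free.ChooseBasisIndex ℤ (𝓞 (fixF L H)) → 𝓞 L :=
  fun i => algebraMap (𝓞 (fixF L H)) (𝓞 L) (RingOfIntegers.basis (fixF L H) i)

/-- **Claim A1.** Outside the bad set: if the prime of the fixed field of `H` below `Q` has
norm `ℓ`, then the decomposition group of `Q` is contained in `H`. -/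
theorem mem_of_smul_eq (H : Subgroup (L ≃ₐ[ℚ] L)) {ℓ : ℕ} (hℓ : ℓ.Prime)
    (hbad : ℓ ∉ badSet (thetaH H)) (Q : Ideal (𝓞 L)) [Q.IsPrime]
    (hN : Ideal.absNorm (Q.under (𝓞 (fixF L H))) = ℓ) {g : L ≃ₐ[ℚ] L} (hg : g • Q = Q) :
    g ∈ H := by
  classical
  have : Fact ℓ.Prime := ⟨hℓ⟩
  set P := Q.under (𝓞 (fixF L H)) with hP
  have hQtop : Q ≠ ⊤ := Ideal.IsPrime.ne_top'
  have hℓQ : (ℓ : 𝓞 L) ∈ Q := by
    have h1 := Ideal.absNorm_mem P
    rw [hN] at h1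
    have h2 : algebraMap (𝓞 (fixF L H)) (𝓞 L) (ℓ : 𝓞 (fixF L H)) ∈ Q := h1
    simpa using h2
  -- every element of `𝓞 K` is congruent to an integer
  have hint : ∀ x : 𝓞 (fixF L H), ∃ a : ℤ, x - (a : 𝓞 (fixF L H)) ∈ P := by
    intro x
    have hcard : Nat.card (𝓞 (fixF L H) ⧸ P) = ℓ := by
      rw [← Submodule.cardQuot_apply, ← Ideal.absNorm_apply, hN]
    have h1 : (1 : 𝓞 (fixF L H) ⧸ P) ≠ 0 := one_ne_zero
    have hx : Ideal.Quotient.mk P x ∈ AddSubgroup.zmultiples (1 : 𝓞 (fixF L H) ⧸ P) :=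
      mem_zmultiples_of_prime_card hcard h1
    obtain ⟨a, ha⟩ := AddSubgroup.mem_zmultiples_iff.mp hx
    refine ⟨a, ?_⟩
    rw [← Ideal.Quotient.eq, ← ha]
    simp
  have key : ∀ x : 𝓞 (fixF L H), g • algebraMap (𝓞 (fixF L H)) (𝓞 L) x -
      algebraMap (𝓞 (fixF L H)) (𝓞 L) x ∈ Q := by
    intro x
    obtain ⟨a, ha⟩ := hint x
    have h1 : algebraMap (𝓞 (fixF L H)) (𝓞 L) (x - (a : 𝓞 (fixF L H))) ∈ Q := ha
    have h2 : g • algebraMap (𝓞 (fixF L H)) (𝓞 L) (x - (a : 𝓞 (fixF L H))) ∈ Q := by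
      rw [← hg]
      exact Ideal.smul_mem_pointwise_smul g _ Q h1
    have h3 : g • algebraMap (𝓞 (fixF L H)) (𝓞 L) x - algebraMap (𝓞 (fixF L H)) (𝓞 L) x =
        g • algebraMap (𝓞 (fixF L H)) (𝓞 L) (x - (a : 𝓞 (fixF L H))) -
          algebraMap (𝓞 (fixF L H)) (𝓞 L) (x - (a : 𝓞 (fixF L H))) := by
      have h4 : g • ((a : ℤ) : 𝓞 L) = a :=
        map_intCast (MulSemiringAction.toRingHom (L ≃ₐ[ℚ] L) (𝓞 L) g) a
      rw [map_sub, smul_sub, map_intCast, h4]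
      ring
    rw [h3]
    exact Q.sub_mem h2 h1
  have hfix : ∀ i, g • thetaH H i = thetaH H i := by
    intro i
    have := smul_eq_of_sub_mem (thetaH H) hℓ hbad Q hQtop hℓQ g 1 i
      (by rw [one_smul]; exact key _)
    rwa [one_smul] at this
  rw [← IntermediateField.fixingSubgroup_fixedField H, IntermediateField.mem_fixingSubgroup_iff]
  intro x hx
  have hlin : (g : L →ₐ[ℚ] L).toLinearMap ∘ₗ (fixF L H).val.toLinearMap =
      (fixF L H).val.toLinearMap := by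
    refine (integralBasis (fixF L H)).ext fun i => ?_
    simp only [LinearMap.coe_comp, Function.comp_apply, AlgHom.toLinearMap_apply,
      integralBasis_apply]
    have := congrArg (fun y : 𝓞 L => (y : L)) (hfix i)
    exact this
  exact congrArg (fun f => f ⟨x, hx⟩) hlin


/-- In terms of the explicit congruence `τ x ≡ x ^ ℓ`. -/
theorem isArithFrobAt_iff {ℓ : ℕ} (hℓ : ℓ.Prime) (Q : Ideal (𝓞 L)) [Q.IsPrime]
    (hmem : (ℓ : 𝓞 L) ∈ Q) (τ : L ≃ₐ[ℚ] L) :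
    IsArithFrobAt ℤ τ Q ↔ ∀ x : 𝓞 L, τ • x - x ^ ℓ ∈ Q := by
  have hcard : Nat.card (ℤ ⧸ Q.under ℤ) = ℓ := by
    rw [under_int_eq_span hℓ Q Ideal.IsPrime.ne_top' hmem, Int.card_ideal_quot]
  unfold IsArithFrobAt AlgHom.IsArithFrobAt
  rw [hcard]
  rfl

theorem natCast_mem_smul {ℓ : ℕ} (Q : Ideal (𝓞 L)) (hmem : (ℓ : 𝓞 L) ∈ Q) (g : L ≃ₐ[ℚ] L) :
    (ℓ : 𝓞 L) ∈ g • Q := by
  rw [Ideal.mem_pointwise_smul_iff_inv_smul_mem]
  have : g⁻¹ • ((ℓ : ℕ) : 𝓞 L) = ℓ :=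
    map_natCast (MulSemiringAction.toRingHom (L ≃ₐ[ℚ] L) (𝓞 L) g⁻¹) ℓ
  rw [this]
  exact hmem

/-- **Claim A2.** If a Frobenius at `Q` lies in `H`, the prime of the fixed field of `H` below
`Q` has norm `ℓ`. -/
theorem absNorm_under_eq_of_frob (H : Subgroup (L ≃ₐ[ℚ] L)) {ℓ : ℕ} (hℓ : ℓ.Prime)
    (Q : Ideal (𝓞 L)) [Q.IsPrime] (hmem : (ℓ : 𝓞 L) ∈ Q) {τ : L ≃ₐ[ℚ] L} (hτH : τ ∈ H)
    (hτ : ∀ x : 𝓞 L, τ • x - x ^ ℓ ∈ Q) :
    Ideal.absNorm (Q.under (𝓞 (fixF L H))) = ℓ := by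
  classical
  set P := Q.under (𝓞 (fixF L H)) with hP
  have hℓP : (ℓ : 𝓞 (fixF L H)) ∈ P := by
    show algebraMap _ (𝓞 L) (ℓ : 𝓞 (fixF L H)) ∈ Q
    simpa using hmem
  have hPtop : P ≠ ⊤ := Ideal.IsPrime.ne_top'
  have hPbot : P ≠ ⊥ := by
    intro h
    rw [h, Ideal.mem_bot] at hℓP
    exact hℓ.ne_zero (by exact_mod_cast hℓP)
  have hfin : Finite (𝓞 (fixF L H) ⧸ P) := Ideal.finiteQuotientOfFreeOfNeBot P hPbot
  have hpow : ∀ y : 𝓞 (fixF L H) ⧸ P, y ^ ℓ = y := by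
    intro y
    obtain ⟨x, rfl⟩ := Ideal.Quotient.mk_surjective y
    rw [← map_pow, Ideal.Quotient.eq]
    show algebraMap _ (𝓞 L) (x ^ ℓ - x) ∈ Q
    have h1 := hτ (algebraMap _ (𝓞 L) x)
    rw [smul_algebraMap_fixF H hτH] at h1
    have h2 := Q.neg_mem h1
    rw [map_sub, map_pow]
    convert h2 using 1
    ring
  have hle : Nat.card (𝓞 (fixF L H) ⧸ P) ≤ ℓ := by
    have : Fintype (𝓞 (fixF L H) ⧸ P) := Fintype.ofFinite _
    rw [Nat.card_eq_fintype_card]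
    let p : Polynomial (𝓞 (fixF L H) ⧸ P) := Polynomial.X ^ ℓ - Polynomial.X
    have hdeg : p.natDegree = ℓ := by
      have h1 : (Polynomial.X : Polynomial (𝓞 (fixF L H) ⧸ P)).degree <
          (Polynomial.X ^ ℓ : Polynomial (𝓞 (fixF L H) ⧸ P)).degree := by
        rw [Polynomial.degree_X_pow, Polynomial.degree_X]
        exact_mod_cast hℓ.one_lt
      rw [Polynomial.natDegree_eq_of_degree_eq (Polynomial.degree_sub_eq_left_of_degree_lt h1),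
        Polynomial.natDegree_X_pow]
    have hp0 : p ≠ 0 := fun h => by
      rw [h, Polynomial.natDegree_zero] at hdeg
      exact hℓ.ne_zero hdeg.symm
    have hsub : (Finset.univ : Finset (𝓞 (fixF L H) ⧸ P)) ⊆ p.roots.toFinset := by
      intro y _
      rw [Multiset.mem_toFinset, Polynomial.mem_roots hp0]
      simp [p, Polynomial.IsRoot, hpow y]
    calc Fintype.card _ = (Finset.univ : Finset (𝓞 (fixF L H) ⧸ P)).card := rfl
      _ ≤ p.roots.toFinset.card := Finset.card_le_card hsub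
      _ ≤ p.roots.card := Multiset.toFinset_card_le _
      _ ≤ p.natDegree := Polynomial.card_roots' p
      _ = ℓ := hdeg
  have hdvd : ℓ ∣ Ideal.absNorm P := prime_dvd_absNorm hℓ P hPtop hℓP
  have hN : Ideal.absNorm P = Nat.card (𝓞 (fixF L H) ⧸ P) := by
    rw [Ideal.absNorm_apply, Submodule.cardQuot_apply]
  have hpos : 0 < Ideal.absNorm P := by
    rw [hN]
    exact Nat.card_pos
  exact le_antisymm (hN ▸ hle) (Nat.le_of_dvd hpos hdvd)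


/-- **Claim A3.** Fibre count. -/
theorem card_setOf_absNorm_under (H : Subgroup (L ≃ₐ[ℚ] L)) {ℓ : ℕ} (hℓ : ℓ.Prime)
    (hbad : ℓ ∉ badSet (thetaH H)) (𝔏 : Ideal (𝓞 L)) [𝔏.IsPrime] (hmem : (ℓ : 𝓞 L) ∈ 𝔏) :
    Nat.card {g : L ≃ₐ[ℚ] L // Ideal.absNorm ((g • 𝔏).under (𝓞 (fixF L H))) = ℓ} =
      Nat.card H * Nat.card {I : Ideal (𝓞 (fixF L H)) // Ideal.absNorm I = ℓ} := by
  classical
  have hIG : IsGaloisGroup H (𝓞 (fixF L H)) (𝓞 L) :=
    IsGaloisGroup.of_isFractionRing H (𝓞 (fixF L H)) (𝓞 L) (fixF L H) L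
  have hex : ∀ I : {I : Ideal (𝓞 (fixF L H)) // Ideal.absNorm I = ℓ},
      ∃ g : L ≃ₐ[ℚ] L, (g • 𝔏).under (𝓞 (fixF L H)) = I.1 := by
    rintro ⟨I, hI⟩
    have hIp : I.IsPrime := Ideal.isPrime_of_irreducible_absNorm (by rw [hI]; exact hℓ)
    obtain ⟨Q, -, hQp, hQ⟩ :=
      Ideal.exists_ideal_over_prime_of_isIntegral I (⊥ : Ideal (𝓞 L)) (by simp)
    have hℓQ : (ℓ : 𝓞 L) ∈ Q := by
      have h1 : (ℓ : 𝓞 (fixF L H)) ∈ I := hI ▸ Ideal.absNorm_mem I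
      have h2 : (ℓ : 𝓞 (fixF L H)) ∈ Q.comap (algebraMap _ (𝓞 L)) := hQ ▸ h1
      simpa using h2
    have hu : 𝔏.under ℤ = Q.under ℤ := by
      rw [under_int_eq_span hℓ 𝔏 Ideal.IsPrime.ne_top' hmem,
        under_int_eq_span hℓ Q hQp.ne_top' hℓQ]
    obtain ⟨g, hg⟩ :=
      Algebra.IsInvariant.exists_smul_of_under_eq ℤ (𝓞 L) (L ≃ₐ[ℚ] L) 𝔏 Q hu
    exact ⟨g, by rw [← hg]; exact hQ⟩
  choose g₀ hg₀ using hex
  have hwell : ∀ (h : H) (I : {I : Ideal (𝓞 (fixF L H)) // Ideal.absNorm I = ℓ}),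
      Ideal.absNorm ((((h : L ≃ₐ[ℚ] L) * g₀ I) • 𝔏).under (𝓞 (fixF L H))) = ℓ := by
    intro h I
    rw [mul_smul, under_smul_of_mem H h.2, hg₀]
    exact I.2
  let f : H × {I : Ideal (𝓞 (fixF L H)) // Ideal.absNorm I = ℓ} →
      {g : L ≃ₐ[ℚ] L // Ideal.absNorm ((g • 𝔏).under (𝓞 (fixF L H))) = ℓ} :=
    fun x => ⟨(x.1 : L ≃ₐ[ℚ] L) * g₀ x.2, hwell x.1 x.2⟩
  have hinj : Function.Injective f := by
    rintro ⟨h, I⟩ ⟨h', I'⟩ hff
    have h1 : (h : L ≃ₐ[ℚ] L) * g₀ I = (h' : L ≃ₐ[ℚ] L) * g₀ I' := congrArg Subtype.val hff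
    have h2 : I = I' := by
      apply Subtype.ext
      rw [← hg₀ I, ← hg₀ I', ← under_smul_of_mem H h.2, ← under_smul_of_mem H h'.2 (g₀ I' • 𝔏),
        ← mul_smul, ← mul_smul, h1]
    subst h2
    have h3 : h = h' := Subtype.ext (mul_right_cancel h1)
    rw [h3]
  have hsurj : Function.Surjective f := by
    rintro ⟨g, hg⟩
    set I : {I : Ideal (𝓞 (fixF L H)) // Ideal.absNorm I = ℓ} :=
      ⟨(g • 𝔏).under (𝓞 (fixF L H)), hg⟩ with hI
    have hu : (g₀ I • 𝔏).under (𝓞 (fixF L H)) = (g • 𝔏).under (𝓞 (fixF L H)) := hg₀ I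
    have := hIG.isInvariant
    have := hIG.commutes
    obtain ⟨h, hh⟩ := Algebra.IsInvariant.exists_smul_of_under_eq (𝓞 (fixF L H)) (𝓞 L) H
      (g₀ I • 𝔏) (g • 𝔏) hu
    have hh' : g • 𝔏 = (h : L ≃ₐ[ℚ] L) • (g₀ I • 𝔏) := hh
    have hstab : ((h : L ≃ₐ[ℚ] L)⁻¹ * g * (g₀ I)⁻¹) • (g₀ I • 𝔏) = g₀ I • 𝔏 := by
      rw [← mul_smul, inv_mul_cancel_right, mul_smul, hh', inv_smul_smul]
    have hmemH : (h : L ≃ₐ[ℚ] L)⁻¹ * g * (g₀ I)⁻¹ ∈ H :=
      mem_of_smul_eq H hℓ hbad (g₀ I • 𝔏) (by rw [hg₀]; exact hg) hstab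
    have hgH : g * (g₀ I)⁻¹ ∈ H := by
      have := H.mul_mem h.2 hmemH
      simpa [mul_assoc] using this
    refine ⟨(⟨g * (g₀ I)⁻¹, hgH⟩, I), ?_⟩
    apply Subtype.ext
    simp [f]
  rw [← Nat.card_prod]
  exact (Nat.card_congr (Equiv.ofBijective f ⟨hinj, hsurj⟩)).symm

/-- **The counting identity (G1).** -/
theorem card_conj_mem (H : Subgroup (L ≃ₐ[ℚ] L)) {ℓ : ℕ} (hℓ : ℓ.Prime)
    (hbad : ℓ ∉ badSet (thetaH H)) (𝔏 : Ideal (𝓞 L)) [𝔏.IsPrime] (hmem : (ℓ : 𝓞 L) ∈ 𝔏)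
    {τ : L ≃ₐ[ℚ] L} (hτ : ∀ x : 𝓞 L, τ • x - x ^ ℓ ∈ 𝔏) :
    Nat.card {g : L ≃ₐ[ℚ] L // g * τ * g⁻¹ ∈ H} =
      Nat.card H * Nat.card {I : Ideal (𝓞 (fixF L H)) // Ideal.absNorm I = ℓ} := by
  rw [← card_setOf_absNorm_under H hℓ hbad 𝔏 hmem]
  refine Nat.card_congr (Equiv.subtypeEquivRight fun g => ?_)
  have hF : IsArithFrobAt ℤ τ 𝔏 := (isArithFrobAt_iff hℓ 𝔏 hmem τ).mpr hτ
  have hmem' : (ℓ : 𝓞 L) ∈ g • 𝔏 := natCast_mem_smul 𝔏 hmem g
  have hF' : IsArithFrobAt ℤ (g * τ * g⁻¹) (g • 𝔏) := hF.conj g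
  constructor
  · intro hH
    exact absNorm_under_eq_of_frob H hℓ (g • 𝔏) hmem' hH
      ((isArithFrobAt_iff hℓ (g • 𝔏) hmem' _).mp hF')
  · intro hN
    exact mem_of_smul_eq H hℓ hbad (g • 𝔏) hN (MulAction.mem_stabilizer_iff.mp hF'.mem_stabilizer)


/-! ### Uniqueness of the Frobenius outside a finite set -/

/-- The integral basis of `L`. -/
noncomputable def thetaL (L : Type*) [Field L] [NumberField L] :
    Module.Free.ChooseBasisIndex ℤ (𝓞 L) → 𝓞 L :=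
  fun i => RingOfIntegers.basis L i

theorem frob_unique {ℓ : ℕ} (hℓ : ℓ.Prime) (hbad : ℓ ∉ badSet (thetaL L)) (Q : Ideal (𝓞 L))
    [Q.IsPrime] (hmem : (ℓ : 𝓞 L) ∈ Q) {τ τ' : L ≃ₐ[ℚ] L} (hτ : ∀ x : 𝓞 L, τ • x - x ^ ℓ ∈ Q)
    (hτ' : ∀ x : 𝓞 L, τ' • x - x ^ ℓ ∈ Q) : τ' = τ := by
  have h : ∀ i, τ' • thetaL L i = τ • thetaL L i := fun i =>
    smul_eq_of_sub_mem (thetaL L) hℓ hbad Q Ideal.IsPrime.ne_top' hmem τ' τ i (by
      have := Q.sub_mem (hτ' (thetaL L i)) (hτ (thetaL L i))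
      convert this using 1
      ring)
  apply AlgEquiv.coe_toAlgHom_injective
  apply AlgHom.toLinearMap_injective
  refine (integralBasis L).ext fun i => ?_
  simp only [AlgHom.toLinearMap_apply, integralBasis_apply]
  exact congrArg (fun y : 𝓞 L => (y : L)) (h i)

/-! ### The theorem -/

theorem sum_moebius_mul_div (n : ℕ) (hn : 0 < n) :
    ∑ d ∈ n.divisors, (ArithmeticFunction.moebius d : ℤ) * ((n / d : ℕ) : ℤ) = (Nat.totient n : ℤ) := by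
  have h := (ArithmeticFunction.sum_eq_iff_sum_mul_moebius_eq (R := ℤ)
    (f := fun i => (Nat.totient i : ℤ)) (g := fun i => (i : ℤ))).mp
    (fun m _ => by exact_mod_cast Nat.sum_totient m) n hn
  rw [← h]
  exact (Nat.sum_divisorsAntidiagonal
    (f := fun i j => (ArithmeticFunction.moebius i : ℤ) * (j : ℤ))).symm

/-- **Generator-Chebotarev (Frobenius density theorem, existence form), number-field version.** -/
theorem exists_frob_generator (σ : L ≃ₐ[ℚ] L) (T : Finset ℕ) :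
    ∃ (ℓ : ℕ) (𝔏 : Ideal (𝓞 L)) (τ : L ≃ₐ[ℚ] L) (k m : ℕ), ℓ.Prime ∧ ℓ ∉ T ∧ 𝔏.IsPrime ∧
      (ℓ : 𝓞 L) ∈ 𝔏 ∧ (∀ x : 𝓞 L, τ • x - x ^ ℓ ∈ 𝔏) ∧
      (∀ τ' : L ≃ₐ[ℚ] L, (∀ x : 𝓞 L, τ' • x - x ^ ℓ ∈ 𝔏) → τ' = τ) ∧
      τ = σ ^ k ∧ σ = τ ^ m := by
  classical
  have : Fintype (L ≃ₐ[ℚ] L) := Fintype.ofFinite _
  set n := orderOf σ with hn
  have hnpos : 0 < n := orderOf_pos σ
  set D := n.divisors with hD
  let Hd : ℕ → Subgroup (L ≃ₐ[ℚ] L) := fun d => Subgroup.zpowers (σ ^ d)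
  set T' : Finset ℕ := T ∪ badSet (thetaL L) ∪ D.biUnion (fun d => badSet (thetaH (Hd d)))
    with hT'
  by_contra hcon
  -- for every prime `ℓ ∉ T'`, the Möbius-weighted count vanishes
  have hzero : ∀ ℓ : ℕ, ℓ.Prime → ℓ ∉ T' →
      ∑ d ∈ D, (ArithmeticFunction.moebius d : ℤ) * ((Nat.card (Hd d) *
        Nat.card {I : Ideal (𝓞 (fixF L (Hd d))) // Ideal.absNorm I = ℓ} : ℕ) : ℤ) = 0 := by
    intro ℓ hℓ hℓT
    have hT : ℓ ∉ T := fun h => hℓT (by simp [hT', h])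
    have hbL : ℓ ∉ badSet (thetaL L) := fun h => hℓT (by simp [hT', h])
    have hbd : ∀ d ∈ D, ℓ ∉ badSet (thetaH (Hd d)) := fun d hd h =>
      hℓT (Finset.mem_union_right _ (Finset.mem_biUnion.mpr ⟨d, hd, h⟩))
    have : Fact ℓ.Prime := ⟨hℓ⟩
    obtain ⟨𝔏, -, h𝔏p, h𝔏⟩ := Ideal.exists_ideal_over_prime_of_isIntegral
      (Ideal.span {(ℓ : ℤ)}) (⊥ : Ideal (𝓞 L))
      (le_of_eq_of_le (Ideal.comap_bot_of_injective _
        (FaithfulSMul.algebraMap_injective ℤ (𝓞 L))) bot_le)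
    have hmem : (ℓ : 𝓞 L) ∈ 𝔏 := by
      have h1 : (ℓ : ℤ) ∈ 𝔏.comap (algebraMap ℤ (𝓞 L)) := h𝔏 ▸ Ideal.mem_span_singleton_self _
      simpa using h1
    have h𝔏bot : 𝔏 ≠ ⊥ := fun h => by
      rw [h, Ideal.mem_bot] at hmem
      exact hℓ.ne_zero (by exact_mod_cast hmem)
    have : Finite (𝓞 L ⧸ 𝔏) := Ideal.finiteQuotientOfFreeOfNeBot 𝔏 h𝔏bot
    obtain ⟨τ, hτA⟩ := IsArithFrobAt.exists_of_isInvariant ℤ (L ≃ₐ[ℚ] L) 𝔏
    have hτ := (isArithFrobAt_iff hℓ 𝔏 hmem τ).mp hτA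
    have hcount : ∀ d ∈ D, (Nat.card (Hd d) *
        Nat.card {I : Ideal (𝓞 (fixF L (Hd d))) // Ideal.absNorm I = ℓ}) =
        Nat.card {g : L ≃ₐ[ℚ] L // g * τ * g⁻¹ ∈ Hd d} :=
      fun d hd => (card_conj_mem (Hd d) hℓ (hbd d hd) 𝔏 hmem hτ).symm
    rw [Finset.sum_congr rfl (fun d hd => by rw [hcount d hd])]
    have hcard : ∀ d, ((Nat.card {g : L ≃ₐ[ℚ] L // g * τ * g⁻¹ ∈ Hd d} : ℕ) : ℤ) =
        ∑ g : L ≃ₐ[ℚ] L, (if g * τ * g⁻¹ ∈ Hd d then 1 else 0 : ℤ) := by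
      intro d
      rw [Nat.card_eq_fintype_card, Fintype.card_subtype, Finset.card_filter]
      push_cast
      rfl
    simp_rw [hcard, Finset.mul_sum]
    rw [Finset.sum_comm]
    refine Finset.sum_eq_zero fun g _ => ?_
    by_cases hx : g * τ * g⁻¹ ∈ Subgroup.zpowers σ
    · obtain ⟨k, hk⟩ := mem_powers_iff_mem_zpowers.mpr hx
      have hk' : σ ^ k = g * τ * g⁻¹ := hk
      rw [← hk', sum_moebius_indicator σ hnpos k, if_neg]
      intro hcop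
      apply hcon
      obtain ⟨m, hm⟩ := exists_pow_eq_self_of_coprime (x := σ) (n := k) hcop.symm
      have hmem' := natCast_mem_smul 𝔏 hmem g
      have hF' := (isArithFrobAt_iff hℓ (g • 𝔏) hmem' _).mp (hτA.conj g)
      refine ⟨ℓ, g • 𝔏, g * τ * g⁻¹, k, m, hℓ, hT, inferInstance, hmem', hF', ?_, hk'.symm, ?_⟩
      · intro τ' hτ'
        exact frob_unique hℓ hbL (g • 𝔏) hmem' hF' hτ'
      · rw [← hk']
        exact hm.symm
    · refine Finset.sum_eq_zero fun d _ => ?_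
      rw [if_neg, mul_zero]
      intro hmem'
      exact hx (Subgroup.zpowers_le.mpr (Subgroup.pow_mem _ (Subgroup.mem_zpowers σ) d) hmem')
  have hcardH : ∀ d ∈ D, Nat.card (Hd d) = n / d := by
    intro d hd
    have hdn : d ∣ n := Nat.dvd_of_mem_divisors hd
    have hd0 : d ≠ 0 := fun h => by
      rw [h, zero_dvd_iff] at hdn
      exact hnpos.ne' hdn
    show Nat.card (Subgroup.zpowers (σ ^ d)) = n / d
    rw [Nat.card_zpowers, orderOf_pow' σ hd0, Nat.gcd_eq_right hdn]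
  let a : ℕ → ℕ := fun d => if ArithmeticFunction.moebius d = 1 then n / d else 0
  let b : ℕ → ℕ := fun d => if ArithmeticFunction.moebius d = -1 then n / d else 0
  have hab : ∀ d, ((a d : ℕ) : ℤ) - (b d : ℤ) =
      (ArithmeticFunction.moebius d : ℤ) * ((n / d : ℕ) : ℤ) := by
    intro d
    rcases ArithmeticFunction.moebius_eq_or d with h | h | h <;> simp [a, b, h]
  have hle := zeta_family_le D (fun d => fixF L (Hd d)) a b T' (by
    intro ℓ hℓ hℓT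
    have h0 := hzero ℓ hℓ hℓT
    have h1 : ∑ d ∈ D, ((a d : ℤ) - b d) *
        (Nat.card {I : Ideal (𝓞 (fixF L (Hd d))) // Ideal.absNorm I = ℓ} : ℤ) = 0 := by
      rw [← h0]
      refine Finset.sum_congr rfl fun d hd => ?_
      rw [hab, hcardH d hd]
      push_cast
      ring
    have h2 : (∑ d ∈ D, (a d : ℤ) *
        (Nat.card {I : Ideal (𝓞 (fixF L (Hd d))) // Ideal.absNorm I = ℓ} : ℤ)) =
        ∑ d ∈ D, (b d : ℤ) *
        (Nat.card {I : Ideal (𝓞 (fixF L (Hd d))) // Ideal.absNorm I = ℓ} : ℤ) := by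
      simp only [sub_mul, Finset.sum_sub_distrib] at h1
      linarith
    exact le_of_eq (by exact_mod_cast h2))
  have hphi : ∑ d ∈ D, ((a d : ℤ) - b d) = (Nat.totient n : ℤ) := by
    simp_rw [hab]
    exact sum_moebius_mul_div n hnpos
  have hpos : (0 : ℤ) < ∑ d ∈ D, ((a d : ℤ) - b d) := by
    rw [hphi]
    exact_mod_cast Nat.totient_pos.mpr hnpos
  rw [Finset.sum_sub_distrib] at hpos
  have hle' : (∑ d ∈ D, (a d : ℤ)) ≤ ∑ d ∈ D, (b d : ℤ) := by exact_mod_cast hle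
  linarith

end NF

end Fermat.Agent.Lib.helper74
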