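import Fermat.Agent.Lib.helper74_GenChebCore
import Fermat.Agent.S29.helper9726_GenChebAdapters

/-!
# Generator-Chebotarev in `Gal(ℚ̄/ℚ)`, unconditional consumer forms (helper74)

The number-field core `exists_frob_generator` (Frobenius density theorem in existence form,
`helper74_GenChebCore`) is pushed through the landed bridge of helper9726
(`S29/helper9726_GenChebAdapters`) to the vocabulary of the prelude
(`ValuationSubring.LiesOverPrime`, `ValuationSubring.IsFrobeniusAt`).  Everything here is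
unconditional.

* `stmt_FrobGenQ`            : helper9726's number-field statement `Stmt_FrobGenQ`;
* `exists_frobenius_zpowers` : finite Galois level `K`, `⟨τ|K⟩ = ⟨σ|K⟩`;
* `exists_frobenius_pow_eq`  : any finite level `L`, `τ ^ n = σ` on `L`;
* `exists_frobenius_pow_eq'` : any finite level `L`, `τ ^ n = σ` and `σ ^ m = τ` on `L`.
-/

set_option autoImplicit false

namespace Fermat.Agent.Lib.helper74

open NumberField

local notation "Qb" => AlgebraicClosure ℚ
local notation "GQ" => (AlgebraicClosure ℚ ≃ₐ[ℚ] AlgebraicClosure ℚ)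

/-- The number-field core in the shape of `helper9726.Stmt_FrobGenQ`. -/
theorem stmt_FrobGenQ : Fermat.Agent.S29.helper9726.Stmt_FrobGenQ := by
  intro K _ _ _ g T
  obtain ⟨ℓ, P, τ, k, m, hℓ, hℓT, hP, hℓP, -, huniq, hτ, hg⟩ :=
    exists_frob_generator (L := K) g T
  refine ⟨ℓ, P, hℓ, hℓT, hP, hℓP, ?_⟩
  intro τ' hτ'
  have h1 : τ' = τ := huniq τ' hτ'
  subst h1
  apply le_antisymm
  · rw [Subgroup.zpowers_le, hτ]
    exact Subgroup.pow_mem _ (Subgroup.mem_zpowers g) k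
  · rw [Subgroup.zpowers_le, hg]
    exact Subgroup.pow_mem _ (Subgroup.mem_zpowers τ') m

/-- **Generator-Chebotarev, finite Galois level, `zpowers` form.**  For a finite Galois
extension `K/ℚ` inside `ℚ̄`, `σ ∈ Gal(ℚ̄/ℚ)` and a finite set `T` of primes there are a prime
`ℓ ∉ T`, a valuation subring `A` of `ℚ̄` over `ℓ` and a Frobenius element `τ` at `A` such that
`τ|K` and `σ|K` generate the same subgroup of `Gal(K/ℚ)`. -/
theorem exists_frobenius_zpowers (K : IntermediateField ℚ Qb) [FiniteDimensional ℚ K]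
    [IsGalois ℚ K] (σ : GQ) (T : Finset ℕ) :
    ∃ (ℓ : ℕ) (A : ValuationSubring Qb) (τ : GQ), ℓ.Prime ∧ ℓ ∉ T ∧ A.LiesOverPrime ℓ ∧
      A.IsFrobeniusAt τ ℓ ∧
      Subgroup.zpowers (τ.restrictNormal K) = Subgroup.zpowers (σ.restrictNormal K) :=
  Fermat.Agent.S29.helper9726.genCheb_of_frobGenQ stmt_FrobGenQ K σ T

/-- **Generator-Chebotarev, any finite level, two-sided form.**  For a finite extension `L/ℚ`
inside `ℚ̄` (not necessarily Galois), `σ ∈ Gal(ℚ̄/ℚ)` and a finite set `T` of primes there are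
a prime `ℓ ∉ T`, a valuation subring `A` of `ℚ̄` over `ℓ`, a Frobenius element `τ` at `A` and
exponents `n`, `m` with `τ ^ n = σ` and `σ ^ m = τ` on `L`. -/
theorem exists_frobenius_pow_eq' (L : IntermediateField ℚ Qb) [FiniteDimensional ℚ L]
    (σ : GQ) (T : Finset ℕ) :
    ∃ (ℓ : ℕ) (A : ValuationSubring Qb) (τ : GQ) (n m : ℕ), ℓ.Prime ∧ ℓ ∉ T ∧
      A.LiesOverPrime ℓ ∧ A.IsFrobeniusAt τ ℓ ∧ (∀ x ∈ L, (τ ^ n) x = σ x) ∧
      (∀ x ∈ L, (σ ^ m) x = τ x) := by
  let K : IntermediateField ℚ Qb := IntermediateField.normalClosure ℚ ↥L Qb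
  have : Normal ℚ Qb := Fermat.Agent.Lib.helper54.isGalois_Qbar.to_normal
  have : FiniteDimensional ℚ ↥K := normalClosure.is_finiteDimensional _ _ _
  have : Normal ℚ ↥K := normalClosure.normal _ _ _
  have : IsGalois ℚ ↥K := ⟨⟩
  have hle : L ≤ K := IntermediateField.le_normalClosure L
  obtain ⟨ℓ, A, τ, hℓ, hℓT, hA, hτ, hz⟩ := exists_frobenius_zpowers K σ T
  obtain ⟨n, hn⟩ := Fermat.Agent.S29.helper9726.exists_pow_eq_on K hz
  obtain ⟨m, hm⟩ := Fermat.Agent.S29.helper9726.exists_pow_eq_on K hz.symm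
  exact ⟨ℓ, A, τ, n, m, hℓ, hℓT, hA, hτ, fun x hx => hn x (hle hx),
    fun x hx => hm x (hle hx)⟩

/-- **Generator-Chebotarev, any finite level, pointwise form**: every element of `Gal(ℚ̄/ℚ)`
agrees on a given finite level with a power of a Frobenius element at a prime outside a given
finite set. -/
theorem exists_frobenius_pow_eq (L : IntermediateField ℚ Qb) [FiniteDimensional ℚ L]
    (σ : GQ) (T : Finset ℕ) :
    ∃ (ℓ : ℕ) (A : ValuationSubring Qb) (τ : GQ) (n : ℕ), ℓ.Prime ∧ ℓ ∉ T ∧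
      A.LiesOverPrime ℓ ∧ A.IsFrobeniusAt τ ℓ ∧ ∀ x ∈ L, (τ ^ n) x = σ x := by
  obtain ⟨ℓ, A, τ, n, -, hℓ, hℓT, hA, hτ, hn, -⟩ := exists_frobenius_pow_eq' L σ T
  exact ⟨ℓ, A, τ, n, hℓ, hℓT, hA, hτ, hn⟩

end Fermat.Agent.Lib.helper74
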