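/-
S58 (route #1886, step 4a) -- Lib brick, Mathlib + one Prelude definition module.
Author: helper7516.

# The Gauss valuation subring of `Frac(R((t)))`

`R` a domain, `π : R`, `ρ₀ : R →+* k` a surjection onto a field `k` with kernel `(π)`, such that
every nonzero element of `R` has finite `π`-multiplicity (`ResidueDatum π ρ₀`; examples: a discrete
valuation ring with a uniformizer, `ℤ` with a prime number, `ℤ[ζ_l]` with `1 - ζ_l`).
`F` any field of fractions of `R((t)) = LaurentSeries R`.

* `gaussSubring F h : ValuationSubring F`, the set of `f / g` with `g` nonzero modulo `π`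
  (the valuation ring of the Gauss valuation `v(∑ aₙ tⁿ) = minₙ v_π(aₙ)`);
* `gaussRes h : gaussSubring F h →+* LaurentSeries k`, the residue map: surjective, equal to the
  coefficientwise reduction `ModularCurve.coeffMap ρ₀` on `R((t))`, with kernel the maximal ideal,
  which is generated by `π`;
* `exists_zpow_mul_unit` : every nonzero `x : F` is `π ^ n * u`, `u` a unit of `gaussSubring`;
* `map_mem_gaussSubring`, `gaussRes_map` : functoriality for ring homs of `R((t))` (substitutions
  `t ↦ ζ t`, `t ↦ t ^ m`, coefficient maps) whose reduction modulo `π` is known;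
* `deriv_mem_gaussSubring`, `gaussRes_deriv` : compatibility with derivations (e.g. `t d/dt`).

The pair `(gaussSubring F h, gaussRes h)` has exactly the shape
`(A : ValuationSubring K, π : A →+* k)` consumed by reduction-of-points libraries.
-/
import Mathlib
import Fermat.Prelude.Def_ModularCurve_LaurentCoeff

set_option autoImplicit false

namespace Fermat.Agent.Lib.helper7516

open ModularCurve

noncomputable section

/-- `ρ₀ : R →+* k` is a surjection onto the field `k` with kernel `(π)`, and every nonzero element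
of `R` has finite `π`-multiplicity. -/
structure ResidueDatum {R k : Type*} [CommRing R] [Field k] (π : R) (ρ₀ : R →+* k) : Prop where
  surj : Function.Surjective ρ₀
  ker_iff : ∀ a : R, ρ₀ a = 0 ↔ π ∣ a
  finite : ∀ a : R, a ≠ 0 → ∃ n : ℕ, ¬ π ^ n ∣ a

section CoeffMap

variable {R k : Type*} [CommRing R] [Field k] {π : R} {ρ₀ : R →+* k}

theorem coeff_C_mul (a : R) (g : LaurentSeries R) (n : ℤ) :
    (HahnSeries.C a * g).coeff n = a * g.coeff n := by
  rw [HahnSeries.C_mul_eq_smul, HahnSeries.coeff_smul, smul_eq_mul]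

/-- Coefficientwise reduction along a surjection is surjective on Laurent series. -/
theorem coeffMap_surjective (hs : Function.Surjective ρ₀) :
    Function.Surjective (coeffMap ρ₀) := by
  intro y
  classical
  let s : k → R := fun c => if c = 0 then 0 else Function.surjInv hs c
  have hs0 : s 0 = 0 := by simp [s]
  have hss : ∀ c, ρ₀ (s c) = c := by
    intro c
    by_cases hc : c = 0
    · simp [s, hc]
    · simp [s, hc, Function.surjInv_eq hs c]
  refine ⟨⟨fun n => s (y.coeff n), y.isPWO_support.mono ?_⟩, ?_⟩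
  · intro n hn
    simp only [Function.mem_support, ne_eq] at hn ⊢
    intro h0
    exact hn (by rw [h0, hs0])
  · ext n
    simp [hss]

/-- The kernel of the coefficientwise reduction is generated by `π`. -/
theorem coeffMap_eq_zero_iff (h : ResidueDatum π ρ₀) (f : LaurentSeries R) :
    coeffMap ρ₀ f = 0 ↔ ∃ g : LaurentSeries R, f = HahnSeries.C π * g := by
  constructor
  · intro hf
    have hc : ∀ n, π ∣ f.coeff n := fun n => (h.ker_iff _).mp (by
      have := congrArg (fun x => x.coeff n) hf
      simpa using this)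
    classical
    choose c hc using hc
    refine ⟨⟨fun n => if f.coeff n = 0 then 0 else c n, f.isPWO_support.mono ?_⟩, ?_⟩
    · intro n hn
      simp only [Function.mem_support, ne_eq] at hn ⊢
      intro h0
      exact hn (by simp [h0])
    · ext n
      rw [coeff_C_mul]
      by_cases h0 : f.coeff n = 0
      · simp [h0]
      · simp only [h0, if_false]
        exact hc n
  · rintro ⟨g, rfl⟩
    ext n
    rw [coeffMap_coeff, coeff_C_mul]
    simpa using (h.ker_iff _).mpr (dvd_mul_right π (g.coeff n))

/-- Every nonzero Laurent series is a power of `π` times a series that is nonzero modulo `π`. -/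
theorem exists_factor (h : ResidueDatum π ρ₀) {f : LaurentSeries R} (hf : f ≠ 0) :
    ∃ (n : ℕ) (g : LaurentSeries R), f = HahnSeries.C π ^ n * g ∧ coeffMap ρ₀ g ≠ 0 := by
  obtain ⟨m, hm⟩ : ∃ m, f.coeff m ≠ 0 := by
    by_contra hcon
    exact hf (HahnSeries.ext (funext fun m => by_contra fun hm => hcon ⟨m, hm⟩))
  obtain ⟨N, hN⟩ := h.finite _ hm
  clear hf
  induction N generalizing f with
  | zero => exact absurd (by simp : π ^ 0 ∣ f.coeff m) hN
  | succ N ih =>
    by_cases hred : coeffMap ρ₀ f = 0
    · obtain ⟨g, rfl⟩ := (coeffMap_eq_zero_iff h f).mp hred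
      have hgm : g.coeff m ≠ 0 := by
        intro h0
        apply hm
        rw [coeff_C_mul, h0, mul_zero]
      have hNg : ¬ π ^ N ∣ g.coeff m := by
        intro hd
        apply hN
        rw [coeff_C_mul, pow_succ']
        exact mul_dvd_mul_left π hd
      obtain ⟨n, g', hg', hne⟩ := ih hgm hNg
      exact ⟨n + 1, g', by rw [hg', pow_succ', mul_assoc], hne⟩
    · exact ⟨0, f, by simp, hred⟩

end CoeffMap

section Subring

variable {R k : Type*} [CommRing R] [IsDomain R] [Field k] {π : R} {ρ₀ : R →+* k}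
variable (F : Type*) [Field F] [Algebra (LaurentSeries R) F] [IsFractionRing (LaurentSeries R) F]

/-- **The Gauss valuation subring** of a fraction field `F` of `R((t))`: the fractions `f / g`
with `g` nonzero modulo `π`. -/
def gaussSubring (h : ResidueDatum π ρ₀) : ValuationSubring F where
  carrier := {x | ∃ f g : LaurentSeries R, coeffMap ρ₀ g ≠ 0 ∧
    x * algebraMap (LaurentSeries R) F g = algebraMap (LaurentSeries R) F f}
  mul_mem' := by
    rintro x y ⟨f, g, hg, hx⟩ ⟨f', g', hg', hy⟩
    refine ⟨f * f', g * g', by rw [map_mul]; exact mul_ne_zero hg hg', ?_⟩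
    rw [map_mul, map_mul, ← hx, ← hy]
    ring
  one_mem' := ⟨1, 1, by simp, by simp⟩
  add_mem' := by
    rintro x y ⟨f, g, hg, hx⟩ ⟨f', g', hg', hy⟩
    refine ⟨f * g' + f' * g, g * g', by rw [map_mul]; exact mul_ne_zero hg hg', ?_⟩
    simp only [map_mul, map_add, ← hx, ← hy]
    ring
  zero_mem' := ⟨0, 1, by simp, by simp⟩
  neg_mem' := by
    rintro x ⟨f, g, hg, hx⟩
    exact ⟨-f, g, hg, by rw [map_neg, ← hx]; ring⟩
  mem_or_inv_mem' := by
    intro x
    by_cases hx0 : x = 0
    · left
      exact ⟨0, 1, by simp, by simp [hx0]⟩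
    obtain ⟨f, g, hg, rfl⟩ := IsFractionRing.div_surjective (A := LaurentSeries R) x
    have hg0 : g ≠ 0 := nonZeroDivisors.ne_zero hg
    have hf0 : f ≠ 0 := by
      rintro rfl
      simp at hx0
    have hinj := IsFractionRing.injective (LaurentSeries R) F
    obtain ⟨a, f', rfl, hf'⟩ := exists_factor h hf0
    obtain ⟨b, g', rfl, hg'⟩ := exists_factor h hg0
    have hιf : algebraMap (LaurentSeries R) F (HahnSeries.C π ^ a * f') ≠ 0 :=
      (map_ne_zero_iff _ hinj).mpr hf0
    have hιg : algebraMap (LaurentSeries R) F (HahnSeries.C π ^ b * g') ≠ 0 :=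
      (map_ne_zero_iff _ hinj).mpr hg0
    rw [map_mul, map_pow] at hιf hιg
    rcases le_total b a with hab | hab
    · left
      obtain ⟨c, rfl⟩ := Nat.exists_eq_add_of_le hab
      refine ⟨HahnSeries.C π ^ c * f', g', hg', ?_⟩
      simp only [map_mul, map_pow, pow_add] at hιf hιg ⊢
      rw [div_mul_eq_mul_div, div_eq_iff hιg]
      ring
    · right
      obtain ⟨c, rfl⟩ := Nat.exists_eq_add_of_le hab
      refine ⟨HahnSeries.C π ^ c * g', f', hf', ?_⟩
      simp only [map_mul, map_pow, pow_add, inv_div] at hιf hιg ⊢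
      rw [div_mul_eq_mul_div, div_eq_iff hιf]
      ring

variable {F}

theorem mem_gaussSubring_iff (h : ResidueDatum π ρ₀) {x : F} :
    x ∈ gaussSubring F h ↔ ∃ f g : LaurentSeries R, coeffMap ρ₀ g ≠ 0 ∧
      x * algebraMap (LaurentSeries R) F g = algebraMap (LaurentSeries R) F f :=
  Iff.rfl

theorem algebraMap_mem_gaussSubring (h : ResidueDatum π ρ₀) (f : LaurentSeries R) :
    algebraMap (LaurentSeries R) F f ∈ gaussSubring F h :=
  ⟨f, 1, by simp, by simp⟩

theorem div_mem_gaussSubring (h : ResidueDatum π ρ₀) (f : LaurentSeries R) {g : LaurentSeries R}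
    (hg : coeffMap ρ₀ g ≠ 0) :
    algebraMap (LaurentSeries R) F f / algebraMap (LaurentSeries R) F g ∈ gaussSubring F h := by
  have hg0 : algebraMap (LaurentSeries R) F g ≠ 0 := by
    intro h0
    apply hg
    rw [(map_eq_zero_iff _ (IsFractionRing.injective (LaurentSeries R) F)).mp h0, map_zero]
  exact ⟨f, g, hg, div_mul_cancel₀ _ hg0⟩

/-- The residue map of the Gauss valuation subring, as a function. -/
def resFun (h : ResidueDatum π ρ₀) (a : gaussSubring F h) : LaurentSeries k :=
  coeffMap ρ₀ (Classical.choose ((mem_gaussSubring_iff h).mp a.2)) /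
    coeffMap ρ₀ (Classical.choose (Classical.choose_spec ((mem_gaussSubring_iff h).mp a.2)))

omit [IsDomain R] in
theorem res_wd {x : F} {f g f' g' : LaurentSeries R} (hg : coeffMap ρ₀ g ≠ 0)
    (hg' : coeffMap ρ₀ g' ≠ 0)
    (hx : x * algebraMap (LaurentSeries R) F g = algebraMap (LaurentSeries R) F f)
    (hx' : x * algebraMap (LaurentSeries R) F g' = algebraMap (LaurentSeries R) F f') :
    coeffMap ρ₀ f' / coeffMap ρ₀ g' = coeffMap ρ₀ f / coeffMap ρ₀ g := by
  have key : f' * g = f * g' := by
    apply IsFractionRing.injective (LaurentSeries R) F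
    rw [map_mul, map_mul, ← hx', ← hx]
    ring
  have key' := congrArg (coeffMap ρ₀) key
  rw [map_mul, map_mul] at key'
  rw [div_eq_div_iff hg' hg]
  exact key'

theorem resFun_eq (h : ResidueDatum π ρ₀) (a : gaussSubring F h) {f g : LaurentSeries R}
    (hg : coeffMap ρ₀ g ≠ 0)
    (hx : (a : F) * algebraMap (LaurentSeries R) F g = algebraMap (LaurentSeries R) F f) :
    resFun h a = coeffMap ρ₀ f / coeffMap ρ₀ g :=
  res_wd hg (Classical.choose_spec (Classical.choose_spec ((mem_gaussSubring_iff h).mp a.2))).1 hx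
    (Classical.choose_spec (Classical.choose_spec ((mem_gaussSubring_iff h).mp a.2))).2

/-- **The residue map** `gaussSubring F h →+* k((t))` of the Gauss valuation subring. -/
def gaussRes (h : ResidueDatum π ρ₀) : gaussSubring F h →+* LaurentSeries k where
  toFun := resFun h
  map_one' := by
    rw [resFun_eq h 1 (f := 1) (g := 1) (by simp) (by simp)]
    simp
  map_mul' a b := by
    obtain ⟨f, g, hg, hx⟩ := (mem_gaussSubring_iff h).mp a.2
    obtain ⟨f', g', hg', hy⟩ := (mem_gaussSubring_iff h).mp b.2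
    rw [resFun_eq h a hg hx, resFun_eq h b hg' hy,
      resFun_eq h (a * b) (f := f * f') (g := g * g')
        (by rw [map_mul]; exact mul_ne_zero hg hg')
        (by
          show ((a : F) * (b : F)) * algebraMap (LaurentSeries R) F (g * g') =
            algebraMap (LaurentSeries R) F (f * f')
          rw [map_mul, map_mul, ← hx, ← hy]
          ring)]
    rw [map_mul, map_mul, mul_div_mul_comm]
  map_zero' := by
    rw [resFun_eq h 0 (f := 0) (g := 1) (by simp) (by simp)]
    simp
  map_add' a b := by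
    obtain ⟨f, g, hg, hx⟩ := (mem_gaussSubring_iff h).mp a.2
    obtain ⟨f', g', hg', hy⟩ := (mem_gaussSubring_iff h).mp b.2
    rw [resFun_eq h a hg hx, resFun_eq h b hg' hy,
      resFun_eq h (a + b) (f := f * g' + f' * g) (g := g * g')
        (by rw [map_mul]; exact mul_ne_zero hg hg')
        (by
          show ((a : F) + (b : F)) * algebraMap (LaurentSeries R) F (g * g') =
            algebraMap (LaurentSeries R) F (f * g' + f' * g)
          simp only [map_mul, map_add, ← hx, ← hy]
          ring)]
    rw [map_add, map_mul, map_mul, map_mul, div_add_div _ _ hg hg']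
    ring

/-- The defining formula of the residue map. -/
theorem gaussRes_eq (h : ResidueDatum π ρ₀) (a : gaussSubring F h) {f g : LaurentSeries R}
    (hg : coeffMap ρ₀ g ≠ 0)
    (hx : (a : F) * algebraMap (LaurentSeries R) F g = algebraMap (LaurentSeries R) F f) :
    gaussRes h a = coeffMap ρ₀ f / coeffMap ρ₀ g :=
  resFun_eq h a hg hx

/-- On `R((t))` the residue map is the coefficientwise reduction. -/
theorem gaussRes_algebraMap (h : ResidueDatum π ρ₀) (f : LaurentSeries R) :
    gaussRes h ⟨algebraMap (LaurentSeries R) F f, algebraMap_mem_gaussSubring h f⟩ =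
      coeffMap ρ₀ f := by
  rw [gaussRes_eq h _ (f := f) (g := 1) (by simp) (by simp)]
  simp

theorem gaussRes_div (h : ResidueDatum π ρ₀) (f : LaurentSeries R) {g : LaurentSeries R}
    (hg : coeffMap ρ₀ g ≠ 0) :
    gaussRes h ⟨algebraMap (LaurentSeries R) F f / algebraMap (LaurentSeries R) F g,
      div_mem_gaussSubring h f hg⟩ = coeffMap ρ₀ f / coeffMap ρ₀ g := by
  have hg0 : algebraMap (LaurentSeries R) F g ≠ 0 := by
    intro h0
    apply hg
    rw [(map_eq_zero_iff _ (IsFractionRing.injective (LaurentSeries R) F)).mp h0, map_zero]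
  exact gaussRes_eq h _ hg (div_mul_cancel₀ _ hg0)

theorem gaussRes_surjective (h : ResidueDatum π ρ₀) :
    Function.Surjective (gaussRes (F := F) h) := by
  intro y
  obtain ⟨f, rfl⟩ := coeffMap_surjective h.surj y
  exact ⟨_, gaussRes_algebraMap h f⟩

/-- The units of the Gauss valuation subring are the elements with nonzero residue. -/
theorem isUnit_iff_gaussRes_ne_zero (h : ResidueDatum π ρ₀) (a : gaussSubring F h) :
    IsUnit a ↔ gaussRes h a ≠ 0 := by
  constructor
  · intro hu
    exact (hu.map (gaussRes h)).ne_zero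
  · intro hne
    obtain ⟨f, g, hg, hx⟩ := (mem_gaussSubring_iff h).mp a.2
    rw [gaussRes_eq h a hg hx] at hne
    have hf : coeffMap ρ₀ f ≠ 0 := by
      intro h0
      apply hne
      rw [h0, zero_div]
    have hf0 : algebraMap (LaurentSeries R) F f ≠ 0 := by
      intro h0
      apply hf
      rw [(map_eq_zero_iff _ (IsFractionRing.injective (LaurentSeries R) F)).mp h0, map_zero]
    have ha0 : (a : F) ≠ 0 := by
      intro h0
      rw [h0, zero_mul] at hx
      exact hf0 hx.symm
    have hinv : (a : F)⁻¹ ∈ gaussSubring F h := by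
      refine ⟨g, f, hf, ?_⟩
      rw [← hx]
      field_simp
    refine isUnit_iff_exists_inv.mpr ⟨⟨_, hinv⟩, ?_⟩
    apply Subtype.ext
    push_cast
    exact mul_inv_cancel₀ ha0

/-- The kernel of the residue map is the maximal ideal. -/
theorem gaussRes_eq_zero_iff (h : ResidueDatum π ρ₀) (a : gaussSubring F h) :
    gaussRes h a = 0 ↔ a ∈ IsLocalRing.maximalIdeal (gaussSubring F h) := by
  rw [IsLocalRing.mem_maximalIdeal, mem_nonunits_iff, isUnit_iff_gaussRes_ne_zero h, not_not]

theorem gaussRes_eq_zero_iff_valuation_lt_one (h : ResidueDatum π ρ₀) (a : gaussSubring F h) :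
    gaussRes h a = 0 ↔ (gaussSubring F h).valuation (a : F) < 1 := by
  rw [gaussRes_eq_zero_iff, ValuationSubring.valuation_lt_one_iff]

theorem gaussRes_ne_zero_iff_valuation_eq_one (h : ResidueDatum π ρ₀) (a : gaussSubring F h) :
    gaussRes h a ≠ 0 ↔ (gaussSubring F h).valuation (a : F) = 1 := by
  rw [← isUnit_iff_gaussRes_ne_zero, ValuationSubring.valuation_eq_one_iff]

/-- The maximal ideal of the Gauss valuation subring is generated by `π`. -/
theorem gaussRes_eq_zero_iff_dvd (h : ResidueDatum π ρ₀) (a : gaussSubring F h) :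
    gaussRes h a = 0 ↔ ∃ b : gaussSubring F h,
      (a : F) = algebraMap (LaurentSeries R) F (HahnSeries.C π) * b := by
  constructor
  · intro h0
    obtain ⟨f, g, hg, hx⟩ := (mem_gaussSubring_iff h).mp a.2
    rw [gaussRes_eq h a hg hx, div_eq_zero_iff, or_iff_left hg] at h0
    obtain ⟨f', rfl⟩ := (coeffMap_eq_zero_iff h f).mp h0
    have hg0 : algebraMap (LaurentSeries R) F g ≠ 0 := by
      intro h0
      apply hg
      rw [(map_eq_zero_iff _ (IsFractionRing.injective (LaurentSeries R) F)).mp h0, map_zero]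
    refine ⟨⟨_, div_mem_gaussSubring h f' hg⟩, ?_⟩
    rw [map_mul] at hx
    rw [eq_div_of_mul_eq hg0 hx]
    ring
  · rintro ⟨b, hb⟩
    have hπ : gaussRes h ⟨algebraMap (LaurentSeries R) F (HahnSeries.C π),
        algebraMap_mem_gaussSubring h _⟩ = 0 := by
      rw [gaussRes_algebraMap, (coeffMap_eq_zero_iff h _).mpr ⟨1, (mul_one _).symm⟩]
    have hab : a = ⟨algebraMap (LaurentSeries R) F (HahnSeries.C π),
        algebraMap_mem_gaussSubring h _⟩ * b := Subtype.ext (by push_cast; exact hb)
    rw [hab, map_mul, hπ, zero_mul]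

/-- The Gauss valuation is discrete with uniformizer `π`: every nonzero element of `F` is a
power of `π` times a unit of the Gauss valuation subring. -/
theorem exists_zpow_mul_unit (h : ResidueDatum π ρ₀) {x : F} (hx : x ≠ 0) :
    ∃ (n : ℤ) (u : F), u ∈ gaussSubring F h ∧ u⁻¹ ∈ gaussSubring F h ∧
      x = algebraMap (LaurentSeries R) F (HahnSeries.C π) ^ n * u := by
  obtain ⟨f, g, hg, rfl⟩ := IsFractionRing.div_surjective (A := LaurentSeries R) x
  have hg0 : g ≠ 0 := nonZeroDivisors.ne_zero hg
  have hf0 : f ≠ 0 := by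
    rintro rfl
    simp at hx
  have hinj := IsFractionRing.injective (LaurentSeries R) F
  obtain ⟨a, f', rfl, hf'⟩ := exists_factor h hf0
  obtain ⟨b, g', rfl, hg'⟩ := exists_factor h hg0
  have hιf : algebraMap (LaurentSeries R) F (HahnSeries.C π ^ a * f') ≠ 0 :=
    (map_ne_zero_iff _ hinj).mpr hf0
  have hιg : algebraMap (LaurentSeries R) F (HahnSeries.C π ^ b * g') ≠ 0 :=
    (map_ne_zero_iff _ hinj).mpr hg0
  rw [map_mul, map_pow] at hιf hιg
  have hf'0 : algebraMap (LaurentSeries R) F f' ≠ 0 := right_ne_zero_of_mul hιf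
  have hg'0 : algebraMap (LaurentSeries R) F g' ≠ 0 := right_ne_zero_of_mul hιg
  refine ⟨(a : ℤ) - b, algebraMap (LaurentSeries R) F f' / algebraMap (LaurentSeries R) F g',
    div_mem_gaussSubring h f' hg', ?_, ?_⟩
  · rw [inv_div]
    exact div_mem_gaussSubring h g' hf'
  · rw [map_mul, map_mul, map_pow, map_pow]
    by_cases hP : algebraMap (LaurentSeries R) F (HahnSeries.C π) = 0
    · have ha : a = 0 := by
        by_contra ha
        exact left_ne_zero_of_mul hιf (by rw [hP, zero_pow ha])
      have hb : b = 0 := by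
        by_contra hb
        exact left_ne_zero_of_mul hιg (by rw [hP, zero_pow hb])
      subst ha hb
      simp
    · rw [zpow_sub₀ hP, zpow_natCast, zpow_natCast]
      field_simp

end Subring

section Functorial

variable {R k R' k' : Type*} [CommRing R] [IsDomain R] [Field k] [CommRing R'] [IsDomain R']
  [Field k'] {π : R} {ρ₀ : R →+* k} {π' : R'} {ρ₀' : R' →+* k'}
  {F F' : Type*} [Field F] [Algebra (LaurentSeries R) F] [IsFractionRing (LaurentSeries R) F]
  [Field F'] [Algebra (LaurentSeries R') F'] [IsFractionRing (LaurentSeries R') F']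

/-- FUNCTORIALITY, membership.  A ring hom `σ : R((t)) → R'((t))` whose reduction is `σb`, and a
field hom `τ : F → F'` extending it: `τ` maps the Gauss valuation subring into the Gauss valuation
subring. -/
theorem map_mem_gaussSubring (h : ResidueDatum π ρ₀) (h' : ResidueDatum π' ρ₀')
    (σ : LaurentSeries R →+* LaurentSeries R') (σb : LaurentSeries k →+* LaurentSeries k')
    (hσ : ∀ f, coeffMap ρ₀' (σ f) = σb (coeffMap ρ₀ f))
    (τ : F →+* F')
    (hτ : ∀ f, τ (algebraMap (LaurentSeries R) F f) = algebraMap (LaurentSeries R') F' (σ f))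
    {x : F} (hx : x ∈ gaussSubring F h) : τ x ∈ gaussSubring F' h' := by
  obtain ⟨f, g, hg, hx⟩ := (mem_gaussSubring_iff h).mp hx
  refine ⟨σ f, σ g, ?_, ?_⟩
  · rw [hσ]
    exact (map_ne_zero_iff σb σb.injective).mpr hg
  · rw [← hτ, ← hτ, ← map_mul, hx]

/-- FUNCTORIALITY, residues: `gaussRes (τ a) = σb (gaussRes a)`. -/
theorem gaussRes_map (h : ResidueDatum π ρ₀) (h' : ResidueDatum π' ρ₀')
    (σ : LaurentSeries R →+* LaurentSeries R') (σb : LaurentSeries k →+* LaurentSeries k')
    (hσ : ∀ f, coeffMap ρ₀' (σ f) = σb (coeffMap ρ₀ f))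
    (τ : F →+* F')
    (hτ : ∀ f, τ (algebraMap (LaurentSeries R) F f) = algebraMap (LaurentSeries R') F' (σ f))
    (a : gaussSubring F h) :
    gaussRes h' ⟨τ a, map_mem_gaussSubring h h' σ σb hσ τ hτ a.2⟩ = σb (gaussRes h a) := by
  obtain ⟨f, g, hg, hx⟩ := (mem_gaussSubring_iff h).mp a.2
  have hg' : coeffMap ρ₀' (σ g) ≠ 0 := by
    rw [hσ]
    exact (map_ne_zero_iff σb σb.injective).mpr hg
  rw [gaussRes_eq h a hg hx,
    gaussRes_eq h' _ (f := σ f) (g := σ g) hg' (by rw [← hτ, ← hτ, ← map_mul, hx]),
    hσ, hσ, map_div₀]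

end Functorial

section Deriv

variable {R k : Type*} [CommRing R] [IsDomain R] [Field k] {π : R} {ρ₀ : R →+* k}
  {F : Type*} [Field F] [Algebra (LaurentSeries R) F] [IsFractionRing (LaurentSeries R) F]

/-- DERIVATIONS, membership.  A map `D : F → F` satisfying the Leibniz rule and restricting to
`D₀` on `R((t))` preserves the Gauss valuation subring. -/
theorem deriv_mem_gaussSubring (h : ResidueDatum π ρ₀) (D : F → F)
    (hD : ∀ x y, D (x * y) = D x * y + x * D y)
    (D₀ : LaurentSeries R → LaurentSeries R)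
    (hD₀ : ∀ f, D (algebraMap (LaurentSeries R) F f) = algebraMap (LaurentSeries R) F (D₀ f))
    {x : F} (hx : x ∈ gaussSubring F h) : D x ∈ gaussSubring F h := by
  obtain ⟨f, g, hg, hx⟩ := (mem_gaussSubring_iff h).mp hx
  refine ⟨D₀ f * g - f * D₀ g, g * g, by rw [map_mul]; exact mul_ne_zero hg hg, ?_⟩
  have h1 := hD x (algebraMap (LaurentSeries R) F g)
  rw [hx, hD₀, hD₀] at h1
  simp only [map_mul, map_sub]
  rw [h1, ← hx]
  ring

/-- DERIVATIONS, residues: if moreover `D₀` reduces to a map `Db` of `k((t))` satisfying the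
Leibniz rule, then `gaussRes (D a) = Db (gaussRes a)`. -/
theorem gaussRes_deriv (h : ResidueDatum π ρ₀) (D : F → F)
    (hD : ∀ x y, D (x * y) = D x * y + x * D y)
    (D₀ : LaurentSeries R → LaurentSeries R)
    (hD₀ : ∀ f, D (algebraMap (LaurentSeries R) F f) = algebraMap (LaurentSeries R) F (D₀ f))
    (Db : LaurentSeries k → LaurentSeries k)
    (hDb : ∀ x y, Db (x * y) = Db x * y + x * Db y)
    (hred : ∀ f, coeffMap ρ₀ (D₀ f) = Db (coeffMap ρ₀ f))
    (a : gaussSubring F h) :
    gaussRes h ⟨D a, deriv_mem_gaussSubring h D hD D₀ hD₀ a.2⟩ = Db (gaussRes h a) := by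
  obtain ⟨f, g, hg, hx⟩ := (mem_gaussSubring_iff h).mp a.2
  have h1 := hD (a : F) (algebraMap (LaurentSeries R) F g)
  rw [hx, hD₀, hD₀] at h1
  rw [gaussRes_eq h a hg hx,
    gaussRes_eq h _ (f := D₀ f * g - f * D₀ g) (g := g * g)
      (by rw [map_mul]; exact mul_ne_zero hg hg)
      (by simp only [map_mul, map_sub]; rw [h1, ← hx]; ring)]
  have h2 := hDb (coeffMap ρ₀ f / coeffMap ρ₀ g) (coeffMap ρ₀ g)
  rw [div_mul_cancel₀ _ hg] at h2
  simp only [map_mul, map_sub, hred]
  rw [h2]
  field_simp
  ring

end Deriv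

section Examples

/-- A discrete valuation ring with a uniformizer and its residue field. -/
theorem ResidueDatum.of_dvr {R : Type*} [CommRing R] [IsDomain R] [IsDiscreteValuationRing R]
    {ϖ : R} (hϖ : Irreducible ϖ) : ResidueDatum ϖ (IsLocalRing.residue R) where
  surj := IsLocalRing.residue_surjective
  ker_iff a := by
    rw [IsLocalRing.residue_eq_zero_iff, hϖ.maximalIdeal_eq, Ideal.mem_span_singleton]
  finite a ha := by
    obtain ⟨n, u, rfl⟩ := IsDiscreteValuationRing.eq_unit_mul_pow_irreducible ha hϖ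
    refine ⟨n + 1, ?_⟩
    rw [pow_succ, mul_comm (u : R)]
    intro hd
    have h2 := (mul_dvd_mul_iff_left (pow_ne_zero n hϖ.ne_zero)).mp hd
    exact hϖ.not_isUnit (isUnit_of_dvd_unit h2 u.isUnit)

/-- A Noetherian domain with an element `π` generating the kernel of a surjection onto a
field. -/
theorem ResidueDatum.of_noetherian {R k : Type*} [CommRing R] [IsDomain R] [IsNoetherianRing R]
    [Field k] {π : R} {ρ₀ : R →+* k} (hs : Function.Surjective ρ₀)
    (hker : ∀ a : R, ρ₀ a = 0 ↔ π ∣ a) : ResidueDatum π ρ₀ where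
  surj := hs
  ker_iff := hker
  finite a ha := by
    have hπu : ¬ IsUnit π := by
      intro hu
      have h1 : ρ₀ 1 = 0 := (hker 1).mpr hu.dvd
      rw [map_one] at h1
      exact one_ne_zero h1
    have hfin : FiniteMultiplicity π a := FiniteMultiplicity.of_not_isUnit hπu ha
    obtain ⟨n, hn⟩ := hfin
    exact ⟨n + 1, hn⟩

/-- `ℤ` with a prime number `l` and the reduction modulo `l`. -/
theorem ResidueDatum.int (l : ℕ) [Fact l.Prime] :
    ResidueDatum (l : ℤ) (Int.castRingHom (ZMod l)) :=
  ResidueDatum.of_noetherian (ZMod.intCast_surjective)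
    (fun a => by simpa using ZMod.intCast_zmod_eq_zero_iff_dvd a l)

end Examples

end

end Fermat.Agent.Lib.helper7516
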