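/-
S58 (route #1886, step 4) -- adapters for the Gauss valuation subring of
`Fermat.Agent.Lib.helper7516_GaussLaurent`, in the consumer shape of the reduction step
(`A : ValuationSubring F`, `φ : A →+* κ` with `IsLocalHom φ`; substitutions `(σ1)`, `(σ2)`;
derivations `(θ1)`, `(θ2)`).
Author: helper7516.
-/
import Mathlib
import Fermat.Agent.Lib.helper7516_GaussLaurent

set_option autoImplicit false

namespace Fermat.Agent.Lib.helper7516

open ModularCurve

noncomputable section

section LocalHom

variable {R k : Type*} [CommRing R] [IsDomain R] [Field k] {π : R} {ρ₀ : R →+* k}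
  {F : Type*} [Field F] [Algebra (LaurentSeries R) F] [IsFractionRing (LaurentSeries R) F]

/-- The residue map of the Gauss valuation subring is a local homomorphism. -/
theorem isLocalHom_gaussRes (h : ResidueDatum π ρ₀) : IsLocalHom (gaussRes (F := F) h) :=
  ⟨fun a ha => (isUnit_iff_gaussRes_ne_zero h a).mpr ha.ne_zero⟩

instance instIsLocalHomGaussRes (h : ResidueDatum π ρ₀) : IsLocalHom (gaussRes (F := F) h) :=
  isLocalHom_gaussRes h

/-- An element of `F` outside the Gauss valuation subring has its inverse in the maximal ideal. -/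
theorem inv_mem_and_gaussRes_inv_eq_zero (h : ResidueDatum π ρ₀) {x : F}
    (hx : x ∉ gaussSubring F h) :
    ∃ hx' : x⁻¹ ∈ gaussSubring F h, gaussRes h ⟨x⁻¹, hx'⟩ = 0 := by
  have hx' : x⁻¹ ∈ gaussSubring F h :=
    ((gaussSubring F h).mem_or_inv_mem x).resolve_left hx
  refine ⟨hx', ?_⟩
  by_contra hne
  have hu := (isUnit_iff_gaussRes_ne_zero h ⟨x⁻¹, hx'⟩).mpr hne
  obtain ⟨b, hb⟩ := isUnit_iff_exists_inv.mp hu
  apply hx
  have hb' : x⁻¹ * (b : F) = 1 := by
    have := congrArg (Subtype.val) hb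
    simpa using this
  have hx0 : x ≠ 0 := by
    rintro rfl
    exact hx (gaussSubring F h).zero_mem
  have : (b : F) = x := by
    have h1 : x⁻¹ * (b : F) = x⁻¹ * x := by
      rw [hb', inv_mul_cancel₀ hx0]
    exact mul_left_cancel₀ (inv_ne_zero hx0) h1
  rw [← this]
  exact b.2

end LocalHom

section Subst

variable {R k R' k' : Type*} [CommRing R] [IsDomain R] [Field k] [CommRing R'] [IsDomain R']
  [Field k'] {π : R} {ρ₀ : R →+* k} {π' : R'} {ρ₀' : R' →+* k'}
  {F F' : Type*} [Field F] [Algebra (LaurentSeries R) F] [IsFractionRing (LaurentSeries R) F]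
  [Field F'] [Algebra (LaurentSeries R') F'] [IsFractionRing (LaurentSeries R') F']

/-- `(σ1)`: a substitution with known reduction reflects membership in the Gauss valuation
subring: `τ x ∈ A' ↔ x ∈ A`. -/
theorem map_mem_gaussSubring_iff (h : ResidueDatum π ρ₀) (h' : ResidueDatum π' ρ₀')
    (σ : LaurentSeries R →+* LaurentSeries R') (σb : LaurentSeries k →+* LaurentSeries k')
    (hσ : ∀ f, coeffMap ρ₀' (σ f) = σb (coeffMap ρ₀ f))
    (τ : F →+* F')
    (hτ : ∀ f, τ (algebraMap (LaurentSeries R) F f) = algebraMap (LaurentSeries R') F' (σ f))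
    {x : F} : τ x ∈ gaussSubring F' h' ↔ x ∈ gaussSubring F h := by
  refine ⟨fun hτx => ?_, map_mem_gaussSubring h h' σ σb hσ τ hτ⟩
  by_contra hx
  obtain ⟨hx', hres⟩ := inv_mem_and_gaussRes_inv_eq_zero h hx
  have h1 := gaussRes_map h h' σ σb hσ τ hτ ⟨x⁻¹, hx'⟩
  rw [hres, map_zero] at h1
  have hx0 : x ≠ 0 := by
    rintro rfl
    exact hx (gaussSubring F h).zero_mem
  have hτx0 : τ x ≠ 0 := (map_ne_zero τ).mpr hx0
  have hprod : (⟨τ x⁻¹, map_mem_gaussSubring h h' σ σb hσ τ hτ hx'⟩ : gaussSubring F' h') *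
      ⟨τ x, hτx⟩ = 1 := by
    apply Subtype.ext
    show τ x⁻¹ * τ x = 1
    rw [map_inv₀, inv_mul_cancel₀ hτx0]
  have h2 := congrArg (gaussRes h') hprod
  rw [map_mul, h1, zero_mul, map_one] at h2
  exact zero_ne_one h2

/-- `(σ2)`: residues commute with a substitution (any membership proof). -/
theorem gaussRes_map' (h : ResidueDatum π ρ₀) (h' : ResidueDatum π' ρ₀')
    (σ : LaurentSeries R →+* LaurentSeries R') (σb : LaurentSeries k →+* LaurentSeries k')
    (hσ : ∀ f, coeffMap ρ₀' (σ f) = σb (coeffMap ρ₀ f))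
    (τ : F →+* F')
    (hτ : ∀ f, τ (algebraMap (LaurentSeries R) F f) = algebraMap (LaurentSeries R') F' (σ f))
    (x : gaussSubring F h) (hx : τ x ∈ gaussSubring F' h') :
    gaussRes h' ⟨τ x, hx⟩ = σb (gaussRes h x) :=
  gaussRes_map h h' σ σb hσ τ hτ x

end Subst

section Deriv

variable {R k : Type*} [CommRing R] [IsDomain R] [Field k] {π : R} {ρ₀ : R →+* k}
  {F : Type*} [Field F] [Algebra (LaurentSeries R) F] [IsFractionRing (LaurentSeries R) F]

/-- For a map satisfying the Leibniz rule, the elements killed by `D` are stable under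
multiplication by them: `D (c * y) = c * D y`. -/
theorem leibniz_const_mul (D : F → F) (hD : ∀ x y, D (x * y) = D x * y + x * D y) {c : F}
    (hc : D c = 0) (y : F) : D (c * y) = c * D y := by
  rw [hD, hc, zero_mul, zero_add]

theorem leibniz_one (D : F → F) (hD : ∀ x y, D (x * y) = D x * y + x * D y) : D 1 = 0 := by
  have h := hD 1 1
  rw [mul_one, mul_one, one_mul] at h
  have : D 1 + 0 = D 1 + D 1 := by rw [add_zero]; exact h
  exact (add_left_cancel this).symm

theorem leibniz_zero (D : F → F) (hD : ∀ x y, D (x * y) = D x * y + x * D y) : D 0 = 0 := by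
  have h := hD 0 0
  rw [mul_zero, mul_zero, zero_mul, add_zero] at h
  exact h

theorem leibniz_inv_const (D : F → F) (hD : ∀ x y, D (x * y) = D x * y + x * D y) {c : F}
    (hc : D c = 0) : D c⁻¹ = 0 := by
  by_cases hc0 : c = 0
  · rw [hc0, inv_zero]
    exact leibniz_zero D hD
  · have h := leibniz_const_mul D hD hc c⁻¹
    rw [mul_inv_cancel₀ hc0, leibniz_one D hD] at h
    exact (mul_eq_zero.mp h.symm).resolve_left hc0

theorem leibniz_pow_const (D : F → F) (hD : ∀ x y, D (x * y) = D x * y + x * D y) {c : F}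
    (hc : D c = 0) (n : ℕ) : D (c ^ n) = 0 := by
  induction n with
  | zero => rw [pow_zero]; exact leibniz_one D hD
  | succ n ih => rw [pow_succ, hD, ih, hc, zero_mul, mul_zero, add_zero]

theorem leibniz_zpow_const (D : F → F) (hD : ∀ x y, D (x * y) = D x * y + x * D y) {c : F}
    (hc : D c = 0) (n : ℤ) : D (c ^ n) = 0 := by
  cases n with
  | ofNat n => rw [Int.ofNat_eq_natCast, zpow_natCast]; exact leibniz_pow_const D hD hc n
  | negSucc n =>
    rw [zpow_negSucc]
    exact leibniz_inv_const D hD (leibniz_pow_const D hD hc (n + 1))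

/-- `(θ1)`: a Leibniz map `D` of `F` restricting to `D₀` on `R((t))` with `D₀ π = 0` does not
increase the Gauss valuation: `v (D x) ≤ v x`. -/
theorem valuation_deriv_le (h : ResidueDatum π ρ₀) (D : F → F)
    (hD : ∀ x y, D (x * y) = D x * y + x * D y)
    (D₀ : LaurentSeries R → LaurentSeries R)
    (hD₀ : ∀ f, D (algebraMap (LaurentSeries R) F f) = algebraMap (LaurentSeries R) F (D₀ f))
    (hπ : D₀ (HahnSeries.C π) = 0) (x : F) :
    (gaussSubring F h).valuation (D x) ≤ (gaussSubring F h).valuation x := by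
  by_cases hx : x = 0
  · rw [hx, leibniz_zero D hD]
  obtain ⟨n, u, hu, hu', rfl⟩ := exists_zpow_mul_unit h hx
  have hP : D (algebraMap (LaurentSeries R) F (HahnSeries.C π)) = 0 := by
    rw [hD₀, hπ, map_zero]
  rw [leibniz_const_mul D hD (leibniz_zpow_const D hD hP n), map_mul, map_mul]
  have h1 : (gaussSubring F h).valuation (D u) ≤ 1 :=
    ((gaussSubring F h).valuation_le_one_iff _).mpr (deriv_mem_gaussSubring h D hD D₀ hD₀ hu)
  have h2 : (gaussSubring F h).valuation u = 1 := by
    have ha : (gaussSubring F h).valuation u ≤ 1 :=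
      ((gaussSubring F h).valuation_le_one_iff _).mpr hu
    have hb : (gaussSubring F h).valuation u⁻¹ ≤ 1 :=
      ((gaussSubring F h).valuation_le_one_iff _).mpr hu'
    have hu0 : u ≠ 0 := right_ne_zero_of_mul hx
    have hv0 : (gaussSubring F h).valuation u ≠ 0 :=
      ((gaussSubring F h).valuation.ne_zero_iff).mpr hu0
    rw [map_inv₀] at hb
    have hc : 1 ≤ (gaussSubring F h).valuation u := by
      have := (inv_le_one₀ (zero_lt_iff.mpr hv0)).mp hb
      exact this
    exact le_antisymm ha hc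
  rw [h2, mul_one]
  exact mul_le_of_le_one_right' h1

/-- `(θ2)`: residues commute with the derivation (any membership proof). -/
theorem gaussRes_deriv' (h : ResidueDatum π ρ₀) (D : F → F)
    (hD : ∀ x y, D (x * y) = D x * y + x * D y)
    (D₀ : LaurentSeries R → LaurentSeries R)
    (hD₀ : ∀ f, D (algebraMap (LaurentSeries R) F f) = algebraMap (LaurentSeries R) F (D₀ f))
    (Db : LaurentSeries k → LaurentSeries k)
    (hDb : ∀ x y, Db (x * y) = Db x * y + x * Db y)
    (hred : ∀ f, coeffMap ρ₀ (D₀ f) = Db (coeffMap ρ₀ f))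
    (x : gaussSubring F h) (hx : D x ∈ gaussSubring F h) :
    gaussRes h ⟨D x, hx⟩ = Db (gaussRes h x) :=
  gaussRes_deriv h D hD D₀ hD₀ Db hDb hred x

end Deriv

end

end Fermat.Agent.Lib.helper7516
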