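/-
S58 (route #1886, step 4a, part G5) -- Lib brick, Mathlib + two Prelude definition modules.
Author: helper7516.

# Frobenius on Laurent series in characteristic `l`

For a commutative ring `k` of characteristic `l` (prime), and `f ∈ k((t))`:
`f ^ l = f^(φ)(t ^ l)`, where `φ` is the Frobenius of `k` applied to the coefficients, i.e.
`qExpand k l (coeffMap (frobenius k l) f) = f ^ l`; in particular `f(t ^ l) = f ^ l` over
`ZMod l` (`qExpand_zmod`), and `f(t ^ (l ^ 2)) = (f ^ l) ^ l`.

This is the statement "the substitution `t ↦ t ^ l` reduces to the Frobenius" used with the Gauss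
valuation subring of `Fermat.Agent.Lib.helper7516_GaussLaurent`.
-/
import Mathlib
import Fermat.Prelude.Def_ModularCurve_X0
import Fermat.Prelude.Def_ModularCurve_LaurentCoeff

set_option autoImplicit false

namespace Fermat.Agent.Lib.helper7516

open ModularCurve

noncomputable section

variable {k : Type*} [CommRing k]

/-- `qExpand` and `coeffMap` on (the image of) power series are `PowerSeries.expand` and
`PowerSeries.map`. -/
theorem qExpand_coeffMap_ofPowerSeries (l : ℕ) [NeZero l] (φ : k →+* k) (g : PowerSeries k) :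
    qExpand k l (coeffMap φ (HahnSeries.ofPowerSeries ℤ k g)) =
      HahnSeries.ofPowerSeries ℤ k
        (PowerSeries.map φ (PowerSeries.expand l (NeZero.ne l) g)) := by
  have hl : (0 : ℤ) < (l : ℤ) := by exact_mod_cast Nat.pos_of_ne_zero (NeZero.ne l)
  ext n
  by_cases hn : (l : ℤ) ∣ n
  · obtain ⟨m, rfl⟩ := hn
    rw [qExpand_coeff_mul, coeffMap_coeff]
    rcases lt_or_ge m 0 with hm | hm
    · have h1 : (HahnSeries.ofPowerSeries ℤ k g).coeff m = 0 := by
        rw [PowerSeries.coeff_coe, if_pos hm]
      have h2 : (l : ℤ) * m < 0 := mul_neg_of_pos_of_neg hl hm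
      rw [h1, map_zero, PowerSeries.coeff_coe, if_pos h2]
    · obtain ⟨j, rfl⟩ := Int.eq_ofNat_of_zero_le hm
      rw [show (l : ℤ) * (j : ℤ) = ((l * j : ℕ) : ℤ) by push_cast; rfl,
        HahnSeries.ofPowerSeries_apply_coeff, HahnSeries.ofPowerSeries_apply_coeff,
        PowerSeries.coeff_map, PowerSeries.coeff_expand_mul]
  · rw [qExpand_coeff_of_not_dvd _ _ hn]
    symm
    rw [PowerSeries.coeff_coe]
    split_ifs with h0
    · rfl
    · obtain ⟨j, rfl⟩ := Int.eq_ofNat_of_zero_le (not_lt.mp h0)
      rw [Int.natAbs_natCast, PowerSeries.coeff_map, PowerSeries.coeff_expand_of_not_dvd,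
        map_zero]
      intro hd
      exact hn (Int.natCast_dvd_natCast.mpr hd)

/-- **Frobenius on Laurent series**: in characteristic `l`, `f ^ l` is obtained from `f` by
applying the Frobenius to the coefficients and substituting `t ↦ t ^ l`. -/
theorem qExpand_coeffMap_frobenius (l : ℕ) [NeZero l] [ExpChar k l] (f : LaurentSeries k) :
    qExpand k l (coeffMap (frobenius k l) f) = f ^ l := by
  have key : ∀ (o : ℤ) (g : PowerSeries k),
      qExpand k l (coeffMap (frobenius k l)
        (HahnSeries.single o (1 : k) * HahnSeries.ofPowerSeries ℤ k g)) =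
      (HahnSeries.single o (1 : k) * HahnSeries.ofPowerSeries ℤ k g) ^ l := by
    intro o g
    have hg : PowerSeries.map (frobenius k l) (PowerSeries.expand l (NeZero.ne l) g) = g ^ l :=
      MvPowerSeries.map_frobenius_expand l (NeZero.ne l)
    rw [map_mul, map_mul, coeffMap_single, qExpand_single, qExpand_coeffMap_ofPowerSeries, hg,
      mul_pow, HahnSeries.single_pow, map_pow, map_one, one_pow, nsmul_eq_mul]
  have h := key f.order f.powerSeriesPart
  rwa [LaurentSeries.single_order_mul_powerSeriesPart] at h

/-- Over `ZMod l`: `f(t ^ l) = f ^ l`. -/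
theorem qExpand_zmod (l : ℕ) [Fact l.Prime] (f : LaurentSeries (ZMod l)) :
    qExpand (ZMod l) l f = f ^ l := by
  have h := qExpand_coeffMap_frobenius l f
  rwa [ZMod.frobenius_zmod, coeffMap_id] at h

/-- Over a ring of characteristic `l` whose Frobenius is the identity: `f(t ^ l) = f ^ l`. -/
theorem qExpand_eq_pow_of_frobenius_eq_id (l : ℕ) [NeZero l] [ExpChar k l]
    (hk : ∀ a : k, a ^ l = a) (f : LaurentSeries k) : qExpand k l f = f ^ l := by
  have h := qExpand_coeffMap_frobenius l f
  have hid : frobenius k l = RingHom.id k := RingHom.ext fun a => by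
    rw [frobenius_def, hk, RingHom.id_apply]
  rwa [hid, coeffMap_id] at h

end

end Fermat.Agent.Lib.helper7516
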