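/-
helper7725 — Lib brick (Mathlib only).

The integral closure of a complete discrete valuation ring in a finite separable
extension of its fraction field is again a complete discrete valuation ring
(module-finite, local homomorphism, finite residue field preserved).

Route: the integral closure `B` is finite free over `A`, hence `𝔪B`-adically complete,
hence Henselian at `𝔪B`; idempotents lift from `B ⧸ 𝔪B`, `B` is a domain and `B ⧸ 𝔪B`
is Artinian, so `B` has exactly one maximal ideal.
-/
import Mathlib

set_option autoImplicit false
set_option linter.unusedSectionVars false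

namespace Fermat.Agent.Lib.helper7725

open IsLocalRing Polynomial

section Adic

variable {R : Type*} [CommRing R]

/-- A finite free module over an `I`-adically precomplete ring is `I`-adically precomplete. -/
theorem isPrecomplete_of_basis (I : Ideal R) {M ι : Type*} [AddCommGroup M] [Module R M]
    [Fintype ι] (b : Module.Basis ι R M) [IsPrecomplete I R] : IsPrecomplete I M := by
  classical
  refine ⟨fun f hf => ?_⟩
  have hc : ∀ i, ∃ L : R, ∀ n, b.repr (f n) i ≡ L [SMOD (I ^ n • ⊤ : Submodule R R)] := by
    intro i
    apply IsPrecomplete.prec'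
    intro m n hmn
    have h1 := hf hmn
    rw [SModEq.sub_mem] at h1 ⊢
    have h2 : (b.coord i) (f m - f n) ∈ (I ^ m • ⊤ : Submodule R R) :=
      Submodule.smul_top_le_comap_smul_top (I ^ m) (b.coord i) h1
    simpa using h2
  choose L hL using hc
  refine ⟨∑ i, L i • b i, fun n => ?_⟩
  rw [SModEq.sub_mem]
  have hsum : f n - ∑ i, L i • b i = ∑ i, (b.repr (f n) i - L i) • b i := by
    conv_lhs => rw [← b.sum_repr (f n)]
    rw [← Finset.sum_sub_distrib]
    simp [sub_smul]
  rw [hsum]
  refine Submodule.sum_mem _ fun i _ => ?_
  have h := hL i n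
  rw [SModEq.sub_mem] at h
  exact Submodule.smul_mem_smul (by simpa using h) Submodule.mem_top

/-- Adic completeness only depends on the ideal up to "radical equivalence":
if `I ≤ J` and `J ^ e ≤ I`, an `I`-adically complete module is `J`-adically complete. -/
theorem isAdicComplete_of_le_of_pow_le {M : Type*} [AddCommGroup M] [Module R M]
    {I J : Ideal R} (hIJ : I ≤ J) (e : ℕ) (hJI : J ^ e ≤ I) [IsAdicComplete I M] :
    IsAdicComplete J M := by
  have hJI' : J ^ (e + 1) ≤ I := (Ideal.pow_le_pow_right (Nat.le_succ e)).trans hJI
  have key : ∀ n : ℕ, (J ^ ((e + 1) * n) • ⊤ : Submodule R M) ≤ I ^ n • ⊤ := by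
    intro n
    rw [pow_mul]
    exact Submodule.smul_mono_left (Ideal.pow_right_mono hJI' n)
  have key2 : ∀ n : ℕ, (I ^ n • ⊤ : Submodule R M) ≤ J ^ n • ⊤ := fun n =>
    Submodule.smul_mono_left (Ideal.pow_right_mono hIJ n)
  have hle : ∀ n : ℕ, n ≤ (e + 1) * n := fun n => Nat.le_mul_of_pos_left n (Nat.succ_pos e)
  refine { haus' := ?_, prec' := ?_ }
  · intro x hx
    apply IsHausdorff.haus' (I := I) x
    intro n
    have := hx ((e + 1) * n)
    rw [SModEq.sub_mem] at this ⊢
    exact key n this
  · intro f hf
    have hg : ∀ {m n : ℕ}, m ≤ n →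
        f ((e + 1) * m) ≡ f ((e + 1) * n) [SMOD (I ^ m • ⊤ : Submodule R M)] := by
      intro m n hmn
      have := hf (Nat.mul_le_mul_left (e + 1) hmn)
      rw [SModEq.sub_mem] at this ⊢
      exact key m this
    obtain ⟨L, hL⟩ := IsPrecomplete.prec' (I := I) (fun n => f ((e + 1) * n)) hg
    refine ⟨L, fun n => ?_⟩
    have h1 := hf (hle n)
    have h2 := hL n
    rw [SModEq.sub_mem] at h1 h2 ⊢
    have : f n - L = (f n - f ((e + 1) * n)) + (f ((e + 1) * n) - L) := by abel
    rw [this]
    exact Submodule.add_mem _ h1 (key2 n h2)

/-- Idempotents lift along an ideal for which the ring is adically complete. -/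
theorem exists_idempotent_sub_mem (I : Ideal R) [IsAdicComplete I R] (x : R)
    (hx : x * x - x ∈ I) : ∃ e : R, e * e = e ∧ e - x ∈ I := by
  have hmonic : (X ^ 2 - X : R[X]).Monic := by
    apply Polynomial.monic_X_pow_sub
    exact lt_of_le_of_lt Polynomial.degree_X_le (by norm_num)
  have hunit : IsUnit (Ideal.Quotient.mk I ((X ^ 2 - X : R[X]).derivative.eval x)) := by
    have h1 : (X ^ 2 - X : R[X]).derivative.eval x = 2 * x - 1 := by
      simp
      ring
    rw [h1]
    refine IsUnit.of_mul_eq_one (Ideal.Quotient.mk I (2 * x - 1)) ?_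
    rw [← map_mul, ← map_one (Ideal.Quotient.mk I), Ideal.Quotient.eq]
    have : (2 * x - 1) * (2 * x - 1) - 1 = 4 * (x * x - x) := by ring
    rw [this]
    exact I.mul_mem_left _ hx
  obtain ⟨a, ha, ha'⟩ := HenselianRing.is_henselian (I := I) (X ^ 2 - X : R[X]) hmonic x
    (by simpa [pow_two] using hx) hunit
  refine ⟨a, ?_, ha'⟩
  have : a ^ 2 - a = 0 := by simpa [Polynomial.IsRoot] using ha
  rw [← sub_eq_zero, ← this]; ring

end Adic

section Main

variable (A : Type*) [CommRing A] [IsDomain A] [IsDiscreteValuationRing A]
  [IsAdicComplete (maximalIdeal A) A]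
  (K : Type*) [Field K] [Algebra A K] [IsFractionRing A K]
  (L : Type*) [Field L] [Algebra K L] [FiniteDimensional K L] [Algebra.IsSeparable K L]
  [Algebra A L] [IsScalarTower A K L]
  (B : Type*) [CommRing B] [IsDomain B] [Algebra A B] [Algebra B L] [IsScalarTower A B L]
  [IsIntegralClosure B A L]

include K L in
/-- `B` is finite over `A`. -/
theorem finite_of_isIntegralClosure : Module.Finite A B :=
  IsIntegralClosure.finite A K L B

include K L in
/-- `B` is free over `A`. -/
theorem free_of_isIntegralClosure : Module.Free A B := by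
  have hinj : Function.Injective (algebraMap A L) := by
    rw [IsScalarTower.algebraMap_eq A K L]
    exact (algebraMap K L).injective.comp (IsFractionRing.injective A K)
  have : FaithfulSMul A L := (faithfulSMul_iff_algebraMap_injective A L).mpr hinj
  exact IsIntegralClosure.module_free A K L B

include K L in
/-- `B` is `𝔪B`-adically complete. -/
theorem isAdicComplete_map_of_isIntegralClosure :
    IsAdicComplete ((maximalIdeal A).map (algebraMap A B)) B := by
  have : Module.Finite A B := finite_of_isIntegralClosure A K L B
  have : Module.Free A B := free_of_isIntegralClosure A K L B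
  have : IsPrecomplete (maximalIdeal A) B :=
    isPrecomplete_of_basis (maximalIdeal A) (Module.Free.chooseBasis A B)
  have : IsAdicComplete (maximalIdeal A) B := { }
  exact (IsAdicComplete.map_algebraMap_iff (S := B) (M := B) (I := maximalIdeal A)).mpr
    inferInstance

include K L in
/-- Every maximal ideal of `B` contains `𝔪B`. -/
theorem map_maximalIdeal_le_of_isMaximal (M : Ideal B) [hM : M.IsMaximal] :
    (maximalIdeal A).map (algebraMap A B) ≤ M := by
  have : Algebra.IsIntegral A B := IsIntegralClosure.isIntegral_algebra A L
  have h1 : (M.comap (algebraMap A B)).IsMaximal :=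
    Ideal.isMaximal_comap_of_isIntegral_of_isMaximal M
  rw [Ideal.map_le_iff_le_comap, IsLocalRing.eq_maximalIdeal h1]

include K L in
/-- `B ⧸ 𝔪B` is an Artinian ring. -/
theorem isArtinianRing_quotient_map :
    IsArtinianRing (B ⧸ (maximalIdeal A).map (algebraMap A B)) := by
  have : Module.Finite A B := finite_of_isIntegralClosure A K L B
  have : Module.Finite A (B ⧸ (maximalIdeal A).map (algebraMap A B)) :=
    Module.Finite.of_surjective
      ((Ideal.Quotient.mkₐ A ((maximalIdeal A).map (algebraMap A B))).toLinearMap)
      (Ideal.Quotient.mk_surjective)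
  have : Module.Finite (A ⧸ maximalIdeal A) (B ⧸ (maximalIdeal A).map (algebraMap A B)) :=
    Module.Finite.of_restrictScalars_finite A _ _
  let : Field (A ⧸ maximalIdeal A) := Ideal.Quotient.field (maximalIdeal A)
  exact IsArtinianRing.of_finite (A ⧸ maximalIdeal A) _

include A K L in
/-- The integral closure of a complete discrete valuation ring in a finite separable
extension of its fraction field is a local ring. -/
theorem isLocalRing_of_isIntegralClosure : IsLocalRing B := by
  set I : Ideal B := (maximalIdeal A).map (algebraMap A B) with hI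
  have hcomp : IsAdicComplete I B := isAdicComplete_map_of_isIntegralClosure A K L B
  have hart : IsArtinianRing (B ⧸ I) := isArtinianRing_quotient_map A K L B
  obtain ⟨M₀, hM₀⟩ := Ideal.exists_maximal B
  refine IsLocalRing.of_unique_max_ideal ⟨M₀, hM₀, fun M₁ hM₁ => ?_⟩
  by_contra hne
  have hle₀ : I ≤ M₀ := map_maximalIdeal_le_of_isMaximal A K L B M₀
  have hle₁ : I ≤ M₁ := map_maximalIdeal_le_of_isMaximal A K L B M₁
  -- `x ∈ M₁`, `y ∈ M₀`, `x + y = 1`
  have hsup : M₁ ⊔ M₀ = ⊤ := Ideal.IsMaximal.coprime_of_ne hM₁ hM₀ hne
  obtain ⟨x, hx, y, hy, hxy⟩ := Submodule.mem_sup.mp (hsup ▸ Submodule.mem_top : (1 : B) ∈ M₁ ⊔ M₀)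
  -- stabilisation of the powers of `x` modulo `I`
  obtain ⟨n, w, hw⟩ := IsArtinian.exists_pow_succ_smul_dvd (Ideal.Quotient.mk I x) (1 : B ⧸ I)
  obtain ⟨w, rfl⟩ := Ideal.Quotient.mk_surjective w
  set q := Ideal.Quotient.mk I with hq
  have hw' : q x ^ (n + 1) = q x ^ (n + 2) * q w := by
    have h0 : q x ^ (n + 1) * q w = q x ^ n := by simpa [smul_eq_mul] using hw
    calc q x ^ (n + 1) = q x ^ n * q x := pow_succ _ _
      _ = q x ^ (n + 1) * q w * q x := by rw [h0]
      _ = q x ^ (n + 2) * q w := by ring
  have hstep : ∀ k : ℕ, q x ^ (n + 1) = q x ^ (n + 1 + k) * q w ^ k := by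
    intro k
    induction k with
    | zero => simp
    | succ k ih =>
      calc q x ^ (n + 1) = q x ^ (n + 1 + k) * q w ^ k := ih
        _ = q x ^ (n + 1) * q x ^ k * q w ^ k := by rw [pow_add]
        _ = q x ^ (n + 2) * q w * q x ^ k * q w ^ k := by rw [← hw']
        _ = q x ^ (n + 1 + (k + 1)) * q w ^ (k + 1) := by ring
  have hN : q x ^ (n + 1) = q x ^ (n + 1) * (q x ^ (n + 1) * q w ^ (n + 1)) := by
    have := hstep (n + 1)
    rw [pow_add (q x) (n + 1) (n + 1)] at this
    rw [← mul_assoc]
    exact this
  set u : B := x ^ (n + 1) * w ^ (n + 1) with hu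
  have hqu : q u = q x ^ (n + 1) * q w ^ (n + 1) := by simp [hu]
  have hidem : u * u - u ∈ I := by
    rw [← Ideal.Quotient.eq_zero_iff_mem, ← hq, map_sub, map_mul, hqu, sub_eq_zero]
    calc q x ^ (n + 1) * q w ^ (n + 1) * (q x ^ (n + 1) * q w ^ (n + 1))
        = q x ^ (n + 1) * (q x ^ (n + 1) * q w ^ (n + 1)) * q w ^ (n + 1) := by ring
      _ = q x ^ (n + 1) * q w ^ (n + 1) := by rw [← hN]
  obtain ⟨e, he, heu⟩ := exists_idempotent_sub_mem I u hidem
  have he01 : e = 0 ∨ e = 1 := by
    have : e * (e - 1) = 0 := by rw [mul_sub, he, mul_one, sub_self]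
    rcases mul_eq_zero.mp this with h | h
    · exact Or.inl h
    · exact Or.inr (sub_eq_zero.mp h)
  have hxu : u ∈ M₁ := by
    rw [hu, pow_succ]
    exact M₁.mul_mem_right _ (M₁.mul_mem_left _ hx)
  rcases he01 with h | h
  · -- `u ∈ I`, hence `x ^ (n+1) ∈ I ≤ M₀`, hence `x ∈ M₀`, hence `1 ∈ M₀`
    have huI : u ∈ I := by
      have := I.neg_mem heu
      simpa [h] using this
    have hqu0 : q u = 0 := by rw [hq, Ideal.Quotient.eq_zero_iff_mem]; exact huI
    have hxI : x ^ (n + 1) ∈ I := by
      rw [← Ideal.Quotient.eq_zero_iff_mem, ← hq, map_pow, hN, ← hqu, hqu0, mul_zero]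
    have hx0 : x ∈ M₀ := hM₀.isPrime.mem_of_pow_mem _ (hle₀ hxI)
    exact hM₀.ne_top ((Ideal.eq_top_iff_one _).mpr (hxy ▸ M₀.add_mem hx0 hy))
  · -- `1 - u ∈ I ≤ M₁` and `u ∈ M₁`, hence `1 ∈ M₁`
    have h1u : 1 - u ∈ M₁ := hle₁ (by simpa [h] using heu)
    exact hM₁.ne_top ((Ideal.eq_top_iff_one _).mpr (by simpa using M₁.add_mem h1u hxu))

include K L in
/-- `A → B` is injective. -/
theorem algebraMap_injective_of_isIntegralClosure : Function.Injective (algebraMap A B) := by
  have hinj : Function.Injective (algebraMap A L) := by
    rw [IsScalarTower.algebraMap_eq A K L]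
    exact (algebraMap K L).injective.comp (IsFractionRing.injective A K)
  rw [IsScalarTower.algebraMap_eq A B L] at hinj
  exact Function.Injective.of_comp hinj

include A K L in
/-- `B` is not a field. -/
theorem not_isField_of_isIntegralClosure : ¬ IsField B := by
  have : Algebra.IsIntegral A B := IsIntegralClosure.isIntegral_algebra A L
  intro h
  exact IsDiscreteValuationRing.not_isField A
    (isField_of_isIntegral_of_isField (algebraMap_injective_of_isIntegralClosure A K L B) h)

include A K L in
/-- The integral closure of a complete discrete valuation ring in a finite separable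
extension of its fraction field is a discrete valuation ring. -/
theorem isDiscreteValuationRing_of_isIntegralClosure : IsDiscreteValuationRing B := by
  have := isLocalRing_of_isIntegralClosure A K L B
  have hD : IsDedekindDomain B := IsIntegralClosure.isDedekindDomain A K L B
  exact ((IsDiscreteValuationRing.TFAE B (not_isField_of_isIntegralClosure A K L B)).out 0 2).mpr hD

include A K L in
/-- `𝔪B` is a power of the maximal ideal of `B`. -/
theorem exists_map_maximalIdeal_eq_pow [IsLocalRing B] :
    ∃ e : ℕ, (maximalIdeal A).map (algebraMap A B) = maximalIdeal B ^ e := by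
  have hD : IsDedekindDomain B := IsIntegralClosure.isDedekindDomain A K L B
  have hne : (maximalIdeal A).map (algebraMap A B) ≠ ⊥ := by
    rw [Ne, Ideal.map_eq_bot_iff_of_injective (algebraMap_injective_of_isIntegralClosure A K L B)]
    exact fun h => IsDiscreteValuationRing.not_isField A (IsLocalRing.isField_iff_maximalIdeal_eq.mpr h)
  have h26 : IsDedekindDomain B ↔ ∀ (I : Ideal B) (_ : I ≠ ⊥), ∃ n : ℕ, I = maximalIdeal B ^ n :=
    (IsDiscreteValuationRing.TFAE B (not_isField_of_isIntegralClosure A K L B)).out 2 6
  exact h26.mp hD _ hne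

include A K L in
/-- The integral closure of a complete discrete valuation ring in a finite separable
extension of its fraction field is complete for the topology of its maximal ideal. -/
theorem isAdicComplete_maximalIdeal_of_isIntegralClosure [IsLocalRing B] :
    IsAdicComplete (maximalIdeal B) B := by
  have hcomp : IsAdicComplete ((maximalIdeal A).map (algebraMap A B)) B :=
    isAdicComplete_map_of_isIntegralClosure A K L B
  have hle : (maximalIdeal A).map (algebraMap A B) ≤ maximalIdeal B :=
    map_maximalIdeal_le_of_isMaximal A K L B (maximalIdeal B)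
  obtain ⟨e, he⟩ := exists_map_maximalIdeal_eq_pow A K L B
  exact isAdicComplete_of_le_of_pow_le hle e he.ge

include K L in
/-- `A → B` is a local homomorphism. -/
theorem isLocalHom_algebraMap_of_isIntegralClosure : IsLocalHom (algebraMap A B) := by
  refine ⟨fun a ha => ?_⟩
  by_contra hna
  have ham : a ∈ maximalIdeal A := hna
  obtain ⟨M, hM⟩ := Ideal.exists_maximal B
  have hmem : algebraMap A B a ∈ M :=
    map_maximalIdeal_le_of_isMaximal A K L B M (Ideal.mem_map_of_mem _ ham)
  exact hM.ne_top (Ideal.eq_top_of_isUnit_mem _ hmem ha)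

include K L in
/-- `B ⧸ 𝔪B` is a finite module over the residue field of `A`. -/
theorem finite_quotient_map_of_isIntegralClosure :
    Module.Finite (A ⧸ maximalIdeal A) (B ⧸ (maximalIdeal A).map (algebraMap A B)) := by
  have : Module.Finite A B := finite_of_isIntegralClosure A K L B
  have : Module.Finite A (B ⧸ (maximalIdeal A).map (algebraMap A B)) :=
    Module.Finite.of_surjective
      ((Ideal.Quotient.mkₐ A ((maximalIdeal A).map (algebraMap A B))).toLinearMap)
      (Ideal.Quotient.mk_surjective)
  exact Module.Finite.of_restrictScalars_finite A _ _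

include A K L in
/-- If the residue field of `A` is finite, so is the residue field of `B`. -/
theorem finite_residueField_of_isIntegralClosure [IsLocalRing B] [hfin : Finite (ResidueField A)] :
    Finite (ResidueField B) := by
  have hfin' : Finite (A ⧸ maximalIdeal A) := hfin
  have := finite_quotient_map_of_isIntegralClosure A K L B
  have hq : Finite (B ⧸ (maximalIdeal A).map (algebraMap A B)) :=
    Module.finite_of_finite (A ⧸ maximalIdeal A)
  have hle : (maximalIdeal A).map (algebraMap A B) ≤ maximalIdeal B :=
    map_maximalIdeal_le_of_isMaximal A K L B (maximalIdeal B)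
  exact Finite.of_surjective (Ideal.Quotient.factor hle) (Ideal.Quotient.factor_surjective hle)

end Main

section Package

/-- **Coefficient extension package.**  Let `A` be a complete discrete valuation ring of
characteristic zero with finite residue field, `K` its fraction field and `L / K` a finite
extension.  Then the integral closure `B` of `A` in `L` carries all the structure that the
frozen statements ask of an extended coefficient ring (the instance prefix of `S30`):
it is a complete discrete valuation ring of characteristic zero with finite residue field,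
module-finite over `A`, `A → B` is an injective local homomorphism, and `L = Frac B`. -/
theorem exists_complete_dvr_extension
    (A : Type) [CommRing A] [IsDomain A] [IsDiscreteValuationRing A]
    [IsAdicComplete (maximalIdeal A) A] [Finite (ResidueField A)] [CharZero A]
    (K : Type) [Field K] [Algebra A K] [IsFractionRing A K]
    (L : Type) [Field L] [Algebra K L] [FiniteDimensional K L]
    [Algebra A L] [IsScalarTower A K L] :
    ∃ (B : Type) (_ : CommRing B) (_ : IsDomain B) (_ : IsDiscreteValuationRing B)
      (_ : IsAdicComplete (maximalIdeal B) B) (_ : Finite (ResidueField B)) (_ : CharZero B)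
      (_ : Algebra A B) (_ : Module.Finite A B) (_ : IsLocalHom (algebraMap A B))
      (_ : Algebra B L) (_ : IsScalarTower A B L),
      Function.Injective (algebraMap A B) ∧ IsFractionRing B L ∧ IsIntegralClosure B A L := by
  have : CharZero K := charZero_of_injective_algebraMap (IsFractionRing.injective A K)
  have hsep : Algebra.IsSeparable K L := inferInstance
  have hDVR : IsDiscreteValuationRing (integralClosure A L) :=
    isDiscreteValuationRing_of_isIntegralClosure A K L (integralClosure A L)
  have hinj : Function.Injective (algebraMap A (integralClosure A L)) :=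
    algebraMap_injective_of_isIntegralClosure A K L (integralClosure A L)
  exact ⟨integralClosure A L, inferInstance, inferInstance, hDVR,
    isAdicComplete_maximalIdeal_of_isIntegralClosure A K L (integralClosure A L),
    finite_residueField_of_isIntegralClosure A K L (integralClosure A L),
    charZero_of_injective_algebraMap hinj, inferInstance,
    finite_of_isIntegralClosure A K L (integralClosure A L),
    isLocalHom_algebraMap_of_isIntegralClosure A K L (integralClosure A L),
    inferInstance, inferInstance, hinj,
    IsIntegralClosure.isFractionRing_of_finite_extension A K L (integralClosure A L),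
    inferInstance⟩

end Package

end Fermat.Agent.Lib.helper7725
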