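/-
Frobenius Cayley–Hamilton for elliptic curves over finite fields (short Weierstrass form):
DEFINITIONS and basic API.  (helper8135; serves S52-(L1).)

Model: `W : y² = x³ + A x + B` over a field `k`.  `FF A B` is the function field
`k(t)[s]/(s² - (t³ + A t + B))` of `W`; the generic point is `gen = (tt, ss) ∈ W(FF)`.
Everything happens inside Mathlib's group `W(FF)`.
-/
import Mathlib

set_option autoImplicit false

namespace Fermat.Agent.Lib.helper8135

open Polynomial WeierstrassCurve

noncomputable section

universe u v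

/-- The short Weierstrass curve `y² = x³ + A x + B`. -/
def swc {R : Type u} [CommRing R] (A B : R) : WeierstrassCurve R := ⟨0, 0, 0, A, B⟩

@[simp] lemma swc_a₁ {R : Type u} [CommRing R] (A B : R) : (swc A B).a₁ = 0 := rfl
@[simp] lemma swc_a₂ {R : Type u} [CommRing R] (A B : R) : (swc A B).a₂ = 0 := rfl
@[simp] lemma swc_a₃ {R : Type u} [CommRing R] (A B : R) : (swc A B).a₃ = 0 := rfl
@[simp] lemma swc_a₄ {R : Type u} [CommRing R] (A B : R) : (swc A B).a₄ = A := rfl
@[simp] lemma swc_a₆ {R : Type u} [CommRing R] (A B : R) : (swc A B).a₆ = B := rfl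

section field

variable {k : Type u} [Field k] (A B : k)

/-- The cubic `t³ + A t + B` as a polynomial. -/
def cubic : k[X] := X ^ 3 + C A * X + C B

lemma cubic_natDegree : (cubic A B).natDegree = 3 := by
  unfold cubic
  compute_degree!

lemma cubic_ne_zero : cubic A B ≠ 0 := fun h => by
  have := cubic_natDegree A B
  rw [h] at this
  simp at this

lemma cubic_monic : (cubic A B).Monic := by
  unfold cubic
  monicity!

/-- The cubic `t³ + A t + B` as a rational function. -/
def lam : RatFunc k := algebraMap k[X] (RatFunc k) (cubic A B)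

lemma lam_eq : lam A B = RatFunc.X ^ 3 + RatFunc.C A * RatFunc.X + RatFunc.C B := by
  simp [lam, cubic, RatFunc.algebraMap_X, RatFunc.algebraMap_C]

lemma lam_ne_zero : lam A B ≠ 0 := RatFunc.algebraMap_ne_zero (cubic_ne_zero A B)

lemma lam_intDegree : (lam A B).intDegree = 3 := by
  rw [lam, RatFunc.intDegree_polynomial, cubic_natDegree]; rfl

/-- `t³ + A t + B` is not a square in `k(t)` (its degree is odd). -/
lemma lam_not_sq (r : RatFunc k) : r ^ 2 ≠ lam A B := by
  intro h
  have hr : r ≠ 0 := by
    rintro rfl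
    exact lam_ne_zero A B (by rw [← h]; simp)
  have h2 : (r ^ 2).intDegree = 3 := by rw [h, lam_intDegree]
  rw [pow_two, RatFunc.intDegree_mul hr hr] at h2
  omega

/-- The polynomial `Y² - (t³ + A t + B)` over `k(t)`. -/
def quad : (RatFunc k)[X] := X ^ 2 - C (lam A B)

lemma quad_irreducible : Irreducible (quad A B) :=
  (X_pow_sub_C_irreducible_iff_of_prime Nat.prime_two).mpr (lam_not_sq A B)

instance quad_fact : Fact (Irreducible (quad A B)) := ⟨quad_irreducible A B⟩

/-- The function field of `y² = x³ + A x + B` over `k`. -/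
abbrev FF : Type u := AdjoinRoot (quad A B)

instance : DecidableEq (FF A B) := Classical.decEq _

/-- The inclusion `k(t) → FF`. -/
abbrev ofK : RatFunc k →+* FF A B := AdjoinRoot.of (quad A B)

lemma ofK_injective : Function.Injective (ofK A B) := AdjoinRoot.coe_injective'

/-- The coordinate function `t` on the generic point. -/
def tt : FF A B := ofK A B RatFunc.X

/-- The coordinate function `s` (with `s² = t³ + A t + B`). -/
def ss : FF A B := AdjoinRoot.root (quad A B)

lemma ss_sq : ss A B ^ 2 = ofK A B (lam A B) := by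
  have h := AdjoinRoot.eval₂_root (quad A B)
  have h2 : eval₂ (AdjoinRoot.of (quad A B)) (AdjoinRoot.root (quad A B))
      (X ^ 2 - C (lam A B)) = 0 := h
  rw [eval₂_sub, eval₂_pow, eval₂_X, eval₂_C] at h2
  exact sub_eq_zero.mp h2

lemma ss_sq' : ss A B ^ 2 = tt A B ^ 3 + algebraMap k (FF A B) A * tt A B
    + algebraMap k (FF A B) B := by
  rw [ss_sq, lam_eq]
  simp only [map_add, map_mul, map_pow, tt]
  rfl

lemma ss_ne_zero : ss A B ≠ 0 := by
  intro h
  have := ss_sq A B
  rw [h] at this
  have h0 : ofK A B (lam A B) = 0 := by rw [← this]; simp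
  exact lam_ne_zero A B ((map_eq_zero_iff _ (ofK_injective A B)).mp h0)

/-- Every element of `FF` is `p + q s` with `p, q ∈ k(t)`. -/
lemma exists_repr (z : FF A B) : ∃ p q : RatFunc k, z = ofK A B p + ofK A B q * ss A B := by
  obtain ⟨f, rfl⟩ := AdjoinRoot.mk_surjective z
  have hm : (quad A B).Monic := by unfold quad; monicity!
  have hdeg : (f %ₘ quad A B).degree < 2 := by
    have := degree_modByMonic_lt f hm
    have h2 : (quad A B).degree = 2 := by unfold quad; compute_degree!
    rwa [h2] at this
  have hf : AdjoinRoot.mk (quad A B) f = AdjoinRoot.mk (quad A B) (f %ₘ quad A B) := by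
    conv_lhs => rw [← modByMonic_add_div f (quad A B)]
    rw [map_add, map_mul, AdjoinRoot.mk_self, zero_mul, add_zero]
  obtain ⟨a, b, hab⟩ := exists_eq_X_add_C_of_natDegree_le_one
    (natDegree_le_of_degree_le (Order.lt_succ_iff.mp (by exact_mod_cast hdeg)) : (f %ₘ quad A B).natDegree ≤ 1)
  refine ⟨b, a, ?_⟩
  rw [hf, hab]
  simp only [map_add, map_mul, AdjoinRoot.mk_C, AdjoinRoot.mk_X]
  rw [add_comm]
  rfl


/-- The conjugation `s ↦ -s` of `FF` over `k(t)`. -/
def conjK : FF A B →ₐ[RatFunc k] FF A B :=
  AdjoinRoot.liftAlgHom (quad A B) (Algebra.ofId (RatFunc k) (FF A B)) (- ss A B) (by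
    have h : eval₂ (algebraMap (RatFunc k) (FF A B)) (- ss A B) (X ^ 2 - C (lam A B)) = 0 := by
      rw [eval₂_sub, eval₂_pow, eval₂_X, eval₂_C, neg_sq]
      exact sub_eq_zero.mpr (ss_sq A B)
    exact h)

@[simp] lemma conjK_ss : conjK A B (ss A B) = - ss A B :=
  AdjoinRoot.liftAlgHom_root _ _ _ _

@[simp] lemma conjK_ofK (p : RatFunc k) : conjK A B (ofK A B p) = ofK A B p :=
  AdjoinRoot.liftAlgHom_of _ _ _ _ p

/-- The conjugation `s ↦ -s` of `FF`, as a `k`-algebra map. -/
def conj : FF A B →ₐ[k] FF A B := (conjK A B).restrictScalars k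

@[simp] lemma conj_ss : conj A B (ss A B) = - ss A B := conjK_ss A B

@[simp] lemma conj_ofK (p : RatFunc k) : conj A B (ofK A B p) = ofK A B p := conjK_ofK A B p

@[simp] lemma conj_tt : conj A B (tt A B) = tt A B := conjK_ofK A B _

/-- Elements fixed by the conjugation lie in `k(t)` (characteristic `≠ 2`). -/
lemma exists_ofK_of_conj_eq (h2 : (2 : k) ≠ 0) {z : FF A B} (hz : conj A B z = z) :
    ∃ p : RatFunc k, ofK A B p = z := by
  obtain ⟨p, q, rfl⟩ := exists_repr A B z
  refine ⟨p, ?_⟩
  simp only [map_add, map_mul, conj_ofK, conj_ss] at hz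
  have h2' : (2 : FF A B) ≠ 0 := by
    have : (2 : FF A B) = algebraMap k (FF A B) 2 := (map_ofNat (algebraMap k (FF A B)) 2).symm
    rw [this]
    exact (_root_.map_ne_zero _).mpr h2
  have hq : ofK A B q * ss A B = 0 := by
    have : (2 : FF A B) * (ofK A B q * ss A B) = 0 := by linear_combination -hz
    exact (mul_eq_zero.mp this).resolve_left h2'
  rw [hq, add_zero]

/-- Elements negated by the conjugation lie in `k(t) · s` (characteristic `≠ 2`). -/
lemma exists_ofK_mul_ss_of_conj_eq_neg (h2 : (2 : k) ≠ 0) {z : FF A B} (hz : conj A B z = -z) :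
    ∃ q : RatFunc k, ofK A B q * ss A B = z := by
  obtain ⟨p, q, rfl⟩ := exists_repr A B z
  refine ⟨q, ?_⟩
  simp only [map_add, map_mul, conj_ofK, conj_ss] at hz
  have h2' : (2 : FF A B) ≠ 0 := by
    have : (2 : FF A B) = algebraMap k (FF A B) 2 := (map_ofNat (algebraMap k (FF A B)) 2).symm
    rw [this]
    exact (_root_.map_ne_zero _).mpr h2
  have hp : ofK A B p = 0 := by
    have : (2 : FF A B) * ofK A B p = 0 := by linear_combination hz
    exact (mul_eq_zero.mp this).resolve_left h2'
  rw [hp, zero_add]

end field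

section points

open WeierstrassCurve.Affine

variable {k : Type u} [Field k] (A B : k)

/-- Points of `y² = x³ + A x + B` over an extension `M` of `k`. -/
abbrev Pt (M : Type v) [Field M] [Algebra k M] : Type v := ((swc A B)⁄M).Point

variable {A B}

lemma equation_iff' {M : Type v} [Field M] [Algebra k M] (x y : M) :
    ((swc A B)⁄M).Equation x y ↔ y ^ 2 = x ^ 3 + algebraMap k M A * x + algebraMap k M B := by
  rw [Affine.equation_iff]
  simp [WeierstrassCurve.baseChange]

lemma nonsingular_of_eq [(swc A B).IsElliptic] {M : Type v} [Field M] [Algebra k M] {x y : M}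
    (h : y ^ 2 = x ^ 3 + algebraMap k M A * x + algebraMap k M B) :
    ((swc A B)⁄M).Nonsingular x y := by
  haveI : ((swc A B)⁄M).IsElliptic :=
    inferInstanceAs ((swc A B).map (algebraMap k M)).IsElliptic
  exact (equation_iff_nonsingular).mp ((equation_iff' x y).mpr h)

/-- Constructor for affine points from the short Weierstrass equation. -/
def mkPt [(swc A B).IsElliptic] {M : Type v} [Field M] [Algebra k M] (x y : M)
    (h : y ^ 2 = x ^ 3 + algebraMap k M A * x + algebraMap k M B) : Pt A B M :=
  Point.some x y (nonsingular_of_eq h)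

/-- The `x`-coordinate of a point (`0` for the point at infinity). -/
def xL {M : Type v} [Field M] [Algebra k M] : Pt A B M → M
  | .zero => 0
  | .some x _ _ => x

/-- The `y`-coordinate of a point (`0` for the point at infinity). -/
def yL {M : Type v} [Field M] [Algebra k M] : Pt A B M → M
  | .zero => 0
  | .some _ y _ => y

variable (A B)

/-- The generic point `(t, s)`. -/
def gen [(swc A B).IsElliptic] : Pt A B (FF A B) := mkPt (tt A B) (ss A B) (ss_sq' A B)

/-- The conjugation `s ↦ -s` acting on points over the function field. -/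
def iota : Pt A B (FF A B) →+ Pt A B (FF A B) := Point.map (W' := swc A B) (conj A B)

/-- The "odd" points: `ι P = -P`.  This is the group of points of the quadratic twist by
`t³ + A t + B` over `k(t)`, i.e. of the rational self-maps of the curve commuting with `-1`. -/
def Lam : AddSubgroup (Pt A B (FF A B)) := (iota A B + AddMonoidHom.id _).ker

lemma mem_Lam {P : Pt A B (FF A B)} : P ∈ Lam A B ↔ iota A B P = -P := by
  simp [Lam, AddMonoidHom.mem_ker, add_eq_zero_iff_eq_neg]

open scoped Classical in
/-- The `k(t)`-part of an element of `k(t) ⊆ FF` (junk `0` outside `k(t)`). -/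
def reK (z : FF A B) : RatFunc k :=
  if h : ∃ X, ofK A B X = z then h.choose else 0

@[simp] lemma reK_ofK (X : RatFunc k) : reK A B (ofK A B X) = X := by
  have h : ∃ X', ofK A B X' = ofK A B X := ⟨X, rfl⟩
  rw [reK, dif_pos h]
  exact ofK_injective A B h.choose_spec

/-- The `x`-coordinate of an odd point, as an element of `k(t)` (junk `0` if not in `k(t)`). -/
def xK (P : Pt A B (FF A B)) : RatFunc k := reK A B (xL P)

lemma xK_eq {P : Pt A B (FF A B)} {X : RatFunc k} (h : ofK A B X = xL P) : xK A B P = X := by
  rw [xK, ← h, reK_ofK]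

/-- The degree of a rational function: `max (deg num) (deg denom)`. -/
def rdeg (r : RatFunc k) : ℕ := max r.num.natDegree r.denom.natDegree

/-- The height of a point over the function field: the degree of its `x`-coordinate. -/
def ht (P : Pt A B (FF A B)) : ℕ := rdeg (xK A B P)

/-- The `q`-power Frobenius on points over any extension `M` of the finite field `k`. -/
def phi [Fintype k] (M : Type v) [Field M] [Algebra k M] [DecidableEq M] : Pt A B M →+ Pt A B M :=
  Point.map (W' := swc A B) (FiniteField.frobeniusAlgHom k M)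

/-- The trace of Frobenius `q + 1 - #W(k)`. -/
def trF [Fintype k] : ℤ := (Fintype.card k : ℤ) + 1 - (Nat.card (swc A B).toAffine.Point : ℤ)

/-- `Ψ = φ² - a φ + q` on points over `M`. -/
def Psi [Fintype k] (M : Type v) [Field M] [Algebra k M] [DecidableEq M] (P : Pt A B M) : Pt A B M :=
  phi A B M (phi A B M P) - trF A B • phi A B M P + (Fintype.card k : ℤ) • P

end points

end

end Fermat.Agent.Lib.helper8135
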