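/-
Frobenius Cayley–Hamilton over finite fields: basic API on top of `helper8135_FrobDefs`
(structure of odd points, heights of special points, Frobenius on coordinates).
-/
import Fermat.Agent.Lib.helper8135_FrobDefs

set_option autoImplicit false

namespace Fermat.Agent.Lib.helper8135

open Polynomial WeierstrassCurve WeierstrassCurve.Affine

noncomputable section

universe u v w

section rdeg

variable {k : Type u} [Field k]

lemma rdeg_C (c : k) : rdeg (RatFunc.C c) = 0 := by
  simp [rdeg]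

lemma rdeg_zero : rdeg (0 : RatFunc k) = 0 := by
  simp [rdeg]

lemma rdeg_eq_zero_iff (r : RatFunc k) : rdeg r = 0 ↔ ∃ c, r = RatFunc.C c := by
  rw [RatFunc.eq_C_iff, rdeg]
  omega

lemma rdeg_X : rdeg (RatFunc.X : RatFunc k) = 1 := by
  simp [rdeg]

/-- `rdeg (p / q) ≤ max (deg p) (deg q)`. -/
lemma rdeg_div_le (p : k[X]) {q : k[X]} (hq : q ≠ 0) :
    rdeg (algebraMap k[X] (RatFunc k) p / algebraMap k[X] (RatFunc k) q)
      ≤ max p.natDegree q.natDegree := by
  rw [rdeg]
  apply max_le_max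
  · by_cases hp : p = 0
    · simp [hp]
    · exact natDegree_le_of_dvd (RatFunc.num_div_dvd p hq) hp
  · exact natDegree_le_of_dvd (RatFunc.denom_div_dvd p q) hq

/-- `rdeg (p / q) = max (deg p) (deg q)` for coprime polynomials. -/
lemma rdeg_div_of_isCoprime {p q : k[X]} (hq : q ≠ 0) (h : IsCoprime p q) :
    rdeg (algebraMap k[X] (RatFunc k) p / algebraMap k[X] (RatFunc k) q)
      = max p.natDegree q.natDegree := by
  set x := algebraMap k[X] (RatFunc k) p / algebraMap k[X] (RatFunc k) q with hx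
  have h1 : x.num * q = p * x.denom := (RatFunc.num_mul_eq_mul_denom_iff hq).mpr rfl
  have hd1 : x.num ∣ p := RatFunc.num_div_dvd p hq
  have hd2 : x.denom ∣ q := RatFunc.denom_div_dvd p q
  have hd3 : p ∣ x.num := h.dvd_of_dvd_mul_right (Dvd.intro _ h1.symm)
  have hd4 : q ∣ x.denom := h.symm.dvd_of_dvd_mul_left (Dvd.intro_left _ h1)
  rw [rdeg]
  congr 1
  · by_cases hp : p = 0
    · rw [hp] at hd3 ⊢
      rw [zero_dvd_iff.mp hd3]
    · have hn : x.num ≠ 0 := fun h0 => hp (by rw [h0] at hd1; exact zero_dvd_iff.mp hd1)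
      exact le_antisymm (natDegree_le_of_dvd hd1 hp) (natDegree_le_of_dvd hd3 hn)
  · exact le_antisymm (natDegree_le_of_dvd hd2 hq) (natDegree_le_of_dvd hd4 x.denom_ne_zero)

end rdeg

section odd

variable {k : Type u} [Field k] (A B : k)

@[simp] lemma xL_zero {M : Type v} [Field M] [Algebra k M] : xL (0 : Pt A B M) = 0 := rfl

@[simp] lemma xL_some {M : Type v} [Field M] [Algebra k M] {x y : M}
    (h : ((swc A B)⁄M).Nonsingular x y) : xL (Point.some x y h : Pt A B M) = x := rfl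

@[simp] lemma yL_zero {M : Type v} [Field M] [Algebra k M] : yL (0 : Pt A B M) = 0 := rfl

@[simp] lemma yL_some {M : Type v} [Field M] [Algebra k M] {x y : M}
    (h : ((swc A B)⁄M).Nonsingular x y) : yL (Point.some x y h : Pt A B M) = y := rfl

lemma negY_eq {M : Type v} [Field M] [Algebra k M] (x y : M) :
    ((swc A B)⁄M).negY x y = -y := by
  simp [Affine.negY, WeierstrassCurve.baseChange]

lemma some_eq_some_iff {M : Type v} [Field M] [Algebra k M] {x y x' y' : M}
    (h : ((swc A B)⁄M).Nonsingular x y) (h' : ((swc A B)⁄M).Nonsingular x' y') :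
    (Point.some x y h : Pt A B M) = Point.some x' y' h' ↔ x = x' ∧ y = y' := by
  simp

lemma neg_some_eq {M : Type v} [Field M] [Algebra k M] {x y : M}
    (h : ((swc A B)⁄M).Nonsingular x y) :
    ∃ h' : ((swc A B)⁄M).Nonsingular x (-y), -(Point.some x y h : Pt A B M) = Point.some x (-y) h' := by
  have h1 := (nonsingular_neg (W' := (swc A B)⁄M) x y).mpr h
  rw [negY_eq] at h1
  refine ⟨h1, ?_⟩
  rw [Point.neg_some, some_eq_some_iff]
  exact ⟨rfl, negY_eq A B x y⟩

lemma xL_neg {M : Type v} [Field M] [Algebra k M] [DecidableEq M] (P : Pt A B M) :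
    xL (-P) = xL P := by
  rcases P with _ | ⟨x, y, h⟩
  · rfl
  · rw [Point.neg_some]; rfl

lemma xK_zero : xK A B 0 = 0 := xK_eq A B (by simp)

lemma ht_zero : ht A B 0 = 0 := by rw [ht, xK_zero, rdeg_zero]

lemma xK_neg (P : Pt A B (FF A B)) : xK A B (-P) = xK A B P := by
  rw [xK, xK, xL_neg]

lemma ht_neg (P : Pt A B (FF A B)) : ht A B (-P) = ht A B P := by
  rw [ht, xK_neg, ht]

lemma xK_some_ofK (X : RatFunc k) {y : FF A B}
    (h : ((swc A B)⁄(FF A B)).Nonsingular (ofK A B X) y) :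
    xK A B (Point.some (ofK A B X) y h) = X := xK_eq A B rfl

lemma algebraMap_eq_ofK_C (c : k) : algebraMap k (FF A B) c = ofK A B (RatFunc.C c) := by
  rw [IsScalarTower.algebraMap_apply k (RatFunc k) (FF A B), RatFunc.algebraMap_eq_C]
  rfl

lemma iota_some {x y : FF A B} (h : ((swc A B)⁄(FF A B)).Nonsingular x y) :
    ∃ h', iota A B (Point.some x y h) = Point.some (conj A B x) (conj A B y) h' :=
  ⟨_, Point.map_some (W' := swc A B) (conj A B) h⟩

lemma some_mem_Lam_iff {x y : FF A B} (h : ((swc A B)⁄(FF A B)).Nonsingular x y) :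
    (Point.some x y h : Pt A B (FF A B)) ∈ Lam A B ↔ conj A B x = x ∧ conj A B y = -y := by
  obtain ⟨h1, e1⟩ := iota_some A B h
  obtain ⟨h2, e2⟩ := neg_some_eq A B h
  rw [mem_Lam, e1, e2, some_eq_some_iff]

lemma zero_mem_Lam : (0 : Pt A B (FF A B)) ∈ Lam A B := (Lam A B).zero_mem

/-- Structure of odd points (characteristic `≠ 2`). -/
lemma Lam_cases (h2 : (2 : k) ≠ 0) {P : Pt A B (FF A B)} (hP : P ∈ Lam A B) :
    P = 0 ∨ ∃ (X Y : RatFunc k) (h : ((swc A B)⁄(FF A B)).Nonsingular (ofK A B X)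
      (ofK A B Y * ss A B)), P = Point.some (ofK A B X) (ofK A B Y * ss A B) h := by
  rcases P with _ | ⟨x, y, h⟩
  · exact Or.inl rfl
  · right
    obtain ⟨hx, hy⟩ := (some_mem_Lam_iff A B h).mp hP
    obtain ⟨X, rfl⟩ := exists_ofK_of_conj_eq A B h2 hx
    obtain ⟨Y, rfl⟩ := exists_ofK_mul_ss_of_conj_eq_neg A B h2 hy
    exact ⟨X, Y, h, rfl⟩

/-- The equation of an odd point, in `k(t)`. -/
lemma odd_equation {X Y : RatFunc k}
    (h : ((swc A B)⁄(FF A B)).Nonsingular (ofK A B X) (ofK A B Y * ss A B)) :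
    Y ^ 2 * lam A B = X ^ 3 + RatFunc.C A * X + RatFunc.C B := by
  have h1 := (equation_iff' (A := A) (B := B) _ _).mp h.1
  rw [mul_pow, ss_sq, algebraMap_eq_ofK_C, algebraMap_eq_ofK_C] at h1
  apply ofK_injective A B
  simpa only [map_add, map_mul, map_pow] using h1

lemma odd_equation' {X Y : RatFunc k} (h : Y ^ 2 * lam A B = X ^ 3 + RatFunc.C A * X + RatFunc.C B) :
    (ofK A B Y * ss A B) ^ 2 = (ofK A B X) ^ 3 + algebraMap k (FF A B) A * ofK A B X
      + algebraMap k (FF A B) B := by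
  rw [mul_pow, ss_sq, algebraMap_eq_ofK_C, algebraMap_eq_ofK_C]
  simp only [← map_add, ← map_mul, ← map_pow]
  rw [h]

variable [(swc A B).IsElliptic]

/-- The odd point with coordinates `(X, Y s)`. -/
def oddPt (X Y : RatFunc k) (h : Y ^ 2 * lam A B = X ^ 3 + RatFunc.C A * X + RatFunc.C B) :
    Pt A B (FF A B) :=
  mkPt (ofK A B X) (ofK A B Y * ss A B) (odd_equation' A B h)

lemma oddPt_mem_Lam (X Y : RatFunc k)
    (h : Y ^ 2 * lam A B = X ^ 3 + RatFunc.C A * X + RatFunc.C B) : oddPt A B X Y h ∈ Lam A B := by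
  unfold oddPt mkPt
  rw [some_mem_Lam_iff]
  simp

lemma xK_oddPt (X Y : RatFunc k)
    (h : Y ^ 2 * lam A B = X ^ 3 + RatFunc.C A * X + RatFunc.C B) : xK A B (oddPt A B X Y h) = X :=
  xK_some_ofK A B X _

lemma ht_oddPt (X Y : RatFunc k)
    (h : Y ^ 2 * lam A B = X ^ 3 + RatFunc.C A * X + RatFunc.C B) :
    ht A B (oddPt A B X Y h) = rdeg X := by
  rw [ht, xK_oddPt]

/-- Every nonzero odd point is an `oddPt`. -/
lemma Lam_cases' (h2 : (2 : k) ≠ 0) {P : Pt A B (FF A B)} (hP : P ∈ Lam A B) :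
    P = 0 ∨ ∃ (X Y : RatFunc k) (h : Y ^ 2 * lam A B = X ^ 3 + RatFunc.C A * X + RatFunc.C B),
      P = oddPt A B X Y h := by
  rcases Lam_cases A B h2 hP with h0 | ⟨X, Y, h, rfl⟩
  · exact Or.inl h0
  · exact Or.inr ⟨X, Y, odd_equation A B h, rfl⟩

lemma gen_eq_oddPt : gen A B = oddPt A B RatFunc.X 1 (by rw [lam_eq]; ring) := by
  unfold gen oddPt mkPt
  rw [some_eq_some_iff]
  simp [tt]

lemma gen_mem_Lam : gen A B ∈ Lam A B := by
  rw [gen_eq_oddPt]; exact oddPt_mem_Lam A B _ _ _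

lemma ht_gen : ht A B (gen A B) = 1 := by
  rw [gen_eq_oddPt, ht_oddPt, rdeg_X]

end odd

section frob

variable {k : Type u} [Field k] [Fintype k] (A B : k)

lemma phi_zero (M : Type v) [Field M] [Algebra k M] [DecidableEq M] : phi A B M 0 = 0 :=
  map_zero _

lemma phi_some (M : Type v) [Field M] [Algebra k M] [DecidableEq M] {x y : M}
    (h : ((swc A B)⁄M).Nonsingular x y) :
    ∃ h', phi A B M (Point.some x y h) =
      Point.some (x ^ Fintype.card k) (y ^ Fintype.card k) h' := by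
  have := Point.map_some (W' := swc A B) (FiniteField.frobeniusAlgHom k M) h
  simp only [FiniteField.frobeniusAlgHom_apply] at this
  exact ⟨_, this⟩

/-- Frobenius commutes with every `k`-algebra map. -/
lemma phi_map {M : Type v} {N : Type w} [Field M] [Algebra k M] [DecidableEq M] [Field N]
    [Algebra k N] [DecidableEq N] (f : M →ₐ[k] N) (P : Pt A B M) :
    Point.map (W' := swc A B) f (phi A B M P) = phi A B N (Point.map (W' := swc A B) f P) := by
  have hcomm : f.comp (FiniteField.frobeniusAlgHom k M)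
      = (FiniteField.frobeniusAlgHom k N).comp f := by
    ext x
    simp only [AlgHom.comp_apply, FiniteField.frobeniusAlgHom_apply, map_pow]
  unfold phi
  rw [Point.map_map, Point.map_map, hcomm]

lemma phi_mem_Lam {P : Pt A B (FF A B)} (hP : P ∈ Lam A B) : phi A B (FF A B) P ∈ Lam A B := by
  rw [mem_Lam] at hP ⊢
  unfold iota at hP ⊢
  rw [phi_map, hP, map_neg]

lemma card_odd (h2 : (2 : k) ≠ 0) : Fintype.card k % 2 = 1 := by
  apply FiniteField.odd_card_of_char_ne_two
  intro h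
  apply h2
  have : ((2 : ℕ) : k) = 0 := by rw [← h]; exact ringChar.Nat.cast_ringChar
  exact_mod_cast this

lemma ss_pow_card (h2 : (2 : k) ≠ 0) :
    ss A B ^ Fintype.card k = ofK A B (lam A B ^ ((Fintype.card k - 1) / 2)) * ss A B := by
  have hq := card_odd h2
  have : Fintype.card k = 2 * ((Fintype.card k - 1) / 2) + 1 := by omega
  conv_lhs => rw [this]
  rw [pow_succ, pow_mul, ss_sq, map_pow]

end frob

end

end Fermat.Agent.Lib.helper8135
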