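/-
Frobenius Cayley–Hamilton over finite fields: SPEC (Prop-valued leaves, hypothesis-passing).
See `helper8135_FrobDefs` for the model and `helper8135_FrobBasic` for the basic API.

Notation: `k` a field, `W = swc A B : y² = x³ + A x + B`, `FF A B = k(t)[s]/(s² - lam)`,
`gen = (t, s)`, `Lam A B` = odd points, `ht` = degree of the `x`-coordinate in `k(t)`,
`phi` = Frobenius, `rdeg r = max (deg num) (deg denom)`.
-/
import Fermat.Agent.Lib.helper8135_FrobBasic

set_option autoImplicit false

namespace Fermat.Agent.Lib.helper8135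

open Polynomial WeierstrassCurve WeierstrassCurve.Affine

noncomputable section

universe u

section pure

variable (k : Type u) [Field k]

variable {k} in
/-- Substitution `t ↦ g` in rational functions, for a transcendental (= non-constant) `g`. -/
def subst (g : RatFunc k) (hg : Transcendental k g) : RatFunc k →ₐ[k] RatFunc k :=
  RatFunc.liftAlgHom (Polynomial.aeval g) (fun p hp => by
    rw [Submonoid.mem_comap]
    exact mem_nonZeroDivisors_of_ne_zero (fun h0 => (nonZeroDivisors.ne_zero hp)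
      (transcendental_iff_injective.mp hg (by rw [h0, map_zero]))))

variable {k} in
@[simp] lemma subst_X (g : RatFunc k) (hg : Transcendental k g) : subst g hg RatFunc.X = g := by
  rw [subst, ← RatFunc.algebraMap_X, RatFunc.liftAlgHom_apply]
  simp

variable {k} in
@[simp] lemma subst_C (g : RatFunc k) (hg : Transcendental k g) (c : k) :
    subst g hg (RatFunc.C c) = RatFunc.C c := by
  rw [← RatFunc.algebraMap_eq_C, AlgHom.commutes]

/-- LEAF (DegComp): the degree of a composition of rational functions is multiplicative. -/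
def Stmt_DegComp : Prop :=
  ∀ (g : RatFunc k) (hg : Transcendental k g) (r : RatFunc k),
    rdeg (subst g hg r) = rdeg r * rdeg g

/-- LEAF (Biq): degree bound from the `x`-only sum and product formulas. -/
def Stmt_Biq : Prop :=
  ∀ (A B : k) (X₁ X₂ X₃ X₄ : RatFunc k), X₁ ≠ X₂ →
    X₃ * X₄ * (X₁ - X₂) ^ 2 = X₁ ^ 2 * X₂ ^ 2 - 2 * RatFunc.C A * X₁ * X₂
      - 4 * RatFunc.C B * (X₁ + X₂) + RatFunc.C A ^ 2 →
    (X₃ + X₄) * (X₁ - X₂) ^ 2 = 2 * X₁ * X₂ * (X₁ + X₂) + 2 * RatFunc.C A * (X₁ + X₂)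
      + 4 * RatFunc.C B →
    rdeg X₃ + rdeg X₄ ≤ 2 * rdeg X₁ + 2 * rdeg X₂

/-- LEAF (DupDeg): the duplication formula multiplies the degree by `4`. -/
def Stmt_DupDeg : Prop :=
  ∀ (A B : k), (2 : k) ≠ 0 → 4 * A ^ 3 + 27 * B ^ 2 ≠ 0 → ∀ (X X' : RatFunc k),
    4 * X ^ 3 + 4 * RatFunc.C A * X + 4 * RatFunc.C B ≠ 0 →
    X' * (4 * X ^ 3 + 4 * RatFunc.C A * X + 4 * RatFunc.C B)
      = X ^ 4 - 2 * RatFunc.C A * X ^ 2 - 8 * RatFunc.C B * X + RatFunc.C A ^ 2 →
    rdeg X' = 4 * rdeg X

/-- LEAF (Count): the degree of `x(φ G - G)` is the number of points of the curve. -/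
def Stmt_Count [Fintype k] : Prop :=
  ∀ (A B : k), (2 : k) ≠ 0 → 4 * A ^ 3 + 27 * B ^ 2 ≠ 0 →
    rdeg (lam A B * (lam A B ^ ((Fintype.card k - 1) / 2) + 1) ^ 2
        / (RatFunc.X ^ Fintype.card k - RatFunc.X) ^ 2
      - RatFunc.X ^ Fintype.card k - RatFunc.X)
      = Nat.card (swc A B).toAffine.Point

end pure

/-- LEAF (QF): abstract quadratic-form algebra.  A parallelogram-law height `h` on an abelian
group, an additive `F` multiplying `h` by `q`, an element `g` of height one, and ONE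
multiplicativity property `h (x + F x) = h (g + F g) * h x` force
`h (F² g - a F g + q g) = 0` for `a = q + 1 - h (F g - g)`. -/
def Stmt_QF : Prop :=
  ∀ (Λ : Type u) [AddCommGroup Λ] (h : Λ → ℕ) (F : Λ →+ Λ) (q : ℕ) (g : Λ),
    (∀ x y, h (x + y) + h (x - y) = 2 * h x + 2 * h y) →
    (∀ x, h (F x) = q * h x) → h g = 1 →
    (∀ x, 0 < h x → h (x + F x) = h (g + F g) * h x) →
    h (F (F g) - ((q : ℤ) + 1 - (h (F g - g) : ℤ)) • F g + (q : ℤ) • g) = 0

section curve

variable {k : Type u} [Field k] [DecidableEq k] (A B : k) [(swc A B).IsElliptic]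

/-- (Par): the parallelogram law for the height on odd points. -/
def Stmt_Par : Prop :=
  ∀ P ∈ Lam A B, ∀ Q ∈ Lam A B,
    ht A B (P + Q) + ht A B (P - Q) = 2 * ht A B P + 2 * ht A B Q

/-- (Zero): odd points of height zero are constant points. -/
def Stmt_Zero : Prop :=
  ∀ P ∈ Lam A B, ht A B P = 0 →
    P ∈ Set.range (Point.map (W' := swc A B) (Algebra.ofId k (FF A B)))

variable [Fintype k]

/-- (FrobHt): Frobenius multiplies the height by `q`. -/
def Stmt_FrobHt : Prop :=
  ∀ P ∈ Lam A B, ht A B (phi A B (FF A B) P) = Fintype.card k * ht A B P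

/-- (CountHt): the height of `φ G - G` is the number of points. -/
def Stmt_CountHt : Prop :=
  ht A B (phi A B (FF A B) (gen A B) - gen A B) = Nat.card (swc A B).toAffine.Point

/-- (CompHt): `ht (P + φ P) = ht (G + φ G) * ht P` for non-constant odd `P`
("`(1 + φ) ∘ P` has degree `deg (1 + φ) * deg P`"). -/
def Stmt_CompHt : Prop :=
  ∀ P ∈ Lam A B, 0 < ht A B P →
    ht A B (P + phi A B (FF A B) P) = ht A B (gen A B + phi A B (FF A B) (gen A B)) * ht A B P

/-- (Gen): `Ψ(G)` is a constant point, where `Ψ = φ² - a φ + q`. -/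
def Stmt_Gen : Prop :=
  Psi A B (FF A B) (gen A B) ∈ Set.range (Point.map (W' := swc A B) (Algebra.ofId k (FF A B)))

end curve

end

end Fermat.Agent.Lib.helper8135
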