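import Fermat.Agent.Lib.helper822_TorsionFinite
import Fermat.Prelude.Def_GaloisRep_Residual
import Mathlib.FieldTheory.IntermediateField.Adjoin.Basic

set_option autoImplicit false

namespace Fermat.Agent.Lib.helper822

open WeierstrassCurve WeierstrassCurve.Affine

/-- The Galois action on the `n`-torsion of a Weierstrass curve over `ℚ` factors through a finite
level (the field generated by the coordinates of the finitely many `n`-torsion points). -/
theorem galoisFactorsThroughFiniteLevel_torsion [DecidableEq (AlgebraicClosure ℚ)]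
    (W : WeierstrassCurve ℚ) (n : ℕ) (hn : n ≠ 0) :
    GaloisFactorsThroughFiniteLevel
      (WeierstrassCurve.Affine.Point.galoisRepModuleEnd (K := AlgebraicClosure ℚ) ℚ W n) := by
  have hfin : {P : (W⁄(AlgebraicClosure ℚ)).Point | n • P = 0}.Finite :=
    finite_nsmul_eq_zero _ n hn
  set T : Set (W⁄(AlgebraicClosure ℚ)).Point := {P | n • P = 0} with hT
  let S : Set (AlgebraicClosure ℚ) :=
    (fun P : (W⁄(AlgebraicClosure ℚ)).Point => (P.xRep 0)) '' T ∪ (yCoord _ '' T)
  have hS : S.Finite := (hfin.image _).union (hfin.image _)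
  have : Finite S := hS.to_subtype
  have halg : Algebra.IsAlgebraic ℚ (AlgebraicClosure ℚ) := AlgebraicClosure.isAlgebraic ℚ
  refine ⟨IntermediateField.adjoin ℚ S, ?_, ?_⟩
  · exact IntermediateField.finiteDimensional_adjoin
      (fun x _ => (halg.isAlgebraic x).isIntegral)
  · intro σ hσ
    refine LinearMap.ext fun x => Subtype.ext ?_
    obtain ⟨P, hP⟩ := x
    have hPT : P ∈ T := by
      have : (n : ℤ) • P = 0 := (Submodule.mem_torsionBy_iff _ _).mp hP
      simpa [hT] using this
    change Point.map σ.toAlgHom P = P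
    rcases P with _ | ⟨x, y, h⟩
    · rfl
    · have hx : σ x = x := hσ x (IntermediateField.subset_adjoin ℚ S (Or.inl ⟨_, hPT, rfl⟩))
      have hy : σ y = y := hσ y (IntermediateField.subset_adjoin ℚ S (Or.inr ⟨_, hPT, rfl⟩))
      rw [Point.map_some]
      simp only [Point.some.injEq]
      exact ⟨hx, hy⟩

end Fermat.Agent.Lib.helper822
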