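import Mathlib

/-!
# Local algebra at a regular closed point of a relative curve (helper8326)

Shared brick for S37 / S18 (board row S37/S18-REGLOC).  Mathlib only.

Setting: `R` a noetherian domain, `π : R` a prime element lying in the Jacobson radical, such that
`R ⧸ (π)` is a principal ideal ring.  The typical instance is the local ring `R = T_𝔫` of a normal
arithmetic surface at a closed point `z` of the special fibre where the maximal ideal is `(π, g)`
and the fibre `(T/π)_𝔫` is a discrete valuation ring (output of the purity brick).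

Main results (namespace `Fermat.Agent.Lib.helper8326`):

* `eq_span_singleton_of_le_sup`   : Nakayama step: a prime `𝔮 ∌ π` with `𝔮 ≤ (f) ⊔ (π)`, `f ∈ 𝔮`,
                                     is `(f)`.
* `exists_mem_eq_span_singleton`  : every prime `𝔮 ∌ π` is principal.
* `uniqueFactorizationMonoid`     : `R` is a UFD.
* `exists_section_generator`      : local equation `t` of a "section prime" `𝔮`
                                     (`𝔮 ⊔ (π) = 𝔪`): `𝔮 = (t)`, `𝔪 = (π, t)`, `t` prime, and the
                                     image of `𝔪` in `R ⧸ (π)` is generated by the image of `t`.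
* `ker_sup_span_eq_maximalIdeal`  : the kernel of a surjection `s : R → O` onto a local ring whose
                                     maximal ideal is `(s π)` is a section prime.
* `IsUnitAt`, `exists_unit_eq_of_forall_isUnitAt` : Hartogs for a UFD `R`: a nonzero element of
                                     `Frac R` which is a unit at every prime element is a unit.
* `primeValuationSubring`         : the valuation subring `R_(t)` of `Frac R`, `t` prime, `R` UFD.
* `exists_unit_eq_of_forall_valuationSubring` : Hartogs, valuation form.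
* `centre`, `exists_prime_centre_eq_span`, `exists_prime_eq_primeValuationSubring` : dictionary:
                                     every valuation subring `V ≠ ⊤` of `Frac R` containing
                                     `R[1/π]` is `R_(t)` for a prime `t ∤ π` (its centre is `(t)`).
* `associated_mk_prod_of_sections`, `associated_mk_of_sections` : conservation of number,
                                     algebraic core.
* `associated_of_forall_valuationSubring` : two elements prime to `π` with the same valuation at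
                                     every horizontal valuation are associated.
* `associated_mk_of_forall_valuationSubring` : consumer form: if the horizontal divisor of `a / b`
                                     is `∑ mᵢ (tᵢ) - ∑ m'ⱼ (t'ⱼ)` with `∑ mᵢ = ∑ m'ⱼ`, the `tᵢ`,
                                     `t'ⱼ` local equations of sections through the closed point,
                                     then the reductions of `a`, `b` mod `π` are associated
                                     (the reduction of `a / b` is a unit at the closed point).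
* `exists_units_mul_pow_of_forall_valuationSubring`,
  `exists_units_eq_mul_pow_of_forall_valuationSubring` : Kummer-local factorisation
                                     `U = u * g ^ p`, `u` a unit of `R`, `g ≡ 1` modulo `π`.
-/

set_option autoImplicit false

namespace Fermat.Agent.Lib.helper8326

open Ideal

section Nakayama

variable {R : Type*} [CommRing R]

/-- **Nakayama step.**  Let `π` lie in the Jacobson radical, `𝔮` a finitely generated prime ideal
not containing `π`, and `f ∈ 𝔮` such that `𝔮 ≤ (f) ⊔ (π)`.  Then `𝔮 = (f)`. -/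
theorem eq_span_singleton_of_le_sup {π : R} (hJ : π ∈ Ideal.jacobson (⊥ : Ideal R))
    {𝔮 : Ideal R} (h𝔮 : 𝔮.IsPrime) (hfg : 𝔮.FG) (hπ𝔮 : π ∉ 𝔮) {f : R} (hf : f ∈ 𝔮)
    (hgen : 𝔮 ≤ Ideal.span {f} ⊔ Ideal.span {π}) : 𝔮 = Ideal.span {f} := by
  refine le_antisymm ?_ ((Ideal.span_singleton_le_iff_mem 𝔮).mpr hf)
  have hIJ : Ideal.span {π} ≤ Ideal.jacobson (⊥ : Ideal R) :=
    (Ideal.span_singleton_le_iff_mem _).mpr hJ
  refine Submodule.le_of_le_smul_of_le_jacobson_bot (I := Ideal.span {π}) hfg hIJ ?_
  intro y hy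
  obtain ⟨a, b, hb, hab⟩ := Ideal.mem_span_singleton_sup.mp (hgen hy)
  obtain ⟨c, rfl⟩ := Ideal.mem_span_singleton'.mp hb
  -- `y = a * f + c * π`, so `c * π ∈ 𝔮`, hence `c ∈ 𝔮`
  have hcπ : c * π ∈ 𝔮 := by
    have : c * π = y - a * f := by rw [← hab]; ring
    rw [this]
    exact 𝔮.sub_mem hy (𝔮.mul_mem_left a hf)
  have hc : c ∈ 𝔮 := (h𝔮.mem_or_mem hcπ).resolve_right hπ𝔮
  rw [← hab]
  refine Submodule.add_mem_sup (Ideal.mem_span_singleton'.mpr ⟨a, rfl⟩) ?_
  rw [smul_eq_mul, mul_comm c π]
  exact Ideal.mul_mem_mul (Ideal.mem_span_singleton_self π) hc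

end Nakayama

section UFD

variable {R : Type*} [CommRing R] [IsNoetherianRing R]

/-- Every prime ideal `𝔮 ∌ π` is principal, generated by any lift in `𝔮` of a generator of its
image in the principal ideal ring `R ⧸ (π)`. -/
theorem exists_mem_eq_span_singleton {π : R} (hJ : π ∈ Ideal.jacobson (⊥ : Ideal R))
    [IsPrincipalIdealRing (R ⧸ Ideal.span {π})] (𝔮 : Ideal R) [h𝔮 : 𝔮.IsPrime] (hπ𝔮 : π ∉ 𝔮) :
    ∃ f ∈ 𝔮, 𝔮 = Ideal.span {f} ∧
      Ideal.map (Ideal.Quotient.mk (Ideal.span {π})) 𝔮
        = Ideal.span {Ideal.Quotient.mk (Ideal.span {π}) f} := by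
  set q := Ideal.Quotient.mk (Ideal.span {π}) with hq
  have hsurj : Function.Surjective q := Ideal.Quotient.mk_surjective
  obtain ⟨g, hg⟩ := (IsPrincipalIdealRing.principal (Ideal.map q 𝔮)).principal
  have hg' : Ideal.map q 𝔮 = Ideal.span {g} := hg
  have hgmem : g ∈ Ideal.map q 𝔮 := by rw [hg']; exact Ideal.mem_span_singleton_self g
  obtain ⟨f, hf, rfl⟩ := (Ideal.mem_map_iff_of_surjective q hsurj).mp hgmem
  refine ⟨f, hf, ?_, hg'⟩
  refine eq_span_singleton_of_le_sup hJ h𝔮 (IsNoetherian.noetherian 𝔮) hπ𝔮 hf ?_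
  intro y hy
  have hy' : q y ∈ Ideal.span {q f} := by
    rw [← hg']; exact Ideal.mem_map_of_mem q hy
  obtain ⟨c, hc⟩ := Ideal.mem_span_singleton'.mp hy'
  obtain ⟨c, rfl⟩ := hsurj c
  have hsub : y - c * f ∈ Ideal.span {π} := by
    rw [← Ideal.Quotient.eq, map_mul, hc]
  have : y = c * f + (y - c * f) := by ring
  rw [this]
  exact Submodule.add_mem_sup (Ideal.mem_span_singleton'.mpr ⟨c, rfl⟩) hsub

variable [IsDomain R]

/-- **Factoriality.**  A noetherian domain `R` with a prime element `π` in the Jacobson radical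
such that `R ⧸ (π)` is a principal ideal ring is a unique factorisation domain.
(Instance: a two-dimensional regular local ring whose special fibre is a discrete valuation
ring; no Auslander–Buchsbaum needed.) -/
theorem uniqueFactorizationMonoid {π : R} (hπ : Prime π)
    (hJ : π ∈ Ideal.jacobson (⊥ : Ideal R)) [IsPrincipalIdealRing (R ⧸ Ideal.span {π})] :
    UniqueFactorizationMonoid R := by
  rw [UniqueFactorizationMonoid.iff_exists_prime_mem_of_isPrime]
  intro I hI hIp
  by_cases hπI : π ∈ I
  · exact ⟨π, hπI, hπ⟩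
  · obtain ⟨f, hf, hIf, -⟩ := exists_mem_eq_span_singleton hJ I hπI
    have hf0 : f ≠ 0 := by
      rintro rfl
      apply hI
      rw [hIf]
      simp
    exact ⟨f, hf, (Ideal.span_singleton_prime hf0).mp (hIf ▸ hIp)⟩

end UFD

section Sections

variable {R : Type*} [CommRing R] [IsLocalRing R]

/-- In a local ring a non-unit lies in the Jacobson radical of `⊥`. -/
theorem mem_jacobson_bot_of_mem_maximalIdeal {π : R} (hπ : π ∈ IsLocalRing.maximalIdeal R) :
    π ∈ Ideal.jacobson (⊥ : Ideal R) := by
  rw [IsLocalRing.jacobson_eq_maximalIdeal ⊥ bot_ne_top]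
  exact hπ

variable [IsNoetherianRing R]

/-- **Local equation of a section.**  Let `R` be a noetherian local ring, `π` a non-unit with
`R ⧸ (π)` a principal ideal ring, and `𝔮` a prime with `π ∉ 𝔮` and `𝔮 ⊔ (π) = 𝔪` (a "section
prime": the horizontal curve `𝔮` meets the special fibre transversally).  Then `𝔮 = (t)` with
`𝔪 = (π, t)`, and the image of `t` generates the image of `𝔪` in `R ⧸ (π)` (it is a uniformiser
of the fibre). -/
theorem exists_section_generator {π : R} (hπm : π ∈ IsLocalRing.maximalIdeal R)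
    [IsPrincipalIdealRing (R ⧸ Ideal.span {π})] (𝔮 : Ideal R) [h𝔮 : 𝔮.IsPrime] (hπ𝔮 : π ∉ 𝔮)
    (hmax : 𝔮 ⊔ Ideal.span {π} = IsLocalRing.maximalIdeal R) :
    ∃ t : R, 𝔮 = Ideal.span {t} ∧ IsLocalRing.maximalIdeal R = Ideal.span {π, t} ∧
      Ideal.map (Ideal.Quotient.mk (Ideal.span {π})) (IsLocalRing.maximalIdeal R)
        = Ideal.span {Ideal.Quotient.mk (Ideal.span {π}) t} := by
  obtain ⟨t, ht, h𝔮t, hmap⟩ :=
    exists_mem_eq_span_singleton (mem_jacobson_bot_of_mem_maximalIdeal hπm) 𝔮 hπ𝔮
  refine ⟨t, h𝔮t, ?_, ?_⟩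
  · rw [← hmax, h𝔮t, sup_comm, Ideal.span_insert]
  · rw [← hmap, ← hmax, Ideal.map_sup, Ideal.map_span, Set.image_singleton,
      Ideal.Quotient.eq_zero_iff_mem.mpr (Ideal.mem_span_singleton_self π)]
    simp

omit [IsLocalRing R] [IsNoetherianRing R] in
/-- The generator of a nonzero section prime in a domain is a prime element. -/
theorem prime_of_span_singleton_isPrime [IsDomain R] {𝔮 : Ideal R} [h𝔮 : 𝔮.IsPrime] {t : R}
    (h : 𝔮 = Ideal.span {t}) (h0 : 𝔮 ≠ ⊥) : Prime t := by
  have ht0 : t ≠ 0 := by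
    rintro rfl
    exact h0 (by rw [h]; simp)
  exact (Ideal.span_singleton_prime ht0).mp (h ▸ h𝔮)

omit [IsNoetherianRing R] in
/-- The kernel of a surjective ring homomorphism `s : R → O` from a local ring onto a nontrivial
ring whose non-units are the multiples of `s π` (e.g. `O` a discrete valuation ring with
uniformiser `s π`: an `O`-valued point of the model) is a section prime:
`ker s ⊔ (π) = 𝔪`. -/
theorem ker_sup_span_eq_maximalIdeal {O : Type*} [CommRing O] [Nontrivial O] (s : R →+* O)
    (hs : Function.Surjective s) {π : R} (hπ : ¬ IsUnit (s π))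
    (hO : ∀ o : O, ¬ IsUnit o → s π ∣ o) :
    RingHom.ker s ⊔ Ideal.span {π} = IsLocalRing.maximalIdeal R := by
  have hker : RingHom.ker s ≤ IsLocalRing.maximalIdeal R :=
    IsLocalRing.le_maximalIdeal (RingHom.ker_ne_top s)
  have hπm : π ∈ IsLocalRing.maximalIdeal R := by
    rw [IsLocalRing.mem_maximalIdeal, mem_nonunits_iff]
    exact fun h => hπ (h.map s)
  refine le_antisymm (sup_le hker ((Ideal.span_singleton_le_iff_mem _).mpr hπm)) ?_
  intro y hy
  have hsy : ¬ IsUnit (s y) := by
    intro hu
    obtain ⟨o, ho⟩ := hu.exists_right_inv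
    obtain ⟨z, rfl⟩ := hs o
    have h1 : 1 - y * z ∈ RingHom.ker s := by
      rw [RingHom.mem_ker, map_sub, map_one, map_mul, ho, sub_self]
    have h2 : IsUnit (1 - y * z) := by
      have hyz : y * z ∈ IsLocalRing.maximalIdeal R := Ideal.mul_mem_right z _ hy
      by_contra hnu
      have h3 : 1 - y * z ∈ IsLocalRing.maximalIdeal R := by
        rw [IsLocalRing.mem_maximalIdeal, mem_nonunits_iff]; exact hnu
      have h4 : (1 : R) ∈ IsLocalRing.maximalIdeal R := by
        have := Ideal.add_mem _ h3 hyz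
        simp at this
      exact (Ideal.ne_top_iff_one _).mp (IsLocalRing.maximalIdeal.isMaximal R).ne_top h4
    exact (RingHom.ker_ne_top s) (Ideal.eq_top_of_isUnit_mem _ h1 h2)
  obtain ⟨o, ho⟩ := hO (s y) hsy
  obtain ⟨r, rfl⟩ := hs o
  have hmem : y - π * r ∈ RingHom.ker s := by
    rw [RingHom.mem_ker, map_sub, map_mul, ho, sub_self]
  have : y = (y - π * r) + r * π := by ring
  rw [this]
  exact Submodule.add_mem_sup hmem (Ideal.mem_span_singleton'.mpr ⟨r, rfl⟩)

end Sections

section Hartogs

variable {R : Type*} [CommRing R] [IsDomain R] [UniqueFactorizationMonoid R]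
variable {K : Type*} [Field K] [Algebra R K] [IsFractionRing R K]

/-- `x : K = Frac R` is a unit at the element `t` of `R`: it is a fraction of two elements of
`R` not divisible by `t`. -/
def IsUnitAt (t : R) (x : K) : Prop :=
  ∃ a b : R, ¬ t ∣ a ∧ ¬ t ∣ b ∧ x * algebraMap R K b = algebraMap R K a

omit [IsDomain R] [UniqueFactorizationMonoid R] [IsFractionRing R K] in
theorem IsUnitAt.of_associated {t t' : R} (h : Associated t t') {x : K} (hx : IsUnitAt t x) :
    IsUnitAt t' x := by
  obtain ⟨a, b, ha, hb, hab⟩ := hx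
  exact ⟨a, b, fun h' => ha (h.dvd_iff_dvd_left.mpr h'), fun h' => hb (h.dvd_iff_dvd_left.mpr h'),
    hab⟩

/-- **Hartogs for a UFD.**  A nonzero element of the fraction field which is a unit at every
prime element of `R` is a unit of `R`. -/
theorem exists_unit_eq_of_forall_isUnitAt (x : K) (hx0 : x ≠ 0)
    (h : ∀ t : R, Prime t → IsUnitAt t x) : ∃ u : Rˣ, x = algebraMap R K u := by
  obtain ⟨a₀, b₀, hrel, hx⟩ := IsFractionRing.exists_reduced_fraction R x
  have hb₀0 : (b₀ : R) ≠ 0 := nonZeroDivisors.coe_ne_zero b₀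
  have hspec : x * algebraMap R K (b₀ : R) = algebraMap R K a₀ := by
    rw [← hx]; exact IsLocalization.mk'_spec K a₀ b₀
  have hinj : Function.Injective (algebraMap R K) := IsFractionRing.injective R K
  have ha₀0 : a₀ ≠ 0 := by
    rintro rfl
    rw [map_zero] at hspec
    rcases mul_eq_zero.mp hspec with h1 | h1
    · exact hx0 h1
    · exact hb₀0 (hinj (by rw [h1, map_zero]))
  -- the cross relation with a local fraction at `t`
  have cross : ∀ {a b : R}, x * algebraMap R K b = algebraMap R K a → a₀ * b = a * b₀ := by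
    intro a b hab
    apply hinj
    rw [map_mul, map_mul, ← hspec, ← hab]
    ring
  have hb₀u : IsUnit (b₀ : R) := by
    by_contra hnu
    obtain ⟨i, hi, hib⟩ := WfDvdMonoid.exists_irreducible_factor hnu hb₀0
    have hip : Prime i := UniqueFactorizationMonoid.irreducible_iff_prime.mp hi
    obtain ⟨a, b, -, hb, hab⟩ := h i hip
    have h1 : i ∣ a₀ * b := by rw [cross hab]; exact Dvd.dvd.mul_left hib a
    have h2 : i ∣ a₀ := (hip.dvd_or_dvd h1).resolve_right hb
    exact hip.not_isUnit (hrel h2 hib)
  have ha₀u : IsUnit a₀ := by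
    by_contra hnu
    obtain ⟨i, hi, hia⟩ := WfDvdMonoid.exists_irreducible_factor hnu ha₀0
    have hip : Prime i := UniqueFactorizationMonoid.irreducible_iff_prime.mp hi
    obtain ⟨a, b, ha, -, hab⟩ := h i hip
    have h1 : i ∣ a * b₀ := by rw [← cross hab]; exact Dvd.dvd.mul_right hia b
    have h2 : i ∣ (b₀ : R) := (hip.dvd_or_dvd h1).resolve_left ha
    exact hip.not_isUnit (hrel hia h2)
  obtain ⟨ua, hua⟩ := ha₀u
  obtain ⟨ub, hub⟩ := hb₀u
  refine ⟨ua * ub⁻¹, ?_⟩
  have hbK : algebraMap R K (b₀ : R) ≠ 0 := fun h0 => hb₀0 (hinj (by rw [h0, map_zero]))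
  have h3 : algebraMap R K ((ua * ub⁻¹ : Rˣ) : R) * algebraMap R K (b₀ : R) = algebraMap R K a₀ := by
    rw [← map_mul, ← hub, ← hua, Units.val_mul, mul_assoc, ← Units.val_mul, inv_mul_cancel,
      Units.val_one, mul_one]
  exact mul_right_cancel₀ hbK (hspec.trans h3.symm)

/-- The valuation subring of `Frac R` attached to a prime element `t` of the UFD `R`
(the localisation `R_(t)`, a discrete valuation ring). -/
def primeValuationSubring (t : R) (ht : Prime t) : ValuationSubring K where
  carrier := {x | ∃ a b : R, ¬ t ∣ b ∧ x * algebraMap R K b = algebraMap R K a}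
  mul_mem' := by
    rintro x y ⟨a, b, hb, hab⟩ ⟨c, d, hd, hcd⟩
    refine ⟨a * c, b * d, fun h => (ht.dvd_or_dvd h).elim hb hd, ?_⟩
    rw [map_mul, map_mul, ← hab, ← hcd]; ring
  one_mem' := ⟨1, 1, fun h => ht.not_isUnit (isUnit_of_dvd_one h), by simp⟩
  add_mem' := by
    rintro x y ⟨a, b, hb, hab⟩ ⟨c, d, hd, hcd⟩
    refine ⟨a * d + c * b, b * d, fun h => (ht.dvd_or_dvd h).elim hb hd, ?_⟩
    rw [map_add, map_mul, map_mul, map_mul, ← hab, ← hcd]; ring
  zero_mem' := ⟨0, 1, fun h => ht.not_isUnit (isUnit_of_dvd_one h), by simp⟩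
  neg_mem' := by
    rintro x ⟨a, b, hb, hab⟩
    exact ⟨-a, b, hb, by rw [map_neg, ← hab]; ring⟩
  mem_or_inv_mem' := by
    intro x
    obtain ⟨a₀, b₀, hrel, hx⟩ := IsFractionRing.exists_reduced_fraction R x
    have hspec : x * algebraMap R K (b₀ : R) = algebraMap R K a₀ := by
      rw [← hx]; exact IsLocalization.mk'_spec K a₀ b₀
    by_cases hb : t ∣ (b₀ : R)
    · right
      have ha : ¬ t ∣ a₀ := fun ha => ht.not_isUnit (hrel ha hb)
      have hinj : Function.Injective (algebraMap R K) := IsFractionRing.injective R K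
      have ha0 : algebraMap R K a₀ ≠ 0 := by
        intro h0
        apply ha
        have : a₀ = 0 := hinj (by rw [h0, map_zero])
        rw [this]; exact dvd_zero t
      have hx0 : x ≠ 0 := by
        rintro rfl
        rw [zero_mul] at hspec
        exact ha0 hspec.symm
      refine ⟨(b₀ : R), a₀, ha, ?_⟩
      rw [← hspec]
      field_simp
    · exact Or.inl ⟨a₀, b₀, hb, hspec⟩

theorem mem_primeValuationSubring {t : R} {ht : Prime t} {x : K} :
    x ∈ primeValuationSubring (K := K) t ht ↔
      ∃ a b : R, ¬ t ∣ b ∧ x * algebraMap R K b = algebraMap R K a :=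
  Iff.rfl

theorem algebraMap_mem_primeValuationSubring (t : R) (ht : Prime t) (r : R) :
    algebraMap R K r ∈ primeValuationSubring (K := K) t ht :=
  ⟨r, 1, fun h => ht.not_isUnit (isUnit_of_dvd_one h), by simp⟩

theorem inv_algebraMap_mem_primeValuationSubring {t : R} (ht : Prime t) {r : R} (hr : ¬ t ∣ r) :
    (algebraMap R K r)⁻¹ ∈ primeValuationSubring (K := K) t ht := by
  have hinj : Function.Injective (algebraMap R K) := IsFractionRing.injective R K
  have hr0 : algebraMap R K r ≠ 0 := by
    intro h0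
    apply hr
    have : r = 0 := hinj (by rw [h0, map_zero])
    rw [this]; exact dvd_zero t
  exact ⟨1, r, hr, by rw [map_one]; exact inv_mul_cancel₀ hr0⟩

theorem inv_algebraMap_notMem_primeValuationSubring {t : R} (ht : Prime t) :
    (algebraMap R K t)⁻¹ ∉ primeValuationSubring (K := K) t ht := by
  rintro ⟨a, b, hb, hab⟩
  have hinj : Function.Injective (algebraMap R K) := IsFractionRing.injective R K
  have ht0 : algebraMap R K t ≠ 0 := fun h0 => ht.ne_zero (hinj (by rw [h0, map_zero]))
  apply hb
  refine ⟨a, hinj ?_⟩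
  rw [map_mul, ← hab]
  field_simp

theorem primeValuationSubring_ne_top {t : R} (ht : Prime t) :
    primeValuationSubring (K := K) t ht ≠ ⊤ := fun h =>
  inv_algebraMap_notMem_primeValuationSubring (K := K) ht (h ▸ ValuationSubring.mem_top _)

/-- An element which is a unit of `R_(t)` is a unit at `t` in the fraction sense. -/
theorem isUnitAt_of_mem_primeValuationSubring {t : R} (ht : Prime t) {x : K}
    (hx : x ∈ primeValuationSubring (K := K) t ht)
    (hx' : x⁻¹ ∈ primeValuationSubring (K := K) t ht) (hx0 : x ≠ 0) : IsUnitAt t x := by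
  obtain ⟨a, b, hb, hab⟩ := hx
  obtain ⟨a', b', hb', hab'⟩ := hx'
  have hinj : Function.Injective (algebraMap R K) := IsFractionRing.injective R K
  refine ⟨a, b, fun ha => ?_, hb, hab⟩
  have hmul : a * a' = b * b' := by
    apply hinj
    rw [map_mul, map_mul, ← hab, ← hab']
    field_simp
  have : t ∣ b * b' := by rw [← hmul]; exact Dvd.dvd.mul_right ha a'
  exact (ht.dvd_or_dvd this).elim hb hb'

/-- **Hartogs, valuation form.**  Let `π` be a prime of the UFD `R`.  A nonzero `x ∈ Frac R`
which is a unit at `π` and a unit in every valuation subring `V ≠ ⊤` of `Frac R` containing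
`R[1/π]` is a unit of `R`. -/
theorem exists_unit_eq_of_forall_valuationSubring {π : R} (hπ : Prime π) (x : K) (hx0 : x ≠ 0)
    (hGauss : IsUnitAt π x)
    (hV : ∀ V : ValuationSubring K, (∀ r : R, algebraMap R K r ∈ V) →
      (algebraMap R K π)⁻¹ ∈ V → V ≠ ⊤ → x ∈ V ∧ x⁻¹ ∈ V) :
    ∃ u : Rˣ, x = algebraMap R K u := by
  refine exists_unit_eq_of_forall_isUnitAt x hx0 fun t ht => ?_
  by_cases htπ : t ∣ π
  · exact hGauss.of_associated ((ht.dvd_prime_iff_associated hπ).mp htπ).symm
  · obtain ⟨h1, h2⟩ := hV (primeValuationSubring t ht)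
      (algebraMap_mem_primeValuationSubring t ht)
      (inv_algebraMap_mem_primeValuationSubring ht htπ) (primeValuationSubring_ne_top ht)
    exact isUnitAt_of_mem_primeValuationSubring ht h1 h2 hx0

end Hartogs

section Centre

variable {R : Type*} [CommRing R] {K : Type*} [Field K] [Algebra R K]

/-- The centre on `R` of a valuation subring `V` of `K` containing the image of `R`: the prime
ideal of the elements of `R` which are non-units of `V`. -/
def centre (V : ValuationSubring K) (hV : ∀ r : R, algebraMap R K r ∈ V) : Ideal R where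
  carrier := {r | V.valuation (algebraMap R K r) < 1}
  add_mem' := by
    intro a b ha hb
    simp only [Set.mem_ofPred_eq, map_add] at *
    exact Valuation.map_add_lt _ ha hb
  zero_mem' := by simp
  smul_mem' := by
    intro c x hx
    simp only [Set.mem_ofPred_eq, smul_eq_mul, map_mul] at *
    have hc : V.valuation (algebraMap R K c) ≤ 1 := (V.valuation_le_one_iff _).mpr (hV c)
    calc V.valuation (algebraMap R K c) * V.valuation (algebraMap R K x)
        ≤ 1 * V.valuation (algebraMap R K x) := mul_le_mul_left hc _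
      _ < 1 := by rwa [one_mul]

theorem mem_centre {V : ValuationSubring K} {hV : ∀ r : R, algebraMap R K r ∈ V} {r : R} :
    r ∈ centre V hV ↔ V.valuation (algebraMap R K r) < 1 :=
  Iff.rfl

theorem valuation_eq_one_of_notMem_centre {V : ValuationSubring K}
    {hV : ∀ r : R, algebraMap R K r ∈ V} {r : R} (hr : r ∉ centre V hV) :
    V.valuation (algebraMap R K r) = 1 :=
  le_antisymm ((V.valuation_le_one_iff _).mpr (hV r)) (not_lt.mp hr)

instance centre_isPrime (V : ValuationSubring K) (hV : ∀ r : R, algebraMap R K r ∈ V) :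
    (centre V hV).IsPrime := by
  refine ⟨?_, ?_⟩
  · rw [Ideal.ne_top_iff_one, mem_centre, map_one, map_one]
    exact lt_irrefl _
  · intro a b hab
    by_contra hcon
    rw [not_or] at hcon
    rw [mem_centre, map_mul, map_mul, valuation_eq_one_of_notMem_centre hcon.1,
      valuation_eq_one_of_notMem_centre hcon.2, one_mul] at hab
    exact lt_irrefl _ hab

/-- A nonzero element of `R` which is invertible in `V` does not lie in the centre. -/
theorem notMem_centre_of_inv_mem {V : ValuationSubring K} {hV : ∀ r : R, algebraMap R K r ∈ V}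
    {r : R} (hne : algebraMap R K r ≠ 0) (hr : (algebraMap R K r)⁻¹ ∈ V) : r ∉ centre V hV := by
  intro hmem
  rw [mem_centre] at hmem
  have h1 : V.valuation (algebraMap R K r)⁻¹ ≤ 1 := (V.valuation_le_one_iff _).mpr hr
  have hval : V.valuation (algebraMap R K r) * V.valuation (algebraMap R K r)⁻¹ = 1 := by
    rw [← map_mul, mul_inv_cancel₀ hne, map_one]
  have hlt : V.valuation (algebraMap R K r) * V.valuation (algebraMap R K r)⁻¹ < 1 :=
    calc V.valuation (algebraMap R K r) * V.valuation (algebraMap R K r)⁻¹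
        ≤ V.valuation (algebraMap R K r) * 1 := mul_le_mul_right h1 _
      _ < 1 := by rwa [mul_one]
  exact (lt_irrefl _) (hval ▸ hlt)

variable [IsDomain R] [IsFractionRing R K]

/-- If the centre of `V` on `R` is zero then `V` is the trivial valuation subring. -/
theorem eq_top_of_centre_eq_bot {V : ValuationSubring K} {hV : ∀ r : R, algebraMap R K r ∈ V}
    (h : centre V hV = ⊥) : V = ⊤ := by
  rw [eq_top_iff]
  intro x _
  obtain ⟨a, b, hb, rfl⟩ := IsFractionRing.div_surjective R (K := K) x
  have hb0 : b ≠ 0 := nonZeroDivisors.ne_zero hb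
  have hb' : b ∉ centre V hV := by rw [h]; simpa using hb0
  rw [← V.valuation_le_one_iff, map_div₀, valuation_eq_one_of_notMem_centre hb', div_one]
  exact (V.valuation_le_one_iff _).mpr (hV a)

variable [UniqueFactorizationMonoid R]

/-- **Dictionary.**  A valuation subring `V ⊇ R` of `Frac R` whose centre on the UFD `R` is the
principal prime `(t)` is the localisation `R_(t)`. -/
theorem eq_primeValuationSubring_of_centre_eq {t : R} (ht : Prime t) (V : ValuationSubring K)
    (hV : ∀ r : R, algebraMap R K r ∈ V) (hc : centre V hV = Ideal.span {t}) :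
    V = primeValuationSubring (K := K) t ht := by
  have hmem : ∀ r : R, t ∣ r ↔ r ∈ centre V hV := fun r => by
    rw [hc, Ideal.mem_span_singleton]
  ext x
  constructor
  · intro hx
    obtain ⟨a₀, b₀, hrel, hxab⟩ := IsFractionRing.exists_reduced_fraction R x
    have hspec : x * algebraMap R K (b₀ : R) = algebraMap R K a₀ := by
      rw [← hxab]; exact IsLocalization.mk'_spec K a₀ b₀
    by_cases hb : t ∣ (b₀ : R)
    · exfalso
      have ha : ¬ t ∣ a₀ := fun ha => ht.not_isUnit (hrel ha hb)
      have h1 : V.valuation (algebraMap R K a₀) = 1 :=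
        valuation_eq_one_of_notMem_centre (hV := hV) (fun h' => ha ((hmem _).mpr h'))
      have h2 : V.valuation (algebraMap R K (b₀ : R)) < 1 := (hmem _).mp hb
      have h3 : V.valuation x ≤ 1 := (V.valuation_le_one_iff _).mpr hx
      have h4 : V.valuation x * V.valuation (algebraMap R K (b₀ : R)) = 1 := by
        rw [← map_mul, hspec, h1]
      have h5 : V.valuation x * V.valuation (algebraMap R K (b₀ : R)) < 1 :=
        calc V.valuation x * V.valuation (algebraMap R K (b₀ : R))
            ≤ 1 * V.valuation (algebraMap R K (b₀ : R)) := mul_le_mul_left h3 _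
          _ < 1 := by rwa [one_mul]
      exact (lt_irrefl _) (h4 ▸ h5)
    · exact ⟨a₀, b₀, hb, hspec⟩
  · rintro ⟨a, b, hb, hab⟩
    have h1 : V.valuation (algebraMap R K b) = 1 :=
      valuation_eq_one_of_notMem_centre (hV := hV) (fun h' => hb ((hmem _).mpr h'))
    rw [← V.valuation_le_one_iff]
    have h2 : V.valuation x = V.valuation (algebraMap R K a) := by
      rw [← hab, map_mul, h1, mul_one]
    rw [h2]
    exact (V.valuation_le_one_iff _).mpr (hV a)

end Centre

section Horizontal

variable {R : Type*} [CommRing R] [IsDomain R] [IsNoetherianRing R]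
variable {K : Type*} [Field K] [Algebra R K] [IsFractionRing R K]

/-- **Horizontal valuation rings.**  Let `R` be a noetherian domain, `π` in the Jacobson radical,
`R ⧸ (π)` a principal ideal ring.  A valuation subring `V ≠ ⊤` of `Frac R` containing `R[1/π]`
has centre `(t)` on `R` for a prime element `t` not dividing `π`. -/
theorem exists_prime_centre_eq_span {π : R} (hJ : π ∈ Ideal.jacobson (⊥ : Ideal R))
    [IsPrincipalIdealRing (R ⧸ Ideal.span {π})] (V : ValuationSubring K)
    (hV : ∀ r : R, algebraMap R K r ∈ V) (hπ0 : π ≠ 0) (hπV : (algebraMap R K π)⁻¹ ∈ V)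
    (hVtop : V ≠ ⊤) :
    ∃ t : R, Prime t ∧ ¬ t ∣ π ∧ centre V hV = Ideal.span {t} := by
  have hπ0 : algebraMap R K π ≠ 0 := fun h0 =>
    hπ0 (IsFractionRing.injective R K (by rw [h0, map_zero]))
  have hπc : π ∉ centre V hV := notMem_centre_of_inv_mem hπ0 hπV
  obtain ⟨t, -, hct, -⟩ := exists_mem_eq_span_singleton hJ (centre V hV) hπc
  have ht0 : t ≠ 0 := by
    rintro rfl
    apply hVtop
    apply eq_top_of_centre_eq_bot (hV := hV)
    rw [hct]; simp
  refine ⟨t, (Ideal.span_singleton_prime ht0).mp (hct ▸ centre_isPrime V hV), ?_, hct⟩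
  intro hdvd
  apply hπc
  rw [hct]
  exact Ideal.mem_span_singleton.mpr hdvd

/-- **Horizontal valuation rings are the localisations at height-one primes.**  In the setting
of `exists_prime_centre_eq_span`, with `R` moreover a UFD (see `uniqueFactorizationMonoid`):
`V = R_(t)` for a prime element `t` not dividing `π`. -/
theorem exists_prime_eq_primeValuationSubring [UniqueFactorizationMonoid R] {π : R}
    (hJ : π ∈ Ideal.jacobson (⊥ : Ideal R)) [IsPrincipalIdealRing (R ⧸ Ideal.span {π})]
    (V : ValuationSubring K) (hV : ∀ r : R, algebraMap R K r ∈ V) (hπ0 : π ≠ 0)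
    (hπV : (algebraMap R K π)⁻¹ ∈ V) (hVtop : V ≠ ⊤) :
    ∃ (t : R) (ht : Prime t), ¬ t ∣ π ∧ V = primeValuationSubring (K := K) t ht := by
  obtain ⟨t, ht, htπ, hc⟩ := exists_prime_centre_eq_span hJ V hV hπ0 hπV hVtop
  exact ⟨t, ht, htπ, eq_primeValuationSubring_of_centre_eq ht V hV hc⟩

end Horizontal

section Consumer

variable {R : Type*} [CommRing R]

/-- Two products of local equations of sections through the same closed point, of equal total
multiplicity, have associated reductions modulo `π`. -/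
theorem associated_mk_prod_of_sections {π : R} {ι ι' : Type*} [Fintype ι] [Fintype ι']
    (t : ι → R) (t' : ι' → R) (m : ι → ℕ) (m' : ι' → ℕ) (hsum : ∑ i, m i = ∑ j, m' j)
    {τ : R ⧸ Ideal.span {π}}
    (ht : ∀ i, Associated (Ideal.Quotient.mk (Ideal.span {π}) (t i)) τ)
    (ht' : ∀ j, Associated (Ideal.Quotient.mk (Ideal.span {π}) (t' j)) τ) :
    Associated (Ideal.Quotient.mk (Ideal.span {π}) (∏ i, t i ^ m i))
      (Ideal.Quotient.mk (Ideal.span {π}) (∏ j, t' j ^ m' j)) := by
  set q := Ideal.Quotient.mk (Ideal.span {π}) with hq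
  rw [map_prod, map_prod]
  have h2 : Associated (∏ j, q (t' j ^ m' j)) (τ ^ ∑ j, m' j) := by
    rw [← Finset.prod_pow_eq_pow_sum]
    refine Associated.prod _ _ _ fun j _ => ?_
    rw [map_pow]
    exact (ht' j).pow_pow
  have h3 : Associated (∏ i, q (t i ^ m i)) (τ ^ ∑ j, m' j) := by
    rw [← hsum, ← Finset.prod_pow_eq_pow_sum]
    refine Associated.prod _ _ _ fun i _ => ?_
    rw [map_pow]
    exact (ht i).pow_pow
  exact h3.trans h2.symm

/-- **Conservation of number, algebraic core.**  Let `π` be a prime element, `τ ≠ 0` in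
`R ⧸ (π)`, and `t i`, `t' j` two finite families of elements of `R` whose reductions are all
associated to `τ` (local equations of sections through the closed point `(π, τ)`), with
multiplicities of equal total weight.  If `a * ∏ t' j ^ m' j` and `b * ∏ t i ^ m i` are
associated in `R`, then the reductions of `a` and `b` are associated in `R ⧸ (π)`. -/
theorem associated_mk_of_sections {π : R} (hπ : Prime π) {ι ι' : Type*} [Fintype ι] [Fintype ι']
    (t : ι → R) (t' : ι' → R) (m : ι → ℕ) (m' : ι' → ℕ) (hsum : ∑ i, m i = ∑ j, m' j)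
    {τ : R ⧸ Ideal.span {π}} (hτ : τ ≠ 0)
    (ht : ∀ i, Associated (Ideal.Quotient.mk (Ideal.span {π}) (t i)) τ)
    (ht' : ∀ j, Associated (Ideal.Quotient.mk (Ideal.span {π}) (t' j)) τ)
    {a b : R} (h : Associated (a * ∏ j, t' j ^ m' j) (b * ∏ i, t i ^ m i)) :
    Associated (Ideal.Quotient.mk (Ideal.span {π}) a) (Ideal.Quotient.mk (Ideal.span {π}) b) := by
  have : (Ideal.span {π}).IsPrime := (Ideal.span_singleton_prime hπ.ne_zero).mpr hπ
  have : IsDomain (R ⧸ Ideal.span {π}) := Ideal.Quotient.isDomain _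
  set q := Ideal.Quotient.mk (Ideal.span {π}) with hq
  have h1 := h.map q
  rw [map_mul, map_mul] at h1
  have h2 := associated_mk_prod_of_sections t t' m m' hsum ht ht'
  have h4 : q (∏ j, t' j ^ m' j) ≠ 0 := by
    have h5 : Associated (q (∏ j, t' j ^ m' j)) (τ ^ ∑ j, m' j) := by
      rw [map_prod, ← Finset.prod_pow_eq_pow_sum]
      refine Associated.prod _ _ _ fun j _ => ?_
      rw [map_pow]
      exact (ht' j).pow_pow
    intro h0
    rw [h0] at h5
    exact pow_ne_zero _ hτ (h5.symm.eq_zero_iff.mpr rfl)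
  exact Associated.of_mul_right h1 h2.symm h4

end Consumer

section Main

variable {R : Type*} [CommRing R] [IsLocalRing R]

/-- If `𝔪 = (π, t)` then the image of `𝔪` in `R ⧸ (π)` is generated by the image of `t`. -/
theorem map_maximalIdeal_eq_span_mk {π t : R}
    (ht : IsLocalRing.maximalIdeal R = Ideal.span {π, t}) :
    Ideal.map (Ideal.Quotient.mk (Ideal.span {π})) (IsLocalRing.maximalIdeal R)
      = Ideal.span {Ideal.Quotient.mk (Ideal.span {π}) t} := by
  rw [ht, Ideal.map_span, Set.image_pair,
    Ideal.Quotient.eq_zero_iff_mem.mpr (Ideal.mem_span_singleton_self π), Ideal.span_insert]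
  simp

/-- If `𝔪 = (π, t)` and `𝔪 ≠ (π)` then `π ∤ t`. -/
theorem not_dvd_of_maximalIdeal_eq_span_pair {π t : R}
    (hm : IsLocalRing.maximalIdeal R ≠ Ideal.span {π})
    (ht : IsLocalRing.maximalIdeal R = Ideal.span {π, t}) : ¬ π ∣ t := by
  intro hdvd
  apply hm
  rw [ht, Ideal.span_insert]
  exact sup_eq_left.mpr ((Ideal.span_singleton_le_span_singleton).mpr hdvd)

/-- In a local ring, an element whose image in a proper quotient is a unit is a unit. -/
theorem isUnit_of_isUnit_mk {I : Ideal R} (hI : I ≠ ⊤) {w : R}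
    (hw : IsUnit (Ideal.Quotient.mk I w)) : IsUnit w := by
  by_contra hnu
  have hwm : w ∈ IsLocalRing.maximalIdeal R := by
    rw [IsLocalRing.mem_maximalIdeal, mem_nonunits_iff]; exact hnu
  obtain ⟨v, hv⟩ := hw.exists_right_inv
  obtain ⟨v, rfl⟩ := Ideal.Quotient.mk_surjective v
  have h1 : w * v - 1 ∈ I := by
    rw [← Ideal.Quotient.eq_zero_iff_mem, map_sub, map_mul, hv, map_one, sub_self]
  have h2 : w * v - 1 ∈ IsLocalRing.maximalIdeal R := IsLocalRing.le_maximalIdeal hI h1
  have h3 : (1 : R) ∈ IsLocalRing.maximalIdeal R := by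
    have := Ideal.sub_mem _ (Ideal.mul_mem_right v _ hwm) h2
    simp at this
  exact (Ideal.ne_top_iff_one _).mp (IsLocalRing.maximalIdeal.isMaximal R).ne_top h3

variable [IsDomain R] [IsNoetherianRing R]
variable {K : Type*} [Field K] [Algebra R K] [IsFractionRing R K]

/-- **Hartogs at a regular closed point.**  Let `R` be a noetherian local domain, `π` a prime
element with `R ⧸ (π)` a principal ideal ring (e.g. `𝔪 = (π, t)` with `R ⧸ (π)` a discrete
valuation ring).  Two elements `A`, `B` of `R` not divisible by `π` which have the same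
valuation in every valuation subring `V ≠ ⊤` of `Frac R` containing `R[1/π]` (every "horizontal"
valuation) are associated. -/
theorem associated_of_forall_valuationSubring {π : R} (hπ : Prime π)
    [IsPrincipalIdealRing (R ⧸ Ideal.span {π})] {A B : R} (hA : ¬ π ∣ A) (hB : ¬ π ∣ B)
    (hV : ∀ V : ValuationSubring K, (∀ r : R, algebraMap R K r ∈ V) →
      (algebraMap R K π)⁻¹ ∈ V → V ≠ ⊤ →
      V.valuation (algebraMap R K A) = V.valuation (algebraMap R K B)) :
    Associated A B := by
  have hπm : π ∈ IsLocalRing.maximalIdeal R := by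
    rw [IsLocalRing.mem_maximalIdeal, mem_nonunits_iff]; exact hπ.not_isUnit
  have hJ := mem_jacobson_bot_of_mem_maximalIdeal hπm
  have hUFD : UniqueFactorizationMonoid R := uniqueFactorizationMonoid hπ hJ
  have hinj : Function.Injective (algebraMap R K) := IsFractionRing.injective R K
  have hA0 : algebraMap R K A ≠ 0 := fun h0 => hA (by
    have : A = 0 := hinj (by rw [h0, map_zero])
    rw [this]; exact dvd_zero π)
  have hB0 : algebraMap R K B ≠ 0 := fun h0 => hB (by
    have : B = 0 := hinj (by rw [h0, map_zero])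
    rw [this]; exact dvd_zero π)
  obtain ⟨u, hu⟩ := exists_unit_eq_of_forall_valuationSubring hπ
    (algebraMap R K A / algebraMap R K B) (div_ne_zero hA0 hB0)
    ⟨A, B, hA, hB, div_mul_cancel₀ _ hB0⟩ (fun V h1 h2 h3 => by
      have hv := hV V h1 h2 h3
      have hvB : V.valuation (algebraMap R K B) ≠ 0 := (Valuation.ne_zero_iff _).mpr hB0
      constructor
      · rw [← V.valuation_le_one_iff, map_div₀, hv, div_self hvB]
      · rw [← V.valuation_le_one_iff, map_inv₀, map_div₀, hv, div_self hvB, inv_one])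
  refine Associated.symm ⟨u, ?_⟩
  apply hinj
  rw [map_mul, ← hu, mul_div_cancel₀ _ hB0]

/-- **Conservation of number at a regular closed point (consumer form).**
`R` a noetherian local domain, `π` prime, `R ⧸ (π)` a principal ideal ring, `𝔪 ≠ (π)`;
`t i`, `t' j` local equations of sections through the closed point (`𝔪 = (π, t i) = (π, t' j)`)
with multiplicities `m i`, `m' j` of equal total weight; `a`, `b` not divisible by `π` (so that
`a / b` is a unit for the Gauss valuation).  If the horizontal divisor of `a / b` is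
`∑ m i • (t i) - ∑ m' j • (t' j)`, i.e. `a * ∏ t' j ^ m' j` and `b * ∏ t i ^ m i` have the same
valuation in every valuation subring `V ≠ ⊤` containing `R[1/π]`, then the reductions of `a`
and `b` modulo `π` are associated: the reduction of `a / b` is a unit at the closed point. -/
theorem associated_mk_of_forall_valuationSubring {π : R} (hπ : Prime π)
    [IsPrincipalIdealRing (R ⧸ Ideal.span {π})]
    (hm : IsLocalRing.maximalIdeal R ≠ Ideal.span {π})
    {ι ι' : Type*} [Fintype ι] [Fintype ι'] (t : ι → R) (t' : ι' → R) (m : ι → ℕ) (m' : ι' → ℕ)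
    (hsum : ∑ i, m i = ∑ j, m' j)
    (ht : ∀ i, IsLocalRing.maximalIdeal R = Ideal.span {π, t i})
    (ht' : ∀ j, IsLocalRing.maximalIdeal R = Ideal.span {π, t' j})
    {a b : R} (ha : ¬ π ∣ a) (hb : ¬ π ∣ b)
    (hV : ∀ V : ValuationSubring K, (∀ r : R, algebraMap R K r ∈ V) →
      (algebraMap R K π)⁻¹ ∈ V → V ≠ ⊤ →
      V.valuation (algebraMap R K (a * ∏ j, t' j ^ m' j))
        = V.valuation (algebraMap R K (b * ∏ i, t i ^ m i))) :
    Associated (a * ∏ j, t' j ^ m' j) (b * ∏ i, t i ^ m i) ∧
    Associated (Ideal.Quotient.mk (Ideal.span {π}) a) (Ideal.Quotient.mk (Ideal.span {π}) b) := by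
  have hP : ∀ i, ¬ π ∣ t i ^ m i := fun i h =>
    not_dvd_of_maximalIdeal_eq_span_pair hm (ht i) (hπ.dvd_of_dvd_pow h)
  have hP' : ∀ j, ¬ π ∣ t' j ^ m' j := fun j h =>
    not_dvd_of_maximalIdeal_eq_span_pair hm (ht' j) (hπ.dvd_of_dvd_pow h)
  have hA : ¬ π ∣ a * ∏ j, t' j ^ m' j := fun h => by
    rcases hπ.dvd_or_dvd h with h | h
    · exact ha h
    · obtain ⟨j, -, hj⟩ := (Prime.dvd_finsetProd_iff hπ _).mp h
      exact hP' j hj
  have hB : ¬ π ∣ b * ∏ i, t i ^ m i := fun h => by
    rcases hπ.dvd_or_dvd h with h | h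
    · exact hb h
    · obtain ⟨i, -, hi⟩ := (Prime.dvd_finsetProd_iff hπ _).mp h
      exact hP i hi
  have hassoc := associated_of_forall_valuationSubring (K := K) hπ hA hB hV
  refine ⟨hassoc, ?_⟩
  have hprime : (Ideal.span {π}).IsPrime := (Ideal.span_singleton_prime hπ.ne_zero).mpr hπ
  have hdom : IsDomain (R ⧸ Ideal.span {π}) := Ideal.Quotient.isDomain _
  obtain ⟨g, hg⟩ := (IsPrincipalIdealRing.principal
    (Ideal.map (Ideal.Quotient.mk (Ideal.span {π})) (IsLocalRing.maximalIdeal R))).principal
  have hg' : Ideal.map (Ideal.Quotient.mk (Ideal.span {π})) (IsLocalRing.maximalIdeal R)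
      = Ideal.span {g} := hg
  have hπm : π ∈ IsLocalRing.maximalIdeal R := by
    rw [IsLocalRing.mem_maximalIdeal, mem_nonunits_iff]; exact hπ.not_isUnit
  have hg0 : g ≠ 0 := by
    rintro rfl
    apply hm
    refine le_antisymm ?_ ((Ideal.span_singleton_le_iff_mem _).mpr hπm)
    intro y hy
    have : Ideal.Quotient.mk (Ideal.span {π}) y ∈
        Ideal.map (Ideal.Quotient.mk (Ideal.span {π})) (IsLocalRing.maximalIdeal R) :=
      Ideal.mem_map_of_mem _ hy
    rw [hg'] at this
    simp only [Set.singleton_zero, Ideal.span_zero, Ideal.mem_bot] at this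
    exact Ideal.Quotient.eq_zero_iff_mem.mp this
  refine associated_mk_of_sections hπ t t' m m' hsum hg0 (fun i => ?_) (fun j => ?_) hassoc
  · rw [← Ideal.span_singleton_eq_span_singleton, ← hg', map_maximalIdeal_eq_span_mk (ht i)]
  · rw [← Ideal.span_singleton_eq_span_singleton, ← hg', map_maximalIdeal_eq_span_mk (ht' j)]

/-- **Kummer-local factorisation at a regular closed point** (the hypothesis `(LOC)` of the
torsion core).  Same setting as `associated_mk_of_forall_valuationSubring`; `p : ℕ` arbitrary.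
If the horizontal divisor of `a / b` is `p • (∑ m i • (t i) - ∑ m' j • (t' j))`, then there are
units `u`, `w` of `R` with `G := ∏ t i ^ m i ≡ G' := w * ∏ t' j ^ m' j` modulo `π` and
`a * G' ^ p = u * b * G ^ p`; i.e. `a / b = u * g ^ p` with `g = G / G'` reducing to `1` at the
generic point of the special fibre. -/
theorem exists_units_mul_pow_of_forall_valuationSubring {π : R} (hπ : Prime π)
    [IsPrincipalIdealRing (R ⧸ Ideal.span {π})]
    (hm : IsLocalRing.maximalIdeal R ≠ Ideal.span {π})
    {ι ι' : Type*} [Fintype ι] [Fintype ι'] (t : ι → R) (t' : ι' → R) (m : ι → ℕ) (m' : ι' → ℕ)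
    (hsum : ∑ i, m i = ∑ j, m' j)
    (ht : ∀ i, IsLocalRing.maximalIdeal R = Ideal.span {π, t i})
    (ht' : ∀ j, IsLocalRing.maximalIdeal R = Ideal.span {π, t' j})
    (p : ℕ) {a b : R} (ha : ¬ π ∣ a) (hb : ¬ π ∣ b)
    (hV : ∀ V : ValuationSubring K, (∀ r : R, algebraMap R K r ∈ V) →
      (algebraMap R K π)⁻¹ ∈ V → V ≠ ⊤ →
      V.valuation (algebraMap R K (a * (∏ j, t' j ^ m' j) ^ p))
        = V.valuation (algebraMap R K (b * (∏ i, t i ^ m i) ^ p))) :
    ∃ u w : Rˣ, π ∣ (∏ i, t i ^ m i) - w * ∏ j, t' j ^ m' j ∧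
      a * ((w : R) * ∏ j, t' j ^ m' j) ^ p = u * b * (∏ i, t i ^ m i) ^ p ∧
      Associated (Ideal.Quotient.mk (Ideal.span {π}) a) (Ideal.Quotient.mk (Ideal.span {π}) b) := by
  have e1 : (∏ j, t' j ^ m' j) ^ p = ∏ j, t' j ^ (m' j * p) := by
    rw [← Finset.prod_pow]
    exact Finset.prod_congr rfl fun j _ => (pow_mul _ _ _).symm
  have e2 : (∏ i, t i ^ m i) ^ p = ∏ i, t i ^ (m i * p) := by
    rw [← Finset.prod_pow]
    exact Finset.prod_congr rfl fun i _ => (pow_mul _ _ _).symm
  have hsum' : ∑ i, m i * p = ∑ j, m' j * p := by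
    rw [← Finset.sum_mul, ← Finset.sum_mul, hsum]
  obtain ⟨hassoc, hmk⟩ := associated_mk_of_forall_valuationSubring (K := K) hπ hm t t'
    (fun i => m i * p) (fun j => m' j * p) hsum' ht ht' ha hb (fun V h1 h2 h3 => by
      rw [← e1, ← e2]; exact hV V h1 h2 h3)
  rw [← e1, ← e2] at hassoc
  obtain ⟨u₀, hu₀⟩ := hassoc
  -- the unit `w`
  have hprime : (Ideal.span {π}).IsPrime := (Ideal.span_singleton_prime hπ.ne_zero).mpr hπ
  have hdom : IsDomain (R ⧸ Ideal.span {π}) := Ideal.Quotient.isDomain _
  obtain ⟨g, hg⟩ := (IsPrincipalIdealRing.principal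
    (Ideal.map (Ideal.Quotient.mk (Ideal.span {π})) (IsLocalRing.maximalIdeal R))).principal
  have hg' : Ideal.map (Ideal.Quotient.mk (Ideal.span {π})) (IsLocalRing.maximalIdeal R)
      = Ideal.span {g} := hg
  have hprod := associated_mk_prod_of_sections (π := π) (τ := g) t t' m m' hsum
    (fun i => by
      rw [← Ideal.span_singleton_eq_span_singleton, ← hg', map_maximalIdeal_eq_span_mk (ht i)])
    (fun j => by
      rw [← Ideal.span_singleton_eq_span_singleton, ← hg', map_maximalIdeal_eq_span_mk (ht' j)])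
  obtain ⟨wq, hwq⟩ := hprod.symm
  obtain ⟨w₀, hw₀⟩ := Ideal.Quotient.mk_surjective (wq : R ⧸ Ideal.span {π})
  have hw₀u : IsUnit w₀ :=
    isUnit_of_isUnit_mk (I := Ideal.span {π}) hprime.ne_top (hw₀ ▸ wq.isUnit)
  obtain ⟨w, rfl⟩ := hw₀u
  refine ⟨w ^ p * u₀⁻¹, w, ?_, ?_, hmk⟩
  · rw [← Ideal.mem_span_singleton, ← Ideal.Quotient.eq_zero_iff_mem, map_sub, map_mul, hw₀,
      mul_comm, hwq, sub_self]
  · have h5 : a * (∏ j, t' j ^ m' j) ^ p = b * (∏ i, t i ^ m i) ^ p * ((u₀⁻¹ : Rˣ) : R) := by
      rw [← hu₀, mul_assoc, ← Units.val_mul, mul_inv_cancel, Units.val_one, mul_one]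
    rw [mul_pow, Units.val_mul, Units.val_pow_eq_pow_val]
    calc a * ((w : R) ^ p * (∏ j, t' j ^ m' j) ^ p)
        = (w : R) ^ p * (a * (∏ j, t' j ^ m' j) ^ p) := by ring
      _ = (w : R) ^ p * (b * (∏ i, t i ^ m i) ^ p * ((u₀⁻¹ : Rˣ) : R)) := by rw [h5]
      _ = (w : R) ^ p * ((u₀⁻¹ : Rˣ) : R) * b * (∏ i, t i ^ m i) ^ p := by ring

/-- **Kummer-local factorisation, fraction-field form.**  `U ∈ Frac R` nonzero, a unit at `π`
(Gauss unit), whose horizontal divisor is `p • (∑ m i • (t i) - ∑ m' j • (t' j))` with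
`∑ m i = ∑ m' j`.  Then `U = u * (G / G') ^ p` with `u`, `w` units of `R`, `G = ∏ t i ^ m i`,
`G' = w * ∏ t' j ^ m' j`, `G ≡ G'` modulo `π`. -/
theorem exists_units_eq_mul_pow_of_forall_valuationSubring {π : R} (hπ : Prime π)
    [IsPrincipalIdealRing (R ⧸ Ideal.span {π})]
    (hm : IsLocalRing.maximalIdeal R ≠ Ideal.span {π})
    {ι ι' : Type*} [Fintype ι] [Fintype ι'] (t : ι → R) (t' : ι' → R) (m : ι → ℕ) (m' : ι' → ℕ)
    (hsum : ∑ i, m i = ∑ j, m' j)
    (ht : ∀ i, IsLocalRing.maximalIdeal R = Ideal.span {π, t i})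
    (ht' : ∀ j, IsLocalRing.maximalIdeal R = Ideal.span {π, t' j})
    (p : ℕ) (U : K) (hUπ : IsUnitAt π U)
    (hV : ∀ V : ValuationSubring K, (∀ r : R, algebraMap R K r ∈ V) →
      (algebraMap R K π)⁻¹ ∈ V → V ≠ ⊤ →
      V.valuation U * V.valuation (algebraMap R K (∏ j, t' j ^ m' j)) ^ p
        = V.valuation (algebraMap R K (∏ i, t i ^ m i)) ^ p) :
    ∃ u w : Rˣ, π ∣ (∏ i, t i ^ m i) - w * ∏ j, t' j ^ m' j ∧
      U * algebraMap R K ((w : R) * ∏ j, t' j ^ m' j) ^ p
        = algebraMap R K u * algebraMap R K (∏ i, t i ^ m i) ^ p := by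
  obtain ⟨a, b, ha, hb, hab⟩ := hUπ
  have hinj : Function.Injective (algebraMap R K) := IsFractionRing.injective R K
  have hb0 : algebraMap R K b ≠ 0 := fun h0 => hb (by
    have : b = 0 := hinj (by rw [h0, map_zero])
    rw [this]; exact dvd_zero π)
  obtain ⟨u, w, hw, hfac, -⟩ := exists_units_mul_pow_of_forall_valuationSubring (K := K) hπ hm
    t t' m m' hsum ht ht' p ha hb (fun V h1 h2 h3 => by
      have hv := hV V h1 h2 h3
      simp only [map_mul, map_pow]
      rw [← hab, map_mul, ← hv, mul_left_comm, mul_assoc])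
  refine ⟨u, w, hw, ?_⟩
  apply mul_right_cancel₀ hb0
  have := congrArg (algebraMap R K) hfac
  simp only [map_mul, map_pow] at this
  rw [← hab] at this
  simp only [map_mul]
  linear_combination this

end Main


end Fermat.Agent.Lib.helper8326
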