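import Mathlib

/-!
# Minimal discriminant ⟹ normal (helper8354)

`V` a discrete valuation ring with uniformizer `t`, `C` a domain which is a finite free
`V`-algebra of rank `n`, `J = rad (t C)`.  If `C / J` is spanned by `s` elements and the
discriminant of `C / V` divides `t ^ a` with `a + s ≤ n`, then `C` is integrally closed.

(Always `ord_t discr ≥ n - s`; equality forces `J = t • (trace dual of C)`, hence `(J : J) = C`,
hence normality by a Grauert–Remmert style descent.)
-/

set_option autoImplicit false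
set_option linter.unusedSectionVars false

open Module

namespace Fermat.Agent.Lib.helper8354

section OneDim

variable {V C : Type*} [CommRing V] [IsDomain V] [IsDiscreteValuationRing V]
  [CommRing C] [IsDomain C] [Algebra V C] [Module.Free V C] [Module.Finite V C]

/-- The radical of `t C`. -/
def radT (V : Type*) {C : Type*} [CommRing V] [CommRing C] [Algebra V C] (t : V) : Ideal C :=
  (Ideal.span {algebraMap V C t}).radical

omit [IsDomain V] [IsDiscreteValuationRing V] [IsDomain C] [Module.Free V C] [Module.Finite V C] in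
theorem algebraMap_mem_radT (t : V) : algebraMap V C t ∈ radT V (C := C) t :=
  Ideal.le_radical (Ideal.subset_span rfl)

omit [IsDomain V] [IsDiscreteValuationRing V] [IsDomain C] [Module.Free V C] [Module.Finite V C] in
theorem smul_mem_radT (t : V) (x : C) : t • x ∈ radT V (C := C) t := by
  rw [Algebra.smul_def]
  exact Ideal.mul_mem_right _ _ (algebraMap_mem_radT t)

omit [IsDomain C] in
/-- The trace of an element of `rad (t C)` is divisible by `t`. -/
theorem trace_mem_of_mem_radT {t : V} (ht : Irreducible t) {z : C} (hz : z ∈ radT V t) :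
    ∃ r : V, Algebra.trace V C z = t * r := by
  obtain ⟨m, hm⟩ := hz
  have hmax : IsLocalRing.maximalIdeal V = Ideal.span {t} := ht.maximalIdeal_eq
  have hmap : Ideal.map (algebraMap V C) (IsLocalRing.maximalIdeal V)
      = Ideal.span {algebraMap V C t} := by
    rw [hmax, Ideal.map_span, Set.image_singleton]
  have hnil : IsNilpotent (Ideal.Quotient.mk
      (Ideal.map (algebraMap V C) (IsLocalRing.maximalIdeal V)) z) := by
    refine ⟨m, ?_⟩
    rw [← map_pow, Ideal.Quotient.eq_zero_iff_mem, hmap]
    exact hm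
  have h2 := Algebra.isNilpotent_trace_of_isNilpotent
    (R := V ⧸ IsLocalRing.maximalIdeal V) hnil
  rw [Algebra.trace_quotient_mk] at h2
  have h3 : Ideal.Quotient.mk (IsLocalRing.maximalIdeal V) (Algebra.trace V C z) = 0 :=
    h2.eq_zero
  rw [Ideal.Quotient.eq_zero_iff_mem, hmax, Ideal.mem_span_singleton'] at h3
  obtain ⟨r, hr⟩ := h3
  exact ⟨r, by rw [← hr, mul_comm]⟩

/-! ### Smith data for `J = rad (t C)` -/

section Smith

variable {t : V} {ι : Type*} [Fintype ι] [DecidableEq ι]
  (e : Basis ι V C) (a : ι → V) (ab : Basis ι V (radT V (C := C) t))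

omit [IsDomain V] [IsDiscreteValuationRing V] [IsDomain C] [Module.Free V C]
  [Module.Finite V C] [DecidableEq ι] in
/-- coordinates of an element of `J` in the Smith basis. -/
theorem repr_eq_of_mem_radT (hab : ∀ i, (ab i : C) = a i • e i) {z : C} (hz : z ∈ radT V t)
    (i : ι) : e.repr z i = ab.repr ⟨z, hz⟩ i * a i := by
  have h1 : z = ∑ j, (ab.repr ⟨z, hz⟩ j * a j) • e j := by
    have h := congrArg Subtype.val (ab.sum_repr ⟨z, hz⟩)
    simp only [AddSubmonoidClass.coe_finsetSum, Submodule.coe_smul_of_tower, hab, smul_smul] at h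
    exact h.symm
  conv_lhs => rw [h1]
  rw [e.repr_sum_self]

omit [IsDiscreteValuationRing V] [IsDomain C] [Module.Free V C] [Module.Finite V C]
  [DecidableEq ι] in
/-- In a direction `e i ∉ J`, every coordinate of an element of `J` is divisible by `t`. -/
theorem repr_dvd_of_mem_radT (ht : Irreducible t) (hab : ∀ i, (ab i : C) = a i • e i)
    {z : C} (hz : z ∈ radT V t) {i : ι} (hi : e i ∉ radT V (C := C) t) :
    ∃ r : V, e.repr z i = t * r := by
  have h1 := repr_eq_of_mem_radT e a ab hab hz i
  have h2 := repr_eq_of_mem_radT e a ab hab (smul_mem_radT t (e i)) i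
  rw [map_smul, Finsupp.smul_apply, e.repr_self, Finsupp.single_eq_same, smul_eq_mul,
    mul_one] at h2
  have hnu : ¬ IsUnit (a i) := by
    intro hu
    apply hi
    obtain ⟨u, hu⟩ := hu
    have : e i = (↑u⁻¹ : V) • (ab i : C) := by
      rw [hab, ← hu, smul_smul, Units.inv_mul, one_smul]
    rw [this]
    exact Submodule.smul_of_tower_mem _ _ (ab i).2
  rcases ht.isUnit_or_isUnit h2 with hu | hu
  · obtain ⟨u, hu⟩ := hu
    refine ⟨ab.repr ⟨z, hz⟩ i * (↑u⁻¹ : V), ?_⟩
    have ha : a i = (↑u⁻¹ : V) * t := by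
      rw [h2, ← hu, ← mul_assoc, Units.inv_mul, one_mul]
    rw [h1, ha]
    ring
  · exact absurd hu hnu

/-- **Counting.**  If `C / J` is spanned by `s` elements, at most `s` of the Smith basis vectors
lie outside `J`. -/
theorem card_not_mem_le (ht : Irreducible t) (hab : ∀ i, (ab i : C) = a i • e i)
    {s : ℕ} (c : Fin s → C)
    (hc : ∀ x : C, ∃ (v : Fin s → V) (z : C), z ∈ radT V t ∧ x = ∑ j, v j • c j + z) :
    Nat.card {i : ι // e i ∉ radT V (C := C) t} ≤ s := by
  classical
  rw [Nat.card_eq_fintype_card]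
  have hne : Ideal.span {t} ≠ (⊤ : Ideal V) := by
    rw [Ne, Ideal.span_singleton_eq_top]
    exact ht.not_isUnit
  have : Nontrivial (V ⧸ Ideal.span {t}) := Ideal.Quotient.nontrivial_iff.mpr hne
  choose v z hz hx using hc
  let M : Matrix {i : ι // e i ∉ radT V (C := C) t} (Fin s) (V ⧸ Ideal.span {t}) :=
    fun i j => Ideal.Quotient.mk _ (e.repr (c j) i.1)
  let N : Matrix (Fin s) {i : ι // e i ∉ radT V (C := C) t} (V ⧸ Ideal.span {t}) :=
    fun j i => Ideal.Quotient.mk _ (v (e i.1) j)
  have hMN : M * N = 1 := by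
    ext i' i
    rw [Matrix.mul_apply]
    simp only [M, N, ← map_mul, ← map_sum]
    have h1 : e.repr (e i.1) i'.1 = ∑ j, v (e i.1) j * e.repr (c j) i'.1 + e.repr (z (e i.1)) i'.1 := by
      conv_lhs => rw [hx (e i.1)]
      simp
    obtain ⟨r, hr⟩ := repr_dvd_of_mem_radT e a ab ht hab (hz (e i.1)) i'.2
    have h2 : ∑ j, e.repr (c j) i'.1 * v (e i.1) j
        = e.repr (e i.1) i'.1 - t * r := by
      rw [h1, hr]
      simp only [mul_comm]
      ring
    rw [h2, map_sub, map_mul]
    have h3 : Ideal.Quotient.mk (Ideal.span {t}) t = 0 :=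
      Ideal.Quotient.eq_zero_iff_mem.mpr (Ideal.subset_span rfl)
    rw [h3, zero_mul, sub_zero, e.repr_self, Matrix.one_apply]
    by_cases h : i' = i
    · subst h; simp
    · rw [if_neg h, Finsupp.single_eq_of_ne (fun h' => h (Subtype.ext h')), map_zero]
  calc Fintype.card {i : ι // e i ∉ radT V (C := C) t}
      = (1 : Matrix {i : ι // e i ∉ radT V (C := C) t} _ (V ⧸ Ideal.span {t})).rank :=
        Matrix.rank_one.symm
    _ = (M * N).rank := by rw [hMN]
    _ ≤ M.rank := Matrix.rank_mul_le_left M N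
    _ ≤ Fintype.card (Fin s) := Matrix.rank_le_card_width M
    _ = s := Fintype.card_fin s

/-- **Key identity** (`J = t • (trace dual of C)`): under the minimal-discriminant hypothesis,
every `V`-linear functional `φ` on `C` is `x ↦ Tr (z x) / t` for some `z ∈ J`. -/
theorem exists_mem_radT_trace_eq (ht : Irreducible t) (hab : ∀ i, (ab i : C) = a i • e i)
    {s a₀ : ℕ} (c : Fin s → C)
    (hc : ∀ x : C, ∃ (v : Fin s → V) (z : C), z ∈ radT V t ∧ x = ∑ j, v j • c j + z)
    (hdisc : Algebra.discr V e ∣ t ^ a₀) (hcount : a₀ + s ≤ Fintype.card ι)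
    (φ : C →ₗ[V] V) :
    ∃ z ∈ radT V (C := C) t, ∀ x : C, Algebra.trace V C (z * x) = t * φ x := by
  classical
  have hG : ∀ i j, ∃ q : V, e i ∈ radT V (C := C) t → Algebra.trace V C (e i * e j) = t * q := by
    intro i j
    by_cases h : e i ∈ radT V (C := C) t
    · obtain ⟨q, hq⟩ := trace_mem_of_mem_radT ht (Ideal.mul_mem_right (e j) _ h)
      exact ⟨q, fun _ => hq⟩
    · exact ⟨0, fun h' => absurd h' h⟩
  choose Q hQ using hG
  let G'' : Matrix ι ι V := fun i j =>
    if e i ∈ radT V (C := C) t then Q i j else Algebra.trace V C (e i * e j)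
  let d : ι → V := fun i => if e i ∈ radT V (C := C) t then t else 1
  have hfac : Algebra.traceMatrix V e = Matrix.diagonal d * G'' := by
    ext i j
    rw [Matrix.diagonal_mul, Algebra.traceMatrix_apply, Algebra.traceForm_apply]
    simp only [d, G'']
    split_ifs with h
    · exact hQ i j h
    · rw [one_mul]
  have hprod : ∏ i, d i = t ^ (Finset.univ.filter (fun i => e i ∈ radT V (C := C) t)).card := by
    simp only [d]
    rw [Finset.prod_ite, Finset.prod_const, Finset.prod_const_one, mul_one]
  have hdet : Algebra.discr V e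
      = t ^ (Finset.univ.filter (fun i => e i ∈ radT V (C := C) t)).card * G''.det := by
    rw [Algebra.discr_def, hfac, Matrix.det_mul, Matrix.det_diagonal, hprod]
  have hcard := card_not_mem_le e a ab ht hab c hc
  rw [Nat.card_eq_fintype_card, Fintype.card_subtype] at hcard
  have hsum := Finset.card_filter_add_card_filter_not (s := (Finset.univ : Finset ι))
    (fun i => e i ∈ radT V (C := C) t)
  rw [Finset.card_univ] at hsum
  obtain ⟨m, hm⟩ : ∃ m, (Finset.univ.filter (fun i => e i ∈ radT V (C := C) t)).card = a₀ + m :=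
    ⟨(Finset.univ.filter (fun i => e i ∈ radT V (C := C) t)).card - a₀, by omega⟩
  obtain ⟨r, hr⟩ := hdisc
  have hunit : IsUnit G''.det := by
    rw [hdet, hm, pow_add] at hr
    have h1 : t ^ a₀ * 1 = t ^ a₀ * (G''.det * (t ^ m * r)) := by
      rw [mul_one]; conv_lhs => rw [hr]
      ring
    have h2 := mul_left_cancel₀ (pow_ne_zero a₀ ht.ne_zero) h1
    exact IsUnit.of_mul_eq_one _ h2.symm
  let w : ι → V := Matrix.vecMul (fun j => φ (e j)) G''⁻¹
  have hw : Matrix.vecMul w G'' = fun j => φ (e j) := by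
    simp only [w]
    rw [Matrix.vecMul_vecMul, Matrix.nonsing_inv_mul _ hunit, Matrix.vecMul_one]
  let mm : ι → C := fun i => if e i ∈ radT V (C := C) t then e i else t • e i
  have hmm : ∀ i, mm i ∈ radT V (C := C) t := by
    intro i
    simp only [mm]
    split_ifs with h
    · exact h
    · exact smul_mem_radT t (e i)
  have htr : ∀ i j, Algebra.trace V C (mm i * e j) = t * G'' i j := by
    intro i j
    simp only [mm, G'']
    split_ifs with h
    · exact hQ i j h
    · rw [smul_mul_assoc, map_smul, smul_eq_mul]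
  refine ⟨∑ i, w i • mm i, Ideal.sum_mem _ fun i _ => Submodule.smul_of_tower_mem _ _ (hmm i), ?_⟩
  have hbasis : ∀ j, Algebra.trace V C ((∑ i, w i • mm i) * e j) = t * φ (e j) := by
    intro j
    rw [Finset.sum_mul, map_sum]
    have h3 : ∀ i ∈ Finset.univ, Algebra.trace V C (w i • mm i * e j) = t * (w i * G'' i j) := by
      intro i _
      rw [smul_mul_assoc, map_smul, smul_eq_mul, htr]
      ring
    rw [Finset.sum_congr rfl h3, ← Finset.mul_sum]
    congr 1
    have := congrFun hw j
    simpa [Matrix.vecMul, dotProduct] using this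
  have hlin : (Algebra.trace V C).comp (LinearMap.mulLeft V (∑ i, w i • mm i)) = t • φ := by
    apply e.ext
    intro j
    simp only [LinearMap.comp_apply, LinearMap.mulLeft_apply, LinearMap.smul_apply, smul_eq_mul]
    exact hbasis j
  intro x
  have := LinearMap.congr_fun hlin x
  simpa only [LinearMap.comp_apply, LinearMap.mulLeft_apply, LinearMap.smul_apply, smul_eq_mul]
    using this

/-- **`(J : J) = C`** in denominator form. -/
theorem exists_eq_mul_of_colon (ht : Irreducible t) (hab : ∀ i, (ab i : C) = a i • e i)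
    {s a₀ : ℕ} (c : Fin s → C)
    (hc : ∀ x : C, ∃ (v : Fin s → V) (z : C), z ∈ radT V t ∧ x = ∑ j, v j • c j + z)
    (hdisc : Algebra.discr V e ∣ t ^ a₀) (hcount : a₀ + s ≤ Fintype.card ι)
    (c₀ : C) (v : V)
    (h : ∀ z ∈ radT V (C := C) t, ∃ z' ∈ radT V (C := C) t, c₀ * z = algebraMap V C v * z') :
    ∃ c₁ : C, c₀ = algebraMap V C v * c₁ := by
  classical
  have key := fun i => exists_mem_radT_trace_eq e a ab ht hab c hc hdisc hcount (e.coord i)
  choose z hz hztr using key
  have h' := fun i => h (z i) (hz i)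
  choose z' hz' hzz' using h'
  have htr' := fun i => trace_mem_of_mem_radT ht (hz' i)
  choose r hr using htr'
  have hcoord : ∀ i, e.repr c₀ i = v * r i := by
    intro i
    have h1 : t * e.repr c₀ i = t * (v * r i) := by
      have := hztr i c₀
      rw [Basis.coord_apply] at this
      rw [← this, mul_comm (z i) c₀, hzz' i, ← Algebra.smul_def, map_smul, smul_eq_mul, hr i]
      ring
    exact mul_left_cancel₀ ht.ne_zero h1
  refine ⟨∑ i, r i • e i, ?_⟩
  conv_lhs => rw [← e.sum_repr c₀]
  rw [← Algebra.smul_def, Finset.smul_sum]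
  refine Finset.sum_congr rfl fun i _ => ?_
  rw [hcoord i, smul_smul]

/-! ### Grauert–Remmert descent in the fraction field -/

section Descent

variable (K : Type*) [Field K] [Algebra C K] [IsFractionRing C K]

omit [IsDiscreteValuationRing V] [Module.Free V C] [Fintype ι] [DecidableEq ι] in
/-- Every element of `Frac C` has a nonzero denominator in `V`. -/
theorem exists_den (κ : K) :
    ∃ (c₀ : C) (v : V), v ≠ 0 ∧ κ * algebraMap C K (algebraMap V C v) = algebraMap C K c₀ := by
  obtain ⟨p, q, hq, rfl⟩ := IsFractionRing.div_surjective (A := C) κ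
  have halg : IsAlgebraic V q := (Algebra.IsIntegral.isIntegral (R := V) q).isAlgebraic
  obtain ⟨r, hr0, q', hq'⟩ := halg.exists_nonzero_dvd hq
  refine ⟨p * q', r, hr0, ?_⟩
  have hq0 : algebraMap C K q ≠ 0 := fun h =>
    nonZeroDivisors.ne_zero hq (IsFractionRing.injective C K (by rw [h, map_zero]))
  rw [hq', map_mul, map_mul]
  field_simp

/-- **`(J : J) = C`** inside the fraction field. -/
theorem exists_eq_algebraMap_of_mul_radT (ht : Irreducible t)
    (hab : ∀ i, (ab i : C) = a i • e i) {s a₀ : ℕ} (c : Fin s → C)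
    (hc : ∀ x : C, ∃ (v : Fin s → V) (z : C), z ∈ radT V t ∧ x = ∑ j, v j • c j + z)
    (hdisc : Algebra.discr V e ∣ t ^ a₀) (hcount : a₀ + s ≤ Fintype.card ι) (κ : K)
    (h : ∀ j ∈ radT V (C := C) t, ∃ j' ∈ radT V (C := C) t,
      κ * algebraMap C K j = algebraMap C K j') :
    ∃ c₁ : C, κ = algebraMap C K c₁ := by
  obtain ⟨c₀, v, hv0, hκ⟩ := exists_den (V := V) (C := C) K κ
  have hinj : Function.Injective (algebraMap C K) := IsFractionRing.injective C K
  obtain ⟨c₁, hc₁⟩ := exists_eq_mul_of_colon e a ab ht hab c hc hdisc hcount c₀ v (by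
    intro z hz
    obtain ⟨z', hz', hzz'⟩ := h z hz
    refine ⟨z', hz', hinj ?_⟩
    rw [map_mul, map_mul, ← hκ, ← hzz']
    ring)
  refine ⟨c₁, ?_⟩
  have hv : algebraMap C K (algebraMap V C v) ≠ 0 := by
    intro h0
    have h1 : algebraMap V C v = 0 := hinj (by rw [h0, map_zero])
    exact hv0 (FaithfulSMul.algebraMap_injective V C (by rw [h1, map_zero]))
  have h2 : κ * algebraMap C K (algebraMap V C v)
      = algebraMap C K c₁ * algebraMap C K (algebraMap V C v) := by
    rw [hκ, hc₁, map_mul]
    ring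
  exact mul_right_cancel₀ hv h2

/-- One step of the descent: `J ^ (d + 1) • M ⊆ C` implies `J ^ d • M ⊆ C`. -/
theorem descent_step (ht : Irreducible t)
    (hab : ∀ i, (ab i : C) = a i • e i) {s a₀ : ℕ} (c : Fin s → C)
    (hc : ∀ x : C, ∃ (v : Fin s → V) (z : C), z ∈ radT V t ∧ x = ∑ j, v j • c j + z)
    (hdisc : Algebra.discr V e ∣ t ^ a₀) (hcount : a₀ + s ≤ Fintype.card ι)
    (M : Subalgebra C K) (d : ℕ)
    (hP : ∀ z ∈ radT V (C := C) t ^ (d + 1), ∀ m ∈ M,
      ∃ c' : C, algebraMap C K z * m = algebraMap C K c') :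
    ∀ z ∈ radT V (C := C) t ^ d, ∀ m ∈ M,
      ∃ c' : C, algebraMap C K z * m = algebraMap C K c' := by
  intro z hz m hm
  have hinj : Function.Injective (algebraMap C K) := IsFractionRing.injective C K
  apply exists_eq_algebraMap_of_mul_radT e a ab K ht hab c hc hdisc hcount
  intro j hj
  have hzj : z * j ∈ radT V (C := C) t ^ (d + 1) := by
    rw [pow_succ]
    exact Ideal.mul_mem_mul hz hj
  obtain ⟨c', hc'⟩ := hP (z * j) hzj m hm
  refine ⟨c', ?_, ?_⟩
  · have hj' := hj
    obtain ⟨k0, hk0⟩ := hj'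
    obtain ⟨c'', hc''⟩ := Ideal.mem_span_singleton'.mp hk0
    have h1 : j ^ (d + 1) * z ^ (k0 + (d + 1)) ∈ radT V (C := C) t ^ (d + 1) :=
      Ideal.mul_mem_right _ _ (Ideal.pow_mem_pow hj (d + 1))
    obtain ⟨c₃, hc₃⟩ := hP _ h1 (m ^ (k0 + (d + 1))) (Subalgebra.pow_mem M hm _)
    refine ⟨k0 + (d + 1), ?_⟩
    rw [Ideal.mem_span_singleton']
    refine ⟨c'' * c₃, hinj ?_⟩
    have e1 : algebraMap C K (c'' * c₃ * algebraMap V C t)
        = algebraMap C K (c'' * algebraMap V C t) * algebraMap C K c₃ := by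
      rw [← map_mul]
      congr 1
      ring
    rw [e1, hc'', ← hc₃]
    simp only [map_mul, map_pow]
    rw [← hc']
    simp only [map_mul]
    ring
  · rw [← hc', map_mul]
    ring

omit [Module.Free V C] [Fintype ι] [DecidableEq ι] in
/-- Start of the descent: a high power of `J` multiplies a finite `C`-submodule of `Frac C`
into `C`. -/
theorem descent_base (ht : Irreducible t) (M : Subalgebra C K)
    (hM : (Subalgebra.toSubmodule M).FG) :
    ∃ D : ℕ, ∀ z ∈ radT V (C := C) t ^ D, ∀ m ∈ M,
      ∃ c' : C, algebraMap C K z * m = algebraMap C K c' := by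
  classical
  obtain ⟨S, hS⟩ := hM
  obtain ⟨⟨q, hq⟩, hb⟩ := IsLocalization.exist_integer_multiples_of_finset (nonZeroDivisors C) S
  have halg : IsAlgebraic V q := (Algebra.IsIntegral.isIntegral (R := V) q).isAlgebraic
  obtain ⟨r, hr0, q', hq'⟩ := halg.exists_nonzero_dvd hq
  obtain ⟨N, hN⟩ := IsDiscreteValuationRing.associated_pow_irreducible hr0 ht
  obtain ⟨u, hu⟩ := hN
  have hden : ∀ m ∈ Submodule.span C (S : Set K), ∃ c' : C,
      algebraMap C K (algebraMap V C (t ^ N)) * m = algebraMap C K c' := by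
    intro m hm
    induction hm using Submodule.span_induction with
    | mem x hx =>
      obtain ⟨c₁, hc₁⟩ := hb x hx
      have hc₁' : algebraMap C K c₁ = algebraMap C K q * x := by
        rw [hc₁, Algebra.smul_def]
      refine ⟨q' * algebraMap V C (u : V) * c₁, ?_⟩
      rw [← hu, map_mul, hq']
      simp only [map_mul]
      rw [hc₁']
      ring
    | zero => exact ⟨0, by simp⟩
    | add x y _ _ hx hy =>
      obtain ⟨cx, hcx⟩ := hx
      obtain ⟨cy, hcy⟩ := hy
      exact ⟨cx + cy, by rw [mul_add, hcx, hcy, map_add]⟩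
    | smul a' x _ hx =>
      obtain ⟨cx, hcx⟩ := hx
      exact ⟨a' * cx, by rw [Algebra.smul_def, map_mul, ← hcx]; ring⟩
  have hnoeth : IsNoetherianRing C := IsNoetherianRing.of_finite V C
  have hfg : (Ideal.span {algebraMap V C t}).radical.FG := IsNoetherian.noetherian _
  obtain ⟨k0, hk0⟩ := Ideal.exists_radical_pow_le_of_fg (Ideal.span {algebraMap V C t}) hfg
  refine ⟨k0 * N, ?_⟩
  intro z hz m hm
  have hz' : z ∈ Ideal.span {algebraMap V C (t ^ N)} := by
    have h1 : radT V (C := C) t ^ (k0 * N) ≤ Ideal.span {algebraMap V C t} ^ N := by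
      rw [pow_mul]
      exact Ideal.pow_right_mono hk0 N
    have h2 := h1 hz
    rwa [Ideal.span_singleton_pow, ← map_pow] at h2
  obtain ⟨w, hw⟩ := Ideal.mem_span_singleton'.mp hz'
  obtain ⟨c', hc'⟩ := hden m (by rw [hS]; exact hm)
  refine ⟨w * c', ?_⟩
  rw [← hw, map_mul, mul_assoc, hc', map_mul]

end Descent

end Smith

end OneDim

/-- Two bases of a finite free algebra have associated discriminants. -/
theorem discr_associated_of_bases {V C : Type*} [CommRing V] [CommRing C] [Algebra V C]
    {ι : Type*} [Fintype ι] [DecidableEq ι] (b b' : Basis ι V C) :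
    Associated (Algebra.discr V b) (Algebra.discr V b') := by
  have h := Algebra.discr_of_matrix_vecMul (A := V) (b := (b' : ι → C)) (b'.toMatrix b)
  rw [Basis.toMatrix_map_vecMul] at h
  rw [h]
  have hu : IsUnit (b'.toMatrix b).det := by
    rw [← LinearMap.toMatrix_id_eq_basis_toMatrix b b']
    exact LinearEquiv.isUnit_det (LinearEquiv.refl V C) b b'
  exact associated_unit_mul_left _ _ (hu.pow 2)

/-- **Minimal discriminant ⟹ normal.**  `V` a discrete valuation ring with uniformiser `t`,
`C` a domain, finite free over `V` of rank `n`; if `C` is spanned modulo `rad (t C)` by `s`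
elements and the discriminant divides `t ^ a` with `a + s ≤ n`, then `C` is integrally closed. -/
theorem isIntegrallyClosed_of_discr_dvd {V C : Type*} [CommRing V] [IsDomain V]
    [IsDiscreteValuationRing V] [CommRing C] [IsDomain C] [Algebra V C] {t : V}
    (ht : Irreducible t) {ι : Type*} [Fintype ι] [DecidableEq ι] (b : Basis ι V C) {a₀ s : ℕ}
    (c : Fin s → C)
    (hspan : ∀ x : C, ∃ l : Fin s → V,
      x - ∑ i, l i • c i ∈ (Ideal.span {algebraMap V C t}).radical)
    (hdisc : Algebra.discr V b ∣ t ^ a₀) (hcount : a₀ + s ≤ Fintype.card ι) :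
    IsIntegrallyClosed C := by
  have hfree : Module.Free V C := Module.Free.of_basis b
  have hfin : Module.Finite V C := Module.Finite.of_basis b
  have hJ : radT V (C := C) t ≠ ⊥ := by
    intro h
    have h1 : algebraMap V C t ∈ radT V (C := C) t := algebraMap_mem_radT t
    rw [h, Ideal.mem_bot] at h1
    exact ht.ne_zero (FaithfulSMul.algebraMap_injective V C (by rw [h1, map_zero]))
  obtain ⟨e, a, ab, hab⟩ := Ideal.exists_smith_normal_form b (radT V (C := C) t) hJ
  have hdisc' : Algebra.discr V e ∣ t ^ a₀ := (discr_associated_of_bases e b).dvd.trans hdisc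
  have hc : ∀ x : C, ∃ (v : Fin s → V) (z : C), z ∈ radT V t ∧ x = ∑ j, v j • c j + z := by
    intro x
    obtain ⟨l, hl⟩ := hspan x
    exact ⟨l, x - ∑ i, l i • c i, hl, by ring⟩
  refine (isIntegrallyClosed_iff (FractionRing C)).mpr fun {y} hy => ?_
  have hfg := hy.fg_adjoin_singleton
  obtain ⟨D, hD⟩ := descent_base (V := V) (FractionRing C) ht (Algebra.adjoin C {y}) hfg
  have hall : ∀ k, k ≤ D → ∀ z ∈ radT V (C := C) t ^ (D - k), ∀ m ∈ Algebra.adjoin C {y},
      ∃ c' : C, algebraMap C (FractionRing C) z * m = algebraMap C (FractionRing C) c' := by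
    intro k
    induction k with
    | zero => exact fun _ => hD
    | succ k ih =>
      intro hk
      have h1 : D - k = (D - (k + 1)) + 1 := by omega
      have h2 := ih (by omega)
      rw [h1] at h2
      exact descent_step e a ab (FractionRing C) ht hab c hc hdisc' hcount _ _ h2
  obtain ⟨c', hc'⟩ := hall D le_rfl 1 (by simp) y (Algebra.self_mem_adjoin_singleton C y)
  exact ⟨c', by rw [← hc', map_one, one_mul]⟩

end Fermat.Agent.Lib.helper8354
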