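import Fermat.Agent.Lib.helper8354_DiscNormal

/-!
# DISCNORM (A-cor): from the special fibre to regular pairs (helper8354)

Setting: `T` a finite free `R`-algebra with basis `b`, `π t : R`, the quotient
`V = R/π` a discrete valuation ring with uniformiser `t`, and `C = T/πT` a domain.

* `quotBasis`, `quotBasis_apply`, `quotBasis_repr`: the induced basis of `T/IT` over `R/I`
  for an arbitrary ideal `I` of `R`.
* `trace_quot_mk`, `discr_quotBasis`: trace and discriminant commute with reduction modulo `I`.
* `exists_local_generator`: in a Dedekind domain every maximal ideal is locally principal, in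
  the elementwise form.
* `exists_pair_of_quotient`: lifting a local generator from `T/(p)` to `T`.
* `regularPairs_of_discNormalA`: (A-cor) with statement (A) as a hypothesis.
* `discNormalA`, `regularPairs_of_discr`: the unconditional statements, using
  `isIntegrallyClosed_of_discr_dvd` of `helper8354_DiscNormal`.
-/

set_option autoImplicit false

namespace Fermat.Agent.Lib.helper8354

open Module

section QuotBasis

variable {R T : Type*} [CommRing R] [CommRing T] [Algebra R T]
variable {ι : Type*}

/-- Coordinates of an element of `I T` lie in `I`. -/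
theorem repr_mem_of_mem_map (I : Ideal R) (b : Basis ι R T) {y : T}
    (hy : y ∈ I.map (algebraMap R T)) (i : ι) : b.repr y i ∈ I := by
  have hy' : y ∈ I • (⊤ : Submodule R T) := by
    rw [Ideal.smul_top_eq_map]
    exact hy
  refine Submodule.smul_induction_on hy' ?_ ?_
  · intro r hr x _
    rw [map_smul, Finsupp.smul_apply, smul_eq_mul]
    exact I.mul_mem_right _ hr
  · intro x y hx hy
    rw [map_add, Finsupp.add_apply]
    exact I.add_mem hx hy

variable [Fintype ι]

/-- The induced basis of `T/IT` over `R/I`, for an arbitrary ideal `I` of `R`. -/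
noncomputable def quotBasis (I : Ideal R) (b : Basis ι R T) :
    Basis ι (R ⧸ I) (T ⧸ I.map (algebraMap R T)) :=
  Basis.mk (v := fun i => Ideal.Quotient.mk (I.map (algebraMap R T)) (b i))
    (by
      rw [Fintype.linearIndependent_iff]
      intro g hg i
      choose r hr using fun j => Ideal.Quotient.mk_surjective (g j)
      have h1 : Ideal.Quotient.mk (I.map (algebraMap R T)) (∑ j, r j • b j) = 0 := by
        rw [map_sum, ← hg]
        refine Finset.sum_congr rfl fun j _ => ?_
        rw [← hr j, Ideal.Quotient.mk_smul_mk_quotient_map_quotient, Algebra.smul_def]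
      rw [Ideal.Quotient.eq_zero_iff_mem] at h1
      have h2 := repr_mem_of_mem_map I b h1 i
      rw [b.repr_sum_self] at h2
      rw [← hr i]
      exact Ideal.Quotient.eq_zero_iff_mem.mpr h2)
    (by
      rintro x -
      obtain ⟨x, rfl⟩ := Ideal.Quotient.mk_surjective x
      rw [← b.sum_repr x, map_sum]
      refine Submodule.sum_mem _ fun j _ => ?_
      have h : Ideal.Quotient.mk (I.map (algebraMap R T)) (b.repr x j • b j) =
          Ideal.Quotient.mk I (b.repr x j) • Ideal.Quotient.mk (I.map (algebraMap R T)) (b j) := by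
        rw [Ideal.Quotient.mk_smul_mk_quotient_map_quotient, Algebra.smul_def]
      rw [h]
      exact Submodule.smul_mem _ _ (Submodule.subset_span ⟨j, rfl⟩))

theorem quotBasis_apply (I : Ideal R) (b : Basis ι R T) (i : ι) :
    quotBasis I b i = Ideal.Quotient.mk (I.map (algebraMap R T)) (b i) := by
  unfold quotBasis
  rw [Basis.mk_apply]

theorem quotBasis_repr (I : Ideal R) (b : Basis ι R T) (x : T) (i : ι) :
    (quotBasis I b).repr (Ideal.Quotient.mk (I.map (algebraMap R T)) x) i =
      Ideal.Quotient.mk I (b.repr x i) := by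
  have h : Ideal.Quotient.mk (I.map (algebraMap R T)) x =
      ∑ j, Ideal.Quotient.mk I (b.repr x j) • quotBasis I b j := by
    conv_lhs => rw [← b.sum_repr x]
    rw [map_sum]
    refine Finset.sum_congr rfl fun j _ => ?_
    rw [quotBasis_apply, Ideal.Quotient.mk_smul_mk_quotient_map_quotient, Algebra.smul_def]
  rw [h, Basis.repr_sum_self]

/-- The trace commutes with reduction modulo an arbitrary ideal. -/
theorem trace_quot_mk (I : Ideal R) (b : Basis ι R T) (x : T) :
    Algebra.trace (R ⧸ I) (T ⧸ I.map (algebraMap R T))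
        (Ideal.Quotient.mk (I.map (algebraMap R T)) x) =
      Ideal.Quotient.mk I (Algebra.trace R T x) := by
  classical
  rw [Algebra.trace_eq_matrix_trace b, Algebra.trace_eq_matrix_trace (quotBasis I b),
    AddMonoidHom.map_trace]
  congr 1
  ext i j
  simp only [Algebra.leftMulMatrix_apply, Algebra.coe_lmul_eq_mul, LinearMap.toMatrix_apply,
    quotBasis_apply, LinearMap.mul_apply', Matrix.map_apply, ← map_mul, quotBasis_repr]

/-- The discriminant commutes with reduction modulo an arbitrary ideal. -/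
theorem discr_quotBasis [DecidableEq ι] (I : Ideal R) (b : Basis ι R T) :
    Algebra.discr (R ⧸ I) (quotBasis I b) = Ideal.Quotient.mk I (Algebra.discr R b) := by
  rw [Algebra.discr_def, Algebra.discr_def, RingHom.map_det]
  congr 1
  ext i j
  simp only [Algebra.traceMatrix_apply, Algebra.traceForm_apply, RingHom.mapMatrix_apply,
    Matrix.map_apply, quotBasis_apply, ← map_mul, trace_quot_mk I b]

end QuotBasis

section Dedekind

/-- A domain that is integrally closed and finite over a discrete valuation ring is Dedekind. -/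
theorem isDedekindDomain_of_finite_dvr (V : Type*) {S : Type*} [CommRing V] [IsDomain V]
    [IsDiscreteValuationRing V] [CommRing S] [IsDomain S] [Algebra V S] [Module.Finite V S]
    [IsIntegrallyClosed S] : IsDedekindDomain S := by
  have h1 : IsNoetherianRing S := IsNoetherianRing.of_finite V S
  have h2 : Ring.DimensionLEOne S := Ring.DimensionLEOne.of_isIntegral V S
  exact { }

/-- In a Dedekind domain every maximal ideal is locally principal (elementwise form). -/
theorem exists_local_generator {C : Type*} [CommRing C] [IsDedekindDomain C] (P : Ideal C)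
    (hP : P.IsMaximal) : ∃ u ∈ P, ∀ x ∈ P, ∃ w, w ∉ P ∧ w * x ∈ Ideal.span {u} := by
  by_cases h0 : P = ⊥
  · refine ⟨0, P.zero_mem, fun x hx => ⟨1, ?_, ?_⟩⟩
    · exact fun h => hP.ne_top ((Ideal.eq_top_iff_one _).mpr h)
    · rw [h0] at hx
      rw [Ideal.mem_bot.mp hx]
      simp
  · obtain ⟨u, hu1, hu2⟩ := Ideal.exists_mem_pow_notMem_pow_succ P h0 hP.ne_top 1
    rw [pow_one] at hu1
    have hle : Ideal.span {u} ≤ P := (Ideal.span_singleton_le_iff_mem _).mpr hu1
    obtain ⟨I, hI⟩ := Ideal.dvd_iff_le.mpr hle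
    have hnot : ¬ I ≤ P := by
      intro hIP
      apply hu2
      have h : Ideal.span {u} ≤ P ^ 2 := by
        rw [hI, pow_two]
        exact Ideal.mul_mono_right hIP
      exact h (Ideal.mem_span_singleton_self u)
    obtain ⟨w, hwI, hwP⟩ := SetLike.not_le_iff_exists.mp hnot
    refine ⟨u, hu1, fun x hx => ⟨w, hwP, ?_⟩⟩
    rw [hI, mul_comm w x]
    exact Ideal.mul_mem_mul hx hwI

end Dedekind

section Lift

variable {R T : Type*} [CommRing R] [CommRing T] [Algebra R T]

/-- Lifting a local generator of a maximal ideal of `T/K`, `K = (p)`, to `T`. -/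
theorem exists_pair_of_quotient (p : T) (K : Ideal T) (hK : K = Ideal.span {p}) (𝔫 : Ideal T)
    (h𝔫 : 𝔫.IsMaximal)
    (hq : ∀ P : Ideal (T ⧸ K), P.IsMaximal →
      ∃ u ∈ P, ∀ x ∈ P, ∃ w, w ∉ P ∧ w * x ∈ Ideal.span {u}) :
    ∃ u ∈ 𝔫, ∀ x ∈ 𝔫, ∃ w, w ∉ 𝔫 ∧ w * x ∈ Ideal.span {p, u} := by
  by_cases hp : p ∈ 𝔫
  · have hK𝔫 : K ≤ 𝔫 := by
      rw [hK]
      exact (Ideal.span_singleton_le_iff_mem _).mpr hp
    have hsurj : Function.Surjective (Ideal.Quotient.mk K) := Ideal.Quotient.mk_surjective
    have hcomap : (𝔫.map (Ideal.Quotient.mk K)).comap (Ideal.Quotient.mk K) = 𝔫 := by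
      rw [Ideal.comap_map_of_surjective _ hsurj, ← RingHom.ker_eq_comap_bot, Ideal.mk_ker]
      exact sup_eq_left.mpr hK𝔫
    have hmax : (𝔫.map (Ideal.Quotient.mk K)).IsMaximal := by
      rcases Ideal.map_eq_top_or_isMaximal_of_surjective _ hsurj h𝔫 with h | h
      · exfalso
        apply h𝔫.ne_top
        rw [← hcomap, h, Ideal.comap_top]
      · exact h
    have hmem : ∀ y : T, Ideal.Quotient.mk K y ∈ 𝔫.map (Ideal.Quotient.mk K) ↔ y ∈ 𝔫 := by
      intro y
      rw [← Ideal.mem_comap, hcomap]
    obtain ⟨u', hu', hgen⟩ := hq _ hmax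
    obtain ⟨u, rfl⟩ := hsurj u'
    refine ⟨u, (hmem u).mp hu', fun x hx => ?_⟩
    obtain ⟨w', hw', hwx⟩ := hgen _ ((hmem x).mpr hx)
    obtain ⟨w, rfl⟩ := hsurj w'
    refine ⟨w, fun h => hw' ((hmem w).mpr h), ?_⟩
    obtain ⟨y', hy'⟩ := Ideal.mem_span_singleton'.mp hwx
    obtain ⟨y, rfl⟩ := hsurj y'
    rw [← map_mul, ← map_mul, Ideal.Quotient.eq, hK] at hy'
    obtain ⟨z, hz⟩ := Ideal.mem_span_singleton'.mp hy'
    have h1 : w * x = (-z) * p + y * u := by
      linear_combination hz
    rw [h1]
    exact Ideal.add_mem _ (Ideal.mul_mem_left _ _ (Ideal.subset_span (by simp)))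
      (Ideal.mul_mem_left _ _ (Ideal.subset_span (by simp)))
  · refine ⟨0, 𝔫.zero_mem, fun x _ => ⟨p, hp, ?_⟩⟩
    exact Ideal.mul_mem_right _ _ (Ideal.subset_span (by simp))

end Lift

section Assemble

/-- The statement of DISCNORM (A), as a hypothesis: over a discrete valuation ring `V` with
uniformiser `t`, a finite free domain `C` with a spanning family of size `s` modulo `rad(tC)`
and discriminant dividing `t ^ a`, `a + s ≤ n`, is integrally closed. -/
def DiscNormalA.{u, v} : Prop :=
  ∀ (V : Type u) (C : Type v) [CommRing V] [IsDomain V] [IsDiscreteValuationRing V]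
    [CommRing C] [IsDomain C] [Algebra V C] (t : V) (_ : Irreducible t) (n : ℕ)
    (b : Basis (Fin n) V C) (a s : ℕ) (c : Fin s → C),
    (∀ x : C, ∃ l : Fin s → V, x - ∑ i, l i • c i ∈ (Ideal.span {algebraMap V C t}).radical) →
    Algebra.discr V b ∣ t ^ a → a + s ≤ n → IsIntegrallyClosed C

/-- **DISCNORM (A-cor), modulo (A).**  `T` finite free over `R` with basis `b`, `R/π` a discrete
valuation ring with uniformiser `t`, `T/πT` a domain; a spanning family of size `s` of `T` modulo
`rad(tT)`, discriminant associated to `t ^ a`, and `a + s ≤ n`: then every maximal ideal of `T`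
is locally generated by `π` and one more element. -/
theorem regularPairs_of_discNormalA.{u, v} (hA : DiscNormalA.{u, v}) {R : Type u} {T : Type v}
    [CommRing R] [CommRing T] [Algebra R T] (π t : R)
    [IsDomain (R ⧸ Ideal.span {π})] [IsDiscreteValuationRing (R ⧸ Ideal.span {π})]
    (ht : Irreducible (Ideal.Quotient.mk (Ideal.span {π}) t))
    [hdom : IsDomain (T ⧸ Ideal.span {algebraMap R T π})]
    {n : ℕ} (b : Basis (Fin n) R T) (a s : ℕ) (c : Fin s → T)
    (hspan : ∀ x : T, ∃ r : Fin s → R,
      x - ∑ i, r i • c i ∈ (Ideal.span {algebraMap R T t}).radical)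
    (hdisc : Associated (Algebra.discr R b) (t ^ a)) (hcount : a + s ≤ n)
    (𝔫 : Ideal T) (h𝔫 : 𝔫.IsMaximal) :
    ∃ u ∈ 𝔫, ∀ x ∈ 𝔫, ∃ w, w ∉ 𝔫 ∧ w * x ∈ Ideal.span {algebraMap R T π, u} := by
  classical
  have hI : (Ideal.span {π}).map (algebraMap R T) = Ideal.span {algebraMap R T π} := by
    rw [Ideal.map_span, Set.image_singleton]
  have hKdom : IsDomain (T ⧸ (Ideal.span {π}).map (algebraMap R T)) := by
    rw [hI]
    exact hdom
  have hfin : Module.Finite (R ⧸ Ideal.span {π}) (T ⧸ (Ideal.span {π}).map (algebraMap R T)) :=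
    Module.Finite.of_basis (quotBasis (Ideal.span {π}) b)
  have hIC : IsIntegrallyClosed (T ⧸ (Ideal.span {π}).map (algebraMap R T)) := by
    refine hA (R ⧸ Ideal.span {π}) (T ⧸ (Ideal.span {π}).map (algebraMap R T))
      (Ideal.Quotient.mk (Ideal.span {π}) t) ht n (quotBasis (Ideal.span {π}) b) a s
      (fun i => Ideal.Quotient.mk ((Ideal.span {π}).map (algebraMap R T)) (c i)) ?_ ?_ hcount
    · intro x
      obtain ⟨x, rfl⟩ := Ideal.Quotient.mk_surjective x
      obtain ⟨r, hr⟩ := hspan x
      refine ⟨fun i => Ideal.Quotient.mk (Ideal.span {π}) (r i), ?_⟩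
      have h1 : Ideal.Quotient.mk ((Ideal.span {π}).map (algebraMap R T)) x -
          ∑ i, Ideal.Quotient.mk (Ideal.span {π}) (r i) •
            Ideal.Quotient.mk ((Ideal.span {π}).map (algebraMap R T)) (c i) =
          Ideal.Quotient.mk ((Ideal.span {π}).map (algebraMap R T)) (x - ∑ i, r i • c i) := by
        rw [map_sub, map_sum]
        congr 1
      rw [h1]
      obtain ⟨k, hk⟩ := hr
      refine ⟨k, ?_⟩
      obtain ⟨z, hz⟩ := Ideal.mem_span_singleton'.mp hk
      rw [← map_pow, ← hz, map_mul, Ideal.Quotient.algebraMap_quotient_map_quotient]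
      exact Ideal.mul_mem_left _ _ (Ideal.mem_span_singleton_self _)
    · rw [discr_quotBasis]
      obtain ⟨e, he⟩ := hdisc
      refine ⟨Ideal.Quotient.mk (Ideal.span {π}) (e : R), ?_⟩
      rw [← map_pow, ← he, map_mul]
  have hDed : IsDedekindDomain (T ⧸ (Ideal.span {π}).map (algebraMap R T)) :=
    isDedekindDomain_of_finite_dvr (R ⧸ Ideal.span {π})
  exact exists_pair_of_quotient (algebraMap R T π) ((Ideal.span {π}).map (algebraMap R T)) hI
    𝔫 h𝔫 (fun P hP => exists_local_generator P hP)

/-- Statement (A) holds (`isIntegrallyClosed_of_discr_dvd`). -/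
theorem discNormalA.{u, v} : DiscNormalA.{u, v} := by
  intro V C _ _ _ _ _ _ t ht n b a s c hspan hdisc hcount
  exact isIntegrallyClosed_of_discr_dvd ht b c hspan hdisc (by simpa using hcount)

/-- **DISCNORM (A-cor).**  `T` finite free over `R` with basis `b`, `R/π` a discrete valuation
ring with uniformiser `t`, `T/πT` a domain; a spanning family of size `s` of `T` modulo
`rad(tT)`, discriminant associated to `t ^ a`, and `a + s ≤ n`: then every maximal ideal of `T`
is locally generated by `π` and one more element (elementwise form). -/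
theorem regularPairs_of_discr {R T : Type*}
    [CommRing R] [CommRing T] [Algebra R T] (π t : R)
    [IsDomain (R ⧸ Ideal.span {π})] [IsDiscreteValuationRing (R ⧸ Ideal.span {π})]
    (ht : Irreducible (Ideal.Quotient.mk (Ideal.span {π}) t))
    [IsDomain (T ⧸ Ideal.span {algebraMap R T π})]
    {n : ℕ} (b : Basis (Fin n) R T) (a s : ℕ) (c : Fin s → T)
    (hspan : ∀ x : T, ∃ r : Fin s → R,
      x - ∑ i, r i • c i ∈ (Ideal.span {algebraMap R T t}).radical)
    (hdisc : Associated (Algebra.discr R b) (t ^ a)) (hcount : a + s ≤ n)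
    (𝔫 : Ideal T) (h𝔫 : 𝔫.IsMaximal) :
    ∃ u ∈ 𝔫, ∀ x ∈ 𝔫, ∃ w, w ∉ 𝔫 ∧ w * x ∈ Ideal.span {algebraMap R T π, u} :=
  regularPairs_of_discNormalA discNormalA π t ht b a s c hspan hdisc hcount 𝔫 h𝔫

end Assemble

end Fermat.Agent.Lib.helper8354
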