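import Mathlib

/-!
# SL(2,ℤ)-invariant holomorphic functions with a pole at the cusp are polynomials in `j`

`jInv z = E₄ z ^ 3 / Δ z` is Klein's `j`-invariant (normalised as `q⁻¹ + 744 + ...`).

Main result: `exists_polynomial_jInv`.
-/

set_option autoImplicit false

namespace Fermat.Agent.Lib.helper843

open UpperHalfPlane ModularForm EisensteinSeries MatrixGroups Filter Asymptotics
  SlashInvariantFormClass ModularFormClass
open scoped Manifold Topology

local notation "Δ" => ModularForm.discriminant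

/-- Klein's `j`-invariant `E₄³ / Δ` as a function on the upper half plane. -/
noncomputable def jInv (z : ℍ) : ℂ := E₄ z ^ 3 / Δ z

lemma discriminant_mul_jInv (z : ℍ) : Δ z * jInv z = E₄ z ^ 3 := by
  rw [jInv, mul_div_cancel₀ _ (discriminant_ne_zero z)]

lemma mdifferentiable_discriminant : MDiff (Δ : ℍ → ℂ) :=
  CuspForm.discriminant.holo'

lemma mdifferentiable_jInv : MDiff jInv := by
  have h4 : MDiff (fun z : ℍ => E₄ z ^ 3) := (E₄.holo').pow 3
  exact h4.div mdifferentiable_discriminant discriminant_ne_zero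

/-- `Δ (γ • z) = (c z + d)^12 Δ z`, in slash form. -/
lemma discriminant_slash (γ : SL(2, ℤ)) : (Δ : ℍ → ℂ) ∣[(12 : ℤ)] γ = Δ :=
  CuspForm.discriminant.slash_action_eq' _ ⟨γ, rfl⟩

lemma E₄_slash (γ : SL(2, ℤ)) : (E₄ : ℍ → ℂ) ∣[(4 : ℤ)] γ = E₄ :=
  E₄.slash_action_eq' _ ⟨γ, rfl⟩

lemma discriminant_smul (γ : SL(2, ℤ)) (z : ℍ) :
    Δ (γ • z) = denom γ z ^ (12 : ℤ) * Δ z := by
  have h := congrFun (discriminant_slash γ) z
  rw [SL_slash_apply] at h
  have hd : denom γ z ≠ 0 := denom_ne_zero γ z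
  rw [← h, mul_comm (Δ (γ • z)), ← mul_assoc, ← zpow_add₀ hd]
  simp

lemma E₄_smul (γ : SL(2, ℤ)) (z : ℍ) :
    E₄ (γ • z) = denom γ z ^ (4 : ℤ) * E₄ z := by
  have h := congrFun (E₄_slash γ) z
  rw [SL_slash_apply] at h
  have hd : denom γ z ≠ 0 := denom_ne_zero γ z
  rw [← h, mul_comm (E₄ (γ • z)), ← mul_assoc, ← zpow_add₀ hd]
  simp

lemma jInv_smul (γ : SL(2, ℤ)) (z : ℍ) : jInv (γ • z) = jInv z := by
  have hd : denom γ z ≠ 0 := denom_ne_zero γ z
  have h12 : (denom γ z ^ (4 : ℤ)) ^ 3 = denom γ z ^ (12 : ℤ) := by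
    rw [← zpow_natCast, ← zpow_mul]; norm_num
  rw [jInv, jInv, discriminant_smul, E₄_smul, mul_pow, h12,
    mul_div_mul_left _ _ (zpow_ne_zero 12 hd)]

/-- Slash invariance of `Δ^m F` for an `SL(2,ℤ)`-invariant function `F`. -/
lemma pow_discriminant_mul_slash {F : ℍ → ℂ}
    (hinv : ∀ (γ : SL(2, ℤ)) (z : ℍ), F (γ • z) = F z) (m : ℕ) (γ : SL(2, ℤ)) :
    (fun z => Δ z ^ m * F z) ∣[(12 * m : ℤ)] γ = fun z => Δ z ^ m * F z := by
  ext z
  have hd : denom γ z ≠ 0 := denom_ne_zero γ z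
  rw [SL_slash_apply, discriminant_smul, hinv, mul_pow, ← zpow_natCast (denom γ z ^ (12 : ℤ)),
    ← zpow_mul]
  have : denom γ z ^ ((12 : ℤ) * (m : ℤ)) * denom γ z ^ (-(12 * m : ℤ)) = 1 := by
    rw [← zpow_add₀ hd]; simp
  calc denom γ z ^ ((12 : ℤ) * (m : ℤ)) * Δ z ^ m * F z * denom γ z ^ (-(12 * m : ℤ))
      = (denom γ z ^ ((12 : ℤ) * (m : ℤ)) * denom γ z ^ (-(12 * m : ℤ))) * (Δ z ^ m * F z) := by
        ring
    _ = Δ z ^ m * F z := by rw [this, one_mul]

/-- If `F` is holomorphic, `SL(2,ℤ)`-invariant and `Δ^m F` is bounded at `i∞`, then `Δ^m F` is a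
level one modular form of weight `12 m`. -/
noncomputable def mkForm (F : ℍ → ℂ) (hF : MDiff F)
    (hinv : ∀ (γ : SL(2, ℤ)) (z : ℍ), F (γ • z) = F z) (m : ℕ)
    (hbdd : IsBoundedAtImInfty (fun z => Δ z ^ m * F z)) : ModularForm 𝒮ℒ (12 * m) where
  toFun z := Δ z ^ m * F z
  slash_action_eq' := by
    rintro _ ⟨γ, rfl⟩
    exact pow_discriminant_mul_slash hinv m γ
  holo' := (mdifferentiable_discriminant.pow m).mul hF
  bdd_at_cusps' {c} hc := by
    rw [Subgroup.IsArithmetic.isCusp_iff_isCusp_SL2Z] at hc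
    rw [OnePoint.isBoundedAt_iff_forall_SL2Z hc]
    intro γ _
    rw [pow_discriminant_mul_slash hinv m γ]
    exact hbdd

@[simp]
lemma mkForm_apply (F : ℍ → ℂ) (hF : MDiff F)
    (hinv : ∀ (γ : SL(2, ℤ)) (z : ℍ), F (γ • z) = F z) (m : ℕ)
    (hbdd : IsBoundedAtImInfty (fun z => Δ z ^ m * F z)) (z : ℍ) :
    mkForm F hF hinv m hbdd z = Δ z ^ m * F z := rfl

/-- A level one modular form tends to the constant term of its `q`-expansion at `i∞`. -/
lemma tendsto_coeff_zero {k : ℤ} (f : ModularForm 𝒮ℒ k) :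
    Tendsto f atImInfty (𝓝 ((qExpansion 1 f).coeff 0)) := by
  have hper := periodic_comp_ofComplex f one_mem_strictPeriods_SL
  have hanal := ModularFormClass.analyticAt_cuspFunction_zero f one_pos one_mem_strictPeriods_SL
  rw [qExpansion_coeff_zero one_pos hanal hper, ← cuspFunction_apply_zero one_pos hanal hper]
  exact (hanal.continuousAt.tendsto.comp (qParam_tendsto_atImInfty one_pos)).congr
    (fun τ ↦ SlashInvariantFormClass.eq_cuspFunction f τ one_mem_strictPeriods_SL one_ne_zero)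

lemma tendsto_E₄ : Tendsto (E₄ : ℍ → ℂ) atImInfty (𝓝 1) := by
  have h := tendsto_coeff_zero E₄
  rwa [E_qExpansion_coeff_zero (by norm_num : 3 ≤ 4) ⟨2, rfl⟩] at h

/-- `Δ · j = E₄³ → 1` at `i∞`: `j` has a simple pole at the cusp with leading coefficient `1`. -/
lemma tendsto_discriminant_mul_jInv :
    Tendsto (fun z => Δ z * jInv z) atImInfty (𝓝 1) := by
  have h : Tendsto (fun z : ℍ => E₄ z ^ 3) atImInfty (𝓝 (1 ^ 3)) := tendsto_E₄.pow 3
  rw [one_pow] at h
  exact h.congr (fun z => (discriminant_mul_jInv z).symm)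

/-- Key descent step: if `Δ^(m+1) F → 0` at `i∞` then `Δ^m F` is bounded at `i∞`. -/
lemma isBoundedAtImInfty_of_tendsto_zero {F : ℍ → ℂ} (hF : MDiff F)
    (hinv : ∀ (γ : SL(2, ℤ)) (z : ℍ), F (γ • z) = F z) (m : ℕ)
    (hzero : Tendsto (fun z => Δ z ^ (m + 1) * F z) atImInfty (𝓝 0)) :
    IsBoundedAtImInfty (fun z => Δ z ^ m * F z) := by
  have hbdd : IsBoundedAtImInfty (fun z => Δ z ^ (m + 1) * F z) :=
    hzero.isBigO_one ℝ
  set G := mkForm F hF hinv (m + 1) hbdd with hG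
  have hcoeff : (qExpansion 1 G).coeff 0 = 0 :=
    tendsto_nhds_unique (tendsto_coeff_zero G) hzero
  have hH := ModularFormClass.bdd_at_infty (CuspForm.discriminantEquiv (toCuspForm G hcoeff))
  have heq : (CuspForm.discriminantEquiv (toCuspForm G hcoeff) : ℍ → ℂ)
      = fun z => Δ z ^ m * F z := by
    ext z
    rw [CuspForm.discriminantEquiv_apply, toCuspForm_apply, hG, mkForm_apply, pow_succ]
    field_simp [discriminant_ne_zero z]
  rwa [heq] at hH

/-- **Level one modular functions are polynomials in `j`.**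
An `SL(2,ℤ)`-invariant holomorphic function `F` on the upper half plane such that `Δ^m F` is
bounded at `i∞` (i.e. `F` has a pole of order at most `m` at the cusp) is a polynomial of degree
at most `m` in Klein's invariant `jInv = E₄³/Δ`. -/
theorem exists_polynomial_jInv {F : ℍ → ℂ} (hF : MDiff F)
    (hinv : ∀ (γ : SL(2, ℤ)) (z : ℍ), F (γ • z) = F z) (m : ℕ)
    (hbdd : IsBoundedAtImInfty (fun z => Δ z ^ m * F z)) :
    ∃ P : Polynomial ℂ, P.natDegree ≤ m ∧ ∀ z, F z = P.eval (jInv z) := by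
  induction m generalizing F with
  | zero =>
    set G := mkForm F hF hinv 0 hbdd with hG
    have hk : (12 * ((0 : ℕ) : ℤ)) = 0 := by simp
    obtain ⟨c, hc⟩ := levelOne_weight_zero_const (ModularForm.mcast hk G)
    refine ⟨Polynomial.C c, by simp, fun z => ?_⟩
    have h1 : (ModularForm.mcast hk G) z = c := by rw [hc]; rfl
    have h2 : (ModularForm.mcast hk G) z = Δ z ^ 0 * F z := rfl
    rw [Polynomial.eval_C, ← h1, h2, pow_zero, one_mul]
  | succ m ih =>
    set G := mkForm F hF hinv (m + 1) hbdd with hG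
    set c := (qExpansion 1 G).coeff 0 with hc
    let F₁ : ℍ → ℂ := fun z => F z - c * jInv z ^ (m + 1)
    have hF₁ : MDiff F₁ :=
      hF.sub (mdifferentiable_const.mul (mdifferentiable_jInv.pow (m + 1)))
    have hinv₁ : ∀ (γ : SL(2, ℤ)) (z : ℍ), F₁ (γ • z) = F₁ z := by
      intro γ z
      simp only [F₁, hinv γ z, jInv_smul γ z]
    have hzero : Tendsto (fun z => Δ z ^ (m + 1) * F₁ z) atImInfty (𝓝 0) := by
      have h1 : Tendsto (fun z => Δ z ^ (m + 1) * F z) atImInfty (𝓝 c) := tendsto_coeff_zero G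
      have h2 : Tendsto (fun z => c * (Δ z * jInv z) ^ (m + 1)) atImInfty (𝓝 (c * 1 ^ (m + 1))) :=
        (tendsto_discriminant_mul_jInv.pow (m + 1)).const_mul c
      have h3 := h1.sub h2
      rw [one_pow, mul_one, sub_self] at h3
      refine h3.congr (fun z => ?_)
      simp only [F₁]
      ring
    obtain ⟨P₁, hdeg, hP₁⟩ := ih hF₁ hinv₁ (isBoundedAtImInfty_of_tendsto_zero hF₁ hinv₁ m hzero)
    refine ⟨P₁ + Polynomial.C c * Polynomial.X ^ (m + 1), ?_, fun z => ?_⟩
    · refine (Polynomial.natDegree_add_le _ _).trans (max_le (hdeg.trans (Nat.le_succ m)) ?_)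
      exact Polynomial.natDegree_C_mul_X_pow_le c (m + 1)
    · have := hP₁ z
      simp only [F₁] at this
      rw [Polynomial.eval_add, Polynomial.eval_mul, Polynomial.eval_C, Polynomial.eval_pow,
        Polynomial.eval_X, ← this]
      ring

end Fermat.Agent.Lib.helper843
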