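import Mathlib

/-!
# Generic Case II descent (Kummer), abstract PID version

`R` is a principal ideal domain containing a primitive `p`-th root of unity `ζ` (`p` an odd prime)
such that `π = ζ - 1` is prime, `π ^ (p - 1)` is associated to `p`, every `p`-th power is congruent
to a rational integer mod `p`, the residue ring `R / π` has `p` elements, and Kummer's lemma holds
(a unit congruent to a rational integer mod `p` is a `p`-th power of a unit).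
Then `x ^ p + y ^ p = ε * (π ^ n * z) ^ p` has no solutions with `1 ≤ n`, `π ∤ z`, `x`, `y` coprime.
-/

namespace Fermat.Agent.Lib.helper850

open Polynomial

section Descent

variable {R : Type*} [CommRing R] [IsDomain R] [IsPrincipalIdealRing R]

theorem descent_aux {p : ℕ} (hp : p.Prime) (hp2 : p ≠ 2) {ζ : R} (hζ : IsPrimitiveRoot ζ p)
    (hπ : Prime (ζ - 1)) (H1 : Associated ((ζ - 1) ^ (p - 1)) (p : R))
    (H2 : ∀ d : R, ∃ k : ℤ, (p : R) ∣ d ^ p - k)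
    (H4 : Nat.card (R ⧸ Ideal.span {ζ - 1}) = p)
    (H5 : ∀ u : Rˣ, ∀ k : ℤ, (p : R) ∣ (u : R) - k → ∃ v : Rˣ, u = v ^ p) (n : ℕ) :
    1 ≤ n → ∀ (x y z : R) (ε : Rˣ), ¬ (ζ - 1) ∣ z → IsCoprime x y →
      x ^ p + y ^ p ≠ ε * ((ζ - 1) ^ n * z) ^ p := by
  induction n using Nat.strong_induction_on with
  | _ n ih =>
  intro hn x y z ε hz hxy heq
  classical
  have hp0 : 0 < p := hp.pos
  have hodd : Odd p := hp.odd_of_ne_two hp2
  have hcard : (nthRootsFinset p (1 : R)).card = p := hζ.card_nthRootsFinset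
  have hπ0 : ζ - 1 ≠ 0 := hπ.ne_zero
  have hπu : ¬ IsUnit (ζ - 1) := hπ.not_isUnit
  -- factorization
  have hprod : ∏ η ∈ nthRootsFinset p (1 : R), (x + η * y) = ε * ((ζ - 1) ^ n * z) ^ p := by
    rw [← hζ.pow_add_pow_eq_prod_add_mul x y hodd, heq]
  -- π divides every factor
  have hdvd : ∀ η ∈ nthRootsFinset p (1 : R), (ζ - 1) ∣ x + η * y := by
    have h1 : (ζ - 1) ∣ ∏ η ∈ nthRootsFinset p (1 : R), (x + η * y) := by
      rw [hprod]
      refine Dvd.dvd.mul_left ?_ _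
      refine dvd_pow ?_ hp.ne_zero
      exact Dvd.dvd.mul_right (dvd_pow_self _ (by omega)) _
    obtain ⟨η₁, hη₁, h2⟩ := (Prime.dvd_finsetProd_iff hπ _).1 h1
    intro η hη
    have h3 : (ζ - 1) ∣ η - η₁ := hζ.sub_one_dvd_sub hp hη hη₁
    have : x + η * y = (x + η₁ * y) + (η - η₁) * y := by ring
    rw [this]
    exact dvd_add h2 (Dvd.dvd.mul_right h3 _)
  choose! f hf using hdvd
  have hη1 : (1 : R) ∈ nthRootsFinset p (1 : R) := by
    rw [mem_nthRootsFinset hp0]; exact one_pow p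
  -- π does not divide y
  have hy : ¬ (ζ - 1) ∣ y := by
    intro h
    have hx : (ζ - 1) ∣ x := by
      have h2 : (ζ - 1) ∣ x + 1 * y := ⟨_, hf 1 hη1⟩
      have h3 : x = (x + 1 * y) - y := by ring
      rw [h3]; exact dvd_sub h2 h
    exact hπu (hxy.isUnit_of_dvd' hx h)
  -- key lemma
  have key : ∀ η₁ ∈ nthRootsFinset p (1 : R), ∀ η₂ ∈ nthRootsFinset p (1 : R), η₁ ≠ η₂ →
      ∃ v : Rˣ, (ζ - 1) * v = η₁ - η₂ ∧ f η₁ - f η₂ = v * y ∧
        η₂ * f η₁ - η₁ * f η₂ = -(v * x) := by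
    intro η₁ h1 η₂ h2 hne
    obtain ⟨v, hv⟩ := hζ.nthRootsFinset_pairwise_associated_sub_one_sub_of_prime hp h1 h2 hne
    refine ⟨v, hv, ?_, ?_⟩
    · apply mul_left_cancel₀ hπ0
      have e1 := hf η₁ h1
      have e2 := hf η₂ h2
      calc (ζ - 1) * (f η₁ - f η₂) = (x + η₁ * y) - (x + η₂ * y) := by rw [e1, e2]; ring
        _ = (η₁ - η₂) * y := by ring
        _ = (ζ - 1) * (v * y) := by rw [← hv]; ring
    · apply mul_left_cancel₀ hπ0
      have e1 := hf η₁ h1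
      have e2 := hf η₂ h2
      calc (ζ - 1) * (η₂ * f η₁ - η₁ * f η₂)
          = η₂ * (x + η₁ * y) - η₁ * (x + η₂ * y) := by rw [e1, e2]; ring
        _ = -((η₁ - η₂) * x) := by ring
        _ = (ζ - 1) * (-(v * x)) := by rw [← hv]; ring
  -- pairwise coprimality of the quotients
  have hcop : ∀ η₁ ∈ nthRootsFinset p (1 : R), ∀ η₂ ∈ nthRootsFinset p (1 : R), η₁ ≠ η₂ →
      IsCoprime (f η₁) (f η₂) := by
    intro η₁ h1 η₂ h2 hne
    obtain ⟨v, -, e1, e2⟩ := key η₁ h1 η₂ h2 hne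
    obtain ⟨a, b, hab⟩ := hxy
    refine ⟨-(a * ↑v⁻¹ * η₂) + b * ↑v⁻¹, a * ↑v⁻¹ * η₁ - b * ↑v⁻¹, ?_⟩
    calc (-(a * ↑v⁻¹ * η₂) + b * ↑v⁻¹) * f η₁ + (a * ↑v⁻¹ * η₁ - b * ↑v⁻¹) * f η₂
        = -(a * ↑v⁻¹) * (η₂ * f η₁ - η₁ * f η₂) + b * ↑v⁻¹ * (f η₁ - f η₂) := by ring
      _ = a * x * (↑v⁻¹ * ↑v) + b * y * (↑v⁻¹ * ↑v) := by rw [e1, e2]; ring
      _ = 1 := by rw [Units.inv_mul, mul_one, mul_one, hab]
  -- the quotients are pairwise incongruent mod π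
  have hinj : ∀ η₁ ∈ nthRootsFinset p (1 : R), ∀ η₂ ∈ nthRootsFinset p (1 : R), η₁ ≠ η₂ →
      ¬ (ζ - 1) ∣ f η₁ - f η₂ := by
    intro η₁ h1 η₂ h2 hne h
    obtain ⟨v, -, e1, -⟩ := key η₁ h1 η₂ h2 hne
    rw [e1] at h
    exact hy ((Units.dvd_mul_left).1 h)
  -- pigeonhole: one quotient is divisible by π
  have hex : ∃ η₀ ∈ nthRootsFinset p (1 : R), (ζ - 1) ∣ f η₀ := by
    have : Finite (R ⧸ Ideal.span {ζ - 1}) :=
      Nat.finite_of_card_ne_zero (by rw [H4]; exact hp.ne_zero)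
    let g : (nthRootsFinset p (1 : R)) → R ⧸ Ideal.span {ζ - 1} :=
      fun η => Ideal.Quotient.mk _ (f η.1)
    have hg : Function.Injective g := by
      intro η₁ η₂ h
      by_contra hne
      have hne' : η₁.1 ≠ η₂.1 := fun h' => hne (Subtype.ext h')
      apply hinj η₁.1 η₁.2 η₂.1 η₂.2 hne'
      rw [← Ideal.mem_span_singleton, ← Ideal.Quotient.eq]
      exact h
    have hbij := hg.bijective_of_nat_card_le
      (by rw [H4, Nat.card_eq_fintype_card, Fintype.card_coe, hcard])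
    obtain ⟨η₀, h0⟩ := hbij.2 0
    refine ⟨η₀.1, η₀.2, ?_⟩
    rw [← Ideal.mem_span_singleton, ← Ideal.Quotient.eq_zero_iff_mem]
    exact h0
  -- the product of the quotients
  have hprodf : ∏ η ∈ nthRootsFinset p (1 : R), f η = ε * ((ζ - 1) ^ (n - 1) * z) ^ p := by
    apply mul_left_cancel₀ (pow_ne_zero p hπ0)
    calc (ζ - 1) ^ p * ∏ η ∈ nthRootsFinset p (1 : R), f η
        = ∏ η ∈ nthRootsFinset p (1 : R), ((ζ - 1) * f η) := by
          rw [Finset.prod_mul_distrib, Finset.prod_const, hcard]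
      _ = ∏ η ∈ nthRootsFinset p (1 : R), (x + η * y) :=
          Finset.prod_congr rfl (fun η hη => (hf η hη).symm)
      _ = ε * ((ζ - 1) ^ n * z) ^ p := hprod
      _ = (ζ - 1) ^ p * (ε * ((ζ - 1) ^ (n - 1) * z) ^ p) := by
          obtain ⟨m, rfl⟩ : ∃ m, n = m + 1 := ⟨n - 1, by omega⟩
          simp only [Nat.add_sub_cancel]
          have hgen : ∀ π : R, (ε : R) * (π ^ (m + 1) * z) ^ p = π ^ p * (ε * (π ^ m * z) ^ p) :=
            fun π => by ring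
          exact hgen _
  obtain ⟨η₀, hη₀, hdvd0⟩ := hex
  have hz0 : z ≠ 0 := fun h => hz (h ▸ dvd_zero _)
  have hn2 : 2 ≤ n := by
    by_contra hlt
    have hn1 : n = 1 := by omega
    subst hn1
    have h1 : (ζ - 1) ∣ ∏ η ∈ nthRootsFinset p (1 : R), f η :=
      dvd_trans hdvd0 (Finset.dvd_prod_of_mem f hη₀)
    rw [hprodf] at h1
    simp only [Nat.sub_self, pow_zero, one_mul] at h1
    have h2 : (ζ - 1) ∣ z ^ p := (Units.dvd_mul_left).1 h1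
    exact hz (hπ.dvd_of_dvd_pow h2)
  -- each quotient is associated to a `p`-th power
  have hpow : ∀ η ∈ nthRootsFinset p (1 : R), ∃ (d : R) (u : Rˣ), d ^ p * u = f η := by
    intro η hη
    have hc : IsCoprime (f η) (∏ η' ∈ (nthRootsFinset p (1 : R)).erase η, f η') := by
      apply IsCoprime.prod_right
      intro η' hη'
      exact hcop η hη η' (Finset.mem_of_mem_erase hη') (Finset.ne_of_mem_erase hη').symm
    have hmul : f η * ∏ η' ∈ (nthRootsFinset p (1 : R)).erase η, f η'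
        = ε * ((ζ - 1) ^ (n - 1) * z) ^ p := by
      rw [Finset.mul_prod_erase _ f hη, hprodf]
    have hassoc : Associated (((ζ - 1) ^ (n - 1) * z) ^ p)
        (f η * ∏ η' ∈ (nthRootsFinset p (1 : R)).erase η, f η') := by
      rw [hmul]
      exact ⟨ε, by ring⟩
    obtain ⟨d, hd⟩ := exists_associated_pow_of_associated_pow_mul hc hassoc
    obtain ⟨u, hu⟩ := hd
    exact ⟨d, u, hu⟩
  -- choose two more roots
  have hp3 : 3 ≤ p := by
    have := hp.two_le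
    omega
  have hcard2 : 1 < ((nthRootsFinset p (1 : R)).erase η₀).card := by
    rw [Finset.card_erase_of_mem hη₀, hcard]
    omega
  obtain ⟨η₁, hη₁', η₂, hη₂', h12⟩ := Finset.one_lt_card.1 hcard2
  have hη₁ := Finset.mem_of_mem_erase hη₁'
  have hη₂ := Finset.mem_of_mem_erase hη₂'
  have h10 : η₁ ≠ η₀ := Finset.ne_of_mem_erase hη₁'
  have h20 : η₂ ≠ η₀ := Finset.ne_of_mem_erase hη₂'
  obtain ⟨d₀, u₀, hd₀⟩ := hpow η₀ hη₀
  obtain ⟨d₁, u₁, hd₁⟩ := hpow η₁ hη₁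
  obtain ⟨d₂, u₂, hd₂⟩ := hpow η₂ hη₂
  obtain ⟨v₁₂, hv₁₂, -, -⟩ := key η₁ hη₁ η₂ hη₂ h12
  obtain ⟨v₂₀, hv₂₀, -, -⟩ := key η₂ hη₂ η₀ hη₀ h20
  obtain ⟨v₀₁, hv₀₁, -, -⟩ := key η₀ hη₀ η₁ hη₁ h10.symm
  -- the linear relation between the three quotients
  have hlin : (v₁₂ : R) * f η₀ + v₂₀ * f η₁ + v₀₁ * f η₂ = 0 := by
    apply mul_left_cancel₀ (mul_ne_zero hπ0 hπ0)
    have e0 := hf η₀ hη₀
    have e1 := hf η₁ hη₁
    have e2 := hf η₂ hη₂
    calc (ζ - 1) * (ζ - 1) * (↑v₁₂ * f η₀ + ↑v₂₀ * f η₁ + ↑v₀₁ * f η₂)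
        = ((ζ - 1) * v₁₂) * ((ζ - 1) * f η₀) + ((ζ - 1) * v₂₀) * ((ζ - 1) * f η₁)
          + ((ζ - 1) * v₀₁) * ((ζ - 1) * f η₂) := by ring
      _ = (η₁ - η₂) * (x + η₀ * y) + (η₂ - η₀) * (x + η₁ * y) + (η₀ - η₁) * (x + η₂ * y) := by
          rw [hv₁₂, hv₂₀, hv₀₁, e0, e1, e2]
      _ = (ζ - 1) * (ζ - 1) * 0 := by ring
  -- π ∣ d₀, π ∤ d₂
  have hπd₀ : (ζ - 1) ∣ d₀ := by
    rw [← hd₀] at hdvd0
    exact hπ.dvd_of_dvd_pow ((Units.dvd_mul_right).1 hdvd0)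
  have hnd : ∀ η ∈ nthRootsFinset p (1 : R), η ≠ η₀ → ¬ (ζ - 1) ∣ f η := by
    intro η hη hne h
    exact hinj η hη η₀ hη₀ hne (dvd_sub h hdvd0)
  have hπd₂ : ¬ (ζ - 1) ∣ d₂ := by
    intro h
    apply hnd η₂ hη₂ h20
    rw [← hd₂]
    exact Dvd.dvd.mul_right (dvd_pow h hp.ne_zero) _
  have hf0 : ∏ η ∈ nthRootsFinset p (1 : R), f η ≠ 0 := by
    rw [hprodf]
    exact mul_ne_zero ε.ne_zero (pow_ne_zero _ (mul_ne_zero (pow_ne_zero _ hπ0) hz0))
  have hd₀0 : d₀ ≠ 0 := by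
    rintro rfl
    apply hf0
    apply Finset.prod_eq_zero hη₀
    rw [← hd₀, zero_pow hp.ne_zero, zero_mul]
  obtain ⟨m, w, hw, hd₀w⟩ := WfDvdMonoid.max_power_factor hd₀0 hπ.irreducible
  have hm1 : 1 ≤ m := by
    by_contra h
    have : m = 0 := by omega
    subst this
    rw [pow_zero, one_mul] at hd₀w
    exact hw (hd₀w ▸ hπd₀)
  have hmn : m < n := by
    have h1 : d₀ ^ p ∣ ∏ η ∈ nthRootsFinset p (1 : R), f η := by
      refine dvd_trans ?_ (Finset.dvd_prod_of_mem f hη₀)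
      exact ⟨u₀, hd₀.symm⟩
    rw [hprodf, hd₀w, mul_pow, ← pow_mul] at h1
    have h2 : (ζ - 1) ^ (m * p) ∣ ε * ((ζ - 1) ^ (n - 1) * z) ^ p :=
      dvd_trans (Dvd.intro _ rfl) h1
    rw [Units.dvd_mul_left, mul_pow, ← pow_mul] at h2
    have h3 := hπ.pow_dvd_of_dvd_mul_right _ (fun h => hz (hπ.dvd_of_dvd_pow h)) h2
    rw [pow_dvd_pow_iff hπ0 hπu] at h3
    have := Nat.le_of_mul_le_mul_right h3 hp0
    omega
  -- p ∣ d₀ ^ p
  have hπp : (ζ - 1) ∣ (p : R) :=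
    dvd_trans (dvd_pow_self _ (by omega : p - 1 ≠ 0)) H1.dvd
  have hpd₀ : (p : R) ∣ d₀ ^ p := by
    have h1 : (ζ - 1) ^ p ∣ d₀ ^ p := pow_dvd_pow_of_dvd hπd₀ p
    have h2 : (p : R) ∣ (ζ - 1) ^ p :=
      dvd_trans H1.symm.dvd (pow_dvd_pow _ (Nat.sub_le p 1))
    exact dvd_trans h2 h1
  -- the new equation
  obtain ⟨κ, hκ⟩ : ∃ κ : Rˣ, ((v₂₀ * u₁ : Rˣ) : R) * κ = v₀₁ * u₂ :=
    ⟨(v₂₀ * u₁)⁻¹ * (v₀₁ * u₂), by
      rw [← Units.val_mul, ← Units.val_mul, mul_inv_cancel_left]⟩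
  obtain ⟨ε', hε'⟩ : ∃ ε' : Rˣ, ((v₂₀ * u₁ : Rˣ) : R) * ε' = -(v₁₂ * u₀) :=
    ⟨-((v₂₀ * u₁)⁻¹ * (v₁₂ * u₀)), by
      rw [Units.val_neg, mul_neg, ← Units.val_mul, ← Units.val_mul, mul_inv_cancel_left]⟩
  have hnew : d₁ ^ p + κ * d₂ ^ p = ε' * d₀ ^ p := by
    rw [← hd₀, ← hd₁, ← hd₂] at hlin
    apply mul_left_cancel₀ (Units.ne_zero (v₂₀ * u₁))
    calc ((v₂₀ * u₁ : Rˣ) : R) * (d₁ ^ p + κ * d₂ ^ p)
        = ((v₂₀ * u₁ : Rˣ) : R) * d₁ ^ p + (((v₂₀ * u₁ : Rˣ) : R) * κ) * d₂ ^ p := by ring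
      _ = -(v₁₂ * u₀) * d₀ ^ p := by
          rw [hκ, Units.val_mul]
          linear_combination hlin
      _ = ((v₂₀ * u₁ : Rˣ) : R) * (ε' * d₀ ^ p) := by rw [← hε']; ring
  -- Kummer's lemma applies to κ
  obtain ⟨k₁, t₁, ht₁⟩ := H2 d₁
  obtain ⟨k₂, t₂, ht₂⟩ := H2 d₂
  have hk₂ : ¬ (p : ℤ) ∣ k₂ := by
    intro h
    apply hπd₂
    apply hπ.dvd_of_dvd_pow (n := p)
    have h1 : (p : R) ∣ (k₂ : R) := by
      obtain ⟨c, rfl⟩ := h
      exact ⟨c, by push_cast; ring⟩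
    have h2 : (p : R) ∣ d₂ ^ p := by
      have : d₂ ^ p = (d₂ ^ p - k₂) + k₂ := by ring
      rw [this]
      exact dvd_add ⟨t₂, ht₂⟩ h1
    exact dvd_trans hπp h2
  have hcopk : IsCoprime (p : ℤ) k₂ :=
    (Nat.prime_iff_prime_int.mp hp).irreducible.coprime_iff_not_dvd.2 hk₂
  obtain ⟨t, s, hst⟩ := hcopk
  obtain ⟨q, hq⟩ := hpd₀
  have hκint : (p : R) ∣ (κ : R) - ((-(s * k₁) : ℤ) : R) := by
    refine ⟨κ * t + s * (ε' * q - κ * t₂ - t₁), ?_⟩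
    have hst' : (t : R) * p + s * k₂ = 1 := by exact_mod_cast congrArg (Int.cast : ℤ → R) hst
    push_cast
    linear_combination (-(κ : R)) * hst' + (s : R) * (hnew - ht₁ - (κ : R) * ht₂ + (ε' : R) * hq)
  obtain ⟨v, hv⟩ := H5 κ _ hκint
  -- the new solution
  have hcop12 : IsCoprime d₁ (v * d₂) := by
    have h := hcop η₁ hη₁ η₂ hη₂ h12
    rw [← hd₁, ← hd₂] at h
    rw [isCoprime_mul_unit_right_left u₁.isUnit, isCoprime_mul_unit_right_right u₂.isUnit] at h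
    rw [IsCoprime.pow_iff hp0 hp0] at h
    exact (isCoprime_mul_unit_left_right v.isUnit _ _).2 h
  refine ih m hmn hm1 d₁ (v * d₂) w ε' hw hcop12 ?_
  rw [mul_pow, ← Units.val_pow_eq_pow_val, ← hv, hnew, hd₀w]

end Descent

end Fermat.Agent.Lib.helper850

namespace Fermat.Agent.Lib.helper850

open NumberField Polynomial

section Cyclo

variable {p : ℕ} [hpF : Fact p.Prime] {K : Type*} [Field K] [NumberField K]
  [IsCyclotomicExtension {p} ℚ K]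

/-- In `𝓞 K`, `K = ℚ(ζ_p)`, every `p`-th power is congruent to a rational integer mod `p`. -/
theorem exists_int_pow_sub_dvd {ζ : K} (hζ : IsPrimitiveRoot ζ p) (d : 𝓞 K) :
    ∃ k : ℤ, (p : 𝓞 K) ∣ d ^ p - k := by
  have hp : p.Prime := hpF.out
  have htop : Algebra.adjoin ℤ {hζ.toInteger} = ⊤ := by
    rw [← hζ.integralPowerBasis_gen]
    exact hζ.integralPowerBasis.adjoin_gen_eq_top
  have hd : d ∈ Algebra.adjoin ℤ {hζ.toInteger} := by rw [htop]; trivial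
  induction hd using Algebra.adjoin_induction with
  | mem x hx =>
    rw [Set.mem_singleton_iff] at hx
    subst hx
    refine ⟨1, ?_⟩
    have : hζ.toInteger ^ p = 1 := hζ.toInteger_isPrimitiveRoot.pow_eq_one
    rw [this]
    simp
  | algebraMap r =>
    refine ⟨r ^ p, ?_⟩
    simp
  | add x y _ _ hx hy =>
    obtain ⟨kx, tx, hx⟩ := hx
    obtain ⟨ky, ty, hy⟩ := hy
    obtain ⟨r, hr⟩ := exists_add_pow_prime_eq hp x y
    refine ⟨kx + ky, tx + ty + x * y * r, ?_⟩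
    push_cast
    linear_combination hr + hx + hy
  | mul x y _ _ hx hy =>
    obtain ⟨kx, tx, hx⟩ := hx
    obtain ⟨ky, ty, hy⟩ := hy
    refine ⟨kx * ky, tx * y ^ p + kx * ty, ?_⟩
    push_cast
    linear_combination y ^ p * hx + (kx : 𝓞 K) * hy

end Cyclo

end Fermat.Agent.Lib.helper850

namespace Fermat.Agent.Lib.helper850

open NumberField Polynomial

section CaseII

variable {p : ℕ} [hpF : Fact p.Prime] {K : Type*} [Field K] [NumberField K]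
  [IsCyclotomicExtension {p} ℚ K]

/-- Generalized Case II over `𝓞 K` for a PID `𝓞 K` satisfying Kummer's lemma. -/
theorem caseII_gen (hp2 : p ≠ 2) [IsPrincipalIdealRing (𝓞 K)]
    (hK : ∀ u : (𝓞 K)ˣ, ∀ k : ℤ, (p : 𝓞 K) ∣ (u : 𝓞 K) - k → ∃ v : (𝓞 K)ˣ, u = v ^ p)
    {ζ : K} (hζ : IsPrimitiveRoot ζ p) (n : ℕ) (hn : 1 ≤ n) (x y z : 𝓞 K) (ε : (𝓞 K)ˣ)
    (hz : ¬ (hζ.toInteger - 1) ∣ z) (hxy : IsCoprime x y) :
    x ^ p + y ^ p ≠ ε * ((hζ.toInteger - 1) ^ n * z) ^ p := by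
  have hp : p.Prime := hpF.out
  refine descent_aux hp hp2 hζ.toInteger_isPrimitiveRoot hζ.zeta_sub_one_prime'
    (IsCyclotomicExtension.Rat.associated_zeta_sub_one_pow_prime p hζ)
    (exists_int_pow_sub_dvd hζ) ?_ hK n hn x y z ε hz hxy
  have hζ' : IsPrimitiveRoot ζ (p ^ (0 + 1)) := by rwa [zero_add, pow_one]
  have hK' : IsCyclotomicExtension {p ^ (0 + 1)} ℚ K := by rwa [zero_add, pow_one]
  have h := IsCyclotomicExtension.Rat.absNorm_span_zeta_sub_one p 0 hζ'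
  rw [Ideal.absNorm_apply, Submodule.cardQuot_apply] at h
  exact h

end CaseII

end Fermat.Agent.Lib.helper850

namespace Fermat.Agent.Lib.helper850

open NumberField Polynomial

section CaseIIInt

variable {p : ℕ} [hpF : Fact p.Prime] (K : Type*) [Field K] [NumberField K]
  [IsCyclotomicExtension {p} ℚ K]

/-- Case II over `ℤ` when `p ∣ c`. -/
theorem caseII_int_c (hp2 : p ≠ 2) [IsPrincipalIdealRing (𝓞 K)]
    (hK : ∀ u : (𝓞 K)ˣ, ∀ k : ℤ, (p : 𝓞 K) ∣ (u : 𝓞 K) - k → ∃ v : (𝓞 K)ˣ, u = v ^ p)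
    (a b c : ℤ) (hab : IsCoprime a b) (hc : c ≠ 0) (hpc : (p : ℤ) ∣ c) :
    a ^ p + b ^ p ≠ c ^ p := by
  have hp : p.Prime := hpF.out
  intro h
  have hζ : IsPrimitiveRoot (IsCyclotomicExtension.zeta p ℚ K) p :=
    IsCyclotomicExtension.zeta_spec p ℚ K
  have hpint : Prime (p : ℤ) := Nat.prime_iff_prime_int.mp hp
  obtain ⟨k, c', hc', hcc'⟩ := WfDvdMonoid.max_power_factor hc hpint.irreducible
  have hk : 1 ≤ k := by
    by_contra hk
    have : k = 0 := by omega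
    subst this
    rw [pow_zero, one_mul] at hcc'
    exact hc' (hcc' ▸ hpc)
  obtain ⟨u, hu⟩ := IsCyclotomicExtension.Rat.associated_zeta_sub_one_pow_prime p hζ
  have hz : ¬ (hζ.toInteger - 1) ∣ (c' : 𝓞 K) := by
    rw [IsCyclotomicExtension.Rat.zeta_sub_one_dvd_intCast_iff' p hζ]
    exact hc'
  have hp1 : 1 ≤ p - 1 := by have := hp.two_le; omega
  refine caseII_gen hp2 hK hζ ((p - 1) * k) (Nat.mul_pos (by omega) (by omega)) (a : 𝓞 K) b c'
    (u ^ (k * p)) hz hab.intCast ?_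
  have h' : (a : 𝓞 K) ^ p + (b : 𝓞 K) ^ p = (c : 𝓞 K) ^ p := by exact_mod_cast congrArg (Int.cast : ℤ → 𝓞 K) h
  rw [h', hcc']
  push_cast
  rw [← hu]
  ring

/-- Case II over `ℤ`: if `p ∣ a * b * c` then `a ^ p + b ^ p ≠ c ^ p` (for coprime `a`, `b`). -/
theorem caseII (hp2 : p ≠ 2) [IsPrincipalIdealRing (𝓞 K)]
    (hK : ∀ u : (𝓞 K)ˣ, ∀ k : ℤ, (p : 𝓞 K) ∣ (u : 𝓞 K) - k → ∃ v : (𝓞 K)ˣ, u = v ^ p)
    (a b c : ℤ) (hab : IsCoprime a b) (habc : a * b * c ≠ 0) (hdvd : (p : ℤ) ∣ a * b * c) :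
    a ^ p + b ^ p ≠ c ^ p := by
  have hp : p.Prime := hpF.out
  have hp0 : 0 < p := hp.pos
  have hodd : Odd p := hp.odd_of_ne_two hp2
  intro h
  have ha : a ≠ 0 := fun h0 => habc (by rw [h0]; ring)
  have hb : b ≠ 0 := fun h0 => habc (by rw [h0]; ring)
  have hc : c ≠ 0 := fun h0 => habc (by rw [h0]; ring)
  have hpint : Prime (p : ℤ) := Nat.prime_iff_prime_int.mp hp
  -- coprimality of the other pairs
  have hbc : IsCoprime b c := by
    have h1 : IsCoprime b (a ^ p) := hab.symm.pow_right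
    have h2 : IsCoprime b (a ^ p + b * b ^ (p - 1)) := h1.add_mul_left_right _
    have h3 : a ^ p + b * b ^ (p - 1) = c ^ p := by
      rw [← h, ← pow_succ', Nat.sub_add_cancel hp0]
    rw [h3] at h2
    exact (IsCoprime.pow_right_iff hp0).1 h2
  have hac : IsCoprime a c := by
    have h1 : IsCoprime a (b ^ p) := hab.pow_right
    have h2 : IsCoprime a (b ^ p + a * a ^ (p - 1)) := h1.add_mul_left_right _
    have h3 : b ^ p + a * a ^ (p - 1) = c ^ p := by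
      rw [← h, ← pow_succ', Nat.sub_add_cancel hp0]; ring
    rw [h3] at h2
    exact (IsCoprime.pow_right_iff hp0).1 h2
  rcases (hpint.dvd_or_dvd hdvd) with hdvd' | hpc
  · rcases (hpint.dvd_or_dvd hdvd') with hpa | hpb
    · -- p ∣ a : c ^ p + (-b) ^ p = a ^ p
      refine caseII_int_c K hp2 hK c (-b) a hbc.symm.neg_right ha hpa ?_
      rw [hodd.neg_pow, ← h]; ring
    · -- p ∣ b : c ^ p + (-a) ^ p = b ^ p
      refine caseII_int_c K hp2 hK c (-a) b hac.symm.neg_right hb hpb ?_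
      rw [hodd.neg_pow, ← h]; ring
  · exact caseII_int_c K hp2 hK a b c hab hc hpc h

end CaseIIInt

end Fermat.Agent.Lib.helper850
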