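/-
Case II of Fermat's Last Theorem for an odd prime `p` such that the ring of integers of the
`p`-th cyclotomic field is a principal ideal domain and Kummer's lemma holds
(Kummer's descent, Washington, Theorem 9.3, PID version).

Main result: `Fermat.Agent.Lib.helper851.caseII`.
-/
import Mathlib

open NumberField Polynomial Finset

namespace Fermat.Agent.Lib.helper851

section general

/-- In a Bezout domain, if a pairwise-coprime finite product is a unit times a `k`-th power, each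
factor is associated to a `k`-th power. -/
theorem exists_associated_pow_of_prod_eq_unit_mul_pow {R : Type*} [CommRing R] [IsDomain R]
    [IsBezout R] {ι : Type*} [DecidableEq ι] (s : Finset ι) (f : ι → R)
    (hcop : ∀ i ∈ s, ∀ j ∈ s, i ≠ j → IsCoprime (f i) (f j)) (u : Rˣ) (c : R) (k : ℕ)
    (h : ∏ i ∈ s, f i = u * c ^ k) : ∀ i ∈ s, ∃ d : R, Associated (d ^ k) (f i) := by
  intro i hi
  have h1 : f i * ((u⁻¹ : Rˣ) * ∏ j ∈ s.erase i, f j) = c ^ k := by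
    have := Finset.mul_prod_erase s f hi
    calc f i * ((u⁻¹ : Rˣ) * ∏ j ∈ s.erase i, f j)
        = (u⁻¹ : Rˣ) * (f i * ∏ j ∈ s.erase i, f j) := by ring
      _ = (u⁻¹ : Rˣ) * (u * c ^ k) := by rw [this, h]
      _ = c ^ k := by rw [← mul_assoc, Units.inv_mul, one_mul]
  have h2 : IsCoprime (f i) ((u⁻¹ : Rˣ) * ∏ j ∈ s.erase i, f j) := by
    rw [isCoprime_mul_unit_left_right (Units.isUnit _)]
    exact IsCoprime.prod_right fun j hj => hcop i hi j (Finset.mem_of_mem_erase hj)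
        (Finset.ne_of_mem_erase hj).symm
  exact exists_associated_pow_of_mul_eq_pow' h2 h1

end general

section cyclo

variable {p : ℕ} [hp : Fact p.Prime] {K : Type*} [Field K] [NumberField K]
  [IsCyclotomicExtension {p} ℚ K]

/-- `p`-th powers in `𝓞 K` are congruent to rational integers modulo `p`. -/
theorem exists_int_sub_pow_dvd (a : 𝓞 K) : ∃ n : ℤ, (p : 𝓞 K) ∣ a ^ p - n := by
  have hζ := IsCyclotomicExtension.zeta_spec p ℚ K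
  have htop := IsCyclotomicExtension.Rat.adjoin_singleton_eq_top hζ
  have ha : a ∈ Algebra.adjoin ℤ {hζ.toInteger} := by rw [htop]; trivial
  induction ha using Algebra.adjoin_induction with
  | mem x hx =>
    rw [Set.mem_singleton_iff] at hx
    subst hx
    refine ⟨1, ?_⟩
    have : hζ.toInteger ^ p = 1 := hζ.toInteger_isPrimitiveRoot.pow_eq_one
    simp [this]
  | algebraMap r =>
    refine ⟨r ^ p, ?_⟩
    simp
  | add x y _ _ hx hy =>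
    obtain ⟨n, hn⟩ := hx
    obtain ⟨m, hm⟩ := hy
    refine ⟨n + m, ?_⟩
    have h1 : (p : 𝓞 K) ∣ (x + y) ^ p - (x ^ p + y ^ p) := by
      obtain ⟨r, hr⟩ := exists_add_pow_prime_eq hp.out x y
      exact ⟨x * y * r, by rw [hr]; ring⟩
    have : (x + y) ^ p - ((n + m : ℤ) : 𝓞 K) =
        ((x + y) ^ p - (x ^ p + y ^ p)) + (x ^ p - n) + (y ^ p - m) := by
      push_cast; ring
    rw [this]
    exact dvd_add (dvd_add h1 hn) hm
  | mul x y _ _ hx hy =>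
    obtain ⟨n, hn⟩ := hx
    obtain ⟨m, hm⟩ := hy
    refine ⟨n * m, ?_⟩
    have : (x * y) ^ p - ((n * m : ℤ) : 𝓞 K) = (x ^ p - n) * y ^ p + n * (y ^ p - m) := by
      push_cast; ring
    rw [this]
    exact dvd_add (Dvd.dvd.mul_right hn _) (Dvd.dvd.mul_left hm _)

variable {ζ : K} (hζ : IsPrimitiveRoot ζ p)

/-- The descent step of Kummer's argument. -/
theorem descent_step (hp2 : p ≠ 2) [IsPrincipalIdealRing (𝓞 K)]
    (hK : ∀ u : (𝓞 K)ˣ, ∀ n : ℤ, (p : 𝓞 K) ∣ (u : 𝓞 K) - n → ∃ v : (𝓞 K)ˣ, u = v ^ p)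
    {m : ℕ} (hm : 1 ≤ m) {x y z : 𝓞 K} {ε : (𝓞 K)ˣ} (hxy : IsCoprime x y)
    (hy : ¬ (hζ.toInteger - 1) ∣ y) (hz : ¬ (hζ.toInteger - 1) ∣ z)
    (h : x ^ p + y ^ p = ε * (hζ.toInteger - 1) ^ (p * m) * z ^ p) :
    2 ≤ m ∧ ∃ (x' y' z' : 𝓞 K) (ε' : (𝓞 K)ˣ), IsCoprime x' y' ∧ ¬ (hζ.toInteger - 1) ∣ y' ∧
      ¬ (hζ.toInteger - 1) ∣ z' ∧
      x' ^ p + y' ^ p = ε' * (hζ.toInteger - 1) ^ (p * (m - 1)) * z' ^ p := by
  classical
  have hpp := hp.out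
  have hp3 : 3 ≤ p := by have := hpp.two_le; omega
  set lam : 𝓞 K := hζ.toInteger - 1 with hlam
  have hprime : Prime lam := hζ.zeta_sub_one_prime'
  have hlam0 : lam ≠ 0 := hprime.ne_zero
  set S := nthRootsFinset p (1 : 𝓞 K) with hS
  have hζ' : IsPrimitiveRoot hζ.toInteger p := hζ.toInteger_isPrimitiveRoot
  have hcard : S.card = p := hζ'.card_nthRootsFinset
  have hodd : Odd p := hpp.odd_of_ne_two hp2
  have hprod : x ^ p + y ^ p = ∏ η ∈ S, (x + η * y) := hζ'.pow_add_pow_eq_prod_add_mul x y hodd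
  -- units from differences
  have hdiff : ∀ η₁ ∈ S, ∀ η₂ ∈ S, η₁ ≠ η₂ → ∃ u : (𝓞 K)ˣ, η₁ - η₂ = lam * u := by
    intro η₁ h₁ η₂ h₂ hne
    obtain ⟨u, hu⟩ := hζ'.nthRootsFinset_pairwise_associated_sub_one_sub_of_prime hpp h₁ h₂ hne
    exact ⟨u, hu.symm⟩
  -- every factor is divisible by `lam`
  have hD1 : ∀ η ∈ S, lam ∣ x + η * y := by
    have h1 : lam ∣ ∏ η ∈ S, (x + η * y) := by
      rw [← hprod, h]
      exact Dvd.dvd.mul_right (Dvd.dvd.mul_left (dvd_pow_self _ (by positivity)) _) _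
    obtain ⟨η₀, hη₀, hdvd⟩ := (Prime.dvd_finsetProd_iff hprime _).mp h1
    intro η hη
    by_cases hne : η = η₀
    · rw [hne]; exact hdvd
    · obtain ⟨u, hu⟩ := hdiff η hη η₀ hη₀ hne
      have : x + η * y = (x + η₀ * y) + lam * (u * y) := by
        rw [← mul_assoc, ← hu]; ring
      rw [this]
      exact dvd_add hdvd (dvd_mul_right _ _)
  choose! B hB using hD1
  have hD3 : ∀ η₁ ∈ S, ∀ η₂ ∈ S, ∀ u : (𝓞 K)ˣ, η₁ - η₂ = lam * u → B η₁ - B η₂ = u * y := by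
    intro η₁ h₁ η₂ h₂ u hu
    apply mul_left_cancel₀ hlam0
    calc lam * (B η₁ - B η₂) = (x + η₁ * y) - (x + η₂ * y) := by
          rw [hB η₁ h₁, hB η₂ h₂]; ring
      _ = (η₁ - η₂) * y := by ring
      _ = lam * (u * y) := by rw [hu]; ring
  have hD3' : ∀ η₁ ∈ S, ∀ η₂ ∈ S, η₁ ≠ η₂ → ¬ lam ∣ B η₁ - B η₂ := by
    intro η₁ h₁ η₂ h₂ hne hdvd
    obtain ⟨u, hu⟩ := hdiff η₁ h₁ η₂ h₂ hne
    rw [hD3 η₁ h₁ η₂ h₂ u hu] at hdvd
    exact hy ((IsUnit.dvd_mul_left u.isUnit).mp hdvd)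
  -- pigeonhole: exactly one `B η₀` is divisible by `lam`
  have hD4 : ∃ η₀ ∈ S, lam ∣ B η₀ := by
    let I : Ideal (𝓞 K) := Ideal.span {lam}
    have hnorm : Ideal.absNorm I = p := by
      rw [Ideal.absNorm_span_singleton, hζ.norm_toInteger_sub_one_of_prime_ne_two' hp2]
      simp
    have hcardQ : Nat.card (𝓞 K ⧸ I) = p := by
      rw [← hnorm]; rfl
    have : Finite (𝓞 K ⧸ I) := Nat.finite_of_card_ne_zero (by rw [hcardQ]; exact hpp.ne_zero)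
    let f : 𝓞 K → 𝓞 K ⧸ I := fun η => Ideal.Quotient.mk I (B η)
    have hinj : Set.InjOn f S := by
      intro η₁ h₁ η₂ h₂ heq
      by_contra hne
      apply hD3' η₁ h₁ η₂ h₂ hne
      have : Ideal.Quotient.mk I (B η₁ - B η₂) = 0 := by
        rw [map_sub]; exact sub_eq_zero.mpr heq
      rwa [Ideal.Quotient.eq_zero_iff_mem, Ideal.mem_span_singleton] at this
    have := Fintype.ofFinite (𝓞 K ⧸ I)
    have himg : (S.image f).card = Fintype.card (𝓞 K ⧸ I) := by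
      rw [Finset.card_image_of_injOn hinj, hcard, ← Nat.card_eq_fintype_card, hcardQ]
    have huniv := Finset.eq_univ_of_card _ himg
    have h0 : (0 : 𝓞 K ⧸ I) ∈ S.image f := by rw [huniv]; exact Finset.mem_univ _
    obtain ⟨η₀, hη₀, hf⟩ := Finset.mem_image.mp h0
    exact ⟨η₀, hη₀, by rwa [Ideal.Quotient.eq_zero_iff_mem, Ideal.mem_span_singleton] at hf⟩
  obtain ⟨η₀, hη₀, hdvd₀⟩ := hD4
  have hD5 : ∀ η ∈ S, η ≠ η₀ → ¬ lam ∣ B η := by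
    intro η hη hne hdvd
    exact hD3' η hη η₀ hη₀ hne (dvd_sub hdvd hdvd₀)
  -- pairwise coprimality
  have hD6 : ∀ η₁ ∈ S, ∀ η₂ ∈ S, η₁ ≠ η₂ → IsCoprime (B η₁) (B η₂) := by
    intro η₁ h₁ η₂ h₂ hne
    obtain ⟨u, hu⟩ := hdiff η₁ h₁ η₂ h₂ hne
    obtain ⟨s, t, hst⟩ := hxy
    have hy' : y = (u⁻¹ : (𝓞 K)ˣ) * (B η₁ - B η₂) := by
      rw [hD3 η₁ h₁ η₂ h₂ u hu, ← mul_assoc, Units.inv_mul, one_mul]
    have hx' : x = (u⁻¹ : (𝓞 K)ˣ) * (η₁ * B η₂ - η₂ * B η₁) := by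
      have : η₁ * B η₂ - η₂ * B η₁ = u * x := by
        apply mul_left_cancel₀ hlam0
        calc lam * (η₁ * B η₂ - η₂ * B η₁) = η₁ * (x + η₂ * y) - η₂ * (x + η₁ * y) := by
              rw [hB η₁ h₁, hB η₂ h₂]; ring
          _ = (η₁ - η₂) * x := by ring
          _ = lam * (u * x) := by rw [hu]; ring
      rw [this, ← mul_assoc, Units.inv_mul, one_mul]
    refine ⟨(u⁻¹ : (𝓞 K)ˣ) * (t - s * η₂), (u⁻¹ : (𝓞 K)ˣ) * (s * η₁ - t), ?_⟩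
    calc (u⁻¹ : (𝓞 K)ˣ) * (t - s * η₂) * B η₁ + (u⁻¹ : (𝓞 K)ˣ) * (s * η₁ - t) * B η₂
        = s * ((u⁻¹ : (𝓞 K)ˣ) * (η₁ * B η₂ - η₂ * B η₁))
          + t * ((u⁻¹ : (𝓞 K)ˣ) * (B η₁ - B η₂)) := by ring
      _ = s * x + t * y := by rw [← hx', ← hy']
      _ = 1 := hst
  -- the product of the `B η`
  have hD7 : ∏ η ∈ S, B η = ε * lam ^ (p * (m - 1)) * z ^ p := by
    apply mul_left_cancel₀ (pow_ne_zero p hlam0)
    calc lam ^ p * ∏ η ∈ S, B η = ∏ η ∈ S, (lam * B η) := by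
          rw [Finset.prod_mul_distrib, Finset.prod_const, hcard]
      _ = ∏ η ∈ S, (x + η * y) := Finset.prod_congr rfl (fun η hη => (hB η hη).symm)
      _ = ε * lam ^ (p * m) * z ^ p := by rw [← hprod, h]
      _ = lam ^ p * (ε * lam ^ (p * (m - 1)) * z ^ p) := by
          have : p * m = p + p * (m - 1) := by
            obtain ⟨k, rfl⟩ : ∃ k, m = k + 1 := ⟨m - 1, by omega⟩
            simp only [Nat.add_sub_cancel]; ring
          rw [this, pow_add]; ring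
  have hm2 : 2 ≤ m := by
    by_contra hlt
    have hm1 : m = 1 := by omega
    have h1 : lam ∣ ∏ η ∈ S, B η := dvd_trans hdvd₀ (Finset.dvd_prod_of_mem B hη₀)
    rw [hD7, hm1, Nat.sub_self, mul_zero, pow_zero, mul_one] at h1
    exact hz (hprime.dvd_of_dvd_pow ((IsUnit.dvd_mul_left ε.isUnit).mp h1))
  have hD9 : lam ^ (p * (m - 1)) ∣ B η₀ := by
    have h1 : B η₀ * ∏ η ∈ S.erase η₀, B η = ε * lam ^ (p * (m - 1)) * z ^ p := by
      rw [Finset.mul_prod_erase S B hη₀, hD7]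
    have h2 : ¬ lam ∣ ∏ η ∈ S.erase η₀, B η := by
      rw [Prime.dvd_finsetProd_iff hprime]
      rintro ⟨η, hη, hdvd⟩
      exact hD5 η (Finset.mem_of_mem_erase hη) (Finset.ne_of_mem_erase hη) hdvd
    apply hprime.pow_dvd_of_dvd_mul_right _ h2
    rw [h1]
    exact Dvd.dvd.mul_right (dvd_mul_left _ _) _
  obtain ⟨C₀, hC₀⟩ := hD9
  let f : 𝓞 K → 𝓞 K := fun η => if η = η₀ then C₀ else B η
  have hf0 : f η₀ = C₀ := if_pos rfl
  have hfne : ∀ η, η ≠ η₀ → f η = B η := fun η h => if_neg h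
  have hfprod : ∏ η ∈ S, f η = ε * z ^ p := by
    apply mul_left_cancel₀ (pow_ne_zero (p * (m - 1)) hlam0)
    rw [← Finset.mul_prod_erase S f hη₀, hf0]
    have : ∏ η ∈ S.erase η₀, f η = ∏ η ∈ S.erase η₀, B η :=
      Finset.prod_congr rfl (fun η hη => hfne η (Finset.ne_of_mem_erase hη))
    rw [this]
    calc lam ^ (p * (m - 1)) * (C₀ * ∏ η ∈ S.erase η₀, B η)
        = B η₀ * ∏ η ∈ S.erase η₀, B η := by rw [hC₀]; ring
      _ = ε * lam ^ (p * (m - 1)) * z ^ p := by rw [Finset.mul_prod_erase S B hη₀, hD7]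
      _ = lam ^ (p * (m - 1)) * (ε * z ^ p) := by ring
  have hC₀dvd : C₀ ∣ B η₀ := ⟨lam ^ (p * (m - 1)), by rw [hC₀]; ring⟩
  have hfcop : ∀ η₁ ∈ S, ∀ η₂ ∈ S, η₁ ≠ η₂ → IsCoprime (f η₁) (f η₂) := by
    intro η₁ h₁ η₂ h₂ hne
    by_cases e1 : η₁ = η₀
    · rw [e1, hf0, hfne η₂ (fun e => hne (e1.trans e.symm))]
      exact (hD6 η₀ hη₀ η₂ h₂ (e1 ▸ hne)).of_isCoprime_of_dvd_left hC₀dvd
    · by_cases e2 : η₂ = η₀
      · rw [hfne η₁ e1, e2, hf0]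
        exact (hD6 η₁ h₁ η₀ hη₀ e1).of_isCoprime_of_dvd_right hC₀dvd
      · rw [hfne η₁ e1, hfne η₂ e2]; exact hD6 η₁ h₁ η₂ h₂ hne
  have hpow := exists_associated_pow_of_prod_eq_unit_mul_pow S f hfcop ε z p hfprod
  obtain ⟨η₁, hη₁', η₂, hη₂', hne12⟩ := Finset.one_lt_card.mp
    (show 1 < (S.erase η₀).card by rw [Finset.card_erase_of_mem hη₀, hcard]; omega)
  have hη₁ := Finset.mem_of_mem_erase hη₁'
  have hne1 := Finset.ne_of_mem_erase hη₁'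
  have hη₂ := Finset.mem_of_mem_erase hη₂'
  have hne2 := Finset.ne_of_mem_erase hη₂'
  obtain ⟨ρ₁, ε₁, hρ₁⟩ := hpow η₁ hη₁
  obtain ⟨ρ₂, ε₂, hρ₂⟩ := hpow η₂ hη₂
  obtain ⟨ρ₀, ε₀, hρ₀⟩ := hpow η₀ hη₀
  rw [hfne η₁ hne1] at hρ₁
  rw [hfne η₂ hne2] at hρ₂
  rw [hf0] at hρ₀
  obtain ⟨u₁, hu₁⟩ := hdiff η₂ hη₂ η₀ hη₀ hne2
  obtain ⟨u₂, hu₂⟩ := hdiff η₀ hη₀ η₁ hη₁ (Ne.symm hne1)
  obtain ⟨u₃, hu₃⟩ := hdiff η₂ hη₂ η₁ hη₁ (Ne.symm hne12)
  have hrel : u₁ * B η₁ + u₂ * B η₂ = u₃ * B η₀ := by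
    apply mul_left_cancel₀ (mul_ne_zero hlam0 hlam0)
    calc lam * lam * (u₁ * B η₁ + u₂ * B η₂)
        = (lam * u₁) * (lam * B η₁) + (lam * u₂) * (lam * B η₂) := by ring
      _ = (η₂ - η₀) * (x + η₁ * y) + (η₀ - η₁) * (x + η₂ * y) := by
          rw [← hu₁, ← hu₂, ← hB η₁ hη₁, ← hB η₂ hη₂]
      _ = (η₂ - η₁) * (x + η₀ * y) := by ring
      _ = lam * lam * (u₃ * B η₀) := by rw [hu₃, hB η₀ hη₀]; ring
  rw [← hρ₁, ← hρ₂, hC₀, ← hρ₀] at hrel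
  let η' : (𝓞 K)ˣ := u₂ * ε₂ * (u₁ * ε₁)⁻¹
  let ε' : (𝓞 K)ˣ := u₃ * ε₀ * (u₁ * ε₁)⁻¹
  have hinv : (((u₁ * ε₁)⁻¹ : (𝓞 K)ˣ) : 𝓞 K) * ((u₁ : 𝓞 K) * ε₁) = 1 := by
    rw [← Units.val_mul, ← Units.val_mul, inv_mul_cancel, Units.val_one]
  have hrel' : ρ₁ ^ p + η' * ρ₂ ^ p = ε' * lam ^ (p * (m - 1)) * ρ₀ ^ p := by
    calc ρ₁ ^ p + η' * ρ₂ ^ p
        = (((u₁ * ε₁)⁻¹ : (𝓞 K)ˣ) : 𝓞 K) * (u₁ * (ρ₁ ^ p * ε₁) + u₂ * (ρ₂ ^ p * ε₂)) := by
          simp only [η', Units.val_mul]; linear_combination (-(ρ₁ ^ p)) * hinv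
      _ = (((u₁ * ε₁)⁻¹ : (𝓞 K)ˣ) : 𝓞 K) * (u₃ * (lam ^ (p * (m - 1)) * (ρ₀ ^ p * ε₀))) := by
          rw [hrel]
      _ = ε' * lam ^ (p * (m - 1)) * ρ₀ ^ p := by simp only [ε', Units.val_mul]; ring
  have hpdvd : (p : 𝓞 K) ∣ lam ^ (p * (m - 1)) := by
    have hassoc := IsCyclotomicExtension.Rat.associated_zeta_sub_one_pow_prime p hζ
    refine hassoc.symm.dvd.trans (pow_dvd_pow _ ?_)
    have : 1 ≤ m - 1 := by omega
    calc p - 1 ≤ p := Nat.sub_le _ _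
      _ = p * 1 := (mul_one p).symm
      _ ≤ p * (m - 1) := Nat.mul_le_mul_left _ this
  have hlamp : lam ∣ (p : 𝓞 K) := hζ.toInteger_sub_one_dvd_prime'
  have hnρ₂ : ¬ lam ∣ ρ₂ := by
    intro hd
    apply hD5 η₂ hη₂ hne2
    rw [← hρ₂]
    exact Dvd.dvd.mul_right (dvd_pow hd hpp.ne_zero) _
  have hnρ₀ : ¬ lam ∣ ρ₀ := by
    intro hd
    have h1 : lam ∣ ∏ η ∈ S, f η := by
      refine dvd_trans ?_ (Finset.dvd_prod_of_mem f hη₀)
      rw [hf0, ← hρ₀]; exact Dvd.dvd.mul_right (dvd_pow hd hpp.ne_zero) _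
    rw [hfprod] at h1
    exact hz (hprime.dvd_of_dvd_pow ((IsUnit.dvd_mul_left ε.isUnit).mp h1))
  obtain ⟨n₁, s₁, hn₁⟩ := exists_int_sub_pow_dvd (p := p) ρ₁
  obtain ⟨n₂, s₂, hn₂⟩ := exists_int_sub_pow_dvd (p := p) ρ₂
  have hpn₂ : ¬ (p : ℤ) ∣ n₂ := by
    intro hd
    apply hnρ₂
    apply hprime.dvd_of_dvd_pow (n := p)
    have : ρ₂ ^ p = n₂ + p * s₂ := by rw [← hn₂]; ring
    rw [this]
    refine dvd_add ?_ (Dvd.dvd.mul_right hlamp _)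
    exact (IsCyclotomicExtension.Rat.zeta_sub_one_dvd_intCast_iff' p hζ).mpr hd
  have hcop : IsCoprime (p : ℤ) n₂ :=
    (Nat.prime_iff_prime_int.mp hpp).irreducible.coprime_iff_not_dvd.mpr hpn₂
  obtain ⟨k, n₃, hk⟩ := hcop
  have hηcong : (p : 𝓞 K) ∣ (η' : 𝓞 K) - ((-(n₁ * n₃) : ℤ) : 𝓞 K) := by
    obtain ⟨t, ht⟩ := hpdvd
    have hk' : (k : 𝓞 K) * p + n₃ * n₂ = 1 := by
      exact_mod_cast congrArg (Int.cast : ℤ → 𝓞 K) hk
    refine ⟨η' * k + n₃ * (ε' * t * ρ₀ ^ p - η' * s₂ - s₁), ?_⟩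
    push_cast
    linear_combination (-(η' : 𝓞 K)) * hk' + (n₃ : 𝓞 K) * hrel'
      + (n₃ : 𝓞 K) * ε' * ρ₀ ^ p * ht - (n₃ : 𝓞 K) * hn₁ - (n₃ : 𝓞 K) * η' * hn₂
  obtain ⟨v, hv⟩ := hK η' (-(n₁ * n₃)) hηcong
  refine ⟨hm2, ρ₁, v * ρ₂, ρ₀, ε', ?_, ?_, hnρ₀, ?_⟩
  · rw [isCoprime_mul_unit_left_right v.isUnit]
    have h12 := hD6 η₁ hη₁ η₂ hη₂ hne12
    rw [← hρ₁, ← hρ₂] at h12
    exact (IsCoprime.pow_iff hpp.pos hpp.pos).mp h12.of_mul_left_left.of_mul_right_left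
  · intro hd; exact hnρ₂ ((IsUnit.dvd_mul_left v.isUnit).mp hd)
  · rw [mul_pow, ← Units.val_pow_eq_pow_val, ← hv]; exact hrel'

/-- Kummer's descent: the generalised Fermat equation `x ^ p + y ^ p = ε * (λ ^ m * z) ^ p`
has no solution with `m ≥ 1`, `x, y` coprime and `λ ∤ y z`. -/
theorem no_solution (hp2 : p ≠ 2) [IsPrincipalIdealRing (𝓞 K)]
    (hK : ∀ u : (𝓞 K)ˣ, ∀ n : ℤ, (p : 𝓞 K) ∣ (u : 𝓞 K) - n → ∃ v : (𝓞 K)ˣ, u = v ^ p) :
    ∀ m : ℕ, 1 ≤ m → ∀ (x y z : 𝓞 K) (ε : (𝓞 K)ˣ), IsCoprime x y →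
      ¬ (hζ.toInteger - 1) ∣ y → ¬ (hζ.toInteger - 1) ∣ z →
      x ^ p + y ^ p ≠ ε * (hζ.toInteger - 1) ^ (p * m) * z ^ p := by
  intro m
  induction m with
  | zero => intro h; omega
  | succ n ih =>
    intro _ x y z ε hxy hy hz h
    obtain ⟨h2, x', y', z', ε', hxy', hy', hz', h'⟩ :=
      descent_step hζ hp2 hK (Nat.succ_le_succ (Nat.zero_le n)) hxy hy hz h
    exact ih (by omega) x' y' z' ε' hxy' hy' hz' (by simpa using h')

/-- Case II when `p ∣ c`. -/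
theorem caseII_aux (hp2 : p ≠ 2) [IsPrincipalIdealRing (𝓞 K)]
    (hK : ∀ u : (𝓞 K)ˣ, ∀ n : ℤ, (p : 𝓞 K) ∣ (u : 𝓞 K) - n → ∃ v : (𝓞 K)ˣ, u = v ^ p)
    (a b c : ℤ) (hab : IsCoprime a b) (hc0 : c ≠ 0) (hpc : (p : ℤ) ∣ c) :
    a ^ p + b ^ p ≠ c ^ p := by
  intro h
  have hpp := hp.out
  have hpZ : Prime (p : ℤ) := Nat.prime_iff_prime_int.mp hpp
  have hζ := IsCyclotomicExtension.zeta_spec p ℚ K
  -- `p ∤ b`
  have hpb : ¬ (p : ℤ) ∣ b := by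
    intro hb
    have ha : (p : ℤ) ∣ a := by
      apply hpZ.dvd_of_dvd_pow (n := p)
      have : a ^ p = c ^ p - b ^ p := by rw [← h]; ring
      rw [this]
      exact dvd_sub (dvd_pow hpc hpp.ne_zero) (dvd_pow hb hpp.ne_zero)
    exact hpZ.not_isUnit (hab.isUnit_of_dvd' ha hb)
  -- write `c = p ^ k * c₀`
  have hfin : FiniteMultiplicity (p : ℤ) c :=
    Int.finiteMultiplicity_iff.mpr ⟨by simpa using hpp.ne_one, hc0⟩
  obtain ⟨c₀, hc₀, hpc₀⟩ := hfin.exists_eq_pow_mul_and_not_dvd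
  set k := multiplicity (p : ℤ) c with hk
  have hk1 : 1 ≤ k := by
    rcases Nat.eq_zero_or_pos k with h0 | h0
    · exfalso
      rw [h0, pow_zero, one_mul] at hc₀
      exact hpc₀ (hc₀ ▸ hpc)
    · exact h0
  obtain ⟨u, hu⟩ := IsCyclotomicExtension.Rat.associated_zeta_sub_one_pow_prime p hζ
  have hb' : ¬ (hζ.toInteger - 1) ∣ (b : 𝓞 K) := fun hd =>
    hpb ((IsCyclotomicExtension.Rat.zeta_sub_one_dvd_intCast_iff' p hζ).mp hd)
  have hc' : ¬ (hζ.toInteger - 1) ∣ (c₀ : 𝓞 K) := fun hd =>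
    hpc₀ ((IsCyclotomicExtension.Rat.zeta_sub_one_dvd_intCast_iff' p hζ).mp hd)
  have hm1 : 1 ≤ (p - 1) * k := Nat.mul_pos (by have := hpp.two_le; omega) hk1
  refine no_solution hζ hp2 hK ((p - 1) * k) hm1 (a : 𝓞 K) (b : 𝓞 K) (c₀ : 𝓞 K) (u ^ (k * p))
    hab.intCast hb' hc' ?_
  have h' : (a : 𝓞 K) ^ p + (b : 𝓞 K) ^ p = (c : 𝓞 K) ^ p := by exact_mod_cast congrArg (Int.cast : ℤ → 𝓞 K) h
  rw [h', hc₀]
  push_cast
  rw [← hu]
  ring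

/-- **Case II of Fermat's Last Theorem** for an odd prime `p` such that the ring of integers of
the `p`-th cyclotomic field is a PID and Kummer's lemma holds. -/
theorem caseII (hp2 : p ≠ 2) [IsPrincipalIdealRing (𝓞 K)]
    (hK : ∀ u : (𝓞 K)ˣ, ∀ n : ℤ, (p : 𝓞 K) ∣ (u : 𝓞 K) - n → ∃ v : (𝓞 K)ˣ, u = v ^ p)
    (a b c : ℤ) (hab : IsCoprime a b) (habc : a * b * c ≠ 0) (hdvd : (p : ℤ) ∣ a * b * c) :
    a ^ p + b ^ p ≠ c ^ p := by
  intro h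
  have hpp := hp.out
  have hpZ : Prime (p : ℤ) := Nat.prime_iff_prime_int.mp hpp
  have hodd : Odd p := hpp.odd_of_ne_two hp2
  have ha0 : a ≠ 0 := fun h0 => habc (by simp [h0])
  have hb0 : b ≠ 0 := fun h0 => habc (by simp [h0])
  have hc0 : c ≠ 0 := fun h0 => habc (by simp [h0])
  -- `c` is coprime to `a` and `b`
  have hcb : IsCoprime c b := by
    have h1 : IsCoprime (a ^ p + b * b ^ (p - 1)) b :=
      (IsCoprime.pow_left (m := p) hab).add_mul_left_left _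
    have h2 : a ^ p + b * b ^ (p - 1) = c ^ p := by
      rw [← h, ← pow_succ', Nat.sub_add_cancel hpp.one_le]
    rw [h2] at h1
    exact (IsCoprime.pow_left_iff hpp.pos).mp h1
  have hca : IsCoprime c a := by
    have h1 : IsCoprime (b ^ p + a * a ^ (p - 1)) a :=
      (IsCoprime.pow_left (m := p) hab.symm).add_mul_left_left _
    have h2 : b ^ p + a * a ^ (p - 1) = c ^ p := by
      rw [← h, ← pow_succ', Nat.sub_add_cancel hpp.one_le]; ring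
    rw [h2] at h1
    exact (IsCoprime.pow_left_iff hpp.pos).mp h1
  rcases hpZ.dvd_mul.mp hdvd with hd | hd
  · rcases hpZ.dvd_mul.mp hd with hd | hd
    · -- `p ∣ a`
      refine caseII_aux (K := K) hp2 hK c (-b) a hcb.neg_right ha0 hd ?_
      rw [hodd.neg_pow, ← h]; ring
    · -- `p ∣ b`
      refine caseII_aux (K := K) hp2 hK c (-a) b hca.neg_right hb0 hd ?_
      rw [hodd.neg_pow, ← h]; ring
  · exact caseII_aux (K := K) hp2 hK a b c hab hc0 hd h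

end cyclo

end Fermat.Agent.Lib.helper851
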