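/-
helper8524 — shared library module (S16 upper bound; Serre–Swinnerton-Dyer input "W(ℓ)").

WEIGHTS OF LEVEL-ONE FORMS MODULO `ℓ - 1`, without any structure theory of mod-`ℓ` forms.

If a level-one modular form `f` of weight `k` has `q`-expansion coefficients in a subring `O ⊆ ℂ`
and `φ : O →+* κ` is a ring hom to a field of characteristic `ℓ` such that `φ(a_n(f)) = 0` for all
`n ≥ 1` and `φ(a_0(f)) ≠ 0` ("`f` is a nonzero constant mod `ℓ`"), then `(ℓ - 1) ∣ k`.

Proof: `g = f Δ`, `h = T_r(g) - f · T_r(Δ)` (weight `k + 12`) reduces to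
`c r^11 (r^k - 1) Δ(q^r)`; for a prime `r > k + 12` the level-one Sturm bound modulo `φ`
(triangular integral basis `E₄^(3(M-b)) Δ^b`, applied to `h^12`) forces `r^k = 1` in `κ`;
Dirichlet's theorem provides such an `r` which is a primitive root modulo `ℓ`.
-/
import Fermat.Agent.Lib.helper386_LevelOneBasis
import Fermat.Prelude.Thm_ModularFormClass_qCoeff_heckeT
import Fermat.Prelude.Thm_ModularForm_heckeT_slash_eq_self_of_mem_Gamma0
import Fermat.Prelude.Thm_ModularForm_mdifferentiable_heckeT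
import Fermat.Prelude.Thm_ModularFormClass_isBoundedAt_heckeT

set_option autoImplicit false

open UpperHalfPlane ModularForm
open scoped MatrixGroups Manifold

namespace Fermat.Agent.Lib.helper8524

open Fermat.Agent.Lib.helper386

noncomputable section

/-! ### Models of `q`-expansions over a subring -/

/-- The level-one form `f` has `q`-expansion `F` with coefficients in the subring `O`. -/
def HasModel (O : Subring ℂ) {k : ℤ} (f : ModularForm 𝒮ℒ k) (F : PowerSeries O) : Prop :=
  qExpansion 1 f = F.map O.subtype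

theorem HasModel.coeff_mem {O : Subring ℂ} {k : ℤ} {f : ModularForm 𝒮ℒ k} {F : PowerSeries O}
    (h : HasModel O f F) (n : ℕ) : PowerSeries.coeff n (qExpansion 1 f) ∈ O := by
  rw [h, PowerSeries.coeff_map]
  exact (PowerSeries.coeff n F).2

theorem HasModel.mul {O : Subring ℂ} {a b : ℤ} {f : ModularForm 𝒮ℒ a} {g : ModularForm 𝒮ℒ b}
    {F G : PowerSeries O} (hf : HasModel O f F) (hg : HasModel O g G) :
    HasModel O (f.mul g) (F * G) := by
  unfold HasModel at *
  rw [ModularForm.qExpansion_mul one_pos one_mem_strictPeriods_SL, hf, hg, map_mul]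

theorem HasModel.pow {O : Subring ℂ} {a : ℤ} {f : ModularForm 𝒮ℒ a}
    {F : PowerSeries O} (hf : HasModel O f F) (n : ℕ) :
    HasModel O (f.pow n) (F ^ n) := by
  unfold HasModel at *
  rw [ModularForm.qExpansion_pow one_pos one_mem_strictPeriods_SL, hf, map_pow]

theorem HasModel.sub {O : Subring ℂ} {a : ℤ} {f g : ModularForm 𝒮ℒ a}
    {F G : PowerSeries O} (hf : HasModel O f F) (hg : HasModel O g G) :
    HasModel O (f - g) (F - G) := by
  unfold HasModel at *
  have h1 : ((f - g : ModularForm 𝒮ℒ a) : ℍ → ℂ) = (f : ℍ → ℂ) - (g : ℍ → ℂ) := rfl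
  rw [h1, ModularForm.qExpansion_sub one_pos one_mem_strictPeriods_SL f g, hf, hg, map_sub]

theorem HasModel.mcast {O : Subring ℂ} {a b : ℤ} {f : ModularForm 𝒮ℒ a}
    {F : PowerSeries O} (hf : HasModel O f F) (hab : a = b) :
    HasModel O (ModularForm.mcast hab f) F := by
  unfold HasModel at *
  rw [ModularForm.qExpansion_mcast, hf]

theorem hasModel_deltaForm (O : Subring ℂ) :
    HasModel O deltaForm (deltaSeries.map (Int.castRingHom O)) := by
  unfold HasModel
  rw [qExpansion_deltaForm]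
  ext n
  simp

/-! ### The Hecke operator `T_r` on level-one forms (Prelude theorems) -/

theorem mem_Gamma0_one_map {γ : GL (Fin 2) ℝ} (hγ : γ ∈ 𝒮ℒ) :
    γ ∈ ((CongruenceSubgroup.Gamma0 1 : Subgroup SL(2, ℤ)) : Subgroup (GL (Fin 2) ℝ)) := by
  obtain ⟨g, rfl⟩ := hγ
  refine Subgroup.mem_map_of_mem _ ?_
  rw [CongruenceSubgroup.Gamma0_mem]
  exact Subsingleton.elim _ _

theorem Gamma0_one_map_le :
    ((CongruenceSubgroup.Gamma0 1 : Subgroup SL(2, ℤ)) : Subgroup (GL (Fin 2) ℝ)) ≤ 𝒮ℒ :=
  Subgroup.map_le_range _ _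

/-- `T_r f` for a level-one modular form `f`, as a level-one modular form. -/
def heckeForm (k : ℤ) (r : ℕ) (hr : r.Prime) (f : ModularForm 𝒮ℒ k) : ModularForm 𝒮ℒ k where
  toFun := ModularForm.heckeT k r f
  slash_action_eq' γ hγ :=
    ModularForm.heckeT_slash_eq_self_of_mem_Gamma0 (N := 1) k hr
      (by simpa using hr.one_lt.ne')
      (fun γ' hγ' => f.slash_action_eq' γ' (Gamma0_one_map_le hγ')) γ (mem_Gamma0_one_map hγ)
  holo' := ModularForm.mdifferentiable_heckeT f.holo' k r
  bdd_at_cusps' hc := ModularFormClass.isBoundedAt_heckeT f r hc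

theorem qExpansion_heckeForm_coeff (k : ℤ) (r : ℕ) (hr : r.Prime) (f : ModularForm 𝒮ℒ k) (n : ℕ) :
    (qExpansion 1 (heckeForm k r hr f)).coeff n =
      (qExpansion 1 f).coeff (n * r) +
        if r ∣ n then (r : ℂ) ^ (k - 1) * (qExpansion 1 f).coeff (n / r) else 0 := by
  have h := ModularFormClass.qCoeff_heckeT f one_mem_strictPeriods_SL hr.ne_zero n
  exact h

/-- The formal Hecke operator `a_n ↦ a_{nr} + r^K a_{n/r}` on power series over any ring. -/
def heckeSeries {R : Type*} [CommRing R] (K r : ℕ) (F : PowerSeries R) : PowerSeries R :=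
  PowerSeries.mk fun n =>
    PowerSeries.coeff (n * r) F + if r ∣ n then (r : R) ^ K * PowerSeries.coeff (n / r) F else 0

theorem coeff_heckeSeries {R : Type*} [CommRing R] (K r : ℕ) (F : PowerSeries R) (n : ℕ) :
    PowerSeries.coeff n (heckeSeries K r F) =
      PowerSeries.coeff (n * r) F +
        if r ∣ n then (r : R) ^ K * PowerSeries.coeff (n / r) F else 0 := by
  rw [heckeSeries, PowerSeries.coeff_mk]

theorem map_heckeSeries {R S : Type*} [CommRing R] [CommRing S] (φ : R →+* S) (K r : ℕ)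
    (F : PowerSeries R) : (heckeSeries K r F).map φ = heckeSeries K r (F.map φ) := by
  ext n
  rw [PowerSeries.coeff_map, coeff_heckeSeries, coeff_heckeSeries, map_add, PowerSeries.coeff_map]
  split_ifs
  · rw [map_mul, map_pow, map_natCast, PowerSeries.coeff_map]
  · rw [map_zero]

theorem heckeSeries_C_mul {R : Type*} [CommRing R] (K r : ℕ) (c : R) (F : PowerSeries R) :
    heckeSeries K r (PowerSeries.C c * F) = PowerSeries.C c * heckeSeries K r F := by
  ext n
  rw [coeff_heckeSeries, PowerSeries.coeff_C_mul, PowerSeries.coeff_C_mul, PowerSeries.coeff_C_mul,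
    coeff_heckeSeries]
  split_ifs <;> ring

theorem HasModel.hecke {O : Subring ℂ} {k : ℤ} {f : ModularForm 𝒮ℒ k} {F : PowerSeries O}
    (hf : HasModel O f F) (K : ℕ) (hk : k - 1 = K) (r : ℕ) (hr : r.Prime) :
    HasModel O (heckeForm k r hr f) (heckeSeries K r F) := by
  unfold HasModel at *
  ext n
  rw [qExpansion_heckeForm_coeff, hf, hk, zpow_natCast]
  simp only [PowerSeries.coeff_map, coeff_heckeSeries, Subring.coe_subtype]
  split_ifs <;> simp

/-! ### The level-one Sturm bound modulo a ring hom -/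

/-- **Sturm bound mod `φ`** in weight `12 M`: if the first `M + 1` coefficients of a level-one
form with coefficients in `O` are killed by `φ : O →+* κ`, so are all of them. -/
theorem sturm_mod (O : Subring ℂ) {κ : Type*} [CommRing κ] (φ : O →+* κ) (M : ℕ)
    (f : ModularForm 𝒮ℒ (12 * (M : ℤ))) (F : PowerSeries O) (hF : HasModel O f F)
    (hlow : ∀ n ≤ M, φ (PowerSeries.coeff n F) = 0) : F.map φ = 0 := by
  obtain ⟨c, -, hc⟩ := exists_coeffs_qExpansion O M f hF.coeff_mem
  have hcO : ∀ n, PowerSeries.coeff n F = ∑ b ∈ Finset.range (M + 1),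
      c b * ((PowerSeries.coeff n (basisSeries M b) : ℤ) : O) := by
    intro n
    apply Subtype.ext
    have h := hc n
    rw [hF, PowerSeries.coeff_map] at h
    rw [Subring.coe_subtype] at h
    rw [h]
    push_cast
    rfl
  have hcφ : ∀ n, φ (PowerSeries.coeff n F) = ∑ b ∈ Finset.range (M + 1),
      φ (c b) * ((PowerSeries.coeff n (basisSeries M b) : ℤ) : κ) := by
    intro n
    rw [hcO, map_sum]
    refine Finset.sum_congr rfl fun b _ => ?_
    rw [map_mul, map_intCast]
  have hzero : ∀ b, b ≤ M → φ (c b) = 0 := by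
    intro b
    induction b using Nat.strong_induction_on with
    | _ b ih =>
      intro hb
      have h1 := hcφ b
      rw [hlow b hb, Finset.sum_eq_single b] at h1
      · rw [coeff_basisSeries_self] at h1
        simpa using h1.symm
      · intro b' hb' hne
        rcases lt_or_gt_of_ne hne with hlt | hgt
        · rw [ih b' hlt (by have := Finset.mem_range.mp hb'; omega)]
          simp
        · rw [coeff_basisSeries_of_lt hgt]
          simp
      · intro hnot
        exact absurd (Finset.mem_range.mpr (by omega)) hnot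
  ext n
  rw [PowerSeries.coeff_map, hcφ, map_zero]
  refine Finset.sum_eq_zero fun b hb => ?_
  rw [hzero b (by have := Finset.mem_range.mp hb; omega)]
  simp

/-! ### The main theorem -/

/-- Coefficients of the reduction of `T_r^{(K+12)}(c Δ) - c T_r^{(12)} Δ`. -/
theorem coeff_hecke_diff {κ : Type*} [CommRing κ] (K r : ℕ) (c : κ) (D : PowerSeries κ) (n : ℕ) :
    PowerSeries.coeff n (heckeSeries (K + 11) r (PowerSeries.C c * D) -
        PowerSeries.C c * heckeSeries 11 r D) =
      if r ∣ n then c * ((r : κ) ^ (K + 11) - (r : κ) ^ 11) * PowerSeries.coeff (n / r) D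
      else 0 := by
  rw [heckeSeries_C_mul, map_sub, PowerSeries.coeff_C_mul, PowerSeries.coeff_C_mul,
    coeff_heckeSeries, coeff_heckeSeries]
  split_ifs <;> ring

/-- **Weights modulo `ℓ - 1`.** A level-one modular form of weight `k` whose `q`-expansion has
coefficients in a subring `O ⊆ ℂ` and is congruent to a nonzero constant modulo a ring hom
`φ : O →+* κ` into a field of characteristic `ℓ` has weight divisible by `ℓ - 1`. -/
theorem weight_dvd_of_const_mod (O : Subring ℂ) {κ : Type*} [Field κ] (ℓ : ℕ) [hℓ : Fact ℓ.Prime]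
    [CharP κ ℓ] (φ : O →+* κ) {k : ℤ} (f : ModularForm 𝒮ℒ k) (F : PowerSeries O)
    (hF : HasModel O f F)
    (hpos : ∀ n, 0 < n → φ (PowerSeries.coeff n F) = 0)
    (h0 : φ (PowerSeries.coeff 0 F) ≠ 0) : ((ℓ : ℤ) - 1) ∣ k := by
  -- the weight is nonnegative
  have hk0 : 0 ≤ k := by
    by_contra hneg
    replace hneg : k < 0 := not_le.mp hneg
    have hf0 : (f : ℍ → ℂ) = 0 := ModularFormClass.levelOne_neg_weight_eq_zero hneg f
    have h1 : PowerSeries.coeff 0 (qExpansion 1 f) = 0 := by
      rw [hf0, qExpansion_zero]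
      simp
    have h2 : PowerSeries.coeff 0 F = 0 := by
      apply Subtype.ext
      have h3 := h1
      rw [hF, PowerSeries.coeff_map] at h3
      simpa using h3
    exact h0 (by rw [h2, map_zero])
  obtain ⟨K, rfl⟩ := Int.eq_ofNat_of_zero_le hk0
  -- a prime `r > K + 12`, `r ≠ ℓ`, which is a primitive root mod `ℓ`
  have : NeZero ℓ := ⟨hℓ.out.ne_zero⟩
  obtain ⟨g, hg⟩ := IsCyclic.exists_generator (α := (ZMod ℓ)ˣ)
  have hord : orderOf g = ℓ - 1 := by
    rw [orderOf_eq_card_of_forall_mem_zpowers hg, Nat.card_eq_fintype_card, ZMod.card_units]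
  obtain ⟨r, hr_gt, hr, hr_mod⟩ :=
    Nat.forall_exists_prime_gt_and_eq_mod (q := ℓ) (a := (g : ZMod ℓ)) g.isUnit (max (K + 12) ℓ)
  have hrK : K + 12 < r := lt_of_le_of_lt (le_max_left _ _) hr_gt
  have hrℓ : ℓ < r := lt_of_le_of_lt (le_max_right _ _) hr_gt
  have hrκ : (r : κ) ≠ 0 := by
    intro h
    rw [CharP.cast_eq_zero_iff κ ℓ] at h
    have := (Nat.prime_dvd_prime_iff_eq hℓ.out hr).mp h
    omega
  -- the forms
  set Δ₀ : PowerSeries O := deltaSeries.map (Int.castRingHom O) with hΔ₀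
  have hΔ : HasModel O deltaForm Δ₀ := hasModel_deltaForm O
  have hG : HasModel O (f.mul deltaForm) (F * Δ₀) := hF.mul hΔ
  have hDr : HasModel O (heckeForm 12 r hr deltaForm) (heckeSeries 11 r Δ₀) :=
    hΔ.hecke 11 (by norm_num) r hr
  have hA : HasModel O (heckeForm ((K : ℤ) + 12) r hr (f.mul deltaForm))
      (heckeSeries (K + 11) r (F * Δ₀)) :=
    hG.hecke (K + 11) (by push_cast; ring) r hr
  have hB : HasModel O (f.mul (heckeForm 12 r hr deltaForm)) (F * heckeSeries 11 r Δ₀) :=
    hF.mul hDr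
  set H₀ : PowerSeries O := heckeSeries (K + 11) r (F * Δ₀) - F * heckeSeries 11 r Δ₀ with hH₀
  have hh : HasModel O (heckeForm ((K : ℤ) + 12) r hr (f.mul deltaForm) -
      f.mul (heckeForm 12 r hr deltaForm)) H₀ := hA.sub hB
  -- reduction modulo `φ`
  set c : κ := φ (PowerSeries.coeff 0 F) with hc
  have hFφ : F.map φ = PowerSeries.C c := by
    ext n
    rw [PowerSeries.coeff_map, PowerSeries.coeff_C]
    split_ifs with hn
    · rw [hn]
    · exact hpos n (Nat.pos_of_ne_zero hn)
  set D : PowerSeries κ := deltaSeries.map (Int.castRingHom κ) with hD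
  have hΔφ : Δ₀.map φ = D := by
    ext n
    simp [hΔ₀, hD]
  have hHφ : H₀.map φ = heckeSeries (K + 11) r (PowerSeries.C c * D) -
      PowerSeries.C c * heckeSeries 11 r D := by
    rw [hH₀, map_sub, map_mul, map_heckeSeries, map_heckeSeries, map_mul, hFφ, hΔφ]
  have hHcoeff : ∀ n, PowerSeries.coeff n (H₀.map φ) =
      if r ∣ n then c * ((r : κ) ^ (K + 11) - (r : κ) ^ 11) * PowerSeries.coeff (n / r) D
      else 0 := by
    intro n
    rw [hHφ, coeff_hecke_diff]
  have hD0 : PowerSeries.coeff 0 D = 0 := by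
    rw [hD, PowerSeries.coeff_map, coeff_zero_deltaSeries, map_zero]
  have hD1 : PowerSeries.coeff 1 D = 1 := by
    rw [hD, PowerSeries.coeff_map, coeff_one_deltaSeries, map_one]
  have hlowH : ∀ n < r, PowerSeries.coeff n (H₀.map φ) = 0 := by
    intro n hn
    rw [hHcoeff]
    split_ifs with hdvd
    · have hn0 : n = 0 := by
        by_contra hne
        exact absurd (Nat.le_of_dvd (Nat.pos_of_ne_zero hne) hdvd) (by omega)
      rw [hn0, Nat.zero_div, hD0, mul_zero]
    · rfl
  -- Sturm bound for `h ^ 12`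
  have hpow : HasModel O (ModularForm.mcast (show ((12 : ℕ) : ℤ) * ((K : ℤ) + 12) =
      12 * ((K + 12 : ℕ) : ℤ) by push_cast; ring)
      ((heckeForm ((K : ℤ) + 12) r hr (f.mul deltaForm) -
        f.mul (heckeForm 12 r hr deltaForm)).pow 12)) (H₀ ^ 12) :=
    (hh.pow 12).mcast _
  have hdvdH : PowerSeries.X ^ r ∣ H₀.map φ := PowerSeries.X_pow_dvd_iff.mpr hlowH
  have hdvdH12 : PowerSeries.X ^ r ∣ (H₀.map φ) ^ 12 :=
    hdvdH.trans (dvd_pow_self _ (by norm_num))
  have hzero12 : (H₀ ^ 12).map φ = 0 := by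
    refine sturm_mod O φ (K + 12) _ (H₀ ^ 12) hpow fun n hn => ?_
    have h1 := PowerSeries.X_pow_dvd_iff.mp hdvdH12 n (by omega)
    rw [← map_pow, PowerSeries.coeff_map] at h1
    exact h1
  have hHzero : H₀.map φ = 0 := by
    rw [map_pow] at hzero12
    exact pow_eq_zero_iff (by norm_num : (12 : ℕ) ≠ 0) |>.mp hzero12
  -- read off the coefficient at `r`
  have hcr : c * ((r : κ) ^ (K + 11) - (r : κ) ^ 11) = 0 := by
    have h1 := hHcoeff r
    rw [hHzero, if_pos dvd_rfl, Nat.div_self hr.pos, hD1, mul_one] at h1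
    simpa using h1.symm
  have hrK1 : (r : κ) ^ K = 1 := by
    have h1 : (r : κ) ^ (K + 11) - (r : κ) ^ 11 = 0 := (mul_eq_zero.mp hcr).resolve_left h0
    have h2 : (r : κ) ^ 11 * ((r : κ) ^ K - 1) = 0 := by
      rw [← h1]; ring
    have h3 := (mul_eq_zero.mp h2).resolve_left (pow_ne_zero 11 hrκ)
    exact sub_eq_zero.mp h3
  -- transfer to `ZMod ℓ`
  have hmodℓ : ((r ^ K : ℕ) : ZMod ℓ) = ((1 : ℕ) : ZMod ℓ) := by
    rw [ZMod.natCast_eq_natCast_iff]
    have h1 : ((r ^ K : ℕ) : κ) = ((1 : ℕ) : κ) := by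
      push_cast
      exact hrK1
    exact (CharP.natCast_eq_natCast κ ℓ).mp h1
  have hgK : g ^ K = 1 := by
    apply Units.ext
    push_cast at hmodℓ
    rw [hr_mod] at hmodℓ
    rw [Units.val_pow_eq_pow_val, hmodℓ]
    rfl
  have hdvd : ℓ - 1 ∣ K := by
    rw [← hord]
    exact orderOf_dvd_of_pow_eq_one hgK
  obtain ⟨m, hm⟩ := hdvd
  refine ⟨m, ?_⟩
  have hℓ1 : 1 ≤ ℓ := hℓ.out.one_le
  rw [hm]
  push_cast [Nat.cast_sub hℓ1]
  ring

end

end Fermat.Agent.Lib.helper8524
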