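/-
Transport and naturality (equivariance) of the reduction homomorphism
`Fermat.Agent.Lib.helper8525.red` of `Fermat/Agent/Lib/helper8525_RedHom.lean`.

* `redOf φ W hΔ eK ek : WK.toAffine.Point →+ Wk.toAffine.Point` : the reduction homomorphism
  between ARBITRARY curves `WK` over `K` and `Wk` over `k` that are (propositionally) the
  generic and the special fibre of the integral model `W` (so any presentation of the two
  fibres can be used: `W'⁄K`, `W'.map _`, ...).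
* `redOf_natural` : naturality with respect to a pair of ring homomorphisms `f : K →+* K₂`,
  `g : k →+* k₂` compatible with the valuation subrings and the residue maps, for ANY maps on
  points that act coordinatewise by `f` and `g` (e.g. Mathlib's `Point.map`).  In particular
  `red (σ P) = Frob (red P)` for a Frobenius element `σ`, and `red (P(t ↦ ζ t)) = red P`,
  `red (P(t ↦ t^l)) = Frob (red P)` on Gauss valuation rings.
-/
import Fermat.Agent.Lib.helper8525_RedHom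

set_option autoImplicit false

namespace Fermat.Agent.Lib.helper8525

open WeierstrassCurve WeierstrassCurve.Affine

section RedOf

variable {K : Type*} [Field K] {A : ValuationSubring K} {k : Type*} [Field k]
  (φ : A →+* k) [IsLocalHom φ] (W : WeierstrassCurve A) [DecidableEq K] [DecidableEq k]
  {WK : WeierstrassCurve K} {Wk : WeierstrassCurve k}

/-- The reduction homomorphism, transported to arbitrary presentations `WK`, `Wk` of the
generic and special fibres of the integral model `W`. -/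
noncomputable def redOf (hΔ : IsUnit W.Δ) (eK : W.map A.subtype = WK) (ek : W.map φ = Wk) :
    WK.toAffine.Point →+ Wk.toAffine.Point := by
  subst eK
  subst ek
  exact red φ W hΔ

theorem redOf_rfl (hΔ : IsUnit W.Δ) : redOf φ W hΔ rfl rfl = red φ W hΔ := rfl

theorem redOf_some_of_mem (hΔ : IsUnit W.Δ) (eK : W.map A.subtype = WK) (ek : W.map φ = Wk)
    {x y : K} (h : WK.toAffine.Nonsingular x y) (hx : x ∈ A) (hy : y ∈ A)
    (h' : Wk.toAffine.Nonsingular (φ ⟨x, hx⟩) (φ ⟨y, hy⟩)) :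
    redOf φ W hΔ eK ek (.some x y h) = .some (φ ⟨x, hx⟩) (φ ⟨y, hy⟩) h' := by
  subst eK
  subst ek
  exact red_some_of_mem φ W hΔ h hx hy h'

theorem redOf_some_of_notMem (hΔ : IsUnit W.Δ) (eK : W.map A.subtype = WK) (ek : W.map φ = Wk)
    {x y : K} (h : WK.toAffine.Nonsingular x y) (hx : x ∉ A) :
    redOf φ W hΔ eK ek (.some x y h) = 0 := by
  subst eK
  subst ek
  exact red_some_of_notMem φ W hΔ h hx

theorem redOf_some_eq_zero_iff (hΔ : IsUnit W.Δ) (eK : W.map A.subtype = WK)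
    (ek : W.map φ = Wk) {x y : K} (h : WK.toAffine.Nonsingular x y) :
    redOf φ W hΔ eK ek (.some x y h) = 0 ↔ x ∉ A := by
  subst eK
  subst ek
  exact red_some_eq_zero_iff φ W hΔ h

theorem redOf_eq_zero_iff (hΔ : IsUnit W.Δ) (eK : W.map A.subtype = WK) (ek : W.map φ = Wk)
    (P : WK.toAffine.Point) :
    redOf φ W hΔ eK ek P = 0 ↔ P = 0 ∨ ∃ (x y : K) (h : WK.toAffine.Nonsingular x y),
      P = .some x y h ∧ x ∉ A := by
  subst eK
  subst ek
  exact red_eq_zero_iff φ W hΔ P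

omit [IsLocalHom φ] [DecidableEq K] [DecidableEq k] in
/-- `y`-coordinates of points with integral `x` are integral (transported form). -/
theorem y_mem_of (eK : W.map A.subtype = WK) {x y : K} (h : WK.toAffine.Equation x y)
    (hx : x ∈ A) : y ∈ A := by
  subst eK
  exact y_mem W h hx

omit [IsLocalHom φ] [DecidableEq K] [DecidableEq k] in
/-- Nonsingularity of the reduced point (transported form). -/
theorem nonsingular_of (hΔ : IsUnit W.Δ) (eK : W.map A.subtype = WK) (ek : W.map φ = Wk)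
    {x y : K} (h : WK.toAffine.Equation x y) (hx : x ∈ A) (hy : y ∈ A) :
    Wk.toAffine.Nonsingular (φ ⟨x, hx⟩) (φ ⟨y, hy⟩) := by
  subst eK
  subst ek
  exact nonsingular_map W φ hΔ (equation_of_map_subtype W (x := ⟨x, hx⟩) (y := ⟨y, hy⟩) h)

end RedOf

section Natural

variable {K : Type*} [Field K] {A : ValuationSubring K} {k : Type*} [Field k]
  (φ : A →+* k) [IsLocalHom φ] (W : WeierstrassCurve A) [DecidableEq K] [DecidableEq k]
  {WK : WeierstrassCurve K} {Wk : WeierstrassCurve k}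
  {K₂ : Type*} [Field K₂] {A₂ : ValuationSubring K₂} {k₂ : Type*} [Field k₂]
  (φ₂ : A₂ →+* k₂) [IsLocalHom φ₂] (W₂ : WeierstrassCurve A₂) [DecidableEq K₂] [DecidableEq k₂]
  {WK₂ : WeierstrassCurve K₂} {Wk₂ : WeierstrassCurve k₂}

/-- **Naturality of reduction.**  Let `f : K →+* K₂` and `g : k →+* k₂` be ring homomorphisms
with `f ⁻¹' A₂ = A` and `φ₂ ∘ f = g ∘ φ` on `A`.  If `F` and `G` are maps on points acting
coordinatewise by `f` and `g`, then `red₂ ∘ F = G ∘ red`. -/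
theorem redOf_natural (hΔ : IsUnit W.Δ) (eK : W.map A.subtype = WK) (ek : W.map φ = Wk)
    (hΔ₂ : IsUnit W₂.Δ) (eK₂ : W₂.map A₂.subtype = WK₂) (ek₂ : W₂.map φ₂ = Wk₂)
    (f : K →+* K₂) (g : k →+* k₂) (hA : ∀ x : K, f x ∈ A₂ ↔ x ∈ A)
    (hfg : ∀ (a : A) (h : f (A.subtype a) ∈ A₂), φ₂ ⟨f (A.subtype a), h⟩ = g (φ a))
    (F : WK.toAffine.Point → WK₂.toAffine.Point) (G : Wk.toAffine.Point → Wk₂.toAffine.Point)
    (hF0 : F 0 = 0)
    (hF : ∀ (x y : K) (h : WK.toAffine.Nonsingular x y),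
      ∃ h' : WK₂.toAffine.Nonsingular (f x) (f y), F (.some x y h) = .some (f x) (f y) h')
    (hG0 : G 0 = 0)
    (hG : ∀ (x y : k) (h : Wk.toAffine.Nonsingular x y),
      ∃ h' : Wk₂.toAffine.Nonsingular (g x) (g y), G (.some x y h) = .some (g x) (g y) h')
    (P : WK.toAffine.Point) :
    redOf φ₂ W₂ hΔ₂ eK₂ ek₂ (F P) = G (redOf φ W hΔ eK ek P) := by
  subst eK
  subst ek
  subst eK₂
  subst ek₂
  simp only [redOf_rfl]
  rcases P with _ | ⟨x, y, h⟩
  · change red φ₂ W₂ hΔ₂ (F 0) = G (red φ W hΔ 0)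
    rw [hF0, map_zero, map_zero, hG0]
  · obtain ⟨h', hF'⟩ := hF x y h
    rw [hF']
    by_cases hx : x ∈ A
    · have hy := y_mem W h.1 hx
      have hx₂ := (hA x).mpr hx
      have hy₂ := (hA y).mpr hy
      have n₁ := nonsingular_map W φ hΔ
        (equation_of_map_subtype W (x := ⟨x, hx⟩) (y := ⟨y, hy⟩) h.1)
      rw [red_some_of_mem φ W hΔ h hx hy n₁]
      obtain ⟨h'', hG'⟩ := hG _ _ n₁
      rw [hG']
      have n₂ := nonsingular_map W₂ φ₂ hΔ₂
        (equation_of_map_subtype W₂ (x := ⟨f x, hx₂⟩) (y := ⟨f y, hy₂⟩) h'.1)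
      rw [red_some_of_mem φ₂ W₂ hΔ₂ h' hx₂ hy₂ n₂, Point.some.injEq]
      exact ⟨hfg ⟨x, hx⟩ hx₂, hfg ⟨y, hy⟩ hy₂⟩
    · rw [red_some_of_notMem φ W hΔ h hx, hG0,
        red_some_of_notMem φ₂ W₂ hΔ₂ h' (fun h2 => hx ((hA x).mp h2))]

/-- Naturality in the untransported form. -/
theorem red_natural (hΔ : IsUnit W.Δ) (hΔ₂ : IsUnit W₂.Δ)
    (f : K →+* K₂) (g : k →+* k₂) (hA : ∀ x : K, f x ∈ A₂ ↔ x ∈ A)
    (hfg : ∀ (a : A) (h : f (A.subtype a) ∈ A₂), φ₂ ⟨f (A.subtype a), h⟩ = g (φ a))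
    (F : (W.map A.subtype).toAffine.Point → (W₂.map A₂.subtype).toAffine.Point)
    (G : (W.map φ).toAffine.Point → (W₂.map φ₂).toAffine.Point)
    (hF0 : F 0 = 0)
    (hF : ∀ (x y : K) (h : (W.map A.subtype).toAffine.Nonsingular x y),
      ∃ h' : (W₂.map A₂.subtype).toAffine.Nonsingular (f x) (f y),
        F (.some x y h) = .some (f x) (f y) h')
    (hG0 : G 0 = 0)
    (hG : ∀ (x y : k) (h : (W.map φ).toAffine.Nonsingular x y),
      ∃ h' : (W₂.map φ₂).toAffine.Nonsingular (g x) (g y), G (.some x y h) = .some (g x) (g y) h')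
    (P : (W.map A.subtype).toAffine.Point) :
    red φ₂ W₂ hΔ₂ (F P) = G (red φ W hΔ P) :=
  redOf_natural φ W φ₂ W₂ hΔ rfl rfl hΔ₂ rfl rfl f g hA hfg F G hF0 hF hG0 hG P

end Natural

/-! ## Base-change surface

`W'` a Weierstrass curve over a base ring `R` whose image in `K` lies in `A`; the special fibre
is presented over a second base ring `R'` (e.g. `R = ℤ`, `R' = ZMod ℓ`, or `R` a DVR and `R'` its
residue field, or `R' = R`).  Points are those of Mathlib's `W'⁄K` and `(W'.map ρ₀)⁄k`, maps on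
points are Mathlib's `Point.map`. -/

section BaseChange

variable {R : Type*} [CommRing R] {R' : Type*} [CommRing R'] (ρ₀ : R →+* R')
  (W' : WeierstrassCurve R)
  {K : Type*} [Field K] [Algebra R K] {A : ValuationSubring K}
  (hRA : ∀ r : R, algebraMap R K r ∈ A)
  {k : Type*} [Field k] [Algebra R' k] (φ : A →+* k)
  (hφ : ∀ r : R, φ ⟨algebraMap R K r, hRA r⟩ = algebraMap R' k (ρ₀ r))

/-- The structure map `R →+* A` of a valuation subring containing the image of `R`. -/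
def toValuationSubring : R →+* A where
  toFun r := ⟨algebraMap R K r, hRA r⟩
  map_one' := Subtype.ext (map_one _)
  map_mul' a b := Subtype.ext (map_mul _ a b)
  map_zero' := Subtype.ext (map_zero _)
  map_add' a b := Subtype.ext (map_add _ a b)

theorem map_toValuationSubring_subtype :
    (W'.map (toValuationSubring hRA)).map A.subtype = W'.baseChange K := by
  rw [WeierstrassCurve.map_map]
  rfl

include hφ in
theorem map_toValuationSubring_residue :
    (W'.map (toValuationSubring hRA)).map φ = (W'.map ρ₀).baseChange k := by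
  rw [WeierstrassCurve.map_map, WeierstrassCurve.baseChange, WeierstrassCurve.map_map]
  congr 1
  ext r
  exact hφ r

variable [IsLocalHom φ]

include hφ in
theorem isUnit_Δ_toValuationSubring (hΔ : algebraMap R' k (ρ₀ W'.Δ) ≠ 0) :
    IsUnit (W'.map (toValuationSubring (A := A) hRA)).Δ := by
  rw [WeierstrassCurve.map_Δ]
  have h1 : φ (toValuationSubring hRA W'.Δ) = algebraMap R' k (ρ₀ W'.Δ) := hφ _
  have h2 : IsUnit (φ (toValuationSubring hRA W'.Δ)) := by
    rw [h1]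
    exact isUnit_iff_ne_zero.mpr hΔ
  exact IsLocalHom.map_nonunit _ h2

variable [DecidableEq K] [DecidableEq k]

/-- Reduction homomorphism in the base-change formalism:
`(W'⁄K).Point →+ ((W'.map ρ₀)⁄k).Point`. -/
noncomputable def redBC (hΔ : algebraMap R' k (ρ₀ W'.Δ) ≠ 0) :
    (W'⁄K).Point →+ ((W'.map ρ₀)⁄k).Point :=
  redOf φ (W'.map (toValuationSubring hRA)) (isUnit_Δ_toValuationSubring ρ₀ W' hRA φ hφ hΔ)
    (map_toValuationSubring_subtype W' hRA) (map_toValuationSubring_residue ρ₀ W' hRA φ hφ)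

theorem redBC_some_of_mem (hΔ : algebraMap R' k (ρ₀ W'.Δ) ≠ 0) {x y : K}
    (h : (W'⁄K).Nonsingular x y) (hx : x ∈ A) (hy : y ∈ A)
    (h' : ((W'.map ρ₀)⁄k).Nonsingular (φ ⟨x, hx⟩) (φ ⟨y, hy⟩)) :
    redBC ρ₀ W' hRA φ hφ hΔ (.some x y h) = .some (φ ⟨x, hx⟩) (φ ⟨y, hy⟩) h' :=
  redOf_some_of_mem φ _ _ _ _ h hx hy h'

theorem redBC_some_of_notMem (hΔ : algebraMap R' k (ρ₀ W'.Δ) ≠ 0) {x y : K}
    (h : (W'⁄K).Nonsingular x y) (hx : x ∉ A) :
    redBC ρ₀ W' hRA φ hφ hΔ (.some x y h) = 0 :=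
  redOf_some_of_notMem φ _ _ _ _ h hx

theorem redBC_some_eq_zero_iff (hΔ : algebraMap R' k (ρ₀ W'.Δ) ≠ 0) {x y : K}
    (h : (W'⁄K).Nonsingular x y) :
    redBC ρ₀ W' hRA φ hφ hΔ (.some x y h) = 0 ↔ x ∉ A :=
  redOf_some_eq_zero_iff φ _ _ _ _ h

theorem redBC_eq_zero_iff (hΔ : algebraMap R' k (ρ₀ W'.Δ) ≠ 0) (P : (W'⁄K).Point) :
    redBC ρ₀ W' hRA φ hφ hΔ P = 0 ↔ P = 0 ∨ ∃ (x y : K) (h : (W'⁄K).Nonsingular x y),
      P = .some x y h ∧ x ∉ A :=
  redOf_eq_zero_iff φ _ _ _ _ P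

omit [IsLocalHom φ] [DecidableEq K] [DecidableEq k] in
include hRA in
/-- Integrality of `y` from integrality of `x` (base-change form). -/
theorem y_mem_baseChange {x y : K} (h : (W'⁄K).Equation x y) (hx : x ∈ A) : y ∈ A :=
  y_mem_of (W'.map (toValuationSubring hRA)) (map_toValuationSubring_subtype W' hRA) h hx

omit [DecidableEq K] [DecidableEq k] in
include hφ in
/-- Nonsingularity of the reduced point (base-change form). -/
theorem nonsingular_baseChange (hΔ : algebraMap R' k (ρ₀ W'.Δ) ≠ 0) {x y : K}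
    (h : (W'⁄K).Equation x y) (hx : x ∈ A) (hy : y ∈ A) :
    ((W'.map ρ₀)⁄k).Nonsingular (φ ⟨x, hx⟩) (φ ⟨y, hy⟩) :=
  nonsingular_of φ (W'.map (toValuationSubring hRA))
    (isUnit_Δ_toValuationSubring ρ₀ W' hRA φ hφ hΔ)
    (map_toValuationSubring_subtype W' hRA) (map_toValuationSubring_residue ρ₀ W' hRA φ hφ)
    h hx hy

/-- **Equivariance of reduction** in the base-change formalism: if `f : K →ₐ[R] K₂` and
`g : k →ₐ[R'] k₂` are compatible with the valuation subrings and the residue maps, then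
`red₂ (Point.map f P) = Point.map g (red P)`. -/
theorem redBC_map {K₂ : Type*} [Field K₂] [Algebra R K₂] {A₂ : ValuationSubring K₂}
    (hRA₂ : ∀ r : R, algebraMap R K₂ r ∈ A₂)
    {k₂ : Type*} [Field k₂] [Algebra R' k₂] (φ₂ : A₂ →+* k₂) [IsLocalHom φ₂]
    (hφ₂ : ∀ r : R, φ₂ ⟨algebraMap R K₂ r, hRA₂ r⟩ = algebraMap R' k₂ (ρ₀ r))
    [DecidableEq K₂] [DecidableEq k₂]
    (hΔ : algebraMap R' k (ρ₀ W'.Δ) ≠ 0) (hΔ₂ : algebraMap R' k₂ (ρ₀ W'.Δ) ≠ 0)
    (f : K →ₐ[R] K₂) (g : k →ₐ[R'] k₂) (hA : ∀ x : K, f x ∈ A₂ ↔ x ∈ A)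
    (hfg : ∀ (a : A) (h : f (A.subtype a) ∈ A₂), φ₂ ⟨f (A.subtype a), h⟩ = g (φ a))
    (P : (W'⁄K).Point) :
    redBC ρ₀ W' hRA₂ φ₂ hφ₂ hΔ₂ (Point.map (W' := W') f P) =
      Point.map (W' := W'.map ρ₀) g (redBC ρ₀ W' hRA φ hφ hΔ P) :=
  redOf_natural φ _ φ₂ _ _ _ _ _ _ _ (f : K →+* K₂) (g : k →+* k₂) hA hfg
    (Point.map (W' := W') f) (Point.map (W' := W'.map ρ₀) g) rfl (fun _ _ _ => ⟨_, rfl⟩) rfl
    (fun _ _ _ => ⟨_, rfl⟩) P

end BaseChange

end Fermat.Agent.Lib.helper8525
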