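/-
Reduction of points of a Weierstrass curve modulo a valuation subring, at good reduction,
is a group homomorphism.  (general `a₁ … a₆` model, any residue characteristic)

Setting: `K` a field, `A : ValuationSubring K`, `W : WeierstrassCurve A` with `IsUnit W.Δ`,
`φ : A →+* k` a local ring homomorphism to a field `k` (for instance the residue map).
Generic fibre `W.map A.subtype`, special fibre `W.map φ`.
-/
import Mathlib

set_option autoImplicit false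

namespace Fermat.Agent.Lib.helper8525

open WeierstrassCurve WeierstrassCurve.Affine

/-! ## Ring-level identities for chords and tangents -/

section CommRing

variable {R : Type*} [CommRing R]

/-- The numerator of the "alternative" slope formula. -/
def numAlt (W : Affine R) (x₁ x₂ y₁ : R) : R :=
  x₁ ^ 2 + x₁ * x₂ + x₂ ^ 2 + W.a₂ * (x₁ + x₂) + W.a₄ - W.a₁ * y₁

theorem map_numAlt {S : Type*} [CommRing S] (W : Affine R) (f : R →+* S) (x₁ x₂ y₁ : R) :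
    numAlt (W.map f) (f x₁) (f x₂) (f y₁) = f (numAlt W x₁ x₂ y₁) := by
  simp only [numAlt, WeierstrassCurve.map_a₁, WeierstrassCurve.map_a₂, WeierstrassCurve.map_a₄,
    map_add, map_sub, map_mul, map_pow]

/-- `(y₁ - y₂) (y₁ + y₂ + a₁ x₂ + a₃) = (x₁ - x₂) (x₁² + x₁x₂ + x₂² + a₂(x₁+x₂) + a₄ - a₁y₁)`. -/
theorem sub_mul_sub_negY {W : Affine R} {x₁ y₁ x₂ y₂ : R} (h₁ : W.Equation x₁ y₁)
    (h₂ : W.Equation x₂ y₂) :
    (y₁ - y₂) * (y₁ - W.negY x₂ y₂) = (x₁ - x₂) * numAlt W x₁ x₂ y₁ := by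
  rw [equation_iff] at h₁ h₂
  simp only [negY, numAlt]
  linear_combination h₁ - h₂

/-- If `x₁ - x₂` or `y₁ - negY x₂ y₂` is a unit, there is an integral chord/tangent slope. -/
theorem exists_slope_of_isUnit {W : Affine R} {x₁ y₁ x₂ y₂ : R} (h₁ : W.Equation x₁ y₁)
    (h₂ : W.Equation x₂ y₂) (hu : IsUnit (x₁ - x₂) ∨ IsUnit (y₁ - W.negY x₂ y₂)) :
    ∃ l : R, l * (x₁ - x₂) = y₁ - y₂ ∧ l * (y₁ - W.negY x₂ y₂) = numAlt W x₁ x₂ y₁ := by
  have key := sub_mul_sub_negY h₁ h₂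
  rcases hu with hu | hu
  · obtain ⟨u, hu⟩ := hu
    have hinv : (↑u⁻¹ : R) * (x₁ - x₂) = 1 := by rw [← hu]; exact Units.inv_mul u
    refine ⟨(y₁ - y₂) * ↑u⁻¹, ?_, ?_⟩
    · linear_combination (y₁ - y₂) * hinv
    · linear_combination (↑u⁻¹ : R) * key + numAlt W x₁ x₂ y₁ * hinv
  · obtain ⟨u, hu⟩ := hu
    have hinv : (↑u⁻¹ : R) * (y₁ - W.negY x₂ y₂) = 1 := by rw [← hu]; exact Units.inv_mul u
    refine ⟨numAlt W x₁ x₂ y₁ * ↑u⁻¹, ?_, ?_⟩
    · linear_combination (-(↑u⁻¹ : R)) * key + (y₁ - y₂) * hinv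
    · linear_combination numAlt W x₁ x₂ y₁ * hinv

/-- Transport of the two slope relations along a ring homomorphism. -/
theorem map_slope_rel {S : Type*} [CommRing S] (W : Affine R) (f : R →+* S) {x₁ y₁ x₂ y₂ l : R}
    (hl₁ : l * (x₁ - x₂) = y₁ - y₂) (hl₂ : l * (y₁ - W.negY x₂ y₂) = numAlt W x₁ x₂ y₁) :
    f l * (f x₁ - f x₂) = f y₁ - f y₂ ∧
      f l * (f y₁ - (W.map f).negY (f x₂) (f y₂)) = numAlt (W.map f) (f x₁) (f x₂) (f y₁) := by
  constructor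
  · rw [← map_sub, ← map_sub, ← map_mul, hl₁]
  · rw [map_negY, map_numAlt, ← map_sub, ← map_mul, hl₂]

end CommRing

/-! ## Field-level: characterisation of the slope -/

section Field

variable {F : Type*} [Field F] [DecidableEq F] {W : Affine F}

theorem slope_rel {x₁ y₁ x₂ y₂ : F} (h₁ : W.Equation x₁ y₁) (h₂ : W.Equation x₂ y₂)
    (hxy : ¬(x₁ = x₂ ∧ y₁ = W.negY x₂ y₂)) :
    W.slope x₁ x₂ y₁ y₂ * (x₁ - x₂) = y₁ - y₂ ∧
      W.slope x₁ x₂ y₁ y₂ * (y₁ - W.negY x₂ y₂) = numAlt W x₁ x₂ y₁ := by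
  by_cases hx : x₁ = x₂
  · have hy : y₁ ≠ W.negY x₂ y₂ := fun h => hxy ⟨hx, h⟩
    obtain rfl := hx
    obtain rfl := Y_eq_of_Y_ne h₁ h₂ rfl hy
    rw [slope_of_Y_ne rfl hy]
    refine ⟨by simp, ?_⟩
    rw [div_mul_cancel₀ _ (sub_ne_zero.mpr hy)]
    simp only [numAlt]
    ring
  · have hd : x₁ - x₂ ≠ 0 := sub_ne_zero.mpr hx
    rw [slope_of_X_ne hx]
    refine ⟨div_mul_cancel₀ _ hd, ?_⟩
    rw [div_mul_eq_mul_div, div_eq_iff hd, sub_mul_sub_negY h₁ h₂, mul_comm]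

theorem eq_slope_of_rel {x₁ y₁ x₂ y₂ l : F} (h₁ : W.Equation x₁ y₁) (h₂ : W.Equation x₂ y₂)
    (hxy : ¬(x₁ = x₂ ∧ y₁ = W.negY x₂ y₂)) (hl₁ : l * (x₁ - x₂) = y₁ - y₂)
    (hl₂ : l * (y₁ - W.negY x₂ y₂) = numAlt W x₁ x₂ y₁) : l = W.slope x₁ x₂ y₁ y₂ := by
  obtain ⟨hs₁, hs₂⟩ := slope_rel h₁ h₂ hxy
  by_cases hx : x₁ = x₂
  · have hy : y₁ - W.negY x₂ y₂ ≠ 0 := sub_ne_zero.mpr fun h => hxy ⟨hx, h⟩
    exact mul_right_cancel₀ hy (hl₂.trans hs₂.symm)
  · exact mul_right_cancel₀ (sub_ne_zero.mpr hx) (hl₁.trans hs₁.symm)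

end Field

/-! ## `x`-only identities (polynomial forms of the addition and duplication formulas) -/

section XOnly

variable {F : Type*} [Field F] [DecidableEq F] {W : Affine F}

/-- `x(P+Q) x(P-Q) (x₁-x₂)² = x₁²x₂² - b₄x₁x₂ - b₆(x₁+x₂) - b₈`. -/
theorem addX_mul_addX_negY {x₁ y₁ x₂ y₂ : F} (h₁ : W.Equation x₁ y₁) (h₂ : W.Equation x₂ y₂)
    (hx : x₁ ≠ x₂) :
    W.addX x₁ x₂ (W.slope x₁ x₂ y₁ y₂) * W.addX x₁ x₂ (W.slope x₁ x₂ y₁ (W.negY x₂ y₂)) *
        (x₁ - x₂) ^ 2 =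
      x₁ ^ 2 * x₂ ^ 2 - W.b₄ * x₁ * x₂ - W.b₆ * (x₁ + x₂) - W.b₈ := by
  rw [equation_iff] at h₁ h₂
  have hd : x₁ - x₂ ≠ 0 := sub_ne_zero.mpr hx
  rw [slope_of_X_ne hx, slope_of_X_ne hx]
  simp only [addX, negY, WeierstrassCurve.b₄, WeierstrassCurve.b₆, WeierstrassCurve.b₈]
  field_simp
  linear_combination
    (W.a₁^2 * x₁ * x₂ - W.a₁^2 * x₂^2 + W.a₁ * W.a₃ * x₁ - W.a₁ * W.a₃ * x₂ + W.a₁ * x₁ * y₁
      - 2 * W.a₁ * x₂ * y₂ - W.a₂ * x₁^2 + 4 * W.a₂ * x₁ * x₂ - 2 * W.a₂ * x₂^2 + W.a₃ * y₁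
      - 2 * W.a₃ * y₂ + W.a₄ * x₁ + W.a₆ - x₁^3 + 2 * x₁^2 * x₂ + 2 * x₁ * x₂^2 + y₁^2
      - 2 * x₂^3 - 2 * y₂^2) * h₁ +
    (-W.a₁^2 * x₁^2 + W.a₁^2 * x₁ * x₂ - W.a₁ * W.a₃ * x₁ + W.a₁ * W.a₃ * x₂ + W.a₁ * x₂ * y₂
      - 4 * W.a₂ * x₁^2 + 4 * W.a₂ * x₁ * x₂ - W.a₂ * x₂^2 + W.a₃ * y₂ - 2 * W.a₄ * x₁
      + W.a₄ * x₂ - W.a₆ - 4 * x₁^3 + 2 * x₁^2 * x₂ + 2 * x₁ * x₂^2 - x₂^3 + y₂^2) * h₂

/-- `(x(P+Q) + x(P-Q)) (x₁-x₂)² = 2x₁x₂(x₁+x₂) + b₂x₁x₂ + b₄(x₁+x₂) + b₆`. -/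
theorem addX_add_addX_negY {x₁ y₁ x₂ y₂ : F} (h₁ : W.Equation x₁ y₁) (h₂ : W.Equation x₂ y₂)
    (hx : x₁ ≠ x₂) :
    (W.addX x₁ x₂ (W.slope x₁ x₂ y₁ y₂) + W.addX x₁ x₂ (W.slope x₁ x₂ y₁ (W.negY x₂ y₂))) *
        (x₁ - x₂) ^ 2 =
      2 * x₁ * x₂ * (x₁ + x₂) + W.b₂ * x₁ * x₂ + W.b₄ * (x₁ + x₂) + W.b₆ := by
  rw [equation_iff] at h₁ h₂
  have hd : x₁ - x₂ ≠ 0 := sub_ne_zero.mpr hx
  rw [slope_of_X_ne hx, slope_of_X_ne hx]
  simp only [addX, negY, WeierstrassCurve.b₂, WeierstrassCurve.b₄, WeierstrassCurve.b₆]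
  field_simp
  linear_combination 2 * h₁ + 2 * h₂

omit [DecidableEq F] in
/-- `(2y + a₁x + a₃)² = 4x³ + b₂x² + 2b₄x + b₆` on the curve. -/
theorem sq_psi_two {x y : F} (h : W.Equation x y) :
    (y - W.negY x y) ^ 2 = 4 * x ^ 3 + W.b₂ * x ^ 2 + 2 * W.b₄ * x + W.b₆ := by
  rw [equation_iff] at h
  simp only [negY, WeierstrassCurve.b₂, WeierstrassCurve.b₄, WeierstrassCurve.b₆]
  linear_combination 4 * h

/-- `x(2P) (4x³ + b₂x² + 2b₄x + b₆) = x⁴ - b₄x² - 2b₆x - b₈`. -/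
theorem addX_self_mul {x y : F} (h : W.Equation x y) (hy : y ≠ W.negY x y) :
    W.addX x x (W.slope x x y y) * (4 * x ^ 3 + W.b₂ * x ^ 2 + 2 * W.b₄ * x + W.b₆) =
      x ^ 4 - W.b₄ * x ^ 2 - 2 * W.b₆ * x - W.b₈ := by
  rw [← sq_psi_two h]
  have hd : y - W.negY x y ≠ 0 := sub_ne_zero.mpr hy
  rw [slope_of_Y_ne rfl hy]
  generalize hψ : y - W.negY x y = ψ at hd ⊢
  generalize hn : 3 * x ^ 2 + 2 * W.a₂ * x + W.a₄ - W.a₁ * y = n
  have key : W.addX x x (n / ψ) * ψ ^ 2 = n ^ 2 + W.a₁ * n * ψ - (W.a₂ + 2 * x) * ψ ^ 2 := by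
    simp only [addX]
    field_simp
    ring
  rw [key, ← hψ, ← hn]
  rw [equation_iff] at h
  simp only [negY, WeierstrassCurve.b₄, WeierstrassCurve.b₆, WeierstrassCurve.b₈]
  linear_combination (-W.a₁^2 - 4 * W.a₂ - 8 * x) * h

end XOnly

/-! ## Valuation subring lemmas -/

section Val

variable {K : Type*} [Field K] (A : ValuationSubring K)

/-- A root of a monic quadratic with coefficients in `A` lies in `A`. -/
theorem mem_of_sq_add_mul {z p q : K} (hp : p ∈ A) (hq : q ∈ A) (h : z * z + p * z = q) :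
    z ∈ A := by
  rcases A.mem_or_inv_mem z with hz | hz
  · exact hz
  · by_cases hz0 : z = 0
    · rw [hz0]; exact A.zero_mem
    · have : z = q * z⁻¹ - p := by
        field_simp
        linear_combination h
      rw [this]
      exact sub_mem (A.mul_mem _ _ hq hz) hp

/-- If `x ∉ A`, then `x⁻¹` is (the image of) an element of the maximal ideal of `A`. -/
theorem exists_inv_of_notMem {x : K} (hx : x ∉ A) :
    ∃ t : A, t ∈ IsLocalRing.maximalIdeal A ∧ x * A.subtype t = 1 := by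
  have h0 : x ≠ 0 := fun h => hx (h ▸ A.zero_mem)
  have h1 : x⁻¹ ∈ A.nonunits := A.inv_mem_nonunits_iff.mpr (Or.inr hx)
  obtain ⟨ha, hm⟩ := A.mem_nonunits_iff_exists_mem_maximalIdeal.mp h1
  exact ⟨⟨x⁻¹, ha⟩, hm, mul_inv_cancel₀ h0⟩

/-- Elements of the maximal ideal cannot combine to `1`. -/
theorem one_ne_of_mem_maximalIdeal {t₁ t₂ : A} (h₁ : t₁ ∈ IsLocalRing.maximalIdeal A)
    (h₂ : t₂ ∈ IsLocalRing.maximalIdeal A) (a b : A) : (1 : A) ≠ t₁ * a + t₂ * b := by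
  intro h
  have hmem : (1 : A) ∈ IsLocalRing.maximalIdeal A := by
    rw [h]
    exact Ideal.add_mem _ (Ideal.mul_mem_right _ _ h₁) (Ideal.mul_mem_right _ _ h₂)
  exact (Ideal.ne_top_iff_one _).mp (IsLocalRing.maximalIdeal.isMaximal A).ne_top hmem

end Val

/-! ## Reduction of points -/

section Red

variable {K : Type*} [Field K] {A : ValuationSubring K} {k : Type*} [Field k]
  (φ : A →+* k) (W : WeierstrassCurve A)

/-- `y`-coordinates of points with integral `x` are integral. -/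
theorem y_mem {x y : K} (h : (W.map A.subtype).toAffine.Equation x y) (hx : x ∈ A) : y ∈ A := by
  rw [equation_iff] at h
  simp only [WeierstrassCurve.map_a₁, WeierstrassCurve.map_a₂, WeierstrassCurve.map_a₃,
    WeierstrassCurve.map_a₄, WeierstrassCurve.map_a₆] at h
  obtain ⟨x, rfl⟩ : ∃ x' : A, A.subtype x' = x := ⟨⟨x, hx⟩, rfl⟩
  refine mem_of_sq_add_mul A (p := A.subtype (W.a₁ * x + W.a₃))
    (q := A.subtype (x ^ 3 + W.a₂ * x ^ 2 + W.a₄ * x + W.a₆)) (W.a₁ * x + W.a₃).2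
    (x ^ 3 + W.a₂ * x ^ 2 + W.a₄ * x + W.a₆).2 ?_
  simp only [map_add, map_mul, map_pow]
  linear_combination h

/-- Points of the special fibre coming from integral solutions are nonsingular. -/
theorem nonsingular_map {L : Type*} [CommRing L] [Nontrivial L] (f : A →+* L)
    (hΔ : IsUnit W.Δ) {x y : A} (h : W.toAffine.Equation x y) :
    (W.map f).toAffine.Nonsingular (f x) (f y) :=
  (equation_iff_nonsingular_of_Δ_ne_zero
    (by rw [WeierstrassCurve.map_Δ]; exact (hΔ.map f).ne_zero)).mp (h.map f)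

theorem equation_of_map_subtype {x y : A}
    (h : (W.map A.subtype).toAffine.Equation (A.subtype x) (A.subtype y)) :
    W.toAffine.Equation x y :=
  (Affine.map_equation W A.subtype_injective x y).mp h

open Classical in
/-- The reduction map on points, as a function: `(x, y) ↦ (φ x, φ y)` if `x ∈ A`, and `0`
otherwise. -/
noncomputable def redFun (hΔ : IsUnit W.Δ) :
    (W.map A.subtype).toAffine.Point → (W.map φ).toAffine.Point
  | .zero => 0
  | .some x y h =>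
    if hx : x ∈ A then
      .some (φ ⟨x, hx⟩) (φ ⟨y, y_mem W h.1 hx⟩)
        (nonsingular_map W φ hΔ
          (equation_of_map_subtype W (x := ⟨x, hx⟩) (y := ⟨y, y_mem W h.1 hx⟩) h.1))
    else 0

theorem redFun_zero (hΔ : IsUnit W.Δ) : redFun φ W hΔ 0 = 0 := rfl

theorem redFun_some_of_notMem (hΔ : IsUnit W.Δ) {x y : K}
    (h : (W.map A.subtype).toAffine.Nonsingular x y) (hx : x ∉ A) :
    redFun φ W hΔ (.some x y h) = 0 :=
  dif_neg hx

theorem redFun_some (hΔ : IsUnit W.Δ) (x y : A)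
    (h : (W.map A.subtype).toAffine.Nonsingular (A.subtype x) (A.subtype y))
    (h' : (W.map φ).toAffine.Nonsingular (φ x) (φ y)) :
    redFun φ W hΔ (.some (A.subtype x) (A.subtype y) h) = .some (φ x) (φ y) h' :=
  dif_pos x.2

theorem redFun_some_eq (hΔ : IsUnit W.Δ) {x y : K}
    (h : (W.map A.subtype).toAffine.Nonsingular x y) (x' y' : A) (hx : A.subtype x' = x)
    (hy : A.subtype y' = y) :
    ∃ h' : (W.map φ).toAffine.Nonsingular (φ x') (φ y'),
      redFun φ W hΔ (.some x y h) = .some (φ x') (φ y') h' := by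
  subst hx hy
  exact ⟨nonsingular_map W φ hΔ (equation_of_map_subtype W h.1), redFun_some φ W hΔ x' y' h _⟩

/-! ### Chord and tangent slopes of integral points -/

theorem not_opp_of_not_opp_map {x₁ y₁ x₂ y₂ : A}
    (hred : ¬(φ x₁ = φ x₂ ∧ φ y₁ = (W.map φ).toAffine.negY (φ x₂) (φ y₂))) :
    ¬(A.subtype x₁ = A.subtype x₂ ∧
      A.subtype y₁ = (W.map A.subtype).toAffine.negY (A.subtype x₂) (A.subtype y₂)) := by
  rintro ⟨hx, hy⟩
  have hx' : x₁ = x₂ := A.subtype_injective hx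
  rw [map_negY] at hy
  have hy' := A.subtype_injective hy
  exact hred ⟨by rw [hx'], by rw [hy', map_negY]⟩

variable [IsLocalHom φ]

theorem map_eq_zero_of_not_isUnit {a : A} (ha : ¬IsUnit a) : φ a = 0 := by
  by_contra h
  exact ha (IsLocalHom.map_nonunit a (IsUnit.mk0 _ h))

variable [DecidableEq K] [DecidableEq k]

/-- If the reductions of two integral points are not opposite, the slope of the line through
them is integral and reduces to the slope of the line through the reductions. -/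
theorem exists_slope_lift {x₁ y₁ x₂ y₂ : A} (e₁ : W.toAffine.Equation x₁ y₁)
    (e₂ : W.toAffine.Equation x₂ y₂)
    (hred : ¬(φ x₁ = φ x₂ ∧ φ y₁ = (W.map φ).toAffine.negY (φ x₂) (φ y₂))) :
    ∃ l : A,
      A.subtype l = (W.map A.subtype).toAffine.slope (A.subtype x₁) (A.subtype x₂)
        (A.subtype y₁) (A.subtype y₂) ∧
      φ l = (W.map φ).toAffine.slope (φ x₁) (φ x₂) (φ y₁) (φ y₂) := by
  have hu : IsUnit (x₁ - x₂) ∨ IsUnit (y₁ - W.toAffine.negY x₂ y₂) := by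
    by_contra hcon
    rw [not_or] at hcon
    apply hred
    have h1 := map_eq_zero_of_not_isUnit φ hcon.1
    have h2 := map_eq_zero_of_not_isUnit φ hcon.2
    rw [map_sub, sub_eq_zero] at h1 h2
    exact ⟨h1, by rw [map_negY]; exact h2⟩
  obtain ⟨l, hl₁, hl₂⟩ := exists_slope_of_isUnit e₁ e₂ hu
  refine ⟨l, ?_, ?_⟩
  · obtain ⟨a, b⟩ := map_slope_rel W.toAffine A.subtype hl₁ hl₂
    exact eq_slope_of_rel (e₁.map A.subtype) (e₂.map A.subtype)
      (not_opp_of_not_opp_map φ W hred) a b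
  · obtain ⟨a, b⟩ := map_slope_rel W.toAffine φ hl₁ hl₂
    exact eq_slope_of_rel (e₁.map φ) (e₂.map φ) hred a b

omit [DecidableEq k] [IsLocalHom φ] in
/-- If the reductions of two integral points are opposite but the points are not, then the
`x`-coordinate of their sum is not integral. -/
theorem addX_slope_notMem (hΔ : IsUnit W.Δ) {x₁ y₁ x₂ y₂ : A} (e₁ : W.toAffine.Equation x₁ y₁)
    (e₂ : W.toAffine.Equation x₂ y₂)
    (hred : φ x₁ = φ x₂ ∧ φ y₁ = (W.map φ).toAffine.negY (φ x₂) (φ y₂))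
    (hK : ¬(A.subtype x₁ = A.subtype x₂ ∧
      A.subtype y₁ = (W.map A.subtype).toAffine.negY (A.subtype x₂) (A.subtype y₂))) :
    (W.map A.subtype).toAffine.addX (A.subtype x₁) (A.subtype x₂)
      ((W.map A.subtype).toAffine.slope (A.subtype x₁) (A.subtype x₂)
        (A.subtype y₁) (A.subtype y₂)) ∉ A := by
  intro hX
  obtain ⟨r₁, r₂⟩ := slope_rel (e₁.map A.subtype) (e₂.map A.subtype) hK
  generalize (W.map A.subtype).toAffine.slope (A.subtype x₁) (A.subtype x₂)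
    (A.subtype y₁) (A.subtype y₂) = l at hX r₁ r₂
  have hlA : l ∈ A := by
    obtain ⟨X, hXe⟩ : ∃ X : A, A.subtype X = (W.map A.subtype).toAffine.addX (A.subtype x₁)
      (A.subtype x₂) l := ⟨⟨_, hX⟩, rfl⟩
    refine mem_of_sq_add_mul A (p := A.subtype W.a₁) (q := A.subtype (X + W.a₂ + x₁ + x₂))
      W.a₁.2 (X + W.a₂ + x₁ + x₂).2 ?_
    simp only [map_add, hXe, addX, WeierstrassCurve.map_a₁, WeierstrassCurve.map_a₂]
    ring
  obtain ⟨l, rfl⟩ : ∃ l' : A, A.subtype l' = l := ⟨⟨l, hlA⟩, rfl⟩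
  have q₁ : l * (x₁ - x₂) = y₁ - y₂ :=
    A.subtype_injective (by simp only [map_mul, map_sub]; exact r₁)
  have q₂ : l * (y₁ - W.toAffine.negY x₂ y₂) = numAlt W.toAffine x₁ x₂ y₁ :=
    A.subtype_injective (by rw [map_mul, map_sub, ← map_negY, ← map_numAlt]; exact r₂)
  obtain ⟨s₁, s₂⟩ := map_slope_rel W.toAffine φ q₁ q₂
  have hy : φ y₁ = φ y₂ := by
    rw [hred.1, sub_self, mul_zero] at s₁
    exact sub_eq_zero.mp s₁.symm
  have hN : numAlt (W.map φ).toAffine (φ x₁) (φ x₂) (φ y₁) = 0 := by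
    rw [← s₂, hred.2, sub_self, mul_zero]
  have hns := nonsingular_map W φ hΔ e₁
  rw [nonsingular_iff'] at hns
  have h2 := hred.2
  simp only [numAlt] at hN
  simp only [negY] at h2
  rw [← hred.1] at hN h2
  rw [← hy] at h2
  rcases hns.2 with h | h
  · apply h
    linear_combination -hN
  · apply h
    linear_combination h2

/-! ### The kernel of reduction is closed under addition -/

omit [DecidableEq k] in
/-- If two points with non-integral `x`-coordinates are not opposite, then the `x`-coordinate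
of their sum is not integral. -/
theorem addX_slope_notMem_of_notMem {x₁ y₁ x₂ y₂ : K}
    (e₁ : (W.map A.subtype).toAffine.Equation x₁ y₁)
    (e₂ : (W.map A.subtype).toAffine.Equation x₂ y₂) (hx₁ : x₁ ∉ A) (hx₂ : x₂ ∉ A)
    (hK : ¬(x₁ = x₂ ∧ y₁ = (W.map A.subtype).toAffine.negY x₂ y₂)) :
    (W.map A.subtype).toAffine.addX x₁ x₂
      ((W.map A.subtype).toAffine.slope x₁ x₂ y₁ y₂) ∉ A := by
  intro hX
  obtain ⟨t₁, ht₁m, ht₁⟩ := exists_inv_of_notMem A hx₁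
  obtain ⟨t₂, ht₂m, ht₂⟩ := exists_inv_of_notMem A hx₂
  obtain ⟨X, hXe⟩ : ∃ X : A, A.subtype X = (W.map A.subtype).toAffine.addX x₁ x₂
      ((W.map A.subtype).toAffine.slope x₁ x₂ y₁ y₂) := ⟨⟨_, hX⟩, rfl⟩
  by_cases hx : x₁ = x₂
  · have hy : y₁ ≠ (W.map A.subtype).toAffine.negY x₂ y₂ := fun h => hK ⟨hx, h⟩
    obtain rfl := hx
    obtain rfl := Y_eq_of_Y_ne e₁ e₂ rfl hy
    have key := addX_self_mul e₁ hy
    rw [← hXe] at key
    simp only [WeierstrassCurve.map_b₂, WeierstrassCurve.map_b₄, WeierstrassCurve.map_b₆,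
      WeierstrassCurve.map_b₈] at key
    refine one_ne_of_mem_maximalIdeal A ht₁m ht₁m
      (X * (4 + W.b₂ * t₁ + 2 * W.b₄ * t₁ ^ 2 + W.b₆ * t₁ ^ 3) + W.b₄ * t₁ + 2 * W.b₆ * t₁ ^ 2
        + W.b₈ * t₁ ^ 3) 0 ?_
    apply A.subtype_injective
    simp only [map_add, map_mul, map_pow, map_one, map_zero, map_ofNat]
    generalize A.subtype t₁ = T at ht₁ ⊢
    generalize A.subtype X = X' at key ⊢
    linear_combination (-(T ^ 4)) * key +
      (-(1 + x₁ * T + x₁ ^ 2 * T ^ 2 + x₁ ^ 3 * T ^ 3)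
        + A.subtype W.b₄ * T ^ 2 * (1 + x₁ * T) + 2 * A.subtype W.b₆ * T ^ 3
        + X' * (4 * T * (1 + x₁ * T + x₁ ^ 2 * T ^ 2) + A.subtype W.b₂ * T ^ 2 * (1 + x₁ * T)
          + 2 * A.subtype W.b₄ * T ^ 3)) * ht₁
  · have hP := addX_mul_addX_negY e₁ e₂ hx
    have hS := addX_add_addX_negY e₁ e₂ hx
    rw [← hXe] at hP hS
    simp only [WeierstrassCurve.map_b₂, WeierstrassCurve.map_b₄, WeierstrassCurve.map_b₆,
      WeierstrassCurve.map_b₈] at hP hS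
    generalize (W.map A.subtype).toAffine.addX x₁ x₂
      ((W.map A.subtype).toAffine.slope x₁ x₂ y₁ ((W.map A.subtype).toAffine.negY x₂ y₂)) = X₄
      at hP hS
    refine one_ne_of_mem_maximalIdeal A ht₁m ht₂m
      (W.b₄ * t₂ + W.b₆ * (t₁ + t₂) * t₂ + W.b₈ * t₁ * t₂ ^ 2
        + (2 + W.b₂ * t₂ + W.b₄ * t₂ * (t₁ + t₂) + W.b₆ * t₁ * t₂ ^ 2) * X - (t₁ - t₂) * X ^ 2)
      (2 * X + (t₁ - t₂) * X ^ 2) ?_
    apply A.subtype_injective
    simp only [map_add, map_sub, map_mul, map_pow, map_one, map_ofNat]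
    generalize A.subtype t₁ = T₁ at ht₁ ⊢
    generalize A.subtype t₂ = T₂ at ht₂ ⊢
    generalize A.subtype X = X' at hP hS ⊢
    have hT₁ : T₁ ≠ 0 := right_ne_zero_of_mul_eq_one ht₁
    have hT₂ : T₂ ≠ 0 := right_ne_zero_of_mul_eq_one ht₂
    obtain rfl : x₁ = T₁⁻¹ := eq_inv_of_mul_eq_one_left ht₁
    obtain rfl : x₂ = T₂⁻¹ := eq_inv_of_mul_eq_one_left ht₂
    have hP' : X' * X₄ * (T₁ - T₂) ^ 2 = 1 - A.subtype W.b₄ * T₁ * T₂
        - A.subtype W.b₆ * (T₁ + T₂) * T₁ * T₂ - A.subtype W.b₈ * T₁ ^ 2 * T₂ ^ 2 := by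
      field_simp at hP
      linear_combination hP
    have hS' : (X' + X₄) * (T₁ - T₂) ^ 2 = 2 * (T₁ + T₂) + A.subtype W.b₂ * T₁ * T₂
        + A.subtype W.b₄ * T₁ * T₂ * (T₁ + T₂) + A.subtype W.b₆ * T₁ ^ 2 * T₂ ^ 2 := by
      field_simp at hS
      linear_combination hS
    linear_combination (-1) * hP' + X' * hS'

/-! ### Additivity of reduction -/

omit [IsLocalHom φ] [DecidableEq K] [DecidableEq k] in
/-- A point is integral if it is affine with coordinates in `A`. -/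
def IsInt (P : (W.map A.subtype).toAffine.Point) : Prop :=
  ∃ (x y : A) (h : (W.map A.subtype).toAffine.Nonsingular (A.subtype x) (A.subtype y)),
    P = .some _ _ h

omit [IsLocalHom φ] [DecidableEq K] [DecidableEq k] in
theorem isInt_or_redFun_eq_zero (hΔ : IsUnit W.Δ) (P : (W.map A.subtype).toAffine.Point) :
    IsInt W P ∨ redFun φ W hΔ P = 0 := by
  rcases P with _ | ⟨x, y, h⟩
  · exact Or.inr rfl
  · by_cases hx : x ∈ A
    · exact Or.inl ⟨⟨x, hx⟩, ⟨y, y_mem W h.1 hx⟩, h, rfl⟩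
    · exact Or.inr (redFun_some_of_notMem φ W hΔ h hx)

omit [IsLocalHom φ] [DecidableEq K] [DecidableEq k] in
theorem IsInt.redFun_ne_zero (hΔ : IsUnit W.Δ) {P : (W.map A.subtype).toAffine.Point}
    (hP : IsInt W P) : redFun φ W hΔ P ≠ 0 := by
  obtain ⟨x, y, h, rfl⟩ := hP
  rw [redFun_some φ W hΔ x y h (nonsingular_map W φ hΔ (equation_of_map_subtype W h.1))]
  exact Point.some_ne_zero _

omit [IsLocalHom φ] [DecidableEq K] [DecidableEq k] in
theorem IsInt.neg {P : (W.map A.subtype).toAffine.Point} (hP : IsInt W P) : IsInt W (-P) := by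
  obtain ⟨x, y, h, rfl⟩ := hP
  have hn : (W.map A.subtype).toAffine.Nonsingular (A.subtype x)
      (A.subtype (W.toAffine.negY x y)) := by
    rw [← map_negY]; exact (nonsingular_neg ..).mpr h
  exact ⟨x, W.toAffine.negY x y, hn, by
    rw [Point.neg_some, Point.some.injEq]; exact ⟨rfl, map_negY ..⟩⟩

omit [IsLocalHom φ] [DecidableEq K] [DecidableEq k] in
theorem notMem_of_redFun_some_eq_zero (hΔ : IsUnit W.Δ) {x y : K}
    {h : (W.map A.subtype).toAffine.Nonsingular x y} (hP : redFun φ W hΔ (.some x y h) = 0) :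
    x ∉ A := fun hx =>
  IsInt.redFun_ne_zero φ W hΔ ⟨⟨x, hx⟩, ⟨y, y_mem W h.1 hx⟩, h, rfl⟩ hP

omit [IsLocalHom φ] [DecidableEq K] [DecidableEq k] in
theorem redFun_neg_eq_zero (hΔ : IsUnit W.Δ) {P : (W.map A.subtype).toAffine.Point}
    (hP : redFun φ W hΔ P = 0) : redFun φ W hΔ (-P) = 0 := by
  rcases isInt_or_redFun_eq_zero φ W hΔ (-P) with h | h
  · have := h.neg
    rw [neg_neg] at this
    exact absurd hP (this.redFun_ne_zero φ W hΔ)
  · exact h

/-- Additivity on pairs of integral points. -/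
theorem redFun_add_of_isInt (hΔ : IsUnit W.Δ) {P Q : (W.map A.subtype).toAffine.Point}
    (hP : IsInt W P) (hQ : IsInt W Q) :
    redFun φ W hΔ (P + Q) = redFun φ W hΔ P + redFun φ W hΔ Q := by
  obtain ⟨x₁, y₁, h₁, rfl⟩ := hP
  obtain ⟨x₂, y₂, h₂, rfl⟩ := hQ
  have e₁ := equation_of_map_subtype W h₁.1
  have e₂ := equation_of_map_subtype W h₂.1
  rw [redFun_some φ W hΔ x₁ y₁ h₁ (nonsingular_map W φ hΔ e₁),
    redFun_some φ W hΔ x₂ y₂ h₂ (nonsingular_map W φ hΔ e₂)]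
  by_cases hred : φ x₁ = φ x₂ ∧ φ y₁ = (W.map φ).toAffine.negY (φ x₂) (φ y₂)
  · rw [Point.add_of_Y_eq hred.1 hred.2]
    by_cases hK : A.subtype x₁ = A.subtype x₂ ∧
        A.subtype y₁ = (W.map A.subtype).toAffine.negY (A.subtype x₂) (A.subtype y₂)
    · rw [Point.add_of_Y_eq hK.1 hK.2]
      rfl
    · rw [Point.add_some hK]
      exact redFun_some_of_notMem φ W hΔ _ (addX_slope_notMem φ W hΔ e₁ e₂ hred hK)
  · have hK := not_opp_of_not_opp_map φ W hred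
    obtain ⟨l, hlK, hlk⟩ := exists_slope_lift φ W e₁ e₂ hred
    rw [Point.add_some hK, Point.add_some hred]
    obtain ⟨h', hr⟩ := redFun_some_eq φ W hΔ (nonsingular_add h₁ h₂ hK)
      (W.toAffine.addX x₁ x₂ l) (W.toAffine.addY x₁ x₂ y₁ l)
      (by rw [← hlK, map_addX]) (by rw [← hlK, map_addY])
    rw [hr, Point.some.injEq]
    exact ⟨by rw [← hlk, map_addX], by rw [← hlk, map_addY]⟩

omit [IsLocalHom φ] [DecidableEq k] in
/-- The kernel of reduction is closed under addition. -/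
theorem redFun_add_eq_zero (hΔ : IsUnit W.Δ) {P Q : (W.map A.subtype).toAffine.Point}
    (hP : redFun φ W hΔ P = 0) (hQ : redFun φ W hΔ Q = 0) : redFun φ W hΔ (P + Q) = 0 := by
  rcases P with _ | ⟨x₁, y₁, h₁⟩
  · rw [← Point.zero_def, zero_add]; exact hQ
  rcases Q with _ | ⟨x₂, y₂, h₂⟩
  · rw [← Point.zero_def, add_zero]; exact hP
  have hx₁ := notMem_of_redFun_some_eq_zero φ W hΔ hP
  have hx₂ := notMem_of_redFun_some_eq_zero φ W hΔ hQ
  by_cases hK : x₁ = x₂ ∧ y₁ = (W.map A.subtype).toAffine.negY x₂ y₂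
  · rw [Point.add_of_Y_eq hK.1 hK.2]
    rfl
  · rw [Point.add_some hK]
    exact redFun_some_of_notMem φ W hΔ _
      (addX_slope_notMem_of_notMem W h₁.1 h₂.1 hx₁ hx₂ hK)

/-- Adding a point of the kernel does not change the reduction. -/
theorem redFun_add_of_eq_zero (hΔ : IsUnit W.Δ) {P Q : (W.map A.subtype).toAffine.Point}
    (hP : redFun φ W hΔ P = 0) : redFun φ W hΔ (P + Q) = redFun φ W hΔ Q := by
  rcases isInt_or_redFun_eq_zero φ W hΔ Q with hQ | hQ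
  swap
  · rw [hQ]; exact redFun_add_eq_zero φ W hΔ hP hQ
  rcases isInt_or_redFun_eq_zero φ W hΔ (P + Q) with hS | hS
  swap
  · exfalso
    have := redFun_add_eq_zero φ W hΔ hS (redFun_neg_eq_zero φ W hΔ hP)
    rw [add_neg_cancel_comm] at this
    exact hQ.redFun_ne_zero φ W hΔ this
  have h1 := redFun_add_of_isInt φ W hΔ hS hQ.neg
  rw [add_neg_cancel_right, hP] at h1
  have h2 := redFun_add_of_isInt φ W hΔ hQ hQ.neg
  rw [add_neg_cancel, redFun_zero] at h2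
  exact add_right_cancel (h1.symm.trans h2)

theorem redFun_add (hΔ : IsUnit W.Δ) (P Q : (W.map A.subtype).toAffine.Point) :
    redFun φ W hΔ (P + Q) = redFun φ W hΔ P + redFun φ W hΔ Q := by
  rcases isInt_or_redFun_eq_zero φ W hΔ P with hP | hP
  · rcases isInt_or_redFun_eq_zero φ W hΔ Q with hQ | hQ
    · exact redFun_add_of_isInt φ W hΔ hP hQ
    · rw [hQ, add_zero, add_comm]; exact redFun_add_of_eq_zero φ W hΔ hQ
  · rw [hP, zero_add]; exact redFun_add_of_eq_zero φ W hΔ hP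

/-- **Reduction modulo a valuation subring at good reduction is a group homomorphism.** -/
noncomputable def red (hΔ : IsUnit W.Δ) :
    (W.map A.subtype).toAffine.Point →+ (W.map φ).toAffine.Point where
  toFun := redFun φ W hΔ
  map_zero' := rfl
  map_add' := redFun_add φ W hΔ

theorem red_some_of_notMem (hΔ : IsUnit W.Δ) {x y : K}
    (h : (W.map A.subtype).toAffine.Nonsingular x y) (hx : x ∉ A) :
    red φ W hΔ (.some x y h) = 0 :=
  redFun_some_of_notMem φ W hΔ h hx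

theorem red_some_coe (hΔ : IsUnit W.Δ) (x y : A)
    (h : (W.map A.subtype).toAffine.Nonsingular (A.subtype x) (A.subtype y))
    (h' : (W.map φ).toAffine.Nonsingular (φ x) (φ y)) :
    red φ W hΔ (.some (A.subtype x) (A.subtype y) h) = .some (φ x) (φ y) h' :=
  redFun_some φ W hΔ x y h h'

theorem red_some_of_mem (hΔ : IsUnit W.Δ) {x y : K}
    (h : (W.map A.subtype).toAffine.Nonsingular x y) (hx : x ∈ A) (hy : y ∈ A)
    (h' : (W.map φ).toAffine.Nonsingular (φ ⟨x, hx⟩) (φ ⟨y, hy⟩)) :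
    red φ W hΔ (.some x y h) = .some (φ ⟨x, hx⟩) (φ ⟨y, hy⟩) h' :=
  redFun_some φ W hΔ ⟨x, hx⟩ ⟨y, hy⟩ h h'

/-- The kernel of reduction: the affine points in it are those with non-integral `x`. -/
theorem red_some_eq_zero_iff (hΔ : IsUnit W.Δ) {x y : K}
    (h : (W.map A.subtype).toAffine.Nonsingular x y) :
    red φ W hΔ (.some x y h) = 0 ↔ x ∉ A :=
  ⟨fun h0 => notMem_of_redFun_some_eq_zero φ W hΔ (h := h) h0,
    fun hx => red_some_of_notMem φ W hΔ h hx⟩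

theorem red_eq_zero_iff (hΔ : IsUnit W.Δ) (P : (W.map A.subtype).toAffine.Point) :
    red φ W hΔ P = 0 ↔ P = 0 ∨ ∃ (x y : K) (h : (W.map A.subtype).toAffine.Nonsingular x y),
      P = .some x y h ∧ x ∉ A := by
  rcases P with _ | ⟨x, y, h⟩
  · exact ⟨fun _ => Or.inl rfl, fun _ => rfl⟩
  · rw [red_some_eq_zero_iff]
    constructor
    · exact fun hx => Or.inr ⟨x, y, h, rfl, hx⟩
    · rintro (h0 | ⟨x', y', h', he, hx'⟩)
      · exact absurd h0 (Point.some_ne_zero _)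
      · rw [Point.some.injEq] at he
        rw [he.1]; exact hx'

end Red

end Fermat.Agent.Lib.helper8525
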