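import Mathlib.AlgebraicGeometry.EllipticCurve.Affine.Point
import Mathlib.Algebra.Module.Torsion.Basic
import Mathlib.FieldTheory.IsAlgClosed.Basic
import Mathlib.Algebra.Polynomial.Reverse
import Mathlib.Tactic

/-!
# x-only ladder for torsion points of Weierstrass curves (helper853)

Elementary theory of the `n`-torsion via the projective x-only binary ladder; no function
fields, no division-polynomial (EDS) theory.

* `addSubRel` : correctness of the add-sub map `(x(P)x(Q) : x(P)+x(Q) : 1) ↦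
  (x(P+Q)x(P-Q) : x(P+Q)+x(P-Q) : 1)` for ALL pairs of points (all degenerate cases).
* `ladder b₂ b₄ b₆ b₈ x n = (X_n, Z_n)` over any commutative ring, `ladder_map`,
  `ladder_spec` : `(X_n(x), Z_n(x)) = c • (projective x-coordinate of n • P)`, `c ≠ 0`.
* `ladP`, `psiP` : polynomial versions; `ladP_isLC` (degrees `n²`, `n² - 1`, leading
  coefficients `1`, `n²`), `psiP_isLC` (degree `2m² + 2m`, leading coefficient `-(2m+1)`).
* `nsmul_eq_zero_iff_psiP` : `(2m+1) • P = 0 ↔ Ψ_{2m+1}(x(P)) = 0`.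
* `finite_torsionBy_of_odd`, `card_torsionBy_le_sq`, `exists_torsion_point`,
  `nontrivial_torsionBy`.
* `prod_dvd_of_psiP_roots`, `prod_inv_x_dvd` : the product of `1 / x(P)` over torsion points
  with distinct integral `1 / x(P)` divides `p` (Newton-polygon input).
-/

set_option autoImplicit false

namespace Fermat.Agent.Lib.helper853

open WeierstrassCurve WeierstrassCurve.Affine Polynomial

/-! ### The add-sub map on `Sym² ℙ¹` and the ladder steps, over any commutative ring -/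

section Defs

variable {A : Type*} [CommRing A]

/-- first coordinate of the add-sub map on `Sym² ℙ¹` -/
def symS (b₄ b₆ b₈ s t u : A) : A := s ^ 2 - b₄ * s * u - b₆ * t * u - b₈ * u ^ 2

/-- second coordinate of the add-sub map on `Sym² ℙ¹` -/
def symT (b₂ b₄ b₆ s t u : A) : A := 2 * t * s + b₂ * s * u + b₄ * t * u + b₆ * u ^ 2

/-- third coordinate of the add-sub map on `Sym² ℙ¹` -/
def symU (s t u : A) : A := t ^ 2 - 4 * s * u

end Defs

/-! ### Projective x-coordinates of points -/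

section Coord

variable {F : Type*} [Field F] {W : WeierstrassCurve.Affine F}

/-- numerator of the projective x-coordinate of a point -/
noncomputable def px (P : W.Point) : F := P.xRep 0

/-- denominator of the projective x-coordinate of a point -/
noncomputable def pz (P : W.Point) : F := P.xRep 1

@[simp] theorem px_zero : px (0 : W.Point) = 1 := by simp [px, Point.xRep_zero]
@[simp] theorem pz_zero : pz (0 : W.Point) = 0 := by simp [pz, Point.xRep_zero]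
@[simp] theorem px_some {x y : F} (h : W.Nonsingular x y) : px (Point.some x y h) = x := by
  simp [px, Point.xRep_some]
@[simp] theorem pz_some {x y : F} (h : W.Nonsingular x y) : pz (Point.some x y h) = 1 := by
  simp [pz, Point.xRep_some]
@[simp] theorem px_neg (P : W.Point) : px (-P) = px P := by simp [px, Point.xRep_neg]
@[simp] theorem pz_neg (P : W.Point) : pz (-P) = pz P := by simp [pz, Point.xRep_neg]

theorem pz_eq_zero_iff (P : W.Point) : pz P = 0 ↔ P = 0 := by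
  rcases P with _ | ⟨x, y, h⟩
  · exact ⟨fun _ => rfl, fun _ => pz_zero⟩
  · simp [Point.some_ne_zero]

end Coord

/-! ### Sum, product and duplication formulas -/

section Formulas

variable {F : Type*} [Field F] (W : WeierstrassCurve.Affine F)

/-- sum formula for the x-coordinates of `P + Q` and `P - Q` -/
theorem addX_add_addX {x₁ x₂ y₁ y₂ : F} (h₁ : W.Equation x₁ y₁) (h₂ : W.Equation x₂ y₂)
    (hx : x₁ ≠ x₂) :
    (x₁ - x₂) ^ 2 * (W.addX x₁ x₂ ((y₁ - y₂) / (x₁ - x₂)) +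
        W.addX x₁ x₂ ((y₁ - W.negY x₂ y₂) / (x₁ - x₂))) =
      2 * (x₁ * x₂) * (x₁ + x₂) + W.b₂ * (x₁ * x₂) + W.b₄ * (x₁ + x₂) + W.b₆ := by
  have hx' : x₁ - x₂ ≠ 0 := sub_ne_zero.mpr hx
  rw [Affine.equation_iff] at h₁ h₂
  simp only [Affine.addX, Affine.negY, WeierstrassCurve.b₂, WeierstrassCurve.b₄,
    WeierstrassCurve.b₆]
  field_simp
  linear_combination 2 * h₁ + 2 * h₂

/-- product formula for the x-coordinates of `P + Q` and `P - Q` -/
theorem addX_mul_addX {x₁ x₂ y₁ y₂ : F} (h₁ : W.Equation x₁ y₁) (h₂ : W.Equation x₂ y₂)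
    (hx : x₁ ≠ x₂) :
    (x₁ - x₂) ^ 2 * (W.addX x₁ x₂ ((y₁ - y₂) / (x₁ - x₂)) *
        W.addX x₁ x₂ ((y₁ - W.negY x₂ y₂) / (x₁ - x₂))) =
      (x₁ * x₂) ^ 2 - W.b₄ * (x₁ * x₂) - W.b₆ * (x₁ + x₂) - W.b₈ := by
  have hx' : x₁ - x₂ ≠ 0 := sub_ne_zero.mpr hx
  rw [Affine.equation_iff] at h₁ h₂
  have hA : (x₁ - x₂) ^ 2 * W.addX x₁ x₂ ((y₁ - y₂) / (x₁ - x₂)) =
      (y₁ - y₂) ^ 2 + W.a₁ * (y₁ - y₂) * (x₁ - x₂) - (W.a₂ + x₁ + x₂) * (x₁ - x₂) ^ 2 := by
    simp only [Affine.addX]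
    field_simp
    ring
  have hB : (x₁ - x₂) ^ 2 * W.addX x₁ x₂ ((y₁ - W.negY x₂ y₂) / (x₁ - x₂)) =
      (y₁ - W.negY x₂ y₂) ^ 2 + W.a₁ * (y₁ - W.negY x₂ y₂) * (x₁ - x₂)
        - (W.a₂ + x₁ + x₂) * (x₁ - x₂) ^ 2 := by
    simp only [Affine.addX]
    field_simp
    ring
  have key : ((y₁ - y₂) ^ 2 + W.a₁ * (y₁ - y₂) * (x₁ - x₂) - (W.a₂ + x₁ + x₂) * (x₁ - x₂) ^ 2) *
      ((y₁ - W.negY x₂ y₂) ^ 2 + W.a₁ * (y₁ - W.negY x₂ y₂) * (x₁ - x₂)
        - (W.a₂ + x₁ + x₂) * (x₁ - x₂) ^ 2) =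
      (x₁ - x₂) ^ 2 * ((x₁ * x₂) ^ 2 - W.b₄ * (x₁ * x₂) - W.b₆ * (x₁ + x₂) - W.b₈) := by
    simp only [Affine.negY, WeierstrassCurve.b₄, WeierstrassCurve.b₆, WeierstrassCurve.b₈]
    linear_combination (-x₁ ^ 3 + 2 * x₁ ^ 2 * x₂ - x₁ ^ 2 * W.a₂ + 2 * x₁ * x₂ ^ 2 + x₁ * x₂ * W.a₁ ^ 2 + 4 * x₁ * x₂ * W.a₂ + x₁ * y₁ * W.a₁ + x₁ * W.a₁ * W.a₃ + x₁ * W.a₄ - 2 * x₂ ^ 3 - x₂ ^ 2 * W.a₁ ^ 2 - 2 * x₂ ^ 2 * W.a₂ - 2 * x₂ * y₂ * W.a₁ - x₂ * W.a₁ * W.a₃ + y₁ ^ 2 + y₁ * W.a₃ - 2 * y₂ ^ 2 - 2 * y₂ * W.a₃ + W.a₆) * h₁ + (-4 * x₁ ^ 3 + 2 * x₁ ^ 2 * x₂ - x₁ ^ 2 * W.a₁ ^ 2 - 4 * x₁ ^ 2 * W.a₂ + 2 * x₁ * x₂ ^ 2 + x₁ * x₂ * W.a₁ ^ 2 + 4 * x₁ * x₂ * W.a₂ - x₁ * W.a₁ * W.a₃ - 2 * x₁ * W.a₄ - x₂ ^ 3 - x₂ ^ 2 * W.a₂ + x₂ * y₂ * W.a₁ + x₂ * W.a₁ * W.a₃ + x₂ * W.a₄ + y₂ ^ 2 + y₂ * W.a₃ - W.a₆) * h₂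
  have h2 : (x₁ - x₂) ^ 2 ≠ 0 := pow_ne_zero 2 hx'
  apply mul_left_cancel₀ h2
  rw [← key, ← hA, ← hB]
  ring

theorem psiTwoSq_eq {x y : F} (h : W.Equation x y) :
    4 * x ^ 3 + W.b₂ * x ^ 2 + 2 * W.b₄ * x + W.b₆ = (y - W.negY x y) ^ 2 := by
  rw [Affine.equation_iff] at h
  simp only [Affine.negY, WeierstrassCurve.b₂, WeierstrassCurve.b₄, WeierstrassCurve.b₆]
  linear_combination (-4) * h

theorem dupNum_eq {x y : F} (h : W.Equation x y) :
    x ^ 4 - W.b₄ * x ^ 2 - 2 * W.b₆ * x - W.b₈ =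
      (3 * x ^ 2 + 2 * W.a₂ * x + W.a₄ - W.a₁ * y) ^ 2
        + W.a₁ * (3 * x ^ 2 + 2 * W.a₂ * x + W.a₄ - W.a₁ * y) * (y - W.negY x y)
        - (W.a₂ + 2 * x) * (y - W.negY x y) ^ 2 := by
  rw [Affine.equation_iff] at h
  simp only [Affine.negY, WeierstrassCurve.b₄, WeierstrassCurve.b₆, WeierstrassCurve.b₈]
  linear_combination (8 * x + W.a₁ ^ 2 + 4 * W.a₂) * h

/-- duplication formula for the x-coordinate -/
theorem addX_dup {x y : F} (h : W.Equation x y) (hy : y ≠ W.negY x y) :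
    (y - W.negY x y) ^ 2 *
      W.addX x x ((3 * x ^ 2 + 2 * W.a₂ * x + W.a₄ - W.a₁ * y) / (y - W.negY x y)) =
      x ^ 4 - W.b₄ * x ^ 2 - 2 * W.b₆ * x - W.b₈ := by
  have hy' : y - W.negY x y ≠ 0 := sub_ne_zero.mpr hy
  rw [dupNum_eq W h]
  simp only [Affine.addX]
  field_simp
  ring

end Formulas

/-! ### The add-sub relation for all pairs of points -/

section AddSub

variable {F : Type*} [Field F] [DecidableEq F] (W : WeierstrassCurve.Affine F)

/-- The add-sub relation: the add-sub map sends the symmetric coordinates of `(P, Q)` to those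
of `(P + Q, P - Q)`, up to a nonzero scalar. -/
def AddSubRel (P Q : W.Point) : Prop :=
  ∃ c : F, c ≠ 0 ∧
    symS W.b₄ W.b₆ W.b₈ (px P * px Q) (px P * pz Q + pz P * px Q) (pz P * pz Q) =
      c * (px (P + Q) * px (P - Q)) ∧
    symT W.b₂ W.b₄ W.b₆ (px P * px Q) (px P * pz Q + pz P * px Q) (pz P * pz Q) =
      c * (px (P + Q) * pz (P - Q) + pz (P + Q) * px (P - Q)) ∧
    symU (px P * px Q) (px P * pz Q + pz P * px Q) (pz P * pz Q) =
      c * (pz (P + Q) * pz (P - Q))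

theorem addSubRel_zero_right (P : W.Point) : AddSubRel W P 0 := by
  refine ⟨1, one_ne_zero, ?_, ?_, ?_⟩ <;> simp [symS, symT, symU] <;> ring

theorem addSubRel_zero_left (Q : W.Point) : AddSubRel W 0 Q := by
  refine ⟨1, one_ne_zero, ?_, ?_, ?_⟩ <;> simp [symS, symT, symU] <;> ring

theorem addSubRel_neg_right {P Q : W.Point} (h : AddSubRel W P Q) : AddSubRel W P (-Q) := by
  obtain ⟨c, hc, h1, h2, h3⟩ := h
  refine ⟨c, hc, ?_, ?_, ?_⟩
  · rw [px_neg, pz_neg, h1, sub_neg_eq_add, ← sub_eq_add_neg]; ring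
  · rw [px_neg, pz_neg, h2, sub_neg_eq_add, ← sub_eq_add_neg]; ring
  · rw [px_neg, pz_neg, h3, sub_neg_eq_add, ← sub_eq_add_neg]; ring

theorem addSubRel_of_X_ne {x₁ y₁ x₂ y₂ : F} (h₁ : W.Nonsingular x₁ y₁) (h₂ : W.Nonsingular x₂ y₂)
    (hx : x₁ ≠ x₂) : AddSubRel W (Point.some x₁ y₁ h₁) (Point.some x₂ y₂ h₂) := by
  have e1 : px (Point.some x₁ y₁ h₁ + Point.some x₂ y₂ h₂) =
      W.addX x₁ x₂ ((y₁ - y₂) / (x₁ - x₂)) := by
    rw [Point.add_of_X_ne hx, px_some, Affine.slope_of_X_ne hx]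
  have e1' : pz (Point.some x₁ y₁ h₁ + Point.some x₂ y₂ h₂) = 1 := by
    rw [Point.add_of_X_ne hx, pz_some]
  have e2 : px (Point.some x₁ y₁ h₁ - Point.some x₂ y₂ h₂) =
      W.addX x₁ x₂ ((y₁ - W.negY x₂ y₂) / (x₁ - x₂)) := by
    rw [sub_eq_add_neg, Point.neg_some, Point.add_of_X_ne hx, px_some, Affine.slope_of_X_ne hx]
  have e2' : pz (Point.some x₁ y₁ h₁ - Point.some x₂ y₂ h₂) = 1 := by
    rw [sub_eq_add_neg, Point.neg_some, Point.add_of_X_ne hx, pz_some]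
  have hs := addX_add_addX W h₁.1 h₂.1 hx
  have hp := addX_mul_addX W h₁.1 h₂.1 hx
  refine ⟨(x₁ - x₂) ^ 2, pow_ne_zero 2 (sub_ne_zero.mpr hx), ?_, ?_, ?_⟩
  · rw [e1, e2, px_some, px_some, pz_some, pz_some, hp]
    simp only [symS]
    ring
  · rw [e1, e2, e1', e2', px_some, px_some, pz_some, pz_some]
    simp only [symT]
    linear_combination -hs
  · rw [e1', e2', px_some, px_some, pz_some, pz_some]
    simp only [symU]
    ring

theorem addSubRel_self (P : W.Point) : AddSubRel W P P := by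
  rcases P with _ | ⟨x, y, h⟩
  · exact addSubRel_zero_right W 0
  · by_cases hy : y = W.negY x y
    · have e1 : Point.some x y h + Point.some x y h = 0 := Point.add_self_of_Y_eq hy
      have hN := dupNum_eq W h.1
      have hM := psiTwoSq_eq W h.1
      have hy0 : y - W.negY x y = 0 := sub_eq_zero.mpr hy
      rw [hy0] at hN hM
      have hg : 3 * x ^ 2 + 2 * W.a₂ * x + W.a₄ - W.a₁ * y ≠ 0 := by
        have hns := (Affine.nonsingular_iff x y).mp h
        rcases hns.2 with h' | h'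
        · intro h0
          exact h' (by linear_combination -h0)
        · exact absurd hy h'
      refine ⟨x ^ 4 - W.b₄ * x ^ 2 - 2 * W.b₆ * x - W.b₈, ?_, ?_, ?_, ?_⟩
      · rw [hN]
        simpa using hg
      · rw [e1, sub_self, px_zero, px_some, pz_some]
        simp only [symS]
        ring
      · rw [e1, sub_self, px_zero, pz_zero, px_some, pz_some]
        simp only [symT]
        linear_combination hM
      · rw [e1, sub_self, pz_zero, px_some, pz_some]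
        simp only [symU]
        ring
    · have e1 : px (Point.some x y h + Point.some x y h) =
          W.addX x x ((3 * x ^ 2 + 2 * W.a₂ * x + W.a₄ - W.a₁ * y) / (y - W.negY x y)) := by
        rw [Point.add_self_of_Y_ne hy, px_some, Affine.slope_of_Y_ne rfl hy]
      have e1' : pz (Point.some x y h + Point.some x y h) = 1 := by
        rw [Point.add_self_of_Y_ne hy, pz_some]
      have hd := addX_dup W h.1 hy
      have hM := psiTwoSq_eq W h.1
      refine ⟨(y - W.negY x y) ^ 2, pow_ne_zero 2 (sub_ne_zero.mpr hy), ?_, ?_, ?_⟩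
      · rw [e1, sub_self, px_zero, px_some, pz_some]
        simp only [symS]
        linear_combination -hd
      · rw [e1, e1', sub_self, px_zero, pz_zero, px_some, pz_some]
        simp only [symT]
        linear_combination hM
      · rw [e1', sub_self, pz_zero, px_some, pz_some]
        simp only [symU]
        ring

/-- **Correctness of the add-sub map** for all pairs of points (including all degenerate cases).
-/
theorem addSubRel (P Q : W.Point) : AddSubRel W P Q := by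
  rcases P with _ | ⟨x₁, y₁, h₁⟩
  · exact addSubRel_zero_left W Q
  rcases Q with _ | ⟨x₂, y₂, h₂⟩
  · exact addSubRel_zero_right W _
  by_cases hx : x₁ = x₂
  · rcases Point.X_eq_iff.mp hx with hPQ | hPQ
    · rw [← hPQ]
      exact addSubRel_self W _
    · have hQ : Point.some x₂ y₂ h₂ = -Point.some x₁ y₁ h₁ := by rw [hPQ, neg_neg]
      rw [hQ]
      exact addSubRel_neg_right W (addSubRel_self W _)
  · exact addSubRel_of_X_ne W h₁ h₂ hx

end AddSub

/-! ### The ladder -/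

section LadderDef

variable {A : Type*} [CommRing A]

/-- x-only doubling, numerator -/
def dblX (b₄ b₆ b₈ X Z : A) : A :=
  X ^ 4 - b₄ * X ^ 2 * Z ^ 2 - 2 * b₆ * X * Z ^ 3 - b₈ * Z ^ 4

/-- x-only doubling, denominator -/
def dblZ (b₂ b₄ b₆ X Z : A) : A :=
  4 * X ^ 3 * Z + b₂ * X ^ 2 * Z ^ 2 + 2 * b₄ * X * Z ^ 3 + b₆ * Z ^ 4

/-- x-only differential addition (difference with affine x-coordinate `x`), numerator -/
def daddX (b₂ b₄ b₆ x X' Z' X Z : A) : A :=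
  2 * (X' * Z + X * Z') * (X' * X) + b₂ * (X' * X) * (Z' * Z)
    + b₄ * (X' * Z + X * Z') * (Z' * Z) + b₆ * (Z' * Z) ^ 2 - x * (X' * Z - X * Z') ^ 2

/-- x-only differential addition, denominator -/
def daddZ (X' Z' X Z : A) : A := (X' * Z - X * Z') ^ 2

/-- The projective x-only ladder: `ladder n = (X_n, Z_n)` with `x(nP) = X_n / Z_n` when
`x(P) = x`. -/
def ladder (b₂ b₄ b₆ b₈ x : A) : ℕ → A × A
  | 0 => (1, 0)
  | 1 => (x, 1)
  | (n + 2) =>
    if _h : n % 2 = 0 then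
      (dblX b₄ b₆ b₈ (ladder b₂ b₄ b₆ b₈ x (n / 2 + 1)).1 (ladder b₂ b₄ b₆ b₈ x (n / 2 + 1)).2,
       dblZ b₂ b₄ b₆ (ladder b₂ b₄ b₆ b₈ x (n / 2 + 1)).1 (ladder b₂ b₄ b₆ b₈ x (n / 2 + 1)).2)
    else
      (daddX b₂ b₄ b₆ x (ladder b₂ b₄ b₆ b₈ x (n / 2 + 2)).1 (ladder b₂ b₄ b₆ b₈ x (n / 2 + 2)).2
          (ladder b₂ b₄ b₆ b₈ x (n / 2 + 1)).1 (ladder b₂ b₄ b₆ b₈ x (n / 2 + 1)).2,
       daddZ (ladder b₂ b₄ b₆ b₈ x (n / 2 + 2)).1 (ladder b₂ b₄ b₆ b₈ x (n / 2 + 2)).2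
          (ladder b₂ b₄ b₆ b₈ x (n / 2 + 1)).1 (ladder b₂ b₄ b₆ b₈ x (n / 2 + 1)).2)
termination_by n => n
decreasing_by all_goals omega

variable (b₂ b₄ b₆ b₈ x : A)

theorem ladder_zero : ladder b₂ b₄ b₆ b₈ x 0 = (1, 0) := by
  rw [ladder]

theorem ladder_one : ladder b₂ b₄ b₆ b₈ x 1 = (x, 1) := by
  rw [ladder]

theorem ladder_even (k : ℕ) : ladder b₂ b₄ b₆ b₈ x (2 * (k + 1)) =
    (dblX b₄ b₆ b₈ (ladder b₂ b₄ b₆ b₈ x (k + 1)).1 (ladder b₂ b₄ b₆ b₈ x (k + 1)).2,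
     dblZ b₂ b₄ b₆ (ladder b₂ b₄ b₆ b₈ x (k + 1)).1 (ladder b₂ b₄ b₆ b₈ x (k + 1)).2) := by
  have e : 2 * (k + 1) = 2 * k + 2 := by ring
  have h1 : (2 * k) % 2 = 0 := by omega
  have h2 : 2 * k / 2 = k := by omega
  rw [e, ladder, dif_pos h1, h2]

theorem ladder_odd (k : ℕ) : ladder b₂ b₄ b₆ b₈ x (2 * (k + 1) + 1) =
    (daddX b₂ b₄ b₆ x (ladder b₂ b₄ b₆ b₈ x (k + 2)).1 (ladder b₂ b₄ b₆ b₈ x (k + 2)).2
        (ladder b₂ b₄ b₆ b₈ x (k + 1)).1 (ladder b₂ b₄ b₆ b₈ x (k + 1)).2,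
     daddZ (ladder b₂ b₄ b₆ b₈ x (k + 2)).1 (ladder b₂ b₄ b₆ b₈ x (k + 2)).2
        (ladder b₂ b₄ b₆ b₈ x (k + 1)).1 (ladder b₂ b₄ b₆ b₈ x (k + 1)).2) := by
  have e : 2 * (k + 1) + 1 = (2 * k + 1) + 2 := by ring
  have h1 : ¬ (2 * k + 1) % 2 = 0 := by omega
  have h2 : (2 * k + 1) / 2 = k := by omega
  rw [e, ladder, dif_neg h1, h2]

/-- induction principle following the ladder recursion -/
theorem ladder_induction {motive : ℕ → Prop} (h0 : motive 0) (h1 : motive 1)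
    (heven : ∀ k : ℕ, motive (k + 1) → motive (2 * (k + 1)))
    (hodd : ∀ k : ℕ, motive (k + 2) → motive (k + 1) → motive (2 * (k + 1) + 1)) :
    ∀ n : ℕ, motive n := by
  intro n
  induction n using Nat.strong_induction_on with
  | _ n ih =>
    rcases n with _ | _ | n
    · exact h0
    · exact h1
    · rcases Nat.even_or_odd' n with ⟨j, rfl | rfl⟩
      · have e : 2 * j + 1 + 1 = 2 * (j + 1) := by ring
        rw [e]
        exact heven j (ih _ (by omega))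
      · have e : 2 * j + 1 + 1 + 1 = 2 * (j + 1) + 1 := by ring
        rw [e]
        exact hodd j (ih _ (by omega)) (ih _ (by omega))

/-- the ladder commutes with ring homomorphisms -/
theorem ladder_map {B : Type*} [CommRing B] (φ : A →+* B) (n : ℕ) :
    ladder (φ b₂) (φ b₄) (φ b₆) (φ b₈) (φ x) n =
      (φ (ladder b₂ b₄ b₆ b₈ x n).1, φ (ladder b₂ b₄ b₆ b₈ x n).2) := by
  induction n using ladder_induction with
  | h0 => simp [ladder_zero]
  | h1 => simp [ladder_one]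
  | heven k ih =>
    rw [ladder_even, ladder_even, ih]
    simp only [dblX, dblZ, map_sub, map_add, map_mul, map_pow, map_ofNat]
  | hodd k ih2 ih1 =>
    rw [ladder_odd, ladder_odd, ih2, ih1]
    simp only [daddX, daddZ, map_sub, map_add, map_mul, map_pow, map_ofNat]

end LadderDef


/-! ### Correctness of the ladder -/

section LadderSpec

variable {F : Type*} [Field F] [DecidableEq F] (W : WeierstrassCurve.Affine F)

/-- **Correctness of the ladder**: `(X_n(x), Z_n(x))` are projective x-coordinates of `n • P`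
for `P = (x, y)`. -/
theorem ladder_spec {x y : F} (h : W.Nonsingular x y) (n : ℕ) :
    ∃ c : F, c ≠ 0 ∧
      (ladder W.b₂ W.b₄ W.b₆ W.b₈ x n).1 = c * px (n • Point.some x y h) ∧
      (ladder W.b₂ W.b₄ W.b₆ W.b₈ x n).2 = c * pz (n • Point.some x y h) := by
  induction n using ladder_induction with
  | h0 => exact ⟨1, one_ne_zero, by simp [ladder_zero], by simp [ladder_zero]⟩
  | h1 => exact ⟨1, one_ne_zero, by simp [ladder_one], by simp [ladder_one]⟩
  | heven k ih =>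
    obtain ⟨c, hc, hX, hZ⟩ := ih
    obtain ⟨c', hc', h1, h2, -⟩ :=
      addSubRel W ((k + 1) • Point.some x y h) ((k + 1) • Point.some x y h)
    have e : (2 * (k + 1)) • Point.some x y h =
        (k + 1) • Point.some x y h + (k + 1) • Point.some x y h := by
      rw [two_mul, add_nsmul]
    simp only [sub_self, px_zero, pz_zero] at h1 h2
    rw [← e] at h1 h2
    refine ⟨c ^ 4 * c', mul_ne_zero (pow_ne_zero 4 hc) hc', ?_, ?_⟩
    · rw [ladder_even, hX, hZ]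
      simp only [dblX]
      simp only [symS] at h1
      linear_combination c ^ 4 * h1
    · rw [ladder_even, hX, hZ]
      simp only [dblZ]
      simp only [symT] at h2
      linear_combination c ^ 4 * h2
  | hodd k ih2 ih1 =>
    obtain ⟨c₁, hc₁, hX', hZ'⟩ := ih2
    obtain ⟨c₂, hc₂, hX, hZ⟩ := ih1
    obtain ⟨c', hc', -, h2, h3⟩ :=
      addSubRel W ((k + 2) • Point.some x y h) ((k + 1) • Point.some x y h)
    have e : (2 * (k + 1) + 1) • Point.some x y h =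
        (k + 2) • Point.some x y h + (k + 1) • Point.some x y h := by
      rw [← add_nsmul]
      congr 1
      ring
    have e' : (k + 2) • Point.some x y h - (k + 1) • Point.some x y h = Point.some x y h := by
      rw [show k + 2 = (k + 1) + 1 from rfl, succ_nsmul, add_sub_cancel_left]
    simp only [e', px_some, pz_some] at h2 h3
    rw [← e] at h2 h3
    refine ⟨c₁ ^ 2 * c₂ ^ 2 * c',
      mul_ne_zero (mul_ne_zero (pow_ne_zero 2 hc₁) (pow_ne_zero 2 hc₂)) hc', ?_, ?_⟩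
    · rw [ladder_odd, hX', hZ', hX, hZ]
      simp only [daddX]
      simp only [symT] at h2
      simp only [symU] at h3
      linear_combination c₁ ^ 2 * c₂ ^ 2 * h2 - x * c₁ ^ 2 * c₂ ^ 2 * h3
    · rw [ladder_odd, hX', hZ', hX, hZ]
      simp only [daddZ]
      simp only [symU] at h3
      linear_combination c₁ ^ 2 * c₂ ^ 2 * h3

/-- `n • P = 0` iff the denominator `Z_n` of the ladder vanishes at `x(P)`. -/
theorem nsmul_eq_zero_iff_ladder {x y : F} (h : W.Nonsingular x y) (n : ℕ) :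
    n • Point.some x y h = 0 ↔ (ladder W.b₂ W.b₄ W.b₆ W.b₈ x n).2 = 0 := by
  obtain ⟨c, hc, -, hZ⟩ := ladder_spec W h n
  rw [hZ, mul_eq_zero, pz_eq_zero_iff]
  exact ⟨fun h => Or.inr h, fun h => h.resolve_left hc⟩

end LadderSpec

/-! ### Degree bookkeeping -/

section Degree

variable {R : Type*} [CommRing R]

/-- `p` has degree at most `d` and its `d`-th coefficient is `a`. -/
def IsLC (p : R[X]) (d : ℕ) (a : R) : Prop := p.natDegree ≤ d ∧ p.coeff d = a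

theorem IsLC.mul {p q : R[X]} {d e : ℕ} {a b : R} (hp : IsLC p d a) (hq : IsLC q e b) :
    IsLC (p * q) (d + e) (a * b) :=
  ⟨natDegree_mul_le_of_le hp.1 hq.1, by rw [coeff_mul_add_eq_of_natDegree_le hp.1 hq.1, hp.2, hq.2]⟩

theorem IsLC.pow {p : R[X]} {d : ℕ} {a : R} (hp : IsLC p d a) (k : ℕ) :
    IsLC (p ^ k) (k * d) (a ^ k) :=
  ⟨natDegree_pow_le_of_le k hp.1, by rw [coeff_pow_of_natDegree_le hp.1, hp.2]⟩

theorem IsLC.add {p q : R[X]} {d : ℕ} {a b : R} (hp : IsLC p d a) (hq : IsLC q d b) :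
    IsLC (p + q) d (a + b) :=
  ⟨natDegree_add_le_of_degree_le hp.1 hq.1, by rw [coeff_add, hp.2, hq.2]⟩

theorem IsLC.sub {p q : R[X]} {d : ℕ} {a b : R} (hp : IsLC p d a) (hq : IsLC q d b) :
    IsLC (p - q) d (a - b) :=
  ⟨(natDegree_sub_le_of_le hp.1 hq.1).trans (max_self d).le, by rw [coeff_sub, hp.2, hq.2]⟩

theorem IsLC.lift {p : R[X]} {d e : ℕ} {a : R} (hp : IsLC p d a) (hde : d < e) : IsLC p e 0 :=
  ⟨hp.1.trans hde.le, coeff_eq_zero_of_natDegree_lt (lt_of_le_of_lt hp.1 hde)⟩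

theorem IsLC.congr {p : R[X]} {d e : ℕ} {a b : R} (hp : IsLC p d a) (hde : d = e)
    (hab : a = b) : IsLC p e b := by
  subst hde hab; exact hp

theorem IsLC.add_lower {p q : R[X]} {d e : ℕ} {a b : R} (hp : IsLC p d a) (hq : IsLC q e b)
    (h : e < d) : IsLC (p + q) d a :=
  (hp.add (hq.lift h)).congr rfl (add_zero a)

theorem IsLC.sub_lower {p q : R[X]} {d e : ℕ} {a b : R} (hp : IsLC p d a) (hq : IsLC q e b)
    (h : e < d) : IsLC (p - q) d a :=
  (hp.sub (hq.lift h)).congr rfl (sub_zero a)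

theorem isLC_C (a : R) : IsLC (C a) 0 a := ⟨(natDegree_C a).le, coeff_C_zero⟩

theorem isLC_X : IsLC (X : R[X]) 1 1 := ⟨natDegree_X_le, coeff_X_one⟩

theorem isLC_one : IsLC (1 : R[X]) 0 1 := ⟨natDegree_one.le, coeff_one_zero⟩

theorem isLC_zero (d : ℕ) : IsLC (0 : R[X]) d 0 := ⟨by simp, coeff_zero d⟩

theorem isLC_ofNat (n : ℕ) [n.AtLeastTwo] : IsLC (OfNat.ofNat n : R[X]) 0 (OfNat.ofNat n) :=
  ⟨(natDegree_ofNat n).le, coeff_ofNat_zero n⟩

theorem IsLC.ne_zero {p : R[X]} {d : ℕ} {a : R} (hp : IsLC p d a) (ha : a ≠ 0) : p ≠ 0 := by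
  rintro rfl
  exact ha (by rw [← hp.2, coeff_zero])

/-- The ladder over the polynomial ring: `ladP n = (X_n, Z_n)` as polynomials in `x = x(P)`. -/
noncomputable def ladP (b₂ b₄ b₆ b₈ : R) (n : ℕ) : R[X] × R[X] :=
  ladder (C b₂) (C b₄) (C b₆) (C b₈) X n

/-- The odd "division polynomial" `Ψ_{2m+1} = X_{m+1} Z_m - X_m Z_{m+1}` (up to sign). -/
noncomputable def psiP (b₂ b₄ b₆ b₈ : R) (m : ℕ) : R[X] :=
  (ladP b₂ b₄ b₆ b₈ (m + 1)).1 * (ladP b₂ b₄ b₆ b₈ m).2 -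
    (ladP b₂ b₄ b₆ b₈ m).1 * (ladP b₂ b₄ b₆ b₈ (m + 1)).2

variable (b₂ b₄ b₆ b₈ : R)

theorem ladP_eval (x : R) (n : ℕ) :
    ((ladP b₂ b₄ b₆ b₈ n).1.eval x, (ladP b₂ b₄ b₆ b₈ n).2.eval x) = ladder b₂ b₄ b₆ b₈ x n := by
  have h := ladder_map (C b₂) (C b₄) (C b₆) (C b₈) (X : R[X]) (evalRingHom x) n
  simp only [coe_evalRingHom, eval_C, eval_X] at h
  rw [h]
  rfl

theorem ladP_map {S : Type*} [CommRing S] (f : R →+* S) (n : ℕ) :
    ((ladP b₂ b₄ b₆ b₈ n).1.map f, (ladP b₂ b₄ b₆ b₈ n).2.map f) =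
      ladP (f b₂) (f b₄) (f b₆) (f b₈) n := by
  have h := ladder_map (C b₂) (C b₄) (C b₆) (C b₈) (X : R[X]) (mapRingHom f) n
  simp only [coe_mapRingHom, map_C, map_X] at h
  simp only [ladP]
  rw [h]

theorem psiP_map {S : Type*} [CommRing S] (f : R →+* S) (m : ℕ) :
    (psiP b₂ b₄ b₆ b₈ m).map f = psiP (f b₂) (f b₄) (f b₆) (f b₈) m := by
  have h1 := ladP_map b₂ b₄ b₆ b₈ f m
  have h2 := ladP_map b₂ b₄ b₆ b₈ f (m + 1)
  simp only [psiP, Polynomial.map_sub, Polynomial.map_mul]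
  rw [← h1, ← h2]

theorem psiP_eval (x : R) (m : ℕ) :
    (psiP b₂ b₄ b₆ b₈ m).eval x =
      (ladder b₂ b₄ b₆ b₈ x (m + 1)).1 * (ladder b₂ b₄ b₆ b₈ x m).2 -
        (ladder b₂ b₄ b₆ b₈ x m).1 * (ladder b₂ b₄ b₆ b₈ x (m + 1)).2 := by
  have h1 := ladP_eval b₂ b₄ b₆ b₈ x m
  have h2 := ladP_eval b₂ b₄ b₆ b₈ x (m + 1)
  simp only [psiP, eval_sub, eval_mul]
  rw [← h1, ← h2]

/-- `Z_{2m+1} = Ψ_{2m+1}²` -/
theorem ladder_snd_odd {A : Type*} [CommRing A] (c₂ c₄ c₆ c₈ x : A) (m : ℕ) :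
    (ladder c₂ c₄ c₆ c₈ x (2 * m + 1)).2 =
      ((ladder c₂ c₄ c₆ c₈ x (m + 1)).1 * (ladder c₂ c₄ c₆ c₈ x m).2 -
        (ladder c₂ c₄ c₆ c₈ x m).1 * (ladder c₂ c₄ c₆ c₈ x (m + 1)).2) ^ 2 := by
  rcases m with _ | k
  · simp [ladder_zero, ladder_one]
  · rw [ladder_odd]
    rfl

/-- degrees and leading coefficients of the ladder polynomials:
`X_n` is monic of degree `n²`, `Z_n` has degree `n² - 1` and leading coefficient `n²`. -/
theorem ladP_isLC (n : ℕ) :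
    IsLC (ladP b₂ b₄ b₆ b₈ n).1 (n ^ 2) 1 ∧
      IsLC (ladP b₂ b₄ b₆ b₈ n).2 (n ^ 2 - 1) ((n : R) ^ 2) := by
  induction n using ladder_induction with
  | h0 =>
    simp only [ladP, ladder_zero]
    exact ⟨isLC_one.congr (by norm_num) rfl, (isLC_zero 0).congr (by norm_num) (by simp)⟩
  | h1 =>
    simp only [ladP, ladder_one]
    exact ⟨isLC_X.congr (by norm_num) rfl, isLC_one.congr (by norm_num) (by simp)⟩
  | heven k ih =>
    obtain ⟨hX, hZ⟩ := ih
    obtain ⟨d, hd⟩ : ∃ d, (k + 1) ^ 2 = d + 1 :=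
      ⟨(k + 1) ^ 2 - 1, by have : 0 < (k + 1) ^ 2 := by positivity
                           omega⟩
    rw [hd] at hX
    rw [hd, Nat.add_sub_cancel] at hZ
    have e2 : (2 * (k + 1)) ^ 2 = 4 * (d + 1) := by rw [mul_pow, hd]; norm_num
    simp only [ladP] at hX hZ ⊢
    rw [ladder_even, e2]
    refine ⟨?_, ?_⟩
    · have h1 := hX.pow 4
      have h2 := ((isLC_C b₄).mul (hX.pow 2)).mul (hZ.pow 2)
      have h3 := (((isLC_ofNat 2).mul (isLC_C b₆)).mul hX).mul (hZ.pow 3)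
      have h4 := (isLC_C b₈).mul (hZ.pow 4)
      exact (((h1.sub_lower h2 (by omega)).sub_lower h3 (by omega)).sub_lower h4
        (by omega)).congr rfl (by simp)
    · have h1 := ((isLC_ofNat 4).mul (hX.pow 3)).mul hZ
      have h2 := ((isLC_C b₂).mul (hX.pow 2)).mul (hZ.pow 2)
      have h3 := (((isLC_ofNat 2).mul (isLC_C b₄)).mul hX).mul (hZ.pow 3)
      have h4 := (isLC_C b₆).mul (hZ.pow 4)
      exact (((h1.add_lower h2 (by omega)).add_lower h3 (by omega)).add_lower h4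
        (by omega)).congr (by omega) (by push_cast; ring)
  | hodd k ih2 ih1 =>
    obtain ⟨hX', hZ'⟩ := ih2
    obtain ⟨hX, hZ⟩ := ih1
    obtain ⟨d, hd⟩ : ∃ d, (k + 1) ^ 2 = d + 1 :=
      ⟨(k + 1) ^ 2 - 1, by have : 0 < (k + 1) ^ 2 := by positivity
                           omega⟩
    have hd' : (k + 2) ^ 2 = (d + 2 * k + 3) + 1 := by
      have : (k + 2) ^ 2 = (k + 1) ^ 2 + 2 * k + 3 := by ring
      rw [this, hd]
      ring
    rw [hd] at hX
    rw [hd, Nat.add_sub_cancel] at hZ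
    rw [hd'] at hX'
    rw [hd', Nat.add_sub_cancel] at hZ'
    have e2 : (2 * (k + 1) + 1) ^ 2 = 4 * d + 4 * k + 9 := by
      have : (2 * (k + 1) + 1) ^ 2 = 4 * (k + 1) ^ 2 + 4 * k + 5 := by ring
      rw [this, hd]
      ring
    simp only [ladP] at hX hZ hX' hZ' ⊢
    rw [ladder_odd, e2]
    have hA := hX'.mul hZ
    have hB := hX.mul hZ'
    have hs := hX'.mul hX
    have hu := hZ'.mul hZ
    have ht := hA.add (hB.congr (by omega) rfl)
    have hm := hA.sub (hB.congr (by omega) rfl)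
    refine ⟨?_, ?_⟩
    · have h1 := ((isLC_ofNat 2).mul ht).mul hs
      have h2 := ((isLC_C b₂).mul hs).mul hu
      have h3 := ((isLC_C b₄).mul ht).mul hu
      have h4 := (isLC_C b₆).mul (hu.pow 2)
      have h5 := isLC_X.mul (hm.pow 2)
      exact ((((h1.add_lower h2 (by omega)).add_lower h3 (by omega)).add_lower h4
        (by omega)).sub (h5.congr (by omega) rfl)).congr (by omega) (by push_cast; ring)
    · exact (hm.pow 2).congr (by omega) (by push_cast; ring)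

/-- degree and leading coefficient of `Ψ_{2m+1}`: degree `2m² + 2m = ((2m+1)² - 1)/2`,
leading coefficient `-(2m+1)`. -/
theorem psiP_isLC (m : ℕ) :
    IsLC (psiP b₂ b₄ b₆ b₈ m) (2 * m ^ 2 + 2 * m) (-(2 * (m : R) + 1)) := by
  rcases m with _ | k
  · simp only [psiP, ladP, zero_add, ladder_zero, ladder_one]
    refine ⟨by simp, by simp⟩
  · obtain ⟨hX', hZ'⟩ := ladP_isLC b₂ b₄ b₆ b₈ (k + 2)
    obtain ⟨hX, hZ⟩ := ladP_isLC b₂ b₄ b₆ b₈ (k + 1)
    obtain ⟨d, hd⟩ : ∃ d, (k + 1) ^ 2 = d + 1 :=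
      ⟨(k + 1) ^ 2 - 1, by have : 0 < (k + 1) ^ 2 := by positivity
                           omega⟩
    have hd' : (k + 2) ^ 2 = (d + 2 * k + 3) + 1 := by
      have : (k + 2) ^ 2 = (k + 1) ^ 2 + 2 * k + 3 := by ring
      rw [this, hd]
      ring
    rw [hd] at hX
    rw [hd, Nat.add_sub_cancel] at hZ
    rw [hd'] at hX'
    rw [hd', Nat.add_sub_cancel] at hZ'
    have hA := hX'.mul hZ
    have hB := hX.mul hZ'
    have hm := hA.sub (hB.congr (by omega) rfl)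
    have e : 2 * (k + 1) ^ 2 + 2 * (k + 1) = d + 2 * k + 3 + 1 + d := by
      rw [hd]; ring
    rw [e]
    exact hm.congr rfl (by push_cast; ring)

end Degree

/-! ### Torsion points -/

section Torsion

variable {F : Type*} [Field F] [DecidableEq F] (W : WeierstrassCurve.Affine F)

theorem IsLC.natDegree_eq {R : Type*} [CommRing R] {p : R[X]} {d : ℕ} {a : R} (hp : IsLC p d a)
    (ha : a ≠ 0) : p.natDegree = d :=
  le_antisymm hp.1 (le_natDegree_of_ne_zero (by rw [hp.2]; exact ha))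

/-- `(2m+1) • P = 0` iff `Ψ_{2m+1}(x(P)) = 0`. -/
theorem nsmul_eq_zero_iff_psiP {x y : F} (h : W.Nonsingular x y) (m : ℕ) :
    (2 * m + 1) • Point.some x y h = 0 ↔ (psiP W.b₂ W.b₄ W.b₆ W.b₈ m).eval x = 0 := by
  rw [nsmul_eq_zero_iff_ladder, ladder_snd_odd, psiP_eval]
  exact pow_eq_zero_iff two_ne_zero

/-- affine coordinates of a point (`(0, 0)` for the point at infinity) -/
def xyCoord : W.Point → F × F
  | .zero => (0, 0)
  | .some x y _ => (x, y)

/-- the quadratic polynomial in `y` cut out by the Weierstrass equation at a given `x` -/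
noncomputable def fiberPoly (x : F) : F[X] :=
  X ^ 2 + C (W.a₁ * x + W.a₃) * X - C (x ^ 3 + W.a₂ * x ^ 2 + W.a₄ * x + W.a₆)

omit [DecidableEq F] in
theorem fiberPoly_isLC (x : F) : IsLC (fiberPoly W x) 2 1 := by
  have h1 : IsLC ((X : F[X]) ^ 2) 2 1 := (isLC_X.pow 2).congr rfl (by simp)
  have h2 := (isLC_C (W.a₁ * x + W.a₃)).mul (isLC_X (R := F))
  have h3 := isLC_C (x ^ 3 + W.a₂ * x ^ 2 + W.a₄ * x + W.a₆)
  exact (h1.add_lower h2 (by norm_num)).sub_lower h3 (by norm_num)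

omit [DecidableEq F] in
theorem fiberPoly_eval (x y : F) : (fiberPoly W x).eval y = 0 ↔ W.Equation x y := by
  rw [Affine.equation_iff]
  simp only [fiberPoly, eval_add, eval_sub, eval_mul, eval_pow, eval_C, eval_X]
  constructor <;> intro h <;> linear_combination h

/-- The `(2m+1)`-torsion is finite with at most `(2m+1)²` points (if `2m+1 ≠ 0` in `F`). -/
theorem torsion_finite_and_ncard_le (m : ℕ) (hp : ((2 * m + 1 : ℕ) : F) ≠ 0) :
    {P : W.Point | (2 * m + 1) • P = 0}.Finite ∧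
      {P : W.Point | (2 * m + 1) • P = 0}.ncard ≤ (2 * m + 1) ^ 2 := by
  classical
  have hLC := psiP_isLC W.b₂ W.b₄ W.b₆ W.b₈ m
  have hΨ0 : psiP W.b₂ W.b₄ W.b₆ W.b₈ m ≠ 0 := hLC.ne_zero (by
    intro h0
    apply hp
    push_cast
    linear_combination -h0)
  let U : Finset (F × F) := (psiP W.b₂ W.b₄ W.b₆ W.b₈ m).roots.toFinset.biUnion fun r =>
    (fiberPoly W r).roots.toFinset.image fun y => (r, y)
  have hU : U.card ≤ 2 * (2 * m ^ 2 + 2 * m) := by
    calc U.card ≤ ∑ r ∈ (psiP W.b₂ W.b₄ W.b₆ W.b₈ m).roots.toFinset,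
          ((fiberPoly W r).roots.toFinset.image fun y => (r, y)).card := Finset.card_biUnion_le
      _ ≤ ∑ _r ∈ (psiP W.b₂ W.b₄ W.b₆ W.b₈ m).roots.toFinset, 2 :=
          Finset.sum_le_sum (fun r _ => (Finset.card_image_le.trans
            ((Multiset.toFinset_card_le _).trans
              ((Polynomial.card_roots' _).trans (fiberPoly_isLC W r).1))))
      _ = (psiP W.b₂ W.b₄ W.b₆ W.b₈ m).roots.toFinset.card * 2 := by
          rw [Finset.sum_const, smul_eq_mul]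
      _ ≤ (2 * m ^ 2 + 2 * m) * 2 := Nat.mul_le_mul_right 2
          ((Multiset.toFinset_card_le _).trans ((Polynomial.card_roots' _).trans hLC.1))
      _ = 2 * (2 * m ^ 2 + 2 * m) := by ring
  have hmaps : ∀ P ∈ {P : W.Point | (2 * m + 1) • P = 0 ∧ P ≠ 0},
      xyCoord W P ∈ (U : Set (F × F)) := by
    rintro (_ | ⟨x, y, h⟩) ⟨hP, hP0⟩
    · exact absurd rfl hP0
    · rw [Finset.mem_coe, Finset.mem_biUnion]
      refine ⟨x, ?_, ?_⟩
      · rw [Multiset.mem_toFinset, mem_roots hΨ0]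
        exact (nsmul_eq_zero_iff_psiP W h m).mp hP
      · rw [Finset.mem_image]
        refine ⟨y, ?_, rfl⟩
        rw [Multiset.mem_toFinset, mem_roots ((fiberPoly_isLC W x).ne_zero one_ne_zero)]
        exact (fiberPoly_eval W x y).mpr h.1
  have hinj : Set.InjOn (xyCoord W) {P : W.Point | (2 * m + 1) • P = 0 ∧ P ≠ 0} := by
    rintro (_ | ⟨x₁, y₁, h₁⟩) ⟨-, hP0⟩ (_ | ⟨x₂, y₂, h₂⟩) ⟨-, hQ0⟩ hPQ
    · rfl
    · exact absurd rfl hP0
    · exact absurd rfl hQ0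
    · simp only [xyCoord, Prod.mk.injEq] at hPQ
      obtain ⟨rfl, rfl⟩ := hPQ
      rfl
  have hTfin : {P : W.Point | (2 * m + 1) • P = 0 ∧ P ≠ 0}.Finite :=
    Set.Finite.of_injOn (fun P hP => hmaps P hP) hinj U.finite_toSet
  have hTcard : {P : W.Point | (2 * m + 1) • P = 0 ∧ P ≠ 0}.ncard ≤ U.card := by
    have := Set.ncard_le_ncard_of_injOn (xyCoord W) hmaps hinj U.finite_toSet
    rwa [Set.ncard_coe_finset] at this
  have hsub : {P : W.Point | (2 * m + 1) • P = 0} ⊆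
      insert 0 {P : W.Point | (2 * m + 1) • P = 0 ∧ P ≠ 0} := by
    intro P hP
    by_cases h0 : P = 0
    · exact Or.inl h0
    · exact Or.inr ⟨hP, h0⟩
  have hfin : (insert (0 : W.Point) {P : W.Point | (2 * m + 1) • P = 0 ∧ P ≠ 0}).Finite :=
    hTfin.insert 0
  refine ⟨hfin.subset hsub, ?_⟩
  calc {P : W.Point | (2 * m + 1) • P = 0}.ncard
      ≤ (insert (0 : W.Point) {P : W.Point | (2 * m + 1) • P = 0 ∧ P ≠ 0}).ncard :=
        Set.ncard_le_ncard hsub hfin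
    _ ≤ {P : W.Point | (2 * m + 1) • P = 0 ∧ P ≠ 0}.ncard + 1 := Set.ncard_insert_le 0 _
    _ ≤ 2 * (2 * m ^ 2 + 2 * m) + 1 := by omega
    _ = (2 * m + 1) ^ 2 := by ring

theorem coe_torsionBy_eq (n : ℕ) :
    ((Submodule.torsionBy ℤ W.Point (n : ℤ) : Submodule ℤ W.Point) : Set W.Point) =
      {P : W.Point | n • P = 0} := by
  ext P
  simp

/-- For odd `p` invertible in `F`, the `p`-torsion is finite. -/
theorem finite_torsionBy_of_odd {p : ℕ} (hodd : Odd p) (hpF : (p : F) ≠ 0) :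
    Finite (Submodule.torsionBy ℤ W.Point (p : ℤ)) := by
  obtain ⟨m, rfl⟩ := hodd
  have h := (torsion_finite_and_ncard_le W m hpF).1
  rw [← coe_torsionBy_eq] at h
  exact h.to_subtype

/-- For odd `p` invertible in `F`, the `p`-torsion has at most `p²` points. -/
theorem card_torsionBy_le_sq {p : ℕ} (hodd : Odd p) (hpF : (p : F) ≠ 0) :
    Nat.card (Submodule.torsionBy ℤ W.Point (p : ℤ)) ≤ p ^ 2 := by
  obtain ⟨m, rfl⟩ := hodd
  have h := (torsion_finite_and_ncard_le W m hpF).2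
  rw [← coe_torsionBy_eq] at h
  exact (Nat.card_coe_set_eq _).le.trans h

/-- Over an algebraically closed field, a nonsingular Weierstrass curve has a nonzero point of
order `p`, for odd `p ≥ 3` invertible in `F`. -/
theorem exists_torsion_point [IsAlgClosed F] (hΔ : W.Δ ≠ 0) {p : ℕ} (hodd : Odd p) (h3 : 3 ≤ p)
    (hpF : (p : F) ≠ 0) : ∃ P : W.Point, P ≠ 0 ∧ p • P = 0 := by
  obtain ⟨m, rfl⟩ := hodd
  have hm : 1 ≤ m := by omega
  have hLC := psiP_isLC W.b₂ W.b₄ W.b₆ W.b₈ m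
  have hlc : -(2 * (m : F) + 1) ≠ 0 := by
    intro h0
    apply hpF
    push_cast
    linear_combination -h0
  have hΨ0 : psiP W.b₂ W.b₄ W.b₆ W.b₈ m ≠ 0 := hLC.ne_zero hlc
  have hnd : (psiP W.b₂ W.b₄ W.b₆ W.b₈ m).natDegree = 2 * m ^ 2 + 2 * m := hLC.natDegree_eq hlc
  have hdeg : (psiP W.b₂ W.b₄ W.b₆ W.b₈ m).degree ≠ 0 := by
    rw [degree_eq_natDegree hΨ0, hnd]
    have : 0 < 2 * m ^ 2 + 2 * m := by positivity
    exact_mod_cast this.ne'
  obtain ⟨x, hx⟩ := IsAlgClosed.exists_root _ hdeg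
  have hdeg2 : (fiberPoly W x).degree ≠ 0 := by
    rw [degree_eq_natDegree ((fiberPoly_isLC W x).ne_zero one_ne_zero),
      (fiberPoly_isLC W x).natDegree_eq one_ne_zero]
    norm_num
  obtain ⟨y, hy⟩ := IsAlgClosed.exists_root _ hdeg2
  have heq : W.Equation x y := (fiberPoly_eval W x y).mp hy
  have hns : W.Nonsingular x y := (Affine.equation_iff_nonsingular_of_Δ_ne_zero hΔ).mp heq
  exact ⟨Point.some x y hns, Point.some_ne_zero hns, (nsmul_eq_zero_iff_psiP W hns m).mpr hx⟩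

/-- Over an algebraically closed field, the `p`-torsion of a nonsingular Weierstrass curve is
nontrivial, for odd `p ≥ 3` invertible in `F`. -/
theorem nontrivial_torsionBy [IsAlgClosed F] (hΔ : W.Δ ≠ 0) {p : ℕ} (hodd : Odd p) (h3 : 3 ≤ p)
    (hpF : (p : F) ≠ 0) : Nontrivial (Submodule.torsionBy ℤ W.Point (p : ℤ)) := by
  obtain ⟨P, hP0, hP⟩ := exists_torsion_point W hΔ hodd h3 hpF
  have hmem : P ∈ Submodule.torsionBy ℤ W.Point (p : ℤ) := by
    rw [Submodule.mem_torsionBy_iff, natCast_zsmul]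
    exact hP
  refine ⟨⟨⟨P, hmem⟩, 0, ?_⟩⟩
  intro h
  exact hP0 (congrArg Subtype.val h)

end Torsion

/-! ### Newton-polygon input: inverses of x-coordinates of torsion points divide `p` -/

section Divisibility

/-- Let `R` be a domain inside a field `K` (via `φ`) containing `b₂, b₄, b₆, b₈`.  If `T` is a
finite set of elements `t` of `R` such that `1 / φ t` is a root of `Ψ_{2m+1}`
(e.g. `t = 1 / x(P)` for a `(2m+1)`-torsion point `P`), then `∏ t ∈ T, t` divides `2m+1` in `R`.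
-/
theorem prod_dvd_of_psiP_roots {R K : Type*} [CommRing R] [IsDomain R] [Field K] (φ : R →+* K)
    (hφ : Function.Injective φ) (b₂ b₄ b₆ b₈ : R) (m : ℕ) (hp : ((2 * m + 1 : ℕ) : R) ≠ 0)
    (T : Finset R)
    (hT : ∀ t ∈ T, ∃ x : K, φ t * x = 1 ∧ (psiP (φ b₂) (φ b₄) (φ b₆) (φ b₈) m).eval x = 0) :
    (∏ t ∈ T, t) ∣ ((2 * m + 1 : ℕ) : R) := by
  classical
  have hLC := psiP_isLC b₂ b₄ b₆ b₈ m
  have hf0 : (reflect (2 * m ^ 2 + 2 * m) (psiP b₂ b₄ b₆ b₈ m)).coeff 0 = -(2 * (m : R) + 1) := by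
    rw [coeff_reflect, revAt_zero]
    exact hLC.2
  have hfne : reflect (2 * m ^ 2 + 2 * m) (psiP b₂ b₄ b₆ b₈ m) ≠ 0 := by
    intro h
    rw [h, coeff_zero] at hf0
    apply hp
    push_cast
    linear_combination hf0
  have hroot : ∀ t ∈ T, (reflect (2 * m ^ 2 + 2 * m) (psiP b₂ b₄ b₆ b₈ m)).eval t = 0 := by
    intro t ht
    obtain ⟨x, hx1, hx0⟩ := hT t ht
    have hxne : x ≠ 0 := by
      rintro rfl
      simp at hx1
    let _ : Invertible x := invertibleOfNonzero hxne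
    have hinv : ⅟x = φ t := by
      rw [invOf_eq_inv]
      exact (eq_inv_of_mul_eq_one_left hx1).symm
    have h1 := eval₂_reflect_mul_pow φ x (2 * m ^ 2 + 2 * m) (psiP b₂ b₄ b₆ b₈ m) hLC.1
    rw [hinv, eval₂_at_apply] at h1
    have h2 : eval₂ φ x (psiP b₂ b₄ b₆ b₈ m) = 0 := by
      rw [← eval_map, psiP_map]
      exact hx0
    rw [h2] at h1
    have h3 : φ ((reflect (2 * m ^ 2 + 2 * m) (psiP b₂ b₄ b₆ b₈ m)).eval t) = 0 :=
      (mul_eq_zero.mp h1).resolve_right (pow_ne_zero _ hxne)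
    exact hφ (by rw [h3, map_zero])
  have hle : T.val ≤ (reflect (2 * m ^ 2 + 2 * m) (psiP b₂ b₄ b₆ b₈ m)).roots := by
    rw [Multiset.le_iff_subset T.nodup]
    intro t ht
    rw [mem_roots hfne]
    exact hroot t (Finset.mem_val.mp ht)
  obtain ⟨q, hq⟩ := (Multiset.prod_X_sub_C_dvd_iff_le_roots hfne T.val).mpr hle
  have h0 : (reflect (2 * m ^ 2 + 2 * m) (psiP b₂ b₄ b₆ b₈ m)).eval 0 = -(2 * (m : R) + 1) := by
    rw [← coeff_zero_eq_eval_zero]
    exact hf0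
  rw [hq, eval_mul, eval_multiset_prod, Multiset.map_map] at h0
  have h4 : (T.val.map ((eval 0) ∘ fun a => X - C a)).prod = (-1) ^ T.card * ∏ t ∈ T, t := by
    rw [← Finset.prod_neg, Finset.prod_eq_multiset_prod]
    congr 1
    apply Multiset.map_congr rfl
    intro a _
    simp
  rw [h4] at h0
  refine ⟨-((-1) ^ T.card * q.eval 0), ?_⟩
  push_cast
  linear_combination h0

/-- Subring form of `prod_dvd_of_psiP_roots`: if `A` is a subring of `F` containing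
`b₂, b₄, b₆, b₈` and `T` is a finite set of elements of `A` of the form `1 / x(P)` with `P` a
`(2m+1)`-torsion point, then `∏ t ∈ T, t` divides `2m+1` in `A`. -/
theorem prod_inv_x_dvd {F : Type*} [Field F] [DecidableEq F] (W : WeierstrassCurve.Affine F)
    (A : Subring F) (hb₂ : W.b₂ ∈ A) (hb₄ : W.b₄ ∈ A) (hb₆ : W.b₆ ∈ A) (hb₈ : W.b₈ ∈ A)
    (m : ℕ) (hp : ((2 * m + 1 : ℕ) : F) ≠ 0) (T : Finset F)
    (hT : ∀ t ∈ T, t ∈ A ∧ ∃ (x y : F) (h : W.Nonsingular x y),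
      t * x = 1 ∧ (2 * m + 1) • Point.some x y h = 0) :
    ∃ a ∈ A, (∏ t ∈ T, t) * a = ((2 * m + 1 : ℕ) : F) := by
  classical
  have hp' : ((2 * m + 1 : ℕ) : A) ≠ 0 := by
    intro h
    apply hp
    have := congrArg (A.subtype) h
    rw [map_natCast, map_zero] at this
    exact this
  have key := prod_dvd_of_psiP_roots A.subtype Subtype.coe_injective
    ⟨W.b₂, hb₂⟩ ⟨W.b₄, hb₄⟩ ⟨W.b₆, hb₆⟩ ⟨W.b₈, hb₈⟩ m hp' (T.subtype (fun t => t ∈ A)) (by
      intro t ht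
      rw [Finset.mem_subtype] at ht
      obtain ⟨-, x, y, h, hx1, hx0⟩ := hT _ ht
      exact ⟨x, hx1, (nsmul_eq_zero_iff_psiP W h m).mp hx0⟩)
  obtain ⟨a, ha⟩ := key
  refine ⟨a, a.2, ?_⟩
  have h1 := congrArg (A.subtype) ha
  rw [map_mul, map_prod, map_natCast] at h1
  have h2 : ∏ x ∈ T.subtype (fun t => t ∈ A), A.subtype x = ∏ t ∈ T, t := by
    have h3 := Finset.prod_subtype_eq_prod_filter (s := T) (p := fun t => t ∈ A) (fun t => t)
    have h4 : T.filter (fun t => t ∈ A) = T :=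
      Finset.filter_true_of_mem (fun t ht => (hT t ht).1)
    rw [h4] at h3
    exact h3
  rw [h1, h2]
  rfl

end Divisibility

end Fermat.Agent.Lib.helper853
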