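import Mathlib

set_option linter.unusedSectionVars false
set_option linter.style.haveILetI false

open IsLocalRing

namespace Fermat.Agent.Lib.helper8547

universe u v

/-! ### Finite modules over adically complete Noetherian rings are adically complete -/

theorem isAdicComplete_of_finite {R : Type u} [CommRing R] [IsNoetherianRing R] (I : Ideal R)
    [IsAdicComplete I R] (M : Type u) [AddCommGroup M] [Module R M] [Module.Finite R M] :
    IsAdicComplete I M := by
  rw [← AdicCompletion.of_bijective_iff]
  have hR : Function.Bijective (AdicCompletion.of I R) :=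
    AdicCompletion.of_bijective_iff.mpr inferInstance
  let φ : R ≃ₗ[R] AdicCompletion I R := LinearEquiv.ofBijective (AdicCompletion.of I R) hR
  let e := AdicCompletion.ofTensorProductEquivOfFiniteNoetherian I M
  let ψ : M ≃ₗ[R] TensorProduct R (AdicCompletion I R) M :=
    (TensorProduct.lid R M).symm ≪≫ₗ (LinearEquiv.rTensor M φ)
  have key : ∀ x : M, AdicCompletion.of I M x = e (ψ x) := by
    intro x
    have h1 : ψ x = (1 : AdicCompletion I R) ⊗ₜ[R] x := by
      simp [ψ, φ]
      rfl
    rw [h1, ← AdicCompletion.ofTensorProductEquivOfFiniteNoetherian_symm_of I M x]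
    simp [e]
  have : (AdicCompletion.of I M : M → AdicCompletion I M) = fun x => e (ψ x) := funext key
  rw [this]
  exact e.bijective.comp ψ.bijective

/-! ### A complete domain with finite quotient is local -/

/-- In a finite monoid every element has an idempotent positive power. -/
theorem exists_pos_pow_isIdempotentElem {M : Type*} [Monoid M] [Finite M] (x : M) :
    ∃ k : ℕ, 0 < k ∧ IsIdempotentElem (x ^ k) := by
  obtain ⟨m, n, hmn, h⟩ := Finite.exists_ne_map_eq_of_infinite (fun n : ℕ => x ^ n)
  wlog hlt : m < n generalizing m n
  · exact this n m hmn.symm h.symm (lt_of_le_of_ne (not_lt.mp hlt) hmn.symm)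
  obtain ⟨d, rfl⟩ : ∃ d, n = m + d := ⟨n - m, by omega⟩
  have hd : 0 < d := by omega
  have h1 : ∀ k, m ≤ k → x ^ (k + d) = x ^ k := by
    intro k hk
    obtain ⟨j, rfl⟩ := Nat.exists_eq_add_of_le hk
    calc x ^ (m + j + d) = x ^ (m + d) * x ^ j := by rw [← pow_add]; congr 1; omega
      _ = x ^ m * x ^ j := by rw [← h]
      _ = x ^ (m + j) := by rw [pow_add]
  have h2 : ∀ j k, m ≤ k → x ^ (k + j * d) = x ^ k := by
    intro j
    induction j with
    | zero => intro k hk; simp
    | succ j ih =>
      intro k hk
      rw [add_mul, one_mul, ← add_assoc, h1 _ (by omega), ih k hk]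
  refine ⟨(m + 1) * d, by positivity, ?_⟩
  unfold IsIdempotentElem
  rw [← pow_add]
  exact h2 (m + 1) ((m + 1) * d) (by nlinarith)

/-- Idempotents lift along the quotient by an ideal for which the ring is adically complete. -/
theorem exists_isIdempotentElem_lift {B : Type*} [CommRing B] (J : Ideal B) [IsAdicComplete J B]
    (a₀ : B) (h : a₀ * a₀ - a₀ ∈ J) : ∃ a : B, IsIdempotentElem a ∧ a - a₀ ∈ J := by
  have hH : HenselianRing B J := inferInstance
  have hmonic : (Polynomial.X ^ 2 - Polynomial.X : Polynomial B).Monic := by
    apply Polynomial.monic_X_pow_sub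
    exact Polynomial.degree_X_le.trans_lt (by exact_mod_cast Nat.one_lt_two)
  have hev : Polynomial.eval a₀ (Polynomial.X ^ 2 - Polynomial.X : Polynomial B) ∈ J := by
    simpa [pow_two] using h
  have hder : IsUnit ((Ideal.Quotient.mk J)
      (Polynomial.eval a₀ (Polynomial.derivative (Polynomial.X ^ 2 - Polynomial.X : Polynomial B)))) := by
    have hsq : (Ideal.Quotient.mk J) (2 * a₀ - 1) * (Ideal.Quotient.mk J) (2 * a₀ - 1) = 1 := by
      rw [← map_mul, ← map_one (Ideal.Quotient.mk J), Ideal.Quotient.eq]
      have : (2 * a₀ - 1) * (2 * a₀ - 1) - 1 = 4 * (a₀ * a₀ - a₀) := by ring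
      rw [this]
      exact J.mul_mem_left _ h
    have : Polynomial.eval a₀ (Polynomial.derivative (Polynomial.X ^ 2 - Polynomial.X : Polynomial B))
        = 2 * a₀ - 1 := by
      simp
      ring
    rw [this]
    exact IsUnit.of_mul_eq_one _ hsq
  obtain ⟨a, ha, haJ⟩ := hH.is_henselian _ hmonic a₀ hev hder
  refine ⟨a, ?_, haJ⟩
  have : a ^ 2 - a = 0 := by simpa [Polynomial.IsRoot] using ha
  unfold IsIdempotentElem
  linear_combination this

/-- A domain that is adically complete with respect to an ideal of finite index is local. -/
theorem isLocalRing_of_isAdicComplete_of_finite_quotient {B : Type*} [CommRing B] [IsDomain B]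
    (J : Ideal B) [IsAdicComplete J B] [Finite (B ⧸ J)] : IsLocalRing B := by
  have hJ : J ≤ (⊥ : Ideal B).jacobson := IsAdicComplete.le_jacobson_bot J
  -- units lift from the quotient
  have hunit : ∀ x : B, IsUnit (Ideal.Quotient.mk J x) → IsUnit x := by
    intro x hx
    obtain ⟨y, hy⟩ := hx.exists_right_inv
    obtain ⟨y, rfl⟩ := Ideal.Quotient.mk_surjective y
    have h1 : x * y - 1 ∈ J := by
      rw [← Ideal.Quotient.eq, map_mul, hy, map_one]
    have h2 := (Ideal.mem_jacobson_bot.mp (hJ h1)) 1
    have h3 : (x * y - 1) * 1 + 1 = x * y := by ring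
    rw [h3] at h2
    exact isUnit_of_mul_isUnit_left h2
  refine IsLocalRing.of_isUnit_or_isUnit_one_sub_self fun x => ?_
  obtain ⟨k, hk, hidem⟩ := exists_pos_pow_isIdempotentElem (Ideal.Quotient.mk J x)
  have hmem : (x ^ k) * (x ^ k) - x ^ k ∈ J := by
    rw [← Ideal.Quotient.eq, map_mul, map_pow]
    exact hidem
  obtain ⟨a, ha, haJ⟩ := exists_isIdempotentElem_lift J (x ^ k) hmem
  have ha' : a = 0 ∨ a = 1 := by
    have : a * (a - 1) = 0 := by
      have := ha.eq
      linear_combination this
    rcases mul_eq_zero.mp this with h | h
    · exact Or.inl h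
    · exact Or.inr (sub_eq_zero.mp h)
  have hq : Ideal.Quotient.mk J a = (Ideal.Quotient.mk J x) ^ k := by
    rw [← map_pow, Ideal.Quotient.eq]
    exact haJ
  rcases ha' with rfl | rfl
  · -- `x` is nilpotent mod `J`, so `1 - x` is a unit
    right
    apply hunit
    rw [map_sub, map_one]
    apply IsNilpotent.isUnit_one_sub
    exact ⟨k, by rw [← hq, map_zero]⟩
  · -- `x` is a unit mod `J`
    left
    apply hunit
    have : (Ideal.Quotient.mk J x) ^ k = 1 := by rw [← hq, map_one]
    exact IsUnit.of_pow_eq_one this hk.ne'

/-! ### Changing the ideal of definition -/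

/-- If `M` is precomplete for `J ^ e` (`e ≠ 0`), it is precomplete for `J`. -/
theorem isPrecomplete_of_pow {R : Type*} [CommRing R] (J : Ideal R) {e : ℕ} (he : e ≠ 0)
    (M : Type*) [AddCommGroup M] [Module R M] [IsPrecomplete (J ^ e) M] : IsPrecomplete J M := by
  refine ⟨fun f hf => ?_⟩
  have hpos : 0 < e := Nat.pos_of_ne_zero he
  have hg : ∀ {m n}, m ≤ n →
      f (e * m) ≡ f (e * n) [SMOD ((J ^ e) ^ m • ⊤ : Submodule R M)] := by
    intro m n hmn
    rw [← pow_mul]
    exact hf (Nat.mul_le_mul_left e hmn)
  obtain ⟨L, hL⟩ := IsPrecomplete.prec ‹_› (f := fun k => f (e * k)) hg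
  refine ⟨L, fun n => ?_⟩
  have h1 : f n ≡ f (e * n) [SMOD (J ^ n • ⊤ : Submodule R M)] :=
    hf (Nat.le_mul_of_pos_left n hpos)
  have h2 : f (e * n) ≡ L [SMOD (J ^ n • ⊤ : Submodule R M)] := by
    have := hL n
    rw [← pow_mul] at this
    refine SModEq.mono ?_ this
    exact Submodule.smul_mono_left (Ideal.pow_le_pow_right (Nat.le_mul_of_pos_left n hpos))
  exact h1.trans h2

/-- If `M` is Hausdorff for `J ^ e`, it is Hausdorff for `J`. -/
theorem isHausdorff_of_pow {R : Type*} [CommRing R] (J : Ideal R) (e : ℕ)
    (M : Type*) [AddCommGroup M] [Module R M] [IsHausdorff (J ^ e) M] : IsHausdorff J M := by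
  refine ⟨fun x hx => ?_⟩
  refine IsHausdorff.haus ‹IsHausdorff (J ^ e) M› x fun n => ?_
  rw [← pow_mul]
  exact hx (e * n)

/-- If `M` is adically complete for `J ^ e` (`e ≠ 0`), it is adically complete for `J`. -/
theorem isAdicComplete_of_pow {R : Type*} [CommRing R] (J : Ideal R) {e : ℕ} (he : e ≠ 0)
    (M : Type*) [AddCommGroup M] [Module R M] [IsAdicComplete (J ^ e) M] : IsAdicComplete J M :=
  { toIsHausdorff := isHausdorff_of_pow J e M
    toIsPrecomplete := isPrecomplete_of_pow J he M }

/-! ### The integral closure of a complete DVR in a finite separable extension -/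

section Main

variable (O : Type u) [CommRing O] [IsDomain O] [IsDiscreteValuationRing O]
  [IsAdicComplete (maximalIdeal O) O] [Finite (ResidueField O)]
  (K : Type v) [Field K] [Algebra O K] [IsFractionRing O K]
  (L : Type u) [Field L] [Algebra K L] [FiniteDimensional K L] [Algebra.IsSeparable K L]
  [Algebra O L] [IsScalarTower O K L]
  (B : Type u) [CommRing B] [IsDomain B] [Algebra O B] [Algebra B L] [IsScalarTower O B L]
  [IsIntegralClosure B O L]

include O K L in
/-- `B` is a finite `O`-module. -/
theorem finite_of_isIntegralClosure : Module.Finite O B :=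
  IsIntegralClosure.finite O K L B

include O K L in
/-- `O → B` is injective. -/
theorem injective_algebraMap_of_isIntegralClosure : Function.Injective (algebraMap O B) := by
  have h1 : Function.Injective (algebraMap O L) := by
    rw [IsScalarTower.algebraMap_eq O K L]
    exact (algebraMap K L).injective.comp (IsFractionRing.injective O K)
  rw [IsScalarTower.algebraMap_eq O B L] at h1
  exact Function.Injective.of_comp h1

include O K L in
/-- `B` is complete for the ideal generated by the maximal ideal of `O`. -/
theorem isAdicComplete_map_of_isIntegralClosure :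
    IsAdicComplete ((maximalIdeal O).map (algebraMap O B)) B := by
  haveI : Module.Finite O B := finite_of_isIntegralClosure O K L B
  have h : IsAdicComplete (maximalIdeal O) B := isAdicComplete_of_finite (maximalIdeal O) B
  exact
    { toIsHausdorff := IsHausdorff.map_algebraMap_iff.mpr h.toIsHausdorff
      toIsPrecomplete := IsPrecomplete.map_algebraMap_iff.mpr h.toIsPrecomplete }

include O K L in
/-- `B / 𝔪_O B` is finite. -/
theorem finite_quotient_map_of_isIntegralClosure :
    Finite (B ⧸ (maximalIdeal O).map (algebraMap O B)) := by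
  haveI : Module.Finite O B := finite_of_isIntegralClosure O K L B
  haveI : Finite (O ⧸ maximalIdeal O) := inferInstanceAs (Finite (ResidueField O))
  haveI : Finite (B ⧸ (maximalIdeal O • (⊤ : Submodule O B))) :=
    Submodule.finite_quotient_smul (maximalIdeal O) (Module.Finite.fg_top)
  let J : Ideal B := (maximalIdeal O).map (algebraMap O B)
  let f : B →ₗ[O] B ⧸ J := (Ideal.Quotient.mkₐ O J).toLinearMap
  have hker : (maximalIdeal O • (⊤ : Submodule O B)) ≤ LinearMap.ker f := by
    rw [Ideal.smul_top_eq_map]
    intro x hx
    rw [Submodule.restrictScalars_mem] at hx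
    rw [LinearMap.mem_ker]
    exact Ideal.Quotient.eq_zero_iff_mem.mpr hx
  let g := Submodule.liftQ _ f hker
  have hg : Function.Surjective g := by
    intro y
    obtain ⟨b, rfl⟩ := Ideal.Quotient.mk_surjective y
    exact ⟨Submodule.Quotient.mk b, rfl⟩
  exact Finite.of_surjective g hg

include O K L in
/-- `B` is a local ring. -/
theorem isLocalRing_of_isIntegralClosure : IsLocalRing B := by
  haveI := isAdicComplete_map_of_isIntegralClosure O K L B
  haveI := finite_quotient_map_of_isIntegralClosure O K L B
  exact isLocalRing_of_isAdicComplete_of_finite_quotient ((maximalIdeal O).map (algebraMap O B))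

include O K L in
/-- `B` is a discrete valuation ring. -/
theorem isDiscreteValuationRing_of_isIntegralClosure : IsDiscreteValuationRing B := by
  haveI : IsLocalRing B := isLocalRing_of_isIntegralClosure O K L B
  haveI : IsDedekindDomain B := IsIntegralClosure.isDedekindDomain O K L B
  haveI : Algebra.IsIntegral O B := IsIntegralClosure.isIntegral_algebra O L
  have hnf : ¬ IsField B := fun hB =>
    IsDiscreteValuationRing.not_isField O
      (isField_of_isIntegral_of_isField (injective_algebraMap_of_isIntegralClosure O K L B) hB)
  have h : IsDiscreteValuationRing B ↔ IsDedekindDomain B :=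
    (IsDiscreteValuationRing.TFAE B hnf).out 0 2
  exact h.mpr ‹IsDedekindDomain B›

end Main

section MainLocal

variable (O : Type u) [CommRing O] [IsDomain O] [IsDiscreteValuationRing O]
  [IsAdicComplete (maximalIdeal O) O] [Finite (ResidueField O)]
  (K : Type v) [Field K] [Algebra O K] [IsFractionRing O K]
  (L : Type u) [Field L] [Algebra K L] [FiniteDimensional K L] [Algebra.IsSeparable K L]
  [Algebra O L] [IsScalarTower O K L]
  (B : Type u) [CommRing B] [IsDomain B] [Algebra O B] [Algebra B L] [IsScalarTower O B L]
  [IsIntegralClosure B O L] [IsLocalRing B]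

include O K L in
/-- The extension of the maximal ideal of `O` lies in the maximal ideal of `B`. -/
theorem map_maximalIdeal_le_of_isIntegralClosure :
    (maximalIdeal O).map (algebraMap O B) ≤ maximalIdeal B := by
  haveI := isAdicComplete_map_of_isIntegralClosure O K L B
  have h := IsAdicComplete.le_jacobson_bot ((maximalIdeal O).map (algebraMap O B))
  rwa [IsLocalRing.jacobson_eq_maximalIdeal ⊥ bot_ne_top] at h

include O K L in
/-- `O → B` is a local homomorphism. -/
theorem isLocalHom_of_isIntegralClosure : IsLocalHom (algebraMap O B) := by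
  refine ⟨fun x hx => ?_⟩
  by_contra hnu
  have hx' : x ∈ maximalIdeal O := (IsLocalRing.mem_maximalIdeal x).mpr hnu
  have : algebraMap O B x ∈ maximalIdeal B :=
    map_maximalIdeal_le_of_isIntegralClosure O K L B (Ideal.mem_map_of_mem _ hx')
  exact (IsLocalRing.mem_maximalIdeal _).mp this hx

include O K L in
/-- The extension of the maximal ideal of `O` is a positive power of the maximal ideal of `B`
(the exponent is the ramification index). -/
theorem exists_map_maximalIdeal_eq_pow :
    ∃ e : ℕ, e ≠ 0 ∧ (maximalIdeal O).map (algebraMap O B) = maximalIdeal B ^ e := by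
  haveI : IsDiscreteValuationRing B := isDiscreteValuationRing_of_isIntegralClosure O K L B
  have hinj := injective_algebraMap_of_isIntegralClosure O K L B
  have hne : (maximalIdeal O).map (algebraMap O B) ≠ ⊥ := by
    intro h
    have h0 : maximalIdeal O ≠ ⊥ := IsDiscreteValuationRing.not_a_field O
    obtain ⟨x, hx, hx0⟩ := Submodule.exists_mem_ne_zero_of_ne_bot h0
    have hmem : algebraMap O B x ∈ (maximalIdeal O).map (algebraMap O B) :=
      Ideal.mem_map_of_mem _ hx
    rw [h, Ideal.mem_bot] at hmem
    exact hx0 (hinj (by rw [hmem, map_zero]))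
  have hnf : ¬ IsField B := IsDiscreteValuationRing.not_isField B
  have h : IsDiscreteValuationRing B ↔
      ∀ I : Ideal B, I ≠ ⊥ → ∃ n : ℕ, I = maximalIdeal B ^ n :=
    (IsDiscreteValuationRing.TFAE B hnf).out 0 6
  obtain ⟨e, he⟩ := h.mp inferInstance _ hne
  refine ⟨e, ?_, he⟩
  rintro rfl
  have hle := map_maximalIdeal_le_of_isIntegralClosure O K L B
  rw [he, pow_zero, Ideal.one_eq_top] at hle
  exact (IsLocalRing.maximalIdeal.isMaximal B).ne_top (top_le_iff.mp hle)

include O K L in
/-- `B` is complete for its maximal ideal. -/
theorem isAdicComplete_maximalIdeal_of_isIntegralClosure :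
    IsAdicComplete (maximalIdeal B) B := by
  obtain ⟨e, he0, he⟩ := exists_map_maximalIdeal_eq_pow O K L B
  haveI : IsAdicComplete (maximalIdeal B ^ e) B :=
    he ▸ isAdicComplete_map_of_isIntegralClosure O K L B
  exact isAdicComplete_of_pow (maximalIdeal B) he0 B

include O K L in
/-- The residue field of `B` is finite. -/
theorem finite_residueField_of_isIntegralClosure : Finite (ResidueField B) := by
  haveI := finite_quotient_map_of_isIntegralClosure O K L B
  have hle := map_maximalIdeal_le_of_isIntegralClosure O K L B
  show Finite (B ⧸ maximalIdeal B)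
  exact Finite.of_surjective (Ideal.Quotient.factor hle) (Ideal.Quotient.factor_surjective hle)

end MainLocal

/-- **Finite extensions of complete discrete valuation rings** (packaged in the shape of the
existential of the frozen statements S30 / S35): if `O` is a complete DVR of characteristic zero
with finite residue field and `L` is a finite extension of its fraction field `K`, then the
integral closure `O'` of `O` in `L` is again a complete DVR of characteristic zero with finite
residue field; it is finite over `O`, the structure map is local and injective, and `L` is its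
fraction field. -/
theorem exists_complete_dvr_extension
    (O : Type) [CommRing O] [IsDomain O] [IsDiscreteValuationRing O]
    [IsAdicComplete (maximalIdeal O) O] [Finite (ResidueField O)] [CharZero O]
    (K : Type) [Field K] [Algebra O K] [IsFractionRing O K]
    (L : Type) [Field L] [Algebra K L] [FiniteDimensional K L] [Algebra O L]
    [IsScalarTower O K L] :
    ∃ (O' : Type) (_ : CommRing O') (_ : IsDomain O') (_ : IsDiscreteValuationRing O')
      (_ : IsAdicComplete (maximalIdeal O') O') (_ : Finite (ResidueField O')) (_ : CharZero O')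
      (_ : Algebra O O') (_ : Module.Finite O O') (_ : IsLocalHom (algebraMap O O')),
      Function.Injective (algebraMap O O') ∧
      ∃ (_ : Algebra O' L) (_ : IsScalarTower O O' L),
        IsFractionRing O' L ∧ IsIntegralClosure O' O L := by
  haveI : CharZero K := charZero_of_injective_algebraMap (IsFractionRing.injective O K)
  haveI : Algebra.IsSeparable K L := inferInstance
  haveI hloc : IsLocalRing (integralClosure O L) :=
    isLocalRing_of_isIntegralClosure O K L (integralClosure O L)
  have hdvr : IsDiscreteValuationRing (integralClosure O L) :=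
    isDiscreteValuationRing_of_isIntegralClosure O K L (integralClosure O L)
  have hinj := injective_algebraMap_of_isIntegralClosure O K L (integralClosure O L)
  exact ⟨integralClosure O L, inferInstance, inferInstance, hdvr,
    isAdicComplete_maximalIdeal_of_isIntegralClosure O K L (integralClosure O L),
    finite_residueField_of_isIntegralClosure O K L (integralClosure O L),
    charZero_of_injective_algebraMap hinj, inferInstance,
    finite_of_isIntegralClosure O K L (integralClosure O L),
    isLocalHom_of_isIntegralClosure O K L (integralClosure O L), hinj, inferInstance, inferInstance,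
    IsIntegralClosure.isFractionRing_of_finite_extension O K L (integralClosure O L),
    inferInstance⟩

end Fermat.Agent.Lib.helper8547
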