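/-
helper860: injectivity of the `j`-invariant on `SL(2,ℤ)\ℍ` (in the homogeneous form
"`(E₄, E₆)` up to weighted scaling determines the orbit"), via the Weierstrass `℘` differential
equation in Mathlib (`PeriodPair.derivWeierstrassP_sq`).  No valence formula is used.

Main results (namespace `Fermat.Agent.Lib.helper860`):
* `lattice_eq_of_g₂_g₃_eq` : a lattice is determined by `g₂`, `g₃`.
* `g₂_pairOf`, `g₃_pairOf` : bridge between `PeriodPair.G` and the Eisenstein series `E₄`, `E₆`.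
* `exists_smul_eq_of_scaled` : `E₄ w = c⁴ E₄ z`, `E₆ w = c⁶ E₆ z`, `c ≠ 0` ⟹ `w ∈ SL(2,ℤ) • z`.
* `E₆_I`, `E₄_rho`, `exists_smul_I_eq_of_E₆_eq_zero`, `exists_smul_rho_eq_of_E₄_eq_zero`,
  `exists_smul_eq_of_j_eq`.
-/
import Mathlib

set_option autoImplicit false

open Filter Topology UpperHalfPlane ModularForm EisensteinSeries MatrixGroups
open scoped PeriodPair

namespace Fermat.Agent.Lib.helper860


lemma wp_eq_except_add (L : PeriodPair) (z : ℂ) :
    ℘[L] z = ℘[L - (0 : ℂ)] z + 1 / z ^ 2 := by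
  have h := L.weierstrassPExcept_def (0 : L.lattice) z
  simp only [ZeroMemClass.coe_zero, sub_zero] at h
  rw [h]
  simp

lemma dwp_eq_except_sub (L : PeriodPair) (z : ℂ) :
    ℘'[L] z = ℘'[L - (0 : ℂ)] z - 2 / z ^ 3 := by
  have h := L.derivWeierstrassPExcept_def (0 : L.lattice) z
  simp only [ZeroMemClass.coe_zero, sub_zero] at h
  rw [h]
  ring

lemma ode_except (L : PeriodPair) {z : ℂ} (hz : z ∉ L.lattice) :
    (℘'[L - (0 : ℂ)] z - 2 / z ^ 3) ^ 2
      = 4 * (℘[L - (0 : ℂ)] z + 1 / z ^ 2) ^ 3 - L.g₂ * (℘[L - (0 : ℂ)] z + 1 / z ^ 2) - L.g₃ := by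
  rw [← wp_eq_except_add, ← dwp_eq_except_sub]
  exact L.derivWeierstrassP_sq z hz

lemma eventually_notMem_lattice (L : PeriodPair) :
    ∀ᶠ z in 𝓝[≠] (0 : ℂ), z ∉ L.lattice := by
  have h := L.compl_lattice_sdiff_singleton_mem_nhds 0
  rw [eventually_nhdsWithin_iff]
  filter_upwards [h] with z hz hz0
  intro hmem
  exact hz ⟨hmem, hz0⟩

lemma key_identity (z a b F H g2 g3 : ℂ) (hz : z ≠ 0)
    (h1 : (a - 2 / z ^ 3) ^ 2 = 4 * (F + 1 / z ^ 2) ^ 3 - g2 * (F + 1 / z ^ 2) - g3)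
    (h2 : (b - 2 / z ^ 3) ^ 2 = 4 * (H + 1 / z ^ 2) ^ 3 - g2 * (H + 1 / z ^ 2) - g3) :
    (a - b) * (z * (z ^ 3 * (a + b) - 4))
      = (F - H) * (4 * z ^ 4 * (F ^ 2 + F * H + H ^ 2) + 12 * z ^ 2 * (F + H) + 12 - g2 * z ^ 4) := by
  have h1' : (a * z ^ 3 - 2) ^ 2
      = 4 * (F * z ^ 2 + 1) ^ 3 - g2 * (F * z ^ 2 + 1) * z ^ 4 - g3 * z ^ 6 := by
    have e : (a * z ^ 3 - 2) ^ 2 = (a - 2 / z ^ 3) ^ 2 * z ^ 6 := by field_simp
    rw [e, h1]; field_simp
  have h2' : (b * z ^ 3 - 2) ^ 2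
      = 4 * (H * z ^ 2 + 1) ^ 3 - g2 * (H * z ^ 2 + 1) * z ^ 4 - g3 * z ^ 6 := by
    have e : (b * z ^ 3 - 2) ^ 2 = (b - 2 / z ^ 3) ^ 2 * z ^ 6 := by field_simp
    rw [e, h2]; field_simp
  apply mul_left_cancel₀ (pow_ne_zero 2 hz)
  linear_combination h1' - h2'

/-- The regular parts of two `℘`-functions with the same `g₂`, `g₃` agree near `0`. -/
lemma except_eventuallyEq (L L' : PeriodPair) (h2 : L.g₂ = L'.g₂) (h3 : L.g₃ = L'.g₃) :
    ∀ᶠ z in 𝓝 (0 : ℂ), ℘[L - (0 : ℂ)] z - ℘[L' - (0 : ℂ)] z = 0 := by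
  set F : ℂ → ℂ := ℘[L - (0 : ℂ)] with hF
  set H : ℂ → ℂ := ℘[L' - (0 : ℂ)] with hH
  set F' : ℂ → ℂ := ℘'[L - (0 : ℂ)] with hF'
  set H' : ℂ → ℂ := ℘'[L' - (0 : ℂ)] with hH'
  have hFa : AnalyticAt ℂ F 0 := L.analyticAt_weierstrassPExcept 0
  have hHa : AnalyticAt ℂ H 0 := L'.analyticAt_weierstrassPExcept 0
  have hF'a : AnalyticAt ℂ F' 0 := L.analyticAt_derivWeierstrassPExcept 0
  have hH'a : AnalyticAt ℂ H' 0 := L'.analyticAt_derivWeierstrassPExcept 0
  have hWa : AnalyticAt ℂ (fun z => F z - H z) 0 := hFa.sub hHa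
  by_contra hne
  obtain ⟨n, g, hga, hg0, hWg⟩ := (hWa.exists_eventuallyEq_pow_smul_nonzero_iff).mpr hne
  simp only [sub_zero, smul_eq_mul] at hWg
  -- derivative of `W`
  have hdF : ∀ᶠ z in 𝓝 (0 : ℂ), deriv F z = F' z := by
    filter_upwards [L.compl_lattice_sdiff_singleton_mem_nhds 0] with z hz
    exact L.eqOn_deriv_weierstrassPExcept_derivWeierstrassPExcept 0 hz
  have hdH : ∀ᶠ z in 𝓝 (0 : ℂ), deriv H z = H' z := by
    filter_upwards [L'.compl_lattice_sdiff_singleton_mem_nhds 0] with z hz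
    exact L'.eqOn_deriv_weierstrassPExcept_derivWeierstrassPExcept 0 hz
  have hFd : ∀ᶠ z in 𝓝 (0 : ℂ), DifferentiableAt ℂ F z := hFa.eventually_analyticAt.mono
    fun z hz => hz.differentiableAt
  have hHd : ∀ᶠ z in 𝓝 (0 : ℂ), DifferentiableAt ℂ H z := hHa.eventually_analyticAt.mono
    fun z hz => hz.differentiableAt
  have hgd : ∀ᶠ z in 𝓝 (0 : ℂ), DifferentiableAt ℂ g z := hga.eventually_analyticAt.mono
    fun z hz => hz.differentiableAt
  have hdW : ∀ᶠ z in 𝓝 (0 : ℂ), F' z - H' z = n * z ^ (n - 1) * g z + z ^ n * deriv g z := by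
    have hWg' : ∀ᶠ z in 𝓝 (0 : ℂ), (fun z => F z - H z) =ᶠ[𝓝 z] fun z => z ^ n * g z :=
      eventually_eventually_nhds.mpr hWg
    filter_upwards [hdF, hdH, hFd, hHd, hgd, hWg'] with z h1 h2 h3 h4 h5 h6
    have e1 : deriv (fun z => F z - H z) z = F' z - H' z := by
      rw [deriv_fun_sub h3 h4, h1, h2]
    have e2 : deriv (fun z => z ^ n * g z) z = n * z ^ (n - 1) * g z + z ^ n * deriv g z := by
      rw [deriv_fun_mul (by fun_prop) h5]
      simp
    rw [← e1, h6.deriv_eq, e2]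
  -- the identity on a punctured neighbourhood
  have hid : ∀ᶠ z in 𝓝[≠] (0 : ℂ),
      (n * g z + z * deriv g z) * (z ^ 3 * (F' z + H' z) - 4)
        = g z * (4 * z ^ 4 * (F z ^ 2 + F z * H z + H z ^ 2) + 12 * z ^ 2 * (F z + H z) + 12
          - L.g₂ * z ^ 4) := by
    have hWg'' : ∀ᶠ z in 𝓝[≠] (0 : ℂ), F z - H z = z ^ n * g z := hWg.filter_mono nhdsWithin_le_nhds
    have hdW' := hdW.filter_mono (nhdsWithin_le_nhds (s := {(0 : ℂ)}ᶜ))
    filter_upwards [eventually_notMem_lattice L, eventually_notMem_lattice L', hWg'', hdW',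
      self_mem_nhdsWithin] with z hz hz' hW hW' hz0
    have hz0 : z ≠ 0 := hz0
    have k := key_identity z (F' z) (H' z) (F z) (H z) L.g₂ L.g₃ hz0 (ode_except L hz)
      (by rw [h2, h3]; exact ode_except L' hz')
    rw [hW, hW'] at k
    apply mul_left_cancel₀ (pow_ne_zero n hz0)
    rcases Nat.eq_zero_or_pos n with hn | hn
    · subst hn
      simp only [pow_zero, Nat.cast_zero, zero_mul, zero_add, one_mul] at k ⊢
      linear_combination k
    · have e : z ^ n = z ^ (n - 1) * z := by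
        rw [← pow_succ, Nat.sub_add_cancel hn]
      linear_combination k + (n * g z * (z ^ 3 * (F' z + H' z) - 4)) * e
  -- pass to the limit
  have hcont_l : Tendsto (fun z => (n * g z + z * deriv g z) * (z ^ 3 * (F' z + H' z) - 4))
      (𝓝[≠] (0 : ℂ)) (𝓝 ((n * g 0 + 0 * deriv g 0) * (0 ^ 3 * (F' 0 + H' 0) - 4))) := by
    have hc : ContinuousAt (fun z => (n * g z + z * deriv g z) * (z ^ 3 * (F' z + H' z) - 4)) 0 := by
      have := hga.continuousAt
      have := hga.deriv.continuousAt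
      have := hF'a.continuousAt
      have := hH'a.continuousAt
      fun_prop
    exact hc.tendsto.mono_left nhdsWithin_le_nhds
  have hcont_r : Tendsto (fun z => g z * (4 * z ^ 4 * (F z ^ 2 + F z * H z + H z ^ 2)
      + 12 * z ^ 2 * (F z + H z) + 12 - L.g₂ * z ^ 4))
      (𝓝[≠] (0 : ℂ)) (𝓝 (g 0 * (4 * 0 ^ 4 * (F 0 ^ 2 + F 0 * H 0 + H 0 ^ 2)
      + 12 * 0 ^ 2 * (F 0 + H 0) + 12 - L.g₂ * 0 ^ 4))) := by
    have hc : ContinuousAt (fun z => g z * (4 * z ^ 4 * (F z ^ 2 + F z * H z + H z ^ 2)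
      + 12 * z ^ 2 * (F z + H z) + 12 - L.g₂ * z ^ 4)) 0 := by
      have := hga.continuousAt
      have := hFa.continuousAt
      have := hHa.continuousAt
      fun_prop
    exact hc.tendsto.mono_left nhdsWithin_le_nhds
  have hlim := tendsto_nhds_unique (hcont_l.congr' hid) hcont_r
  have : (n : ℂ) * g 0 * (-4) = g 0 * 12 := by
    have := hlim
    simp only [zero_mul, add_zero, ne_eq, OfNat.ofNat_ne_zero, not_false_eq_true, zero_pow,
      mul_zero, zero_sub, zero_add] at this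
    linear_combination this
  have h4 : ((4 * n + 12 : ℕ) : ℂ) = 0 := by
    have : g 0 * ((4 * n + 12 : ℕ) : ℂ) = 0 := by push_cast; linear_combination -this
    exact (mul_eq_zero.mp this).resolve_left hg0
  have := Nat.cast_eq_zero.mp h4
  omega

lemma countable_lattice (L : PeriodPair) : (L.lattice : Set ℂ).Countable := by
  have : Countable L.lattice := L.latticeEquivProd.toEquiv.countable_iff.mpr inferInstance
  exact Set.countable_coe_iff.mp this

lemma wp_eqOn (L L' : PeriodPair) (h2 : L.g₂ = L'.g₂) (h3 : L.g₃ = L'.g₃) :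
    Set.EqOn ℘[L] ℘[L'] ((L.lattice : Set ℂ) ∪ (L'.lattice : Set ℂ))ᶜ := by
  set Ω : Set ℂ := ((L.lattice : Set ℂ) ∪ (L'.lattice : Set ℂ))ᶜ with hΩ
  have hconn : IsPreconnected Ω := by
    have hc : ((L.lattice : Set ℂ) ∪ (L'.lattice : Set ℂ)).Countable :=
      (countable_lattice L).union (countable_lattice L')
    refine (hc.isPathConnected_compl_of_one_lt_rank ?_).isConnected.isPreconnected
    rw [Complex.rank_real_complex]
    norm_num
  have hA : AnalyticOnNhd ℂ ℘[L] Ω := L.analyticOnNhd_weierstrassP.mono (by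
    intro z hz hz'
    exact hz (Or.inl hz'))
  have hA' : AnalyticOnNhd ℂ ℘[L'] Ω := L'.analyticOnNhd_weierstrassP.mono (by
    intro z hz hz'
    exact hz (Or.inr hz'))
  -- equality on a punctured neighbourhood of 0
  have hpunct : ∀ᶠ z in 𝓝[≠] (0 : ℂ), ℘[L] z = ℘[L'] z := by
    have := (except_eventuallyEq L L' h2 h3).filter_mono (nhdsWithin_le_nhds (s := {(0 : ℂ)}ᶜ))
    filter_upwards [this] with z hz
    rw [wp_eq_except_add, wp_eq_except_add]
    linear_combination hz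
  have hpunct' : ∀ᶠ z in 𝓝[≠] (0 : ℂ), ℘[L] =ᶠ[𝓝 z] ℘[L'] := by
    rw [eventually_nhdsWithin_iff] at hpunct ⊢
    have := eventually_eventually_nhds.mpr hpunct
    filter_upwards [this] with z hz hz0
    have hne : ∀ᶠ y in 𝓝 z, y ∈ ({0}ᶜ : Set ℂ) := isOpen_compl_singleton.mem_nhds hz0
    filter_upwards [hz, hne] with y hy hy0
    exact hy hy0
  obtain ⟨z₀, hz₀, hz₀L, hz₀L'⟩ :=
    (hpunct'.and ((eventually_notMem_lattice L).and (eventually_notMem_lattice L'))).exists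
  exact hA.eqOn_of_preconnected_of_eventuallyEq hA' hconn
    (z₀ := z₀) (by rintro (h | h); exacts [hz₀L h, hz₀L' h]) hz₀

lemma lattice_le_of_g₂_g₃_eq (L L' : PeriodPair) (h2 : L.g₂ = L'.g₂) (h3 : L.g₃ = L'.g₃) :
    L.lattice ≤ L'.lattice := by
  intro l hl
  by_contra hl'
  have hord : meromorphicOrderAt ℘[L] l = -2 := L.order_weierstrassP l hl
  have hanal : AnalyticAt ℂ ℘[L'] l := L'.analyticOnNhd_weierstrassP l hl'
  have hcongr : ℘[L] =ᶠ[𝓝[≠] l] ℘[L'] := by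
    rw [Filter.EventuallyEq, eventually_nhdsWithin_iff]
    filter_upwards [L.compl_lattice_sdiff_singleton_mem_nhds l,
      L'.compl_lattice_sdiff_singleton_mem_nhds l] with z hz hz' hzl
    refine wp_eqOn L L' h2 h3 ?_
    rintro (h | h)
    · exact hz ⟨h, hzl⟩
    · exact hz' ⟨h, hzl⟩
  have := hanal.meromorphicOrderAt_nonneg
  rw [← meromorphicOrderAt_congr hcongr, hord] at this
  exact absurd this (by decide)

/-- **A lattice is determined by its invariants `g₂`, `g₃`.** -/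
theorem lattice_eq_of_g₂_g₃_eq (L L' : PeriodPair) (h2 : L.g₂ = L'.g₂) (h3 : L.g₃ = L'.g₃) :
    L.lattice = L'.lattice :=
  le_antisymm (lattice_le_of_g₂_g₃_eq L L' h2 h3) (lattice_le_of_g₂_g₃_eq L' L h2.symm h3.symm)

/-- The period pair `(c z, c)` for `z ∈ ℍ`, `c ≠ 0`. -/
noncomputable def pairOf (z : ℍ) (c : ℂ) (hc : c ≠ 0) : PeriodPair where
  ω₁ := c * z
  ω₂ := c
  indep := by
    rw [LinearIndependent.pair_iff]
    intro s t h
    have h1 : c * ((s : ℂ) * z + t) = 0 := by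
      simp only [Complex.real_smul] at h
      linear_combination h
    have h2 : (s : ℂ) * z + t = 0 := (mul_eq_zero.mp h1).resolve_left hc
    have him := congrArg Complex.im h2
    simp only [Complex.add_im, Complex.mul_im, Complex.ofReal_re, Complex.ofReal_im, zero_mul,
      add_zero, Complex.zero_im] at him
    have hs : s = 0 := by
      have := z.im_pos
      have hz : (z : ℂ).im ≠ 0 := ne_of_gt this
      exact (mul_eq_zero.mp him).resolve_right hz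
    subst hs
    have hre := congrArg Complex.re h2
    simp at hre
    exact ⟨rfl, hre⟩

@[simp] lemma pairOf_ω₁ (z : ℍ) (c : ℂ) (hc : c ≠ 0) : (pairOf z c hc).ω₁ = c * z := rfl
@[simp] lemma pairOf_ω₂ (z : ℍ) (c : ℂ) (hc : c ≠ 0) : (pairOf z c hc).ω₂ = c := rfl

lemma mem_lattice_pairOf {z : ℍ} {c : ℂ} {hc : c ≠ 0} {x : ℂ} :
    x ∈ (pairOf z c hc).lattice ↔ ∃ m n : ℤ, c * (m * z + n) = x := by
  rw [PeriodPair.mem_lattice]
  simp only [pairOf_ω₁, pairOf_ω₂]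
  constructor
  · rintro ⟨m, n, h⟩; exact ⟨m, n, by rw [← h]; ring⟩
  · rintro ⟨m, n, h⟩; exact ⟨m, n, by rw [← h]; ring⟩

lemma G_pairOf (z : ℍ) (c : ℂ) (hc : c ≠ 0) (n : ℕ) :
    (pairOf z c hc).G n = (c ^ n)⁻¹ * ∑' v : Fin 2 → ℤ, eisSummand n v z := by
  rw [PeriodPair.G, ← (pairOf z c hc).latticeEquivProd.symm.toEquiv.tsum_eq,
    ← (finTwoArrowEquiv ℤ).tsum_eq, ← tsum_mul_left]
  refine tsum_congr fun v => ?_
  simp only [LinearEquiv.coe_toEquiv, PeriodPair.latticeEquiv_symm_apply, pairOf_ω₁, pairOf_ω₂,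
    finTwoArrowEquiv_apply, eisSummand, zpow_neg, zpow_natCast]
  rw [← mul_inv, ← mul_pow]
  congr 2
  show (v 0 : ℂ) * (c * z) + (v 1 : ℂ) * c = c * ((v 0 : ℂ) * z + (v 1 : ℂ))
  ring

lemma G_pairOf_E {k : ℕ} (hk : 3 ≤ k) (z : ℍ) (c : ℂ) (hc : c ≠ 0) :
    (pairOf z c hc).G k = (c ^ k)⁻¹ * (2 * riemannZeta k * E hk z) := by
  rw [G_pairOf, tsum_eisSummand_eq_riemannZeta_mul_eisensteinSeries hk z,
    show E hk z = (1 / 2 : ℂ) • eisensteinSeriesSIF (N := 1) 0 k z from rfl,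
    eisensteinSeriesSIF_apply 0 k z]
  simp only [smul_eq_mul]
  ring

lemma g₂_pairOf (z : ℍ) (c : ℂ) (hc : c ≠ 0) :
    (pairOf z c hc).g₂ = 120 * riemannZeta 4 * ((c ^ 4)⁻¹ * E₄ z) := by
  rw [PeriodPair.g₂, G_pairOf_E (by norm_num : 3 ≤ 4)]
  push_cast
  ring

lemma g₃_pairOf (z : ℍ) (c : ℂ) (hc : c ≠ 0) :
    (pairOf z c hc).g₃ = 280 * riemannZeta 6 * ((c ^ 6)⁻¹ * E₆ z) := by
  rw [PeriodPair.g₃, G_pairOf_E (by norm_num : 3 ≤ 6)]
  push_cast
  ring

/-- integer combinations of `w ∈ ℍ` and `1` have unique coefficients. -/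
lemma int_coeff_unique (w : ℍ) (a b a' b' : ℤ) (h : (a : ℂ) * w + b = a' * w + b') :
    a = a' ∧ b = b' := by
  have him := congrArg Complex.im h
  simp only [Complex.add_im, Complex.mul_im, Complex.intCast_re, Complex.intCast_im, zero_mul,
    add_zero] at him
  have hw : (w : ℂ).im ≠ 0 := ne_of_gt w.im_pos
  have ha : (a : ℝ) = a' := mul_right_cancel₀ hw him
  have ha' : a = a' := by exact_mod_cast ha
  subst ha'
  have hb : (b : ℂ) = b' := by linear_combination h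
  exact ⟨rfl, by exact_mod_cast hb⟩

theorem exists_smul_eq_of_scaled (z w : ℍ) (c : ℂ) (hc : c ≠ 0)
    (h4 : E₄ w = c ^ 4 * E₄ z) (h6 : E₆ w = c ^ 6 * E₆ z) : ∃ γ : SL(2, ℤ), γ • z = w := by
  have hc' : c⁻¹ ≠ 0 := inv_ne_zero hc
  have hL : (pairOf z c⁻¹ hc').lattice = (pairOf w 1 one_ne_zero).lattice := by
    apply lattice_eq_of_g₂_g₃_eq
    · rw [g₂_pairOf, g₂_pairOf, h4]; simp
    · rw [g₃_pairOf, g₃_pairOf, h6]; simp
  -- extract the integer matrices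
  have hw : (w : ℂ) ∈ (pairOf z c⁻¹ hc').lattice := by
    rw [hL, mem_lattice_pairOf]; exact ⟨1, 0, by simp⟩
  have h1 : (1 : ℂ) ∈ (pairOf z c⁻¹ hc').lattice := by
    rw [hL, mem_lattice_pairOf]; exact ⟨0, 1, by simp⟩
  have hz : c⁻¹ * (z : ℂ) ∈ (pairOf w 1 one_ne_zero).lattice := by
    rw [← hL, mem_lattice_pairOf]; exact ⟨1, 0, by simp⟩
  have hc1 : c⁻¹ ∈ (pairOf w 1 one_ne_zero).lattice := by
    rw [← hL, mem_lattice_pairOf]; exact ⟨0, 1, by simp⟩
  obtain ⟨m, n, hmn⟩ := mem_lattice_pairOf.mp hw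
  obtain ⟨p, q, hpq⟩ := mem_lattice_pairOf.mp h1
  obtain ⟨a, b, hab⟩ := mem_lattice_pairOf.mp hz
  obtain ⟨a', b', hab'⟩ := mem_lattice_pairOf.mp hc1
  rw [one_mul] at hab hab'
  -- M * M' = 1
  have e1 : ((m * a + n * a' : ℤ) : ℂ) * w + ((m * b + n * b' : ℤ) : ℂ) = ((1 : ℤ) : ℂ) * w + ((0 : ℤ) : ℂ) := by
    push_cast
    linear_combination (m : ℂ) * hab + (n : ℂ) * hab' + hmn
  have e2 : ((p * a + q * a' : ℤ) : ℂ) * w + ((p * b + q * b' : ℤ) : ℂ) = ((0 : ℤ) : ℂ) * w + ((1 : ℤ) : ℂ) := by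
    push_cast
    linear_combination (p : ℂ) * hab + (q : ℂ) * hab' + hpq
  obtain ⟨e11, e12⟩ := int_coeff_unique w _ _ _ _ e1
  obtain ⟨e21, e22⟩ := int_coeff_unique w _ _ _ _ e2
  have hdet : (m * q - n * p) * (a * b' - b * a') = 1 := by
    linear_combination (p * b + q * b') * e11 + e22 - (p * a + q * a') * e12
  -- the sign of the determinant
  have hD : (p : ℂ) * z + q = c := ((inv_mul_eq_one₀ hc).mp hpq).symm
  have hwD : (w : ℂ) * ((p : ℂ) * z + q) = m * z + n := by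
    rw [hD, ← hmn]; field_simp
  have hre := congrArg Complex.re hwD
  have him := congrArg Complex.im hwD
  simp only [Complex.add_re, Complex.mul_re, Complex.intCast_re, Complex.intCast_im, zero_mul,
    sub_zero, Complex.add_im, Complex.mul_im, add_zero] at hre him
  have hpos : (0 : ℝ) < ((m * q - n * p : ℤ) : ℝ) * (z : ℂ).im := by
    have key : (w : ℂ).im * (((p : ℝ) * (z : ℂ).re + q) ^ 2 + ((p : ℝ) * (z : ℂ).im) ^ 2)
        = ((m * q - n * p : ℤ) : ℝ) * (z : ℂ).im := by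
      push_cast
      linear_combination ((p : ℝ) * (z : ℂ).re + q) * him - ((p : ℝ) * (z : ℂ).im) * hre
    rw [← key]
    have hDne : ((p : ℝ) * (z : ℂ).re + q) ^ 2 + ((p : ℝ) * (z : ℂ).im) ^ 2 ≠ 0 := by
      intro h0
      have h1 : (p : ℝ) * (z : ℂ).re + q = 0 := by nlinarith [sq_nonneg ((p : ℝ) * (z : ℂ).re + q), sq_nonneg ((p : ℝ) * (z : ℂ).im)]
      have h2 : (p : ℝ) * (z : ℂ).im = 0 := by nlinarith [sq_nonneg ((p : ℝ) * (z : ℂ).re + q), sq_nonneg ((p : ℝ) * (z : ℂ).im)]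
      apply hc
      rw [← hD, Complex.ext_iff]
      constructor
      · simpa using h1
      · simpa using h2
    have : 0 < ((p : ℝ) * (z : ℂ).re + q) ^ 2 + ((p : ℝ) * (z : ℂ).im) ^ 2 :=
      lt_of_le_of_ne (by positivity) (Ne.symm hDne)
    exact mul_pos w.im_pos this
  have hdpos : 0 < m * q - n * p := by
    have hzpos : (0 : ℝ) < (z : ℂ).im := z.im_pos
    have : (0 : ℝ) < ((m * q - n * p : ℤ) : ℝ) := by
      by_contra hneg
      push Not at hneg
      nlinarith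
    exact_mod_cast this
  have hdet1 : m * q - n * p = 1 := by
    have hu : IsUnit (m * q - n * p) := IsUnit.of_mul_eq_one _ hdet
    rcases Int.isUnit_iff.mp hu with h | h
    · exact h
    · omega
  let γ : SL(2, ℤ) := ⟨!![m, n; p, q], by rw [Matrix.det_fin_two_of]; exact hdet1⟩
  refine ⟨γ, ?_⟩
  apply UpperHalfPlane.ext
  rw [coe_specialLinearGroup_apply γ z]
  show (((m : ℝ) : ℂ) * z + ((n : ℝ) : ℂ)) / (((p : ℝ) : ℂ) * z + ((q : ℝ) : ℂ)) = w
  simp only [Complex.ofReal_intCast]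
  rw [div_eq_iff (by rw [hD]; exact hc)]
  exact hwD.symm

/-! ### Corollaries: elliptic points and the `j`-invariant -/

/-- Transformation law of a level-one form under `SL(2,ℤ)`. -/
lemma levelOne_smul_apply {k : ℤ} (f : ModularForm 𝒮ℒ k) (γ : SL(2, ℤ)) (z : ℍ) :
    f (γ • z) = ((γ 1 0 : ℂ) * z + (γ 1 1 : ℂ)) ^ k * f z := by
  have h := SlashInvariantForm.slash_action_eqn' f
    (γ := Matrix.SpecialLinearGroup.mapGL ℝ γ) (MonoidHom.mem_range.mpr ⟨γ, rfl⟩) z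
  have e : (Matrix.SpecialLinearGroup.mapGL ℝ γ) • z = γ • z := rfl
  rw [e] at h
  rw [h]
  simp

lemma E₄_cube_sub_E₆_sq_ne_zero (z : ℍ) : E₄ z ^ 3 - E₆ z ^ 2 ≠ 0 := by
  have h := ModularForm.discriminant_ne_zero z
  rw [ModularForm.discriminant_eq_E₄_cube_sub_E₆_sq] at h
  intro h0
  exact h (by rw [h0, zero_div])

lemma E₆_I : E₆ UpperHalfPlane.I = 0 := by
  have h := levelOne_smul_apply E₆ ModularGroup.S UpperHalfPlane.I
  have hS : ModularGroup.S • UpperHalfPlane.I = UpperHalfPlane.I := by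
    apply UpperHalfPlane.ext
    rw [UpperHalfPlane.modular_S_smul]
    simp
  rw [hS] at h
  have h1 : ((ModularGroup.S 1 0 : ℤ) : ℂ) * (UpperHalfPlane.I : ℂ) + ((ModularGroup.S 1 1 : ℤ) : ℂ)
      = Complex.I := by
    simp [ModularGroup.S]
  rw [h1] at h
  have h2 : (Complex.I : ℂ) ^ (6 : ℤ) = -1 := by
    have : (Complex.I : ℂ) ^ (6 : ℤ) = Complex.I ^ (6 : ℕ) := by norm_cast
    rw [this, show (6 : ℕ) = 2 * 3 by norm_num, pow_mul, Complex.I_sq]
    norm_num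
  rw [h2] at h
  have h3 : (2 : ℂ) * E₆ UpperHalfPlane.I = 0 := by linear_combination h
  simpa using h3

/-- The elliptic point `ρ = e^{2πi/3} = -1/2 + (√3/2) i`. -/
noncomputable def rho : ℍ := ⟨⟨-1 / 2, Real.sqrt 3 / 2⟩, by
  show 0 < Real.sqrt 3 / 2
  positivity⟩

lemma rho_sq_add : (rho : ℂ) ^ 2 + (rho : ℂ) + 1 = 0 := by
  have h3 : Real.sqrt 3 * Real.sqrt 3 = 3 := Real.mul_self_sqrt (by norm_num)
  apply Complex.ext
  · simp only [rho, pow_two, Complex.add_re, Complex.mul_re, Complex.one_re, Complex.zero_re]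
    nlinarith
  · simp only [rho, pow_two, Complex.add_im, Complex.mul_im, Complex.one_im, Complex.zero_im]
    ring

lemma E₄_rho : E₄ rho = 0 := by
  let γ : SL(2, ℤ) := ⟨!![0, -1; 1, 1], by rw [Matrix.det_fin_two_of]; norm_num⟩
  have h := levelOne_smul_apply E₄ γ rho
  have hρ := rho_sq_add
  have hne : (rho : ℂ) + 1 ≠ 0 := by
    intro h0
    have : (rho : ℂ) ^ 2 = 0 := by linear_combination hρ - h0
    have h1 : (rho : ℂ) = 0 := by simpa using this
    rw [h1] at h0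
    norm_num at h0
  have hγ : γ • rho = rho := by
    apply UpperHalfPlane.ext
    rw [coe_specialLinearGroup_apply γ rho]
    simp only [γ, Matrix.of_apply, Matrix.cons_val',
      Matrix.cons_val_zero, Matrix.cons_val_fin_one, Matrix.cons_val_one, algebraMap_int_eq,
      Int.coe_castRingHom, Int.cast_zero, Complex.ofReal_zero, zero_mul, Int.cast_neg,
      Int.cast_one, Complex.ofReal_neg, Complex.ofReal_one, zero_add, one_mul]
    rw [div_eq_iff hne]
    linear_combination -hρ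
  rw [hγ] at h
  have h1 : ((γ 1 0 : ℤ) : ℂ) * (rho : ℂ) + ((γ 1 1 : ℤ) : ℂ) = (rho : ℂ) + 1 := by
    simp [γ]
  rw [h1] at h
  have h2 : ((rho : ℂ) + 1) ^ (4 : ℤ) = (rho : ℂ) ^ 2 := by
    have : ((rho : ℂ) + 1) ^ (4 : ℤ) = ((rho : ℂ) + 1) ^ (4 : ℕ) := by norm_cast
    rw [this]
    linear_combination ((rho : ℂ) ^ 2 + 3 * (rho : ℂ) + 1) * hρ
  rw [h2] at h
  have h3 : (1 - (rho : ℂ) ^ 2) * E₄ rho = 0 := by linear_combination h
  have h4 : (1 - (rho : ℂ) ^ 2) ≠ 0 := by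
    intro h0
    have h5 : (rho : ℂ) = -2 := by linear_combination hρ + h0
    rw [h5] at h0
    norm_num at h0
  exact (mul_eq_zero.mp h3).resolve_left h4

/-- The zero set of `E₆` is the single orbit `SL(2,ℤ) • i`. -/
theorem exists_smul_I_eq_of_E₆_eq_zero (z : ℍ) (h : E₆ z = 0) :
    ∃ γ : SL(2, ℤ), γ • UpperHalfPlane.I = z := by
  have h4I : E₄ UpperHalfPlane.I ≠ 0 := by
    intro h0
    have := E₄_cube_sub_E₆_sq_ne_zero UpperHalfPlane.I
    rw [h0, E₆_I] at this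
    simp at this
  have h4z : E₄ z ≠ 0 := by
    intro h0
    have := E₄_cube_sub_E₆_sq_ne_zero z
    rw [h0, h] at this
    simp at this
  obtain ⟨c, hc⟩ := IsAlgClosed.exists_pow_nat_eq (E₄ z / E₄ UpperHalfPlane.I) (n := 4) (by norm_num)
  have hc0 : c ≠ 0 := by
    rintro rfl
    rw [zero_pow (by norm_num)] at hc
    exact div_ne_zero h4z h4I hc.symm
  refine exists_smul_eq_of_scaled UpperHalfPlane.I z c hc0 ?_ ?_
  · rw [hc]; field_simp
  · rw [h, E₆_I, mul_zero]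

/-- The zero set of `E₄` is the single orbit `SL(2,ℤ) • ρ`. -/
theorem exists_smul_rho_eq_of_E₄_eq_zero (z : ℍ) (h : E₄ z = 0) :
    ∃ γ : SL(2, ℤ), γ • rho = z := by
  have h6ρ : E₆ rho ≠ 0 := by
    intro h0
    have := E₄_cube_sub_E₆_sq_ne_zero rho
    rw [h0, E₄_rho] at this
    simp at this
  have h6z : E₆ z ≠ 0 := by
    intro h0
    have := E₄_cube_sub_E₆_sq_ne_zero z
    rw [h0, h] at this
    simp at this
  obtain ⟨c, hc⟩ := IsAlgClosed.exists_pow_nat_eq (E₆ z / E₆ rho) (n := 6) (by norm_num)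
  have hc0 : c ≠ 0 := by
    rintro rfl
    rw [zero_pow (by norm_num)] at hc
    exact div_ne_zero h6z h6ρ hc.symm
  refine exists_smul_eq_of_scaled rho z c hc0 ?_ ?_
  · rw [h, E₄_rho, mul_zero]
  · rw [hc]; field_simp

/-- **Injectivity of `j` on `SL(2,ℤ)\ℍ`** (cross-multiplied form: `j = 1728 E₄³/(E₄³ - E₆²)`,
so `j z = j w ↔ E₄ z ^ 3 * E₆ w ^ 2 = E₄ w ^ 3 * E₆ z ^ 2`). -/
theorem exists_smul_eq_of_j_eq (z w : ℍ) (h : E₄ z ^ 3 * E₆ w ^ 2 = E₄ w ^ 3 * E₆ z ^ 2) :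
    ∃ γ : SL(2, ℤ), γ • z = w := by
  have hΔz := E₄_cube_sub_E₆_sq_ne_zero z
  have hΔw := E₄_cube_sub_E₆_sq_ne_zero w
  by_cases ha : E₄ z = 0
  · -- then `E₄ w = 0` as well
    have hb : E₆ z ≠ 0 := by
      intro h0; rw [ha, h0] at hΔz; simp at hΔz
    have ha' : E₄ w = 0 := by
      rw [ha] at h
      have : E₄ w ^ 3 * E₆ z ^ 2 = 0 := by rw [← h]; simp
      have := (mul_eq_zero.mp this).resolve_right (pow_ne_zero 2 hb)
      simpa using this
    obtain ⟨γ₁, h₁⟩ := exists_smul_rho_eq_of_E₄_eq_zero z ha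
    obtain ⟨γ₂, h₂⟩ := exists_smul_rho_eq_of_E₄_eq_zero w ha'
    refine ⟨γ₂ * γ₁⁻¹, ?_⟩
    rw [← h₁, mul_smul, inv_smul_smul, h₂]
  by_cases hb : E₆ z = 0
  · have hb' : E₆ w = 0 := by
      rw [hb] at h
      have : E₄ z ^ 3 * E₆ w ^ 2 = 0 := by rw [h]; simp
      have := (mul_eq_zero.mp this).resolve_left (pow_ne_zero 3 ha)
      simpa using this
    obtain ⟨γ₁, h₁⟩ := exists_smul_I_eq_of_E₆_eq_zero z hb
    obtain ⟨γ₂, h₂⟩ := exists_smul_I_eq_of_E₆_eq_zero w hb'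
    refine ⟨γ₂ * γ₁⁻¹, ?_⟩
    rw [← h₁, mul_smul, inv_smul_smul, h₂]
  -- generic case
  have ha' : E₄ w ≠ 0 := by
    intro h0
    rw [h0] at h
    have : E₄ z ^ 3 * E₆ w ^ 2 = 0 := by rw [h]; simp
    have h1 := (mul_eq_zero.mp this).resolve_left (pow_ne_zero 3 ha)
    have h2 : E₆ w = 0 := by simpa using h1
    rw [h0, h2] at hΔw; simp at hΔw
  have hb' : E₆ w ≠ 0 := by
    intro h0
    rw [h0] at h
    have : E₄ w ^ 3 * E₆ z ^ 2 = 0 := by rw [← h]; simp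
    have h1 := (mul_eq_zero.mp this).resolve_right (pow_ne_zero 2 hb)
    have h2 : E₄ w = 0 := by simpa using h1
    exact ha' h2
  obtain ⟨c, hc⟩ := IsAlgClosed.exists_pow_nat_eq ((E₆ w * E₄ z) / (E₆ z * E₄ w)) (n := 2)
    (by norm_num)
  have hc0 : c ≠ 0 := by
    rintro rfl
    rw [zero_pow (by norm_num)] at hc
    exact div_ne_zero (mul_ne_zero hb' ha) (mul_ne_zero hb ha') hc.symm
  refine exists_smul_eq_of_scaled z w c hc0 ?_ ?_
  · have e : c ^ 4 = (c ^ 2) ^ 2 := by ring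
    rw [e, hc]
    field_simp
    linear_combination -h
  · have e : c ^ 6 = (c ^ 2) ^ 3 := by ring
    rw [e, hc]
    field_simp
    linear_combination -h

end Fermat.Agent.Lib.helper860
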