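import Mathlib

/-!
# Serre derivative on spaces of modular forms, and Abel's determinant formula

helper861, board row 39 (S20-SD).  Everything is stated for subgroups `Γ ≤ 𝒮ℒ` of `GL(2, ℝ)`
(images of subgroups of `SL(2, ℤ)`), which covers `Gamma0 N`.
-/

set_option autoImplicit false

open UpperHalfPlane ModularForm Complex Filter Topology
open scoped MatrixGroups Manifold

namespace Fermat.Agent.Lib.helper861

open Derivative

/-! ### Cauchy estimates at `i∞` -/

/-- Cauchy estimate: if `‖F‖ ≤ M` on `{A ≤ im}` with `0 < A`, then `‖D F‖ ≤ M` on `{A + 1 ≤ im}`. -/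
theorem norm_normalizedDeriv_le {F : ℍ → ℂ} (hF : MDiff F) {M A : ℝ} (hA : 0 < A)
    (h : ∀ z : ℍ, A ≤ z.im → ‖F z‖ ≤ M) (z : ℍ) (hz : A + 1 ≤ z.im) :
    ‖D F z‖ ≤ M := by
  have hM : 0 ≤ M := (norm_nonneg _).trans (h z (by linarith))
  have hsub : Metric.closedBall (z : ℂ) 1 ⊆ {w : ℂ | 0 < w.im} := by
    intro w hw
    have h1 : |(w - (z : ℂ)).im| ≤ ‖w - (z : ℂ)‖ := Complex.abs_im_le_norm _
    have h2 : ‖w - (z : ℂ)‖ ≤ 1 := by simpa [dist_eq_norm] using hw
    have h3 := (abs_le.mp (h1.trans h2)).1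
    simp only [Complex.sub_im, UpperHalfPlane.coe_im] at h3
    show 0 < w.im
    linarith
  have hdiff : DiffContOnCl ℂ (F ∘ ofComplex) (Metric.ball (z : ℂ) 1) :=
    (UpperHalfPlane.mdifferentiable_iff.mp hF).diffContOnCl_ball hsub
  have hbound : ∀ w ∈ Metric.sphere (z : ℂ) 1, ‖(F ∘ ofComplex) w‖ ≤ M := by
    intro w hw
    have hw' : w ∈ Metric.closedBall (z : ℂ) 1 := Metric.sphere_subset_closedBall hw
    have hwim : 0 < w.im := hsub hw'
    have h1 : |(w - (z : ℂ)).im| ≤ ‖w - (z : ℂ)‖ := Complex.abs_im_le_norm _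
    have h2 : ‖w - (z : ℂ)‖ ≤ 1 := by simpa [dist_eq_norm] using hw'
    have h3 := (abs_le.mp (h1.trans h2)).1
    simp only [Complex.sub_im, UpperHalfPlane.coe_im] at h3
    have : A ≤ (ofComplex w).im := by
      rw [ofComplex_apply_of_im_pos hwim]
      show A ≤ w.im
      linarith
    exact h _ this
  have hC := Complex.norm_deriv_le_of_forall_mem_sphere_norm_le one_pos hdiff hbound
  have h2pi : ‖(2 * (Real.pi : ℂ) * Complex.I)⁻¹‖ = (2 * Real.pi)⁻¹ := by
    simp [abs_of_pos Real.pi_pos]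
  have hpi : (1 : ℝ) ≤ 2 * Real.pi := by linarith [Real.pi_gt_three]
  show ‖(2 * (Real.pi : ℂ) * Complex.I)⁻¹ * deriv (F ∘ ofComplex) z‖ ≤ M
  rw [norm_mul, h2pi]
  calc (2 * Real.pi)⁻¹ * ‖deriv (F ∘ ofComplex) z‖
      ≤ 1 * ‖deriv (F ∘ ofComplex) z‖ := by
        gcongr
        exact inv_le_one_of_one_le₀ hpi
    _ ≤ M := by simpa using hC

/-- `D` preserves boundedness at `i∞` of holomorphic functions. -/
theorem isBoundedAtImInfty_normalizedDeriv {F : ℍ → ℂ} (hF : MDiff F)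
    (hb : IsBoundedAtImInfty F) : IsBoundedAtImInfty (D F) := by
  rw [isBoundedAtImInfty_iff] at hb ⊢
  obtain ⟨M, A, h⟩ := hb
  refine ⟨M, max A 1 + 1, fun z hz => ?_⟩
  exact norm_normalizedDeriv_le hF (A := max A 1) (by positivity)
    (fun w hw => h w ((le_max_left _ _).trans hw)) z hz

/-- `D` preserves vanishing at `i∞` of holomorphic functions. -/
theorem isZeroAtImInfty_normalizedDeriv {F : ℍ → ℂ} (hF : MDiff F)
    (hb : IsZeroAtImInfty F) : IsZeroAtImInfty (D F) := by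
  rw [isZeroAtImInfty_iff] at hb ⊢
  intro ε hε
  obtain ⟨A, h⟩ := hb ε hε
  refine ⟨max A 1 + 1, fun z hz => ?_⟩
  exact norm_normalizedDeriv_le hF (A := max A 1) (by positivity)
    (fun w hw => h w ((le_max_left _ _).trans hw)) z hz


/-- The Serre derivative preserves boundedness at `i∞` of holomorphic functions. -/
theorem isBoundedAtImInfty_serreDerivative {F : ℍ → ℂ} (k : ℂ) (hF : MDiff F)
    (hb : IsBoundedAtImInfty F) : IsBoundedAtImInfty (serreDerivative k F) := by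
  have h1 : IsBoundedAtImInfty (D F) := isBoundedAtImInfty_normalizedDeriv hF hb
  have h2 : IsBoundedAtImInfty (fun z : ℍ => k * 12⁻¹ * EisensteinSeries.E2 z * F z) := by
    have hc : IsBoundedAtImInfty (fun _ : ℍ => k * 12⁻¹) := const_boundedAtFilter _ _
    exact (BoundedAtFilter.mul (BoundedAtFilter.mul hc EisensteinSeries.isBoundedAtImInfty_E2) hb)
  have h3 : serreDerivative k F = D F + -(fun z : ℍ => k * 12⁻¹ * EisensteinSeries.E2 z * F z) := by
    ext z; simp [serreDerivative, sub_eq_add_neg]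
  rw [h3]
  exact BoundedAtFilter.add h1 (BoundedAtFilter.neg h2)

/-- The Serre derivative preserves vanishing at `i∞` of holomorphic functions. -/
theorem isZeroAtImInfty_serreDerivative {F : ℍ → ℂ} (k : ℂ) (hF : MDiff F)
    (hb : IsZeroAtImInfty F) : IsZeroAtImInfty (serreDerivative k F) := by
  have h1 : IsZeroAtImInfty (D F) := isZeroAtImInfty_normalizedDeriv hF hb
  have h2 : IsZeroAtImInfty (fun z : ℍ => k * 12⁻¹ * EisensteinSeries.E2 z * F z) := by
    have hc : IsBoundedAtImInfty (fun _ : ℍ => k * 12⁻¹) := const_boundedAtFilter _ _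
    exact BoundedAtFilter.mul_zeroAtFilter
      (BoundedAtFilter.mul hc EisensteinSeries.isBoundedAtImInfty_E2) hb
  have h3 : serreDerivative k F = D F + -(fun z : ℍ => k * 12⁻¹ * EisensteinSeries.E2 z * F z) := by
    ext z; simp [serreDerivative, sub_eq_add_neg]
  rw [h3]
  exact ZeroAtFilter.add h1 (ZeroAtFilter.neg h2)

/-! ### `D Δ = E₂ Δ` -/

/-- `D Δ = E₂ · Δ`. -/
theorem normalizedDeriv_discriminant (z : ℍ) :
    D ModularForm.discriminant z = EisensteinSeries.E2 z * ModularForm.discriminant z := by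
  have hz : (z : ℂ) ∈ upperHalfPlaneSet := z.2
  have hη : DifferentiableAt ℂ η (z : ℂ) := differentiableAt_eta_of_mem_upperHalfPlaneSet hz
  have hη0 : η (z : ℂ) ≠ 0 := eta_ne_zero hz
  have hlog := logDeriv_eta_eq_E2 z
  have hderivη : deriv η (z : ℂ)
      = ((Real.pi : ℂ) * Complex.I / 12) * EisensteinSeries.E2 z * η (z : ℂ) := by
    rw [logDeriv_apply] at hlog
    rw [← hlog]
    field_simp
  have hev : (ModularForm.discriminant ∘ ofComplex) =ᶠ[𝓝 (z : ℂ)] fun w => η w ^ 24 := by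
    filter_upwards [isOpen_upperHalfPlaneSet.mem_nhds hz] with w hw
    simp [ModularForm.discriminant, ofComplex_apply_of_im_pos hw]
  have hd : deriv (ModularForm.discriminant ∘ ofComplex) (z : ℂ)
      = 24 * η (z : ℂ) ^ 23 * deriv η (z : ℂ) := by
    rw [hev.deriv_eq]
    have h24 := (hη.hasDerivAt.pow 24).deriv
    simp only [Nat.cast_ofNat] at h24
    exact h24
  have hpi : (Real.pi : ℂ) ≠ 0 := by exact_mod_cast Real.pi_ne_zero
  show (2 * (Real.pi : ℂ) * Complex.I)⁻¹ * deriv (ModularForm.discriminant ∘ ofComplex) (z : ℂ)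
    = EisensteinSeries.E2 z * η (z : ℂ) ^ 24
  rw [hd, hderivη]
  field_simp
  ring

/-- `∂₁₂ Δ = 0`. -/
theorem serreDerivative_discriminant :
    serreDerivative 12 ModularForm.discriminant = 0 := by
  ext z
  simp only [serreDerivative_apply, normalizedDeriv_discriminant, Pi.zero_apply]
  ring

/-! ### The Serre derivative on modular forms and cusp forms of level `Γ ≤ SL(2, ℤ)` -/

section SerreMF

variable {Γ : Subgroup (GL (Fin 2) ℝ)} {k : ℤ}

/-- The Serre derivative of a modular form of weight `k` and level `Γ ≤ 𝒮ℒ`, as a modular form of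
weight `k + 2`. -/
noncomputable def serreDMF (hΓ : Γ ≤ 𝒮ℒ) (f : ModularForm Γ k) : ModularForm Γ (k + 2) where
  toFun := serreDerivative k f
  slash_action_eq' γ hγ := by
    obtain ⟨γ', rfl⟩ := hΓ hγ
    exact serreDerivative_slash_invariant f.holo' (f.slash_action_eq' _ hγ)
  holo' := serreDerivative_mdifferentiable k f.holo'
  bdd_at_cusps' {c} hc := by
    have hc' : IsCusp c 𝒮ℒ := hc.mono hΓ
    rw [OnePoint.isBoundedAt_iff_forall_SL2Z hc']
    intro γ hγ
    have hb : IsBoundedAtImInfty ((f : ℍ → ℂ) ∣[k] γ) :=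
      (OnePoint.isBoundedAt_iff_forall_SL2Z hc').mp (f.bdd_at_cusps' hc) γ hγ
    have hholo : MDiff ((f : ℍ → ℂ) ∣[k] γ) := f.holo'.slash k _
    have heq : serreDerivative (k : ℂ) (f : ℍ → ℂ) ∣[k + 2] γ
        = serreDerivative (k : ℂ) ((f : ℍ → ℂ) ∣[k] γ) :=
      serreDerivative_slash_equivariant f.holo'
    rw [heq]
    exact isBoundedAtImInfty_serreDerivative (k : ℂ) hholo hb

@[simp] theorem serreDMF_apply (hΓ : Γ ≤ 𝒮ℒ) (f : ModularForm Γ k) (z : ℍ) :
    serreDMF hΓ f z = serreDerivative k f z := rfl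

theorem coe_serreDMF (hΓ : Γ ≤ 𝒮ℒ) (f : ModularForm Γ k) :
    (serreDMF hΓ f : ℍ → ℂ) = serreDerivative k f := rfl

/-- The Serre derivative of a cusp form of weight `k` and level `Γ ≤ 𝒮ℒ`, as a cusp form of
weight `k + 2`. -/
noncomputable def serreDCF (hΓ : Γ ≤ 𝒮ℒ) (f : CuspForm Γ k) : CuspForm Γ (k + 2) where
  toFun := serreDerivative k f
  slash_action_eq' γ hγ := by
    obtain ⟨γ', rfl⟩ := hΓ hγ
    exact serreDerivative_slash_invariant f.holo' (f.slash_action_eq' _ hγ)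
  holo' := serreDerivative_mdifferentiable k f.holo'
  zero_at_cusps' {c} hc := by
    have hc' : IsCusp c 𝒮ℒ := hc.mono hΓ
    rw [OnePoint.isZeroAt_iff_forall_SL2Z hc']
    intro γ hγ
    have hb : IsZeroAtImInfty ((f : ℍ → ℂ) ∣[k] γ) :=
      (OnePoint.isZeroAt_iff_forall_SL2Z hc').mp (f.zero_at_cusps' hc) γ hγ
    have hholo : MDiff ((f : ℍ → ℂ) ∣[k] γ) := f.holo'.slash k _
    have heq : serreDerivative (k : ℂ) (f : ℍ → ℂ) ∣[k + 2] γ
        = serreDerivative (k : ℂ) ((f : ℍ → ℂ) ∣[k] γ) :=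
      serreDerivative_slash_equivariant f.holo'
    rw [heq]
    exact isZeroAtImInfty_serreDerivative (k : ℂ) hholo hb

@[simp] theorem serreDCF_apply (hΓ : Γ ≤ 𝒮ℒ) (f : CuspForm Γ k) (z : ℍ) :
    serreDCF hΓ f z = serreDerivative k f z := rfl

theorem coe_serreDCF (hΓ : Γ ≤ 𝒮ℒ) (f : CuspForm Γ k) :
    (serreDCF hΓ f : ℍ → ℂ) = serreDerivative k f := rfl

/-- The Serre derivative as a linear map on modular forms. -/
noncomputable def serreDMFₗ [Γ.HasDetOne] (hΓ : Γ ≤ 𝒮ℒ) : ModularForm Γ k →ₗ[ℂ] ModularForm Γ (k + 2) where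
  toFun := serreDMF hΓ
  map_add' f g := by
    ext z
    have := congrFun (serreDerivative_add k f g f.holo' g.holo') z
    simpa using this
  map_smul' c f := by
    ext z
    have := congrFun (serreDerivative_smul k c f f.holo') z
    simpa using this

@[simp] theorem serreDMFₗ_apply [Γ.HasDetOne] (hΓ : Γ ≤ 𝒮ℒ) (f : ModularForm Γ k) (z : ℍ) :
    serreDMFₗ hΓ f z = serreDerivative k f z := rfl

/-- The Serre derivative as a linear map on cusp forms. -/
noncomputable def serreDCFₗ [Γ.HasDetOne] (hΓ : Γ ≤ 𝒮ℒ) : CuspForm Γ k →ₗ[ℂ] CuspForm Γ (k + 2) where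
  toFun := serreDCF hΓ
  map_add' f g := by
    ext z
    have := congrFun (serreDerivative_add k f g f.holo' g.holo') z
    simpa using this
  map_smul' c f := by
    ext z
    have := congrFun (serreDerivative_smul k c f f.holo') z
    simpa using this

@[simp] theorem serreDCFₗ_apply [Γ.HasDetOne] (hΓ : Γ ≤ 𝒮ℒ) (f : CuspForm Γ k) (z : ℍ) :
    serreDCFₗ hΓ f z = serreDerivative k f z := rfl

/-- Translates: `(∂ f) ∣[k+2] γ = ∂ (f ∣[k] γ)` for every `γ : SL(2, ℤ)`. -/
theorem serreDMF_slash (hΓ : Γ ≤ 𝒮ℒ) (f : ModularForm Γ k) (γ : SL(2, ℤ)) :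
    (serreDMF hΓ f : ℍ → ℂ) ∣[k + 2] γ = serreDerivative k ((f : ℍ → ℂ) ∣[k] γ) :=
  serreDerivative_slash_equivariant f.holo'

end SerreMF

/-! ### Jacobi's formula and Abel's (Liouville's) determinant formula -/

section Abel

open Matrix

variable {ι : Type*} [Fintype ι] [DecidableEq ι]

/-- Jacobi's formula for the derivative of a determinant (column form, via Cramer). -/
theorem hasDerivAt_det {Φ : ℂ → Matrix ι ι ℂ} {Φ' : Matrix ι ι ℂ} {x : ℂ}
    (h : ∀ i j, HasDerivAt (fun w => Φ w i j) (Φ' i j) x) :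
    HasDerivAt (fun w => (Φ w).det) (∑ j, (Φ x).cramer (fun i => Φ' i j) j) x := by
  have h1 : ∀ σ : Equiv.Perm ι, HasDerivAt (fun w => ∏ i, Φ w (σ i) i)
      (∑ i, (∏ j ∈ Finset.univ.erase i, Φ x (σ j) j) • Φ' (σ i) i) x := fun σ =>
    HasDerivAt.fun_finsetProd (fun i _ => h (σ i) i)
  have h2 : HasDerivAt (fun w => ∑ σ : Equiv.Perm ι, ((Equiv.Perm.sign σ : ℤ) : ℂ) * ∏ i, Φ w (σ i) i)
      (∑ σ : Equiv.Perm ι, ((Equiv.Perm.sign σ : ℤ) : ℂ) *
        ∑ i, (∏ j ∈ Finset.univ.erase i, Φ x (σ j) j) • Φ' (σ i) i) x :=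
    HasDerivAt.fun_sum (fun σ _ => (h1 σ).const_mul _)
  have h3 : (fun w => (Φ w).det)
      = fun w => ∑ σ : Equiv.Perm ι, ((Equiv.Perm.sign σ : ℤ) : ℂ) * ∏ i, Φ w (σ i) i := by
    funext w
    rw [Matrix.det_apply']
  have h4 : (∑ j, (Φ x).cramer (fun i => Φ' i j) j)
      = ∑ σ : Equiv.Perm ι, ((Equiv.Perm.sign σ : ℤ) : ℂ) *
        ∑ i, (∏ j ∈ Finset.univ.erase i, Φ x (σ j) j) • Φ' (σ i) i := by
    simp only [Matrix.cramer_apply, Matrix.det_apply', Finset.mul_sum]
    rw [Finset.sum_comm]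
    refine Finset.sum_congr rfl fun σ _ => Finset.sum_congr rfl fun i _ => ?_
    congr 1
    rw [← Finset.prod_erase_mul Finset.univ _ (Finset.mem_univ i)]
    rw [Matrix.updateCol_self, smul_eq_mul]
    congr 1
    refine Finset.prod_congr rfl fun j hj => ?_
    rw [Matrix.updateCol_ne (Finset.ne_of_mem_erase hj)]
  rw [h3, h4]
  exact h2

/-- If `Φ' = Φ * A` then the Jacobi derivative is `trace A * det Φ`. -/
theorem sum_cramer_mul_eq (M A : Matrix ι ι ℂ) :
    (∑ j, M.cramer (fun i => (M * A) i j) j) = A.trace * M.det := by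
  have h : ∀ j, M.cramer (fun i => (M * A) i j) j = M.det * A j j := by
    intro j
    have h1 : (fun i => (M * A) i j) = M *ᵥ (fun l => A l j) := by
      funext i
      simp [Matrix.mul_apply, Matrix.mulVec, dotProduct]
    rw [h1, Matrix.cramer_eq_adjugate_mulVec, Matrix.mulVec_mulVec, Matrix.adjugate_mul]
    simp [Matrix.smul_mulVec]
  simp only [h, Matrix.trace, Matrix.diag_apply, ← Finset.mul_sum]
  ring

/-- Abel's formula on the upper half-plane: if `D Φ = Φ * A` entrywise, then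
`D (det Φ) = trace A * det Φ`. -/
theorem normalizedDeriv_det {Φ : ℍ → Matrix ι ι ℂ} (hΦ : ∀ i j, MDiff fun z => Φ z i j)
    {A : ℍ → Matrix ι ι ℂ}
    (hA : ∀ z i j, D (fun w => Φ w i j) z = ∑ l, Φ z i l * A z l j) (z : ℍ) :
    D (fun w => (Φ w).det) z = (A z).trace * (Φ z).det := by
  have hpi : (2 * (Real.pi : ℂ) * Complex.I) ≠ 0 := by
    have : (Real.pi : ℂ) ≠ 0 := by exact_mod_cast Real.pi_ne_zero
    simp [this]
  -- derivative of entries
  have hent : ∀ i j, HasDerivAt (fun w : ℂ => Φ (ofComplex w) i j)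
      ((Φ z * ((2 * (Real.pi : ℂ) * Complex.I) • A z)) i j) (z : ℂ) := by
    intro i j
    have hd : DifferentiableAt ℂ ((fun w => Φ w i j) ∘ ofComplex) (z : ℂ) :=
      UpperHalfPlane.mdifferentiableAt_iff.mp (hΦ i j z)
    have hval : deriv ((fun w => Φ w i j) ∘ ofComplex) (z : ℂ)
        = (Φ z * ((2 * (Real.pi : ℂ) * Complex.I) • A z)) i j := by
      have h1 := hA z i j
      simp only [normalizedDerivOfComplex] at h1
      rw [Matrix.mul_smul, Matrix.smul_apply, Matrix.mul_apply, ← h1, smul_eq_mul]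
      field_simp
    have := hd.hasDerivAt
    rw [hval] at this
    exact this
  have hdet := hasDerivAt_det (Φ := fun w : ℂ => Φ (ofComplex w)) hent
  have hz : Φ (ofComplex (z : ℂ)) = Φ z := by rw [ofComplex_apply]
  simp only [hz] at hdet
  rw [sum_cramer_mul_eq] at hdet
  have hderiv : deriv ((fun w => (Φ w).det) ∘ ofComplex) (z : ℂ)
      = ((2 * (Real.pi : ℂ) * Complex.I) • A z).trace * (Φ z).det := hdet.deriv
  show (2 * (Real.pi : ℂ) * Complex.I)⁻¹ * deriv ((fun w => (Φ w).det) ∘ ofComplex) (z : ℂ) = _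
  rw [hderiv, Matrix.trace_smul, smul_eq_mul]
  field_simp

end Abel

/-! ### Liouville: `(det Φ)^12 = c · Δ^K` -/

section Liouville

/-- A holomorphic function on `ℍ` whose derivative vanishes identically is constant. -/
theorem eq_const_of_normalizedDeriv_eq_zero {F : ℍ → ℂ} (hF : MDiff F) (h : ∀ z, D F z = 0) :
    ∃ c, ∀ z, F z = c := by
  suffices hsuff : ∀ z w : ℍ, F z = F w from ⟨F UpperHalfPlane.I, fun z => hsuff z _⟩
  intro z z'
  have hpi : (2 * (Real.pi : ℂ) * Complex.I) ≠ 0 := by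
    have : (Real.pi : ℂ) ≠ 0 := by exact_mod_cast Real.pi_ne_zero
    simp [this]
  have hdiff : DifferentiableOn ℂ (F ∘ ofComplex) upperHalfPlaneSet :=
    UpperHalfPlane.mdifferentiable_iff.mp hF
  have hderiv : upperHalfPlaneSet.EqOn (deriv (F ∘ ofComplex)) 0 := by
    intro w hw
    have h1 := h ⟨w, hw⟩
    simp only [normalizedDerivOfComplex] at h1
    have h2 : deriv (F ∘ ofComplex) w = 0 := by
      rcases mul_eq_zero.mp h1 with h3 | h3
      · exact absurd (inv_eq_zero.mp h3) hpi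
      · exact h3
    simpa using h2
  have hconn : IsPreconnected upperHalfPlaneSet := (convex_halfSpace_im_gt 0).isPreconnected
  have := isOpen_upperHalfPlaneSet.is_const_of_deriv_eq_zero hconn hdiff hderiv z.2 z'.2
  simpa only [Function.comp_apply, ofComplex_apply] using this

/-- If `D f = (K/12) E₂ f` for a holomorphic `f` on `ℍ`, then `f^12 = c · Δ^K`. -/
theorem pow_twelve_eq_const_mul_discriminant_zpow {f : ℍ → ℂ} (hf : MDiff f) (K : ℤ)
    (h : ∀ z, D f z = (K : ℂ) * 12⁻¹ * EisensteinSeries.E2 z * f z) :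
    ∃ c : ℂ, ∀ z, f z ^ 12 = c * ModularForm.discriminant z ^ K := by
  have hpi : (2 * (Real.pi : ℂ) * Complex.I) ≠ 0 := by
    have : (Real.pi : ℂ) ≠ 0 := by exact_mod_cast Real.pi_ne_zero
    simp [this]
  set g : ℂ → ℂ := fun w =>
    (f (ofComplex w)) ^ 12 * (ModularForm.discriminant (ofComplex w)) ^ (-K) with hg
  have key : ∀ w ∈ upperHalfPlaneSet, HasDerivAt g 0 w := by
    intro w hw
    obtain ⟨z, rfl⟩ : ∃ z : ℍ, (z : ℂ) = w := ⟨⟨w, hw⟩, rfl⟩
    have hu : HasDerivAt (f ∘ ofComplex)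
        (2 * (Real.pi : ℂ) * Complex.I * ((K : ℂ) * 12⁻¹ * EisensteinSeries.E2 z * f z))
        (z : ℂ) := by
      have hd : DifferentiableAt ℂ (f ∘ ofComplex) (z : ℂ) :=
        UpperHalfPlane.mdifferentiableAt_iff.mp (hf z)
      have h1 := h z
      simp only [normalizedDerivOfComplex] at h1
      have h2 : deriv (f ∘ ofComplex) (z : ℂ)
          = 2 * (Real.pi : ℂ) * Complex.I * ((K : ℂ) * 12⁻¹ * EisensteinSeries.E2 z * f z) := by
        rw [← h1]; field_simp
      rw [← h2]; exact hd.hasDerivAt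
    have hv : HasDerivAt (ModularForm.discriminant ∘ ofComplex)
        (2 * (Real.pi : ℂ) * Complex.I * (EisensteinSeries.E2 z * ModularForm.discriminant z))
        (z : ℂ) := by
      have hd : DifferentiableAt ℂ (ModularForm.discriminant ∘ ofComplex) (z : ℂ) :=
        UpperHalfPlane.mdifferentiableAt_iff.mp (CuspForm.discriminant.holo' z)
      have h1 := normalizedDeriv_discriminant z
      simp only [normalizedDerivOfComplex] at h1
      have h2 : deriv (ModularForm.discriminant ∘ ofComplex) (z : ℂ)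
          = 2 * (Real.pi : ℂ) * Complex.I
            * (EisensteinSeries.E2 z * ModularForm.discriminant z) := by
        rw [← h1]; field_simp
      rw [← h2]; exact hd.hasDerivAt
    have hΔ : ModularForm.discriminant z ≠ 0 := ModularForm.discriminant_ne_zero z
    have hvz : (ModularForm.discriminant ∘ ofComplex) (z : ℂ) = ModularForm.discriminant z := by
      simp [ofComplex_apply]
    have hzp : HasDerivAt (fun w => (ModularForm.discriminant ∘ ofComplex) w ^ (-K))
        (((-K : ℤ) : ℂ) * (ModularForm.discriminant z) ^ (-K - 1)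
          * (2 * (Real.pi : ℂ) * Complex.I
            * (EisensteinSeries.E2 z * ModularForm.discriminant z))) (z : ℂ) := by
      have := (hasDerivAt_zpow (-K) ((ModularForm.discriminant ∘ ofComplex) (z : ℂ))
        (Or.inl (by rw [hvz]; exact hΔ))).comp (z : ℂ) hv
      rw [hvz] at this
      exact this
    have hprod := (hu.pow 12).mul hzp
    simp only [Nat.cast_ofNat, Pi.pow_apply] at hprod
    have hfz : (f ∘ ofComplex) (z : ℂ) = f z := by simp [ofComplex_apply]
    have hzero : (12 : ℂ) * (f ∘ ofComplex) (z : ℂ) ^ (12 - 1)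
          * (2 * (Real.pi : ℂ) * Complex.I * ((K : ℂ) * 12⁻¹ * EisensteinSeries.E2 z * f z))
          * (ModularForm.discriminant ∘ ofComplex) (z : ℂ) ^ (-K)
        + (f ∘ ofComplex) (z : ℂ) ^ 12
          * (((-K : ℤ) : ℂ) * (ModularForm.discriminant z) ^ (-K - 1)
            * (2 * (Real.pi : ℂ) * Complex.I
              * (EisensteinSeries.E2 z * ModularForm.discriminant z))) = 0 := by
      rw [hfz, hvz, zpow_sub_one₀ hΔ]
      push_cast
      field_simp
      ring
    have hprod' : HasDerivAt (fun w => (f ∘ ofComplex) w ^ 12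
        * (ModularForm.discriminant ∘ ofComplex) w ^ (-K)) 0 (z : ℂ) := by
      have := hprod
      rw [hzero] at this
      exact this
    exact hprod'
  have hdiff : DifferentiableOn ℂ g upperHalfPlaneSet := fun w hw =>
    (key w hw).differentiableAt.differentiableWithinAt
  have hderiv : upperHalfPlaneSet.EqOn (deriv g) 0 := fun w hw => by
    simpa using (key w hw).deriv
  have hconn : IsPreconnected upperHalfPlaneSet := (convex_halfSpace_im_gt 0).isPreconnected
  refine ⟨g ((UpperHalfPlane.I : ℍ) : ℂ), fun z => ?_⟩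
  have hc : g (z : ℂ) = g ((UpperHalfPlane.I : ℍ) : ℂ) :=
    isOpen_upperHalfPlaneSet.is_const_of_deriv_eq_zero hconn hdiff hderiv z.2
      UpperHalfPlane.I.2
  have hΔ : ModularForm.discriminant z ≠ 0 := ModularForm.discriminant_ne_zero z
  rw [← hc]
  have hgz : g (z : ℂ) = f z ^ 12 * ModularForm.discriminant z ^ (-K) := by
    simp only [hg, ofComplex_apply]
  rw [hgz, mul_assoc, ← zpow_add₀ hΔ]
  simp


variable {ι : Type*} [Fintype ι] [DecidableEq ι]

/-- The determinant of an entrywise holomorphic matrix-valued function on `ℍ` is holomorphic. -/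
theorem mdifferentiable_det {Φ : ℍ → Matrix ι ι ℂ} (hΦ : ∀ i j, MDiff fun z => Φ z i j) :
    MDiff fun z => (Φ z).det := by
  intro z
  rw [UpperHalfPlane.mdifferentiableAt_iff]
  have hent : ∀ i j, HasDerivAt (fun w : ℂ => Φ (ofComplex w) i j)
      (deriv ((fun w => Φ w i j) ∘ ofComplex) (z : ℂ)) (z : ℂ) := fun i j =>
    (UpperHalfPlane.mdifferentiableAt_iff.mp (hΦ i j z)).hasDerivAt
  exact (hasDerivAt_det (Φ := fun w : ℂ => Φ (ofComplex w))
    (Φ' := fun i j => deriv ((fun w => Φ w i j) ∘ ofComplex) (z : ℂ)) hent).differentiableAt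

/-- **Liouville's formula for a fundamental matrix.**  If the columns of `Φ` satisfy the
"modular linear ODE" `D Φ_{·j} = (k_j/12) E₂ Φ_{·j} + ∑_l Φ_{·l} A_{lj}` with `trace A = 0`, then
`(det Φ)^12 = c · Δ^(∑ k_j)`. -/
theorem det_pow_twelve_eq {Φ : ℍ → Matrix ι ι ℂ} (hΦ : ∀ i j, MDiff fun z => Φ z i j)
    (k : ι → ℤ) {A : ℍ → Matrix ι ι ℂ}
    (hD : ∀ z i j, D (fun w => Φ w i j) z
        = (k j : ℂ) * 12⁻¹ * EisensteinSeries.E2 z * Φ z i j + ∑ l, Φ z i l * A z l j)
    (hA : ∀ z, (A z).trace = 0) :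
    ∃ c : ℂ, ∀ z, (Φ z).det ^ 12 = c * ModularForm.discriminant z ^ (∑ j, k j) := by
  set A' : ℍ → Matrix ι ι ℂ := fun z =>
    A z + Matrix.diagonal (fun j => (k j : ℂ) * 12⁻¹ * EisensteinSeries.E2 z) with hA'
  have hD' : ∀ z i j, D (fun w => Φ w i j) z = ∑ l, Φ z i l * A' z l j := by
    intro z i j
    rw [hD z i j]
    simp only [hA', Matrix.add_apply, mul_add, Finset.sum_add_distrib]
    rw [add_comm]
    congr 1
    simp [Matrix.diagonal_apply]
    ring
  have hdet := normalizedDeriv_det hΦ hD'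
  refine pow_twelve_eq_const_mul_discriminant_zpow (mdifferentiable_det hΦ) (∑ j, k j) ?_
  intro z
  rw [hdet z]
  simp only [hA', Matrix.trace_add, hA z, zero_add, Matrix.trace_diagonal]
  push_cast
  simp only [Finset.sum_mul]

/-- Under the hypotheses of `det_pow_twelve_eq`, if `det Φ` is nonzero at one point then it is
nonzero at every point of `ℍ`. -/
theorem det_ne_zero_of_det_ne_zero {Φ : ℍ → Matrix ι ι ℂ} (hΦ : ∀ i j, MDiff fun z => Φ z i j)
    (k : ι → ℤ) {A : ℍ → Matrix ι ι ℂ}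
    (hD : ∀ z i j, D (fun w => Φ w i j) z
        = (k j : ℂ) * 12⁻¹ * EisensteinSeries.E2 z * Φ z i j + ∑ l, Φ z i l * A z l j)
    (hA : ∀ z, (A z).trace = 0) {z₀ : ℍ} (h0 : (Φ z₀).det ≠ 0) (z : ℍ) :
    (Φ z).det ≠ 0 := by
  obtain ⟨c, hc⟩ := det_pow_twelve_eq hΦ k hD hA
  have hc0 : c ≠ 0 := by
    rintro rfl
    have := hc z₀
    rw [zero_mul] at this
    exact h0 (pow_eq_zero_iff (by norm_num) |>.mp this)
  intro hz
  have := hc z
  rw [hz, zero_pow (by norm_num)] at this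
  exact (mul_ne_zero hc0 (zpow_ne_zero _ (ModularForm.discriminant_ne_zero z))) this.symm

end Liouville

/-! ### The fundamental matrix of translates of a family of forms closed under `∂` -/

section Fundamental

variable {ι : Type*} [Fintype ι] [DecidableEq ι]

/-- `D (F ∣[k] γ) = (∂_k F) ∣[k+2] γ + (k/12) E₂ (F ∣[k] γ)` for `γ : SL(2, ℤ)`. -/
theorem normalizedDeriv_slash_eq {k : ℤ} {F : ℍ → ℂ} (hF : MDiff F) (γ : SL(2, ℤ)) (z : ℍ) :
    D (F ∣[k] γ) z = (serreDerivative k F ∣[k + 2] γ) z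
      + (k : ℂ) * 12⁻¹ * EisensteinSeries.E2 z * (F ∣[k] γ) z := by
  rw [serreDerivative_slash_equivariant hF]
  simp [serreDerivative]

theorem mul_slash_SL2_of_eq {k k1 k2 : ℤ} (h : k = k1 + k2) (γ : SL(2, ℤ)) (f g : ℍ → ℂ) :
    (f * g) ∣[k] γ = f ∣[k1] γ * g ∣[k2] γ := by
  subst h
  exact ModularForm.mul_slash_SL2 k1 k2 γ f g

/-- **Fundamental matrix theorem.**  Let `F j` (`j : ι`) be holomorphic functions on `ℍ` of
"weights" `k j` such that `∂_{k_j} F_j = ∑_i A_{ij} F_i`, where the `A i j` are invariant under the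
weight `k j + 2 - k i` slash action of `SL(2, ℤ)` and `∑_j A_{jj} = 0`.  Then for any family
`g q` of elements of `SL(2, ℤ)` the matrix `Φ_{q j} = F_j ∣[k_j] g_q` satisfies
`(det Φ)^12 = c · Δ^(∑ k_j)`. -/
theorem fundamental_det_pow_twelve (k : ι → ℤ) (F : ι → ℍ → ℂ) (hF : ∀ j, MDiff (F j))
    (A : ι → ι → ℍ → ℂ)
    (hAinv : ∀ i j (γ : SL(2, ℤ)), A i j ∣[k j + 2 - k i] γ = A i j)
    (hAtr : ∀ z, ∑ j, A j j z = 0)
    (hθ : ∀ j, serreDerivative (k j) (F j) = ∑ i, A i j * F i)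
    (g : ι → SL(2, ℤ)) :
    ∃ c : ℂ, ∀ z, (Matrix.of fun q j => (F j ∣[k j] g q) z).det ^ 12
      = c * ModularForm.discriminant z ^ (∑ j, k j) := by
  refine det_pow_twelve_eq (Φ := fun z => Matrix.of fun q j => (F j ∣[k j] g q) z)
    (A := fun z => Matrix.of fun i j => A i j z) (fun q j => ?_) k (fun z q j => ?_) (fun z => ?_)
  · exact (hF j).slash (k j) _
  · show D (F j ∣[k j] g q) z = _
    rw [normalizedDeriv_slash_eq (hF j), hθ j, SlashAction.sum_slash, Finset.sum_apply, add_comm]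
    congr 1
    refine Finset.sum_congr rfl fun i _ => ?_
    rw [mul_slash_SL2_of_eq (k1 := k j + 2 - k i) (k2 := k i) (by ring), hAinv i j (g q)]
    simp only [Pi.mul_apply, Matrix.of_apply]
    ring
  · simpa [Matrix.trace] using hAtr z

/-- Nonvanishing version of `fundamental_det_pow_twelve`. -/
theorem fundamental_det_ne_zero (k : ι → ℤ) (F : ι → ℍ → ℂ) (hF : ∀ j, MDiff (F j))
    (A : ι → ι → ℍ → ℂ)
    (hAinv : ∀ i j (γ : SL(2, ℤ)), A i j ∣[k j + 2 - k i] γ = A i j)
    (hAtr : ∀ z, ∑ j, A j j z = 0)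
    (hθ : ∀ j, serreDerivative (k j) (F j) = ∑ i, A i j * F i)
    (g : ι → SL(2, ℤ)) {z₀ : ℍ}
    (h0 : (Matrix.of fun q j => (F j ∣[k j] g q) z₀).det ≠ 0) (z : ℍ) :
    (Matrix.of fun q j => (F j ∣[k j] g q) z).det ≠ 0 := by
  obtain ⟨c, hc⟩ := fundamental_det_pow_twelve k F hF A hAinv hAtr hθ g
  have hc0 : c ≠ 0 := by
    rintro rfl
    have := hc z₀
    rw [zero_mul] at this
    exact h0 (pow_eq_zero_iff (by norm_num) |>.mp this)
  intro hz
  have := hc z
  rw [hz, zero_pow (by norm_num)] at this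
  exact (mul_ne_zero hc0 (zpow_ne_zero _ (ModularForm.discriminant_ne_zero z))) this.symm

end Fundamental

/-! ### Convenience: `Gamma0 N ≤ 𝒮ℒ`, representatives for `quotientFunc` -/

theorem map_mapGL_le_SL (Γ : Subgroup SL(2, ℤ)) :
    (Γ.map (Matrix.SpecialLinearGroup.mapGL ℝ) : Subgroup (GL (Fin 2) ℝ)) ≤ 𝒮ℒ :=
  Subgroup.map_le_range _ _

/-- Every coset `q ∈ 𝒮ℒ ⧸ Γ` has a representative `γ : SL(2, ℤ)` computing `quotientFunc`
uniformly in the form and the weight. -/
theorem exists_SL_quotientFunc_eq {Γ : Subgroup (GL (Fin 2) ℝ)}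
    (q : (𝒮ℒ : Subgroup (GL (Fin 2) ℝ)) ⧸ Γ.subgroupOf 𝒮ℒ) :
    ∃ γ : SL(2, ℤ), ∀ (k : ℤ) (f : SlashInvariantForm Γ k),
      SlashInvariantForm.quotientFunc f q = (f : ℍ → ℂ) ∣[k] γ := by
  induction q using Quotient.inductionOn with
  | h r =>
    obtain ⟨γ, hγ⟩ := MonoidHom.mem_range.mp (inv_mem r.2)
    refine ⟨γ, fun k f => ?_⟩
    rw [SlashInvariantForm.quotientFunc_mk, ← hγ]
    rfl

end Fermat.Agent.Lib.helper861
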