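/-
Kummer constants (Lib brick, Mathlib only).

`K ⊆ F` fields, `ζ ∈ K` a primitive `p`-th root of unity (`p` prime), `U ∈ F`.
If `U` is not of the form `c * f ^ p` with `c ∈ F` integral over `K` and `f ∈ F`, then

* `X ^ p - C U` is irreducible over `F`;
* every element of `F[X]/(X ^ p - U)` that is integral (= algebraic) over `K` comes from an
  element of `F` that is integral over `K`; in particular, if `K` is algebraically closed in `F`,
  then `K` is algebraically closed in `F(U^(1/p))`.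

The proof uses the Lagrange resolvents of the twists `y ↦ η • y`.
-/
import Mathlib

set_option autoImplicit false

namespace Fermat.Agent.Lib.helper8657

open Polynomial

section KummerConstants

variable {K F : Type*} [Field K] [Field F] [Algebra K F]

/-- (KC1) If `U` is not a constant times a `p`-th power, then `X ^ p - C U` is irreducible. -/
theorem irreducible_X_pow_sub_C_of_not_const_mul_pow {p : ℕ} (hp : p.Prime) (U : F)
    (hU : ∀ (c : K) (f : F), U ≠ algebraMap K F c * f ^ p) :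
    Irreducible (X ^ p - C U : F[X]) :=
  X_pow_sub_C_irreducible_of_prime hp fun b hb => hU 1 b (by rw [map_one, one_mul, hb])

/-- The `F`-algebra endomorphism `y ↦ η • y` of `F[X]/(X ^ p - U)`, for `η ∈ K` with
`η ^ p = 1`. -/
noncomputable def kummerTwist (p : ℕ) (U : F) (η : K) (hη : η ^ p = 1) :
    AdjoinRoot (X ^ p - C U : F[X]) →ₐ[F] AdjoinRoot (X ^ p - C U : F[X]) :=
  AdjoinRoot.liftAlgHom _ (Algebra.ofId F _)
    (algebraMap K F η • AdjoinRoot.root (X ^ p - C U : F[X])) <| by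
    change aeval _ _ = _
    rw [map_sub, map_pow, aeval_C, aeval_X, Algebra.smul_def, mul_pow, root_X_pow_sub_C_pow,
      AdjoinRoot.algebraMap_eq, ← map_pow, ← map_pow, hη, map_one, map_one, one_mul, sub_self]

@[simp]
theorem kummerTwist_root (p : ℕ) (U : F) (η : K) (hη : η ^ p = 1) :
    kummerTwist p U η hη (AdjoinRoot.root _) = algebraMap K F η • AdjoinRoot.root _ :=
  AdjoinRoot.liftAlgHom_root _ _ _ _

@[simp]
theorem kummerTwist_of (p : ℕ) (U : F) (η : K) (hη : η ^ p = 1) (a : F) :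
    kummerTwist p U η hη (AdjoinRoot.of _ a) = AdjoinRoot.of _ a :=
  AdjoinRoot.liftAlgHom_of _ _ _ _ _

theorem kummerTwist_smul_root_pow (p : ℕ) (U : F) (η : K) (hη : η ^ p = 1) (a : F) (i : ℕ) :
    kummerTwist p U η hη (a • AdjoinRoot.root _ ^ i) =
      (algebraMap K F (η ^ i) * a) • AdjoinRoot.root _ ^ i := by
  rw [map_smul, map_pow, kummerTwist_root, _root_.smul_pow, smul_smul, ← map_pow, mul_comm]

theorem pow_pow_eq_one_of_isPrimitiveRoot {p : ℕ} {ζ : K} (hζ : IsPrimitiveRoot ζ p) (k : ℕ) :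
    (ζ ^ k) ^ p = 1 := by
  rw [← pow_mul, mul_comm, pow_mul, hζ.pow_eq_one, one_pow]

/-- Orthogonality of the powers of a primitive `p`-th root of unity. -/
theorem sum_pow_pow_of_isPrimitiveRoot {p : ℕ} {ζ : K} (hζ : IsPrimitiveRoot ζ p) (m : ℕ) :
    ∑ k ∈ Finset.range p, (ζ ^ k) ^ m = if p ∣ m then (p : K) else 0 := by
  have h1 : ∀ k, (ζ ^ k) ^ m = (ζ ^ m) ^ k := fun k => by rw [← pow_mul, ← pow_mul, mul_comm]
  simp_rw [h1]
  split_ifs with hm
  · rw [(hζ.pow_eq_one_iff_dvd m).mpr hm]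
    simp
  · have hne : ζ ^ m - 1 ≠ 0 := sub_ne_zero.mpr fun h => hm ((hζ.pow_eq_one_iff_dvd m).mp h)
    have h2 : (ζ ^ m - 1) * ∑ k ∈ Finset.range p, (ζ ^ m) ^ k = 0 := by
      rw [mul_geom_sum, ← pow_mul, mul_comm, pow_mul, hζ.pow_eq_one, one_pow, sub_self]
    exact (mul_eq_zero.mp h2).resolve_left hne

/-- (KC4) Lagrange resolvent identity: the `j`-th isotypic component of
`h = ∑ i < p, a i • y ^ i` is recovered from the twists of `h`. -/
theorem sum_smul_kummerTwist {p : ℕ} {ζ : K} (hζ : IsPrimitiveRoot ζ p) (U : F)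
    (a : ℕ → F) (j : ℕ) (hj : j < p) :
    ∑ k ∈ Finset.range p, (ζ ^ k) ^ (p - j) •
        kummerTwist p U (ζ ^ k) (pow_pow_eq_one_of_isPrimitiveRoot hζ k)
          (∑ i ∈ Finset.range p, a i • AdjoinRoot.root (X ^ p - C U : F[X]) ^ i) =
      (p : K) • (a j • AdjoinRoot.root (X ^ p - C U : F[X]) ^ j) := by
  have key : ∀ k ∈ Finset.range p, (ζ ^ k) ^ (p - j) •
        kummerTwist p U (ζ ^ k) (pow_pow_eq_one_of_isPrimitiveRoot hζ k)
          (∑ i ∈ Finset.range p, a i • AdjoinRoot.root (X ^ p - C U : F[X]) ^ i) =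
      ∑ i ∈ Finset.range p, ((ζ ^ k) ^ (p - j + i)) •
        (a i • AdjoinRoot.root (X ^ p - C U : F[X]) ^ i) := by
    intro k _
    rw [map_sum, Finset.smul_sum]
    refine Finset.sum_congr rfl fun i _ => ?_
    rw [kummerTwist_smul_root_pow, mul_smul, algebraMap_smul, smul_smul, ← pow_add]
  rw [Finset.sum_congr rfl key, Finset.sum_comm]
  simp_rw [← Finset.sum_smul, sum_pow_pow_of_isPrimitiveRoot hζ]
  rw [Finset.sum_eq_single j]
  · rw [if_pos]
    rw [Nat.sub_add_cancel hj.le]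
  · intro i hi hij
    rw [if_neg, zero_smul]
    intro hdvd
    have hi' : i < p := Finset.mem_range.mp hi
    apply hij
    rcases lt_or_gt_of_ne hij with h | h
    · -- `p - j + i < p`, positive
      have h1 : p - j + i < p := by omega
      have h2 : 0 < p - j + i := by omega
      exact absurd (Nat.le_of_dvd h2 hdvd) (by omega)
    · -- `p < p - j + i < 2 p`
      obtain ⟨c, hc⟩ := hdvd
      have hc1 : 1 < c := by
        by_contra hcon
        have : c = 0 ∨ c = 1 := by omega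
        rcases this with rfl | rfl <;> omega
      have : 2 * p ≤ p * c := by nlinarith
      omega
  · intro hj'
    exact absurd (Finset.mem_range.mpr hj) hj'

/-- Each isotypic component of an element integral over `K` is integral over `K`. -/
theorem isIntegral_smul_root_pow_of_isIntegral {p : ℕ} (hp : p.Prime) {ζ : K}
    (hζ : IsPrimitiveRoot ζ p) (U : F) (a : ℕ → F)
    (hh : IsIntegral K (∑ i ∈ Finset.range p, a i • AdjoinRoot.root (X ^ p - C U : F[X]) ^ i))
    (j : ℕ) (hj : j < p) :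
    IsIntegral K (a j • AdjoinRoot.root (X ^ p - C U : F[X]) ^ j) := by
  have : NeZero p := ⟨hp.ne_zero⟩
  have hp0 : (p : K) ≠ 0 := (hζ.neZero').ne
  have h1 : IsIntegral K ((p : K) • (a j • AdjoinRoot.root (X ^ p - C U : F[X]) ^ j)) := by
    rw [← sum_smul_kummerTwist hζ U a j hj]
    refine IsIntegral.sum _ fun k _ => ?_
    refine IsIntegral.smul _ ?_
    exact hh.map ((kummerTwist p U (ζ ^ k)
      (pow_pow_eq_one_of_isPrimitiveRoot hζ k)).restrictScalars K)
  have h2 := IsIntegral.smul ((p : K)⁻¹) h1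
  rwa [smul_smul, inv_mul_cancel₀ hp0, one_smul] at h2

/-- (KC2) If `U` is not (an element integral over `K`) times a `p`-th power, then every element
of `F[X]/(X ^ p - U)` integral over `K` is (the image of) an element of `F` integral over `K`. -/
theorem exists_eq_of_of_isIntegral {p : ℕ} (hp : p.Prime) {ζ : K} (hζ : IsPrimitiveRoot ζ p)
    (U : F) (hU : ∀ c f : F, IsIntegral K c → U ≠ c * f ^ p)
    (h : AdjoinRoot (X ^ p - C U : F[X])) (hh : IsIntegral K h) :
    ∃ a : F, IsIntegral K a ∧ h = AdjoinRoot.of _ a := by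
  have hmon : (X ^ p - C U : F[X]).Monic := monic_X_pow_sub_C U hp.ne_zero
  have hdeg : (X ^ p - C U : F[X]).natDegree = p := natDegree_X_pow_sub_C
  have hinj : Function.Injective (AdjoinRoot.of (X ^ p - C U : F[X])) :=
    AdjoinRoot.coe_injective (by
      rw [degree_eq_natDegree hmon.ne_zero, hdeg]
      exact_mod_cast hp.ne_zero)
  have hU0 : U ≠ 0 := fun h0 => hU 0 0 isIntegral_zero (by rw [h0, zero_mul])
  obtain ⟨q, rfl⟩ := AdjoinRoot.mk_surjective h
  have hrq : AdjoinRoot.mk (X ^ p - C U : F[X]) (q %ₘ (X ^ p - C U)) = AdjoinRoot.mk _ q := by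
    rw [AdjoinRoot.mk_eq_mk]
    exact dvd_modByMonic_sub q _
  have hrdeg : (q %ₘ (X ^ p - C U : F[X])).natDegree < p := by
    have := natDegree_modByMonic_lt q hmon (fun h1 => by
      have := congrArg natDegree h1
      rw [hdeg, natDegree_one] at this
      exact hp.ne_zero this)
    rwa [hdeg] at this
  set r : F[X] := q %ₘ (X ^ p - C U : F[X]) with hr
  have hsum : AdjoinRoot.mk (X ^ p - C U : F[X]) r =
      ∑ i ∈ Finset.range p, r.coeff i • AdjoinRoot.root (X ^ p - C U : F[X]) ^ i := by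
    conv_lhs => rw [r.as_sum_range' p hrdeg]
    rw [map_sum]
    refine Finset.sum_congr rfl fun i _ => ?_
    rw [← C_mul_X_pow_eq_monomial, map_mul, map_pow, AdjoinRoot.mk_C, AdjoinRoot.mk_X,
      Algebra.smul_def, AdjoinRoot.algebraMap_eq]
  rw [← hrq, hsum] at hh
  have hcomp := isIntegral_smul_root_pow_of_isIntegral hp hζ U (fun i => r.coeff i) hh
  -- the higher components vanish
  have hzero : ∀ j, 1 ≤ j → j < p → r.coeff j = 0 := by
    intro j hj1 hjp
    by_contra ha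
    have hint := (hcomp j hjp).pow p
    have hpow : (r.coeff j • AdjoinRoot.root (X ^ p - C U : F[X]) ^ j) ^ p =
        AdjoinRoot.of _ (r.coeff j ^ p * U ^ j) := by
      rw [_root_.smul_pow, ← pow_mul, mul_comm j p, pow_mul, root_X_pow_sub_C_pow,
        Algebra.smul_def, AdjoinRoot.algebraMap_eq, map_mul, map_pow, map_pow]
    rw [hpow, ← AdjoinRoot.algebraMap_eq, isIntegral_algebraMap_iff
      (by rw [AdjoinRoot.algebraMap_eq]; exact hinj)] at hint
    -- `b := a ^ p * U ^ j` is integral over `K`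
    have hcop : Nat.Coprime j p :=
      (Nat.coprime_comm.mp ((Nat.Prime.coprime_iff_not_dvd hp).mpr
        (Nat.not_dvd_of_pos_of_lt hj1 hjp)))
    obtain ⟨m, -, hm⟩ := Nat.exists_mul_mod_eq_one_of_coprime hcop hp.one_lt
    have hjm : j * m = p * (j * m / p) + 1 := by
      have := Nat.div_add_mod (j * m) p
      omega
    set n := j * m / p with hn
    set b := r.coeff j ^ p * U ^ j with hb
    refine hU (b ^ m) ((r.coeff j)⁻¹ ^ m * (U ^ n)⁻¹) (hint.pow m) ?_
    have hUn : U ^ n ≠ 0 := pow_ne_zero _ hU0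
    have e1 : (U ^ j) ^ m = U * (U ^ n) ^ p := by
      rw [← pow_mul, hjm, pow_succ, mul_comm p n, pow_mul, mul_comm]
    have e2 : U ^ j = b * ((r.coeff j)⁻¹) ^ p := by
      rw [hb, mul_comm (r.coeff j ^ p), mul_assoc, ← mul_pow, mul_inv_cancel₀ ha, one_pow,
        mul_one]
    have e3 : U = (U ^ j) ^ m * ((U ^ n)⁻¹) ^ p := by
      rw [e1, mul_assoc, ← mul_pow, mul_inv_cancel₀ hUn, one_pow, mul_one]
    calc U = (U ^ j) ^ m * ((U ^ n)⁻¹) ^ p := e3
      _ = b ^ m * ((r.coeff j)⁻¹ ^ m * (U ^ n)⁻¹) ^ p := by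
        rw [e2]
        ring
  refine ⟨r.coeff 0, ?_, ?_⟩
  · have h0 := hcomp 0 hp.pos
    rw [pow_zero, Algebra.smul_def, mul_one, isIntegral_algebraMap_iff
      (by rw [AdjoinRoot.algebraMap_eq]; exact hinj)] at h0
    exact h0
  · rw [← hrq, hsum, Finset.sum_eq_single 0]
    · rw [pow_zero, Algebra.smul_def, mul_one, AdjoinRoot.algebraMap_eq]
    · intro i hi hi0
      rw [hzero i (Nat.one_le_iff_ne_zero.mpr hi0) (Finset.mem_range.mp hi), zero_smul]
    · intro h0
      exact absurd (Finset.mem_range.mpr hp.pos) h0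

/-- (KC2') If `K` is algebraically closed in `F` and `U ∉ K · F ^ p`, then `K` is algebraically
closed in `F[X]/(X ^ p - U)`. -/
theorem exists_eq_algebraMap_of_isIntegral {p : ℕ} (hp : p.Prime) {ζ : K}
    (hζ : IsPrimitiveRoot ζ p) (U : F)
    (hK : ∀ a : F, IsIntegral K a → a ∈ (algebraMap K F).range)
    (hU : ∀ (c : K) (f : F), U ≠ algebraMap K F c * f ^ p)
    (h : AdjoinRoot (X ^ p - C U : F[X])) (hh : IsIntegral K h) :
    ∃ c : K, h = algebraMap K (AdjoinRoot (X ^ p - C U : F[X])) c := by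
  have hU' : ∀ c f : F, IsIntegral K c → U ≠ c * f ^ p := by
    intro c f hc
    obtain ⟨c', rfl⟩ := hK c hc
    exact hU c' f
  obtain ⟨a, ha, rfl⟩ := exists_eq_of_of_isIntegral hp hζ U hU' h hh
  obtain ⟨c, rfl⟩ := hK a ha
  refine ⟨c, ?_⟩
  rw [IsScalarTower.algebraMap_apply K F (AdjoinRoot (X ^ p - C U : F[X])) c,
    AdjoinRoot.algebraMap_eq]

/-- The same with `IsAlgebraic` instead of `IsIntegral`. -/
theorem exists_eq_algebraMap_of_isAlgebraic {p : ℕ} (hp : p.Prime) {ζ : K}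
    (hζ : IsPrimitiveRoot ζ p) (U : F)
    (hK : ∀ a : F, IsAlgebraic K a → a ∈ (algebraMap K F).range)
    (hU : ∀ (c : K) (f : F), U ≠ algebraMap K F c * f ^ p)
    (h : AdjoinRoot (X ^ p - C U : F[X])) (hh : IsAlgebraic K h) :
    ∃ c : K, h = algebraMap K (AdjoinRoot (X ^ p - C U : F[X])) c :=
  exists_eq_algebraMap_of_isIntegral hp hζ U (fun a ha => hK a ha.isAlgebraic) hU h
    hh.isIntegral

section General

variable {F' : Type*} [CommRing F'] [Algebra F F']

/-- The map `F[X]/(X ^ p - U) → F'`, `root ↦ y`, for a `p`-th root `y` of `U` in `F'`. -/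
noncomputable def adjoinRootToOfPowEq (p : ℕ) (U : F) (y : F')
    (hy : y ^ p = algebraMap F F' U) : AdjoinRoot (X ^ p - C U : F[X]) →ₐ[F] F' :=
  AdjoinRoot.liftAlgHom (X ^ p - C U : F[X]) (Algebra.ofId F F') y (by
    change aeval _ _ = _
    rw [map_sub, map_pow, aeval_C, aeval_X, hy, sub_self])

@[simp]
theorem adjoinRootToOfPowEq_root (p : ℕ) (U : F) (y : F') (hy : y ^ p = algebraMap F F' U) :
    adjoinRootToOfPowEq p U y hy (AdjoinRoot.root _) = y :=
  AdjoinRoot.liftAlgHom_root _ _ _ _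

@[simp]
theorem adjoinRootToOfPowEq_of (p : ℕ) (U : F) (y : F') (hy : y ^ p = algebraMap F F' U)
    (a : F) : adjoinRootToOfPowEq p U y hy (AdjoinRoot.of _ a) = algebraMap F F' a :=
  AdjoinRoot.liftAlgHom_of _ _ _ _ _

variable [Nontrivial F']

theorem adjoinRootToOfPowEq_bijective {p : ℕ} (hp : p.Prime) (U : F)
    (hU : ∀ f : F, f ^ p ≠ U) (y : F') (hy : y ^ p = algebraMap F F' U)
    (hgen : Algebra.adjoin F {y} = ⊤) : Function.Bijective (adjoinRootToOfPowEq p U y hy) := by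
  have : Fact (Irreducible (X ^ p - C U : F[X])) := ⟨X_pow_sub_C_irreducible_of_prime hp hU⟩
  refine ⟨(adjoinRootToOfPowEq p U y hy).toRingHom.injective, ?_⟩
  rw [← AlgHom.range_eq_top, eq_top_iff, ← hgen]
  refine Algebra.adjoin_le ?_
  intro x hx
  rw [Set.mem_singleton_iff] at hx
  rw [hx]
  exact ⟨AdjoinRoot.root _, adjoinRootToOfPowEq_root p U y hy⟩

/-- If `U ∉ F ^ p` and `F'` is generated over `F` by a `p`-th root `y` of `U`, then
`F[X]/(X ^ p - U) ≃ F'`, `root ↦ y`. -/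
noncomputable def adjoinRootEquivOfAdjoinEqTop {p : ℕ} (hp : p.Prime) (U : F)
    (hU : ∀ f : F, f ^ p ≠ U) (y : F') (hy : y ^ p = algebraMap F F' U)
    (hgen : Algebra.adjoin F {y} = ⊤) : AdjoinRoot (X ^ p - C U : F[X]) ≃ₐ[F] F' :=
  AlgEquiv.ofBijective (adjoinRootToOfPowEq p U y hy)
    (adjoinRootToOfPowEq_bijective hp U hU y hy hgen)

@[simp]
theorem adjoinRootEquivOfAdjoinEqTop_root {p : ℕ} (hp : p.Prime) (U : F)
    (hU : ∀ f : F, f ^ p ≠ U) (y : F') (hy : y ^ p = algebraMap F F' U)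
    (hgen : Algebra.adjoin F {y} = ⊤) :
    adjoinRootEquivOfAdjoinEqTop hp U hU y hy hgen (AdjoinRoot.root _) = y :=
  adjoinRootToOfPowEq_root p U y hy

@[simp]
theorem adjoinRootEquivOfAdjoinEqTop_of {p : ℕ} (hp : p.Prime) (U : F)
    (hU : ∀ f : F, f ^ p ≠ U) (y : F') (hy : y ^ p = algebraMap F F' U)
    (hgen : Algebra.adjoin F {y} = ⊤) (a : F) :
    adjoinRootEquivOfAdjoinEqTop hp U hU y hy hgen (AdjoinRoot.of _ a) = algebraMap F F' a :=
  adjoinRootToOfPowEq_of p U y hy a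

variable [Algebra K F'] [IsScalarTower K F F']

/-- (KC3) Kummer constants for any model `F' = F[y]`, `y ^ p = U`. -/
theorem exists_eq_algebraMap_of_isIntegral_of_adjoin_eq_top {p : ℕ} (hp : p.Prime) {ζ : K}
    (hζ : IsPrimitiveRoot ζ p) (U : F) (hU : ∀ c f : F, IsIntegral K c → U ≠ c * f ^ p)
    (y : F') (hy : y ^ p = algebraMap F F' U) (hgen : Algebra.adjoin F {y} = ⊤)
    (h : F') (hh : IsIntegral K h) :
    ∃ a : F, IsIntegral K a ∧ h = algebraMap F F' a := by
  have hU1 : ∀ f : F, f ^ p ≠ U := fun f hf => hU 1 f isIntegral_one (by rw [one_mul, hf])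
  set e := adjoinRootEquivOfAdjoinEqTop hp U hU1 y hy hgen with he
  obtain ⟨x, rfl⟩ := e.surjective h
  have hx : IsIntegral K x :=
    (isIntegral_algHom_iff ((e : AdjoinRoot (X ^ p - C U : F[X]) →ₐ[F] F').restrictScalars K)
      e.injective).mp hh
  obtain ⟨a, ha, rfl⟩ := exists_eq_of_of_isIntegral hp hζ U hU x hx
  exact ⟨a, ha, adjoinRootEquivOfAdjoinEqTop_of hp U hU1 y hy hgen a⟩

/-- (KC3') If `K` is algebraically closed in `F`, `U ∉ K · F ^ p` and `F' = F[y]` with
`y ^ p = U`, then `K` is algebraically closed in `F'`. -/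
theorem exists_eq_algebraMap_of_isAlgebraic_of_adjoin_eq_top {p : ℕ} (hp : p.Prime) {ζ : K}
    (hζ : IsPrimitiveRoot ζ p) (U : F)
    (hK : ∀ a : F, IsAlgebraic K a → a ∈ (algebraMap K F).range)
    (hU : ∀ (c : K) (f : F), U ≠ algebraMap K F c * f ^ p)
    (y : F') (hy : y ^ p = algebraMap F F' U) (hgen : Algebra.adjoin F {y} = ⊤)
    (h : F') (hh : IsAlgebraic K h) :
    ∃ c : K, h = algebraMap K F' c := by
  have hU' : ∀ c f : F, IsIntegral K c → U ≠ c * f ^ p := by
    intro c f hc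
    obtain ⟨c', rfl⟩ := hK c hc.isAlgebraic
    exact hU c' f
  obtain ⟨a, ha, rfl⟩ :=
    exists_eq_algebraMap_of_isIntegral_of_adjoin_eq_top hp hζ U hU' y hy hgen h hh.isIntegral
  obtain ⟨c, rfl⟩ := hK a ha.isAlgebraic
  exact ⟨c, by rw [IsScalarTower.algebraMap_apply K F F']⟩

end General

section Twists

/-- Composition law of the twists. -/
theorem kummerTwist_kummerTwist (p : ℕ) (U : F) (η₁ η₂ : K) (h₁ : η₁ ^ p = 1) (h₂ : η₂ ^ p = 1)
    (x : AdjoinRoot (X ^ p - C U : F[X])) :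
    kummerTwist p U η₁ h₁ (kummerTwist p U η₂ h₂ x) =
      kummerTwist p U (η₁ * η₂) (by rw [mul_pow, h₁, h₂, one_mul]) x := by
  have h : (kummerTwist p U η₁ h₁).comp (kummerTwist p U η₂ h₂) =
      kummerTwist p U (η₁ * η₂) (by rw [mul_pow, h₁, h₂, one_mul]) := by
    refine AdjoinRoot.algHom_ext ?_
    rw [AlgHom.comp_apply, kummerTwist_root, map_smul, kummerTwist_root, kummerTwist_root,
      smul_smul, map_mul, mul_comm]
  exact congrArg (fun f => f x) h

theorem kummerTwist_one (p : ℕ) (U : F) (x : AdjoinRoot (X ^ p - C U : F[X])) :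
    kummerTwist p U (1 : K) (one_pow p) x = x := by
  have h : kummerTwist p U (1 : K) (one_pow p) = AlgHom.id F _ := by
    refine AdjoinRoot.algHom_ext ?_
    rw [kummerTwist_root, map_one, one_smul, AlgHom.id_apply]
  rw [h, AlgHom.id_apply]

/-- Every element of `F[X]/(X ^ p - U)` is `∑ i < p, a i • y ^ i`. -/
theorem exists_eq_sum_smul_root_pow {p : ℕ} (hp : p ≠ 0) (U : F)
    (h : AdjoinRoot (X ^ p - C U : F[X])) :
    ∃ a : ℕ → F, h = ∑ i ∈ Finset.range p, a i • AdjoinRoot.root (X ^ p - C U : F[X]) ^ i := by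
  have hmon : (X ^ p - C U : F[X]).Monic := monic_X_pow_sub_C U hp
  have hdeg : (X ^ p - C U : F[X]).natDegree = p := natDegree_X_pow_sub_C
  obtain ⟨q, rfl⟩ := AdjoinRoot.mk_surjective h
  have hrq : AdjoinRoot.mk (X ^ p - C U : F[X]) (q %ₘ (X ^ p - C U)) = AdjoinRoot.mk _ q := by
    rw [AdjoinRoot.mk_eq_mk]
    exact dvd_modByMonic_sub q _
  have hrdeg : (q %ₘ (X ^ p - C U : F[X])).natDegree < p := by
    have := natDegree_modByMonic_lt q hmon (fun h1 => by
      have := congrArg natDegree h1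
      rw [hdeg, natDegree_one] at this
      exact hp this)
    rwa [hdeg] at this
  refine ⟨fun i => (q %ₘ (X ^ p - C U : F[X])).coeff i, ?_⟩
  rw [← hrq]
  conv_lhs => rw [(q %ₘ (X ^ p - C U : F[X])).as_sum_range' p hrdeg]
  rw [map_sum]
  refine Finset.sum_congr rfl fun i _ => ?_
  rw [← C_mul_X_pow_eq_monomial, map_mul, map_pow, AdjoinRoot.mk_C, AdjoinRoot.mk_X,
    Algebra.smul_def, AdjoinRoot.algebraMap_eq]

/-- The monomials `y ^ j`, `j < p`, are torsion free over `F`. -/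
theorem eq_zero_of_smul_root_pow_eq_zero {p : ℕ} (U : F) (a : F) (j : ℕ) (hj : j < p)
    (h0 : a • AdjoinRoot.root (X ^ p - C U : F[X]) ^ j = 0) : a = 0 := by
  by_contra ha
  have hp : p ≠ 0 := by omega
  have hmon : (X ^ p - C U : F[X]).Monic := monic_X_pow_sub_C U hp
  have hdeg : (X ^ p - C U : F[X]).natDegree = p := natDegree_X_pow_sub_C
  have h1 : AdjoinRoot.mk (X ^ p - C U : F[X]) (C a * X ^ j) ≠ 0 := by
    refine AdjoinRoot.mk_ne_zero_of_natDegree_lt hmon ?_ ?_
    · exact mul_ne_zero (C_ne_zero.mpr ha) (pow_ne_zero _ X_ne_zero)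
    · rw [natDegree_C_mul_X_pow j a ha, hdeg]
      exact hj
  apply h1
  rw [map_mul, map_pow, AdjoinRoot.mk_C, AdjoinRoot.mk_X, ← h0, Algebra.smul_def,
    AdjoinRoot.algebraMap_eq]

/-- The "trace" `∑ k, τ_{ζ^k}` projects onto the degree-`0` component. -/
theorem sum_kummerTwist_eq {p : ℕ} (hp : 0 < p) {ζ : K} (hζ : IsPrimitiveRoot ζ p) (U : F)
    (a : ℕ → F) :
    ∑ k ∈ Finset.range p,
        kummerTwist p U (ζ ^ k) (pow_pow_eq_one_of_isPrimitiveRoot hζ k)
          (∑ i ∈ Finset.range p, a i • AdjoinRoot.root (X ^ p - C U : F[X]) ^ i) =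
      (p : K) • AdjoinRoot.of (X ^ p - C U : F[X]) (a 0) := by
  have h := sum_smul_kummerTwist hζ U a 0 hp
  rw [pow_zero, Algebra.smul_def (a 0), mul_one, AdjoinRoot.algebraMap_eq] at h
  rw [← h]
  refine Finset.sum_congr rfl fun k _ => ?_
  rw [Nat.sub_zero, pow_pow_eq_one_of_isPrimitiveRoot hζ k, one_smul]

/-- The fixed points of the twist by a primitive `p`-th root of unity are the elements of `F`. -/
theorem exists_eq_of_of_kummerTwist_eq {p : ℕ} (hp : p.Prime) {ζ : K}
    (hζ : IsPrimitiveRoot ζ p) (U : F) (h : AdjoinRoot (X ^ p - C U : F[X]))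
    (hfix : kummerTwist p U ζ hζ.pow_eq_one h = h) :
    ∃ a : F, h = AdjoinRoot.of _ a := by
  have : NeZero p := ⟨hp.ne_zero⟩
  have hp0 : (p : K) ≠ 0 := (hζ.neZero').ne
  have hfixk : ∀ k : ℕ,
      kummerTwist p U (ζ ^ k) (pow_pow_eq_one_of_isPrimitiveRoot hζ k) h = h := by
    intro k
    induction k with
    | zero =>
      have := kummerTwist_one (K := K) p U h
      simpa only [pow_zero] using this
    | succ k ih =>
      have := kummerTwist_kummerTwist p U ζ (ζ ^ k) hζ.pow_eq_one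
        (pow_pow_eq_one_of_isPrimitiveRoot hζ k) h
      rw [ih, hfix] at this
      simpa only [pow_succ', eq_comm] using this
  obtain ⟨a, rfl⟩ := exists_eq_sum_smul_root_pow hp.ne_zero U h
  have hzero : ∀ j, 1 ≤ j → j < p → a j = 0 := by
    intro j hj1 hjp
    have h1 := sum_smul_kummerTwist hζ U a j hjp
    have h2 : ∑ k ∈ Finset.range p, (ζ ^ k) ^ (p - j) •
        kummerTwist p U (ζ ^ k) (pow_pow_eq_one_of_isPrimitiveRoot hζ k)
          (∑ i ∈ Finset.range p, a i • AdjoinRoot.root (X ^ p - C U : F[X]) ^ i) = 0 := by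
      rw [Finset.sum_congr rfl fun k _ => by rw [hfixk k], ← Finset.sum_smul,
        sum_pow_pow_of_isPrimitiveRoot hζ, if_neg, zero_smul]
      intro hdvd
      have := Nat.le_of_dvd (by omega) hdvd
      omega
    rw [h2] at h1
    have h3 : a j • AdjoinRoot.root (X ^ p - C U : F[X]) ^ j = 0 := by
      have := congrArg (fun x => (p : K)⁻¹ • x) h1
      simpa only [smul_zero, smul_smul, inv_mul_cancel₀ hp0, one_smul, eq_comm] using this
    exact eq_zero_of_smul_root_pow_eq_zero U (a j) j hjp h3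
  refine ⟨a 0, ?_⟩
  rw [Finset.sum_eq_single 0]
  · rw [pow_zero, Algebra.smul_def, mul_one, AdjoinRoot.algebraMap_eq]
  · intro i hi hi0
    rw [hzero i (Nat.one_le_iff_ne_zero.mpr hi0) (Finset.mem_range.mp hi), zero_smul]
  · intro h0
    exact absurd (Finset.mem_range.mpr hp.pos) h0

end Twists

end KummerConstants

end Fermat.Agent.Lib.helper8657
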