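import Mathlib
import Fermat.Prelude.Def_FLTPrelim_Ramification
import Fermat.Agent.Lib.helper54_Frobenius

/-!
# Places of `ℚ̄` over a rational prime: conjugacy, inertia, values of rationals (helper872)

Plumbing for statements about inertia groups `A.inertiaSubgroupIn ℚ` of valuation subrings
`A` of `ℚ̄ = AlgebraicClosure ℚ` (`GQ = Gal(ℚ̄/ℚ)`):

* `mem_decompositionSubgroup_iff`, `mem_inertiaSubgroupIn_iff` : elementwise
  characterisations (any algebra `L/K`);
* `conj_places` : all valuation subrings of `ℚ̄` over a prime `q` are `GQ`-conjugate;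
* `inertia_conj` : inertia groups of conjugate valuation subrings are conjugate;
* `inertia_le_of_normal` : a normal subgroup containing one inertia group over `q`
  contains all of them;
* `valuation_rat` : `A.valuation w = A.valuation q ^ padicValRat q w` for rational `w ≠ 0`;
  `valuation_rat_le_of_lt_one`;
* `rat_of_fixed`, `prod_rat_of_equivariant` : Galois-fixed elements are rational.
-/

set_option autoImplicit false

namespace Fermat.Agent.Lib.helper872

open ValuationSubring
open scoped Pointwise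
open Fermat.Agent.Lib.helper54

/-! ### Elementwise characterisation of decomposition and inertia groups -/

section general

variable {K L : Type*} [Field K] [Field L] [Algebra K L]

/-- `σ` is in the decomposition group of `A` iff `σ x ∈ A ↔ x ∈ A` for all `x`. -/
theorem mem_decompositionSubgroup_iff (A : ValuationSubring L) (σ : L ≃ₐ[K] L) :
    σ ∈ A.decompositionSubgroup K ↔ ∀ x : L, σ x ∈ A ↔ x ∈ A := by
  constructor
  · intro h x
    have h' : σ • A = A := h
    constructor
    · intro hx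
      have h1 : σ x ∈ σ • A := by rw [h']; exact hx
      rw [ValuationSubring.mem_pointwise_smul_iff_inv_smul_mem] at h1
      simpa using h1
    · intro hx
      have h1 : σ x ∈ σ • A := by
        rw [ValuationSubring.mem_pointwise_smul_iff_inv_smul_mem]
        simpa using hx
      rwa [h'] at h1
  · intro h
    show σ • A = A
    ext y
    rw [ValuationSubring.mem_pointwise_smul_iff_inv_smul_mem]
    have h1 := h (σ⁻¹ • y)
    have h2 : σ (σ⁻¹ • y) = y := by simp
    rw [h2] at h1
    exact h1.symm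

/-- `σ` is in the inertia group of `A` iff it stabilises `A` and acts trivially modulo the
maximal ideal. -/
theorem mem_inertiaSubgroupIn_iff (A : ValuationSubring L) (σ : L ≃ₐ[K] L) :
    σ ∈ A.inertiaSubgroupIn K ↔
      (∀ x : L, σ x ∈ A ↔ x ∈ A) ∧ ∀ x ∈ A, σ x - x ∈ A.nonunits := by
  unfold ValuationSubring.inertiaSubgroupIn
  constructor
  · rintro ⟨τ, hτ, rfl⟩
    refine ⟨(mem_decompositionSubgroup_iff A _).1 τ.2, fun x hx => ?_⟩
    have hker : MulSemiringAction.toRingAut (A.decompositionSubgroup K)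
        (IsLocalRing.ResidueField A) τ = 1 := hτ
    have h1 : τ • IsLocalRing.residue A ⟨x, hx⟩ = IsLocalRing.residue A ⟨x, hx⟩ := by
      have := congrArg
        (fun f : RingAut (IsLocalRing.ResidueField A) => f (IsLocalRing.residue A ⟨x, hx⟩)) hker
      simpa using this
    rw [← IsLocalRing.ResidueField.residue_smul] at h1
    have h2 : IsLocalRing.residue A (τ • (⟨x, hx⟩ : A) - ⟨x, hx⟩) = 0 := by
      rw [map_sub, h1, sub_self]
    rw [IsLocalRing.residue_eq_zero_iff] at h2
    exact (ValuationSubring.coe_mem_nonunits_iff (A := A)).2 h2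
  · rintro ⟨hdec, hres⟩
    have hσ : σ ∈ A.decompositionSubgroup K := (mem_decompositionSubgroup_iff A σ).2 hdec
    refine ⟨⟨σ, hσ⟩, ?_, rfl⟩
    show MulSemiringAction.toRingAut (A.decompositionSubgroup K)
        (IsLocalRing.ResidueField A) ⟨σ, hσ⟩ = 1
    ext xbar
    obtain ⟨x, rfl⟩ := IsLocalRing.residue_surjective xbar
    show (⟨σ, hσ⟩ : A.decompositionSubgroup K) • IsLocalRing.residue A x =
      IsLocalRing.residue A x
    rw [← IsLocalRing.ResidueField.residue_smul, ← sub_eq_zero, ← map_sub,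
      IsLocalRing.residue_eq_zero_iff]
    exact (ValuationSubring.coe_mem_nonunits_iff (A := A)).1 (hres x.1 x.2)

/-- Conjugation of inertia groups: if `A' = τ(A)` then `τ I_A τ⁻¹ ⊆ I_{A'}`. -/
theorem inertia_conj {A A' : ValuationSubring L} {τ σ : L ≃ₐ[K] L}
    (hτ : ∀ x : L, x ∈ A' ↔ τ⁻¹ x ∈ A) (hσ : σ ∈ A.inertiaSubgroupIn K) :
    τ * σ * τ⁻¹ ∈ A'.inertiaSubgroupIn K := by
  rw [mem_inertiaSubgroupIn_iff] at hσ ⊢
  obtain ⟨hdec, hres⟩ := hσ
  have hτ' : ∀ y : L, τ y ∈ A' ↔ y ∈ A := by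
    intro y
    rw [hτ]
    simp
  constructor
  · intro x
    have e : (τ * σ * τ⁻¹) x = τ (σ (τ⁻¹ x)) := rfl
    rw [e, hτ', hdec, ← hτ]
  · intro x hx
    have e : (τ * σ * τ⁻¹) x - x = τ (σ (τ⁻¹ x) - τ⁻¹ x) := by
      rw [map_sub]
      have e1 : τ (τ⁻¹ x) = x := by simp
      rw [e1]
      rfl
    rw [e]
    have hy : τ⁻¹ x ∈ A := (hτ x).1 hx
    have hz := hres _ hy
    set z := σ (τ⁻¹ x) - τ⁻¹ x with hzdef
    rw [ValuationSubring.mem_nonunits_iff_or] at hz ⊢
    rcases hz with hz | hz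
    · left; rw [hz, map_zero]
    · right
      intro h
      apply hz
      rw [← map_inv₀, hτ'] at h
      exact h

end general

/-! ### Valuation subrings of `ℚ̄` -/

attribute [local instance] isAlgebraic_Qbar isAlgClosure_Qbar isGalois_Qbar isIntegral_Qbar

local notation "Qb" => AlgebraicClosure ℚ
local notation "GQ" => (AlgebraicClosure ℚ ≃ₐ[ℚ] AlgebraicClosure ℚ)
local notation "Zb" => integralClosure ℤ (AlgebraicClosure ℚ)

/-- The prime of `ℤ̄` cut out by a valuation subring over `q` lies over `(q)`. -/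
theorem under_primeOfValuationSubring {q : ℕ} (hq : q.Prime) (A : ValuationSubring Qb)
    (hA : A.LiesOverPrime q) :
    (primeOfValuationSubring A).under ℤ = Ideal.span {(q : ℤ)} := by
  ext m
  rw [Ideal.under_def, Ideal.mem_comap, Ideal.mem_span_singleton, eq_intCast]
  constructor
  · intro hm
    by_contra hdvd
    exact intCast_not_mem_primeOfValuationSubring hq A hA m hdvd hm
  · rintro ⟨k, rfl⟩
    have h1 := natCast_mem_primeOfValuationSubring A hA
    have h2 : (((q : ℤ) * k : ℤ) : Zb) = ((q : ℕ) : Zb) * ((k : ℤ) : Zb) := by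
      push_cast; rfl
    rw [h2]
    exact Ideal.mul_mem_right _ _ h1

/-- Transitivity of `Gal(ℚ̄/ℚ)` on the primes of `ℤ̄` cut out by valuation subrings over `q`. -/
theorem exists_smul_prime_eq {q : ℕ} (hq : q.Prime) (A A' : ValuationSubring Qb)
    (hA : A.LiesOverPrime q) (hA' : A'.LiesOverPrime q) :
    ∃ τ : GQ, primeOfValuationSubring A' = τ • primeOfValuationSubring A := by
  let : TopologicalSpace Zb := ⊥
  have : DiscreteTopology Zb := ⟨rfl⟩
  have : ContinuousSMul GQ Zb := by
    rw [continuousSMul_iff_stabilizer_isOpen]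
    intro z
    have : (MulAction.stabilizer GQ z : Set GQ) = MulAction.stabilizer GQ (z : Qb) := by
      ext g
      simp [Subtype.ext_iff]
    rw [this]
    exact stabilizer_isOpen_of_isIntegral _
  have := isInvariant_Zbar
  exact Algebra.IsInvariant.exists_smul_of_under_eq_of_profinite (A := ℤ) (G := GQ)
    (primeOfValuationSubring A) (primeOfValuationSubring A')
    (by rw [under_primeOfValuationSubring hq A hA, under_primeOfValuationSubring hq A' hA'])

/-- If the prime cut out by `A'` is the `τ`-translate of the prime cut out by `A`, then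
`τ` maps `A` into `A'`. -/
theorem map_mem_of_prime_eq_smul {q : ℕ} (hq : q.Prime) (A A' : ValuationSubring Qb)
    (hA : A.LiesOverPrime q) (τ : GQ)
    (hτ : primeOfValuationSubring A' = τ • primeOfValuationSubring A) (x : Qb) (hx : x ∈ A) :
    τ x ∈ A' := by
  obtain ⟨a, b, hb, hab⟩ := exists_frac_of_mem_valuationSubring hq A hA x hx
  have hτb : τ • b ∉ primeOfValuationSubring A' := by
    intro h
    rw [hτ, Ideal.smul_mem_pointwise_smul_iff] at h
    exact hb h
  have h1 : τ x * ((τ • b : Zb) : Qb) = ((τ • a : Zb) : Qb) := by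
    have := congrArg τ hab
    rwa [map_mul] at this
  have hτaA : ((τ • a : Zb) : Qb) ∈ A' := mem_valuationSubring_of_isIntegral A' _ (τ • a).2
  rw [mem_primeOfValuationSubring, ValuationSubring.mem_nonunits_iff_or] at hτb
  push Not at hτb
  obtain ⟨hne, hunit⟩ := hτb
  have h2 : τ x = ((τ • a : Zb) : Qb) * (((τ • b : Zb) : Qb))⁻¹ := by
    rw [← h1, mul_assoc, mul_inv_cancel₀ hne, mul_one]
  rw [h2]
  exact A'.mul_mem _ _ hτaA hunit

/-- **Conjugacy of places**: all valuation subrings of `ℚ̄` over a prime `q` are conjugate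
under `Gal(ℚ̄/ℚ)`: `A' = τ(A)`. -/
theorem conj_places {q : ℕ} (hq : q.Prime) (A A' : ValuationSubring Qb)
    (hA : A.LiesOverPrime q) (hA' : A'.LiesOverPrime q) :
    ∃ τ : GQ, ∀ x : Qb, x ∈ A' ↔ τ⁻¹ x ∈ A := by
  obtain ⟨τ, hτ⟩ := exists_smul_prime_eq hq A A' hA hA'
  refine ⟨τ, fun x => ⟨fun hx => ?_, fun hx => ?_⟩⟩
  · have hτ' : primeOfValuationSubring A = τ⁻¹ • primeOfValuationSubring A' := by
      rw [hτ, inv_smul_smul]
    exact map_mem_of_prime_eq_smul hq A' A hA' τ⁻¹ hτ' x hx
  · have h := map_mem_of_prime_eq_smul hq A A' hA τ hτ _ hx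
    have e : τ (τ⁻¹ x) = x := by simp
    rwa [e] at h

/-- **Uniformity over the places above `q`**: a normal subgroup of `Gal(ℚ̄/ℚ)` containing
the inertia group of one valuation subring over `q` contains the inertia groups of all
valuation subrings over `q`. -/
theorem inertia_le_of_normal {q : ℕ} (hq : q.Prime) (S : Subgroup GQ) [hS : S.Normal]
    (A : ValuationSubring Qb) (hA : A.LiesOverPrime q) (hAS : A.inertiaSubgroupIn ℚ ≤ S)
    (A' : ValuationSubring Qb) (hA' : A'.LiesOverPrime q) :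
    A'.inertiaSubgroupIn ℚ ≤ S := by
  obtain ⟨τ, hτ⟩ := conj_places hq A A' hA hA'
  intro ρ hρ
  -- `A = τ⁻¹(A')`
  have hτinv : ∀ x : Qb, x ∈ A ↔ (τ⁻¹)⁻¹ x ∈ A' := by
    intro x
    rw [hτ]
    simp
  have h1 : τ⁻¹ * ρ * (τ⁻¹)⁻¹ ∈ A.inertiaSubgroupIn ℚ := inertia_conj hτinv hρ
  have h2 : τ⁻¹ * ρ * (τ⁻¹)⁻¹ ∈ S := hAS h1
  have h3 := hS.conj_mem _ h2 τ
  have e : τ * (τ⁻¹ * ρ * (τ⁻¹)⁻¹) * τ⁻¹ = ρ := by group
  rwa [e] at h3

/-- Elementwise form of `inertia_le_of_normal`: a conjugation-invariant property which holds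
on one inertia group over `q` holds on all of them. -/
theorem forall_inertia_of_conj_invariant {q : ℕ} (hq : q.Prime) (P : GQ → Prop)
    (hP : ∀ σ τ : GQ, P σ → P (τ * σ * τ⁻¹))
    (A : ValuationSubring Qb) (hA : A.LiesOverPrime q)
    (hAP : ∀ σ ∈ A.inertiaSubgroupIn ℚ, P σ)
    (A' : ValuationSubring Qb) (hA' : A'.LiesOverPrime q) :
    ∀ σ ∈ A'.inertiaSubgroupIn ℚ, P σ := by
  obtain ⟨τ, hτ⟩ := conj_places hq A A' hA hA'
  intro ρ hρ
  have hτinv : ∀ x : Qb, x ∈ A ↔ (τ⁻¹)⁻¹ x ∈ A' := by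
    intro x
    rw [hτ]
    simp
  have h1 : τ⁻¹ * ρ * (τ⁻¹)⁻¹ ∈ A.inertiaSubgroupIn ℚ := inertia_conj hτinv hρ
  have h3 := hP _ τ (hAP _ h1)
  have e : τ * (τ⁻¹ * ρ * (τ⁻¹)⁻¹) * τ⁻¹ = ρ := by group
  rwa [e] at h3

/-! ### Values of rational numbers -/

/-- Integers are in every valuation subring. -/
theorem intCast_mem (A : ValuationSubring Qb) (m : ℤ) : (m : Qb) ∈ A := by
  have : (m : Qb) = ((m : A) : Qb) := by simp
  rw [this]
  exact (m : A).2

/-- An integer prime to `q` has valuation `1` at a valuation subring over `q`. -/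
theorem valuation_intCast_of_not_dvd {q : ℕ} (hq : q.Prime) (A : ValuationSubring Qb)
    (hA : A.LiesOverPrime q) (m : ℤ) (hm : ¬ (q : ℤ) ∣ m) : A.valuation (m : Qb) = 1 := by
  have hle : A.valuation (m : Qb) ≤ 1 := (A.valuation_le_one_iff _).2 (intCast_mem A m)
  refine le_antisymm hle (not_lt.mp fun hlt => ?_)
  have hmem : (m : Qb) ∈ A.nonunits := (ValuationSubring.mem_nonunits_iff A).2 hlt
  have hcop : IsCoprime (q : ℤ) m :=
    (Nat.prime_iff_prime_int.mp hq).irreducible.coprime_iff_not_dvd.mpr hm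
  obtain ⟨s, t, hst⟩ := hcop
  have hq' : A.valuation (q : Qb) < 1 := (ValuationSubring.mem_nonunits_iff A).1 hA
  have h1 : A.valuation ((s : Qb) * (q : Qb) + (t : Qb) * (m : Qb)) < 1 := by
    refine lt_of_le_of_lt (A.valuation.map_add _ _) (max_lt ?_ ?_)
    · rw [map_mul]
      calc A.valuation (s : Qb) * A.valuation (q : Qb) ≤ 1 * A.valuation (q : Qb) :=
            mul_le_mul_left ((A.valuation_le_one_iff _).2 (intCast_mem A s)) _
        _ < 1 := by rw [one_mul]; exact hq'
    · rw [map_mul]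
      calc A.valuation (t : Qb) * A.valuation (m : Qb) ≤ 1 * A.valuation (m : Qb) :=
            mul_le_mul_left ((A.valuation_le_one_iff _).2 (intCast_mem A t)) _
        _ < 1 := by rw [one_mul]; exact hlt
  have h2 : (s : Qb) * (q : Qb) + (t : Qb) * (m : Qb) = 1 := by
    have := congrArg (Int.cast : ℤ → Qb) hst
    push_cast at this
    exact this
  rw [h2, map_one] at h1
  exact lt_irrefl _ h1

/-- The valuation of a nonzero integer at a valuation subring over `q`. -/
theorem valuation_intCast {q : ℕ} (hq : q.Prime) (A : ValuationSubring Qb)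
    (hA : A.LiesOverPrime q) (n : ℤ) (hn : n ≠ 0) :
    A.valuation (n : Qb) = A.valuation (q : Qb) ^ padicValInt q n := by
  have : Fact q.Prime := ⟨hq⟩
  obtain ⟨m, hm⟩ := padicValInt_dvd (p := q) n
  have hndvd : ¬ (q : ℤ) ∣ m := by
    rintro ⟨k, rfl⟩
    have h1 : (q : ℤ) ^ (padicValInt q n + 1) ∣ n := by
      refine ⟨k, ?_⟩
      rw [pow_succ]
      nth_rewrite 1 [hm]
      ring
    rw [padicValInt_dvd_iff] at h1
    rcases h1 with h1 | h1
    · exact hn h1
    · omega
  have e : (n : Qb) = (q : Qb) ^ padicValInt q n * (m : Qb) := by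
    have := congrArg (Int.cast : ℤ → Qb) hm
    push_cast at this
    exact this
  rw [e, map_mul, map_pow, valuation_intCast_of_not_dvd hq A hA m hndvd, mul_one]

/-- **Values of rationals**: at a valuation subring `A` of `ℚ̄` over `q`, the valuation of a
nonzero rational `w` is `A.valuation q ^ padicValRat q w`. -/
theorem valuation_rat {q : ℕ} (hq : q.Prime) (A : ValuationSubring Qb)
    (hA : A.LiesOverPrime q) (w : ℚ) (hw : w ≠ 0) :
    A.valuation (algebraMap ℚ Qb w) = A.valuation (q : Qb) ^ padicValRat q w := by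
  have hnum : w.num ≠ 0 := Rat.num_ne_zero.mpr hw
  have hden : (w.den : ℤ) ≠ 0 := by exact_mod_cast w.den_nz
  have hq0 : A.valuation (q : Qb) ≠ 0 := by
    rw [Ne, Valuation.zero_iff]
    exact_mod_cast hq.ne_zero
  have e : algebraMap ℚ Qb w = (w.num : Qb) / ((w.den : ℤ) : Qb) := by
    rw [eq_ratCast]
    conv_lhs => rw [← Rat.num_div_den w]
    push_cast
    rfl
  rw [e, map_div₀, valuation_intCast hq A hA _ hnum, valuation_intCast hq A hA _ hden]
  unfold padicValRat
  rw [zpow_sub₀ hq0, zpow_natCast, zpow_natCast]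
  rfl

/-- A rational number of valuation `< 1` at a valuation subring over `q` has valuation at
most that of `q`. -/
theorem valuation_rat_le_of_lt_one {q : ℕ} (hq : q.Prime) (A : ValuationSubring Qb)
    (hA : A.LiesOverPrime q) (w : ℚ) (hw : A.valuation (algebraMap ℚ Qb w) < 1) :
    A.valuation (algebraMap ℚ Qb w) ≤ A.valuation (q : Qb) := by
  by_cases hw0 : w = 0
  · rw [hw0, map_zero, map_zero]
    exact zero_le
  have hq1 : A.valuation (q : Qb) < 1 := (ValuationSubring.mem_nonunits_iff A).1 hA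
  have hq0 : A.valuation (q : Qb) ≠ 0 := by
    rw [Ne, Valuation.zero_iff]
    exact_mod_cast hq.ne_zero
  rw [valuation_rat hq A hA w hw0] at hw ⊢
  set k := padicValRat q w with hk
  have hkpos : 0 < k := by
    by_contra hneg
    push Not at hneg
    have : (1 : _) ≤ A.valuation (q : Qb) ^ k := by
      obtain ⟨n, hn⟩ := Int.exists_eq_neg_ofNat hneg
      rw [hn, zpow_neg, zpow_natCast]
      exact (one_le_inv₀ (pow_pos (zero_lt_iff.mpr hq0) n)).2 (pow_le_one₀ zero_le hq1.le)
    exact absurd hw (not_lt.mpr this)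
  obtain ⟨n, hn⟩ := Int.exists_eq_neg_ofNat (by omega : -k + 1 ≤ 0)
  have hk' : k = (n + 1 : ℕ) := by omega
  rw [hk', zpow_natCast, pow_succ]
  calc A.valuation (q : Qb) ^ n * A.valuation (q : Qb) ≤ 1 * A.valuation (q : Qb) :=
        mul_le_mul_left (pow_le_one₀ zero_le hq1.le) _
    _ = A.valuation (q : Qb) := one_mul _

/-! ### Galois-fixed elements are rational -/

/-- An element of `ℚ̄` fixed by `Gal(ℚ̄/ℚ)` is rational. -/
theorem rat_of_fixed (a : Qb) (ha : ∀ σ : GQ, σ a = a) : ∃ r : ℚ, algebraMap ℚ Qb r = a := by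
  have h1 : a ∈ Set.range (algebraMap ℚ Qb) := by
    rw [InfiniteGalois.mem_range_algebraMap_iff_fixed]
    exact ha
  exact h1

/-- The product of a finite family permuted by `Gal(ℚ̄/ℚ)` is rational. -/
theorem prod_rat_of_equivariant {ι : Type*} (s : Finset ι) (f : ι → Qb) (π : GQ → ι → ι)
    (hπs : ∀ σ, ∀ i ∈ s, π σ i ∈ s) (hπinj : ∀ σ, Set.InjOn (π σ) s)
    (hf : ∀ σ, ∀ i ∈ s, σ (f i) = f (π σ i)) :
    ∃ r : ℚ, algebraMap ℚ Qb r = ∏ i ∈ s, f i := by
  classical
  apply rat_of_fixed
  intro σ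
  rw [map_prod]
  have hsurj : ∀ j ∈ s, ∃ i ∈ s, π σ i = j := by
    have himg : s.image (π σ) = s := by
      apply Finset.eq_of_subset_of_card_le
      · intro j hj
        obtain ⟨i, hi, rfl⟩ := Finset.mem_image.1 hj
        exact hπs σ i hi
      · rw [Finset.card_image_of_injOn (hπinj σ)]
    intro j hj
    rw [← himg] at hj
    obtain ⟨i, hi, rfl⟩ := Finset.mem_image.1 hj
    exact ⟨i, hi, rfl⟩
  calc ∏ i ∈ s, σ (f i) = ∏ i ∈ s, f (π σ i) := Finset.prod_congr rfl (hf σ)
    _ = ∏ j ∈ s, f j :=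
      Finset.prod_bij (fun i _ => π σ i) (fun i hi => hπs σ i hi)
        (fun i hi j hj h => hπinj σ hi hj h)
        (fun j hj => by obtain ⟨i, hi, rfl⟩ := hsurj j hj; exact ⟨i, hi, rfl⟩)
        (fun i _ => rfl)

end Fermat.Agent.Lib.helper872
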