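import Mathlib

/-!
# Conservation of number over a (possibly non-discrete) valuation ring

Mathlib-only brick (board row S37/S18-CONS-HENS).  Setting: `A` an integrally closed domain
with algebraically closed fraction field `L` (for instance the valuation ring of `ℚ̄` above a
prime `ℓ`, which is not noetherian), and a residue field `A ↠ k`.  For a chart algebra `B`
over `A` and an ideal `I` with `B ⧸ I` finite free over `A`, the zero-cycle of `I` on the
generic fibre specialises to the zero-cycle of `I` on the special fibre, with multiplicities.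

The proof uses no regularity of a model, no discreteness, and no Riemann-Roch: the
characteristic polynomial of a multiplication on `B ⧸ I` is computed on both fibres.
-/

set_option autoImplicit false

open Module Polynomial UniqueFactorizationMonoid

namespace Fermat.Agent.Lib.helper873

section InvariantSubmodule

variable {K V : Type*} [Field K] [AddCommGroup V] [Module K V] [FiniteDimensional K V]

open Module.Basis in
/-- Characteristic polynomial of an endomorphism preserving a subspace: product of the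
characteristic polynomials on the subspace and on the quotient. -/
theorem charpoly_eq_restrict_mul_mapQ (W : Submodule K V) (e : V →ₗ[K] V)
    (he : W ≤ W.comap e) :
    e.charpoly = (e.restrict he).charpoly * (W.mapQ W e he).charpoly := by
  classical
  let m := Module.Free.ChooseBasisIndex K W
  let bW : Basis m K W := Module.Free.chooseBasis K W
  let n := Module.Free.ChooseBasisIndex K (V ⧸ W)
  let bQ : Basis n K (V ⧸ W) := Module.Free.chooseBasis K (V ⧸ W)
  let b := sumQuot bW bQ
  let A : Matrix m m K := LinearMap.toMatrix bW bW (e.restrict he)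
  let B : Matrix m n K := Matrix.of fun i l ↦
    ((sumQuot bW bQ).repr (e ((sumQuot bW bQ) (Sum.inr l)))) (Sum.inl i)
  let D : Matrix n n K := LinearMap.toMatrix bQ bQ (W.mapQ W e he)
  suffices LinearMap.toMatrix b b e = Matrix.fromBlocks A B 0 D by
    rw [← LinearMap.charpoly_toMatrix e b, this, ← LinearMap.charpoly_toMatrix (e.restrict he) bW,
      ← LinearMap.charpoly_toMatrix (W.mapQ W e he) bQ, Matrix.charpoly_fromBlocks_zero₂₁]
  ext u v
  cases u with
  | inl i =>
    cases v with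
    | inl k =>
      simp only [b, sumQuot_inl, Matrix.fromBlocks_apply₁₁, A, LinearMap.toMatrix_apply]
      apply sumQuot_repr_inl_of_mem
    | inr l => simp [b, LinearMap.toMatrix_apply, Matrix.fromBlocks_apply₁₂, B]
  | inr j =>
    cases v with
    | inl k =>
      suffices W.mkQ (e (bW k)) = 0 by simp [LinearMap.toMatrix_apply, b, this]
      rw [← LinearMap.mem_ker, Submodule.ker_mkQ]
      exact he (Submodule.coe_mem (bW k))
    | inr l =>
      simp only [LinearMap.toMatrix_apply, sumQuot_repr_inr,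
        Matrix.fromBlocks_apply₂₂, b, D]
      rw [← sumQuot_inr bW bQ l, W.mapQ_apply]
      simp

/-- Characteristic polynomial of a scalar endomorphism. -/
theorem charpoly_smul_id (μ : K) :
    (μ • (LinearMap.id : V →ₗ[K] V)).charpoly = (X - C μ) ^ finrank K V := by
  have h0 : IsNilpotent ((μ • (LinearMap.id : V →ₗ[K] V)) - μ • (1 : Module.End K V)) := by
    have : (μ • (LinearMap.id : V →ₗ[K] V)) - μ • (1 : Module.End K V) = 0 := by
      ext x; simp
    rw [this]; exact IsNilpotent.zero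
  have h1 := IsNilpotent.charpoly_eq_X_pow_finrank h0
  rw [LinearMap.charpoly_sub_smul] at h1
  have h2 := congrArg (fun p : K[X] => p.comp (X - C μ)) h1
  simp only [Polynomial.comp_assoc] at h2
  simpa using h2

/-- Characteristic polynomial along a surjection intertwining two endomorphisms: the kernel
part times the image part. -/
theorem charpoly_eq_of_surjective {V' : Type*} [AddCommGroup V'] [Module K V']
    [FiniteDimensional K V'] (π : V →ₗ[K] V') (hπ : Function.Surjective π)
    (e : V →ₗ[K] V) (e' : V' →ₗ[K] V') (h : π ∘ₗ e = e' ∘ₗ π)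
    (he : LinearMap.ker π ≤ (LinearMap.ker π).comap e) :
    e.charpoly = (e.restrict he).charpoly * e'.charpoly := by
  rw [charpoly_eq_restrict_mul_mapQ (LinearMap.ker π) e he]
  congr 1
  set g := π.quotKerEquivOfSurjective hπ with hg
  rw [← LinearEquiv.charpoly_conj g]
  congr 1
  apply LinearMap.ext
  intro y
  obtain ⟨x, rfl⟩ := g.surjective y
  rw [LinearEquiv.conj_apply_apply, LinearEquiv.symm_apply_apply]
  induction x using Submodule.Quotient.induction_on with
  | _ x =>
    rw [Submodule.mapQ_apply, hg, LinearMap.quotKerEquivOfSurjective_apply_mk,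
      LinearMap.quotKerEquivOfSurjective_apply_mk]
    exact congrArg (fun f => f x) h

end InvariantSubmodule

section Dedekind

/-- The value in `K` of `c` at the ideal `𝔭`: the scalar `μ` with `c - μ ∈ 𝔭`
(junk value `0` if there is none). -/
noncomputable def resVal (K : Type*) {R : Type*} [Field K] [CommRing R] [Algebra K R]
    (𝔭 : Ideal R) (c : R) : K :=
  open Classical in if h : ∃ μ : K, c - algebraMap K R μ ∈ 𝔭 then h.choose else 0

variable {K R : Type*} [Field K] [CommRing R] [Algebra K R]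

theorem resVal_spec {𝔭 : Ideal R} {c : R} (h : ∃ μ : K, c - algebraMap K R μ ∈ 𝔭) :
    c - algebraMap K R (resVal K 𝔭 c) ∈ 𝔭 := by
  unfold resVal
  rw [dif_pos h]
  exact h.choose_spec

theorem resVal_eq {𝔭 : Ideal R} (h𝔭 : 𝔭 ≠ ⊤) {c : R} {μ : K}
    (h : c - algebraMap K R μ ∈ 𝔭) : resVal K 𝔭 c = μ := by
  have h1 := resVal_spec (K := K) ⟨μ, h⟩
  by_contra hne
  apply h𝔭
  have h2 : algebraMap K R (resVal K 𝔭 c - μ) ∈ 𝔭 := by
    have := 𝔭.sub_mem h h1
    rw [map_sub]
    convert this using 1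
    ring
  have hu : IsUnit (algebraMap K R (resVal K 𝔭 c - μ)) :=
    (IsUnit.mk0 _ (sub_ne_zero.mpr hne)).map _
  exact Ideal.eq_top_of_isUnit_mem _ h2 hu

variable [IsDedekindDomain R]

/-- In a Dedekind domain, `J/𝔭J` is one-dimensional over `K` when `𝔭` has residue field `K`:
one generator `a`, every other element is a `K`-multiple of `a` modulo `𝔭J`. -/
theorem exists_generator_mod_mul {𝔭 J : Ideal R} (h𝔭 : 𝔭.IsMaximal) (hJ : J ≠ ⊥)
    (hres : ∀ c : R, ∃ μ : K, c - algebraMap K R μ ∈ 𝔭) :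
    ∃ a ∈ J, a ∉ 𝔭 * J ∧ ∀ j ∈ J, ∃ μ : K, j - algebraMap K R μ * a ∈ 𝔭 * J := by
  have hlt : 𝔭 * J < J := by
    refine lt_of_le_of_ne Ideal.mul_le_right ?_
    intro heq
    have h1 : 𝔭 * J = ⊤ * J := by rw [heq, Ideal.top_mul]
    have h2 : 𝔭 = ⊤ := mul_right_cancel₀ hJ h1
    exact h𝔭.ne_top h2
  obtain ⟨a, haJ, ha⟩ := SetLike.exists_of_lt hlt
  refine ⟨a, haJ, ha, ?_⟩
  -- span {a} = J * I for some I, and I is not contained in 𝔭
  have hdvd : J ∣ Ideal.span {a} := Ideal.dvd_iff_le.mpr ((Ideal.span_singleton_le_iff_mem J).mpr haJ)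
  obtain ⟨I, hI⟩ := hdvd
  have hI𝔭 : ¬ I ≤ 𝔭 := by
    intro hle
    apply ha
    have : Ideal.span {a} ≤ 𝔭 * J := by
      rw [hI, mul_comm]
      exact Ideal.mul_mono_left hle
    exact this (Ideal.mem_span_singleton_self a)
  have hsup : I ⊔ 𝔭 = ⊤ := by
    by_contra hne
    have := h𝔭.eq_of_le hne le_sup_right
    exact hI𝔭 (this ▸ le_sup_left)
  have hJeq : J = Ideal.span {a} ⊔ 𝔭 * J := by
    rw [hI, mul_comm 𝔭 J, ← Ideal.mul_sup, hsup, Ideal.mul_top]
  intro j hj
  rw [hJeq] at hj
  obtain ⟨x, hx, t, ht, rfl⟩ := Submodule.mem_sup.mp hj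
  obtain ⟨r, rfl⟩ := Ideal.mem_span_singleton'.mp hx
  obtain ⟨μ, hμ⟩ := hres r
  refine ⟨μ, ?_⟩
  have : r * a + t - algebraMap K R μ * a = (r - algebraMap K R μ) * a + t := by ring
  rw [this]
  exact Ideal.add_mem _ (Ideal.mul_mem_mul hμ haJ) ht

/-- One step of the filtration: the characteristic polynomial of multiplication by `c` on
`R/𝔭J` is `(X - c(𝔭))` times the one on `R/J`. -/
theorem charpoly_mulLeft_quotient_mul {𝔭 J : Ideal R} (h𝔭 : 𝔭.IsMaximal) (hJ : J ≠ ⊥)
    [Module.Finite K (R ⧸ 𝔭 * J)] [Module.Finite K (R ⧸ J)]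
    (hres : ∀ c : R, ∃ μ : K, c - algebraMap K R μ ∈ 𝔭) (c : R) :
    (LinearMap.mulLeft K (Ideal.Quotient.mk (𝔭 * J) c)).charpoly =
      (X - C (resVal K 𝔭 c)) * (LinearMap.mulLeft K (Ideal.Quotient.mk J c)).charpoly := by
  have hle : 𝔭 * J ≤ J := Ideal.mul_le_right
  set π : (R ⧸ 𝔭 * J) →ₗ[K] (R ⧸ J) := (Ideal.Quotient.factorₐ K hle).toLinearMap with hπ
  have hπmk : ∀ x : R, π (Ideal.Quotient.mk (𝔭 * J) x) = Ideal.Quotient.mk J x := fun x => rfl
  have hπsurj : Function.Surjective π := by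
    intro y
    obtain ⟨x, rfl⟩ := Ideal.Quotient.mk_surjective y
    exact ⟨Ideal.Quotient.mk (𝔭 * J) x, hπmk x⟩
  have hker : ∀ x : R, Ideal.Quotient.mk (𝔭 * J) x ∈ LinearMap.ker π ↔ x ∈ J := by
    intro x
    rw [LinearMap.mem_ker, hπmk, Ideal.Quotient.eq_zero_iff_mem]
  set e := LinearMap.mulLeft K (Ideal.Quotient.mk (𝔭 * J) c) with he_def
  set e' := LinearMap.mulLeft K (Ideal.Quotient.mk J c) with he'_def
  have hcomm : π ∘ₗ e = e' ∘ₗ π := by
    apply LinearMap.ext
    intro y
    obtain ⟨x, rfl⟩ := Ideal.Quotient.mk_surjective y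
    simp only [LinearMap.comp_apply, he_def, he'_def, LinearMap.mulLeft_apply, hπmk, ← map_mul]
  have he : LinearMap.ker π ≤ (LinearMap.ker π).comap e := by
    intro y hy
    obtain ⟨x, rfl⟩ := Ideal.Quotient.mk_surjective y
    rw [Submodule.mem_comap, he_def, LinearMap.mulLeft_apply, ← map_mul, hker]
    exact J.mul_mem_left c ((hker x).mp hy)
  rw [charpoly_eq_of_surjective π hπsurj e e' hcomm he]
  congr 1
  -- the restriction is the scalar `c(𝔭)` on a one-dimensional space
  have hscal : e.restrict he = resVal K 𝔭 c • (LinearMap.id : LinearMap.ker π →ₗ[K] LinearMap.ker π) := by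
    apply LinearMap.ext
    rintro ⟨y, hy⟩
    obtain ⟨x, rfl⟩ := Ideal.Quotient.mk_surjective y
    apply Subtype.ext
    simp only [LinearMap.coe_restrict_apply, LinearMap.smul_apply, LinearMap.id_coe, id_eq,
      SetLike.mk_smul_mk, he_def, LinearMap.mulLeft_apply]
    rw [Algebra.smul_def, ← Ideal.Quotient.mk_algebraMap, ← map_mul, ← map_mul, ← sub_eq_zero, ← map_sub,
      Ideal.Quotient.eq_zero_iff_mem, ← sub_mul]
    exact Ideal.mul_mem_mul (resVal_spec (hres c)) ((hker x).mp hy)
  have hdim : finrank K (LinearMap.ker π) = 1 := by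
    obtain ⟨a, haJ, ha, hgen⟩ := exists_generator_mod_mul (K := K) h𝔭 hJ hres
    have hv0 : (⟨Ideal.Quotient.mk (𝔭 * J) a, (hker a).mpr haJ⟩ : LinearMap.ker π) ≠ 0 := by
      intro h0
      apply ha
      have := congrArg Subtype.val h0
      exact Ideal.Quotient.eq_zero_iff_mem.mp this
    rw [finrank_eq_one_iff_of_nonzero' _ hv0]
    rintro ⟨y, hy⟩
    obtain ⟨x, rfl⟩ := Ideal.Quotient.mk_surjective y
    obtain ⟨μ, hμ⟩ := hgen x ((hker x).mp hy)
    refine ⟨μ, ?_⟩
    apply Subtype.ext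
    simp only [SetLike.mk_smul_mk]
    rw [Algebra.smul_def, ← Ideal.Quotient.mk_algebraMap, ← map_mul, eq_comm, ← sub_eq_zero, ← map_sub,
      Ideal.Quotient.eq_zero_iff_mem]
    exact hμ
  rw [hscal, charpoly_smul_id, hdim, pow_one]

theorem charpoly_mulLeft_quotient_aux (c : R) (J : Ideal R) :
    J ≠ ⊥ → ∀ [Module.Finite K (R ⧸ J)],
    (∀ 𝔭 ∈ normalizedFactors J, ∀ c : R, ∃ μ : K, c - algebraMap K R μ ∈ 𝔭) →
    (LinearMap.mulLeft K (Ideal.Quotient.mk J c)).charpoly =
      ((normalizedFactors J).map fun 𝔭 => X - C (resVal K 𝔭 c)).prod := by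
  classical
  refine UniqueFactorizationMonoid.induction_on_prime
    (P := fun J : Ideal R => J ≠ ⊥ → ∀ [Module.Finite K (R ⧸ J)],
      (∀ 𝔭 ∈ normalizedFactors J, ∀ c : R, ∃ μ : K, c - algebraMap K R μ ∈ 𝔭) →
      (LinearMap.mulLeft K (Ideal.Quotient.mk J c)).charpoly =
        ((normalizedFactors J).map fun 𝔭 => X - C (resVal K 𝔭 c)).prod) J ?_ ?_ ?_
  · intro h
    exact absurd Ideal.zero_eq_bot h
  · intro x hx _ hfin _
    have hx' : x = 1 := by rw [Ideal.one_eq_top]; exact Ideal.isUnit_iff.mp hx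
    subst hx'
    rw [normalizedFactors_one, Multiset.map_zero, Multiset.prod_zero]
    have hsub : Subsingleton (R ⧸ (1 : Ideal R)) := by
      rw [Ideal.one_eq_top]
      exact Ideal.Quotient.subsingleton_iff.mpr rfl
    have hdeg := LinearMap.charpoly_natDegree
      (LinearMap.mulLeft K (Ideal.Quotient.mk (1 : Ideal R) c))
    rw [Module.finrank_zero_of_subsingleton] at hdeg
    exact Polynomial.eq_one_of_monic_natDegree_zero
      (LinearMap.charpoly_monic (LinearMap.mulLeft K (Ideal.Quotient.mk (1 : Ideal R) c))) hdeg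
  · intro a p ha hp ih hne hfin hres
    have hpI : p.IsPrime := Ideal.isPrime_of_prime hp
    have hpmax : p.IsMaximal := hpI.isMaximal hp.ne_zero
    have hfin' : Module.Finite K (R ⧸ a) := by
      refine Module.Finite.of_surjective
        (Ideal.Quotient.factorₐ K (Ideal.mul_le_right : p * a ≤ a)).toLinearMap ?_
      intro y
      obtain ⟨x, rfl⟩ := Ideal.Quotient.mk_surjective y
      exact ⟨Ideal.Quotient.mk (p * a) x, rfl⟩
    have hnf : normalizedFactors (p * a) = p ::ₘ normalizedFactors a := by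
      rw [normalizedFactors_mul hp.ne_zero ha, normalizedFactors_irreducible hp.irreducible,
        normalize_eq, Multiset.singleton_add]
    rw [charpoly_mulLeft_quotient_mul hpmax ha
      (hres p (by rw [hnf]; exact Multiset.mem_cons_self _ _)) c, hnf, Multiset.map_cons,
      Multiset.prod_cons, ih ha
        (fun 𝔭 h𝔭 => hres 𝔭 (by rw [hnf]; exact Multiset.mem_cons_of_mem h𝔭))]

/-- **(H1)** `K` a field, `R` a Dedekind domain and `K`-algebra, `J ≠ ⊥` an ideal with `R/J`
finite-dimensional, such that every prime factor of `J` has residue field `K`. Then the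
characteristic polynomial of multiplication by `c` on `R/J` is the product of `X - c(𝔭)` over
the prime factors `𝔭` of `J` counted with multiplicity. -/
theorem charpoly_mulLeft_quotient (J : Ideal R) (hJ : J ≠ ⊥) [Module.Finite K (R ⧸ J)]
    (hres : ∀ 𝔭 ∈ normalizedFactors J, ∀ c : R, ∃ μ : K, c - algebraMap K R μ ∈ 𝔭) (c : R) :
    (LinearMap.mulLeft K (Ideal.Quotient.mk J c)).charpoly =
      ((normalizedFactors J).map fun 𝔭 => X - C (resVal K 𝔭 c)).prod :=
  charpoly_mulLeft_quotient_aux c J hJ hres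

end Dedekind

section BaseChange

/-- Transfer of the characteristic polynomial of a multiplication along a semilinear ring
homomorphism which carries a basis to a basis. -/
theorem charpoly_mulLeft_map_of_basis {A C K D ι : Type*} [CommRing A] [CommRing C] [Algebra A C]
    [Field K] [CommRing D] [Algebra K D] [Fintype ι] [DecidableEq ι]
    (φ : A →+* K) (g : C →+* D) (hg : ∀ (a : A) (c : C), g (a • c) = φ a • g c)
    [Module.Free A C] [Module.Finite A C] [Module.Finite K D]
    (b : Basis ι A C) (b' : Basis ι K D) (hb : ∀ i, b' i = g (b i)) (c : C) :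
    (LinearMap.mulLeft K (g c)).charpoly = ((LinearMap.mulLeft A c).charpoly).map φ := by
  rw [← LinearMap.charpoly_toMatrix (LinearMap.mulLeft K (g c)) b',
    ← LinearMap.charpoly_toMatrix (LinearMap.mulLeft A c) b, ← Matrix.charpoly_map]
  congr 1
  ext i j
  rw [LinearMap.toMatrix_apply, Matrix.map_apply, LinearMap.toMatrix_apply,
    LinearMap.mulLeft_apply, LinearMap.mulLeft_apply, hb, ← map_mul]
  have h1 : g (c * b j) = ∑ i, φ (b.repr (c * b j) i) • b' i := by
    conv_lhs => rw [← b.sum_repr (c * b j)]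
    rw [map_sum]
    refine Finset.sum_congr rfl fun i _ => ?_
    rw [hg, hb]
  rw [h1, map_sum, Finsupp.finsetSum_apply]
  simp only [map_smul, Basis.repr_self, Finsupp.smul_apply, Finsupp.single_apply, smul_eq_mul,
    mul_ite, mul_one, mul_zero, Finset.sum_ite_eq', Finset.mem_univ, if_true]

end BaseChange

section GenericFibre

variable {A L B R : Type*} [CommRing A] [IsDomain A] [Field L] [Algebra A L] [IsFractionRing A L]
  [CommRing B] [Algebra A B] [CommRing R] [Algebra L R] [Algebra A R] [IsScalarTower A L R]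
  (fL : B →ₐ[A] R)

/-- Denominators: if `fL β` lies in the extension of `I` to the generic fibre then an
`A`-multiple of `β` lies in `I`. -/
theorem exists_smul_mem_of_map_mem
    (hsurj : ∀ r : R, ∃ b : B, ∃ s : A, s ≠ 0 ∧ algebraMap A R s * r = fL b)
    (hker : ∀ b : B, fL b = 0 → ∃ s : A, s ≠ 0 ∧ s • b = 0)
    (I : Ideal B) (β : B) (hβ : fL β ∈ I.map fL) : ∃ s : A, s ≠ 0 ∧ s • β ∈ I := by
  have key : ∀ x ∈ I.map fL, ∃ s : A, s ≠ 0 ∧ ∃ i ∈ I, algebraMap A R s * x = fL i := by
    intro x hx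
    refine Submodule.span_induction
      (p := fun x _ => ∃ s : A, s ≠ 0 ∧ ∃ i ∈ I, algebraMap A R s * x = fL i) ?_ ?_ ?_ ?_ hx
    · rintro _ ⟨i, hi, rfl⟩
      exact ⟨1, one_ne_zero, i, hi, by simp⟩
    · exact ⟨1, one_ne_zero, 0, I.zero_mem, by simp⟩
    · rintro x y _ _ ⟨s, hs, i, hi, hx⟩ ⟨t, ht, j, hj, hy⟩
      refine ⟨s * t, mul_ne_zero hs ht, t • i + s • j,
        I.add_mem (I.smul_of_tower_mem t hi) (I.smul_of_tower_mem s hj), ?_⟩
      rw [map_add, map_smul, map_smul, ← hx, ← hy, Algebra.smul_def, Algebra.smul_def, map_mul]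
      ring
    · rintro r x _ ⟨s, hs, i, hi, hx⟩
      obtain ⟨β', t, ht, hr⟩ := hsurj r
      refine ⟨t * s, mul_ne_zero ht hs, β' * i, I.mul_mem_left _ hi, ?_⟩
      rw [smul_eq_mul, map_mul, map_mul, ← hr, ← hx]
      ring
  obtain ⟨s, hs, i, hi, h⟩ := key _ hβ
  have h0 : fL (s • β - i) = 0 := by
    rw [map_sub, map_smul, Algebra.smul_def, h, sub_self]
  obtain ⟨t, ht, h1⟩ := hker _ h0
  refine ⟨t * s, mul_ne_zero ht hs, ?_⟩
  have h2 : (t * s) • β = t • i := by
    rw [mul_smul, ← sub_eq_zero, ← smul_sub]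
    exact h1
  rw [h2]
  exact I.smul_of_tower_mem t hi

/-- The induced map on quotients, generic fibre. -/
noncomputable def quotMapL (I : Ideal B) : B ⧸ I →+* R ⧸ I.map fL :=
  Ideal.quotientMap (I.map fL) (fL : B →+* R) Ideal.le_comap_map

omit [IsDomain A] [IsFractionRing A L] in
theorem quotMapL_mk (I : Ideal B) (β : B) :
    quotMapL fL I (Ideal.Quotient.mk I β) = Ideal.Quotient.mk (I.map fL) (fL β) := by
  simp [quotMapL]

omit [IsDomain A] [IsFractionRing A L] in
theorem quotMapL_smul (I : Ideal B) (a : A) (y : B ⧸ I) :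
    quotMapL fL I (a • y) = algebraMap A L a • quotMapL fL I y := by
  obtain ⟨β, rfl⟩ := Ideal.Quotient.mk_surjective y
  have h1 : a • Ideal.Quotient.mk I β = Ideal.Quotient.mk I (a • β) := rfl
  have h2 : fL (a • β) = algebraMap L R (algebraMap A L a) * fL β := by
    rw [map_smul, Algebra.smul_def, IsScalarTower.algebraMap_apply A L R]
  rw [h1, quotMapL_mk, quotMapL_mk, h2, map_mul, Ideal.Quotient.mk_algebraMap, ← Algebra.smul_def]

/-- An `A`-basis of `B ⧸ I` maps to an `L`-basis of the generic fibre quotient. -/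
theorem exists_basis_generic {ι : Type*} [Finite ι]
    (hsurj : ∀ r : R, ∃ b : B, ∃ s : A, s ≠ 0 ∧ algebraMap A R s * r = fL b)
    (hker : ∀ b : B, fL b = 0 → ∃ s : A, s ≠ 0 ∧ s • b = 0)
    (I : Ideal B) (b : Basis ι A (B ⧸ I)) :
    ∃ b' : Basis ι L (R ⧸ I.map fL), ∀ i, b' i = quotMapL fL I (b i) := by
  classical
  cases nonempty_fintype ι
  have hli : LinearIndependent L (fun i => quotMapL fL I (b i)) := by
    rw [Fintype.linearIndependent_iff]
    intro c hc
    obtain ⟨⟨s, hs⟩, hsc⟩ := IsLocalization.exist_integer_multiples_of_finite (nonZeroDivisors A) c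
    have hs0 : s ≠ 0 := nonZeroDivisors.ne_zero hs
    choose a ha using hsc
    -- `ha i : algebraMap A L (a i) = s • c i`
    have hsum : quotMapL fL I (∑ i, a i • b i) = 0 := by
      rw [map_sum]
      have : ∀ i, quotMapL fL I (a i • b i) = algebraMap A L s • (c i • quotMapL fL I (b i)) := by
        intro i
        rw [quotMapL_smul (L := L), ha i, smul_smul, Algebra.smul_def (s : A) (c i)]
      simp_rw [this]
      rw [← Finset.smul_sum, hc, smul_zero]
    obtain ⟨β, hβ⟩ := Ideal.Quotient.mk_surjective (∑ i, a i • b i)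
    rw [← hβ, quotMapL_mk, Ideal.Quotient.eq_zero_iff_mem] at hsum
    obtain ⟨t, ht, htβ⟩ := exists_smul_mem_of_map_mem fL hsurj hker I β hsum
    have h3 : ∑ i, (t * a i) • b i = 0 := by
      have : t • (Ideal.Quotient.mk I β) = 0 := by
        have h1 : t • Ideal.Quotient.mk I β = Ideal.Quotient.mk I (t • β) := rfl
        rw [h1]
        exact Ideal.Quotient.eq_zero_iff_mem.mpr htβ
      rw [hβ, Finset.smul_sum] at this
      simpa [mul_smul] using this
    have h4 := Fintype.linearIndependent_iff.mp b.linearIndependent _ h3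
    intro i
    have h5 : a i = 0 := by
      have := h4 i
      rcases mul_eq_zero.mp this with h | h
      · exact absurd h ht
      · exact h
    have h6 := ha i
    rw [h5, map_zero] at h6
    have h7 : (s : A) • c i = algebraMap A L s * c i := Algebra.smul_def _ _
    rw [h7] at h6
    rcases mul_eq_zero.mp h6.symm with h | h
    · exact absurd ((map_eq_zero_iff _ (IsFractionRing.injective A L)).mp h) hs0
    · exact h
  have hsp : ⊤ ≤ Submodule.span L (Set.range fun i => quotMapL fL I (b i)) := by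
    rintro y -
    obtain ⟨r, rfl⟩ := Ideal.Quotient.mk_surjective y
    obtain ⟨β, s, hs, hr⟩ := hsurj r
    have h1 : Ideal.Quotient.mk (I.map fL) (fL β) ∈
        Submodule.span L (Set.range fun i => quotMapL fL I (b i)) := by
      rw [← quotMapL_mk, ← b.sum_repr (Ideal.Quotient.mk I β), map_sum]
      refine Submodule.sum_mem _ fun i _ => ?_
      rw [quotMapL_smul (L := L)]
      exact Submodule.smul_mem _ _ (Submodule.subset_span ⟨i, rfl⟩)
    have h2 : Ideal.Quotient.mk (I.map fL) r =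
        (algebraMap A L s)⁻¹ • Ideal.Quotient.mk (I.map fL) (fL β) := by
      rw [← hr, map_mul, IsScalarTower.algebraMap_apply A L R, Ideal.Quotient.mk_algebraMap,
        ← Algebra.smul_def, smul_smul, inv_mul_cancel₀, one_smul]
      exact (map_ne_zero_iff _ (IsFractionRing.injective A L)).mpr hs
    rw [h2]
    exact Submodule.smul_mem _ _ h1
  exact ⟨Basis.mk hli hsp, fun i => by rw [Basis.mk_apply]⟩

end GenericFibre

section SpecialFibre

variable {A k B S : Type*} [CommRing A] [Field k] [Algebra A k]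
  [CommRing B] [Algebra A B] [CommRing S] [Algebra k S] [Algebra A S] [IsScalarTower A k S]
  (fk : B →ₐ[A] S)

/-- The induced map on quotients, special fibre. -/
noncomputable def quotMapk (I : Ideal B) : B ⧸ I →+* S ⧸ I.map fk :=
  Ideal.quotientMap (I.map fk) (fk : B →+* S) Ideal.le_comap_map

theorem quotMapk_mk (I : Ideal B) (β : B) :
    quotMapk fk I (Ideal.Quotient.mk I β) = Ideal.Quotient.mk (I.map fk) (fk β) := by
  simp [quotMapk]

theorem quotMapk_smul (I : Ideal B) (a : A) (y : B ⧸ I) :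
    quotMapk fk I (a • y) = algebraMap A k a • quotMapk fk I y := by
  obtain ⟨β, rfl⟩ := Ideal.Quotient.mk_surjective y
  have h1 : a • Ideal.Quotient.mk I β = Ideal.Quotient.mk I (a • β) := rfl
  have h2 : fk (a • β) = algebraMap k S (algebraMap A k a) * fk β := by
    rw [map_smul, Algebra.smul_def, IsScalarTower.algebraMap_apply A k S]
  rw [h1, quotMapk_mk, quotMapk_mk, h2, map_mul, Ideal.Quotient.mk_algebraMap, ← Algebra.smul_def]

/-- Coordinates of an element of `𝔪 • C` in a basis lie in `𝔪`. -/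
theorem repr_mem_of_mem_map {C ι : Type*} [CommRing C] [Algebra A C] (b : Basis ι A C)
    (𝔪 : Ideal A) {y : C} (hy : y ∈ 𝔪.map (algebraMap A C)) (i : ι) : b.repr y i ∈ 𝔪 := by
  have hy' : y ∈ 𝔪 • (⊤ : Submodule A C) := by
    rw [Ideal.smul_top_eq_map]
    exact hy
  refine Submodule.smul_induction_on hy' ?_ ?_
  · intro r hr n _
    rw [map_smul, Finsupp.smul_apply, smul_eq_mul]
    exact 𝔪.mul_mem_right _ hr
  · intro x y hx hy
    rw [map_add, Finsupp.add_apply]
    exact 𝔪.add_mem hx hy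

/-- An `A`-basis of `B ⧸ I` maps to a `k`-basis of the special fibre quotient. -/
theorem exists_basis_special {ι : Type*} [Finite ι]
    (hk : Function.Surjective (algebraMap A k))
    (hsurj : Function.Surjective fk)
    (hker : RingHom.ker (fk : B →+* S) ≤ (RingHom.ker (algebraMap A k)).map (algebraMap A B))
    (I : Ideal B) (b : Basis ι A (B ⧸ I)) :
    ∃ b' : Basis ι k (S ⧸ I.map fk), ∀ i, b' i = quotMapk fk I (b i) := by
  classical
  cases nonempty_fintype ι
  have hli : LinearIndependent k (fun i => quotMapk fk I (b i)) := by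
    rw [Fintype.linearIndependent_iff]
    intro c hc
    choose a ha using fun i => hk (c i)
    have hsum : quotMapk fk I (∑ i, a i • b i) = 0 := by
      rw [map_sum]
      have : ∀ i, quotMapk fk I (a i • b i) = c i • quotMapk fk I (b i) := by
        intro i
        rw [quotMapk_smul (k := k), ha i]
      simp_rw [this]
      exact hc
    obtain ⟨β, hβ⟩ := Ideal.Quotient.mk_surjective (∑ i, a i • b i)
    rw [← hβ, quotMapk_mk, Ideal.Quotient.eq_zero_iff_mem] at hsum
    obtain ⟨j, hj, hjβ⟩ := (Ideal.mem_map_iff_of_surjective (fk : B →+* S) hsurj).mp hsum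
    have h1 : β - j ∈ (RingHom.ker (algebraMap A k)).map (algebraMap A B) := by
      apply hker
      rw [RingHom.mem_ker, map_sub, sub_eq_zero]
      exact hjβ.symm
    have h2 : Ideal.Quotient.mk I β ∈
        (RingHom.ker (algebraMap A k)).map (algebraMap A (B ⧸ I)) := by
      have h3 : Ideal.Quotient.mk I β = Ideal.Quotient.mk I (β - j) := by
        rw [map_sub, Ideal.Quotient.eq_zero_iff_mem.mpr hj, sub_zero]
      rw [h3]
      have h4 : (algebraMap A (B ⧸ I)) = (Ideal.Quotient.mk I).comp (algebraMap A B) := rfl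
      rw [h4, ← Ideal.map_map]
      exact Ideal.mem_map_of_mem _ h1
    intro i
    have h5 := repr_mem_of_mem_map b _ h2 i
    rw [hβ] at h5
    have h6 : b.repr (∑ i, a i • b i) i = a i := by
      rw [map_sum, Finsupp.finsetSum_apply]
      simp [Finsupp.single_apply]
    rw [h6, RingHom.mem_ker, ha i] at h5
    exact h5
  have hsp : ⊤ ≤ Submodule.span k (Set.range fun i => quotMapk fk I (b i)) := by
    rintro y -
    obtain ⟨s, rfl⟩ := Ideal.Quotient.mk_surjective y
    obtain ⟨β, rfl⟩ := hsurj s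
    rw [← quotMapk_mk, ← b.sum_repr (Ideal.Quotient.mk I β), map_sum]
    refine Submodule.sum_mem _ fun i _ => ?_
    rw [quotMapk_smul (k := k)]
    exact Submodule.smul_mem _ _ (Submodule.subset_span ⟨i, rfl⟩)
  exact ⟨Basis.mk hli hsp, fun i => by rw [Basis.mk_apply]⟩

end SpecialFibre

section Residue

/-- Over an algebraically closed field, every maximal ideal containing an ideal of
finite-dimensional quotient has residue field the base field. -/
theorem exists_sub_algebraMap_mem {K R : Type*} [Field K] [IsAlgClosed K] [CommRing R]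
    [Algebra K R] (J 𝔭 : Ideal R) [Module.Finite K (R ⧸ J)] (h𝔭 : 𝔭.IsMaximal) (hJ : J ≤ 𝔭)
    (c : R) : ∃ μ : K, c - algebraMap K R μ ∈ 𝔭 := by
  have : 𝔭.IsPrime := h𝔭.isPrime
  have : Module.Finite K (R ⧸ 𝔭) := by
    refine Module.Finite.of_surjective (Ideal.Quotient.factorₐ K hJ).toLinearMap ?_
    intro y
    obtain ⟨x, rfl⟩ := Ideal.Quotient.mk_surjective y
    exact ⟨Ideal.Quotient.mk J x, rfl⟩
  have : Algebra.IsIntegral K (R ⧸ 𝔭) := Algebra.IsIntegral.of_finite K (R ⧸ 𝔭)
  obtain ⟨μ, hμ⟩ := (IsAlgClosed.algebraMap_bijective_of_isIntegral (k := K) (K := R ⧸ 𝔭)).2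
    (Ideal.Quotient.mk 𝔭 c)
  refine ⟨μ, ?_⟩
  rw [← Ideal.Quotient.eq_zero_iff_mem, map_sub, Ideal.Quotient.mk_algebraMap, hμ, sub_self]

/-- The residue field of an integrally closed domain with algebraically closed fraction field
is algebraically closed. -/
theorem isAlgClosed_of_surjective {A L k : Type*} [CommRing A] [IsDomain A] [Field L]
    [Algebra A L] [IsFractionRing A L] [IsIntegrallyClosed A] [IsAlgClosed L] [Field k]
    [Algebra A k] (hk : Function.Surjective (algebraMap A k)) : IsAlgClosed k := by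
  refine IsAlgClosed.of_exists_root k fun p hp hirr => ?_
  obtain ⟨q, hq, hdeg, hqm⟩ := Polynomial.lifts_and_natDegree_eq_and_monic
    (Polynomial.mem_lifts_of_surjective hk p) hp
  have hdeg' : (q.map (algebraMap A L)).degree ≠ 0 := by
    rw [hqm.degree_map, Polynomial.degree_eq_natDegree hqm.ne_zero, hdeg]
    intro h
    have h0 : p.natDegree = 0 := by exact_mod_cast h
    exact hirr.not_isUnit (by
      rw [Polynomial.eq_one_of_monic_natDegree_zero hp h0]
      exact isUnit_one)
  obtain ⟨x, hx⟩ := IsAlgClosed.exists_root (q.map (algebraMap A L)) hdeg'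
  have hint : IsIntegral A x := ⟨q, hqm, by
    rw [← Polynomial.eval_map]
    exact hx⟩
  obtain ⟨a, rfl⟩ := IsIntegrallyClosed.isIntegral_iff.mp hint
  have ha : q.eval a = 0 := by
    have h1 : (q.map (algebraMap A L)).eval (algebraMap A L a) = 0 := hx
    rw [Polynomial.eval_map, Polynomial.eval₂_at_apply] at h1
    exact (map_eq_zero_iff _ (IsFractionRing.injective A L)).mp h1
  refine ⟨algebraMap A k a, ?_⟩
  rw [← hq, Polynomial.eval_map, Polynomial.eval₂_at_apply, ha, map_zero]

end Residue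

section Main

/-- **(H3) Conservation of number.**  `A` an integrally closed domain with algebraically closed
fraction field `L` and a residue field `A ↠ k`; `B` an `A`-algebra (a chart of an integral
model) with generic fibre `R` (a Dedekind domain over `L`, `R = B[(A∖0)⁻¹]`) and special fibre
`S` (a Dedekind domain over `k`, `S = B / 𝔪 B`); `I` an ideal of `B` with `B ⧸ I` finite free
over `A`.  Then for every nonzero prime `𝔫` of `S`, the multiplicity of `𝔫` in `I S` is the
number, with multiplicity, of prime factors `𝔭` of `I R` which specialise to `𝔫`, i.e. such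
that `𝔭 ∩ B` is contained in the maximal ideal of `B` above `𝔫`. -/
theorem card_filter_comap_le_eq_count
    {A L k B R S : Type*} [CommRing A] [IsDomain A] [IsIntegrallyClosed A]
    [Field L] [Algebra A L] [IsFractionRing A L] [IsAlgClosed L]
    [Field k] [Algebra A k]
    [CommRing B] [Algebra A B]
    [CommRing R] [IsDedekindDomain R] [Algebra L R] [Algebra A R] [IsScalarTower A L R]
    [CommRing S] [IsDedekindDomain S] [Algebra k S] [Algebra A S] [IsScalarTower A k S]
    (fL : B →ₐ[A] R) (fk : B →ₐ[A] S)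
    (hk : Function.Surjective (algebraMap A k))
    (hLsurj : ∀ r : R, ∃ b : B, ∃ s : A, s ≠ 0 ∧ algebraMap A R s * r = fL b)
    (hLker : ∀ b : B, fL b = 0 → ∃ s : A, s ≠ 0 ∧ s • b = 0)
    (hksurj : Function.Surjective fk)
    (hkker : RingHom.ker (fk : B →+* S) ≤ (RingHom.ker (algebraMap A k)).map (algebraMap A B))
    (I : Ideal B) [Module.Free A (B ⧸ I)] [Module.Finite A (B ⧸ I)]
    (hIL : I.map fL ≠ ⊥) (hIk : I.map fk ≠ ⊥)
    (𝔫 : Ideal S) (h𝔫 : 𝔫.IsPrime) :
    open Classical in
    ((normalizedFactors (I.map fL)).filter (fun 𝔭 => 𝔭.comap fL ≤ 𝔫.comap fk)).card =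
      (normalizedFactors (I.map fk)).count 𝔫 := by
  classical
  -- bases of the three quotients
  let b : Basis (Module.Free.ChooseBasisIndex A (B ⧸ I)) A (B ⧸ I) :=
    Module.Free.chooseBasis A (B ⧸ I)
  obtain ⟨bL, hbL⟩ := exists_basis_generic (L := L) fL hLsurj hLker I b
  obtain ⟨bk, hbk⟩ := exists_basis_special fk hk hksurj hkker I b
  have hfinL : Module.Finite L (R ⧸ I.map fL) := Module.Finite.of_basis bL
  have hfink : Module.Finite k (S ⧸ I.map fk) := Module.Finite.of_basis bk
  have hkac : IsAlgClosed k := isAlgClosed_of_surjective (L := L) hk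
  -- facts on prime factors
  have hfacL : ∀ 𝔭 ∈ normalizedFactors (I.map fL), 𝔭.IsMaximal ∧ I.map fL ≤ 𝔭 := by
    intro 𝔭 h𝔭
    obtain ⟨hp, hle⟩ := (Ideal.mem_normalizedFactors_iff hIL).mp h𝔭
    have hp0 : 𝔭 ≠ ⊥ := fun h => hIL (le_bot_iff.mp (h ▸ hle))
    exact ⟨hp.isMaximal hp0, hle⟩
  have hfack : ∀ 𝔫' ∈ normalizedFactors (I.map fk), 𝔫'.IsMaximal ∧ I.map fk ≤ 𝔫' := by
    intro 𝔫' h𝔫'
    obtain ⟨hp, hle⟩ := (Ideal.mem_normalizedFactors_iff hIk).mp h𝔫'
    have hp0 : 𝔫' ≠ ⊥ := fun h => hIk (le_bot_iff.mp (h ▸ hle))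
    exact ⟨hp.isMaximal hp0, hle⟩
  have hresL : ∀ 𝔭 ∈ normalizedFactors (I.map fL), ∀ c : R, ∃ μ : L, c - algebraMap L R μ ∈ 𝔭 :=
    fun 𝔭 h𝔭 c => exists_sub_algebraMap_mem (I.map fL) 𝔭 (hfacL 𝔭 h𝔭).1 (hfacL 𝔭 h𝔭).2 c
  have hresk : ∀ 𝔫' ∈ normalizedFactors (I.map fk), ∀ c : S, ∃ μ : k, c - algebraMap k S μ ∈ 𝔫' :=
    fun 𝔫' h𝔫' c => exists_sub_algebraMap_mem (I.map fk) 𝔫' (hfack 𝔫' h𝔫').1 (hfack 𝔫' h𝔫').2 c
  -- the two characteristic polynomial identities
  have hcpL : ∀ c : B,
      ((normalizedFactors (I.map fL)).map fun 𝔭 => X - C (resVal L 𝔭 (fL c))).prod =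
        ((LinearMap.mulLeft A (Ideal.Quotient.mk I c)).charpoly).map (algebraMap A L) := by
    intro c
    rw [← charpoly_mulLeft_quotient (I.map fL) hIL hresL (fL c), ← quotMapL_mk,
      charpoly_mulLeft_map_of_basis (algebraMap A L) (quotMapL fL I) (quotMapL_smul fL I) b bL hbL]
  have hcpk : ∀ c : B,
      ((normalizedFactors (I.map fk)).map fun 𝔫' => X - C (resVal k 𝔫' (fk c))).prod =
        ((LinearMap.mulLeft A (Ideal.Quotient.mk I c)).charpoly).map (algebraMap A k) := by
    intro c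
    rw [← charpoly_mulLeft_quotient (I.map fk) hIk hresk (fk c), ← quotMapk_mk,
      charpoly_mulLeft_map_of_basis (algebraMap A k) (quotMapk fk I) (quotMapk_smul fk I) b bk hbk]
  -- the values on the generic fibre are integral
  have hval : ∀ 𝔭 ∈ normalizedFactors (I.map fL), ∀ c : B,
      ∃ a : A, algebraMap A L a = resVal L 𝔭 (fL c) := by
    intro 𝔭 h𝔭 c
    have hroot : (((LinearMap.mulLeft A (Ideal.Quotient.mk I c)).charpoly).map
        (algebraMap A L)).eval (resVal L 𝔭 (fL c)) = 0 := by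
      rw [← hcpL c, Polynomial.eval_multiset_prod]
      apply Multiset.prod_eq_zero
      rw [Multiset.mem_map]
      exact ⟨X - C (resVal L 𝔭 (fL c)), Multiset.mem_map.mpr ⟨𝔭, h𝔭, rfl⟩, by simp⟩
    have hint : IsIntegral A (resVal L 𝔭 (fL c)) :=
      ⟨_, LinearMap.charpoly_monic _, by rw [← Polynomial.eval_map]; exact hroot⟩
    exact IsIntegrallyClosed.isIntegral_iff.mp hint
  choose! v hv using hval
  have hvmem : ∀ 𝔭 ∈ normalizedFactors (I.map fL), ∀ c : B,
      c - algebraMap A B (v 𝔭 c) ∈ 𝔭.comap fL := by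
    intro 𝔭 h𝔭 c
    rw [Ideal.mem_comap, map_sub, AlgHom.commutes, IsScalarTower.algebraMap_apply A L R,
      hv 𝔭 h𝔭 c]
    exact resVal_spec (hresL 𝔭 h𝔭 (fL c))
  -- specialisation computes values
  have hKC : ∀ 𝔭 ∈ normalizedFactors (I.map fL), ∀ 𝔫' : Ideal S, 𝔫' ≠ ⊤ →
      𝔭.comap fL ≤ 𝔫'.comap fk → ∀ c : B, resVal k 𝔫' (fk c) = algebraMap A k (v 𝔭 c) := by
    intro 𝔭 h𝔭 𝔫' h𝔫' hle c
    apply resVal_eq h𝔫'
    have h1 := hle (hvmem 𝔭 h𝔭 c)
    rw [Ideal.mem_comap, map_sub, AlgHom.commutes, IsScalarTower.algebraMap_apply A k S] at h1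
    exact h1
  -- every prime factor on the generic fibre specialises to a prime factor on the special fibre
  have hSP : ∀ 𝔭 ∈ normalizedFactors (I.map fL),
      ∃ 𝔫' ∈ normalizedFactors (I.map fk), 𝔭.comap fL ≤ 𝔫'.comap fk := by
    intro 𝔭 h𝔭
    have hpmax := (hfacL 𝔭 h𝔭).1
    set 𝔮 := 𝔭.comap fL with h𝔮
    set 𝔪B := (RingHom.ker (algebraMap A k)).map (algebraMap A B) with h𝔪B
    have claim1 : ∀ y ∈ 𝔪B, ∃ a ∈ RingHom.ker (algebraMap A k), y - algebraMap A B a ∈ 𝔮 := by
      intro y hy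
      refine Submodule.span_induction (p := fun y _ => ∃ a ∈ RingHom.ker (algebraMap A k),
        y - algebraMap A B a ∈ 𝔮) ?_ ?_ ?_ ?_ hy
      · rintro _ ⟨a, ha, rfl⟩
        exact ⟨a, ha, by simp⟩
      · exact ⟨0, Ideal.zero_mem _, by simp⟩
      · rintro x y _ _ ⟨a, ha, hx⟩ ⟨a', ha', hy⟩
        refine ⟨a + a', Ideal.add_mem _ ha ha', ?_⟩
        have : x + y - algebraMap A B (a + a') =
            (x - algebraMap A B a) + (y - algebraMap A B a') := by rw [map_add]; ring
        rw [this]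
        exact Ideal.add_mem _ hx hy
      · rintro β y _ ⟨a, ha, hy⟩
        refine ⟨v 𝔭 β * a, Ideal.mul_mem_left _ _ ha, ?_⟩
        have : β • y - algebraMap A B (v 𝔭 β * a) =
            β * (y - algebraMap A B a) + (β - algebraMap A B (v 𝔭 β)) * algebraMap A B a := by
          rw [map_mul, smul_eq_mul]; ring
        rw [this]
        exact Ideal.add_mem _ (Ideal.mul_mem_left _ _ hy) (Ideal.mul_mem_right _ _ (hvmem 𝔭 h𝔭 β))
    have claim2 : 𝔮 ⊔ 𝔪B ≠ ⊤ := by
      intro htop
      have h1 : (1 : B) ∈ 𝔮 ⊔ 𝔪B := htop ▸ Submodule.mem_top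
      obtain ⟨q, hq, y, hy, hqy⟩ := Submodule.mem_sup.mp h1
      obtain ⟨a, ha, hya⟩ := claim1 y hy
      have h2 : algebraMap A B (1 - a) ∈ 𝔮 := by
        have : algebraMap A B (1 - a) = q + (y - algebraMap A B a) := by
          rw [map_sub, map_one, ← hqy]; ring
        rw [this]
        exact Ideal.add_mem _ hq hya
      rw [h𝔮, Ideal.mem_comap, AlgHom.commutes, IsScalarTower.algebraMap_apply A L R] at h2
      have h3 : (1 - a : A) ≠ 0 := by
        intro h0
        have h4 : algebraMap A k a = 0 := ha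
        have h5 : a = 1 := (sub_eq_zero.mp h0).symm
        rw [h5, map_one] at h4
        exact one_ne_zero h4
      have h6 : IsUnit (algebraMap L R (algebraMap A L (1 - a))) :=
        (IsUnit.mk0 _ ((map_ne_zero_iff _ (IsFractionRing.injective A L)).mpr h3)).map _
      exact hpmax.ne_top (Ideal.eq_top_of_isUnit_mem _ h2 h6)
    obtain ⟨𝔐, h𝔐max, h𝔐le⟩ := Ideal.exists_le_maximal _ claim2
    have hker𝔐 : RingHom.ker (fk : B →+* S) ≤ 𝔐 := hkker.trans (le_sup_right.trans h𝔐le)
    have hcomap : (𝔐.map fk).comap fk = 𝔐 := by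
      have h0 := Ideal.comap_map_of_surjective (fk : B →+* S) hksurj 𝔐
      have h1 : Ideal.comap (fk : B →+* S) ⊥ ≤ 𝔐 := hker𝔐
      have h2 : Ideal.comap (fk : B →+* S) (Ideal.map (fk : B →+* S) 𝔐) = 𝔐 := by
        rw [h0]; exact sup_eq_left.mpr h1
      exact h2
    have hmax' : (𝔐.map fk).IsMaximal := by
      rcases Ideal.map_eq_top_or_isMaximal_of_surjective (fk : B →+* S) hksurj h𝔐max with h | h
      · exfalso
        apply h𝔐max.ne_top
        rw [← hcomap]
        have : Ideal.map fk 𝔐 = ⊤ := h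
        rw [this, Ideal.comap_top]
      · exact h
    have hI𝔮 : I ≤ 𝔮 := Ideal.le_comap_map.trans (Ideal.comap_mono (hfacL 𝔭 h𝔭).2)
    have hI𝔐 : I ≤ 𝔐 := hI𝔮.trans (le_sup_left.trans h𝔐le)
    refine ⟨𝔐.map fk, (Ideal.mem_normalizedFactors_iff hIk).mpr ⟨hmax'.isPrime, Ideal.map_mono hI𝔐⟩, ?_⟩
    rw [hcomap]
    exact le_sup_left.trans h𝔐le
  -- the multisets of values agree
  have hms : ∀ c : B, (normalizedFactors (I.map fL)).map (fun 𝔭 => algebraMap A k (v 𝔭 c)) =
      (normalizedFactors (I.map fk)).map (fun 𝔫' => resVal k 𝔫' (fk c)) := by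
    intro c
    have h1 : (LinearMap.mulLeft A (Ideal.Quotient.mk I c)).charpoly =
        ((normalizedFactors (I.map fL)).map fun 𝔭 => X - C (v 𝔭 c)).prod := by
      apply Polynomial.map_injective (algebraMap A L) (IsFractionRing.injective A L)
      rw [← hcpL c, Polynomial.map_multiset_prod, Multiset.map_map]
      congr 1
      apply Multiset.map_congr rfl
      intro 𝔭 h𝔭
      simp [hv 𝔭 h𝔭 c]
    have h2 := hcpk c
    rw [h1, Polynomial.map_multiset_prod, Multiset.map_map] at h2
    have e1 : ((normalizedFactors (I.map fk)).map fun 𝔫' => X - C (resVal k 𝔫' (fk c))) =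
        ((normalizedFactors (I.map fk)).map (fun 𝔫' => resVal k 𝔫' (fk c))).map
          (fun a => X - C a) := by
      rw [Multiset.map_map]; rfl
    have e2 : ((normalizedFactors (I.map fL)).map
        (Polynomial.map (algebraMap A k) ∘ fun 𝔭 => X - C (v 𝔭 c))) =
        ((normalizedFactors (I.map fL)).map (fun 𝔭 => algebraMap A k (v 𝔭 c))).map
          (fun a => X - C a) := by
      rw [Multiset.map_map]
      apply Multiset.map_congr rfl
      intro 𝔭 _
      simp
    rw [e1, e2] at h2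
    have h3 := congrArg Polynomial.roots h2
    rw [Polynomial.roots_multiset_prod_X_sub_C, Polynomial.roots_multiset_prod_X_sub_C] at h3
    exact h3.symm
  -- the case where `𝔫` is not a factor
  by_cases h𝔫f : 𝔫 ∈ normalizedFactors (I.map fk)
  swap
  · rw [Multiset.count_eq_zero_of_notMem h𝔫f, Multiset.card_eq_zero, Multiset.filter_eq_nil]
    intro 𝔭 h𝔭 hle
    apply h𝔫f
    refine (Ideal.mem_normalizedFactors_iff hIk).mpr ⟨h𝔫, ?_⟩
    have hI𝔮 : I ≤ 𝔭.comap fL := Ideal.le_comap_map.trans (Ideal.comap_mono (hfacL 𝔭 h𝔭).2)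
    exact Ideal.map_le_iff_le_comap.mpr (hI𝔮.trans hle)
  -- a separating element
  obtain ⟨c, hc𝔫, hc'⟩ : ∃ c : B, fk c ∉ 𝔫 ∧
      ∀ 𝔫' ∈ normalizedFactors (I.map fk), 𝔫' ≠ 𝔫 → fk c ∈ 𝔫' := by
    set T := ((normalizedFactors (I.map fk)).toFinset.erase 𝔫) with hT
    have hnot : ¬ (∏ 𝔫' ∈ T, 𝔫') ≤ 𝔫 := by
      intro hle
      obtain ⟨𝔫', h𝔫'T, h𝔫'le⟩ := (h𝔫.prod_le).mp hle
      rw [hT, Finset.mem_erase, Multiset.mem_toFinset] at h𝔫'T
      exact h𝔫'T.1 ((hfack 𝔫' h𝔫'T.2).1.eq_of_le h𝔫.ne_top h𝔫'le)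
    obtain ⟨s, hsT, hs𝔫⟩ := SetLike.not_le_iff_exists.mp hnot
    obtain ⟨c, rfl⟩ := hksurj s
    refine ⟨c, hs𝔫, fun 𝔫' h𝔫' hne => ?_⟩
    have hmemT : 𝔫' ∈ T := by
      rw [hT, Finset.mem_erase, Multiset.mem_toFinset]
      exact ⟨hne, h𝔫'⟩
    exact (Ideal.prod_le_inf.trans (Finset.inf_le hmemT)) hsT
  set μ := resVal k 𝔫 (fk c) with hμ
  have hμ0 : μ ≠ 0 := by
    intro h0
    have h1 := resVal_spec (hresk 𝔫 h𝔫f (fk c))
    rw [← hμ, h0, map_zero, sub_zero] at h1
    exact hc𝔫 h1
  have hzero : ∀ 𝔫' ∈ normalizedFactors (I.map fk), 𝔫' ≠ 𝔫 → resVal k 𝔫' (fk c) = 0 := by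
    intro 𝔫' h𝔫' hne
    apply resVal_eq (hfack 𝔫' h𝔫').1.ne_top
    rw [map_zero, sub_zero]
    exact hc' 𝔫' h𝔫' hne
  -- count the value `μ` on both sides
  have hcountk : ((normalizedFactors (I.map fk)).map (fun 𝔫' => resVal k 𝔫' (fk c))).count μ =
      (normalizedFactors (I.map fk)).count 𝔫 := by
    rw [Multiset.count_map, Multiset.count_eq_card_filter_eq]
    congr 1
    apply Multiset.filter_congr
    intro 𝔫' h𝔫'
    constructor
    · intro h
      by_contra hne
      exact hμ0 (h.trans (hzero 𝔫' h𝔫' (fun h' => hne h'.symm)))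
    · intro h
      rw [← h]
  have hcountL : ((normalizedFactors (I.map fL)).map (fun 𝔭 => algebraMap A k (v 𝔭 c))).count μ =
      ((normalizedFactors (I.map fL)).filter (fun 𝔭 => 𝔭.comap fL ≤ 𝔫.comap fk)).card := by
    rw [Multiset.count_map]
    congr 1
    apply Multiset.filter_congr
    intro 𝔭 h𝔭
    constructor
    · intro h
      obtain ⟨𝔫', h𝔫', hle⟩ := hSP 𝔭 h𝔭
      have h1 := hKC 𝔭 h𝔭 𝔫' (hfack 𝔫' h𝔫').1.ne_top hle c
      have h2 : 𝔫' = 𝔫 := by
        by_contra hne
        exact hμ0 (h.trans (h1.symm.trans (hzero 𝔫' h𝔫' hne)))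
      rw [← h2]
      exact hle
    · intro hle
      exact hKC 𝔭 h𝔭 𝔫 h𝔫.ne_top hle c
  rw [← hcountL, hms c, hcountk]

end Main

end Fermat.Agent.Lib.helper873
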