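/-
Copyright: helper873 (S37/S18 shared library brick CONS-HENS, second instalment).

Conservation of number over a non-discrete valuation ring, principal form.

Continues `helper873_ConsNumber` (core (H1)-(H3)).  Contents:

* (LAT)  `exists_basis_of_indep_mod_of_gen`: the lattice lemma over a valuation ring.
* (F)    `free_of_finite_of_torsionFree`: finitely generated torsion-free modules are free.
* (LAT′) `free_finite_quotient_of_finrank_le`: `B ⧸ J` is finite free over `A` as soon as it is
         torsion-free and `dim_L (R ⧸ J R) ≤ dim_k (S ⧸ J S)`.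
* (TFB)  `mem_span_singleton_of_smul_mem`: torsion-freeness of `B ⧸ (b)`.
* (TF)   `free_finite_quotient_span_pair`: `B ⧸ (a, g)` is finite free.
* (H3′)  `card_filter_comap_le_eq_count_principal`: the count formula for a principal ideal.
* (W)    `exists_weierstrass`, `isCoprime_weierstrass_factors`, `map_weierstrass_outer_eq_one`.
* (H4)   `card_filter_comap_le_eq_count_of_dvd_aeval`: the chart-level theorem.
-/
import Fermat.Agent.Lib.helper873_ConsNumber

open Module Polynomial UniqueFactorizationMonoid

namespace Fermat.Agent.Lib.helper873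

section Lattice

variable {A : Type*} [CommRing A] [IsDomain A] [ValuationRing A]

/-- In a valuation ring every nonempty finite family has a member dividing all the others. -/
theorem exists_dvd_all {ι : Type*} [Finite ι] [Nonempty ι] (c : ι → A) :
    ∃ j, ∀ i, c j ∣ c i := by
  classical
  cases nonempty_fintype ι
  have key : ∀ s : Finset ι, s.Nonempty → ∃ j ∈ s, ∀ i ∈ s, c j ∣ c i := by
    intro s hs
    induction hs using Finset.Nonempty.cons_induction with
    | singleton a => exact ⟨a, by simp, by simp⟩
    | cons a s ha hs ih =>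
      obtain ⟨j, hj, hjs⟩ := ih
      rcases ValuationRing.dvd_total (c a) (c j) with h | h
      · refine ⟨a, by simp, ?_⟩
        intro i hi
        rcases Finset.mem_cons.mp hi with rfl | hi
        · exact dvd_rfl
        · exact h.trans (hjs i hi)
      · refine ⟨j, by simp [hj], ?_⟩
        intro i hi
        rcases Finset.mem_cons.mp hi with rfl | hi
        · exact h
        · exact hjs i hi
  obtain ⟨j, -, hj⟩ := key Finset.univ Finset.univ_nonempty
  exact ⟨j, fun i => hj i (Finset.mem_univ i)⟩

variable {M : Type*} [AddCommGroup M] [Module A M]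

/-- **(LAT-a)** A finite family of a torsion-free module over a valuation ring whose reduction
modulo the maximal ideal is linearly independent is linearly independent. -/
theorem linearIndependent_of_indep_mod {ι : Type*} [Finite ι]
    (htf : ∀ (s : A) (x : M), s ≠ 0 → s • x = 0 → x = 0) (v : ι → M)
    (hind : ∀ c : ι → A, (∑ᶠ i, c i • v i) ∈
        (IsLocalRing.maximalIdeal A) • (⊤ : Submodule A M) →
      ∀ i, c i ∈ IsLocalRing.maximalIdeal A) :
    LinearIndependent A v := by
  classical
  cases nonempty_fintype ι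
  rw [Fintype.linearIndependent_iff]
  intro c hc
  by_contra hne
  obtain ⟨i₀, hi₀⟩ := not_forall.mp hne
  have : Nonempty ι := ⟨i₀⟩
  obtain ⟨j, hj⟩ := exists_dvd_all c
  have hcj : c j ≠ 0 := by
    intro h0
    obtain ⟨d, hd⟩ := hj i₀
    exact hi₀ (by rw [hd, h0, zero_mul])
  choose d hd using hj
  have hdj : d j = 1 := by
    have := hd j
    exact mul_left_cancel₀ hcj (by rw [mul_one]; exact this.symm)
  have hsum : c j • ∑ i, d i • v i = 0 := by
    rw [Finset.smul_sum, ← hc]
    refine Finset.sum_congr rfl fun i _ => ?_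
    rw [smul_smul, ← hd i]
  have h0 : ∑ i, d i • v i = 0 := htf _ _ hcj hsum
  have := hind d (by rw [finsum_eq_sum_of_fintype, h0]; exact zero_mem _) j
  rw [hdj] at this
  exact (IsLocalRing.maximalIdeal.isMaximal A).ne_top ((Ideal.eq_top_iff_one _).mpr this)

/-- **(LAT)** The lattice lemma.  Over a valuation ring `A` (not necessarily discrete), a
finite family `v` of a torsion-free module `M` which is independent modulo the maximal ideal
and which generates `M` up to denominators is a basis of `M`. -/
theorem exists_basis_of_indep_mod_of_gen {ι : Type*} [Finite ι]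
    (htf : ∀ (s : A) (x : M), s ≠ 0 → s • x = 0 → x = 0) (v : ι → M)
    (hind : ∀ c : ι → A, (∑ᶠ i, c i • v i) ∈
        (IsLocalRing.maximalIdeal A) • (⊤ : Submodule A M) →
      ∀ i, c i ∈ IsLocalRing.maximalIdeal A)
    (hgen : ∀ x : M, ∃ a : A, a ≠ 0 ∧ a • x ∈ Submodule.span A (Set.range v)) :
    ∃ b : Basis ι A M, ∀ i, b i = v i := by
  classical
  cases nonempty_fintype ι
  have hli := linearIndependent_of_indep_mod htf v hind
  have hspan : ⊤ ≤ Submodule.span A (Set.range v) := by
    intro x _
    obtain ⟨a, ha, hax⟩ := hgen x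
    obtain ⟨c, hc⟩ := (Submodule.mem_span_range_iff_exists_fun A).mp hax
    rcases isEmpty_or_nonempty ι with hι | hι
    · have : a • x = 0 := by rw [← hc]; simp
      rw [htf a x ha this]; exact zero_mem _
    obtain ⟨j, hj⟩ := exists_dvd_all c
    rcases ValuationRing.dvd_total a (c j) with h | h
    · -- `a` divides all coefficients
      have hall : ∀ i, a ∣ c i := fun i => h.trans (hj i)
      choose d hd using hall
      have : a • (x - ∑ i, d i • v i) = 0 := by
        rw [smul_sub, ← hc, Finset.smul_sum, sub_eq_zero]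
        refine Finset.sum_congr rfl fun i _ => ?_
        rw [smul_smul, ← hd i]
      have hx : x = ∑ i, d i • v i := sub_eq_zero.mp (htf a _ ha this)
      rw [hx]
      exact Submodule.sum_mem _ fun i _ =>
        Submodule.smul_mem _ _ (Submodule.subset_span ⟨i, rfl⟩)
    · -- `c j` divides `a` and all the coefficients
      obtain ⟨e, he⟩ := h
      have hcj : c j ≠ 0 := by
        intro h0; exact ha (by rw [he, h0, zero_mul])
      choose d hd using hj
      have hdj : d j = 1 := by
        have := hd j
        exact mul_left_cancel₀ hcj (by rw [mul_one]; exact this.symm)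
      have : c j • (e • x - ∑ i, d i • v i) = 0 := by
        rw [smul_sub, smul_smul, ← he, ← hc, Finset.smul_sum, sub_eq_zero]
        refine Finset.sum_congr rfl fun i _ => ?_
        rw [smul_smul, ← hd i]
      have hex : e • x = ∑ i, d i • v i := sub_eq_zero.mp (htf (c j) _ hcj this)
      by_cases hu : IsUnit e
      · obtain ⟨u, rfl⟩ := hu
        have hx : x = (↑u⁻¹ : A) • ∑ i, d i • v i := by
          rw [← hex, smul_smul, Units.inv_mul, one_smul]
        rw [hx]
        exact Submodule.smul_mem _ _ (Submodule.sum_mem _ fun i _ =>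
          Submodule.smul_mem _ _ (Submodule.subset_span ⟨i, rfl⟩))
      · exfalso
        have hmem : (∑ᶠ i, d i • v i) ∈
            (IsLocalRing.maximalIdeal A) • (⊤ : Submodule A M) := by
          rw [finsum_eq_sum_of_fintype, ← hex]
          exact Submodule.smul_mem_smul ((IsLocalRing.mem_maximalIdeal e).mpr hu)
            Submodule.mem_top
        have := hind d hmem j
        rw [hdj] at this
        exact (IsLocalRing.maximalIdeal.isMaximal A).ne_top ((Ideal.eq_top_iff_one _).mpr this)
  exact ⟨Basis.mk hli hspan, fun i => Basis.mk_apply hli hspan i⟩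

/-- **(F)** A finitely generated torsion-free module over a valuation ring is free. -/
theorem free_of_finite_of_torsionFree [Module.Finite A M]
    (htf : ∀ (s : A) (x : M), s ≠ 0 → s • x = 0 → x = 0) : Module.Free A M := by
  have : Module.Flat A M := by
    rw [Module.Flat.flat_iff_torsion_eq_bot_of_isBezout, eq_bot_iff]
    rintro x hx
    obtain ⟨s, hs⟩ := (Submodule.mem_torsion_iff x).mp hx
    rw [Submodule.mem_bot]
    exact htf s x (nonZeroDivisors.coe_ne_zero s) hs
  exact Module.free_of_flat_of_isLocalRing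

end Lattice

section Count

variable {A L k B R S : Type*} [CommRing A] [IsDomain A] [ValuationRing A]
  [Field L] [Algebra A L] [IsFractionRing A L]
  [Field k] [Algebra A k]
  [CommRing B] [Algebra A B]
  [CommRing R] [Algebra L R] [Algebra A R] [IsScalarTower A L R]
  [CommRing S] [Algebra k S] [Algebra A S] [IsScalarTower A k S]

/-- **(LAT′) Finite freeness from a dimension count.**  `A` a valuation ring with fraction
field `L` and residue field `k`; `B` an `A`-algebra with generic fibre `R` and a map `fk` onto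
a `k`-algebra `S`; `J` an ideal of `B` with `B ⧸ J` torsion-free over `A`.  If the generic
fibre of `B ⧸ J` has dimension at most the dimension of `S ⧸ J S`, then `B ⧸ J` is a finite
free `A`-module (of rank `dim_k S ⧸ J S`).  No noetherian or discreteness hypothesis.  The
extended ideals are passed as `JL`, `Jk` with equations, so that instances can be stated on
any convenient form of them. -/
theorem free_finite_quotient_of_finrank_le
    (fL : B →ₐ[A] R) (fk : B →ₐ[A] S)
    (hk : Function.Surjective (algebraMap A k))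
    (hLsurj : ∀ r : R, ∃ b : B, ∃ s : A, s ≠ 0 ∧ algebraMap A R s * r = fL b)
    (hLker : ∀ b : B, fL b = 0 → ∃ s : A, s ≠ 0 ∧ s • b = 0)
    (hksurj : Function.Surjective fk)
    (J : Ideal B)
    (htf : ∀ (s : A) (y : B), s ≠ 0 → s • y ∈ J → y ∈ J)
    (JL : Ideal R) (Jk : Ideal S) (hJL : J.map fL = JL) (hJk : J.map fk = Jk)
    [Module.Finite L (R ⧸ JL)] [Module.Finite k (S ⧸ Jk)]
    (hrank : Module.finrank L (R ⧸ JL) ≤ Module.finrank k (S ⧸ Jk)) :
    Module.Free A (B ⧸ J) ∧ Module.Finite A (B ⧸ J) ∧
      Module.finrank A (B ⧸ J) = Module.finrank k (S ⧸ Jk) := by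
  classical
  subst hJL hJk
  set d := Module.finrank k (S ⧸ J.map fk) with hd
  let β : Basis (Fin d) k (S ⧸ J.map fk) := Module.finBasis k (S ⧸ J.map fk)
  -- the maximal ideal is the kernel of `A → k`
  have hker : RingHom.ker (algebraMap A k) = IsLocalRing.maximalIdeal A :=
    IsLocalRing.eq_maximalIdeal (RingHom.ker_isMaximal_of_surjective _ hk)
  -- surjectivity on the special fibre
  have hqk : Function.Surjective (quotMapk fk J) := by
    intro y
    obtain ⟨s, rfl⟩ := Ideal.Quotient.mk_surjective y
    obtain ⟨b, rfl⟩ := hksurj s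
    exact ⟨Ideal.Quotient.mk J b, quotMapk_mk fk J b⟩
  choose v hv using fun i => hqk (β i)
  -- torsion-freeness of the quotient
  have htf' : ∀ (s : A) (x : B ⧸ J), s ≠ 0 → s • x = 0 → x = 0 := by
    intro s x hs hx
    obtain ⟨y, rfl⟩ := Ideal.Quotient.mk_surjective x
    have h1 : s • Ideal.Quotient.mk J y = Ideal.Quotient.mk J (s • y) := rfl
    rw [h1, Ideal.Quotient.eq_zero_iff_mem] at hx
    exact Ideal.Quotient.eq_zero_iff_mem.mpr (htf s y hs hx)
  -- the special fibre map kills `𝔪 (B ⧸ J)`
  have hkill : ∀ y ∈ (IsLocalRing.maximalIdeal A) • (⊤ : Submodule A (B ⧸ J)),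
      quotMapk fk J y = 0 := by
    intro y hy
    refine Submodule.smul_induction_on hy ?_ ?_
    · intro r hr n _
      have hr0 : algebraMap A k r = 0 := by
        rw [← hker] at hr; exact hr
      rw [quotMapk_smul (k := k), hr0, zero_smul]
    · intro x y hx hy
      rw [map_add, hx, hy, add_zero]
  have hind : ∀ c : Fin d → A, (∑ᶠ i, c i • v i) ∈
      (IsLocalRing.maximalIdeal A) • (⊤ : Submodule A (B ⧸ J)) →
      ∀ i, c i ∈ IsLocalRing.maximalIdeal A := by
    intro c hc i
    have h0 := hkill _ hc
    rw [finsum_eq_sum_of_fintype, map_sum] at h0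
    have h1 : ∑ i, algebraMap A k (c i) • β i = 0 := by
      rw [← h0]
      refine Finset.sum_congr rfl fun i _ => ?_
      rw [quotMapk_smul (k := k), hv]
    have h2 := Fintype.linearIndependent_iff.mp β.linearIndependent _ h1 i
    rw [← hker]
    exact h2
  have hli : LinearIndependent A v := linearIndependent_of_indep_mod htf' v hind
  -- injectivity on the generic fibre
  have hinj : ∀ x : B ⧸ J, quotMapL fL J x = 0 → x = 0 := by
    intro x hx
    obtain ⟨y, rfl⟩ := Ideal.Quotient.mk_surjective x
    rw [quotMapL_mk, Ideal.Quotient.eq_zero_iff_mem] at hx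
    obtain ⟨s, hs, hsy⟩ := exists_smul_mem_of_map_mem fL hLsurj hLker J y hx
    exact Ideal.Quotient.eq_zero_iff_mem.mpr (htf s y hs hsy)
  -- clearing denominators
  have hclear : ∀ l : Fin d → L, ∃ s : A, s ≠ 0 ∧ ∃ c : Fin d → A,
      ∀ i, algebraMap A L (c i) = algebraMap A L s * l i := by
    intro l
    obtain ⟨⟨s, hs⟩, hsl⟩ := IsLocalization.exist_integer_multiples_of_finite (nonZeroDivisors A) l
    choose c hc using hsl
    refine ⟨s, nonZeroDivisors.ne_zero hs, c, fun i => ?_⟩
    rw [hc i, Algebra.smul_def]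
  have hmapsum : ∀ (s : A) (c : Fin d → A) (l : Fin d → L),
      (∀ i, algebraMap A L (c i) = algebraMap A L s * l i) →
      quotMapL fL J (∑ i, c i • v i) = algebraMap A L s • ∑ i, l i • quotMapL fL J (v i) := by
    intro s c l hc
    rw [map_sum, Finset.smul_sum]
    refine Finset.sum_congr rfl fun i _ => ?_
    rw [quotMapL_smul (L := L), hc i, mul_smul]
  -- the images form a basis of the generic fibre
  have hliL : LinearIndependent L (fun i => quotMapL fL J (v i)) := by
    rw [Fintype.linearIndependent_iff]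
    intro l hl i
    obtain ⟨s, hs, c, hc⟩ := hclear l
    have h0 : ∑ i, c i • v i = 0 := hinj _ (by rw [hmapsum s c l hc, hl, smul_zero])
    have hci : c i = 0 := Fintype.linearIndependent_iff.mp hli c h0 i
    have h1 := hc i
    rw [hci, map_zero] at h1
    have hs' : algebraMap A L s ≠ 0 := by
      rw [Ne, map_eq_zero_iff _ (IsFractionRing.injective A L)]; exact hs
    rcases mul_eq_zero.mp h1.symm with h | h
    · exact absurd h hs'
    · exact h
  have hcard : Fintype.card (Fin d) = Module.finrank L (R ⧸ J.map fL) := by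
    have h1 := hliL.fintype_card_le_finrank
    rw [Fintype.card_fin] at h1 ⊢
    exact le_antisymm h1 hrank
  have hspanL := hliL.span_eq_top_of_card_eq_finrank' hcard
  have hgen : ∀ x : B ⧸ J, ∃ a : A, a ≠ 0 ∧ a • x ∈ Submodule.span A (Set.range v) := by
    intro x
    have hx : quotMapL fL J x ∈ Submodule.span L (Set.range fun i => quotMapL fL J (v i)) := by
      rw [hspanL]; exact Submodule.mem_top
    obtain ⟨l, hl⟩ := (Submodule.mem_span_range_iff_exists_fun L).mp hx
    obtain ⟨s, hs, c, hc⟩ := hclear l
    refine ⟨s, hs, ?_⟩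
    have h0 : s • x - ∑ i, c i • v i = 0 := by
      apply hinj
      rw [map_sub, quotMapL_smul (L := L), hmapsum s c l hc, hl, sub_self]
    rw [sub_eq_zero.mp h0]
    exact Submodule.sum_mem _ fun i _ =>
      Submodule.smul_mem _ _ (Submodule.subset_span ⟨i, rfl⟩)
  obtain ⟨b, -⟩ := exists_basis_of_indep_mod_of_gen htf' v hind hgen
  refine ⟨Module.Free.of_basis b, Module.Finite.of_basis b, ?_⟩
  rw [Module.finrank_eq_card_basis b, Fintype.card_fin]

/-- **(TFB)** Torsion-freeness of `B ⧸ (b)` from the constancy of the value group: if every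
nonzero element of `B` is a constant times an element with nonzero reduction, the reduction
`S` is a domain and `B` is torsion-free, then `B ⧸ (b)` is `A`-torsion-free for every `b`
with nonzero reduction. -/
theorem mem_span_singleton_of_smul_mem [IsDomain S]
    (fk : B →ₐ[A] S) (hk : Function.Surjective (algebraMap A k))
    (hB : ∀ (s : A) (y : B), s ≠ 0 → s • y = 0 → y = 0)
    (hprim : ∀ w : B, w ≠ 0 → ∃ (c : A) (w' : B), fk w' ≠ 0 ∧ w = c • w')
    (b : B) (hb : fk b ≠ 0) (s : A) (y : B) (hs : s ≠ 0) (hy : s • y ∈ Ideal.span {b}) :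
    y ∈ Ideal.span {b} := by
  have hker : RingHom.ker (algebraMap A k) = IsLocalRing.maximalIdeal A :=
    IsLocalRing.eq_maximalIdeal (RingHom.ker_isMaximal_of_surjective _ hk)
  obtain ⟨z, hz⟩ := Ideal.mem_span_singleton'.mp hy
  by_cases hz0 : z = 0
  · rw [hz0, zero_mul] at hz
    rw [hB s y hs hz.symm]
    exact zero_mem _
  obtain ⟨c, z', hz', rfl⟩ := hprim z hz0
  rcases ValuationRing.dvd_total s c with ⟨t, rfl⟩ | ⟨t, rfl⟩
  · have h0 : s • (y - t • z' * b) = 0 := by
      rw [smul_sub, ← hz, sub_eq_zero, mul_smul, smul_mul_assoc, smul_mul_assoc]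
    have hy' : y = t • z' * b := sub_eq_zero.mp (hB s _ hs h0)
    exact Ideal.mem_span_singleton'.mpr ⟨t • z', hy'.symm⟩
  · have hc : c ≠ 0 := fun h0 => hs (by rw [h0, zero_mul])
    have h0 : c • (t • y - z' * b) = 0 := by
      rw [smul_sub, smul_smul, ← hz, sub_eq_zero, smul_mul_assoc]
    have hty : t • y = z' * b := sub_eq_zero.mp (hB c _ hc h0)
    have hfk : algebraMap A S t * fk y = fk z' * fk b := by
      rw [← map_mul, ← hty, map_smul, Algebra.smul_def]
    have ht : IsUnit t := by
      by_contra hnu
      have htm : t ∈ RingHom.ker (algebraMap A k) := by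
        rw [hker]; exact (IsLocalRing.mem_maximalIdeal t).mpr hnu
      have ht0 : algebraMap A S t = 0 := by
        rw [IsScalarTower.algebraMap_apply A k S, (RingHom.mem_ker).mp htm, map_zero]
      rw [ht0, zero_mul] at hfk
      exact mul_ne_zero hz' hb hfk.symm
    obtain ⟨ut, rfl⟩ := ht
    refine Ideal.mem_span_singleton'.mpr ⟨(↑ut⁻¹ : A) • z', ?_⟩
    rw [smul_mul_assoc, ← hty, smul_smul, Units.inv_mul, one_smul]

end Count

section Pair

variable {A B : Type*} [CommRing A] [IsDomain A] [ValuationRing A] [CommRing B] [Algebra A B]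

/-- **(TF)+(F)** Splitting off the part of the zero scheme of `a` inside the closed disc.
If `a ∣ g * h` with `g`, `h` comaximal, `B ⧸ (a)` is `A`-torsion-free and `B ⧸ (g)` is a
finite `A`-module, then `B ⧸ (a, g)` is a finite free `A`-module. -/
theorem free_finite_quotient_span_pair (a g h e u w : B)
    (hgh : g * h = a * e) (huw : u * g + w * h = 1)
    (htf : ∀ (s : A) (y : B), s ≠ 0 → s • y ∈ Ideal.span {a} → y ∈ Ideal.span {a})
    [Module.Finite A (B ⧸ Ideal.span {g})] :
    Module.Free A (B ⧸ Ideal.span {a, g}) ∧ Module.Finite A (B ⧸ Ideal.span {a, g}) := by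
  have hle : Ideal.span {g} ≤ Ideal.span {a, g} :=
    Ideal.span_mono (by intro x hx; rw [Set.mem_singleton_iff] at hx; rw [hx]; simp)
  have hfin : Module.Finite A (B ⧸ Ideal.span {a, g}) :=
    Module.Finite.of_surjective (Ideal.Quotient.factorₐ A hle).toLinearMap
      (Ideal.Quotient.factor_surjective hle)
  have htf' : ∀ (s : A) (x : B ⧸ Ideal.span {a, g}), s ≠ 0 → s • x = 0 → x = 0 := by
    intro s x hs hx
    obtain ⟨y, rfl⟩ := Ideal.Quotient.mk_surjective x
    have h1 : s • Ideal.Quotient.mk (Ideal.span {a, g}) y =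
        Ideal.Quotient.mk (Ideal.span {a, g}) (s • y) := rfl
    rw [h1, Ideal.Quotient.eq_zero_iff_mem, Ideal.mem_span_pair] at hx
    obtain ⟨p, q, hpq⟩ := hx
    have h2 : s • (h * y) ∈ Ideal.span {a} := by
      rw [Ideal.mem_span_singleton']
      refine ⟨h * p + q * e, ?_⟩
      rw [← mul_smul_comm, ← hpq]
      linear_combination (-q) * hgh
    obtain ⟨t, ht⟩ := Ideal.mem_span_singleton'.mp (htf s _ hs h2)
    rw [Ideal.Quotient.eq_zero_iff_mem, Ideal.mem_span_pair]
    refine ⟨w * t, u * y, ?_⟩
    linear_combination w * ht + y * huw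
  exact ⟨free_of_finite_of_torsionFree htf', hfin⟩

end Pair

section Principal

/-- **(H3′) Conservation of number, principal form.**  In the setting of
`card_filter_comap_le_eq_count`, let `a ∈ B` divide `g * h` with `h` a unit on the special
fibre and `B ⧸ (a, g)` finite free over `A` (the part of the zero scheme of `a` inside the
closed disc).  Then for every nonzero prime `𝔫` of the special
fibre, the multiplicity of `𝔫` in the divisor of the reduction of `a` is the number, with
multiplicity, of zeros of `a` on the generic fibre which specialise to `𝔫`. -/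
theorem card_filter_comap_le_eq_count_principal
    {A L k B R S : Type*} [CommRing A] [IsDomain A] [IsIntegrallyClosed A]
    [Field L] [Algebra A L] [IsFractionRing A L] [IsAlgClosed L]
    [Field k] [Algebra A k]
    [CommRing B] [Algebra A B]
    [CommRing R] [IsDedekindDomain R] [Algebra L R] [Algebra A R] [IsScalarTower A L R]
    [CommRing S] [IsDedekindDomain S] [Algebra k S] [Algebra A S] [IsScalarTower A k S]
    (fL : B →ₐ[A] R) (fk : B →ₐ[A] S)
    (hk : Function.Surjective (algebraMap A k))
    (hLsurj : ∀ r : R, ∃ b : B, ∃ s : A, s ≠ 0 ∧ algebraMap A R s * r = fL b)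
    (hLker : ∀ b : B, fL b = 0 → ∃ s : A, s ≠ 0 ∧ s • b = 0)
    (hksurj : Function.Surjective fk)
    (hkker : RingHom.ker (fk : B →+* S) ≤ (RingHom.ker (algebraMap A k)).map (algebraMap A B))
    (a g h e : B) (hgh : g * h = a * e) (hh : IsUnit (fk h))
    [Module.Free A (B ⧸ Ideal.span {a, g})] [Module.Finite A (B ⧸ Ideal.span {a, g})]
    (haL : fL a ≠ 0) (hak : fk a ≠ 0)
    (𝔫 : Ideal S) (h𝔫 : 𝔫.IsPrime) :
    open Classical in
    ((normalizedFactors (Ideal.span {fL a})).filter
        (fun 𝔭 => 𝔭.comap fL ≤ 𝔫.comap fk)).card =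
      (normalizedFactors (Ideal.span {fk a})).count 𝔫 := by
  classical
  set I : Ideal B := Ideal.span {a, g} with hI
  have hmapL : I.map fL = Ideal.span {fL a, fL g} := by
    rw [hI, Ideal.map_span, Set.image_pair]
  have hghk : fk g * fk h = fk a * fk e := by rw [← map_mul, hgh, map_mul]
  have hghL : fL g * fL h = fL a * fL e := by rw [← map_mul, hgh, map_mul]
  have hmapk : I.map fk = Ideal.span {fk a} := by
    rw [hI, Ideal.map_span, Set.image_pair]
    apply le_antisymm
    · rw [Ideal.span_le]
      intro x hx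
      rcases hx with rfl | hx
      · exact Ideal.subset_span rfl
      · rw [Set.mem_singleton_iff] at hx
        obtain ⟨uh, huh⟩ := hh
        rw [hx, SetLike.mem_coe, Ideal.mem_span_singleton']
        refine ⟨fk e * ↑uh⁻¹, ?_⟩
        have : fk g = fk g * fk h * ↑uh⁻¹ := by
          rw [← huh, mul_assoc, Units.mul_inv, mul_one]
        rw [this, hghk]; ring
    · exact Ideal.span_mono (by intro x hx; rw [Set.mem_singleton_iff] at hx; rw [hx]; simp)
  have hJa : Ideal.span {fL a} ≠ ⊥ := by
    rw [Ne, Ideal.span_singleton_eq_bot]; exact haL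
  have hJak : Ideal.span {fk a} ≠ ⊥ := by
    rw [Ne, Ideal.span_singleton_eq_bot]; exact hak
  have hle : Ideal.span {fL a} ≤ I.map fL := by
    rw [hmapL]
    exact Ideal.span_mono (by intro x hx; rw [Set.mem_singleton_iff] at hx; rw [hx]; simp)
  have hIL : I.map fL ≠ ⊥ := fun h0 => hJa (le_bot_iff.mp (h0 ▸ hle))
  have hIk : I.map fk ≠ ⊥ := by rw [hmapk]; exact hJak
  have H3 := card_filter_comap_le_eq_count (L := L) (k := k) fL fk hk hLsurj hLker hksurj hkker I hIL hIk 𝔫 h𝔫
  rw [hmapk] at H3
  rw [← H3]
  congr 1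
  refine Multiset.ext.mpr fun 𝔭 => ?_
  rw [Multiset.count_filter, Multiset.count_filter]
  split_ifs with hp
  · -- `𝔭` specialises to `𝔫`, so `h` does not vanish at `𝔭`
    have hh𝔭 : fL h ∉ 𝔭 := by
      intro hmem
      have h1 : h ∈ 𝔭.comap fL := hmem
      have h2 : fk h ∈ 𝔫 := hp h1
      exact h𝔫.ne_top (Ideal.eq_top_of_isUnit_mem _ h2 hh)
    have hh0 : fL h ≠ 0 := fun h0 => hh𝔭 (h0 ▸ 𝔭.zero_mem)
    have hJh : Ideal.span {fL h} ≠ ⊥ := by
      rw [Ne, Ideal.span_singleton_eq_bot]; exact hh0
    apply le_antisymm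
    · -- `(a) ∣ I_L * (h)`
      have hmul : I.map fL * Ideal.span {fL h} ≤ Ideal.span {fL a} := by
        rw [Ideal.mul_le]
        intro r hr s hs
        rw [hmapL, Ideal.mem_span_pair] at hr
        obtain ⟨p, q, rfl⟩ := hr
        obtain ⟨t, rfl⟩ := Ideal.mem_span_singleton'.mp hs
        rw [Ideal.mem_span_singleton']
        refine ⟨p * t * fL h + q * t * fL e, ?_⟩
        linear_combination q * t * hghL.symm
      have hdvd : Ideal.span {fL a} ∣ I.map fL * Ideal.span {fL h} := Ideal.dvd_iff_le.mpr hmul
      have hle' := (dvd_iff_normalizedFactors_le_normalizedFactors hJa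
        (mul_ne_zero hIL hJh)).mp hdvd
      rw [normalizedFactors_mul hIL hJh] at hle'
      have hc := Multiset.count_le_of_le 𝔭 hle'
      rw [Multiset.count_add] at hc
      have h0 : Multiset.count 𝔭 (normalizedFactors (Ideal.span {fL h})) = 0 := by
        apply Multiset.count_eq_zero_of_notMem
        intro hmem
        have := ((Ideal.mem_normalizedFactors_iff hJh).mp hmem).2
        exact hh𝔭 (this (Ideal.subset_span rfl))
      omega
    · have hdvd : I.map fL ∣ Ideal.span {fL a} := Ideal.dvd_iff_le.mpr hle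
      exact Multiset.count_le_of_le 𝔭
        ((dvd_iff_normalizedFactors_le_normalizedFactors hIL hJa).mp hdvd)
  · rfl

end Principal

section Weierstrass

/-- `reflect 1 (X - C s) = 1 - C s * X`. -/
theorem reflect_one_X_sub_C {A : Type*} [CommRing A] (s : A) : reflect 1 (X - C s : A[X]) = 1 - C s * X := by
  rw [reflect_sub, reflect_C, pow_one]
  have h : reflect 1 (X : A[X]) = 1 := by
    have := reflect_monomial (R := A) 1 1
    rw [pow_one] at this
    rw [this]
    simp [revAt]
  rw [h]

variable {A : Type*} [CommRing A] [IsDomain A] [ValuationRing A]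

/-- **(W) Weierstrass factorisation over a valuation ring with algebraically closed fraction
field.**  A polynomial `ν ∈ A[X]` with a unit coefficient is `u * ∏ (X - a_r) * ∏ (1 - b_s X)`
with `u` a unit, `a_r ∈ A` (the zeros in the closed unit disc) and `b_s ∈ 𝔪` (the inverses of
the zeros outside the closed unit disc). -/
theorem exists_weierstrass (L : Type*) [Field L] [Algebra A L] [IsFractionRing A L]
    [IsAlgClosed L] (ν : A[X]) (hν : ∃ i, IsUnit (ν.coeff i)) :
    ∃ (u : A) (G H : Multiset A), IsUnit u ∧ (∀ s ∈ H, s ∈ IsLocalRing.maximalIdeal A) ∧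
      ν = C u * (G.map fun a => X - C a).prod * (H.map fun s => 1 - C s * X).prod := by
  suffices key : ∀ N : ℕ, ∀ ν : A[X], ν.natDegree ≤ N → (∃ i, IsUnit (ν.coeff i)) →
      ∃ (u : A) (G H : Multiset A), IsUnit u ∧ (∀ s ∈ H, s ∈ IsLocalRing.maximalIdeal A) ∧
        ν = C u * (G.map fun a => X - C a).prod * (H.map fun s => 1 - C s * X).prod from
    key _ ν le_rfl hν
  intro N
  induction N with
  | zero =>
    rintro ν hdeg ⟨i, hi⟩
    have hνC : ν = C (ν.coeff 0) := eq_C_of_natDegree_le_zero hdeg
    have hi0 : i = 0 := by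
      by_contra h
      have h0 : ν.coeff i = 0 := by rw [hνC, coeff_C, if_neg h]
      rw [h0] at hi
      exact not_isUnit_zero hi
    subst hi0
    exact ⟨ν.coeff 0, 0, 0, hi, by simp, by simpa using hνC⟩
  | succ N ih =>
    intro ν hdeg hν
    by_cases hlt : ν.natDegree ≤ N
    · exact ih ν hlt hν
    have hdeg' : ν.natDegree = N + 1 := by omega
    have hinj := IsFractionRing.injective A L
    -- a root in `L`
    have hmapdeg : (ν.map (algebraMap A L)).degree ≠ 0 := by
      rw [degree_map_eq_of_injective hinj]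
      intro h0
      have h1 : ν.natDegree = 0 := natDegree_eq_of_degree_eq_some h0
      omega
    obtain ⟨r, hr⟩ := IsAlgClosed.exists_root _ hmapdeg
    have hr' : eval₂ (algebraMap A L) r ν = 0 := by
      rw [← eval_map]; exact hr
    -- divisors of a primitive polynomial are primitive
    have hprim : ∀ ν₁ q : A[X], ν = q * ν₁ → ∃ i, IsUnit (ν₁.coeff i) := by
      intro ν₁ q hq
      by_contra hcon
      have hcon' : ∀ n, ¬ IsUnit (ν₁.coeff n) := fun n hn => hcon ⟨n, hn⟩
      have h1 : ν₁ ∈ Ideal.map (C : A →+* A[X]) (IsLocalRing.maximalIdeal A) :=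
        Ideal.mem_map_C_iff.mpr fun n => (IsLocalRing.mem_maximalIdeal _).mpr (hcon' n)
      have h2 : ν ∈ Ideal.map (C : A →+* A[X]) (IsLocalRing.maximalIdeal A) :=
        hq ▸ Ideal.mul_mem_left _ q h1
      obtain ⟨i, hi⟩ := hν
      exact (IsLocalRing.mem_maximalIdeal _).mp (Ideal.mem_map_C_iff.mp h2 i) hi
    by_cases hrA : ∃ a : A, algebraMap A L a = r
    · -- the root lies in `A`
      obtain ⟨a, ha⟩ := hrA
      have hroot : ν.IsRoot a := by
        have h0 : algebraMap A L (ν.eval a) = 0 := by
          rw [← eval₂_at_apply, ha]; exact hr'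
        exact (map_eq_zero_iff _ hinj).mp h0
      have hfac := mul_divByMonic_eq_iff_isRoot.mpr hroot
      have hdeg₁ : (ν /ₘ (X - C a)).natDegree ≤ N := by
        rw [natDegree_divByMonic _ (monic_X_sub_C a), natDegree_X_sub_C]; omega
      obtain ⟨u, G, H, hu, hH, hfac₁⟩ := ih _ hdeg₁ (hprim _ (X - C a) hfac.symm)
      refine ⟨u, a ::ₘ G, H, hu, hH, ?_⟩
      rw [Multiset.map_cons, Multiset.prod_cons, ← hfac]
      conv_lhs => rw [hfac₁]
      ring
    · -- the inverse of the root lies in the maximal ideal
      have hr0 : r ≠ 0 := fun h0 => hrA ⟨0, by rw [map_zero, h0]⟩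
      obtain ⟨s, hs⟩ : ∃ s : A, algebraMap A L s = r⁻¹ := by
        rcases ValuationRing.isInteger_or_isInteger A r with ⟨a, ha⟩ | ⟨s, hs⟩
        · exact absurd ⟨a, ha⟩ hrA
        · exact ⟨s, hs⟩
      have hsm : s ∈ IsLocalRing.maximalIdeal A := by
        rw [IsLocalRing.mem_maximalIdeal]
        rintro ⟨t, rfl⟩
        apply hrA
        refine ⟨(↑t⁻¹ : A), ?_⟩
        have h1 : algebraMap A L (↑t⁻¹ : A) * algebraMap A L (t : A) = 1 := by
          rw [← map_mul, Units.inv_mul, map_one]
        rw [hs] at h1
        field_simp at h1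
        exact h1
      have hinvr : Invertible r := invertibleOfNonzero hr0
      have hrefl : eval₂ (algebraMap A L) (⅟r) (reflect (N + 1) ν) = 0 :=
        (eval₂_reflect_eq_zero_iff (algebraMap A L) r (N + 1) ν hdeg).mpr hr'
      have hroot : (reflect (N + 1) ν).IsRoot s := by
        have h0 : algebraMap A L ((reflect (N + 1) ν).eval s) = 0 := by
          rw [← eval₂_at_apply, hs, ← invOf_eq_inv]; exact hrefl
        exact (map_eq_zero_iff _ hinj).mp h0
      have hfac := mul_divByMonic_eq_iff_isRoot.mpr hroot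
      set ρ₁ := reflect (N + 1) ν /ₘ (X - C s) with hρ₁
      have hdegρ : (reflect (N + 1) ν).natDegree ≤ N + 1 := by
        refine natDegree_reflect_le.trans ?_
        rw [hdeg', max_self]
      have hdeg₁ : ρ₁.natDegree ≤ N := by
        rw [hρ₁, natDegree_divByMonic _ (monic_X_sub_C s), natDegree_X_sub_C]; omega
      have hinvol : reflect (N + 1) (reflect (N + 1) ν) = ν := by
        ext n
        rw [coeff_reflect, coeff_reflect, revAt_invol]
      have hν' : ν = (1 - C s * X) * reflect N ρ₁ := by
        rw [← hinvol, ← hfac, Nat.add_comm N 1,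
          reflect_mul _ _ (natDegree_X_sub_C_le s) hdeg₁, reflect_one_X_sub_C]
      have hdeg₂ : (reflect N ρ₁).natDegree ≤ N := by
        refine natDegree_reflect_le.trans ?_
        rw [max_eq_left hdeg₁]
      obtain ⟨u, G, H, hu, hH, hfac₁⟩ := ih _ hdeg₂ (hprim _ _ hν')
      refine ⟨u, G, s ::ₘ H, hu, ?_, ?_⟩
      · intro t ht
        rcases Multiset.mem_cons.mp ht with rfl | ht
        · exact hsm
        · exact hH t ht
      · rw [Multiset.map_cons, Multiset.prod_cons]
        conv_lhs => rw [hν', hfac₁]
        ring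

/-- The two factors of the Weierstrass factorisation are comaximal. -/
theorem isCoprime_weierstrass_factors (G H : Multiset A)
    (hH : ∀ s ∈ H, s ∈ IsLocalRing.maximalIdeal A) :
    IsCoprime (G.map fun a => (X - C a : A[X])).prod
      (H.map fun s => (1 - C s * X : A[X])).prod := by
  have hpair : ∀ a s : A, s ∈ IsLocalRing.maximalIdeal A →
      IsCoprime (X - C a : A[X]) (1 - C s * X) := by
    intro a s hs
    have hu : IsUnit (1 - s * a) := by
      by_contra hnu
      have h1 : 1 - s * a ∈ IsLocalRing.maximalIdeal A := (IsLocalRing.mem_maximalIdeal _).mpr hnu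
      have h2 : s * a ∈ IsLocalRing.maximalIdeal A := Ideal.mul_mem_right _ _ hs
      have h3 : (1 : A) ∈ IsLocalRing.maximalIdeal A := by
        have := Ideal.add_mem _ h1 h2
        rwa [sub_add_cancel] at this
      exact (IsLocalRing.maximalIdeal.isMaximal A).ne_top ((Ideal.eq_top_iff_one _).mpr h3)
    obtain ⟨t, ht⟩ := hu
    refine ⟨C ((↑t⁻¹ : A) * s), C (↑t⁻¹ : A), ?_⟩
    have h1 : (↑t⁻¹ : A) * (1 - s * a) = 1 := by rw [← ht, Units.inv_mul]
    have h2 : C (↑t⁻¹ : A) * (1 - C s * C a) = (1 : A[X]) := by
      rw [← C_mul, ← C_1, ← C_sub, ← C_mul, h1]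
    rw [C_mul]
    linear_combination h2
  refine Multiset.induction_on G ?_ ?_
  · rw [Multiset.map_zero, Multiset.prod_zero]
    exact isCoprime_one_left
  · intro a G ih
    rw [Multiset.map_cons, Multiset.prod_cons]
    refine IsCoprime.mul_left ?_ ih
    revert hH
    refine Multiset.induction_on H ?_ ?_
    · intro _
      rw [Multiset.map_zero, Multiset.prod_zero]
      exact isCoprime_one_right
    · intro s H ihH hH
      rw [Multiset.map_cons, Multiset.prod_cons]
      exact IsCoprime.mul_right (hpair a s (hH s (Multiset.mem_cons_self s H)))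
        (ihH fun s' hs' => hH s' (Multiset.mem_cons_of_mem hs'))

/-- The outer factor of the Weierstrass factorisation reduces to `1`. -/
theorem map_weierstrass_outer_eq_one {T : Type*} [CommRing T] (φ : A[X] →+* T)
    (hφ : ∀ s ∈ IsLocalRing.maximalIdeal A, φ (C s) = 0) (H : Multiset A)
    (hH : ∀ s ∈ H, s ∈ IsLocalRing.maximalIdeal A) :
    φ (H.map fun s => (1 - C s * X : A[X])).prod = 1 := by
  rw [map_multiset_prod, Multiset.map_map]
  refine Multiset.prod_eq_one ?_
  intro y hy
  obtain ⟨s, hs, rfl⟩ := Multiset.mem_map.mp hy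
  simp only [Function.comp_apply, map_sub, map_one, map_mul, hφ s (hH s hs), zero_mul, sub_zero]

end Weierstrass

section Chart

/-- **(H4) Conservation of number on a chart.**  `A` a valuation ring (not necessarily
discrete) with algebraically closed fraction field `L` and residue field `k`; `B` a
torsion-free `A`-algebra with constant value group (`hprim`), generic fibre `R` and special
fibre `S`, both Dedekind; `x ∈ B` a coordinate such that for every monic `g ∈ A[X]` the
dimension of `R ⧸ g(x)` is at most that of `S ⧸ g(x)` (the degree inequality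
`[F : L(x)] ≤ [F_k : k(x)]`).  Let `a ∈ B` have nonzero reduction and divide `ν(x)` for a
polynomial `ν ∈ A[X]` with a unit coefficient (for example its norm).  Then for every
nonzero prime `𝔫` of `S` the multiplicity of `𝔫` in the reduction of `a` is the number, with
multiplicity, of the zeros of `a` on the generic fibre which specialise to `𝔫`. -/
theorem card_filter_comap_le_eq_count_of_dvd_aeval
    {A L k B R S : Type*} [CommRing A] [IsDomain A] [ValuationRing A]
    [Field L] [Algebra A L] [IsFractionRing A L] [IsAlgClosed L]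
    [Field k] [Algebra A k]
    [CommRing B] [Algebra A B]
    [CommRing R] [IsDedekindDomain R] [Algebra L R] [Algebra A R] [IsScalarTower A L R]
    [CommRing S] [IsDedekindDomain S] [Algebra k S] [Algebra A S] [IsScalarTower A k S]
    (fL : B →ₐ[A] R) (fk : B →ₐ[A] S)
    (hk : Function.Surjective (algebraMap A k))
    (hLsurj : ∀ r : R, ∃ b : B, ∃ s : A, s ≠ 0 ∧ algebraMap A R s * r = fL b)
    (hLker : ∀ b : B, fL b = 0 → ∃ s : A, s ≠ 0 ∧ s • b = 0)
    (hksurj : Function.Surjective fk)
    (hkker : RingHom.ker (fk : B →+* S) ≤ (RingHom.ker (algebraMap A k)).map (algebraMap A B))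
    (hB : ∀ (s : A) (y : B), s ≠ 0 → s • y = 0 → y = 0)
    (hprim : ∀ w : B, w ≠ 0 → ∃ (c : A) (w' : B), fk w' ≠ 0 ∧ w = c • w')
    (x : B)
    (hx : ∀ g : A[X], g.Monic → fk (aeval x g) ≠ 0)
    (hfinL : ∀ g : A[X], g.Monic → Module.Finite L (R ⧸ Ideal.span {fL (aeval x g)}))
    (hfink : ∀ g : A[X], g.Monic → Module.Finite k (S ⧸ Ideal.span {fk (aeval x g)}))
    (hrank : ∀ g : A[X], g.Monic →
      Module.finrank L (R ⧸ Ideal.span {fL (aeval x g)}) ≤
        Module.finrank k (S ⧸ Ideal.span {fk (aeval x g)}))
    (a : B) (hak : fk a ≠ 0) (ν : A[X]) (hν : ∃ i, IsUnit (ν.coeff i)) (hdvd : a ∣ aeval x ν)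
    (𝔫 : Ideal S) (h𝔫 : 𝔫.IsPrime) :
    open Classical in
    ((normalizedFactors (Ideal.span {fL a})).filter
        (fun 𝔭 => 𝔭.comap fL ≤ 𝔫.comap fk)).card =
      (normalizedFactors (Ideal.span {fk a})).count 𝔫 := by
  classical
  have hker : RingHom.ker (algebraMap A k) = IsLocalRing.maximalIdeal A :=
    IsLocalRing.eq_maximalIdeal (RingHom.ker_isMaximal_of_surjective _ hk)
  obtain ⟨u₀, G, H, hu₀, hH, hfac⟩ := exists_weierstrass L ν hν
  set gP : A[X] := (G.map fun a => (X - C a : A[X])).prod with hgP
  set hP : A[X] := (H.map fun s => (1 - C s * X : A[X])).prod with hhP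
  have hmonic : gP.Monic := monic_multiset_prod_of_monic _ _ fun a _ => monic_X_sub_C a
  -- `g * h = a * e`
  obtain ⟨e', he'⟩ := hdvd
  obtain ⟨v₀, rfl⟩ := hu₀
  have hgh : aeval x gP * aeval x hP = a * (algebraMap A B (↑v₀⁻¹ : A) * e') := by
    have h1 : aeval x ν = algebraMap A B (v₀ : A) * (aeval x gP * aeval x hP) := by
      rw [hfac, map_mul, map_mul, aeval_C, mul_assoc]
    have h2 : algebraMap A B (↑v₀⁻¹ : A) * algebraMap A B (v₀ : A) = 1 := by
      rw [← map_mul, Units.inv_mul, map_one]
    calc aeval x gP * aeval x hP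
        = algebraMap A B (↑v₀⁻¹ : A) * algebraMap A B (v₀ : A) * (aeval x gP * aeval x hP) := by
          rw [h2, one_mul]
      _ = algebraMap A B (↑v₀⁻¹ : A) * aeval x ν := by rw [h1, mul_assoc]
      _ = a * (algebraMap A B (↑v₀⁻¹ : A) * e') := by rw [he']; ring
  -- comaximality
  obtain ⟨u, w, huw⟩ := (isCoprime_weierstrass_factors G H hH).map
    ((aeval x : A[X] →ₐ[A] B) : A[X] →+* B)
  have huw' : u * aeval x gP + w * aeval x hP = 1 := huw
  -- `h` reduces to `1`
  have hh1 : fk (aeval x hP) = 1 := by
    have := map_weierstrass_outer_eq_one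
      (((fk : B →+* S).comp ((aeval x : A[X] →ₐ[A] B) : A[X] →+* B)))
      (fun s hs => by
        have hs0 : algebraMap A k s = 0 := by
          rw [← hker] at hs; exact hs
        change fk (aeval x (C s)) = 0
        rw [aeval_C, AlgHom.commutes, IsScalarTower.algebraMap_apply A k S, hs0, map_zero])
      H hH
    exact this
  have hh : IsUnit (fk (aeval x hP)) := by rw [hh1]; exact isUnit_one
  -- torsion-freeness
  have htfa := mem_span_singleton_of_smul_mem (k := k) fk hk hB hprim a hak
  have htfg := mem_span_singleton_of_smul_mem (k := k) fk hk hB hprim (aeval x gP) (hx gP hmonic)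
  -- `B ⧸ (g)` is finite
  have := hfinL gP hmonic
  have := hfink gP hmonic
  have hfing : Module.Finite A (B ⧸ Ideal.span {aeval x gP}) :=
    (free_finite_quotient_of_finrank_le (L := L) (k := k) fL fk hk hLsurj hLker hksurj
      (Ideal.span {aeval x gP}) htfg (Ideal.span {fL (aeval x gP)})
      (Ideal.span {fk (aeval x gP)}) (by rw [Ideal.map_span, Set.image_singleton])
      (by rw [Ideal.map_span, Set.image_singleton]) (hrank gP hmonic)).2.1
  obtain ⟨hfree, hfin⟩ := free_finite_quotient_span_pair a (aeval x gP) (aeval x hP) _ u w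
    hgh huw' htfa
  -- nonvanishing on the generic fibre
  have haL : fL a ≠ 0 := by
    intro h0
    obtain ⟨s, hs, hsa⟩ := hLker a h0
    have ha0 : a = 0 := hB s a hs hsa
    exact hak (by rw [ha0, map_zero])
  exact card_filter_comap_le_eq_count_principal (L := L) (k := k) fL fk hk hLsurj hLker hksurj
    hkker a (aeval x gP) (aeval x hP) _ hgh hh haL hak 𝔫 h𝔫

end Chart

end Fermat.Agent.Lib.helper873
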