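import Mathlib
import Fermat.Agent.Lib.helper853_TorsionLadder

/-!
# Parallelogram law for `x`-heights on a general Weierstrass curve (helper8821)

`k` is any field (every characteristic), `W : WeierstrassCurve k` is elliptic (general
`a₁, …, a₆`), `Kx = RatFunc k`, and `height r = max (deg num) (deg denom)`.

* `parallelogram_poly` : polynomial core (primitive triples over `k[X]`).
* `parallelogram_ratFunc` : projective form over `RatFunc k`, inside any field `L ⊇ RatFunc k`,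
  directly in the shape of `helper853.AddSubRel`.
* `xHeight_parallelogram` : point form, for points of `W` over any field `L ⊇ RatFunc k` whose
  `x`-coordinates lie in `RatFunc k`; `xHeight_parallelogram_subgroup` for subgroups.

No function field model is fixed, so any model of the function field of `W` can use it.
-/

set_option autoImplicit false

namespace Fermat.Agent.Lib.helper8821

open Polynomial
open Fermat.Agent.Lib.helper853

/-! ### The certificate of Mathlib's `addSubMap`, in terms of the plain quadrics -/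

section Cert

variable {R : Type*} [CommRing R] (W : WeierstrassCurve R)

theorem eval_addSubMap_zero (x : Fin 3 → R) :
    MvPolynomial.eval x (W.addSubMap 0) = symS W.b₄ W.b₆ W.b₈ (x 0) (x 1) (x 2) := by
  simp [WeierstrassCurve.addSubMap, symS]

theorem eval_addSubMap_one (x : Fin 3 → R) :
    MvPolynomial.eval x (W.addSubMap 1) = symT W.b₂ W.b₄ W.b₆ (x 0) (x 1) (x 2) := by
  simp [WeierstrassCurve.addSubMap, symT]

theorem eval_addSubMap_two (x : Fin 3 → R) :
    MvPolynomial.eval x (W.addSubMap 2) = symU (x 0) (x 1) (x 2) := by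
  simp [WeierstrassCurve.addSubMap, symU]

/-- The Nullstellensatz certificate: the fourth powers of `s, t, u` are combinations of the three
quadrics. -/
theorem exists_cert [W.IsElliptic] (s t u : R) (v : R) (hv : v = s ∨ v = t ∨ v = u) :
    ∃ p q r : R, p * symS W.b₄ W.b₆ W.b₈ s t u + q * symT W.b₂ W.b₄ W.b₆ s t u +
      r * symU s t u = v ^ 4 := by
  have key : ∀ i : Fin 3, ∃ p q r : R, p * symS W.b₄ W.b₆ W.b₈ s t u +
      q * symT W.b₂ W.b₄ W.b₆ s t u + r * symU s t u = (![s, t, u] : Fin 3 → R) i ^ 4 := by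
    intro i
    have h := W.addSubMapCoeff_condition ![s, t, u] i
    rw [Fin.sum_univ_three, eval_addSubMap_zero, eval_addSubMap_one, eval_addSubMap_two] at h
    exact ⟨_, _, _, h⟩
  rcases hv with rfl | rfl | rfl
  · simpa using key 0
  · simpa using key 1
  · simpa using key 2

end Cert

/-! ### Top coefficients -/

section Top

variable {k : Type*} [Field k]

/-- `TopC f n c`: `f` has degree at most `n` and its coefficient of `X ^ n` is `c`. -/
def TopC (f : k[X]) (n : ℕ) (c : k) : Prop := f.natDegree ≤ n ∧ f.coeff n = c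

theorem TopC.mul {f g : k[X]} {m n : ℕ} {c e : k} (hf : TopC f m c) (hg : TopC g n e) :
    TopC (f * g) (m + n) (c * e) := by
  refine ⟨natDegree_mul_le.trans (add_le_add hf.1 hg.1), ?_⟩
  rw [coeff_mul_add_eq_of_natDegree_le hf.1 hg.1, hf.2, hg.2]

theorem TopC.add {f g : k[X]} {n : ℕ} {c e : k} (hf : TopC f n c) (hg : TopC g n e) :
    TopC (f + g) n (c + e) := by
  refine ⟨(natDegree_add_le _ _).trans (max_le hf.1 hg.1), ?_⟩
  rw [coeff_add, hf.2, hg.2]

theorem TopC.neg {f : k[X]} {n : ℕ} {c : k} (hf : TopC f n c) : TopC (-f) n (-c) := by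
  refine ⟨by rw [natDegree_neg]; exact hf.1, ?_⟩
  rw [coeff_neg, hf.2]

theorem TopC.sub {f g : k[X]} {n : ℕ} {c e : k} (hf : TopC f n c) (hg : TopC g n e) :
    TopC (f - g) n (c - e) := by
  rw [sub_eq_add_neg, sub_eq_add_neg]
  exact hf.add hg.neg

theorem TopC.C_mul {f : k[X]} {n : ℕ} {c : k} (r : k) (hf : TopC f n c) :
    TopC (C r * f) n (r * c) := by
  refine ⟨(natDegree_C_mul_le _ _).trans hf.1, ?_⟩
  rw [coeff_C_mul, hf.2]

theorem TopC.natDegree_eq {f : k[X]} {n : ℕ} {c : k} (hf : TopC f n c) (hc : c ≠ 0) :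
    f.natDegree = n :=
  le_antisymm hf.1 (le_natDegree_of_ne_zero (by rw [hf.2]; exact hc))

theorem TopC.ne_zero {f : k[X]} {n : ℕ} {c : k} (hf : TopC f n c) (hc : c ≠ 0) : f ≠ 0 := by
  rintro rfl
  exact hc (by rw [← hf.2, coeff_zero])

/-- A coprime pair has a non-vanishing top coefficient vector in degree `max (deg a) (deg b)`. -/
theorem exists_topC_of_isCoprime {a b : k[X]} (h : IsCoprime a b) :
    ∃ ca cb : k, TopC a (max a.natDegree b.natDegree) ca ∧
      TopC b (max a.natDegree b.natDegree) cb ∧ ¬ (ca = 0 ∧ cb = 0) := by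
  refine ⟨_, _, ⟨le_max_left _ _, rfl⟩, ⟨le_max_right _ _, rfl⟩, ?_⟩
  rintro ⟨ha, hb⟩
  rcases le_total a.natDegree b.natDegree with hab | hab
  · rw [max_eq_right hab] at ha hb
    have hb0 : b = 0 := leadingCoeff_eq_zero.mp hb
    subst hb0
    have ha0 : a.natDegree = 0 := by simpa using hab
    rw [natDegree_zero] at ha
    have hu : IsUnit a := isCoprime_zero_right.mp h
    have : a = 0 := by
      rw [eq_C_of_natDegree_eq_zero ha0, ha, C_0]
    exact hu.ne_zero this
  · rw [max_eq_left hab] at ha hb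
    have ha0 : a = 0 := leadingCoeff_eq_zero.mp ha
    subst ha0
    have hb0 : b.natDegree = 0 := by simpa using hab
    rw [natDegree_zero] at hb
    have hu : IsUnit b := isCoprime_zero_left.mp h
    have : b = 0 := by
      rw [eq_C_of_natDegree_eq_zero hb0, hb, C_0]
    exact hu.ne_zero this

end Top

/-! ### Primitive triples -/

section Prim

variable {R : Type*} [CommRing R]

/-- A triple is primitive if it generates the unit ideal. -/
def Prim (v₀ v₁ v₂ : R) : Prop := ∃ p q r : R, p * v₀ + q * v₁ + r * v₂ = 1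

theorem prim_iff_span {v₀ v₁ v₂ : R} :
    Prim v₀ v₁ v₂ ↔ Ideal.span ({v₀, v₁, v₂} : Set R) = ⊤ := by
  rw [Ideal.eq_top_iff_one, Ideal.span, Submodule.mem_span_triple]
  simp only [smul_eq_mul, Prim]

/-- The symmetric coordinates of two primitive pairs form a primitive triple. -/
theorem prim_pair {a b c d : R} (h₁ : IsCoprime a b) (h₂ : IsCoprime c d) :
    Prim (a * c) (a * d + b * c) (b * d) := by
  obtain ⟨α, β, h1⟩ := h₁
  obtain ⟨γ, δ, h2⟩ := h₂
  refine ⟨α ^ 2 * γ ^ 2 * (a * c) + 2 * α ^ 2 * γ * δ * (a * d) - α ^ 2 * δ ^ 2 * (b * d) +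
      2 * α * β * γ ^ 2 * (b * c) + 4 * α * β * γ * δ * (b * d),
    α ^ 2 * δ ^ 2 * (a * d) + β ^ 2 * γ ^ 2 * (b * c),
    2 * α * β * δ ^ 2 * (a * d) - β ^ 2 * γ ^ 2 * (a * c) + 2 * β ^ 2 * γ * δ * (b * c) +
      β ^ 2 * δ ^ 2 * (b * d), ?_⟩
  linear_combination ((α * a + β * b) + 1) * (γ * c + δ * d) ^ 2 * h1 + ((γ * c + δ * d) + 1) * h2

/-- The add-sub quadrics of an elliptic Weierstrass curve send primitive triples to primitive
triples. -/
theorem prim_quadrics (W : WeierstrassCurve R) [W.IsElliptic] {s t u : R} (h : Prim s t u) :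
    Prim (symS W.b₄ W.b₆ W.b₈ s t u) (symT W.b₂ W.b₄ W.b₆ s t u) (symU s t u) := by
  rw [prim_iff_span] at h ⊢
  have h4 := Ideal.span_pow_eq_top _ h 4
  rw [eq_top_iff, ← h4, Ideal.span_le]
  rintro _ ⟨v, hv, rfl⟩
  obtain ⟨p, q, r, hpqr⟩ := exists_cert W s t u v (by simpa using hv)
  show v ^ 4 ∈ Ideal.span _
  rw [← hpqr]
  refine Ideal.add_mem _ (Ideal.add_mem _ ?_ ?_) ?_
  · exact Ideal.mul_mem_left _ _ (Ideal.subset_span (by simp))
  · exact Ideal.mul_mem_left _ _ (Ideal.subset_span (by simp))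
  · exact Ideal.mul_mem_left _ _ (Ideal.subset_span (by simp))

end Prim

/-! ### Top degrees of the pair product and of the quadrics -/

section TopForms

variable {k : Type*} [Field k]

theorem topC_pair {a b c d : k[X]} {m n : ℕ} {ca cb cc cd : k}
    (ha : TopC a m ca) (hb : TopC b m cb) (hc : TopC c n cc) (hd : TopC d n cd) :
    TopC (a * c) (m + n) (ca * cc) ∧ TopC (a * d + b * c) (m + n) (ca * cd + cb * cc) ∧
      TopC (b * d) (m + n) (cb * cd) :=
  ⟨ha.mul hc, (ha.mul hd).add (hb.mul hc), hb.mul hd⟩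

theorem pair_top_ne_zero {ca cb cc cd : k} (h₁ : ¬ (ca = 0 ∧ cb = 0)) (h₂ : ¬ (cc = 0 ∧ cd = 0)) :
    ¬ (ca * cc = 0 ∧ ca * cd + cb * cc = 0 ∧ cb * cd = 0) := by
  rintro ⟨e1, e2, e3⟩
  by_cases ha : ca = 0
  · have hb : cb ≠ 0 := fun hb => h₁ ⟨ha, hb⟩
    have hd : cd = 0 := by
      rcases mul_eq_zero.mp e3 with h | h
      · exact absurd h hb
      · exact h
    have hc : cc = 0 := by
      rw [ha, zero_mul, zero_add] at e2
      rcases mul_eq_zero.mp e2 with h | h
      · exact absurd h hb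
      · exact h
    exact h₂ ⟨hc, hd⟩
  · have hc : cc = 0 := by
      rcases mul_eq_zero.mp e1 with h | h
      · exact absurd h ha
      · exact h
    have hd : cd = 0 := by
      rw [hc, mul_zero, add_zero] at e2
      rcases mul_eq_zero.mp e2 with h | h
      · exact absurd h ha
      · exact h
    exact h₂ ⟨hc, hd⟩

theorem topC_quadrics (b₂ b₄ b₆ b₈ : k) {s t u : k[X]} {N : ℕ} {cs ct cu : k}
    (hs : TopC s N cs) (ht : TopC t N ct) (hu : TopC u N cu) :
    TopC (symS (C b₄) (C b₆) (C b₈) s t u) (N + N) (symS b₄ b₆ b₈ cs ct cu) ∧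
      TopC (symT (C b₂) (C b₄) (C b₆) s t u) (N + N) (symT b₂ b₄ b₆ cs ct cu) ∧
      TopC (symU s t u) (N + N) (symU cs ct cu) := by
  refine ⟨?_, ?_, ?_⟩
  · have e1 : symS (C b₄) (C b₆) (C b₈) s t u =
        s * s - C b₄ * (s * u) - C b₆ * (t * u) - C b₈ * (u * u) := by
      simp only [symS]; ring
    have e2 : symS b₄ b₆ b₈ cs ct cu =
        cs * cs - b₄ * (cs * cu) - b₆ * (ct * cu) - b₈ * (cu * cu) := by
      simp only [symS]; ring
    rw [e1, e2]
    exact (((hs.mul hs).sub ((hs.mul hu).C_mul b₄)).sub ((ht.mul hu).C_mul b₆)).sub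
      ((hu.mul hu).C_mul b₈)
  · have e1 : symT (C b₂) (C b₄) (C b₆) s t u =
        C 2 * (t * s) + C b₂ * (s * u) + C b₄ * (t * u) + C b₆ * (u * u) := by
      simp only [symT, map_ofNat]; ring
    have e2 : symT b₂ b₄ b₆ cs ct cu =
        2 * (ct * cs) + b₂ * (cs * cu) + b₄ * (ct * cu) + b₆ * (cu * cu) := by
      simp only [symT]; ring
    rw [e1, e2]
    exact ((((ht.mul hs).C_mul 2).add ((hs.mul hu).C_mul b₂)).add ((ht.mul hu).C_mul b₄)).add
      ((hu.mul hu).C_mul b₆)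
  · have e1 : symU s t u = t * t - C 4 * (s * u) := by
      simp only [symU, map_ofNat]; ring
    have e2 : symU cs ct cu = ct * ct - 4 * (cs * cu) := by
      simp only [symU]; ring
    rw [e1, e2]
    exact (ht.mul ht).sub ((hs.mul hu).C_mul 4)

/-- Over a field, the three quadrics of an elliptic curve have no common non-trivial zero. -/
theorem quadrics_ne_zero (W : WeierstrassCurve k) [W.IsElliptic] {cs ct cu : k}
    (h : ¬ (cs = 0 ∧ ct = 0 ∧ cu = 0)) :
    ¬ (symS W.b₄ W.b₆ W.b₈ cs ct cu = 0 ∧ symT W.b₂ W.b₄ W.b₆ cs ct cu = 0 ∧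
      symU cs ct cu = 0) := by
  rintro ⟨e1, e2, e3⟩
  apply h
  have key : ∀ v : k, (v = cs ∨ v = ct ∨ v = cu) → v = 0 := by
    intro v hv
    obtain ⟨p, q, r, hpqr⟩ := exists_cert W cs ct cu v hv
    rw [e1, e2, e3, mul_zero, mul_zero, mul_zero, add_zero, add_zero] at hpqr
    exact pow_eq_zero_iff (by norm_num) |>.mp hpqr.symm
  exact ⟨key _ (Or.inl rfl), key _ (Or.inr (Or.inl rfl)), key _ (Or.inr (Or.inr rfl))⟩

/-- Two proportional primitive triples of polynomials with non-vanishing top coefficient vectors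
have the same top degree. -/
theorem top_eq_of_proportional {v₀ v₁ v₂ w₀ w₁ w₂ : k[X]}
    (hv : Prim v₀ v₁ v₂) (hw : Prim w₀ w₁ w₂)
    (h01 : v₀ * w₁ = v₁ * w₀) (h02 : v₀ * w₂ = v₂ * w₀) (h12 : v₁ * w₂ = v₂ * w₁)
    {N N' : ℕ} {c₀ c₁ c₂ c₀' c₁' c₂' : k}
    (t₀ : TopC v₀ N c₀) (t₁ : TopC v₁ N c₁) (t₂ : TopC v₂ N c₂)
    (hc : ¬ (c₀ = 0 ∧ c₁ = 0 ∧ c₂ = 0))
    (t₀' : TopC w₀ N' c₀') (t₁' : TopC w₁ N' c₁') (t₂' : TopC w₂ N' c₂')
    (hc' : ¬ (c₀' = 0 ∧ c₁' = 0 ∧ c₂' = 0)) : N = N' := by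
  obtain ⟨p, q, r, h⟩ := hv
  obtain ⟨p', q', r', h'⟩ := hw
  obtain ⟨e, he⟩ : ∃ e, e = p * w₀ + q * w₁ + r * w₂ := ⟨_, rfl⟩
  obtain ⟨e', he'⟩ : ∃ e', e' = p' * v₀ + q' * v₁ + r' * v₂ := ⟨_, rfl⟩
  have w0 : w₀ = v₀ * e := by
    linear_combination (-w₀) * h - q * h01 - r * h02 - v₀ * he
  have w1 : w₁ = v₁ * e := by
    linear_combination (-w₁) * h + p * h01 - r * h12 - v₁ * he
  have w2 : w₂ = v₂ * e := by
    linear_combination (-w₂) * h + p * h02 + q * h12 - v₂ * he
  have v0 : v₀ = w₀ * e' := by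
    linear_combination (-v₀) * h' + q' * h01 + r' * h02 - w₀ * he'
  have v1 : v₁ = w₁ * e' := by
    linear_combination (-v₁) * h' - p' * h01 + r' * h12 - w₁ * he'
  have v2 : v₂ = w₂ * e' := by
    linear_combination (-v₂) * h' - p' * h02 - q' * h12 - w₂ * he'
  -- some `w_j` is nonzero, hence `e' * e = 1`
  have hee : e' * e = 1 := by
    have aux : ∀ w v : k[X], w ≠ 0 → w = v * e → v = w * e' → e' * e = 1 := by
      intro w v hw0 hw hv
      have : w * (e' * e) = w * 1 := by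
        rw [mul_one, ← mul_assoc, ← hv, ← hw]
      exact mul_left_cancel₀ hw0 this
    by_cases h0 : c₀' = 0
    · by_cases h1 : c₁' = 0
      · have h2 : c₂' ≠ 0 := fun h2 => hc' ⟨h0, h1, h2⟩
        exact aux _ _ (t₂'.ne_zero h2) w2 v2
      · exact aux _ _ (t₁'.ne_zero h1) w1 v1
    · exact aux _ _ (t₀'.ne_zero h0) w0 v0
  have hu : IsUnit e := IsUnit.of_mul_eq_one e' (by rw [mul_comm]; exact hee)
  obtain ⟨ε, hε, hεe⟩ := Polynomial.isUnit_iff.mp hu
  have hε0 : ε ≠ 0 := hε.ne_zero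
  have d0 : w₀.natDegree = v₀.natDegree := by rw [w0, ← hεe, mul_comm, natDegree_C_mul hε0]
  have d1 : w₁.natDegree = v₁.natDegree := by rw [w1, ← hεe, mul_comm, natDegree_C_mul hε0]
  have d2 : w₂.natDegree = v₂.natDegree := by rw [w2, ← hεe, mul_comm, natDegree_C_mul hε0]
  apply le_antisymm
  · by_cases h0 : c₀ = 0
    · by_cases h1 : c₁ = 0
      · have h2 : c₂ ≠ 0 := fun h2 => hc ⟨h0, h1, h2⟩
        rw [← t₂.natDegree_eq h2, ← d2]; exact t₂'.1
      · rw [← t₁.natDegree_eq h1, ← d1]; exact t₁'.1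
    · rw [← t₀.natDegree_eq h0, ← d0]; exact t₀'.1
  · by_cases h0 : c₀' = 0
    · by_cases h1 : c₁' = 0
      · have h2 : c₂' ≠ 0 := fun h2 => hc' ⟨h0, h1, h2⟩
        rw [← t₂'.natDegree_eq h2, d2]; exact t₂.1
      · rw [← t₁'.natDegree_eq h1, d1]; exact t₁.1
    · rw [← t₀'.natDegree_eq h0, d0]; exact t₀.1

/-- **Polynomial core of the parallelogram law.**  Four primitive pairs of polynomials; if the
add-sub quadrics of `W` at the symmetric coordinates of the first two pairs are proportional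
to the symmetric coordinates of the last two pairs, then the degrees satisfy the parallelogram
law. -/
theorem parallelogram_poly (W : WeierstrassCurve k) [W.IsElliptic]
    {a₁ b₁ a₂ b₂ a₃ b₃ a₄ b₄ : k[X]}
    (h₁ : IsCoprime a₁ b₁) (h₂ : IsCoprime a₂ b₂) (h₃ : IsCoprime a₃ b₃) (h₄ : IsCoprime a₄ b₄)
    (hST : symS (C W.b₄) (C W.b₆) (C W.b₈) (a₁ * a₂) (a₁ * b₂ + b₁ * a₂) (b₁ * b₂) *
        (a₃ * b₄ + b₃ * a₄) =
      symT (C W.b₂) (C W.b₄) (C W.b₆) (a₁ * a₂) (a₁ * b₂ + b₁ * a₂) (b₁ * b₂) * (a₃ * a₄))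
    (hSU : symS (C W.b₄) (C W.b₆) (C W.b₈) (a₁ * a₂) (a₁ * b₂ + b₁ * a₂) (b₁ * b₂) * (b₃ * b₄) =
      symU (a₁ * a₂) (a₁ * b₂ + b₁ * a₂) (b₁ * b₂) * (a₃ * a₄))
    (hTU : symT (C W.b₂) (C W.b₄) (C W.b₆) (a₁ * a₂) (a₁ * b₂ + b₁ * a₂) (b₁ * b₂) * (b₃ * b₄) =
      symU (a₁ * a₂) (a₁ * b₂ + b₁ * a₂) (b₁ * b₂) * (a₃ * b₄ + b₃ * a₄)) :
    max a₃.natDegree b₃.natDegree + max a₄.natDegree b₄.natDegree =
      2 * max a₁.natDegree b₁.natDegree + 2 * max a₂.natDegree b₂.natDegree := by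
  obtain ⟨c₁, d₁, ta₁, tb₁, n₁⟩ := exists_topC_of_isCoprime h₁
  obtain ⟨c₂, d₂, ta₂, tb₂, n₂⟩ := exists_topC_of_isCoprime h₂
  obtain ⟨c₃, d₃, ta₃, tb₃, n₃⟩ := exists_topC_of_isCoprime h₃
  obtain ⟨c₄, d₄, ta₄, tb₄, n₄⟩ := exists_topC_of_isCoprime h₄
  obtain ⟨us, ut, uu⟩ := topC_pair ta₁ tb₁ ta₂ tb₂
  obtain ⟨ws, wt, wu⟩ := topC_pair ta₃ tb₃ ta₄ tb₄
  obtain ⟨vs, vt, vu⟩ := topC_quadrics W.b₂ W.b₄ W.b₆ W.b₈ us ut uu
  have hu0 := pair_top_ne_zero n₁ n₂
  have hw0 := pair_top_ne_zero n₃ n₄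
  have hv0 := quadrics_ne_zero W hu0
  have pu : Prim (a₁ * a₂) (a₁ * b₂ + b₁ * a₂) (b₁ * b₂) := prim_pair h₁ h₂
  have pw : Prim (a₃ * a₄) (a₃ * b₄ + b₃ * a₄) (b₃ * b₄) := prim_pair h₃ h₄
  have pv := prim_quadrics (W.map (C : k →+* k[X])) pu
  simp only [WeierstrassCurve.map_b₂, WeierstrassCurve.map_b₄, WeierstrassCurve.map_b₆,
    WeierstrassCurve.map_b₈] at pv
  have key := top_eq_of_proportional pv pw hST hSU hTU vs vt vu hv0 ws wt wu hw0
  omega

end TopForms

/-! ### The projective form over `RatFunc k` -/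

section RatFuncForm

variable {k : Type*} [Field k]

/-- The height of the projective point `(X : Z)` of `ℙ¹(RatFunc k)`, for pairs of the shape
`(x, 1)` (height of `x`) or `(1, 0)` (height `0`). -/
noncomputable def pht (X Z : RatFunc k) : ℕ :=
  open Classical in if Z = 0 then 0 else max X.num.natDegree X.denom.natDegree

@[simp] theorem pht_one_right (X : RatFunc k) :
    pht X 1 = max X.num.natDegree X.denom.natDegree := by
  simp [pht]

@[simp] theorem pht_zero_right (X : RatFunc k) : pht X 0 = 0 := by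
  simp [pht]

/-- A primitive polynomial representative of a projective point `(x : 1)` or `(1 : 0)`. -/
theorem exists_rep {X Z : RatFunc k} (h : Z = 1 ∨ (X = 1 ∧ Z = 0)) :
    ∃ a b : k[X], IsCoprime a b ∧ max a.natDegree b.natDegree = pht X Z ∧
      ∃ β : RatFunc k, β ≠ 0 ∧ algebraMap k[X] (RatFunc k) a = β * X ∧
        algebraMap k[X] (RatFunc k) b = β * Z := by
  rcases h with rfl | ⟨rfl, rfl⟩
  · refine ⟨X.num, X.denom, RatFunc.isCoprime_num_denom X, by simp, algebraMap _ _ X.denom,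
      RatFunc.algebraMap_ne_zero (RatFunc.denom_ne_zero X), ?_, by rw [mul_one]⟩
    have hd : algebraMap k[X] (RatFunc k) X.denom ≠ 0 :=
      RatFunc.algebraMap_ne_zero (RatFunc.denom_ne_zero X)
    calc algebraMap k[X] (RatFunc k) X.num
        = algebraMap k[X] (RatFunc k) X.denom *
          (algebraMap k[X] (RatFunc k) X.num / algebraMap k[X] (RatFunc k) X.denom) := by
          field_simp
      _ = algebraMap k[X] (RatFunc k) X.denom * X := by rw [RatFunc.num_div_denom]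
  · exact ⟨1, 0, isCoprime_one_left, by simp, 1, one_ne_zero, by simp, by simp⟩

/-- **Parallelogram law, projective form over `RatFunc k`** inside any field `L ⊇ RatFunc k`:
the three equations are exactly those of `helper853.AddSubRel`. -/
theorem parallelogram_ratFunc (W : WeierstrassCurve k) [W.IsElliptic]
    {L : Type*} [Field L] [Algebra (RatFunc k) L]
    {X₁ Z₁ X₂ Z₂ X₃ Z₃ X₄ Z₄ : RatFunc k}
    (h₁ : Z₁ = 1 ∨ (X₁ = 1 ∧ Z₁ = 0)) (h₂ : Z₂ = 1 ∨ (X₂ = 1 ∧ Z₂ = 0))
    (h₃ : Z₃ = 1 ∨ (X₃ = 1 ∧ Z₃ = 0)) (h₄ : Z₄ = 1 ∨ (X₄ = 1 ∧ Z₄ = 0))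
    (c : L)
    (hS : symS (algebraMap (RatFunc k) L (RatFunc.C W.b₄)) (algebraMap (RatFunc k) L (RatFunc.C W.b₆))
        (algebraMap (RatFunc k) L (RatFunc.C W.b₈))
        (algebraMap (RatFunc k) L X₁ * algebraMap (RatFunc k) L X₂)
        (algebraMap (RatFunc k) L X₁ * algebraMap (RatFunc k) L Z₂ +
          algebraMap (RatFunc k) L Z₁ * algebraMap (RatFunc k) L X₂)
        (algebraMap (RatFunc k) L Z₁ * algebraMap (RatFunc k) L Z₂) =
      c * (algebraMap (RatFunc k) L X₃ * algebraMap (RatFunc k) L X₄))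
    (hT : symT (algebraMap (RatFunc k) L (RatFunc.C W.b₂)) (algebraMap (RatFunc k) L (RatFunc.C W.b₄))
        (algebraMap (RatFunc k) L (RatFunc.C W.b₆))
        (algebraMap (RatFunc k) L X₁ * algebraMap (RatFunc k) L X₂)
        (algebraMap (RatFunc k) L X₁ * algebraMap (RatFunc k) L Z₂ +
          algebraMap (RatFunc k) L Z₁ * algebraMap (RatFunc k) L X₂)
        (algebraMap (RatFunc k) L Z₁ * algebraMap (RatFunc k) L Z₂) =
      c * (algebraMap (RatFunc k) L X₃ * algebraMap (RatFunc k) L Z₄ +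
        algebraMap (RatFunc k) L Z₃ * algebraMap (RatFunc k) L X₄))
    (hU : symU (algebraMap (RatFunc k) L X₁ * algebraMap (RatFunc k) L X₂)
        (algebraMap (RatFunc k) L X₁ * algebraMap (RatFunc k) L Z₂ +
          algebraMap (RatFunc k) L Z₁ * algebraMap (RatFunc k) L X₂)
        (algebraMap (RatFunc k) L Z₁ * algebraMap (RatFunc k) L Z₂) =
      c * (algebraMap (RatFunc k) L Z₃ * algebraMap (RatFunc k) L Z₄)) :
    pht X₃ Z₃ + pht X₄ Z₄ = 2 * pht X₁ Z₁ + 2 * pht X₂ Z₂ := by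
  obtain ⟨a₁, b₁, c₁, d₁, β₁, -, ea₁, eb₁⟩ := exists_rep h₁
  obtain ⟨a₂, b₂, c₂, d₂, β₂, -, ea₂, eb₂⟩ := exists_rep h₂
  obtain ⟨a₃, b₃, c₃, d₃, β₃, -, ea₃, eb₃⟩ := exists_rep h₃
  obtain ⟨a₄, b₄, c₄, d₄, β₄, -, ea₄, eb₄⟩ := exists_rep h₄
  rw [← d₁, ← d₂, ← d₃, ← d₄]
  -- the ring hom `k[X] → L`
  set j : k[X] →+* L := (algebraMap (RatFunc k) L).comp (algebraMap k[X] (RatFunc k)) with hj
  have hjinj : Function.Injective j :=
    (algebraMap (RatFunc k) L).injective.comp (IsFractionRing.injective k[X] (RatFunc k))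
  have jC : ∀ b : k, j (C b) = algebraMap (RatFunc k) L (RatFunc.C b) := by
    intro b
    simp [hj]
  have ja : ∀ {a : k[X]} {β X : RatFunc k}, algebraMap k[X] (RatFunc k) a = β * X →
      j a = algebraMap (RatFunc k) L β * algebraMap (RatFunc k) L X := by
    intro a β X h
    rw [hj, RingHom.comp_apply, h, map_mul]
  have A₁ := ja ea₁; have B₁ := ja eb₁; have A₂ := ja ea₂; have B₂ := ja eb₂
  have A₃ := ja ea₃; have B₃ := ja eb₃; have A₄ := ja ea₄; have B₄ := ja eb₄
  simp only [symS, symT, symU] at hS hT hU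
  refine parallelogram_poly W c₁ c₂ c₃ c₄ ?_ ?_ ?_
  · apply hjinj
    simp only [symS, symT, map_mul, map_add, map_sub, map_pow, map_ofNat, jC, A₁, B₁, A₂, B₂, A₃,
      B₃, A₄, B₄]
    linear_combination
      (algebraMap (RatFunc k) L β₁ * algebraMap (RatFunc k) L β₂) ^ 2 *
        (algebraMap (RatFunc k) L β₃ * algebraMap (RatFunc k) L β₄) *
        (algebraMap (RatFunc k) L X₃ * algebraMap (RatFunc k) L Z₄ +
          algebraMap (RatFunc k) L Z₃ * algebraMap (RatFunc k) L X₄) * hS -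
      (algebraMap (RatFunc k) L β₁ * algebraMap (RatFunc k) L β₂) ^ 2 *
        (algebraMap (RatFunc k) L β₃ * algebraMap (RatFunc k) L β₄) *
        (algebraMap (RatFunc k) L X₃ * algebraMap (RatFunc k) L X₄) * hT
  · apply hjinj
    simp only [symS, symU, map_mul, map_add, map_sub, map_pow, map_ofNat, jC, A₁, B₁, A₂, B₂, A₃,
      B₃, A₄, B₄]
    linear_combination
      (algebraMap (RatFunc k) L β₁ * algebraMap (RatFunc k) L β₂) ^ 2 *
        (algebraMap (RatFunc k) L β₃ * algebraMap (RatFunc k) L β₄) *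
        (algebraMap (RatFunc k) L Z₃ * algebraMap (RatFunc k) L Z₄) * hS -
      (algebraMap (RatFunc k) L β₁ * algebraMap (RatFunc k) L β₂) ^ 2 *
        (algebraMap (RatFunc k) L β₃ * algebraMap (RatFunc k) L β₄) *
        (algebraMap (RatFunc k) L X₃ * algebraMap (RatFunc k) L X₄) * hU
  · apply hjinj
    simp only [symT, symU, map_mul, map_add, map_sub, map_pow, map_ofNat, jC, A₁, B₁, A₂, B₂, A₃,
      B₃, A₄, B₄]
    linear_combination
      (algebraMap (RatFunc k) L β₁ * algebraMap (RatFunc k) L β₂) ^ 2 *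
        (algebraMap (RatFunc k) L β₃ * algebraMap (RatFunc k) L β₄) *
        (algebraMap (RatFunc k) L Z₃ * algebraMap (RatFunc k) L Z₄) * hT -
      (algebraMap (RatFunc k) L β₁ * algebraMap (RatFunc k) L β₂) ^ 2 *
        (algebraMap (RatFunc k) L β₃ * algebraMap (RatFunc k) L β₄) *
        (algebraMap (RatFunc k) L X₃ * algebraMap (RatFunc k) L Z₄ +
          algebraMap (RatFunc k) L Z₃ * algebraMap (RatFunc k) L X₄) * hU

end RatFuncForm

/-! ### The point form -/

section PointForm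

open WeierstrassCurve WeierstrassCurve.Affine

variable {k : Type*} [Field k] (W : WeierstrassCurve k)
variable {L : Type*} [Field L] [Algebra k L] [Algebra (RatFunc k) L]

/-- A point of `W` over `L ⊇ RatFunc k` has its `x`-coordinate in `RatFunc k` (the point at
infinity counts). -/
def IsKx (P : (W⁄L).Point) : Prop := ∃ r : RatFunc k, algebraMap (RatFunc k) L r = px P

variable {W}

theorem isKx_zero : IsKx W (0 : (W⁄L).Point) := ⟨1, by simp⟩

theorem isKx_some_iff {x y : L} (h : (W⁄L).Nonsingular x y) :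
    IsKx W (Point.some x y h) ↔ ∃ r : RatFunc k, algebraMap (RatFunc k) L r = x := by
  simp [IsKx]

theorem isKx_some {x y : L} (h : (W⁄L).Nonsingular x y) {r : RatFunc k}
    (hr : algebraMap (RatFunc k) L r = x) : IsKx W (Point.some x y h) :=
  (isKx_some_iff h).mpr ⟨r, hr⟩

variable (W) in
open Classical in
/-- The `x`-height of a point of `W` over `L ⊇ RatFunc k`: `0` at infinity, and the height
`max (deg num) (deg denom)` of `r` if the `x`-coordinate is the image of `r : RatFunc k`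
(junk value `0` if the `x`-coordinate is not in `RatFunc k`). -/
noncomputable def xHeight : (W⁄L).Point → ℕ
  | .zero => 0
  | .some x _ _ =>
    if h : ∃ r : RatFunc k, algebraMap (RatFunc k) L r = x then
      max (Classical.choose h).num.natDegree (Classical.choose h).denom.natDegree
    else 0

@[simp] theorem xHeight_zero : xHeight W (0 : (W⁄L).Point) = 0 := rfl

theorem xHeight_some_of_eq {x y : L} (h : (W⁄L).Nonsingular x y) {r : RatFunc k}
    (hr : algebraMap (RatFunc k) L r = x) :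
    xHeight W (Point.some x y h) = max r.num.natDegree r.denom.natDegree := by
  have hex : ∃ r : RatFunc k, algebraMap (RatFunc k) L r = x := ⟨r, hr⟩
  have hch : Classical.choose hex = r :=
    (algebraMap (RatFunc k) L).injective ((Classical.choose_spec hex).trans hr.symm)
  simp only [xHeight, dif_pos hex, hch]

/-- Projective coordinates in `RatFunc k` of a point with `x`-coordinate in `RatFunc k`. -/
theorem exists_proj {P : (W⁄L).Point} (hP : IsKx W P) :
    ∃ X Z : RatFunc k, (Z = 1 ∨ (X = 1 ∧ Z = 0)) ∧ px P = algebraMap (RatFunc k) L X ∧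
      pz P = algebraMap (RatFunc k) L Z ∧ xHeight W P = pht X Z := by
  rcases P with _ | ⟨x, y, h⟩
  · exact ⟨1, 0, Or.inr ⟨rfl, rfl⟩, by simp [px, Point.xRep], by simp [pz, Point.xRep],
      by simp [xHeight]⟩
  · obtain ⟨r, hr⟩ := (isKx_some_iff h).mp hP
    exact ⟨r, 1, Or.inl rfl, by simp [hr], by simp, by rw [xHeight_some_of_eq h hr, pht_one_right]⟩

/-- **Parallelogram law for `x`-heights** (general Weierstrass equation, every characteristic,
all degenerate cases): if `P`, `Q`, `P + Q`, `P - Q` have their `x`-coordinates in `RatFunc k`,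
then `h(P + Q) + h(P - Q) = 2 h(P) + 2 h(Q)`. -/
theorem xHeight_parallelogram [IsScalarTower k (RatFunc k) L] [W.IsElliptic] [DecidableEq L]
    (P Q : (W⁄L).Point)
    (hP : IsKx W P) (hQ : IsKx W Q) (hS : IsKx W (P + Q)) (hD : IsKx W (P - Q)) :
    xHeight W (P + Q) + xHeight W (P - Q) = 2 * xHeight W P + 2 * xHeight W Q := by
  obtain ⟨X₁, Z₁, s₁, x₁, z₁, e₁⟩ := exists_proj hP
  obtain ⟨X₂, Z₂, s₂, x₂, z₂, e₂⟩ := exists_proj hQ
  obtain ⟨X₃, Z₃, s₃, x₃, z₃, e₃⟩ := exists_proj hS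
  obtain ⟨X₄, Z₄, s₄, x₄, z₄, e₄⟩ := exists_proj hD
  obtain ⟨c, -, r1, r2, r3⟩ := addSubRel (W⁄L) P Q
  have hb : ∀ b : k, algebraMap k L b = algebraMap (RatFunc k) L (RatFunc.C b) := by
    intro b
    rw [IsScalarTower.algebraMap_apply k (RatFunc k) L, RatFunc.algebraMap_eq_C]
  have b2 : (W⁄L).b₂ = algebraMap (RatFunc k) L (RatFunc.C W.b₂) := by
    rw [← hb]; exact WeierstrassCurve.map_b₂ W _
  have b4 : (W⁄L).b₄ = algebraMap (RatFunc k) L (RatFunc.C W.b₄) := by
    rw [← hb]; exact WeierstrassCurve.map_b₄ W _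
  have b6 : (W⁄L).b₆ = algebraMap (RatFunc k) L (RatFunc.C W.b₆) := by
    rw [← hb]; exact WeierstrassCurve.map_b₆ W _
  have b8 : (W⁄L).b₈ = algebraMap (RatFunc k) L (RatFunc.C W.b₈) := by
    rw [← hb]; exact WeierstrassCurve.map_b₈ W _
  rw [x₁, z₁, x₂, z₂, x₃, x₄, b4, b6, b8] at r1
  rw [x₁, z₁, x₂, z₂, x₃, z₃, x₄, z₄, b2, b4, b6] at r2
  rw [x₁, z₁, x₂, z₂, z₃, z₄] at r3
  rw [e₁, e₂, e₃, e₄]
  exact parallelogram_ratFunc W s₁ s₂ s₃ s₄ c r1 r2 r3

/-- The parallelogram law on a subgroup all of whose points have `x`-coordinate in `RatFunc k`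
(e.g. the points odd under the hyperelliptic involution of the function field of `W`), in the
shape consumed by `S52/helper1617.frobenius_quadratic_nat`. -/
theorem xHeight_parallelogram_subgroup [IsScalarTower k (RatFunc k) L] [W.IsElliptic]
    [DecidableEq L]
    (M : AddSubgroup (W⁄L).Point) (hM : ∀ P ∈ M, IsKx W P) (x y : M) :
    xHeight W ((x + y : M) : (W⁄L).Point) + xHeight W ((x - y : M) : (W⁄L).Point) =
      2 * xHeight W (x : (W⁄L).Point) + 2 * xHeight W (y : (W⁄L).Point) :=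
  xHeight_parallelogram (x : (W⁄L).Point) (y : (W⁄L).Point) (hM _ x.2) (hM _ y.2)
    (hM _ (x + y).2) (hM _ (x - y).2)

end PointForm

end Fermat.Agent.Lib.helper8821
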