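/-
helper8983 — algebra core for the S16 upper bound at l = 2, p = 7 mod 8.

Main result (`no_unit_mod_eight`): there are no `g k`, integral over `ℤ[X]`, with
  `(X^4 - 24 X) g + m (X^6 - 36 X^3 + 216) = 8 k`   (`m` odd).
Here `X^4 - 24 X`, `X^6 - 36 X^3 + 216` are `c₄`, `-c₆` of the family `y² + t x y + y = x³`
(so that `c₄³ - c₆² = 1728 (t³ - 27)`, lemma `c4_cube_sub_e6_sq`).

Everything here imports Mathlib only.
-/
import Mathlib

set_option autoImplicit false

namespace Fermat.Agent.Lib.helper8983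

open Polynomial

/-- **Lemma A.** Over an integrally closed domain `A` with fraction field `K`, if `a z` and `b z`
are both integral over `A` and `a`, `b` are coprime in the strong sense `a^n ∣ b^n u → a^n ∣ u`,
then `z` is integral over `A`. -/
theorem isIntegral_of_isIntegral_mul_of_coprime
    {A K L : Type*} [CommRing A] [IsDomain A] [IsIntegrallyClosed A]
    [Field K] [Algebra A K] [IsFractionRing A K]
    [Field L] [Algebra A L] [Algebra K L] [IsScalarTower A K L]
    (a b : A) (ha : a ≠ 0) (hb : b ≠ 0)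
    (hcop : ∀ (n : ℕ) (u : A), a ^ n ∣ b ^ n * u → a ^ n ∣ u)
    (z : L) (h1 : IsIntegral A (algebraMap A L a * z))
    (h2 : IsIntegral A (algebraMap A L b * z)) :
    IsIntegral A z := by
  have hinjK : Function.Injective (algebraMap A K) := IsFractionRing.injective A K
  have haK : algebraMap A K a ≠ 0 := by
    simpa using (map_ne_zero_iff (algebraMap A K) hinjK).2 ha
  have hbK : algebraMap A K b ≠ 0 := by
    simpa using (map_ne_zero_iff (algebraMap A K) hinjK).2 hb
  have haL : algebraMap K L (algebraMap A K a) ≠ 0 := by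
    simpa using (map_ne_zero_iff (algebraMap K L) (algebraMap K L).injective).2 haK
  -- rewrite the hypotheses as scalar multiples over `K`
  have e1 : algebraMap A L a * z = (algebraMap A K a) • z := by
    rw [Algebra.smul_def, ← IsScalarTower.algebraMap_apply]
  have e2 : algebraMap A L b * z = (algebraMap A K b) • z := by
    rw [Algebra.smul_def, ← IsScalarTower.algebraMap_apply]
  rw [e1] at h1
  rw [e2] at h2
  -- `z` is integral over `K`
  have hzK : IsIntegral K z := by
    have h := (h1.tower_top (A := K))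
    have : z = (algebraMap A K a)⁻¹ • ((algebraMap A K a) • z) := by
      rw [smul_smul, inv_mul_cancel₀ haK, one_smul]
    rw [this]
    exact h.smul _
  set μ := minpoly K z with hμ
  have hμmonic : μ.Monic := minpoly.monic hzK
  -- minimal polynomials of the multiples
  have m1 : minpoly K ((algebraMap A K a) • z) = μ.scaleRoots (algebraMap A K a) :=
    IsIntegrallyClosed.minpoly_smul haK hzK
  have m2 : minpoly K ((algebraMap A K b) • z) = μ.scaleRoots (algebraMap A K b) :=
    IsIntegrallyClosed.minpoly_smul hbK hzK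
  have f1 := minpoly.isIntegrallyClosed_eq_field_fractions' K h1
  have f2 := minpoly.isIntegrallyClosed_eq_field_fractions' K h2
  rw [m1] at f1
  rw [m2] at f2
  -- all coefficients of `μ` come from `A`
  have hcoeff : ∀ i : ℕ, ∃ c : A, algebraMap A K c = μ.coeff i := by
    intro i
    have c1 := congrArg (fun p => p.coeff i) f1
    have c2 := congrArg (fun p => p.coeff i) f2
    simp only [coeff_scaleRoots, coeff_map] at c1 c2
    set n := μ.natDegree - i with hn
    set α := (minpoly A ((algebraMap A K a) • z)).coeff i with hα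
    set β := (minpoly A ((algebraMap A K b) • z)).coeff i with hβ
    -- c1 : μ.coeff i * a^n = α ; c2 : μ.coeff i * b^n = β  (in K)
    have key : b ^ n * α = a ^ n * β := by
      apply hinjK
      rw [map_mul, map_mul, map_pow, map_pow, ← c1, ← c2]
      ring
    obtain ⟨γ, hγ⟩ := hcop n α ⟨β, key⟩
    refine ⟨γ, ?_⟩
    have : μ.coeff i * algebraMap A K a ^ n = algebraMap A K γ * algebraMap A K a ^ n := by
      rw [c1, hγ, map_mul, map_pow, mul_comm]
    exact (mul_right_cancel₀ (pow_ne_zero n haK) this).symm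
  have hlift : μ ∈ Polynomial.lifts (algebraMap A K) := by
    rw [Polynomial.lifts_iff_coeff_lifts]
    intro i
    obtain ⟨c, hc⟩ := hcoeff i
    exact ⟨c, hc⟩
  obtain ⟨ν, hν, -, hνmonic⟩ := Polynomial.lifts_and_degree_eq_and_monic hlift hμmonic
  refine ⟨ν, hνmonic, ?_⟩
  have : Polynomial.aeval z (ν.map (algebraMap A K)) = 0 := by
    rw [hν]; exact minpoly.aeval K z
  rw [Polynomial.aeval_map_algebraMap] at this
  simpa [Polynomial.aeval_def] using this

/-- In `ℤ[X]`, an integer power is coprime (in the strong sense) to a power of `X`. -/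
theorem intCast_pow_dvd_of_dvd_X_pow_mul (c : ℤ) (e n : ℕ) (u : ℤ[X])
    (h : (C c : ℤ[X]) ^ n ∣ (X ^ e) ^ n * u) : (C c : ℤ[X]) ^ n ∣ u := by
  rw [← C_pow] at h ⊢
  rw [Polynomial.C_dvd_iff_dvd_coeff] at h ⊢
  intro i
  have := h (i + e * n)
  rwa [← pow_mul, Polynomial.coeff_X_pow_mul] at this

/-- The polynomial identity behind the specialisation: `c₄³ - e₆² = 1728 (t³ - 27)`. -/
theorem c4_cube_sub_e6_sq :
    ((X : ℤ[X]) ^ 4 - 24 * X) ^ 3 - (X ^ 6 - 36 * X ^ 3 + 216) ^ 2 = 1728 * (X ^ 3 - 27) := by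
  ring

/-- **Main algebra lemma.** No `g`, `k` integral over `ℤ[X]` satisfy
`(X^4 - 24 X) g + m (X^6 - 36 X^3 + 216) = 8 k` with `m` odd. -/
theorem no_unit_mod_eight
    {K L : Type*} [Field K] [Algebra ℤ[X] K] [IsFractionRing ℤ[X] K]
    [Field L] [Algebra ℤ[X] L] [Algebra K L] [IsScalarTower ℤ[X] K L]
    (g k : L) (hg : IsIntegral ℤ[X] g) (hk : IsIntegral ℤ[X] k) (m : ℤ) (hm : Odd m)
    (h : algebraMap ℤ[X] L (X ^ 4 - 24 * X) * g
        + algebraMap ℤ[X] L (C m * (X ^ 6 - 36 * X ^ 3 + 216)) = algebraMap ℤ[X] L 8 * k) :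
    False := by
  have hinj : Function.Injective (algebraMap ℤ[X] L) := by
    rw [IsScalarTower.algebraMap_eq ℤ[X] K L]
    exact (algebraMap K L).injective.comp (IsFractionRing.injective ℤ[X] K)
  set φ := algebraMap ℤ[X] L with hφ
  set T : L := φ X with hT
  have hT0 : T ≠ 0 := by
    rw [hT]; exact (map_ne_zero_iff φ hinj).2 X_ne_zero
  have h8 : φ 8 ≠ 0 := (map_ne_zero_iff φ hinj).2 (by norm_num)
  have h4 : φ 4 ≠ 0 := (map_ne_zero_iff φ hinj).2 (by norm_num)
  have intφ : ∀ p : ℤ[X], IsIntegral ℤ[X] (φ p) := fun p => isIntegral_algebraMap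
  -- Step 1: `z₁ = (T g + m T³ + 4 m) / 8` is integral
  set z₁ : L := (T * g + φ (C m) * T ^ 3 + φ (C (4 * m))) / φ 8 with hz₁
  have hz₁8 : φ 8 * z₁ = T * g + φ (C m) * T ^ 3 + φ (C (4 * m)) := by
    rw [hz₁]; field_simp
  have hz₁T : φ (X ^ 3) * z₁ = k + φ 3 * T * g + φ (C (5 * m)) * T ^ 3 - φ (C (27 * m)) := by
    have e : φ 8 * (φ (X ^ 3) * z₁) =
        φ 8 * (k + φ 3 * T * g + φ (C (5 * m)) * T ^ 3 - φ (C (27 * m))) := by
      calc φ 8 * (φ (X ^ 3) * z₁) = φ (X ^ 3) * (φ 8 * z₁) := by ring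
        _ = T ^ 3 * (T * g + φ (C m) * T ^ 3 + φ (C (4 * m))) := by
            rw [hz₁8, map_pow]
        _ = (φ (X ^ 4 - 24 * X) * g + φ (C m * (X ^ 6 - 36 * X ^ 3 + 216)))
              + φ (24 * X) * g + φ (C (40 * m) * X ^ 3) - φ (C (216 * m)) := by
            simp only [hT, map_sub, map_add, map_mul, map_pow]
            ring_nf
            simp only [map_ofNat]
            ring
        _ = φ 8 * (k + φ 3 * T * g + φ (C (5 * m)) * T ^ 3 - φ (C (27 * m))) := by
            rw [h]
            simp only [hT, map_mul, map_pow]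
            simp only [map_ofNat]
            ring
    exact mul_left_cancel₀ h8 e
  have hz₁int : IsIntegral ℤ[X] z₁ := by
    refine isIntegral_of_isIntegral_mul_of_coprime (A := ℤ[X]) (K := K) (L := L)
      (C 8) (X ^ 3) (by simp) (pow_ne_zero _ X_ne_zero)
      (fun n u hu => intCast_pow_dvd_of_dvd_X_pow_mul 8 3 n u hu) z₁ ?_ ?_
    · have : (C 8 : ℤ[X]) = 8 := by simp
      rw [this, ← hφ, hz₁8]
      exact ((intφ X).mul hg |>.add ((intφ _).mul ((intφ X).pow 3))).add (intφ _)
    · rw [← hφ, hz₁T]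
      exact ((hk.add (((intφ 3).mul (intφ X)).mul hg)).add
        ((intφ _).mul ((intφ X).pow 3))).sub (intφ _)
  -- Step 2: `z₂ = (m - 2 z₁) / T` is integral
  set z₂ : L := (φ (C m) - φ 2 * z₁) / T with hz₂
  have hz₂T : φ X * z₂ = φ (C m) - φ 2 * z₁ := by
    rw [hz₂, ← hT]; field_simp
  have hz₂4 : φ 4 * z₂ = -(g + φ (C m) * T ^ 2) := by
    have e : T * (φ 4 * z₂) = T * (-(g + φ (C m) * T ^ 2)) := by
      calc T * (φ 4 * z₂) = φ 4 * (φ X * z₂) := by rw [hT]; ring
        _ = φ 4 * φ (C m) - φ 8 * z₁ := by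
            rw [hz₂T]
            have : φ 8 = φ 4 * φ 2 := by rw [← map_mul]; norm_num
            rw [this]; ring
        _ = φ 4 * φ (C m) - (T * g + φ (C m) * T ^ 3 + φ (C (4 * m))) := by rw [hz₁8]
        _ = T * (-(g + φ (C m) * T ^ 2)) := by
            have : φ (C (4 * m)) = φ 4 * φ (C m) := by
              rw [← map_mul]; congr 1; simp
            rw [this]; ring
    exact mul_left_cancel₀ hT0 e
  have hz₂int : IsIntegral ℤ[X] z₂ := by
    refine isIntegral_of_isIntegral_mul_of_coprime (A := ℤ[X]) (K := K) (L := L)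
      (C 4) (X ^ 1) (by simp) (pow_ne_zero _ X_ne_zero)
      (fun n u hu => intCast_pow_dvd_of_dvd_X_pow_mul 4 1 n u hu) z₂ ?_ ?_
    · have : (C 4 : ℤ[X]) = 4 := by simp
      rw [this, ← hφ, hz₂4]
      exact (hg.add ((intφ _).mul ((intφ X).pow 2))).neg
    · rw [pow_one, ← hφ, hz₂T]
      exact (intφ _).sub ((intφ 2).mul hz₁int)
  -- Step 3: `1 ∈ (2, X)` in the integral closure, contradiction by lying-over
  obtain ⟨j, hj⟩ := hm
  have hone : (1 : L) = φ X * z₂ + φ 2 * (z₁ - φ (C j)) := by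
    rw [hz₂T, hj]
    have : φ (C (2 * j + 1)) = φ 2 * φ (C j) + 1 := by
      rw [← map_mul, ← map_one φ, ← map_add]; congr 1; simp
    rw [this]; ring
  -- the integral closure
  let D := integralClosure ℤ[X] L
  let ψ : ℤ[X] →+* ZMod 2 := (Int.castRingHom (ZMod 2)).comp (evalRingHom (0 : ℤ))
  let P : Ideal ℤ[X] := RingHom.ker ψ
  have : P.IsPrime := RingHom.ker_isPrime ψ
  have hXP : (X : ℤ[X]) ∈ P := by
    simp [P, ψ, RingHom.mem_ker]
  have h2P : (2 : ℤ[X]) ∈ P := by
    simp only [P, ψ, RingHom.mem_ker, RingHom.comp_apply, coe_evalRingHom]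
    rw [show (2 : ℤ[X]) = C 2 by simp, eval_C]
    decide
  have hker : RingHom.ker (algebraMap ℤ[X] D) ≤ P := by
    intro x hx
    rw [RingHom.mem_ker] at hx
    have : φ x = 0 := by
      have := congrArg (fun d : D => (d : L)) hx
      simpa using this
    have hx0 : x = 0 := by
      apply hinj; rw [this, map_zero]
    rw [hx0]; exact Ideal.zero_mem _
  obtain ⟨Q, hQprime, hQ⟩ :=
    Ideal.exists_ideal_over_prime_of_isIntegral_of_isDomain (R := ℤ[X]) (S := D) P hker
  have hXQ : algebraMap ℤ[X] D X ∈ Q := by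
    have : (X : ℤ[X]) ∈ Q.comap (algebraMap ℤ[X] D) := by rw [hQ]; exact hXP
    exact this
  have h2Q : algebraMap ℤ[X] D 2 ∈ Q := by
    have : (2 : ℤ[X]) ∈ Q.comap (algebraMap ℤ[X] D) := by rw [hQ]; exact h2P
    exact this
  let d₂ : D := ⟨z₂, hz₂int⟩
  let d₃ : D := ⟨z₁ - φ (C j), hz₁int.sub (intφ _)⟩
  have hD : (1 : D) = algebraMap ℤ[X] D X * d₂ + algebraMap ℤ[X] D 2 * d₃ := by
    apply Subtype.ext
    simpa [d₂, d₃] using hone
  have : (1 : D) ∈ Q := by
    rw [hD]
    exact Q.add_mem (Q.mul_mem_right _ hXQ) (Q.mul_mem_right _ h2Q)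
  exact hQprime.ne_top ((Ideal.eq_top_iff_one Q).2 this)

end Fermat.Agent.Lib.helper8983
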