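import Mathlib

/-!
# Tensor products of domains over an algebraically closed field

Main results (namespace `Fermat.Agent.Lib.helper9007`):

* `exists_algHom_apply_ne_zero`: a nonzero element of a reduced finitely generated algebra over an
  algebraically closed field `k` is nonzero at some `k`-point.
* `isDomain_tensorProduct`: if `k` is algebraically closed and `A`, `B` are `k`-algebras that are
  domains, then `A ⊗[k] B` is a domain.  (No finiteness hypotheses.)
-/

open TensorProduct

namespace Fermat.Agent.Lib.helper9007

/-- A nonzero element of a reduced finitely generated algebra over an algebraically closed field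
is nonzero at some `k`-point. -/
theorem exists_algHom_apply_ne_zero (k A : Type*) [Field k] [IsAlgClosed k] [CommRing A]
    [Algebra k A] [Algebra.FiniteType k A] [IsReduced A] {a : A} (ha : a ≠ 0) :
    ∃ φ : A →ₐ[k] k, φ a ≠ 0 := by
  have hJ : IsJacobsonRing A := isJacobsonRing_of_finiteType (A := k)
  have h1 : (⊥ : Ideal A).jacobson = ⊥ := by
    rw [← Ideal.radical_eq_jacobson]
    exact (Ideal.radical_eq_iff.mpr (by
      intro x hx
      obtain ⟨n, hn⟩ := hx
      exact (Ideal.mem_bot.mpr (IsReduced.eq_zero _ ⟨n, by simpa using hn⟩))))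
  have h2 : a ∉ (⊥ : Ideal A).jacobson := by rw [h1]; simpa using ha
  rw [Ideal.jacobson, Ideal.mem_sInf] at h2
  push Not at h2
  obtain ⟨m, ⟨-, hm⟩, ham⟩ := h2
  have := hm
  let _ : Field (A ⧸ m) := Ideal.Quotient.field m
  have : Algebra.FiniteType k (A ⧸ m) :=
    Algebra.FiniteType.of_surjective (Ideal.Quotient.mkₐ k m) (Ideal.Quotient.mkₐ_surjective k m)
  have : Module.Finite k (A ⧸ m) := finite_of_finite_type_of_isJacobsonRing k (A ⧸ m)
  have hbij : Function.Bijective (algebraMap k (A ⧸ m)) :=
    IsAlgClosed.algebraMap_bijective_of_isIntegral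
  let e : k ≃ₐ[k] (A ⧸ m) := AlgEquiv.ofBijective (Algebra.ofId k (A ⧸ m)) hbij
  refine ⟨(e.symm : (A ⧸ m) →ₐ[k] k).comp (Ideal.Quotient.mkₐ k m), ?_⟩
  intro h
  apply ham
  have h3 : e.symm (Ideal.Quotient.mk m a) = 0 := h
  have h4 : Ideal.Quotient.mk m a = 0 := by
    have := congrArg e h3
    simpa using this
  exact Ideal.Quotient.eq_zero_iff_mem.mp h4


section Main

variable (k A B : Type*) [Field k] [CommRing A] [CommRing B] [Algebra k A] [Algebra k B]

/-- The `i`-th coordinate of `(φ ⊗ id) z` in a `k`-basis `b` of `B` is `φ` of the `i`-th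
coordinate of `z` in the induced `A`-basis of `A ⊗[k] B`. -/
theorem repr_lid_map {k A B : Type*} [Field k] [CommRing A] [CommRing B] [Algebra k A]
    [Algebra k B] {ι : Type*} (b : Module.Basis ι k B) (φ : A →ₐ[k] k) (z : A ⊗[k] B) (i : ι) :
    b.repr (Algebra.TensorProduct.lid k B (Algebra.TensorProduct.map φ (AlgHom.id k B) z)) i =
      φ ((Algebra.TensorProduct.basis A b).repr z i) := by
  induction z using TensorProduct.induction_on with
  | zero => simp
  | tmul a x =>
    simp only [Algebra.TensorProduct.map_tmul, AlgHom.coe_id, id_eq,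
      Algebra.TensorProduct.lid_tmul, map_smul, Finsupp.smul_apply, smul_eq_mul,
      Algebra.TensorProduct.basis_repr_tmul, Finsupp.mapRange_apply, map_mul,
      AlgHom.commutes, Algebra.algebraMap_self, RingHom.id_apply]
  | add x y hx hy => simp only [map_add, Finsupp.add_apply, hx, hy]

/-- If `A` is a finitely generated domain over the algebraically closed field `k` and `B` is a
`k`-algebra that is a domain, then `A ⊗[k] B` has no zero divisors. -/
theorem noZeroDivisors_tensorProduct_of_finiteType [IsAlgClosed k] [Algebra.FiniteType k A]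
    [IsDomain A] [IsDomain B] : NoZeroDivisors (A ⊗[k] B) := by
  refine ⟨fun {z w} hzw => ?_⟩
  by_contra hne
  push Not at hne
  obtain ⟨hz, hw⟩ := hne
  let b := Module.Basis.ofVectorSpace k B
  let bA := Algebra.TensorProduct.basis A b
  have hz' : bA.repr z ≠ 0 := fun h => hz (bA.repr.map_eq_zero_iff.mp h)
  have hw' : bA.repr w ≠ 0 := fun h => hw (bA.repr.map_eq_zero_iff.mp h)
  obtain ⟨i, hi⟩ := Finsupp.ne_iff.mp hz'
  obtain ⟨j, hj⟩ := Finsupp.ne_iff.mp hw'
  simp only [Finsupp.zero_apply] at hi hj
  obtain ⟨φ, hφ⟩ := exists_algHom_apply_ne_zero k A (mul_ne_zero hi hj)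
  let ψ : A ⊗[k] B →ₐ[k] B :=
    (Algebra.TensorProduct.lid k B : k ⊗[k] B →ₐ[k] B).comp
      (Algebra.TensorProduct.map φ (AlgHom.id k B))
  have h0 : ψ z * ψ w = 0 := by rw [← map_mul, hzw, map_zero]
  rw [map_mul] at hφ
  rcases mul_eq_zero.mp h0 with h | h
  · have := repr_lid_map b φ z i
    have h' : Algebra.TensorProduct.lid k B (Algebra.TensorProduct.map φ (AlgHom.id k B) z) = 0 := h
    rw [h', map_zero, Finsupp.zero_apply] at this
    exact hφ (by rw [← this, zero_mul])
  · have := repr_lid_map b φ w j
    have h' : Algebra.TensorProduct.lid k B (Algebra.TensorProduct.map φ (AlgHom.id k B) w) = 0 := h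
    rw [h', map_zero, Finsupp.zero_apply] at this
    exact hφ (by rw [← this, mul_zero])


/-- If `k` is algebraically closed and `A`, `B` are `k`-algebras that are domains, then
`A ⊗[k] B` has no zero divisors. -/
theorem noZeroDivisors_tensorProduct [IsAlgClosed k] [IsDomain A] [IsDomain B] :
    NoZeroDivisors (A ⊗[k] B) := by
  classical
  refine ⟨fun {z w} hzw => ?_⟩
  let b := Module.Basis.ofVectorSpace k B
  let bA := Algebra.TensorProduct.basis A b
  let S : Finset A := (bA.repr z).support.image (bA.repr z) ∪ (bA.repr w).support.image (bA.repr w)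
  let A' : Subalgebra k A := Algebra.adjoin k (S : Set A)
  have hfg : Algebra.FiniteType k A' :=
    (Subalgebra.fg_iff_finiteType A').mp (Subalgebra.fg_adjoin_finset S)
  let f : A' ⊗[k] B →ₐ[k] A ⊗[k] B := Algebra.TensorProduct.map A'.val (AlgHom.id k B)
  have hf : Function.Injective f := by
    have h1 : Function.Injective (LinearMap.rTensor B A'.val.toLinearMap) :=
      Module.Flat.rTensor_preserves_injective_linearMap _ Subtype.val_injective
    have h2 : (f : A' ⊗[k] B → A ⊗[k] B) = LinearMap.rTensor B A'.val.toLinearMap := by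
      funext x
      induction x using TensorProduct.induction_on with
      | zero => simp
      | tmul a x => simp [f]
      | add x y hx hy => simp only [map_add, hx, hy]
    rw [h2]; exact h1
  have key : ∀ u : A ⊗[k] B, (∀ i, bA.repr u i ∈ A') → u ∈ f.range := by
    intro u hu
    have hsum := bA.linearCombination_repr u
    rw [Finsupp.linearCombination_apply, Finsupp.sum] at hsum
    rw [← hsum]
    refine Subalgebra.sum_mem _ fun i _ => ?_
    refine ⟨(⟨bA.repr u i, hu i⟩ : A') ⊗ₜ[k] b i, ?_⟩
    simp [f, bA, Algebra.TensorProduct.basis_apply, TensorProduct.smul_tmul']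
  have hmem : ∀ (u : A ⊗[k] B), ((bA.repr u).support.image (bA.repr u) : Set A) ⊆ S →
      ∀ i, bA.repr u i ∈ A' := by
    intro u hu i
    by_cases h : bA.repr u i = 0
    · rw [h]; exact zero_mem _
    · exact Algebra.subset_adjoin (hu (by
        simp only [Finset.coe_image, Set.mem_image, Finset.mem_coe, Finsupp.mem_support_iff]
        exact ⟨i, h, rfl⟩))
  obtain ⟨z', hz'⟩ := key z (hmem z (by simp [S]))
  obtain ⟨w', hw'⟩ := key w (hmem w (by simp [S]))
  have h0 : z' * w' = 0 := hf (by rw [map_mul, map_zero]; exact (congrArg₂ (· * ·) hz' hw').trans hzw)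
  have := noZeroDivisors_tensorProduct_of_finiteType k A' B
  rcases mul_eq_zero.mp h0 with h | h
  · left; rw [← hz']; exact (congrArg f h).trans (map_zero f)
  · right; rw [← hw']; exact (congrArg f h).trans (map_zero f)

/-- **Tensor product of domains over an algebraically closed field is a domain.** -/
theorem isDomain_tensorProduct [IsAlgClosed k] [IsDomain A] [IsDomain B] :
    IsDomain (A ⊗[k] B) := by
  have := noZeroDivisors_tensorProduct k A B
  have hnt : Nontrivial (A ⊗[k] B) :=
    Algebra.TensorProduct.nontrivial_of_algebraMap_injective_of_flat_left k A B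
      (algebraMap k B).injective
  exact NoZeroDivisors.to_isDomain _

/-- Instance-free corollary: base change of a domain over an algebraically closed field to any
field extension is a domain. -/
theorem isDomain_tensorProduct_field [IsAlgClosed k] [IsDomain A] (K : Type*) [Field K]
    [Algebra k K] : IsDomain (A ⊗[k] K) :=
  isDomain_tensorProduct k A K

end Main

end Fermat.Agent.Lib.helper9007
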