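import Mathlib.NumberTheory.NumberField.Cyclotomic.PID
import Mathlib.NumberTheory.NumberField.Cyclotomic.Ideal
import Mathlib.Tactic.NormNum.Prime
import Mathlib.Analysis.Real.Pi.Bounds

set_option autoImplicit false

namespace Fermat.Agent.Lib.helper908

open NumberField Polynomial InfinitePlace Nat Real cyclotomic Ideal

theorem orderOf_two_zmod_seven : orderOf ((2 : ℕ) : ZMod 7) = 3 := by
  rw [orderOf_eq_iff (by norm_num)]
  decide

theorem orderOf_three_zmod_seven : orderOf ((3 : ℕ) : ZMod 7) = 6 := by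
  rw [orderOf_eq_iff (by norm_num)]
  decide

/-- If `K` is the `7`-th cyclotomic field then `𝓞 K` is a principal ideal domain. -/
theorem seven_pid (K : Type*) [Field K] [NumberField K] [IsCyclotomicExtension {7} ℚ K] :
    IsPrincipalIdealRing (𝓞 K) := by
  have hp7 : Fact (Nat.Prime 7) := ⟨by norm_num⟩
  have hgal : IsGalois ℚ K := IsCyclotomicExtension.isGalois {7} ℚ K
  have hM : ⌊(4 / π) ^ nrComplexPlaces K *
      (((Module.finrank ℚ K)! : ℝ) / (Module.finrank ℚ K) ^ (Module.finrank ℚ K) * √|(discr K : ℝ)|)⌋₊ ≤ 4 := by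
    rw [IsCyclotomicExtension.Rat.discr_prime 7 K, IsCyclotomicExtension.finrank (n := 7) K
      (irreducible_rat (by simp)), IsCyclotomicExtension.Rat.nrComplexPlaces_eq_totient_div_two 7,
      totient_prime (by norm_num : Nat.Prime 7)]
    rw [← Nat.lt_succ_iff, Nat.floor_lt' (by norm_num)]
    have h1 : (4 / π) ^ ((7 - 1) / 2) ≤ (4 / 3 : ℝ) ^ 3 := by
      show (4 / π) ^ 3 ≤ (4 / 3 : ℝ) ^ 3
      gcongr
      exact pi_gt_three.le
    have h2 : √|((((-1) ^ ((7 - 1) / 2) * (7 : ℤ) ^ (7 - 2) : ℤ)) : ℝ)| ≤ 130 := by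
      rw [Real.sqrt_le_iff]
      norm_num
    calc (4 / π) ^ ((7 - 1) / 2) * (((7 - 1)! : ℝ) / ((7 - 1 : ℕ) : ℝ) ^ (7 - 1) *
          √|((((-1) ^ ((7 - 1) / 2) * (7 : ℤ) ^ (7 - 2) : ℤ)) : ℝ)|)
        ≤ (4 / 3 : ℝ) ^ 3 * (((7 - 1)! : ℝ) / ((7 - 1 : ℕ) : ℝ) ^ (7 - 1) * 130) := by
          gcongr
      _ < ((4 : ℕ).succ : ℝ) := by
          norm_num [Nat.factorial]
  apply RingOfIntegers.isPrincipalIdealRing_of_isPrincipal_of_lt_or_isPrincipal_of_mem_primesOver_of_mem_Icc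
  intro p hp hpp
  have hp4 : p ≤ 4 := (Finset.mem_Icc.mp hp).2.trans hM
  have hpf : Fact p.Prime := ⟨hpp⟩
  obtain ⟨⟨P, hP1, hP2⟩⟩ := (span {(p : ℤ)}).nonempty_primesOver (S := 𝓞 K)
  refine ⟨P, ⟨hP1, hP2⟩, Or.inl ?_⟩
  have hp23 : p = 2 ∨ p = 3 := by
    interval_cases p
    · exact absurd hpp (by norm_num)
    · exact absurd hpp (by norm_num)
    · exact Or.inl rfl
    · exact Or.inr rfl
    · exact absurd hpp (by norm_num)
  have hne : ¬ p ∣ 7 := by
    rcases hp23 with rfl | rfl <;> norm_num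
  rw [IsCyclotomicExtension.Rat.inertiaDeg_eq_of_not_dvd p K P hne]
  rcases hp23 with rfl | rfl
  · rw [orderOf_two_zmod_seven]
    exact lt_of_le_of_lt hM (by norm_num)
  · rw [orderOf_three_zmod_seven]
    exact lt_of_le_of_lt hM (by norm_num)

end Fermat.Agent.Lib.helper908
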