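/-
Finite extensions of complete discrete valuation rings.

`O` a complete DVR with finite residue field, `K = Frac O`, `L / K` finite separable,
`B` the integral closure of `O` in `L`.  Then `B` is a complete DVR with finite residue
field, module-finite and free over `O`, and `O → B` is a local homomorphism.

Mathlib only.
-/
import Mathlib

set_option autoImplicit false
set_option linter.style.haveILetI false
set_option linter.unusedSectionVars false

namespace Fermat.Agent.Lib.helper9096

open IsLocalRing Polynomial

section Precomplete

variable {R : Type*} [CommRing R] (I : Ideal R)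

/-- Membership in `I • ⊤` of a finite power is coordinatewise. -/
theorem mem_smul_top_pi {ι : Type*} [Finite ι] (x : ι → R) :
    x ∈ (I • ⊤ : Submodule R (ι → R)) ↔ ∀ i, x i ∈ I := by
  classical
  constructor
  · intro hx
    refine Submodule.smul_induction_on hx ?_ ?_
    · intro r hr n _ i
      simpa using I.mul_mem_right (n i) hr
    · intro a b ha hb i
      simpa using I.add_mem (ha i) (hb i)
  · intro hx
    cases nonempty_fintype ι
    have h : x = ∑ i, x i • (Pi.single i (1 : R) : ι → R) := by
      funext j
      simp [Finset.sum_apply, Pi.single_apply]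
    rw [h]
    exact Submodule.sum_mem _ fun i _ => Submodule.smul_mem_smul (hx i) Submodule.mem_top

/-- A finite power of a precomplete ring is precomplete. -/
theorem isPrecomplete_pi {ι : Type*} [Finite ι] [IsPrecomplete I R] :
    IsPrecomplete I (ι → R) := by
  refine ⟨fun f hf => ?_⟩
  have key : ∀ i, ∃ L : R, ∀ n, f n i ≡ L [SMOD (I ^ n • ⊤ : Submodule R R)] := by
    intro i
    refine IsPrecomplete.prec ‹_› (f := fun n => f n i) ?_
    intro m n hmn
    have h1 : f m - f n ∈ (I ^ m • ⊤ : Submodule R (ι → R)) := (SModEq.sub_mem).mp (hf hmn)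
    have h2 := (mem_smul_top_pi (I ^ m) _).mp h1 i
    rw [SModEq.sub_mem]
    simpa using h2
  choose L hL using key
  refine ⟨L, fun n => ?_⟩
  rw [SModEq.sub_mem, mem_smul_top_pi]
  intro i
  have := (SModEq.sub_mem).mp (hL i n)
  simpa using this

/-- Precompleteness transfers along linear equivalences. -/
theorem isPrecomplete_of_linearEquiv {M N : Type*} [AddCommGroup M] [Module R M]
    [AddCommGroup N] [Module R N] (e : M ≃ₗ[R] N) [IsPrecomplete I M] : IsPrecomplete I N := by
  refine ⟨fun f hf => ?_⟩
  have hmap : ∀ (n : ℕ) (x : N), x ∈ (I ^ n • ⊤ : Submodule R N) →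
      e.symm x ∈ (I ^ n • ⊤ : Submodule R M) := by
    intro n x hx
    have h1 : e.symm x ∈ Submodule.map (e.symm : N →ₗ[R] M) (I ^ n • ⊤ : Submodule R N) :=
      Submodule.mem_map_of_mem hx
    rw [Submodule.map_smul''] at h1
    exact Submodule.smul_mono le_rfl le_top h1
  have hmap' : ∀ (n : ℕ) (x : M), x ∈ (I ^ n • ⊤ : Submodule R M) →
      e x ∈ (I ^ n • ⊤ : Submodule R N) := by
    intro n x hx
    have h1 : e x ∈ Submodule.map (e : M →ₗ[R] N) (I ^ n • ⊤ : Submodule R M) :=
      Submodule.mem_map_of_mem hx
    rw [Submodule.map_smul''] at h1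
    exact Submodule.smul_mono le_rfl le_top h1
  obtain ⟨L, hL⟩ := IsPrecomplete.prec ‹IsPrecomplete I M› (f := fun n => e.symm (f n)) (by
    intro m n hmn
    rw [SModEq.sub_mem, ← map_sub]
    exact hmap m _ ((SModEq.sub_mem).mp (hf hmn)))
  refine ⟨e L, fun n => ?_⟩
  rw [SModEq.sub_mem]
  have := hmap' n _ ((SModEq.sub_mem).mp (hL n))
  simpa using this

/-- A finite free module over a precomplete ring is precomplete. -/
theorem isPrecomplete_of_finite_free {M : Type*} [AddCommGroup M] [Module R M]
    [Module.Finite R M] [Module.Free R M] [IsPrecomplete I R] : IsPrecomplete I M := by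
  have := isPrecomplete_pi I (ι := Module.Free.ChooseBasisIndex R M)
  exact isPrecomplete_of_linearEquiv I
    (Module.Free.chooseBasis R M).equivFun.symm

end Precomplete

section FiniteRing

/-- In a finite commutative ring whose only idempotents are `0` and `1`, every element is a
unit or nilpotent. -/
theorem isUnit_or_isNilpotent_of_idempotents {A : Type*} [CommRing A] [Finite A]
    (hA : ∀ e : A, e * e = e → e = 0 ∨ e = 1) (a : A) : IsUnit a ∨ IsNilpotent a := by
  obtain ⟨n, y, hy⟩ := IsArtinian.exists_pow_succ_smul_dvd a (1 : A)
  simp only [smul_eq_mul, mul_one] at hy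
  have hk : ∀ k : ℕ, a ^ (n + k) * y ^ k = a ^ n := by
    intro k
    induction k with
    | zero => simp
    | succ k ih =>
      calc a ^ (n + (k + 1)) * y ^ (k + 1) = (a ^ (n + 1) * y) * (a ^ k * y ^ k) := by ring
        _ = a ^ n * (a ^ k * y ^ k) := by rw [hy]
        _ = a ^ (n + k) * y ^ k := by ring
        _ = a ^ n := ih
  have he : (a ^ n * y ^ n) * (a ^ n * y ^ n) = a ^ n * y ^ n := by
    calc (a ^ n * y ^ n) * (a ^ n * y ^ n) = (a ^ (n + n) * y ^ n) * y ^ n := by ring
      _ = a ^ n * y ^ n := by rw [hk n]
  rcases hA _ he with h0 | h1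
  · right
    refine ⟨n, ?_⟩
    calc a ^ n = a ^ (n + n) * y ^ n := (hk n).symm
      _ = a ^ n * (a ^ n * y ^ n) := by ring
      _ = 0 := by rw [h0, mul_zero]
  · left
    rcases Nat.eq_zero_or_pos n with hn | hn
    · subst hn
      simp only [pow_one, pow_zero] at hy
      exact IsUnit.of_mul_eq_one y hy
    · have h2 : IsUnit (a ^ n) := IsUnit.of_mul_eq_one (y ^ n) h1
      exact (isUnit_pow_iff hn.ne').mp h2

end FiniteRing

section Core

variable (O B : Type*) [CommRing O] [IsDomain O] [IsDiscreteValuationRing O]
  [IsAdicComplete (maximalIdeal O) O]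
  [CommRing B] [IsDomain B] [Algebra O B] [Module.Finite O B] [Module.Free O B]

omit [IsDomain B] in
/-- `B` is complete for the `𝔪_O`-adic topology (as an `O`-module). -/
theorem isAdicComplete_module : IsAdicComplete (maximalIdeal O) B :=
  { toIsHausdorff := inferInstance
    toIsPrecomplete := isPrecomplete_of_finite_free (maximalIdeal O) }

omit [IsDomain B] in
/-- `B` is complete for the `𝔪_O B`-adic topology (as a ring). -/
theorem isAdicComplete_map : IsAdicComplete ((maximalIdeal O).map (algebraMap O B)) B :=
  have h := isAdicComplete_module O B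
  { toIsHausdorff := IsHausdorff.map_algebraMap_iff.mpr h.toIsHausdorff
    toIsPrecomplete := IsPrecomplete.map_algebraMap_iff.mpr h.toIsPrecomplete }

/-- The special fibre `B / 𝔪_O B` of a finite free domain over a complete DVR is connected. -/
theorem idempotent_quotient_map (e : B ⧸ (maximalIdeal O).map (algebraMap O B))
    (he : e * e = e) : e = 0 ∨ e = 1 := by
  have := isAdicComplete_map O B
  obtain ⟨a₀, rfl⟩ := Ideal.Quotient.mk_surjective e
  have hH : HenselianRing B ((maximalIdeal O).map (algebraMap O B)) := inferInstance
  have hmon : (X ^ (1 + 1) - X : B[X]).Monic := monic_X_pow_sub (by simp)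
  have h1 : (X ^ (1 + 1) - X : B[X]).eval a₀ ∈ (maximalIdeal O).map (algebraMap O B) := by
    rw [← Ideal.Quotient.eq_zero_iff_mem]
    simp only [eval_sub, eval_pow, eval_X, map_sub, map_pow]
    rw [pow_succ, pow_one, he, sub_self]
  have h2 : IsUnit (Ideal.Quotient.mk ((maximalIdeal O).map (algebraMap O B))
      ((derivative (X ^ (1 + 1) - X : B[X])).eval a₀)) := by
    refine IsUnit.of_mul_eq_one (Ideal.Quotient.mk _ ((derivative (X ^ (1 + 1) - X : B[X])).eval a₀)) ?_
    simp only [derivative_X_pow, derivative_X, eval_sub, eval_mul, eval_pow,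
      eval_X, eval_one, map_sub, map_mul, map_pow, map_one, eval_natCast, map_natCast]
    have he' : Ideal.Quotient.mk ((maximalIdeal O).map (algebraMap O B)) a₀ ^ 2 =
        Ideal.Quotient.mk ((maximalIdeal O).map (algebraMap O B)) a₀ := by rw [sq, he]
    linear_combination 4 * he'
  obtain ⟨a, ha, haa⟩ := hH.is_henselian _ hmon a₀ h1 h2
  have ha' : a * (a - 1) = 0 := by
    have := ha
    simp only [IsRoot, eval_sub, eval_pow, eval_X] at this
    linear_combination this
  have hmk : Ideal.Quotient.mk ((maximalIdeal O).map (algebraMap O B)) a₀ =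
      Ideal.Quotient.mk ((maximalIdeal O).map (algebraMap O B)) a := by
    rw [eq_comm, Ideal.Quotient.eq]
    exact haa
  rcases mul_eq_zero.mp ha' with h | h
  · left; rw [hmk, h, map_zero]
  · right; rw [hmk, sub_eq_zero.mp h, map_one]

variable [Finite (ResidueField O)]

omit [IsAdicComplete (maximalIdeal O) O] [IsDomain B] [Module.Free O B] in
theorem finite_quotient_map : Finite (B ⧸ (maximalIdeal O).map (algebraMap O B)) := by
  have : Finite (O ⧸ maximalIdeal O) := ‹Finite (ResidueField O)›
  have h1 : Finite (B ⧸ (maximalIdeal O) • (⊤ : Submodule O B)) :=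
    Submodule.finite_quotient_smul (maximalIdeal O) Module.Finite.fg_top
  rw [Ideal.smul_top_eq_map] at h1
  exact Finite.of_equiv _
    (Submodule.Quotient.restrictScalarsEquiv O ((maximalIdeal O).map (algebraMap O B))).toEquiv

include O in
/-- A domain which is finite free over a complete DVR with finite residue field is local. -/
theorem isLocalRing_of_finite_free : IsLocalRing B := by
  have := isAdicComplete_map O B
  have := finite_quotient_map O B
  have hloc : IsLocalHom (Ideal.Quotient.mk ((maximalIdeal O).map (algebraMap O B))) :=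
    isLocalHom_of_le_jacobson_bot _ (IsAdicComplete.le_jacobson_bot _)
  refine IsLocalRing.of_isUnit_or_isUnit_one_sub_self fun b => ?_
  rcases isUnit_or_isNilpotent_of_idempotents (idempotent_quotient_map O B)
    (Ideal.Quotient.mk ((maximalIdeal O).map (algebraMap O B)) b) with h | h
  · left
    exact hloc.map_nonunit b h
  · right
    have h3 := h.isUnit_one_sub
    rw [← map_one (Ideal.Quotient.mk ((maximalIdeal O).map (algebraMap O B))), ← map_sub] at h3
    exact hloc.map_nonunit (1 - b) h3

end Core

section PowTopology

variable {R : Type*} [CommRing R] (I : Ideal R) {M : Type*} [AddCommGroup M] [Module R M]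

/-- Adic completeness for a positive power of an ideal implies adic completeness for the
ideal itself. -/
theorem isAdicComplete_of_pow (e : ℕ) (he : e ≠ 0) (h : IsAdicComplete (I ^ e) M) :
    IsAdicComplete I M := by
  have hle : ∀ n : ℕ, n ≤ e * n := fun n => Nat.le_mul_of_pos_left n (Nat.pos_of_ne_zero he)
  have hpow : ∀ n : ℕ, ((I ^ e) ^ n • ⊤ : Submodule R M) = (I ^ (e * n) • ⊤ : Submodule R M) :=
    fun n => by rw [← pow_mul]
  have hmono : ∀ {a b : ℕ}, a ≤ b → (I ^ b • ⊤ : Submodule R M) ≤ (I ^ a • ⊤ : Submodule R M) :=
    fun hab => Submodule.smul_mono (Ideal.pow_le_pow_right hab) le_rfl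
  refine { toIsHausdorff := ⟨fun x hx => ?_⟩, toIsPrecomplete := ⟨fun f hf => ?_⟩ }
  · refine IsHausdorff.haus h.toIsHausdorff x fun n => ?_
    rw [hpow]
    exact hx (e * n)
  · obtain ⟨L, hL⟩ := IsPrecomplete.prec h.toIsPrecomplete (f := fun n => f (e * n)) (by
      intro m n hmn
      rw [hpow]
      exact hf (Nat.mul_le_mul_left e hmn))
    refine ⟨L, fun n => ?_⟩
    have h1 : f n ≡ f (e * n) [SMOD (I ^ n • ⊤ : Submodule R M)] := hf (hle n)
    have h2 : f (e * n) ≡ L [SMOD (I ^ n • ⊤ : Submodule R M)] := by
      have h3 := hL n
      rw [hpow] at h3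
      exact SModEq.mono (hmono (hle n)) h3
    exact h1.trans h2

end PowTopology

section DVR

variable (O : Type*) [CommRing O] [IsDomain O] [IsDiscreteValuationRing O]
  [IsAdicComplete (maximalIdeal O) O] [Finite (ResidueField O)]
  (K : Type*) [Field K] [Algebra O K] [IsFractionRing O K]
  (L : Type*) [Field L] [Algebra K L] [Algebra O L] [IsScalarTower O K L]
  [FiniteDimensional K L] [Algebra.IsSeparable K L]
  (B : Type*) [CommRing B] [IsDomain B] [Algebra O B] [Algebra B L] [IsScalarTower O B L]
  [IsIntegralClosure B O L]

include O K L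

omit [IsAdicComplete (maximalIdeal O) O] [Finite (ResidueField O)] [IsDomain B] in
theorem moduleFinite_of_isIntegralClosure : Module.Finite O B :=
  IsIntegralClosure.finite O K L B

omit [IsAdicComplete (maximalIdeal O) O] [Finite (ResidueField O)] [IsDomain B]
  [FiniteDimensional K L] [Algebra.IsSeparable K L] in
theorem isTorsionFree_top : Module.IsTorsionFree O L := by
  have hinj : Function.Injective (algebraMap O L) := by
    rw [IsScalarTower.algebraMap_eq O K L]
    exact (algebraMap K L).injective.comp (IsFractionRing.injective O K)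
  exact (faithfulSMul_iff_algebraMap_injective O L).mpr hinj |>.to_isTorsionFree

omit [IsAdicComplete (maximalIdeal O) O] [Finite (ResidueField O)] [IsDomain B] in
theorem moduleFree_of_isIntegralClosure : Module.Free O B :=
  haveI := isTorsionFree_top O K L
  IsIntegralClosure.module_free O K L B

omit [IsAdicComplete (maximalIdeal O) O] [Finite (ResidueField O)] [IsDomain B]
  [FiniteDimensional K L] [Algebra.IsSeparable K L] [IsDomain O] [IsDiscreteValuationRing O]
  [IsIntegralClosure B O L] in
theorem algebraMap_injective_of_isIntegralClosure : Function.Injective (algebraMap O B) := by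
  have hinj : Function.Injective (algebraMap O L) := by
    rw [IsScalarTower.algebraMap_eq O K L]
    exact (algebraMap K L).injective.comp (IsFractionRing.injective O K)
  rw [IsScalarTower.algebraMap_eq O B L] at hinj
  exact Function.Injective.of_comp hinj

/-- The integral closure of a complete DVR with finite residue field in a finite separable
extension of its fraction field is a local ring. -/
theorem isLocalRing_of_isIntegralClosure : IsLocalRing B :=
  haveI := moduleFinite_of_isIntegralClosure O K L B
  haveI := moduleFree_of_isIntegralClosure O K L B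
  isLocalRing_of_finite_free O B

omit [IsAdicComplete (maximalIdeal O) O] [Finite (ResidueField O)]
  [FiniteDimensional K L] [Algebra.IsSeparable K L] in
theorem not_isField_of_isIntegralClosure : ¬ IsField B := by
  intro hB
  haveI : Algebra.IsIntegral O B := IsIntegralClosure.isIntegral_algebra O L
  exact IsDiscreteValuationRing.not_isField O
    (isField_of_isIntegral_of_isField (algebraMap_injective_of_isIntegralClosure O K L B) hB)

/-- The integral closure of a complete DVR with finite residue field in a finite separable
extension of its fraction field is a DVR. -/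
theorem isDiscreteValuationRing_of_isIntegralClosure : IsDiscreteValuationRing B := by
  haveI := isLocalRing_of_isIntegralClosure O K L B
  haveI : IsDedekindDomain B := IsIntegralClosure.isDedekindDomain O K L B
  have h : IsDiscreteValuationRing B ↔ IsDedekindDomain B :=
    (IsDiscreteValuationRing.TFAE B (not_isField_of_isIntegralClosure O K L B)).out 0 2
  exact h.mpr ‹_›

/-- ... and it is complete for its maximal ideal. -/
theorem isAdicComplete_of_isIntegralClosure [IsLocalRing B] :
    IsAdicComplete (maximalIdeal B) B := by
  haveI := moduleFinite_of_isIntegralClosure O K L B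
  haveI := moduleFree_of_isIntegralClosure O K L B
  haveI := isDiscreteValuationRing_of_isIntegralClosure O K L B
  have hJ := isAdicComplete_map O B
  have hne : (maximalIdeal O).map (algebraMap O B) ≠ ⊥ := by
    rw [Ne, Ideal.map_eq_bot_iff_of_injective (algebraMap_injective_of_isIntegralClosure O K L B)]
    exact IsDiscreteValuationRing.not_a_field O
  have h6 : IsDiscreteValuationRing B ↔
      ∀ (I : Ideal B) (_ : I ≠ ⊥), ∃ n : ℕ, I = maximalIdeal B ^ n :=
    (IsDiscreteValuationRing.TFAE B (not_isField_of_isIntegralClosure O K L B)).out 0 6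
  obtain ⟨n, hn⟩ := h6.mp ‹_› _ hne
  rw [hn] at hJ
  refine isAdicComplete_of_pow (maximalIdeal B) n ?_ hJ
  rintro rfl
  rw [pow_zero, Ideal.one_eq_top] at hJ
  exact not_subsingleton B hJ.subsingleton

/-- ... with finite residue field. -/
theorem finite_residueField_of_isIntegralClosure [IsLocalRing B] :
    Finite (ResidueField B) := by
  haveI := moduleFinite_of_isIntegralClosure O K L B
  haveI := moduleFree_of_isIntegralClosure O K L B
  haveI := finite_quotient_map O B
  have hJ := isAdicComplete_map O B
  have hle : (maximalIdeal O).map (algebraMap O B) ≤ maximalIdeal B := by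
    refine IsLocalRing.le_maximalIdeal ?_
    intro htop
    rw [htop] at hJ
    exact not_subsingleton B hJ.subsingleton
  exact Finite.of_surjective (Ideal.Quotient.factor hle) (Ideal.Quotient.factor_surjective hle)

omit [IsAdicComplete (maximalIdeal O) O] [Finite (ResidueField O)] [IsDomain B]
  [FiniteDimensional K L] [Algebra.IsSeparable K L] in
theorem isLocalHom_of_isIntegralClosure : IsLocalHom (algebraMap O B) := by
  haveI : Algebra.IsIntegral O B := IsIntegralClosure.isIntegral_algebra O L
  haveI : FaithfulSMul O B := (faithfulSMul_iff_algebraMap_injective O B).mpr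
    (algebraMap_injective_of_isIntegralClosure O K L B)
  infer_instance

end DVR

section Packaged

/-- **Finite extensions of complete DVRs**, packaged with exactly the binder list of the
`∃ 𝒪''` clause of the frozen statements S30 / S35 (plus the link to `L`).

`O` a complete DVR of characteristic zero with finite residue field, `K = Frac O`, `L / K` a
finite extension.  Then the integral closure `O'` of `O` in `L` is a complete DVR with finite
residue field, of characteristic zero, module-finite over `O`, `O → O'` is local and injective,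
and `Frac O' = L`. -/
theorem exists_complete_dvr_extension
    (O : Type) [CommRing O] [IsDomain O] [IsDiscreteValuationRing O]
    [IsAdicComplete (maximalIdeal O) O] [Finite (ResidueField O)] [CharZero O]
    (K : Type) [Field K] [Algebra O K] [IsFractionRing O K]
    (L : Type) [Field L] [Algebra K L] [Algebra O L] [IsScalarTower O K L]
    [FiniteDimensional K L] :
    ∃ (O' : Type) (_ : CommRing O') (_ : IsDomain O') (_ : IsDiscreteValuationRing O')
      (_ : IsAdicComplete (maximalIdeal O') O') (_ : Finite (ResidueField O'))
      (_ : CharZero O') (_ : Algebra O O') (_ : Module.Finite O O')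
      (_ : IsLocalHom (algebraMap O O')) (_ : Algebra O' L) (_ : IsScalarTower O O' L)
      (_ : IsFractionRing O' L) (_ : IsIntegralClosure O' O L),
      Function.Injective (algebraMap O O') := by
  haveI : CharZero K := IsFractionRing.charZero_of_isFractionRing O
  haveI : Algebra.IsSeparable K L := inferInstance
  have hinj := algebraMap_injective_of_isIntegralClosure O K L (integralClosure O L)
  haveI hdvr := isDiscreteValuationRing_of_isIntegralClosure O K L (integralClosure O L)
  exact ⟨integralClosure O L, inferInstance, inferInstance, hdvr,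
    isAdicComplete_of_isIntegralClosure O K L (integralClosure O L),
    finite_residueField_of_isIntegralClosure O K L (integralClosure O L),
    charZero_of_injective_algebraMap hinj, inferInstance,
    moduleFinite_of_isIntegralClosure O K L (integralClosure O L),
    isLocalHom_of_isIntegralClosure O K L (integralClosure O L), inferInstance, inferInstance,
    integralClosure.isFractionRing_of_finite_extension K L, inferInstance, hinj⟩

/-- Variant of `exists_complete_dvr_extension` inside a fixed algebraic extension `Ω` of `K`
(for instance an algebraic closure): given finitely many elements of `Ω`, there is a complete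
DVR `O'`, finite over `O`, embedded in `Ω`, whose fraction field (inside `Ω`) contains the
given elements; moreover `O'` consists of elements integral over `O`, and every element of
`Frac O'` (in particular each of the given elements) that is integral over `O` lies in `O'`. -/
theorem exists_complete_dvr_extension_of_finset
    (O : Type) [CommRing O] [IsDomain O] [IsDiscreteValuationRing O]
    [IsAdicComplete (maximalIdeal O) O] [Finite (ResidueField O)] [CharZero O]
    (K : Type) [Field K] [Algebra O K] [IsFractionRing O K]
    (Ω : Type) [Field Ω] [Algebra K Ω] [Algebra O Ω] [IsScalarTower O K Ω]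
    [Algebra.IsAlgebraic K Ω] (s : Finset Ω) :
    ∃ (O' : Type) (_ : CommRing O') (_ : IsDomain O') (_ : IsDiscreteValuationRing O')
      (_ : IsAdicComplete (maximalIdeal O') O') (_ : Finite (ResidueField O'))
      (_ : CharZero O') (_ : Algebra O O') (_ : Module.Finite O O')
      (_ : IsLocalHom (algebraMap O O')) (_ : Algebra O' Ω) (_ : IsScalarTower O O' Ω),
      Function.Injective (algebraMap O O') ∧ Function.Injective (algebraMap O' Ω) ∧
      (∀ x ∈ s, ∃ a b : O', b ≠ 0 ∧ x * algebraMap O' Ω b = algebraMap O' Ω a) ∧
      (∀ y : O', IsIntegral O (algebraMap O' Ω y)) ∧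
      (∀ a b : O', b ≠ 0 → ∀ x : Ω, x * algebraMap O' Ω b = algebraMap O' Ω a →
        IsIntegral O x → ∃ y : O', algebraMap O' Ω y = x) := by
  classical
  let L : IntermediateField K Ω := IntermediateField.adjoin K (s : Set Ω)
  haveI : FiniteDimensional K L :=
    IntermediateField.finiteDimensional_adjoin fun x _ => (Algebra.IsIntegral.isIntegral x)
  letI : Algebra O L := ((algebraMap K L).comp (algebraMap O K)).toAlgebra
  haveI : IsScalarTower O K L := IsScalarTower.of_algebraMap_eq fun _ => rfl
  haveI : IsScalarTower O L Ω := IsScalarTower.of_algebraMap_eq fun x => by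
    change algebraMap O Ω x = algebraMap K Ω (algebraMap O K x)
    rw [← IsScalarTower.algebraMap_apply]
  obtain ⟨O', i1, i2, i3, i4, i5, i6, i7, i8, i9, i10, i11, i12, i13, hinj⟩ :=
    exists_complete_dvr_extension O K L
  letI : Algebra O' Ω := ((algebraMap L Ω).comp (algebraMap O' L)).toAlgebra
  have hOΩ : ∀ y : O', algebraMap O' Ω y = algebraMap L Ω (algebraMap O' L y) := fun _ => rfl
  haveI : IsScalarTower O O' Ω := IsScalarTower.of_algebraMap_eq fun x => by
    rw [hOΩ, ← IsScalarTower.algebraMap_apply O O' L, ← IsScalarTower.algebraMap_apply O L Ω]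
  refine ⟨O', i1, i2, i3, i4, i5, i6, i7, i8, i9, inferInstance, inferInstance, hinj, ?_, ?_, ?_, ?_⟩
  · exact (algebraMap L Ω).injective.comp (IsFractionRing.injective O' L)
  · intro x hx
    have hxL : x ∈ L := IntermediateField.subset_adjoin K _ hx
    obtain ⟨a, b, hb, hab⟩ := IsFractionRing.div_surjective (A := O') (⟨x, hxL⟩ : L)
    refine ⟨a, b, nonZeroDivisors.ne_zero hb, ?_⟩
    have hb' : algebraMap O' L b ≠ 0 :=
      IsFractionRing.to_map_ne_zero_of_mem_nonZeroDivisors hb
    have h1 : (⟨x, hxL⟩ : L) * algebraMap O' L b = algebraMap O' L a := by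
      rw [← hab, div_mul_cancel₀ _ hb']
    have h2 := congrArg (algebraMap L Ω) h1
    rw [map_mul] at h2
    exact h2
  · intro y
    have h1 : IsIntegral O (algebraMap O' L y) :=
      (IsIntegralClosure.isIntegral_iff (A := O')).mpr ⟨y, rfl⟩
    rw [hOΩ]
    exact h1.algebraMap
  · intro a b hb x hx hint
    have hb' : algebraMap O' L b ≠ 0 := by
      rwa [Ne, IsFractionRing.to_map_eq_zero_iff]
    have hxL : x = algebraMap L Ω (algebraMap O' L a / algebraMap O' L b) := by
      have hbΩ : algebraMap O' Ω b ≠ 0 := by
        rw [hOΩ]
        exact (_root_.map_ne_zero _).mpr hb'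
      rw [map_div₀, ← hOΩ, ← hOΩ, eq_div_iff hbΩ, hx]
    have hint' : IsIntegral O (algebraMap O' L a / algebraMap O' L b) := by
      rw [hxL] at hint
      exact (isIntegral_algHom_iff (IsScalarTower.toAlgHom O L Ω)
        (algebraMap L Ω).injective).mp hint
    obtain ⟨y, hy⟩ := IsIntegralClosure.isIntegral_iff (A := O') |>.mp hint'
    exact ⟨y, by rw [hOΩ, hy, hxL]⟩

end Packaged

section Test

/-- Sanity check: the package has the exact shape of the `∃ 𝒪''` clause of S30 / S35. -/
example (𝒪' : Type) [CommRing 𝒪'] [IsDomain 𝒪'] [IsDiscreteValuationRing 𝒪']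
    [IsAdicComplete (IsLocalRing.maximalIdeal 𝒪') 𝒪'] [Finite (IsLocalRing.ResidueField 𝒪')]
    [CharZero 𝒪'] :
    ∃ (𝒪'' : Type) (_ : CommRing 𝒪'') (_ : IsDomain 𝒪'') (_ : IsDiscreteValuationRing 𝒪'')
      (_ : IsAdicComplete (IsLocalRing.maximalIdeal 𝒪'') 𝒪'')
      (_ : Finite (IsLocalRing.ResidueField 𝒪'')) (_ : CharZero 𝒪'')
      (_ : Algebra 𝒪' 𝒪'') (_ : Module.Finite 𝒪' 𝒪'') (_ : IsLocalHom (algebraMap 𝒪' 𝒪'')),
      Function.Injective (algebraMap 𝒪' 𝒪'') ∧ True := by
  obtain ⟨O', i1, i2, i3, i4, i5, i6, i7, i8, i9, _, _, _, _, hinj⟩ :=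
    exists_complete_dvr_extension 𝒪' (FractionRing 𝒪') (FractionRing 𝒪')
  exact ⟨O', i1, i2, i3, i4, i5, i6, i7, i8, i9, hinj, trivial⟩

end Test

end Fermat.Agent.Lib.helper9096
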