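import Mathlib

set_option autoImplicit false

namespace Fermat.Agent.Lib.helper911

open NumberField Polynomial Finset

section prelim

variable {p : ℕ} [hp : Fact p.Prime] {K : Type*} [Field K] [NumberField K]
  [IsCyclotomicExtension {p} ℚ K] {ζ : K} (hζ : IsPrimitiveRoot ζ p)

/-- every element of `𝓞 K` is congruent to an integer modulo `ζ - 1` -/
theorem exists_int_sub_dvd (x : 𝓞 K) : ∃ n : ℤ, hζ.toInteger - 1 ∣ x - n := by
  have hx : x ∈ Algebra.adjoin ℤ {hζ.toInteger} := by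
    rw [IsCyclotomicExtension.Rat.adjoin_singleton_eq_top hζ]; trivial
  induction hx using Algebra.adjoin_induction with
  | mem y hy =>
    rw [Set.mem_singleton_iff] at hy
    exact ⟨1, by simp [hy]⟩
  | algebraMap r => exact ⟨r, by simp⟩
  | add y z _ _ hy hz =>
    obtain ⟨n, hn⟩ := hy
    obtain ⟨m, hm⟩ := hz
    refine ⟨n + m, ?_⟩
    have : y + z - ((n + m : ℤ) : 𝓞 K) = (y - n) + (z - m) := by push_cast; ring
    rw [this]
    exact dvd_add hn hm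
  | mul y z _ _ hy hz =>
    obtain ⟨n, hn⟩ := hy
    obtain ⟨m, hm⟩ := hz
    refine ⟨n * m, ?_⟩
    have : y * z - ((n * m : ℤ) : 𝓞 K) = (y - n) * z + n * (z - m) := by push_cast; ring
    rw [this]
    exact dvd_add (Dvd.dvd.mul_right hn z) (Dvd.dvd.mul_left hm _)

/-- the `p`-th power of every element of `𝓞 K` is congruent to an integer modulo `p` -/
theorem exists_int_pow_sub_dvd (p : ℕ) [hp : Fact p.Prime] {K : Type*} [Field K] [NumberField K]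
    [IsCyclotomicExtension {p} ℚ K] (x : 𝓞 K) : ∃ n : ℤ, (p : 𝓞 K) ∣ x ^ p - n := by
  have hζ := IsCyclotomicExtension.zeta_spec p ℚ K
  have hx : x ∈ Algebra.adjoin ℤ {hζ.toInteger} := by
    rw [IsCyclotomicExtension.Rat.adjoin_singleton_eq_top hζ]; trivial
  induction hx using Algebra.adjoin_induction with
  | mem y hy =>
    rw [Set.mem_singleton_iff] at hy
    refine ⟨1, ?_⟩
    rw [hy, hζ.toInteger_isPrimitiveRoot.pow_eq_one]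
    simp
  | algebraMap r => exact ⟨r ^ p, by simp⟩
  | add y z _ _ hy hz =>
    obtain ⟨n, hn⟩ := hy
    obtain ⟨m, hm⟩ := hz
    obtain ⟨r, hr⟩ := exists_add_pow_prime_eq hp.out y z
    refine ⟨n + m, ?_⟩
    have : (y + z) ^ p - ((n + m : ℤ) : 𝓞 K) = (y ^ p - n) + (z ^ p - m) + p * (y * z * r) := by
      rw [hr]; push_cast; ring
    rw [this]
    exact dvd_add (dvd_add hn hm) (dvd_mul_right _ _)
  | mul y z _ _ hy hz =>
    obtain ⟨n, hn⟩ := hy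
    obtain ⟨m, hm⟩ := hz
    refine ⟨n * m, ?_⟩
    have : (y * z) ^ p - ((n * m : ℤ) : 𝓞 K) = (y ^ p - n) * z ^ p + n * (z ^ p - m) := by
      push_cast; ring
    rw [this]
    exact dvd_add (Dvd.dvd.mul_right hn _) (Dvd.dvd.mul_left hm _)

end prelim

section abstract

variable {R : Type*} [CommRing R] [IsDomain R] {p : ℕ} {ζ : R}

/-- Lemma A: some factor `x + ζ^i y` is divisible by `(ζ - 1)^2`. -/
theorem exists_sq_dvd (hp : p.Prime) (hζ : IsPrimitiveRoot ζ p)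
    (hint : ∀ x : R, ∃ n : ℤ, ζ - 1 ∣ x - n)
    {x y : R} (hy : ¬ ζ - 1 ∣ y) (hxy : ζ - 1 ∣ x + y) :
    ∃ i : ℕ, (ζ - 1) ^ 2 ∣ x + ζ ^ i * y := by
  have hlp : ζ - 1 ∣ (p : R) := hζ.sub_one_dvd_natCast hp.one_lt
  obtain ⟨a, ha⟩ := hxy
  obtain ⟨n, hn⟩ := hint a
  obtain ⟨c, hc⟩ := hint y
  have hpc : ¬ (p : ℤ) ∣ c := by
    rintro ⟨k, rfl⟩
    apply hy
    have : y = (y - ((p * k : ℤ) : R)) + (p : R) * (k : R) := by push_cast; ring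
    rw [this]
    exact dvd_add hc (hlp.mul_right _)
  obtain ⟨i, hi⟩ : ∃ i : ℕ, (p : ℤ) ∣ n + c * i := by
    have := Fact.mk hp
    have hc0 : (c : ZMod p) ≠ 0 := by rwa [Ne, ZMod.intCast_zmod_eq_zero_iff_dvd]
    refine ⟨(-(n : ZMod p) * (c : ZMod p)⁻¹).val, ?_⟩
    rw [← ZMod.intCast_zmod_eq_zero_iff_dvd]
    push_cast
    rw [ZMod.natCast_zmod_val]
    field_simp
    ring
  refine ⟨i, ?_⟩
  have hgeom : ζ ^ i - 1 = (ζ - 1) * ∑ j ∈ range i, ζ ^ j := (mul_geom_sum ζ i).symm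
  have hsum : ζ - 1 ∣ ∑ j ∈ range i, ζ ^ j - (i : R) := by
    have : ∑ j ∈ range i, ζ ^ j - (i : R) = ∑ j ∈ range i, (ζ ^ j - 1) := by
      simp [Finset.sum_sub_distrib]
    rw [this]
    exact Finset.dvd_sum fun j _ => by simpa using sub_dvd_pow_sub_pow ζ 1 j
  have key : ζ - 1 ∣ a + (∑ j ∈ range i, ζ ^ j) * y := by
    have e : a + (∑ j ∈ range i, ζ ^ j) * y
        = (a - n) + (∑ j ∈ range i, ζ ^ j - (i : R)) * y + i * (y - c)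
          + ((n + c * i : ℤ) : R) := by
      push_cast; ring
    rw [e]
    refine dvd_add (dvd_add (dvd_add hn (hsum.mul_right _)) (Dvd.dvd.mul_left hc _)) ?_
    obtain ⟨k, hk⟩ := hi
    rw [hk]
    push_cast
    exact Dvd.dvd.mul_right hlp _
  obtain ⟨b, hb⟩ := key
  refine ⟨b, ?_⟩
  calc x + ζ ^ i * y = (x + y) + (ζ ^ i - 1) * y := by ring
    _ = (ζ - 1) * (a + (∑ j ∈ range i, ζ ^ j) * y) := by rw [ha, hgeom]; ring
    _ = (ζ - 1) ^ 2 * b := by rw [hb]; ring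

/-- Lemma B: the descent step, assuming `(ζ - 1)^2 ∣ x + y`. -/
theorem descent_step_aux [IsPrincipalIdealRing R] (hp : p.Prime) (hodd : p ≠ 2)
    (hζ : IsPrimitiveRoot ζ p) (hlam : Prime (ζ - 1))
    (hpow : ∀ x : R, ∃ n : ℤ, (p : R) ∣ x ^ p - n)
    (hpl : (p : R) ∣ (ζ - 1) ^ (p - 1))
    (hK : ∀ u : Rˣ, ∀ n : ℤ, (p : R) ∣ (u : R) - n → ∃ v : Rˣ, u = v ^ p)
    {m : ℕ} (hm : 1 ≤ m) {x y z : R} {ε : Rˣ} (hy : ¬ ζ - 1 ∣ y) (hz : ¬ ζ - 1 ∣ z)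
    (hxy : IsCoprime x y) (h2 : (ζ - 1) ^ 2 ∣ x + y)
    (e : x ^ p + y ^ p = ε * ((ζ - 1) ^ m * z) ^ p) :
    2 ≤ m ∧ ∃ x' y' z' : R, ∃ ε' : Rˣ, ¬ ζ - 1 ∣ y' ∧ ¬ ζ - 1 ∣ z' ∧ IsCoprime x' y' ∧
      x' ^ p + y' ^ p = ε' * ((ζ - 1) ^ (m - 1) * z') ^ p := by
  classical
  have hlp : ζ - 1 ∣ (p : R) := hζ.sub_one_dvd_natCast hp.one_lt
  set lam := ζ - 1 with hlam_def
  have hlam0 : lam ≠ 0 := hlam.ne_zero
  have hpodd : Odd p := hp.odd_of_ne_two hodd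
  set μ := nthRootsFinset p (1 : R) with hμ
  have hcard : μ.card = p := hζ.card_nthRootsFinset
  have hprod : x ^ p + y ^ p = ∏ η ∈ μ, (x + η * y) := hζ.pow_add_pow_eq_prod_add_mul x y hpodd
  have h1μ : (1 : R) ∈ μ := by rw [hμ, mem_nthRootsFinset hp.pos]; exact one_pow p
  -- `lam` divides every factor
  have hfac : ∀ η ∈ μ, ∃ c, x + η * y = lam * c := by
    intro η hη
    have h1 : lam ∣ x + y := dvd_trans (dvd_pow_self _ two_ne_zero) h2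
    have h3 : lam ∣ η - 1 := hζ.sub_one_dvd_sub hp hη h1μ
    have : x + η * y = (x + y) + (η - 1) * y := by ring
    rw [this]
    exact dvd_add h1 (h3.mul_right y)
  choose! a ha using hfac
  have ha1 : lam ∣ a 1 := by
    obtain ⟨c, hc⟩ := h2
    have := ha 1 h1μ
    rw [one_mul, hc, pow_two, mul_assoc] at this
    exact ⟨c, (mul_left_cancel₀ hlam0 this).symm⟩
  have hdiff : ∀ η₁ ∈ μ, ∀ η₂ ∈ μ, η₁ ≠ η₂ →
      ∃ u : Rˣ, a η₁ - a η₂ = u * y ∧ η₂ * a η₁ - η₁ * a η₂ = -u * x := by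
    intro η₁ h₁ η₂ h₂ hne
    obtain ⟨u, hu⟩ := hζ.nthRootsFinset_pairwise_associated_sub_one_sub_of_prime hp h₁ h₂ hne
    refine ⟨u, ?_, ?_⟩
    · apply mul_left_cancel₀ hlam0
      rw [mul_sub, ← ha η₁ h₁, ← ha η₂ h₂, ← mul_assoc, hu]
      ring
    · apply mul_left_cancel₀ hlam0
      have e1 : lam * (η₂ * a η₁ - η₁ * a η₂) = η₂ * (lam * a η₁) - η₁ * (lam * a η₂) := by ring
      have e2 : lam * (-↑u * x) = -((lam * u) * x) := by ring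
      rw [e1, ← ha η₁ h₁, ← ha η₂ h₂, e2, hu]
      ring
  have hcop : ∀ η₁ ∈ μ, ∀ η₂ ∈ μ, η₁ ≠ η₂ → IsCoprime (a η₁) (a η₂) := by
    intro η₁ h₁ η₂ h₂ hne
    obtain ⟨u, hu1, hu2⟩ := hdiff η₁ h₁ η₂ h₂ hne
    obtain ⟨r, s, hrs⟩ := hxy
    refine ⟨(-r * η₂ + s) * ↑u⁻¹, (r * η₁ - s) * ↑u⁻¹, ?_⟩
    have e1 : (-r * η₂ + s) * ↑u⁻¹ * a η₁ + (r * η₁ - s) * ↑u⁻¹ * a η₂
        = ↑u⁻¹ * (-r * (η₂ * a η₁ - η₁ * a η₂) + s * (a η₁ - a η₂)) := by ring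
    have e2 : (↑u⁻¹ : R) * (-r * (-↑u * x) + s * (↑u * y)) = (↑u⁻¹ * ↑u) * (r * x + s * y) := by
      ring
    rw [e1, hu1, hu2, e2, hrs, Units.inv_mul, one_mul]
  have hnd : ∀ η ∈ μ, η ≠ 1 → ¬ lam ∣ a η := by
    intro η hη hne hd
    obtain ⟨u, hu1, -⟩ := hdiff η hη 1 h1μ hne
    have : lam ∣ ↑u * y := hu1 ▸ dvd_sub hd ha1
    exact hy ((Units.dvd_mul_left).mp this)
  have hprodA : ∏ η ∈ μ, a η = ε * (lam ^ (m - 1) * z) ^ p := by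
    apply mul_left_cancel₀ (pow_ne_zero p hlam0)
    calc lam ^ p * ∏ η ∈ μ, a η = ∏ η ∈ μ, (lam * a η) := by
          rw [Finset.prod_mul_distrib, Finset.prod_const, hcard]
      _ = ∏ η ∈ μ, (x + η * y) := Finset.prod_congr rfl fun η hη => (ha η hη).symm
      _ = ε * (lam ^ m * z) ^ p := by rw [← hprod, e]
      _ = lam ^ p * (ε * (lam ^ (m - 1) * z) ^ p) := by
          obtain ⟨k, rfl⟩ : ∃ k, m = k + 1 := ⟨m - 1, by omega⟩
          simp only [add_tsub_cancel_right]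
          rw [pow_succ, mul_pow, mul_pow, mul_pow]
          ring
  have hm2 : 2 ≤ m := by
    by_contra hlt
    have hm1 : m = 1 := by omega
    subst hm1
    simp only [tsub_self, pow_zero, one_mul] at hprodA
    have h3 : lam ∣ ↑ε * z ^ p := hprodA ▸ dvd_trans ha1 (Finset.dvd_prod_of_mem a h1μ)
    have h4 : lam ∣ z ^ p := (Units.dvd_mul_left).mp h3
    exact hz (hlam.dvd_of_dvd_pow h4)
  refine ⟨hm2, ?_⟩
  -- the two roots `ζ` and `ζ' = ζ⁻¹`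
  set ζ' := ζ ^ (p - 1) with hζ'
  have hζζ' : ζ * ζ' = 1 := by
    rw [hζ', ← pow_succ', Nat.sub_add_cancel hp.pos, hζ.pow_eq_one]
  have hζμ : ζ ∈ μ := (mem_nthRootsFinset hp.pos 1).mpr hζ.pow_eq_one
  have hζ'μ : ζ' ∈ μ := (mem_nthRootsFinset hp.pos 1).mpr (by
    rw [hζ', ← pow_mul, mul_comm, pow_mul, hζ.pow_eq_one, one_pow])
  have hζ1 : ζ ≠ 1 := hζ.ne_one hp.one_lt
  have hζ'1 : ζ' ≠ 1 := by
    intro h
    rw [h, mul_one] at hζζ'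
    exact hζ1 hζζ'
  have hζζ'ne : ζ ≠ ζ' := by
    intro h
    rw [← h] at hζζ'
    have h2' : ζ ^ 2 = 1 := by rw [pow_two]; exact hζζ'
    have h3 := Nat.le_of_dvd (by norm_num) (hζ.dvd_of_pow_eq_one 2 h2')
    have h4 := hp.two_le
    omega
  -- extraction of `p`-th powers
  have hext : ∀ η ∈ μ, ∀ b B c : R, IsCoprime b B → b * B = ↑ε * c ^ p →
      ∃ ρ : R, ∃ u : Rˣ, ρ ^ p * u = b := by
    intro η _ b B c hbB hb
    have h5 : b * (↑ε⁻¹ * B) = c ^ p := by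
      calc b * (↑ε⁻¹ * B) = ↑ε⁻¹ * (b * B) := by ring
        _ = c ^ p := by rw [hb, ← mul_assoc, Units.inv_mul, one_mul]
    have h6 : IsCoprime b (↑ε⁻¹ * B) := (isCoprime_mul_unit_left_right ε⁻¹.isUnit _ _).mpr hbB
    obtain ⟨ρ, u, hu⟩ := exists_associated_pow_of_mul_eq_pow' h6 h5
    exact ⟨ρ, u, hu⟩
  have hcopB : ∀ η ∈ μ, IsCoprime (a η) (∏ η' ∈ μ.erase η, a η') := by
    intro η hη
    refine IsCoprime.prod_right fun η' hη' => ?_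
    exact hcop η hη η' (Finset.mem_of_mem_erase hη') (Finset.ne_of_mem_erase hη').symm
  have hmulB : ∀ η ∈ μ, a η * ∏ η' ∈ μ.erase η, a η' = ↑ε * (lam ^ (m - 1) * z) ^ p := by
    intro η hη
    rw [Finset.mul_prod_erase μ a hη, hprodA]
  obtain ⟨ρ₁, u₁, h₁⟩ := hext ζ hζμ _ _ _ (hcopB ζ hζμ) (hmulB ζ hζμ)
  obtain ⟨ρ₂, u₂, h₂⟩ := hext ζ' hζ'μ _ _ _ (hcopB ζ' hζ'μ) (hmulB ζ' hζ'μ)
  -- the factor `a 1`
  have hB1 : ¬ lam ∣ ∏ η' ∈ μ.erase 1, a η' := by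
    rw [Prime.dvd_finsetProd_iff hlam]
    rintro ⟨η, hη, hd⟩
    exact hnd η (Finset.mem_of_mem_erase hη) (Finset.ne_of_mem_erase hη) hd
  have hpowdvd : lam ^ ((m - 1) * p) ∣ a 1 := by
    refine hlam.pow_dvd_of_dvd_mul_right _ hB1 ?_
    rw [hmulB 1 h1μ, mul_pow, ← pow_mul]
    exact ⟨↑ε * z ^ p, by ring⟩
  obtain ⟨b, hb⟩ := hpowdvd
  have hbB : b * ∏ η' ∈ μ.erase 1, a η' = ↑ε * z ^ p := by
    apply mul_left_cancel₀ (pow_ne_zero ((m - 1) * p) hlam0)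
    rw [← mul_assoc, ← hb, hmulB 1 h1μ, mul_pow, ← pow_mul]
    ring
  have hcopb : IsCoprime b (∏ η' ∈ μ.erase 1, a η') := by
    have := hcopB 1 h1μ
    rw [hb] at this
    exact this.of_mul_left_right
  obtain ⟨ρ₀, u₀, h₀⟩ := hext 1 h1μ _ _ _ hcopb hbB
  have hρ₀ : ¬ lam ∣ ρ₀ := by
    intro hd
    have h7 : lam ∣ b := by
      rw [← h₀]
      exact Dvd.dvd.mul_right (dvd_pow hd hp.ne_zero) _
    have h8 : lam ∣ ↑ε * z ^ p := hbB ▸ Dvd.dvd.mul_right h7 _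
    exact hz (hlam.dvd_of_dvd_pow ((Units.dvd_mul_left).mp h8))
  have hρ₂ : ¬ lam ∣ ρ₂ := by
    intro hd
    apply hnd ζ' hζ'μ hζ'1
    rw [← h₂]
    exact Dvd.dvd.mul_right (dvd_pow hd hp.ne_zero) _
  -- the linear relation
  have hrel : a ζ + ζ * a ζ' = (1 + ζ) * a 1 := by
    apply mul_left_cancel₀ hlam0
    have e1 : lam * (a ζ + ζ * a ζ') = lam * a ζ + ζ * (lam * a ζ') := by ring
    have e2 : lam * ((1 + ζ) * a 1) = (1 + ζ) * (lam * a 1) := by ring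
    rw [e1, e2, ← ha ζ hζμ, ← ha ζ' hζ'μ, ← ha 1 h1μ]
    have e3 : x + ζ * y + ζ * (x + ζ' * y) = x + ζ * y + ζ * x + (ζ * ζ') * y := by ring
    rw [e3, hζζ']
    ring
  -- units
  obtain ⟨w, hw⟩ : ∃ w : Rˣ, (w : R) = 1 + ζ := by
    have h9 := hζ.geom_sum_isUnit hp.two_le
      (j := 2) ((Nat.coprime_primes Nat.prime_two hp).mpr (Ne.symm hodd))
    rw [Finset.sum_range_succ, Finset.sum_range_one, pow_zero, pow_one] at h9
    exact ⟨h9.unit, rfl⟩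
  obtain ⟨ζu, hζu⟩ : ∃ ζu : Rˣ, (ζu : R) = ζ := ⟨(hζ.isUnit hp.ne_zero).unit, rfl⟩
  set η' : Rˣ := ζu * u₂ * u₁⁻¹ with hη'
  set ε' : Rˣ := w * u₀ * u₁⁻¹ with hε'
  have heq : ρ₁ ^ p + ↑η' * ρ₂ ^ p = ↑ε' * (lam ^ (m - 1) * ρ₀) ^ p := by
    apply mul_left_cancel₀ u₁.ne_zero
    have e1 : (u₁ : R) * (ρ₁ ^ p + ↑η' * ρ₂ ^ p)
        = ρ₁ ^ p * u₁ + ζ * (ρ₂ ^ p * u₂) * (↑u₁ * ↑u₁⁻¹) := by
      rw [hη']; push_cast; rw [hζu]; ring
    have e2 : (u₁ : R) * (↑ε' * (lam ^ (m - 1) * ρ₀) ^ p)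
        = (1 + ζ) * (lam ^ ((m - 1) * p) * (ρ₀ ^ p * u₀)) * (↑u₁ * ↑u₁⁻¹) := by
      rw [hε']; push_cast; rw [hw, mul_pow, ← pow_mul]; ring
    rw [e1, e2, h₁, h₂, h₀, ← hb, Units.mul_inv, mul_one, mul_one, hrel]
  -- `η'` is congruent to an integer modulo `p`
  obtain ⟨n₁, hn₁⟩ := hpow ρ₁
  obtain ⟨n₂, hn₂⟩ := hpow ρ₂
  have hpR : (p : R) ∣ ↑ε' * (lam ^ (m - 1) * ρ₀) ^ p := by
    rw [mul_pow, ← pow_mul]
    refine Dvd.dvd.mul_left (Dvd.dvd.mul_right (dvd_trans hpl (pow_dvd_pow _ ?_)) _) _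
    have : 1 * p ≤ (m - 1) * p := Nat.mul_le_mul_right p (by omega)
    omega
  have hpn : (p : R) ∣ (n₁ : R) + ↑η' * (n₂ : R) := by
    have e1 : (n₁ : R) + ↑η' * (n₂ : R)
        = (ρ₁ ^ p + ↑η' * ρ₂ ^ p) - (ρ₁ ^ p - n₁) - ↑η' * (ρ₂ ^ p - n₂) := by ring
    rw [e1, heq]
    exact dvd_sub (dvd_sub hpR hn₁) (Dvd.dvd.mul_left hn₂ _)
  have hpn₂ : ¬ (p : ℤ) ∣ n₂ := by
    rintro ⟨k, rfl⟩
    apply hρ₂
    apply hlam.dvd_of_dvd_pow (n := p)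
    have e1 : ρ₂ ^ p = (ρ₂ ^ p - ((p * k : ℤ) : R)) + (p : R) * (k : R) := by push_cast; ring
    rw [e1]
    exact dvd_add (dvd_trans hlp hn₂) (hlp.mul_right _)
  obtain ⟨k, l, hkl⟩ := (Nat.prime_iff_prime_int.mp hp).coprime_iff_not_dvd.mpr hpn₂
  have hkl' : (k : R) * (p : R) + (l : R) * (n₂ : R) = 1 := by exact_mod_cast congrArg (Int.cast : ℤ → R) hkl
  obtain ⟨v, hv⟩ := hK η' (-(l * n₁)) (by
    have e1 : (η' : R) - ((-(l * n₁) : ℤ) : R)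
        = (p : R) * (↑η' * k) + l * ((n₁ : R) + ↑η' * (n₂ : R))
          - ↑η' * ((k : R) * (p : R) + (l : R) * (n₂ : R) - 1) := by
      push_cast; ring
    rw [e1, hkl', sub_self, mul_zero, sub_zero]
    exact dvd_add (dvd_mul_right _ _) (Dvd.dvd.mul_left hpn _))
  refine ⟨ρ₁, v * ρ₂, ρ₀, ε', ?_, hρ₀, ?_, ?_⟩
  · intro hd
    exact hρ₂ ((Units.dvd_mul_left).mp hd)
  · have h10 := hcop ζ hζμ ζ' hζ'μ hζζ'ne
    rw [← h₁, ← h₂] at h10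
    have h11 : IsCoprime (ρ₁ ^ p) (ρ₂ ^ p) := h10.of_mul_left_left.of_mul_right_left
    have h12 : IsCoprime ρ₁ ρ₂ := (IsCoprime.pow_iff hp.pos hp.pos).mp h11
    exact (isCoprime_mul_unit_left_right v.isUnit _ _).mpr h12
  · rw [mul_pow, ← heq, hv]
    push_cast
    ring

/-- the descent step -/
theorem descent_step [IsPrincipalIdealRing R] (hp : p.Prime) (hodd : p ≠ 2)
    (hζ : IsPrimitiveRoot ζ p) (hlam : Prime (ζ - 1))
    (hint : ∀ x : R, ∃ n : ℤ, ζ - 1 ∣ x - n)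
    (hpow : ∀ x : R, ∃ n : ℤ, (p : R) ∣ x ^ p - n)
    (hpl : (p : R) ∣ (ζ - 1) ^ (p - 1))
    (hK : ∀ u : Rˣ, ∀ n : ℤ, (p : R) ∣ (u : R) - n → ∃ v : Rˣ, u = v ^ p)
    {m : ℕ} (hm : 1 ≤ m) {x y z : R} {ε : Rˣ} (hy : ¬ ζ - 1 ∣ y) (hz : ¬ ζ - 1 ∣ z)
    (hxy : IsCoprime x y)
    (e : x ^ p + y ^ p = ε * ((ζ - 1) ^ m * z) ^ p) :
    2 ≤ m ∧ ∃ x' y' z' : R, ∃ ε' : Rˣ, ¬ ζ - 1 ∣ y' ∧ ¬ ζ - 1 ∣ z' ∧ IsCoprime x' y' ∧
      x' ^ p + y' ^ p = ε' * ((ζ - 1) ^ (m - 1) * z') ^ p := by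
  have hlp : ζ - 1 ∣ (p : R) := hζ.sub_one_dvd_natCast hp.one_lt
  have h1 : ζ - 1 ∣ x + y := by
    obtain ⟨r, hr⟩ := exists_add_pow_prime_eq hp x y
    apply hlam.dvd_of_dvd_pow (n := p)
    rw [hr, e]
    refine dvd_add ?_ ?_
    · exact Dvd.dvd.mul_left
        (dvd_pow (Dvd.dvd.mul_right (dvd_pow_self _ (by omega)) _) hp.ne_zero) _
    · exact Dvd.dvd.mul_right (Dvd.dvd.mul_right (Dvd.dvd.mul_right hlp _) _) _
  obtain ⟨i, hi⟩ := exists_sq_dvd hp hζ hint hy h1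
  have hui : IsUnit (ζ ^ i) := (hζ.isUnit hp.ne_zero).pow i
  refine descent_step_aux hp hodd hζ hlam hpow hpl hK hm (y := ζ ^ i * y) (ε := ε) ?_ hz ?_ hi ?_
  · intro hd
    exact hy ((hui.dvd_mul_left).mp hd)
  · exact (isCoprime_mul_unit_left_right hui _ _).mpr hxy
  · rw [mul_pow, ← pow_mul, mul_comm i p, pow_mul, hζ.pow_eq_one, one_pow, one_mul, e]

/-- the generalized equation has no solution -/
theorem no_solution [IsPrincipalIdealRing R] (hp : p.Prime) (hodd : p ≠ 2)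
    (hζ : IsPrimitiveRoot ζ p) (hlam : Prime (ζ - 1))
    (hint : ∀ x : R, ∃ n : ℤ, ζ - 1 ∣ x - n)
    (hpow : ∀ x : R, ∃ n : ℤ, (p : R) ∣ x ^ p - n)
    (hpl : (p : R) ∣ (ζ - 1) ^ (p - 1))
    (hK : ∀ u : Rˣ, ∀ n : ℤ, (p : R) ∣ (u : R) - n → ∃ v : Rˣ, u = v ^ p) :
    ∀ m : ℕ, 1 ≤ m → ∀ x y z : R, ∀ ε : Rˣ, ¬ ζ - 1 ∣ y → ¬ ζ - 1 ∣ z → IsCoprime x y →
      x ^ p + y ^ p ≠ ε * ((ζ - 1) ^ m * z) ^ p := by
  intro m
  induction m with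
  | zero => intro h; omega
  | succ k ih =>
    intro _ x y z ε hy hz hxy e
    obtain ⟨h2, x', y', z', ε', hy', hz', hxy', e'⟩ :=
      descent_step hp hodd hζ hlam hint hpow hpl hK (by omega) hy hz hxy e
    exact ih (by omega) x' y' z' ε' hy' hz' hxy' (by simpa using e')

end abstract

section integers

variable {p : ℕ} [hp : Fact p.Prime] {K : Type*} [Field K] [NumberField K]
  [IsCyclotomicExtension {p} ℚ K] [IsPrincipalIdealRing (𝓞 K)]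

theorem caseII_aux (hodd : p ≠ 2)
    (hK : ∀ u : (𝓞 K)ˣ, ∀ n : ℤ, (p : 𝓞 K) ∣ (u : 𝓞 K) - n → ∃ v : (𝓞 K)ˣ, u = v ^ p)
    {x y z : ℤ} (hxy : IsCoprime x y) (hz : z ≠ 0) (hpz : (p : ℤ) ∣ z) :
    x ^ p + y ^ p ≠ z ^ p := by
  intro e
  have hζ := IsCyclotomicExtension.zeta_spec p ℚ K
  have hζ'p : IsPrimitiveRoot hζ.toInteger p := hζ.toInteger_isPrimitiveRoot
  have hlam : Prime (hζ.toInteger - 1) := hζ.zeta_sub_one_prime'
  have hassoc : Associated ((hζ.toInteger - 1) ^ (p - 1)) (p : 𝓞 K) :=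
    IsCyclotomicExtension.Rat.associated_zeta_sub_one_pow_prime p hζ
  have hpp : Prime (p : ℤ) := Nat.prime_iff_prime_int.mp hp.out
  have hpy : ¬ (p : ℤ) ∣ y := by
    intro hpy
    have hpx : (p : ℤ) ∣ x := by
      have h1 : (p : ℤ) ∣ x ^ p := by
        have h2 : x ^ p = z ^ p - y ^ p := by linarith
        rw [h2]
        exact dvd_sub (dvd_pow hpz hp.out.ne_zero) (dvd_pow hpy hp.out.ne_zero)
      exact hpp.dvd_of_dvd_pow h1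
    exact hpp.not_isUnit (hxy.isUnit_of_dvd' hpx hpy)
  obtain ⟨z₀, hz₀, hz₀'⟩ :=
    (Int.finiteMultiplicity_iff.mpr ⟨by simpa using hp.out.ne_one, hz⟩ :
      FiniteMultiplicity (p : ℤ) z).exists_eq_pow_mul_and_not_dvd
  set k := multiplicity (p : ℤ) z with hk_def
  have hk : 1 ≤ k := by
    by_contra h
    have hk0 : k = 0 := by omega
    rw [hk0, pow_zero, one_mul] at hz₀
    exact hz₀' (hz₀ ▸ hpz)
  obtain ⟨u, hu⟩ := hassoc
  refine no_solution hp.out hodd hζ'p hlam (exists_int_sub_dvd hζ) (exists_int_pow_sub_dvd p)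
    ⟨↑u⁻¹, by rw [← hu, mul_assoc, Units.mul_inv, mul_one]⟩ hK ((p - 1) * k) ?_
    (x : 𝓞 K) (y : 𝓞 K) (z₀ : 𝓞 K) (u ^ (k * p)) ?_ ?_ ?_ ?_
  · have := hp.out.two_le
    exact Nat.mul_pos (by omega) hk
  · rw [IsCyclotomicExtension.Rat.zeta_sub_one_dvd_intCast_iff' p hζ]
    exact hpy
  · rw [IsCyclotomicExtension.Rat.zeta_sub_one_dvd_intCast_iff' p hζ]
    exact hz₀'
  · simpa using hxy.map (Int.castRingHom (𝓞 K))
  · have h3 := congrArg (Int.cast : ℤ → 𝓞 K) e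
    rw [hz₀] at h3
    push_cast at h3
    rw [h3, ← hu]
    push_cast
    rw [mul_pow, mul_pow, mul_pow, mul_pow, ← pow_mul, ← pow_mul, ← pow_mul, ← pow_mul]
    ring

/-- Case II of Fermat's Last Theorem for an odd prime `p` such that the `p`-th cyclotomic ring
is a PID and satisfies Kummer's lemma. -/
theorem caseII (hodd : p ≠ 2)
    (hK : ∀ u : (𝓞 K)ˣ, ∀ n : ℤ, (p : 𝓞 K) ∣ (u : 𝓞 K) - n → ∃ v : (𝓞 K)ˣ, u = v ^ p)
    {a b c : ℤ} (hab : IsCoprime a b) (habc : a * b * c ≠ 0) (hdvd : (p : ℤ) ∣ a * b * c) :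
    a ^ p + b ^ p ≠ c ^ p := by
  intro e
  have ha0 : a ≠ 0 := fun h => habc (by simp [h])
  have hb0 : b ≠ 0 := fun h => habc (by simp [h])
  have hc0 : c ≠ 0 := fun h => habc (by simp [h])
  have hpodd : Odd p := hp.out.odd_of_ne_two hodd
  have hpp : Prime (p : ℤ) := Nat.prime_iff_prime_int.mp hp.out
  have hac : IsCoprime a c := by
    have h1 : IsCoprime (a ^ p) (b ^ p + a ^ p * 1) := (hab.pow (m := p) (n := p)).add_mul_left_right 1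
    rw [mul_one, add_comm, e] at h1
    exact (IsCoprime.pow_iff hp.out.pos hp.out.pos).mp h1
  have hbc : IsCoprime b c := by
    have h1 : IsCoprime (b ^ p) (a ^ p + b ^ p * 1) :=
      (hab.symm.pow (m := p) (n := p)).add_mul_left_right 1
    rw [mul_one, e] at h1
    exact (IsCoprime.pow_iff hp.out.pos hp.out.pos).mp h1
  rcases hpp.dvd_or_dvd hdvd with h | h
  · rcases hpp.dvd_or_dvd h with h | h
    · exact caseII_aux (K := K) hodd hK (x := c) (y := -b) (z := a) hbc.symm.neg_right ha0 h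
        (by rw [hpodd.neg_pow]; linarith)
    · exact caseII_aux (K := K) hodd hK (x := c) (y := -a) (z := b) hac.symm.neg_right hb0 h
        (by rw [hpodd.neg_pow]; linarith)
  · exact caseII_aux (K := K) hodd hK hab hc0 h e

end integers

end Fermat.Agent.Lib.helper911
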