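/-
Shared library brick (helper9149): finite extensions of complete discrete valuation rings.

Board row #932 (S30-DVREXT).  Consumers: every frozen statement whose conclusion starts with
`∃ (𝒪'' : Type) (_ : CommRing 𝒪'') (_ : IsDomain 𝒪'') (_ : IsDiscreteValuationRing 𝒪'')
   (_ : IsAdicComplete (maximalIdeal 𝒪'') 𝒪'') (_ : Finite (ResidueField 𝒪'')) (_ : CharZero 𝒪'')
   (_ : Algebra 𝒪' 𝒪'') (_ : Module.Finite 𝒪' 𝒪'') (_ : IsLocalHom (algebraMap 𝒪' 𝒪'')), ...`
(S30, S35, ...).

Main results.  `O` a complete discrete valuation ring with fraction field `K`, `L / K` a finite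
separable extension, `B := integralClosure O L`.

* `isLocalRing_integralClosure`             : `B` is a local ring;
* `isDiscreteValuationRing_integralClosure` : `B` is a discrete valuation ring;
* `isAdicComplete_integralClosure`          : `B` is complete for its maximal ideal;
* `finite_residueField_integralClosure`     : the residue field of `B` is finite if that of `O` is;
* `finite_integralClosure`, `isLocalHom_algebraMap_integralClosure`,
  `injective_algebraMap_integralClosure`, `charZero_integralClosure`;
* `exists_dvr_structure_integralClosure`    : all of it at once, in the order of the frozen prefix;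
* `exists_complete_dvr_extension`           : the frozen prefix verbatim (for `O L : Type`).

Auxiliary results of independent use:

* `isPrecomplete_of_surjective`, `isPrecomplete_pi`, `isPrecomplete_of_finite` : a finite module
  over an `I`-adically precomplete ring is `I`-adically precomplete;
* `isAdicComplete_of_pow` : `J ^ e`-adically complete (`e ≠ 0`) implies `J`-adically complete;
* `isLocalRing_of_isAdicComplete_of_isDomain` : a domain which is `I`-adically complete, with
  `I` in every maximal ideal and `B ⧸ I` Artinian, is local (lifting of idempotents).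

Mathlib only.
-/
import Mathlib

set_option autoImplicit false
set_option linter.unusedSectionVars false

namespace Fermat.Agent.Lib.helper9149

open IsLocalRing Polynomial

/-! ## Adic completeness of finite modules -/

section Precomplete

variable {R : Type*} [CommRing R] (I : Ideal R)

/-- Precompleteness passes to surjective linear images. -/
theorem isPrecomplete_of_surjective {M N : Type*} [AddCommGroup M] [Module R M]
    [AddCommGroup N] [Module R N] [IsPrecomplete I M] (π : M →ₗ[R] N)
    (hπ : Function.Surjective π) : IsPrecomplete I N := by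
  refine ⟨fun {f} hf => ?_⟩
  -- lift the successive differences
  have hd : ∀ k : ℕ, ∃ d : M, d ∈ (I ^ k • ⊤ : Submodule R M) ∧ π d = f (k + 1) - f k := by
    intro k
    have h1 : f (k + 1) - f k ∈ (I ^ k • ⊤ : Submodule R N) := by
      have := (hf (Nat.le_succ k)).symm
      exact SModEq.sub_mem.mp this
    have h2 : (I ^ k • ⊤ : Submodule R N) = Submodule.map π (I ^ k • ⊤ : Submodule R M) := by
      rw [Submodule.map_smul'', Submodule.map_top, LinearMap.range_eq_top.mpr hπ]
    rw [h2] at h1
    obtain ⟨d, hd, hd'⟩ := h1
    exact ⟨d, hd, hd'⟩
  choose d hdmem hdπ using hd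
  obtain ⟨g0, hg0⟩ := hπ (f 0)
  let g : ℕ → M := fun n => Nat.rec g0 (fun k gk => gk + d k) n
  have hg_succ : ∀ k, g (k + 1) = g k + d k := fun k => rfl
  have hπg : ∀ n, π (g n) = f n := by
    intro n
    induction n with
    | zero => exact hg0
    | succ k ih => rw [hg_succ, map_add, ih, hdπ]; abel
  have hgc : ∀ m n, m ≤ n → g n - g m ∈ (I ^ m • ⊤ : Submodule R M) := by
    intro m n hmn
    induction n, hmn using Nat.le_induction with
    | base => simp
    | succ k hk ih =>
      have hle : (I ^ k • ⊤ : Submodule R M) ≤ I ^ m • ⊤ :=
        Submodule.smul_mono_left (Ideal.pow_le_pow_right hk)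
      have : g (k + 1) - g m = (g k - g m) + d k := by rw [hg_succ]; abel
      rw [this]
      exact Submodule.add_mem _ ih (hle (hdmem k))
  obtain ⟨L, hL⟩ := IsPrecomplete.prec (I := I) (M := M) inferInstance (f := g)
    (fun {m n} hmn => (SModEq.sub_mem.mpr (hgc m n hmn)).symm)
  refine ⟨π L, fun n => ?_⟩
  rw [SModEq.sub_mem, ← hπg, ← map_sub]
  have h3 : g n - L ∈ (I ^ n • ⊤ : Submodule R M) := SModEq.sub_mem.mp (hL n)
  have h4 : Submodule.map π (I ^ n • ⊤ : Submodule R M) ≤ (I ^ n • ⊤ : Submodule R N) := by
    rw [Submodule.map_smul'']
    exact Submodule.smul_mono le_rfl le_top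
  exact h4 (Submodule.mem_map_of_mem h3)

/-- Coordinates of an element of `J • ⊤` in a function module lie in `J`. -/
theorem apply_mem_of_mem_smul_top {ι : Type*} (J : Ideal R) {x : ι → R}
    (hx : x ∈ (J • ⊤ : Submodule R (ι → R))) (i : ι) : x i ∈ J := by
  refine Submodule.smul_induction_on hx (fun r hr y _ => ?_) (fun y z hy hz => ?_)
  · simpa using J.mul_mem_right (y i) hr
  · simpa using J.add_mem hy hz

/-- An element of a finite function module all of whose coordinates lie in `J` is in `J • ⊤`. -/
theorem mem_smul_top_of_forall_apply_mem {ι : Type*} [Finite ι] (J : Ideal R) {x : ι → R}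
    (hx : ∀ i, x i ∈ J) : x ∈ (J • ⊤ : Submodule R (ι → R)) := by
  classical
  cases nonempty_fintype ι
  have : x = ∑ i, x i • (Pi.single i (1 : R) : ι → R) := by
    ext j
    simp [Finset.sum_apply, Pi.single_apply]
  rw [this]
  exact Submodule.sum_mem _ fun i _ => Submodule.smul_mem_smul (hx i) Submodule.mem_top

theorem isPrecomplete_pi {ι : Type*} [Finite ι] [IsPrecomplete I R] :
    IsPrecomplete I (ι → R) := by
  refine ⟨fun {f} hf => ?_⟩
  have hc : ∀ i : ι, ∃ L : R, ∀ n, f n i ≡ L [SMOD (I ^ n • ⊤ : Submodule R R)] := by
    intro i
    refine IsPrecomplete.prec (I := I) (M := R) inferInstance (f := fun n => f n i) ?_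
    intro m n hmn
    rw [SModEq.sub_mem]
    have h1 : f m - f n ∈ (I ^ m • ⊤ : Submodule R (ι → R)) := SModEq.sub_mem.mp (hf hmn)
    have h2 := apply_mem_of_mem_smul_top (I ^ m) h1 i
    simpa using h2
  choose L hL using hc
  refine ⟨L, fun n => ?_⟩
  rw [SModEq.sub_mem]
  refine mem_smul_top_of_forall_apply_mem (I ^ n) fun i => ?_
  have := SModEq.sub_mem.mp (hL i n)
  simpa using this

/-- A finite module over an `I`-adically precomplete ring is `I`-adically precomplete. -/
theorem isPrecomplete_of_finite [IsPrecomplete I R] (M : Type*) [AddCommGroup M] [Module R M]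
    [Module.Finite R M] : IsPrecomplete I M := by
  obtain ⟨n, f, hf⟩ := Module.Finite.exists_fin' R M
  have : IsPrecomplete I (Fin n → R) := isPrecomplete_pi I
  exact isPrecomplete_of_surjective I f hf

/-- Adic completeness with respect to a power of an ideal implies adic completeness with respect
to the ideal. -/
theorem isAdicComplete_of_pow {J : Ideal R} {e : ℕ} (he : e ≠ 0) [IsAdicComplete (J ^ e) R] :
    IsAdicComplete J R := by
  have hpow : ∀ n : ℕ, ((J ^ e) ^ n • ⊤ : Submodule R R) ≤ (J ^ n • ⊤ : Submodule R R) := by
    intro n
    refine Submodule.smul_mono_left ?_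
    rw [← pow_mul]
    exact Ideal.pow_le_pow_right (Nat.le_mul_of_pos_left n (Nat.pos_of_ne_zero he))
  have hpow' : ∀ n : ℕ, (J ^ (e * n) • ⊤ : Submodule R R) = ((J ^ e) ^ n • ⊤ : Submodule R R) := by
    intro n
    rw [pow_mul]
  refine { haus' := ?_, prec' := ?_ }
  · intro x hx
    refine IsHausdorff.haus (I := J ^ e) (M := R) inferInstance x fun n => ?_
    rw [← hpow' n]
    exact hx (e * n)
  · intro f hf
    obtain ⟨L, hL⟩ := IsPrecomplete.prec (I := J ^ e) (M := R) inferInstance
      (f := fun n => f (e * n)) (by
        intro m n hmn
        rw [← hpow' m]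
        exact hf (Nat.mul_le_mul_left e hmn))
    refine ⟨L, fun n => ?_⟩
    have h1 : f n ≡ f (e * n) [SMOD (J ^ n • ⊤ : Submodule R R)] :=
      hf (Nat.le_mul_of_pos_left n (Nat.pos_of_ne_zero he))
    have h2 : f (e * n) ≡ L [SMOD (J ^ n • ⊤ : Submodule R R)] := by
      rw [SModEq.sub_mem]
      exact hpow n (SModEq.sub_mem.mp (hL n))
    exact h1.trans h2

end Precomplete

/-! ## Locality from idempotent lifting -/

section Local

/-- A domain `B` which is `I`-adically complete for an ideal `I` contained in every maximal
ideal and with `B ⧸ I` Artinian is a local ring. -/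
theorem isLocalRing_of_isAdicComplete_of_isDomain {B : Type*} [CommRing B] [IsDomain B]
    (I : Ideal B) [IsAdicComplete I B] (hI : ∀ M : Ideal B, M.IsMaximal → I ≤ M)
    [IsArtinianRing (B ⧸ I)] : IsLocalRing B := by
  have : HenselianRing B I := IsAdicComplete.henselianRing B I
  obtain ⟨M0, hM0⟩ := Ideal.exists_maximal B
  refine IsLocalRing.of_unique_max_ideal ⟨M0, hM0, fun M1 hM1 => ?_⟩
  by_contra hne
  -- pick `a ∈ M1`, `a ∉ M0`
  have hnle : ¬ M1 ≤ M0 := fun hle => hne (hM1.eq_of_le hM0.ne_top hle)
  obtain ⟨a, haM1, haM0⟩ := SetLike.not_le_iff_exists.mp hnle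
  set a' : B ⧸ I := Ideal.Quotient.mk I a with ha'
  -- the chain of ideals `(a' ^ n)` stabilises
  let c : ℕ →o (Ideal (B ⧸ I))ᵒᵈ :=
    ⟨fun n => OrderDual.toDual (Ideal.span {a' ^ n}), by
      intro m n hmn
      change Ideal.span {a' ^ n} ≤ Ideal.span {a' ^ m}
      rw [Ideal.span_singleton_le_span_singleton]
      exact pow_dvd_pow a' hmn⟩
  obtain ⟨N, hN⟩ := IsArtinian.monotone_stabilizes c
  have h1 : Ideal.span {a' ^ (N + 1)} = Ideal.span {a' ^ (2 * (N + 1))} := by
    have e1 := hN (N + 1) (by omega)
    have e2 := hN (2 * (N + 1)) (by omega)
    have : c (N + 1) = c (2 * (N + 1)) := e1.symm.trans e2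
    exact this
  have h2 : a' ^ (N + 1) ∈ Ideal.span {a' ^ (2 * (N + 1))} := by
    rw [← h1]; exact Ideal.mem_span_singleton_self _
  obtain ⟨b', hb'⟩ := Ideal.mem_span_singleton'.mp h2
  -- `hb' : b' * a' ^ (2 * (N + 1)) = a' ^ (N + 1)`
  obtain ⟨b, rfl⟩ := Ideal.Quotient.mk_surjective b'
  set e0 : B := b * a ^ (N + 1) with he0
  have hidem : Ideal.Quotient.mk I e0 * Ideal.Quotient.mk I e0 = Ideal.Quotient.mk I e0 := by
    have : Ideal.Quotient.mk I e0 = Ideal.Quotient.mk I b * a' ^ (N + 1) := by
      simp [he0, ha']
    rw [this]
    calc Ideal.Quotient.mk I b * a' ^ (N + 1) * (Ideal.Quotient.mk I b * a' ^ (N + 1))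
        = Ideal.Quotient.mk I b * (Ideal.Quotient.mk I b * a' ^ (2 * (N + 1))) := by ring
      _ = Ideal.Quotient.mk I b * a' ^ (N + 1) := by rw [hb']
  -- Hensel: lift the idempotent
  have hf : (X ^ 2 - X : B[X]).Monic := by
    apply monic_X_pow_sub
    simp
  have hev : (X ^ 2 - X : B[X]).eval e0 ∈ I := by
    rw [← Ideal.Quotient.eq_zero_iff_mem]
    simp only [eval_sub, eval_pow, eval_X, map_sub, map_pow]
    rw [pow_two, hidem, sub_self]
  have hder : IsUnit (Ideal.Quotient.mk I ((X ^ 2 - X : B[X]).derivative.eval e0)) := by
    have hd : (X ^ 2 - X : B[X]).derivative.eval e0 = 2 * e0 - 1 := by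
      rw [derivative_sub, derivative_X_pow, derivative_X, eval_sub, eval_mul, eval_C, eval_pow,
        eval_X, eval_one]
      norm_num
    rw [hd]
    refine IsUnit.of_mul_eq_one (Ideal.Quotient.mk I (2 * e0 - 1)) ?_
    have : Ideal.Quotient.mk I (2 * e0 - 1) * Ideal.Quotient.mk I (2 * e0 - 1)
        = 4 * (Ideal.Quotient.mk I e0 * Ideal.Quotient.mk I e0) - 4 * Ideal.Quotient.mk I e0 + 1 := by
      simp only [map_sub, map_mul, map_one, map_ofNat]
      ring
    rw [this, hidem]
    ring
  obtain ⟨e, heroot, hee0⟩ := HenselianRing.is_henselian (X ^ 2 - X : B[X]) hf e0 hev hder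
  have he : e * (e - 1) = 0 := by
    have : (X ^ 2 - X : B[X]).eval e = 0 := heroot
    simp only [eval_sub, eval_pow, eval_X] at this
    rw [← this]; ring
  have hmk : Ideal.Quotient.mk I e = Ideal.Quotient.mk I e0 := by
    rw [Ideal.Quotient.eq]; exact hee0
  rcases mul_eq_zero.mp he with h0 | h1
  · -- `e = 0`: then `a ^ (N+1) ∈ I ≤ M0`
    have hz : Ideal.Quotient.mk I e0 = 0 := by rw [← hmk, h0, map_zero]
    have : a' ^ (N + 1) = 0 := by
      have h3 : Ideal.Quotient.mk I e0 = Ideal.Quotient.mk I b * a' ^ (N + 1) := by
        simp [he0, ha']
      calc a' ^ (N + 1) = Ideal.Quotient.mk I b * a' ^ (2 * (N + 1)) := hb'.symm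
        _ = (Ideal.Quotient.mk I b * a' ^ (N + 1)) * a' ^ (N + 1) := by ring
        _ = 0 := by rw [← h3, hz, zero_mul]
    have hmem : a ^ (N + 1) ∈ I := by
      rw [← Ideal.Quotient.eq_zero_iff_mem, map_pow]; exact this
    exact haM0 (hM0.isPrime.mem_of_pow_mem _ (hI M0 hM0 hmem))
  · -- `e = 1`: then `1 ∈ M1`
    have h1' : e = 1 := sub_eq_zero.mp h1
    have hmem : e - e0 ∈ M1 := hI M1 hM1 hee0
    have he0M1 : e0 ∈ M1 := by
      rw [he0]; exact M1.mul_mem_left _ (M1.pow_mem_of_mem haM1 _ (Nat.succ_pos N))
    have : (1 : B) ∈ M1 := by
      have := M1.add_mem hmem he0M1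
      rwa [sub_add_cancel, h1'] at this
    exact hM1.ne_top ((Ideal.eq_top_iff_one _).mpr this)

end Local

/-! ## The integral closure of a complete discrete valuation ring in a finite extension -/

section Main

variable (O : Type*) [CommRing O] [IsDomain O] [IsDiscreteValuationRing O]
  [IsAdicComplete (maximalIdeal O) O]
  (K : Type*) [Field K] [Algebra O K] [IsFractionRing O K]
  (L : Type*) [Field L] [Algebra K L] [FiniteDimensional K L] [Algebra O L] [IsScalarTower O K L]
  [Algebra.IsSeparable K L]

include K in
theorem finite_integralClosure : Module.Finite O (integralClosure O L) :=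
  IsIntegralClosure.finite O K L (integralClosure O L)

include K in
theorem isDedekindDomain_integralClosure : IsDedekindDomain (integralClosure O L) :=
  integralClosure.isDedekindDomain O K L

include K in
/-- `B` is complete for the ideal generated by the maximal ideal of `O`. -/
theorem isAdicComplete_map_integralClosure :
    IsAdicComplete ((maximalIdeal O).map (algebraMap O (integralClosure O L)))
      (integralClosure O L) := by
  have hfin : Module.Finite O (integralClosure O L) := finite_integralClosure O K L
  have hpre : IsPrecomplete (maximalIdeal O) (integralClosure O L) :=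
    isPrecomplete_of_finite (maximalIdeal O) (integralClosure O L)
  have hhaus : IsHausdorff (maximalIdeal O) (integralClosure O L) := inferInstance
  have : IsAdicComplete (maximalIdeal O) (integralClosure O L) := { hhaus, hpre with }
  exact (IsAdicComplete.map_algebraMap_iff (maximalIdeal O) (integralClosure O L)
    (S := integralClosure O L)).mpr this

theorem map_maximalIdeal_le_of_isMaximal (M : Ideal (integralClosure O L)) (hM : M.IsMaximal) :
    (maximalIdeal O).map (algebraMap O (integralClosure O L)) ≤ M := by
  have h1 : (M.comap (algebraMap O (integralClosure O L))).IsMaximal :=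
    Ideal.isMaximal_comap_of_isIntegral_of_isMaximal M
  rw [Ideal.map_le_iff_le_comap, ← IsLocalRing.eq_maximalIdeal h1]

include K in
theorem isArtinianRing_quotient_map :
    IsArtinianRing ((integralClosure O L) ⧸
      (maximalIdeal O).map (algebraMap O (integralClosure O L))) := by
  have hfin : Module.Finite O (integralClosure O L) := finite_integralClosure O K L
  have h1 : Module.Finite O ((integralClosure O L) ⧸
      (maximalIdeal O).map (algebraMap O (integralClosure O L))) :=
    Module.Finite.of_surjective
      (Ideal.Quotient.mkₐ O ((maximalIdeal O).map (algebraMap O (integralClosure O L)))).toLinearMap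
      Ideal.Quotient.mk_surjective
  have h2 : Module.Finite (O ⧸ maximalIdeal O) ((integralClosure O L) ⧸
      (maximalIdeal O).map (algebraMap O (integralClosure O L))) :=
    Module.Finite.of_restrictScalars_finite O _ _
  have h3 : IsArtinianRing (O ⧸ maximalIdeal O) :=
    inferInstanceAs (IsArtinianRing (ResidueField O))
  exact IsArtinianRing.of_finite (O ⧸ maximalIdeal O) _

include K in
/-- **(E1)** the integral closure is a local ring. -/
theorem isLocalRing_integralClosure : IsLocalRing (integralClosure O L) := by
  have h1 := isAdicComplete_map_integralClosure O K L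
  have h2 := isArtinianRing_quotient_map O K L
  exact isLocalRing_of_isAdicComplete_of_isDomain
    ((maximalIdeal O).map (algebraMap O (integralClosure O L)))
    (map_maximalIdeal_le_of_isMaximal O L)

include K in
theorem injective_algebraMap_integralClosure :
    Function.Injective (algebraMap O (integralClosure O L)) := by
  have h1 : Function.Injective (algebraMap O L) := by
    rw [IsScalarTower.algebraMap_eq O K L]
    exact (algebraMap K L).injective.comp (IsFractionRing.injective O K)
  have h2 : (algebraMap (integralClosure O L) L) ∘ (algebraMap O (integralClosure O L))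
      = algebraMap O L := by
    funext x; rfl
  exact Function.Injective.of_comp (f := algebraMap (integralClosure O L) L) (h2 ▸ h1)

include K in
theorem not_isField_integralClosure : ¬ IsField (integralClosure O L) := fun h =>
  IsDiscreteValuationRing.not_isField O
    (isField_of_isIntegral_of_isField (injective_algebraMap_integralClosure O K L) h)

include K in
/-- **(E2)** the integral closure is a discrete valuation ring. -/
theorem isDiscreteValuationRing_integralClosure :
    IsDiscreteValuationRing (integralClosure O L) := by
  have hD : IsDedekindDomain (integralClosure O L) := isDedekindDomain_integralClosure O K L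
  have hL : IsLocalRing (integralClosure O L) := isLocalRing_integralClosure O K L
  exact ((IsDiscreteValuationRing.TFAE (integralClosure O L)
    (not_isField_integralClosure O K L)).out 0 2).mpr hD

include K in
/-- The ideal generated by the maximal ideal of `O` is a positive power of the maximal ideal. -/
theorem exists_map_maximalIdeal_eq_pow [IsLocalRing (integralClosure O L)] :
    ∃ e : ℕ, e ≠ 0 ∧ (maximalIdeal O).map (algebraMap O (integralClosure O L))
      = maximalIdeal (integralClosure O L) ^ e := by
  have hD : IsDedekindDomain (integralClosure O L) := isDedekindDomain_integralClosure O K L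
  have hne : (maximalIdeal O).map (algebraMap O (integralClosure O L)) ≠ ⊥ := by
    rw [Ne, Ideal.map_eq_bot_iff_of_injective (injective_algebraMap_integralClosure O K L)]
    exact IsDiscreteValuationRing.not_a_field O
  have h26 : ∀ (I : Ideal (integralClosure O L)) (_ : I ≠ ⊥),
      ∃ n : ℕ, I = maximalIdeal (integralClosure O L) ^ n :=
    ((IsDiscreteValuationRing.TFAE (integralClosure O L)
      (not_isField_integralClosure O K L)).out 2 6).mp hD
  obtain ⟨e, he⟩ := h26 _ hne
  refine ⟨e, ?_, he⟩
  rintro rfl
  rw [pow_zero, Ideal.one_eq_top] at he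
  have hle := map_maximalIdeal_le_of_isMaximal O L (maximalIdeal (integralClosure O L))
    (maximalIdeal.isMaximal _)
  rw [he] at hle
  exact (maximalIdeal.isMaximal (integralClosure O L)).ne_top (top_le_iff.mp hle)

include K in
/-- **(E3)** the integral closure is complete for its maximal ideal. -/
theorem isAdicComplete_integralClosure [IsLocalRing (integralClosure O L)] :
    IsAdicComplete (maximalIdeal (integralClosure O L)) (integralClosure O L) := by
  obtain ⟨e, he0, he⟩ := exists_map_maximalIdeal_eq_pow O K L
  have h := isAdicComplete_map_integralClosure O K L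
  rw [he] at h
  exact isAdicComplete_of_pow he0

include K in
/-- **(E4)** the residue field of the integral closure is finite if that of `O` is. -/
theorem finite_residueField_integralClosure [IsLocalRing (integralClosure O L)]
    [Finite (ResidueField O)] : Finite (ResidueField (integralClosure O L)) := by
  have hfin : Module.Finite O (integralClosure O L) := finite_integralClosure O K L
  have h1 : Module.Finite O ((integralClosure O L) ⧸
      (maximalIdeal O).map (algebraMap O (integralClosure O L))) :=
    Module.Finite.of_surjective
      (Ideal.Quotient.mkₐ O ((maximalIdeal O).map (algebraMap O (integralClosure O L)))).toLinearMap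
      Ideal.Quotient.mk_surjective
  have h2 : Module.Finite (O ⧸ maximalIdeal O) ((integralClosure O L) ⧸
      (maximalIdeal O).map (algebraMap O (integralClosure O L))) :=
    Module.Finite.of_restrictScalars_finite O _ _
  have h3 : Finite (O ⧸ maximalIdeal O) := inferInstanceAs (Finite (ResidueField O))
  have h4 : Finite ((integralClosure O L) ⧸
      (maximalIdeal O).map (algebraMap O (integralClosure O L))) :=
    Module.finite_of_finite (O ⧸ maximalIdeal O)
  have hle := map_maximalIdeal_le_of_isMaximal O L (maximalIdeal (integralClosure O L))
    (maximalIdeal.isMaximal _)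
  exact Finite.of_surjective (Ideal.Quotient.factor hle) (Ideal.Quotient.factor_surjective hle)

/-- **(E5a)** the structure map is a local homomorphism. -/
theorem isLocalHom_algebraMap_integralClosure [IsLocalRing (integralClosure O L)] :
    IsLocalHom (algebraMap O (integralClosure O L)) :=
  ((local_hom_TFAE (algebraMap O (integralClosure O L))).out 0 2).mpr
    (map_maximalIdeal_le_of_isMaximal O L _ (maximalIdeal.isMaximal _))

include K in
/-- **(E5b)** characteristic zero is inherited. -/
theorem charZero_integralClosure [CharZero O] : CharZero (integralClosure O L) :=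
  charZero_of_injective_algebraMap (injective_algebraMap_integralClosure O K L)


include K in
/-- **(E6)** everything at once, in the order of the prefix of the frozen statements. -/
theorem exists_dvr_structure_integralClosure [CharZero O] [Finite (ResidueField O)] :
    ∃ (_ : IsDiscreteValuationRing (integralClosure O L))
      (_ : IsAdicComplete (maximalIdeal (integralClosure O L)) (integralClosure O L))
      (_ : Finite (ResidueField (integralClosure O L))) (_ : CharZero (integralClosure O L))
      (_ : Module.Finite O (integralClosure O L))
      (_ : IsLocalHom (algebraMap O (integralClosure O L))),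
      Function.Injective (algebraMap O (integralClosure O L)) := by
  have hdvr : IsDiscreteValuationRing (integralClosure O L) :=
    isDiscreteValuationRing_integralClosure O K L
  exact ⟨hdvr, isAdicComplete_integralClosure O K L, finite_residueField_integralClosure O K L,
    charZero_integralClosure O K L, finite_integralClosure O K L,
    isLocalHom_algebraMap_integralClosure O L, injective_algebraMap_integralClosure O K L⟩

end Main

/-- **The prefix of the frozen statements, verbatim.**  For a complete discrete valuation ring
`O'` of characteristic zero with finite residue field and any finite extension `L` of its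
fraction field, there is `O''` as required by the frozen statements S30, S35, ...; moreover
`O''` is the integral closure of `O'` in `L` and `L` is its fraction field. -/
theorem exists_complete_dvr_extension (O' : Type) [CommRing O'] [IsDomain O']
    [IsDiscreteValuationRing O'] [IsAdicComplete (maximalIdeal O') O']
    [Finite (ResidueField O')] [CharZero O']
    (K : Type*) [Field K] [Algebra O' K] [IsFractionRing O' K]
    (L : Type) [Field L] [Algebra K L] [FiniteDimensional K L] [Algebra O' L]
    [IsScalarTower O' K L] :
    ∃ (O'' : Type) (_ : CommRing O'') (_ : IsDomain O'') (_ : IsDiscreteValuationRing O'')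
      (_ : IsAdicComplete (maximalIdeal O'') O'') (_ : Finite (ResidueField O''))
      (_ : CharZero O'') (_ : Algebra O' O'') (_ : Module.Finite O' O'')
      (_ : IsLocalHom (algebraMap O' O'')) (_ : Algebra O'' L) (_ : IsScalarTower O' O'' L)
      (_ : IsIntegralClosure O'' O' L) (_ : IsFractionRing O'' L),
      Function.Injective (algebraMap O' O'') := by
  have hK : CharZero K := charZero_of_injective_algebraMap (IsFractionRing.injective O' K)
  obtain ⟨h1, h2, h3, h4, h5, h6, h7⟩ := exists_dvr_structure_integralClosure O' K L
  exact ⟨integralClosure O' L, inferInstance, inferInstance, h1, h2, h3, h4, inferInstance, h5, h6,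
    inferInstance, inferInstance, inferInstance,
    integralClosure.isFractionRing_of_finite_extension K L, h7⟩

end Fermat.Agent.Lib.helper9149
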