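/-
helper923 — Tate's abstract residue (J. Tate, *Residues of differentials on curves*, 1968),
in "Calkin" form, Mathlib only.

* `FinRank T`            : the linear map `T` has finite-dimensional range.
* `ftr T`                : trace of a finite-rank endomorphism of an arbitrary vector space.
* `IsLift A f X`         : `X : A → A` agrees with `f : V → V` on the subspace `A` modulo
                           finite rank.
* `res A f g`            : Tate's residue `res_A (f dg) = tr [X, Y]` for lifts `X, Y` of the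
                           commuting endomorphisms `f, g`.
* `res_leibniz`, `res_eq_zero_of_mapsTo`, `res_eq_of_le`, `res_add_res_of_isCompl`,
  `res_eq_zero_of_invariant_compl` (abstract residue theorem).
-/
import Mathlib

set_option autoImplicit false

namespace Fermat.Agent.Lib.helper923

open Module

noncomputable section

/-! ## Finite-rank maps -/

section FinRank

variable {K : Type*} [Field K]
variable {A B C : Type*} [AddCommGroup A] [Module K A] [AddCommGroup B] [Module K B]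
  [AddCommGroup C] [Module K C]

/-- The linear map `T` has finite-dimensional range. -/
def FinRank (T : A →ₗ[K] B) : Prop := Module.Finite K (LinearMap.range T)

theorem FinRank.of_range_le {T : A →ₗ[K] B} (W : Submodule K B) [Module.Finite K W]
    (h : LinearMap.range T ≤ W) : FinRank T :=
  Submodule.finiteDimensional_of_le h

theorem FinRank.zero : FinRank (0 : A →ₗ[K] B) := by
  unfold FinRank
  rw [LinearMap.range_zero]
  infer_instance

theorem FinRank.of_finite_dom [Module.Finite K A] (T : A →ₗ[K] B) : FinRank T :=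
  Module.Finite.range T

theorem FinRank.of_finite_cod [Module.Finite K B] (T : A →ₗ[K] B) : FinRank T := by
  unfold FinRank
  infer_instance

theorem FinRank.comp_left {T : A →ₗ[K] B} (hT : FinRank T) (S : B →ₗ[K] C) :
    FinRank (S ∘ₗ T) := by
  unfold FinRank at hT ⊢
  rw [LinearMap.range_comp]
  exact Module.Finite.map _ S

theorem FinRank.comp_right {T : A →ₗ[K] B} (hT : FinRank T) (S : C →ₗ[K] A) :
    FinRank (T ∘ₗ S) := by
  unfold FinRank at hT
  exact FinRank.of_range_le (LinearMap.range T) (LinearMap.range_comp_le_range S T)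

theorem FinRank.add {T S : A →ₗ[K] B} (hT : FinRank T) (hS : FinRank S) : FinRank (T + S) := by
  unfold FinRank at hT hS
  refine FinRank.of_range_le (LinearMap.range T ⊔ LinearMap.range S) ?_
  rintro _ ⟨x, rfl⟩
  exact Submodule.add_mem_sup (LinearMap.mem_range_self T x) (LinearMap.mem_range_self S x)

theorem FinRank.smul {T : A →ₗ[K] B} (hT : FinRank T) (c : K) : FinRank (c • T) := by
  unfold FinRank at hT
  refine FinRank.of_range_le (LinearMap.range T) ?_
  rintro _ ⟨x, rfl⟩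
  exact Submodule.smul_mem _ c (LinearMap.mem_range_self T x)

theorem FinRank.neg {T : A →ₗ[K] B} (hT : FinRank T) : FinRank (-T) := by
  have := hT.smul (-1 : K)
  simpa using this

theorem FinRank.sub {T S : A →ₗ[K] B} (hT : FinRank T) (hS : FinRank S) : FinRank (T - S) := by
  rw [sub_eq_add_neg]
  exact hT.add hS.neg

/-- A map `Z` such that `ι ∘ Z` has finite rank, `ι` injective, has finite rank. -/
theorem FinRank.of_comp_injective {Z : A →ₗ[K] B} (ι : B →ₗ[K] C) (hι : Function.Injective ι)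
    (h : FinRank (ι ∘ₗ Z)) : FinRank Z := by
  unfold FinRank at h ⊢
  rw [LinearMap.range_comp] at h
  exact Module.Finite.equiv (Submodule.equivMapOfInjective ι hι (LinearMap.range Z)).symm

end FinRank

/-! ## The trace of a finite-rank endomorphism -/

section Trace

variable {K : Type*} [Field K]
variable {A B : Type*} [AddCommGroup A] [Module K A] [AddCommGroup B] [Module K B]

/-- Trace of a finite-rank endomorphism (junk if the rank is infinite). -/
def ftr (T : A →ₗ[K] A) : K :=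
  LinearMap.trace K (LinearMap.range T)
    (T.restrict (p := LinearMap.range T) (q := LinearMap.range T)
      (fun x _ => LinearMap.mem_range_self T x))

/-- The trace can be computed on any finite-dimensional subspace containing the range. -/
theorem ftr_eq_trace_restrict (T : A →ₗ[K] A) (W : Submodule K A) [Module.Finite K W]
    (hW : ∀ x, T x ∈ W) :
    ftr T = LinearMap.trace K W (T.restrict (p := W) (q := W) (fun x _ => hW x)) := by
  have hle : LinearMap.range T ≤ W := by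
    rintro _ ⟨x, rfl⟩
    exact hW x
  set f : W →ₗ[K] W := T.restrict (p := W) (q := W) (fun x _ => hW x) with hf
  set p : Submodule K W := Submodule.comap W.subtype (LinearMap.range T) with hp
  have hfp : ∀ x, f x ∈ p := by
    intro x
    show (W.subtype (f x)) ∈ LinearMap.range T
    exact LinearMap.mem_range_self T x
  have h1 := LinearMap.trace_restrict_eq_of_forall_mem p f hfp
  rw [← h1]
  set e : p ≃ₗ[K] LinearMap.range T := Submodule.comapSubtypeEquivOfLe hle with he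
  have h2 := LinearMap.trace_conj' (f.restrict (p := p) (q := p) (fun x _ => hfp x)) e
  rw [← h2]
  unfold ftr
  congr 1

/-- The trace of a composition through a finite-dimensional space. -/
theorem ftr_eq_trace_of_factor {U : Type*} [AddCommGroup U] [Module K U] [Module.Finite K U]
    (u : U →ₗ[K] A) (w : A →ₗ[K] U) :
    ftr (u ∘ₗ w) = LinearMap.trace K U (w ∘ₗ u) := by
  have hW : ∀ x, (u ∘ₗ w) x ∈ LinearMap.range u := fun x => LinearMap.mem_range_self u (w x)
  rw [ftr_eq_trace_restrict (u ∘ₗ w) (LinearMap.range u) hW]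
  have h := LinearMap.trace_comp_comm' (R := K) (M := U) (N := LinearMap.range u)
    u.rangeRestrict (w ∘ₗ (LinearMap.range u).subtype)
  have e1 : (w ∘ₗ (LinearMap.range u).subtype) ∘ₗ u.rangeRestrict = w ∘ₗ u := by
    apply LinearMap.ext
    intro x
    rfl
  have e2 : u.rangeRestrict ∘ₗ (w ∘ₗ (LinearMap.range u).subtype)
      = (u ∘ₗ w).restrict (p := LinearMap.range u) (q := LinearMap.range u) (fun x _ => hW x) := by
    apply LinearMap.ext
    intro x
    rfl
  rw [e1, e2] at h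
  exact h.symm

/-- Cyclicity of the finite-rank trace. -/
theorem ftr_comp_comm (X : B →ₗ[K] A) (Y : A →ₗ[K] B) (hX : FinRank X) :
    ftr (X ∘ₗ Y) = ftr (Y ∘ₗ X) := by
  have : Module.Finite K (LinearMap.range X) := hX
  have e1 : X ∘ₗ Y = (LinearMap.range X).subtype ∘ₗ (X.rangeRestrict ∘ₗ Y) := by
    apply LinearMap.ext
    intro x
    rfl
  have e2 : Y ∘ₗ X = (Y ∘ₗ (LinearMap.range X).subtype) ∘ₗ X.rangeRestrict := by
    apply LinearMap.ext
    intro x
    rfl
  rw [e1, ftr_eq_trace_of_factor, e2, ftr_eq_trace_of_factor]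
  rfl

theorem ftr_add {T S : A →ₗ[K] A} (hT : FinRank T) (hS : FinRank S) :
    ftr (T + S) = ftr T + ftr S := by
  have : Module.Finite K (LinearMap.range T) := hT
  have : Module.Finite K (LinearMap.range S) := hS
  set W : Submodule K A := LinearMap.range T ⊔ LinearMap.range S with hWdef
  have hT' : ∀ x, T x ∈ W := fun x => Submodule.mem_sup_left (LinearMap.mem_range_self T x)
  have hS' : ∀ x, S x ∈ W := fun x => Submodule.mem_sup_right (LinearMap.mem_range_self S x)
  have hTS : ∀ x, (T + S) x ∈ W := fun x => W.add_mem (hT' x) (hS' x)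
  rw [ftr_eq_trace_restrict T W hT', ftr_eq_trace_restrict S W hS',
    ftr_eq_trace_restrict (T + S) W hTS, ← map_add]
  congr 1

theorem ftr_smul (c : K) {T : A →ₗ[K] A} (hT : FinRank T) :
    ftr (c • T) = c * ftr T := by
  have : Module.Finite K (LinearMap.range T) := hT
  set W : Submodule K A := LinearMap.range T with hWdef
  have hT' : ∀ x, T x ∈ W := fun x => LinearMap.mem_range_self T x
  have hcT : ∀ x, (c • T) x ∈ W := fun x => W.smul_mem c (hT' x)
  rw [ftr_eq_trace_restrict T W hT', ftr_eq_trace_restrict (c • T) W hcT, ← smul_eq_mul,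
    ← map_smul]
  congr 1

theorem ftr_zero : ftr (0 : A →ₗ[K] A) = 0 := by
  have h := ftr_smul (K := K) (A := A) (0 : K) (T := 0) FinRank.zero
  simpa using h

theorem ftr_neg {T : A →ₗ[K] A} (hT : FinRank T) : ftr (-T) = -ftr T := by
  have h := ftr_smul (-1 : K) hT
  simpa using h

theorem ftr_sub {T S : A →ₗ[K] A} (hT : FinRank T) (hS : FinRank S) :
    ftr (T - S) = ftr T - ftr S := by
  rw [sub_eq_add_neg, ftr_add hT hS.neg, ftr_neg hS, sub_eq_add_neg]

/-- Trace of a commutator with a finite-rank map vanishes. -/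
theorem ftr_commutator_eq_zero (P X : A →ₗ[K] A) (hP : FinRank P) :
    ftr (P ∘ₗ X - X ∘ₗ P) = 0 := by
  rw [ftr_sub (hP.comp_right X) (hP.comp_left X), ftr_comp_comm P X hP, sub_self]

/-- Trace of a rank-one operator. -/
theorem ftr_smulRight (φ : A →ₗ[K] K) (w₀ : A) : ftr (φ.smulRight w₀) = φ w₀ := by
  have e : φ.smulRight w₀ = (LinearMap.toSpanSingleton K A w₀) ∘ₗ φ := by
    apply LinearMap.ext
    intro x
    simp [LinearMap.toSpanSingleton_apply]
  rw [e, ftr_eq_trace_of_factor]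
  have e2 : φ ∘ₗ LinearMap.toSpanSingleton K A w₀ = φ w₀ • LinearMap.id := by
    apply LinearMap.ext
    intro c
    simp [LinearMap.toSpanSingleton_apply, mul_comm]
  rw [e2, map_smul, LinearMap.trace_id, Module.finrank_self]
  simp

theorem FinRank.smulRight (φ : A →ₗ[K] K) (w₀ : B) : FinRank (φ.smulRight w₀) := by
  have e : φ.smulRight w₀ = (LinearMap.toSpanSingleton K B w₀) ∘ₗ φ := by
    apply LinearMap.ext
    intro x
    simp [LinearMap.toSpanSingleton_apply]
  rw [e]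
  exact (FinRank.of_finite_cod φ).comp_left _

end Trace

/-! ## Lifts modulo finite rank and the residue -/

section Lift

variable {K : Type*} [Field K] {V : Type*} [AddCommGroup V] [Module K V]

/-- `X : A → A` is a lift of `f : V → V` on the subspace `A`, modulo finite rank. -/
def IsLift (A : Submodule K V) (f : V →ₗ[K] V) (X : A →ₗ[K] A) : Prop :=
  FinRank (f ∘ₗ A.subtype - A.subtype ∘ₗ X)

/-- `f` almost preserves `A`: it has a lift modulo finite rank. -/
def Liftable (A : Submodule K V) (f : V →ₗ[K] V) : Prop := ∃ X : A →ₗ[K] A, IsLift A f X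

variable {A : Submodule K V} {f f' g g' h : V →ₗ[K] V} {X X' Y Y' Z : A →ₗ[K] A}

theorem IsLift.of_mapsTo (hf : ∀ a ∈ A, f a ∈ A) : IsLift A f (f.restrict hf) := by
  unfold IsLift
  have : f ∘ₗ A.subtype - A.subtype ∘ₗ f.restrict hf = 0 := by
    apply LinearMap.ext
    intro a
    simp [LinearMap.restrict_apply]
  rw [this]
  exact FinRank.zero

theorem Liftable.of_mapsTo (hf : ∀ a ∈ A, f a ∈ A) : Liftable A f := ⟨_, IsLift.of_mapsTo hf⟩

theorem IsLift.id : IsLift A LinearMap.id LinearMap.id := by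
  unfold IsLift
  have : (LinearMap.id : V →ₗ[K] V) ∘ₗ A.subtype - A.subtype ∘ₗ LinearMap.id = 0 := by
    apply LinearMap.ext
    intro a
    simp
  rw [this]
  exact FinRank.zero

theorem IsLift.add (hX : IsLift A f X) (hY : IsLift A g Y) : IsLift A (f + g) (X + Y) := by
  unfold IsLift at hX hY ⊢
  have : (f + g) ∘ₗ A.subtype - A.subtype ∘ₗ (X + Y)
      = (f ∘ₗ A.subtype - A.subtype ∘ₗ X) + (g ∘ₗ A.subtype - A.subtype ∘ₗ Y) := by
    apply LinearMap.ext
    intro a
    simp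
    abel
  rw [this]
  exact hX.add hY

theorem IsLift.smul (c : K) (hX : IsLift A f X) : IsLift A (c • f) (c • X) := by
  unfold IsLift at hX ⊢
  have : (c • f) ∘ₗ A.subtype - A.subtype ∘ₗ (c • X)
      = c • (f ∘ₗ A.subtype - A.subtype ∘ₗ X) := by
    apply LinearMap.ext
    intro a
    simp [smul_sub]
  rw [this]
  exact hX.smul c

theorem IsLift.comp (hX : IsLift A f X) (hY : IsLift A g Y) : IsLift A (f ∘ₗ g) (X ∘ₗ Y) := by
  unfold IsLift at hX hY ⊢
  have : (f ∘ₗ g) ∘ₗ A.subtype - A.subtype ∘ₗ (X ∘ₗ Y)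
      = f ∘ₗ (g ∘ₗ A.subtype - A.subtype ∘ₗ Y) + (f ∘ₗ A.subtype - A.subtype ∘ₗ X) ∘ₗ Y := by
    apply LinearMap.ext
    intro a
    simp [map_sub]
  rw [this]
  exact (hY.comp_left f).add (hX.comp_right Y)

theorem Liftable.add (hf : Liftable A f) (hg : Liftable A g) : Liftable A (f + g) := by
  obtain ⟨X, hX⟩ := hf
  obtain ⟨Y, hY⟩ := hg
  exact ⟨_, hX.add hY⟩

theorem Liftable.smul (c : K) (hf : Liftable A f) : Liftable A (c • f) := by
  obtain ⟨X, hX⟩ := hf
  exact ⟨_, hX.smul c⟩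

theorem Liftable.comp (hf : Liftable A f) (hg : Liftable A g) : Liftable A (f ∘ₗ g) := by
  obtain ⟨X, hX⟩ := hf
  obtain ⟨Y, hY⟩ := hg
  exact ⟨_, hX.comp hY⟩

theorem Liftable.id : Liftable A (LinearMap.id : V →ₗ[K] V) := ⟨_, IsLift.id⟩

/-- Two lifts of the same map differ by a finite-rank map. -/
theorem IsLift.finRank_sub (hX : IsLift A f X) (hX' : IsLift A f X') : FinRank (X' - X) := by
  unfold IsLift at hX hX'
  refine FinRank.of_comp_injective A.subtype A.subtype_injective ?_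
  have : A.subtype ∘ₗ (X' - X)
      = (f ∘ₗ A.subtype - A.subtype ∘ₗ X) - (f ∘ₗ A.subtype - A.subtype ∘ₗ X') := by
    apply LinearMap.ext
    intro a
    simp
  rw [this]
  exact hX.sub hX'

/-- Lifts of commuting maps commute modulo finite rank. -/
theorem IsLift.finRank_commutator (hfg : f ∘ₗ g = g ∘ₗ f) (hX : IsLift A f X)
    (hY : IsLift A g Y) : FinRank (X ∘ₗ Y - Y ∘ₗ X) := by
  have h1 := hX.comp hY
  have h2 := hY.comp hX
  unfold IsLift at h1 h2
  refine FinRank.of_comp_injective A.subtype A.subtype_injective ?_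
  have : A.subtype ∘ₗ (X ∘ₗ Y - Y ∘ₗ X)
      = ((g ∘ₗ f) ∘ₗ A.subtype - A.subtype ∘ₗ (Y ∘ₗ X))
        - ((f ∘ₗ g) ∘ₗ A.subtype - A.subtype ∘ₗ (X ∘ₗ Y)) := by
    rw [hfg]
    apply LinearMap.ext
    intro a
    simp
  rw [this]
  exact h2.sub h1

/-- The trace of the commutator does not depend on the lifts. -/
theorem ftr_commutator_congr (hfg : f ∘ₗ g = g ∘ₗ f) (hX : IsLift A f X) (hX' : IsLift A f X')
    (hY : IsLift A g Y) (hY' : IsLift A g Y') :
    ftr (X' ∘ₗ Y' - Y' ∘ₗ X') = ftr (X ∘ₗ Y - Y ∘ₗ X) := by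
  have hP : FinRank (X' - X) := hX.finRank_sub hX'
  have hQ : FinRank (Y' - Y) := hY.finRank_sub hY'
  have hc : FinRank (X ∘ₗ Y - Y ∘ₗ X) := hX.finRank_commutator hfg hY
  have e : X' ∘ₗ Y' - Y' ∘ₗ X'
      = (X ∘ₗ Y - Y ∘ₗ X) + (((X' - X) ∘ₗ Y' - Y' ∘ₗ (X' - X))
        - ((Y' - Y) ∘ₗ X - X ∘ₗ (Y' - Y))) := by
    apply LinearMap.ext
    intro a
    simp [map_sub]
    abel
  have h1 : FinRank ((X' - X) ∘ₗ Y' - Y' ∘ₗ (X' - X)) :=
    (hP.comp_right Y').sub (hP.comp_left Y')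
  have h2 : FinRank ((Y' - Y) ∘ₗ X - X ∘ₗ (Y' - Y)) :=
    (hQ.comp_right X).sub (hQ.comp_left X)
  rw [e, ftr_add hc (h1.sub h2), ftr_sub h1 h2, ftr_commutator_eq_zero _ _ hP,
    ftr_commutator_eq_zero _ _ hQ]
  simp

open Classical in
/-- Tate's residue `res_A (f dg)` of two commuting endomorphisms that almost preserve `A`
(junk value `0` if one of them does not almost preserve `A`). -/
def res (A : Submodule K V) (f g : V →ₗ[K] V) : K :=
  if h : ∃ X Y : A →ₗ[K] A, IsLift A f X ∧ IsLift A g Y then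
    ftr (h.choose ∘ₗ h.choose_spec.choose - h.choose_spec.choose ∘ₗ h.choose)
  else 0

theorem res_eq (hfg : f ∘ₗ g = g ∘ₗ f) (hX : IsLift A f X) (hY : IsLift A g Y) :
    res A f g = ftr (X ∘ₗ Y - Y ∘ₗ X) := by
  have h : ∃ X Y : A →ₗ[K] A, IsLift A f X ∧ IsLift A g Y := ⟨X, Y, hX, hY⟩
  unfold res
  rw [dif_pos h]
  exact ftr_commutator_congr hfg hX h.choose_spec.choose_spec.1 hY h.choose_spec.choose_spec.2

/-- If the commutator of two lifts is the rank-one map `b ↦ φ b • w₀`, the residue is `φ w₀`. -/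
theorem res_eq_of_commutator_eq_smulRight (hfg : f ∘ₗ g = g ∘ₗ f) (hX : IsLift A f X)
    (hY : IsLift A g Y) (φ : A →ₗ[K] K) (w₀ : A)
    (h : ∀ b : A, X (Y b) - Y (X b) = φ b • w₀) : res A f g = φ w₀ := by
  rw [res_eq hfg hX hY]
  have e : X ∘ₗ Y - Y ∘ₗ X = φ.smulRight w₀ := LinearMap.ext h
  rw [e, ftr_smulRight]

theorem res_add_left (hfg : f ∘ₗ g = g ∘ₗ f) (hf'g : f' ∘ₗ g = g ∘ₗ f') (hf : Liftable A f)
    (hf' : Liftable A f') (hg : Liftable A g) :
    res A (f + f') g = res A f g + res A f' g := by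
  obtain ⟨X, hX⟩ := hf
  obtain ⟨X', hX'⟩ := hf'
  obtain ⟨Y, hY⟩ := hg
  have hsum : (f + f') ∘ₗ g = g ∘ₗ (f + f') := by
    rw [LinearMap.add_comp, LinearMap.comp_add, hfg, hf'g]
  rw [res_eq hsum (hX.add hX') hY, res_eq hfg hX hY, res_eq hf'g hX' hY,
    ← ftr_add (hX.finRank_commutator hfg hY) (hX'.finRank_commutator hf'g hY)]
  congr 1
  apply LinearMap.ext
  intro a
  simp
  abel

theorem res_smul_left (c : K) (hfg : f ∘ₗ g = g ∘ₗ f) (hf : Liftable A f)
    (hg : Liftable A g) : res A (c • f) g = c * res A f g := by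
  obtain ⟨X, hX⟩ := hf
  obtain ⟨Y, hY⟩ := hg
  have hc : (c • f) ∘ₗ g = g ∘ₗ (c • f) := by
    rw [LinearMap.smul_comp, LinearMap.comp_smul, hfg]
  rw [res_eq hc (hX.smul c) hY, res_eq hfg hX hY,
    ← ftr_smul c (hX.finRank_commutator hfg hY)]
  congr 1
  apply LinearMap.ext
  intro a
  simp [smul_sub]

theorem res_add_right (hfg : f ∘ₗ g = g ∘ₗ f) (hfg' : f ∘ₗ g' = g' ∘ₗ f) (hf : Liftable A f)
    (hg : Liftable A g) (hg' : Liftable A g') :
    res A f (g + g') = res A f g + res A f g' := by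
  obtain ⟨X, hX⟩ := hf
  obtain ⟨Y, hY⟩ := hg
  obtain ⟨Y', hY'⟩ := hg'
  have hsum : f ∘ₗ (g + g') = (g + g') ∘ₗ f := by
    rw [LinearMap.add_comp, LinearMap.comp_add, hfg, hfg']
  rw [res_eq hsum hX (hY.add hY'), res_eq hfg hX hY, res_eq hfg' hX hY',
    ← ftr_add (hX.finRank_commutator hfg hY) (hX.finRank_commutator hfg' hY')]
  congr 1
  apply LinearMap.ext
  intro a
  simp
  abel

theorem res_smul_right (c : K) (hfg : f ∘ₗ g = g ∘ₗ f) (hf : Liftable A f)
    (hg : Liftable A g) : res A f (c • g) = c * res A f g := by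
  obtain ⟨X, hX⟩ := hf
  obtain ⟨Y, hY⟩ := hg
  have hc : f ∘ₗ (c • g) = (c • g) ∘ₗ f := by
    rw [LinearMap.smul_comp, LinearMap.comp_smul, hfg]
  rw [res_eq hc hX (hY.smul c), res_eq hfg hX hY,
    ← ftr_smul c (hX.finRank_commutator hfg hY)]
  congr 1
  apply LinearMap.ext
  intro a
  simp [smul_sub]

/-- Leibniz rule: `res (f d(gh)) = res (fg dh) + res (fh dg)`. -/
theorem res_leibniz (hfg : f ∘ₗ g = g ∘ₗ f) (hfh : f ∘ₗ h = h ∘ₗ f) (hgh : g ∘ₗ h = h ∘ₗ g)
    (hf : Liftable A f) (hg : Liftable A g) (hh : Liftable A h) :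
    res A f (g ∘ₗ h) = res A (f ∘ₗ g) h + res A (f ∘ₗ h) g := by
  obtain ⟨X, hX⟩ := hf
  obtain ⟨Y, hY⟩ := hg
  obtain ⟨Z, hZ⟩ := hh
  have c1 : f ∘ₗ (g ∘ₗ h) = (g ∘ₗ h) ∘ₗ f := by
    rw [← LinearMap.comp_assoc, hfg, LinearMap.comp_assoc, hfh, LinearMap.comp_assoc]
  have c2 : (f ∘ₗ g) ∘ₗ h = h ∘ₗ (f ∘ₗ g) := by
    rw [LinearMap.comp_assoc, hgh, ← LinearMap.comp_assoc, hfh, LinearMap.comp_assoc]
  have c3 : (f ∘ₗ h) ∘ₗ g = g ∘ₗ (f ∘ₗ h) := by
    rw [LinearMap.comp_assoc, ← hgh, ← LinearMap.comp_assoc, hfg, LinearMap.comp_assoc]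
  have hZX : IsLift A (f ∘ₗ h) (Z ∘ₗ X) := by
    rw [hfh]
    exact hZ.comp hX
  rw [res_eq c1 hX (hY.comp hZ), res_eq c2 (hX.comp hY) hZ, res_eq c3 hZX hY,
    ← ftr_add ((hX.comp hY).finRank_commutator c2 hZ) (hZX.finRank_commutator c3 hY)]
  congr 1
  apply LinearMap.ext
  intro a
  simp

/-- (R1) The residue vanishes when both maps preserve `A`. -/
theorem res_eq_zero_of_mapsTo (hfg : f ∘ₗ g = g ∘ₗ f) (hf : ∀ a ∈ A, f a ∈ A)
    (hg : ∀ a ∈ A, g a ∈ A) : res A f g = 0 := by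
  rw [res_eq hfg (IsLift.of_mapsTo hf) (IsLift.of_mapsTo hg)]
  have : f.restrict hf ∘ₗ g.restrict hg - g.restrict hg ∘ₗ f.restrict hf = 0 := by
    apply LinearMap.ext
    intro a
    apply Subtype.ext
    have := LinearMap.congr_fun hfg (a : V)
    simp only [LinearMap.comp_apply] at this
    simp [LinearMap.restrict_apply, this]
  rw [this, ftr_zero]

/-- The residue of `f d(1)` vanishes. -/
theorem res_id_right (hf : Liftable A f) : res A f LinearMap.id = 0 := by
  obtain ⟨X, hX⟩ := hf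
  have hc : f ∘ₗ LinearMap.id = LinearMap.id ∘ₗ f := by simp
  rw [res_eq hc hX IsLift.id]
  have : X ∘ₗ LinearMap.id - LinearMap.id ∘ₗ X = 0 := by simp
  rw [this, ftr_zero]

end Lift

/-! ## Commensurable subspaces -/

section Commensurable

variable {K : Type*} [Field K] {V : Type*} [AddCommGroup V] [Module K V]
variable {f g : V →ₗ[K] V}

/-- A retraction of the inclusion `A₁ ≤ A₂` when `A₂ = A₁ + N` with `N` finite-dimensional:
`1 - i p` has finite rank. -/
theorem exists_retraction {A₁ A₂ N : Submodule K V} [Module.Finite K N] (h12 : A₁ ≤ A₂)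
    (hN : N ≤ A₂) (h2 : A₂ ≤ A₁ ⊔ N) :
    ∃ p : A₂ →ₗ[K] A₁, p ∘ₗ Submodule.inclusion h12 = LinearMap.id ∧
      FinRank (LinearMap.id - Submodule.inclusion h12 ∘ₗ p) := by
  obtain ⟨p, hp⟩ := LinearMap.exists_leftInverse_of_injective (Submodule.inclusion h12)
    (LinearMap.ker_eq_bot.mpr (Submodule.inclusion_injective h12))
  refine ⟨p, hp, ?_⟩
  set q : A₂ →ₗ[K] A₂ := LinearMap.id - Submodule.inclusion h12 ∘ₗ p with hq
  have hqi : ∀ a : A₁, q (Submodule.inclusion h12 a) = 0 := by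
    intro a
    have := LinearMap.congr_fun hp a
    simp only [LinearMap.comp_apply, LinearMap.id_apply] at this
    simp [hq, this]
  have hfin : FinRank (q ∘ₗ Submodule.inclusion hN) := FinRank.of_finite_dom _
  unfold FinRank at hfin
  refine FinRank.of_range_le (LinearMap.range (q ∘ₗ Submodule.inclusion hN)) ?_
  rintro _ ⟨x, rfl⟩
  obtain ⟨a, ha, n, hn, hx⟩ := Submodule.mem_sup.mp (h2 x.2)
  have hx' : x = Submodule.inclusion h12 ⟨a, ha⟩ + Submodule.inclusion hN ⟨n, hn⟩ := by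
    apply Subtype.ext
    simp [hx]
  rw [hx', map_add, hqi, zero_add]
  exact ⟨⟨n, hn⟩, rfl⟩

theorem IsLift.up {A₁ A₂ : Submodule K V} (h12 : A₁ ≤ A₂) {p : A₂ →ₗ[K] A₁}
    (hq : FinRank (LinearMap.id - Submodule.inclusion h12 ∘ₗ p))
    {X : A₁ →ₗ[K] A₁} (hX : IsLift A₁ f X) :
    IsLift A₂ f (Submodule.inclusion h12 ∘ₗ X ∘ₗ p) := by
  unfold IsLift at hX ⊢
  have : f ∘ₗ A₂.subtype - A₂.subtype ∘ₗ (Submodule.inclusion h12 ∘ₗ X ∘ₗ p)
      = (f ∘ₗ A₁.subtype - A₁.subtype ∘ₗ X) ∘ₗ p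
        + (f ∘ₗ A₂.subtype) ∘ₗ (LinearMap.id - Submodule.inclusion h12 ∘ₗ p) := by
    apply LinearMap.ext
    intro a
    simp [map_sub]
  rw [this]
  exact (hX.comp_right p).add (hq.comp_left _)

theorem IsLift.down {A₁ A₂ : Submodule K V} (h12 : A₁ ≤ A₂) {p : A₂ →ₗ[K] A₁}
    (hq : FinRank (LinearMap.id - Submodule.inclusion h12 ∘ₗ p))
    {X : A₂ →ₗ[K] A₂} (hX : IsLift A₂ f X) :
    IsLift A₁ f (p ∘ₗ X ∘ₗ Submodule.inclusion h12) := by
  unfold IsLift at hX ⊢
  have : f ∘ₗ A₁.subtype - A₁.subtype ∘ₗ (p ∘ₗ X ∘ₗ Submodule.inclusion h12)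
      = (f ∘ₗ A₂.subtype - A₂.subtype ∘ₗ X) ∘ₗ Submodule.inclusion h12
        + A₂.subtype ∘ₗ (LinearMap.id - Submodule.inclusion h12 ∘ₗ p) ∘ₗ X
          ∘ₗ Submodule.inclusion h12 := by
    apply LinearMap.ext
    intro a
    simp
  rw [this]
  exact (hX.comp_right _).add ((hq.comp_right _).comp_left _)

theorem Liftable.of_le {A₁ A₂ N : Submodule K V} [Module.Finite K N] (h12 : A₁ ≤ A₂)
    (hN : N ≤ A₂) (h2 : A₂ ≤ A₁ ⊔ N) (hf : Liftable A₁ f) : Liftable A₂ f := by
  obtain ⟨p, -, hq⟩ := exists_retraction h12 hN h2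
  obtain ⟨X, hX⟩ := hf
  exact ⟨_, hX.up h12 hq⟩

theorem Liftable.of_ge {A₁ A₂ N : Submodule K V} [Module.Finite K N] (h12 : A₁ ≤ A₂)
    (hN : N ≤ A₂) (h2 : A₂ ≤ A₁ ⊔ N) (hf : Liftable A₂ f) : Liftable A₁ f := by
  obtain ⟨p, -, hq⟩ := exists_retraction h12 hN h2
  obtain ⟨X, hX⟩ := hf
  exact ⟨_, hX.down h12 hq⟩

/-- The residue only depends on the commensurability class of the subspace. -/
theorem res_eq_of_le {A₁ A₂ N : Submodule K V} [Module.Finite K N] (h12 : A₁ ≤ A₂)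
    (hN : N ≤ A₂) (h2 : A₂ ≤ A₁ ⊔ N) (hfg : f ∘ₗ g = g ∘ₗ f) (hf : Liftable A₁ f)
    (hg : Liftable A₁ g) : res A₂ f g = res A₁ f g := by
  obtain ⟨p, hp, hq⟩ := exists_retraction h12 hN h2
  obtain ⟨X, hX⟩ := hf
  obtain ⟨Y, hY⟩ := hg
  rw [res_eq hfg (hX.up h12 hq) (hY.up h12 hq), res_eq hfg hX hY]
  set i := Submodule.inclusion h12 with hi
  have hpi : ∀ a, p (i a) = a := by
    intro a
    have := LinearMap.congr_fun hp a
    simpa using this
  have e1 : (i ∘ₗ X ∘ₗ p) ∘ₗ (i ∘ₗ Y ∘ₗ p) - (i ∘ₗ Y ∘ₗ p) ∘ₗ (i ∘ₗ X ∘ₗ p)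
      = (i ∘ₗ (X ∘ₗ Y - Y ∘ₗ X)) ∘ₗ p := by
    apply LinearMap.ext
    intro a
    simp [hpi]
  have hc : FinRank (X ∘ₗ Y - Y ∘ₗ X) := hX.finRank_commutator hfg hY
  rw [e1, ftr_comp_comm _ p (hc.comp_left i)]
  congr 1
  apply LinearMap.ext
  intro a
  simp [hpi]

/-- If `f` maps a subspace `A'` of finite codimension in `A` into `A`, then `f` almost
preserves `A`. -/
theorem Liftable.of_finite_codim {A' A N : Submodule K V} [Module.Finite K N] (h1 : A' ≤ A)
    (hN : N ≤ A) (h2 : A ≤ A' ⊔ N) (hf : ∀ a ∈ A', f a ∈ A) : Liftable A f := by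
  obtain ⟨p, -, hq⟩ := exists_retraction h1 hN h2
  refine ⟨(f.restrict hf) ∘ₗ p, ?_⟩
  unfold IsLift
  have : f ∘ₗ A.subtype - A.subtype ∘ₗ (f.restrict hf ∘ₗ p)
      = (f ∘ₗ A.subtype) ∘ₗ (LinearMap.id - Submodule.inclusion h1 ∘ₗ p) := by
    apply LinearMap.ext
    intro a
    simp [LinearMap.restrict_apply, map_sub]
  rw [this]
  exact hq.comp_left _

/-- The residue on a finite-dimensional subspace vanishes. -/
theorem res_eq_zero_of_finite {A : Submodule K V} [Module.Finite K A] (hfg : f ∘ₗ g = g ∘ₗ f) :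
    res A f g = 0 := by
  have hX : IsLift A f 0 := FinRank.of_finite_dom _
  have hY : IsLift A g 0 := FinRank.of_finite_dom _
  rw [res_eq hfg hX hY]
  have : (0 : A →ₗ[K] A) ∘ₗ (0 : A →ₗ[K] A) - (0 : A →ₗ[K] A) ∘ₗ (0 : A →ₗ[K] A) = 0 := by
    simp
  rw [this, ftr_zero]

end Commensurable

/-! ## Complementary subspaces and the abstract residue theorem -/

section Complement

variable {K : Type*} [Field K] {V : Type*} [AddCommGroup V] [Module K V]
variable {f g : V →ₗ[K] V}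

/-- If `f` almost preserves `A` and `V = A ⊕ B`, the block `A → B` of `f` has finite rank. -/
theorem Liftable.finRank_block {A B : Submodule K V} (hAB : IsCompl A B) (hf : Liftable A f) :
    FinRank (B.projectionOnto A hAB.symm ∘ₗ f ∘ₗ A.subtype) := by
  obtain ⟨X, hX⟩ := hf
  unfold IsLift at hX
  have : B.projectionOnto A hAB.symm ∘ₗ f ∘ₗ A.subtype
      = B.projectionOnto A hAB.symm ∘ₗ (f ∘ₗ A.subtype - A.subtype ∘ₗ X) := by
    apply LinearMap.ext
    intro a
    simp [map_sub, Submodule.projectionOnto_apply_right hAB.symm]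
  rw [this]
  exact hX.comp_left _

theorem isLift_block {A B : Submodule K V} (hAB : IsCompl A B) (hf : Liftable A f) :
    IsLift A f (A.projectionOnto B hAB ∘ₗ f ∘ₗ A.subtype) := by
  have hb := hf.finRank_block hAB
  unfold IsLift
  have : f ∘ₗ A.subtype - A.subtype ∘ₗ (A.projectionOnto B hAB ∘ₗ f ∘ₗ A.subtype)
      = B.subtype ∘ₗ (B.projectionOnto A hAB.symm ∘ₗ f ∘ₗ A.subtype) := by
    apply LinearMap.ext
    intro a
    have h := Submodule.projection_add_projection_eq_self hAB (f a)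
    simp only [LinearMap.sub_apply, LinearMap.comp_apply, Submodule.subtype_apply,
      Submodule.coe_projectionOnto_apply]
    rw [sub_eq_iff_eq_add]
    conv_lhs => rw [← h]
    abel
  rw [this]
  exact hb.comp_left _

/-- A block identity: `(pA f ιA)(pA g ιA) = pA (f g) ιA - (pA f ιB)(pB g ιA)`. -/
theorem block_comp {A B : Submodule K V} (hAB : IsCompl A B) (f g : V →ₗ[K] V) :
    (A.projectionOnto B hAB ∘ₗ f ∘ₗ A.subtype) ∘ₗ (A.projectionOnto B hAB ∘ₗ g ∘ₗ A.subtype)
      = A.projectionOnto B hAB ∘ₗ (f ∘ₗ g) ∘ₗ A.subtype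
        - (A.projectionOnto B hAB ∘ₗ f ∘ₗ B.subtype)
          ∘ₗ (B.projectionOnto A hAB.symm ∘ₗ g ∘ₗ A.subtype) := by
  apply LinearMap.ext
  intro a
  have h := Submodule.projection_add_projection_eq_self hAB (g a)
  simp only [LinearMap.sub_apply, LinearMap.comp_apply, Submodule.subtype_apply]
  rw [eq_sub_iff_add_eq, ← map_add, ← map_add, Submodule.coe_projectionOnto_apply,
    Submodule.coe_projectionOnto_apply, h]

/-- (R4 for complementary subspaces) If `V = A ⊕ B` and the commuting maps `f`, `g` almost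
preserve `A` and `B`, then `res_A (f dg) + res_B (f dg) = 0`. -/
theorem res_add_res_of_isCompl {A B : Submodule K V} (hAB : IsCompl A B)
    (hfg : f ∘ₗ g = g ∘ₗ f) (hfA : Liftable A f) (hgA : Liftable A g) (hfB : Liftable B f)
    (hgB : Liftable B g) : res A f g + res B f g = 0 := by
  set pA := A.projectionOnto B hAB with hpA
  set pB := B.projectionOnto A hAB.symm with hpB
  -- blocks
  set fAB : B →ₗ[K] A := pA ∘ₗ f ∘ₗ B.subtype with hfAB
  set fBA : A →ₗ[K] B := pB ∘ₗ f ∘ₗ A.subtype with hfBA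
  set gAB : B →ₗ[K] A := pA ∘ₗ g ∘ₗ B.subtype with hgAB
  set gBA : A →ₗ[K] B := pB ∘ₗ g ∘ₗ A.subtype with hgBA
  have rfBA : FinRank fBA := hfA.finRank_block hAB
  have rgBA : FinRank gBA := hgA.finRank_block hAB
  have rfAB : FinRank fAB := hfB.finRank_block hAB.symm
  have rgAB : FinRank gAB := hgB.finRank_block hAB.symm
  have eA : (pA ∘ₗ f ∘ₗ A.subtype) ∘ₗ (pA ∘ₗ g ∘ₗ A.subtype)
      - (pA ∘ₗ g ∘ₗ A.subtype) ∘ₗ (pA ∘ₗ f ∘ₗ A.subtype) = gAB ∘ₗ fBA - fAB ∘ₗ gBA := by
    rw [block_comp hAB f g, block_comp hAB g f, hfg]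
    abel
  have eB : (pB ∘ₗ f ∘ₗ B.subtype) ∘ₗ (pB ∘ₗ g ∘ₗ B.subtype)
      - (pB ∘ₗ g ∘ₗ B.subtype) ∘ₗ (pB ∘ₗ f ∘ₗ B.subtype) = gBA ∘ₗ fAB - fBA ∘ₗ gAB := by
    rw [block_comp hAB.symm f g, block_comp hAB.symm g f, hfg]
    abel
  rw [res_eq hfg (isLift_block hAB hfA) (isLift_block hAB hgA),
    res_eq hfg (isLift_block hAB.symm hfB) (isLift_block hAB.symm hgB), eA, eB,
    ftr_sub (rfBA.comp_left _) (rgBA.comp_left _), ftr_sub (rfAB.comp_left _) (rgAB.comp_left _),
    ftr_comp_comm gAB fBA rgAB, ftr_comp_comm fAB gBA rfAB]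
  ring

/-- **Abstract residue theorem.** Let the commuting maps `f`, `g` almost preserve `A` and
preserve `B`. If `A ⊓ B` is finite-dimensional and `A ⊔ B` has finite codimension, then
`res_A (f dg) = 0`. -/
theorem res_eq_zero_of_invariant {A B : Submodule K V} (hfg : f ∘ₗ g = g ∘ₗ f)
    (hfA : Liftable A f) (hgA : Liftable A g) (hfB : ∀ b ∈ B, f b ∈ B) (hgB : ∀ b ∈ B, g b ∈ B)
    [Module.Finite K ↥(A ⊓ B)] [Module.Finite K (V ⧸ (A ⊔ B))] : res A f g = 0 := by
  -- a complement `A₁` of `A ⊓ B` inside `A`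
  obtain ⟨C, hC⟩ := Submodule.exists_isCompl (A ⊓ B)
  set A₁ : Submodule K V := A ⊓ C with hA₁
  have hA₁A : A₁ ≤ A := inf_le_left
  have hA₁B : A₁ ⊓ B = ⊥ := by
    rw [hA₁, inf_right_comm]
    exact hC.inf_eq_bot
  have hAle : A ≤ A₁ ⊔ (A ⊓ B) := by
    have h1 : (A ⊓ B ⊔ C) ⊓ A = A ⊓ B ⊔ C ⊓ A := sup_inf_assoc_of_le C inf_le_left
    rw [hC.sup_eq_top, top_inf_eq] at h1
    rw [hA₁, sup_comm, inf_comm A C]
    exact h1.le
  -- a finite-dimensional complement of `A ⊔ B`
  obtain ⟨N, hN⟩ := Submodule.exists_isCompl (A ⊔ B)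
  have hNfin : Module.Finite K N :=
    Module.Finite.equiv (Submodule.quotientEquivOfIsCompl (A ⊔ B) N hN)
  have hsup : A₁ ⊔ B = A ⊔ B := by
    apply le_antisymm (sup_le_sup_right hA₁A B)
    refine sup_le (hAle.trans (sup_le le_sup_left (inf_le_right.trans le_sup_right))) le_sup_right
  set B' : Submodule K V := B ⊔ N with hB'
  have hcompl : IsCompl A₁ B' := by
    constructor
    · rw [disjoint_iff, eq_bot_iff]
      intro x hx
      obtain ⟨hx1, hx2⟩ := Submodule.mem_inf.mp hx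
      obtain ⟨b, hb, n, hn, hbn⟩ := Submodule.mem_sup.mp hx2
      have hn0 : n ∈ (A ⊔ B) ⊓ N := by
        refine Submodule.mem_inf.mpr ⟨?_, hn⟩
        have : n = x - b := by rw [← hbn]; abel
        rw [this, ← hsup]
        exact Submodule.sub_mem _ (Submodule.mem_sup_left hx1) (Submodule.mem_sup_right hb)
      rw [hN.inf_eq_bot, Submodule.mem_bot] at hn0
      have hxb : x = b := by rw [← hbn, hn0, add_zero]
      have : x ∈ A₁ ⊓ B := Submodule.mem_inf.mpr ⟨hx1, hxb ▸ hb⟩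
      rwa [hA₁B] at this
    · rw [codisjoint_iff, hB', ← sup_assoc, hsup]
      exact hN.sup_eq_top
  -- transfer
  have hfB' : Liftable B' f :=
    Liftable.of_le (le_sup_left : B ≤ B') (le_sup_right : N ≤ B') le_rfl (Liftable.of_mapsTo hfB)
  have hgB' : Liftable B' g :=
    Liftable.of_le (le_sup_left : B ≤ B') (le_sup_right : N ≤ B') le_rfl (Liftable.of_mapsTo hgB)
  have hfA₁ : Liftable A₁ f := Liftable.of_ge hA₁A (inf_le_left : A ⊓ B ≤ A) hAle hfA
  have hgA₁ : Liftable A₁ g := Liftable.of_ge hA₁A (inf_le_left : A ⊓ B ≤ A) hAle hgA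
  have e1 : res A f g = res A₁ f g :=
    res_eq_of_le hA₁A (inf_le_left : A ⊓ B ≤ A) hAle hfg hfA₁ hgA₁
  have e2 : res B' f g = res B f g :=
    res_eq_of_le (le_sup_left : B ≤ B') (le_sup_right : N ≤ B') le_rfl hfg
      (Liftable.of_mapsTo hfB) (Liftable.of_mapsTo hgB)
  have e3 := res_add_res_of_isCompl hcompl hfg hfA₁ hgA₁ hfB' hgB'
  rw [e2, res_eq_zero_of_mapsTo hfg hfB hgB, add_zero] at e3
  rw [e1, e3]

end Complement

end

end Fermat.Agent.Lib.helper923
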