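/-
helper923 — Kähler differentials are Weil differentials.

The residue pairing between Kähler differentials and repartitions (adeles) of a function
field `F/K`, built from Tate's abstract residue on `V = repartitions`, `A = A(0)`:

* `tres α β`    : `res_{A(0)} (α dβ)` for repartitions `α β`.
* `weilOf η`    : the `K`-linear functional `α ↦ res (α η)` on repartitions, for a Kähler
                  differential `η`; `F`-linear in `η`.
* `weilOf_const`: the residue theorem, `weilOf η` vanishes on principal repartitions.
* `exists_mem_Om`: `weilOf η` is a Weil differential.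
* `weilOf_D_single_of_le`, `weilOf_D_single_inv`: the local values.

Hypothesis-passing: `HasPrincipalDivisors`, residue fields equal to `K`, degrees one,
finite-dimensionality of `L(0)` and `H¹(0)`.
-/
import Fermat.Prelude.Def_AlgebraicCurve_CanonicalDivisor
import Fermat.Agent.Lib.helper923_TateResidue
import Fermat.Agent.S27.helper9330_RRDuality
import Fermat.Agent.S27.helper3372_WeakRRMain

set_option autoImplicit false

namespace Fermat.Agent.Lib.helper923

open AlgebraicCurve WithZero Module KaehlerDifferential
open Fermat.Agent.S27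

noncomputable section

universe u v

variable {K : Type u} {F : Type v} [Field K] [Field F] [Algebra K F]

/-! ## Multiplication operators on repartitions -/

/-- Multiplication by a repartition, as a `K`-linear endomorphism of the repartition space. -/
def mulR (α : helper9330.Rep K F) : helper9330.Rep K F →ₗ[K] helper9330.Rep K F where
  toFun β := α * β
  map_add' := mul_add α
  map_smul' c β := by
    apply Subtype.ext
    funext w
    show (α : Place K F → F) w * (c • (β : Place K F → F) w)
      = c • ((α : Place K F → F) w * (β : Place K F → F) w)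
    rw [mul_smul_comm]

@[simp] theorem mulR_apply (α β : helper9330.Rep K F) : mulR α β = α * β := rfl

theorem mulR_mul (α β : helper9330.Rep K F) : mulR (α * β) = mulR α ∘ₗ mulR β := by
  apply LinearMap.ext
  intro γ
  simp [mul_assoc]

theorem mulR_one : mulR (1 : helper9330.Rep K F) = LinearMap.id := by
  apply LinearMap.ext
  intro γ
  simp

theorem mulR_zero : mulR (0 : helper9330.Rep K F) = 0 := by
  apply LinearMap.ext
  intro γ
  simp

theorem mulR_add (α β : helper9330.Rep K F) : mulR (α + β) = mulR α + mulR β := by
  apply LinearMap.ext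
  intro γ
  simp [add_mul]

theorem mulR_smul (c : K) (α : helper9330.Rep K F) : mulR (c • α) = c • mulR α := by
  apply LinearMap.ext
  intro γ
  apply Subtype.ext
  funext w
  show (c • (α : Place K F → F) w) * (γ : Place K F → F) w
    = c • ((α : Place K F → F) w * (γ : Place K F → F) w)
  rw [smul_mul_assoc]

theorem mulR_comm (α β : helper9330.Rep K F) : mulR α ∘ₗ mulR β = mulR β ∘ₗ mulR α := by
  rw [← mulR_mul, ← mulR_mul, mul_comm]

theorem coe_mul_apply (α β : helper9330.Rep K F) (w : Place K F) :
    ((α * β : helper9330.Rep K F) : Place K F → F) w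
      = (α : Place K F → F) w * (β : Place K F → F) w := rfl

theorem coe_one_apply (w : Place K F) :
    ((1 : helper9330.Rep K F) : Place K F → F) w = 1 := rfl

/-! ## The subspace `A(0)` -/

variable (K F) in
/-- `A(0)`: the integral repartitions. -/
abbrev A0 : Submodule K (helper9330.Rep K F) := repartitionsOf (0 : Divisor K F)

theorem mem_A0_iff {α : helper9330.Rep K F} :
    α ∈ A0 K F ↔ ∀ w : Place K F, w.adicValuation ((α : Place K F → F) w) ≤ 1 := by
  show (∀ w : Place K F, w.adicValuation ((α : Place K F → F) w) ≤ exp ((0 : Divisor K F) w)) ↔ _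
  simp

theorem mul_mem_A0 {α β : helper9330.Rep K F} (hα : α ∈ A0 K F) (hβ : β ∈ A0 K F) :
    α * β ∈ A0 K F := by
  rw [mem_A0_iff] at hα hβ ⊢
  intro w
  rw [coe_mul_apply, map_mul]
  exact mul_le_one' (hα w) (hβ w)

theorem mulR_mapsTo_A0 {α : helper9330.Rep K F} (hα : α ∈ A0 K F) :
    ∀ a ∈ A0 K F, mulR α a ∈ A0 K F := fun _ ha => mul_mem_A0 hα ha

/-! ## Every multiplication operator almost preserves `A(0)` -/

theorem exists_finite_sup (hres : ∀ v : Place K F, Function.Surjective (algebraMap K v.ResidueField))
    (hdeg : ∀ v : Place K F, v.deg = 1) (Db : Divisor K F) :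
    ∀ D' : Divisor K F, Db ≤ D' → ∃ N : Submodule K (helper9330.Rep K F),
      Module.Finite K N ∧ N ≤ repartitionsOf D' ∧ repartitionsOf D' ≤ repartitionsOf Db ⊔ N := by
  refine helper3372.divisor_induction hdeg Db ⟨⊥, inferInstance, bot_le, le_sup_left⟩ ?_
  rintro D' - ⟨N, hNfin, hN, hle⟩ w
  obtain ⟨π, hπ⟩ := helper3372.exists_uniformizer w
  refine ⟨N ⊔ Submodule.span K {helper3372.single w (π ^ (-(D' w) - 1))}, inferInstance, ?_, ?_⟩
  · refine sup_le (hN.trans (repartitionsOf_mono (helper3372.le_add_single D' w))) ?_
    rw [Submodule.span_le, Set.singleton_subset_iff]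
    exact helper3372.single_mem D' w hπ
  · rw [helper3372.repartitionsOf_add_single D' w hπ (hres w), ← sup_assoc]
    exact sup_le_sup_right hle _

theorem liftable_mulR (hP : HasPrincipalDivisors K F)
    (hres : ∀ v : Place K F, Function.Surjective (algebraMap K v.ResidueField))
    (hdeg : ∀ v : Place K F, v.deg = 1) (α : helper9330.Rep K F) :
    Liftable (A0 K F) (mulR α) := by
  obtain ⟨E, hE, hα⟩ := helper3372.exists_divisor_mem hP α
  have hle : -E ≤ (0 : Divisor K F) := neg_nonpos.mpr hE
  obtain ⟨N, hNfin, hN, h2⟩ := exists_finite_sup hres hdeg (-E) 0 hle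
  refine Liftable.of_finite_codim (repartitionsOf_mono hle) hN h2 ?_
  intro a ha
  rw [mem_A0_iff]
  intro w
  have h1 := hα w
  have h2 := ha w
  rw [mulR_apply, coe_mul_apply, map_mul]
  calc w.adicValuation ((α : Place K F → F) w) * w.adicValuation ((a : Place K F → F) w)
      ≤ exp (E w) * exp ((-E) w) := mul_le_mul' h1 h2
    _ = 1 := by rw [Finsupp.neg_apply, ← exp_add]; simp

/-! ## The residue symbol on repartitions -/

/-- Tate's residue `res_{A(0)} (α dβ)` of two repartitions. -/
def tres (α β : helper9330.Rep K F) : K := res (A0 K F) (mulR α) (mulR β)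

section Tres

variable (hP : HasPrincipalDivisors K F)
  (hres : ∀ v : Place K F, Function.Surjective (algebraMap K v.ResidueField))
  (hdeg : ∀ v : Place K F, v.deg = 1)
include hP hres hdeg

theorem tres_add_left (α α' β : helper9330.Rep K F) :
    tres (α + α') β = tres α β + tres α' β := by
  unfold tres
  rw [mulR_add]
  exact res_add_left (mulR_comm α β) (mulR_comm α' β) (liftable_mulR hP hres hdeg α)
    (liftable_mulR hP hres hdeg α') (liftable_mulR hP hres hdeg β)

theorem tres_smul_left (c : K) (α β : helper9330.Rep K F) :
    tres (c • α) β = c * tres α β := by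
  unfold tres
  rw [mulR_smul]
  exact res_smul_left c (mulR_comm α β) (liftable_mulR hP hres hdeg α)
    (liftable_mulR hP hres hdeg β)

theorem tres_add_right (α β β' : helper9330.Rep K F) :
    tres α (β + β') = tres α β + tres α β' := by
  unfold tres
  rw [mulR_add]
  exact res_add_right (mulR_comm α β) (mulR_comm α β') (liftable_mulR hP hres hdeg α)
    (liftable_mulR hP hres hdeg β) (liftable_mulR hP hres hdeg β')

theorem tres_smul_right (c : K) (α β : helper9330.Rep K F) :
    tres α (c • β) = c * tres α β := by
  unfold tres
  rw [mulR_smul]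
  exact res_smul_right c (mulR_comm α β) (liftable_mulR hP hres hdeg α)
    (liftable_mulR hP hres hdeg β)

/-- Leibniz rule. -/
theorem tres_mul_right (α β γ : helper9330.Rep K F) :
    tres α (β * γ) = tres (α * β) γ + tres (α * γ) β := by
  unfold tres
  rw [mulR_mul, mulR_mul, mulR_mul]
  exact res_leibniz (mulR_comm α β) (mulR_comm α γ) (mulR_comm β γ)
    (liftable_mulR hP hres hdeg α) (liftable_mulR hP hres hdeg β) (liftable_mulR hP hres hdeg γ)

theorem tres_one_right (α : helper9330.Rep K F) : tres α 1 = 0 := by
  unfold tres
  rw [mulR_one]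
  exact res_id_right (liftable_mulR hP hres hdeg α)

omit hP hres hdeg in
/-- (R1) `res (α dβ) = 0` when `α` and `β` are integral. -/
theorem tres_eq_zero_of_mem {α β : helper9330.Rep K F} (hα : α ∈ A0 K F) (hβ : β ∈ A0 K F) :
    tres α β = 0 :=
  res_eq_zero_of_mapsTo (mulR_comm α β) (mulR_mapsTo_A0 hα) (mulR_mapsTo_A0 hβ)

/-- `res (α d(u⁻¹)) = - res (α u⁻² du)`. -/
theorem tres_inv_right (α u u' : helper9330.Rep K F) (huu' : u * u' = 1) :
    tres α u' = -tres (α * u' * u') u := by
  have h := tres_mul_right hP hres hdeg (α * u') u u'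
  rw [huu', tres_one_right hP hres hdeg] at h
  have e : α * u' * u = α := by rw [mul_assoc, mul_comm u' u, huu', mul_one]
  rw [e] at h
  linear_combination -h

end Tres

/-! ## The unit trick: `res (γ dg) = 0` when `γ` is small at the poles of `g` -/

open Classical in
/-- The repartition equal to `g` at the poles of `g` and to `1` elsewhere. -/
def poleUnit (hP : HasPrincipalDivisors K F) (g : F) : helper9330.Rep K F :=
  ⟨fun w => if w.adicValuation g ≤ 1 then 1 else g, mem_repartitions_of_finite <|
    (helper3372.finite_poles_const hP g).subset fun w hw => by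
      by_contra hcon
      apply hw
      have hle : w.adicValuation g ≤ 1 := not_not.mp hcon
      show w.adicValuation (if w.adicValuation g ≤ 1 then 1 else g) ≤ 1
      rw [if_pos hle, map_one]⟩

open Classical in
/-- The inverse of `poleUnit`: `g⁻¹` at the poles of `g` and `1` elsewhere. -/
def poleUnitInv (g : F) : helper9330.Rep K F :=
  ⟨fun w => if w.adicValuation g ≤ 1 then 1 else g⁻¹, mem_repartitions_of_finite <| by
    convert Set.finite_empty (α := Place K F)
    rw [Set.eq_empty_iff_forall_notMem]
    intro w hw
    apply hw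
    show w.adicValuation (if w.adicValuation g ≤ 1 then 1 else g⁻¹) ≤ 1
    by_cases hle : w.adicValuation g ≤ 1
    · rw [if_pos hle, map_one]
    · rw [if_neg hle, map_inv₀]
      exact inv_le_one_of_one_le₀ (le_of_lt (not_le.mp hle))⟩

open Classical in
theorem poleUnit_apply (hP : HasPrincipalDivisors K F) (g : F) (w : Place K F) :
    (poleUnit hP g : Place K F → F) w = if w.adicValuation g ≤ 1 then 1 else g := rfl

open Classical in
theorem poleUnitInv_apply (g : F) (w : Place K F) :
    (poleUnitInv (K := K) g : Place K F → F) w = if w.adicValuation g ≤ 1 then 1 else g⁻¹ := rfl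

theorem poleUnit_apply_of_le (hP : HasPrincipalDivisors K F) {g : F} {w : Place K F}
    (h : w.adicValuation g ≤ 1) : (poleUnit hP g : Place K F → F) w = 1 := by
  rw [poleUnit_apply, if_pos h]

theorem poleUnitInv_mul_poleUnit (hP : HasPrincipalDivisors K F) (g : F) :
    poleUnitInv g * poleUnit hP g = 1 := by
  apply Subtype.ext
  funext w
  rw [coe_mul_apply, coe_one_apply, poleUnit_apply, poleUnitInv_apply]
  by_cases hle : w.adicValuation g ≤ 1
  · rw [if_pos hle, if_pos hle, mul_one]
  · rw [if_neg hle, if_neg hle]
    have hg : g ≠ 0 := by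
      rintro rfl
      exact hle (by simp)
    exact inv_mul_cancel₀ hg

theorem adicValuation_poleUnit (hP : HasPrincipalDivisors K F) (g : F) (w : Place K F) :
    w.adicValuation ((poleUnit hP g : Place K F → F) w) = max 1 (w.adicValuation g) := by
  rw [poleUnit_apply]
  by_cases hle : w.adicValuation g ≤ 1
  · rw [if_pos hle, map_one, max_eq_left hle]
  · rw [if_neg hle, max_eq_right (le_of_lt (not_le.mp hle))]

theorem poleUnitInv_mem_A0 (g : F) : poleUnitInv (K := K) g ∈ A0 K F := by
  rw [mem_A0_iff]
  intro w
  rw [poleUnitInv_apply]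
  by_cases hle : w.adicValuation g ≤ 1
  · rw [if_pos hle, map_one]
  · rw [if_neg hle, map_inv₀]
    exact inv_le_one_of_one_le₀ (le_of_lt (not_le.mp hle))

theorem const_mul_poleUnitInv_apply (g : F) (w : Place K F) :
    ((helper3372.const K g * poleUnitInv g : helper9330.Rep K F) : Place K F → F) w
      = if w.adicValuation g ≤ 1 then g else 1 := by
  rw [coe_mul_apply, helper3372.coe_const_apply, poleUnitInv_apply]
  by_cases hle : w.adicValuation g ≤ 1
  · rw [if_pos hle, if_pos hle, mul_one]
  · rw [if_neg hle, if_neg hle]
    have hg : g ≠ 0 := by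
      rintro rfl
      exact hle (by simp)
    exact mul_inv_cancel₀ hg

theorem const_mul_poleUnitInv_mem_A0 (g : F) :
    helper3372.const K g * poleUnitInv g ∈ A0 K F := by
  rw [mem_A0_iff]
  intro w
  rw [const_mul_poleUnitInv_apply]
  by_cases hle : w.adicValuation g ≤ 1
  · rw [if_pos hle]; exact hle
  · rw [if_neg hle, map_one]

section Key

variable (hP : HasPrincipalDivisors K F)
  (hres : ∀ v : Place K F, Function.Surjective (algebraMap K v.ResidueField))
  (hdeg : ∀ v : Place K F, v.deg = 1)
include hP hres hdeg

/-- The key vanishing: `res (γ dg) = 0` as soon as `γ` and `γ g` are integral away from the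
poles of `g` and `γ g`, `γ g²` are integral at the poles of `g`. -/
theorem tres_const_eq_zero (γ : helper9330.Rep K F) (g : F)
    (h1 : ∀ w : Place K F,
      w.adicValuation ((γ : Place K F → F) w) * max 1 (w.adicValuation g) ≤ 1)
    (h2 : ∀ w : Place K F,
      w.adicValuation ((γ : Place K F → F) w) * w.adicValuation g
        * max 1 (w.adicValuation g) ≤ 1) :
    tres γ (helper3372.const K g) = 0 := by
  have huu' := poleUnitInv_mul_poleUnit hP g
  set u := poleUnitInv (K := K) g with hu
  set u' := poleUnit hP g with hu'
  set a := helper3372.const K g * u with ha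
  have e : helper3372.const K g = a * u' := by rw [ha, mul_assoc, huu', mul_one]
  have haA : a ∈ A0 K F := const_mul_poleUnitInv_mem_A0 g
  have huA : u ∈ A0 K F := poleUnitInv_mem_A0 g
  rw [e, tres_mul_right hP hres hdeg]
  have hz2 : tres (γ * u') a = 0 := by
    refine tres_eq_zero_of_mem ?_ haA
    rw [mem_A0_iff]
    intro w
    rw [coe_mul_apply, map_mul, hu', adicValuation_poleUnit]
    exact h1 w
  have hz1 : tres (γ * a) u' = 0 := by
    rw [tres_inv_right hP hres hdeg (γ * a) u u' huu']
    have hmem : γ * a * u' * u' ∈ A0 K F := by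
      have e2 : γ * a * u' * u' = γ * helper3372.const K g * u' := by
        rw [mul_assoc γ a u', ← e]
      rw [e2, mem_A0_iff]
      intro w
      rw [coe_mul_apply, coe_mul_apply, helper3372.coe_const_apply, map_mul, map_mul, hu',
        adicValuation_poleUnit]
      exact h2 w
    rw [tres_eq_zero_of_mem hmem huA, neg_zero]
  rw [hz1, hz2, add_zero]

end Key

/-! ## Consequences of the key vanishing -/

section KeyCor

variable (hP : HasPrincipalDivisors K F)
  (hres : ∀ v : Place K F, Function.Surjective (algebraMap K v.ResidueField))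
  (hdeg : ∀ v : Place K F, v.deg = 1)
include hP hres hdeg

/-- Local vanishing: `res_v (h dg) = 0` for `h`, `g` integral at `v`. -/
theorem tres_single_const_eq_zero (v : Place K F) {h g : F} (hh : v.adicValuation h ≤ 1)
    (hg : v.adicValuation g ≤ 1) :
    tres (helper9330.single v h) (helper3372.const K g) = 0 := by
  refine tres_const_eq_zero hP hres hdeg _ g ?_ ?_
  · intro w
    by_cases hw : w = v
    · subst hw
      rw [helper9330.single_apply_same, max_eq_left hg, mul_one]
      exact hh
    · rw [helper9330.single_apply_ne hw, map_zero, zero_mul]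
      exact zero_le
  · intro w
    by_cases hw : w = v
    · subst hw
      rw [helper9330.single_apply_same, max_eq_left hg, mul_one]
      exact mul_le_one' hh hg
    · rw [helper9330.single_apply_ne hw, map_zero, zero_mul, zero_mul]
      exact zero_le

/-- `α ↦ res (α dg)` vanishes on `A(D0)` for a suitable divisor `D0`. -/
theorem exists_divisor_tres_const (g : F) :
    ∃ D0 : Divisor K F, ∀ γ ∈ repartitionsOf D0, tres γ (helper3372.const K g) = 0 := by
  rcases eq_or_ne g 0 with rfl | hg
  · refine ⟨0, fun γ hγ => tres_const_eq_zero hP hres hdeg γ 0 ?_ ?_⟩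
    · intro w
      rw [map_zero, max_eq_left zero_le, mul_one]
      exact mem_A0_iff.mp hγ w
    · intro w
      rw [map_zero, mul_zero, zero_mul]
      exact zero_le
  · obtain ⟨E, hE, -⟩ := hP.exists_divisor g hg
    refine ⟨E.mapRange (fun n => 2 * min n 0) (by simp), fun γ hγ =>
      tres_const_eq_zero hP hres hdeg γ g ?_ ?_⟩
    · intro w
      have hγw := hγ w
      rw [Finsupp.mapRange_apply, hE w] at hγw
      rw [w.adicValuation_eq_exp_neg_ord hg]
      rcases le_or_gt 0 (w.ord g) with h0 | h0
      · rw [min_eq_right h0, mul_zero, exp_zero] at hγw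
        have h1 : exp (-w.ord g) ≤ (1 : ℤᵐ⁰) := by rw [← exp_zero, exp_le_exp]; omega
        rw [max_eq_left h1, mul_one]
        exact hγw
      · rw [min_eq_left h0.le] at hγw
        have h1 : (1 : ℤᵐ⁰) ≤ exp (-w.ord g) := by rw [← exp_zero, exp_le_exp]; omega
        rw [max_eq_right h1]
        calc w.adicValuation ((γ : Place K F → F) w) * exp (-w.ord g)
            ≤ exp (2 * w.ord g) * exp (-w.ord g) := mul_le_mul_left hγw _
          _ = exp (w.ord g) := by rw [← exp_add]; congr 1; ring
          _ ≤ 1 := by rw [← exp_zero, exp_le_exp]; omega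
    · intro w
      have hγw := hγ w
      rw [Finsupp.mapRange_apply, hE w] at hγw
      rw [w.adicValuation_eq_exp_neg_ord hg]
      rcases le_or_gt 0 (w.ord g) with h0 | h0
      · rw [min_eq_right h0, mul_zero, exp_zero] at hγw
        have h1 : exp (-w.ord g) ≤ (1 : ℤᵐ⁰) := by rw [← exp_zero, exp_le_exp]; omega
        rw [max_eq_left h1, mul_one]
        exact mul_le_one' hγw h1
      · rw [min_eq_left h0.le] at hγw
        have h1 : (1 : ℤᵐ⁰) ≤ exp (-w.ord g) := by rw [← exp_zero, exp_le_exp]; omega
        rw [max_eq_right h1]
        calc w.adicValuation ((γ : Place K F → F) w) * exp (-w.ord g) * exp (-w.ord g)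
            ≤ exp (2 * w.ord g) * exp (-w.ord g) * exp (-w.ord g) :=
              mul_le_mul_left (mul_le_mul_left hγw _) _
          _ = 1 := by rw [← exp_add, ← exp_add, ← exp_zero]; congr 1; ring

end KeyCor

/-! ## The value of an integral repartition at a place -/

theorem adicValuation_algebraMap_eq_one (v : Place K F) {c : K} (hc : c ≠ 0) :
    v.adicValuation (algebraMap K F c) = 1 := by
  refine le_antisymm (v.adicValuation_algebraMap_le_one c) ?_
  have h := v.adicValuation_algebraMap_le_one c⁻¹
  rw [map_inv₀, map_inv₀] at h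
  have hne : v.adicValuation (algebraMap K F c) ≠ 0 := by
    rw [Valuation.ne_zero_iff]
    exact (map_ne_zero _).mpr hc
  exact (inv_le_one₀ (zero_lt_iff.mpr hne)).mp h

theorem exp_neg_one_lt_one : (exp (-1 : ℤ) : ℤᵐ⁰) < 1 := by
  rw [← exp_zero, exp_lt_exp]; omega

theorem const_unique (v : Place K F) {f : F} {c c' : K}
    (h : v.adicValuation (f - algebraMap K F c) ≤ exp (-1 : ℤ))
    (h' : v.adicValuation (f - algebraMap K F c') ≤ exp (-1 : ℤ)) : c = c' := by
  by_contra hne
  have hsub : c - c' ≠ 0 := sub_ne_zero.mpr hne
  have h1 := adicValuation_algebraMap_eq_one v hsub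
  have e : algebraMap K F (c - c') = (f - algebraMap K F c') - (f - algebraMap K F c) := by
    rw [map_sub]; ring
  rw [e] at h1
  have h2 := (Valuation.map_sub v.adicValuation _ _).trans (max_le h' h)
  rw [h1] at h2
  exact absurd h2 (not_le.mpr exp_neg_one_lt_one)

/-- The value at `v` of an integral repartition, as a `K`-linear functional on `A(0)`. -/
def resAt (v : Place K F) (hresv : Function.Surjective (algebraMap K v.ResidueField)) :
    ↥(A0 K F) →ₗ[K] K where
  toFun b := (helper3372.exists_const_sub_lt v hresv (mem_A0_iff.mp b.2 v)).choose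
  map_add' b b' := by
    have h1 := (helper3372.exists_const_sub_lt v hresv (mem_A0_iff.mp b.2 v)).choose_spec
    have h2 := (helper3372.exists_const_sub_lt v hresv (mem_A0_iff.mp b'.2 v)).choose_spec
    have h3 := (helper3372.exists_const_sub_lt v hresv (mem_A0_iff.mp (b + b').2 v)).choose_spec
    refine const_unique v h3 ?_
    rw [Submodule.coe_add, helper9330.coe_add, map_add, add_sub_add_comm]
    exact (Valuation.map_add _ _ _).trans (max_le h1 h2)
  map_smul' c b := by
    have h1 := (helper3372.exists_const_sub_lt v hresv (mem_A0_iff.mp b.2 v)).choose_spec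
    have h3 := (helper3372.exists_const_sub_lt v hresv (mem_A0_iff.mp (c • b).2 v)).choose_spec
    refine const_unique v h3 ?_
    rw [Submodule.coe_smul, helper3372.coe_smul_apply, RingHom.id_apply, smul_eq_mul, map_mul,
      ← mul_sub, map_mul]
    exact (mul_le_of_le_one_left' (v.adicValuation_algebraMap_le_one c)).trans h1

theorem resAt_spec (v : Place K F) (hresv : Function.Surjective (algebraMap K v.ResidueField))
    (b : ↥(A0 K F)) :
    v.adicValuation (((b : helper9330.Rep K F) : Place K F → F) v
      - algebraMap K F (resAt v hresv b)) ≤ exp (-1 : ℤ) :=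
  (helper3372.exists_const_sub_lt v hresv (mem_A0_iff.mp b.2 v)).choose_spec

theorem resAt_eq_of (v : Place K F) (hresv : Function.Surjective (algebraMap K v.ResidueField))
    (b : ↥(A0 K F)) {c : K}
    (h : v.adicValuation (((b : helper9330.Rep K F) : Place K F → F) v - algebraMap K F c)
      ≤ exp (-1 : ℤ)) : resAt v hresv b = c :=
  const_unique v (resAt_spec v hresv b) h

/-! ## The local value `res_v (t⁻¹ dt) = 1` -/

theorem single_one_mem_A0 (v : Place K F) : helper9330.single v (1 : F) ∈ A0 K F := by
  rw [mem_A0_iff]
  intro w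
  by_cases hw : w = v
  · subst hw
    rw [helper9330.single_apply_same, map_one]
  · rw [helper9330.single_apply_ne hw, map_zero]
    exact zero_le

theorem liftX_mem (v : Place K F) (hresv : Function.Surjective (algebraMap K v.ResidueField))
    {t : F} (ht : v.adicValuation t = exp (-1 : ℤ)) (b : ↥(A0 K F)) :
    helper9330.single v (t⁻¹ * (((b : helper9330.Rep K F) : Place K F → F) v
      - algebraMap K F (resAt v hresv b))) ∈ A0 K F := by
  rw [mem_A0_iff]
  intro w
  by_cases hw : w = v
  · subst hw
    rw [helper9330.single_apply_same, map_mul, map_inv₀, ht]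
    calc (exp (-1 : ℤ))⁻¹ * w.adicValuation (((b : helper9330.Rep K F) : Place K F → F) w
          - algebraMap K F (resAt w hresv b))
        ≤ (exp (-1 : ℤ))⁻¹ * exp (-1 : ℤ) := mul_le_mul_right (resAt_spec w hresv b) _
      _ = 1 := inv_mul_cancel₀ WithZero.exp_ne_zero
  · rw [helper9330.single_apply_ne hw, map_zero]
    exact zero_le

/-- `f ↦ ι_v(f)` as a `K`-linear map. -/
def singleL (v : Place K F) : F →ₗ[K] helper9330.Rep K F where
  toFun f := helper9330.single v f
  map_add' f g := by
    apply Subtype.ext
    funext w
    rw [helper9330.coe_add]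
    by_cases hw : w = v
    · subst hw
      rw [helper9330.single_apply_same, helper9330.single_apply_same,
        helper9330.single_apply_same]
    · rw [helper9330.single_apply_ne hw, helper9330.single_apply_ne hw,
        helper9330.single_apply_ne hw, add_zero]
  map_smul' c f := by
    apply Subtype.ext
    funext w
    rw [RingHom.id_apply, helper3372.coe_smul_apply]
    by_cases hw : w = v
    · subst hw
      rw [helper9330.single_apply_same, helper9330.single_apply_same, Algebra.smul_def]
    · rw [helper9330.single_apply_ne hw, helper9330.single_apply_ne hw, mul_zero]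

@[simp] theorem singleL_apply (v : Place K F) (f : F) :
    singleL (K := K) v f = helper9330.single v f := rfl

/-- Evaluation of a repartition at a place, as a `K`-linear map. -/
def evalL (v : Place K F) : helper9330.Rep K F →ₗ[K] F where
  toFun b := (b : Place K F → F) v
  map_add' _ _ := rfl
  map_smul' _ _ := rfl

@[simp] theorem evalL_apply (v : Place K F) (b : helper9330.Rep K F) :
    evalL v b = (b : Place K F → F) v := rfl

/-- The lift to `A(0)` of multiplication by `ι_v(t⁻¹)`: `b ↦ ι_v(t⁻¹ (b_v - b(v)))`. -/
def liftX (v : Place K F) (hresv : Function.Surjective (algebraMap K v.ResidueField))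
    {t : F} (ht : v.adicValuation t = exp (-1 : ℤ)) : ↥(A0 K F) →ₗ[K] ↥(A0 K F) :=
  (singleL v ∘ₗ LinearMap.mulLeft K t⁻¹ ∘ₗ (evalL v ∘ₗ (A0 K F).subtype
    - Algebra.linearMap K F ∘ₗ resAt v hresv)).codRestrict (A0 K F)
      (fun b => liftX_mem v hresv ht b)

theorem liftX_apply (v : Place K F) (hresv : Function.Surjective (algebraMap K v.ResidueField))
    {t : F} (ht : v.adicValuation t = exp (-1 : ℤ)) (b : ↥(A0 K F)) :
    ((liftX v hresv ht b : ↥(A0 K F)) : helper9330.Rep K F)
      = helper9330.single v (t⁻¹ * (((b : helper9330.Rep K F) : Place K F → F) v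
        - algebraMap K F (resAt v hresv b))) := rfl

theorem isLift_liftX (v : Place K F) (hresv : Function.Surjective (algebraMap K v.ResidueField))
    {t : F} (ht : v.adicValuation t = exp (-1 : ℤ)) :
    IsLift (A0 K F) (mulR (helper9330.single v t⁻¹)) (liftX v hresv ht) := by
  have e : mulR (helper9330.single v t⁻¹) ∘ₗ (A0 K F).subtype
      - (A0 K F).subtype ∘ₗ liftX v hresv ht
        = (resAt v hresv).smulRight (helper9330.single v t⁻¹) := by
    apply LinearMap.ext
    intro b
    apply Subtype.ext
    funext w
    rw [LinearMap.sub_apply, LinearMap.comp_apply, LinearMap.comp_apply, Submodule.subtype_apply,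
      Submodule.subtype_apply, liftX_apply, mulR_apply, LinearMap.smulRight_apply,
      helper9330.coe_sub, coe_mul_apply, helper3372.coe_smul_apply]
    by_cases hw : w = v
    · subst hw
      rw [helper9330.single_apply_same, helper9330.single_apply_same]
      ring
    · rw [helper9330.single_apply_ne hw, helper9330.single_apply_ne hw]
      ring
  unfold IsLift
  rw [e]
  exact FinRank.smulRight _ _

/-- `res (ι_v(t⁻¹) da) = 1` when `a` is integral with `a_v = t` a uniformizer at `v`. -/
theorem tres_single_inv_of_mem (v : Place K F)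
    (hresv : Function.Surjective (algebraMap K v.ResidueField))
    {t : F} (ht : v.adicValuation t = exp (-1 : ℤ))
    {a : helper9330.Rep K F} (haA : a ∈ A0 K F) (hav : (a : Place K F → F) v = t) :
    tres (helper9330.single v t⁻¹) a = 1 := by
  have ht0 : t ≠ 0 := by
    rintro rfl
    rw [map_zero] at ht
    exact WithZero.exp_ne_zero ht.symm
  have hY : IsLift (A0 K F) (mulR a) ((mulR a).restrict (mulR_mapsTo_A0 haA)) :=
    IsLift.of_mapsTo _
  set Y : ↥(A0 K F) →ₗ[K] ↥(A0 K F) := (mulR a).restrict (mulR_mapsTo_A0 haA) with hYdef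
  have hYb : ∀ b : ↥(A0 K F), ((Y b : ↥(A0 K F)) : helper9330.Rep K F)
      = a * (b : helper9330.Rep K F) := fun b => rfl
  unfold tres
  rw [res_eq_of_commutator_eq_smulRight (mulR_comm _ a) (isLift_liftX v hresv ht) hY
    (resAt v hresv) (⟨helper9330.single v 1, single_one_mem_A0 v⟩ : ↥(A0 K F))]
  · refine resAt_eq_of v hresv _ ?_
    show v.adicValuation ((helper9330.single v (1 : F) : Place K F → F) v - algebraMap K F 1)
      ≤ exp (-1 : ℤ)
    rw [helper9330.single_apply_same, map_one, sub_self, map_zero]
    exact zero_le
  · intro b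
    have hρ : resAt v hresv (Y b) = 0 := by
      refine resAt_eq_of v hresv _ ?_
      rw [map_zero, sub_zero]
      rw [hYb, coe_mul_apply, hav, map_mul, ht]
      exact mul_le_of_le_one_right' (mem_A0_iff.mp b.2 v)
    apply Subtype.ext
    apply Subtype.ext
    funext w
    rw [Submodule.coe_sub, helper9330.coe_sub, liftX_apply, hρ, map_zero, sub_zero,
      Submodule.coe_smul, helper3372.coe_smul_apply]
    rw [hYb, hYb, liftX_apply, coe_mul_apply, coe_mul_apply]
    by_cases hw : w = v
    · subst hw
      rw [helper9330.single_apply_same, helper9330.single_apply_same,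
        helper9330.single_apply_same, hav]
      field_simp
      ring
    · rw [helper9330.single_apply_ne hw, helper9330.single_apply_ne hw,
        helper9330.single_apply_ne hw]
      ring

section LocalValue

variable (hP : HasPrincipalDivisors K F)
  (hres : ∀ v : Place K F, Function.Surjective (algebraMap K v.ResidueField))
  (hdeg : ∀ v : Place K F, v.deg = 1)
include hP hres hdeg

/-- Local value: `res_v (t⁻¹ dt) = 1` for a uniformizer `t` at `v`. -/
theorem tres_single_inv_const (v : Place K F) {t : F} (ht : v.adicValuation t = exp (-1 : ℤ)) :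
    tres (helper9330.single v t⁻¹) (helper3372.const K t) = 1 := by
  have ht0 : t ≠ 0 := by
    rintro rfl
    rw [map_zero] at ht
    exact WithZero.exp_ne_zero ht.symm
  have htle : v.adicValuation t ≤ 1 := by rw [ht]; exact exp_neg_one_lt_one.le
  have huu' := poleUnitInv_mul_poleUnit hP t
  have haA : helper3372.const K t * poleUnitInv t ∈ A0 K F := const_mul_poleUnitInv_mem_A0 t
  have huA : poleUnitInv (K := K) t ∈ A0 K F := poleUnitInv_mem_A0 t
  have hav : ((helper3372.const K t * poleUnitInv t : helper9330.Rep K F) : Place K F → F) v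
      = t := by
    rw [const_mul_poleUnitInv_apply, if_pos htle]
  have hu'v : (poleUnit hP t : Place K F → F) v = 1 := poleUnit_apply_of_le hP htle
  have e : helper3372.const K t = (helper3372.const K t * poleUnitInv t) * poleUnit hP t := by
    rw [mul_assoc, huu', mul_one]
  have e1 : helper9330.single v t⁻¹ * poleUnit hP t = helper9330.single v t⁻¹ := by
    apply Subtype.ext
    funext w
    rw [coe_mul_apply]
    by_cases hw : w = v
    · subst hw
      rw [hu'v, mul_one]
    · rw [helper9330.single_apply_ne hw, zero_mul]
  have e2 : helper9330.single v t⁻¹ * (helper3372.const K t * poleUnitInv t)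
      = helper9330.single v 1 := by
    apply Subtype.ext
    funext w
    rw [coe_mul_apply]
    by_cases hw : w = v
    · subst hw
      rw [hav, helper9330.single_apply_same, helper9330.single_apply_same, inv_mul_cancel₀ ht0]
    · rw [helper9330.single_apply_ne hw, helper9330.single_apply_ne hw, zero_mul]
  have e3 : helper9330.single v (1 : F) * poleUnit hP t * poleUnit hP t
      = helper9330.single v 1 := by
    apply Subtype.ext
    funext w
    rw [coe_mul_apply, coe_mul_apply]
    by_cases hw : w = v
    · subst hw
      rw [hu'v, mul_one, mul_one]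
    · rw [helper9330.single_apply_ne hw, zero_mul, zero_mul]
  rw [e, tres_mul_right hP hres hdeg, e1, e2,
    tres_inv_right hP hres hdeg _ (poleUnitInv t) (poleUnit hP t) huu', e3,
    tres_eq_zero_of_mem (single_one_mem_A0 v) huA, neg_zero, zero_add]
  exact tres_single_inv_of_mem v (hres v) ht haA hav

end LocalValue

/-! ## The residue theorem -/

/-- `f ↦ const f` as a `K`-linear map. -/
def constL : F →ₗ[K] helper9330.Rep K F where
  toFun f := helper3372.const K f
  map_add' := helper3372.const_add
  map_smul' c f := helper3372.const_smul c f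

@[simp] theorem constL_apply (f : F) : constL (K := K) f = helper3372.const K f := rfl

theorem A0_inf_principal :
    A0 K F ⊓ principalRepartitions K F
      = (riemannRochSpace (0 : Divisor K F)).map (constL (K := K) (F := F)) := by
  apply le_antisymm
  · rintro α ⟨hα, hp⟩
    obtain ⟨f, rfl⟩ := helper3372.mem_principal_iff.mp hp
    exact ⟨f, helper3372.const_mem_repartitionsOf_iff.mp hα, rfl⟩
  · rintro α ⟨f, hf, rfl⟩
    exact ⟨helper3372.const_mem_repartitionsOf_iff.mpr hf, helper3372.const_mem_principal f⟩

theorem finite_A0_inf_principal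
    (hL : Module.Finite K ↥(riemannRochSpace (0 : Divisor K F))) :
    Module.Finite K ↥(A0 K F ⊓ principalRepartitions K F) := by
  rw [A0_inf_principal]
  exact Module.Finite.map _ _

theorem const_smul_eq (x : F) (α : helper9330.Rep K F) : helper3372.const K x * α = x • α := rfl

theorem const_mul_const (x y : F) :
    helper3372.const K x * helper3372.const K y = helper3372.const K (x * y) := rfl

section Residue

variable (hP : HasPrincipalDivisors K F)
  (hres : ∀ v : Place K F, Function.Surjective (algebraMap K v.ResidueField))
  (hdeg : ∀ v : Place K F, v.deg = 1)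
  (hL : Module.Finite K ↥(riemannRochSpace (0 : Divisor K F)))
  (hH : Module.Finite K (H1 (0 : Divisor K F)))
include hP hres hdeg hL hH

/-- **The residue theorem**: `res (x dy) = 0` for functions `x`, `y`. -/
theorem tres_const_const (x y : F) :
    tres (helper3372.const K x) (helper3372.const K y) = 0 := by
  have : Module.Finite K ↥(A0 K F ⊓ principalRepartitions K F) := finite_A0_inf_principal hL
  have : Module.Finite K (helper9330.Rep K F ⧸ (A0 K F ⊔ principalRepartitions K F)) := hH
  have hB : ∀ z : F, ∀ b ∈ principalRepartitions K F,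
      mulR (helper3372.const K z) b ∈ principalRepartitions K F := by
    intro z b hb
    rw [mulR_apply, const_smul_eq]
    exact helper9330.smul_mem_principal z hb
  exact res_eq_zero_of_invariant (mulR_comm _ _) (liftable_mulR hP hres hdeg _)
    (liftable_mulR hP hres hdeg _) (hB x) (hB y)

end Residue

/-! ## Weil differentials as an `F`-vector space -/

/-- The `K`-linear functionals on repartitions, with `F` acting through the argument. -/
def WD (K : Type u) (F : Type v) [Field K] [Field F] [Algebra K F] : Type (max u v) :=
  Module.Dual K (helper9330.Rep K F)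

namespace WD

instance : AddCommGroup (WD K F) :=
  inferInstanceAs (AddCommGroup (Module.Dual K (helper9330.Rep K F)))

instance : Module K (WD K F) :=
  inferInstanceAs (Module K (Module.Dual K (helper9330.Rep K F)))

/-- The underlying functional. -/
def toDual (ω : WD K F) : Module.Dual K (helper9330.Rep K F) := ω

/-- A functional, as a Weil differential. -/
def ofDual (ω : Module.Dual K (helper9330.Rep K F)) : WD K F := ω

@[simp] theorem toDual_ofDual (ω : Module.Dual K (helper9330.Rep K F)) :
    toDual (ofDual ω) = ω := rfl

theorem ext {ω ω' : WD K F} (h : ∀ α, ω.toDual α = ω'.toDual α) : ω = ω' :=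
  LinearMap.ext h

instance : Module F (WD K F) where
  smul x ω := ofDual (helper9330.smulW x ω.toDual)
  one_smul ω := helper9330.smulW_one ω.toDual
  mul_smul x y ω := (helper9330.smulW_smulW x y ω.toDual).symm
  smul_zero x := helper9330.smulW_zero_right x
  smul_add x ω ω' := helper9330.smulW_add_right x ω.toDual ω'.toDual
  add_smul x y ω := helper9330.smulW_add_left x y ω.toDual
  zero_smul ω := helper9330.smulW_zero ω.toDual

instance : IsScalarTower K F (WD K F) :=
  ⟨fun c x ω => helper9330.smulW_smul_left c x ω.toDual⟩

@[simp] theorem toDual_zero : (0 : WD K F).toDual = 0 := rfl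

@[simp] theorem toDual_add (ω ω' : WD K F) : (ω + ω').toDual = ω.toDual + ω'.toDual := rfl

@[simp] theorem toDual_smul (x : F) (ω : WD K F) (α : helper9330.Rep K F) :
    (x • ω).toDual α = ω.toDual (x • α) := rfl

end WD

section Weil

variable (hP : HasPrincipalDivisors K F)
  (hres : ∀ v : Place K F, Function.Surjective (algebraMap K v.ResidueField))
  (hdeg : ∀ v : Place K F, v.deg = 1)
include hP hres hdeg

/-- `α ↦ res (α dβ)` as a functional on repartitions. -/
def tresL (β : helper9330.Rep K F) : Module.Dual K (helper9330.Rep K F) where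
  toFun α := tres α β
  map_add' α α' := tres_add_left hP hres hdeg α α' β
  map_smul' c α := tres_smul_left hP hres hdeg c α β

/-- The derivation `g ↦ (α ↦ res (α dg))` of `F` into the Weil differentials. -/
def tresD : Derivation K F (WD K F) :=
  Derivation.mk'
    { toFun := fun g => WD.ofDual (tresL hP hres hdeg (helper3372.const K g))
      map_add' := fun g g' => WD.ext fun α => by
        show tres α (helper3372.const K (g + g'))
          = tres α (helper3372.const K g) + tres α (helper3372.const K g')
        rw [helper3372.const_add, tres_add_right hP hres hdeg]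
      map_smul' := fun c g => WD.ext fun α => by
        show tres α (helper3372.const K (c • g)) = c * tres α (helper3372.const K g)
        rw [helper3372.const_smul, tres_smul_right hP hres hdeg] }
    (fun a b => WD.ext fun α => by
      show tres α (helper3372.const K (a * b))
        = tres (a • α) (helper3372.const K b) + tres (b • α) (helper3372.const K a)
      rw [← const_mul_const, tres_mul_right hP hres hdeg, ← const_smul_eq, ← const_smul_eq,
        mul_comm α, mul_comm α])

theorem tresD_apply (g : F) (α : helper9330.Rep K F) :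
    (tresD hP hres hdeg g).toDual α = tres α (helper3372.const K g) := rfl

/-- The Weil differential `α ↦ Σ_v res_v (α_v η)` attached to a Kähler differential `η`. -/
def weilOf : Ω[F⁄K] →ₗ[F] WD K F := (tresD hP hres hdeg).liftKaehlerDifferential

theorem weilOf_D (g : F) (α : helper9330.Rep K F) :
    (weilOf hP hres hdeg (D K F g)).toDual α = tres α (helper3372.const K g) := by
  rw [weilOf, Derivation.liftKaehlerDifferential_comp_D]
  rfl

theorem weilOf_smul (x : F) (η : Ω[F⁄K]) (α : helper9330.Rep K F) :
    (weilOf hP hres hdeg (x • η)).toDual α = (weilOf hP hres hdeg η).toDual (x • α) := by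
  rw [map_smul]
  rfl

theorem weilOf_smul_D (x g : F) (α : helper9330.Rep K F) :
    (weilOf hP hres hdeg (x • D K F g)).toDual α = tres (x • α) (helper3372.const K g) := by
  rw [weilOf_smul, weilOf_D]

end Weil

/-! ## `weilOf η` is a Weil differential -/

theorem smul_single (x : F) (v : Place K F) (h : F) :
    x • helper9330.single (K := K) v h = helper9330.single v (x * h) := by
  apply Subtype.ext
  funext w
  rw [helper9330.coe_smulF]
  by_cases hw : w = v
  · subst hw
    rw [helper9330.single_apply_same, helper9330.single_apply_same]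
  · rw [helper9330.single_apply_ne hw, helper9330.single_apply_ne hw, mul_zero]

theorem exists_uniformizer_dCoord (v : Place K F) :
    ∃ t : F, v.adicValuation t = exp (-1 : ℤ) ∧ v.dCoord = D K F t :=
  ⟨_, v.adicValuation_coe_irreducible
    (IsDiscreteValuationRing.exists_irreducible v.toValuationSubring).choose_spec, rfl⟩

section WeilProps

variable (hP : HasPrincipalDivisors K F)
  (hres : ∀ v : Place K F, Function.Surjective (algebraMap K v.ResidueField))
  (hdeg : ∀ v : Place K F, v.deg = 1)
include hP hres hdeg

/-- `weilOf η` kills `A(D0)` for a suitable divisor `D0`. -/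
theorem exists_divisor_weilOf (η : Ω[F⁄K]) :
    ∃ D0 : Divisor K F, ∀ α ∈ repartitionsOf D0, (weilOf hP hres hdeg η).toDual α = 0 := by
  have hη : η ∈ Submodule.span F (Set.range (D K F)) := by
    rw [KaehlerDifferential.span_range_derivation]
    exact Submodule.mem_top
  induction hη using Submodule.span_induction with
  | mem η h =>
    obtain ⟨g, rfl⟩ := h
    obtain ⟨D0, hD0⟩ := exists_divisor_tres_const hP hres hdeg g
    exact ⟨D0, fun α hα => by rw [weilOf_D]; exact hD0 α hα⟩
  | zero => exact ⟨0, fun α _ => by rw [map_zero]; rfl⟩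
  | add η η' _ _ h h' =>
    obtain ⟨D1, h1⟩ := h
    obtain ⟨D2, h2⟩ := h'
    refine ⟨D1 ⊓ D2, fun α hα => ?_⟩
    rw [map_add, WD.toDual_add, LinearMap.add_apply,
      h1 α (repartitionsOf_mono inf_le_left hα), h2 α (repartitionsOf_mono inf_le_right hα),
      add_zero]
  | smul x η _ h =>
    obtain ⟨D1, h1⟩ := h
    rcases eq_or_ne x 0 with rfl | hx
    · exact ⟨0, fun α _ => by rw [zero_smul, map_zero]; rfl⟩
    · obtain ⟨E, hE, -⟩ := hP.exists_divisor x hx
      refine ⟨D1 + E, fun α hα => ?_⟩
      rw [weilOf_smul]
      apply h1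
      have := helper9330.smul_mem_repartitionsOf (helper9330.mem_L_neg_div hx hE) hα
      rwa [add_neg_cancel_right] at this

/-- The value of `weilOf η` on `ι_v(h)` in terms of a local coordinate. -/
theorem weilOf_smul_D_single (φ t : F) (v : Place K F) (h : F) :
    (weilOf hP hres hdeg (φ • D K F t)).toDual (helper9330.single v h)
      = tres (helper9330.single v (φ * h)) (helper3372.const K t) := by
  rw [weilOf_smul_D, smul_single]

/-- Local vanishing of `weilOf η`: it kills `ι_v(h)` when `ord_v h ≥ -ord_v η`. -/
theorem weilOf_single_eq_zero [∀ v : Place K F, v.DCoordGenerates] (η : Ω[F⁄K])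
    (v : Place K F) {h : F} (hh : v.adicValuation h ≤ exp (v.ordDifferential η)) :
    (weilOf hP hres hdeg η).toDual (helper9330.single v h) = 0 := by
  obtain ⟨t, ht, hd⟩ := exists_uniformizer_dCoord v
  have hηeq : v.differentialCoeff η • D K F t = η := by
    rw [← hd]
    exact v.differentialCoeff_smul_dCoord η
  rw [← hηeq, weilOf_smul_D_single]
  rcases eq_or_ne (v.differentialCoeff η) 0 with h0 | h0
  · rw [h0, zero_mul]
    exact tres_single_const_eq_zero hP hres hdeg v (by rw [map_zero]; exact zero_le)
      (by rw [ht]; exact exp_neg_one_lt_one.le)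
  · refine tres_single_const_eq_zero hP hres hdeg v ?_ (by rw [ht]; exact exp_neg_one_lt_one.le)
    rw [map_mul, v.adicValuation_eq_exp_neg_ord h0]
    calc exp (-v.ord (v.differentialCoeff η)) * v.adicValuation h
        ≤ exp (-v.ord (v.differentialCoeff η)) * exp (v.ordDifferential η) :=
          mul_le_mul_right hh _
      _ = 1 := by
          rw [← exp_add, ← exp_zero]
          congr 1
          show -v.ord (v.differentialCoeff η) + v.ord (v.differentialCoeff η) = 0
          ring

/-- Local non-vanishing of `weilOf η`: it takes the value `1` on some `ι_v(h)` with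
`ord_v h = -ord_v η - 1`. -/
theorem exists_weilOf_single_eq_one [∀ v : Place K F, v.DCoordGenerates] {η : Ω[F⁄K]}
    (hη : η ≠ 0) (v : Place K F) :
    ∃ h : F, v.adicValuation h = exp (v.ordDifferential η + 1) ∧
      (weilOf hP hres hdeg η).toDual (helper9330.single v h) = 1 := by
  obtain ⟨t, ht, hd⟩ := exists_uniformizer_dCoord v
  have hηeq : v.differentialCoeff η • D K F t = η := by
    rw [← hd]
    exact v.differentialCoeff_smul_dCoord η
  have h0 : v.differentialCoeff η ≠ 0 := by
    intro h0
    rw [h0, zero_smul] at hηeq
    exact hη hηeq.symm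
  refine ⟨(v.differentialCoeff η)⁻¹ * t⁻¹, ?_, ?_⟩
  · rw [map_mul, map_inv₀, map_inv₀, v.adicValuation_eq_exp_neg_ord h0, ht, ← exp_neg, ← exp_neg,
      ← exp_add]
    congr 1
    show - -v.ord (v.differentialCoeff η) + - -1 = v.ord (v.differentialCoeff η) + 1
    ring
  · rw [← hηeq, weilOf_smul_D_single, hηeq, ← mul_assoc, mul_inv_cancel₀ h0, one_mul]
    exact tres_single_inv_const hP hres hdeg v ht

theorem weilOf_ne_zero [∀ v : Place K F, v.DCoordGenerates] (hne : Nonempty (Place K F))
    {η : Ω[F⁄K]} (hη : η ≠ 0) : (weilOf hP hres hdeg η).toDual ≠ 0 := by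
  obtain ⟨v⟩ := hne
  obtain ⟨h, -, h1⟩ := exists_weilOf_single_eq_one hP hres hdeg hη v
  intro h0
  rw [h0, LinearMap.zero_apply] at h1
  exact zero_ne_one h1

/-- The divisor of the Weil differential `weilOf η` is the divisor of the Kähler
differential `η`. -/
theorem isDivisorOf_apply [∀ v : Place K F, v.DCoordGenerates] {η : Ω[F⁄K]} (hη : η ≠ 0)
    {W : Divisor K F} (hW : helper9330.IsDivisorOf (weilOf hP hres hdeg η).toDual W)
    (v : Place K F) : W v = v.ordDifferential η := by
  apply le_antisymm
  · by_contra hlt
    obtain ⟨h, hh, h1⟩ := exists_weilOf_single_eq_one hP hres hdeg hη v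
    have hmem : helper9330.single v h ∈ repartitionsOf W := by
      intro w
      by_cases hw : w = v
      · subst hw
        rw [helper9330.single_apply_same, hh, exp_le_exp]
        omega
      · rw [helper9330.single_apply_ne hw, map_zero]
        exact zero_le
    rw [(helper9330.mem_Om.mp hW.1) _ (Submodule.mem_sup_left hmem)] at h1
    exact zero_ne_one h1
  · by_contra hlt
    have hmem : (weilOf hP hres hdeg η).toDual ∈ helper9330.Om (W + Finsupp.single v 1) := by
      rw [helper9330.mem_Om]
      intro α hα
      obtain ⟨a, ha, p, hp, rfl⟩ := Submodule.mem_sup.mp hα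
      rw [map_add, (helper9330.mem_Om.mp hW.1) p (Submodule.mem_sup_right hp), add_zero]
      have hsplit : a = helper9330.single v ((a : Place K F → F) v)
          + (a - helper9330.single v ((a : Place K F → F) v)) := by abel
      have e2 : a - helper9330.single v ((a : Place K F → F) v) ∈ repartitionsOf W := by
        intro w
        by_cases hw : w = v
        · subst hw
          rw [helper9330.coe_sub, helper9330.single_apply_same, sub_self, map_zero]
          exact zero_le
        · rw [helper9330.coe_sub, helper9330.single_apply_ne hw, sub_zero]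
          have := ha w
          rwa [Finsupp.add_apply, Finsupp.single_eq_of_ne hw, add_zero] at this
      rw [hsplit, map_add, (helper9330.mem_Om.mp hW.1) _ (Submodule.mem_sup_left e2), add_zero]
      refine weilOf_single_eq_zero hP hres hdeg η v ?_
      have hav := ha v
      rw [Finsupp.add_apply, Finsupp.single_eq_same] at hav
      refine hav.trans ?_
      rw [exp_le_exp]
      omega
    have hle := hW.2 _ hmem v
    rw [Finsupp.add_apply, Finsupp.single_eq_same] at hle
    omega

variable (hL : Module.Finite K ↥(riemannRochSpace (0 : Divisor K F)))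
  (hH : Module.Finite K (H1 (0 : Divisor K F)))
include hL hH

/-- The residue theorem for Kähler differentials: `weilOf η` kills the principal
repartitions. -/
theorem weilOf_const (η : Ω[F⁄K]) (h : F) :
    (weilOf hP hres hdeg η).toDual (helper3372.const K h) = 0 := by
  have hη : η ∈ Submodule.span F (Set.range (D K F)) := by
    rw [KaehlerDifferential.span_range_derivation]
    exact Submodule.mem_top
  induction hη using Submodule.span_induction generalizing h with
  | mem η hm =>
    obtain ⟨g, rfl⟩ := hm
    rw [weilOf_D]
    exact tres_const_const hP hres hdeg hL hH h g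
  | zero => rw [map_zero]; rfl
  | add η η' _ _ h1 h2 =>
    rw [map_add, WD.toDual_add, LinearMap.add_apply, h1 h, h2 h, add_zero]
  | smul x η _ h1 =>
    rw [weilOf_smul, ← const_smul_eq, const_mul_const]
    exact h1 (x * h)

/-- `weilOf η` is a Weil differential. -/
theorem exists_weilOf_mem_Om (η : Ω[F⁄K]) :
    ∃ D0 : Divisor K F, (weilOf hP hres hdeg η).toDual ∈ helper9330.Om D0 := by
  obtain ⟨D0, h0⟩ := exists_divisor_weilOf hP hres hdeg η
  refine ⟨D0, helper9330.mem_Om.mpr fun α hα => ?_⟩
  obtain ⟨a, ha, p, hp, rfl⟩ := Submodule.mem_sup.mp hα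
  obtain ⟨f, rfl⟩ := helper3372.mem_principal_iff.mp hp
  rw [map_add, h0 a ha, weilOf_const hP hres hdeg hL hH, add_zero]

end WeilProps

/-! ## Riemann–Roch with the Kähler canonical divisor -/

section Main

variable (hP : HasPrincipalDivisors K F)
  (hres : ∀ v : Place K F, Function.Surjective (algebraMap K v.ResidueField))
  (hdeg : ∀ v : Place K F, v.deg = 1)
  (hRR : helper9330.WeakRR K F) (hne : Nonempty (Place K F))
include hP hres hdeg hRR hne

/-- The divisor of a nonzero Kähler differential exists, and is the divisor of the attached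
Weil differential. -/
theorem exists_isDivisorOf_weilOf [∀ v : Place K F, v.DCoordGenerates] {η : Ω[F⁄K]}
    (hη : η ≠ 0) :
    ∃ W : Divisor K F, helper9330.IsDivisorOf (weilOf hP hres hdeg η).toDual W ∧
      ∀ v : Place K F, W v = v.ordDifferential η := by
  obtain ⟨D0, h0⟩ := exists_weilOf_mem_Om hP hres hdeg (hRR.finite_L 0) (hRR.finite_H1 0) η
  obtain ⟨W, hW⟩ := helper9330.exists_isDivisorOf hRR (fun v => by rw [hdeg v]; exact one_pos)
    (weilOf_ne_zero hP hres hdeg hne hη) h0
  exact ⟨W, hW, isDivisorOf_apply hP hres hdeg hη hW⟩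

/-- The Prelude's `HasCanonicalDivisor`: every nonzero Kähler differential has a divisor. -/
theorem hasCanonicalDivisor [∀ v : Place K F, v.DCoordGenerates] :
    HasCanonicalDivisor (K := K) (F := F) :=
  ⟨fun η hη => by
    obtain ⟨W, -, hW⟩ := exists_isDivisorOf_weilOf hP hres hdeg hRR hne hη
    exact ⟨W, hW⟩⟩

/-- Any divisor with the values `ord_v η` is the divisor of the Weil differential `weilOf η`. -/
theorem isDivisorOf_of_apply [∀ v : Place K F, v.DCoordGenerates] {η : Ω[F⁄K]} (hη : η ≠ 0)
    {W : Divisor K F} (hW : ∀ v : Place K F, W v = v.ordDifferential η) :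
    helper9330.IsDivisorOf (weilOf hP hres hdeg η).toDual W := by
  obtain ⟨W', hW', hW'v⟩ := exists_isDivisorOf_weilOf hP hres hdeg hRR hne hη
  have e : W = W' := Finsupp.ext fun v => by rw [hW v, hW'v v]
  rw [e]
  exact hW'

/-- **Serre duality** with the Kähler canonical divisor: `h¹(D) = ℓ(W - D)` for `W = div η`. -/
theorem finrank_H1_eq_of_kaehler [∀ v : Place K F, v.DCoordGenerates] {η : Ω[F⁄K]}
    (hη : η ≠ 0) {W : Divisor K F} (hW : ∀ v : Place K F, W v = v.ordDifferential η)
    (D : Divisor K F) :
    finrank K (H1 D) = finrank K ↥(riemannRochSpace (W - D)) := by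
  have := hP
  obtain ⟨P0⟩ := id hne
  exact helper9330.finrank_H1_eq hRR P0 (by rw [hdeg P0]; exact one_pos)
    (weilOf_ne_zero hP hres hdeg hne hη) (isDivisorOf_of_apply hP hres hdeg hRR hne hη hW) D

/-- **Riemann–Roch** with the Kähler canonical divisor. -/
theorem riemann_roch_kaehler [∀ v : Place K F, v.DCoordGenerates] {η : Ω[F⁄K]}
    (hη : η ≠ 0) {W : Divisor K F} (hW : ∀ v : Place K F, W v = v.ordDifferential η)
    (D : Divisor K F) :
    (finrank K ↥(riemannRochSpace D) : ℤ)
      = Divisor.degree D + 1 - (genusFF K F : ℤ)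
        + (finrank K ↥(riemannRochSpace (W - D)) : ℤ) := by
  have r := hRR.rr D
  rw [finrank_H1_eq_of_kaehler hP hres hdeg hRR hne hη hW D] at r
  linarith

omit hP hres hdeg hne in
/-- `ℓ(0) = 1`. -/
theorem finrank_L_zero : finrank K ↥(riemannRochSpace (0 : Divisor K F)) = 1 := by
  have hgen : (finrank K (H1 (0 : Divisor K F)) : ℤ) = (genusFF K F : ℤ) := rfl
  have r0 := hRR.rr 0
  rw [map_zero, hgen] at r0
  have : (finrank K ↥(riemannRochSpace (0 : Divisor K F)) : ℤ) = 1 := by linarith
  exact_mod_cast this

/-- `ℓ(div η) = g`: the space of holomorphic differentials has dimension `genusFF`. -/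
theorem finrank_L_canonical [∀ v : Place K F, v.DCoordGenerates] {η : Ω[F⁄K]}
    (hη : η ≠ 0) {W : Divisor K F} (hW : ∀ v : Place K F, W v = v.ordDifferential η) :
    finrank K ↥(riemannRochSpace W) = genusFF K F := by
  have h := finrank_H1_eq_of_kaehler hP hres hdeg hRR hne hη hW 0
  rw [sub_zero] at h
  rw [← h]
  rfl

/-- The divisor of a nonzero Kähler differential has degree `2g - 2`, `g = genusFF`. -/
theorem degree_canonical [∀ v : Place K F, v.DCoordGenerates] {η : Ω[F⁄K]}
    (hη : η ≠ 0) {W : Divisor K F} (hW : ∀ v : Place K F, W v = v.ordDifferential η) :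
    Divisor.degree W = 2 * (genusFF K F : ℤ) - 2 := by
  have rW := riemann_roch_kaehler hP hres hdeg hRR hne hη hW W
  rw [sub_self, finrank_L_zero hRR,
    finrank_L_canonical hP hres hdeg hRR hne hη hW] at rW
  push_cast at rW
  linarith

/-- The Kähler genus of the Prelude is the repartition genus `genusFF`. -/
theorem genus_eq_genusFF [∀ v : Place K F, v.DCoordGenerates] [Nontrivial Ω[F⁄K]]
    [HasCanonicalDivisor (K := K) (F := F)] : genus K F = genusFF K F := by
  have hex : ∃ ω : Ω[F⁄K], ω ≠ 0 := exists_ne 0
  have hd := degree_canonical hP hres hdeg hRR hne hex.choose_spec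
    (W := canonicalDivisorOf hex.choose_spec) (fun v => canonicalDivisorOf_apply _ v)
  unfold genus
  rw [dif_pos hex, hd]
  have e : (2 * (genusFF K F : ℤ) - 2 + 2) = ((2 * genusFF K F : ℕ) : ℤ) := by
    push_cast
    ring
  rw [e, Int.toNat_natCast]
  omega

end Main

end

end Fermat.Agent.Lib.helper923
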