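import Mathlib
import Fermat.Agent.S28.helper328_PrimeSpec

/-!
# The Euler derivation `θ = t · d/dt` on Laurent series (helper9242)

Mathlib has `LaurentSeries.derivative` only as a linear map.  Here we construct the Euler operator
`θ f = ∑ n · aₙ tⁿ` as a derivation of `R⸨X⸩` (Leibniz rule included), compute its kernel (the
constants, over a characteristic-zero domain) and record its compatibility with the two
substitutions used for Hecke operators on `q`-expansions:

* `ModularCurve.qExpand R N` (`t ↦ t^N`, Prelude): `θ (f(t^N)) = N * (θ f)(t^N)`;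
* `Fermat.Agent.S28.helper328.twist ζ` (`t ↦ ζ t`, landed S28 library): `θ (f(ζ t)) = (θ f)(ζ t)`.

All statements are about the plain function `thetaFun R`; three bundled versions are provided
(they differ only in the scalar structures, which form a non-definitional diamond in Mathlib):

* `theta R : Derivation R R⸨X⸩ R⸨X⸩` (instances as elaborated from this notation);
* `thetaAlg R`, the same with the `R`-module structure `Algebra.toModule` on the target — this is
  the shape required by lemmas stated for a general `[Field L] [Algebra k L] (D : Derivation k L L)`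
  such as `Fermat.Agent.Lib.helper9242.invDiff`;
* `thetaInt R : Derivation ℤ R⸨X⸩ R⸨X⸩`.
-/

set_option autoImplicit false
set_option linter.unusedSimpArgs false
set_option linter.unusedSectionVars false

noncomputable section

namespace Fermat.Agent.Lib.helper9242

open HahnSeries

variable (R : Type*) [CommRing R]

/-- The Euler operator on Laurent series, as a function: the coefficient of `t^n` is multiplied
by `n`. -/
def thetaFun (f : LaurentSeries R) : LaurentSeries R where
  coeff n := (n : R) * f.coeff n
  isPWO_support' := f.isPWO_support.mono (fun n hn => by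
    simp only [Function.mem_support, ne_eq] at hn ⊢
    exact fun h => hn (by rw [h, mul_zero]))

@[simp]
theorem thetaFun_coeff (f : LaurentSeries R) (n : ℤ) :
    (thetaFun R f).coeff n = (n : R) * f.coeff n := rfl

theorem thetaFun_support_subset (f : LaurentSeries R) : (thetaFun R f).support ⊆ f.support := by
  intro n hn
  simp only [HahnSeries.mem_support, thetaFun_coeff, ne_eq] at hn ⊢
  exact fun h => hn (by rw [h, mul_zero])

@[simp]
theorem thetaFun_zero : thetaFun R 0 = 0 := by
  ext n
  simp

theorem thetaFun_add (f g : LaurentSeries R) :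
    thetaFun R (f + g) = thetaFun R f + thetaFun R g := by
  ext n
  simp [mul_add]

theorem thetaFun_neg (f : LaurentSeries R) : thetaFun R (-f) = -thetaFun R f := by
  ext n
  simp

theorem thetaFun_sub (f g : LaurentSeries R) :
    thetaFun R (f - g) = thetaFun R f - thetaFun R g := by
  ext n
  simp [mul_sub]

@[simp]
theorem thetaFun_one : thetaFun R 1 = 0 := by
  ext n
  rw [thetaFun_coeff, HahnSeries.coeff_one]
  split_ifs with h
  · subst h; simp
  · simp

@[simp]
theorem thetaFun_single (n : ℤ) (r : R) :
    thetaFun R (HahnSeries.single n r) = HahnSeries.single n ((n : R) * r) := by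
  ext m
  rw [thetaFun_coeff]
  by_cases h : m = n
  · subst h; simp
  · simp [HahnSeries.coeff_single_of_ne h]

@[simp]
theorem thetaFun_C (r : R) : thetaFun R (HahnSeries.C r) = 0 := by
  rw [HahnSeries.C_apply, thetaFun_single]
  simp

/-- **Leibniz rule** for the Euler operator. -/
theorem thetaFun_mul (f g : LaurentSeries R) :
    thetaFun R (f * g) = f * thetaFun R g + g * thetaFun R f := by
  ext n
  rw [thetaFun_coeff, HahnSeries.coeff_add, HahnSeries.coeff_mul, mul_comm g (thetaFun R f),
    HahnSeries.coeff_mul_right' (x := f) (y := thetaFun R g) g.isPWO_support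
      (thetaFun_support_subset R g),
    HahnSeries.coeff_mul_left' (x := thetaFun R f) (y := g) f.isPWO_support
      (thetaFun_support_subset R f),
    Finset.mul_sum, ← Finset.sum_add_distrib]
  refine Finset.sum_congr rfl ?_
  intro ij hij
  have hsum : ij.1 + ij.2 = n := (Finset.mem_antidiagonal.mp hij).2.2
  rw [thetaFun_coeff, thetaFun_coeff, ← hsum]
  push_cast
  ring

theorem thetaFun_C_mul (r : R) (f : LaurentSeries R) :
    thetaFun R (HahnSeries.C r * f) = HahnSeries.C r * thetaFun R f := by
  rw [thetaFun_mul, thetaFun_C, mul_zero, add_zero]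

/-- `θ` does not create coefficients. -/
theorem thetaFun_coeff_eq_zero_of_coeff_eq_zero {f : LaurentSeries R} {n : ℤ}
    (h : f.coeff n = 0) : (thetaFun R f).coeff n = 0 := by
  rw [thetaFun_coeff, h, mul_zero]

/-- Over a characteristic-zero domain, the kernel of `θ` consists of the constants. -/
theorem thetaFun_eq_zero_iff [IsDomain R] [CharZero R] (f : LaurentSeries R) :
    thetaFun R f = 0 ↔ f = HahnSeries.C (f.coeff 0) := by
  constructor
  · intro h
    ext n
    rw [HahnSeries.C_apply]
    by_cases hn : n = 0
    · subst hn; simp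
    · rw [HahnSeries.coeff_single_of_ne hn]
      have h1 : (thetaFun R f).coeff n = 0 := by rw [h]; rfl
      rw [thetaFun_coeff] at h1
      rcases mul_eq_zero.mp h1 with h2 | h2
      · exact absurd (by exact_mod_cast h2) hn
      · exact h2
  · intro h
    rw [h, thetaFun_C]

/-- Over a characteristic-zero domain, `θ f = 0` iff `f` is a constant. -/
theorem thetaFun_eq_zero_iff_exists [IsDomain R] [CharZero R] (f : LaurentSeries R) :
    thetaFun R f = 0 ↔ ∃ c : R, f = HahnSeries.C c :=
  ⟨fun h => ⟨_, (thetaFun_eq_zero_iff R f).mp h⟩, fun ⟨c, hc⟩ => by rw [hc, thetaFun_C]⟩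

/-- In every characteristic (over a domain): `θ f = 0` iff every coefficient `aₙ` with
`(n : R) ≠ 0` vanishes. -/
theorem thetaFun_eq_zero_iff_coeff [IsDomain R] (f : LaurentSeries R) :
    thetaFun R f = 0 ↔ ∀ n : ℤ, (n : R) ≠ 0 → f.coeff n = 0 := by
  constructor
  · intro h n hn
    have h1 : (thetaFun R f).coeff n = 0 := by rw [h]; rfl
    rw [thetaFun_coeff] at h1
    exact (mul_eq_zero.mp h1).resolve_left hn
  · intro h
    ext n
    rw [thetaFun_coeff]
    by_cases hn : (n : R) = 0
    · rw [hn, zero_mul]; rfl
    · rw [h n hn, mul_zero]; rfl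

/-- Compatibility with `t ↦ t^N`: `θ (f(t^N)) = N * (θ f)(t^N)`. -/
theorem thetaFun_qExpand (N : ℕ) [NeZero N] (f : LaurentSeries R) :
    thetaFun R (ModularCurve.qExpand R N f) =
      HahnSeries.C (N : R) * ModularCurve.qExpand R N (thetaFun R f) := by
  ext n
  rw [HahnSeries.C_mul_eq_smul, HahnSeries.coeff_smul, thetaFun_coeff, smul_eq_mul]
  by_cases hn : (N : ℤ) ∣ n
  · obtain ⟨k, rfl⟩ := hn
    rw [ModularCurve.qExpand_coeff_mul, ModularCurve.qExpand_coeff_mul, thetaFun_coeff]
    push_cast
    ring
  · rw [ModularCurve.qExpand_coeff_of_not_dvd N f hn,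
      ModularCurve.qExpand_coeff_of_not_dvd N (thetaFun R f) hn, mul_zero, mul_zero]

/-- Compatibility with `t ↦ ζ t`: `θ (f(ζ t)) = (θ f)(ζ t)`. -/
theorem thetaFun_twist (ζ : Rˣ) (f : LaurentSeries R) :
    thetaFun R (Fermat.Agent.S28.helper328.twist ζ f) =
      Fermat.Agent.S28.helper328.twist ζ (thetaFun R f) := by
  ext n
  rw [thetaFun_coeff, Fermat.Agent.S28.helper328.twist_coeff,
    Fermat.Agent.S28.helper328.twist_coeff, thetaFun_coeff]
  ring

/-- `θ` commutes with coefficientwise ring homomorphisms. -/
theorem thetaFun_map {S : Type*} [CommRing S] (φ : R →+* S) (f : LaurentSeries R) :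
    thetaFun S (HahnSeries.map f φ) = HahnSeries.map (thetaFun R f) φ := by
  ext n
  simp

/-- On power series, `θ` is `X * d/dX`. -/
theorem thetaFun_ofPowerSeries (p : PowerSeries R) :
    thetaFun R (HahnSeries.ofPowerSeries ℤ R p) =
      HahnSeries.ofPowerSeries ℤ R (PowerSeries.X * PowerSeries.derivative R p) := by
  ext n
  rw [thetaFun_coeff]
  rcases lt_or_ge n 0 with hn | hn
  · have h1 : ∀ q : PowerSeries R, (HahnSeries.ofPowerSeries ℤ R q).coeff n = 0 := by
      intro q
      rw [HahnSeries.ofPowerSeries_apply]
      refine HahnSeries.embDomain_of_notMem_range ?_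
      rintro ⟨m, hm⟩
      have hm' : (m : ℤ) = n := hm
      omega
    rw [h1, h1, mul_zero]
  · obtain ⟨m, rfl⟩ := Int.eq_ofNat_of_zero_le hn
    rw [HahnSeries.ofPowerSeries_apply_coeff, HahnSeries.ofPowerSeries_apply_coeff]
    cases m with
    | zero => simp
    | succ m =>
      rw [PowerSeries.coeff_succ_X_mul, PowerSeries.coeff_derivative]
      push_cast
      ring

/-! ### Bundled versions -/

theorem algebraMap_eq_C (r : R) : algebraMap R (LaurentSeries R) r = HahnSeries.C r := by
  rw [HahnSeries.algebraMap_apply', PowerSeries.algebraMap_apply, Algebra.algebraMap_self,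
    RingHom.id_apply, HahnSeries.ofPowerSeries_C]

/-- **The Euler derivation** `θ = t · d/dt` on Laurent series (instances as elaborated from the
notation `Derivation R R⸨X⸩ R⸨X⸩`). -/
def theta : Derivation R (LaurentSeries R) (LaurentSeries R) where
  toFun := thetaFun R
  map_add' := thetaFun_add R
  map_smul' r f := by
    rw [RingHom.id_apply, Algebra.smul_def, algebraMap_eq_C, thetaFun_C_mul,
      HahnSeries.C_mul_eq_smul]
  map_one_eq_zero' := thetaFun_one R
  leibniz' f g := by
    show thetaFun R (f * g) = f • thetaFun R g + g • thetaFun R f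
    rw [smul_eq_mul, smul_eq_mul]
    exact thetaFun_mul R f g

@[simp]
theorem theta_apply (f : LaurentSeries R) : theta R f = thetaFun R f := rfl

/-- **The Euler derivation**, with the `R`-module structure `Algebra.toModule` on the target: the
shape needed by statements about a general field `L` with `[Algebra k L]` and
`D : Derivation k L L` (e.g. `invDiff`). -/
def thetaAlg : @Derivation R (LaurentSeries R) (LaurentSeries R) _ _ _ _ _ Algebra.toModule :=
  letI : Module R (LaurentSeries R) := Algebra.toModule
  { toFun := thetaFun R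
    map_add' := thetaFun_add R
    map_smul' := fun r f => by
      rw [RingHom.id_apply, Algebra.smul_def, Algebra.smul_def, algebraMap_eq_C, thetaFun_C_mul]
    map_one_eq_zero' := thetaFun_one R
    leibniz' := fun f g => by
      show thetaFun R (f * g) = f • thetaFun R g + g • thetaFun R f
      rw [smul_eq_mul, smul_eq_mul]
      exact thetaFun_mul R f g }

@[simp]
theorem thetaAlg_apply (f : LaurentSeries R) : thetaAlg R f = thetaFun R f := rfl

/-- **The Euler derivation** as a `ℤ`-derivation. -/
def thetaInt : Derivation ℤ (LaurentSeries R) (LaurentSeries R) where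
  toFun := thetaFun R
  map_add' := thetaFun_add R
  map_smul' n f := by
    have h : ((n : ℤ) : LaurentSeries R) = HahnSeries.C (n : R) := by simp
    rw [RingHom.id_apply, Algebra.smul_def, eq_intCast, h, thetaFun_C_mul, ← h, zsmul_eq_mul]
  map_one_eq_zero' := thetaFun_one R
  leibniz' f g := by
    show thetaFun R (f * g) = f • thetaFun R g + g • thetaFun R f
    rw [smul_eq_mul, smul_eq_mul]
    exact thetaFun_mul R f g

@[simp]
theorem thetaInt_apply (f : LaurentSeries R) : thetaInt R f = thetaFun R f := rfl

end Fermat.Agent.Lib.helper9242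

end
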