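import Mathlib

/-!
# The canonical `ℤ_[p]`-algebra structure on an adically complete ring (S30-ZPALG)

Let `R` be a commutative ring which is `I`-adically complete and such that `(p : R) ∈ I`.
Then there is a unique ring homomorphism `ℤ_[p] →+* R`.  It is injective as soon as `R` has
characteristic zero.  This is the brick that lets one form `K ⊗[ℤ_[p]] T` / `𝒪 ⊗[ℤ_[p]] T`
for a Tate module `T` over `ℤ_[p]` and the abstract coefficient ring `𝒪` of the frozen
statement S30 (a complete discrete valuation ring with `(p : 𝒪) ∈ maximalIdeal 𝒪`).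

## Usage

`letI := padicIntAlgebra p 𝒪 hp` (a reducible definition, not a global instance).  After that,
Mathlib's instances provide `Algebra ℤ_[p] (FractionRing 𝒪)`,
`Algebra ℤ_[p] (AlgebraicClosure (FractionRing 𝒪))` and the corresponding `IsScalarTower`s
automatically; injectivity of any of these `algebraMap`s is `ringHom_padicInt_injective p _`
(the target only has to be of characteristic zero).  For a target `K` without such an automatic
instance use `padicIntAlgebraOver p 𝒪 K hp`.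

## Main statements

* `padicIntRingHom p I hp : ℤ_[p] →+* R` for `[IsAdicComplete I R]`, `hp : (p : R) ∈ I`;
* `padicIntRingHom_sub_appr_mem`: congruent to the `n`-th approximation modulo `I ^ n`;
* `ringHom_padicInt_ext`: any two ring homs `ℤ_[p] →+* R` agree (`R` Hausdorff, `p ∈ I`);
* `ringHom_padicInt_injective`: every ring hom from `ℤ_[p]` to a characteristic-zero ring is
  injective;
* `padicIntAlgebra`, `isLocalHom_algebraMap_padicIntAlgebra`, `flat_padicIntAlgebra`,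
  `isTorsionFree_padicIntAlgebra`, `isScalarTower_padicIntAlgebra` (coefficient extensions),
  `exists_padicInt_algebra` (existential package);
* `eq_zero_of_forall_mem_span_pow`: `p`-adic separatedness.
-/

set_option autoImplicit false

namespace Fermat.Agent.Lib.helper9377

open IsLocalRing

section general

variable (p : ℕ) [Fact p.Prime]

/-- Any ring hom out of `ℤ_[p]` into a ring where `p ^ n = 0` is given by the `n`-th
approximation. -/
theorem ringHom_apply_eq_appr {S : Type*} [Ring S] (g : ℤ_[p] →+* S) (n : ℕ)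
    (hS : ((p : S)) ^ n = 0) (x : ℤ_[p]) : g x = ((x.appr n : ℕ) : S) := by
  obtain ⟨y, hy⟩ := Ideal.mem_span_singleton'.mp (PadicInt.appr_spec n x)
  have hx : x = ((x.appr n : ℕ) : ℤ_[p]) + y * (p : ℤ_[p]) ^ n := by rw [hy]; ring
  conv_lhs => rw [hx]
  rw [map_add, map_mul, map_pow, map_natCast, map_natCast, hS, mul_zero, add_zero]

variable {R : Type*} [CommRing R] (I : Ideal R)

omit [Fact p.Prime] in
theorem natCast_pow_mk_eq_zero (hp : (p : R) ∈ I) (n : ℕ) :
    ((p : R ⧸ I ^ n)) ^ n = 0 := by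
  have h : ((p : R)) ^ n ∈ I ^ n := Ideal.pow_mem_pow hp n
  have h2 : (Ideal.Quotient.mk (I ^ n)) (((p : R)) ^ n) = 0 := Ideal.Quotient.eq_zero_iff_mem.mpr h
  simpa using h2

/-- The `n`-th truncation `ℤ_[p] →+* R ⧸ I ^ n`. -/
noncomputable def padicIntTrunc (hp : (p : R) ∈ I) (n : ℕ) : ℤ_[p] →+* R ⧸ I ^ n :=
  haveI : CharP (R ⧸ I ^ n) (ringChar (R ⧸ I ^ n)) := ringChar.charP _
  (ZMod.castHom (ringChar.dvd (by
      have := natCast_pow_mk_eq_zero p I hp n
      exact_mod_cast this) : ringChar (R ⧸ I ^ n) ∣ p ^ n) (R ⧸ I ^ n)).comp (PadicInt.toZModPow n)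

theorem padicIntTrunc_apply (hp : (p : R) ∈ I) (n : ℕ) (x : ℤ_[p]) :
    padicIntTrunc p I hp n x = ((x.appr n : ℕ) : R ⧸ I ^ n) :=
  ringHom_apply_eq_appr p _ n (natCast_pow_mk_eq_zero p I hp n) x

theorem padicIntTrunc_compat (hp : (p : R) ∈ I) {m n : ℕ} (hle : m ≤ n) :
    (Ideal.Quotient.factorPow I hle).comp (padicIntTrunc p I hp n) = padicIntTrunc p I hp m := by
  ext x
  rw [ringHom_apply_eq_appr p _ m (natCast_pow_mk_eq_zero p I hp m) x,
    ringHom_apply_eq_appr p _ m (natCast_pow_mk_eq_zero p I hp m) x]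

variable [IsAdicComplete I R]

/-- **(Z1)** The canonical ring homomorphism `ℤ_[p] →+* R` for an `I`-adically complete ring
`R` with `(p : R) ∈ I`. -/
noncomputable def padicIntRingHom (hp : (p : R) ∈ I) : ℤ_[p] →+* R :=
  IsAdicComplete.liftRingHom I (padicIntTrunc p I hp)
    (fun {_ _} hle => padicIntTrunc_compat p I hp hle)

theorem mk_padicIntRingHom (hp : (p : R) ∈ I) (n : ℕ) (x : ℤ_[p]) :
    Ideal.Quotient.mk (I ^ n) (padicIntRingHom p I hp x) = ((x.appr n : ℕ) : R ⧸ I ^ n) := by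
  rw [padicIntRingHom, IsAdicComplete.mk_liftRingHom, padicIntTrunc_apply]

/-- **(Z2)** The canonical map agrees with the `n`-th approximation modulo `I ^ n`. -/
theorem padicIntRingHom_sub_appr_mem (hp : (p : R) ∈ I) (x : ℤ_[p]) (n : ℕ) :
    padicIntRingHom p I hp x - ((x.appr n : ℕ) : R) ∈ I ^ n := by
  rw [← Ideal.Quotient.eq, mk_padicIntRingHom, map_natCast]

/-- For any ring hom `h : ℤ_[p] →+* R` with `(p : R) ∈ I`, the value `h x` is congruent to the
`n`-th approximation of `x` modulo `I ^ n`. -/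
theorem ringHom_sub_appr_mem {R : Type*} [CommRing R] (I : Ideal R) (hp : (p : R) ∈ I)
    (h : ℤ_[p] →+* R) (x : ℤ_[p]) (n : ℕ) : h x - ((x.appr n : ℕ) : R) ∈ I ^ n := by
  obtain ⟨y, hy⟩ := Ideal.mem_span_singleton'.mp (PadicInt.appr_spec n x)
  have h1 : h x - ((x.appr n : ℕ) : R) = h y * ((p : R)) ^ n := by
    rw [← map_natCast h (x.appr n), ← map_sub, ← hy, map_mul, map_pow, map_natCast]
  rw [h1]
  exact Ideal.mul_mem_left _ _ (Ideal.pow_mem_pow hp n)

/-- **(Z3)** Uniqueness: two ring homs `ℤ_[p] →+* R` agree as soon as `R` is `I`-adically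
Hausdorff and `(p : R) ∈ I`. -/
theorem ringHom_padicInt_ext {R : Type*} [CommRing R] (I : Ideal R) [IsHausdorff I R]
    (hp : (p : R) ∈ I) (f g : ℤ_[p] →+* R) : f = g := by
  ext x
  rw [IsHausdorff.eq_iff_smodEq (I := I)]
  intro n
  rw [SModEq.sub_mem, smul_eq_mul, Ideal.mul_top]
  have h1 := ringHom_sub_appr_mem p I hp f x n
  have h2 := ringHom_sub_appr_mem p I hp g x n
  have h3 : f x - g x = (f x - ((x.appr n : ℕ) : R)) - (g x - ((x.appr n : ℕ) : R)) := by ring
  rw [h3]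
  exact Ideal.sub_mem _ h1 h2

/-- The canonical map is the only ring hom `ℤ_[p] →+* R`. -/
theorem eq_padicIntRingHom {R : Type*} [CommRing R] (I : Ideal R) [IsAdicComplete I R]
    (hp : (p : R) ∈ I) (f : ℤ_[p] →+* R) : f = padicIntRingHom p I hp :=
  ringHom_padicInt_ext p I hp _ _

/-- **(Z4), general form** Every ring hom from `ℤ_[p]` to a ring of characteristic zero is
injective. -/
theorem ringHom_padicInt_injective {S : Type*} [Ring S] [CharZero S] (f : ℤ_[p] →+* S) :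
    Function.Injective f := by
  rw [injective_iff_map_eq_zero]
  intro x hx
  by_contra hx0
  have hspec := PadicInt.unitCoeff_spec hx0
  rw [hspec, map_mul, map_pow, map_natCast] at hx
  have hu : IsUnit (f (PadicInt.unitCoeff hx0 : ℤ_[p])) := (PadicInt.unitCoeff hx0).isUnit.map f
  have h0 : ((p : S)) ^ x.valuation = 0 := hu.mul_right_eq_zero.mp hx
  have h1 : ((p ^ x.valuation : ℕ) : S) = 0 := by rw [Nat.cast_pow]; exact h0
  exact absurd (Nat.cast_eq_zero.mp h1) (pow_ne_zero _ (Fact.out : p.Prime).ne_zero)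

/-- **(Z4)** The canonical map `ℤ_[p] →+* R` is injective when `R` has characteristic zero. -/
theorem padicIntRingHom_injective {R : Type*} [CommRing R] (I : Ideal R) [IsAdicComplete I R]
    [CharZero R] (hp : (p : R) ∈ I) : Function.Injective (padicIntRingHom p I hp) :=
  ringHom_padicInt_injective p _

/-- **(Z6)** Elements of `p ^ n ℤ_[p]` are sent into `I ^ n`. -/
theorem ringHom_mem_pow_of_mem_span {R : Type*} [CommRing R] (I : Ideal R) (hp : (p : R) ∈ I)
    (h : ℤ_[p] →+* R) {x : ℤ_[p]} {n : ℕ} (hx : x ∈ Ideal.span {(p : ℤ_[p]) ^ n}) :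
    h x ∈ I ^ n := by
  obtain ⟨y, rfl⟩ := Ideal.mem_span_singleton'.mp hx
  rw [map_mul, map_pow, map_natCast]
  exact Ideal.mul_mem_left _ _ (Ideal.pow_mem_pow hp n)

omit [Fact p.Prime] in
/-- **(Z6)** `p`-adic separatedness of an `I`-adically Hausdorff ring with `(p : R) ∈ I`. -/
theorem eq_zero_of_forall_mem_span_pow {R : Type*} [CommRing R] (I : Ideal R) [IsHausdorff I R]
    (hp : (p : R) ∈ I) {a : R} (ha : ∀ n : ℕ, a ∈ Ideal.span {((p : R)) ^ n}) : a = 0 := by
  apply IsHausdorff.haus' (I := I) a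
  intro n
  rw [SModEq.zero, smul_eq_mul, Ideal.mul_top]
  obtain ⟨y, rfl⟩ := Ideal.mem_span_singleton'.mp (ha n)
  exact Ideal.mul_mem_left _ _ (Ideal.pow_mem_pow hp n)

end general

section localRing

variable (p : ℕ) [Fact p.Prime]

/-- A ring hom from `ℤ_[p]` to a local ring with `p` in the maximal ideal is a local hom. -/
theorem isLocalHom_of_natCast_mem {S : Type*} [CommRing S] [IsLocalRing S]
    (hp : (p : S) ∈ maximalIdeal S) (f : ℤ_[p] →+* S) : IsLocalHom f := by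
  refine ⟨fun a ha => ?_⟩
  by_contra hna
  have hmem : a ∈ maximalIdeal ℤ_[p] := (IsLocalRing.mem_maximalIdeal a).mpr hna
  rw [PadicInt.maximalIdeal_eq_span_p] at hmem
  obtain ⟨b, rfl⟩ := Ideal.mem_span_singleton'.mp hmem
  rw [map_mul, map_natCast] at ha
  exact (IsLocalRing.mem_maximalIdeal _).mp (Ideal.mul_mem_left _ (f b) hp) ha

omit [Fact p.Prime] in
/-- If `𝒪 → 𝒪₂` is a local hom of local rings and `p` lies in the maximal ideal of `𝒪`, then it
lies in the maximal ideal of `𝒪₂`. -/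
theorem natCast_mem_maximalIdeal_of_isLocalHom {𝒪 𝒪₂ : Type*} [CommRing 𝒪] [IsLocalRing 𝒪]
    [CommRing 𝒪₂] [IsLocalRing 𝒪₂] (φ : 𝒪 →+* 𝒪₂) [IsLocalHom φ]
    (hp : (p : 𝒪) ∈ maximalIdeal 𝒪) : (p : 𝒪₂) ∈ maximalIdeal 𝒪₂ := by
  have h := map_nonunit φ (p : 𝒪) hp
  rw [map_natCast] at h
  exact h

variable (𝒪 : Type*) [CommRing 𝒪] [IsLocalRing 𝒪] [IsAdicComplete (maximalIdeal 𝒪) 𝒪]

/-- **(Z5)** The canonical `ℤ_[p]`-algebra structure on a complete local ring with `p` in its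
maximal ideal.  This is a reducible definition, not a global instance: consumers write
`letI := padicIntAlgebra p 𝒪 hp`. -/
@[reducible] noncomputable def padicIntAlgebra (hp : (p : 𝒪) ∈ maximalIdeal 𝒪) : Algebra ℤ_[p] 𝒪 :=
  (padicIntRingHom p (maximalIdeal 𝒪) hp).toAlgebra

theorem algebraMap_padicIntAlgebra (hp : (p : 𝒪) ∈ maximalIdeal 𝒪) :
    @algebraMap ℤ_[p] 𝒪 _ _ (padicIntAlgebra p 𝒪 hp) = padicIntRingHom p (maximalIdeal 𝒪) hp :=
  rfl

theorem isLocalHom_padicIntRingHom (hp : (p : 𝒪) ∈ maximalIdeal 𝒪) :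
    IsLocalHom (padicIntRingHom p (maximalIdeal 𝒪) hp) :=
  isLocalHom_of_natCast_mem p hp _

theorem isLocalHom_algebraMap_padicIntAlgebra (hp : (p : 𝒪) ∈ maximalIdeal 𝒪) :
    IsLocalHom (@algebraMap ℤ_[p] 𝒪 _ _ (padicIntAlgebra p 𝒪 hp)) :=
  isLocalHom_of_natCast_mem p hp _

theorem algebraMap_padicIntAlgebra_injective [CharZero 𝒪] (hp : (p : 𝒪) ∈ maximalIdeal 𝒪) :
    Function.Injective (@algebraMap ℤ_[p] 𝒪 _ _ (padicIntAlgebra p 𝒪 hp)) :=
  ringHom_padicInt_injective p _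

/-- Any `ℤ_[p]`-algebra structure on `𝒪` has the canonical map as its `algebraMap`. -/
theorem algebraMap_eq_padicIntRingHom [Algebra ℤ_[p] 𝒪] (hp : (p : 𝒪) ∈ maximalIdeal 𝒪) :
    algebraMap ℤ_[p] 𝒪 = padicIntRingHom p (maximalIdeal 𝒪) hp :=
  eq_padicIntRingHom p _ hp _

/-- Torsion-freeness (hence flatness, `ℤ_[p]` being a Dedekind domain) of a complete local
domain of characteristic zero over `ℤ_[p]`. -/
theorem isTorsionFree_padicIntAlgebra [IsDomain 𝒪] [CharZero 𝒪] (hp : (p : 𝒪) ∈ maximalIdeal 𝒪) :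
    @Module.IsTorsionFree ℤ_[p] 𝒪 _ _ (padicIntAlgebra p 𝒪 hp).toModule := by
  let _ := padicIntAlgebra p 𝒪 hp
  exact Module.isTorsionFree_iff_algebraMap_injective.mpr
    (algebraMap_padicIntAlgebra_injective p 𝒪 hp)

theorem flat_padicIntAlgebra [IsDomain 𝒪] [CharZero 𝒪] (hp : (p : 𝒪) ∈ maximalIdeal 𝒪) :
    @Module.Flat ℤ_[p] 𝒪 _ _ (padicIntAlgebra p 𝒪 hp).toModule := by
  let _ := padicIntAlgebra p 𝒪 hp
  have := isTorsionFree_padicIntAlgebra p 𝒪 hp
  infer_instance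

/-- Compatibility with coefficient extensions: for complete local rings `𝒪 → 𝒪₂`, the canonical
maps from `ℤ_[p]` are compatible. -/
theorem algebraMap_comp_padicIntRingHom (𝒪₂ : Type*) [CommRing 𝒪₂] [IsLocalRing 𝒪₂]
    [IsAdicComplete (maximalIdeal 𝒪₂) 𝒪₂] [Algebra 𝒪 𝒪₂]
    (hp : (p : 𝒪) ∈ maximalIdeal 𝒪) (hp₂ : (p : 𝒪₂) ∈ maximalIdeal 𝒪₂) :
    (algebraMap 𝒪 𝒪₂).comp (padicIntRingHom p (maximalIdeal 𝒪) hp) =
      padicIntRingHom p (maximalIdeal 𝒪₂) hp₂ :=
  eq_padicIntRingHom p _ hp₂ _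

theorem isScalarTower_padicIntAlgebra (𝒪₂ : Type*) [CommRing 𝒪₂] [IsLocalRing 𝒪₂]
    [IsAdicComplete (maximalIdeal 𝒪₂) 𝒪₂] [Algebra 𝒪 𝒪₂]
    (hp : (p : 𝒪) ∈ maximalIdeal 𝒪) (hp₂ : (p : 𝒪₂) ∈ maximalIdeal 𝒪₂) :
    @IsScalarTower ℤ_[p] 𝒪 𝒪₂ (padicIntAlgebra p 𝒪 hp).toSMul _ (padicIntAlgebra p 𝒪₂ hp₂).toSMul := by
  let _ := padicIntAlgebra p 𝒪 hp
  let _ := padicIntAlgebra p 𝒪₂ hp₂
  exact IsScalarTower.of_algebraMap_eq' (algebraMap_comp_padicIntRingHom p 𝒪 𝒪₂ hp hp₂).symm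

/-- The induced `ℤ_[p]`-algebra structure on any `𝒪`-algebra `K` (e.g. a fraction field of `𝒪`,
or an algebraic closure of it). -/
@[reducible] noncomputable def padicIntAlgebraOver (K : Type*) [CommSemiring K] [Algebra 𝒪 K]
    (hp : (p : 𝒪) ∈ maximalIdeal 𝒪) : Algebra ℤ_[p] K :=
  ((algebraMap 𝒪 K).comp (padicIntRingHom p (maximalIdeal 𝒪) hp)).toAlgebra

theorem isScalarTower_padicIntAlgebraOver (K : Type*) [CommSemiring K] [Algebra 𝒪 K]
    (hp : (p : 𝒪) ∈ maximalIdeal 𝒪) :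
    @IsScalarTower ℤ_[p] 𝒪 K (padicIntAlgebra p 𝒪 hp).toSMul _
      (padicIntAlgebraOver p 𝒪 K hp).toSMul := by
  let _ := padicIntAlgebra p 𝒪 hp
  let _ := padicIntAlgebraOver p 𝒪 K hp
  exact IsScalarTower.of_algebraMap_eq' rfl

theorem algebraMap_padicIntAlgebraOver_injective (K : Type*) [CommRing K] [CharZero K]
    [Algebra 𝒪 K] (hp : (p : 𝒪) ∈ maximalIdeal 𝒪) :
    Function.Injective (@algebraMap ℤ_[p] K _ _ (padicIntAlgebraOver p 𝒪 K hp)) :=
  ringHom_padicInt_injective p _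

/-- **Existence package** (for consumers who prefer instance arguments): a complete local ring
with `p` in its maximal ideal carries a `ℤ_[p]`-algebra structure whose `algebraMap` is a local
hom, and it is injective in characteristic zero. -/
theorem exists_padicInt_algebra (hp : (p : 𝒪) ∈ maximalIdeal 𝒪) :
    ∃ (_ : Algebra ℤ_[p] 𝒪), IsLocalHom (algebraMap ℤ_[p] 𝒪) ∧
      (CharZero 𝒪 → Function.Injective (algebraMap ℤ_[p] 𝒪)) :=
  ⟨padicIntAlgebra p 𝒪 hp, isLocalHom_of_natCast_mem p hp _,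
    fun _ => ringHom_padicInt_injective p _⟩

end localRing

end Fermat.Agent.Lib.helper9377
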