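import Mathlib
import Fermat.Prelude.Thm_Algebra_finite_maximalSpectrum_and_bijective_localization_of_module_finite
import Fermat.Prelude.Thm_IsLocalRing_isAdicComplete_of_module_finite

/-!
# Finite extensions of complete discrete valuation rings

`𝒪` a complete discrete valuation ring of characteristic zero with fraction field `K`, and `L`
a finite extension of `K`.  Then the integral closure `𝒪L` of `𝒪` in `L` is again a complete
discrete valuation ring, module-finite over `𝒪`, with `𝒪 → 𝒪L` a local injective homomorphism,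
with fraction field `L`, and with finite residue field if `𝒪` has finite residue field.

This is exactly the package `𝒪''` asked for by the frozen statements S30 and S35.
-/

set_option autoImplicit false

namespace Fermat.Agent.Lib.helper9396

open IsLocalRing

section general

/-- A product of at least two nontrivial rings is not a domain: if `A → Π i, B i` is a bijective
ring homomorphism, `A` is a domain and all `B i` are nontrivial, then the index type is a
subsingleton. -/
theorem subsingleton_index_of_bijective_pi {A : Type*} [CommRing A] [IsDomain A]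
    {ι : Type*} {B : ι → Type*} [∀ i, CommRing (B i)] [∀ i, Nontrivial (B i)]
    (f : A →+* (∀ i, B i)) (hf : Function.Bijective f) : Subsingleton ι := by
  classical
  refine ⟨fun i j => ?_⟩
  by_contra hij
  obtain ⟨a, ha⟩ := hf.2 (Pi.single i 1)
  obtain ⟨b, hb⟩ := hf.2 (Pi.single j 1)
  have hab : f (a * b) = 0 := by
    rw [map_mul, ha, hb]
    funext k
    by_cases hk : k = i
    · subst hk
      simp [Pi.single_apply, Ne.symm hij]
    · simp [Pi.single_apply, hk]
  have hab0 : a * b = 0 := hf.1 (by rw [hab, map_zero])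
  rcases mul_eq_zero.mp hab0 with h | h
  · have : (Pi.single i 1 : ∀ i, B i) i = 0 := by rw [← ha, h, map_zero]; rfl
    simp at this
  · have : (Pi.single j 1 : ∀ i, B i) j = 0 := by rw [← hb, h, map_zero]; rfl
    simp at this

/-- A module-finite domain over a complete noetherian local ring is local. -/
theorem isLocalRing_of_finite_of_isDomain {𝒪 : Type} [CommRing 𝒪] [IsLocalRing 𝒪]
    [IsNoetherianRing 𝒪] [IsAdicComplete (maximalIdeal 𝒪) 𝒪]
    (A : Type) [CommRing A] [IsDomain A] [Algebra 𝒪 A] [Module.Finite 𝒪 A] : IsLocalRing A := by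
  obtain ⟨-, hbij, -, -⟩ :=
    Algebra.finite_maximalSpectrum_and_bijective_localization_of_module_finite (𝒪 := 𝒪) A
  have hsub : Subsingleton (MaximalSpectrum A) :=
    subsingleton_index_of_bijective_pi _ hbij
  obtain ⟨m, hm⟩ := Ideal.exists_maximal A
  refine IsLocalRing.of_unique_max_ideal ⟨m, hm, fun m' hm' => ?_⟩
  have := hsub.elim (⟨m', hm'⟩ : MaximalSpectrum A) ⟨m, hm⟩
  exact congrArg MaximalSpectrum.asIdeal this

end general

section dvr

/-- The ring of integers of a finite extension `L` of the fraction field of `𝒪`. -/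
abbrev intClosure (𝒪 : Type) [CommRing 𝒪] (L : Type) [Field L] [Algebra 𝒪 L] : Subalgebra 𝒪 L :=
  integralClosure 𝒪 L

theorem charZero_fractionField (𝒪 : Type) [CommRing 𝒪] [IsDomain 𝒪] [CharZero 𝒪]
    (K : Type) [Field K] [Algebra 𝒪 K] [IsFractionRing 𝒪 K] : CharZero K :=
  (algebraMap 𝒪 K).charZero_iff (IsFractionRing.injective 𝒪 K) |>.mp inferInstance

theorem isSeparable_of_charZero (𝒪 : Type) [CommRing 𝒪] [IsDomain 𝒪] [CharZero 𝒪]
    (K : Type) [Field K] [Algebra 𝒪 K] [IsFractionRing 𝒪 K]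
    (L : Type) [Field L] [Algebra K L] [FiniteDimensional K L] : Algebra.IsSeparable K L := by
  have := charZero_fractionField 𝒪 K
  infer_instance

theorem intClosure_finite (𝒪 : Type) [CommRing 𝒪] [IsDomain 𝒪] [IsDiscreteValuationRing 𝒪]
    [CharZero 𝒪] (K : Type) [Field K] [Algebra 𝒪 K] [IsFractionRing 𝒪 K]
    (L : Type) [Field L] [Algebra K L] [Algebra 𝒪 L] [IsScalarTower 𝒪 K L]
    [FiniteDimensional K L] : Module.Finite 𝒪 (intClosure 𝒪 L) := by
  have := isSeparable_of_charZero 𝒪 K L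
  exact IsIntegralClosure.finite 𝒪 K L (integralClosure 𝒪 L)

theorem intClosure_isDedekindDomain (𝒪 : Type) [CommRing 𝒪] [IsDomain 𝒪]
    [IsDiscreteValuationRing 𝒪]
    [CharZero 𝒪] (K : Type) [Field K] [Algebra 𝒪 K] [IsFractionRing 𝒪 K]
    (L : Type) [Field L] [Algebra K L] [Algebra 𝒪 L] [IsScalarTower 𝒪 K L]
    [FiniteDimensional K L] : IsDedekindDomain (intClosure 𝒪 L) := by
  have := isSeparable_of_charZero 𝒪 K L
  exact IsIntegralClosure.isDedekindDomain 𝒪 K L (integralClosure 𝒪 L)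

theorem intClosure_isFractionRing (𝒪 : Type) [CommRing 𝒪] [IsDomain 𝒪]
    (K : Type) [Field K] [Algebra 𝒪 K] [IsFractionRing 𝒪 K]
    (L : Type) [Field L] [Algebra K L] [Algebra 𝒪 L] [IsScalarTower 𝒪 K L]
    [FiniteDimensional K L] : IsFractionRing (intClosure 𝒪 L) L :=
  IsIntegralClosure.isFractionRing_of_finite_extension 𝒪 K L (integralClosure 𝒪 L)

theorem intClosure_isLocalRing (𝒪 : Type) [CommRing 𝒪] [IsDomain 𝒪] [IsDiscreteValuationRing 𝒪]
    [IsAdicComplete (maximalIdeal 𝒪) 𝒪]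
    [CharZero 𝒪] (K : Type) [Field K] [Algebra 𝒪 K] [IsFractionRing 𝒪 K]
    (L : Type) [Field L] [Algebra K L] [Algebra 𝒪 L] [IsScalarTower 𝒪 K L]
    [FiniteDimensional K L] : IsLocalRing (intClosure 𝒪 L) := by
  have := intClosure_finite 𝒪 K L
  exact isLocalRing_of_finite_of_isDomain (𝒪 := 𝒪) (intClosure 𝒪 L)

theorem intClosure_algebraMap_injective (𝒪 : Type) [CommRing 𝒪] [IsDomain 𝒪]
    (K : Type) [Field K] [Algebra 𝒪 K] [IsFractionRing 𝒪 K]
    (L : Type) [Field L] [Algebra K L] [Algebra 𝒪 L] [IsScalarTower 𝒪 K L] :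
    Function.Injective (algebraMap 𝒪 (intClosure 𝒪 L)) := by
  have h1 : Function.Injective (algebraMap 𝒪 L) := by
    rw [IsScalarTower.algebraMap_eq 𝒪 K L]
    exact (algebraMap K L).injective.comp (IsFractionRing.injective 𝒪 K)
  intro a b hab
  apply h1
  have := congrArg (algebraMap (intClosure 𝒪 L) L) hab
  simpa [← IsScalarTower.algebraMap_apply] using this

theorem intClosure_isLocalHom (𝒪 : Type) [CommRing 𝒪] [IsDomain 𝒪]
    (K : Type) [Field K] [Algebra 𝒪 K] [IsFractionRing 𝒪 K]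
    (L : Type) [Field L] [Algebra K L] [Algebra 𝒪 L] [IsScalarTower 𝒪 K L] :
    IsLocalHom (algebraMap 𝒪 (intClosure 𝒪 L)) := by
  have hint : (algebraMap 𝒪 (intClosure 𝒪 L)).IsIntegral :=
    algebraMap_isIntegral_iff.mpr inferInstance
  exact hint.isLocalHom (intClosure_algebraMap_injective 𝒪 K L)

theorem intClosure_not_isField (𝒪 : Type) [CommRing 𝒪] [IsDomain 𝒪] [IsDiscreteValuationRing 𝒪]
    (K : Type) [Field K] [Algebra 𝒪 K] [IsFractionRing 𝒪 K]
    (L : Type) [Field L] [Algebra K L] [Algebra 𝒪 L] [IsScalarTower 𝒪 K L] :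
    ¬ IsField (intClosure 𝒪 L) := fun h =>
  IsDiscreteValuationRing.not_isField 𝒪
    (isField_of_isIntegral_of_isField (intClosure_algebraMap_injective 𝒪 K L) h)

theorem intClosure_isDiscreteValuationRing (𝒪 : Type) [CommRing 𝒪] [IsDomain 𝒪]
    [IsDiscreteValuationRing 𝒪] [IsAdicComplete (maximalIdeal 𝒪) 𝒪]
    [CharZero 𝒪] (K : Type) [Field K] [Algebra 𝒪 K] [IsFractionRing 𝒪 K]
    (L : Type) [Field L] [Algebra K L] [Algebra 𝒪 L] [IsScalarTower 𝒪 K L]
    [FiniteDimensional K L] : IsDiscreteValuationRing (intClosure 𝒪 L) := by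
  have hD := intClosure_isDedekindDomain 𝒪 K L
  have hL := intClosure_isLocalRing 𝒪 K L
  exact ((IsDiscreteValuationRing.TFAE (intClosure 𝒪 L) (intClosure_not_isField 𝒪 K L)).out 0 2).mpr hD

theorem intClosure_isAdicComplete (𝒪 : Type) [CommRing 𝒪] [IsDomain 𝒪]
    [IsDiscreteValuationRing 𝒪] [IsAdicComplete (maximalIdeal 𝒪) 𝒪]
    [CharZero 𝒪] (K : Type) [Field K] [Algebra 𝒪 K] [IsFractionRing 𝒪 K]
    (L : Type) [Field L] [Algebra K L] [Algebra 𝒪 L] [IsScalarTower 𝒪 K L]
    [FiniteDimensional K L] :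
    letI := intClosure_isLocalRing 𝒪 K L
    IsAdicComplete (maximalIdeal (intClosure 𝒪 L)) (intClosure 𝒪 L) := by
  letI := intClosure_isLocalRing 𝒪 K L
  have := intClosure_finite 𝒪 K L
  have := intClosure_isLocalHom 𝒪 K L
  exact IsLocalRing.isAdicComplete_of_module_finite (𝒪 := 𝒪) (T := intClosure 𝒪 L)

theorem intClosure_finite_residueField (𝒪 : Type) [CommRing 𝒪] [IsDomain 𝒪]
    [IsDiscreteValuationRing 𝒪] [IsAdicComplete (maximalIdeal 𝒪) 𝒪]
    [Finite (ResidueField 𝒪)]
    [CharZero 𝒪] (K : Type) [Field K] [Algebra 𝒪 K] [IsFractionRing 𝒪 K]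
    (L : Type) [Field L] [Algebra K L] [Algebra 𝒪 L] [IsScalarTower 𝒪 K L]
    [FiniteDimensional K L] :
    letI := intClosure_isLocalRing 𝒪 K L
    Finite (ResidueField (intClosure 𝒪 L)) := by
  letI := intClosure_isLocalRing 𝒪 K L
  have := intClosure_finite 𝒪 K L
  have := intClosure_isLocalHom 𝒪 K L
  exact IsLocalRing.ResidueField.finite_of_finite (R := 𝒪) (S := intClosure 𝒪 L) inferInstance

theorem intClosure_charZero (𝒪 : Type) [CommRing 𝒪] [IsDomain 𝒪] [CharZero 𝒪]
    (K : Type) [Field K] [Algebra 𝒪 K] [IsFractionRing 𝒪 K]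
    (L : Type) [Field L] [Algebra K L] [Algebra 𝒪 L] [IsScalarTower 𝒪 K L] :
    CharZero (intClosure 𝒪 L) :=
  (algebraMap 𝒪 (intClosure 𝒪 L)).charZero_iff (intClosure_algebraMap_injective 𝒪 K L)
    |>.mp inferInstance

/-- **Finite extensions of complete DVRs**, packaged in the exact shape of the existential prefix
of the frozen statements S30 / S35, together with the identification of the fraction field. -/
theorem exists_complete_dvr_of_finite_extension (𝒪 : Type) [CommRing 𝒪] [IsDomain 𝒪]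
    [IsDiscreteValuationRing 𝒪] [IsAdicComplete (maximalIdeal 𝒪) 𝒪]
    [Finite (ResidueField 𝒪)] [CharZero 𝒪]
    (K : Type) [Field K] [Algebra 𝒪 K] [IsFractionRing 𝒪 K]
    (L : Type) [Field L] [Algebra K L] [Algebra 𝒪 L] [IsScalarTower 𝒪 K L]
    [FiniteDimensional K L] :
    ∃ (𝒪' : Type) (_ : CommRing 𝒪') (_ : IsDomain 𝒪') (_ : IsDiscreteValuationRing 𝒪')
      (_ : IsAdicComplete (maximalIdeal 𝒪') 𝒪')
      (_ : Finite (ResidueField 𝒪')) (_ : CharZero 𝒪')
      (_ : Algebra 𝒪 𝒪') (_ : Module.Finite 𝒪 𝒪') (_ : IsLocalHom (algebraMap 𝒪 𝒪'))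
      (_ : Algebra 𝒪' L) (_ : IsScalarTower 𝒪 𝒪' L) (_ : IsFractionRing 𝒪' L),
      Function.Injective (algebraMap 𝒪 𝒪') ∧ Function.Injective (algebraMap 𝒪' L) ∧
      ∀ x : L, IsIntegral 𝒪 x → ∃ y : 𝒪', algebraMap 𝒪' L y = x := by
  letI := intClosure_isLocalRing 𝒪 K L
  refine ⟨intClosure 𝒪 L, inferInstance, inferInstance,
    intClosure_isDiscreteValuationRing 𝒪 K L, ?_, ?_, intClosure_charZero 𝒪 K L, inferInstance,
    intClosure_finite 𝒪 K L, intClosure_isLocalHom 𝒪 K L, inferInstance, inferInstance,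
    intClosure_isFractionRing 𝒪 K L, intClosure_algebraMap_injective 𝒪 K L,
    Subtype.val_injective, fun x hx => ⟨⟨x, hx⟩, rfl⟩⟩
  · convert intClosure_isAdicComplete 𝒪 K L
  · convert intClosure_finite_residueField 𝒪 K L

end dvr

end Fermat.Agent.Lib.helper9396
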