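import Mathlib
import Fermat.Prelude.Def_ModularCurve_X0
import Fermat.Prelude.Def_ModularCurve_JqCoeff

/-
helper941: level-one bridge between Mathlib's analytic `qExpansion` and the Prelude's formal
series (`ModularCurve.eisenstein4`, `ModularCurve.etaProd`, `ModularCurve.jqModC`).

Main results (namespace `Fermat.Agent.Lib.helper941`):
* `qExpansion_E₄ : qExpansion 1 E₄ = E4s`            (E4s = map of `eisenstein4`)
* `qExpansion_discriminant : qExpansion 1 Δ = Δs`    (Δs = map of `X * etaProd ^ 24`)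
* `jqModC_mul_Δs : jqModC ℂ * ofPowerSeries Δs = ofPowerSeries (E4s ^ 3)`
* `exists_basis_expansion` : a level-one form of weight `12 M` with `q`-coefficients in a
  subring `R ⊆ ℂ` is an `R`-combination of `E4s ^ (3 (M - b)) * Δs ^ b`, `b ≤ M`.
* `exists_polynomial_jq` : the same in Laurent form, `g / Δ ^ M = P(j)`, `P ∈ R[X]`, `deg P ≤ M`.
-/

open UpperHalfPlane ModularForm EisensteinSeries Filter Topology
open scoped MatrixGroups CongruenceSubgroup PowerSeries.WithPiTopology

namespace Fermat.Agent.Lib.helper941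
set_option autoImplicit false
noncomputable section

/-- `E₄` as a formal power series with integer coefficients, cast to `ℂ`. -/
def E4s : PowerSeries ℂ := PowerSeries.map (Int.castRingHom ℂ) ModularCurve.eisenstein4

theorem bernoulli_four_eq : bernoulli 4 = -1 / 30 := by
  rw [bernoulli_eq_bernoulli'_of_ne_one (by norm_num), bernoulli'_four]

/-- (B1) The `q`-expansion of `E₄` is the Prelude's formal series `eisenstein4`. -/
theorem qExpansion_E₄ : qExpansion 1 E₄ = E4s := by
  ext m
  rw [EisensteinSeries.E_qExpansion_coeff (by norm_num) ⟨2, rfl⟩ m]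
  simp only [E4s, ModularCurve.eisenstein4, PowerSeries.coeff_map, PowerSeries.coeff_mk]
  split_ifs with h
  · simp
  · rw [bernoulli_four_eq]
    simp only [eq_intCast, Int.cast_mul, Int.cast_ofNat, Int.cast_sum, Int.cast_pow,
      Int.cast_natCast]
    rw [ArithmeticFunction.sigma_apply]
    push_cast
    norm_num

/-- The truncated eta-product polynomial `X * (∏_{i<M} (1 - X^(i+1)))^24` over `ℤ`. -/
def truncPoly (M : ℕ) : Polynomial ℤ :=
  Polynomial.X * (∏ i ∈ Finset.range M, (1 - Polynomial.X ^ (i + 1))) ^ 24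

lemma truncPoly_eval (M : ℕ) (q : ℂ) :
    ((truncPoly M).map (Int.castRingHom ℂ)).eval q =
      q * (∏ i ∈ Finset.range M, (1 - q ^ (i + 1))) ^ 24 := by
  simp [truncPoly, Polynomial.map_prod, Polynomial.eval_prod]

lemma truncPoly_coe (M : ℕ) :
    ((truncPoly M : Polynomial ℤ) : PowerSeries ℤ) =
      PowerSeries.X * (∏ i ∈ Finset.range M, (1 - PowerSeries.X ^ (i + 1))) ^ 24 := by
  have h : ((∏ i ∈ Finset.range M, (1 - Polynomial.X ^ (i + 1)) : Polynomial ℤ) : PowerSeries ℤ)
      = ∏ i ∈ Finset.range M, (1 - PowerSeries.X ^ (i + 1)) := by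
    rw [← Polynomial.coeToPowerSeries.ringHom_apply, map_prod]
    simp
  simp [truncPoly, h]

lemma tendstoLocUnif_const {ι : Type*} (l : Filter ι) (g : ℂ → ℂ) (s : Set ℂ) :
    TendstoLocallyUniformlyOn (fun (_ : ι) => g) g l s := by
  intro u hu x _
  exact ⟨Set.univ, univ_mem, Eventually.of_forall fun _ y _ => refl_mem_uniformity hu⟩

lemma tendstoLocUnif_prod :
    TendstoLocallyUniformlyOn (fun (M : ℕ) (q : ℂ) => ∏ i ∈ Finset.range M, (1 - q ^ (i + 1)))
      (fun q => ∏' n, (1 - q ^ (n + 1))) atTop (Metric.ball 0 1) :=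
  multipliableLocallyUniformlyOn_one_sub_pow.hasProdLocallyUniformlyOn.tendstoLocallyUniformlyOn_finsetRange

lemma tendstoLocUnif_pow (k : ℕ) :
    TendstoLocallyUniformlyOn
      (fun (M : ℕ) (q : ℂ) => (∏ i ∈ Finset.range M, (1 - q ^ (i + 1))) ^ k)
      (fun q => (∏' n, (1 - q ^ (n + 1))) ^ k) atTop (Metric.ball 0 1) := by
  induction k with
  | zero =>
    simp only [pow_zero]
    exact tendstoLocUnif_const _ _ _
  | succ k ih =>
    have hc : ContinuousOn (fun q : ℂ => ∏' n, (1 - q ^ (n + 1))) (Metric.ball 0 1) :=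
      differentiableOn_tprod_one_sub_pow.continuousOn
    have := ih.fun_mul₀ tendstoLocUnif_prod (hc.pow k) hc
    simpa only [pow_succ] using this

lemma tendstoLocUnif_trunc :
    TendstoLocallyUniformlyOn
      (fun (M : ℕ) (q : ℂ) => q * (∏ i ∈ Finset.range M, (1 - q ^ (i + 1))) ^ 24)
      (cuspFunction 1 ModularForm.discriminant) atTop (Metric.ball 0 1) := by
  have hc : ContinuousOn (fun q : ℂ => ∏' n, (1 - q ^ (n + 1))) (Metric.ball 0 1) :=
    differentiableOn_tprod_one_sub_pow.continuousOn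
  have h := (tendstoLocUnif_const (atTop : Filter ℕ) (fun q : ℂ => q) (Metric.ball 0 1)).fun_mul₀
    (tendstoLocUnif_pow 24) continuousOn_id (hc.pow 24)
  refine h.congr_right fun q hq => ?_
  rw [discriminant_cuspFunction_eqOn hq]
  simp only
  congr 1
  exact ((multipliable_one_sub_pow (by simpa using hq)).tprod_pow 24).symm

lemma iteratedDeriv_polynomial_eval (p : Polynomial ℂ) (m : ℕ) :
    iteratedDeriv m (fun x : ℂ => p.eval x) = fun x => ((Polynomial.derivative)^[m] p).eval x := by
  induction m with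
  | zero => simp
  | succ m ih =>
    rw [iteratedDeriv_succ, ih]
    funext x
    rw [Polynomial.deriv, Function.iterate_succ_apply']

lemma iteratedDeriv_polynomial_eval_zero (p : Polynomial ℂ) (m : ℕ) :
    iteratedDeriv m (fun x : ℂ => p.eval x) 0 = (m.factorial : ℂ) * p.coeff m := by
  rw [iteratedDeriv_polynomial_eval]
  simp only
  rw [← Polynomial.coeff_zero_eq_eval_zero, Polynomial.coeff_iterate_derivative]
  simp [Nat.descFactorial_self]

lemma tendsto_iteratedDeriv_trunc (m : ℕ) :
    TendstoLocallyUniformlyOn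
      (fun (M : ℕ) => iteratedDeriv m (fun q : ℂ => ((truncPoly M).map (Int.castRingHom ℂ)).eval q))
      (iteratedDeriv m (cuspFunction 1 ModularForm.discriminant)) atTop (Metric.ball 0 1) := by
  induction m with
  | zero =>
    simp only [iteratedDeriv_zero, truncPoly_eval]
    exact tendstoLocUnif_trunc
  | succ m ih =>
    simp only [iteratedDeriv_succ]
    refine ih.deriv (Eventually.of_forall fun M => ?_) Metric.isOpen_ball
    rw [iteratedDeriv_polynomial_eval]
    exact (Polynomial.differentiable _).differentiableOn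

lemma tendsto_coeff_trunc (m : ℕ) :
    Tendsto (fun M : ℕ => (((truncPoly M).coeff m : ℤ) : ℂ)) atTop
      (𝓝 ((PowerSeries.coeff m (PowerSeries.X * ModularCurve.etaProd ^ 24) : ℤ) : ℂ)) := by
  have h1 : Tendsto (fun M : ℕ => ∏ i ∈ Finset.range M, (1 - PowerSeries.X ^ (i + 1) : PowerSeries ℤ))
      atTop (𝓝 ModularCurve.etaProd) :=
    (PowerSeries.WithPiTopology.multipliable_one_sub_X_pow ℤ).hasProd.tendsto_prod_nat
  have h2 : Tendsto (fun M : ℕ => (PowerSeries.X *
      (∏ i ∈ Finset.range M, (1 - PowerSeries.X ^ (i + 1))) ^ 24 : PowerSeries ℤ)) atTop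
      (𝓝 (PowerSeries.X * ModularCurve.etaProd ^ 24)) := (h1.pow 24).const_mul _
  have h3 := ((PowerSeries.WithPiTopology.continuous_coeff ℤ m).tendsto _).comp h2
  have h4 := ((continuous_of_discreteTopology (f := (Int.cast : ℤ → ℂ))).tendsto _).comp h3
  refine h4.congr fun M => ?_
  simp [← truncPoly_coe, Polynomial.coeff_coe]

/-- `ModularForm.discriminant` as a formal power series with integer coefficients, cast to `ℂ`. -/
def Δs : PowerSeries ℂ :=
  PowerSeries.map (Int.castRingHom ℂ) (PowerSeries.X * ModularCurve.etaProd ^ 24)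

/-- (B2) The `q`-expansion of `ModularForm.discriminant` is `X * etaProd ^ 24`. -/
theorem qExpansion_discriminant : qExpansion 1 ModularForm.discriminant = Δs := by
  ext m
  rw [qExpansion_coeff]
  have hA := (tendsto_iteratedDeriv_trunc m).tendsto_at (Metric.mem_ball_self one_pos)
  simp only [iteratedDeriv_polynomial_eval_zero, Polynomial.coeff_map] at hA
  have hB := (tendsto_coeff_trunc m).const_mul (m.factorial : ℂ)
  have := tendsto_nhds_unique hA hB
  rw [this, Δs, PowerSeries.coeff_map]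
  have hm : (m.factorial : ℂ) ≠ 0 := by exact_mod_cast m.factorial_ne_zero
  simp [hm]


/-- Power series over `ℂ` all of whose coefficients lie in the subring `R`. -/
def coeffSubring (R : Subring ℂ) : Subring (PowerSeries ℂ) :=
  (PowerSeries.map R.subtype).range

lemma mem_coeffSubring_iff (R : Subring ℂ) (A : PowerSeries ℂ) :
    A ∈ coeffSubring R ↔ ∀ n, PowerSeries.coeff n A ∈ R := by
  constructor
  · rintro ⟨B, rfl⟩ n
    rw [PowerSeries.coeff_map]
    exact (PowerSeries.coeff n B).2
  · intro h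
    refine ⟨PowerSeries.mk fun n => ⟨PowerSeries.coeff n A, h n⟩, ?_⟩
    ext n
    simp

lemma map_int_mem_coeffSubring (R : Subring ℂ) (A : PowerSeries ℤ) :
    PowerSeries.map (Int.castRingHom ℂ) A ∈ coeffSubring R := by
  rw [mem_coeffSubring_iff]
  intro n
  rw [PowerSeries.coeff_map]
  exact intCast_mem R _

lemma C_mem_coeffSubring (R : Subring ℂ) {a : ℂ} (ha : a ∈ R) :
    PowerSeries.C a ∈ coeffSubring R := by
  rw [mem_coeffSubring_iff]
  intro n
  rw [PowerSeries.coeff_C]
  split_ifs
  · exact ha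
  · exact zero_mem R

lemma E4s_mem (R : Subring ℂ) : E4s ∈ coeffSubring R := map_int_mem_coeffSubring R _

lemma Δs_mem (R : Subring ℂ) : Δs ∈ coeffSubring R := map_int_mem_coeffSubring R _

/-- The unit part of `Δs`. -/
def Us : PowerSeries ℂ := PowerSeries.map (Int.castRingHom ℂ) ModularCurve.dedekindEtaUnit

/-- The inverse of the unit part of `Δs`. -/
def Uinvs : PowerSeries ℂ := PowerSeries.map (Int.castRingHom ℂ) ModularCurve.dedekindEtaUnitInv

lemma Us_mul_Uinvs : Us * Uinvs = 1 := by
  rw [Us, Uinvs, ← map_mul, ModularCurve.dedekindEtaUnit_mul_inv, map_one]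

lemma Δs_eq : Δs = PowerSeries.X * Us := by
  rw [Δs, Us, map_mul, PowerSeries.map_X, ModularCurve.dedekindEtaUnit]

lemma constantCoeff_E4s : PowerSeries.constantCoeff E4s = 1 := by
  rw [E4s, ← PowerSeries.coeff_zero_eq_constantCoeff, PowerSeries.coeff_map,
    PowerSeries.coeff_zero_eq_constantCoeff, ModularCurve.constantCoeff_eisenstein4]
  simp

/-- Division by `Δs` preserves `R`-integrality. -/
lemma mem_coeffSubring_of_Δs_mul (R : Subring ℂ) {H : PowerSeries ℂ}
    (h : Δs * H ∈ coeffSubring R) : H ∈ coeffSubring R := by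
  have h1 : Us * H ∈ coeffSubring R := by
    rw [mem_coeffSubring_iff] at h ⊢
    intro n
    have := h (n + 1)
    rwa [Δs_eq, mul_assoc, PowerSeries.coeff_succ_X_mul] at this
  have h2 : H = Uinvs * (Us * H) := by
    rw [← mul_assoc, mul_comm Uinvs, Us_mul_Uinvs, one_mul]
  rw [h2]
  exact mul_mem (map_int_mem_coeffSubring R _) h1

/-- (B3) The formal `j`-invariant times `ModularForm.discriminant` is `E₄ ^ 3` (in `LaurentSeries ℂ`). -/
theorem jqModC_mul_Δs :
    ModularCurve.jqModC ℂ * HahnSeries.ofPowerSeries ℤ ℂ Δs =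
      HahnSeries.ofPowerSeries ℤ ℂ (E4s ^ 3) := by
  have h1 : PowerSeries.map (Int.castRingHom ℂ) ModularCurve.jNum * Us = E4s ^ 3 := by
    rw [Us, E4s, ← map_mul, ← map_pow, ModularCurve.jNum, mul_assoc,
      mul_comm ModularCurve.dedekindEtaUnitInv, ModularCurve.dedekindEtaUnit_mul_inv, mul_one]
  have h2 : HahnSeries.single (-1 : ℤ) (1 : ℂ) * HahnSeries.ofPowerSeries ℤ ℂ PowerSeries.X = 1 := by
    rw [HahnSeries.ofPowerSeries_X, HahnSeries.single_mul_single]
    simp
  rw [ModularCurve.jqModC, Δs_eq, map_mul, ← h1, map_mul]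
  calc HahnSeries.single (-1 : ℤ) (1 : ℂ) * (HahnSeries.ofPowerSeries ℤ ℂ)
          (PowerSeries.map (Int.castRingHom ℂ) ModularCurve.jNum) *
        ((HahnSeries.ofPowerSeries ℤ ℂ) PowerSeries.X * (HahnSeries.ofPowerSeries ℤ ℂ) Us)
      = (HahnSeries.single (-1 : ℤ) (1 : ℂ) * HahnSeries.ofPowerSeries ℤ ℂ PowerSeries.X) *
        ((HahnSeries.ofPowerSeries ℤ ℂ) (PowerSeries.map (Int.castRingHom ℂ) ModularCurve.jNum) *
          (HahnSeries.ofPowerSeries ℤ ℂ) Us) := by ring
    _ = _ := by rw [h2, one_mul]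


/-- The `q`-expansion of a constant level-one form. -/
lemma qExpansion_of_const {g : ModularForm 𝒮ℒ 0} {c : ℂ} (hg : ⇑g = Function.const _ c) :
    qExpansion 1 g = PowerSeries.C c := by
  ext m
  rw [← ModularFormClass.qExpansion_coeff_unique (c := fun m => if m = 0 then c else 0) one_pos
    one_mem_strictPeriods_SL (f := g) _ m, PowerSeries.coeff_C]
  intro τ
  rw [hg]
  have : (fun m : ℕ => (if m = 0 then c else 0) • Function.Periodic.qParam 1 (τ : ℂ) ^ m) =
      fun m => if m = 0 then c else 0 := by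
    funext m
    split_ifs with h <;> simp [h]
  rw [this]
  exact hasSum_ite_eq 0 c

/-- `E₄ ^ n` as a level-one modular form of weight `k = 4 n`. -/
def E4pow (n : ℕ) {k : ℤ} (hk : k = (n : ℤ) * 4) : ModularForm 𝒮ℒ k :=
  ModularForm.mcast hk.symm (ModularForm.pow E₄ n) rfl

lemma qExpansion_E4pow (n : ℕ) {k : ℤ} (hk : k = (n : ℤ) * 4) :
    qExpansion 1 (E4pow n hk) = E4s ^ n := by
  rw [E4pow, ModularForm.qExpansion_mcast, ModularForm.qExpansion_pow one_pos one_mem_strictPeriods_SL,
    qExpansion_E₄]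

/-- (B4) Basis expansion: a level-one form of weight `12 M` whose `q`-coefficients lie in a
subring `R` of `ℂ` is an `R`-combination of `E₄^(3(M-b)) ModularForm.discriminant^b`, `0 ≤ b ≤ M`
(as formal power series). -/
theorem exists_basis_expansion (R : Subring ℂ) (M : ℕ) :
    ∀ {k : ℤ} (_hk : k = 12 * (M : ℤ)) (g : ModularForm 𝒮ℒ k),
      (∀ n, PowerSeries.coeff n (qExpansion 1 g) ∈ R) →
      ∃ c : ℕ → ℂ, (∀ b, c b ∈ R) ∧
        qExpansion 1 g = ∑ b ∈ Finset.range (M + 1),
          PowerSeries.C (c b) * (E4s ^ (3 * (M - b)) * Δs ^ b) := by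
  induction M with
  | zero =>
    intro k hk g hg
    simp only [Nat.cast_zero, mul_zero] at hk
    subst hk
    obtain ⟨c, hc⟩ := ModularFormClass.levelOne_weight_zero_const g
    have hq := qExpansion_of_const hc
    refine ⟨fun _ => c, fun _ => ?_, ?_⟩
    · have := hg 0
      rwa [hq, PowerSeries.coeff_zero_C] at this
    · simp [hq]
  | succ M ih =>
    intro k hk g hg
    set a : ℂ := PowerSeries.coeff 0 (qExpansion 1 g) with ha
    have haR : a ∈ R := hg 0
    have hkE : k = ((3 * (M + 1) : ℕ) : ℤ) * 4 := by rw [hk]; push_cast; ring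
    set g' : ModularForm 𝒮ℒ k := g - a • E4pow (3 * (M + 1)) hkE with hg'
    have hq' : qExpansion 1 g' = qExpansion 1 g - PowerSeries.C a * E4s ^ (3 * (M + 1)) := by
      have h1 : (⇑g' : ℍ → ℂ) = ⇑g - ⇑(a • E4pow (3 * (M + 1)) hkE) := rfl
      have h2 : (⇑(a • E4pow (3 * (M + 1)) hkE) : ℍ → ℂ) = a • ⇑(E4pow (3 * (M + 1)) hkE) := rfl
      rw [h1, ModularForm.qExpansion_sub one_pos one_mem_strictPeriods_SL, h2,
        ModularForm.qExpansion_smul one_pos one_mem_strictPeriods_SL, qExpansion_E4pow,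
        PowerSeries.smul_eq_C_mul]
    have h0 : PowerSeries.coeff 0 (qExpansion 1 g') = 0 := by
      rw [hq', map_sub, PowerSeries.coeff_zero_eq_constantCoeff, map_mul, map_pow,
        constantCoeff_E4s, PowerSeries.constantCoeff_C, one_pow, mul_one,
        ← PowerSeries.coeff_zero_eq_constantCoeff, ← ha, sub_self]
    have hdec := qExpansion_eq_qExpansion_discriminant_mul g' h0
    rw [qExpansion_discriminant] at hdec
    set h : ModularForm 𝒮ℒ (k - 12) := CuspForm.discriminantEquiv (g'.toCuspForm h0) with hh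
    have hkh : k - 12 = 12 * (M : ℤ) := by rw [hk]; push_cast; ring
    have hgR : qExpansion 1 g ∈ coeffSubring R := (mem_coeffSubring_iff R _).mpr hg
    have hg'R : qExpansion 1 g' ∈ coeffSubring R := by
      rw [hq']
      exact sub_mem hgR (mul_mem (C_mem_coeffSubring R haR) (pow_mem (E4s_mem R) _))
    have hhR : qExpansion 1 h ∈ coeffSubring R := by
      apply mem_coeffSubring_of_Δs_mul R
      rw [← hdec]
      exact hg'R
    obtain ⟨c, hc, hexp⟩ := ih hkh h ((mem_coeffSubring_iff R _).mp hhR)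
    refine ⟨fun b => if b = 0 then a else c (b - 1), fun b => ?_, ?_⟩
    · dsimp only
      split_ifs
      · exact haR
      · exact hc _
    · have hgq : qExpansion 1 g = PowerSeries.C a * E4s ^ (3 * (M + 1)) + Δs * qExpansion 1 h := by
        rw [← hdec, hq']; ring
      rw [hgq, hexp, Finset.mul_sum, Finset.sum_range_succ' _ (M + 1)]
      simp only [Nat.add_eq_zero_iff, one_ne_zero, and_false, if_false,
        if_true, Nat.sub_zero, pow_zero, mul_one, Nat.succ_sub_succ]
      rw [add_comm]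
      congr 1
      refine Finset.sum_congr rfl fun b _ => ?_
      rw [pow_succ]
      ring


lemma ofPowerSeries_C_eq_algebraMap (c : ℂ) :
    HahnSeries.ofPowerSeries ℤ ℂ (PowerSeries.C c) = algebraMap ℂ (LaurentSeries ℂ) c := by
  rw [HahnSeries.algebraMap_apply']
  simp

/-- (B4') Laurent form: for a level-one form `g` of weight `12 M` with `q`-coefficients in a
subring `R`, the quotient `g / ModularForm.discriminant^M` is a polynomial of degree `≤ M` in the formal `j`
with coefficients in `R`. -/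
theorem exists_polynomial_jq (R : Subring ℂ) (M : ℕ) {k : ℤ} (hk : k = 12 * (M : ℤ))
    (g : ModularForm 𝒮ℒ k) (hg : ∀ n, PowerSeries.coeff n (qExpansion 1 g) ∈ R) :
    ∃ P : Polynomial R, P.natDegree ≤ M ∧
      HahnSeries.ofPowerSeries ℤ ℂ (qExpansion 1 g) =
        Polynomial.aeval (ModularCurve.jqModC ℂ) (P.map R.subtype) *
          HahnSeries.ofPowerSeries ℤ ℂ Δs ^ M := by
  obtain ⟨c, hc, hexp⟩ := exists_basis_expansion R M hk g hg
  refine ⟨∑ b ∈ Finset.range (M + 1), Polynomial.C (⟨c b, hc b⟩ : R) * Polynomial.X ^ (M - b),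
    ?_, ?_⟩
  · refine Polynomial.natDegree_sum_le_of_forall_le _ _ fun b _ => ?_
    exact (Polynomial.natDegree_C_mul_X_pow_le _ _).trans (Nat.sub_le _ _)
  · rw [hexp, map_sum, Polynomial.map_sum, map_sum, Finset.sum_mul]
    refine Finset.sum_congr rfl fun b hb => ?_
    have hbM : b ≤ M := Nat.lt_succ_iff.mp (Finset.mem_range.mp hb)
    simp only [Polynomial.map_mul, Polynomial.map_C, Polynomial.map_pow, Polynomial.map_X,
      Subring.coe_subtype, map_mul, map_pow, Polynomial.aeval_C, Polynomial.aeval_X,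
      ofPowerSeries_C_eq_algebraMap]
    have h3 : HahnSeries.ofPowerSeries ℤ ℂ E4s ^ (3 * (M - b)) =
        (ModularCurve.jqModC ℂ * HahnSeries.ofPowerSeries ℤ ℂ Δs) ^ (M - b) := by
      rw [jqModC_mul_Δs, map_pow, ← pow_mul]
    rw [h3, mul_pow]
    conv_rhs => rw [← Nat.sub_add_cancel hbM, pow_add]
    rw [Nat.add_sub_cancel]
    ring

end
end Fermat.Agent.Lib.helper941
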