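import Mathlib
import Fermat.Agent.S05.helper1745_XOnly

/-!
# A sharp x-only ladder for multiplication by `n` on a Weierstrass curve (helper956)

For `b₂ b₄ b₆ b₈` in a commutative ring `R` we define polynomials `(ladX n, ladZ n)` in `R[X]`
by the binary ladder (doubling and differential addition with difference `P`).  They satisfy
`natDegree (ladX n) ≤ n²` with coefficient `1` in degree `n²`, and `natDegree (ladZ n) ≤ n² - 1`
with coefficient `n²` in degree `n² - 1`.  On a Weierstrass curve `W` over a field and an affine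
nonsingular point `P = (x, y)`, the pair `(ladX n (x), ladZ n (x))` is a nonzero multiple of the
projective `x`-coordinate of `n • P`.

For an odd number `p = 2m + 1` the polynomial `psi m = ladX (m+1) * ladZ m - ladX m * ladZ (m+1)`
has degree at most `(p² - 1)/2` with coefficient `-p` in that degree, and vanishes at `x` iff
`p • P = 0`.
-/

set_option autoImplicit false

namespace Fermat.Agent.Lib.helper956

open Polynomial

section Defs

variable {R : Type*} [CommRing R]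

/-- numerator of the `x`-coordinate of `2Q` in projective form -/
def dblX (b₄ b₆ b₈ a b : R) : R :=
  a ^ 4 - b₄ * a ^ 2 * b ^ 2 - 2 * b₆ * a * b ^ 3 - b₈ * b ^ 4

/-- denominator of the `x`-coordinate of `2Q` in projective form -/
def dblZ (b₂ b₄ b₆ a b : R) : R :=
  4 * a ^ 3 * b + b₂ * a ^ 2 * b ^ 2 + 2 * b₄ * a * b ^ 3 + b₆ * b ^ 4

/-- denominator of the `x`-coordinate of `Q + Q'` (differential addition) -/
def daddZ (a b a' b' : R) : R := (a' * b - a * b') ^ 2

/-- numerator of the `x`-coordinate of `Q + Q'`, where `x = x(Q' - Q)` (differential addition) -/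
def daddX (b₂ b₄ b₆ x a b a' b' : R) : R :=
  (a' * b + a * b') * (2 * a' * a + b₄ * b' * b) + b₂ * a' * a * b' * b + b₆ * b' ^ 2 * b ^ 2
    - x * (a' * b - a * b') ^ 2

variable (b₂ b₄ b₆ b₈ : R)

/-- The ladder polynomials `(X_n, Z_n)`. -/
noncomputable def lad : ℕ → R[X] × R[X]
  | 0 => (1, 0)
  | 1 => (X, 1)
  | (n + 2) =>
    if h : (n + 2) % 2 = 0 then
      (dblX (C b₄) (C b₆) (C b₈) (lad ((n + 2) / 2)).1 (lad ((n + 2) / 2)).2,
        dblZ (C b₂) (C b₄) (C b₆) (lad ((n + 2) / 2)).1 (lad ((n + 2) / 2)).2)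
    else
      (daddX (C b₂) (C b₄) (C b₆) X (lad ((n + 2) / 2)).1 (lad ((n + 2) / 2)).2
          (lad ((n + 2) / 2 + 1)).1 (lad ((n + 2) / 2 + 1)).2,
        daddZ (lad ((n + 2) / 2)).1 (lad ((n + 2) / 2)).2
          (lad ((n + 2) / 2 + 1)).1 (lad ((n + 2) / 2 + 1)).2)
termination_by n => n
decreasing_by all_goals omega

theorem lad_zero : lad b₂ b₄ b₆ b₈ 0 = (1, 0) := by rw [lad]

theorem lad_one : lad b₂ b₄ b₆ b₈ 1 = (X, 1) := by rw [lad]

theorem lad_even (k : ℕ) (hk : 1 ≤ k) :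
    lad b₂ b₄ b₆ b₈ (2 * k) =
      (dblX (C b₄) (C b₆) (C b₈) (lad b₂ b₄ b₆ b₈ k).1 (lad b₂ b₄ b₆ b₈ k).2,
        dblZ (C b₂) (C b₄) (C b₆) (lad b₂ b₄ b₆ b₈ k).1 (lad b₂ b₄ b₆ b₈ k).2) := by
  obtain ⟨n, hn⟩ : ∃ n, 2 * k = n + 2 := ⟨2 * k - 2, by omega⟩
  rw [hn, lad]
  have h1 : (n + 2) % 2 = 0 := by omega
  have h2 : (n + 2) / 2 = k := by omega
  rw [dif_pos h1, h2]

theorem lad_odd (k : ℕ) (hk : 1 ≤ k) :
    lad b₂ b₄ b₆ b₈ (2 * k + 1) =
      (daddX (C b₂) (C b₄) (C b₆) X (lad b₂ b₄ b₆ b₈ k).1 (lad b₂ b₄ b₆ b₈ k).2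
          (lad b₂ b₄ b₆ b₈ (k + 1)).1 (lad b₂ b₄ b₆ b₈ (k + 1)).2,
        daddZ (lad b₂ b₄ b₆ b₈ k).1 (lad b₂ b₄ b₆ b₈ k).2
          (lad b₂ b₄ b₆ b₈ (k + 1)).1 (lad b₂ b₄ b₆ b₈ (k + 1)).2) := by
  obtain ⟨n, hn⟩ : ∃ n, 2 * k + 1 = n + 2 := ⟨2 * k - 1, by omega⟩
  rw [hn, lad]
  have h1 : ¬ (n + 2) % 2 = 0 := by omega
  have h2 : (n + 2) / 2 = k := by omega
  rw [dif_neg h1, h2]

/-- Induction along the binary ladder. -/
theorem ladder_induction {motive : ℕ → Prop} (h0 : motive 0) (h1 : motive 1)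
    (heven : ∀ k, 1 ≤ k → motive k → motive (2 * k))
    (hodd : ∀ k, 1 ≤ k → motive k → motive (k + 1) → motive (2 * k + 1)) :
    ∀ n, motive n := by
  intro n
  induction n using Nat.strong_induction_on with
  | _ n ih =>
    rcases Nat.even_or_odd' n with ⟨k, rfl | rfl⟩
    · rcases Nat.eq_zero_or_pos k with rfl | hk
      · exact h0
      · exact heven k hk (ih k (by omega))
    · rcases Nat.eq_zero_or_pos k with rfl | hk
      · exact h1
      · exact hodd k hk (ih k (by omega)) (ih (k + 1) (by omega))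

end Defs

section Map

variable {R S : Type*} [CommRing R] [CommRing S] (f : R →+* S) (b₂ b₄ b₆ b₈ : R)

theorem lad_map (n : ℕ) :
    lad (f b₂) (f b₄) (f b₆) (f b₈) n =
      ((lad b₂ b₄ b₆ b₈ n).1.map f, (lad b₂ b₄ b₆ b₈ n).2.map f) := by
  induction n using ladder_induction with
  | h0 => simp [lad_zero]
  | h1 => simp [lad_one]
  | heven k hk ih =>
    rw [lad_even _ _ _ _ k hk, lad_even _ _ _ _ k hk, ih]
    simp [dblX, dblZ]
  | hodd k hk ih ih' =>
    rw [lad_odd _ _ _ _ k hk, lad_odd _ _ _ _ k hk, ih, ih']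
    simp [daddX, daddZ]

end Map

section Degree

variable {R : Type*} [CommRing R]

/-- `p` has degree at most `d` and its `d`-th coefficient is `a`. -/
def IsLC (p : R[X]) (d : ℕ) (a : R) : Prop := p.natDegree ≤ d ∧ p.coeff d = a

theorem IsLC.mul {p q : R[X]} {d e : ℕ} {a b : R} (hp : IsLC p d a) (hq : IsLC q e b) :
    IsLC (p * q) (d + e) (a * b) :=
  ⟨natDegree_mul_le_of_le hp.1 hq.1, by rw [coeff_mul_add_eq_of_natDegree_le hp.1 hq.1, hp.2, hq.2]⟩

theorem IsLC.pow {p : R[X]} {d : ℕ} {a : R} (hp : IsLC p d a) (k : ℕ) :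
    IsLC (p ^ k) (k * d) (a ^ k) :=
  ⟨natDegree_pow_le_of_le k hp.1, by rw [coeff_pow_of_natDegree_le hp.1, hp.2]⟩

theorem IsLC.add {p q : R[X]} {d : ℕ} {a b : R} (hp : IsLC p d a) (hq : IsLC q d b) :
    IsLC (p + q) d (a + b) :=
  ⟨natDegree_add_le_of_degree_le hp.1 hq.1, by rw [coeff_add, hp.2, hq.2]⟩

theorem IsLC.sub {p q : R[X]} {d : ℕ} {a b : R} (hp : IsLC p d a) (hq : IsLC q d b) :
    IsLC (p - q) d (a - b) :=
  ⟨(natDegree_sub_le_of_le hp.1 hq.1).trans (max_self d).le, by rw [coeff_sub, hp.2, hq.2]⟩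

theorem IsLC.lift {p : R[X]} {d e : ℕ} {a : R} (hp : IsLC p d a) (hde : d < e) : IsLC p e 0 :=
  ⟨hp.1.trans hde.le, coeff_eq_zero_of_natDegree_lt (lt_of_le_of_lt hp.1 hde)⟩

theorem IsLC.congr {p : R[X]} {d e : ℕ} {a b : R} (hp : IsLC p d a) (hde : d = e)
    (hab : a = b) : IsLC p e b := by
  subst hde hab; exact hp

theorem isLC_C (a : R) : IsLC (C a) 0 a := ⟨(natDegree_C a).le, coeff_C_zero⟩

theorem isLC_X : IsLC (X : R[X]) 1 1 := ⟨natDegree_X_le, coeff_X_one⟩

theorem isLC_two : IsLC (2 : R[X]) 0 2 := by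
  have h : (2 : R[X]) = C 2 := (map_ofNat (C : R →+* R[X]) 2).symm
  rw [h]; exact isLC_C 2

theorem isLC_four : IsLC (4 : R[X]) 0 4 := by
  have h : (4 : R[X]) = C 4 := (map_ofNat (C : R →+* R[X]) 4).symm
  rw [h]; exact isLC_C 4

theorem IsLC.ne_zero {p : R[X]} {d : ℕ} {a : R} (hp : IsLC p d a) (ha : a ≠ 0) : p ≠ 0 := by
  rintro rfl
  exact ha (by rw [← hp.2, coeff_zero])

theorem IsLC.natDegree_eq {p : R[X]} {d : ℕ} {a : R} (hp : IsLC p d a) (ha : a ≠ 0) :
    p.natDegree = d :=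
  le_antisymm hp.1 (le_natDegree_of_ne_zero (by rw [hp.2]; exact ha))

variable (b₂ b₄ b₆ b₈ : R)

/-- degrees and leading coefficients after a doubling step -/
theorem isLC_dbl {A B : R[X]} {s : ℕ} {c : R} (hs : 1 ≤ s) (hA : IsLC A s 1)
    (hB : IsLC B (s - 1) c) :
    IsLC (dblX (C b₄) (C b₆) (C b₈) A B) (4 * s) 1 ∧
      IsLC (dblZ (C b₂) (C b₄) (C b₆) A B) (4 * s - 1) (4 * c) := by
  constructor
  · have t1 : IsLC (A ^ 4) (4 * s) 1 := (hA.pow 4).congr rfl (by simp)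
    have t2 : IsLC (C b₄ * A ^ 2 * B ^ 2) (4 * s) 0 :=
      (((isLC_C b₄).mul (hA.pow 2)).mul (hB.pow 2)).lift (by omega)
    have t3 : IsLC (2 * C b₆ * A * B ^ 3) (4 * s) 0 :=
      ((((isLC_two).mul (isLC_C b₆)).mul hA).mul (hB.pow 3)).lift (by omega)
    have t4 : IsLC (C b₈ * B ^ 4) (4 * s) 0 :=
      ((isLC_C b₈).mul (hB.pow 4)).lift (by omega)
    exact (((t1.sub t2).sub t3).sub t4).congr rfl (by simp)
  · have t1 : IsLC (4 * A ^ 3 * B) (4 * s - 1) (4 * c) :=
      (((isLC_four).mul (hA.pow 3)).mul hB).congr (by omega) (by simp)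
    have t2 : IsLC (C b₂ * A ^ 2 * B ^ 2) (4 * s - 1) 0 :=
      (((isLC_C b₂).mul (hA.pow 2)).mul (hB.pow 2)).lift (by omega)
    have t3 : IsLC (2 * C b₄ * A * B ^ 3) (4 * s - 1) 0 :=
      ((((isLC_two).mul (isLC_C b₄)).mul hA).mul (hB.pow 3)).lift (by omega)
    have t4 : IsLC (C b₆ * B ^ 4) (4 * s - 1) 0 :=
      ((isLC_C b₆).mul (hB.pow 4)).lift (by omega)
    exact (((t1.add t2).add t3).add t4).congr rfl (by simp)

/-- degrees and leading coefficients of the cross difference `A' B - A B'` -/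
theorem isLC_cross {A B A' B' : R[X]} {s s' : ℕ} {c c' : R} (hs : 1 ≤ s) (hs' : 1 ≤ s')
    (hA : IsLC A s 1) (hB : IsLC B (s - 1) c) (hA' : IsLC A' s' 1) (hB' : IsLC B' (s' - 1) c') :
    IsLC (A' * B - A * B') (s + s' - 1) (c - c') :=
  (((hA'.mul hB).congr (by omega) (one_mul c)).sub
    ((hA.mul hB').congr (by omega) (one_mul c')))

/-- degrees and leading coefficients after a differential addition step -/
theorem isLC_dadd {A B A' B' : R[X]} {s s' : ℕ} {c c' : R} (hs : 1 ≤ s) (hs' : 1 ≤ s')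
    (hA : IsLC A s 1) (hB : IsLC B (s - 1) c) (hA' : IsLC A' s' 1) (hB' : IsLC B' (s' - 1) c') :
    IsLC (daddX (C b₂) (C b₄) (C b₆) X A B A' B') (2 * s + 2 * s' - 1)
        (2 * (c + c') - (c - c') ^ 2) ∧
      IsLC (daddZ A B A' B') (2 * s + 2 * s' - 2) ((c - c') ^ 2) := by
  have hcross := isLC_cross hs hs' hA hB hA' hB'
  have hZ : IsLC ((A' * B - A * B') ^ 2) (2 * s + 2 * s' - 2) ((c - c') ^ 2) :=
    (hcross.pow 2).congr (by omega) rfl
  refine ⟨?_, hZ⟩
  have hU : IsLC (A' * B + A * B') (s + s' - 1) (c + c') :=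
    (((hA'.mul hB).congr (by omega) (one_mul c)).add
      ((hA.mul hB').congr (by omega) (one_mul c')))
  have hV1 : IsLC (2 * A' * A) (s + s') 2 :=
    (((isLC_two).mul hA').mul hA).congr (by omega) (by simp)
  have hV2 : IsLC (C b₄ * B' * B) (s + s') 0 :=
    (((isLC_C b₄).mul hB').mul hB).lift (by omega)
  have hV : IsLC (2 * A' * A + C b₄ * B' * B) (s + s') 2 := (hV1.add hV2).congr rfl (by simp)
  have hUV := (hU.mul hV).congr (e := 2 * s + 2 * s' - 1) (by omega) rfl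
  have t3 : IsLC (C b₂ * A' * A * B' * B) (2 * s + 2 * s' - 1) 0 :=
    (((((isLC_C b₂).mul hA').mul hA).mul hB').mul hB).lift (by omega)
  have t4 : IsLC (C b₆ * B' ^ 2 * B ^ 2) (2 * s + 2 * s' - 1) 0 :=
    (((isLC_C b₆).mul (hB'.pow 2)).mul (hB.pow 2)).lift (by omega)
  have t5 : IsLC (X * (A' * B - A * B') ^ 2) (2 * s + 2 * s' - 1) ((c - c') ^ 2) :=
    (isLC_X.mul hZ).congr (by omega) (one_mul _)
  exact (((hUV.add t3).add t4).sub t5).congr rfl (by ring)

/-- **Degrees of the ladder polynomials**: `X_n` has degree `≤ n²` and coefficient `1` there,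
`Z_n` has degree `≤ n² - 1` and coefficient `n²` there. -/
theorem lad_isLC (n : ℕ) :
    IsLC (lad b₂ b₄ b₆ b₈ n).1 (n * n) 1 ∧ IsLC (lad b₂ b₄ b₆ b₈ n).2 (n * n - 1) ((n : R) ^ 2) := by
  induction n using ladder_induction with
  | h0 =>
    rw [lad_zero]
    exact ⟨⟨by simp, by simp⟩, ⟨by simp, by simp⟩⟩
  | h1 =>
    rw [lad_one]
    exact ⟨isLC_X, ⟨by simp, by simp⟩⟩
  | heven k hk ih =>
    rw [lad_even _ _ _ _ k hk]
    have hs : 1 ≤ k * k := Nat.mul_pos hk hk
    obtain ⟨h1, h2⟩ := isLC_dbl b₂ b₄ b₆ b₈ hs ih.1 ih.2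
    have e : 2 * k * (2 * k) = 4 * (k * k) := by ring
    exact ⟨h1.congr e.symm rfl, h2.congr (by rw [e]) (by push_cast; ring)⟩
  | hodd k hk ih ih' =>
    rw [lad_odd _ _ _ _ k hk]
    have hs : 1 ≤ k * k := Nat.mul_pos hk hk
    have hs' : 1 ≤ (k + 1) * (k + 1) := Nat.mul_pos (Nat.succ_pos k) (Nat.succ_pos k)
    obtain ⟨h1, h2⟩ := isLC_dadd b₂ b₄ b₆ hs hs' ih.1 ih.2 ih'.1 ih'.2
    have e : (2 * k + 1) * (2 * k + 1) = 2 * (k * k) + 2 * ((k + 1) * (k + 1)) - 1 := by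
      have : (k + 1) * (k + 1) = k * k + 2 * k + 1 := by ring
      have : (2 * k + 1) * (2 * k + 1) = 4 * (k * k) + 4 * k + 1 := by ring
      omega
    refine ⟨h1.congr e.symm (by push_cast; ring), h2.congr (by rw [e]; omega) (by push_cast; ring)⟩

/-- The odd division polynomial (up to sign) for `p = 2m + 1`. -/
noncomputable def psi (m : ℕ) : R[X] :=
  (lad b₂ b₄ b₆ b₈ (m + 1)).1 * (lad b₂ b₄ b₆ b₈ m).2 -
    (lad b₂ b₄ b₆ b₈ m).1 * (lad b₂ b₄ b₆ b₈ (m + 1)).2

/-- `psi m` has degree `≤ 2m² + 2m = ((2m+1)² - 1)/2` and coefficient `-(2m+1)` there. -/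
theorem psi_isLC (m : ℕ) :
    IsLC (psi b₂ b₄ b₆ b₈ m) (2 * (m * m) + 2 * m) (-((2 * m + 1 : ℕ) : R)) := by
  rcases Nat.eq_zero_or_pos m with rfl | hm
  · simp only [psi, zero_add, lad_zero, lad_one]
    refine ⟨by simp, by simp⟩
  · have hs : 1 ≤ m * m := Nat.mul_pos hm hm
    have hs' : 1 ≤ (m + 1) * (m + 1) := Nat.mul_pos (Nat.succ_pos m) (Nat.succ_pos m)
    have h := isLC_cross hs hs' (lad_isLC b₂ b₄ b₆ b₈ m).1 (lad_isLC b₂ b₄ b₆ b₈ m).2
      (lad_isLC b₂ b₄ b₆ b₈ (m + 1)).1 (lad_isLC b₂ b₄ b₆ b₈ (m + 1)).2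
    refine h.congr ?_ (by push_cast; ring)
    have : (m + 1) * (m + 1) = m * m + 2 * m + 1 := by ring
    omega

theorem psi_map {S : Type*} [CommRing S] (f : R →+* S) (m : ℕ) :
    psi (f b₂) (f b₄) (f b₆) (f b₈) m = (psi b₂ b₄ b₆ b₈ m).map f := by
  simp [psi, lad_map]

end Degree

section Correct

open WeierstrassCurve WeierstrassCurve.Affine
open Fermat.Agent.S05

variable {F : Type*} [Field F] (W : Affine F)

/-- `(a : b)` is a projective `x`-coordinate of the point `Q`. -/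
def Rep (Q : W.Point) (a b : F) : Prop :=
  match Q with
  | .zero => b = 0 ∧ a ≠ 0
  | .some x _ _ => b ≠ 0 ∧ a = x * b

theorem rep_zero {a b : F} : Rep W 0 a b ↔ b = 0 ∧ a ≠ 0 := Iff.rfl

theorem rep_some {x y : F} (h : W.Nonsingular x y) {a b : F} :
    Rep W (Point.some x y h) a b ↔ b ≠ 0 ∧ a = x * b := Iff.rfl

theorem rep_eq_zero_iff {Q : W.Point} {a b : F} (hQ : Rep W Q a b) : b = 0 ↔ Q = 0 := by
  rcases Q with _ | ⟨x, y, h⟩
  · exact ⟨fun _ => rfl, fun _ => hQ.1⟩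
  · exact ⟨fun hb => absurd hb hQ.1, fun h0 => absurd h0 (Point.some_ne_zero h)⟩

/-- At a nonsingular point with `2P = 0`, the numerator of the duplication formula is nonzero. -/
theorem dbl_num_ne_zero {x y : F} (h : W.Nonsingular x y) (hy : y = W.negY x y) :
    x ^ 4 - W.b₄ * x ^ 2 - 2 * W.b₆ * x - W.b₈ ≠ 0 := by
  have hn : W.a₁ * y - (3 * x ^ 2 + 2 * W.a₂ * x + W.a₄) ≠ 0 := by
    rcases ((W.nonsingular_iff' x y).mp h).2 with h1 | h2
    · exact h1
    · exfalso
      apply h2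
      simp only [negY] at hy
      linear_combination hy
  have he := (W.equation_iff x y).mp h.1
  have hψ : 2 * y + W.a₁ * x + W.a₃ = 0 := by
    simp only [negY] at hy
    linear_combination hy
  have key : x ^ 4 - W.b₄ * x ^ 2 - 2 * W.b₆ * x - W.b₈ =
      (W.a₁ * y - (3 * x ^ 2 + 2 * W.a₂ * x + W.a₄)) ^ 2 := by
    simp only [WeierstrassCurve.b₄, WeierstrassCurve.b₆, WeierstrassCurve.b₈]
    linear_combination (W.a₁ ^ 2 + 4 * W.a₂ + 8 * x) * he +
      (W.a₁ * (3 * x ^ 2 + 2 * W.a₂ * x + W.a₄ - W.a₁ * y) -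
        (W.a₂ + 2 * x) * (2 * y + W.a₁ * x + W.a₃)) * hψ
  rw [key]
  exact pow_ne_zero 2 hn

variable [DecidableEq F]

theorem rep_dbl {Q : W.Point} {a b : F} (hQ : Rep W Q a b) :
    Rep W (Q + Q) (dblX W.b₄ W.b₆ W.b₈ a b) (dblZ W.b₂ W.b₄ W.b₆ a b) := by
  rcases Q with _ | ⟨x, y, h⟩
  · obtain ⟨hb, ha⟩ := hQ
    have e : (Point.zero : W.Point) + Point.zero = 0 := add_zero (0 : W.Point)
    rw [e, rep_zero]
    subst hb
    refine ⟨by simp [dblZ], ?_⟩
    simp only [dblX]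
    simpa using ha
  · obtain ⟨hb, ha⟩ := hQ
    subst ha
    by_cases hy : y = W.negY x y
    · rw [Point.add_self_of_Y_eq hy, rep_zero]
      have hg := (helper1745.y_eq_negY_iff h.left).mp hy
      refine ⟨?_, ?_⟩
      · simp only [dblZ]
        linear_combination b ^ 4 * hg
      · have hne := dbl_num_ne_zero W h hy
        have e : dblX W.b₄ W.b₆ W.b₈ (x * b) b =
            b ^ 4 * (x ^ 4 - W.b₄ * x ^ 2 - 2 * W.b₆ * x - W.b₈) := by
          simp only [dblX]; ring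
        rw [e]
        exact mul_ne_zero (pow_ne_zero 4 hb) hne
    · obtain ⟨X, Y, h', hadd, hX, hg⟩ := helper1745.exists_add_self_some h hy
      rw [hadd, rep_some]
      have e : dblZ W.b₂ W.b₄ W.b₆ (x * b) b =
          b ^ 4 * (4 * x ^ 3 + W.b₂ * x ^ 2 + 2 * W.b₄ * x + W.b₆) := by
        simp only [dblZ]; ring
      refine ⟨?_, ?_⟩
      · rw [e]
        exact mul_ne_zero (pow_ne_zero 4 hb) hg
      · rw [e]
        simp only [dblX]
        linear_combination (-b ^ 4) * hX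

theorem rep_dadd {x y : F} (h : W.Nonsingular x y) {Q : W.Point} {a b a' b' : F}
    (hQ : Rep W Q a b) (hQ' : Rep W (Q + Point.some x y h) a' b') :
    Rep W (Q + (Q + Point.some x y h)) (daddX W.b₂ W.b₄ W.b₆ x a b a' b') (daddZ a b a' b') := by
  rcases Q with _ | ⟨x₁, y₁, h₁⟩
  · obtain ⟨hb, ha⟩ := hQ
    have e : (Point.zero : W.Point) + Point.some x y h = Point.some x y h :=
      zero_add (Point.some x y h)
    rw [e] at hQ' ⊢
    rw [e]
    obtain ⟨hb', ha'⟩ := hQ'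
    subst hb ha'
    rw [rep_some]
    refine ⟨?_, ?_⟩
    · simp only [daddZ]
      simpa using ⟨ha, hb'⟩
    · simp only [daddX, daddZ]
      ring
  · obtain ⟨hb, ha⟩ := hQ
    subst ha
    generalize hQ'def : Point.some x₁ y₁ h₁ + Point.some x y h = Q' at hQ' ⊢
    rcases Q' with _ | ⟨x₂, y₂, h₂⟩
    · -- `Q' = 0`, so `Q = -P` and `x₁ = x`
      obtain ⟨hb', ha'⟩ := hQ'
      have e : Point.some x₁ y₁ h₁ + (Point.zero : W.Point) = Point.some x₁ y₁ h₁ :=
        add_zero (Point.some x₁ y₁ h₁)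
      have hx : x₁ = x := by
        have h0 : Point.some x₁ y₁ h₁ + Point.some x y h = 0 := hQ'def
        rw [add_eq_zero_iff_eq_neg, Point.neg_some, Point.some.injEq] at h0
        exact h0.1
      subst hb' hx
      rw [e, rep_some]
      refine ⟨?_, ?_⟩
      · simp only [daddZ]
        simpa using ⟨ha', hb⟩
      · simp only [daddX, daddZ]
        ring
    · obtain ⟨hb', ha'⟩ := hQ'
      subst ha'
      by_cases hx : x₁ = x₂
      · subst hx
        have hyy : y₁ ≠ y₂ := by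
          rintro rfl
          have : Point.some x₁ y₁ h₁ + Point.some x y h = Point.some x₁ y₁ h₁ := hQ'def
          rw [add_eq_left] at this
          exact Point.some_ne_zero h this
        have hneg : y₁ = W.negY x₁ y₂ := by
          by_contra hne
          exact hyy (Y_eq_of_Y_ne h₁.1 h₂.1 rfl hne)
        rw [Point.add_of_Y_eq rfl hneg, rep_zero]
        have hy1 : y₁ ≠ W.negY x₁ y₁ := by
          intro h1
          apply hyy
          have : W.negY x₁ y₂ = W.negY x₁ y₁ := by rw [← hneg, ← h1]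
          simp only [negY] at this
          linear_combination this
        have hg : 4 * x₁ ^ 3 + W.b₂ * x₁ ^ 2 + 2 * W.b₄ * x₁ + W.b₆ ≠ 0 :=
          fun h0 => hy1 ((helper1745.y_eq_negY_iff h₁.left).mpr h0)
        refine ⟨?_, ?_⟩
        · simp only [daddZ]
          ring
        · have e : daddX W.b₂ W.b₄ W.b₆ x (x₁ * b) b (x₁ * b') b' =
              (b * b') ^ 2 * (4 * x₁ ^ 3 + W.b₂ * x₁ ^ 2 + 2 * W.b₄ * x₁ + W.b₆) := by
            simp only [daddX]; ring
          rw [e]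
          exact mul_ne_zero (pow_ne_zero 2 (mul_ne_zero hb hb')) hg
      · obtain ⟨Xp, Yp, Xm, Ym, hp, hm, hadd, hsub, -, hsum⟩ :=
          helper1745.exists_add_sub_some h₂ h₁ (Ne.symm hx)
        have hXm : Xm = x := by
          have h0 : Point.some x₂ y₂ h₂ - Point.some x₁ y₁ h₁ = Point.some x y h := by
            rw [← hQ'def, add_sub_cancel_left]
          rw [hsub, Point.some.injEq] at h0
          exact h0.1
        subst hXm
        rw [add_comm, hadd, rep_some]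
        have e : daddZ (x₁ * b) b (x₂ * b') b' = (b * b') ^ 2 * (x₂ - x₁) ^ 2 := by
          simp only [daddZ]; ring
        refine ⟨?_, ?_⟩
        · rw [e]
          exact mul_ne_zero (pow_ne_zero 2 (mul_ne_zero hb hb'))
            (pow_ne_zero 2 (sub_ne_zero.mpr (Ne.symm hx)))
        · rw [e]
          simp only [daddX]
          linear_combination (-(b * b') ^ 2) * hsum

/-- **Correctness of the ladder**: `(X_n(x), Z_n(x))` is a projective `x`-coordinate of `n • P`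
for every nonsingular affine point `P = (x, y)`. -/
theorem rep_nsmul {x y : F} (h : W.Nonsingular x y) (n : ℕ) :
    Rep W (n • Point.some x y h) ((lad W.b₂ W.b₄ W.b₆ W.b₈ n).1.eval x)
      ((lad W.b₂ W.b₄ W.b₆ W.b₈ n).2.eval x) := by
  induction n using ladder_induction with
  | h0 =>
    rw [lad_zero, zero_smul, rep_zero]
    simp
  | h1 =>
    rw [lad_one, one_smul, rep_some]
    simp
  | heven k hk ih =>
    rw [lad_even _ _ _ _ k hk, two_mul, add_smul]
    have := rep_dbl W ih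
    simpa [dblX, dblZ] using this
  | hodd k hk ih ih' =>
    rw [lad_odd _ _ _ _ k hk]
    have e : (2 * k + 1) • Point.some x y h =
        k • Point.some x y h + (k • Point.some x y h + Point.some x y h) := by
      rw [add_smul, two_mul, add_smul, one_smul, add_assoc]
    rw [add_smul, one_smul] at ih'
    rw [e]
    have := rep_dadd W h ih ih'
    simpa [daddX, daddZ] using this

end Correct

section Torsion

open WeierstrassCurve WeierstrassCurve.Affine
open Fermat.Agent.S05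

variable {F : Type*} [Field F] [DecidableEq F] (W : Affine F)

/-- `Z_n(x(P)) = 0` iff `n • P = 0`. -/
theorem ladZ_eval_eq_zero_iff {x y : F} (h : W.Nonsingular x y) (n : ℕ) :
    (lad W.b₂ W.b₄ W.b₆ W.b₈ n).2.eval x = 0 ↔ n • Point.some x y h = 0 :=
  rep_eq_zero_iff W (rep_nsmul W h n)

/-- If `n • P = (x', y')` is affine then `x' = X_n(x) / Z_n(x)`, in the form
`X_n(x) = x' * Z_n(x)` with `Z_n(x) ≠ 0`. -/
theorem ladX_eval_eq {x y : F} (h : W.Nonsingular x y) (n : ℕ) {x' y' : F}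
    {h' : W.Nonsingular x' y'} (hn : n • Point.some x y h = Point.some x' y' h') :
    (lad W.b₂ W.b₄ W.b₆ W.b₈ n).2.eval x ≠ 0 ∧
      (lad W.b₂ W.b₄ W.b₆ W.b₈ n).1.eval x = x' * (lad W.b₂ W.b₄ W.b₆ W.b₈ n).2.eval x := by
  have := rep_nsmul W h n
  rw [hn] at this
  exact this

/-- **The odd division polynomial**: for an affine point `P = (x, y)`,
`psi m (x) = 0` iff `(2m+1) • P = 0`. -/
theorem psi_eval_eq_zero_iff {x y : F} (h : W.Nonsingular x y) (m : ℕ) :
    (psi W.b₂ W.b₄ W.b₆ W.b₈ m).eval x = 0 ↔ (2 * m + 1) • Point.some x y h = 0 := by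
  have hQ := rep_nsmul W h m
  have hQ' := rep_nsmul W h (m + 1)
  have e : (2 * m + 1) • Point.some x y h =
      m • Point.some x y h + (m + 1) • Point.some x y h := by
    rw [← add_smul]; congr 1; ring
  have e' : (m + 1) • Point.some x y h = m • Point.some x y h + Point.some x y h := by
    rw [add_smul, one_smul]
  have hpsi : (psi W.b₂ W.b₄ W.b₆ W.b₈ m).eval x =
      (lad W.b₂ W.b₄ W.b₆ W.b₈ (m + 1)).1.eval x * (lad W.b₂ W.b₄ W.b₆ W.b₈ m).2.eval x -
        (lad W.b₂ W.b₄ W.b₆ W.b₈ m).1.eval x * (lad W.b₂ W.b₄ W.b₆ W.b₈ (m + 1)).2.eval x := by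
    simp [psi]
  rw [hpsi, e]
  generalize (lad W.b₂ W.b₄ W.b₆ W.b₈ m).1.eval x = a at hQ ⊢
  generalize (lad W.b₂ W.b₄ W.b₆ W.b₈ m).2.eval x = b at hQ ⊢
  generalize (lad W.b₂ W.b₄ W.b₆ W.b₈ (m + 1)).1.eval x = a' at hQ' ⊢
  generalize (lad W.b₂ W.b₄ W.b₆ W.b₈ (m + 1)).2.eval x = b' at hQ' ⊢
  generalize hQdef : m • Point.some x y h = Q at hQ e' ⊢
  generalize hQ'def : (m + 1) • Point.some x y h = Q' at hQ' e' ⊢
  have hP : Point.some x y h ≠ 0 := Point.some_ne_zero h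
  rcases Q with _ | ⟨x₁, y₁, h₁⟩
  · -- `Q = 0`, so `Q' = P`
    obtain ⟨hb, ha⟩ := hQ
    have e0 : (Point.zero : W.Point) + Point.some x y h = Point.some x y h :=
      zero_add (Point.some x y h)
    rw [e0] at e'
    subst e'
    obtain ⟨hb', -⟩ := hQ'
    have e1 : (Point.zero : W.Point) + Point.some x y h = Point.some x y h := e0
    rw [e1]
    subst hb
    constructor
    · intro h0
      exfalso
      have : a * b' = 0 := by linear_combination -h0
      rcases mul_eq_zero.mp this with h1 | h1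
      · exact ha h1
      · exact hb' h1
    · intro h0
      exact absurd h0 hP
  · obtain ⟨hb, ha⟩ := hQ
    subst ha
    rcases Q' with _ | ⟨x₂, y₂, h₂⟩
    · obtain ⟨hb', ha'⟩ := hQ'
      subst hb'
      have e1 : Point.some x₁ y₁ h₁ + (Point.zero : W.Point) = Point.some x₁ y₁ h₁ :=
        add_zero (Point.some x₁ y₁ h₁)
      rw [e1]
      constructor
      · intro h0
        exfalso
        have : a' * b = 0 := by linear_combination h0
        rcases mul_eq_zero.mp this with h1 | h1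
        · exact ha' h1
        · exact hb h1
      · intro h0
        exact absurd h0 (Point.some_ne_zero h₁)
    · obtain ⟨hb', ha'⟩ := hQ'
      subst ha'
      have hyy : x₁ = x₂ → y₁ ≠ y₂ := by
        rintro rfl rfl
        have : Point.some x₁ y₁ h₁ = Point.some x₁ y₁ h₁ + Point.some x y h := e'
        rw [eq_comm, add_eq_left] at this
        exact hP this
      constructor
      · intro h0
        have hx : x₁ = x₂ := by
          have : (x₂ - x₁) * (b * b') = 0 := by linear_combination h0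
          rcases mul_eq_zero.mp this with h1 | h1
          · exact (sub_eq_zero.mp h1).symm
          · exact absurd h1 (mul_ne_zero hb hb')
        subst hx
        have hneg : y₁ = W.negY x₁ y₂ := by
          by_contra hne
          exact hyy rfl (Y_eq_of_Y_ne h₁.1 h₂.1 rfl hne)
        exact Point.add_of_Y_eq rfl hneg
      · intro h0
        rw [add_eq_zero_iff_eq_neg, Point.neg_some, Point.some.injEq] at h0
        obtain ⟨hx, -⟩ := h0
        subst hx
        ring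

end Torsion

section Divisibility

/-- In a domain, the product of finitely many distinct roots of `f` divides `f(0)`. -/
theorem prod_dvd_coeff_zero_of_roots {A : Type*} [CommRing A] [IsDomain A] (f : A[X])
    (s : Finset A) (hs : ∀ r ∈ s, f.eval r = 0) : (∏ r ∈ s, r) ∣ f.coeff 0 := by
  by_cases hf : f = 0
  · rw [hf, coeff_zero]; exact dvd_zero _
  have hle : s.val ≤ f.roots := by
    rw [Multiset.le_iff_subset s.nodup]
    intro r hr
    exact (mem_roots hf).mpr (hs r hr)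
  obtain ⟨q, hq⟩ := (Multiset.prod_X_sub_C_dvd_iff_le_roots hf s.val).mpr hle
  have h0 : f.coeff 0 = (∏ r ∈ s, (-r)) * q.eval 0 := by
    rw [coeff_zero_eq_eval_zero, hq, eval_mul]
    congr 1
    have : (Multiset.map (fun a => X - C a) s.val).prod = ∏ r ∈ s, (X - C r) := rfl
    rw [this, eval_prod]
    refine Finset.prod_congr rfl (fun r _ => ?_)
    simp
  rw [h0, Finset.prod_neg]
  exact ⟨(-1) ^ s.card * q.eval 0, by ring⟩

open WeierstrassCurve WeierstrassCurve.Affine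

variable {F : Type*} [Field F] [DecidableEq F] (W : Affine F)

/-- **Divisibility bound for torsion points near infinity.** Let `A` be a subring of `F`
containing the `b`-invariants of `W`, and `s` a finite set of nonzero elements `r` of `A` such
that `1/r` is the `x`-coordinate of a point killed by the odd number `2m + 1`.  Then the product
of the elements of `s` divides `2m + 1` in `A`. -/
theorem prod_dvd_of_torsion (A : Subring F) (hb₂ : W.b₂ ∈ A) (hb₄ : W.b₄ ∈ A) (hb₆ : W.b₆ ∈ A)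
    (hb₈ : W.b₈ ∈ A) (m : ℕ) (s : Finset A)
    (hs : ∀ r ∈ s, (r : F) ≠ 0 ∧ ∃ (y : F) (h : W.Nonsingular (r : F)⁻¹ y),
      (2 * m + 1) • Point.some (r : F)⁻¹ y h = 0) :
    (∏ r ∈ s, r) ∣ ((2 * m + 1 : ℕ) : A) := by
  set ΨA : A[X] := psi (⟨W.b₂, hb₂⟩ : A) ⟨W.b₄, hb₄⟩ ⟨W.b₆, hb₆⟩ ⟨W.b₈, hb₈⟩ m with hΨA
  have hmap : ΨA.map A.subtype = psi W.b₂ W.b₄ W.b₆ W.b₈ m :=
    (psi_map (⟨W.b₂, hb₂⟩ : A) ⟨W.b₄, hb₄⟩ ⟨W.b₆, hb₆⟩ ⟨W.b₈, hb₈⟩ A.subtype m).symm
  have hLC := psi_isLC (⟨W.b₂, hb₂⟩ : A) ⟨W.b₄, hb₄⟩ ⟨W.b₆, hb₆⟩ ⟨W.b₈, hb₈⟩ m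
  rw [← hΨA] at hLC
  set d : ℕ := 2 * (m * m) + 2 * m with hd
  have hroot : ∀ r ∈ s, (reflect d ΨA).eval r = 0 := by
    intro r hr
    obtain ⟨hr0, y, h, hy⟩ := hs r hr
    have hx0 : (r : F)⁻¹ ≠ 0 := inv_ne_zero hr0
    have h1 : (psi W.b₂ W.b₄ W.b₆ W.b₈ m).eval (r : F)⁻¹ = 0 :=
      (psi_eval_eq_zero_iff W h m).mpr hy
    rw [← hmap, eval_map] at h1
    let _ : Invertible (r : F)⁻¹ := invertibleOfNonzero hx0
    have h2 := (eval₂_reflect_eq_zero_iff A.subtype (r : F)⁻¹ d ΨA hLC.1).mpr h1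
    rw [invOf_eq_inv, inv_inv] at h2
    have h3 : eval₂ A.subtype (A.subtype r) (reflect d ΨA) = 0 := h2
    rw [eval₂_at_apply] at h3
    exact Subtype.ext h3
  have hdvd := prod_dvd_coeff_zero_of_roots (reflect d ΨA) s hroot
  rw [coeff_reflect, revAt_le (Nat.zero_le d), Nat.sub_zero, hLC.2] at hdvd
  exact (dvd_neg.mp hdvd)

end Divisibility

end Fermat.Agent.Lib.helper956
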