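import Fermat.Agent.Lib.helper956_Ladder

/-!
# Counting odd torsion on a Weierstrass curve via the sharp ladder (helper956)

* `card_torsion_le`: at most `n²` points killed by an odd `n` with `(n : F) ≠ 0`;
* `exists_torsion_point`: over an algebraically closed field there is a nonzero point killed by
  an odd `n ≥ 3` with `(n : F) ≠ 0` (on an elliptic curve);
* `card_torsion_eq`, `card_torsionBy_eq`: over an algebraically closed field, an elliptic curve
  has exactly `n²` points killed by an odd `n ≥ 3` with `(n : F) ≠ 0`.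
-/

set_option autoImplicit false

namespace Fermat.Agent.Lib.helper956

open Polynomial WeierstrassCurve WeierstrassCurve.Affine

section Count

variable {F : Type*} [Field F] (W : Affine F)

/-- The quadratic polynomial in `y` whose roots are the `y`-coordinates of the points with a given
`x`-coordinate. -/
noncomputable def yPoly (x : F) : F[X] :=
  X ^ 2 + C (W.a₁ * x + W.a₃) * X - C (x ^ 3 + W.a₂ * x ^ 2 + W.a₄ * x + W.a₆)

theorem yPoly_isLC (x : F) : IsLC (yPoly W x) 2 1 := by
  have h1 : IsLC ((X : F[X]) ^ 2) 2 1 := (isLC_X.pow 2).congr rfl (by simp)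
  have h2 : IsLC (C (W.a₁ * x + W.a₃) * X : F[X]) 2 0 :=
    ((isLC_C _).mul isLC_X).lift (by norm_num)
  have h3 : IsLC (C (x ^ 3 + W.a₂ * x ^ 2 + W.a₄ * x + W.a₆) : F[X]) 2 0 :=
    (isLC_C _).lift (by norm_num)
  exact ((h1.add h2).sub h3).congr rfl (by norm_num)

theorem yPoly_ne_zero (x : F) : yPoly W x ≠ 0 := (yPoly_isLC W x).ne_zero one_ne_zero

theorem yPoly_eval (x y : F) : (yPoly W x).eval y = 0 ↔ W.Equation x y := by
  rw [Affine.equation_iff]
  simp only [yPoly, eval_add, eval_sub, eval_mul, eval_pow, eval_C, eval_X]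
  constructor <;> intro h <;> linear_combination h

/-- Affine coordinates of a point (`none` for the point at infinity). -/
def coords : W.Point → Option (F × F)
  | .zero => none
  | .some x y _ => some (x, y)

theorem coords_injective : Function.Injective (coords W) := by
  rintro (_ | ⟨x₁, y₁, h₁⟩) (_ | ⟨x₂, y₂, h₂⟩) h
  · rfl
  · simp [coords] at h
  · simp [coords] at h
  · simp only [coords, Option.some.injEq, Prod.mk.injEq] at h
    obtain ⟨rfl, rfl⟩ := h
    rfl

theorem psi_ne_zero (m : ℕ) (hp : ((2 * m + 1 : ℕ) : F) ≠ 0) :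
    psi W.b₂ W.b₄ W.b₆ W.b₈ m ≠ 0 :=
  (psi_isLC W.b₂ W.b₄ W.b₆ W.b₈ m).ne_zero (neg_ne_zero.mpr hp)

variable [DecidableEq F]

/-- A finite set containing the coordinates of all points killed by `2m + 1`. -/
noncomputable def torsionBox (m : ℕ) : Finset (Option (F × F)) :=
  insert none
    (((psi W.b₂ W.b₄ W.b₆ W.b₈ m).roots.toFinset.biUnion
      (fun x => (yPoly W x).roots.toFinset.image (fun y => (x, y)))).image some)

theorem card_torsionBox_le (m : ℕ) : (torsionBox W m).card ≤ (2 * m + 1) ^ 2 := by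
  have h1 : (psi W.b₂ W.b₄ W.b₆ W.b₈ m).roots.toFinset.card ≤ 2 * (m * m) + 2 * m :=
    (Multiset.toFinset_card_le _).trans
      ((card_roots' _).trans (psi_isLC W.b₂ W.b₄ W.b₆ W.b₈ m).1)
  have h2 : ∀ x ∈ (psi W.b₂ W.b₄ W.b₆ W.b₈ m).roots.toFinset,
      ((yPoly W x).roots.toFinset.image (fun y => (x, y))).card ≤ 2 := by
    intro x _
    exact Finset.card_image_le.trans ((Multiset.toFinset_card_le _).trans
      ((card_roots' _).trans (yPoly_isLC W x).1))
  have h3 := Finset.card_biUnion_le_card_mul _ _ 2 h2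
  have h4 : (torsionBox W m).card ≤
      ((psi W.b₂ W.b₄ W.b₆ W.b₈ m).roots.toFinset.biUnion
        (fun x => (yPoly W x).roots.toFinset.image (fun y => (x, y)))).card + 1 :=
    (Finset.card_insert_le _ _).trans (Nat.add_le_add_right Finset.card_image_le 1)
  have h5 : (2 * m + 1) ^ 2 = (2 * (m * m) + 2 * m) * 2 + 1 := by ring
  rw [h5]
  exact h4.trans (Nat.add_le_add_right (h3.trans (Nat.mul_le_mul_right 2 h1)) 1)

theorem coords_mem_torsionBox (m : ℕ) (hp : ((2 * m + 1 : ℕ) : F) ≠ 0) {P : W.Point}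
    (hP : (2 * m + 1) • P = 0) : coords W P ∈ torsionBox W m := by
  rcases P with _ | ⟨x, y, h⟩
  · exact Finset.mem_insert_self _ _
  · refine Finset.mem_insert_of_mem (Finset.mem_image_of_mem _ ?_)
    rw [Finset.mem_biUnion]
    refine ⟨x, ?_, Finset.mem_image_of_mem _ ?_⟩
    · rw [Multiset.mem_toFinset, mem_roots (psi_ne_zero W m hp)]
      exact (psi_eval_eq_zero_iff W h m).mpr hP
    · rw [Multiset.mem_toFinset, mem_roots (yPoly_ne_zero W x)]
      exact (yPoly_eval W x y).mpr h.1

/-- The points killed by `2m + 1` inject into the finite set `torsionBox`. -/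
noncomputable def torsionToBox (m : ℕ) (hp : ((2 * m + 1 : ℕ) : F) ≠ 0) :
    {P : W.Point // (2 * m + 1) • P = 0} → {z // z ∈ torsionBox W m} :=
  fun P => ⟨coords W P.1, coords_mem_torsionBox W m hp P.2⟩

theorem torsionToBox_injective (m : ℕ) (hp : ((2 * m + 1 : ℕ) : F) ≠ 0) :
    Function.Injective (torsionToBox W m hp) := by
  intro P Q h
  exact Subtype.ext (coords_injective W (congrArg Subtype.val h))

/-- The set of points killed by `2m + 1` is finite. -/
theorem finite_torsion (m : ℕ) (hp : ((2 * m + 1 : ℕ) : F) ≠ 0) :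
    Finite {P : W.Point // (2 * m + 1) • P = 0} :=
  Finite.of_injective _ (torsionToBox_injective W m hp)

/-- **At most `n²` points are killed by the odd number `n = 2m + 1`.** -/
theorem card_torsion_le (m : ℕ) (hp : ((2 * m + 1 : ℕ) : F) ≠ 0) :
    Nat.card {P : W.Point // (2 * m + 1) • P = 0} ≤ (2 * m + 1) ^ 2 := by
  have h := Nat.card_le_card_of_injective _ (torsionToBox_injective W m hp)
  have h2 : Nat.card {z // z ∈ torsionBox W m} = (torsionBox W m).card := by
    rw [Nat.card_eq_fintype_card, Fintype.card_coe]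
  rw [h2] at h
  exact h.trans (card_torsionBox_le W m)

/-- The `ℤ`-torsion submodule version of `finite_torsion`. -/
theorem finite_torsionBy (n : ℕ) (hn : Odd n) (hp : (n : F) ≠ 0) :
    Finite (Submodule.torsionBy ℤ W.Point (n : ℤ)) := by
  obtain ⟨m, rfl⟩ := hn
  have := finite_torsion W m hp
  refine Finite.of_injective
    (fun P : Submodule.torsionBy ℤ W.Point ((2 * m + 1 : ℕ) : ℤ) =>
      (⟨P.1, by
        have := (Submodule.mem_torsionBy_iff _ _).mp P.2
        rwa [natCast_zsmul] at this⟩ : {P : W.Point // (2 * m + 1) • P = 0})) ?_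
  intro P Q h
  exact Subtype.ext (congrArg Subtype.val h)

/-- The `ℤ`-torsion submodule version of `card_torsion_le`. -/
theorem card_torsionBy_le (n : ℕ) (hn : Odd n) (hp : (n : F) ≠ 0) :
    Nat.card (Submodule.torsionBy ℤ W.Point (n : ℤ)) ≤ n ^ 2 := by
  obtain ⟨m, rfl⟩ := hn
  have := finite_torsion W m hp
  refine le_trans (Nat.card_le_card_of_injective
    (fun P : Submodule.torsionBy ℤ W.Point ((2 * m + 1 : ℕ) : ℤ) =>
      (⟨P.1, by
        have := (Submodule.mem_torsionBy_iff _ _).mp P.2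
        rwa [natCast_zsmul] at this⟩ : {P : W.Point // (2 * m + 1) • P = 0})) ?_)
    (card_torsion_le W m hp)
  intro P Q h
  exact Subtype.ext (congrArg Subtype.val h)

/-- **Existence of odd torsion** over an algebraically closed field. -/
theorem exists_torsion_point [IsAlgClosed F] (hΔ : W.Δ ≠ 0) (m : ℕ) (hm : 1 ≤ m)
    (hp : ((2 * m + 1 : ℕ) : F) ≠ 0) :
    ∃ (x y : F) (h : W.Nonsingular x y), (2 * m + 1) • Point.some x y h = 0 := by
  have hdeg : (psi W.b₂ W.b₄ W.b₆ W.b₈ m).natDegree = 2 * (m * m) + 2 * m :=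
    (psi_isLC W.b₂ W.b₄ W.b₆ W.b₈ m).natDegree_eq (neg_ne_zero.mpr hp)
  have hdeg' : (psi W.b₂ W.b₄ W.b₆ W.b₈ m).degree ≠ 0 := by
    rw [degree_eq_natDegree (psi_ne_zero W m hp), hdeg]
    have : 0 < 2 * (m * m) + 2 * m := by positivity
    exact_mod_cast this.ne'
  obtain ⟨x, hx⟩ := IsAlgClosed.exists_root _ hdeg'
  have hydeg : (yPoly W x).degree ≠ 0 := by
    rw [degree_eq_natDegree (yPoly_ne_zero W x), (yPoly_isLC W x).natDegree_eq one_ne_zero]
    norm_num
  obtain ⟨y, hy⟩ := IsAlgClosed.exists_root _ hydeg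
  have heq : W.Equation x y := (yPoly_eval W x y).mp hy
  have hns : W.Nonsingular x y := (W.equation_iff_nonsingular_of_Δ_ne_zero hΔ).mp heq
  exact ⟨x, y, hns, (psi_eval_eq_zero_iff W hns m).mp hx⟩

end Count

section Exact

variable {F : Type*} [Field F]

theorem IsLC.derivative {p : F[X]} {d : ℕ} {a : F} (hp : IsLC p (d + 1) a) :
    IsLC (derivative p) d (a * ((d : F) + 1)) := by
  refine ⟨(natDegree_derivative_le p).trans (by have := hp.1; omega), ?_⟩
  rw [coeff_derivative, hp.2]

variable [DecidableEq F] (W : Affine F)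

/-- The ladder polynomials have no common root at the `x`-coordinate of a point. -/
theorem lad_eval_ne_zero {x y : F} (h : W.Nonsingular x y) (n : ℕ) :
    ¬ ((lad W.b₂ W.b₄ W.b₆ W.b₈ n).1.eval x = 0 ∧ (lad W.b₂ W.b₄ W.b₆ W.b₈ n).2.eval x = 0) := by
  rintro ⟨h1, h2⟩
  have hR := rep_nsmul W h n
  generalize n • Point.some x y h = Q at hR
  rcases Q with _ | ⟨x', y', h'⟩
  · exact hR.2 h1
  · exact hR.1 h2

variable [IsAlgClosed F]

omit [DecidableEq F] in
/-- Every `x` is the `x`-coordinate of a point (over an algebraically closed field). -/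
theorem exists_point_of_x (hΔ : W.Δ ≠ 0) (x : F) : ∃ y : F, W.Nonsingular x y := by
  have hydeg : (yPoly W x).degree ≠ 0 := by
    rw [degree_eq_natDegree (yPoly_ne_zero W x), (yPoly_isLC W x).natDegree_eq one_ne_zero]
    norm_num
  obtain ⟨y, hy⟩ := IsAlgClosed.exists_root _ hydeg
  exact ⟨y, (W.equation_iff_nonsingular_of_Δ_ne_zero hΔ).mp ((yPoly_eval W x y).mp hy)⟩

/-- **Exactly `n²` points are killed by an odd `n = 2m + 1`** on an elliptic curve over an
algebraically closed field in which `n ≠ 0`. -/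
theorem card_torsion_eq (hΔ : W.Δ ≠ 0) (m : ℕ) (hm : 1 ≤ m) (hp : ((2 * m + 1 : ℕ) : F) ≠ 0) :
    Nat.card {P : W.Point // (2 * m + 1) • P = 0} = (2 * m + 1) ^ 2 := by
  refine le_antisymm (card_torsion_le W m hp) ?_
  have hfin := finite_torsion W m hp
  set n : ℕ := 2 * m + 1 with hn
  set A : F[X] := (lad W.b₂ W.b₄ W.b₆ W.b₈ n).1 with hA
  set B : F[X] := (lad W.b₂ W.b₄ W.b₆ W.b₈ n).2 with hB
  obtain ⟨hAlc, hBlc⟩ := lad_isLC W.b₂ W.b₄ W.b₆ W.b₈ n
  rw [← hA] at hAlc
  rw [← hB] at hBlc
  -- `N = n²`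
  obtain ⟨N, hN⟩ : ∃ N, n * n = N + 2 := ⟨n * n - 2, by
    have : 3 ≤ n := by omega
    have : 9 ≤ n * n := by nlinarith
    omega⟩
  rw [hN] at hAlc hBlc
  have hNF : ((N : F) + 2) = (n : F) ^ 2 := by
    have := congrArg (Nat.cast : ℕ → F) hN
    push_cast at this
    rw [← this]; ring
  have hnF : (n : F) ^ 2 ≠ 0 := pow_ne_zero 2 hp
  -- the Wronskian
  set Wr : F[X] := derivative A * B - A * derivative B with hWr
  have hA' : IsLC (derivative A) (N + 1) ((n : F) ^ 2) :=
    (IsLC.derivative (d := N + 1) hAlc).congr rfl (by push_cast; rw [← hNF]; ring)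
  have hB' : IsLC (derivative B) N ((n : F) ^ 2 * ((n : F) ^ 2 - 1)) :=
    (IsLC.derivative (d := N) (hBlc.congr (by omega) rfl)).congr rfl (by rw [← hNF]; ring)
  have hWrLC : IsLC Wr (N + 1 + (N + 1)) ((n : F) ^ 2) := by
    have h1 := hA'.mul (hBlc.congr (e := N + 1) (by omega) rfl)
    have h2 := (hAlc.mul hB').congr (e := N + 1 + (N + 1)) (by omega) rfl
    exact (h1.sub h2).congr rfl (by ring)
  have hWr0 : Wr ≠ 0 := hWrLC.ne_zero hnF
  -- the bad values of `c`
  let Bad : Finset F := Wr.roots.toFinset.image (fun t => A.eval t / B.eval t)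
  have hinf : Infinite F := IsAlgClosed.instInfinite
  obtain ⟨c, hc⟩ := Infinite.exists_notMem_finset Bad
  set G : F[X] := A - C c * B with hG
  have hGlc : IsLC G (N + 2) 1 := by
    have h1 : IsLC (C c * B) (N + 2) 0 := ((isLC_C c).mul hBlc).lift (by omega)
    exact (hAlc.sub h1).congr rfl (by ring)
  have hG0 : G ≠ 0 := hGlc.ne_zero one_ne_zero
  have hGdeg : G.natDegree = N + 2 := hGlc.natDegree_eq one_ne_zero
  -- no common root of `A` and `B`
  have hAB : ∀ t : F, ¬ (A.eval t = 0 ∧ B.eval t = 0) := by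
    intro t
    obtain ⟨y, hy⟩ := exists_point_of_x W hΔ t
    exact lad_eval_ne_zero W hy n
  -- `G` has no multiple root
  have hsimple : ∀ t : F, ¬ (G.IsRoot t ∧ (derivative G).IsRoot t) := by
    rintro t ⟨h1, h2⟩
    have e1 : A.eval t = c * B.eval t := by
      have : G.eval t = 0 := h1
      simp only [hG, eval_sub, eval_mul, eval_C] at this
      linear_combination this
    have e2 : (derivative A).eval t = c * (derivative B).eval t := by
      have : (derivative G).eval t = 0 := h2
      simp only [hG, derivative_sub, derivative_mul, derivative_C, zero_mul, zero_add, eval_sub,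
        eval_mul, eval_C] at this
      linear_combination this
    have hBt : B.eval t ≠ 0 := by
      intro hB0
      exact hAB t ⟨by rw [e1, hB0, mul_zero], hB0⟩
    have hWt : Wr.eval t = 0 := by
      simp only [hWr, eval_sub, eval_mul]
      rw [e1, e2]; ring
    apply hc
    refine Finset.mem_image.mpr ⟨t, ?_, ?_⟩
    · rw [Multiset.mem_toFinset, mem_roots hWr0]
      exact hWt
    · rw [e1]
      field_simp
  have hnodup : G.roots.Nodup := by
    rw [Multiset.nodup_iff_count_le_one]
    intro t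
    rw [count_roots]
    by_contra hlt
    rw [not_le] at hlt
    exact hsimple t ((one_lt_rootMultiplicity_iff_isRoot hG0).mp hlt)
  have hcard : G.roots.toFinset.card = N + 2 := by
    rw [Multiset.toFinset_card_of_nodup hnodup, IsAlgClosed.card_roots_eq_natDegree, hGdeg]
  -- the point `Q` with `x`-coordinate `c`
  obtain ⟨yc, hyc⟩ := exists_point_of_x W hΔ c
  -- every root `t` of `G` is the `x`-coordinate of a point `T` with `n • T = Q`
  have hT : ∀ t : {t // t ∈ G.roots.toFinset}, ∃ (y : F) (h : W.Nonsingular t.1 y),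
      n • Point.some t.1 y h = Point.some c yc hyc := by
    rintro ⟨t, ht⟩
    rw [Multiset.mem_toFinset, mem_roots hG0] at ht
    have e1 : A.eval t = c * B.eval t := by
      have : G.eval t = 0 := ht
      simp only [hG, eval_sub, eval_mul, eval_C] at this
      linear_combination this
    have hBt : B.eval t ≠ 0 := by
      intro hB0
      exact hAB t ⟨by rw [e1, hB0, mul_zero], hB0⟩
    obtain ⟨y, hy⟩ := exists_point_of_x W hΔ t
    have hR := rep_nsmul W hy n
    rw [← hA, ← hB] at hR
    generalize hQ : n • Point.some t y hy = Q at hR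
    rcases Q with _ | ⟨x', y', h'⟩
    · exact absurd hR.1 hBt
    · obtain ⟨-, hx'⟩ := hR
      have hxc : x' = c := by
        have : (x' - c) * B.eval t = 0 := by linear_combination e1 - hx'
        rcases mul_eq_zero.mp this with h0 | h0
        · exact sub_eq_zero.mp h0
        · exact absurd h0 hBt
      subst hxc
      rcases Y_eq_of_X_eq h'.1 hyc.1 rfl with hyy | hyy
      · subst hyy
        exact ⟨y, hy, hQ⟩
      · subst hyy
        refine ⟨W.negY t y, (nonsingular_neg ..).mpr hy, ?_⟩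
        have e3 : Point.some t (W.negY t y) ((nonsingular_neg ..).mpr hy) =
            -Point.some t y hy := (Point.neg_some hy).symm
        rw [e3, smul_neg, hQ, Point.neg_some, Point.some.injEq]
        exact ⟨rfl, negY_negY ..⟩
  choose yf hf hpf using hT
  -- a base root
  have hpos : 0 < G.roots.toFinset.card := by rw [hcard]; omega
  obtain ⟨t₀, ht₀⟩ := Finset.card_pos.mp hpos
  let φ : {t // t ∈ G.roots.toFinset} → {P : W.Point // n • P = 0} := fun t =>
    ⟨Point.some t.1 (yf t) (hf t) - Point.some t₀ (yf ⟨t₀, ht₀⟩) (hf ⟨t₀, ht₀⟩), by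
      rw [smul_sub, hpf t, hpf ⟨t₀, ht₀⟩, sub_self]⟩
  have hφ : Function.Injective φ := by
    intro t t' h
    have h1 : Point.some t.1 (yf t) (hf t) - Point.some t₀ (yf ⟨t₀, ht₀⟩) (hf ⟨t₀, ht₀⟩) =
        Point.some t'.1 (yf t') (hf t') - Point.some t₀ (yf ⟨t₀, ht₀⟩) (hf ⟨t₀, ht₀⟩) :=
      congrArg Subtype.val h
    have h2 := sub_left_injective h1
    rw [Point.some.injEq] at h2
    exact Subtype.ext h2.1
  have hle := Nat.card_le_card_of_injective φ hφ
  have h2 : Nat.card {t // t ∈ G.roots.toFinset} = G.roots.toFinset.card := by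
    rw [Nat.card_eq_fintype_card, Fintype.card_coe]
  rw [h2, hcard, ← hN] at hle
  calc (2 * m + 1) ^ 2 = n * n := by rw [hn]; ring
    _ ≤ _ := hle

/-- The `ℤ`-torsion submodule version of `card_torsion_eq`: `#E[n] = n²` for odd `n ≥ 3`. -/
theorem card_torsionBy_eq (hΔ : W.Δ ≠ 0) (n : ℕ) (hn : Odd n) (hn3 : 3 ≤ n) (hp : (n : F) ≠ 0) :
    Nat.card (Submodule.torsionBy ℤ W.Point (n : ℤ)) = n ^ 2 := by
  obtain ⟨m, rfl⟩ := hn
  rw [← card_torsion_eq W hΔ m (by omega) hp]
  refine Nat.card_congr (Equiv.subtypeEquivRight (fun P => ?_))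
  rw [Submodule.mem_torsionBy_iff, natCast_zsmul]

end Exact

end Fermat.Agent.Lib.helper956
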