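/-
helper9666 — S30-ZPALG (board #1148): the canonical `ℤ_[p]`-algebra structure on an adically
complete ring with `p` in the ideal (e.g. the abstract complete DVR `𝒪''` of the frozen
S30/S31/S35 statements), and the base change `O ⊗[ℤ_[p]] T` of a `ℤ_[p]`-module with operators.
Mathlib only.
-/
import Mathlib

set_option autoImplicit false

open IsLocalRing
open scoped TensorProduct

namespace Fermat.Agent.Lib.helper9666

variable {p : ℕ} [Fact p.Prime]

/-! ### Uniqueness of ring homomorphisms out of `ℤ_[p]` -/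

/-- Two ring homs from `ℤ_[p]` to a ring in which `p ^ m = 0` agree. -/
theorem zp_ringHom_ext_of_pow_eq_zero {R : Type*} [Ring R] (m : ℕ) (hm : (p : R) ^ m = 0)
    (f g : ℤ_[p] →+* R) : f = g := by
  ext x
  have hx := PadicInt.appr_spec m x
  rw [Ideal.mem_span_singleton] at hx
  obtain ⟨y, hy⟩ := hx
  have hxe : x = (PadicInt.appr x m : ℤ_[p]) + (p : ℤ_[p]) ^ m * y := by rw [← hy]; ring
  rw [hxe]
  simp [hm]

omit [Fact p.Prime] in
/-- In `R ⧸ I ^ n` the element `p ^ n` vanishes when `p ∈ I`. -/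
theorem natCast_pow_quot_eq_zero {R : Type*} [CommRing R] (I : Ideal R) (hp : (p : R) ∈ I)
    (n : ℕ) : ((p : ℕ) : R ⧸ I ^ n) ^ n = 0 := by
  have h : Ideal.Quotient.mk (I ^ n) ((p : R) ^ n) = 0 :=
    Ideal.Quotient.eq_zero_iff_mem.mpr (Ideal.pow_mem_pow hp n)
  simpa using h

/-- **Uniqueness**: a ring that is `I`-adically Hausdorff with `p ∈ I` receives at most one
ring hom from `ℤ_[p]`. -/
theorem zp_ringHom_ext {R : Type*} [CommRing R] (I : Ideal R) [IsHausdorff I R]
    (hp : (p : R) ∈ I) (f g : ℤ_[p] →+* R) : f = g := by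
  apply DFunLike.coe_injective
  apply IsHausdorff.funext' I
  intro n r
  have := zp_ringHom_ext_of_pow_eq_zero (p := p) n (natCast_pow_quot_eq_zero I hp n)
    ((Ideal.Quotient.mk (I ^ n)).comp f) ((Ideal.Quotient.mk (I ^ n)).comp g)
  exact congrArg (fun φ : ℤ_[p] →+* R ⧸ I ^ n => φ r) this

/-! ### Existence -/

/-- The level-`n` map `ℤ_[p] → ℤ/p^n → R ⧸ I ^ n`. -/
noncomputable def zpToQuot {R : Type*} [CommRing R] (I : Ideal R) (hp : (p : R) ∈ I) (n : ℕ) :
    ℤ_[p] →+* R ⧸ I ^ n :=
  (ZMod.castHom (ringChar.dvd (R := R ⧸ I ^ n) (x := p ^ n)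
      (by simpa using natCast_pow_quot_eq_zero I hp n)) (R ⧸ I ^ n)).comp
    (PadicInt.toZModPow n)

/-- **(Z1)** The canonical ring hom `ℤ_[p] →+* R` for an `I`-adically complete ring `R` with
`p ∈ I`. -/
noncomputable def zpHom {R : Type*} [CommRing R] (I : Ideal R) [IsAdicComplete I R]
    (hp : (p : R) ∈ I) : ℤ_[p] →+* R :=
  IsAdicComplete.liftRingHom I (zpToQuot I hp)
    (fun {m _} _ => zp_ringHom_ext_of_pow_eq_zero m (natCast_pow_quot_eq_zero I hp m) _ _)

/-- Any ring hom `ℤ_[p] →+* R` is the canonical one. -/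
theorem eq_zpHom {R : Type*} [CommRing R] (I : Ideal R) [IsAdicComplete I R]
    (hp : (p : R) ∈ I) (f : ℤ_[p] →+* R) : f = zpHom I hp :=
  zp_ringHom_ext I hp _ _

/-- **(Z3)** Compatibility with ring homs. -/
theorem comp_zpHom {R R₂ : Type*} [CommRing R] [CommRing R₂] (I : Ideal R) [IsAdicComplete I R]
    (hp : (p : R) ∈ I) (I₂ : Ideal R₂) [IsAdicComplete I₂ R₂] (hp₂ : (p : R₂) ∈ I₂)
    (f : R →+* R₂) : f.comp (zpHom I hp) = zpHom I₂ hp₂ :=
  zp_ringHom_ext I₂ hp₂ _ _

/-- **(Z2)** Any ring hom from `ℤ_[p]` to a domain of characteristic zero is injective. -/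
theorem zp_ringHom_injective {R : Type*} [CommRing R] [IsDomain R] [CharZero R]
    (f : ℤ_[p] →+* R) : Function.Injective f := by
  rw [injective_iff_map_eq_zero]
  intro x hx
  by_contra hx0
  have hker : RingHom.ker f ≠ ⊥ := fun h => hx0 (by
    have : x ∈ RingHom.ker f := hx
    rwa [h, Ideal.mem_bot] at this)
  obtain ⟨n, hn⟩ := PadicInt.ideal_eq_span_pow_p hker
  have hmem : (p : ℤ_[p]) ^ n ∈ RingHom.ker f := by
    rw [hn]; exact Ideal.mem_span_singleton_self _
  have h0 : (p : R) ^ n = 0 := by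
    have := (RingHom.mem_ker).mp hmem
    simpa using this
  have hp0 : (p : R) ≠ 0 := Nat.cast_ne_zero.mpr (Fact.out : p.Prime).ne_zero
  exact hp0 (pow_eq_zero_iff (M₀ := R) (a := (p : R)) (n := n) (by
    rintro rfl
    simp at h0) |>.mp h0)

theorem zpHom_injective {R : Type*} [CommRing R] [IsDomain R] [CharZero R] (I : Ideal R)
    [IsAdicComplete I R] (hp : (p : R) ∈ I) : Function.Injective (zpHom I hp) :=
  zp_ringHom_injective _

/-! ### The local form (frozen shape: `O` local, complete for its maximal ideal, `p ∈ 𝔪`) -/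

/-- Any ring hom from `ℤ_[p]` to a local ring with `p` in the maximal ideal is a local hom. -/
theorem zp_ringHom_isLocalHom {O : Type*} [CommRing O] [IsLocalRing O]
    (hp : (p : O) ∈ maximalIdeal O) (f : ℤ_[p] →+* O) : IsLocalHom f := by
  refine ⟨fun a ha => ?_⟩
  by_contra hna
  have hmem : a ∈ maximalIdeal ℤ_[p] := (IsLocalRing.mem_maximalIdeal a).mpr hna
  rw [PadicInt.maximalIdeal_eq_span_p, Ideal.mem_span_singleton] at hmem
  obtain ⟨b, rfl⟩ := hmem
  have hfm : f ((p : ℤ_[p]) * b) ∈ maximalIdeal O := by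
    rw [map_mul, map_natCast]
    exact Ideal.mul_mem_right _ _ hp
  exact (IsLocalRing.mem_maximalIdeal _).mp hfm ha

/-- **(Z4)** The canonical `ℤ_[p]`-algebra structure on a complete local ring with `p ∈ 𝔪`.
A `def`, not an instance: use `letI := zpAlgebra O hp`. -/
@[reducible] noncomputable def zpAlgebra (O : Type*) [CommRing O] [IsLocalRing O]
    [IsAdicComplete (maximalIdeal O) O] (hp : (p : O) ∈ maximalIdeal O) : Algebra ℤ_[p] O :=
  (zpHom (maximalIdeal O) hp).toAlgebra

/-- Every `ℤ_[p]`-algebra structure on such a ring has the canonical structure map. -/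
theorem algebraMap_eq_zpHom (O : Type*) [CommRing O] [IsLocalRing O]
    [IsAdicComplete (maximalIdeal O) O] (hp : (p : O) ∈ maximalIdeal O) [Algebra ℤ_[p] O] :
    algebraMap ℤ_[p] O = zpHom (maximalIdeal O) hp :=
  eq_zpHom _ hp _

/-- For any `ℤ_[p]`-algebra structure on a local ring with `p ∈ 𝔪`, the structure map is local. -/
theorem isLocalHom_algebraMap_zp (O : Type*) [CommRing O] [IsLocalRing O]
    (hp : (p : O) ∈ maximalIdeal O) [Algebra ℤ_[p] O] : IsLocalHom (algebraMap ℤ_[p] O) :=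
  zp_ringHom_isLocalHom hp _

/-- For any `ℤ_[p]`-algebra structure on a char-0 domain, the structure map is injective. -/
theorem algebraMap_zp_injective (O : Type*) [CommRing O] [IsDomain O] [CharZero O]
    [Algebra ℤ_[p] O] : Function.Injective (algebraMap ℤ_[p] O) :=
  zp_ringHom_injective _

/-- Tower compatibility: given `ℤ_[p]`-algebra structures on `O` and `O₂` and an `O`-algebra
structure on `O₂` (with `O₂` Hausdorff for an ideal containing `p`), the tower commutes. -/
theorem isScalarTower_zp (O O₂ : Type*) [CommRing O] [CommRing O₂] [Algebra ℤ_[p] O]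
    [Algebra ℤ_[p] O₂] [Algebra O O₂] (I₂ : Ideal O₂) [IsHausdorff I₂ O₂] (hp₂ : (p : O₂) ∈ I₂) :
    IsScalarTower ℤ_[p] O O₂ :=
  IsScalarTower.of_algebraMap_eq' (zp_ringHom_ext I₂ hp₂ _ _)

/-! ### Base change of a `ℤ_[p]`-module with operators -/

section BaseChange

variable (O : Type*) [CommRing O] [Algebra ℤ_[p] O]
variable {T : Type*} [AddCommGroup T] [Module ℤ_[p] T]

/-- Base change of a monoid action by `ℤ_[p]`-linear endomorphisms. -/
noncomputable def baseChangeRep {G : Type*} [Monoid G] (ρ : G →* Module.End ℤ_[p] T) :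
    G →* Module.End O (O ⊗[ℤ_[p]] T) where
  toFun g := (ρ g).baseChange O
  map_one' := by rw [map_one]; exact LinearMap.baseChange_one ..
  map_mul' g h := by rw [map_mul]; exact LinearMap.baseChange_mul ..

@[simp]
theorem baseChangeRep_apply {G : Type*} [Monoid G] (ρ : G →* Module.End ℤ_[p] T) (g : G) :
    baseChangeRep O ρ g = (ρ g).baseChange O := rfl

theorem baseChangeRep_tmul {G : Type*} [Monoid G] (ρ : G →* Module.End ℤ_[p] T) (g : G)
    (c : O) (x : T) : baseChangeRep O ρ g (c ⊗ₜ[ℤ_[p]] x) = c ⊗ₜ[ℤ_[p]] (ρ g x) := by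
  simp [LinearMap.baseChange_tmul]

/-- If `ρ g = 1` then the base change is `1` (transfer of unramifiedness). -/
theorem baseChangeRep_eq_one {G : Type*} [Monoid G] (ρ : G →* Module.End ℤ_[p] T) {g : G}
    (h : ρ g = 1) : baseChangeRep O ρ g = 1 := by
  rw [baseChangeRep_apply, h]; exact LinearMap.baseChange_one ..

/-- Commuting operators stay commuting after base change. -/
theorem baseChange_commute {f g : Module.End ℤ_[p] T} (h : Commute f g) :
    Commute (f.baseChange O) (g.baseChange O) := by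
  show f.baseChange O * g.baseChange O = g.baseChange O * f.baseChange O
  rw [← LinearMap.baseChange_mul, ← LinearMap.baseChange_mul, h.eq]

/-- Transfer of a quadratic (Eichler–Shimura type) relation `σ² - τ σ + ℓ = 0`. -/
theorem baseChange_quadratic {s t : Module.End ℤ_[p] T} (l : ℤ_[p])
    (h : s * s - t * s + l • (1 : Module.End ℤ_[p] T) = 0) :
    s.baseChange O * s.baseChange O - t.baseChange O * s.baseChange O
      + algebraMap ℤ_[p] O l • (1 : Module.End O (O ⊗[ℤ_[p]] T)) = 0 := by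
  have h2 := congrArg (fun f : Module.End ℤ_[p] T => f.baseChange O) h
  simp only [LinearMap.baseChange_add, LinearMap.baseChange_sub, LinearMap.baseChange_mul,
    LinearMap.baseChange_smul, LinearMap.baseChange_zero] at h2
  rw [← h2]
  congr 1
  ext x
  simp [Algebra.smul_def]

/-- **(Z5)** Transfer of `p`-adic continuity: if `f x - x ∈ p ^ n T` for all `x`, then
`(f ⊗ O) w - w ∈ 𝔪 ^ n • ⊤` for every ideal `𝔪` of `O` containing `p`. -/
theorem baseChange_sub_mem_pow_smul (𝔪 : Ideal O) (hp : (p : O) ∈ 𝔪) (f : Module.End ℤ_[p] T)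
    (n : ℕ) (hf : ∀ x : T, ∃ y : T, f x - x = (p : ℤ_[p]) ^ n • y) (w : O ⊗[ℤ_[p]] T) :
    f.baseChange O w - w ∈ (𝔪 ^ n) • (⊤ : Submodule O (O ⊗[ℤ_[p]] T)) := by
  induction w using TensorProduct.induction_on with
  | zero => simp
  | tmul c x =>
    obtain ⟨y, hy⟩ := hf x
    rw [LinearMap.baseChange_tmul, ← TensorProduct.tmul_sub, hy]
    have : c ⊗ₜ[ℤ_[p]] ((p : ℤ_[p]) ^ n • y) = ((p : O) ^ n) • (c ⊗ₜ[ℤ_[p]] y) := by
      rw [TensorProduct.tmul_smul, TensorProduct.smul_tmul', TensorProduct.smul_tmul']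
      congr 1
      rw [Algebra.smul_def, smul_eq_mul, map_pow, map_natCast]
    rw [this]
    exact Submodule.smul_mem_smul (Ideal.pow_mem_pow hp n) Submodule.mem_top
  | add x y hx hy =>
    rw [map_add, add_sub_add_comm]
    exact Submodule.add_mem _ hx hy

/-- Finite-level form of the previous lemma for an action: if `ρ g` is trivial modulo `p ^ n`
then `baseChangeRep O ρ g` is trivial modulo `𝔪 ^ n`. -/
theorem baseChangeRep_sub_mem_pow_smul (𝔪 : Ideal O) (hp : (p : O) ∈ 𝔪) {G : Type*} [Monoid G]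
    (ρ : G →* Module.End ℤ_[p] T) (g : G) (n : ℕ)
    (hf : ∀ x : T, ∃ y : T, ρ g x - x = (p : ℤ_[p]) ^ n • y) (w : O ⊗[ℤ_[p]] T) :
    baseChangeRep O ρ g w - w ∈ (𝔪 ^ n) • (⊤ : Submodule O (O ⊗[ℤ_[p]] T)) :=
  baseChange_sub_mem_pow_smul O 𝔪 hp (ρ g) n hf w

/-- `x ↦ 1 ⊗ x` is injective when `T` is flat (e.g. free) and `ℤ_[p] → O` is injective
(e.g. `O` a domain of characteristic zero). -/
theorem one_tmul_injective [Module.Flat ℤ_[p] T]
    (hinj : Function.Injective (algebraMap ℤ_[p] O)) :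
    Function.Injective (fun x : T => (1 : O) ⊗ₜ[ℤ_[p]] x) := by
  have h1 : Function.Injective ((Algebra.linearMap ℤ_[p] O).rTensor T) :=
    Module.Flat.rTensor_preserves_injective_linearMap _ hinj
  have h2 : (fun x : T => (1 : O) ⊗ₜ[ℤ_[p]] x) =
      (Algebra.linearMap ℤ_[p] O).rTensor T ∘ (TensorProduct.lid ℤ_[p] T).symm := by
    funext x
    simp
  rw [h2]
  exact h1.comp (TensorProduct.lid ℤ_[p] T).symm.injective

/-- Rank of the base change. -/
theorem finrank_baseChange_zp [Nontrivial O] [Module.Free ℤ_[p] T] [Module.Finite ℤ_[p] T] :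
    Module.finrank O (O ⊗[ℤ_[p]] T) = Module.finrank ℤ_[p] T :=
  Module.finrank_baseChange

end BaseChange

/-! ### `p`-adic separation of finite modules over a noetherian local ring -/

omit [Fact p.Prime] in
/-- In a finite module over a noetherian local ring with `p ∈ 𝔪`, an element divisible by every
power of `p` is zero. -/
theorem eq_zero_of_forall_pow_smul {O : Type*} [CommRing O] [IsLocalRing O] [IsNoetherianRing O]
    (hp : (p : O) ∈ maximalIdeal O) {M : Type*} [AddCommGroup M] [Module O M] [Module.Finite O M]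
    (x : M) (hx : ∀ n : ℕ, ∃ y : M, x = (p : O) ^ n • y) : x = 0 := by
  have hH : IsHausdorff (maximalIdeal O) M :=
    IsHausdorff.of_isLocalRing _ _ (Ideal.IsMaximal.ne_top inferInstance)
  refine IsHausdorff.haus hH x fun n => ?_
  obtain ⟨y, rfl⟩ := hx n
  rw [SModEq.zero]
  exact Submodule.smul_mem_smul (Ideal.pow_mem_pow hp n) Submodule.mem_top

end Fermat.Agent.Lib.helper9666
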