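/-
helper9666 — S30-ZPALG, part 2 (board #1148): Prelude-vocabulary adapters.
Base change of an adically continuous Galois action along a local algebra map (any rank),
in particular from a `ℤ_[p]`-lattice (Tate module) to the abstract complete DVR of the frozen
S30/S31/S35 statements.  Imports Mathlib + Prelude `Def_GaloisRep_Adic` + part 1.
-/
import Mathlib
import Fermat.Prelude.Def_GaloisRep_Adic
import Fermat.Agent.Lib.helper9666_ZpAlg

set_option autoImplicit false

open IsLocalRing
open scoped TensorProduct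

namespace Fermat.Agent.Lib.helper9666

/-- Base change of a monoid action by `A`-linear endomorphisms along an algebra `A → B`. -/
noncomputable def baseChangeEnd (A B : Type*) [CommRing A] [CommRing B] [Algebra A B]
    {V : Type*} [AddCommGroup V] [Module A V] {G : Type*} [Monoid G]
    (ρ : G →* Module.End A V) : G →* Module.End B (B ⊗[A] V) where
  toFun g := (ρ g).baseChange B
  map_one' := by rw [map_one]; exact LinearMap.baseChange_one ..
  map_mul' g h := by rw [map_mul]; exact LinearMap.baseChange_mul ..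

@[simp]
theorem baseChangeEnd_apply (A B : Type*) [CommRing A] [CommRing B] [Algebra A B]
    {V : Type*} [AddCommGroup V] [Module A V] {G : Type*} [Monoid G]
    (ρ : G →* Module.End A V) (g : G) : baseChangeEnd A B ρ g = (ρ g).baseChange B := rfl

theorem baseChangeEnd_tmul (A B : Type*) [CommRing A] [CommRing B] [Algebra A B]
    {V : Type*} [AddCommGroup V] [Module A V] {G : Type*} [Monoid G]
    (ρ : G →* Module.End A V) (g : G) (b : B) (v : V) :
    baseChangeEnd A B ρ g (b ⊗ₜ[A] v) = b ⊗ₜ[A] (ρ g v) := by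
  simp [LinearMap.baseChange_tmul]

theorem baseChangeEnd_eq_one (A B : Type*) [CommRing A] [CommRing B] [Algebra A B]
    {V : Type*} [AddCommGroup V] [Module A V] {G : Type*} [Monoid G]
    (ρ : G →* Module.End A V) {g : G} (h : ρ g = 1) : baseChangeEnd A B ρ g = 1 := by
  rw [baseChangeEnd_apply, h]; exact LinearMap.baseChange_one ..

/-- The base change over `ℤ_[p]` of part 1 is the general one. -/
theorem baseChangeRep_eq_baseChangeEnd {p : ℕ} [Fact p.Prime] (O : Type*) [CommRing O]
    [Algebra ℤ_[p] O] {T : Type*} [AddCommGroup T] [Module ℤ_[p] T] {G : Type*} [Monoid G]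
    (ρ : G →* Module.End ℤ_[p] T) : baseChangeRep O ρ = baseChangeEnd ℤ_[p] O ρ := rfl

/-- If `f v - v ∈ 𝔪_A ^ n • ⊤` for all `v`, then `(f ⊗ B) w - w ∈ 𝔪_B ^ n • ⊤` for all `w`,
for a local algebra map `A → B`. -/
theorem baseChange_sub_mem_maximalIdeal_pow_smul {A B : Type*} [CommRing A] [IsLocalRing A]
    [CommRing B] [IsLocalRing B] [Algebra A B] [IsLocalHom (algebraMap A B)]
    {V : Type*} [AddCommGroup V] [Module A V] (f : Module.End A V) (n : ℕ)
    (hf : ∀ v : V, f v - v ∈ (maximalIdeal A ^ n) • (⊤ : Submodule A V)) (w : B ⊗[A] V) :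
    f.baseChange B w - w ∈ (maximalIdeal B ^ n) • (⊤ : Submodule B (B ⊗[A] V)) := by
  have hmap : (maximalIdeal A ^ n).map (algebraMap A B) ≤ maximalIdeal B ^ n := by
    rw [Ideal.map_pow]
    exact Ideal.pow_right_mono (Ideal.map_le_iff_le_comap.mpr fun a ha =>
      Ideal.mem_comap.mpr (map_nonunit (algebraMap A B) a ha)) n
  have hpure : ∀ (b : B) (v : V),
      f.baseChange B (b ⊗ₜ[A] v) - b ⊗ₜ[A] v ∈
        (maximalIdeal B ^ n) • (⊤ : Submodule B (B ⊗[A] V)) := by
    intro b v
    rw [LinearMap.baseChange_tmul, ← TensorProduct.tmul_sub]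
    refine Submodule.smul_induction_on (p := fun x => b ⊗ₜ[A] x ∈
      (maximalIdeal B ^ n) • (⊤ : Submodule B (B ⊗[A] V))) (hf v) ?_ ?_
    · intro a ha x _
      rw [TensorProduct.tmul_smul, TensorProduct.smul_tmul', Algebra.smul_def, ← smul_eq_mul,
        ← TensorProduct.smul_tmul']
      exact Submodule.smul_mem_smul (hmap (Ideal.mem_map_of_mem _ ha)) Submodule.mem_top
    · intro x y hx hy
      rw [TensorProduct.tmul_add]
      exact Submodule.add_mem _ hx hy
  induction w using TensorProduct.induction_on with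
  | zero => rw [map_zero, sub_zero]; exact Submodule.zero_mem _
  | tmul b v => exact hpure b v
  | add x y hx hy =>
    rw [map_add, add_sub_add_comm]
    exact Submodule.add_mem _ hx hy

local notation "GQ" => (AlgebraicClosure ℚ ≃ₐ[ℚ] AlgebraicClosure ℚ)

/-- **Adic continuity is stable under base change along a local algebra map** (any rank;
the Prelude proves this only inside `GaloisRepAdic.baseChangeAlong`, i.e. in rank 2). -/
theorem galoisActionIsAdicContinuous_baseChange {A B : Type} [CommRing A] [IsLocalRing A]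
    [CommRing B] [IsLocalRing B] [Algebra A B] [IsLocalHom (algebraMap A B)]
    {V : Type} [AddCommGroup V] [Module A V] (ρ : GQ →* Module.End A V)
    (h : GaloisActionIsAdicContinuous A ρ) :
    GaloisActionIsAdicContinuous B (baseChangeEnd A B ρ) := by
  intro n
  obtain ⟨L, hL, h1⟩ := h n
  exact ⟨L, hL, fun σ hσ w =>
    baseChange_sub_mem_maximalIdeal_pow_smul (ρ σ) n (h1 σ hσ) w⟩

section Zp

variable {p : ℕ} [Fact p.Prime]

/-- `𝔪 ^ n • ⊤ = p ^ n T` for a `ℤ_[p]`-module `T`. -/
theorem mem_maximalIdeal_pow_smul_top_iff {T : Type*} [AddCommGroup T] [Module ℤ_[p] T] (n : ℕ)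
    (x : T) : x ∈ (maximalIdeal ℤ_[p] ^ n) • (⊤ : Submodule ℤ_[p] T) ↔
      ∃ y : T, x = (p : ℤ_[p]) ^ n • y := by
  rw [PadicInt.maximalIdeal_eq_span_p, Ideal.span_singleton_pow,
    Submodule.ideal_span_singleton_smul]
  constructor
  · intro hx
    obtain ⟨y, -, hy⟩ := (Submodule.mem_smul_pointwise_iff_exists _ _ _).mp hx
    exact ⟨y, hy.symm⟩
  · rintro ⟨y, rfl⟩
    exact Submodule.smul_mem_pointwise_smul _ _ _ Submodule.mem_top

/-- Adic continuity of a Galois action on a `ℤ_[p]`-module, in the explicit `p ^ n T` form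
(the output shape of a Tate-module construction). -/
theorem galoisActionIsAdicContinuous_zp_iff {T : Type} [AddCommGroup T] [Module ℤ_[p] T]
    (ρ : GQ →* Module.End ℤ_[p] T) :
    GaloisActionIsAdicContinuous ℤ_[p] ρ ↔
      ∀ n : ℕ, ∃ L : IntermediateField ℚ (AlgebraicClosure ℚ), FiniteDimensional ℚ L ∧
        ∀ σ : GQ, (∀ x ∈ L, σ x = x) → ∀ v : T, ∃ y : T, ρ σ v - v = (p : ℤ_[p]) ^ n • y := by
  unfold GaloisActionIsAdicContinuous
  simp only [mem_maximalIdeal_pow_smul_top_iff]

/-- **Consumer form**: a Galois action on a `ℤ_[p]`-module `T` that is trivial modulo `p ^ n`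
on a finite level for every `n` gives, after base change to a complete local ring `O` with
`p ∈ 𝔪_O` (canonical `ℤ_[p]`-algebra structure `zpAlgebra O hp`), an adically continuous
action on `O ⊗[ℤ_[p]] T` in the Prelude sense. -/
theorem galoisActionIsAdicContinuous_baseChange_zp (O : Type) [CommRing O] [IsLocalRing O]
    [Algebra ℤ_[p] O] (hp : (p : O) ∈ maximalIdeal O)
    {T : Type} [AddCommGroup T] [Module ℤ_[p] T] (ρ : GQ →* Module.End ℤ_[p] T)
    (h : ∀ n : ℕ, ∃ L : IntermediateField ℚ (AlgebraicClosure ℚ), FiniteDimensional ℚ L ∧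
        ∀ σ : GQ, (∀ x ∈ L, σ x = x) → ∀ v : T, ∃ y : T, ρ σ v - v = (p : ℤ_[p]) ^ n • y) :
    GaloisActionIsAdicContinuous O (baseChangeEnd ℤ_[p] O ρ) := by
  have : IsLocalHom (algebraMap ℤ_[p] O) := isLocalHom_algebraMap_zp O hp
  exact galoisActionIsAdicContinuous_baseChange ρ ((galoisActionIsAdicContinuous_zp_iff ρ).mpr h)

end Zp

end Fermat.Agent.Lib.helper9666
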