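/-
helper971: Case II of Fermat's Last Theorem for a prime exponent `p`, abstract descent.

We work in an abstract principal ideal domain `R` containing a primitive `p`-th root of unity
`ζ` such that `ζ - 1` is prime, `p ∣ (ζ - 1)^(p-1)`, every residue class modulo `ζ - 1` contains
a rational integer, every `p`-th power is congruent to a rational integer modulo `p`, and
Kummer's lemma holds (a unit congruent to a rational integer mod `p` is a `p`-th power).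
-/
import Mathlib

set_option autoImplicit false

namespace Fermat.Agent.Lib.helper971

open Finset Polynomial

section Abstract

variable {R : Type*} [CommRing R] [IsDomain R] [IsPrincipalIdealRing R]

/-- Uniqueness of the exponent of a prime in a factorisation. -/
lemma exp_eq_of_pow_mul_eq {l u v : R} (hl : Prime l) {a b : ℕ} (hu : ¬ l ∣ u) (hv : ¬ l ∣ v)
    (h : l ^ a * u = l ^ b * v) : a = b := by
  wlog hab : a ≤ b
  · exact (this hl hv hu h.symm (le_of_not_ge hab)).symm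
  by_contra hne
  have hlt : a < b := lt_of_le_of_ne hab hne
  obtain ⟨c, rfl⟩ := Nat.exists_eq_add_of_lt hlt
  have h2 : l ^ a * u = l ^ a * (l ^ (c + 1) * v) := by rw [h]; ring
  have h3 : u = l ^ (c + 1) * v := mul_left_cancel₀ (pow_ne_zero _ hl.ne_zero) h2
  exact hu (h3 ▸ Dvd.intro (l ^ c * v) (by ring))

/-- In a Bézout domain, if pairwise coprime elements have a product associated to a `k`-th power,
then each of them is associated to a `k`-th power. -/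
lemma finset_exists_associated_pow {ι : Type*} [DecidableEq ι] {s : Finset ι} {f : ι → R} {c : R}
    {k : ℕ} (hcop : ∀ i ∈ s, ∀ j ∈ s, i ≠ j → IsCoprime (f i) (f j))
    (hprod : Associated (c ^ k) (∏ i ∈ s, f i)) :
    ∀ i ∈ s, ∃ d : R, Associated (d ^ k) (f i) := by
  intro i hi
  rw [← insert_erase hi, prod_insert (notMem_erase i s)] at hprod
  refine exists_associated_pow_of_associated_pow_mul
    (IsCoprime.prod_right fun j hj => hcop i hi j (erase_subset i s hj) fun hij => ?_) hprod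
  rw [hij] at hj
  exact (s.notMem_erase _) hj

omit [IsDomain R] [IsPrincipalIdealRing R] in
/-- A rational integer divisible by `ζ - 1` is divisible by `p`. -/
lemma int_dvd_of_lam_dvd {p : ℕ} {ζ : R} (hp : p.Prime) (hl : Prime (ζ - 1))
    (hlp : ζ - 1 ∣ (p : R)) {n : ℤ} (h : ζ - 1 ∣ (n : R)) : (p : ℤ) ∣ n := by
  by_contra hpn
  have hcop : IsCoprime n (p : ℤ) := by
    rw [Int.isCoprime_iff_gcd_eq_one]
    have := (Nat.Prime.coprime_iff_not_dvd hp).2 (fun h' => hpn (Int.natCast_dvd.2 h'))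
    rw [Int.gcd_comm]
    simpa [Int.gcd, Nat.Coprime] using this
  obtain ⟨u, v, huv⟩ := hcop
  have h1 : ζ - 1 ∣ (((u * n + v * (p : ℤ) : ℤ)) : R) := by
    push_cast
    exact dvd_add (Dvd.dvd.mul_left h _) (Dvd.dvd.mul_left hlp _)
  rw [huv, Int.cast_one] at h1
  exact hl.not_isUnit (isUnit_of_dvd_one h1)

/-- The predicate: there is a solution of the generalised Fermat equation
`ω ^ p + θ ^ p = η (ζ - 1) ^ (m p) ξ ^ p` with `ω, θ` coprime and `θ, ξ` prime to `ζ - 1`. -/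
def Sol (p : ℕ) (ζ : R) (m : ℕ) : Prop :=
  ∃ (ω θ ξ : R) (η : Rˣ), IsCoprime ω θ ∧ ¬ (ζ - 1) ∣ θ ∧ ¬ (ζ - 1) ∣ ξ ∧
    ω ^ p + θ ^ p = η * (ζ - 1) ^ (m * p) * ξ ^ p

end Abstract

section Descent

variable {R : Type*} [CommRing R] [IsDomain R] [IsPrincipalIdealRing R] {p : ℕ} {ζ : R}

/-- Core step: from a normalised solution (`(ζ-1)^2 ∣ ω + θ`) with exponent `m ≥ 1`, we get
`m ≥ 2` and a solution with exponent `m - 1`. -/
theorem sol_descent_aux (hp : p.Prime) (hp2 : p ≠ 2) (hζ : IsPrimitiveRoot ζ p)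
    (hl : Prime (ζ - 1)) (hpl : (p : R) ∣ (ζ - 1) ^ (p - 1))
    (hfrob : ∀ x : R, ∃ n : ℤ, (p : R) ∣ x ^ p - n)
    (hK : ∀ u : Rˣ, ∀ n : ℤ, (p : R) ∣ (u : R) - n → ∃ v : Rˣ, u = v ^ p)
    {m : ℕ} (hm : 1 ≤ m) {ω θ ξ : R} {η : Rˣ} (hcop : IsCoprime ω θ) (hθ : ¬ (ζ - 1) ∣ θ)
    (hξ : ¬ (ζ - 1) ∣ ξ) (heq : ω ^ p + θ ^ p = η * (ζ - 1) ^ (m * p) * ξ ^ p)
    (h2 : (ζ - 1) ^ 2 ∣ ω + θ) : 2 ≤ m ∧ Sol p ζ (m - 1) := by
  classical
  have hodd : Odd p := hp.odd_of_ne_two hp2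
  have hp3 : 3 ≤ p := by have := hp.two_le; omega
  have hlp : ζ - 1 ∣ (p : R) := hζ.sub_one_dvd_natCast hp.one_lt
  set l := ζ - 1 with hl_def
  set S := nthRootsFinset p (1 : R) with hS
  have h1S : (1 : R) ∈ S := by rw [hS, mem_nthRootsFinset hp.pos]; exact one_pow p
  have hζS : ζ ∈ S := hζ.mem_nthRootsFinset hp.pos
  have hprod : ∏ μ ∈ S, (ω + μ * θ) = η * l ^ (m * p) * ξ ^ p := by
    rw [← heq]; exact (hζ.pow_add_pow_eq_prod_add_mul ω θ hodd).symm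
  have hξ0 : ξ ≠ 0 := fun h => hξ (h ▸ dvd_zero _)
  have hprod0 : ∏ μ ∈ S, (ω + μ * θ) ≠ 0 := by
    rw [hprod]
    exact mul_ne_zero (mul_ne_zero η.ne_zero (pow_ne_zero _ hl.ne_zero)) (pow_ne_zero _ hξ0)
  have hsum0 : ω + θ ≠ 0 := by
    intro h
    apply hprod0
    apply Finset.prod_eq_zero h1S
    rw [one_mul, h]
  -- all factors are divisible by `l`
  have hall : ∀ μ ∈ S, l ∣ ω + μ * θ := by
    intro μ hμ
    have e : ω + μ * θ = (ω + θ) + (μ - 1) * θ := by ring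
    rw [e]
    exact dvd_add ((dvd_pow_self l two_ne_zero).trans h2)
      (Dvd.dvd.mul_right (hζ.sub_one_dvd_sub hp hμ h1S) _)
  -- for `μ ≠ 1` the factor is not divisible by `l ^ 2`
  have hnot : ∀ μ ∈ S, μ ≠ 1 → ¬ l ^ 2 ∣ ω + μ * θ := by
    intro μ hμ hμ1 hdiv
    have e : (μ - 1) * θ = (ω + μ * θ) - (ω + θ) := by ring
    have h3 : l ^ 2 ∣ (μ - 1) * θ := e ▸ dvd_sub hdiv h2
    obtain ⟨u, hu⟩ := hζ.nthRootsFinset_pairwise_associated_sub_one_sub_of_prime hp hμ h1S hμ1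
    rw [← hu, pow_two, mul_assoc] at h3
    have h4 : l ∣ u * θ := (mul_dvd_mul_iff_left hl.ne_zero).1 h3
    exact hθ ((Units.dvd_mul_left).1 h4)
  -- the exact power of `l` in `ω + θ`
  obtain ⟨j, y₁, hy₁, hj⟩ := WfDvdMonoid.max_power_factor hsum0 hl.irreducible
  have hj2 : 2 ≤ j := by
    by_contra hlt
    have : j = 0 ∨ j = 1 := by omega
    rcases this with rfl | rfl
    · rw [pow_zero, one_mul] at hj
      exact hy₁ ((dvd_pow_self l two_ne_zero).trans (hj ▸ h2))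
    · rw [hj, pow_one, pow_two] at h2
      exact hy₁ ((mul_dvd_mul_iff_left hl.ne_zero).1 h2)
  have key : ∀ μ ∈ S, ∃ z, ¬ l ∣ z ∧ ω + μ * θ = l ^ (if μ = 1 then j else 1) * z := by
    intro μ hμ
    by_cases hμ1 : μ = 1
    · refine ⟨y₁, hy₁, ?_⟩
      rw [if_pos hμ1, hμ1, one_mul, hj]
    · obtain ⟨y, hy⟩ := hall μ hμ
      refine ⟨y, fun hly => hnot μ hμ hμ1 ?_, ?_⟩
      · rw [hy, pow_two]; exact mul_dvd_mul_left l hly
      · rw [if_neg hμ1, pow_one, hy]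
  choose! z hz1 hz2 using key
  have hcard : S.card = p := hζ.card_nthRootsFinset
  have hexp : ∑ μ ∈ S, (if μ = 1 then j else 1) = j + (p - 1) := by
    rw [← insert_erase h1S, sum_insert (notMem_erase _ _), if_pos rfl]
    congr 1
    rw [sum_congr rfl (fun μ hμ => if_neg (ne_of_mem_erase hμ)), sum_const,
      card_erase_of_mem h1S, hcard]
    simp
  have hprod2 : ∏ μ ∈ S, (ω + μ * θ) = l ^ (j + (p - 1)) * ∏ μ ∈ S, z μ := by
    rw [prod_congr rfl hz2, prod_mul_distrib, prod_pow_eq_pow_sum, hexp]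
  have hzprod : ¬ l ∣ ∏ μ ∈ S, z μ := by
    intro h
    obtain ⟨μ, hμ, hd⟩ := (Prime.dvd_finsetProd_iff hl _).1 h
    exact hz1 μ hμ hd
  have hrhs : ¬ l ∣ (η : R) * ξ ^ p := by
    intro h
    rcases hl.dvd_or_dvd h with h | h
    · exact hl.not_isUnit (isUnit_of_dvd_unit h η.isUnit)
    · exact hξ (hl.dvd_of_dvd_pow h)
  have heq2 : l ^ (j + (p - 1)) * ∏ μ ∈ S, z μ = l ^ (m * p) * ((η : R) * ξ ^ p) := by
    rw [← hprod2, hprod]; ring
  have hexp2 : j + (p - 1) = m * p := exp_eq_of_pow_mul_eq hl hzprod hrhs heq2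
  have hzprod2 : ∏ μ ∈ S, z μ = (η : R) * ξ ^ p := by
    rw [hexp2] at heq2
    exact mul_left_cancel₀ (pow_ne_zero _ hl.ne_zero) heq2
  obtain ⟨m', rfl⟩ : ∃ m', m = m' + 1 := ⟨m - 1, by omega⟩
  have hexp3 : j = m' * p + 1 := by
    have : (m' + 1) * p = m' * p + p := by ring
    have := hp.two_le
    omega
  have hm' : 1 ≤ m' := by
    by_contra h
    have : m' = 0 := by omega
    rw [this] at hexp3
    omega
  refine ⟨by omega, ?_⟩
  rw [Nat.add_sub_cancel]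
  -- pairwise coprimality
  have hcopz : ∀ μ₁ ∈ S, ∀ μ₂ ∈ S, μ₁ ≠ μ₂ → IsCoprime (z μ₁) (z μ₂) := by
    intro μ₁ h₁ μ₂ h₂ hne
    apply isCoprime_of_prime_dvd
    · rintro ⟨h0, -⟩
      exact hz1 μ₁ h₁ (h0 ▸ dvd_zero _)
    · intro q hq hq1 hq2
      have d1 : q ∣ ω + μ₁ * θ := by rw [hz2 μ₁ h₁]; exact Dvd.dvd.mul_left hq1 _
      have d2 : q ∣ ω + μ₂ * θ := by rw [hz2 μ₂ h₂]; exact Dvd.dvd.mul_left hq2 _
      have d3 : q ∣ (μ₁ - μ₂) * θ := by
        have e : (μ₁ - μ₂) * θ = (ω + μ₁ * θ) - (ω + μ₂ * θ) := by ring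
        rw [e]; exact dvd_sub d1 d2
      have d4 : q ∣ (μ₁ - μ₂) * ω := by
        have e : (μ₁ - μ₂) * ω = μ₁ * (ω + μ₂ * θ) - μ₂ * (ω + μ₁ * θ) := by ring
        rw [e]; exact dvd_sub (Dvd.dvd.mul_left d2 _) (Dvd.dvd.mul_left d1 _)
      obtain ⟨u, hu⟩ := hζ.nthRootsFinset_pairwise_associated_sub_one_sub_of_prime hp h₁ h₂ hne
      by_cases hql : q ∣ l
      · have hass : Associated q l := hq.irreducible.associated_of_dvd hl.irreducible hql
        exact hz1 μ₁ h₁ (hass.symm.dvd.trans hq1)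
      · have hq' : ¬ q ∣ μ₁ - μ₂ := by
          rw [← hu]
          intro h
          rcases hq.dvd_or_dvd h with h | h
          · exact hql h
          · exact hq.not_isUnit (isUnit_of_dvd_unit h u.isUnit)
        have hθ' : q ∣ θ := (hq.dvd_or_dvd d3).resolve_left hq'
        have hω' : q ∣ ω := (hq.dvd_or_dvd d4).resolve_left hq'
        exact hq.not_isUnit (hcop.isUnit_of_dvd' hω' hθ')
  have hass : Associated (ξ ^ p) (∏ μ ∈ S, z μ) := ⟨η, by rw [hzprod2]; ring⟩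
  have hpow := finset_exists_associated_pow hcopz hass
  -- the three roots `1`, `ζ`, `ζ⁻¹`
  set ζ' := ζ ^ (p - 1) with hζ'
  have hζζ' : ζ * ζ' = 1 := by
    rw [hζ', ← pow_succ', Nat.sub_add_cancel hp.one_le, hζ.pow_eq_one]
  have hζ'S : ζ' ∈ S := by
    rw [hS, mem_nthRootsFinset hp.pos, hζ', ← pow_mul, mul_comm, pow_mul, hζ.pow_eq_one, one_pow]
  have hζ1 : ζ ≠ 1 := hζ.ne_one hp.one_lt
  have hζ'1 : ζ' ≠ 1 := hζ.pow_ne_one_of_pos_of_lt (by omega) (by omega)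
  have hζζ'ne : ζ ≠ ζ' := by
    intro h
    have h' : ζ ^ 2 = 1 := by rw [pow_two]; nth_rewrite 2 [h]; exact hζζ'
    exact hζ.pow_ne_one_of_pos_of_lt (by norm_num) (by omega) h'
  obtain ⟨ρp, εp, hρp⟩ := hpow ζ hζS
  obtain ⟨ρm, εm, hρm⟩ := hpow ζ' hζ'S
  obtain ⟨ρ1, ε1, hρ1⟩ := hpow 1 h1S
  have e1 : ω + ζ * θ = l * (ρp ^ p * εp) := by rw [hρp, hz2 ζ hζS, if_neg hζ1, pow_one]
  have e2 : ω + ζ' * θ = l * (ρm ^ p * εm) := by rw [hρm, hz2 ζ' hζ'S, if_neg hζ'1, pow_one]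
  have e3 : ω + θ = l ^ (m' * p + 1) * (ρ1 ^ p * ε1) := by
    rw [hρ1, ← hexp3]
    have := hz2 1 h1S
    rwa [if_pos rfl, one_mul] at this
  -- the linear relation
  have hrel : (ω + ζ * θ) + ζ * (ω + ζ' * θ) = (1 + ζ) * (ω + θ) := by
    have : ζ * (ω + ζ' * θ) = ζ * ω + (ζ * ζ') * θ := by ring
    rw [this, hζζ']; ring
  rw [e1, e2, e3] at hrel
  have hrel2 : ρp ^ p * εp + ζ * (ρm ^ p * εm) = (1 + ζ) * (l ^ (m' * p) * (ρ1 ^ p * ε1)) := by
    apply mul_left_cancel₀ hl.ne_zero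
    rw [pow_succ] at hrel
    linear_combination hrel
  -- units
  obtain ⟨ζu, hζu⟩ : ∃ ζu : Rˣ, (ζu : R) = ζ := ⟨(hζ.isUnit hp.ne_zero).unit, rfl⟩
  obtain ⟨su, hsu⟩ : ∃ su : Rˣ, (su : R) = 1 + ζ := by
    have h2p : Nat.Coprime 2 p := by
      rw [Nat.coprime_comm]
      exact (Nat.Prime.coprime_iff_not_dvd hp).2 (fun h => hp2 ((Nat.prime_dvd_prime_iff_eq hp Nat.prime_two).1 h))
    have := hζ.geom_sum_isUnit hp.two_le h2p
    refine ⟨this.unit, ?_⟩
    simp [Finset.sum_range_succ]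
  set u : Rˣ := ζu * εm * εp⁻¹ with hu
  set η' : Rˣ := su * ε1 * εp⁻¹ with hη'
  have hrel3 : ρp ^ p + u * ρm ^ p = η' * l ^ (m' * p) * ρ1 ^ p := by
    have hinv : (εp : R) * ((εp⁻¹ : Rˣ) : R) = 1 := by
      rw [← Units.val_mul, mul_inv_cancel, Units.val_one]
    rw [hu, hη']
    push_cast
    rw [hζu, hsu]
    linear_combination ((εp⁻¹ : Rˣ) : R) * hrel2 - (ρp ^ p) * hinv
  -- the unit `u` is congruent to an integer modulo `p`
  obtain ⟨np, hnp⟩ := hfrob ρp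
  obtain ⟨nm, hnm⟩ := hfrob ρm
  have hpdvd : (p : R) ∣ η' * l ^ (m' * p) * ρ1 ^ p := by
    have : l ^ (p - 1) ∣ l ^ (m' * p) := pow_dvd_pow l (by nlinarith [hp.two_le])
    exact Dvd.dvd.mul_right (Dvd.dvd.mul_left (hpl.trans this) _) _
  have hcong : (p : R) ∣ (np : R) + u * nm := by
    have e : (np : R) + u * nm = (ρp ^ p + u * ρm ^ p) - (ρp ^ p - np) - u * (ρm ^ p - nm) := by
      ring
    rw [e, hrel3]
    exact dvd_sub (dvd_sub hpdvd hnp) (Dvd.dvd.mul_left hnm _)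
  have hlρm : ¬ l ∣ ρm := by
    intro h
    apply hz1 ζ' hζ'S
    rw [← hρm]
    exact Dvd.dvd.mul_right (dvd_pow h hp.ne_zero) _
  have hpnm : ¬ (p : ℤ) ∣ nm := by
    intro h
    apply hlρm
    apply hl.dvd_of_dvd_pow (n := p)
    have h3 : l ∣ (nm : R) := by
      obtain ⟨c, hc⟩ := h
      rw [hc]; push_cast
      exact Dvd.dvd.mul_right hlp _
    have e : ρm ^ p = (ρm ^ p - nm) + nm := by ring
    rw [e]
    exact dvd_add (hlp.trans hnm) h3
  obtain ⟨k, hk⟩ : ∃ k : ℤ, (p : ℤ) ∣ nm * k - 1 := by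
    have hc : IsCoprime nm (p : ℤ) := by
      rw [Int.isCoprime_iff_gcd_eq_one]
      have := (Nat.Prime.coprime_iff_not_dvd hp).2 (fun h' => hpnm (Int.natCast_dvd.2 h'))
      rw [Int.gcd_comm]
      simpa [Int.gcd, Nat.Coprime] using this
    obtain ⟨a, b, hab⟩ := hc
    exact ⟨a, ⟨-b, by linear_combination hab⟩⟩
  obtain ⟨v, hv⟩ := hK u (-np * k) (by
    have hk' : (p : R) ∣ (nm : R) * k - 1 := by
      obtain ⟨c, hc⟩ := hk
      have : (nm : R) * k - 1 = ((nm * k - 1 : ℤ) : R) := by push_cast; ring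
      rw [this, hc]; push_cast
      exact Dvd.intro _ rfl
    have e : (u : R) - ((-np * k : ℤ) : R) = k * ((np : R) + u * nm) - u * ((nm : R) * k - 1) := by
      push_cast; ring
    rw [e]
    exact dvd_sub (Dvd.dvd.mul_left hcong _) (Dvd.dvd.mul_left hk' _))
  -- the new solution
  refine ⟨ρp, v * ρm, ρ1, η', ?_, ?_, ?_, ?_⟩
  · have h1 : IsCoprime (z ζ) (z ζ') := hcopz ζ hζS ζ' hζ'S hζζ'ne
    rw [← hρp, ← hρm] at h1
    have h2 : IsCoprime (ρp ^ p) (ρm ^ p) := (h1.of_mul_left_left).of_mul_right_left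
    have h3 : IsCoprime ρp ρm := (IsCoprime.pow_iff hp.pos hp.pos).1 h2
    exact (isCoprime_mul_unit_left_right v.isUnit _ _).2 h3
  · intro h
    exact hlρm ((Units.dvd_mul_left).1 h)
  · intro h
    apply hz1 1 h1S
    rw [← hρ1]
    exact Dvd.dvd.mul_right (dvd_pow h hp.ne_zero) _
  · rw [mul_pow, ← Units.val_pow_eq_pow_val, ← hv]
    exact hrel3


/-- Descent step without the normalisation hypothesis. -/
theorem sol_descent (hp : p.Prime) (hp2 : p ≠ 2) (hζ : IsPrimitiveRoot ζ p)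
    (hl : Prime (ζ - 1)) (hpl : (p : R) ∣ (ζ - 1) ^ (p - 1))
    (hres : ∀ x : R, ∃ n : ℤ, ζ - 1 ∣ x - n)
    (hfrob : ∀ x : R, ∃ n : ℤ, (p : R) ∣ x ^ p - n)
    (hK : ∀ u : Rˣ, ∀ n : ℤ, (p : R) ∣ (u : R) - n → ∃ v : Rˣ, u = v ^ p)
    {m : ℕ} (hm : 1 ≤ m) (hsol : Sol p ζ m) : 2 ≤ m ∧ Sol p ζ (m - 1) := by
  classical
  obtain ⟨ω, θ, ξ, η, hcop, hθ, hξ, heq⟩ := hsol
  have hodd : Odd p := hp.odd_of_ne_two hp2
  have hlp : ζ - 1 ∣ (p : R) := hζ.sub_one_dvd_natCast hp.one_lt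
  have h1S : (1 : R) ∈ nthRootsFinset p (1 : R) := by
    rw [mem_nthRootsFinset hp.pos]; exact one_pow p
  have hprod : ∏ μ ∈ nthRootsFinset p (1 : R), (ω + μ * θ) = η * (ζ - 1) ^ (m * p) * ξ ^ p := by
    rw [← heq]; exact (hζ.pow_add_pow_eq_prod_add_mul ω θ hodd).symm
  -- `ζ - 1` divides `ω + θ`
  have hdvd1 : ζ - 1 ∣ ω + θ := by
    have h1 : ζ - 1 ∣ ∏ μ ∈ nthRootsFinset p (1 : R), (ω + μ * θ) := by
      rw [hprod]
      exact Dvd.dvd.mul_right (Dvd.dvd.mul_left (dvd_pow_self _ (by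
        have := hp.pos
        positivity)) _) _
    obtain ⟨μ₀, hμ₀, hdiv⟩ := (Prime.dvd_finsetProd_iff hl _).1 h1
    have e : ω + θ = (ω + μ₀ * θ) + (1 - μ₀) * θ := by ring
    rw [e]
    exact dvd_add hdiv (Dvd.dvd.mul_right (hζ.sub_one_dvd_sub hp h1S hμ₀) _)
  obtain ⟨x, hx⟩ := hdvd1
  obtain ⟨n, hn⟩ := hres x
  obtain ⟨t, ht⟩ := hres θ
  have hpt : ¬ (p : ℤ) ∣ t := by
    intro h
    apply hθ
    have h3 : ζ - 1 ∣ (t : R) := by
      obtain ⟨c, hc⟩ := h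
      rw [hc]; push_cast
      exact Dvd.dvd.mul_right hlp _
    have e : θ = (θ - t) + t := by ring
    rw [e]
    exact dvd_add ht h3
  -- choose `a` with `p ∣ n + a t`
  obtain ⟨a, ha⟩ : ∃ a : ℕ, (p : ℤ) ∣ n + a * t := by
    have hc : IsCoprime t (p : ℤ) := by
      rw [Int.isCoprime_iff_gcd_eq_one]
      have := (Nat.Prime.coprime_iff_not_dvd hp).2 (fun h' => hpt (Int.natCast_dvd.2 h'))
      rw [Int.gcd_comm]
      simpa [Int.gcd, Nat.Coprime] using this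
    obtain ⟨u, v, huv⟩ := hc
    have hp0 : (p : ℤ) ≠ 0 := by exact_mod_cast hp.ne_zero
    refine ⟨((-n * u) % (p : ℤ)).toNat, ?_⟩
    rw [Int.toNat_of_nonneg (Int.emod_nonneg _ hp0)]
    have h1 : (p : ℤ) ∣ (-n * u) % (p : ℤ) - (-n * u) := by
      rw [Int.emod_def]
      exact ⟨-((-n * u) / (p : ℤ)), by ring⟩
    obtain ⟨c, hc⟩ := h1
    refine ⟨c * t + n * v, ?_⟩
    linear_combination t * hc - n * huv
  -- the root `ζ ^ a`
  have hζa : ζ ^ a ∈ nthRootsFinset p (1 : R) := by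
    rw [mem_nthRootsFinset hp.pos, ← pow_mul, mul_comm, pow_mul, hζ.pow_eq_one, one_pow]
  have hζa_unit : IsUnit (ζ ^ a) := (hζ.isUnit hp.ne_zero).pow a
  have hζap : (ζ ^ a) ^ p = 1 := by
    rw [← pow_mul, mul_comm, pow_mul, hζ.pow_eq_one, one_pow]
  have hg : ζ ^ a - 1 = (ζ - 1) * ∑ i ∈ range a, ζ ^ i := (mul_geom_sum ζ a).symm
  have hga : ζ - 1 ∣ (∑ i ∈ range a, ζ ^ i) - (a : R) := by
    have e : (∑ i ∈ range a, ζ ^ i) - (a : R) = ∑ i ∈ range a, (ζ ^ i - 1) := by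
      rw [sum_sub_distrib]; simp
    rw [e]
    refine dvd_sum fun i _ => ?_
    simpa using sub_dvd_pow_sub_pow ζ 1 i
  have h2 : (ζ - 1) ^ 2 ∣ ω + ζ ^ a * θ := by
    have e : ω + ζ ^ a * θ = (ζ - 1) * (x + (∑ i ∈ range a, ζ ^ i) * θ) := by
      have e' : ω + ζ ^ a * θ = (ω + θ) + (ζ ^ a - 1) * θ := by ring
      rw [e', hx, hg]; ring
    rw [e, pow_two]
    apply mul_dvd_mul_left
    have e2 : x + (∑ i ∈ range a, ζ ^ i) * θ = (x - n) + ((∑ i ∈ range a, ζ ^ i) - (a : R)) * θ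
        + a * (θ - t) + ((n + a * t : ℤ) : R) := by
      push_cast; ring
    rw [e2]
    refine dvd_add (dvd_add (dvd_add hn (Dvd.dvd.mul_right hga _)) (Dvd.dvd.mul_left ht _)) ?_
    obtain ⟨c, hc⟩ := ha
    rw [hc]; push_cast
    exact Dvd.dvd.mul_right hlp _
  refine sol_descent_aux hp hp2 hζ hl hpl hfrob hK hm (ω := ω) (θ := ζ ^ a * θ) (ξ := ξ) (η := η)
    ?_ ?_ hξ ?_ h2
  · exact (isCoprime_mul_unit_left_right hζa_unit _ _).2 hcop
  · intro h
    exact hθ ((IsUnit.dvd_mul_left hζa_unit).1 h)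
  · rw [mul_pow, hζap, one_mul]
    exact heq

/-- There is no solution of the generalised equation with `m ≥ 1`. -/
theorem not_sol (hp : p.Prime) (hp2 : p ≠ 2) (hζ : IsPrimitiveRoot ζ p)
    (hl : Prime (ζ - 1)) (hpl : (p : R) ∣ (ζ - 1) ^ (p - 1))
    (hres : ∀ x : R, ∃ n : ℤ, ζ - 1 ∣ x - n)
    (hfrob : ∀ x : R, ∃ n : ℤ, (p : R) ∣ x ^ p - n)
    (hK : ∀ u : Rˣ, ∀ n : ℤ, (p : R) ∣ (u : R) - n → ∃ v : Rˣ, u = v ^ p) :
    ∀ m : ℕ, 1 ≤ m → ¬ Sol p ζ m := by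
  intro m
  induction m with
  | zero => intro h; omega
  | succ k ih =>
    intro _ hs
    obtain ⟨h2, hs'⟩ := sol_descent hp hp2 hζ hl hpl hres hfrob hK (by omega) hs
    rw [Nat.add_sub_cancel] at hs'
    exact ih (by omega) hs'

end Descent

section IntReduction

variable {R : Type*} [CommRing R] [IsDomain R] [IsPrincipalIdealRing R] {p : ℕ} {ζ : R}

/-- Rearrangement of a Case II solution over `ℤ` so that `p` divides the right-hand side. -/
lemma exists_rearrangement (hp : p.Prime) (hp2 : p ≠ 2) {a b c : ℤ} (hab : IsCoprime a b)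
    (habc : a * b * c ≠ 0) (hdvd : (p : ℤ) ∣ a * b * c) (heq : a ^ p + b ^ p = c ^ p) :
    ∃ x y z : ℤ, IsCoprime x y ∧ z ≠ 0 ∧ (p : ℤ) ∣ z ∧ ¬ (p : ℤ) ∣ y ∧ x ^ p + y ^ p = z ^ p := by
  have hpZ : Prime (p : ℤ) := Nat.prime_iff_prime_int.mp hp
  have hodd : Odd p := hp.odd_of_ne_two hp2
  have ha0 : a ≠ 0 := fun h => habc (by rw [h]; ring)
  have hb0 : b ≠ 0 := fun h => habc (by rw [h]; ring)
  have hc0 : c ≠ 0 := fun h => habc (by rw [h]; ring)
  have hbc : IsCoprime b c := by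
    have h1 : IsCoprime b (a ^ p) := hab.symm.pow_right
    have h2 : IsCoprime b (c ^ p) := by
      rw [← heq]
      have e : a ^ p + b ^ p = a ^ p + b * b ^ (p - 1) := by
        rw [← pow_succ', Nat.sub_add_cancel hp.one_le]
      rw [e]
      exact h1.add_mul_left_right _
    exact (IsCoprime.pow_right_iff hp.pos).1 h2
  have hac : IsCoprime a c := by
    have h1 : IsCoprime a (b ^ p) := hab.pow_right
    have h2 : IsCoprime a (c ^ p) := by
      rw [← heq]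
      have e : a ^ p + b ^ p = b ^ p + a * a ^ (p - 1) := by
        rw [← pow_succ', Nat.sub_add_cancel hp.one_le]; ring
      rw [e]
      exact h1.add_mul_left_right _
    exact (IsCoprime.pow_right_iff hp.pos).1 h2
  rcases hpZ.dvd_or_dvd hdvd with h | h
  · rcases hpZ.dvd_or_dvd h with h | h
    · refine ⟨c, -b, a, hbc.symm.neg_right, ha0, h, ?_, ?_⟩
      · rw [dvd_neg]
        intro hb
        exact hpZ.not_isUnit (hab.isUnit_of_dvd' h hb)
      · rw [hodd.neg_pow]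
        linear_combination -heq
    · refine ⟨c, -a, b, hac.symm.neg_right, hb0, h, ?_, ?_⟩
      · rw [dvd_neg]
        intro ha
        exact hpZ.not_isUnit (hab.isUnit_of_dvd' ha h)
      · rw [hodd.neg_pow]
        linear_combination -heq
  · refine ⟨a, b, c, hab, hc0, h, ?_, heq⟩
    intro hb
    exact hpZ.not_isUnit (hbc.isUnit_of_dvd' hb h)

/-- **Case II of Fermat's Last Theorem**, abstract version: in a principal ideal domain `R` with
a primitive `p`-th root of unity `ζ` satisfying the standard properties of `ℤ[ζ_p]` and Kummer's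
lemma, there is no solution of `a ^ p + b ^ p = c ^ p` with `a, b` coprime, `abc ≠ 0`, `p ∣ abc`. -/
theorem caseII_abstract (hp : p.Prime) (hp2 : p ≠ 2) (hζ : IsPrimitiveRoot ζ p)
    (hl : Prime (ζ - 1)) (hpl : Associated (p : R) ((ζ - 1) ^ (p - 1)))
    (hres : ∀ x : R, ∃ n : ℤ, ζ - 1 ∣ x - n)
    (hfrob : ∀ x : R, ∃ n : ℤ, (p : R) ∣ x ^ p - n)
    (hK : ∀ u : Rˣ, ∀ n : ℤ, (p : R) ∣ (u : R) - n → ∃ v : Rˣ, u = v ^ p)
    {a b c : ℤ} (hab : IsCoprime a b) (habc : a * b * c ≠ 0) (hdvd : (p : ℤ) ∣ a * b * c) :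
    a ^ p + b ^ p ≠ c ^ p := by
  intro heq
  obtain ⟨x, y, z, hxy, hz0, hpz, hpy, hxyz⟩ := exists_rearrangement hp hp2 hab habc hdvd heq
  have hpZ : Prime (p : ℤ) := Nat.prime_iff_prime_int.mp hp
  have hlp : ζ - 1 ∣ (p : R) := hζ.sub_one_dvd_natCast hp.one_lt
  obtain ⟨k, z₀, hz₀, hzk⟩ := WfDvdMonoid.max_power_factor hz0 hpZ.irreducible
  have hk : 1 ≤ k := by
    by_contra h
    have h0 : k = 0 := by omega
    rw [h0, pow_zero, one_mul] at hzk
    exact hz₀ (hzk ▸ hpz)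
  obtain ⟨u₀, hu₀⟩ := hpl
  have hpR : (p : R) = (ζ - 1) ^ (p - 1) * ((u₀⁻¹ : Rˣ) : R) := by
    rw [← hu₀, mul_assoc, ← Units.val_mul, mul_inv_cancel, Units.val_one, mul_one]
  refine not_sol hp hp2 hζ hl ⟨u₀, hu₀.symm⟩ hres hfrob hK ((p - 1) * k) ?_
    ⟨(x : R), (y : R), (z₀ : R), (u₀⁻¹) ^ (k * p), ?_, ?_, ?_, ?_⟩
  · have := hp.two_le
    exact Nat.mul_pos (by omega) hk
  · exact hxy.intCast
  · intro h
    exact hpy (int_dvd_of_lam_dvd hp hl hlp h)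
  · intro h
    exact hz₀ (int_dvd_of_lam_dvd hp hl hlp h)
  · have h1 : ((x : R)) ^ p + (y : R) ^ p = (z : R) ^ p := by
      exact_mod_cast congrArg (Int.cast : ℤ → R) hxyz
    rw [h1, hzk]
    push_cast
    rw [hpR]
    ring

end IntReduction

section NumberField

open NumberField

variable {p : ℕ} [hpF : Fact p.Prime] {K : Type*} [Field K] [NumberField K]
  [IsCyclotomicExtension {p} ℚ K]

lemma adjoin_toInteger_eq_top {ζ : K} (hζ : IsPrimitiveRoot ζ p) :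
    Algebra.adjoin ℤ ({hζ.toInteger} : Set (𝓞 K)) = ⊤ := by
  have := hζ.integralPowerBasis.adjoin_gen_eq_top
  rwa [hζ.integralPowerBasis_gen] at this

/-- Every element of `ℤ[ζ]` is congruent to a rational integer modulo `ζ - 1`. -/
lemma exists_int_sub_dvd {ζ : K} (hζ : IsPrimitiveRoot ζ p) (x : 𝓞 K) :
    ∃ n : ℤ, hζ.toInteger - 1 ∣ x - n := by
  have hx : x ∈ Algebra.adjoin ℤ ({hζ.toInteger} : Set (𝓞 K)) := by
    rw [adjoin_toInteger_eq_top hζ]; trivial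
  induction hx using Algebra.adjoin_induction with
  | mem y hy =>
    rw [Set.mem_singleton_iff] at hy
    exact ⟨1, by rw [hy]; simp⟩
  | algebraMap r => exact ⟨r, by simp⟩
  | add y z _ _ hy hz =>
    obtain ⟨n, hn⟩ := hy
    obtain ⟨m, hm⟩ := hz
    refine ⟨n + m, ?_⟩
    have e : y + z - ((n + m : ℤ) : 𝓞 K) = (y - n) + (z - m) := by push_cast; ring
    rw [e]
    exact dvd_add hn hm
  | mul y z _ _ hy hz =>
    obtain ⟨n, hn⟩ := hy
    obtain ⟨m, hm⟩ := hz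
    refine ⟨n * m, ?_⟩
    have e : y * z - ((n * m : ℤ) : 𝓞 K) = (y - n) * z + n * (z - m) := by push_cast; ring
    rw [e]
    exact dvd_add (Dvd.dvd.mul_right hn _) (Dvd.dvd.mul_left hm _)

/-- Every `p`-th power in `ℤ[ζ]` is congruent to a rational integer modulo `p`. -/
lemma exists_int_pow_sub_dvd {ζ : K} (hζ : IsPrimitiveRoot ζ p) (x : 𝓞 K) :
    ∃ n : ℤ, (p : 𝓞 K) ∣ x ^ p - n := by
  have hp := hpF.out
  have hx : x ∈ Algebra.adjoin ℤ ({hζ.toInteger} : Set (𝓞 K)) := by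
    rw [adjoin_toInteger_eq_top hζ]; trivial
  induction hx using Algebra.adjoin_induction with
  | mem y hy =>
    rw [Set.mem_singleton_iff] at hy
    exact ⟨1, by rw [hy, hζ.toInteger_isPrimitiveRoot.pow_eq_one]; simp⟩
  | algebraMap r => exact ⟨r ^ p, by simp⟩
  | add y z _ _ hy hz =>
    obtain ⟨n, hn⟩ := hy
    obtain ⟨m, hm⟩ := hz
    obtain ⟨r, hr⟩ := exists_add_pow_prime_eq hp y z
    refine ⟨n + m, ?_⟩
    have e : (y + z) ^ p - ((n + m : ℤ) : 𝓞 K) = (y ^ p - n) + (z ^ p - m) + p * (y * z * r) := by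
      rw [hr]; push_cast; ring
    rw [e]
    exact dvd_add (dvd_add hn hm) (Dvd.intro _ rfl)
  | mul y z _ _ hy hz =>
    obtain ⟨n, hn⟩ := hy
    obtain ⟨m, hm⟩ := hz
    refine ⟨n * m, ?_⟩
    have e : (y * z) ^ p - ((n * m : ℤ) : 𝓞 K) = (y ^ p - n) * z ^ p + n * (z ^ p - m) := by
      push_cast; ring
    rw [e]
    exact dvd_add (Dvd.dvd.mul_right hn _) (Dvd.dvd.mul_left hm _)

/-- **Case II of Fermat's Last Theorem** for an odd prime `p` such that the ring of integers of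
the `p`-th cyclotomic field is a principal ideal domain satisfying Kummer's lemma. -/
theorem caseII (hp2 : p ≠ 2) [IsPrincipalIdealRing (𝓞 K)]
    (hK : ∀ u : (𝓞 K)ˣ, ∀ n : ℤ, (p : 𝓞 K) ∣ (u : 𝓞 K) - n → ∃ v : (𝓞 K)ˣ, u = v ^ p)
    {a b c : ℤ} (hab : IsCoprime a b) (habc : a * b * c ≠ 0) (hdvd : (p : ℤ) ∣ a * b * c) :
    a ^ p + b ^ p ≠ c ^ p := by
  have hζ := IsCyclotomicExtension.zeta_spec p ℚ K
  exact caseII_abstract hpF.out hp2 hζ.toInteger_isPrimitiveRoot hζ.zeta_sub_one_prime'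
    (IsCyclotomicExtension.Rat.associated_zeta_sub_one_pow_prime p hζ).symm
    (exists_int_sub_dvd hζ) (exists_int_pow_sub_dvd hζ) hK hab habc hdvd

end NumberField

end Fermat.Agent.Lib.helper971
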